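/-
Programme R (S48, Deligne–Serre), chapter B5 (helper25): the **Deligne–Serre lifting lemma**
(DS, Lemme 6.11) in the form used by half B.

`V` a finite-dimensional complex vector space (cusp forms of weight 2), `T i` commuting operators
(Hecke operators), `𝒪 ⊆ ℂ` a subring with a surjection `φ : 𝒪 → k` onto a field, `𝓝 ⊆ V` an
additive subgroup stable under `𝒪` and the `T i` ("forms `≡ 0` modulo `ker φ`"), `h ∉ 𝓝` with
`(ker φ) h ⊆ 𝓝` and `T i h ≡ a i • h` modulo `𝓝` ("`h` is an eigenvector modulo `ker φ`").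

Then there are a genuine common eigenvector `w ≠ 0` of the `T i` in `V`, a subring `R ⊇ 𝒪` of `ℂ`
containing its eigenvalues `b i`, and a ring homomorphism `φ' : R → k` extending `φ` with
`φ' (b i) = φ (a i)`.

No finiteness of a lattice is needed: the lattice of the classical statement only serves to make
sense of "modulo `ker φ`", which here is the subgroup `𝓝`.
-/
import Mathlib
import Fermat.Agent.S49.CommAlg

set_option autoImplicit false

namespace Fermat.Agent.ES.R48.LiftLem25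

open Module

/-! ### A common eigenvector whose eigencharacter has its kernel inside a given prime -/

section Prime

variable {A : Type*} [CommRing A] {V : Type*} [AddCommGroup V] [Module ℂ V]
  [FiniteDimensional ℂ V]

/-- Induction step: inside every nonzero stable subspace whose annihilator lies in the prime `𝔫`
there is a common eigenvector with eigencharacter kernel inside `𝔫`. -/
theorem exists_eigen_le_prime_aux (ρ : A →+* Module.End ℂ V) (𝔫 : Ideal A) [h𝔫 : 𝔫.IsPrime] :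
    ∀ (n : ℕ) (W : Submodule ℂ V), finrank ℂ W ≤ n → W ≠ ⊥ →
      (∀ t : A, ∀ x ∈ W, ρ t x ∈ W) → (∀ s : A, (∀ x ∈ W, ρ s x = 0) → s ∈ 𝔫) →
      ∃ w ∈ W, w ≠ 0 ∧ ∃ χ : A →+* ℂ, (∀ t : A, ρ t w = χ t • w) ∧ RingHom.ker χ ≤ 𝔫 := by
  intro n
  induction n with
  | zero =>
    intro W hn hW _ _
    exfalso
    apply hW
    have h0 : finrank ℂ W = 0 := Nat.le_zero.mp hn
    exact Submodule.finrank_eq_zero.mp h0
  | succ n ih =>
    intro W hn hW hstab hann
    obtain ⟨w₁, hw₁W, hw₁0, hw₁⟩ := Fermat.Agent.S49.exists_common_eigenvector ρ W hW hstab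
    obtain ⟨χ₁, hχ₁⟩ := Fermat.Agent.S49.exists_eigencharacter ρ w₁ hw₁0 hw₁
    by_cases hle : RingHom.ker χ₁ ≤ 𝔫
    · exact ⟨w₁, hw₁W, hw₁0, χ₁, hχ₁, hle⟩
    · obtain ⟨t, htker, htn⟩ := Set.not_subset.mp hle
      have htw₁ : ρ t w₁ = 0 := by
        rw [hχ₁ t, (RingHom.mem_ker).mp htker, zero_smul]
      -- the image of `W` under `t`
      set W₁ : Submodule ℂ V := W.map (ρ t) with hW₁
      have hW₁le : W₁ ≤ W := by
        rintro x ⟨y, hy, rfl⟩
        exact hstab t y hy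
      have hcomm : ∀ s : A, ∀ y : V, ρ s (ρ t y) = ρ t (ρ s y) := by
        intro s y
        have h1 : (ρ s * ρ t) y = (ρ t * ρ s) y := by
          rw [← map_mul, ← map_mul, mul_comm]
        simpa using h1
      have hW₁stab : ∀ s : A, ∀ x ∈ W₁, ρ s x ∈ W₁ := by
        rintro s x ⟨y, hy, rfl⟩
        exact ⟨ρ s y, hstab s y hy, (hcomm s y).symm⟩
      have hW₁ne : W₁ ≠ ⊥ := by
        intro hbot
        apply htn
        apply hann t
        intro x hx
        have : ρ t x ∈ W₁ := ⟨x, hx, rfl⟩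
        rw [hbot] at this
        exact (Submodule.mem_bot ℂ).mp this
      have hW₁ann : ∀ s : A, (∀ x ∈ W₁, ρ s x = 0) → s ∈ 𝔫 := by
        intro s hs
        have hst : s * t ∈ 𝔫 := by
          apply hann (s * t)
          intro x hx
          rw [map_mul, Module.End.mul_apply]
          exact hs _ ⟨x, hx, rfl⟩
        rcases h𝔫.mem_or_mem hst with h | h
        · exact h
        · exact absurd h htn
      -- the dimension drops
      have hdim : finrank ℂ W₁ ≤ n := by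
        set g : W →ₗ[ℂ] V := (ρ t).domRestrict W with hg
        have hrange : LinearMap.range g = W₁ := by
          rw [hg, LinearMap.range_domRestrict]
        have hrk := LinearMap.finrank_range_add_finrank_ker g
        have hker : 0 < finrank ℂ (LinearMap.ker g) := by
          rw [Module.finrank_pos_iff_exists_ne_zero]
          refine ⟨⟨⟨w₁, hw₁W⟩, ?_⟩, ?_⟩
          · rw [LinearMap.mem_ker, hg, LinearMap.domRestrict_apply]
            exact htw₁
          · intro h0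
            apply hw₁0
            have := congrArg (fun z : LinearMap.ker g => ((z : W) : V)) h0
            simpa using this
        rw [hrange] at hrk
        omega
      obtain ⟨w, hwW₁, hw0, χ, hχ, hχle⟩ := ih W₁ hdim hW₁ne hW₁stab hW₁ann
      exact ⟨w, hW₁le hwW₁, hw0, χ, hχ, hχle⟩

/-- **Eigenvector below a prime.**  If the kernel of the action lies in the prime `𝔫`, there is a
common eigenvector whose eigencharacter has kernel inside `𝔫`. -/
theorem exists_eigen_le_prime [Nontrivial V] (ρ : A →+* Module.End ℂ V) (𝔫 : Ideal A)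
    [𝔫.IsPrime] (hker : RingHom.ker ρ ≤ 𝔫) :
    ∃ w : V, w ≠ 0 ∧ ∃ χ : A →+* ℂ, (∀ t : A, ρ t w = χ t • w) ∧ RingHom.ker χ ≤ 𝔫 := by
  obtain ⟨w, -, hw0, χ, hχ, hle⟩ :=
    exists_eigen_le_prime_aux ρ 𝔫 (finrank ℂ (⊤ : Submodule ℂ V)) ⊤ le_rfl top_ne_bot
      (fun _ _ _ => Submodule.mem_top)
      (fun s hs => hker ((RingHom.mem_ker).mpr (LinearMap.ext fun x => by
        rw [hs x Submodule.mem_top]; rfl)))
  exact ⟨w, hw0, χ, hχ, hle⟩

end Prime

/-! ### The lifting lemma -/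

section Lift

variable {V : Type*} [AddCommGroup V] [Module ℂ V] [FiniteDimensional ℂ V]
  {ι : Type*} {k : Type*} [Field k]

/-- The congruence relation "`t h ≡ c • h` modulo `𝓝` with `φ c = κ`". -/
def Rel (𝒪 : Subring ℂ) (φ : 𝒪 →+* k) (𝓝 : AddSubgroup V) (h : V) (t : Module.End ℂ V) (κ : k) :
    Prop :=
  ∃ c : 𝒪, φ c = κ ∧ t h - (c : ℂ) • h ∈ 𝓝

variable {𝒪 : Subring ℂ} {φ : 𝒪 →+* k} {𝓝 : AddSubgroup V} {h : V}

omit [FiniteDimensional ℂ V] in
theorem rel_unique (hφ : Function.Surjective φ) (h𝒪 : ∀ c : 𝒪, ∀ x ∈ 𝓝, (c : ℂ) • x ∈ 𝓝)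
    (hh : h ∉ 𝓝) (hker : ∀ m : 𝒪, φ m = 0 → (m : ℂ) • h ∈ 𝓝) {t : Module.End ℂ V} {κ κ' : k}
    (h1 : Rel 𝒪 φ 𝓝 h t κ) (h2 : Rel 𝒪 φ 𝓝 h t κ') : κ = κ' := by
  obtain ⟨c, rfl, hc⟩ := h1
  obtain ⟨c', rfl, hc'⟩ := h2
  by_contra hne
  have hd : φ (c - c') ≠ 0 := by
    rw [map_sub]; exact sub_ne_zero.mpr hne
  -- `(c - c') • h ∈ 𝓝`
  have h3 : ((c - c' : 𝒪) : ℂ) • h ∈ 𝓝 := by
    have e : ((c - c' : 𝒪) : ℂ) • h = (t h - (c' : ℂ) • h) - (t h - (c : ℂ) • h) := by
      push_cast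
      rw [sub_smul]; abel
    rw [e]
    exact 𝓝.sub_mem hc' hc
  -- invert `c - c'` modulo `ker φ`
  obtain ⟨d, hd1⟩ := hφ (φ (c - c'))⁻¹
  have h4 : φ (d * (c - c') - 1) = 0 := by
    rw [map_sub, map_mul, hd1, map_one, inv_mul_cancel₀ hd, sub_self]
  apply hh
  have e : h = (d : ℂ) • (((c - c' : 𝒪) : ℂ) • h) - ((d * (c - c') - 1 : 𝒪) : ℂ) • h := by
    push_cast
    rw [smul_smul, ← sub_smul]
    ring_nf
    rw [one_smul]
  rw [e]
  exact 𝓝.sub_mem (h𝒪 d _ h3) (hker _ h4)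

/-- **The Deligne–Serre lifting lemma** (subring-of-`ℂ` form). -/
theorem exists_eigenvector_lift (T : ι → Module.End ℂ V) (hcomm : ∀ i j, T i * T j = T j * T i)
    (𝒪 : Subring ℂ) (φ : 𝒪 →+* k) (hφ : Function.Surjective φ) (𝓝 : AddSubgroup V)
    (h𝒪 : ∀ c : 𝒪, ∀ x ∈ 𝓝, (c : ℂ) • x ∈ 𝓝) (hT : ∀ i, ∀ x ∈ 𝓝, T i x ∈ 𝓝)
    (h : V) (hh : h ∉ 𝓝) (hker : ∀ m : 𝒪, φ m = 0 → (m : ℂ) • h ∈ 𝓝)
    (a : ι → 𝒪) (ha : ∀ i, T i h - (a i : ℂ) • h ∈ 𝓝) :
    ∃ (R : Subring ℂ) (φ' : R →+* k),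
      (∀ x : 𝒪, ∃ hx : (x : ℂ) ∈ R, φ' ⟨(x : ℂ), hx⟩ = φ x) ∧
      ∃ w : V, w ≠ 0 ∧ ∀ i, ∃ b : R, T i w = (b : ℂ) • w ∧ φ' b = φ (a i) := by
  classical
  have hVnt : Nontrivial V := by
    refine ⟨⟨h, 0, ?_⟩⟩
    intro h0
    exact hh (h0 ▸ 𝓝.zero_mem)
  -- the commutative ring generated by the `T i` and the scalars of `𝒪`
  set gen : Set (Module.End ℂ V) :=
    Set.range T ∪ Set.range (fun c : 𝒪 => algebraMap ℂ (Module.End ℂ V) (c : ℂ)) with hgen
  have hgencomm : ∀ x ∈ gen, ∀ y ∈ gen, x * y = y * x := by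
    rintro x (⟨i, rfl⟩ | ⟨c, rfl⟩) y (⟨j, rfl⟩ | ⟨c', rfl⟩)
    · exact hcomm i j
    · exact (Algebra.commutes _ _).symm
    · exact Algebra.commutes _ _
    · exact Algebra.commutes _ _
  let _ : CommRing (Subring.closure gen) :=
    { (Subring.closure gen).toRing with
      mul_comm := (Subring.isMulCommutative_closure hgencomm).is_comm.comm }
  -- every element of the closure preserves `𝓝` and acts on `h` by a scalar modulo `𝓝`
  have hgood : ∀ t ∈ Subring.closure gen,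
      (∀ x ∈ 𝓝, t x ∈ 𝓝) ∧ ∃ κ : k, Rel 𝒪 φ 𝓝 h t κ := by
    intro t ht
    induction ht using Subring.closure_induction with
    | mem x hx =>
      rcases hx with ⟨i, rfl⟩ | ⟨c, rfl⟩
      · exact ⟨hT i, φ (a i), a i, rfl, ha i⟩
      · refine ⟨fun x hx => ?_, φ c, c, rfl, ?_⟩
        · rw [Module.algebraMap_end_apply]; exact h𝒪 c x hx
        · rw [Module.algebraMap_end_apply, sub_self]; exact 𝓝.zero_mem
    | zero =>
      refine ⟨fun x _ => by rw [LinearMap.zero_apply]; exact 𝓝.zero_mem, 0, 0, map_zero φ, ?_⟩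
      rw [LinearMap.zero_apply, ZeroMemClass.coe_zero, zero_smul, sub_zero]
      exact 𝓝.zero_mem
    | one =>
      refine ⟨fun x hx => by rw [Module.End.one_apply]; exact hx, 1, 1, map_one φ, ?_⟩
      rw [Module.End.one_apply, OneMemClass.coe_one, one_smul, sub_self]
      exact 𝓝.zero_mem
    | add x y _ _ hx hy =>
      obtain ⟨hx1, κx, cx, rfl, hcx⟩ := hx
      obtain ⟨hy1, κy, cy, rfl, hcy⟩ := hy
      refine ⟨fun z hz => by rw [LinearMap.add_apply]; exact 𝓝.add_mem (hx1 z hz) (hy1 z hz),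
        φ cx + φ cy, cx + cy, map_add φ cx cy, ?_⟩
      have e : (x + y) h - ((cx + cy : 𝒪) : ℂ) • h
          = (x h - (cx : ℂ) • h) + (y h - (cy : ℂ) • h) := by
        push_cast
        rw [LinearMap.add_apply, add_smul]; abel
      rw [e]
      exact 𝓝.add_mem hcx hcy
    | neg x _ hx =>
      obtain ⟨hx1, κx, cx, rfl, hcx⟩ := hx
      refine ⟨fun z hz => by rw [LinearMap.neg_apply]; exact 𝓝.neg_mem (hx1 z hz),
        -φ cx, -cx, map_neg φ cx, ?_⟩
      have e : (-x) h - ((-cx : 𝒪) : ℂ) • h = -(x h - (cx : ℂ) • h) := by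
        push_cast
        rw [LinearMap.neg_apply, neg_smul]; abel
      rw [e]
      exact 𝓝.neg_mem hcx
    | mul x y _ _ hx hy =>
      obtain ⟨hx1, κx, cx, rfl, hcx⟩ := hx
      obtain ⟨hy1, κy, cy, rfl, hcy⟩ := hy
      refine ⟨fun z hz => by rw [Module.End.mul_apply]; exact hx1 _ (hy1 z hz),
        φ cx * φ cy, cx * cy, map_mul φ cx cy, ?_⟩
      have e : (x * y) h - ((cx * cy : 𝒪) : ℂ) • h
          = x (y h - (cy : ℂ) • h) + (cy : ℂ) • (x h - (cx : ℂ) • h) := by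
        push_cast
        rw [Module.End.mul_apply, map_sub, map_smul, smul_sub, smul_smul, mul_comm]
        abel
      rw [e]
      exact 𝓝.add_mem (hx1 _ hcy) (h𝒪 cy _ hcx)
  -- the residual character `Θ` of the closure
  choose! Θfun hΘfun using fun t ht => (hgood t ht).2
  have huniq : ∀ {t : Module.End ℂ V} {κ κ' : k}, Rel 𝒪 φ 𝓝 h t κ → Rel 𝒪 φ 𝓝 h t κ' → κ = κ' :=
    fun h1 h2 => rel_unique hφ h𝒪 hh hker h1 h2
  let Θ : Subring.closure gen →+* k :=
    { toFun := fun t => Θfun t.1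
      map_one' := by
        refine huniq (hΘfun _ (Subring.closure gen).one_mem) ⟨1, map_one φ, ?_⟩
        show (1 : Module.End ℂ V) h - ((1 : 𝒪) : ℂ) • h ∈ 𝓝
        rw [Module.End.one_apply, OneMemClass.coe_one, one_smul, sub_self]
        exact 𝓝.zero_mem
      map_mul' := by
        intro x y
        obtain ⟨cx, hcx1, hcx⟩ := hΘfun _ x.2
        obtain ⟨cy, hcy1, hcy⟩ := hΘfun _ y.2
        refine huniq (hΘfun _ (x * y).2) ⟨cx * cy, by rw [map_mul, hcx1, hcy1], ?_⟩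
        have e : (x.1 * y.1) h - ((cx * cy : 𝒪) : ℂ) • h
            = x.1 (y.1 h - (cy : ℂ) • h) + (cy : ℂ) • (x.1 h - (cx : ℂ) • h) := by
          push_cast
          rw [Module.End.mul_apply, map_sub, map_smul, smul_sub, smul_smul, mul_comm]
          abel
        show (x.1 * y.1) h - ((cx * cy : 𝒪) : ℂ) • h ∈ 𝓝
        rw [e]
        exact 𝓝.add_mem ((hgood _ x.2).1 _ hcy) (h𝒪 cy _ hcx)
      map_zero' := by
        refine huniq (hΘfun _ (Subring.closure gen).zero_mem) ⟨0, map_zero φ, ?_⟩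
        show (0 : Module.End ℂ V) h - ((0 : 𝒪) : ℂ) • h ∈ 𝓝
        rw [LinearMap.zero_apply, ZeroMemClass.coe_zero, zero_smul, sub_zero]
        exact 𝓝.zero_mem
      map_add' := by
        intro x y
        obtain ⟨cx, hcx1, hcx⟩ := hΘfun _ x.2
        obtain ⟨cy, hcy1, hcy⟩ := hΘfun _ y.2
        refine huniq (hΘfun _ (x + y).2) ⟨cx + cy, by rw [map_add, hcx1, hcy1], ?_⟩
        have e : (x.1 + y.1) h - ((cx + cy : 𝒪) : ℂ) • h
            = (x.1 h - (cx : ℂ) • h) + (y.1 h - (cy : ℂ) • h) := by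
          push_cast
          rw [LinearMap.add_apply, add_smul]; abel
        show (x.1 + y.1) h - ((cx + cy : 𝒪) : ℂ) • h ∈ 𝓝
        rw [e]
        exact 𝓝.add_mem hcx hcy }
  have hΘ : ∀ t : Subring.closure gen, ∀ κ : k, Rel 𝒪 φ 𝓝 h t.1 κ → Θ t = κ :=
    fun t κ hκ => huniq (hΘfun _ t.2) hκ
  -- the eigenvector
  have : (RingHom.ker Θ).IsPrime := RingHom.ker_isPrime Θ
  obtain ⟨w, hw0, χ, hχ, hχle⟩ :=
    exists_eigen_le_prime (Subring.closure gen).subtype (RingHom.ker Θ) (by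
      intro t ht
      have : t = 0 := Subtype.ext ((RingHom.mem_ker).mp ht)
      rw [this]; exact (RingHom.ker Θ).zero_mem)
  -- the ring of eigenvalues and the extended reduction map
  have hkerle : RingHom.ker χ.rangeRestrict ≤ RingHom.ker Θ := by
    intro t ht
    apply hχle
    rw [RingHom.mem_ker] at ht ⊢
    have := congrArg (fun z : χ.range => (z : ℂ)) ht
    simpa using this
  let φ' : χ.range →+* k :=
    RingHom.liftOfSurjective χ.rangeRestrict χ.rangeRestrict_surjective ⟨Θ, hkerle⟩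
  have hφ' : ∀ t : Subring.closure gen, φ' (χ.rangeRestrict t) = Θ t := fun t =>
    RingHom.liftOfRightInverse_comp_apply _ _ _ _ t
  have hinj : Function.Injective (fun c : ℂ => c • w) := smul_left_injective ℂ hw0
  refine ⟨χ.range, φ', ?_, w, hw0, ?_⟩
  · intro x
    set sx : Subring.closure gen :=
      ⟨algebraMap ℂ (Module.End ℂ V) (x : ℂ), Subring.subset_closure (Or.inr ⟨x, rfl⟩)⟩ with hsx
    have h1 : χ sx = (x : ℂ) := by
      apply hinj
      show χ sx • w = (x : ℂ) • w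
      rw [← hχ sx]
      show (algebraMap ℂ (Module.End ℂ V) (x : ℂ)) w = (x : ℂ) • w
      rw [Module.algebraMap_end_apply]
    have hmem : (x : ℂ) ∈ χ.range := ⟨sx, h1⟩
    refine ⟨hmem, ?_⟩
    have h2 : (⟨(x : ℂ), hmem⟩ : χ.range) = χ.rangeRestrict sx := Subtype.ext h1.symm
    rw [h2, hφ']
    apply hΘ
    refine ⟨x, rfl, ?_⟩
    show (algebraMap ℂ (Module.End ℂ V) (x : ℂ)) h - (x : ℂ) • h ∈ 𝓝
    rw [Module.algebraMap_end_apply, sub_self]
    exact 𝓝.zero_mem
  · intro i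
    set si : Subring.closure gen := ⟨T i, Subring.subset_closure (Or.inl ⟨i, rfl⟩)⟩ with hsi
    refine ⟨χ.rangeRestrict si, ?_, ?_⟩
    · exact hχ si
    · rw [hφ']
      exact hΘ si _ ⟨a i, rfl, ha i⟩

end Lift

end Fermat.Agent.ES.R48.LiftLem25
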