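/-
Programme R (S48, Deligne–Serre), chapter RAT (helper22): INTERFACE FILE.

Definitions only.  `HasNeben` (nebentypus of a function on `ℍ`), `NebData` (what RAT consumes from
B0/B-HK: the `N`-depleted form with its nebentypus) and `EisData` (what RAT consumes from B4 EIS:
the weight-one Eisenstein series of an odd primitive character, classical normalisation
`E = c₀ + ∑_{n ≥ 1} (∑_{k ∣ n} χ k) qⁿ`, `c₀ = -B_{1,χ}/2`, with non-zero values at the cusps `∞`, `0`).
-/
import Mathlib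
import Fermat.Prelude.Def_FLTPrelim_Modularity

set_option autoImplicit false

open CongruenceSubgroup UpperHalfPlane ModularForm Filter Topology
open scoped MatrixGroups ModularForm

noncomputable section

namespace Fermat.Agent.ES.R48.RatIface22

/-- `F` has weight `k` nebentypus `ψ` (a character mod `N`) on `Γ₀(M)`:
`F ∣[k] γ = ψ(d) • F` for every `γ = (a b; c d) ∈ Γ₀(M)`. -/
def HasNeben (M : ℕ) {N : ℕ} (ψ : DirichletCharacter ℂ N) (k : ℤ) (F : ℍ → ℂ) : Prop :=
  ∀ γ : SL(2, ℤ), γ ∈ Gamma0 M → F ∣[k] γ = ψ ((γ 1 1 : ℤ) : ZMod N) • F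

/-- **Input from B0/B-HK.**  The `N`-depletion of `f` (some level `M`, `N ∣ M`) with nebentypus `ε`. -/
def NebData (N : ℕ) (ε : DirichletCharacter ℂ N) (f : CuspForm (Gamma1 N) 1) : Prop :=
  ∃ (M : ℕ) (_ : NeZero M) (fd : CuspForm (Gamma1 M) 1), N ∣ M ∧ HasNeben M ε 1 fd ∧
    ∀ n : ℕ, ModularFormClass.qCoeff fd n =
      if n.Coprime N then ModularFormClass.qCoeff f n else 0

/-- the twisted divisor sum `∑_{k ∣ n} χ(k)`. -/
def sigmaChi {L : ℕ} (χ : DirichletCharacter ℂ L) (n : ℕ) : ℂ :=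
  ∑ k ∈ n.divisors, χ (k : ZMod L)

/-- the constant term `-B_{1,χ}/2 = -(1/2L) ∑_{a < L} a χ(a)`. -/
def eisConst {L : ℕ} (χ : DirichletCharacter ℂ L) : ℂ :=
  -(1 / (2 * (L : ℂ))) * ∑ a ∈ Finset.range L, (a : ℂ) * χ (a : ZMod L)

/-- **Input from B4 EIS.**  The weight-one Eisenstein series of the character `χ` mod `L`. -/
structure EisData (L : ℕ) (χ : DirichletCharacter ℂ L) where
  /-- the form -/
  E : ModularForm (Gamma1 L) 1
  neben : HasNeben L χ 1 E
  qCoeff_zero : ModularFormClass.qCoeff E 0 = eisConst χ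
  qCoeff_pos : ∀ n : ℕ, 0 < n → ModularFormClass.qCoeff E n = sigmaChi χ n
  eisConst_ne : eisConst χ ≠ 0
  /-- the value at the cusp `0` -/
  cS : ℂ
  cS_ne : cS ≠ 0
  tendsto_S : Tendsto ((⇑E : ℍ → ℂ) ∣[(1 : ℤ)] ModularGroup.S) atImInfty (𝓝 cS)

end Fermat.Agent.ES.R48.RatIface22
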