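/-
Programme R (S48, Deligne–Serre), chapter B5 (helper25): product of a weight-one cusp form on
`Γ₁(M)` and a weight-one modular form on `Γ₁(L)`, as a weight-two cusp form on `Γ₁(M')`
(`M ∣ M'`, `L ∣ M'`); `q`-expansion = product; nebentypus = product of the nebentypus characters.
(`Γ₁`-twin of helper22's `MulNeben22`.)
-/
import Mathlib
import Fermat.Prelude.Def_FLTPrelim_Modularity
import Fermat.Agent.ES.R48.RatIface22

set_option autoImplicit false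

open CongruenceSubgroup UpperHalfPlane ModularForm Filter Topology Matrix
open scoped MatrixGroups ModularForm

noncomputable section

namespace Fermat.Agent.ES.R48.MulGamma25

open Fermat.Agent.ES.R48.RatIface22

/-- `Γ₁(M') ≤ Γ₁(M)` when `M ∣ M'`. -/
lemma Gamma1_le_of_dvd {M M' : ℕ} (h : M ∣ M') : Gamma1 M' ≤ Gamma1 M := by
  intro γ hγ
  rw [Gamma1_mem] at hγ ⊢
  obtain ⟨h1, h2, h3⟩ := hγ
  refine ⟨?_, ?_, ?_⟩
  · have := congrArg (ZMod.castHom h (ZMod M)) h1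
    rwa [map_intCast, map_one] at this
  · have := congrArg (ZMod.castHom h (ZMod M)) h2
    rwa [map_intCast, map_one] at this
  · have := congrArg (ZMod.castHom h (ZMod M)) h3
    rwa [map_intCast, map_zero] at this

/-- `Γ₀(M') ≤ Γ₀(M)` when `M ∣ M'`. -/
lemma Gamma0_le_of_dvd {M M' : ℕ} (h : M ∣ M') : Gamma0 M' ≤ Gamma0 M := by
  intro γ hγ
  rw [Gamma0_mem] at hγ ⊢
  have := congrArg (ZMod.castHom h (ZMod M)) hγ
  simpa using this

lemma isCusp_Gamma1_of_isCusp_Gamma1 {M M' : ℕ} [NeZero M] [NeZero M'] {c : OnePoint ℝ}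
    (hc : IsCusp c ((Gamma1 M' : Subgroup SL(2, ℤ)) : Subgroup (GL (Fin 2) ℝ))) :
    IsCusp c ((Gamma1 M : Subgroup SL(2, ℤ)) : Subgroup (GL (Fin 2) ℝ)) := by
  rw [Subgroup.IsArithmetic.isCusp_iff_isCusp_SL2Z] at hc ⊢
  exact hc

/-- the product form. -/
def mulGamma1 {M L M' : ℕ} [NeZero M] [NeZero L] [NeZero M']
    (F : CuspForm (Gamma1 M) 1) (E : ModularForm (Gamma1 L) 1) (hM : M ∣ M') (hL : L ∣ M') :
    CuspForm (Gamma1 M') 2 where
  toFun := (⇑F : ℍ → ℂ) * ⇑E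
  slash_action_eq' A hA := by
    obtain ⟨γ, hγ, rfl⟩ := Subgroup.mem_map.mp hA
    show ((⇑F : ℍ → ℂ) * ⇑E) ∣[(2 : ℤ)] γ = _
    have h1 : (⇑F : ℍ → ℂ) ∣[(1 : ℤ)] γ = ⇑F :=
      SlashInvariantForm.slash_action_eqn F _ (Subgroup.mem_map_of_mem _ (Gamma1_le_of_dvd hM hγ))
    have h2 : (⇑E : ℍ → ℂ) ∣[(1 : ℤ)] γ = ⇑E :=
      SlashInvariantForm.slash_action_eqn E _ (Subgroup.mem_map_of_mem _ (Gamma1_le_of_dvd hL hγ))
    rw [show (2 : ℤ) = 1 + 1 by norm_num, ModularForm.mul_slash_SL2, h1, h2]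
  holo' := F.holo'.mul E.holo'
  zero_at_cusps' {c} hc g hg := by
    have hF0 : IsZeroAtImInfty ((⇑F : ℍ → ℂ) ∣[(1 : ℤ)] g) :=
      F.zero_at_cusps' (isCusp_Gamma1_of_isCusp_Gamma1 (M := M) hc) g hg
    have hE0 : IsBoundedAtImInfty ((⇑E : ℍ → ℂ) ∣[(1 : ℤ)] g) :=
      E.bdd_at_cusps' (isCusp_Gamma1_of_isCusp_Gamma1 (M := L) hc) g hg
    show IsZeroAtImInfty (((⇑F : ℍ → ℂ) * ⇑E) ∣[(2 : ℤ)] g)
    rw [show (2 : ℤ) = 1 + 1 by norm_num, ModularForm.mul_slash]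
    exact (ZeroAtFilter.mul_boundedAtFilter hF0 hE0).smul _

section
variable {M L M' : ℕ} [NeZero M] [NeZero L] [NeZero M']
    (F : CuspForm (Gamma1 M) 1) (E : ModularForm (Gamma1 L) 1) (hM : M ∣ M') (hL : L ∣ M')

lemma coe_mulGamma1 : (⇑(mulGamma1 F E hM hL) : ℍ → ℂ) = ⇑F * ⇑E := rfl

lemma mulGamma1_apply (z : ℍ) : mulGamma1 F E hM hL z = F z * E z := rfl

lemma one_mem_strictPeriods_Gamma1 (L : ℕ) :
    (1 : ℝ) ∈ ((Gamma1 L : Subgroup SL(2, ℤ)) : Subgroup (GL (Fin 2) ℝ)).strictPeriods := by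
  simp [strictPeriods_Gamma1]

lemma qExpansion_mulGamma1 :
    qExpansion 1 (mulGamma1 F E hM hL) = qExpansion 1 F * qExpansion 1 E := by
  rw [coe_mulGamma1]
  exact UpperHalfPlane.qExpansion_mul
    (ModularFormClass.analyticAt_cuspFunction_zero F one_pos (one_mem_strictPeriods_Gamma1 M))
    (ModularFormClass.analyticAt_cuspFunction_zero E one_pos (one_mem_strictPeriods_Gamma1 L))

lemma qCoeff_mulGamma1 (n : ℕ) :
    ModularFormClass.qCoeff (mulGamma1 F E hM hL) n =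
      ∑ ij ∈ Finset.HasAntidiagonal.antidiagonal n,
        ModularFormClass.qCoeff F ij.1 * ModularFormClass.qCoeff E ij.2 := by
  simp only [ModularFormClass.qCoeff]
  rw [qExpansion_mulGamma1, PowerSeries.coeff_mul]

/-- nebentypus of the product. -/
lemma slash_mulGamma1 {N₁ N₂ : ℕ} {ε : DirichletCharacter ℂ N₁} {χ : DirichletCharacter ℂ N₂}
    (hF : HasNeben M ε 1 F) (hE : HasNeben L χ 1 E) (γ : SL(2, ℤ)) (hγ : γ ∈ Gamma0 M') :
    (⇑(mulGamma1 F E hM hL) : ℍ → ℂ) ∣[(2 : ℤ)] γ =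
      (ε ((γ 1 1 : ℤ) : ZMod N₁) * χ ((γ 1 1 : ℤ) : ZMod N₂)) • ⇑(mulGamma1 F E hM hL) := by
  rw [coe_mulGamma1, show (2 : ℤ) = 1 + 1 by norm_num, ModularForm.mul_slash_SL2,
    hF γ (Gamma0_le_of_dvd hM hγ), hE γ (Gamma0_le_of_dvd hL hγ)]
  ext z
  simp only [Pi.mul_apply, Pi.smul_apply, smul_eq_mul]
  ring

end

end Fermat.Agent.ES.R48.MulGamma25
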