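/-
Programme R (S48, Deligne–Serre), chapter B-HK (helper9), brick 1: `Γ₀(N)` acting on `S_k(Γ₁(N))`.

* matrix facts: for `g, g' ∈ Γ₀(N)` with the same lower-right entry mod `N`, `g' g⁻¹ ∈ Γ₁(N)`;
  an element of `Γ₀(M)` with prescribed lower-right entry (coprime to `M`, or a unit mod `N ∣ M`);
* function level: `Inv1 N k f` (weight-`k` invariance under `Γ₁(N)`), stable under `∣[k] g`,
  `g ∈ Γ₀(N)`, and `f ∣[k] g` only depends on `g 1 1` mod `N`;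
* form level: `slashG0 g hg : CuspForm (Gamma1 N) k →ₗ[ℂ] CuspForm (Gamma1 N) k`, and the diamond
  operators `diamond u`, `u : (ZMod N)ˣ`, with `⇑(diamond u f) = ⇑f ∣[k] g` for ANY `g ∈ Γ₀(N)` with
  `(g 1 1 : ZMod N) = u`.
-/
import Mathlib
import Fermat.Prelude.Def_FLTPrelim_Modularity
import Fermat.Prelude.Def_ModularForm_HeckeOperator

set_option autoImplicit false

open CongruenceSubgroup UpperHalfPlane ModularForm Matrix.SpecialLinearGroup
open scoped MatrixGroups ModularForm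

noncomputable section

namespace Fermat.Agent.ES.R48.Gamma1Slash9

variable {N : ℕ}

/-! ### Matrix facts -/

theorem det_eq (g : SL(2, ℤ)) : g 0 0 * g 1 1 - g 0 1 * g 1 0 = 1 := by
  have h := g.det_coe
  rwa [Matrix.det_fin_two] at h

/-- `a d ≡ 1 (mod N)` on `Γ₀(N)`. -/
theorem Gamma0_diag {g : SL(2, ℤ)} (hg : g ∈ Gamma0 N) :
    ((g 0 0 : ℤ) : ZMod N) * ((g 1 1 : ℤ) : ZMod N) = 1 := by
  have h := congrArg (Int.cast : ℤ → ZMod N) (det_eq g)
  push_cast at h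
  rw [Gamma0_mem] at hg
  rw [hg, mul_zero, sub_zero] at h
  exact h

/-- the lower-right entry of an element of `Γ₀(N)`, as a unit of `ZMod N`. -/
def lowerRightUnit {g : SL(2, ℤ)} (hg : g ∈ Gamma0 N) : (ZMod N)ˣ :=
  Units.mkOfMulEqOne _ _ ((mul_comm _ _).trans (Gamma0_diag hg))

@[simp] theorem coe_lowerRightUnit {g : SL(2, ℤ)} (hg : g ∈ Gamma0 N) :
    ((lowerRightUnit hg : (ZMod N)ˣ) : ZMod N) = ((g 1 1 : ℤ) : ZMod N) := rfl

theorem mul_inv_mem_Gamma1 {g g' : SL(2, ℤ)} (hg : g ∈ Gamma0 N) (hg' : g' ∈ Gamma0 N)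
    (h : ((g' 1 1 : ℤ) : ZMod N) = ((g 1 1 : ℤ) : ZMod N)) : g' * g⁻¹ ∈ Gamma1 N := by
  have h1 := Gamma0_diag hg
  have h2 := Gamma0_diag hg'
  rw [Gamma0_mem] at hg hg'
  rw [Gamma1_mem]
  simp only [Matrix.SpecialLinearGroup.coe_mul, Matrix.SpecialLinearGroup.SL2_inv_expl,
    Matrix.mul_apply, Fin.sum_univ_two, Matrix.cons_val_zero, Matrix.cons_val_one,
    Matrix.cons_val', Matrix.cons_val_fin_one]
  push_cast
  refine ⟨?_, ?_, ?_⟩
  · rw [hg, ← h]; linear_combination h2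
  · rw [hg', h]; linear_combination h1
  · rw [hg, hg']; ring

/-- lower-right entry of a product with left factor in `Γ₀(N)`, mod `N`. -/
theorem mul_apply_one_one {g g' : SL(2, ℤ)} (hg : g ∈ Gamma0 N) :
    (((g * g') 1 1 : ℤ) : ZMod N) = ((g 1 1 : ℤ) : ZMod N) * ((g' 1 1 : ℤ) : ZMod N) := by
  rw [Gamma0_mem] at hg
  simp only [Matrix.SpecialLinearGroup.coe_mul, Matrix.mul_apply, Fin.sum_univ_two]
  push_cast
  rw [hg]; ring

theorem one_apply_one_one : ((((1 : SL(2, ℤ)) 1 1 : ℤ)) : ZMod N) = 1 := by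
  simp

theorem exists_Gamma0_of_isCoprime (M : ℕ) (d : ℤ) (h : IsCoprime d (M : ℤ)) :
    ∃ g : SL(2, ℤ), g ∈ Gamma0 M ∧ g 1 1 = d := by
  obtain ⟨a, b, hab⟩ := h
  refine ⟨⟨!![a, -b; (M : ℤ), d], ?_⟩, ?_, rfl⟩
  · rw [Matrix.det_fin_two_of]; linear_combination hab
  · rw [Gamma0_mem]
    show (((M : ℤ) : ℤ) : ZMod M) = 0
    simp

/-- every unit mod `N` is the lower-right entry of an element of `Γ₀(M)`, `N ∣ M`. -/
theorem exists_Gamma0_unit {M : ℕ} [NeZero M] (hNM : N ∣ M) (u : (ZMod N)ˣ) :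
    ∃ g : SL(2, ℤ), g ∈ Gamma0 M ∧ ((g 1 1 : ℤ) : ZMod N) = (u : ZMod N) := by
  obtain ⟨v, rfl⟩ := ZMod.unitsMap_surjective hNM u
  have hcop : IsCoprime (((v : ZMod M).val : ℕ) : ℤ) (M : ℤ) :=
    Nat.isCoprime_iff_coprime.mpr (ZMod.val_coe_unit_coprime v)
  obtain ⟨g, hg, hd⟩ := exists_Gamma0_of_isCoprime M _ hcop
  refine ⟨g, hg, ?_⟩
  rw [hd, ZMod.unitsMap_def, Units.coe_map]
  simp only [MonoidHom.coe_coe, ZMod.castHom_apply, Int.cast_natCast]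
  rw [ZMod.natCast_val]

theorem Gamma0_le_of_dvd {M M' : ℕ} (h : M ∣ M') : Gamma0 M' ≤ Gamma0 M := by
  intro A hA
  rw [Gamma0_mem] at hA ⊢
  rw [ZMod.intCast_zmod_eq_zero_iff_dvd] at hA ⊢
  exact (Int.natCast_dvd_natCast.mpr h).trans hA

/-! ### Function level -/

/-- weight-`k` invariance under `Γ₁(N)` (function level, `SL(2,ℤ)` slash). -/
def Inv1 (N : ℕ) (k : ℤ) (f : ℍ → ℂ) : Prop :=
  ∀ γ : SL(2, ℤ), γ ∈ Gamma1 N → f ∣[k] γ = f

variable {k : ℤ} {f : ℍ → ℂ}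

theorem slash_eq_of_eq (hf : Inv1 N k f) {g g' : SL(2, ℤ)} (hg : g ∈ Gamma0 N)
    (hg' : g' ∈ Gamma0 N) (h : ((g' 1 1 : ℤ) : ZMod N) = ((g 1 1 : ℤ) : ZMod N)) :
    f ∣[k] g' = f ∣[k] g := by
  have h1 : g' = (g' * g⁻¹) * g := by group
  rw [h1, SlashAction.slash_mul, hf _ (mul_inv_mem_Gamma1 hg hg' h)]

theorem inv1_slash (hf : Inv1 N k f) {g : SL(2, ℤ)} (hg : g ∈ Gamma0 N) :
    Inv1 N k (f ∣[k] g) := by
  intro γ hγ
  rw [← SlashAction.slash_mul]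
  refine slash_eq_of_eq hf hg ((Gamma0 N).mul_mem hg (Gamma1_in_Gamma0 N hγ)) ?_
  rw [mul_apply_one_one hg, ((Gamma1_mem N γ).mp hγ).2.1, mul_one]

theorem inv1_coe {F : Type*} [FunLike F ℍ ℂ] [SlashInvariantFormClass F (Gamma1 N) k]
    (f : F) : Inv1 N k ⇑f := fun _ hγ =>
  SlashInvariantFormClass.slash_action_eq f _ (Subgroup.mem_map_of_mem (mapGL ℝ) hγ)

theorem inv1_add {f g : ℍ → ℂ} (hf : Inv1 N k f) (hg : Inv1 N k g) : Inv1 N k (f + g) :=
  fun γ hγ => by rw [SlashAction.add_slash, hf γ hγ, hg γ hγ]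

theorem inv1_smul (c : ℂ) (hf : Inv1 N k f) : Inv1 N k (c • f) :=
  fun γ hγ => by rw [SL_smul_slash, hf γ hγ]

theorem isCusp_SL_smul {Γ : Subgroup (GL (Fin 2) ℝ)} [Γ.IsArithmetic] {c : OnePoint ℝ}
    (hc : IsCusp c Γ) (g : SL(2, ℤ)) : IsCusp ((mapGL ℝ g : GL (Fin 2) ℝ) • c) Γ := by
  rw [Subgroup.IsArithmetic.isCusp_iff_isCusp_SL2Z] at hc ⊢
  exact hc.smul_of_mem ⟨g, rfl⟩

/-! ### Form level -/

variable [NeZero N]

/-- slash by an element of `Γ₀(N)` on `S_k(Γ₁(N))`. -/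
def slashG0Fun (g : SL(2, ℤ)) (hg : g ∈ Gamma0 N) (f : CuspForm (Gamma1 N) k) :
    CuspForm (Gamma1 N) k where
  toFun := ⇑f ∣[k] g
  slash_action_eq' := by
    rintro _ ⟨γ, hγ, rfl⟩
    exact inv1_slash (inv1_coe f) hg γ hγ
  holo' := (CuspFormClass.holo f).slash k _
  zero_at_cusps' := fun {_} hc =>
    OnePoint.IsZeroAt.smul_iff.mp (CuspFormClass.zero_at_cusps f (isCusp_SL_smul hc g))

theorem coe_slashG0Fun (g : SL(2, ℤ)) (hg : g ∈ Gamma0 N) (f : CuspForm (Gamma1 N) k) :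
    ⇑(slashG0Fun g hg f) = ⇑f ∣[k] g := rfl

/-- slash by an element of `Γ₀(N)` on `S_k(Γ₁(N))`, as a linear map. -/
def slashG0 (g : SL(2, ℤ)) (hg : g ∈ Gamma0 N) :
    CuspForm (Gamma1 N) k →ₗ[ℂ] CuspForm (Gamma1 N) k where
  toFun f := slashG0Fun g hg f
  map_add' f f' := DFunLike.coe_injective <| by
    rw [coe_slashG0Fun, FunLike.coe_add, FunLike.coe_add, SlashAction.add_slash,
      coe_slashG0Fun, coe_slashG0Fun]
  map_smul' c f := DFunLike.coe_injective <| by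
    rw [coe_slashG0Fun, RingHom.id_apply, FunLike.coe_smul, FunLike.coe_smul, SL_smul_slash,
      coe_slashG0Fun]

@[simp] theorem coe_slashG0 (g : SL(2, ℤ)) (hg : g ∈ Gamma0 N) (f : CuspForm (Gamma1 N) k) :
    ⇑(slashG0 g hg f) = ⇑f ∣[k] g := rfl

theorem slashG0_eq_of_eq {g g' : SL(2, ℤ)} (hg : g ∈ Gamma0 N) (hg' : g' ∈ Gamma0 N)
    (h : ((g' 1 1 : ℤ) : ZMod N) = ((g 1 1 : ℤ) : ZMod N)) (f : CuspForm (Gamma1 N) k) :
    slashG0 g' hg' f = slashG0 g hg f :=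
  DFunLike.coe_injective <| by
    rw [coe_slashG0, coe_slashG0]; exact slash_eq_of_eq (inv1_coe f) hg hg' h

/-- the chosen representative of `u` in `Γ₀(N)`. -/
def diamondRep (N : ℕ) [NeZero N] (u : (ZMod N)ˣ) : SL(2, ℤ) :=
  (exists_Gamma0_unit (dvd_refl N) u).choose

theorem diamondRep_mem (u : (ZMod N)ˣ) : diamondRep N u ∈ Gamma0 N :=
  (exists_Gamma0_unit (dvd_refl N) u).choose_spec.1

theorem diamondRep_apply (u : (ZMod N)ˣ) :
    ((diamondRep N u 1 1 : ℤ) : ZMod N) = (u : ZMod N) :=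
  (exists_Gamma0_unit (dvd_refl N) u).choose_spec.2

/-- The diamond operator `⟨u⟩` on `S_k(Γ₁(N))`. -/
def diamond (k : ℤ) (u : (ZMod N)ˣ) : CuspForm (Gamma1 N) k →ₗ[ℂ] CuspForm (Gamma1 N) k :=
  slashG0 (diamondRep N u) (diamondRep_mem u)

/-- `⟨u⟩ f = f ∣[k] g` for ANY `g ∈ Γ₀(N)` with lower-right entry `≡ u`. -/
theorem diamond_eq_slashG0 (u : (ZMod N)ˣ) {g : SL(2, ℤ)} (hg : g ∈ Gamma0 N)
    (h : ((g 1 1 : ℤ) : ZMod N) = (u : ZMod N)) (f : CuspForm (Gamma1 N) k) :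
    diamond k u f = slashG0 g hg f :=
  slashG0_eq_of_eq hg (diamondRep_mem u) ((diamondRep_apply u).trans h.symm) f

theorem coe_diamond (u : (ZMod N)ˣ) {g : SL(2, ℤ)} (hg : g ∈ Gamma0 N)
    (h : ((g 1 1 : ℤ) : ZMod N) = (u : ZMod N)) (f : CuspForm (Gamma1 N) k) :
    ⇑(diamond k u f) = ⇑f ∣[k] g := by
  rw [diamond_eq_slashG0 u hg h f, coe_slashG0]

/-- slash by `g ∈ Γ₀(N)` is the diamond operator of its lower-right entry. -/
theorem coe_slash_eq_diamond {g : SL(2, ℤ)} (hg : g ∈ Gamma0 N) (f : CuspForm (Gamma1 N) k) :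
    ⇑f ∣[k] g = ⇑(diamond k (lowerRightUnit hg) f) :=
  (coe_diamond (lowerRightUnit hg) hg rfl f).symm

@[simp] theorem diamond_one (f : CuspForm (Gamma1 N) k) : diamond k (1 : (ZMod N)ˣ) f = f :=
  DFunLike.coe_injective <| by
    rw [coe_diamond (1 : (ZMod N)ˣ) (Subgroup.one_mem _) (by simp) f, SlashAction.slash_one]

theorem diamond_diamond (u v : (ZMod N)ˣ) (f : CuspForm (Gamma1 N) k) :
    diamond k v (diamond k u f) = diamond k (u * v) f :=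
  DFunLike.coe_injective <| by
    have hmem : diamondRep N u * diamondRep N v ∈ Gamma0 N :=
      (Gamma0 N).mul_mem (diamondRep_mem u) (diamondRep_mem v)
    have hval : (((diamondRep N u * diamondRep N v) 1 1 : ℤ) : ZMod N)
        = ((u * v : (ZMod N)ˣ) : ZMod N) := by
      rw [mul_apply_one_one (diamondRep_mem u), diamondRep_apply, diamondRep_apply, Units.val_mul]
    rw [coe_diamond (u * v) hmem hval f, SlashAction.slash_mul,
      coe_diamond v (diamondRep_mem v) (diamondRep_apply v),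
      coe_diamond u (diamondRep_mem u) (diamondRep_apply u)]

theorem diamond_comm (u v : (ZMod N)ˣ) (f : CuspForm (Gamma1 N) k) :
    diamond k v (diamond k u f) = diamond k u (diamond k v f) := by
  rw [diamond_diamond, diamond_diamond, mul_comm]

theorem diamond_inv_diamond (u : (ZMod N)ˣ) (f : CuspForm (Gamma1 N) k) :
    diamond k u⁻¹ (diamond k u f) = f := by
  rw [diamond_diamond, mul_inv_cancel, diamond_one]

theorem diamond_diamond_inv (u : (ZMod N)ˣ) (f : CuspForm (Gamma1 N) k) :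
    diamond k u (diamond k u⁻¹ f) = f := by
  rw [diamond_diamond, inv_mul_cancel, diamond_one]

end Fermat.Agent.ES.R48.Gamma1Slash9
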