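/-
Programme R (S48, Deligne–Serre), chapter B-HK (helper9), brick 2: the TRUE Hecke operator `T_p`
(`p ∤ N`) on `Γ₁(N)`-invariant functions, function level.

For `δ ∈ Γ₀(N)` with lower-right entry `≡ p (mod N)`,
`heckeTrue k p δ f := heckeU k p f + (f ∣[k] δ) ∣[k] heckeDiagMatrix p`.
Main result `heckeTrue_slash`: for `f` invariant under `Γ₁(N)` and EVERY `g ∈ Γ₀(N)`,
`(heckeTrue k p δ f) ∣[k] g = heckeTrue k p δ (f ∣[k] g)`; hence `heckeTrue k p δ f` is again
`Γ₁(N)`-invariant, and `T_p` commutes with the diamond operators.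

The coset computation is the Prelude's (`Sol.S_ModularForm_heckeT_slash_eq_self_of_mem_Gamma0`,
`heckeRep`, `redMatrix`), redone with the lower-right entries of the conjugated matrices recorded.
-/
import Mathlib
import Fermat.Prelude.Sol.S_ModularForm_heckeT_slash_eq_self_of_mem_Gamma0
import Fermat.Agent.ES.R48.Gamma1Slash9

set_option autoImplicit false

open CongruenceSubgroup UpperHalfPlane ModularForm Matrix.SpecialLinearGroup
open scoped MatrixGroups ModularForm OnePoint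
open P2MW.S_ModularForm_heckeT_slash_eq_self_of_mem_Gamma0.ModularForm.HeckeSlashInvariance
open Fermat.Agent.ES.R48.Gamma1Slash9

noncomputable section

namespace Fermat.Agent.ES.R48.TpInv9

/-! ### The four commutation relations, with the lower-right entry recorded -/

section commutation

variable {p : ℕ} (hp : p ≠ 0)
include hp

theorem heckeMatrix_mul_of_eq₁ (g : SL(2, ℤ)) (j j' : ℕ) (e : ℤ)
    (he : g 0 1 + j * g 1 1 = j' * (g 0 0 + j * g 1 0) + p * e) :
    ∃ g' : SL(2, ℤ), g' 1 0 = p * g 1 0 ∧ g' 1 1 = g 1 1 - g 1 0 * j' ∧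
      heckeMatrix p j * mapGL ℝ g = mapGL ℝ g' * heckeMatrix p j' := by
  have hdet := Gamma1Slash9.det_eq g
  refine ⟨⟨!![g 0 0 + j * g 1 0, e; p * g 1 0, g 1 1 - g 1 0 * j'], ?_⟩, rfl, rfl, ?_⟩
  · rw [Matrix.det_fin_two_of]
    linear_combination hdet + (g 1 0) * he
  · ext i j
    fin_cases i <;> fin_cases j <;>
      simp [hp, Matrix.mul_apply, Fin.sum_univ_two]
    all_goals first
      | (have := congrArg (Int.cast : ℤ → ℝ) he; push_cast at this ⊢; linear_combination this)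
      | (have := congrArg (Int.cast : ℤ → ℝ) he; push_cast at this ⊢; linear_combination -this)
      | ring1

theorem heckeMatrix_mul_of_eq₂ (g : SL(2, ℤ)) (j : ℕ) (e : ℤ)
    (he : g 0 0 + j * g 1 0 = p * e) :
    ∃ g' : SL(2, ℤ), g' 1 0 = g 1 0 ∧ g' 1 1 = p * g 1 1 ∧
      heckeMatrix p j * mapGL ℝ g = mapGL ℝ g' * heckeDiagMatrix p := by
  have hdet := Gamma1Slash9.det_eq g
  refine ⟨⟨!![e, g 0 1 + j * g 1 1; g 1 0, p * g 1 1], ?_⟩, rfl, rfl, ?_⟩
  · rw [Matrix.det_fin_two_of]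
    linear_combination hdet - (g 1 1) * he
  · ext i j
    fin_cases i <;> fin_cases j <;>
      simp [hp, Matrix.mul_apply, Fin.sum_univ_two]
    all_goals first
      | (have := congrArg (Int.cast : ℤ → ℝ) he; push_cast at this ⊢; linear_combination this)
      | (have := congrArg (Int.cast : ℤ → ℝ) he; push_cast at this ⊢; linear_combination -this)
      | ring1

theorem heckeDiagMatrix_mul_of_eq₃ (g : SL(2, ℤ)) (j' : ℕ) (e : ℤ)
    (he : g 1 1 = g 1 0 * j' + p * e) :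
    ∃ g' : SL(2, ℤ), g' 1 0 = g 1 0 ∧ g' 1 1 = e ∧
      heckeDiagMatrix p * mapGL ℝ g = mapGL ℝ g' * heckeMatrix p j' := by
  have hdet := Gamma1Slash9.det_eq g
  refine ⟨⟨!![p * g 0 0, g 0 1 - g 0 0 * j'; g 1 0, e], ?_⟩, rfl, rfl, ?_⟩
  · rw [Matrix.det_fin_two_of]
    linear_combination hdet - (g 0 0) * he
  · ext i j
    fin_cases i <;> fin_cases j <;>
      simp [hp, Matrix.mul_apply, Fin.sum_univ_two]
    all_goals first
      | (have := congrArg (Int.cast : ℤ → ℝ) he; push_cast at this ⊢; linear_combination this)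
      | (have := congrArg (Int.cast : ℤ → ℝ) he; push_cast at this ⊢; linear_combination -this)
      | ring1

theorem heckeDiagMatrix_mul_of_eq₄ (g : SL(2, ℤ)) (e : ℤ) (he : g 1 0 = p * e) :
    ∃ g' : SL(2, ℤ), g' 1 0 = e ∧ g' 1 1 = g 1 1 ∧
      heckeDiagMatrix p * mapGL ℝ g = mapGL ℝ g' * heckeDiagMatrix p := by
  have hdet := Gamma1Slash9.det_eq g
  refine ⟨⟨!![g 0 0, p * g 0 1; e, g 1 1], ?_⟩, rfl, rfl, ?_⟩
  · rw [Matrix.det_fin_two_of]
    linear_combination hdet + (g 0 1) * he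
  · ext i j
    fin_cases i <;> fin_cases j <;>
      simp [hp, Matrix.mul_apply, Fin.sum_univ_two]
    all_goals first
      | (have := congrArg (Int.cast : ℤ → ℝ) he; push_cast at this ⊢; linear_combination this)
      | (have := congrArg (Int.cast : ℤ → ℝ) he; push_cast at this ⊢; linear_combination -this)
      | ring1

end commutation

/-! ### The weighted coset permutation -/

section perm

variable {p : ℕ}

/-- the "weight" of a coset representative: `p` at `∞` (the matrix `diag(p,1)`), `1` elsewhere. -/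
def wt (p N : ℕ) (x : OnePoint (ZMod p)) : ZMod N :=
  x.elim (p : ZMod N) (fun _ => 1)

@[simp] theorem wt_infty (N : ℕ) : wt p N ∞ = (p : ZMod N) := rfl

@[simp] theorem wt_coe (N : ℕ) (j : ZMod p) : wt p N (j : OnePoint (ZMod p)) = 1 := rfl

variable [Fact p.Prime]

theorem heckeRep_mul_wt {N : ℕ} (hpN : ¬ p ∣ N) (g : SL(2, ℤ)) (hg : (N : ℤ) ∣ g 1 0)
    (x : OnePoint (ZMod p)) :
    ∃ g' : SL(2, ℤ), (N : ℤ) ∣ g' 1 0 ∧
      wt p N x * ((g' 1 1 : ℤ) : ZMod N) = ((g 1 1 : ℤ) : ZMod N) * wt p N (redMatrix p g • x) ∧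
      heckeRep p x * mapGL ℝ g = mapGL ℝ g' * heckeRep p (redMatrix p g • x) := by
  have hp : p ≠ 0 := (Fact.out : p.Prime).ne_zero
  have hg0 : ((g 1 0 : ℤ) : ZMod N) = 0 := (ZMod.intCast_zmod_eq_zero_iff_dvd _ _).mpr hg
  induction x using OnePoint.rec with
  | infty =>
    rw [OnePoint.smul_infty_eq_ite]
    by_cases hc : ((g 1 0 : ℤ) : ZMod p) = 0
    · rw [if_pos (by simpa using hc), heckeRep_infty]
      obtain ⟨e, he⟩ := (ZMod.intCast_zmod_eq_zero_iff_dvd _ _).mp hc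
      obtain ⟨g', hg', hd', hmul⟩ := heckeDiagMatrix_mul_of_eq₄ hp g e he
      refine ⟨g', ?_, ?_, hmul⟩
      · rw [hg']
        have hcop : IsCoprime (N : ℤ) (p : ℤ) :=
          Nat.isCoprime_iff_coprime.mpr ((Nat.Prime.coprime_iff_not_dvd Fact.out).mpr hpN).symm
        exact hcop.dvd_of_dvd_mul_left (he ▸ hg)
      · rw [hd', wt_infty, mul_comm]
    · rw [if_neg (by simpa using hc), heckeRep_infty, heckeRep_coe]
      set y : ZMod p := redMatrix p g 0 0 / redMatrix p g 1 0 with hy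
      obtain ⟨e, he⟩ : (p : ℤ) ∣ g 1 1 - g 1 0 * y.val := by
        rw [← ZMod.intCast_zmod_eq_zero_iff_dvd]
        push_cast
        rw [ZMod.natCast_zmod_val, hy, redMatrix_apply_zero_zero, redMatrix_apply_one_zero,
          mul_div_cancel₀ _ hc, sub_self]
      obtain ⟨g', hg', hd', hmul⟩ :=
        heckeDiagMatrix_mul_of_eq₃ hp g y.val e (by linear_combination he)
      refine ⟨g', hg' ▸ hg, ?_, hmul⟩
      rw [hd', wt_infty, wt_coe, mul_one]
      have := congrArg (Int.cast : ℤ → ZMod N) he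
      push_cast at this
      rw [hg0, zero_mul, sub_zero] at this
      exact this.symm
  | coe j =>
    rw [OnePoint.smul_some_eq_ite]
    by_cases h : redMatrix p g 1 0 * j + redMatrix p g 1 1 = 0
    · rw [if_pos h, heckeRep_infty, heckeRep_coe]
      rw [redMatrix_apply_one_zero, redMatrix_apply_one_one] at h
      obtain ⟨e, he⟩ : (p : ℤ) ∣ g 0 0 + j.val * g 1 0 := by
        rw [← ZMod.intCast_zmod_eq_zero_iff_dvd]
        push_cast
        rw [ZMod.natCast_zmod_val]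
        linear_combination h
      obtain ⟨g', hg', hd', hmul⟩ := heckeMatrix_mul_of_eq₂ hp g j.val e he
      refine ⟨g', hg' ▸ hg, ?_, hmul⟩
      rw [hd', wt_infty, wt_coe, one_mul]
      push_cast
      ring
    · rw [if_neg h, heckeRep_coe, heckeRep_coe]
      set y : ZMod p := (redMatrix p g 0 0 * j + redMatrix p g 0 1) /
        (redMatrix p g 1 0 * j + redMatrix p g 1 1) with hy
      obtain ⟨e, he⟩ : (p : ℤ) ∣ g 0 1 + j.val * g 1 1 - y.val * (g 0 0 + j.val * g 1 0) := by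
        rw [← ZMod.intCast_zmod_eq_zero_iff_dvd]
        push_cast
        rw [ZMod.natCast_zmod_val, ZMod.natCast_zmod_val,
          show ((g 0 0 : ℤ) : ZMod p) + j * ((g 1 0 : ℤ) : ZMod p)
            = redMatrix p g 1 0 * j + redMatrix p g 1 1 by
              rw [redMatrix_apply_one_zero, redMatrix_apply_one_one]; ring,
          hy, div_mul_cancel₀ _ h, redMatrix_apply_zero_zero, redMatrix_apply_zero_one]
        ring
      obtain ⟨g', hg', hd', hmul⟩ :=
        heckeMatrix_mul_of_eq₁ hp g j.val y.val e (by linear_combination he)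
      refine ⟨g', hg' ▸ dvd_mul_of_dvd_right hg _, ?_, hmul⟩
      rw [hd', wt_coe, wt_coe, one_mul, mul_one]
      push_cast
      rw [hg0, zero_mul, sub_zero]

end perm

/-! ### The true Hecke operator on functions -/

section heckeTrue

variable {p : ℕ}

/-- The true `T_p` on functions: `δ ∈ Γ₀(N)` has lower-right entry `≡ p`. -/
def heckeTrue (k : ℤ) (p : ℕ) (δ : SL(2, ℤ)) (f : ℍ → ℂ) : ℍ → ℂ :=
  heckeU k p f + (f ∣[k] δ) ∣[k] heckeDiagMatrix p

theorem heckeTrue_def (k : ℤ) (p : ℕ) (δ : SL(2, ℤ)) (f : ℍ → ℂ) :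
    heckeTrue k p δ f = heckeU k p f + (f ∣[k] δ) ∣[k] heckeDiagMatrix p := rfl

/-- the `Γ₀(N)`-element attached to a coset representative: `δ` at `∞`, `1` elsewhere. -/
def repSL (δ : SL(2, ℤ)) (x : OnePoint (ZMod p)) : SL(2, ℤ) :=
  x.elim δ (fun _ => 1)

@[simp] theorem repSL_infty (δ : SL(2, ℤ)) : repSL (p := p) δ ∞ = δ := rfl

@[simp] theorem repSL_coe (δ : SL(2, ℤ)) (j : ZMod p) :
    repSL δ (j : OnePoint (ZMod p)) = 1 := rfl

theorem repSL_mem {N : ℕ} {δ : SL(2, ℤ)} (hδ : δ ∈ Gamma0 N) (x : OnePoint (ZMod p)) :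
    repSL δ x ∈ Gamma0 N := by
  induction x using OnePoint.rec with
  | infty => exact hδ
  | coe j => exact Subgroup.one_mem _

theorem repSL_apply {N : ℕ} {δ : SL(2, ℤ)} (hδp : ((δ 1 1 : ℤ) : ZMod N) = (p : ZMod N))
    (x : OnePoint (ZMod p)) : ((repSL δ x 1 1 : ℤ) : ZMod N) = wt p N x := by
  induction x using OnePoint.rec with
  | infty => exact hδp
  | coe j => simp

theorem heckeTrue_eq_sum_onePoint [NeZero p] (k : ℤ) (δ : SL(2, ℤ)) (f : ℍ → ℂ) :
    heckeTrue k p δ f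
      = ∑ x : OnePoint (ZMod p), (f ∣[k] repSL δ x) ∣[k] heckeRep p x := by
  rw [heckeTrue_def, heckeU_eq_sum_zmod, add_comm]
  refine Eq.trans ?_ (Fintype.sum_option
    (fun x : OnePoint (ZMod p) ↦ (f ∣[k] repSL δ x) ∣[k] heckeRep p x)).symm
  congr 1
  refine Finset.sum_congr rfl fun j _ => ?_
  show f ∣[k] heckeMatrix p j.val = (f ∣[k] (1 : SL(2, ℤ))) ∣[k] heckeMatrix p j.val
  rw [SlashAction.slash_one]

variable [Fact p.Prime] {N : ℕ} {k : ℤ}

/-- **`T_p` commutes with the slash action of `Γ₀(N)`** on `Γ₁(N)`-invariant functions. -/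
theorem heckeTrue_slash (hpN : ¬ p ∣ N) {δ : SL(2, ℤ)} (hδ : δ ∈ Gamma0 N)
    (hδp : ((δ 1 1 : ℤ) : ZMod N) = (p : ZMod N)) {f : ℍ → ℂ} (hf : Inv1 N k f)
    {g : SL(2, ℤ)} (hg : g ∈ Gamma0 N) :
    (heckeTrue k p δ f) ∣[k] g = heckeTrue k p δ (f ∣[k] g) := by
  have : NeZero p := ⟨(Fact.out : p.Prime).ne_zero⟩
  have hcN : (N : ℤ) ∣ g 1 0 :=
    (ZMod.intCast_zmod_eq_zero_iff_dvd _ _).mp (Gamma0_mem.mp hg)
  rw [heckeTrue_eq_sum_onePoint k δ f, heckeTrue_eq_sum_onePoint k δ (f ∣[k] g),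
    SL_slash, SlashAction.sum_slash]
  calc ∑ x : OnePoint (ZMod p), ((f ∣[k] repSL δ x) ∣[k] heckeRep p x) ∣[k] mapGL ℝ g
      = ∑ x : OnePoint (ZMod p),
          ((f ∣[k] g) ∣[k] repSL δ (redMatrix p g • x)) ∣[k] heckeRep p (redMatrix p g • x) := by
        refine Finset.sum_congr rfl fun x _ ↦ ?_
        obtain ⟨g', hg', hwt, hmul⟩ := heckeRep_mul_wt hpN g hcN x
        have hg'N : g' ∈ Gamma0 N :=
          Gamma0_mem.mpr ((ZMod.intCast_zmod_eq_zero_iff_dvd _ _).mpr hg')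
        rw [← SlashAction.slash_mul, hmul, SlashAction.slash_mul]
        congr 1
        show (f ∣[k] repSL δ x) ∣[k] g' = (f ∣[k] g) ∣[k] repSL δ (redMatrix p g • x)
        rw [← SlashAction.slash_mul, ← SlashAction.slash_mul]
        refine slash_eq_of_eq hf ((Gamma0 N).mul_mem hg (repSL_mem hδ _))
          ((Gamma0 N).mul_mem (repSL_mem hδ _) hg'N) ?_
        rw [mul_apply_one_one (repSL_mem hδ x), mul_apply_one_one hg, repSL_apply hδp,
          repSL_apply hδp, hwt]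
    _ = ∑ x : OnePoint (ZMod p), ((f ∣[k] g) ∣[k] repSL δ x) ∣[k] heckeRep p x :=
        Equiv.sum_comp (MulAction.toPerm (redMatrix p g))
          (fun x ↦ ((f ∣[k] g) ∣[k] repSL δ x) ∣[k] heckeRep p x)

/-- `T_p f` is again `Γ₁(N)`-invariant. -/
theorem inv1_heckeTrue (hpN : ¬ p ∣ N) {δ : SL(2, ℤ)} (hδ : δ ∈ Gamma0 N)
    (hδp : ((δ 1 1 : ℤ) : ZMod N) = (p : ZMod N)) {f : ℍ → ℂ} (hf : Inv1 N k f) :
    Inv1 N k (heckeTrue k p δ f) := fun γ hγ => by
  rw [heckeTrue_slash hpN hδ hδp hf (Gamma1_in_Gamma0 N hγ), hf γ hγ]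

omit [Fact p.Prime] in
/-- independence of the choice of `δ`. -/
theorem heckeTrue_congr {δ δ' : SL(2, ℤ)} (hδ : δ ∈ Gamma0 N) (hδ' : δ' ∈ Gamma0 N)
    (h : ((δ' 1 1 : ℤ) : ZMod N) = ((δ 1 1 : ℤ) : ZMod N)) {f : ℍ → ℂ} (hf : Inv1 N k f) :
    heckeTrue k p δ' f = heckeTrue k p δ f := by
  rw [heckeTrue_def, heckeTrue_def, slash_eq_of_eq hf hδ hδ' h]

end heckeTrue

end Fermat.Agent.ES.R48.TpInv9
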