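/-
Programme R (S48, Deligne–Serre), chapter B-HK (helper9), brick 3: the TRUE Hecke operator
`T_p : S_k(Γ₁(N)) → S_k(Γ₁(N))` (`p` prime, `p ∤ N`) on Mathlib's `CuspForm (Gamma1 N) k`, with

* `coe_Tp`      : `⇑(Tp f) = heckeU k p ⇑f + ⇑(diamond k ⟨p⟩ f) ∣[k] heckeDiagMatrix p`;
* `qCoeff_Tp`   : `a_n(T_p f) = a_{np}(f) + [p ∣ n] p^{k-1} a_{n/p}(⟨p⟩ f)`;
* `Tp_diamond`  : `T_p ⟨u⟩ = ⟨u⟩ T_p`.
-/
import Mathlib
import Fermat.Prelude.Sol.S_UpperHalfPlane_qCoeff_heckeT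
import Fermat.Prelude.Sol.S_CuspFormClass_isZeroAt_heckeT
import Fermat.Agent.ES.R48.TpInv9

set_option autoImplicit false

open CongruenceSubgroup UpperHalfPlane ModularForm Matrix.SpecialLinearGroup
open scoped MatrixGroups ModularForm
open Fermat.Agent.ES.R48.Gamma1Slash9 Fermat.Agent.ES.R48.TpInv9

noncomputable section

namespace Fermat.Agent.ES.R48.TpForm9

variable {N : ℕ} {k : ℤ}

/-! ### Analytic facts about `S_k(Γ₁(N))` at `∞` -/

theorem one_mem_strictPeriods_Gamma1 (N : ℕ) :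
    (1 : ℝ) ∈ (Subgroup.map (mapGL ℝ) (Gamma1 N)).strictPeriods := by
  have hT : ModularGroup.T ∈ Gamma1 N := by
    rw [Gamma1_mem]
    simp [ModularGroup.T]
  rw [Subgroup.strictPeriods_eq_zmultiples_one_of_T_mem hT]
  exact AddSubgroup.mem_zmultiples (1 : ℝ)

theorem periodic_coe (f : CuspForm (Gamma1 N) k) : Function.Periodic (⇑f ∘ ofComplex) 1 :=
  SlashInvariantFormClass.periodic_comp_ofComplex f (one_mem_strictPeriods_Gamma1 N)

theorem isBoundedAtImInfty_coe (f : CuspForm (Gamma1 N) k) : IsBoundedAtImInfty ⇑f :=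
  haveI : Fact (IsCusp OnePoint.infty (Subgroup.map (mapGL ℝ) (Gamma1 N))) :=
    ⟨Subgroup.isCusp_of_mem_strictPeriods one_pos (one_mem_strictPeriods_Gamma1 N)⟩
  ModularFormClass.bdd_at_infty f

theorem analyticAt_coe (f : CuspForm (Gamma1 N) k) : AnalyticAt ℂ (cuspFunction 1 ⇑f) 0 :=
  analyticAt_cuspFunction_zero one_pos (periodic_coe f) (CuspFormClass.holo f)
    (isBoundedAtImInfty_coe f)

/-- the `q`-expansion of a form of level `Γ₁(N)` at `∞`. -/
theorem hasSum_qCoeff (f : CuspForm (Gamma1 N) k) (τ : ℍ) :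
    HasSum (fun m ↦ ModularFormClass.qCoeff ⇑f m • Function.Periodic.qParam 1 τ ^ m) (f τ) :=
  hasSum_qExpansion one_pos (periodic_coe f) (CuspFormClass.holo f) (isBoundedAtImInfty_coe f) τ

/-- `q`-expansion principle on `S_k(Γ₁(N))`. -/
theorem eq_of_forall_qCoeff_eq {f g : CuspForm (Gamma1 N) k}
    (h : ∀ n : ℕ, ModularFormClass.qCoeff ⇑f n = ModularFormClass.qCoeff ⇑g n) : f = g := by
  refine DFunLike.ext f g fun τ => ?_
  have hf := hasSum_qCoeff f τ
  have hg := hasSum_qCoeff g τ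
  simp only [h] at hf
  exact hf.unique hg

/-- uniqueness of `q`-coefficients on `S_k(Γ₁(N))`. -/
theorem qCoeff_unique (f : CuspForm (Gamma1 N) k) {c : ℕ → ℂ}
    (hs : ∀ τ : ℍ, HasSum (fun m ↦ c m • Function.Periodic.qParam 1 τ ^ m) (f τ)) (m : ℕ) :
    ModularFormClass.qCoeff ⇑f m = c m :=
  (P2MW.S_UpperHalfPlane_qCoeff_heckeT.M4cP1W2.qExpansion_coeff_unique'
    (CuspFormClass.holo f).continuous (analyticAt_coe f) hs m).symm

theorem qCoeff_add (f g : CuspForm (Gamma1 N) k) (n : ℕ) :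
    ModularFormClass.qCoeff ⇑(f + g) n
      = ModularFormClass.qCoeff ⇑f n + ModularFormClass.qCoeff ⇑g n := by
  refine qCoeff_unique (f + g) (c := fun m => ModularFormClass.qCoeff ⇑f m
      + ModularFormClass.qCoeff ⇑g m) (fun τ => ?_) n
  have := (hasSum_qCoeff f τ).add (hasSum_qCoeff g τ)
  simpa only [add_smul, FunLike.coe_add, Pi.add_apply] using this

theorem qCoeff_smul [NeZero N] (c : ℂ) (f : CuspForm (Gamma1 N) k) (n : ℕ) :
    ModularFormClass.qCoeff ⇑(c • f) n = c * ModularFormClass.qCoeff ⇑f n := by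
  refine qCoeff_unique (c • f) (c := fun m => c * ModularFormClass.qCoeff ⇑f m) (fun τ => ?_) n
  have := (hasSum_qCoeff f τ).mul_left c
  simpa only [smul_eq_mul, mul_assoc, FunLike.coe_smul, Pi.smul_apply] using this

theorem qCoeff_zero_form (n : ℕ) :
    ModularFormClass.qCoeff ⇑(0 : CuspForm (Gamma1 N) k) n = 0 := by
  refine qCoeff_unique (0 : CuspForm (Gamma1 N) k) (c := fun _ => 0) (fun τ => ?_) n
  simp

/-! ### The operator -/

variable [NeZero N]

/-- the class of a prime `p ∤ N` in `(ZMod N)ˣ`. -/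
def primeUnit {p : ℕ} (hp : p.Prime) (hpN : ¬ p ∣ N) : (ZMod N)ˣ :=
  ZMod.unitOfCoprime p ((Nat.Prime.coprime_iff_not_dvd hp).mpr hpN)

omit [NeZero N] in
@[simp] theorem coe_primeUnit {p : ℕ} (hp : p.Prime) (hpN : ¬ p ∣ N) :
    ((primeUnit hp hpN : (ZMod N)ˣ) : ZMod N) = (p : ZMod N) :=
  ZMod.coe_unitOfCoprime p _

variable {p : ℕ}

/-- the underlying function of `T_p f`. -/
theorem TpFun_eq (hp : p.Prime) (hpN : ¬ p ∣ N) (f : CuspForm (Gamma1 N) k) :
    heckeU k p ⇑f + ⇑(diamond k (primeUnit hp hpN) f) ∣[k] heckeDiagMatrix p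
      = heckeTrue k p (diamondRep N (primeUnit hp hpN)) ⇑f := rfl

/-- The true Hecke operator `T_p`, `p ∤ N`, on `S_k(Γ₁(N))` (as a function on forms). -/
def TpFun (hp : p.Prime) (hpN : ¬ p ∣ N) (f : CuspForm (Gamma1 N) k) :
    CuspForm (Gamma1 N) k where
  toFun := heckeU k p ⇑f + ⇑(diamond k (primeUnit hp hpN) f) ∣[k] heckeDiagMatrix p
  slash_action_eq' := by
    rintro _ ⟨γ, hγ, rfl⟩
    have : Fact p.Prime := ⟨hp⟩
    rw [TpFun_eq]
    exact inv1_heckeTrue hpN (diamondRep_mem _)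
      ((diamondRep_apply _).trans (coe_primeUnit hp hpN)) (inv1_coe f) γ hγ
  holo' := (P2MW.S_UpperHalfPlane_qCoeff_heckeT.M4cP1W2.mdifferentiable_heckeU k p
    (CuspFormClass.holo f)).add ((CuspFormClass.holo (diamond k (primeUnit hp hpN) f)).slash k _)
  zero_at_cusps' := fun {c} hc => by
    refine (P2MW.S_CuspFormClass_isZeroAt_heckeT.ModularForm.S06W2.isZeroAt_heckeU f p hc).add ?_
    obtain ⟨g, hg⟩ :=
      P2MW.S_CuspFormClass_isZeroAt_heckeT.ModularForm.S06W2.exists_heckeDiagMatrix_eq_map p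
    rw [hg]
    exact P2MW.S_CuspFormClass_isZeroAt_heckeT.ModularForm.S06W2.isZeroAt_slash_ratCast
      (diamond k (primeUnit hp hpN) f) g hc

theorem coe_TpFun (hp : p.Prime) (hpN : ¬ p ∣ N) (f : CuspForm (Gamma1 N) k) :
    ⇑(TpFun hp hpN f)
      = heckeU k p ⇑f + ⇑(diamond k (primeUnit hp hpN) f) ∣[k] heckeDiagMatrix p := rfl

/-- **The true Hecke operator `T_p`**, `p ∤ N`, on `S_k(Γ₁(N))`. -/
def Tp (k : ℤ) (hp : p.Prime) (hpN : ¬ p ∣ N) :
    CuspForm (Gamma1 N) k →ₗ[ℂ] CuspForm (Gamma1 N) k where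
  toFun f := TpFun hp hpN f
  map_add' f g := DFunLike.coe_injective <| by
    rw [coe_TpFun, map_add, FunLike.coe_add, FunLike.coe_add, FunLike.coe_add, heckeU_add,
      SlashAction.add_slash, coe_TpFun, coe_TpFun]
    abel
  map_smul' c f := DFunLike.coe_injective <| by
    rw [coe_TpFun, map_smul, RingHom.id_apply, FunLike.coe_smul, FunLike.coe_smul,
      FunLike.coe_smul, heckeU_smul, ModularForm.smul_slash, σ_heckeDiagMatrix,
      ContinuousAlgEquiv.refl_apply, coe_TpFun, smul_add]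

theorem coe_Tp (hp : p.Prime) (hpN : ¬ p ∣ N) (f : CuspForm (Gamma1 N) k) :
    ⇑(Tp k hp hpN f)
      = heckeU k p ⇑f + ⇑(diamond k (primeUnit hp hpN) f) ∣[k] heckeDiagMatrix p := rfl

/-- `T_p` with ANY `δ ∈ Γ₀(N)` of lower-right entry `≡ p`. -/
theorem coe_Tp_eq_heckeTrue (hp : p.Prime) (hpN : ¬ p ∣ N) {δ : SL(2, ℤ)} (hδ : δ ∈ Gamma0 N)
    (hδp : ((δ 1 1 : ℤ) : ZMod N) = (p : ZMod N)) (f : CuspForm (Gamma1 N) k) :
    ⇑(Tp k hp hpN f) = heckeTrue k p δ ⇑f := by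
  rw [coe_Tp, TpFun_eq]
  exact heckeTrue_congr hδ (diamondRep_mem _)
    ((diamondRep_apply _).trans ((coe_primeUnit hp hpN).trans hδp.symm)) (inv1_coe f)

/-- **`T_p` commutes with the diamond operators.** -/
theorem Tp_diamond (hp : p.Prime) (hpN : ¬ p ∣ N) (u : (ZMod N)ˣ) (f : CuspForm (Gamma1 N) k) :
    Tp k hp hpN (diamond k u f) = diamond k u (Tp k hp hpN f) :=
  DFunLike.coe_injective <| by
    have : Fact p.Prime := ⟨hp⟩
    have hδ := diamondRep_mem (primeUnit hp hpN)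
    have hδp := (diamondRep_apply (primeUnit hp hpN)).trans (coe_primeUnit hp hpN)
    rw [coe_diamond u (diamondRep_mem u) (diamondRep_apply u), coe_Tp_eq_heckeTrue hp hpN hδ hδp,
      coe_Tp_eq_heckeTrue hp hpN hδ hδp, coe_diamond u (diamondRep_mem u) (diamondRep_apply u),
      heckeTrue_slash hpN hδ hδp (inv1_coe f) (diamondRep_mem u)]

/-- **The `q`-expansion of `T_p f`**:
`a_n(T_p f) = a_{np}(f) + [p ∣ n] p^{k-1} a_{n/p}(⟨p⟩ f)`. -/
theorem qCoeff_Tp (hp : p.Prime) (hpN : ¬ p ∣ N) (f : CuspForm (Gamma1 N) k) (n : ℕ) :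
    ModularFormClass.qCoeff ⇑(Tp k hp hpN f) n
      = ModularFormClass.qCoeff ⇑f (n * p)
        + if p ∣ n then (p : ℂ) ^ (k - 1)
            * ModularFormClass.qCoeff ⇑(diamond k (primeUnit hp hpN) f) (n / p) else 0 := by
  have hp0 : p ≠ 0 := hp.ne_zero
  set f' := diamond k (primeUnit hp hpN) f with hf'
  refine qCoeff_unique (Tp k hp hpN f) (c := fun n => ModularFormClass.qCoeff ⇑f (n * p)
        + if p ∣ n then (p : ℂ) ^ (k - 1) * ModularFormClass.qCoeff ⇑f' (n / p) else 0)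
    (fun τ => ?_) n
  have h1 := P2MW.S_UpperHalfPlane_qCoeff_heckeT.M4cP1W2.hasSum_average hp0 (periodic_coe f)
    (CuspFormClass.holo f) (isBoundedAtImInfty_coe f) τ
  have h2 := P2MW.S_UpperHalfPlane_qCoeff_heckeT.M4cP1W2.hasSum_diag hp0 (periodic_coe f')
    (CuspFormClass.holo f') (isBoundedAtImInfty_coe f') k τ
  have h3 : (Tp k hp hpN f) τ = (p : ℂ)⁻¹ * ∑ j ∈ Finset.range p, f (heckeMatrix p j • τ)
      + (p : ℂ) ^ (k - 1) * f' (heckeDiagMatrix p • τ) := by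
    rw [coe_Tp, Pi.add_apply, heckeU_apply k hp0, slash_heckeDiagMatrix_apply k hp0]
  rw [h3]
  convert h1.add h2 using 1
  funext m
  rw [smul_eq_mul]
  split_ifs <;> ring

end Fermat.Agent.ES.R48.TpForm9
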