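/-
Programme R (S48, Deligne–Serre), chapter B5 (helper25): the applied lifting lemma.

From the depleted weight-one form `fd` (nebentypus `ε`, coefficients in `𝒪`, formal Hecke relations
with eigenvalues `a p ∈ 𝒪`) and the weight-one Eisenstein series `E` of a Teichmüller-inverse
character `χ` mod `ℓ`, we get a weight-two eigenform `w` in characteristic zero, of level `Γ₁(M')`
and nebentypus `ε χ`, whose `T_p`-eigenvalues (`p ∤ M'`) reduce to `φ₁ (a p)`.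
-/
import Mathlib
import Fermat.Prelude.Def_FLTPrelim_Modularity
import Fermat.Agent.ES.R48.RatIface22
import Fermat.Agent.ES.R48.TpForm9
import Fermat.Agent.ES.R48.LiftLem25
import Fermat.Agent.ES.R48.MulGamma25

set_option autoImplicit false

open CongruenceSubgroup UpperHalfPlane ModularForm
open scoped MatrixGroups ModularForm
open Fermat.Agent.ES.R48.Gamma1Slash9 Fermat.Agent.ES.R48.TpForm9
  Fermat.Agent.ES.R48.RatIface22 Fermat.Agent.ES.R48.MulGamma25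

noncomputable section

namespace Fermat.Agent.ES.R48.LiftInst25

/-! ### The `ψ`-part of `S_k(Γ₁(M'))` and the formal operators -/

section PsiPart

variable {M' : ℕ} [NeZero M'] {k : ℤ} {ψ : (ZMod M')ˣ → ℂ}

/-- the `ψ`-eigenspace of the diamond operators. -/
def psiPart (k : ℤ) (ψ : (ZMod M')ˣ → ℂ) : Submodule ℂ (CuspForm (Gamma1 M') k) where
  carrier := {g | ∀ u, diamond k u g = ψ u • g}
  add_mem' := by
    intro a b ha hb u
    rw [map_add, ha u, hb u, smul_add]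
  zero_mem' := by
    intro u
    rw [map_zero, smul_zero]
  smul_mem' := by
    intro c g hg u
    rw [map_smul, hg u, smul_comm]

theorem mem_psiPart {g : CuspForm (Gamma1 M') k} :
    g ∈ psiPart k ψ ↔ ∀ u, diamond k u g = ψ u • g := Iff.rfl

variable {p q : ℕ}

theorem Tp_mem_psiPart (hp : p.Prime) (hpM : ¬ p ∣ M') {g : CuspForm (Gamma1 M') k}
    (hg : g ∈ psiPart k ψ) : Tp k hp hpM g ∈ psiPart k ψ := by
  intro u
  rw [← Tp_diamond, hg u, map_smul]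

/-- the `q`-expansion of `T_p` on the `ψ`-part. -/
theorem qCoeff_Tp_psi (hp : p.Prime) (hpM : ¬ p ∣ M') {g : CuspForm (Gamma1 M') k}
    (hg : g ∈ psiPart k ψ) (n : ℕ) :
    ModularFormClass.qCoeff ⇑(Tp k hp hpM g) n
      = ModularFormClass.qCoeff ⇑g (n * p)
        + if p ∣ n then ((p : ℂ) ^ (k - 1) * ψ (primeUnit hp hpM))
            * ModularFormClass.qCoeff ⇑g (n / p) else 0 := by
  rw [qCoeff_Tp, hg (primeUnit hp hpM), qCoeff_smul]
  split_ifs
  · ring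
  · rfl

theorem dvd_mul_prime_iff {p q n : ℕ} (hp : p.Prime) (hq : q.Prime) (hpq : p ≠ q) :
    q ∣ n * p ↔ q ∣ n := by
  rw [hq.dvd_mul]
  constructor
  · rintro (h | h)
    · exact h
    · exact absurd ((Nat.prime_dvd_prime_iff_eq hq hp).1 h).symm hpq
  · exact Or.inl

/-- an abstract form of the commutation computation. -/
theorem comm_aux {p q : ℕ} (hp : p.Prime) (hq : q.Prime) (hpq : p ≠ q) (a : ℕ → ℂ) (cp cq : ℂ)
    (n : ℕ) :
    (a (n * p * q) + if q ∣ n * p then cq * a (n * p / q) else 0)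
      + (if p ∣ n then cp * (a (n / p * q) + if q ∣ n / p then cq * a (n / p / q) else 0) else 0)
    = (a (n * q * p) + if p ∣ n * q then cp * a (n * q / p) else 0)
      + (if q ∣ n then cq * (a (n / q * p) + if p ∣ n / q then cp * a (n / q / p) else 0) else 0) := by
  have hp0 : 0 < p := hp.pos
  have hq0 : 0 < q := hq.pos
  simp only [dvd_mul_prime_iff hp hq hpq, dvd_mul_prime_iff hq hp (Ne.symm hpq)]
  rw [mul_right_comm n q p]
  by_cases hpn : p ∣ n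
  · obtain ⟨m, rfl⟩ := hpn
    have e1 : p * m / p = m := Nat.mul_div_cancel_left m hp0
    have e2 : p * m * q / p = m * q := by rw [mul_assoc]; exact Nat.mul_div_cancel_left _ hp0
    have e3 : q ∣ p * m ↔ q ∣ m := by rw [mul_comm]; exact dvd_mul_prime_iff hp hq hpq
    simp only [dvd_mul_right, ↓reduceIte, e1, e2, e3]
    by_cases hqm : q ∣ m
    · obtain ⟨r, rfl⟩ := hqm
      have e4 : q * r / q = r := Nat.mul_div_cancel_left r hq0
      have e5 : p * (q * r) * p / q = p * r * p := by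
        rw [show p * (q * r) * p = q * (p * r * p) by ring]
        exact Nat.mul_div_cancel_left _ hq0
      have e6 : p * (q * r) / q = p * r := by
        rw [show p * (q * r) = q * (p * r) by ring]
        exact Nat.mul_div_cancel_left _ hq0
      have e7 : p * r / p = r := Nat.mul_div_cancel_left r hp0
      simp only [dvd_mul_right, ↓reduceIte, e4, e5, e6, e7]
      ring
    · simp only [hqm, ↓reduceIte]
      ring
  · simp only [hpn, ↓reduceIte]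
    by_cases hqn : q ∣ n
    · obtain ⟨m, rfl⟩ := hqn
      have e1 : q * m / q = m := Nat.mul_div_cancel_left m hq0
      have e2 : q * m * p / q = m * p := by rw [mul_assoc]; exact Nat.mul_div_cancel_left _ hq0
      have e3 : ¬ p ∣ m := fun h => hpn (dvd_mul_of_dvd_right h q)
      simp only [dvd_mul_right, ↓reduceIte, e1, e2, e3]
      ring
    · simp only [hqn, ↓reduceIte]

/-- **`T_p` and `T_q` commute on the `ψ`-part.** -/
theorem Tp_comm_psi (hp : p.Prime) (hpM : ¬ p ∣ M') (hq : q.Prime) (hqM : ¬ q ∣ M')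
    {g : CuspForm (Gamma1 M') k} (hg : g ∈ psiPart k ψ) :
    Tp k hp hpM (Tp k hq hqM g) = Tp k hq hqM (Tp k hp hpM g) := by
  by_cases hpq : p = q
  · subst hpq
    rfl
  apply eq_of_forall_qCoeff_eq
  intro n
  rw [qCoeff_Tp_psi hp hpM (Tp_mem_psiPart hq hqM hg),
    qCoeff_Tp_psi hq hqM (Tp_mem_psiPart hp hpM hg)]
  simp only [qCoeff_Tp_psi hq hqM hg, qCoeff_Tp_psi hp hpM hg]
  exact comm_aux hp hq hpq _ _ _ n

end PsiPart

/-! ### Congruences of `q`-expansions modulo `ker φ₁` -/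

section Cong

variable {κ : Type*} [Field κ] (𝒪 : Subring ℂ) (φ₁ : 𝒪 →+* κ)

/-- the image in `ℂ` of `ker φ₁`. -/
def kerC : AddSubgroup ℂ where
  carrier := {z | ∃ m : 𝒪, φ₁ m = 0 ∧ (m : ℂ) = z}
  add_mem' := by
    rintro _ _ ⟨m, hm, rfl⟩ ⟨m', hm', rfl⟩
    exact ⟨m + m', by rw [map_add, hm, hm', add_zero], by push_cast; rfl⟩
  zero_mem' := ⟨0, map_zero _, rfl⟩
  neg_mem' := by
    rintro _ ⟨m, hm, rfl⟩
    exact ⟨-m, by rw [map_neg, hm, neg_zero], by push_cast; rfl⟩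

variable {𝒪 φ₁}

theorem coe_mem_kerC_iff (m : 𝒪) : (m : ℂ) ∈ kerC 𝒪 φ₁ ↔ φ₁ m = 0 :=
  ⟨by rintro ⟨m', hm', h⟩; rwa [← Subtype.ext h], fun h => ⟨m, h, rfl⟩⟩

theorem mul_mem_kerC (c : 𝒪) {z : ℂ} (hz : z ∈ kerC 𝒪 φ₁) : (c : ℂ) * z ∈ kerC 𝒪 φ₁ := by
  obtain ⟨m, hm, rfl⟩ := hz
  exact ⟨c * m, by rw [map_mul, hm, mul_zero], by push_cast; rfl⟩

variable {M' : ℕ} [NeZero M'] {k : ℤ}

theorem qCoeff_neg (g : CuspForm (Gamma1 M') k) (n : ℕ) :
    ModularFormClass.qCoeff ⇑(-g) n = -ModularFormClass.qCoeff ⇑g n := by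
  rw [← neg_one_smul ℂ g, qCoeff_smul, neg_one_mul]

theorem qCoeff_sub (f g : CuspForm (Gamma1 M') k) (n : ℕ) :
    ModularFormClass.qCoeff ⇑(f - g) n
      = ModularFormClass.qCoeff ⇑f n - ModularFormClass.qCoeff ⇑g n := by
  rw [sub_eq_add_neg, qCoeff_add, qCoeff_neg, sub_eq_add_neg]

variable (𝒪 φ₁) in
/-- the forms of `W` all of whose `q`-coefficients lie in `ker φ₁`. -/
def congZero (W : Submodule ℂ (CuspForm (Gamma1 M') k)) : AddSubgroup W where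
  carrier := {g | ∀ n, ModularFormClass.qCoeff ⇑(g : CuspForm (Gamma1 M') k) n ∈ kerC 𝒪 φ₁}
  add_mem' := by
    intro a b ha hb n
    rw [Submodule.coe_add, qCoeff_add]
    exact add_mem (ha n) (hb n)
  zero_mem' := by
    intro n
    rw [Submodule.coe_zero, qCoeff_zero_form]
    exact zero_mem _
  neg_mem' := by
    intro a ha n
    rw [Submodule.coe_neg, qCoeff_neg]
    exact neg_mem (ha n)

theorem mem_congZero {W : Submodule ℂ (CuspForm (Gamma1 M') k)} {g : W} :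
    g ∈ congZero 𝒪 φ₁ W ↔
      ∀ n, ModularFormClass.qCoeff ⇑(g : CuspForm (Gamma1 M') k) n ∈ kerC 𝒪 φ₁ := Iff.rfl

end Cong

/-! ### Two algebraic computations -/

section Alg

theorem map_conv {R κ : Type*} [CommRing R] [CommRing κ] (φ : R →+* κ) (A e : ℕ → R)
    (he : ∀ j, 0 < j → φ (e j) = 0) (n : ℕ) :
    φ (∑ ij ∈ Finset.HasAntidiagonal.antidiagonal n, A ij.1 * e ij.2) = φ (A n) * φ (e 0) := by
  rw [map_sum, Finset.sum_eq_single (n, 0)]
  · rw [map_mul]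
  · rintro ⟨i, j⟩ hij hne
    rw [Finset.HasAntidiagonal.mem_antidiagonal] at hij
    have hj : 0 < j := by
      rcases Nat.eq_zero_or_pos j with h | h
      · exfalso
        apply hne
        subst h
        simp only [add_zero] at hij
        subst hij
        rfl
      · exact h
    rw [map_mul, he j hj, mul_zero]
  · intro h
    exact absurd (Finset.HasAntidiagonal.mem_antidiagonal.2 (add_zero n)) h

theorem sum_teich {ℓ : ℕ} [hℓ : Fact ℓ.Prime] {R : Type*} [CommRing R] (φ : R →+* ZMod ℓ)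
    (c : ZMod ℓ → R) (hc : ∀ x, φ (c x) = x⁻¹) :
    φ (∑ x ∈ Finset.range ℓ, (x : R) * c (x : ZMod ℓ)) = -1 := by
  have hℓ1 : ℓ = (ℓ - 1) + 1 := by have := hℓ.out.two_le; omega
  rw [map_sum]
  have h1 : ∀ x ∈ Finset.range (ℓ - 1),
      φ (((x + 1 : ℕ) : R) * c ((x + 1 : ℕ) : ZMod ℓ)) = 1 := by
    intro x hx
    rw [Finset.mem_range] at hx
    rw [map_mul, map_natCast, hc]
    apply mul_inv_cancel₀
    rw [Ne, ZMod.natCast_eq_zero_iff]
    exact Nat.not_dvd_of_pos_of_lt (Nat.succ_pos x) (by omega)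
  have hr : Finset.range ℓ = Finset.range ((ℓ - 1) + 1) := by rw [← hℓ1]
  rw [hr, Finset.sum_range_succ', Finset.sum_congr rfl h1]
  simp only [Finset.sum_const, Finset.card_range, nsmul_eq_mul, mul_one, Nat.cast_zero, zero_mul,
    map_zero, add_zero]
  rw [Nat.cast_sub hℓ.out.one_le, ZMod.natCast_self, Nat.cast_one, zero_sub]

end Alg

/-! ### The product `fd · E` in the `ψ`-part -/

section Main

variable {N M ℓ M' : ℕ} [NeZero M] [NeZero M'] [NeZero ℓ]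

/-- the nebentypus `ε χ` of the product, as a function on `(ZMod M')ˣ`. -/
def psi (ε : DirichletCharacter ℂ N) (χ : DirichletCharacter ℂ ℓ) (M' : ℕ) (u : (ZMod M')ˣ) : ℂ :=
  ε (ZMod.cast (u : ZMod M')) * χ (ZMod.cast (u : ZMod M'))

omit [NeZero M'] [NeZero ℓ] in
theorem psi_eq (hN : N ∣ M') (hL : ℓ ∣ M') (ε : DirichletCharacter ℂ N)
    (χ : DirichletCharacter ℂ ℓ) (u : (ZMod M')ˣ) (d : ℤ) (hd : (d : ZMod M') = u) :
    ε (d : ZMod N) * χ (d : ZMod ℓ) = psi ε χ M' u := by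
  rw [psi, ← hd, ZMod.cast_intCast hN, ZMod.cast_intCast hL]

theorem mulGamma1_mem_psiPart (hN : N ∣ M') (hM : M ∣ M') (hL : ℓ ∣ M')
    {ε : DirichletCharacter ℂ N} {χ : DirichletCharacter ℂ ℓ}
    (fd : CuspForm (Gamma1 M) 1) (hfd : HasNeben M ε 1 fd)
    (E : ModularForm (Gamma1 ℓ) 1) (hE : HasNeben ℓ χ 1 E) :
    mulGamma1 fd E hM hL ∈ psiPart 2 (psi ε χ M') := by
  intro u
  apply DFunLike.coe_injective
  rw [coe_diamond u (diamondRep_mem u) (diamondRep_apply u),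
    slash_mulGamma1 fd E hM hL hfd hE _ (diamondRep_mem u),
    psi_eq hN hL ε χ u _ (diamondRep_apply u)]
  rfl

/-- **B5 (applied lifting lemma).**  A weight-two eigenform of level `Γ₁(M')` and nebentypus `ε χ`
in characteristic zero whose `T_p`-eigenvalues reduce to `φ₁ (a p)`. -/
theorem exists_char0_eigenform [hℓ : Fact ℓ.Prime]
    [Module.Finite ℂ (CuspForm (Gamma1 M') 2)]
    (hN : N ∣ M') (hM : M ∣ M') (hL : ℓ ∣ M')
    (ε : DirichletCharacter ℂ N) (χ : DirichletCharacter ℂ ℓ)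
    (fd : CuspForm (Gamma1 M) 1) (hfd : HasNeben M ε 1 fd)
    (E : EisData ℓ χ)
    (𝒪 : Subring ℂ) (φ₁ : 𝒪 →+* ZMod ℓ)
    (hε𝒪 : ∀ x : ZMod N, ε x ∈ 𝒪)
    (hχ𝒪 : ∀ x : ZMod ℓ, ∃ hx : χ x ∈ 𝒪, φ₁ ⟨χ x, hx⟩ = x⁻¹)
    (hfd𝒪 : ∀ n, ModularFormClass.qCoeff fd n ∈ 𝒪)
    (hfd1 : ModularFormClass.qCoeff fd 1 = 1)
    (a : ℕ → 𝒪)
    (hHecke : ∀ p : ℕ, p.Prime → ¬ p ∣ M' → ∀ n : ℕ,
        ModularFormClass.qCoeff fd (p * n) +
            ε (p : ZMod N) * (if p ∣ n then ModularFormClass.qCoeff fd (n / p) else 0) =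
          (a p : ℂ) * ModularFormClass.qCoeff fd n) :
    ∃ (R : Subring ℂ) (φ' : R →+* ZMod ℓ),
      (∀ x : 𝒪, ∃ hx : (x : ℂ) ∈ R, φ' ⟨(x : ℂ), hx⟩ = φ₁ x) ∧
      ∃ w : CuspForm (Gamma1 M') 2, w ≠ 0 ∧
        (∀ u : (ZMod M')ˣ, diamond 2 u w = psi ε χ M' u • w) ∧
        ∀ (p : ℕ) (hp : p.Prime) (hpM : ¬ p ∣ M'),
          ∃ b : R, Tp 2 hp hpM w = (b : ℂ) • w ∧ φ' b = φ₁ (a p) := by
  classical
  -- the elements of `𝒪`
  set χO : ZMod ℓ → 𝒪 := fun x => ⟨χ x, (hχ𝒪 x).1⟩ with hχO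
  have hχO1 : ∀ x, φ₁ (χO x) = x⁻¹ := fun x => (hχ𝒪 x).2
  set εO : ZMod N → 𝒪 := fun x => ⟨ε x, hε𝒪 x⟩ with hεO
  set A : ℕ → 𝒪 := fun n => ⟨ModularFormClass.qCoeff fd n, hfd𝒪 n⟩ with hA
  set S : 𝒪 := ∑ x ∈ Finset.range ℓ, (x : 𝒪) * χO (x : ZMod ℓ) with hS
  have hφS : φ₁ S = -1 := sum_teich φ₁ χO hχO1
  set σO : ℕ → 𝒪 := fun j => ∑ d ∈ j.divisors, χO (d : ZMod ℓ) with hσO
  set e : ℕ → 𝒪 := fun j => if j = 0 then S else -(2 * (ℓ : 𝒪)) * σO j with he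
  have hφe : ∀ j, 0 < j → φ₁ (e j) = 0 := by
    intro j hj
    simp only [he, if_neg hj.ne']
    rw [map_mul, map_neg, map_mul, map_natCast, ZMod.natCast_self, mul_zero, neg_zero, zero_mul]
  set H : ℕ → 𝒪 := fun n => ∑ ij ∈ Finset.HasAntidiagonal.antidiagonal n, A ij.1 * e ij.2 with hH
  have hφH : ∀ n, φ₁ (H n) = φ₁ (A n) * φ₁ S := by
    intro n
    have h0 : e 0 = S := if_pos rfl
    have := map_conv φ₁ A e hφe n
    rw [h0] at this
    exact this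
  have hcoe_sum : ∀ {α : Type} (s : Finset α) (f : α → 𝒪),
      ((∑ x ∈ s, f x : 𝒪) : ℂ) = ∑ x ∈ s, (f x : ℂ) := fun s f => map_sum 𝒪.subtype f s
  have hℓ0 : (ℓ : ℂ) ≠ 0 := Nat.cast_ne_zero.mpr hℓ.out.ne_zero
  set c : ℂ := -(2 * (ℓ : ℂ)) with hc
  have hej : ∀ j, (e j : ℂ) = c * ModularFormClass.qCoeff E.E j := by
    intro j
    by_cases hj : j = 0
    · subst hj
      simp only [he, if_pos rfl]
      rw [E.qCoeff_zero, eisConst, hS, hcoe_sum]
      have : ∀ x ∈ Finset.range ℓ, (((x : 𝒪) * χO (x : ZMod ℓ) : 𝒪) : ℂ)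
          = (x : ℂ) * χ (x : ZMod ℓ) := fun x _ => by push_cast; rfl
      rw [Finset.sum_congr rfl this, hc]
      field_simp
    · simp only [he, if_neg hj]
      rw [E.qCoeff_pos j (Nat.pos_of_ne_zero hj), sigmaChi, hc]
      push_cast
      rw [hσO]
      simp only [hcoe_sum]
      rfl
  -- the form
  set ψ := psi ε χ M' with hψ
  set W : Submodule ℂ (CuspForm (Gamma1 M') 2) := psiPart 2 ψ with hW
  set g₀ : CuspForm (Gamma1 M') 2 := mulGamma1 fd E.E hM hL with hg₀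
  have hg₀W : g₀ ∈ W := mulGamma1_mem_psiPart hN hM hL fd hfd E.E E.neben
  have hcoeff : ∀ n, ModularFormClass.qCoeff ⇑(c • g₀) n = (H n : ℂ) := by
    intro n
    rw [qCoeff_smul, hg₀, qCoeff_mulGamma1, Finset.mul_sum, hH, hcoe_sum]
    refine Finset.sum_congr rfl fun ij _ => ?_
    push_cast
    rw [hej ij.2]
    simp only [hA]
    ring
  -- the operators
  set T : {p : ℕ // p.Prime ∧ ¬ p ∣ M'} → Module.End ℂ W := fun i =>
    (Tp 2 i.2.1 i.2.2).restrict (fun g hg => Tp_mem_psiPart i.2.1 i.2.2 hg) with hT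
  have hTcoe : ∀ (i : {p : ℕ // p.Prime ∧ ¬ p ∣ M'}) (g : W),
      ((T i g : W) : CuspForm (Gamma1 M') 2) = Tp 2 i.2.1 i.2.2 (g : CuspForm (Gamma1 M') 2) :=
    fun i g => rfl
  have hcomm : ∀ i j, T i * T j = T j * T i := by
    intro i j
    refine LinearMap.ext fun g => Subtype.ext ?_
    rw [Module.End.mul_apply, Module.End.mul_apply, hTcoe, hTcoe, hTcoe, hTcoe]
    exact Tp_comm_psi i.2.1 i.2.2 j.2.1 j.2.2 g.2
  -- the coefficient `p ψ(p)` as an element of `𝒪`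
  set C : {p : ℕ // p.Prime ∧ ¬ p ∣ M'} → 𝒪 := fun i =>
    (i.1 : 𝒪) * (εO (i.1 : ZMod N) * χO (i.1 : ZMod ℓ)) with hC
  have hCcoe : ∀ i : {p : ℕ // p.Prime ∧ ¬ p ∣ M'},
      (C i : ℂ) = (i.1 : ℂ) ^ ((2 : ℤ) - 1) * ψ (primeUnit i.2.1 i.2.2) := by
    intro i
    have h1 : (i.1 : ℂ) ^ ((2 : ℤ) - 1) = (i.1 : ℂ) := by norm_num
    rw [h1, hψ, psi, coe_primeUnit, ZMod.cast_natCast hN, ZMod.cast_natCast hL]
    simp only [hC]
    push_cast
    rfl
  have hφC : ∀ i : {p : ℕ // p.Prime ∧ ¬ p ∣ M'}, φ₁ (C i) = φ₁ (εO (i.1 : ZMod N)) := by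
    intro i
    have hne : ((i.1 : ℕ) : ZMod ℓ) ≠ 0 := by
      rw [Ne, ZMod.natCast_eq_zero_iff]
      intro hdvd
      have : ℓ = i.1 := (Nat.prime_dvd_prime_iff_eq hℓ.out i.2.1).1 hdvd
      exact i.2.2 (this ▸ hL)
    simp only [hC]
    rw [map_mul, map_mul, map_natCast, hχO1, mul_comm (φ₁ _), ← mul_assoc, mul_inv_cancel₀ hne,
      one_mul]
  have hTq : ∀ (i : {p : ℕ // p.Prime ∧ ¬ p ∣ M'}) (g : W) (n : ℕ),
      ModularFormClass.qCoeff ⇑((T i g : W) : CuspForm (Gamma1 M') 2) n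
        = ModularFormClass.qCoeff ⇑(g : CuspForm (Gamma1 M') 2) (n * i.1)
          + if i.1 ∣ n then (C i : ℂ) * ModularFormClass.qCoeff ⇑(g : CuspForm (Gamma1 M') 2) (n / i.1)
            else 0 := by
    intro i g n
    rw [hTcoe, qCoeff_Tp_psi i.2.1 i.2.2 g.2, hCcoe]
  -- the Hecke relation in `𝒪`
  have hHeckeO : ∀ (i : {p : ℕ // p.Prime ∧ ¬ p ∣ M'}) (n : ℕ),
      A (n * i.1) + (if i.1 ∣ n then εO (i.1 : ZMod N) * A (n / i.1) else 0) = a i.1 * A n := by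
    intro i n
    apply Subtype.ext
    have := hHecke i.1 i.2.1 i.2.2 n
    rw [mul_comm i.1 n] at this
    push_cast
    rw [← this]
    simp only [hA, hεO]
    split_ifs
    · rfl
    · simp
  -- the data of the lifting lemma
  obtain ⟨h, hh⟩ : ∃ h : W, h = ⟨c • g₀, W.smul_mem c hg₀W⟩ := ⟨_, rfl⟩
  have hhcoe : ∀ n, ModularFormClass.qCoeff ⇑((h : W) : CuspForm (Gamma1 M') 2) n = (H n : ℂ) := by
    intro n
    rw [hh]
    exact hcoeff n
  have h𝒪 : ∀ c' : 𝒪, ∀ x ∈ congZero 𝒪 φ₁ W, (c' : ℂ) • x ∈ congZero 𝒪 φ₁ W := by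
    intro c' x hx n
    rw [Submodule.coe_smul, qCoeff_smul]
    exact mul_mem_kerC c' (hx n)
  have hT𝓝 : ∀ i, ∀ x ∈ congZero 𝒪 φ₁ W, T i x ∈ congZero 𝒪 φ₁ W := by
    intro i x hx n
    rw [hTq]
    refine add_mem (hx _) ?_
    split_ifs
    · exact mul_mem_kerC _ (hx _)
    · exact zero_mem _
  have hhnot : h ∉ congZero 𝒪 φ₁ W := by
    intro hmem
    have h1 := hmem 1
    rw [hhcoe, coe_mem_kerC_iff, hφH, hφS] at h1
    have hA1 : A 1 = 1 := Subtype.ext hfd1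
    rw [hA1, map_one, one_mul] at h1
    exact one_ne_zero (neg_eq_zero.1 h1)
  have hker : ∀ m : 𝒪, φ₁ m = 0 → (m : ℂ) • h ∈ congZero 𝒪 φ₁ W := by
    intro m hm n
    rw [Submodule.coe_smul, qCoeff_smul, hhcoe, ← Subring.coe_mul, coe_mem_kerC_iff, map_mul, hm,
      zero_mul]
  have ha : ∀ i : {p : ℕ // p.Prime ∧ ¬ p ∣ M'},
      T i h - ((a i.1 : 𝒪) : ℂ) • h ∈ congZero 𝒪 φ₁ W := by
    intro i n
    rw [Submodule.coe_sub, qCoeff_sub, hTq, Submodule.coe_smul, qCoeff_smul, hhcoe, hhcoe, hhcoe]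
    have hX : (H (n * i.1) : ℂ) + (if i.1 ∣ n then (C i : ℂ) * (H (n / i.1) : ℂ) else 0)
        - (a i.1 : ℂ) * (H n : ℂ)
        = ((H (n * i.1) + (if i.1 ∣ n then C i * H (n / i.1) else 0) - a i.1 * H n : 𝒪) : ℂ) := by
      push_cast
      split_ifs <;> simp
    rw [hX, coe_mem_kerC_iff, map_sub, map_add, map_mul, hφH, hφH]
    have h2 := congrArg φ₁ (hHeckeO i n)
    rw [map_add, map_mul] at h2
    split_ifs with hdvd
    · rw [if_pos hdvd, map_mul] at h2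
      rw [map_mul, hφC, hφH]
      linear_combination (φ₁ S) * h2
    · rw [if_neg hdvd, map_zero] at h2
      rw [map_zero]
      linear_combination (φ₁ S) * h2
  obtain ⟨R, φ', hext, w, hw0, hw⟩ := LiftLem25.exists_eigenvector_lift T hcomm 𝒪 φ₁
    (ZMod.ringHom_surjective φ₁) (congZero 𝒪 φ₁ W) h𝒪 hT𝓝 h hhnot hker (fun i => a i.1) ha
  refine ⟨R, φ', hext, (w : CuspForm (Gamma1 M') 2), ?_, w.2, ?_⟩
  · intro h0
    exact hw0 (Subtype.ext h0)
  · intro p hp hpM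
    obtain ⟨b, hb1, hb2⟩ := hw ⟨p, hp, hpM⟩
    refine ⟨b, ?_, hb2⟩
    have := congrArg (fun x : W => (x : CuspForm (Gamma1 M') 2)) hb1
    exact this

end Main

end Fermat.Agent.ES.R48.LiftInst25
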