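/-
Programme R (S48, Deligne–Serre), chapter B5 (helper25): extension of a reduction map to the
`(ℓ-1)`-th roots of unity, and the Teichmüller character.

Input: any subring `𝒪₀ ⊆ ℂ` with a ring hom `φ : 𝒪₀ →+* ZMod ℓ` (`ℓ` an odd prime).
Output: a subring `𝒪 ⊇ 𝒪₀` of `ℂ`, `φ₁ : 𝒪 →+* ZMod ℓ` extending `φ` (same residue field!), and a
Dirichlet character `ω` mod `ℓ` with values in `𝒪` such that `φ₁ (ω a) = a` for all `a`.
-/
import Mathlib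

set_option autoImplicit false

open Polynomial

namespace Fermat.Agent.ES.R48.Teich25

variable {ℓ : ℕ} [hℓ : Fact ℓ.Prime]

/-- `X ^ ℓ - X = ∏ (X - a)` over `ZMod ℓ`. -/
theorem prod_X_sub_C_zmod : ∏ a : ZMod ℓ, (X - C a) = (X ^ ℓ - X : (ZMod ℓ)[X]) := by
  have h := FiniteField.roots_X_pow_card_sub_X (ZMod ℓ)
  rw [ZMod.card] at h
  have hmonic : (X ^ ℓ - X : (ZMod ℓ)[X]).Monic :=
    monic_X_pow_sub (by rw [degree_X]; exact_mod_cast hℓ.out.one_lt)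
  have hdeg : (X ^ ℓ - X : (ZMod ℓ)[X]).natDegree = ℓ :=
    FiniteField.X_pow_card_sub_X_natDegree_eq _ hℓ.out.one_lt
  have := prod_multiset_X_sub_C_of_monic_of_roots_card_eq hmonic (by rw [h, hdeg]; simp)
  rw [h] at this
  simpa using this

/-- In a domain receiving `ZMod ℓ`, a root of `X ^ ℓ - X` comes from `ZMod ℓ`. -/
theorem exists_eq_of_pow_eq {D : Type*} [CommRing D] [IsDomain D] (j : ZMod ℓ →+* D) (z : D)
    (hz : z ^ ℓ = z) : ∃ a : ZMod ℓ, j a = z := by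
  have h := congrArg (Polynomial.eval₂ j z) (prod_X_sub_C_zmod (ℓ := ℓ))
  simp only [eval₂_finsetProd, eval₂_sub, eval₂_X, eval₂_C, eval₂_pow, hz, sub_self] at h
  obtain ⟨a, -, ha⟩ := Finset.prod_eq_zero_iff.1 h
  exact ⟨a, (sub_eq_zero.1 ha).symm⟩

variable (ℓ) in
/-- the standard primitive `(ℓ-1)`-th root of unity of `ℂ`. -/
noncomputable def zeta : ℂ := Complex.exp (2 * Real.pi * Complex.I / ((ℓ - 1 : ℕ) : ℂ))

theorem pred_pos : 0 < ℓ - 1 := by have := hℓ.out.two_le; omega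

theorem zeta_isPrimitiveRoot : IsPrimitiveRoot (zeta ℓ) (ℓ - 1) :=
  Complex.isPrimitiveRoot_exp _ (pred_pos (ℓ := ℓ)).ne'

theorem zeta_pow : zeta ℓ ^ ℓ = zeta ℓ := by
  have h : ℓ = (ℓ - 1) + 1 := by have := pred_pos (ℓ := ℓ); omega
  calc zeta ℓ ^ ℓ = zeta ℓ ^ ((ℓ - 1) + 1) := by rw [← h]
    _ = zeta ℓ := by rw [pow_succ, (zeta_isPrimitiveRoot (ℓ := ℓ)).pow_eq_one, one_mul]

/-- **Extension of the reduction map** to `𝒪₀[ζ_{ℓ-1}]`, with the same residue field. -/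
theorem exists_extension (𝒪₀ : Subring ℂ) (φ : 𝒪₀ →+* ZMod ℓ) :
    ∃ (𝒪 : Subring ℂ) (φ₁ : 𝒪 →+* ZMod ℓ), zeta ℓ ∈ 𝒪 ∧
      ∀ x : 𝒪₀, ∃ hx : (x : ℂ) ∈ 𝒪, φ₁ ⟨x, hx⟩ = φ x := by
  classical
  set S : Subalgebra 𝒪₀ ℂ := Algebra.adjoin 𝒪₀ ({zeta ℓ} : Set ℂ) with hS
  have hζS : zeta ℓ ∈ S := Algebra.subset_adjoin (Set.mem_singleton _)
  have hint : Algebra.IsIntegral 𝒪₀ S := by
    refine Algebra.IsIntegral.adjoin ?_
    rintro x rfl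
    exact ((zeta_isPrimitiveRoot (ℓ := ℓ)).isIntegral pred_pos).tower_top
  have : (RingHom.ker φ).IsPrime := RingHom.ker_isPrime φ
  have hinj : Function.Injective (algebraMap 𝒪₀ S) := by
    intro x y hxy
    have := congrArg (fun s : S => (s : ℂ)) hxy
    exact Subtype.ext this
  obtain ⟨Q, -, hQp, hQ⟩ := Ideal.exists_ideal_over_prime_of_isIntegral (RingHom.ker φ)
    (⊥ : Ideal S) (by
      rw [← RingHom.ker_eq_comap_bot, (RingHom.injective_iff_ker_eq_bot _).1 hinj]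
      exact bot_le)
  have := hQp
  have hmem : ∀ x : 𝒪₀, φ x = 0 → algebraMap 𝒪₀ S x ∈ Q := by
    intro x hx
    have : x ∈ Q.comap (algebraMap 𝒪₀ S) := by rw [hQ]; exact hx
    exact this
  have hℓQ : ((ℓ : ℕ) : S ⧸ Q) = 0 := by
    have h2 := hmem (ℓ : 𝒪₀) (by simp)
    rw [map_natCast] at h2
    rw [← map_natCast (Ideal.Quotient.mk Q)]
    exact Ideal.Quotient.eq_zero_iff_mem.2 h2
  have : CharP (S ⧸ Q) ℓ := (CharP.charP_iff_prime_eq_zero hℓ.out).2 hℓQ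
  let j : ZMod ℓ →+* S ⧸ Q := ZMod.castHom (dvd_refl ℓ) (S ⧸ Q)
  have hj0 : ∀ x : 𝒪₀, Ideal.Quotient.mk Q (algebraMap 𝒪₀ S x) = j (φ x) := by
    intro x
    obtain ⟨m, hm⟩ : ∃ m : ℕ, φ x = (m : ZMod ℓ) := ⟨(φ x).val, (ZMod.natCast_zmod_val _).symm⟩
    have h1 := hmem (x - (m : 𝒪₀)) (by simp [hm])
    rw [map_sub, map_natCast] at h1
    have h2 := Ideal.Quotient.eq_zero_iff_mem.2 h1
    rw [map_sub, map_natCast, sub_eq_zero] at h2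
    rw [h2, hm, map_natCast]
  have hjζ : ∃ a : ZMod ℓ, j a = Ideal.Quotient.mk Q ⟨zeta ℓ, hζS⟩ := by
    refine exists_eq_of_pow_eq j _ ?_
    rw [← map_pow]
    congr 1
    exact Subtype.ext zeta_pow
  have hsurj : ∀ s : S, ∃ a : ZMod ℓ, j a = Ideal.Quotient.mk Q s := by
    rintro ⟨s, hs⟩
    induction hs using Algebra.adjoin_induction with
    | mem x hx =>
        obtain rfl : x = zeta ℓ := hx
        exact hjζ
    | algebraMap r => exact ⟨φ r, (hj0 r).symm⟩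
    | add x y hx hy hx' hy' =>
        obtain ⟨a, ha⟩ := hx'
        obtain ⟨b, hb⟩ := hy'
        refine ⟨a + b, ?_⟩
        rw [map_add, ha, hb, ← map_add]; rfl
    | mul x y hx hy hx' hy' =>
        obtain ⟨a, ha⟩ := hx'
        obtain ⟨b, hb⟩ := hy'
        refine ⟨a * b, ?_⟩
        rw [map_mul, ha, hb, ← map_mul]; rfl
  have hjbij : Function.Bijective j :=
    ⟨j.injective, fun d => by
      obtain ⟨s, rfl⟩ := Ideal.Quotient.mk_surjective d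
      exact hsurj s⟩
  let e : ZMod ℓ ≃+* S ⧸ Q := RingEquiv.ofBijective j hjbij
  refine ⟨S.toSubring, (e.symm : S ⧸ Q →+* ZMod ℓ).comp (Ideal.Quotient.mk Q), hζS, ?_⟩
  intro x
  refine ⟨(algebraMap 𝒪₀ S x).2, ?_⟩
  have : (⟨(x : ℂ), (algebraMap 𝒪₀ S x).2⟩ : S) = algebraMap 𝒪₀ S x := rfl
  show e.symm (Ideal.Quotient.mk Q ⟨(x : ℂ), _⟩) = φ x
  rw [this, hj0 x]
  exact e.symm_apply_apply (φ x)

/-- **Teichmüller character** relative to a reduction map `φ₁ : 𝒪 →+* ZMod ℓ` defined on a subring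
`𝒪 ∋ ζ_{ℓ-1}` of `ℂ`: unit-level statement. -/
theorem exists_unitHom (𝒪 : Subring ℂ) (φ₁ : 𝒪 →+* ZMod ℓ) (hζ : zeta ℓ ∈ 𝒪) :
    ∃ ω₀ : (ZMod ℓ)ˣ →* ℂˣ, ∀ x : (ZMod ℓ)ˣ, ∃ v : 𝒪ˣ,
      ((ω₀ x : ℂˣ) : ℂ) = ((v : 𝒪) : ℂ) ∧ φ₁ (v : 𝒪) = (x : ZMod ℓ) := by
  classical
  have hn0 : 0 < ℓ - 1 := pred_pos
  let ζ' : 𝒪 := ⟨zeta ℓ, hζ⟩
  have hprim' : IsPrimitiveRoot ζ' (ℓ - 1) :=
    IsPrimitiveRoot.coe_submonoidClass_iff.1 (zeta_isPrimitiveRoot (ℓ := ℓ))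
  let u : 𝒪ˣ := (hprim'.isUnit hn0.ne').unit
  have hu : (u : 𝒪) = ζ' := IsUnit.unit_spec _
  let incl : 𝒪ˣ →* ℂˣ := Units.map (𝒪.subtype : 𝒪 →* ℂ)
  let red : 𝒪ˣ →* (ZMod ℓ)ˣ := Units.map (φ₁ : 𝒪 →* ZMod ℓ)
  have hun : u ^ (ℓ - 1) = 1 := by
    apply Units.ext
    rw [Units.val_pow_eq_pow_val, hu, hprim'.pow_eq_one, Units.val_one]
  -- the order of `red u`
  have hcast : ((ℓ - 1 : ℕ) : ZMod ℓ) ≠ 0 := by
    rw [Ne, ZMod.natCast_eq_zero_iff]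
    exact Nat.not_dvd_of_pos_of_lt hn0 (by omega)
  have hord : orderOf (red u) = ℓ - 1 := by
    rw [orderOf_eq_iff hn0]
    refine ⟨by rw [← map_pow, hun, map_one], ?_⟩
    intro m hm hm0 h1
    obtain ⟨n', hn'⟩ : ∃ n', ℓ - 1 = n' + 1 := ⟨ℓ - 2, by omega⟩
    have hprod := (hn' ▸ hprim').prod_one_sub_pow_eq_order
    have h2 := congrArg φ₁ hprod
    rw [map_prod] at h2
    have h3 : ∏ k ∈ Finset.range n', φ₁ (1 - ζ' ^ (k + 1)) = 0 := by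
      refine Finset.prod_eq_zero (i := m - 1) (Finset.mem_range.2 (by omega)) ?_
      have h4 : φ₁ (ζ' ^ m) = 1 := by
        have := congrArg (fun y : (ZMod ℓ)ˣ => (y : ZMod ℓ)) h1
        simpa [red, hu] using this
      rw [show m - 1 + 1 = m by omega, map_sub, map_one, h4, sub_self]
    rw [h3] at h2
    apply hcast
    rw [hn']
    push_cast
    rw [map_add, map_natCast, map_one] at h2
    exact h2.symm
  have hcard : Nat.card (ZMod ℓ)ˣ = ℓ - 1 := by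
    rw [Nat.card_eq_fintype_card, ZMod.card_units]
  have htop : Subgroup.zpowers (red u) = ⊤ := by
    apply Subgroup.eq_top_of_card_eq
    rw [Nat.card_zpowers, hord, hcard]
  have hgen : ∀ x, x ∈ Subgroup.zpowers (red u) := fun x => htop ▸ Subgroup.mem_top x
  have hdvd : orderOf (incl u) ∣ orderOf (red u) := by
    rw [hord]
    apply orderOf_dvd_of_pow_eq_one
    rw [← map_pow, hun, map_one]
  refine ⟨monoidHomOfForallMemZpowers hgen hdvd, ?_⟩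
  intro x
  obtain ⟨k, hk⟩ := Subgroup.mem_zpowers_iff.1 (hgen x)
  refine ⟨u ^ k, ?_, ?_⟩
  · rw [← hk, map_zpow, monoidHomOfForallMemZpowers_apply_gen, ← map_zpow]
    rfl
  · rw [← hk, ← map_zpow]
    rfl

theorem mem_and_apply (𝒪 : Subring ℂ) (φ₁ : 𝒪 →+* ZMod ℓ) {z : ℂ} (w : 𝒪) (h : z = (w : ℂ)) :
    ∃ hz : z ∈ 𝒪, φ₁ ⟨z, hz⟩ = φ₁ w := by
  subst h
  exact ⟨w.2, rfl⟩

/-- **Teichmüller character** as a Dirichlet character: `φ₁ (ω a) = a`, and `ω` is odd. -/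
theorem exists_teich (hℓ2 : ℓ ≠ 2) (𝒪 : Subring ℂ) (φ₁ : 𝒪 →+* ZMod ℓ) (hζ : zeta ℓ ∈ 𝒪) :
    ∃ ω : DirichletCharacter ℂ ℓ,
      (∀ a : ZMod ℓ, ∃ ha : ω a ∈ 𝒪, φ₁ ⟨ω a, ha⟩ = a) ∧ ω (-1) = -1 := by
  obtain ⟨ω₀, hω₀⟩ := exists_unitHom 𝒪 φ₁ hζ
  have key : ∀ x : (ZMod ℓ)ˣ, ∃ v : 𝒪ˣ,
      (MulChar.ofUnitHom ω₀ : DirichletCharacter ℂ ℓ) (x : ZMod ℓ) = ((v : 𝒪) : ℂ) ∧
        φ₁ (v : 𝒪) = (x : ZMod ℓ) := by
    intro x
    obtain ⟨v, hv1, hv2⟩ := hω₀ x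
    exact ⟨v, by rw [MulChar.ofUnitHom_coe, hv1], hv2⟩
  refine ⟨MulChar.ofUnitHom ω₀, ?_, ?_⟩
  · intro a
    by_cases ha : IsUnit a
    · obtain ⟨x, rfl⟩ := ha
      obtain ⟨v, hv1, hv2⟩ := key x
      obtain ⟨hz, hz'⟩ := mem_and_apply 𝒪 φ₁ (v : 𝒪) hv1
      exact ⟨hz, hz'.trans hv2⟩
    · have h0 : a = 0 := by
        by_contra h
        exact ha (IsUnit.mk0 a h)
      subst h0
      obtain ⟨hz, hz'⟩ := mem_and_apply 𝒪 φ₁ (0 : 𝒪)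
        (MulChar.map_zero (MulChar.ofUnitHom ω₀ : DirichletCharacter ℂ ℓ))
      exact ⟨hz, hz'.trans (map_zero φ₁)⟩
  · obtain ⟨v, hv1, hv2⟩ := key (-1)
    have hx : (((-1 : (ZMod ℓ)ˣ)) : ZMod ℓ) = -1 := by simp
    rw [hx] at hv1 hv2
    rw [hv1]
    have hsq : ((v : 𝒪) : ℂ) * ((v : 𝒪) : ℂ) = 1 := by
      rw [← hv1, ← map_mul]
      simp
    rcases mul_self_eq_one_iff.1 hsq with h | h
    · exfalso
      have hv : (v : 𝒪) = 1 := Subtype.ext h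
      rw [hv, map_one] at hv2
      have h2 : ((2 : ℕ) : ZMod ℓ) = 0 := by
        push_cast
        linear_combination hv2
      rw [ZMod.natCast_eq_zero_iff] at h2
      exact hℓ2 ((Nat.prime_dvd_prime_iff_eq hℓ.out Nat.prime_two).1 h2)
    · exact h

/-- A non-trivial Dirichlet character of prime level is primitive. -/
theorem isPrimitive_of_ne_one {χ : DirichletCharacter ℂ ℓ} (hχ : χ ≠ 1) : χ.IsPrimitive := by
  rw [DirichletCharacter.isPrimitive_def]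
  rcases (Nat.dvd_prime hℓ.out).1 (DirichletCharacter.conductor_dvd_level χ) with h | h
  · exact absurd (DirichletCharacter.eq_one_iff_conductor_eq_one.2 h) hχ
  · exact h

/-- **B5 residue data**: the reduction map extended to `𝒪 ∋ ζ_{ℓ-1}` (same residue field
`ZMod ℓ`), and the Teichmüller character `ω` with `φ₁ ∘ ω = id`; `ω⁻¹` is odd and primitive. -/
theorem exists_teichmuller_extension (hℓ2 : ℓ ≠ 2) (𝒪₀ : Subring ℂ) (φ : 𝒪₀ →+* ZMod ℓ) :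
    ∃ (𝒪 : Subring ℂ) (φ₁ : 𝒪 →+* ZMod ℓ) (ω : DirichletCharacter ℂ ℓ),
      (∀ x : 𝒪₀, ∃ hx : (x : ℂ) ∈ 𝒪, φ₁ ⟨x, hx⟩ = φ x) ∧
      (∀ a : ZMod ℓ, ∃ ha : ω a ∈ 𝒪, φ₁ ⟨ω a, ha⟩ = a) ∧
      (∀ a : ZMod ℓ, ∃ ha : ω⁻¹ a ∈ 𝒪, φ₁ ⟨ω⁻¹ a, ha⟩ = a⁻¹) ∧
      ω.Odd ∧ ω⁻¹.Odd ∧ ω⁻¹.IsPrimitive := by
  obtain ⟨𝒪, φ₁, hζ, hext⟩ := exists_extension 𝒪₀ φ
  obtain ⟨ω, hω, hodd⟩ := exists_teich hℓ2 𝒪 φ₁ hζ
  have hodd' : ω⁻¹ (-1) = -1 := by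
    rw [MulChar.inv_apply', inv_neg, inv_one, hodd]
  refine ⟨𝒪, φ₁, ω, hext, hω, ?_, hodd, hodd', ?_⟩
  · intro a
    rw [MulChar.inv_apply']
    exact hω a⁻¹
  · apply isPrimitive_of_ne_one
    intro h
    rw [h, MulChar.one_apply (isUnit_one.neg)] at hodd'
    norm_num at hodd'

end Fermat.Agent.ES.R48.Teich25
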