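/-
Programme R (S48, Deligne–Serre), chapter B5 (helper25): CHAPTER EXPORT.

From a reduction map `φ : 𝒪₀ →+* ZMod ℓ` on a subring `𝒪₀ ⊆ ℂ` containing the coefficients of the
depleted form `fd` and the values of `ε`: a Teichmüller-inverse character `χ` mod `ℓ`, a subring
`R ⊇ 𝒪₀` with `φ' : R →+* ZMod ℓ` extending `φ`, and a weight-two eigenform `w ≠ 0` on `Γ₁(M')`
with nebentypus `ε χ` whose `T_p`-eigenvalues (`p ∤ M'`) lie in `R` and reduce to `φ (a p)`.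
Consumes: the weight-one Eisenstein series of odd primitive characters (`RatIface22.EisData`, B4).
-/
import Mathlib
import Fermat.Agent.ES.R48.Teich25
import Fermat.Agent.ES.R48.LiftInst25

set_option autoImplicit false

open CongruenceSubgroup UpperHalfPlane ModularForm
open scoped MatrixGroups ModularForm
open Fermat.Agent.ES.R48.Gamma1Slash9 Fermat.Agent.ES.R48.TpForm9
  Fermat.Agent.ES.R48.RatIface22 Fermat.Agent.ES.R48.LiftInst25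

noncomputable section

namespace Fermat.Agent.ES.R48.B5Export25

variable {N M ℓ M' : ℕ} [NeZero M] [NeZero M']

/-- **B5 chapter export.** -/
theorem exists_char0_eigenform_of_phi [hℓ : Fact ℓ.Prime] (hℓ2 : ℓ ≠ 2)
    [Module.Finite ℂ (CuspForm (Gamma1 M') 2)]
    (hN : N ∣ M') (hM : M ∣ M') (hL : ℓ ∣ M')
    (hEis : ∀ χ : DirichletCharacter ℂ ℓ, χ.Odd → χ.IsPrimitive → Nonempty (EisData ℓ χ))
    (ε : DirichletCharacter ℂ N)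
    (fd : CuspForm (Gamma1 M) 1) (hfd : HasNeben M ε 1 fd)
    (𝒪₀ : Subring ℂ) (φ : 𝒪₀ →+* ZMod ℓ)
    (hε𝒪 : ∀ x : ZMod N, ε x ∈ 𝒪₀)
    (hfd𝒪 : ∀ n, ModularFormClass.qCoeff fd n ∈ 𝒪₀)
    (hfd1 : ModularFormClass.qCoeff fd 1 = 1)
    (a : ℕ → 𝒪₀)
    (hHecke : ∀ p : ℕ, p.Prime → ¬ p ∣ M' → ∀ n : ℕ,
        ModularFormClass.qCoeff fd (p * n) +
            ε (p : ZMod N) * (if p ∣ n then ModularFormClass.qCoeff fd (n / p) else 0) =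
          (a p : ℂ) * ModularFormClass.qCoeff fd n) :
    ∃ (χ : DirichletCharacter ℂ ℓ) (R : Subring ℂ) (φ' : R →+* ZMod ℓ),
      χ.Odd ∧ χ.IsPrimitive ∧
      (∀ x : 𝒪₀, ∃ hx : (x : ℂ) ∈ R, φ' ⟨(x : ℂ), hx⟩ = φ x) ∧
      (∀ x : ZMod ℓ, ∃ hx : χ x ∈ R, φ' ⟨χ x, hx⟩ = x⁻¹) ∧
      ∃ w : CuspForm (Gamma1 M') 2, w ≠ 0 ∧
        (∀ u : (ZMod M')ˣ, diamond 2 u w = psi ε χ M' u • w) ∧
        ∀ (p : ℕ) (hp : p.Prime) (hpM : ¬ p ∣ M'),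
          ∃ b : R, Tp 2 hp hpM w = (b : ℂ) • w ∧
            ∃ hx : ((a p : 𝒪₀) : ℂ) ∈ R, φ' b = φ' ⟨((a p : 𝒪₀) : ℂ), hx⟩ ∧ φ' b = φ (a p) := by
  have : NeZero ℓ := ⟨hℓ.out.ne_zero⟩
  obtain ⟨𝒪, φ₁, ω, hext, -, hωinv, -, hodd, hprim⟩ :=
    Teich25.exists_teichmuller_extension hℓ2 𝒪₀ φ
  obtain ⟨E⟩ := hEis ω⁻¹ hodd hprim
  -- transport the data to `𝒪`
  have hε𝒪' : ∀ x : ZMod N, ε x ∈ 𝒪 := fun x => (hext ⟨ε x, hε𝒪 x⟩).1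
  have hfd𝒪' : ∀ n, ModularFormClass.qCoeff fd n ∈ 𝒪 := fun n => (hext ⟨_, hfd𝒪 n⟩).1
  set a' : ℕ → 𝒪 := fun p => ⟨((a p : 𝒪₀) : ℂ), (hext (a p)).1⟩ with ha'
  have ha'φ : ∀ p, φ₁ (a' p) = φ (a p) := fun p => (hext (a p)).2
  obtain ⟨R, φ', hext', w, hw0, hwd, hwT⟩ := exists_char0_eigenform hN hM hL ε ω⁻¹ fd hfd E 𝒪 φ₁
    hε𝒪' hωinv hfd𝒪' hfd1 a' hHecke
  refine ⟨ω⁻¹, R, φ', hodd, hprim, ?_, ?_, w, hw0, hwd, ?_⟩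
  · intro x
    obtain ⟨hx1, hx2⟩ := hext x
    obtain ⟨hy1, hy2⟩ := hext' ⟨(x : ℂ), hx1⟩
    exact ⟨hy1, hy2.trans hx2⟩
  · intro x
    obtain ⟨hx1, hx2⟩ := hωinv x
    obtain ⟨hy1, hy2⟩ := hext' ⟨_, hx1⟩
    exact ⟨hy1, hy2.trans hx2⟩
  · intro p hp hpM
    obtain ⟨b, hb1, hb2⟩ := hwT p hp hpM
    obtain ⟨hy1, hy2⟩ := hext' (a' p)
    exact ⟨b, hb1, hy1, hb2.trans hy2.symm, hb2.trans (ha'φ p)⟩

end Fermat.Agent.ES.R48.B5Export25
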