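/-
Programme R (S48, Deligne–Serre), chapter A5 GRP (helper20): definitions and the export shape.

`IsSemisimple2Sub G` is the shape of `DSIface27.IsSemisimple2` for a subgroup of `GL₂(k)`;
`charData g = (trace g, det g)` is the characteristic polynomial of `g`;
`BoundedImage` is the statement of Deligne–Serre, Prop. 7.2 (with `η = 1/24`): a semisimple
subgroup `G ≤ GL₂(𝔽_ℓ)` in which at least `23/24` of the elements have one of at most `M`
characteristic polynomials has order bounded in terms of `M` only.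
-/
import Mathlib

set_option autoImplicit false

open scoped MatrixGroups

namespace Fermat.Agent.ES.R48.GrpDefs20

/-- Elementary semisimplicity of a subgroup of `GL₂(k)`: every stable line has a stable
complementary line (same shape as `DSIface27.IsSemisimple2`). -/
def IsSemisimple2Sub {k : Type} [CommRing k] (G : Subgroup (GL (Fin 2) k)) : Prop :=
  ∀ v : Fin 2 → k, v ≠ 0 →
    (∀ g ∈ G, ∃ c : k, (g : Matrix (Fin 2) (Fin 2) k).mulVec v = c • v) →
    ∃ w : Fin 2 → k, (∀ c : k, w ≠ c • v) ∧
      ∀ g ∈ G, ∃ c : k, (g : Matrix (Fin 2) (Fin 2) k).mulVec w = c • w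

/-- The pair `(trace, det)`, i.e. the characteristic polynomial, of an element of `GL₂(k)`. -/
def charData {k : Type} [CommRing k] (g : GL (Fin 2) k) : k × k :=
  ((g : Matrix (Fin 2) (Fin 2) k).trace, (g : Matrix (Fin 2) (Fin 2) k).det)

/-- **Export shape of chapter A5** (Deligne–Serre Prop. 7.2 with `η = 1/24`). -/
def BoundedImage : Prop :=
  ∀ M : ℕ, ∃ A : ℕ, ∀ (ℓ : ℕ) [Fact ℓ.Prime] (G : Subgroup (GL (Fin 2) (ZMod ℓ))),
    IsSemisimple2Sub G →
    (∃ H : Finset (GL (Fin 2) (ZMod ℓ)), (∀ h ∈ H, h ∈ G) ∧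
        23 * Nat.card G ≤ 24 * H.card ∧ (H.image charData).card ≤ M) →
    Nat.card G ≤ A

end Fermat.Agent.ES.R48.GrpDefs20
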