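/-
Programme R (S48, Deligne–Serre), chapter A5 GRP, brick (14-1) (helper14):
counting in `GL₂(𝔽_ℓ)`.

* `card_charData_le` : at most `2 ℓ²` elements of `GL₂(𝔽_ℓ)` have a given characteristic
  polynomial `(trace, det) = (t, d)`;
* `card_GL2_le` : `|GL₂(𝔽_ℓ)| ≤ ℓ⁴`.

Mathlib + `GrpDefs20` (for `charData`).
-/
import Mathlib
import Fermat.Agent.ES.R48.GrpDefs20

set_option autoImplicit false

open scoped MatrixGroups

namespace Fermat.Agent.ES.R48.CharCount14

open Fermat.Agent.ES.R48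

/-- the code of a matrix `[[a, b], [c, e]]` with known trace and determinant:
`(b ≠ 0, a, if b ≠ 0 then b else c)`. -/
noncomputable def code {k : Type} [Field k] (g : GL (Fin 2) k) : Bool × k × k := by
  classical
  exact (decide ((g : Matrix (Fin 2) (Fin 2) k) 0 1 ≠ 0), (g : Matrix (Fin 2) (Fin 2) k) 0 0,
    if (g : Matrix (Fin 2) (Fin 2) k) 0 1 ≠ 0 then (g : Matrix (Fin 2) (Fin 2) k) 0 1
    else (g : Matrix (Fin 2) (Fin 2) k) 1 0)

/-- the code is injective on each fibre of `charData`. -/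
theorem code_injOn {k : Type} [Field k] (t d : k) :
    Set.InjOn (code (k := k)) {g | GrpDefs20.charData g = (t, d)} := by
  classical
  intro g hg g' hg' hc
  simp only [Set.mem_ofPred_eq, GrpDefs20.charData, Prod.mk.injEq, Matrix.trace_fin_two,
    Matrix.det_fin_two] at hg hg'
  obtain ⟨htr, hdet⟩ := hg
  obtain ⟨htr', hdet'⟩ := hg'
  simp only [code, Prod.mk.injEq, decide_eq_decide] at hc
  obtain ⟨hb, ha, h3⟩ := hc
  set M : Matrix (Fin 2) (Fin 2) k := (g : Matrix (Fin 2) (Fin 2) k) with hM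
  set M' : Matrix (Fin 2) (Fin 2) k := (g' : Matrix (Fin 2) (Fin 2) k) with hM'
  -- the lower right entries agree
  have he : M 1 1 = M' 1 1 := by
    have h1 : M 1 1 = t - M 0 0 := by rw [← htr]; ring
    have h2 : M' 1 1 = t - M' 0 0 := by rw [← htr']; ring
    rw [h1, h2, ha]
  -- the off-diagonal entries agree
  have hbc : M 0 1 = M' 0 1 ∧ M 1 0 = M' 1 0 := by
    by_cases hb0 : M 0 1 ≠ 0
    · have hb0' : M' 0 1 ≠ 0 := hb.mp hb0
      rw [if_pos hb0, if_pos hb0'] at h3
      refine ⟨h3, ?_⟩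
      have h4 : M 0 1 * M 1 0 = M 0 1 * M' 1 0 := by
        have e1 : M 0 1 * M 1 0 = M 0 0 * M 1 1 - d := by rw [← hdet]; ring
        have e2 : M' 0 1 * M' 1 0 = M' 0 0 * M' 1 1 - d := by rw [← hdet']; ring
        rw [e1, h3, e2, ha, he]
      exact mul_left_cancel₀ hb0 h4
    · have hb0' : ¬ M' 0 1 ≠ 0 := fun h => hb0 (hb.mpr h)
      rw [if_neg hb0, if_neg hb0'] at h3
      rw [not_not] at hb0 hb0'
      exact ⟨by rw [hb0, hb0'], h3⟩
  apply Units.ext
  ext i j
  fin_cases i <;> fin_cases j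
  · exact ha
  · exact hbc.1
  · exact hbc.2
  · exact he

/-- **at most `2 ℓ²` elements of `GL₂(𝔽_ℓ)` have a given characteristic polynomial**
(`Nat.card` form, free of instance choices). -/
theorem natCard_charData_le (ℓ : ℕ) [Fact ℓ.Prime] (t d : ZMod ℓ) :
    Nat.card {g : GL (Fin 2) (ZMod ℓ) // GrpDefs20.charData g = (t, d)} ≤ 2 * ℓ ^ 2 := by
  classical
  have hinj : Function.Injective
      (fun g : {g : GL (Fin 2) (ZMod ℓ) // GrpDefs20.charData g = (t, d)} => code g.1) := by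
    intro g g' h
    exact Subtype.ext (code_injOn t d g.2 g'.2 h)
  have h1 := Nat.card_le_card_of_injective _ hinj
  have h2 : Nat.card (Bool × ZMod ℓ × ZMod ℓ) = 2 * ℓ ^ 2 := by
    rw [Nat.card_prod, Nat.card_prod, Nat.card_eq_fintype_card, Fintype.card_bool,
      Nat.card_eq_fintype_card, ZMod.card]
    ring
  omega

/-- **at most `2 ℓ²` elements of `GL₂(𝔽_ℓ)` have a given characteristic polynomial**
(`Finset.filter` form, for whatever `Fintype`/decidability instances the user has). -/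
theorem card_charData_le (ℓ : ℕ) [Fact ℓ.Prime] [Fintype (GL (Fin 2) (ZMod ℓ))]
    (t d : ZMod ℓ) [DecidablePred fun g : GL (Fin 2) (ZMod ℓ) => GrpDefs20.charData g = (t, d)] :
    (Finset.univ.filter (fun g : GL (Fin 2) (ZMod ℓ) => GrpDefs20.charData g = (t, d))).card
      ≤ 2 * ℓ ^ 2 := by
  classical
  have h := natCard_charData_le ℓ t d
  rwa [Nat.card_eq_fintype_card, Fintype.card_subtype] at h

/-- the same bound for an arbitrary finite set of elements with the same `charData`. -/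
theorem card_le_of_charData_eq (ℓ : ℕ) [Fact ℓ.Prime] (t d : ZMod ℓ)
    (S : Finset (GL (Fin 2) (ZMod ℓ))) (hS : ∀ g ∈ S, GrpDefs20.charData g = (t, d)) :
    S.card ≤ 2 * ℓ ^ 2 := by
  classical
  have h1 : S.card ≤ (Finset.univ : Finset (Bool × ZMod ℓ × ZMod ℓ)).card := by
    refine Finset.card_le_card_of_injOn code (fun g _ => Finset.mem_univ _) ?_
    intro g hg g' hg' h
    exact code_injOn t d (hS g hg) (hS g' hg') h
  have h2 : (Finset.univ : Finset (Bool × ZMod ℓ × ZMod ℓ)).card = 2 * ℓ ^ 2 := by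
    rw [Finset.card_univ, Fintype.card_prod, Fintype.card_prod, Fintype.card_bool, ZMod.card]
    ring
  omega

/-- **`|GL₂(𝔽_ℓ)| ≤ ℓ⁴`.** -/
theorem card_GL2_le (ℓ : ℕ) [Fact ℓ.Prime] : Nat.card (GL (Fin 2) (ZMod ℓ)) ≤ ℓ ^ 4 := by
  classical
  have hinj : Function.Injective
      (fun g : GL (Fin 2) (ZMod ℓ) => (g : Matrix (Fin 2) (Fin 2) (ZMod ℓ))) :=
    Units.val_injective
  have h1 := Nat.card_le_card_of_injective _ hinj
  have h2 : Nat.card (Matrix (Fin 2) (Fin 2) (ZMod ℓ)) = ℓ ^ 4 := by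
    rw [Nat.card_eq_fintype_card]
    show Fintype.card (Fin 2 → Fin 2 → ZMod ℓ) = ℓ ^ 4
    rw [Fintype.card_fun, Fintype.card_fun, Fintype.card_fin, ZMod.card]
    ring
  omega

end Fermat.Agent.ES.R48.CharCount14
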