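/-
Programme R (S48, Deligne–Serre), chapter A5 GRP, brick (14-2) (helper14):
the Diophantine analysis behind Klein's classification of the finite subgroups of `PGL₂`.

`n` is the order of `G/Z`, the index set `ι` is the set of conjugacy classes of "tori"
`T = C_G(g)` (`g` non-central), `m i` is the order of `T_i/Z`, `w i = [N_G(T_i) : T_i] ∈ {1, 2}`
and `a i` is the number of conjugates of `T_i`, so that `n = a i * w i * m i`; the class equation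
is `∑ i, a i * (m i - 1) + 1 = n`.  Conclusion: `G = Z` or some torus has index `≤ 12`.
Mathlib only; pure arithmetic in `ℕ`.
-/
import Mathlib

set_option autoImplicit false

namespace Fermat.Agent.ES.R48.Dioph14

/-- `a (m - 1) + a = a m` for `m ≥ 1`. -/
theorem mul_pred_add (a m : ℕ) (hm : 1 ≤ m) : a * (m - 1) + a = a * m := by
  obtain ⟨k, rfl⟩ : ∃ k, m = k + 1 := ⟨m - 1, by omega⟩
  rw [Nat.add_sub_cancel]
  ring

/-- `2 a ≤ a m` for `m ≥ 2`. -/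
theorem two_mul_le (a m : ℕ) (hm : 2 ≤ m) : 2 * a ≤ a * m := by
  calc 2 * a = a * 2 := by ring
    _ ≤ a * m := Nat.mul_le_mul_left a hm

/-- `3 a ≤ a m` for `m ≥ 3`. -/
theorem three_mul_le (a m : ℕ) (hm : 3 ≤ m) : 3 * a ≤ a * m := by
  calc 3 * a = a * 3 := by ring
    _ ≤ a * m := Nat.mul_le_mul_left a hm

/-- `4 a ≤ a m` for `m ≥ 4`. -/
theorem four_mul_le (a m : ℕ) (hm : 4 ≤ m) : 4 * a ≤ a * m := by
  calc 4 * a = a * 4 := by ring
    _ ≤ a * m := Nat.mul_le_mul_left a hm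

/-- `6 a ≤ a m` for `m ≥ 6`. -/
theorem six_mul_le (a m : ℕ) (hm : 6 ≤ m) : 6 * a ≤ a * m := by
  calc 6 * a = a * 6 := by ring
    _ ≤ a * m := Nat.mul_le_mul_left a hm

/-- one orbit -/
theorem one_orbit (n a m w : ℕ) (hw : w = 1 ∨ w = 2) (hm : 2 ≤ m) (hn : n = a * w * m)
    (hsum : a * (m - 1) + 1 = n) : n ≤ 12 * m := by
  obtain ⟨P, hP⟩ : ∃ P, P = a * m := ⟨_, rfl⟩
  have e := mul_pred_add a m (by omega)
  have b := two_mul_le a m hm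
  rcases hw with rfl | rfl
  · -- `P - a + 1 = P`, so `a = 1`, `n = m`
    have hn' : n = P := by rw [hn, hP]; ring
    have ha : a = 1 := by omega
    rw [ha, one_mul] at hP
    omega
  · -- impossible: `P - a + 1 = 2 P`
    exfalso
    have hn' : n = 2 * P := by rw [hn, hP]; ring
    have ha : a = 0 := by omega
    rw [ha, zero_mul] at hP
    omega

/-- two orbits -/
theorem two_orbits (n a₁ m₁ w₁ a₂ m₂ w₂ : ℕ) (hw₁ : w₁ = 1 ∨ w₁ = 2) (hw₂ : w₂ = 1 ∨ w₂ = 2)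
    (hm₁ : 2 ≤ m₁) (hm₂ : 2 ≤ m₂) (hn₁ : n = a₁ * w₁ * m₁) (hn₂ : n = a₂ * w₂ * m₂)
    (hsum : a₁ * (m₁ - 1) + a₂ * (m₂ - 1) + 1 = n) : n ≤ 12 * m₁ ∨ n ≤ 12 * m₂ := by
  obtain ⟨P₁, hP₁⟩ : ∃ P, P = a₁ * m₁ := ⟨_, rfl⟩
  obtain ⟨P₂, hP₂⟩ : ∃ P, P = a₂ * m₂ := ⟨_, rfl⟩
  obtain ⟨c₁, hc₁⟩ : ∃ c, c = a₁ * (m₁ - 1) := ⟨_, rfl⟩
  obtain ⟨c₂, hc₂⟩ : ∃ c, c = a₂ * (m₂ - 1) := ⟨_, rfl⟩
  have e₁ : c₁ + a₁ = P₁ := by rw [hc₁, hP₁]; exact mul_pred_add a₁ m₁ (by omega)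
  have e₂ : c₂ + a₂ = P₂ := by rw [hc₂, hP₂]; exact mul_pred_add a₂ m₂ (by omega)
  have b₁ : 2 * a₁ ≤ P₁ := by rw [hP₁]; exact two_mul_le a₁ m₁ hm₁
  have b₂ : 2 * a₂ ≤ P₂ := by rw [hP₂]; exact two_mul_le a₂ m₂ hm₂
  have hn₁' : n = w₁ * P₁ := by rw [hn₁, hP₁]; ring
  have hn₂' : n = w₂ * P₂ := by rw [hn₂, hP₂]; ring
  rw [← hc₁, ← hc₂] at hsum
  rcases hw₁ with rfl | rfl <;> rcases hw₂ with rfl | rfl
  · -- (1,1): impossible
    exfalso; omega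
  · -- (1,2): `P₁ = 2 P₂`, `a₁ + a₂ = P₂ + 1`
    have hm₁3 : m₁ ≤ 3 := by
      by_contra hc
      have := four_mul_le a₁ m₁ (by omega)
      omega
    interval_cases m₁
    · -- `m₁ = 2`: `a₁ = P₂`, `a₂ = 1`, `n = 2 m₂`
      right
      have ha₂ : a₂ = 1 := by omega
      rw [ha₂, one_mul] at hP₂
      omega
    · -- `m₁ = 3`
      left
      have hm₂3 : m₂ < 3 := by
        by_contra hc
        have := three_mul_le a₂ m₂ (by omega)
        omega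
      interval_cases m₂
      omega
  · -- (2,1): symmetric
    have hm₂3 : m₂ ≤ 3 := by
      by_contra hc
      have := four_mul_le a₂ m₂ (by omega)
      omega
    interval_cases m₂
    · left
      have ha₁ : a₁ = 1 := by omega
      rw [ha₁, one_mul] at hP₁
      omega
    · right
      have hm₁3 : m₁ < 3 := by
        by_contra hc
        have := three_mul_le a₁ m₁ (by omega)
        omega
      interval_cases m₁
      omega
  · -- (2,2): impossible, `a₁ + a₂ = 1`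
    exfalso
    have ha₁ : a₁ ≠ 0 := by
      rintro rfl
      rw [zero_mul] at hP₁
      omega
    have ha₂ : a₂ ≠ 0 := by
      rintro rfl
      rw [zero_mul] at hP₂
      omega
    omega

/-- the core of the three-orbit case: `P = aᵢ mᵢ`, `a₁ + a₂ + a₃ = P + 1`, `m₁ = 2`. -/
theorem three_core (P a₁ a₂ a₃ m₂ m₃ : ℕ) (hm₂ : 2 ≤ m₂) (hm₃ : 2 ≤ m₃)
    (h₁ : P = a₁ * 2) (h₂ : P = a₂ * m₂) (h₃ : P = a₃ * m₃) (hs : a₁ + a₂ + a₃ = P + 1) :
    a₂ ≤ 6 ∨ a₃ ≤ 6 := by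
  -- one of `m₂, m₃` is `≤ 3`
  have hm : m₂ ≤ 3 ∨ m₃ ≤ 3 := by
    by_contra hc
    rw [not_or, not_le, not_le] at hc
    have e₂ := four_mul_le a₂ m₂ (by omega)
    have e₃ := four_mul_le a₃ m₃ (by omega)
    omega
  rcases hm with hm | hm
  · interval_cases m₂
    · -- `a₂ = a₁`, `a₃ = 1`
      right; omega
    · -- `3 a₂ = 2 a₁`, `3 a₃ = a₁ + 3`, `a₃ m₃ = 2 a₁ = 6 a₃ - 6`
      right
      have hm₃5 : m₃ ≤ 5 := by
        by_contra hc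
        have := six_mul_le a₃ m₃ (by omega)
        omega
      interval_cases m₃ <;> omega
  · interval_cases m₃
    · left; omega
    · left
      have hm₂5 : m₂ ≤ 5 := by
        by_contra hc
        have := six_mul_le a₂ m₂ (by omega)
        omega
      interval_cases m₂ <;> omega

/-- three orbits -/
theorem three_orbits (n a₁ m₁ w₁ a₂ m₂ w₂ a₃ m₃ w₃ : ℕ)
    (hw₁ : w₁ = 1 ∨ w₁ = 2) (hw₂ : w₂ = 1 ∨ w₂ = 2) (hw₃ : w₃ = 1 ∨ w₃ = 2)
    (hm₁ : 2 ≤ m₁) (hm₂ : 2 ≤ m₂) (hm₃ : 2 ≤ m₃)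
    (hn₁ : n = a₁ * w₁ * m₁) (hn₂ : n = a₂ * w₂ * m₂) (hn₃ : n = a₃ * w₃ * m₃)
    (hsum : a₁ * (m₁ - 1) + a₂ * (m₂ - 1) + a₃ * (m₃ - 1) + 1 = n) :
    n ≤ 12 * m₁ ∨ n ≤ 12 * m₂ ∨ n ≤ 12 * m₃ := by
  obtain ⟨P₁, hP₁⟩ : ∃ P, P = a₁ * m₁ := ⟨_, rfl⟩
  obtain ⟨P₂, hP₂⟩ : ∃ P, P = a₂ * m₂ := ⟨_, rfl⟩
  obtain ⟨P₃, hP₃⟩ : ∃ P, P = a₃ * m₃ := ⟨_, rfl⟩
  obtain ⟨c₁, hc₁⟩ : ∃ c, c = a₁ * (m₁ - 1) := ⟨_, rfl⟩
  obtain ⟨c₂, hc₂⟩ : ∃ c, c = a₂ * (m₂ - 1) := ⟨_, rfl⟩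
  obtain ⟨c₃, hc₃⟩ : ∃ c, c = a₃ * (m₃ - 1) := ⟨_, rfl⟩
  have e₁ : c₁ + a₁ = P₁ := by rw [hc₁, hP₁]; exact mul_pred_add a₁ m₁ (by omega)
  have e₂ : c₂ + a₂ = P₂ := by rw [hc₂, hP₂]; exact mul_pred_add a₂ m₂ (by omega)
  have e₃ : c₃ + a₃ = P₃ := by rw [hc₃, hP₃]; exact mul_pred_add a₃ m₃ (by omega)
  have b₁ : 2 * a₁ ≤ P₁ := by rw [hP₁]; exact two_mul_le a₁ m₁ hm₁
  have b₂ : 2 * a₂ ≤ P₂ := by rw [hP₂]; exact two_mul_le a₂ m₂ hm₂
  have b₃ : 2 * a₃ ≤ P₃ := by rw [hP₃]; exact two_mul_le a₃ m₃ hm₃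
  have hn₁' : n = w₁ * P₁ := by rw [hn₁, hP₁]; ring
  have hn₂' : n = w₂ * P₂ := by rw [hn₂, hP₂]; ring
  have hn₃' : n = w₃ * P₃ := by rw [hn₃, hP₃]; ring
  rw [← hc₁, ← hc₂, ← hc₃] at hsum
  -- all `w` are `2`
  have hw₁' : w₁ = 2 := by
    rcases hw₁ with rfl | rfl
    · exfalso
      rcases hw₂ with rfl | rfl <;> rcases hw₃ with rfl | rfl <;> omega
    · rfl
  have hw₂' : w₂ = 2 := by
    rcases hw₂ with rfl | rfl
    · exfalso
      rcases hw₁ with rfl | rfl <;> rcases hw₃ with rfl | rfl <;> omega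
    · rfl
  have hw₃' : w₃ = 2 := by
    rcases hw₃ with rfl | rfl
    · exfalso
      rcases hw₁ with rfl | rfl <;> rcases hw₂ with rfl | rfl <;> omega
    · rfl
  subst hw₁' hw₂' hw₃'
  -- `P := P₁ = P₂ = P₃`, `a₁ + a₂ + a₃ = P + 1`
  have hP₁₂ : P₁ = P₂ := by omega
  have hP₁₃ : P₁ = P₃ := by omega
  have hs : a₁ + a₂ + a₃ = P₁ + 1 := by omega
  -- some `m` equals `2`
  have h2 : m₁ = 2 ∨ m₂ = 2 ∨ m₃ = 2 := by
    by_contra hc
    rw [not_or, not_or] at hc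
    obtain ⟨h1, h2, h3⟩ := hc
    have f₁ := three_mul_le a₁ m₁ (by omega)
    have f₂ := three_mul_le a₂ m₂ (by omega)
    have f₃ := three_mul_le a₃ m₃ (by omega)
    omega
  -- the goal in terms of the `a`'s: `n = 2 aᵢ mᵢ ≤ 12 mᵢ` iff `aᵢ ≤ 6`
  have g₁ : a₁ ≤ 6 → n ≤ 12 * m₁ := fun h => by
    rw [hn₁', hP₁]
    calc 2 * (a₁ * m₁) = (2 * a₁) * m₁ := by ring
      _ ≤ 12 * m₁ := Nat.mul_le_mul_right m₁ (by omega)
  have g₂ : a₂ ≤ 6 → n ≤ 12 * m₂ := fun h => by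
    rw [hn₂', hP₂]
    calc 2 * (a₂ * m₂) = (2 * a₂) * m₂ := by ring
      _ ≤ 12 * m₂ := Nat.mul_le_mul_right m₂ (by omega)
  have g₃ : a₃ ≤ 6 → n ≤ 12 * m₃ := fun h => by
    rw [hn₃', hP₃]
    calc 2 * (a₃ * m₃) = (2 * a₃) * m₃ := by ring
      _ ≤ 12 * m₃ := Nat.mul_le_mul_right m₃ (by omega)
  rcases h2 with h | h | h
  · rcases three_core P₁ a₁ a₂ a₃ m₂ m₃ hm₂ hm₃ (by rw [hP₁, h]) (by rw [hP₁₂, hP₂])
      (by rw [hP₁₃, hP₃]) hs with h' | h'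
    · exact Or.inr (Or.inl (g₂ h'))
    · exact Or.inr (Or.inr (g₃ h'))
  · rcases three_core P₁ a₂ a₁ a₃ m₁ m₃ hm₁ hm₃ (by rw [hP₁₂, hP₂, h]) hP₁
      (by rw [hP₁₃, hP₃]) (by omega) with h' | h'
    · exact Or.inl (g₁ h')
    · exact Or.inr (Or.inr (g₃ h'))
  · rcases three_core P₁ a₃ a₁ a₂ m₁ m₂ hm₁ hm₂ (by rw [hP₁₃, hP₃, h]) hP₁
      (by rw [hP₁₂, hP₂]) (by omega) with h' | h'
    · exact Or.inl (g₁ h')
    · exact Or.inr (Or.inl (g₂ h'))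

/-- **The Diophantine heart of Klein's classification**: from the class equation of the "tori",
either `G = Z` or some torus has index at most `12`. -/
theorem exists_index_le_twelve {ι : Type} [Fintype ι] (n : ℕ) (hn : 1 ≤ n) (a m w : ι → ℕ)
    (hw : ∀ i, w i = 1 ∨ w i = 2) (hm : ∀ i, 2 ≤ m i) (hnam : ∀ i, n = a i * w i * m i)
    (hsum : ∑ i, a i * (m i - 1) + 1 = n) : n = 1 ∨ ∃ i, n ≤ 12 * m i := by
  classical
  -- every term of the class equation is at least `n / 4`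
  have hterm : ∀ i, n ≤ 4 * (a i * (m i - 1)) := by
    intro i
    have e := mul_pred_add (a i) (m i) (by have := hm i; omega)
    have b := two_mul_le (a i) (m i) (hm i)
    have h2 : n = w i * (a i * m i) := by rw [hnam i]; ring
    rcases hw i with h | h <;> rw [h] at h2 <;> omega
  -- hence there are at most three terms
  have hcard : Fintype.card ι ≤ 3 := by
    by_contra hc
    rw [not_le] at hc
    have h1 : Fintype.card ι * n ≤ 4 * ∑ i, a i * (m i - 1) := by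
      rw [Finset.mul_sum]
      calc Fintype.card ι * n = ∑ _i : ι, n := by
            rw [Finset.sum_const, Finset.card_univ, smul_eq_mul]
        _ ≤ ∑ i, 4 * (a i * (m i - 1)) := Finset.sum_le_sum fun i _ => hterm i
    have h2 : 4 * n ≤ Fintype.card ι * n := Nat.mul_le_mul_right n hc
    omega
  -- enumerate
  have hcases : Fintype.card ι = 0 ∨ Fintype.card ι = 1 ∨ Fintype.card ι = 2 ∨
      Fintype.card ι = 3 := by omega
  rcases hcases with h0 | h1 | h2 | h3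
  · left
    have : IsEmpty ι := Fintype.card_eq_zero_iff.mp h0
    rw [Finset.univ_eq_empty, Finset.sum_empty] at hsum
    omega
  · right
    rw [← Finset.card_univ, Finset.card_eq_one] at h1
    obtain ⟨i, hi⟩ := h1
    rw [hi, Finset.sum_singleton] at hsum
    exact ⟨i, one_orbit n (a i) (m i) (w i) (hw i) (hm i) (hnam i) hsum⟩
  · right
    rw [← Finset.card_univ, Finset.card_eq_two] at h2
    obtain ⟨i, j, hij, hu⟩ := h2
    rw [hu, Finset.sum_pair hij] at hsum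
    rcases two_orbits n (a i) (m i) (w i) (a j) (m j) (w j) (hw i) (hw j) (hm i) (hm j)
      (hnam i) (hnam j) hsum with h | h
    · exact ⟨i, h⟩
    · exact ⟨j, h⟩
  · right
    rw [← Finset.card_univ, Finset.card_eq_three] at h3
    obtain ⟨i, j, k, hij, hik, hjk, hu⟩ := h3
    have hsum' : a i * (m i - 1) + a j * (m j - 1) + a k * (m k - 1) + 1 = n := by
      rw [hu, Finset.sum_insert (by simp [hij, hik]), Finset.sum_pair hjk] at hsum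
      omega
    rcases three_orbits n (a i) (m i) (w i) (a j) (m j) (w j) (a k) (m k) (w k)
      (hw i) (hw j) (hw k) (hm i) (hm j) (hm k) (hnam i) (hnam j) (hnam k) hsum' with h | h | h
    · exact ⟨i, h⟩
    · exact ⟨j, h⟩
    · exact ⟨k, h⟩

end Fermat.Agent.ES.R48.Dioph14
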