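/-
Programme R (S48, Deligne–Serre), chapter A5 GRP (helper20): the class equation over "tori".

Abstract finite group `G` such that the centraliser of every non-central element is abelian and
has index at most `2` in its normaliser.  Then (given the arithmetic lemma `DiophStatement`,
proved in `Dioph14`) `G` has an abelian subgroup of index at most `12`.
-/
import Mathlib

set_option autoImplicit false

namespace Fermat.Agent.ES.R48.ClassEq20

open Subgroup

variable {G : Type} [Group G]

/-- centraliser of an element. -/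
abbrev cen (g : G) : Subgroup G := Subgroup.centralizer {g}

theorem mem_cen_iff {g h : G} : h ∈ cen g ↔ g * h = h * g := by
  simp [cen, Subgroup.mem_centralizer_iff]

theorem self_mem_cen (g : G) : g ∈ cen g := mem_cen_iff.mpr rfl

theorem mem_cen_comm {g h : G} : h ∈ cen g ↔ g ∈ cen h := by
  rw [mem_cen_iff, mem_cen_iff, eq_comm]

theorem center_le_cen (g : G) : Subgroup.center G ≤ cen g := by
  intro z hz
  rw [mem_cen_iff]
  exact (Subgroup.mem_center_iff.mp hz g)

/-- Hypothesis 1: centralisers of non-central elements are abelian. -/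
def AbelianCentralizers (G : Type) [Group G] : Prop :=
  ∀ g : G, g ∉ Subgroup.center G → ∀ x ∈ cen g, ∀ y ∈ cen g, x * y = y * x

/-- Hypothesis 2: the centraliser of a non-central element has index at most 2 in its
normaliser. -/
def SmallNormalizers (G : Type) [Group G] : Prop :=
  ∀ g : G, g ∉ Subgroup.center G →
    Nat.card (Subgroup.normalizer ((cen g : Subgroup G) : Set G)) ≤ 2 * Nat.card (cen g)

theorem cen_eq_of_mem (H1 : AbelianCentralizers G) {g h : G} (hg : g ∉ center G)
    (hh : h ∉ center G) (hmem : h ∈ cen g) : cen h = cen g := by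
  have hgh : g ∈ cen h := mem_cen_comm.mp hmem
  apply le_antisymm
  · intro x hx
    rw [mem_cen_iff]
    exact H1 h hh g hgh x hx
  · intro x hx
    rw [mem_cen_iff]
    exact H1 g hg h hmem x hx

theorem conj_mem_cen_iff {g h x : G} : x⁻¹ * h * x ∈ cen g ↔ h ∈ cen (x * g * x⁻¹) := by
  rw [mem_cen_iff, mem_cen_iff]
  constructor
  · intro e
    have := congrArg (fun y => x * y * x⁻¹) e
    simpa [mul_assoc] using this
  · intro e
    have := congrArg (fun y => x⁻¹ * y * x) e
    simpa [mul_assoc] using this

theorem conj_mem_center_iff {h x : G} : x⁻¹ * h * x ∈ center G ↔ h ∈ center G := by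
  constructor
  · intro hc
    have := (inferInstance : (center G).Normal).conj_mem _ hc x
    simpa [mul_assoc] using this
  · intro hc
    have := (inferInstance : (center G).Normal).conj_mem _ hc x⁻¹
    simpa [mul_assoc] using this

theorem conj_not_mem_center {g x : G} (hg : g ∉ center G) : x * g * x⁻¹ ∉ center G := by
  intro hc
  apply hg
  have := (conj_mem_center_iff (h := x * g * x⁻¹) (x := x)).mpr hc
  simpa [mul_assoc] using this

/-- `h` lies in the "torus class" of `g`: `h` is non-central and some conjugate of `h` commutes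
with `g`. -/
def InClass (g h : G) : Prop := h ∉ center G ∧ ∃ x : G, x⁻¹ * h * x ∈ cen g

theorem inClass_refl {g : G} (hg : g ∉ center G) : InClass g g :=
  ⟨hg, 1, by simpa using self_mem_cen g⟩

theorem inClass_symm {g h : G} (hg : g ∉ center G) (hgh : InClass g h) : InClass h g := by
  obtain ⟨_, x, hx⟩ := hgh
  refine ⟨hg, x⁻¹, ?_⟩
  rw [conj_mem_cen_iff] at hx
  have := mem_cen_comm.mp hx
  simpa using this

theorem inClass_trans (H1 : AbelianCentralizers G) {g h k : G} (hg : g ∉ center G)
    (hgh : InClass g h) (hhk : InClass h k) : InClass g k := by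
  obtain ⟨hh, x, hx⟩ := hgh
  obtain ⟨hk, y, hy⟩ := hhk
  refine ⟨hk, y * x, ?_⟩
  -- `cen (x⁻¹ h x) = cen g`
  have hh' : x⁻¹ * h * x ∉ center G := fun hc => hh (conj_mem_center_iff.mp hc)
  have hcen : cen (x⁻¹ * h * x) = cen g := cen_eq_of_mem H1 hg hh' hx
  rw [← hcen]
  -- `y⁻¹ k y ∈ cen h`, conjugate by `x`
  have : (y * x)⁻¹ * k * (y * x) = x⁻¹ * (y⁻¹ * k * y) * x := by group
  rw [this, conj_mem_cen_iff]
  have e : x * (x⁻¹ * h * x) * x⁻¹ = h := by group
  rw [e]
  exact hy

section Counting

variable [Fintype G]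

theorem card_filter_mem (H : Subgroup G) [DecidablePred (fun t : G => t ∈ H)] :
    (Finset.univ.filter (fun t : G => t ∈ H)).card = Nat.card H := by
  rw [← Nat.card_eq_finsetCard]
  exact Nat.card_congr (Equiv.subtypeEquivRight (by simp))

open Classical in
/-- first inner count: the non-central elements with `x⁻¹ h x ∈ cen g`. -/
theorem card_conj_filter (g x : G) :
    (Finset.univ.filter (fun h : G => h ∉ center G ∧ x⁻¹ * h * x ∈ cen g)).card =
      Nat.card (cen g) - Nat.card (center G) := by
  have hD : (Finset.univ.filter (fun t : G => t ∈ cen g ∧ t ∉ center G)).card =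
      Nat.card (cen g) - Nat.card (center G) := by
    have : Finset.univ.filter (fun t : G => t ∈ cen g ∧ t ∉ center G) =
        (Finset.univ.filter (fun t : G => t ∈ cen g)) \
          (Finset.univ.filter (fun t : G => t ∈ center G)) := by
      ext t; simp
    rw [this, Finset.card_sdiff_of_subset, card_filter_mem, card_filter_mem]
    intro t ht
    simp only [Finset.mem_filter, Finset.mem_univ, true_and] at ht ⊢
    exact center_le_cen g ht
  rw [← hD]
  apply Finset.card_bij (fun h _ => x⁻¹ * h * x)
  · intro h hh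
    simp only [Finset.mem_filter, Finset.mem_univ, true_and] at hh ⊢
    exact ⟨hh.2, fun hc => hh.1 (conj_mem_center_iff.mp hc)⟩
  · intro a _ b _ hab
    simpa using hab
  · intro t ht
    simp only [Finset.mem_filter, Finset.mem_univ, true_and] at ht
    refine ⟨x * t * x⁻¹, ?_, by group⟩
    simp only [Finset.mem_filter, Finset.mem_univ, true_and]
    refine ⟨conj_not_mem_center ht.2, ?_⟩
    have : x⁻¹ * (x * t * x⁻¹) * x = t := by group
    rw [this]; exact ht.1

open Classical in
/-- second inner count: the `x` with `x⁻¹ h x ∈ cen g` form a coset of the normaliser. -/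
theorem card_conj_filter' (H1 : AbelianCentralizers G) {g h : G} (hg : g ∉ center G)
    (hh : InClass g h) :
    (Finset.univ.filter (fun x : G => x⁻¹ * h * x ∈ cen g)).card =
      Nat.card (Subgroup.normalizer ((cen g : Subgroup G) : Set G)) := by
  obtain ⟨hhZ, x₀, hx₀⟩ := hh
  rw [← card_filter_mem]
  have ht₀ : x₀⁻¹ * h * x₀ ∉ center G := fun hc => hhZ (conj_mem_center_iff.mp hc)
  have hcen₀ : cen (x₀⁻¹ * h * x₀) = cen g := cen_eq_of_mem H1 hg ht₀ hx₀
  apply Finset.card_bij (fun x _ => x₀⁻¹ * x)
  · intro x hx
    simp only [Finset.mem_filter, Finset.mem_univ, true_and] at hx ⊢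
    -- `ν = x₀⁻¹ x` normalises `cen g`
    have hx' : x⁻¹ * h * x ∉ center G := fun hc => hhZ (conj_mem_center_iff.mp hc)
    have hcen : cen (x⁻¹ * h * x) = cen g := cen_eq_of_mem H1 hg hx' hx
    rw [mem_normalizer_iff'']
    intro t
    have ht1 : x⁻¹ * h * x = (x₀⁻¹ * x)⁻¹ * (x₀⁻¹ * h * x₀) * (x₀⁻¹ * x) := by group
    rw [ht1] at hcen
    generalize x₀⁻¹ * x = ν at hcen ⊢
    generalize x₀⁻¹ * h * x₀ = t₀ at hcen hcen₀ ⊢
    constructor
    · intro ht
      rw [← hcen₀, mem_cen_iff] at ht
      rw [← hcen, mem_cen_iff]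
      have e1 : ν⁻¹ * t₀ * ν * (ν⁻¹ * t * ν) = ν⁻¹ * (t₀ * t) * ν := by group
      have e2 : ν⁻¹ * t * ν * (ν⁻¹ * t₀ * ν) = ν⁻¹ * (t * t₀) * ν := by group
      rw [e1, e2, ht]
    · intro ht
      rw [← hcen, mem_cen_iff] at ht
      rw [← hcen₀, mem_cen_iff]
      have e1 : ν⁻¹ * t₀ * ν * (ν⁻¹ * t * ν) = ν⁻¹ * (t₀ * t) * ν := by group
      have e2 : ν⁻¹ * t * ν * (ν⁻¹ * t₀ * ν) = ν⁻¹ * (t * t₀) * ν := by group
      rw [e1, e2] at ht
      exact mul_left_cancel (mul_right_cancel ht)
  · intro a _ b _ hab
    simpa using hab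
  · intro ν hν
    simp only [Finset.mem_filter, Finset.mem_univ, true_and] at hν
    refine ⟨x₀ * ν, ?_, by group⟩
    simp only [Finset.mem_filter, Finset.mem_univ, true_and]
    have e : (x₀ * ν)⁻¹ * h * (x₀ * ν) = ν⁻¹ * (x₀⁻¹ * h * x₀) * ν := by group
    rw [e]
    exact (mem_normalizer_iff''.mp hν _).mp hx₀

open Classical in
/-- **Size of a torus class**: `|class of g| · |N(cen g)| = |G| · (|cen g| − |Z|)`. -/
theorem card_class_mul (H1 : AbelianCentralizers G) {g : G} (hg : g ∉ center G) :
    (Finset.univ.filter (fun h : G => InClass g h)).card *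
        Nat.card (Subgroup.normalizer ((cen g : Subgroup G) : Set G)) =
      Nat.card G * (Nat.card (cen g) - Nat.card (center G)) := by
  have hsum : ∑ x : G,
      (Finset.univ.filter (fun h : G => h ∉ center G ∧ x⁻¹ * h * x ∈ cen g)).card =
      ∑ h : G, (Finset.univ.filter (fun x : G => h ∉ center G ∧ x⁻¹ * h * x ∈ cen g)).card := by
    simp_rw [Finset.card_filter]
    exact Finset.sum_comm
  have hL : ∑ x : G,
      (Finset.univ.filter (fun h : G => h ∉ center G ∧ x⁻¹ * h * x ∈ cen g)).card =
      Nat.card G * (Nat.card (cen g) - Nat.card (center G)) := by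
    simp_rw [card_conj_filter]
    simp [Nat.card_eq_fintype_card]
  have hR : ∑ h : G,
      (Finset.univ.filter (fun x : G => h ∉ center G ∧ x⁻¹ * h * x ∈ cen g)).card =
      (Finset.univ.filter (fun h : G => InClass g h)).card *
        Nat.card (Subgroup.normalizer ((cen g : Subgroup G) : Set G)) := by
    rw [Finset.card_eq_sum_ones, Finset.sum_mul, Finset.sum_filter]
    apply Finset.sum_congr rfl
    intro h _
    split_ifs with hc
    · rw [one_mul, ← card_conj_filter' H1 hg hc]
      congr 1
      ext x
      simp [hc.1]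
    · rw [Finset.card_eq_zero, Finset.filter_eq_empty_iff]
      intro x _ hx
      exact hc ⟨hx.1, x, hx.2⟩
  rw [← hR, ← hsum, hL]

end Counting

/-- The arithmetic lemma consumed here (proved in `Dioph14`). -/
def DiophStatement : Prop :=
  ∀ {ι : Type} [Fintype ι] (n : ℕ), 1 ≤ n → ∀ (a m w : ι → ℕ), (∀ i, w i = 1 ∨ w i = 2) →
    (∀ i, 2 ≤ m i) → (∀ i, n = a i * w i * m i) → (∑ i, a i * (m i - 1) + 1 = n) →
    n = 1 ∨ ∃ i, n ≤ 12 * m i

theorem card_mul_relIndex' {H K : Subgroup G} (h : H ≤ K) :
    Nat.card H * H.relIndex K = Nat.card K := by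
  have := Subgroup.relIndex_mul_relIndex (⊥ : Subgroup G) H K bot_le h
  rwa [Subgroup.relIndex_bot_left, Subgroup.relIndex_bot_left] at this

/-- The setoid of torus classes on the non-central elements. -/
def classSetoid (H1 : AbelianCentralizers G) : Setoid {g : G // g ∉ center G} where
  r a b := InClass a.1 b.1
  iseqv :=
    { refl := fun a => inClass_refl a.2
      symm := fun {a _} h => inClass_symm a.2 h
      trans := fun {a _ _} h h' => inClass_trans H1 a.2 h h' }

/-- **Class equation over tori ⇒ an abelian subgroup of index at most 12.** -/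
theorem exists_abelian_index_le_twelve [Finite G] (hD : DiophStatement)
    (H1 : AbelianCentralizers G) (H2 : SmallNormalizers G) :
    ∃ B : Subgroup G, (∀ x ∈ B, ∀ y ∈ B, x * y = y * x) ∧ Nat.card G ≤ 12 * Nat.card B := by
  classical
  have : Fintype G := Fintype.ofFinite G
  set Zc : Subgroup G := center G with hZc
  set z : ℕ := Nat.card Zc with hz
  have hzpos : 0 < z := Nat.card_pos
  set n : ℕ := Zc.index with hn
  have hnz : z * n = Nat.card G := Subgroup.card_mul_index Zc
  have hnpos : 1 ≤ n := Nat.one_le_iff_ne_zero.mpr Subgroup.index_ne_zero_of_finite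
  -- the index type: torus classes
  let s : Setoid {g : G // g ∉ center G} := classSetoid H1
  let ι := Quotient s
  have : Fintype ι := Quotient.fintype s
  let rep : ι → {g : G // g ∉ center G} := fun c => Quotient.out c
  let T : ι → Subgroup G := fun c => cen (rep c).1
  let N : ι → Subgroup G := fun c => Subgroup.normalizer ((T c : Subgroup G) : Set G)
  have hZT : ∀ c, Zc ≤ T c := fun c => center_le_cen _
  have hTN : ∀ c, T c ≤ N c := fun c => Subgroup.le_normalizer
  let a : ι → ℕ := fun c => (N c).index
  let w : ι → ℕ := fun c => (T c).relIndex (N c)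
  let m : ι → ℕ := fun c => Zc.relIndex (T c)
  have hnam : ∀ c, n = a c * w c * m c := by
    intro c
    have h1 : Zc.relIndex (T c) * (T c).index = Zc.index := Subgroup.relIndex_mul_index (hZT c)
    have h2 : (T c).relIndex (N c) * (N c).index = (T c).index :=
      Subgroup.relIndex_mul_index (hTN c)
    simp only [hn, a, w, m]
    rw [← h1, ← h2]; ring
  have hTcard : ∀ c, z * m c = Nat.card (T c) := fun c => card_mul_relIndex' (hZT c)
  have hNcard : ∀ c, Nat.card (T c) * w c = Nat.card (N c) := fun c => card_mul_relIndex' (hTN c)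
  have hw : ∀ c, w c = 1 ∨ w c = 2 := by
    intro c
    have h2 := H2 (rep c).1 (rep c).2
    have hTpos : 0 < Nat.card (T c) := Nat.card_pos
    have hNpos : 0 < Nat.card (N c) := Nat.card_pos
    have hle : Nat.card (T c) * w c ≤ Nat.card (T c) * 2 := by
      rw [hNcard c, mul_comm]; exact h2
    have hw2 : w c ≤ 2 := Nat.le_of_mul_le_mul_left hle hTpos
    have hw0 : w c ≠ 0 := by
      intro h0
      have := hNcard c
      rw [h0, mul_zero] at this
      omega
    omega
  have hm : ∀ c, 2 ≤ m c := by
    intro c
    have hm0 : m c ≠ 0 := by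
      intro h0
      have := hTcard c
      rw [h0, mul_zero] at this
      have hTpos : 0 < Nat.card (T c) := Nat.card_pos
      omega
    have hm1 : m c ≠ 1 := by
      intro h1
      have hle : T c ≤ Zc := Subgroup.relIndex_eq_one.mp h1
      exact (rep c).2 (hle (self_mem_cen _))
    omega
  -- class sizes
  have hfib : ∀ c : ι, Fintype.card {x : {g : G // g ∉ center G} // Quotient.mk s x = c} =
      a c * (m c - 1) * z := by
    intro c
    have hcard : Fintype.card {x : {g : G // g ∉ center G} // Quotient.mk s x = c} =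
        (Finset.univ.filter (fun h : G => InClass (rep c).1 h)).card := by
      rw [← Fintype.card_coe]
      apply Fintype.card_congr
      refine
        { toFun := fun x => ⟨x.1.1, ?_⟩
          invFun := fun h => ⟨⟨h.1, ?_⟩, ?_⟩
          left_inv := fun x => rfl
          right_inv := fun h => rfl }
      · simp only [Finset.mem_filter, Finset.mem_univ, true_and]
        have hx : Quotient.mk s x.1 = Quotient.mk s (rep c) := by
          rw [x.2]; exact (Quotient.out_eq c).symm
        have hr : s.r x.1 (rep c) := Quotient.exact hx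
        exact inClass_symm x.1.2 hr
      · have := h.2
        simp only [Finset.mem_filter, Finset.mem_univ, true_and] at this
        exact this.1
      · have := h.2
        simp only [Finset.mem_filter, Finset.mem_univ, true_and] at this
        have hr : s.r (rep c) ⟨h.1, this.1⟩ := this
        have : Quotient.mk s (rep c) = Quotient.mk s ⟨h.1, this.1⟩ := Quotient.sound hr
        rw [← this]; exact Quotient.out_eq c
    rw [hcard]
    have hmul := card_class_mul H1 (rep c).2
    have hG : Nat.card G = a c * Nat.card (N c) := by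
      rw [mul_comm]; exact (Subgroup.card_mul_index (N c)).symm
    have hNpos : 0 < Nat.card (N c) := Nat.card_pos
    have hTz : Nat.card (T c) - z = (m c - 1) * z := by
      rw [← hTcard c, Nat.sub_mul, one_mul, mul_comm]
    change _ * Nat.card (N c) = Nat.card G * (Nat.card (T c) - z) at hmul
    rw [hG, hTz] at hmul
    have : (Finset.univ.filter (fun h : G => InClass (rep c).1 h)).card * Nat.card (N c) =
        a c * (m c - 1) * z * Nat.card (N c) := by rw [hmul]; ring
    exact Nat.eq_of_mul_eq_mul_right hNpos this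
  have hX : Fintype.card {g : G // g ∉ center G} = Nat.card G - z := by
    rw [Fintype.card_subtype_compl, Nat.card_eq_fintype_card, hz, Nat.card_eq_fintype_card]
  have hX' : Fintype.card {g : G // g ∉ center G} = ∑ c : ι, a c * (m c - 1) * z := by
    rw [Fintype.card_congr (Equiv.sigmaFiberEquiv (Quotient.mk s)).symm, Fintype.card_sigma]
    exact Finset.sum_congr rfl (fun c _ => hfib c)
  have hsum : ∑ c : ι, a c * (m c - 1) + 1 = n := by
    have h1 : (∑ c : ι, a c * (m c - 1)) * z = Nat.card G - z := by
      rw [← hX, hX', Finset.sum_mul]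
    rw [← hnz] at h1
    have h2 : (∑ c : ι, a c * (m c - 1)) * z = (n - 1) * z := by
      rw [h1, Nat.sub_mul, one_mul, mul_comm]
    have h3 := Nat.eq_of_mul_eq_mul_right hzpos h2
    omega
  rcases hD n hnpos a m w hw hm hnam hsum with h1 | ⟨c, hc⟩
  · -- `G` is abelian
    have htop : Zc = ⊤ := Subgroup.index_eq_one.mp h1
    refine ⟨⊤, ?_, ?_⟩
    · intro x _ y _
      have hx : x ∈ Zc := by rw [htop]; trivial
      exact (Subgroup.mem_center_iff.mp hx y).symm
    · rw [Subgroup.card_top]; omega
  · refine ⟨T c, H1 (rep c).1 (rep c).2, ?_⟩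
    rw [← hnz, ← hTcard c]
    calc z * n ≤ z * (12 * m c) := Nat.mul_le_mul_left _ hc
      _ = 12 * (z * m c) := by ring

end Fermat.Agent.ES.R48.ClassEq20
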