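/-
Programme R (S48, Deligne–Serre), chapter A5 GRP (helper20): linear algebra of `2 × 2` matrices.

* `exists_eq_add_smul_of_commute` : the commutant of a non-scalar `g` is `{x + y g}`;
* `mul_comm_of_commute_nonscalar` : two matrices commuting with a non-scalar `g` commute;
* `eq_or_eq_of_trace_det` : if `x + y g` has the trace and determinant of `g`, `disc g ≠ 0`, `2 ≠ 0`,
  then `x + y g ∈ {g, tr g − g}`;
* `disc_ne_zero_of_pow_eq_one` : a non-scalar `g` with `g ^ r = 1`, `r ≠ 0` in `k`, has `disc g ≠ 0`.
-/
import Mathlib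

set_option autoImplicit false

namespace Fermat.Agent.ES.R48.Mat2Alg20

variable {k : Type*} [Field k]

local notation "M2" => Matrix (Fin 2) (Fin 2) k

/-- the discriminant `tr² − 4 det` of a `2 × 2` matrix. -/
def disc (g : M2) : k := g.trace ^ 2 - 4 * g.det

theorem smul_one_add_smul_apply (g : M2) (x y : k) :
    x • (1 : M2) + y • g = !![x + y * g 0 0, y * g 0 1; y * g 1 0, x + y * g 1 1] := by
  ext i j; fin_cases i <;> fin_cases j <;> simp

/-- The commutant of a non-scalar `2 × 2` matrix `g` is `{x + y g}`. -/
theorem exists_eq_add_smul_of_commute (g h : M2)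
    (hg : ∀ c : k, g ≠ c • (1 : M2)) (hc : h * g = g * h) :
    ∃ x y : k, h = x • (1 : M2) + y • g := by
  have e00 := congrFun (congrFun hc 0) 0
  have e01 := congrFun (congrFun hc 0) 1
  have e10 := congrFun (congrFun hc 1) 0
  have e11 := congrFun (congrFun hc 1) 1
  simp only [Matrix.mul_apply, Fin.sum_univ_two] at e00 e01 e10 e11
  by_cases hb : g 0 1 = 0
  · by_cases hc' : g 1 0 = 0
    · have had : g 0 0 - g 1 1 ≠ 0 := by
        intro had
        apply hg (g 0 0)
        ext i j; fin_cases i <;> fin_cases j <;> simp [hb, hc', sub_eq_zero.mp had]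
      -- `h` is diagonal
      have h01 : h 0 1 = 0 := by
        have : h 0 1 * (g 0 0 - g 1 1) = 0 := by
          rw [hb] at e01; linear_combination -e01
        rcases mul_eq_zero.mp this with h | h
        · exact h
        · exact absurd h had
      have h10 : h 1 0 = 0 := by
        have : h 1 0 * (g 0 0 - g 1 1) = 0 := by
          rw [hc'] at e10; linear_combination e10
        rcases mul_eq_zero.mp this with h | h
        · exact h
        · exact absurd h had
      refine ⟨h 0 0 - (h 0 0 - h 1 1) / (g 0 0 - g 1 1) * g 0 0,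
        (h 0 0 - h 1 1) / (g 0 0 - g 1 1), ?_⟩
      rw [smul_one_add_smul_apply]
      ext i j; fin_cases i <;> fin_cases j
      · simp
      · simp [hb, h01]
      · simp [hc', h10]
      · simp only [Fin.mk_one, Fin.isValue, Matrix.of_apply, Matrix.cons_val', Matrix.cons_val_one,
          Matrix.cons_val_fin_one]
        field_simp
        ring
    · -- `g 1 0 ≠ 0`
      refine ⟨h 0 0 - h 1 0 / g 1 0 * g 0 0, h 1 0 / g 1 0, ?_⟩
      rw [smul_one_add_smul_apply]
      ext i j; fin_cases i <;> fin_cases j
      · simp
      · simp only [Fin.zero_eta, Fin.isValue, Fin.mk_one, Matrix.of_apply, Matrix.cons_val',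
          Matrix.cons_val_one, Matrix.cons_val_fin_one, Matrix.cons_val_zero]
        field_simp
        linear_combination e00
      · simp only [Fin.mk_one, Fin.isValue, Fin.zero_eta, Matrix.of_apply, Matrix.cons_val',
          Matrix.cons_val_zero, Matrix.cons_val_fin_one, Matrix.cons_val_one]
        field_simp
      · simp only [Fin.mk_one, Fin.isValue, Matrix.of_apply, Matrix.cons_val', Matrix.cons_val_one,
          Matrix.cons_val_fin_one]
        field_simp
        linear_combination e10
  · -- `g 0 1 ≠ 0`
    refine ⟨h 0 0 - h 0 1 / g 0 1 * g 0 0, h 0 1 / g 0 1, ?_⟩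
    rw [smul_one_add_smul_apply]
    ext i j; fin_cases i <;> fin_cases j
    · simp
    · simp only [Fin.zero_eta, Fin.isValue, Fin.mk_one, Matrix.of_apply, Matrix.cons_val',
        Matrix.cons_val_one, Matrix.cons_val_fin_one, Matrix.cons_val_zero]
      field_simp
    · simp only [Fin.mk_one, Fin.isValue, Fin.zero_eta, Matrix.of_apply, Matrix.cons_val',
        Matrix.cons_val_zero, Matrix.cons_val_fin_one, Matrix.cons_val_one]
      field_simp
      linear_combination -e00
    · simp only [Fin.mk_one, Fin.isValue, Matrix.of_apply, Matrix.cons_val', Matrix.cons_val_one,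
        Matrix.cons_val_fin_one]
      field_simp
      linear_combination -e01

/-- Two matrices commuting with a non-scalar `g` commute with each other. -/
theorem mul_comm_of_commute_nonscalar (g h h' : M2) (hg : ∀ c : k, g ≠ c • (1 : M2))
    (hc : h * g = g * h) (hc' : h' * g = g * h') : h * h' = h' * h := by
  obtain ⟨x, y, rfl⟩ := exists_eq_add_smul_of_commute g h hg hc
  obtain ⟨x', y', rfl⟩ := exists_eq_add_smul_of_commute g h' hg hc'
  have : Commute (x • (1 : M2) + y • g) (x' • (1 : M2) + y' • g) := by
    apply Commute.add_left <;> apply Commute.add_right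
    · exact ((Commute.one_left (1 : M2)).smul_left x).smul_right x'
    · exact ((Commute.one_left g).smul_left x).smul_right y'
    · exact ((Commute.one_right g).smul_left y).smul_right x'
    · exact ((Commute.refl g).smul_left y).smul_right y'
  exact this.eq

theorem trace_smul_one_add_smul (g : M2) (x y : k) :
    (x • (1 : M2) + y • g).trace = 2 * x + y * g.trace := by
  rw [smul_one_add_smul_apply, Matrix.trace_fin_two_of, Matrix.trace_fin_two]; ring

theorem det_smul_one_add_smul (g : M2) (x y : k) :
    (x • (1 : M2) + y • g).det = x ^ 2 + x * y * g.trace + y ^ 2 * g.det := by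
  rw [smul_one_add_smul_apply, Matrix.det_fin_two_of, Matrix.trace_fin_two, Matrix.det_fin_two]
  ring

/-- If `x + y g` has the same trace and determinant as `g`, and `disc g ≠ 0`, `2 ≠ 0`, then
`x + y g` is `g` or its "conjugate" `tr g − g`. -/
theorem eq_or_eq_of_trace_det (g : M2) (x y : k) (h2 : (2 : k) ≠ 0) (hd : disc g ≠ 0)
    (htr : (x • (1 : M2) + y • g).trace = g.trace)
    (hdet : (x • (1 : M2) + y • g).det = g.det) :
    x • (1 : M2) + y • g = g ∨ x • (1 : M2) + y • g = g.trace • (1 : M2) - g := by
  rw [trace_smul_one_add_smul] at htr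
  rw [det_smul_one_add_smul] at hdet
  have key : (1 - y ^ 2) * disc g = 0 := by
    unfold disc
    linear_combination 4 * hdet - (2 * x + g.trace + y * g.trace) * htr
  have hy : (1 - y) * (1 + y) = 0 := by
    rcases mul_eq_zero.mp key with h | h
    · linear_combination h
    · exact absurd h hd
  rcases mul_eq_zero.mp hy with h | h
  · left
    have hy1 : y = 1 := by linear_combination -h
    have hx : x = 0 := by
      have : 2 * x = 0 := by rw [hy1] at htr; linear_combination htr
      rcases mul_eq_zero.mp this with h' | h'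
      · exact absurd h' h2
      · exact h'
    rw [hy1, hx]; simp
  · right
    have hy1 : y = -1 := by linear_combination h
    have hx : x = g.trace := by
      have : 2 * (x - g.trace) = 0 := by rw [hy1] at htr; linear_combination htr
      rcases mul_eq_zero.mp this with h' | h'
      · exact absurd h' h2
      · exact sub_eq_zero.mp h'
    rw [hy1, hx]; simp [sub_eq_add_neg]

/-- Cayley–Hamilton for `2 × 2` matrices. -/
theorem mul_self_eq (g : M2) : g * g = g.trace • g - g.det • (1 : M2) := by
  ext i j
  fin_cases i <;> fin_cases j <;>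
    simp [Matrix.mul_apply, Fin.sum_univ_two, Matrix.trace_fin_two, Matrix.det_fin_two] <;> ring

theorem smul_one_add_smul_mul (n : M2) (hnn : n * n = 0) (A B s : k) :
    (A • (1 : M2) + B • n) * (s • (1 : M2) + n) = (A * s) • (1 : M2) + (A + B * s) • n := by
  rw [add_mul, mul_add, mul_add, smul_mul_smul_comm, smul_mul_smul_comm, smul_mul_assoc,
    smul_mul_assoc, one_mul, one_mul, mul_one, hnn, smul_zero, add_zero, add_assoc, ← add_smul]

/-- A non-scalar `2 × 2` matrix of finite order prime to the characteristic has non-zero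
discriminant (it is semisimple with distinct eigenvalues). -/
theorem disc_ne_zero_of_pow_eq_one (g : M2) (hg : ∀ c : k, g ≠ c • (1 : M2)) (h2 : (2 : k) ≠ 0)
    (r : ℕ) (hr : (r : k) ≠ 0) (hgr : g ^ r = 1) : disc g ≠ 0 := by
  intro hd
  unfold disc at hd
  set s : k := g.trace / 2 with hs
  set n : M2 := g - s • (1 : M2) with hn
  have hts : g.trace = 2 * s := by rw [hs]; field_simp
  have hdet : g.det = s ^ 2 := by
    have h4 : (4 : k) ≠ 0 := by
      have : (4 : k) = 2 * 2 := by norm_num
      rw [this]; exact mul_ne_zero h2 h2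
    have : 4 * g.det = 4 * s ^ 2 := by rw [hts] at hd; linear_combination -hd
    exact mul_left_cancel₀ h4 this
  have hgn : g = s • (1 : M2) + n := by rw [hn]; abel
  have hnn : n * n = 0 := by
    rw [hn, sub_mul, mul_sub, mul_self_eq, hts, hdet]
    simp only [smul_mul_assoc, mul_smul_comm, one_mul, mul_one, smul_sub, smul_smul]
    rw [two_mul, add_smul, pow_two]
    abel
  -- powers of `g`
  have hpow : ∀ m : ℕ, g ^ (m + 1) = s ^ (m + 1) • (1 : M2) + ((m + 1 : k) * s ^ m) • n := by
    intro m
    induction m with
    | zero => simp [hgn]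
    | succ m ih =>
      rw [pow_succ, ih]
      rw [hgn, smul_one_add_smul_mul n hnn]
      congr 2
      · rw [pow_succ s (m + 1)]
      · push_cast; ring
  obtain ⟨m, rfl⟩ : ∃ m, r = m + 1 := by
    rcases r with _ | m
    · simp at hr
    · exact ⟨m, rfl⟩
  rw [hpow m] at hgr
  by_cases hc : ((m + 1 : k) * s ^ m) = 0
  · have hm1 : ((m + 1 : ℕ) : k) = (m : k) + 1 := by push_cast; ring
    rw [hm1] at hr
    have hsm : s ^ m = 0 := by
      rcases mul_eq_zero.mp hc with h | h
      · exact absurd h hr
      · exact h
    have hs0 : s ^ (m + 1) = 0 := by rw [pow_succ, hsm, zero_mul]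
    rw [hc, hs0] at hgr
    simp at hgr
  · apply hg (s + (1 - s ^ (m + 1)) / ((m + 1 : k) * s ^ m))
    have hnval : n = ((1 - s ^ (m + 1)) / ((m + 1 : k) * s ^ m)) • (1 : M2) := by
      have h1 : ((m + 1 : k) * s ^ m) • n = (1 - s ^ (m + 1)) • (1 : M2) := by
        rw [sub_smul, one_smul]; exact eq_sub_of_add_eq' hgr
      calc n = (((m + 1 : k) * s ^ m)⁻¹ * ((m + 1 : k) * s ^ m)) • n := by
              rw [inv_mul_cancel₀ hc, one_smul]
        _ = ((m + 1 : k) * s ^ m)⁻¹ • (((m + 1 : k) * s ^ m) • n) := by rw [smul_smul]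
        _ = _ := by rw [h1, smul_smul, div_eq_inv_mul]
    rw [hgn, hnval, ← add_smul]

end Fermat.Agent.ES.R48.Mat2Alg20
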