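/-
Programme R (S48, Deligne–Serre), chapter A5 GRP (helper20): finite subgroups `G ≤ GL₂(k)` of order
prime to the characteristic (`≠ 2`) satisfy the hypotheses of `ClassEq20`, and pairwise commuting
elements of `G` with the same characteristic polynomial are at most two.
-/
import Mathlib
import Fermat.Agent.ES.R48.GrpDefs20
import Fermat.Agent.ES.R48.Mat2Alg20
import Fermat.Agent.ES.R48.ClassEq20

set_option autoImplicit false

open scoped MatrixGroups

namespace Fermat.Agent.ES.R48.TorusGL20

open Fermat.Agent.ES.R48 Mat2Alg20 ClassEq20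

variable {k : Type} [Field k] (G : Subgroup (GL (Fin 2) k))

/-- the matrix of an element of `G`. -/
def mat (g : G) : Matrix (Fin 2) (Fin 2) k := ((g : GL (Fin 2) k) : Matrix (Fin 2) (Fin 2) k)

theorem mat_mul (g h : G) : mat G (g * h) = mat G g * mat G h := by simp [mat]

theorem mat_one : mat G 1 = 1 := by simp [mat]

theorem mat_injective : Function.Injective (mat G) := fun _ _ h => Subtype.ext (Units.ext h)

theorem mat_pow (g : G) (r : ℕ) : mat G (g ^ r) = mat G g ^ r := by simp [mat]

theorem mat_mul_inv (g : G) : mat G g * mat G g⁻¹ = 1 := by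
  rw [← mat_mul, mul_inv_cancel, mat_one]

theorem mat_inv_mul (g : G) : mat G g⁻¹ * mat G g = 1 := by
  rw [← mat_mul, inv_mul_cancel, mat_one]

theorem trace_conj (x g : G) : (mat G (x * g * x⁻¹)).trace = (mat G g).trace := by
  rw [mat_mul, mat_mul, Matrix.trace_mul_comm, ← Matrix.mul_assoc, mat_inv_mul, Matrix.one_mul]

theorem det_conj (x g : G) : (mat G (x * g * x⁻¹)).det = (mat G g).det := by
  rw [mat_mul, mat_mul, Matrix.det_mul, Matrix.det_mul, mul_right_comm, ← Matrix.det_mul,
    mat_mul_inv, Matrix.det_one, one_mul]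

theorem disc_conj (x g : G) : disc (mat G (x * g * x⁻¹)) = disc (mat G g) := by
  unfold disc; rw [trace_conj, det_conj]

/-- a non-central element of `G` is not a scalar matrix. -/
theorem not_scalar_of_not_mem_center {g : G} (hg : g ∉ Subgroup.center G) (c : k) :
    mat G g ≠ c • (1 : Matrix (Fin 2) (Fin 2) k) := by
  intro h
  apply hg
  rw [Subgroup.mem_center_iff]
  intro x
  apply mat_injective G
  rw [mat_mul, mat_mul, h]
  simp

theorem mat_pow_card (g : G) : mat G g ^ Nat.card G = 1 := by
  rw [← mat_pow, pow_card_eq_one', mat_one]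

/-- non-scalar elements have non-zero discriminant. -/
theorem disc_ne_zero (h2 : (2 : k) ≠ 0) (hord : ((Nat.card G : ℕ) : k) ≠ 0) {g : G}
    (hg : ∀ c : k, mat G g ≠ c • (1 : Matrix (Fin 2) (Fin 2) k)) : disc (mat G g) ≠ 0 :=
  disc_ne_zero_of_pow_eq_one (mat G g) hg h2 (Nat.card G) hord (mat_pow_card G g)

/-- **Hypothesis 1 of `ClassEq20`.** -/
theorem abelianCentralizers : AbelianCentralizers G := by
  intro g hg x hx y hy
  rw [mem_cen_iff] at hx hy
  apply mat_injective G
  rw [mat_mul, mat_mul]
  apply mul_comm_of_commute_nonscalar (mat G g) _ _ (not_scalar_of_not_mem_center G hg)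
  · rw [← mat_mul, ← mat_mul, hx]
  · rw [← mat_mul, ← mat_mul, hy]

/-- a conjugate of `g` commuting with `g` is `g` or `tr g − g`. -/
theorem conj_eq_or (h2 : (2 : k) ≠ 0) (hord : ((Nat.card G : ℕ) : k) ≠ 0) {g : G}
    (hg : g ∉ Subgroup.center G) {x : G} (hx : x * g * x⁻¹ ∈ cen g) :
    x * g * x⁻¹ = g ∨
      mat G (x * g * x⁻¹) = (mat G g).trace • (1 : Matrix (Fin 2) (Fin 2) k) - mat G g := by
  have hns := not_scalar_of_not_mem_center G hg
  rw [mem_cen_iff] at hx
  have hcomm : mat G (x * g * x⁻¹) * mat G g = mat G g * mat G (x * g * x⁻¹) := by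
    rw [← mat_mul, ← mat_mul, hx]
  obtain ⟨a, b, hab⟩ := exists_eq_add_smul_of_commute (mat G g) _ hns hcomm
  have htr := trace_conj G x g
  have hdet := det_conj G x g
  rw [hab] at htr hdet
  rcases eq_or_eq_of_trace_det (mat G g) a b h2 (disc_ne_zero G h2 hord hns) htr hdet with h | h
  · left
    apply mat_injective G
    rw [hab, h]
  · right
    rw [hab, h]

/-- **Hypothesis 2 of `ClassEq20`.** -/
theorem smallNormalizers (h2 : (2 : k) ≠ 0) (hord : ((Nat.card G : ℕ) : k) ≠ 0) :
    SmallNormalizers G := by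
  intro g hg
  set T : Subgroup G := cen g with hT
  set N : Subgroup G := Subgroup.normalizer ((T : Subgroup G) : Set G) with hN
  have hTN : T ≤ N := Subgroup.le_normalizer
  -- elements of `N` outside `T` conjugate `g` to `tr g − g`, in both directions
  have key : ∀ x ∈ N, x ∉ T →
      mat G (x * g * x⁻¹) = (mat G g).trace • (1 : Matrix (Fin 2) (Fin 2) k) - mat G g := by
    intro x hxN hxT
    have hmem : x * g * x⁻¹ ∈ cen g :=
      (Subgroup.mem_normalizer_iff.mp hxN g).mp (self_mem_cen g)
    rcases conj_eq_or G h2 hord hg hmem with h | h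
    · exfalso
      apply hxT
      rw [hT, mem_cen_iff]
      have := congrArg (fun y => y * x) h
      simp only [inv_mul_cancel_right] at this
      exact this.symm
    · exact h
  have hdvd : T.relIndex N ∣ 2 := by
    rw [Subgroup.relIndex_dvd_two_iff]
    by_cases hex : ∃ y ∈ N, y ∉ T
    · obtain ⟨y, hyN, hyT⟩ := hex
      refine ⟨y, hyN, ?_⟩
      intro b hbN
      by_cases hbT : b ∈ T
      · right; exact hbT
      · left
        have hb' : b⁻¹ ∈ N := N.inv_mem hbN
        have hb'T : b⁻¹ ∉ T := fun h => hbT (by simpa using T.inv_mem h)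
        have e1 := key y hyN hyT
        have e2 := key b⁻¹ hb' hb'T
        have e3 : y * g * y⁻¹ = b⁻¹ * g * b⁻¹⁻¹ := by
          apply mat_injective G
          rw [e1, e2]
        rw [hT, mem_cen_iff]
        have := congrArg (fun t => b * t * y) e3
        simp only [inv_inv] at this
        calc g * (b * y) = b * (b⁻¹ * g * b) * y := by group
          _ = b * (y * g * y⁻¹) * y := this.symm
          _ = b * y * g := by group
    · refine ⟨1, N.one_mem, ?_⟩
      intro b hbN
      right
      by_contra hbT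
      exact hex ⟨b, hbN, hbT⟩
  have hle : T.relIndex N ≤ 2 := Nat.le_of_dvd (by norm_num) hdvd
  have hcard : Nat.card T * T.relIndex N = Nat.card N := card_mul_relIndex' hTN
  calc Nat.card N = Nat.card T * T.relIndex N := hcard.symm
    _ ≤ Nat.card T * 2 := Nat.mul_le_mul_left _ hle
    _ = 2 * Nat.card T := by ring

/-- **Jordan for `n = 2`, prime-to-`ℓ` case**: an abelian subgroup of index at most `12`. -/
theorem exists_abelian [Finite G] (hD : DiophStatement) (h2 : (2 : k) ≠ 0)
    (hord : ((Nat.card G : ℕ) : k) ≠ 0) :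
    ∃ B : Subgroup G, (∀ x ∈ B, ∀ y ∈ B, x * y = y * x) ∧ Nat.card G ≤ 12 * Nat.card B :=
  exists_abelian_index_le_twelve hD (abelianCentralizers G) (smallNormalizers G h2 hord)

theorem trace_smul_one (c : k) : (c • (1 : Matrix (Fin 2) (Fin 2) k)).trace = 2 * c := by
  rw [Matrix.trace_fin_two]; simp; ring

theorem det_smul_one (c : k) : (c • (1 : Matrix (Fin 2) (Fin 2) k)).det = c ^ 2 := by
  rw [Matrix.det_fin_two]; simp; ring

/-- two commuting elements of `G` with the same trace and determinant: `b' ∈ {b, tr b − b}`. -/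
theorem eq_or_of_commute_of_charData (h2 : (2 : k) ≠ 0) (hord : ((Nat.card G : ℕ) : k) ≠ 0)
    {b b' : G} (hc : b' * b = b * b') (htr : (mat G b').trace = (mat G b).trace)
    (hdet : (mat G b').det = (mat G b).det) :
    mat G b' = mat G b ∨
      mat G b' = (mat G b).trace • (1 : Matrix (Fin 2) (Fin 2) k) - mat G b := by
  by_cases hs : ∃ c : k, mat G b = c • (1 : Matrix (Fin 2) (Fin 2) k)
  · left
    obtain ⟨c, hcb⟩ := hs
    have hdisc : disc (mat G b') = 0 := by
      unfold disc
      rw [htr, hdet, hcb, trace_smul_one, det_smul_one]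
      ring
    have hs' : ∃ c' : k, mat G b' = c' • (1 : Matrix (Fin 2) (Fin 2) k) := by
      by_contra hne
      exact disc_ne_zero G h2 hord (fun c' h => hne ⟨c', h⟩) hdisc
    obtain ⟨c', hcb'⟩ := hs'
    have : 2 * c' = 2 * c := by
      have := htr
      rw [hcb, hcb', trace_smul_one, trace_smul_one] at this
      exact this
    have hcc : c' = c := mul_left_cancel₀ h2 this
    rw [hcb, hcb', hcc]
  · have hs : ∀ c : k, mat G b ≠ c • (1 : Matrix (Fin 2) (Fin 2) k) := fun c h => hs ⟨c, h⟩
    have hcomm : mat G b' * mat G b = mat G b * mat G b' := by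
      rw [← mat_mul, ← mat_mul, hc]
    obtain ⟨x, y, hxy⟩ := exists_eq_add_smul_of_commute (mat G b) _ hs hcomm
    rw [hxy] at htr hdet ⊢
    exact eq_or_eq_of_trace_det (mat G b) x y h2 (disc_ne_zero G h2 hord hs) htr hdet

/-- pairwise commuting elements of `G` with the same characteristic polynomial: at most two. -/
theorem card_le_two_of_commute (h2 : (2 : k) ≠ 0) (hord : ((Nat.card G : ℕ) : k) ≠ 0)
    (S : Finset G) (hcomm : ∀ s ∈ S, ∀ s' ∈ S, s * s' = s' * s) (P : k × k)
    (hP : ∀ s ∈ S, ((mat G s).trace, (mat G s).det) = P) : S.card ≤ 2 := by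
  classical
  rcases S.eq_empty_or_nonempty with rfl | ⟨b, hb⟩
  · simp
  · have hsub : S.card ≤
        ({mat G b, (mat G b).trace • (1 : Matrix (Fin 2) (Fin 2) k) - mat G b} :
          Finset (Matrix (Fin 2) (Fin 2) k)).card := by
      apply Finset.card_le_card_of_injOn (mat G)
      · intro s hs
        have h1 := hP s hs
        have h2' := hP b hb
        rw [← h2'] at h1
        have htr : (mat G s).trace = (mat G b).trace := congrArg Prod.fst h1
        have hdet : (mat G s).det = (mat G b).det := congrArg Prod.snd h1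
        have := eq_or_of_commute_of_charData G h2 hord (hcomm s hs b hb) htr hdet
        simpa using this
      · exact (mat_injective G).injOn
    exact hsub.trans Finset.card_le_two

end Fermat.Agent.ES.R48.TorusGL20
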