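/-
Programme R (S48, Deligne–Serre), chapter A5 GRP, case (α) (helper5).

A semisimple subgroup `G ≤ GL₂(𝔽_ℓ)` whose order is divisible by `ℓ` has at least
`ℓ²(ℓ-1)` elements.  An element `u` of order `ℓ` is unipotent (`(u-1)² = 0`, by the Frobenius
identity and Cayley–Hamilton), it fixes exactly one line; by semisimplicity some `g ∈ G` moves
this line, so `u` and `g u g⁻¹` become an upper and a lower unipotent matrix in a suitable
basis, and the `ℓ²(ℓ-1)` products `uⁱ u'ʲ uᵏ` (`j ≠ 0`, Bruhat big cell) are pairwise distinct.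
-/
import Mathlib
import Fermat.Agent.ES.R48.GrpDefs20

set_option autoImplicit false

open Matrix

namespace Fermat.Agent.ES.R48.Transv5

section Elementary

variable {k : Type*} [CommRing k]

/-- upper unipotent element of `GL₂`. -/
def upperGL (x : k) : GL (Fin 2) k :=
  ⟨!![1, x; 0, 1], !![1, -x; 0, 1],
    by simp [Matrix.one_fin_two],
    by simp [Matrix.one_fin_two]⟩

/-- lower unipotent element of `GL₂`. -/
def lowerGL (y : k) : GL (Fin 2) k :=
  ⟨!![1, 0; y, 1], !![1, 0; -y, 1],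
    by simp [Matrix.one_fin_two],
    by simp [Matrix.one_fin_two]⟩

@[simp] theorem coe_upperGL (x : k) :
    ((upperGL x : GL (Fin 2) k) : Matrix (Fin 2) (Fin 2) k) = !![1, x; 0, 1] := rfl

@[simp] theorem coe_lowerGL (y : k) :
    ((lowerGL y : GL (Fin 2) k) : Matrix (Fin 2) (Fin 2) k) = !![1, 0; y, 1] := rfl

theorem upperGL_mul (x y : k) : upperGL x * upperGL y = upperGL (x + y) := by
  apply Units.ext
  rw [Units.val_mul]
  simp [add_comm]

theorem lowerGL_mul (x y : k) : lowerGL x * lowerGL y = lowerGL (x + y) := by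
  apply Units.ext
  rw [Units.val_mul]
  simp

theorem upperGL_zero : upperGL (0 : k) = 1 := by
  apply Units.ext
  simp [Matrix.one_fin_two]

theorem lowerGL_zero : lowerGL (0 : k) = 1 := by
  apply Units.ext
  simp [Matrix.one_fin_two]

theorem upperGL_pow (x : k) (n : ℕ) : upperGL x ^ n = upperGL (n * x) := by
  induction n with
  | zero => simp [upperGL_zero]
  | succ n ih => rw [pow_succ, ih, upperGL_mul]; congr 1; push_cast; ring

theorem lowerGL_pow (x : k) (n : ℕ) : lowerGL x ^ n = lowerGL (n * x) := by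
  induction n with
  | zero => simp [lowerGL_zero]
  | succ n ih => rw [pow_succ, ih, lowerGL_mul]; congr 1; push_cast; ring

/-- The matrix of the big-cell product. -/
theorem coe_bigCell (i j m : k) :
    ((upperGL i * lowerGL j * upperGL m : GL (Fin 2) k) : Matrix (Fin 2) (Fin 2) k) =
      !![1 + i * j, (1 + i * j) * m + i; j, j * m + 1] := by
  rw [Units.val_mul, Units.val_mul]
  simp

end Elementary


section Count

variable (ℓ : ℕ) [Fact ℓ.Prime]

/-- **Bruhat big cell count.** A subgroup of `GL₂(𝔽_ℓ)` containing (conjugates by a common `P` of)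
a nontrivial upper and a nontrivial lower unipotent element has at least `ℓ²(ℓ-1)` elements. -/
theorem card_ge_of_conj_mem (G : Subgroup (GL (Fin 2) (ZMod ℓ))) (P : GL (Fin 2) (ZMod ℓ))
    (b c : ZMod ℓ) (hb : b ≠ 0) (hc : c ≠ 0) (hu : P * upperGL b * P⁻¹ ∈ G)
    (hl : P * lowerGL c * P⁻¹ ∈ G) : ℓ ^ 2 * (ℓ - 1) ≤ Nat.card G := by
  have hU : ∀ i : ZMod ℓ, P * upperGL i * P⁻¹ ∈ G := by
    intro i
    have h : P * upperGL i * P⁻¹ = (P * upperGL b * P⁻¹) ^ (i / b).val := by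
      rw [conj_pow, upperGL_pow, ZMod.natCast_zmod_val, div_mul_cancel₀ _ hb]
    rw [h]
    exact G.pow_mem hu _
  have hL : ∀ j : ZMod ℓ, P * lowerGL j * P⁻¹ ∈ G := by
    intro j
    have h : P * lowerGL j * P⁻¹ = (P * lowerGL c * P⁻¹) ^ (j / c).val := by
      rw [conj_pow, lowerGL_pow, ZMod.natCast_zmod_val, div_mul_cancel₀ _ hc]
    rw [h]
    exact G.pow_mem hl _
  let f : ZMod ℓ × (ZMod ℓ)ˣ × ZMod ℓ → G := fun t =>
    ⟨P * (upperGL t.1 * lowerGL (t.2.1 : ZMod ℓ) * upperGL t.2.2) * P⁻¹, by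
      have h : P * (upperGL t.1 * lowerGL (t.2.1 : ZMod ℓ) * upperGL t.2.2) * P⁻¹ =
          (P * upperGL t.1 * P⁻¹) * (P * lowerGL (t.2.1 : ZMod ℓ) * P⁻¹) *
            (P * upperGL t.2.2 * P⁻¹) := by group
      rw [h]
      exact G.mul_mem (G.mul_mem (hU _) (hL _)) (hU _)⟩
  have hf : Function.Injective f := by
    rintro ⟨i, j, m⟩ ⟨i', j', m'⟩ h
    have h1 : P * (upperGL i * lowerGL (j : ZMod ℓ) * upperGL m) * P⁻¹ =
        P * (upperGL i' * lowerGL (j' : ZMod ℓ) * upperGL m') * P⁻¹ := congrArg Subtype.val h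
    have h2 : upperGL i * lowerGL (j : ZMod ℓ) * upperGL m =
        upperGL i' * lowerGL (j' : ZMod ℓ) * upperGL m' :=
      mul_left_cancel (mul_right_cancel h1)
    have h3 := congrArg Units.val h2
    rw [coe_bigCell, coe_bigCell] at h3
    have e10 : (j : ZMod ℓ) = (j' : ZMod ℓ) := by
      have := congrFun (congrFun h3 1) 0
      simpa using this
    have e00 : 1 + i * (j : ZMod ℓ) = 1 + i' * (j' : ZMod ℓ) := by
      have := congrFun (congrFun h3 0) 0
      simpa using this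
    have e11 : (j : ZMod ℓ) * m + 1 = (j' : ZMod ℓ) * m' + 1 := by
      have := congrFun (congrFun h3 1) 1
      simpa using this
    have hj : j = j' := Units.ext e10
    subst hj
    have hj0 : (j : ZMod ℓ) ≠ 0 := j.ne_zero
    have hi : i = i' := by
      have : i * (j : ZMod ℓ) = i' * (j : ZMod ℓ) := add_left_cancel e00
      exact mul_right_cancel₀ hj0 this
    have hm : m = m' := by
      have : (j : ZMod ℓ) * m = (j : ZMod ℓ) * m' := add_right_cancel e11
      exact mul_left_cancel₀ hj0 this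
    rw [hi, hm]
  have hcard : Nat.card (ZMod ℓ × (ZMod ℓ)ˣ × ZMod ℓ) = ℓ ^ 2 * (ℓ - 1) := by
    rw [Nat.card_prod, Nat.card_prod, Nat.card_eq_fintype_card, Nat.card_eq_fintype_card,
      ZMod.card, ZMod.card_units]
    ring
  rw [← hcard]
  exact Nat.card_le_card_of_injective f hf

end Count

section Vec

variable {k : Type*} [Field k]

/-- The `2 × 2` matrix with columns `p`, `q`. -/
def colMat (p q : Fin 2 → k) : Matrix (Fin 2) (Fin 2) k := !![p 0, q 0; p 1, q 1]

theorem det_colMat (p q : Fin 2 → k) : (colMat p q).det = p 0 * q 1 - p 1 * q 0 := by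
  rw [colMat, Matrix.det_fin_two_of]; ring

theorem mul_colMat (M : Matrix (Fin 2) (Fin 2) k) (p q : Fin 2 → k) :
    M * colMat p q = colMat (M *ᵥ p) (M *ᵥ q) := by
  ext i j
  fin_cases i <;> fin_cases j <;>
    simp [colMat, Matrix.mul_apply, Matrix.mulVec, dotProduct, Fin.sum_univ_two]

theorem colMat_mul (p q : Fin 2 → k) (a b c d : k) :
    colMat p q * !![a, b; c, d] = colMat (a • p + c • q) (b • p + d • q) := by
  ext i j
  fin_cases i <;> fin_cases j <;>
    simp [colMat, Matrix.mul_apply, Fin.sum_univ_two, mul_comm]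

/-- Two vectors of the plane with vanishing determinant, the first nonzero: the second is a
multiple of the first. -/
theorem exists_smul_of_det_eq_zero (v w : Fin 2 → k) (hv : v ≠ 0)
    (h : v 0 * w 1 - v 1 * w 0 = 0) : ∃ c : k, w = c • v := by
  by_cases h0 : v 0 = 0
  · have h1 : v 1 ≠ 0 := by
      intro h1
      apply hv
      ext i
      fin_cases i
      · exact h0
      · exact h1
    refine ⟨w 1 / v 1, ?_⟩
    ext i
    fin_cases i
    · simp only [Fin.zero_eta, Pi.smul_apply, smul_eq_mul, h0, mul_zero]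
      rw [h0, zero_mul, zero_sub, neg_eq_zero] at h
      rcases mul_eq_zero.mp h with h | h
      · exact absurd h h1
      · exact h
    · simp only [Fin.mk_one, Pi.smul_apply, smul_eq_mul]
      field_simp
  · refine ⟨w 0 / v 0, ?_⟩
    ext i
    fin_cases i
    · simp only [Fin.zero_eta, Pi.smul_apply, smul_eq_mul]
      field_simp
    · simp only [Fin.mk_one, Pi.smul_apply, smul_eq_mul]
      field_simp
      linear_combination h

/-- A nonzero `2 × 2` matrix kills at most a line. -/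
theorem det_eq_zero_of_mulVec_eq_zero (N : Matrix (Fin 2) (Fin 2) k) (hN : N ≠ 0)
    (v y : Fin 2 → k) (hv : N *ᵥ v = 0) (hy : N *ᵥ y = 0) :
    v 0 * y 1 - v 1 * y 0 = 0 := by
  by_contra hD
  apply hN
  have hv' : ∀ i, N i 0 * v 0 + N i 1 * v 1 = 0 := by
    intro i
    have := congrFun hv i
    simpa [Matrix.mulVec, dotProduct, Fin.sum_univ_two] using this
  have hy' : ∀ i, N i 0 * y 0 + N i 1 * y 1 = 0 := by
    intro i
    have := congrFun hy i
    simpa [Matrix.mulVec, dotProduct, Fin.sum_univ_two] using this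
  ext i j
  have h0 : N i 0 * (v 0 * y 1 - v 1 * y 0) = 0 := by
    linear_combination y 1 * hv' i - v 1 * hy' i
  have h1 : N i 1 * (v 0 * y 1 - v 1 * y 0) = 0 := by
    linear_combination v 0 * hy' i - y 0 * hv' i
  fin_cases j
  · simpa [hD] using h0
  · simpa [hD] using h1

end Vec

section Nilp

variable {k : Type*} [Field k]

/-- A `2 × 2` matrix with trace and determinant zero has square zero (Cayley–Hamilton). -/
theorem mul_self_eq_zero_of_trace_det (N : Matrix (Fin 2) (Fin 2) k) (ht : N.trace = 0)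
    (hd : N.det = 0) : N * N = 0 := by
  rw [Matrix.trace_fin_two] at ht
  rw [Matrix.det_fin_two] at hd
  ext i j
  fin_cases i <;> fin_cases j <;>
    simp only [Fin.zero_eta, Fin.mk_one, Matrix.mul_apply, Fin.sum_univ_two, Matrix.zero_apply]
  · linear_combination N 0 0 * ht - hd
  · linear_combination N 0 1 * ht
  · linear_combination N 1 0 * ht
  · linear_combination N 1 1 * ht - hd

/-- A nilpotent `2 × 2` matrix over a field has square zero. -/
theorem mul_self_eq_zero_of_isNilpotent (N : Matrix (Fin 2) (Fin 2) k) (h : IsNilpotent N) :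
    N * N = 0 := by
  apply mul_self_eq_zero_of_trace_det
  · exact (Matrix.isNilpotent_trace_of_isNilpotent h).eq_zero
  · obtain ⟨n, hn⟩ := h
    have : N.det ^ n = 0 := by
      rw [← Matrix.det_pow, hn]
      simp
    exact pow_eq_zero_iff (M₀ := k) (n := n) (by rintro rfl; simp at this) |>.mp this

end Nilp

section Order

variable (ℓ : ℕ) [Fact ℓ.Prime]

/-- An element of order `ℓ` of `GL₂(𝔽_ℓ)` is unipotent: `(u - 1)² = 0`. -/
theorem sub_one_mul_self_of_pow_eq_one (u : GL (Fin 2) (ZMod ℓ)) (hu : u ^ ℓ = 1) :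
    ((u : Matrix (Fin 2) (Fin 2) (ZMod ℓ)) - 1) * ((u : Matrix (Fin 2) (Fin 2) (ZMod ℓ)) - 1) = 0 := by
  apply mul_self_eq_zero_of_isNilpotent
  refine ⟨ℓ, ?_⟩
  have h1 : ((u : Matrix (Fin 2) (Fin 2) (ZMod ℓ))) ^ ℓ = 1 := by
    rw [← Units.val_pow_eq_pow_val, hu, Units.val_one]
  rw [sub_pow_char_of_commute ℓ (Commute.one_right _), h1, one_pow, sub_self]

end Order

section Main

variable (ℓ : ℕ) [Fact ℓ.Prime]

/-- Core statement with the semisimplicity hypothesis spelled out. -/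
theorem card_ge_of_prime_dvd_aux (G : Subgroup (GL (Fin 2) (ZMod ℓ)))
    (hss : ∀ v : Fin 2 → ZMod ℓ, v ≠ 0 →
      (∀ g ∈ G, ∃ c : ZMod ℓ, (g : Matrix (Fin 2) (Fin 2) (ZMod ℓ)).mulVec v = c • v) →
      ∃ w : Fin 2 → ZMod ℓ, (∀ c : ZMod ℓ, w ≠ c • v) ∧
        ∀ g ∈ G, ∃ c : ZMod ℓ, (g : Matrix (Fin 2) (Fin 2) (ZMod ℓ)).mulVec w = c • w)
    (hdvd : ℓ ∣ Nat.card G) : ℓ ^ 2 * (ℓ - 1) ≤ Nat.card G := by
  obtain ⟨u, hu⟩ := exists_prime_orderOf_dvd_card' ℓ hdvd
  have hupow : (u : GL (Fin 2) (ZMod ℓ)) ^ ℓ = 1 := by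
    have h : u ^ ℓ = 1 := by
      have h' := pow_orderOf_eq_one u
      rwa [hu] at h'
    have := congrArg Subtype.val h
    simpa using this
  have hune : (u : GL (Fin 2) (ZMod ℓ)) ≠ 1 := by
    intro h
    have h1 : u = 1 := Subtype.ext h
    rw [h1, orderOf_one] at hu
    exact (Fact.out : ℓ.Prime).one_lt.ne hu
  obtain ⟨U, hU⟩ : ∃ U : Matrix (Fin 2) (Fin 2) (ZMod ℓ),
      U = ((u : GL (Fin 2) (ZMod ℓ)) : Matrix (Fin 2) (Fin 2) (ZMod ℓ)) := ⟨_, rfl⟩
  obtain ⟨N, hN⟩ : ∃ N : Matrix (Fin 2) (Fin 2) (ZMod ℓ), N = U - 1 := ⟨_, rfl⟩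
  have hUN : U = N + 1 := by rw [hN]; abel
  have hNN : N * N = 0 := by
    rw [hN, hU]
    exact sub_one_mul_self_of_pow_eq_one ℓ _ hupow
  have hN0 : N ≠ 0 := by
    intro h
    apply hune
    apply Units.ext
    rw [Units.val_one, ← hU]
    rw [hN] at h
    exact sub_eq_zero.mp h
  -- a vector spanning the fixed line
  obtain ⟨x, hx⟩ : ∃ x : Fin 2 → ZMod ℓ, N *ᵥ x ≠ 0 := by
    by_contra h
    push Not at h
    apply hN0
    exact Matrix.ext_iff_mulVec.mpr (fun v => by rw [h v, Matrix.zero_mulVec])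
  obtain ⟨v, hv⟩ : ∃ v : Fin 2 → ZMod ℓ, v = N *ᵥ x := ⟨_, rfl⟩
  have hv0 : v ≠ 0 := by rw [hv]; exact hx
  have hNv : N *ᵥ v = 0 := by rw [hv, Matrix.mulVec_mulVec, hNN, Matrix.zero_mulVec]
  -- some element of `G` moves the line
  have hex : ∃ g ∈ G, ∀ c : ZMod ℓ,
      (g : Matrix (Fin 2) (Fin 2) (ZMod ℓ)) *ᵥ v ≠ c • v := by
    by_contra hcon
    push Not at hcon
    obtain ⟨w, hw1, hw2⟩ := hss v hv0 hcon
    obtain ⟨c, hc⟩ := hw2 u u.2
    rw [← hU] at hc
    have hNw : N *ᵥ w = (c - 1) • w := by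
      rw [hN, Matrix.sub_mulVec, Matrix.one_mulVec, hc, sub_smul, one_smul]
    have hw0 : w ≠ 0 := by
      intro h
      exact hw1 0 (by rw [h, zero_smul])
    have hNNw : (c - 1) • ((c - 1) • w) = 0 := by
      rw [← hNw, ← Matrix.mulVec_smul, ← hNw, Matrix.mulVec_mulVec, hNN, Matrix.zero_mulVec]
    have hc1 : c - 1 = 0 := by
      rcases smul_eq_zero.mp hNNw with h | h
      · exact h
      · rcases smul_eq_zero.mp h with h | h
        · exact h
        · exact absurd h hw0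
    have hNw0 : N *ᵥ w = 0 := by rw [hNw, hc1, zero_smul]
    obtain ⟨c', hc'⟩ := exists_smul_of_det_eq_zero v w hv0
      (det_eq_zero_of_mulVec_eq_zero N hN0 v w hNv hNw0)
    exact hw1 c' hc'
  obtain ⟨g, hgG, hg⟩ := hex
  obtain ⟨X, hX⟩ : ∃ X : Matrix (Fin 2) (Fin 2) (ZMod ℓ),
      X = ((g : GL (Fin 2) (ZMod ℓ)) : Matrix (Fin 2) (Fin 2) (ZMod ℓ)) := ⟨_, rfl⟩
  obtain ⟨Xi, hXi⟩ : ∃ Xi : Matrix (Fin 2) (Fin 2) (ZMod ℓ),
      Xi = ((g⁻¹ : GL (Fin 2) (ZMod ℓ)) : Matrix (Fin 2) (Fin 2) (ZMod ℓ)) := ⟨_, rfl⟩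
  have hXXi : X * Xi = 1 := by rw [hX, hXi]; exact Units.mul_inv g
  have hXiX : Xi * X = 1 := by rw [hX, hXi]; exact Units.inv_mul g
  rw [← hX] at hg
  obtain ⟨v', hv'⟩ : ∃ v' : Fin 2 → ZMod ℓ, v' = X *ᵥ v := ⟨_, rfl⟩
  rw [← hv'] at hg
  have hD : v 0 * v' 1 - v 1 * v' 0 ≠ 0 := by
    intro h
    obtain ⟨c, hc⟩ := exists_smul_of_det_eq_zero v v' hv0 h
    exact hg c hc
  have hv'0 : v' ≠ 0 := by
    intro h
    apply hD
    rw [h]
    simp
  -- `N v' = b v`
  have hNNv' : N *ᵥ (N *ᵥ v') = 0 := by rw [Matrix.mulVec_mulVec, hNN, Matrix.zero_mulVec]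
  obtain ⟨b, hb⟩ := exists_smul_of_det_eq_zero v (N *ᵥ v') hv0
    (det_eq_zero_of_mulVec_eq_zero N hN0 v _ hNv hNNv')
  have hb0 : b ≠ 0 := by
    rintro rfl
    rw [zero_smul] at hb
    exact hD (det_eq_zero_of_mulVec_eq_zero N hN0 v v' hNv hb)
  -- the conjugate
  obtain ⟨N', hN'⟩ : ∃ N' : Matrix (Fin 2) (Fin 2) (ZMod ℓ), N' = X * N * Xi := ⟨_, rfl⟩
  have hN'0 : N' ≠ 0 := by
    intro h
    apply hN0
    calc N = (Xi * X) * N * (Xi * X) := by rw [hXiX, one_mul, mul_one]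
      _ = Xi * (X * N * Xi) * X := by simp only [mul_assoc]
      _ = 0 := by rw [← hN', h, mul_zero, zero_mul]
  have hN'N' : N' * N' = 0 := by
    calc N' * N' = X * N * (Xi * X) * N * Xi := by rw [hN']; simp only [mul_assoc]
      _ = X * (N * N) * Xi := by rw [hXiX, mul_one]; simp only [mul_assoc]
      _ = 0 := by rw [hNN, mul_zero, zero_mul]
  have hN'v' : N' *ᵥ v' = 0 := by
    rw [hv', Matrix.mulVec_mulVec, hN']
    have : X * N * Xi * X = X * N := by rw [mul_assoc, hXiX, mul_one]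
    rw [this, ← Matrix.mulVec_mulVec, hNv, Matrix.mulVec_zero]
  have hN'N'v : N' *ᵥ (N' *ᵥ v) = 0 := by
    rw [Matrix.mulVec_mulVec, hN'N', Matrix.zero_mulVec]
  obtain ⟨c, hc⟩ := exists_smul_of_det_eq_zero v' (N' *ᵥ v) hv'0
    (det_eq_zero_of_mulVec_eq_zero N' hN'0 v' _ hN'v' hN'N'v)
  have hc0 : c ≠ 0 := by
    rintro rfl
    rw [zero_smul] at hc
    have := det_eq_zero_of_mulVec_eq_zero N' hN'0 v' v hN'v' hc
    apply hD
    linear_combination -this
  -- the change of basis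
  have hdetP : (colMat v v').det ≠ 0 := by rw [det_colMat]; exact hD
  obtain ⟨P, hP⟩ : ∃ P : GL (Fin 2) (ZMod ℓ),
      (P : Matrix (Fin 2) (Fin 2) (ZMod ℓ)) = colMat v v' :=
    ⟨Matrix.GeneralLinearGroup.mkOfDetNeZero _ hdetP, rfl⟩
  have h1 : (u : GL (Fin 2) (ZMod ℓ)) * P = P * upperGL b := by
    apply Units.ext
    rw [Units.val_mul, Units.val_mul, hP, coe_upperGL, ← hU, mul_colMat, colMat_mul]
    congr 1
    · rw [hUN, Matrix.add_mulVec, hNv, Matrix.one_mulVec, one_smul, zero_smul, zero_add, add_zero]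
    · rw [hUN, Matrix.add_mulVec, hb, Matrix.one_mulVec, one_smul]
  have h2 : (g * u * g⁻¹ : GL (Fin 2) (ZMod ℓ)) * P = P * lowerGL c := by
    apply Units.ext
    rw [Units.val_mul, Units.val_mul, Units.val_mul, Units.val_mul, hP, coe_lowerGL, ← hU, ← hX,
      ← hXi, mul_colMat, colMat_mul]
    have hXUXi : X * U * Xi = N' + 1 := by
      rw [hUN, mul_add, add_mul, mul_one, hXXi, hN']
    rw [hXUXi]
    congr 1
    · rw [Matrix.add_mulVec, hc, Matrix.one_mulVec, one_smul, add_comm]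
    · rw [Matrix.add_mulVec, hN'v', Matrix.one_mulVec, one_smul, zero_smul, zero_add]
  have hu' : P * upperGL b * P⁻¹ ∈ G := by
    have : P * upperGL b * P⁻¹ = (u : GL (Fin 2) (ZMod ℓ)) := by
      rw [← h1, mul_inv_cancel_right]
    rw [this]
    exact u.2
  have hl' : P * lowerGL c * P⁻¹ ∈ G := by
    have : P * lowerGL c * P⁻¹ = (g * u * g⁻¹ : GL (Fin 2) (ZMod ℓ)) := by
      rw [← h2, mul_inv_cancel_right]
    rw [this]
    exact G.mul_mem (G.mul_mem hgG u.2) (G.inv_mem hgG)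
  exact card_ge_of_conj_mem ℓ G P b c hb0 hc0 hu' hl'

end Main

/-- **Case (α) of chapter A5.** A semisimple subgroup of `GL₂(𝔽_ℓ)` of order divisible by `ℓ`
has at least `ℓ²(ℓ-1)` elements. -/
theorem card_ge_of_prime_dvd (ℓ : ℕ) [Fact ℓ.Prime] (G : Subgroup (GL (Fin 2) (ZMod ℓ)))
    (hss : GrpDefs20.IsSemisimple2Sub G) (hdvd : ℓ ∣ Nat.card G) :
    ℓ ^ 2 * (ℓ - 1) ≤ Nat.card G :=
  card_ge_of_prime_dvd_aux ℓ G hss hdvd

end Fermat.Agent.ES.R48.Transv5
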