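/-
Programme R (S48, Deligne–Serre), chapter A5 GRP (helper20): **chapter export**
`boundedImage : GrpDefs20.BoundedImage` (Deligne–Serre, Prop. 7.2 with `η = 1/24`).

Assembly of
* `Transv5.card_ge_of_prime_dvd` (`ℓ ∣ |G|`, `G` semisimple `⇒ ℓ²(ℓ−1) ≤ |G|`),
* `CharCount14.card_le_of_charData_eq` (`≤ 2ℓ²` elements of `GL₂(𝔽_ℓ)` per characteristic polynomial),
  `CharCount14.card_GL2_le` (`|GL₂(𝔽_ℓ)| ≤ ℓ⁴`),
* `TorusGL20.exists_abelian` + `Dioph14.exists_index_le_twelve` (`ℓ ∤ |G|`, `ℓ ≠ 2 ⇒` an abelian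
  subgroup of index `≤ 12`), `TorusGL20.card_le_two_of_commute` (`≤ 2` elements per characteristic
  polynomial among pairwise commuting elements).
-/
import Mathlib
import Fermat.Agent.ES.R48.GrpDefs20
import Fermat.Agent.ES.R48.TorusGL20
import Fermat.Agent.ES.R48.Dioph14
import Fermat.Agent.ES.R48.CharCount14
import Fermat.Agent.ES.R48.Transv5

set_option autoImplicit false

open scoped MatrixGroups

namespace Fermat.Agent.ES.R48.BoundedImage20

open Fermat.Agent.ES.R48 GrpDefs20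

/-- The arithmetic input of `ClassEq20`, from `Dioph14`. -/
theorem diophStatement : ClassEq20.DiophStatement := by
  intro ι _ n hn a m w hw hm hnam hsum
  exact Dioph14.exists_index_le_twelve n hn a m w hw hm hnam hsum

/-- Case (α): `ℓ ∣ |G|`. -/
theorem card_le_of_dvd (M : ℕ) (ℓ : ℕ) [Fact ℓ.Prime] (G : Subgroup (GL (Fin 2) (ZMod ℓ)))
    (hss : IsSemisimple2Sub G) (H : Finset (GL (Fin 2) (ZMod ℓ)))
    (hcard : 23 * Nat.card G ≤ 24 * H.card) (hM : (H.image charData).card ≤ M)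
    (hdvd : ℓ ∣ Nat.card G) : ℓ ≤ 3 * M + 1 := by
  classical
  have hℓ : ℓ.Prime := Fact.out
  have hℓpos : 0 < ℓ ^ 2 := pow_pos hℓ.pos 2
  have h1 : ℓ ^ 2 * (ℓ - 1) ≤ Nat.card G := Transv5.card_ge_of_prime_dvd ℓ G hss hdvd
  have h2 : H.card ≤ 2 * ℓ ^ 2 * (H.image charData).card := by
    apply Finset.card_le_mul_card_image
    intro P _
    exact CharCount14.card_le_of_charData_eq ℓ P.1 P.2 _ (by
      intro g hg
      simp only [Finset.mem_filter] at hg
      exact hg.2)
  have h3 : H.card ≤ 2 * ℓ ^ 2 * M := h2.trans (Nat.mul_le_mul_left _ hM)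
  have h4 : ℓ ^ 2 * (23 * (ℓ - 1)) ≤ ℓ ^ 2 * (48 * M) := by
    calc ℓ ^ 2 * (23 * (ℓ - 1)) = 23 * (ℓ ^ 2 * (ℓ - 1)) := by ring
      _ ≤ 23 * Nat.card G := Nat.mul_le_mul_left _ h1
      _ ≤ 24 * H.card := hcard
      _ ≤ 24 * (2 * ℓ ^ 2 * M) := Nat.mul_le_mul_left _ h3
      _ = ℓ ^ 2 * (48 * M) := by ring
  have h5 : 23 * (ℓ - 1) ≤ 48 * M := Nat.le_of_mul_le_mul_left h4 hℓpos
  omega

/-- Case (β): `ℓ ∤ |G|`, `ℓ ≠ 2`. -/
theorem card_le_of_not_dvd (M : ℕ) (ℓ : ℕ) [Fact ℓ.Prime] (G : Subgroup (GL (Fin 2) (ZMod ℓ)))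
    (H : Finset (GL (Fin 2) (ZMod ℓ))) (hHG : ∀ h ∈ H, h ∈ G)
    (hcard : 23 * Nat.card G ≤ 24 * H.card) (hM : (H.image charData).card ≤ M)
    (hdvd : ¬ ℓ ∣ Nat.card G) (hℓ2 : ℓ ≠ 2) : Nat.card G ≤ 48 * M := by
  classical
  have hℓ : ℓ.Prime := Fact.out
  have h2k : (2 : ZMod ℓ) ≠ 0 := by
    intro h
    have h' : ((2 : ℕ) : ZMod ℓ) = 0 := by exact_mod_cast h
    rw [ZMod.natCast_eq_zero_iff] at h'
    have := Nat.le_of_dvd (by norm_num) h'
    have := hℓ.two_le
    omega
  have hord : ((Nat.card G : ℕ) : ZMod ℓ) ≠ 0 := by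
    rw [Ne, ZMod.natCast_eq_zero_iff]
    exact hdvd
  obtain ⟨B, hBcomm, hB12⟩ := TorusGL20.exists_abelian G diophStatement h2k hord
  have : Fintype G := Fintype.ofFinite G
  -- `H` as a finset of `G`
  set H' : Finset G := H.subtype (fun g => g ∈ G) with hH'
  have hH'card : H'.card = H.card := by
    rw [hH', Finset.card_subtype, Finset.filter_true_of_mem hHG]
  -- split `H'` along `B`
  set S : Finset G := H'.filter (fun g => g ∈ B) with hS
  have hsplit : H'.card = S.card + (H'.filter (fun g => g ∉ B)).card := by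
    rw [hS]; exact (Finset.card_filter_add_card_filter_not (s := H') (fun g => g ∈ B)).symm
  have hout : (H'.filter (fun g => g ∉ B)).card + Nat.card B ≤ Nat.card G := by
    have h1 : (H'.filter (fun g => g ∉ B)).card ≤ (Finset.univ.filter (fun g : G => g ∉ B)).card :=
      Finset.card_le_card (fun g hg => by
        simp only [Finset.mem_filter, Finset.mem_univ, true_and] at hg ⊢
        exact hg.2)
    have h2 : (Finset.univ.filter (fun g : G => g ∉ B)).card +
        (Finset.univ.filter (fun g : G => g ∈ B)).card = Fintype.card G := by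
      rw [add_comm]
      have := Finset.card_filter_add_card_filter_not (s := (Finset.univ : Finset G))
        (fun g => g ∈ B)
      rw [this, Finset.card_univ]
    have h3 : (Finset.univ.filter (fun g : G => g ∈ B)).card = Nat.card B :=
      ClassEq20.card_filter_mem B
    rw [Nat.card_eq_fintype_card (α := G), ← h2, h3]
    omega
  -- `S` is small
  have hSle : S.card ≤ 2 * M := by
    have h1 : S.card ≤ 2 * (S.image (fun g : G => charData (g : GL (Fin 2) (ZMod ℓ)))).card := by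
      apply Finset.card_le_mul_card_image
      intro P _
      apply TorusGL20.card_le_two_of_commute G h2k hord _ _ P
      · intro s hs
        simp only [Finset.mem_filter] at hs
        exact hs.2
      · intro s hs s' hs'
        simp only [hS, Finset.mem_filter] at hs hs'
        exact hBcomm s hs.1.2 s' hs'.1.2
    have h2 : (S.image (fun g : G => charData (g : GL (Fin 2) (ZMod ℓ)))).card ≤
        (H.image charData).card := by
      apply Finset.card_le_card
      intro P hP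
      simp only [Finset.mem_image] at hP ⊢
      obtain ⟨g, hg, rfl⟩ := hP
      simp only [hS, hH', Finset.mem_filter, Finset.mem_subtype] at hg
      exact ⟨g, hg.1, rfl⟩
    calc S.card ≤ 2 * _ := h1
      _ ≤ 2 * (H.image charData).card := Nat.mul_le_mul_left _ h2
      _ ≤ 2 * M := Nat.mul_le_mul_left _ hM
  omega

/-- **Chapter A5 export** (Deligne–Serre, Prop. 7.2 with `η = 1/24`). -/
theorem boundedImage : BoundedImage := by
  intro M
  refine ⟨max (48 * M) ((3 * M + 2) ^ 4), ?_⟩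
  intro ℓ _ G hss hH
  obtain ⟨H, hHG, hcard, hM⟩ := hH
  have hℓ : ℓ.Prime := Fact.out
  have hGle : Nat.card G ≤ ℓ ^ 4 :=
    (Subgroup.card_le_card_group G).trans (CharCount14.card_GL2_le ℓ)
  by_cases hdvd : ℓ ∣ Nat.card G
  · have hℓM := card_le_of_dvd M ℓ G hss H hcard hM hdvd
    refine le_trans ?_ (le_max_right _ _)
    calc Nat.card G ≤ ℓ ^ 4 := hGle
      _ ≤ (3 * M + 2) ^ 4 := Nat.pow_le_pow_left (by omega) 4
  · by_cases hℓ2 : ℓ = 2
    · refine le_trans ?_ (le_max_right _ _)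
      calc Nat.card G ≤ ℓ ^ 4 := hGle
        _ ≤ (3 * M + 2) ^ 4 := Nat.pow_le_pow_left (by omega) 4
    · exact (card_le_of_not_dvd M ℓ G H hHG hcard hM hdvd hℓ2).trans (le_max_left _ _)

end Fermat.Agent.ES.R48.BoundedImage20
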