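/-
Programme R (S48, Deligne–Serre), chapter GEOM, sub-chapter G2 DICT₁ (helper1): the twin of
`Fermat/Agent/X0/FracR.lean` for `X₁(M)` (pure algebra).

The function field `FF1 M = F1bar M` is generated over `ℚbar` by the `j_d` (`d ∣ M`) and the `W_c`
(`c ∈ (ZMod M)ˣ`), and it is the fraction field of `Rsub1 M = ℚbar[j_d, W_c]`.

`isFractionRing` is a THEOREM (no global instance): consumers write
`haveI := X1FracR1.isFractionRing M`.
-/
import Fermat.Agent.X0.FracR
import Fermat.Agent.ES.R48.X1Iface13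

set_option autoImplicit false
set_option linter.unusedSectionVars false

noncomputable section

namespace Fermat.Agent.ES.R48.X1FracR1

open Fermat.Agent.X0 Fermat.Agent.ES.R48.FF1Defs13 Fermat.Agent.ES.R48.X1Iface13 IntermediateField

variable (M : ℕ) [NeZero M]

/-- The coercion of `jdF1 M d hd` to a Laurent series. -/
theorem coe_jdF1 (d : ℕ) [NeZero d] (hd : d ∣ M) :
    ((jdF1 M d hd : FF1 M) : LaurentSeries Kbar) =
      ModularCurve.coeffEmb Kbar (ModularCurve.qExpand ℚ d ModularCurve.jq) := rfl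

theorem jdF1_mem_genSet1 (d : ℕ) [NeZero d] (hd : d ∣ M) : jdF1 M d hd ∈ genSet1 M :=
  Or.inl ⟨d, inferInstance, hd, rfl⟩

theorem wF_mem_genSet1 (c : (ZMod M)ˣ) : wF M c ∈ genSet1 M := Or.inr ⟨c, rfl⟩

/-- Every element of `F1 M = ℚ(j(q^d), W_c)` lands, after extending the coefficients, in the image
of `ℚbar(j_d, W_c) ⊆ FF1 M`. -/
theorem coeffEmb_mem_map {x : LaurentSeries ℚ} (hx : x ∈ F1 M) :
    ModularCurve.coeffEmb Kbar x ∈
      (IntermediateField.adjoin Kbar (genSet1 M)).map (F1bar M).val := by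
  unfold F1 at hx
  induction hx using IntermediateField.adjoin_induction with
  | mem y hy =>
      rcases hy with hy | hy
      · obtain ⟨d, hne, hd, rfl⟩ := hy
        have := hne
        exact ⟨jdF1 M d hd, IntermediateField.subset_adjoin _ _ (jdF1_mem_genSet1 M d hd), rfl⟩
      · obtain ⟨c, rfl⟩ := hy
        exact ⟨wF M c, IntermediateField.subset_adjoin _ _ (wF_mem_genSet1 M c), rfl⟩
  | algebraMap r =>
      rw [Fermat.Agent.X0.FracR.coeffEmb_algebraMap]
      exact IntermediateField.algebraMap_mem _ _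
  | add x y _ _ hx hy => rw [map_add]; exact add_mem hx hy
  | inv x _ hx => rw [map_inv₀]; exact inv_mem hx
  | mul x y _ _ hx hy => rw [map_mul]; exact mul_mem hx hy

/-- `FF1 M = ℚbar(j_d, W_c)`. -/
theorem FF1_eq_adjoin :
    (⊤ : IntermediateField Kbar (FF1 M)) = IntermediateField.adjoin Kbar (genSet1 M) := by
  symm
  rw [eq_top_iff]
  intro y _
  have hle : F1bar M ≤ (IntermediateField.adjoin Kbar (genSet1 M)).map (F1bar M).val := by
    unfold F1bar ModularCurve.laurentBaseChange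
    rw [IntermediateField.adjoin_le_iff]
    rintro _ ⟨x, hx, rfl⟩
    exact coeffEmb_mem_map M hx
  obtain ⟨a, ha, hay⟩ := hle y.2
  have : a = y := Subtype.ext hay
  rw [← this]
  exact ha

theorem mem_adjoin_genSet1 (y : FF1 M) : y ∈ IntermediateField.adjoin Kbar (genSet1 M) := by
  rw [← FF1_eq_adjoin]
  exact IntermediateField.mem_top

/-- Every element of `FF1 M` is a quotient of two elements of `Rsub1 M`. -/
theorem exists_div (y : FF1 M) : ∃ r s : Rsub1 M, y = (r : FF1 M) / (s : FF1 M) := by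
  obtain ⟨r, hr, s, hs, h⟩ := IntermediateField.mem_adjoin_iff_div.mp (mem_adjoin_genSet1 M y)
  exact ⟨⟨r, hr⟩, ⟨s, hs⟩, h⟩

/-- `FF1 M` is the fraction field of `Rsub1 M = ℚbar[j_d, W_c]`. -/
theorem isFractionRing : IsFractionRing (Rsub1 M) (FF1 M) :=
  IsFractionRing.of_field _ _ fun y => by
    obtain ⟨r, s, h⟩ := exists_div M y
    exact ⟨r, s, h⟩

/-- Variant with a nonzero denominator. -/
theorem exists_div_ne_zero (y : FF1 M) :
    ∃ r s : Rsub1 M, s ≠ 0 ∧ y = (r : FF1 M) / (s : FF1 M) := by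
  obtain ⟨r, s, h⟩ := exists_div M y
  by_cases hs : s = 0
  · refine ⟨0, 1, one_ne_zero, ?_⟩
    rw [h, hs]
    simp
  · exact ⟨r, s, hs, h⟩

/-- Induction principle for `Rsub1 M`. -/
theorem Rsub1_induction {p : Rsub1 M → Prop}
    (hgen : ∀ (d : ℕ) [NeZero d] (hd : d ∣ M), p (jdR1 M d hd))
    (hw : ∀ c : (ZMod M)ˣ, p (wR M c))
    (hconst : ∀ c : Kbar, p (algebraMap Kbar (Rsub1 M) c))
    (hadd : ∀ u v, p u → p v → p (u + v))
    (hmul : ∀ u v, p u → p v → p (u * v)) (u : Rsub1 M) : p u := by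
  obtain ⟨x, hx⟩ := u
  induction hx using Algebra.adjoin_induction with
  | mem y hy =>
      rcases hy with hy | hy
      · obtain ⟨d, hne, hd, rfl⟩ := hy
        have := hne
        exact hgen d hd
      · obtain ⟨c, rfl⟩ := hy
        exact hw c
  | algebraMap c => exact hconst c
  | add x y hx hy ihx ihy => exact hadd ⟨x, hx⟩ ⟨y, hy⟩ ihx ihy
  | mul x y hx hy ihx ihy => exact hmul ⟨x, hx⟩ ⟨y, hy⟩ ihx ihy

/-- `j ∈ R₁`. -/
theorem jF1_mem_Rsub1 : jF1 M ∈ Rsub1 M :=
  Algebra.subset_adjoin (jdF1_mem_genSet1 M 1 (one_dvd M))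

/-- `R₁` contains the image of `R`. -/
theorem coe_rsubIncl_mem (u : Rsub M) : ffIncl M (u : FF M) ∈ Rsub1 M := (rsubIncl M u).2

end Fermat.Agent.ES.R48.X1FracR1
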