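/-
Programme R (S48, Deligne–Serre), chapter GEOM, sub-chapter G0 (helper13):
**DEFINITIONS for the function field of `X₁(M)`** (blueprint `R48_GEOM13.md`, D1–D3).

Same ambient field `LaurentSeries ℚ = ℚ((q))` and the same `q` as the Prelude's
`ModularCurve.modularFunctionFieldFull`.

* `eisS M d : PowerSeries ℤ`, `d : ZMod M` :
  `S_d = ∑_{n ≥ 1} (∑_{m ∣ n, m ≡ d} (n/m)³ + ∑_{m ∣ n, m ≡ -d} (n/m)³) qⁿ`
  (`(8π⁴/3) S_d(q) = ∑_{m ≡ d (M), n ∈ ℤ} (m τ + n)⁻⁴`, `q = e^{2πiτ}`);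
* `wq M d : LaurentSeries ℚ` : `W_d = S_d E₄² / Δ` (weight `0`, holomorphic on `ℍ`, invariant under
  `Γ₁(M)`, `⟨e⟩ W_d = W_{e d}`);
* `F1 M` : the function field of `X₁(M)` over `ℚ`, generated over `modularFunctionFieldFull M` by
  the `W_d`, `d ∈ (ZMod M)ˣ`;  `F1bar M`, `JOne M := Pic⁰(F1bar M)` with its `G_ℚ`-action
  (free of charge: the Prelude's `arithmeticGalois` is generic in the rational field);
* `IsDiamond M e σ` : `σ` is the diamond automorphism `⟨e⟩` of `F1 M`;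
* `F1p M p := F1 M ⊔ (F1 M).map (qExpandₐ p)` : the function field of `X(Γ₁(M) ∩ Γ₀(p))`, with the
  two degeneracy maps `heckeOneAlphaBar` (inclusion), `heckeOneBetaBar` (`q ↦ q^p`), and the
  Hecke correspondence `heckeOnePic0Bar` on `Pic⁰` (same orientation as the Prelude's `heckePic0Bar`).

No analysis, no theorem of substance: only names, so that every sub-chapter imports the same ones.
-/
import Mathlib
import Fermat.Prelude.Def_ModularCurve_HeckeOperator

set_option autoImplicit false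

noncomputable section

open ModularCurve HahnSeries IntermediateField AlgebraicCurve

namespace Fermat.Agent.ES.R48.FF1Defs13

/-- the absolute Galois group of `ℚ`. -/
abbrev GQ := (AlgebraicClosure ℚ ≃ₐ[ℚ] AlgebraicClosure ℚ)

/-! ### The series `S_d` and `W_d` -/

/-- the `n`-th coefficient of `S_d`. -/
def eisCoeff (M : ℕ) (d : ZMod M) (n : ℕ) : ℤ :=
  ∑ m ∈ n.divisors,
    ((if ((m : ℕ) : ZMod M) = d then (((n / m : ℕ) : ℤ)) ^ 3 else 0) +
      (if ((m : ℕ) : ZMod M) = -d then (((n / m : ℕ) : ℤ)) ^ 3 else 0))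

/-- `S_d ∈ ℤ[[q]]`. -/
def eisS (M : ℕ) (d : ZMod M) : PowerSeries ℤ := PowerSeries.mk (eisCoeff M d)

@[simp]
theorem coeff_eisS (M : ℕ) (d : ZMod M) (n : ℕ) :
    PowerSeries.coeff n (eisS M d) = eisCoeff M d n :=
  PowerSeries.coeff_mk n _

@[simp]
theorem eisCoeff_zero (M : ℕ) (d : ZMod M) : eisCoeff M d 0 = 0 := by
  simp [eisCoeff]

@[simp]
theorem constantCoeff_eisS (M : ℕ) (d : ZMod M) : PowerSeries.constantCoeff (eisS M d) = 0 := by
  rw [← PowerSeries.coeff_zero_eq_constantCoeff_apply, coeff_eisS, eisCoeff_zero]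

theorem eisCoeff_neg (M : ℕ) (d : ZMod M) (n : ℕ) : eisCoeff M (-d) n = eisCoeff M d n := by
  unfold eisCoeff
  refine Finset.sum_congr rfl fun m _ => ?_
  rw [neg_neg, add_comm]

theorem eisS_neg (M : ℕ) (d : ZMod M) : eisS M (-d) = eisS M d := by
  ext n
  rw [coeff_eisS, coeff_eisS, eisCoeff_neg]

/-- the numerator `S_d E₄² η⁻²⁴` of `W_d`, over `ℤ`. -/
def wNum (M : ℕ) (d : ZMod M) : PowerSeries ℤ :=
  eisS M d * eisenstein4 ^ 2 * dedekindEtaUnitInv

@[simp]
theorem constantCoeff_wNum (M : ℕ) (d : ZMod M) : PowerSeries.constantCoeff (wNum M d) = 0 := by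
  rw [wNum, map_mul, map_mul, constantCoeff_eisS, zero_mul, zero_mul]

/-- the numerator of `W_d`, over `ℚ`. -/
def wNumQ (M : ℕ) (d : ZMod M) : PowerSeries ℚ := (wNum M d).map (Int.castRingHom ℚ)

/-- `W_d = q⁻¹ S_d E₄² η⁻²⁴ = S_d E₄² / Δ ∈ ℚ((q))` (in fact a power series). -/
def wq (M : ℕ) (d : ZMod M) : LaurentSeries ℚ :=
  HahnSeries.single (-1 : ℤ) 1 * HahnSeries.ofPowerSeries ℤ ℚ (wNumQ M d)

theorem wq_neg (M : ℕ) (d : ZMod M) : wq M (-d) = wq M d := by
  rw [wq, wq, wNumQ, wNumQ, wNum, wNum, eisS_neg]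

/-- coefficients of `W_d`: those of the numerator, shifted by one. -/
theorem coeff_wq (M : ℕ) (d : ZMod M) (k : ℤ) :
    (wq M d).coeff k = (HahnSeries.ofPowerSeries ℤ ℚ (wNumQ M d)).coeff (k + 1) := by
  rw [wq, HahnSeries.coeff_single_mul, one_mul, sub_neg_eq_add]

theorem coeff_wq_natCast (M : ℕ) (d : ZMod M) (n : ℕ) :
    (wq M d).coeff (n : ℤ) = ((PowerSeries.coeff (n + 1) (wNum M d) : ℤ) : ℚ) := by
  rw [coeff_wq, show ((n : ℤ) + 1) = ((n + 1 : ℕ) : ℤ) by push_cast; ring,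
    HahnSeries.ofPowerSeries_apply_coeff, wNumQ, PowerSeries.coeff_map]
  rfl

/-- `W_d` has no polar part. -/
theorem coeff_wq_of_neg (M : ℕ) (d : ZMod M) {k : ℤ} (hk : k < 0) : (wq M d).coeff k = 0 := by
  rw [coeff_wq]
  rcases lt_or_eq_of_le (Int.add_one_le_iff.mpr hk) with h | h
  · exact ModularCurve.ofPowerSeries_coeff_of_neg _ h
  · rw [h, show (0 : ℤ) = ((0 : ℕ) : ℤ) from rfl, HahnSeries.ofPowerSeries_apply_coeff, wNumQ,
      PowerSeries.coeff_map, PowerSeries.coeff_zero_eq_constantCoeff_apply, constantCoeff_wNum]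
    simp

/-! ### The function field of `X₁(M)` -/

/-- the generators `W_d`, `d ∈ (ZMod M)ˣ`. -/
def wExpansions (M : ℕ) : Set (LaurentSeries ℚ) :=
  Set.range fun d : (ZMod M)ˣ => wq M (d : ZMod M)

/-- **The function field of `X₁(M)` over `ℚ`**, inside `ℚ((q))`. -/
def F1 (M : ℕ) : IntermediateField ℚ (LaurentSeries ℚ) :=
  IntermediateField.adjoin ℚ (divisorExpansions M ∪ wExpansions M)

theorem wq_mem_F1 (M : ℕ) (d : (ZMod M)ˣ) : wq M (d : ZMod M) ∈ F1 M :=
  subset_adjoin ℚ _ (Or.inr ⟨d, rfl⟩)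

theorem full_le_F1 (M : ℕ) : modularFunctionFieldFull M ≤ F1 M := by
  rw [modularFunctionFieldFull, F1]
  exact IntermediateField.adjoin.mono ℚ _ _ Set.subset_union_left

theorem jqd_mem_F1 (M : ℕ) {d : ℕ} [NeZero d] (hd : d ∣ M) : qExpand ℚ d jq ∈ F1 M :=
  full_le_F1 M (jqd_mem_full M hd)

/-- `F1 M ≤ E` as soon as `E` contains the generators. -/
theorem F1_le_iff (M : ℕ) (E : IntermediateField ℚ (LaurentSeries ℚ)) :
    F1 M ≤ E ↔ modularFunctionFieldFull M ≤ E ∧ ∀ d : (ZMod M)ˣ, wq M (d : ZMod M) ∈ E := by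
  rw [F1, modularFunctionFieldFull, adjoin_le_iff, adjoin_le_iff, Set.union_subset_iff]
  refine and_congr Iff.rfl ⟨fun h d => h ⟨d, rfl⟩, ?_⟩
  rintro h _ ⟨d, rfl⟩
  exact h d

/-- `F1bar M = ℚbar · F1 M ⊆ ℚbar((q))`. -/
abbrev F1bar (M : ℕ) : IntermediateField (AlgebraicClosure ℚ) (LaurentSeries (AlgebraicClosure ℚ)) :=
  laurentBaseChange (AlgebraicClosure ℚ) (F1 M)

/-- **`J₁(M)(ℚbar)`**, as the degree-zero divisor class group of `F1bar M`. -/
abbrev JOne (M : ℕ) : Type _ := Pic0 (AlgebraicClosure ℚ) (F1bar M)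

/-- the `G_ℚ`-action on `J₁(M)(ℚbar)` is the Prelude's generic one. -/
example (M : ℕ) : DistribMulAction GQ (JOne M) := inferInstance

/-- the Galois representation on `J₁(M)[n]`. -/
def JOne.torsionGaloisRep (M n : ℕ) :
    GQ →* Module.End (ZMod n) (Pic0.torsion (AlgebraicClosure ℚ) (F1bar M) n) :=
  (SemilinearAut.torsionRep _ _ n).comp (arithmeticGalois (F1 M))

theorem JOne.coe_torsionGaloisRep_apply (M : ℕ) {n : ℕ} (σ : GQ)
    (x : Pic0.torsion (AlgebraicClosure ℚ) (F1bar M) n) :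
    ((JOne.torsionGaloisRep M n σ x : Pic0.torsion (AlgebraicClosure ℚ) (F1bar M) n) : JOne M)
      = σ • (x : JOne M) :=
  rfl

/-! ### Diamond operators -/

/-- `σ` is the diamond automorphism `⟨e⟩` of `F1 M`: it fixes `modularFunctionFieldFull M` and
sends `W_d` to `W_{e d}`. -/
def IsDiamond (M : ℕ) (e : (ZMod M)ˣ) (σ : F1 M ≃ₐ[ℚ] F1 M) : Prop :=
  (∀ x : F1 M, (x : LaurentSeries ℚ) ∈ modularFunctionFieldFull M → σ x = x) ∧
    ∀ d : (ZMod M)ˣ, ((σ ⟨wq M (d : ZMod M), wq_mem_F1 M d⟩ : F1 M) : LaurentSeries ℚ)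
      = wq M ((e * d : (ZMod M)ˣ) : ZMod M)

/-- a diamond automorphism is determined by `e`. -/
theorem IsDiamond.unique {M : ℕ} {e : (ZMod M)ˣ} {σ τ : F1 M ≃ₐ[ℚ] F1 M}
    (hσ : IsDiamond M e σ) (hτ : IsDiamond M e τ) : σ = τ := by
  have key : ∀ (x : LaurentSeries ℚ) (hx : x ∈ F1 M), σ ⟨x, hx⟩ = τ ⟨x, hx⟩ := by
    intro x hx
    unfold F1 at hx
    induction hx using IntermediateField.adjoin_induction with
    | mem y hy =>
        rcases hy with hy | ⟨d, rfl⟩
        · have hyF : y ∈ modularFunctionFieldFull M := subset_adjoin ℚ _ hy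
          rw [hσ.1 ⟨y, _⟩ hyF, hτ.1 ⟨y, _⟩ hyF]
        · exact Subtype.ext (by rw [hσ.2 d, hτ.2 d])
    | algebraMap c =>
        have h1 : (⟨algebraMap ℚ (LaurentSeries ℚ) c, (F1 M).algebraMap_mem c⟩ : F1 M)
            = ((c : ℚ) : F1 M) :=
          Subtype.ext (by
            show algebraMap ℚ (LaurentSeries ℚ) c = (((c : ℚ) : F1 M) : LaurentSeries ℚ)
            rw [eq_ratCast]; rfl)
        rw [h1, map_ratCast, map_ratCast]
    | add y z hy hz ihy ihz =>
        have h1 : (⟨y + z, add_mem hy hz⟩ : F1 M) = ⟨y, hy⟩ + ⟨z, hz⟩ := rfl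
        rw [h1, map_add, map_add, ihy, ihz]
    | inv y hy ihy =>
        have h1 : (⟨y⁻¹, inv_mem hy⟩ : F1 M) = (⟨y, hy⟩ : F1 M)⁻¹ := rfl
        rw [h1, map_inv₀, map_inv₀, ihy]
    | mul y z hy hz ihy ihz =>
        have h1 : (⟨y * z, mul_mem hy hz⟩ : F1 M) = ⟨y, hy⟩ * ⟨z, hz⟩ := rfl
        rw [h1, map_mul, map_mul, ihy, ihz]
  exact AlgEquiv.ext fun x => key x.1 x.2

/-! ### The level `Γ₁(M) ∩ Γ₀(p)` and the Hecke correspondence -/

section Hecke

variable (M p : ℕ) [NeZero p]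

/-- the function field of `X(Γ₁(M) ∩ Γ₀(p))`: the compositum of `F1 M` and its image under `q ↦ q^p`. -/
def F1p : IntermediateField ℚ (LaurentSeries ℚ) := F1 M ⊔ (F1 M).map (qExpandₐ p)

theorem F1_le_F1p : F1 M ≤ F1p M p := le_sup_left

theorem map_F1_le_F1p : (F1 M).map (qExpandₐ p) ≤ F1p M p := le_sup_right

theorem qExpand_mem_F1p {y : LaurentSeries ℚ} (hy : y ∈ F1 M) : qExpand ℚ p y ∈ F1p M p :=
  map_F1_le_F1p M p ⟨y, hy, rfl⟩

variable {L : Type*} [Field L] [Algebra ℚ L]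

theorem coeffMap_qExpand13 {R S : Type*} [CommRing R] [CommRing S] (f : R →+* S) (n : ℕ)
    [NeZero n] (x : LaurentSeries R) : coeffMap f (qExpand R n x) = qExpand S n (coeffMap f x) := by
  ext k
  by_cases hk : (n : ℤ) ∣ k
  · obtain ⟨m, rfl⟩ := hk
    rw [coeffMap_coeff, qExpand_coeff_mul, qExpand_coeff_mul, coeffMap_coeff]
  · rw [coeffMap_coeff, qExpand_coeff_of_not_dvd n _ hk, qExpand_coeff_of_not_dvd n _ hk,
      map_zero]

theorem coeffEmb_qExpand13 (L : Type*) [Field L] [Algebra ℚ L] (n : ℕ) [NeZero n]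
    (x : LaurentSeries ℚ) : coeffEmb L (qExpand ℚ n x) = qExpand L n (coeffEmb L x) :=
  coeffMap_qExpand13 _ n x

variable (L) in
theorem laurentBaseChange_mono13 {F₀ F₁ : IntermediateField ℚ (LaurentSeries ℚ)}
    (h : F₀ ≤ F₁) : laurentBaseChange L F₀ ≤ laurentBaseChange L F₁ := by
  rw [laurentBaseChange, IntermediateField.adjoin_le_iff]
  rintro _ ⟨y, hy, rfl⟩
  exact coeffEmb_mem_laurentBaseChange L (h hy)

theorem qExpand_mem_laurentBaseChange13 {F₀ : IntermediateField ℚ (LaurentSeries ℚ)} (n : ℕ)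
    [NeZero n] {F₁ : IntermediateField ℚ (LaurentSeries ℚ)} (hF : ∀ y ∈ F₀, qExpand ℚ n y ∈ F₁)
    {x : LaurentSeries L} (hx : x ∈ laurentBaseChange L F₀) :
    qExpand L n x ∈ laurentBaseChange L F₁ := by
  rw [mem_laurentBaseChange_iff] at hx
  induction hx using Subfield.closure_induction with
  | mem y hy =>
      rcases hy with ⟨a, rfl⟩ | ⟨z, hz, rfl⟩
      · rw [algebraMap_laurentSeries_eq_single, qExpand_single, mul_zero,
          ← algebraMap_laurentSeries_eq_single]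
        exact (laurentBaseChange L F₁).algebraMap_mem _
      · rw [← coeffEmb_qExpand13]
        exact coeffEmb_mem_laurentBaseChange L (hF z hz)
  | one => simp
  | add x y _ _ hx hy => simpa using add_mem hx hy
  | neg x _ hx => simpa using neg_mem hx
  | inv x _ hx => simpa using inv_mem hx
  | mul x y _ _ hx hy => simpa using mul_mem hx hy

variable (L) in
/-- the degeneracy map `α` (inclusion). -/
def heckeOneAlphaBar :
    laurentBaseChange L (F1 M) →ₐ[L] laurentBaseChange L (F1p M p) :=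
  IntermediateField.inclusion (laurentBaseChange_mono13 L (F1_le_F1p M p))

@[simp]
theorem coe_heckeOneAlphaBar (x : laurentBaseChange L (F1 M)) :
    (heckeOneAlphaBar M p L x : LaurentSeries L) = (x : LaurentSeries L) :=
  IntermediateField.coe_inclusion _ x

variable (L) in
/-- the degeneracy map `β` (`q ↦ q^p`), as a ring hom. -/
def heckeOneBetaBarRingHom :
    laurentBaseChange L (F1 M) →+* laurentBaseChange L (F1p M p) where
  toFun x := ⟨qExpand L p (x : LaurentSeries L),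
    qExpand_mem_laurentBaseChange13 p (fun _ hy => qExpand_mem_F1p M p hy) x.2⟩
  map_one' := Subtype.ext (map_one (qExpand L p))
  map_mul' _ _ := Subtype.ext (map_mul (qExpand L p) _ _)
  map_zero' := Subtype.ext (map_zero (qExpand L p))
  map_add' _ _ := Subtype.ext (map_add (qExpand L p) _ _)

variable (L) in
/-- the degeneracy map `β` (`q ↦ q^p`). -/
def heckeOneBetaBar :
    laurentBaseChange L (F1 M) →ₐ[L] laurentBaseChange L (F1p M p) :=
  { heckeOneBetaBarRingHom M p L with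
    commutes' := fun a => Subtype.ext <| by
      show qExpand L p (algebraMap L (LaurentSeries L) a) = algebraMap L (LaurentSeries L) a
      rw [algebraMap_laurentSeries_eq_single, qExpand_single, mul_zero] }

@[simp]
theorem coe_heckeOneBetaBar (x : laurentBaseChange L (F1 M)) :
    (heckeOneBetaBar M p L x : LaurentSeries L) = qExpand L p (x : LaurentSeries L) :=
  rfl

variable (L) in
/-- integrality of `α`. -/
def HeckeOneAlphaBarIntegral : Prop := (heckeOneAlphaBar M p L).toRingHom.IsIntegral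

variable (L) in
/-- integrality of `β`. -/
def HeckeOneBetaBarIntegral : Prop := (heckeOneBetaBar M p L).toRingHom.IsIntegral

variable {M p}
variable (hα : HeckeOneAlphaBarIntegral M p L) (hβ : HeckeOneBetaBarIntegral M p L)
variable [HasPrincipalDivisors L (laurentBaseChange L (F1p M p))]

/-- the Hecke correspondence `T_p` on divisors of `F1bar M` (pull back along `β`, push forward
along `α`: the orientation of the Prelude's `heckeDivBar`). -/
def heckeOneDivBar :
    Divisor L (laurentBaseChange L (F1 M)) →+ Divisor L (laurentBaseChange L (F1 M)) :=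
  Divisor.correspondence (heckeOneBetaBar M p L) (heckeOneAlphaBar M p L) hβ hα

/-- the Hecke operator `T_p` on `Pic⁰`. -/
def heckeOnePic0Bar
    (hFI : FundamentalIdentityAlong L (heckeOneBetaBar M p L) hβ)
    (hfin : FiniteAlong L (heckeOneAlphaBar M p L))
    (hN : NormFormulaAlong L (heckeOneAlphaBar M p L) hfin) :
    Pic0 L (laurentBaseChange L (F1 M)) →+ Pic0 L (laurentBaseChange L (F1 M)) :=
  Pic0.correspondence (heckeOneBetaBar M p L) (heckeOneAlphaBar M p L) hβ hα hFI hfin hN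

end Hecke

end Fermat.Agent.ES.R48.FF1Defs13
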