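/-
Programme R (S48), chapter GEOM, sub-chapter G0 (helper13): **INTERFACE for the dictionary
`places of F1bar M ↔ Γ₁(M)\(ℍ ⊔ ℙ¹(ℚ))`** — the twin of `Fermat/Agent/X0/AnDefs.lean` (formal
side) and `Fermat/Agent/X0/Iface.lean`.  Downstream files (G2) are written against
`(D : RealizeData1 M) (C : CuspData1 M D)` and instantiated at the very end (G1 supplies the
analysis of `wFun`).  Keep this file SMALL and STABLE.

* `FF1 M`, `ffIncl : FF M →ₐ[Kbar] FF1 M`, `wF`, `jdF1`, `jF1`, `genSet1`, `Rsub1`, `rsubIncl`, `Kj1`;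
* `PG1 M = ±Γ₁(M)` as a subgroup of `SL(2, ℤ)`;
* `gFun M c z = ∑_{(m,n), m ≡ c (M)} (m z + n)⁻⁴`, `wFun M c = 3/(8π⁴) · gFun · E₄² / Δ`;
* `WSlash M` : the slash rule `wFun M c (γ • z) = wFun M (c * γ₀₀) z` for `γ ∈ Γ₀(M)` (proved in G1);
* `RealizeData1 M`, `CuspData1 M D`.
-/
import Fermat.Agent.X0.Iface
import Fermat.Agent.ES.R48.FF1Defs13

set_option autoImplicit false
set_option linter.unusedSectionVars false

open UpperHalfPlane ModularForm EisensteinSeries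
open scoped MatrixGroups

noncomputable section

namespace Fermat.Agent.ES.R48.X1Iface13

open Fermat.Agent.X0 Fermat.Agent.ES.R48.FF1Defs13

variable (M : ℕ) [NeZero M]

/-! ### Formal side -/

/-- The function field `F₁ = ℚbar · F1 M ⊆ ℚbar((q))` of `X₁(M)` over `ℚbar`. -/
abbrev FF1 : Type := ↥(F1bar M)

/-- `F_full(M) ⊆ F1(M)` after base change to `ℚbar`. -/
theorem fullBar_le_F1bar :
    ModularCurve.modularFunctionFieldBar M ≤ F1bar M :=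
  laurentBaseChange_mono13 Kbar (full_le_F1 M)

/-- the inclusion `FF M → FF1 M`. -/
def ffIncl : FF M →ₐ[Kbar] FF1 M := IntermediateField.inclusion (fullBar_le_F1bar M)

@[simp] theorem coe_ffIncl (x : FF M) :
    ((ffIncl M x : FF1 M) : LaurentSeries Kbar) = (x : LaurentSeries Kbar) :=
  IntermediateField.coe_inclusion _ x

theorem ffIncl_injective : Function.Injective (ffIncl M) := (ffIncl M).injective

/-- The formal `W_c` as an element of `F₁`. -/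
def wF (c : (ZMod M)ˣ) : FF1 M :=
  ⟨ModularCurve.coeffEmb Kbar (wq M (c : ZMod M)),
    ModularCurve.coeffEmb_mem_laurentBaseChange Kbar (wq_mem_F1 M c)⟩

@[simp] theorem coe_wF (c : (ZMod M)ˣ) :
    ((wF M c : FF1 M) : LaurentSeries Kbar) = ModularCurve.coeffEmb Kbar (wq M (c : ZMod M)) :=
  rfl

/-- The formal `j(q^d)` as an element of `F₁`, for `d ∣ M`. -/
def jdF1 (d : ℕ) [NeZero d] (hd : d ∣ M) : FF1 M := ffIncl M (jdF M d hd)

/-- The formal `j` as an element of `F₁`. -/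
def jF1 : FF1 M := jdF1 M 1 (one_dvd M)

/-- The generators `j_d` (`d ∣ M`) and `W_c` (`c ∈ (ZMod M)ˣ`) of `F₁`. -/
def genSet1 : Set (FF1 M) :=
  {x | (∃ (d : ℕ) (_ : NeZero d) (hd : d ∣ M), x = jdF1 M d hd) ∨ ∃ c : (ZMod M)ˣ, x = wF M c}

/-- The `ℚbar`-subalgebra `R₁ = ℚbar[j_d, W_c]` of `F₁`. -/
def Rsub1 : Subalgebra Kbar (FF1 M) := Algebra.adjoin Kbar (genSet1 M)

/-- The subfield `ℚbar(j)` of `F₁`. -/
def Kj1 : IntermediateField Kbar (FF1 M) := IntermediateField.adjoin Kbar {jF1 M}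

/-- `j_d` as an element of `R₁`. -/
def jdR1 (d : ℕ) [NeZero d] (hd : d ∣ M) : Rsub1 M :=
  ⟨jdF1 M d hd, Algebra.subset_adjoin (Or.inl ⟨d, inferInstance, hd, rfl⟩)⟩

/-- `W_c` as an element of `R₁`. -/
def wR (c : (ZMod M)ˣ) : Rsub1 M :=
  ⟨wF M c, Algebra.subset_adjoin (Or.inr ⟨c, rfl⟩)⟩

@[simp] theorem coe_jdR1 (d : ℕ) [NeZero d] (hd : d ∣ M) :
    ((jdR1 M d hd : Rsub1 M) : FF1 M) = jdF1 M d hd := rfl

@[simp] theorem coe_wR (c : (ZMod M)ˣ) : ((wR M c : Rsub1 M) : FF1 M) = wF M c := rfl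

/-- `ffIncl` maps `R = ℚbar[j_d]` into `R₁`. -/
theorem ffIncl_mem_Rsub1 {x : FF M} (hx : x ∈ Rsub M) : ffIncl M x ∈ Rsub1 M := by
  have h : (Rsub M).map (ffIncl M) ≤ Rsub1 M := by
    rw [Rsub, AlgHom.map_adjoin, Rsub1]
    refine Algebra.adjoin_mono ?_
    rintro _ ⟨y, ⟨d, hne, hd, rfl⟩, rfl⟩
    exact Or.inl ⟨d, hne, hd, rfl⟩
  exact h ⟨x, hx, rfl⟩

/-- The inclusion `R → R₁`. -/
def rsubIncl : Rsub M →ₐ[Kbar] Rsub1 M :=
  ((ffIncl M).comp (Rsub M).val).codRestrict (Rsub1 M) fun x => ffIncl_mem_Rsub1 M x.2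

@[simp] theorem coe_rsubIncl (u : Rsub M) :
    ((rsubIncl M u : Rsub1 M) : FF1 M) = ffIncl M (u : FF M) := rfl

theorem rsubIncl_jdR (d : ℕ) [NeZero d] (hd : d ∣ M) : rsubIncl M (jdR M d hd) = jdR1 M d hd :=
  rfl

/-! ### The group `±Γ₁(M)` -/

/-- `±Γ₁(M)`: the stabiliser of the generators of `F₁` in `SL(2, ℤ)`. -/
def PG1 : Subgroup SL(2, ℤ) where
  carrier := {γ | γ ∈ CongruenceSubgroup.Gamma1 M ∨ -γ ∈ CongruenceSubgroup.Gamma1 M}
  one_mem' := Or.inl (Subgroup.one_mem _)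
  mul_mem' := by
    rintro a b (ha | ha) (hb | hb)
    · exact Or.inl (Subgroup.mul_mem _ ha hb)
    · exact Or.inr (by rw [← mul_neg]; exact Subgroup.mul_mem _ ha hb)
    · exact Or.inr (by rw [← neg_mul]; exact Subgroup.mul_mem _ ha hb)
    · exact Or.inl (by rw [← neg_mul_neg]; exact Subgroup.mul_mem _ ha hb)
  inv_mem' := by
    rintro a (ha | ha)
    · exact Or.inl (Subgroup.inv_mem _ ha)
    · refine Or.inr ?_
      have h := Subgroup.inv_mem _ ha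
      have e : (-a)⁻¹ = -a⁻¹ := by
        rw [inv_eq_iff_eq_inv, eq_comm, inv_eq_iff_mul_eq_one, neg_mul_neg, inv_mul_cancel]
      rwa [e] at h

theorem mem_PG1_iff {γ : SL(2, ℤ)} :
    γ ∈ PG1 M ↔ γ ∈ CongruenceSubgroup.Gamma1 M ∨ -γ ∈ CongruenceSubgroup.Gamma1 M := Iff.rfl

theorem Gamma1_le_PG1 : CongruenceSubgroup.Gamma1 M ≤ PG1 M := fun _ h => Or.inl h

/-! ### Analytic side -/

/-- `G_c(z) = ∑_{(m, n) ∈ ℤ², m ≡ c (M)} (m z + n)⁻⁴`. -/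
def gFun (c : ZMod M) (z : ℍ) : ℂ :=
  ∑' v : {v : Fin 2 → ℤ // ((v 0 : ℤ) : ZMod M) = c},
    1 / (((v.1 0 : ℤ) : ℂ) * (z : ℂ) + ((v.1 1 : ℤ) : ℂ)) ^ 4

/-- The analytic `W_c = 3/(8π⁴) · G_c · E₄² / Δ`. -/
def wFun (c : ZMod M) (z : ℍ) : ℂ :=
  3 / (8 * (Real.pi : ℂ) ^ 4) * gFun M c z * (E₄ z) ^ 2 / ModularForm.discriminant z

/-- The slash rule for `wFun` under `Γ₀(M)` (weight `0`): `W_c ∘ γ = W_{c · γ₀₀}`.
Proved in G1 (`eisSummand_SL2_apply`); assumed as a hypothesis by the derived G2 files. -/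
def WSlash : Prop :=
  ∀ γ : SL(2, ℤ), γ ∈ CongruenceSubgroup.Gamma0 M → ∀ (c : ZMod M) (z : ℍ),
    wFun M c (γ • z) = wFun M (c * ((γ 0 0 : ℤ) : ZMod M)) z

/-- Analytic realisation of `R₁ = ℚbar[j_d, W_c]` as holomorphic functions on `ℍ`: the twin of
`X0.RealizeData`, with `Γ₁(M)`-invariance and the extra generators `W_c`. -/
structure RealizeData1 where
  /-- the realisation map -/
  Θ : Rsub1 M →+* (ℍ → ℂ)
  injective : Function.Injective Θ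
  algebraMap_eq : ∀ c : Kbar, Θ (algebraMap Kbar (Rsub1 M) c) = fun _ => iotaK c
  jd_eq : ∀ (d : ℕ) [NeZero d] (hd : d ∣ M), Θ (jdR1 M d hd) = jdFun d
  w_eq : ∀ c : (ZMod M)ˣ, Θ (wR M c) = wFun M (c : ZMod M)
  mem_HolH : ∀ u : Rsub1 M, Θ u ∈ HolH
  isQExp : ∀ u : Rsub1 M, ∃ (m : ℕ) (P : PowerSeries Kbar),
    IsQExp 1 (Θ u) m (P.map iotaK) ∧ (((u : FF1 M) : LaurentSeries Kbar)) = laurentOf m P
  invariant : ∀ (u : Rsub1 M) (γ : SL(2, ℤ)), γ ∈ CongruenceSubgroup.Gamma1 M →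
    compSL (Θ u) γ = Θ u

/-- Cusp expansions: for every `γ ∈ SL(2, ℤ)` a ring hom `T γ : F₁ → ℚbar((q_M))`, which on
`u ∈ R₁` is the `q_M`-expansion of `Θ u ∘ γ` (twin of `X0.CuspData`). -/
structure CuspData1 (D : RealizeData1 M) where
  /-- the expansion maps -/
  T : SL(2, ℤ) → (FF1 M →+* LaurentSeries Kbar)
  spec : ∀ (γ : SL(2, ℤ)) (u : Rsub1 M), ∃ (m : ℕ) (P : PowerSeries Kbar),
    IsQExp M (compSL (D.Θ u) γ) m (P.map iotaK) ∧ T γ (u : FF1 M) = laurentOf m P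

end Fermat.Agent.ES.R48.X1Iface13
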