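/-
Programme R (S48, Deligne–Serre), chapter GEOM, sub-chapter G2 DICT₁ (helper1): **INTEGRALITY for
`X₁(M)`** — the twin of the `Concrete` section of `Fermat/Agent/X0/Integrality.lean`.

For an arbitrary interface pair `(D : RealizeData1 M) (C : CuspData1 M D)`: the coefficients of
`∏_x (X - C.T (rep x)⁻¹ u)`, `x ∈ SL(2,ℤ) ⧸ ±Γ₁(M)`, `u ∈ R₁ = ℚbar[j_d, W_c]`, are polynomials in
`j(q_M^M)` with coefficients in `ℚbar`.

The level-generic part of `X0/Integrality` (`IntgQN`, `intgPairs`, `intg_core`, …) is imported AS-IS;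
only the statements mentioning the interface pair are re-proved here, with the index set
`SL(2,ℤ) ⧸ PG1 M` (`PG1 M = ±Γ₁(M)`; `-1` acts trivially on `ℍ`).
-/
import Fermat.Agent.X0.Integrality
import Fermat.Agent.ES.R48.X1Iface13

set_option autoImplicit false
set_option linter.unusedSectionVars false

open ModularCurve UpperHalfPlane ModularForm
open scoped Topology Manifold MatrixGroups

noncomputable section

namespace Fermat.Agent.ES.R48.X1Integrality1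

open Fermat.Agent.X0 Fermat.Agent.X0.Analytic Fermat.Agent.X0.JQExp Polynomial
  Fermat.Agent.ES.R48.X1Iface13

/-! ### `-1` acts trivially -/

/-- Precomposition with `-γ` is precomposition with `γ`. -/
theorem compSL_neg (f : ℍ → ℂ) (γ : SL(2, ℤ)) : compSL f (-γ) = compSL f γ := by
  funext z
  show f ((-γ) • z) = f (γ • z)
  rw [ModularGroup.SL_neg_smul]

variable (M : ℕ) [NeZero M] (D : RealizeData1 M) (C : CuspData1 M D)

/-- The realisation of `R₁` is invariant under `±Γ₁(M)`. -/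
theorem invariant_PG1 (u : Rsub1 M) (γ : SL(2, ℤ)) (hγ : γ ∈ PG1 M) :
    compSL (D.Θ u) γ = D.Θ u := by
  rcases (mem_PG1_iff M).mp hγ with h | h
  · exact D.invariant u γ h
  · rw [← compSL_neg]
    exact D.invariant u (-γ) h

/-! ### The expansion maps `C.T γ` -/

/-- `C.T γ u` is the `q_M`-expansion of `Θ u ∘ γ`. -/
theorem T_spec (γ : SL(2, ℤ)) (u : Rsub1 M) :
    IntgQN M (compSL (D.Θ u) γ) (toC (C.T γ (u : FF1 M))) := by
  obtain ⟨m, P, hP, hT⟩ := C.spec γ u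
  rw [hT, toC, lor_coeffMap_laurentOf]
  exact intg_qn_of_isQExp M hP

/-- `C.T γ u` is determined by the `q_M`-expansion of `Θ u ∘ γ`. -/
theorem T_eq_of_qn (γ : SL(2, ℤ)) (u : Rsub1 M) (E : LaurentSeries Kbar)
    (h : IntgQN M (compSL (D.Θ u) γ) (toC E)) : C.T γ (u : FF1 M) = E :=
  toC_injective (intg_qn_unique M (T_spec M D C γ u) h)

/-- `C.T γ` only depends on the class of `γ` modulo `±Γ₁(M)` on the left, on `R₁`. -/
theorem T_mul_of_mem_PG1 (δ γ : SL(2, ℤ)) (hδ : δ ∈ PG1 M) (u : Rsub1 M) :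
    C.T (δ * γ) (u : FF1 M) = C.T γ (u : FF1 M) := by
  apply T_eq_of_qn
  have h : compSL (D.Θ u) (δ * γ) = compSL (D.Θ u) γ := by
    funext z
    show D.Θ u ((δ * γ) • z) = D.Θ u (γ • z)
    rw [mul_smul]
    exact congrFun (invariant_PG1 M D u δ hδ) (γ • z)
  rw [h]
  exact T_spec M D C γ u

theorem T_algebraMap (γ : SL(2, ℤ)) (c : Kbar) :
    C.T γ (algebraMap Kbar (FF1 M) c) = algebraMap Kbar (LaurentSeries Kbar) c := by
  have h1 : ((algebraMap Kbar (Rsub1 M) c : Rsub1 M) : FF1 M) = algebraMap Kbar (FF1 M) c := rfl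
  rw [← h1]
  apply T_eq_of_qn
  rw [D.algebraMap_eq, toC_algebraMap]
  exact intg_qn_const M (iotaK c)

theorem T_jF1 (γ : SL(2, ℤ)) : C.T γ (jF1 M) = qExpand Kbar M jqK := by
  have h1 : ((jdR1 M 1 (one_dvd M) : Rsub1 M) : FF1 M) = jF1 M := rfl
  rw [← h1]
  apply T_eq_of_qn
  rw [D.jd_eq 1 (one_dvd M), intg_compSL_jdFun_one, intg_toC_jN]
  exact intg_qn_jFun M

/-- `C.T γ` on polynomials in `j` over `ℚbar`. -/
theorem T_aeval_jF1 (γ : SL(2, ℤ)) (p : Kbar[X]) :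
    C.T γ (aeval (jF1 M) p) = aeval (qExpand Kbar M jqK) p := by
  rw [aeval_def, aeval_def, Polynomial.hom_eval₂, T_jF1 M D C]
  congr 1
  refine RingHom.ext fun c => ?_
  exact T_algebraMap M D C γ c

/-- `C.T γ` on `ℚbar(j)`: independent of `γ`. -/
theorem T_eq_T_one_of_mem_Kj1 (γ : SL(2, ℤ)) {x : FF1 M} (hx : x ∈ Kj1 M) :
    C.T γ x = C.T 1 x := by
  rw [Kj1, IntermediateField.mem_adjoin_simple_iff] at hx
  obtain ⟨r, s, rfl⟩ := hx
  rw [map_div₀, map_div₀, T_aeval_jF1 M D C, T_aeval_jF1 M D C, T_aeval_jF1 M D C,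
    T_aeval_jF1 M D C]

/-- Two cusp expansion maps agree on `ℚbar(j)` (twin of `X0.Degree.T_eq_on_Kj`). -/
theorem T_eq_on_Kj1 (γ γ' : SL(2, ℤ)) (a : Kj1 M) : C.T γ (a : FF1 M) = C.T γ' (a : FF1 M) := by
  rw [T_eq_T_one_of_mem_Kj1 M D C γ a.2, T_eq_T_one_of_mem_Kj1 M D C γ' a.2]

/-! ### Integrality -/

/-- The permutation of the cosets induced by `δ ∈ SL(2,ℤ)`. -/
theorem perm (rep : SL(2, ℤ) ⧸ PG1 M → SL(2, ℤ))
    (hrep : ∀ x, (rep x : SL(2, ℤ) ⧸ PG1 M) = x) (u : Rsub1 M) (δ : SL(2, ℤ)) :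
    ∃ σ : Equiv.Perm (SL(2, ℤ) ⧸ PG1 M), ∀ x z,
      compSL (D.Θ u) (rep x)⁻¹ (δ • z) = compSL (D.Θ u) (rep (σ x))⁻¹ z := by
  refine ⟨MulAction.toPerm δ⁻¹, fun x z => ?_⟩
  set a := rep x with ha
  set b := rep ((MulAction.toPerm δ⁻¹ : Equiv.Perm _) x) with hb
  have hcoset : ((b : SL(2, ℤ)) : SL(2, ℤ) ⧸ PG1 M)
      = ((δ⁻¹ * a : SL(2, ℤ)) : SL(2, ℤ) ⧸ PG1 M) := by
    rw [hb, hrep, MulAction.toPerm_apply]
    conv_lhs => rw [← hrep x]
    rfl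
  have hmem : b⁻¹ * (δ⁻¹ * a) ∈ PG1 M := QuotientGroup.eq.mp hcoset
  have hmem' : (b⁻¹ * (δ⁻¹ * a))⁻¹ ∈ PG1 M := inv_mem hmem
  have hinv := invariant_PG1 M D u _ hmem'
  show D.Θ u (a⁻¹ • δ • z) = D.Θ u (b⁻¹ • z)
  have h1 : a⁻¹ • δ • z = (b⁻¹ * (δ⁻¹ * a))⁻¹ • (b⁻¹ • z) := by
    rw [← mul_smul, ← mul_smul]
    congr 1
    group
  rw [h1]
  exact congrFun hinv (b⁻¹ • z)

/-- **INTEGRALITY for `X₁(M)`.** For `u ∈ R₁ = ℚbar[j_d, W_c]` the coefficients of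
`∏_x (X - T_{(rep x)⁻¹} u)`, `x ∈ SL(2,ℤ)/±Γ₁(M)`, are of the form `T_1 (p(j))`, `p ∈ ℚbar[X]`;
analytically `p(j(z))` is the corresponding coefficient of `∏_x (X - (Θ u)((rep x)⁻¹ z))`. -/
theorem integrality [Fintype (SL(2, ℤ) ⧸ PG1 M)]
    (rep : SL(2, ℤ) ⧸ PG1 M → SL(2, ℤ))
    (hrep : ∀ x, (rep x : SL(2, ℤ) ⧸ PG1 M) = x) (u : Rsub1 M) (k : ℕ) :
    ∃ p : Kbar[X],
      (∏ x, (X - Polynomial.C (C.T (rep x)⁻¹ (u : FF1 M)))).coeff k = C.T 1 (aeval (jF1 M) p) ∧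
      ∀ z, (p.map iotaK).eval (jFun z)
        = (∏ x, (X - Polynomial.C (compSL (D.Θ u) (rep x)⁻¹ z))).coeff k := by
  obtain ⟨p, hp1, hp2⟩ := intg_core M (fun x => compSL (D.Θ u) (rep x)⁻¹)
    (fun x => C.T (rep x)⁻¹ (u : FF1 M)) (fun x => compSL_mem_HolH (D.mem_HolH u) _)
    (fun x => T_spec M D C _ u) (perm M D rep hrep u) k
  exact ⟨p, by rw [hp1, T_aeval_jF1 M D C], hp2⟩

/-- **Analytic norm formula.** If the product of the `T_{(rep x)⁻¹} u` is `T_1 (p(j))` then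
`p(j(z))` is the product of the conjugates `(Θ u)((rep x)⁻¹ z)`. -/
theorem integrality_prod_of_eq [Fintype (SL(2, ℤ) ⧸ PG1 M)]
    (rep : SL(2, ℤ) ⧸ PG1 M → SL(2, ℤ)) (u : Rsub1 M) (p : Kbar[X])
    (hp : ∏ x, C.T (rep x)⁻¹ (u : FF1 M) = C.T 1 (aeval (jF1 M) p)) (z : ℍ) :
    (p.map iotaK).eval (jFun z) = ∏ x, compSL (D.Θ u) (rep x)⁻¹ z := by
  classical
  let a : SL(2, ℤ) ⧸ PG1 M → intgPairs M := fun x =>
    ⟨(compSL (D.Θ u) (rep x)⁻¹, C.T (rep x)⁻¹ (u : FF1 M)),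
      compSL_mem_HolH (D.mem_HolH u) _, T_spec M D C _ u⟩
  have hprod : ((∏ x, a x : intgPairs M) : (ℍ → ℂ) × LaurentSeries Kbar)
      = (∏ x, compSL (D.Θ u) (rep x)⁻¹, ∏ x, C.T (rep x)⁻¹ (u : FF1 M)) := by
    show (intgPairs M).subtype (∏ x, a x) = _
    rw [map_prod]
    ext1
    · rw [Prod.fst_prod]
      rfl
    · rw [Prod.snd_prod]
      rfl
  have h1 : IntgQN M (∏ x, compSL (D.Θ u) (rep x)⁻¹)
      (toC (∏ x, C.T (rep x)⁻¹ (u : FF1 M))) := by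
    have := (∏ x, a x : intgPairs M).2.2
    rw [hprod] at this
    exact this
  have h2 : toC (∏ x, C.T (rep x)⁻¹ (u : FF1 M))
      = aeval (qExpand ℂ M (jqModC ℂ)) (p.map iotaK) := by
    rw [hp, T_aeval_jF1 M D C, toC, lor_coeffMap_aeval]
    have := intg_toC_jN M
    rw [toC] at this
    rw [this]
  rw [h2] at h1
  have h3 := intg_qn_unique_right M (intg_qn_eval_jFun M (p.map iotaK)) h1
  have := congrFun h3 z
  rw [Finset.prod_apply] at this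
  exact this

/-- The shape consumed by the abstract degree lemma (ABS-DEG, HYP2). -/
theorem integrality_mem_range [Fintype (SL(2, ℤ) ⧸ PG1 M)]
    (rep : SL(2, ℤ) ⧸ PG1 M → SL(2, ℤ))
    (hrep : ∀ x, (rep x : SL(2, ℤ) ⧸ PG1 M) = x) (u : Rsub1 M) (k : ℕ) :
    (∏ x, (X - Polynomial.C (C.T (rep x)⁻¹ (u : FF1 M)))).coeff k
      ∈ Set.range (C.T 1 ∘ algebraMap (Kj1 M) (FF1 M)) := by
  obtain ⟨p, hp, -⟩ := integrality M D C rep hrep u k
  have hmem : aeval (jF1 M) p ∈ Kj1 M := by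
    rw [Kj1, ← IntermediateField.mem_toSubalgebra]
    have hj : jF1 M ∈ (IntermediateField.adjoin Kbar {jF1 M}).toSubalgebra :=
      IntermediateField.subset_adjoin Kbar {jF1 M} (Set.mem_singleton _)
    have hle : Algebra.adjoin Kbar {jF1 M} ≤
        (IntermediateField.adjoin Kbar {jF1 M}).toSubalgebra :=
      Algebra.adjoin_le (Set.singleton_subset_iff.mpr hj)
    exact hle (Polynomial.aeval_mem_adjoin_singleton Kbar (jF1 M))
  exact ⟨⟨_, hmem⟩, hp.symm⟩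

end Fermat.Agent.ES.R48.X1Integrality1
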