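/-
Programme R (S48) / chapter GEOM, sub-chapter G2 DICT₁ (helper23): twin of the interface half of
`Fermat/Agent/X0/CuspEquiv.lean` (l. 246–373) for `X₁(M)`: equivariance properties of the cusp
expansions `C.T γ : FF1 M →+* LaurentSeries Kbar`, written against
`(D : RealizeData1 M) (C : CuspData1 M D)` of `X1Iface13`:

* `ringHom_ext_Rsub1` : ring homs out of `FF1 M` into a field are determined on `Rsub1 M`;
* `T_eq_of_isQExp`    : `C.T γ u` is determined by any `q_M`-expansion datum of `Θ u ∘ γ`;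
* `T_mul_left`        : `T (δ γ) = T γ` for `δ ∈ ±Γ₁(M)` (`PG1 M`), `T_mul_left_Gamma1`, `T_neg`;
* `T_mul_T`, `T_mul_T_coeff`, `T_mul_T_pow_coeff` : `T (γ T)` is `T γ` twisted by `q ↦ ζ_M q`;
* `dvd_mul_of_coeff_ne_zero`, `width` : the width lemma, for `γ T^w γ⁻¹ ∈ ±Γ₁(M)`.

The generic half of `X0/CuspEquiv` (`zetaK`, `twist`, `laurentOf_eq_of_isQExp`, `qh_T_smul`,
`isQExp_comp_T`, …) is imported AS-IS.
-/
import Fermat.Agent.X0.CuspEquiv
import Fermat.Agent.ES.R48.X1Iface13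
import Fermat.Agent.ES.R48.X1FracR1
import Fermat.Agent.ES.R48.X1Integrality1

set_option autoImplicit false

open UpperHalfPlane
open scoped MatrixGroups

noncomputable section

namespace Fermat.Agent.ES.R48.X1CuspEquiv23

open Fermat.Agent.X0 Fermat.Agent.X0.CuspEquiv Fermat.Agent.ES.R48.X1Iface13

variable {M : ℕ} [NeZero M]

/-- Two ring homs out of `FF1 M` into a field which agree on `Rsub1 M` are equal. -/
theorem ringHom_ext_Rsub1 {L : Type*} [Field L] {φ ψ : FF1 M →+* L}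
    (h : ∀ u : Rsub1 M, φ (u : FF1 M) = ψ (u : FF1 M)) : φ = ψ := by
  ext y
  obtain ⟨r, s, rfl⟩ := Fermat.Agent.ES.R48.X1FracR1.exists_div M y
  rw [map_div₀, map_div₀, h r, h s]

variable {D : RealizeData1 M} (C : CuspData1 M D)

/-- The value of `T γ` on `u ∈ R₁` is determined by any `q_M`-expansion datum of `Θ u ∘ γ`. -/
theorem T_eq_of_isQExp (γ : SL(2, ℤ)) (u : Rsub1 M) {m : ℕ} {P : PowerSeries Kbar}
    (hP : IsQExp M (compSL (D.Θ u) γ) m (P.map iotaK)) :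
    C.T γ (u : FF1 M) = laurentOf m P := by
  obtain ⟨m', P', hP', hT⟩ := C.spec γ u
  rw [hT]
  exact laurentOf_inj_of_map iotaK iotaK_injective (laurentOf_eq_of_isQExp hP' hP)

/-- (4a) `T (δ γ) = T γ` for `δ ∈ ±Γ₁(M)`. -/
theorem T_mul_left (δ γ : SL(2, ℤ)) (hδ : δ ∈ PG1 M) : C.T (δ * γ) = C.T γ :=
  ringHom_ext_Rsub1 fun u =>
    Fermat.Agent.ES.R48.X1Integrality1.T_mul_of_mem_PG1 M D C δ γ hδ u

/-- (4a) for `δ ∈ Γ₁(M)`. -/
theorem T_mul_left_Gamma1 (δ γ : SL(2, ℤ)) (hδ : δ ∈ CongruenceSubgroup.Gamma1 M) :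
    C.T (δ * γ) = C.T γ :=
  T_mul_left C δ γ (Gamma1_le_PG1 M hδ)

/-- `T (-γ) = T γ`. -/
theorem T_neg (γ : SL(2, ℤ)) : C.T (-γ) = C.T γ := by
  have h : (-1 : SL(2, ℤ)) ∈ PG1 M :=
    (mem_PG1_iff M).mpr (Or.inr (by rw [neg_neg]; exact Subgroup.one_mem _))
  have := T_mul_left C (-1) γ h
  rwa [neg_mul, one_mul] at this

/-- (4b) `T (γ T) = twist ζ_M ∘ T γ`. -/
theorem T_mul_T (γ : SL(2, ℤ)) :
    C.T (γ * ModularGroup.T) = (twist (zetaK M) (zetaK_ne_zero M)).comp (C.T γ) := by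
  apply ringHom_ext_Rsub1
  intro u
  obtain ⟨m, P, hP, hT⟩ := C.spec γ u
  rw [RingHom.comp_apply, hT, twist_laurentOf]
  apply T_eq_of_isQExp
  have hfun : compSL (D.Θ u) (γ * ModularGroup.T)
      = fun z => compSL (D.Θ u) γ (ModularGroup.T • z) := by
    funext z
    simp only [compSL]
    rw [mul_smul]
  rw [hfun]
  exact isQExp_comp_T hP

/-- (4b), coefficientwise. -/
theorem T_mul_T_coeff (γ : SL(2, ℤ)) (f : FF1 M) (n : ℤ) :
    (C.T (γ * ModularGroup.T) f).coeff n = zetaK M ^ n * (C.T γ f).coeff n := by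
  rw [T_mul_T]
  rfl

/-- (4b) for powers of `T`. -/
theorem T_mul_T_pow_coeff (γ : SL(2, ℤ)) (k : ℕ) (f : FF1 M) (n : ℤ) :
    (C.T (γ * ModularGroup.T ^ k) f).coeff n = (zetaK M ^ n) ^ k * (C.T γ f).coeff n := by
  induction k with
  | zero => simp
  | succ k ih =>
    rw [pow_succ, ← mul_assoc, T_mul_T_coeff, ih, pow_succ]
    ring

/-- (5) WIDTH, general form: if `γ T^w γ⁻¹ ∈ ±Γ₁(M)` then the nonzero coefficients of `T γ f` sit
in degrees `n` with `M ∣ n * w`. -/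
theorem dvd_mul_of_coeff_ne_zero (γ : SL(2, ℤ)) (w : ℕ)
    (h : γ * ModularGroup.T ^ w * γ⁻¹ ∈ PG1 M) (f : FF1 M) (n : ℤ)
    (hn : (C.T γ f).coeff n ≠ 0) : (M : ℤ) ∣ n * w := by
  have h1 : C.T (γ * ModularGroup.T ^ w) = C.T γ := by
    have := T_mul_left C (γ * ModularGroup.T ^ w * γ⁻¹) γ h
    rwa [inv_mul_cancel_right] at this
  have h2 := T_mul_T_pow_coeff C γ w f n
  rw [h1] at h2
  have h3 : (zetaK M ^ n) ^ w = 1 := by
    have : ((zetaK M ^ n) ^ w - 1) * (C.T γ f).coeff n = 0 := by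
      rw [sub_mul, one_mul, ← h2, sub_self]
    rcases mul_eq_zero.mp this with h' | h'
    · exact sub_eq_zero.mp h'
    · exact absurd h' hn
  rw [← zpow_natCast, ← zpow_mul] at h3
  exact (zetaK_zpow_eq_one_iff M _).mp h3

/-- (5) WIDTH: if `γ T^w γ⁻¹ ∈ ±Γ₁(M)` with `0 < w ∣ M`, then `T γ f` is a series in
`q_M^{M/w}`. -/
theorem width (γ : SL(2, ℤ)) (w : ℕ) (hw : 0 < w) (hwM : w ∣ M)
    (h : γ * ModularGroup.T ^ w * γ⁻¹ ∈ PG1 M) (f : FF1 M) (n : ℤ)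
    (hn : (C.T γ f).coeff n ≠ 0) : ((M / w : ℕ) : ℤ) ∣ n := by
  have h1 := dvd_mul_of_coeff_ne_zero C γ w h f n hn
  obtain ⟨e, he⟩ := hwM
  have hMw : M / w = e := by rw [he, Nat.mul_div_cancel_left e hw]
  rw [hMw]
  rw [he] at h1
  push_cast at h1
  have hw' : (w : ℤ) ≠ 0 := by exact_mod_cast hw.ne'
  rw [mul_comm n] at h1
  exact (mul_dvd_mul_iff_left hw').mp h1

end Fermat.Agent.ES.R48.X1CuspEquiv23
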