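/-
Programme R (S48) / chapter GEOM, sub-chapter G2 DICT₁ (helper23): twin of
`Fermat/Agent/X0/CuspPlaces.lean` for `X₁(M)`: the places of `F₁ = FF1 M` over `j = ∞`, attached
to the cusp expansions `C.T γ : F₁ →+* ℚbar((q_M))` of `X1Iface13`.

`cuspPlace hC g` has order function `f ↦ (C.T g⁻¹ f).order` (up to a positive multiplicity `m`),
`m * ord_v j = -M`; it only depends on the coset `g · ±Γ₁(M)` (index set `SL(2,ℤ) ⧸ PG1 M`), is
invariant under `g ↦ T g`, and its ramification index `-ord_v j` divides the size of the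
`⟨T⟩`-orbit of `g · ±Γ₁(M)`, which divides `M` (width lemma).
Everything is stated against `hC : Good C`, the list of properties of `C.T` proved in
`X1CuspGood23` from `X1CuspEquiv23` / `X1Integrality1`.
-/
import Fermat.Agent.X0.CuspPlaces
import Fermat.Agent.X0.OrbitCount
import Fermat.Agent.ES.R48.X1Iface13

set_option autoImplicit false

open AlgebraicCurve UpperHalfPlane
open scoped MatrixGroups
open MulAction Subgroup CongruenceSubgroup

noncomputable section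

namespace Fermat.Agent.ES.R48.X1CuspPlaces23

open Fermat.Agent.X0 Fermat.Agent.ES.R48.X1Iface13

/-! ### `Γ(M) ≤ Γ₁(M)` and the action of `T ^ M` on `SL(2, ℤ) ⧸ ±Γ₁(M)` -/

section Group

variable (M : ℕ)

theorem Gamma_le_Gamma1 : Gamma M ≤ Gamma1 M := by
  intro γ hγ
  rw [Gamma_mem] at hγ
  rw [Gamma1_mem]
  exact ⟨hγ.1, hγ.2.2.2, hγ.2.2.1⟩

theorem Gamma_le_PG1 [NeZero M] : Gamma M ≤ PG1 M :=
  (Gamma_le_Gamma1 M).trans (Gamma1_le_PG1 M)

theorem T_pow_mem_Gamma : ModularGroup.T ^ M ∈ Gamma M := by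
  have h := ModularGroup_T_pow_mem_Gamma (M : ℤ) (M : ℤ) dvd_rfl
  rwa [Int.natAbs_natCast, zpow_natCast] at h

/-- `T ^ M` acts trivially on `SL(2, ℤ) ⧸ ±Γ₁(M)`. -/
theorem T_pow_smul [NeZero M] (x : SL(2, ℤ) ⧸ PG1 M) : ModularGroup.T ^ M • x = x := by
  induction x using QuotientGroup.induction_on with
  | H g =>
    rw [MulAction.Quotient.smul_mk, smul_eq_mul, QuotientGroup.eq]
    apply Gamma_le_PG1 M
    have h1 : (ModularGroup.T ^ M * g)⁻¹ * g = g⁻¹ * (ModularGroup.T ^ M)⁻¹ * g⁻¹⁻¹ := by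
      rw [mul_inv_rev, inv_inv]
    rw [h1]
    exact (Gamma_normal M).conj_mem _ (inv_mem (T_pow_mem_Gamma M)) g⁻¹

/-- The width of a cusp of `X₁(M)` divides `M`. -/
theorem card_orbit_T_dvd [NeZero M] (x : SL(2, ℤ) ⧸ PG1 M) :
    Nat.card (orbit (zpowers ModularGroup.T) x) ∣ M :=
  OrbitCount.card_orbit_zpowers_dvd (T_pow_smul M x)

end Group

variable {M : ℕ} [NeZero M] {D : RealizeData1 M}

/-- The properties of the cusp expansions `C.T γ` used for the places over `∞`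
(twin of `X0.CuspData.Good`; all derived from `C.spec` in `X1CuspGood23`). -/
structure Good (C : CuspData1 M D) : Prop where
  map_const : ∀ (γ : SL(2, ℤ)) (c : Kbar), C.T γ (algebraMap Kbar (FF1 M) c) = HahnSeries.C c
  map_jF : ∀ γ : SL(2, ℤ), C.T γ (jF1 M) = ModularCurve.qExpand Kbar M jqK
  mul_left : ∀ δ : SL(2, ℤ), δ ∈ PG1 M → ∀ γ : SL(2, ℤ), C.T (δ * γ) = C.T γ
  order_mul_T : ∀ (γ : SL(2, ℤ)) (f : FF1 M),
    (C.T (γ * ModularGroup.T) f).order = (C.T γ f).order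
  width : ∀ (γ : SL(2, ℤ)) (w : ℕ), 0 < w → w ∣ M → γ * ModularGroup.T ^ w * γ⁻¹ ∈ PG1 M →
    ∀ f : FF1 M, f ≠ 0 → ((M / w : ℕ) : ℤ) ∣ (C.T γ f).order

namespace Good

variable {C : CuspData1 M D} (hC : Good C)
include hC

theorem order_jF (γ : SL(2, ℤ)) : (C.T γ (jF1 M)).order = -(M : ℤ) := by
  rw [hC.map_jF, order_qExpand_jqK]

theorem jF_ne_zero : jF1 M ≠ 0 := by
  intro h
  have h1 := hC.order_jF 1
  rw [h, map_zero, HahnSeries.order_zero] at h1
  have hM : (0 : ℤ) < M := by exact_mod_cast Nat.pos_of_ne_zero (NeZero.ne M)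
  omega

theorem nontrivial (γ : SL(2, ℤ)) : ∃ f : FF1 M, f ≠ 0 ∧ (C.T γ f).order ≠ 0 := by
  refine ⟨jF1 M, hC.jF_ne_zero, ?_⟩
  rw [hC.order_jF]
  have hM : (0 : ℤ) < M := by exact_mod_cast Nat.pos_of_ne_zero (NeZero.ne M)
  omega

theorem order_mul_T_zpow (γ : SL(2, ℤ)) (k : ℤ) (f : FF1 M) :
    (C.T (γ * ModularGroup.T ^ k) f).order = (C.T γ f).order := by
  induction k using Int.induction_on generalizing γ with
  | zero => simp
  | succ n ih =>
    rw [zpow_add_one, ← mul_assoc, hC.order_mul_T, ih]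
  | pred n ih =>
    have := hC.order_mul_T (γ * ModularGroup.T ^ (-(n : ℤ) - 1)) f
    rw [mul_assoc, ← zpow_add_one, sub_add_cancel, ih] at this
    exact this.symm

end Good

/-- `Good` from the coefficient forms of the rotation and width lemmas. -/
theorem Good.of_coeff (C : CuspData1 M D)
    (map_const : ∀ (γ : SL(2, ℤ)) (c : Kbar), C.T γ (algebraMap Kbar (FF1 M) c) = HahnSeries.C c)
    (map_jF : ∀ γ : SL(2, ℤ), C.T γ (jF1 M) = ModularCurve.qExpand Kbar M jqK)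
    (mul_left : ∀ δ : SL(2, ℤ), δ ∈ PG1 M → ∀ γ : SL(2, ℤ), C.T (δ * γ) = C.T γ)
    (ζ : Kbar) (hζ : ζ ≠ 0)
    (mul_T : ∀ (γ : SL(2, ℤ)) (f : FF1 M) (n : ℤ),
      (C.T (γ * ModularGroup.T) f).coeff n = ζ ^ n * (C.T γ f).coeff n)
    (width : ∀ (γ : SL(2, ℤ)) (w : ℕ), 0 < w → w ∣ M →
      γ * ModularGroup.T ^ w * γ⁻¹ ∈ PG1 M → ∀ (f : FF1 M) (n : ℤ),
      ¬ ((M / w : ℕ) : ℤ) ∣ n → (C.T γ f).coeff n = 0) : Good C where
  map_const := map_const
  map_jF := map_jF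
  mul_left := mul_left
  order_mul_T γ f :=
    LaurentPlace.order_eq_of_coeff_eq_mul (fun n => ζ ^ n) (fun n => zpow_ne_zero n hζ)
      (mul_T γ f)
  width γ w hw hwM hmem f hf := by
    by_contra hnd
    have h0 := width γ w hw hwM hmem f _ hnd
    rw [HahnSeries.coeff_order_eq_zero] at h0
    exact (LaurentPlace.emb_ne_zero (C.T γ) hf) h0

/-! ### The places over `∞` -/

section Places

variable {C : CuspData1 M D} (hC : Good C)

/-- The place of `F₁` attached to `g : SL(2, ℤ)`: the order function is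
`f ↦ (C.T g⁻¹ f).order`. -/
def cuspPlace (g : SL(2, ℤ)) : Place Kbar (FF1 M) :=
  LaurentPlace.embPlace (C.T g⁻¹) (hC.map_const g⁻¹) (hC.nontrivial g⁻¹)

theorem mem_cuspPlace_iff (g : SL(2, ℤ)) {f : FF1 M} (hf : f ≠ 0) :
    f ∈ (cuspPlace hC g).toValuationSubring ↔ 0 ≤ (C.T g⁻¹ f).order :=
  LaurentPlace.mem_embPlace_iff _ _ _ hf

/-- The multiplicity relation: `ord_{q_M} (f ∘ g⁻¹) = m * ord_v f`, and `m * ord_v j = -M`. -/
theorem cuspPlace_spec (g : SL(2, ℤ)) :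
    ∃ m : ℕ, 0 < m ∧ (∀ f : FF1 M, f ≠ 0 → (C.T g⁻¹ f).order = m * (cuspPlace hC g).ord f) ∧
      (m : ℤ) * (cuspPlace hC g).ord (jF1 M) = -(M : ℤ) := by
  obtain ⟨m, hm, h⟩ := LaurentPlace.embPlace_spec (C.T g⁻¹) (hC.map_const g⁻¹) (hC.nontrivial g⁻¹)
  refine ⟨m, hm, h, ?_⟩
  have := h (jF1 M) hC.jF_ne_zero
  rw [hC.order_jF] at this
  exact this.symm

theorem eq_cuspPlace_of_spec (g : SL(2, ℤ)) (v : Place Kbar (FF1 M)) {m : ℕ} (hm : 0 < m)
    (h : ∀ f : FF1 M, f ≠ 0 → (C.T g⁻¹ f).order = m * v.ord f) : v = cuspPlace hC g :=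
  LaurentPlace.eq_embPlace_of_spec _ _ _ v hm h

/-- The places `cuspPlace g` lie over `∞`. -/
theorem cuspPlace_ord_jF_neg (g : SL(2, ℤ)) : (cuspPlace hC g).ord (jF1 M) < 0 := by
  obtain ⟨m, hm, -, h⟩ := cuspPlace_spec hC g
  have hM : (0 : ℤ) < M := by exact_mod_cast Nat.pos_of_ne_zero (NeZero.ne M)
  have hm' : (0 : ℤ) < m := by exact_mod_cast hm
  by_contra hneg
  have h0 : 0 ≤ (cuspPlace hC g).ord (jF1 M) := not_lt.mp hneg
  nlinarith

/-- `cuspPlace` only depends on the coset `g · ±Γ₁(M)`. -/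
theorem cuspPlace_mul_right (g δ : SL(2, ℤ)) (hδ : δ ∈ PG1 M) :
    cuspPlace hC (g * δ) = cuspPlace hC g := by
  unfold cuspPlace
  apply LaurentPlace.embPlace_eq_of_order_eq
  intro f
  rw [mul_inv_rev, hC.mul_left δ⁻¹ (inv_mem hδ)]

/-- `cuspPlace` is invariant under `g ↦ T ^ k * g`. -/
theorem cuspPlace_T_zpow_mul (g : SL(2, ℤ)) (k : ℤ) :
    cuspPlace hC (ModularGroup.T ^ k * g) = cuspPlace hC g := by
  unfold cuspPlace
  apply LaurentPlace.embPlace_eq_of_order_eq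
  intro f
  rw [mul_inv_rev, ← zpow_neg, hC.order_mul_T_zpow]

theorem cuspPlace_T_mul (g : SL(2, ℤ)) :
    cuspPlace hC (ModularGroup.T * g) = cuspPlace hC g := by
  have := cuspPlace_T_zpow_mul hC g 1
  rwa [zpow_one] at this

/-- `cuspPlace` on the coset space `SL(2, ℤ) ⧸ ±Γ₁(M)`. -/
def cuspPlaceX (x : SL(2, ℤ) ⧸ PG1 M) : Place Kbar (FF1 M) :=
  Quotient.liftOn' x (cuspPlace hC) (by
    intro a b hab
    rw [QuotientGroup.leftRel_apply] at hab
    have := cuspPlace_mul_right hC a (a⁻¹ * b) hab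
    rw [mul_inv_cancel_left] at this
    exact this.symm)

@[simp] theorem cuspPlaceX_mk (g : SL(2, ℤ)) :
    cuspPlaceX hC (QuotientGroup.mk g : SL(2, ℤ) ⧸ PG1 M) = cuspPlace hC g := rfl

theorem cuspPlaceX_smul_zpowers_T (h : zpowers ModularGroup.T) (x : SL(2, ℤ) ⧸ PG1 M) :
    cuspPlaceX hC (h • x) = cuspPlaceX hC x := by
  obtain ⟨h, k, rfl⟩ := h
  induction x using QuotientGroup.induction_on with
  | H g =>
    show cuspPlaceX hC ((ModularGroup.T ^ k) • (QuotientGroup.mk g : SL(2, ℤ) ⧸ PG1 M)) = _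
    rw [MulAction.Quotient.smul_mk, cuspPlaceX_mk, cuspPlaceX_mk, smul_eq_mul,
      cuspPlace_T_zpow_mul]

theorem cuspPlaceX_ord_jF_neg (x : SL(2, ℤ) ⧸ PG1 M) : (cuspPlaceX hC x).ord (jF1 M) < 0 := by
  induction x using QuotientGroup.induction_on with
  | H g => exact cuspPlace_ord_jF_neg hC g

/-- WIDTH: the ramification index `-ord_v j` of `cuspPlaceX x` divides the size of the
`⟨T⟩`-orbit of `x`. -/
theorem cuspPlaceX_neg_ord_jF_dvd (x : SL(2, ℤ) ⧸ PG1 M) :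
    -(cuspPlaceX hC x).ord (jF1 M) ∣ (Nat.card (orbit (zpowers ModularGroup.T) x) : ℤ) := by
  induction x using QuotientGroup.induction_on with
  | H g =>
    set x : SL(2, ℤ) ⧸ PG1 M := QuotientGroup.mk g with hx
    set w : ℕ := Nat.card (orbit (zpowers ModularGroup.T) x) with hw
    have hwM : w ∣ M := card_orbit_T_dvd M x
    have hM0 : M ≠ 0 := NeZero.ne M
    have hw0 : 0 < w :=
      Nat.pos_of_ne_zero (fun h => hM0 (by rw [h] at hwM; exact zero_dvd_iff.mp hwM))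
    have hper : ModularGroup.T ^ w • x = x := by
      rw [pow_smul_eq_iff_minimalPeriod_dvd, ← OrbitCount.card_orbit_zpowers]
      exact dvd_of_eq hw.symm
    have hmem : g⁻¹ * ModularGroup.T ^ w * g⁻¹⁻¹ ∈ PG1 M := by
      rw [hx, MulAction.Quotient.smul_mk, smul_eq_mul] at hper
      have := QuotientGroup.eq.mp hper.symm
      rw [inv_inv, mul_assoc]
      exact this
    obtain ⟨m, hm, hspec, hj⟩ := cuspPlace_spec hC g
    have hdiv : ((M / w : ℕ) : ℤ) ∣ (m : ℤ) :=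
      LaurentPlace.dvd_of_forall_dvd (w := fun f => (C.T g⁻¹ f).order) (cuspPlace hC g) hspec
        (fun f hf => hC.width g⁻¹ w hw0 hwM hmem f hf)
    obtain ⟨t, ht⟩ := hdiv
    have hMw : ((M / w : ℕ) : ℤ) * w = M := by
      exact_mod_cast Nat.div_mul_cancel hwM
    have hMw0 : ((M / w : ℕ) : ℤ) ≠ 0 := by
      intro h
      rw [h, zero_mul] at hMw
      exact hM0 (by exact_mod_cast hMw.symm)
    rw [cuspPlaceX_mk]
    refine ⟨t, ?_⟩
    have : ((M / w : ℕ) : ℤ) * (w : ℤ) =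
        ((M / w : ℕ) : ℤ) * (-(cuspPlace hC g).ord (jF1 M) * t) := by
      rw [hMw]
      have h1 : (m : ℤ) * (cuspPlace hC g).ord (jF1 M) = -(M : ℤ) := hj
      rw [ht] at h1
      linear_combination h1
    exact mul_left_cancel₀ hMw0 this

theorem cuspPlaceX_neg_ord_jF_le (x : SL(2, ℤ) ⧸ PG1 M) :
    -(cuspPlaceX hC x).ord (jF1 M) ≤ (Nat.card (orbit (zpowers ModularGroup.T) x) : ℤ) := by
  have hpos : (0 : ℤ) < (Nat.card (orbit (zpowers ModularGroup.T) x) : ℤ) := by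
    have hwM : Nat.card (orbit (zpowers ModularGroup.T) x) ∣ M := card_orbit_T_dvd M x
    have hM0 : M ≠ 0 := NeZero.ne M
    have : Nat.card (orbit (zpowers ModularGroup.T) x) ≠ 0 := fun h =>
      hM0 (by rw [h] at hwM; exact zero_dvd_iff.mp hwM)
    exact_mod_cast Nat.pos_of_ne_zero this
  exact Int.le_of_dvd hpos (cuspPlaceX_neg_ord_jF_dvd hC x)

/-- The form used by the counting lemma `Count.card_eq_card_orbits`. -/
theorem cuspPlaceX_toNat_le (x : SL(2, ℤ) ⧸ PG1 M) :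
    (-(cuspPlaceX hC x).ord (jF1 M)).toNat ≤ Nat.card (orbit (zpowers ModularGroup.T) x) := by
  have := cuspPlaceX_neg_ord_jF_le hC x
  omega

end Places

end Fermat.Agent.ES.R48.X1CuspPlaces23
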