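/-
Programme R (S48) / chapter GEOM, sub-chapter G2 DICT₁ (helper23): twin of
`Fermat/Agent/X0/CuspGood.lean` for `X₁(M)`: for ARBITRARY
`(D : RealizeData1 M) (C : CuspData1 M D)` the cusp expansions satisfy `X1CuspPlaces23.Good C`:
values on constants and on `j` (`X1Integrality1.T_algebraMap`, `T_jF1`), invariance under `±Γ₁(M)`
on the left, rotation of coefficients under `γ ↦ γ T`, width lemma (`X1CuspEquiv23`).
-/
import Fermat.Agent.ES.R48.X1CuspEquiv23
import Fermat.Agent.ES.R48.X1CuspPlaces23

set_option autoImplicit false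

open UpperHalfPlane
open scoped MatrixGroups

noncomputable section

namespace Fermat.Agent.ES.R48.X1CuspGood23

open Fermat.Agent.X0 Fermat.Agent.X0.CuspEquiv Fermat.Agent.ES.R48.X1Iface13
  Fermat.Agent.ES.R48.X1CuspEquiv23 Fermat.Agent.ES.R48.X1CuspPlaces23

variable {M : ℕ} [NeZero M] {D : RealizeData1 M} (C : CuspData1 M D)

/-- Value of `T γ` on constants. -/
theorem map_const (γ : SL(2, ℤ)) (c : Kbar) :
    C.T γ (algebraMap Kbar (FF1 M) c) = HahnSeries.C c := by
  rw [Fermat.Agent.ES.R48.X1Integrality1.T_algebraMap M D C γ c]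
  exact LaurentSeries.algebraMap_apply Kbar c

/-- Value of `T γ` on `j`. -/
theorem map_jF (γ : SL(2, ℤ)) : C.T γ (jF1 M) = ModularCurve.qExpand Kbar M jqK :=
  Fermat.Agent.ES.R48.X1Integrality1.T_jF1 M D C γ

/-- The cusp expansions of any `CuspData1` are `Good`. -/
theorem good : Good C :=
  Good.of_coeff C (map_const C) (map_jF C)
    (fun δ hδ γ => T_mul_left C δ γ hδ) (zetaK M) (zetaK_ne_zero M)
    (fun γ f n => T_mul_T_coeff C γ f n)
    (fun γ w hw hwM h f n hn => by
      by_contra hne
      exact hn (width C γ w hw hwM h f n hne))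

end Fermat.Agent.ES.R48.X1CuspGood23
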