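/-
Programme R (S48, Deligne–Serre), chapter GEOM, G3 MODEL₁ / C. CUSP₁ (helper26): twin of
`RED/CUSP/CuspExact16` for `X₁(M)` — EXACT re-indexing of the cusp expansions, against
`(D : RealizeData1 M) (C : CuspData1 M D)` (X1Iface13) and helper23's `X1CuspPlaces23`/`X1CuspGood23`.

For `γ ∈ SL(2, ℤ)` let `w := cuspW C γ` be the size of the `⟨T⟩`-orbit of the coset `γ⁻¹ · ±Γ₁(M)`
(the width of the cusp `γ⁻¹ ∞`) and `r := cuspR C γ = M / w`.  Then

* `coeff_T_eq_zero`   : every `C.T γ f` is a series in `q_M ^ r` (no exactness needed);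
* `Tc C γ : FF1 M →+* ℚbar((s))`, the compressed expansion, `qExpand r ∘ Tc γ = C.T γ`,
  `Tc_coeff`, `Tc_const`;
and, under the EXACTNESS hypothesis `Exact C` (`- ord_v j = ` orbit size for every coset; it is the
second conclusion of the `±Γ₁(M)`-twin of `PlaceCountX0.pcx_count_cusps`, = helper23's
`X1PlaceCount23`, from the count `∑ widths = [SL₂(ℤ) : ±Γ₁(M)] = [F₁ : ℚbar(j)]`):
* `neg_ord_jF_eq`     : `- ord_v j = w` for `v = placeOf C γ = cuspPlace γ⁻¹`;
* `order_T_eq`        : `(C.T γ f).order = r * ord_v f`;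
* `order_Tc`          : `(Tc γ f).order = ord_v f`, and `mem_placeOf_iff`.

`cuspR` is defined as `(M / w - 1) + 1` so that `NeZero (cuspR C γ)` is found by unification
(`NeZero.succ`); `cuspR_eq : cuspR C γ = M / w`.
-/
import Fermat.Agent.RED.CUSP.CuspExact16
import Fermat.Agent.ES.R48.X1CuspGood23

set_option autoImplicit false
set_option linter.unusedSectionVars false

noncomputable section

namespace Fermat.Agent.ES.R48.CuspExactOne26

open Fermat.Agent.X0 AlgebraicCurve ModularCurve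
open MulAction Subgroup CongruenceSubgroup
open Fermat.Agent.ES.R48.X1Iface13 Fermat.Agent.ES.R48.X1CuspPlaces23
open scoped MatrixGroups

variable {M : ℕ} [NeZero M] {D : RealizeData1 M} (C : CuspData1 M D)

/-- `C` is `Good` (helper23's `X1CuspGood23.good`). -/
theorem hGood : Good C := X1CuspGood23.good C

/-- The coset `γ⁻¹ · ±Γ₁(M)`. -/
def cuspCoset (γ : SL(2, ℤ)) : SL(2, ℤ) ⧸ PG1 M := QuotientGroup.mk γ⁻¹

/-- The width of the cusp `γ⁻¹ ∞`: the size of the `⟨T⟩`-orbit of `γ⁻¹ · ±Γ₁(M)`. -/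
def cuspW (γ : SL(2, ℤ)) : ℕ :=
  Nat.card (orbit (zpowers ModularGroup.T) (cuspCoset (M := M) γ))

omit C in
theorem cuspW_dvd (γ : SL(2, ℤ)) : cuspW (M := M) γ ∣ M := card_orbit_T_dvd M _

omit C in
theorem cuspW_pos (γ : SL(2, ℤ)) : 0 < cuspW (M := M) γ :=
  Nat.pos_of_ne_zero fun h => NeZero.ne M (by
    have := cuspW_dvd (M := M) γ
    rw [h] at this
    exact zero_dvd_iff.mp this)

/-- `r = M / w`, written as a successor so that `NeZero` is automatic. -/
abbrev cuspR (γ : SL(2, ℤ)) : ℕ := (M / cuspW (M := M) γ - 1) + 1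

omit C in
theorem cuspR_eq (γ : SL(2, ℤ)) : cuspR (M := M) γ = M / cuspW (M := M) γ := by
  have h : 0 < M / cuspW (M := M) γ :=
    Nat.div_pos (Nat.le_of_dvd (Nat.pos_of_ne_zero (NeZero.ne M)) (cuspW_dvd γ)) (cuspW_pos γ)
  show (M / cuspW (M := M) γ - 1) + 1 = M / cuspW (M := M) γ
  omega

omit C in
theorem cuspR_mul_cuspW (γ : SL(2, ℤ)) : cuspR (M := M) γ * cuspW (M := M) γ = M := by
  rw [cuspR_eq]
  exact Nat.div_mul_cancel (cuspW_dvd γ)

omit C in
theorem cuspR_pos (γ : SL(2, ℤ)) : 0 < cuspR (M := M) γ := Nat.succ_pos _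

omit C in
/-- `γ T^w γ⁻¹ ∈ ±Γ₁(M)`. -/
theorem conj_T_pow_cuspW_mem (γ : SL(2, ℤ)) :
    γ * ModularGroup.T ^ cuspW (M := M) γ * γ⁻¹ ∈ PG1 M := by
  set x : SL(2, ℤ) ⧸ PG1 M := cuspCoset γ with hx
  have hper : ModularGroup.T ^ cuspW (M := M) γ • x = x := by
    rw [pow_smul_eq_iff_minimalPeriod_dvd, ← OrbitCount.card_orbit_zpowers]
    exact dvd_of_eq rfl
  rw [hx, cuspCoset, MulAction.Quotient.smul_mk, smul_eq_mul] at hper
  have := QuotientGroup.eq.mp hper.symm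
  rw [inv_inv, ← mul_assoc] at this
  exact this

/-- Every `C.T γ f` is a series in `q_M ^ r`. -/
theorem coeff_T_eq_zero (γ : SL(2, ℤ)) (f : FF1 M) (n : ℤ)
    (hn : ¬ (cuspR (M := M) γ : ℤ) ∣ n) : (C.T γ f).coeff n = 0 := by
  by_contra hne
  rw [cuspR_eq] at hn
  exact hn (X1CuspEquiv23.width C γ (cuspW γ) (cuspW_pos γ) (cuspW_dvd γ)
    (conj_T_pow_cuspW_mem γ) f n hne)

/-! ### The compressed expansion -/

theorem T_mem_range (γ : SL(2, ℤ)) (f : FF1 M) :
    C.T γ f ∈ (qExpand Kbar (cuspR (M := M) γ)).range := by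
  have := (Fermat.Agent.RED.LVL.RootRange2.mem_range_qExpand_iff (cuspR (M := M) γ)
    (C.T γ f)).mpr (coeff_T_eq_zero C γ f)
  exact this

/-- The ring isomorphism `ℚbar((s)) ≃ range (s ↦ q_M^r)`. -/
def qEquiv (γ : SL(2, ℤ)) :
    LaurentSeries Kbar ≃+* (qExpand Kbar (cuspR (M := M) γ)).range :=
  RingEquiv.ofBijective (qExpand Kbar (cuspR (M := M) γ)).rangeRestrict
    ⟨fun _ _ h => qExpand_injective _ (congrArg Subtype.val h),
      (qExpand Kbar (cuspR (M := M) γ)).rangeRestrict_surjective⟩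

/-- **The compressed cusp expansion** `Tc γ : F₁ → ℚbar((s))`, `s = q_M^r = q^{1/w}`. -/
def Tc (γ : SL(2, ℤ)) : FF1 M →+* LaurentSeries Kbar :=
  ((qEquiv (M := M) γ).symm : _ →+* LaurentSeries Kbar).comp
    ((C.T γ).codRestrict (qExpand Kbar (cuspR (M := M) γ)).range (T_mem_range C γ))

theorem qExpand_Tc (γ : SL(2, ℤ)) (f : FF1 M) :
    qExpand Kbar (cuspR (M := M) γ) (Tc C γ f) = C.T γ f := by
  have h : (qEquiv (M := M) γ) (Tc C γ f) =
      ((C.T γ).codRestrict (qExpand Kbar (cuspR (M := M) γ)).range (T_mem_range C γ)) f := by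
    rw [Tc, RingHom.comp_apply]
    exact (qEquiv (M := M) γ).apply_symm_apply _
  exact congrArg Subtype.val h

theorem Tc_coeff (γ : SL(2, ℤ)) (f : FF1 M) (n : ℤ) :
    (Tc C γ f).coeff n = (C.T γ f).coeff ((cuspR (M := M) γ : ℤ) * n) := by
  rw [← qExpand_Tc, qExpand_coeff_mul]

theorem Tc_const (γ : SL(2, ℤ)) (c : Kbar) :
    Tc C γ (algebraMap Kbar (FF1 M) c) = HahnSeries.C c := by
  apply qExpand_injective (R := Kbar) (N := cuspR (M := M) γ)
  rw [qExpand_Tc, (hGood C).map_const, qExpand_C]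

theorem Tc_ne_zero (γ : SL(2, ℤ)) {f : FF1 M} (hf : f ≠ 0) : Tc C γ f ≠ 0 :=
  (map_ne_zero_iff _ (Tc C γ).injective).mpr hf

/-! ### Exactness -/

/-- **Exactness**: `- ord_v j` is the width, for every coset.  (Second conclusion of the
`±Γ₁(M)`-twin of `PlaceCountX0.pcx_count_cusps`.) -/
def Exact : Prop :=
  ∀ a : SL(2, ℤ) ⧸ PG1 M, -(X1CuspPlaces23.cuspPlaceX (hGood C) a).ord (jF1 M) =
    (Nat.card (orbit (zpowers ModularGroup.T) a) : ℤ)

/-- The place attached to `γ` (order function `f ↦ ord (C.T γ f)` up to the factor `r`). -/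
def placeOf (γ : SL(2, ℤ)) : Place Kbar (FF1 M) := X1CuspPlaces23.cuspPlace (hGood C) γ⁻¹

variable {C} (hex : Exact C)

include hex in
theorem neg_ord_jF_eq (γ : SL(2, ℤ)) :
    -(placeOf C γ).ord (jF1 M) = (cuspW (M := M) γ : ℤ) := by
  have := hex (cuspCoset γ)
  rwa [cuspCoset, X1CuspPlaces23.cuspPlaceX_mk] at this

include hex in
/-- `ord (C.T γ f) = r * ord_v f`. -/
theorem order_T_eq (γ : SL(2, ℤ)) (f : FF1 M) (hf : f ≠ 0) :
    (C.T γ f).order = (cuspR (M := M) γ : ℤ) * (placeOf C γ).ord f := by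
  obtain ⟨m, hm, hspec, hj⟩ := X1CuspPlaces23.cuspPlace_spec (hGood C) γ⁻¹
  rw [inv_inv] at hspec
  have h1 : (m : ℤ) * (cuspW (M := M) γ : ℤ) = M := by
    have := neg_ord_jF_eq hex γ
    rw [placeOf] at this
    rw [← this]
    linarith
  have h2 : (m : ℤ) = cuspR (M := M) γ := by
    have h3 : ((cuspR (M := M) γ : ℕ) : ℤ) * (cuspW (M := M) γ : ℤ) = M := by
      exact_mod_cast cuspR_mul_cuspW (M := M) γ
    have hw : (cuspW (M := M) γ : ℤ) ≠ 0 := by exact_mod_cast (cuspW_pos (M := M) γ).ne'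
    exact mul_right_cancel₀ hw (h1.trans h3.symm)
  rw [hspec f hf, h2, placeOf]

include hex in
/-- **Exact order**: `ord (Tc γ f) = ord_v f`. -/
theorem order_Tc (γ : SL(2, ℤ)) (f : FF1 M) (hf : f ≠ 0) :
    (Tc C γ f).order = (placeOf C γ).ord f := by
  have h1 := order_T_eq hex γ f hf
  rw [← qExpand_Tc, Fermat.Agent.RED.CUSP.CuspExact16.order_qExpand] at h1
  have hr : ((cuspR (M := M) γ : ℕ) : ℤ) ≠ 0 := by exact_mod_cast (cuspR_pos (M := M) γ).ne'
  exact mul_left_cancel₀ hr h1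

include hex in
theorem mem_placeOf_iff (γ : SL(2, ℤ)) {f : FF1 M} (hf : f ≠ 0) :
    f ∈ (placeOf C γ).toValuationSubring ↔ 0 ≤ (Tc C γ f).order := by
  rw [order_Tc hex γ f hf, FF.ffp_mem_iff_ord_nonneg]

end Fermat.Agent.ES.R48.CuspExactOne26
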