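/-
Programme R (S48, Deligne–Serre), chapter GEOM, sub-chapter G2 DICT₁ (helper1): **SURJ at the
cusps for `X₁(M)`** — the twin of `Fermat/Agent/X0/CuspSurj.lean` (helper17, Program C).
Every place of `F₁ = FF1 M` over `j = ∞` is one of the cusp places `cuspPlace hC g` of
`X1CuspPlaces23`.

Input: the abstract surjectivity lemma `ValUniq.exists_eq_comap_of_notMem` (main, AS-IS) applied to
the embeddings `C.T (rep x)⁻¹ : F₁ →+* ℚbar((q_M))`, `x ∈ SL(2,ℤ) ⧸ ±Γ₁(M)`.  As in the original the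
degree `[F₁ : ℚbar(j)] = #(SL(2,ℤ) ⧸ ±Γ₁(M))` is an explicit hypothesis `hcard` (twin of
`Degree`), and here so is DISTINCT `hdist` (literal shape of `X1Distinct14.mem_PG1_of_T_eq`).
The valuation subring `laurentV` of `ℚbar((q))` and its lemmas are imported AS-IS from `X0/CuspSurj`.
-/
import Fermat.Agent.X0.CuspSurj
import Fermat.Agent.ES.R48.X1CuspPlaces23

set_option autoImplicit false
set_option linter.unusedSectionVars false

open AlgebraicCurve UpperHalfPlane IntermediateField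
open scoped MatrixGroups

noncomputable section

namespace Fermat.Agent.ES.R48.X1CuspSurj1

open Fermat.Agent.X0 Fermat.Agent.ES.R48.X1Iface13 Fermat.Agent.ES.R48.X1CuspPlaces23
open Fermat.Agent.X0.CuspSurj (laurentV mem_laurentV mem_laurentV_of_ne_zero C_mem_laurentV)

variable {M : ℕ} [NeZero M] {D : RealizeData1 M} {C : CuspData1 M D}
  (hC : X1CuspPlaces23.Good C)

/-- DISTINCT for the cusp expansion maps: `C.T γ = C.T γ'` forces `γ' γ⁻¹ ∈ ±Γ₁(M)`
(the statement of `X1Distinct14.mem_PG1_of_T_eq`). -/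
def DistT (C : CuspData1 M D) : Prop :=
  ∀ γ γ' : SL(2, ℤ), C.T γ = C.T γ' → γ' * γ⁻¹ ∈ PG1 M

/-- The embedding attached to a coset `x`, via a representative. -/
def sigma1 (C : CuspData1 M D) (x : SL(2, ℤ) ⧸ PG1 M) : FF1 M →+* LaurentSeries Kbar :=
  C.T (Quotient.out x)⁻¹

theorem sigma1_injective (C : CuspData1 M D) (hdist : DistT C) :
    Function.Injective (sigma1 C) := by
  intro x y hxy
  have h := hdist _ _ hxy
  rw [inv_inv] at h
  have h2 : (QuotientGroup.mk (Quotient.out y) : SL(2, ℤ) ⧸ PG1 M)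
      = QuotientGroup.mk (Quotient.out x) := QuotientGroup.eq.mpr h
  have hx : (QuotientGroup.mk (Quotient.out x) : SL(2, ℤ) ⧸ PG1 M) = x := Quotient.out_eq' x
  have hy : (QuotientGroup.mk (Quotient.out y) : SL(2, ℤ) ⧸ PG1 M) = y := Quotient.out_eq' y
  rw [hx, hy] at h2
  exact h2.symm

include hC in
/-- **Surjectivity at the cusps.** Every place `v` of `F₁` with `ord_v j < 0` is a cusp place. -/
theorem exists_cuspPlace_eq (hdist : DistT C) [FiniteDimensional Kbar⟮jF1 M⟯ (FF1 M)]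
    (hcard : Nat.card (SL(2, ℤ) ⧸ PG1 M) = Module.finrank Kbar⟮jF1 M⟯ (FF1 M))
    (v : Place Kbar (FF1 M)) (hv : v.ord (jF1 M) < 0) :
    ∃ g : SL(2, ℤ), X1CuspPlaces23.cuspPlace hC g = v := by
  have hN : (0 : ℤ) < M := by exact_mod_cast Nat.pos_of_ne_zero (NeZero.ne M)
  have : Finite (SL(2, ℤ) ⧸ PG1 M) := by
    apply Nat.finite_of_card_ne_zero
    rw [hcard]
    exact (Module.finrank_pos).ne'
  have hO : jF1 M ∉ v.toValuationSubring := by
    rw [FF.ffp_mem_iff_ord_nonneg]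
    omega
  have hV : ∀ x : SL(2, ℤ) ⧸ PG1 M, sigma1 C x (jF1 M) ∉ laurentV := by
    intro x
    have hne : sigma1 C x (jF1 M) ≠ 0 := LaurentPlace.emb_ne_zero _ hC.jF_ne_zero
    rw [mem_laurentV_of_ne_zero hne, sigma1, hC.order_jF]
    omega
  obtain ⟨x, hx⟩ := ValUniq.exists_eq_comap_of_notMem (K := Kbar) (F := FF1 M)
    (E := LaurentSeries Kbar) (jF1 M) (sigma1 C) hcard (sigma1_injective C hdist)
    (fun i j a => by rw [sigma1, sigma1, hC.map_const, hC.map_const])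
    (fun i j => by rw [sigma1, sigma1, hC.map_jF, hC.map_jF])
    laurentV (fun i a => by rw [sigma1, hC.map_const]; exact C_mem_laurentV a)
    v.toValuationSubring v.algebraMap_mem' hV hO
  refine ⟨Quotient.out x, ?_⟩
  apply Place.ext
  ext f
  by_cases hf : f = 0
  · subst hf
    simp only [zero_mem]
  · rw [X1CuspPlaces23.mem_cuspPlace_iff hC _ hf, hx, ValuationSubring.mem_comap,
      mem_laurentV_of_ne_zero (LaurentPlace.emb_ne_zero _ hf)]
    rfl

include hC in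
/-- Coset form: `X1CuspPlaces23.cuspPlaceX hC` is onto the places over `∞`. -/
theorem exists_cuspPlaceX_eq (hdist : DistT C) [FiniteDimensional Kbar⟮jF1 M⟯ (FF1 M)]
    (hcard : Nat.card (SL(2, ℤ) ⧸ PG1 M) = Module.finrank Kbar⟮jF1 M⟯ (FF1 M))
    (v : Place Kbar (FF1 M)) (hv : v.ord (jF1 M) < 0) :
    ∃ x : SL(2, ℤ) ⧸ PG1 M, X1CuspPlaces23.cuspPlaceX hC x = v := by
  obtain ⟨g, hg⟩ := exists_cuspPlace_eq hC hdist hcard v hv
  exact ⟨QuotientGroup.mk g, by rw [X1CuspPlaces23.cuspPlaceX_mk, hg]⟩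

/-- The map `x ↦ X1CuspPlaces23.cuspPlaceX hC x` into the subtype of places over `∞`. -/
def cuspPlaceSub (x : SL(2, ℤ) ⧸ PG1 M) : {v : Place Kbar (FF1 M) // v.ord (jF1 M) < 0} :=
  ⟨X1CuspPlaces23.cuspPlaceX hC x, X1CuspPlaces23.cuspPlaceX_ord_jF_neg hC x⟩

theorem cuspPlaceSub_surjective (hdist : DistT C) [FiniteDimensional Kbar⟮jF1 M⟯ (FF1 M)]
    (hcard : Nat.card (SL(2, ℤ) ⧸ PG1 M) = Module.finrank Kbar⟮jF1 M⟯ (FF1 M)) :
    Function.Surjective (cuspPlaceSub hC) := by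
  rintro ⟨v, hv⟩
  obtain ⟨x, hx⟩ := exists_cuspPlaceX_eq hC hdist hcard v hv
  exact ⟨x, Subtype.ext hx⟩

end Fermat.Agent.ES.R48.X1CuspSurj1
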