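/-
Programme R (S48), chapter GEOM, sub-chapter G0 (helper13): **leading terms of `S_c` and `W_c`**.

For `c : ZMod M`, `lead M c := min c.val (-c).val` (`= min(c, M - c)` for `c ≠ 0`).  Then
* `eisCoeff_eq_zero_of_lt` : `n < lead M c → eisCoeff M c n = 0`;
* `eisCoeff_lead` : `c + c ≠ 0 → eisCoeff M c (lead M c) = 1`;
* the same for the numerator `wNum M c = S_c E₄² η⁻²⁴` of `W_c` (`coeff_wNum_…`) and for `wq`;
* `lead_eq_iff` : `lead M c = lead M c' ↔ c' = c ∨ c' = -c` (for `c, c' ≠ 0`);
* **`wq_injective`** : `wq M c = wq M c' → c' = c ∨ c' = -c` (for `c + c ≠ 0`, `c' + c' ≠ 0`):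
  the conjugates `W_d`, `d ∈ (ZMod M)ˣ/±1`, of `W_1` over `F_full(M)` are pairwise distinct, and
  the difference of two of them has leading coefficient `±1` (`coeff_wNum_sub_…`): the polynomial
  `∏_d (X - W_d)` stays separable modulo every prime.
-/
import Mathlib
import Fermat.Agent.ES.R48.FF1Defs13

set_option autoImplicit false
set_option linter.unusedSectionVars false

noncomputable section

open ModularCurve

namespace Fermat.Agent.ES.R48.EisLead13

open Fermat.Agent.ES.R48.FF1Defs13

variable (M : ℕ) [NeZero M]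

/-- the leading exponent of `S_c`: `min(c, M - c)`. -/
def lead (c : ZMod M) : ℕ := min c.val (-c).val

theorem lead_neg (c : ZMod M) : lead M (-c) = lead M c := by
  rw [lead, lead, neg_neg, min_comm]

variable {M}

theorem val_le_of_natCast_eq {c : ZMod M} {m : ℕ} (h : ((m : ℕ) : ZMod M) = c) : c.val ≤ m := by
  rw [← h, ZMod.val_natCast]
  exact Nat.mod_le m M

theorem lead_pos {c : ZMod M} (hc : c ≠ 0) : 0 < lead M c := by
  rw [lead, lt_min_iff]
  exact ⟨(ZMod.val_pos).mpr hc, (ZMod.val_pos).mpr (neg_ne_zero.mpr hc)⟩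

/-- a divisor below the leading exponent contributes nothing. -/
theorem summand_eq_zero {c : ZMod M} {m : ℕ} (hm : m < lead M c) (x : ℤ) :
    ((if ((m : ℕ) : ZMod M) = c then x else 0) + (if ((m : ℕ) : ZMod M) = -c then x else 0)) = 0 := by
  rw [lead, lt_min_iff] at hm
  rw [if_neg, if_neg, add_zero]
  · intro h
    exact absurd (val_le_of_natCast_eq h) (not_le.mpr hm.2)
  · intro h
    exact absurd (val_le_of_natCast_eq h) (not_le.mpr hm.1)

theorem eisCoeff_eq_zero_of_lt {c : ZMod M} {n : ℕ} (hn : n < lead M c) : eisCoeff M c n = 0 := by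
  unfold eisCoeff
  refine Finset.sum_eq_zero fun m hm => ?_
  exact summand_eq_zero (lt_of_le_of_lt (Nat.divisor_le hm) hn) _

theorem natCast_lead {c : ZMod M} :
    (((lead M c : ℕ) : ZMod M) = c ∨ ((lead M c : ℕ) : ZMod M) = -c) := by
  rw [lead]
  rcases min_choice c.val (-c).val with h | h
  · left; rw [h, ZMod.natCast_zmod_val]
  · right; rw [h, ZMod.natCast_zmod_val]

theorem eisCoeff_lead {c : ZMod M} (hc : c + c ≠ 0) : eisCoeff M c (lead M c) = 1 := by
  have hc0 : c ≠ 0 := by
    rintro rfl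
    exact hc (add_zero 0)
  have hpos := lead_pos hc0
  have hne : c ≠ -c := fun h => hc (by rw [eq_neg_iff_add_eq_zero] at h; exact h)
  unfold eisCoeff
  rw [Finset.sum_eq_single (lead M c)]
  · rw [Nat.div_self hpos]
    rcases natCast_lead (c := c) with h | h
    · rw [if_pos h, if_neg (by rw [h]; exact hne)]; simp
    · rw [if_neg (by rw [h]; exact fun h' => hne h'.symm), if_pos h]; simp
  · intro m hm hmne
    exact summand_eq_zero (lt_of_le_of_ne (Nat.divisor_le hm) hmne) _
  · intro h
    exact absurd (Nat.mem_divisors_self _ hpos.ne') h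

/-- `lead` determines `c` up to sign. -/
theorem eq_or_eq_neg_of_lead_eq {c c' : ZMod M} (h : lead M c = lead M c') : c' = c ∨ c' = -c := by
  have h1 := natCast_lead (c := c)
  have h2 := natCast_lead (c := c')
  rw [← h] at h2
  rcases h1 with h1 | h1 <;> rcases h2 with h2 | h2
  · left; rw [← h2, h1]
  · right; rw [← h1, h2, neg_neg]
  · right; rw [← h2, h1]
  · left; rw [← neg_inj, ← h2, h1]

/-! ### The numerator of `W_c` -/

/-- the unit `E₄² η⁻²⁴ ∈ ℤ[[q]]`. -/
def uSer : PowerSeries ℤ := eisenstein4 ^ 2 * dedekindEtaUnitInv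

theorem constantCoeff_uSer : PowerSeries.constantCoeff uSer = 1 := by
  rw [uSer, map_mul, map_pow, constantCoeff_eisenstein4, constantCoeff_dedekindEtaUnitInv,
    one_pow, one_mul]

theorem wNum_eq (c : ZMod M) : wNum M c = eisS M c * uSer := by
  rw [wNum, uSer, mul_assoc]

/-- a power series vanishing below `k` times any series vanishes below `k`; the `k`-th coefficient
is the product of the `k`-th coefficient with the constant coefficient. -/
theorem coeff_mul_of_lt {R : Type*} [CommRing R] {f g : PowerSeries R} {k : ℕ}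
    (hf : ∀ n < k, PowerSeries.coeff n f = 0) {n : ℕ} (hn : n < k) :
    PowerSeries.coeff n (f * g) = 0 := by
  rw [PowerSeries.coeff_mul]
  refine Finset.sum_eq_zero fun p hp => ?_
  have : p.1 ≤ n := by
    have := Finset.HasAntidiagonal.mem_antidiagonal.mp hp
    omega
  rw [hf p.1 (lt_of_le_of_lt this hn), zero_mul]

theorem coeff_mul_at {R : Type*} [CommRing R] {f g : PowerSeries R} {k : ℕ}
    (hf : ∀ n < k, PowerSeries.coeff n f = 0) :
    PowerSeries.coeff k (f * g) = PowerSeries.coeff k f * PowerSeries.constantCoeff g := by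
  rw [PowerSeries.coeff_mul, Finset.sum_eq_single (k, 0)]
  · rw [PowerSeries.coeff_zero_eq_constantCoeff_apply]
  · rintro ⟨i, j⟩ hp hne
    have hij : i + j = k := Finset.HasAntidiagonal.mem_antidiagonal.mp hp
    have hi : i < k := by
      rcases Nat.eq_zero_or_pos j with rfl | hj
      · exact absurd (by rw [← hij, add_zero]) hne
      · omega
    rw [hf i hi, zero_mul]
  · intro h
    exact absurd (Finset.HasAntidiagonal.mem_antidiagonal.mpr (add_zero k)) h

theorem coeff_wNum_of_lt {c : ZMod M} {n : ℕ} (hn : n < lead M c) :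
    PowerSeries.coeff n (wNum M c) = 0 := by
  rw [wNum_eq]
  exact coeff_mul_of_lt (fun m hm => by rw [coeff_eisS, eisCoeff_eq_zero_of_lt hm]) hn

theorem coeff_wNum_lead {c : ZMod M} (hc : c + c ≠ 0) :
    PowerSeries.coeff (lead M c) (wNum M c) = 1 := by
  rw [wNum_eq, coeff_mul_at (fun m hm => by rw [coeff_eisS, eisCoeff_eq_zero_of_lt hm]),
    coeff_eisS, eisCoeff_lead hc, constantCoeff_uSer, one_mul]

/-- **the leading coefficient of `W_c - W_{c'}`** for `c' ≠ ±c`: it is `±1`, at the exponent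
`min (lead c) (lead c')` of the numerators. -/
theorem coeff_wNum_sub_lead {c c' : ZMod M} (hc : c + c ≠ 0)
    (hlt : lead M c < lead M c') :
    PowerSeries.coeff (lead M c) (wNum M c - wNum M c') = 1 ∧
      ∀ n < lead M c, PowerSeries.coeff n (wNum M c - wNum M c') = 0 := by
  refine ⟨?_, fun n hn => ?_⟩
  · rw [map_sub, coeff_wNum_lead hc, coeff_wNum_of_lt hlt, sub_zero]
  · rw [map_sub, coeff_wNum_of_lt hn, coeff_wNum_of_lt (hn.trans hlt), sub_zero]

/-- the numerators determine `c` up to sign. -/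
theorem eq_or_eq_neg_of_wNum_eq {c c' : ZMod M} (hc : c + c ≠ 0) (hc' : c' + c' ≠ 0)
    (h : wNum M c = wNum M c') : c' = c ∨ c' = -c := by
  apply eq_or_eq_neg_of_lead_eq
  rcases lt_trichotomy (lead M c) (lead M c') with hlt | heq | hgt
  · exfalso
    have h1 := coeff_wNum_lead hc
    rw [h, coeff_wNum_of_lt hlt] at h1
    exact zero_ne_one h1
  · exact heq
  · exfalso
    have h1 := coeff_wNum_lead hc'
    rw [← h, coeff_wNum_of_lt hgt] at h1
    exact zero_ne_one h1

/-- **`W_c = W_{c'}` only if `c' = ±c`.** -/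
theorem eq_or_eq_neg_of_wq_eq {c c' : ZMod M} (hc : c + c ≠ 0) (hc' : c' + c' ≠ 0)
    (h : wq M c = wq M c') : c' = c ∨ c' = -c := by
  apply eq_or_eq_neg_of_wNum_eq hc hc'
  ext n
  rcases Nat.eq_zero_or_pos n with rfl | hn
  · rw [PowerSeries.coeff_zero_eq_constantCoeff_apply, PowerSeries.coeff_zero_eq_constantCoeff_apply,
      constantCoeff_wNum, constantCoeff_wNum]
  · obtain ⟨k, rfl⟩ : ∃ k, n = k + 1 := ⟨n - 1, by omega⟩
    have h3 := congrArg (fun x : LaurentSeries ℚ => x.coeff (k : ℤ)) h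
    simp only [coeff_wq_natCast] at h3
    exact_mod_cast h3

/-- for units of `ZMod M`, `M ≥ 3`: `c + c ≠ 0`. -/
theorem add_self_ne_zero_of_isUnit (hM : 3 ≤ M) {c : ZMod M} (hc : IsUnit c) : c + c ≠ 0 := by
  intro h
  have h2 : (2 : ZMod M) * c = 0 := by rw [two_mul, h]
  have h3 : (2 : ZMod M) = 0 := by
    obtain ⟨u, rfl⟩ := hc
    have := congrArg (fun x => x * ((u⁻¹ : (ZMod M)ˣ) : ZMod M)) h2
    simpa [mul_assoc] using this
  have h4 : ((2 : ℕ) : ZMod M) = 0 := by exact_mod_cast h3
  rw [ZMod.natCast_eq_zero_iff] at h4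
  exact absurd (Nat.le_of_dvd (by norm_num) h4) (by omega)

end Fermat.Agent.ES.R48.EisLead13
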