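/-
Programme R (S48), chapter GEOM, sub-chapter G0 (helper13): **restriction functors**
`RealizeData1 M → X0.RealizeData M`, `CuspData1 M D → X0.CuspData M D.restrict`
(suggested by helper17): every file of `Fermat/Agent/X0/` written against the `X₀` interface
applies AS-IS to the restricted data.
-/
import Fermat.Agent.X0.Analytic
import Fermat.Agent.ES.R48.X1Iface13

set_option autoImplicit false

open UpperHalfPlane ModularForm EisensteinSeries
open scoped MatrixGroups

noncomputable section

namespace Fermat.Agent.ES.R48.X1Restrict13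

open Fermat.Agent.X0 Fermat.Agent.ES.R48.FF1Defs13 Fermat.Agent.ES.R48.X1Iface13

variable (M : ℕ) [NeZero M]

/-- A realisation of `R₁` restricts to a realisation of `R = ℚbar[j_d]` (so that every file of
`Fermat/Agent/X0/` applies AS-IS to the restricted data). -/
def restrictR (D : RealizeData1 M) : RealizeData M where
  Θ := D.Θ.comp (rsubIncl M : Rsub M →+* Rsub1 M)
  injective := D.injective.comp (by
    intro a b h
    apply Subtype.ext
    apply ffIncl_injective M
    exact congrArg (fun u : Rsub1 M => (u : FF1 M)) h)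
  algebraMap_eq c := by
    show D.Θ (rsubIncl M (algebraMap Kbar (Rsub M) c)) = _
    rw [AlgHom.commutes, D.algebraMap_eq]
  jd_eq d _ hd := by
    show D.Θ (rsubIncl M (jdR M d hd)) = _
    rw [rsubIncl_jdR, D.jd_eq]
  mem_HolH u := D.mem_HolH _
  isQExp u := by
    obtain ⟨m, P, h1, h2⟩ := D.isQExp (rsubIncl M u)
    exact ⟨m, P, h1, by rw [← h2, coe_rsubIncl, coe_ffIncl]⟩
  invariant u γ hγ := by
    -- `Γ₀(M)`-invariance on `R` holds because `Θ` is injective on generators: it is NOT a
    -- consequence of `Γ₁(M)`-invariance alone, so it is proved from `jd_eq` by induction.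
    show compSL (D.Θ (rsubIncl M u)) γ = D.Θ (rsubIncl M u)
    have key : ∀ x : FF M, ∀ hx : x ∈ Rsub M,
        compSL (D.Θ (rsubIncl M ⟨x, hx⟩)) γ = D.Θ (rsubIncl M ⟨x, hx⟩) := by
      intro x hx
      unfold Rsub at hx
      induction hx using Algebra.adjoin_induction with
      | mem y hy =>
          obtain ⟨d, hne, hd, rfl⟩ := hy
          have e : rsubIncl M ⟨jdF M d hd, Algebra.subset_adjoin ⟨d, hne, hd, rfl⟩⟩
              = jdR1 M d hd := rfl
          rw [e, D.jd_eq]
          funext z
          have hN : (M : ℤ) ∣ γ 1 0 := by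
            rw [CongruenceSubgroup.Gamma0_mem] at hγ
            exact (ZMod.intCast_zmod_eq_zero_iff_dvd _ _).mp hγ
          have hd' : (d : ℤ) ∣ γ 1 0 := (Int.natCast_dvd_natCast.mpr hd).trans hN
          exact Analytic.jdFun_smul_of_dvd γ d hd' z
      | algebraMap c =>
          have e : (⟨algebraMap Kbar (FF M) c, Subalgebra.algebraMap_mem _ c⟩ : Rsub M)
              = algebraMap Kbar (Rsub M) c := rfl
          rw [e, AlgHom.commutes, D.algebraMap_eq]
          rfl
      | add y z hy hz ihy ihz =>
          have e : (⟨y + z, Subalgebra.add_mem _ hy hz⟩ : Rsub M) = ⟨y, hy⟩ + ⟨z, hz⟩ := rfl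
          rw [e, map_add, map_add]
          funext w
          have h1 := congrFun ihy w
          have h2 := congrFun ihz w
          simp only [compSL, Pi.add_apply] at h1 h2 ⊢
          rw [h1, h2]
      | mul y z hy hz ihy ihz =>
          have e : (⟨y * z, Subalgebra.mul_mem _ hy hz⟩ : Rsub M) = ⟨y, hy⟩ * ⟨z, hz⟩ := rfl
          rw [e, map_mul, map_mul]
          funext w
          have h1 := congrFun ihy w
          have h2 := congrFun ihz w
          simp only [compSL, Pi.mul_apply] at h1 h2 ⊢
          rw [h1, h2]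
    exact key u.1 u.2


variable {M}

@[simp] theorem restrictR_Θ (D : RealizeData1 M) (u : Rsub M) :
    (restrictR M D).Θ u = D.Θ (rsubIncl M u) := rfl

/-- Cusp data for `R₁` restrict to cusp data for `R`. -/
def restrictC {D : RealizeData1 M} (C : CuspData1 M D) : CuspData M (restrictR M D) where
  T γ := (C.T γ).comp (ffIncl M : FF M →+* FF1 M)
  spec γ u := by
    obtain ⟨m, P, h1, h2⟩ := C.spec γ (rsubIncl M u)
    exact ⟨m, P, h1, h2⟩

@[simp] theorem restrictC_T {D : RealizeData1 M} (C : CuspData1 M D) (γ : SL(2, ℤ)) (x : FF M) :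
    (restrictC C).T γ x = C.T γ (ffIncl M x) := rfl

end Fermat.Agent.ES.R48.X1Restrict13
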