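/-
Programme R (S48), chapter GEOM, sub-chapter G2 DICT₁ (helper14): **DISTINCT for `X₁(M)`** —
the cusp expansion maps `C.T γ`, `γ ∈ SL(2,ℤ)`, of an interface pair
`(D : RealizeData1 M) (C : CuspData1 M D)` separate the cosets of `±Γ₁(M)`:

  `mem_PG1_of_T_eq : 3 ≤ M → WSlash M → C.T γ = C.T γ' → γ' * γ⁻¹ ∈ PG1 M`

(HYP3 of `X0.AbsDegree.main` for the index set `SL(2,ℤ) ⧸ PG1 M`).

No Hermite normal forms are redone:
* restricting the pair along `X1Restrict13` and applying main's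
  `X0.CuspDistinct.mem_Gamma0_of_T_eq` AS-IS gives `δ := γ' γ⁻¹ ∈ Γ₀(M)`;
* equality of the expansions of `W_c` gives `W_c ∘ δ = W_c`, the slash rule `WSlash M` turns the
  left side into `W_{c·δ₀₀}`, and `EisLead13.eq_or_eq_neg_of_wq_eq` (leading exponents of the formal
  `W_c`) forces `δ₀₀ ≡ ±1 (mod M)`.
-/
import Fermat.Agent.X0.CuspDistinct
import Fermat.Agent.X0.Degree
import Fermat.Agent.ES.R48.X1Restrict13
import Fermat.Agent.ES.R48.X1Integrality1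
import Fermat.Agent.ES.R48.EisLead13

set_option autoImplicit false
set_option linter.unusedSectionVars false

open ModularCurve UpperHalfPlane
open scoped MatrixGroups

noncomputable section

namespace Fermat.Agent.ES.R48.X1Distinct14

open Fermat.Agent.X0 Fermat.Agent.ES.R48.FF1Defs13 Fermat.Agent.ES.R48.X1Iface13
open Fermat.Agent.ES.R48.X1Restrict13

variable (M : ℕ) [NeZero M] (D : RealizeData1 M) (C : CuspData1 M D)

/-! ### Step 1: `Γ₀(M)` -/

/-- If the cusp expansion maps at `γ` and `γ'` agree then `γ' γ⁻¹ ∈ Γ₀(M)` (main's DISTINCT for the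
restricted pair). -/
theorem mem_Gamma0_of_T_eq (γ γ' : SL(2, ℤ)) (h : C.T γ = C.T γ') :
    γ' * γ⁻¹ ∈ CongruenceSubgroup.Gamma0 M := by
  refine CuspDistinct.mem_Gamma0_of_T_eq (restrictR M D) (restrictC C) γ γ' ?_
  refine RingHom.ext fun x => ?_
  rw [restrictC_T, restrictC_T, h]

/-! ### From expansions to functions -/

/-- Equal expansions at `γ` and `γ'` of `u ∈ R₁` give equal functions `Θ u ∘ γ = Θ u ∘ γ'`. -/
theorem compSL_eq_of_T_eq (γ γ' : SL(2, ℤ)) (u : Rsub1 M)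
    (h : C.T γ (u : FF1 M) = C.T γ' (u : FF1 M)) :
    compSL (D.Θ u) γ = compSL (D.Θ u) γ' := by
  have h1 := X1Integrality1.T_spec M D C γ u
  have h2 := X1Integrality1.T_spec M D C γ' u
  rw [h] at h1
  exact intg_qn_unique_right M h1 h2

/-- `Θ u ∘ γ = Θ u ∘ γ'` means that `Θ u` is invariant under `γ' γ⁻¹`. -/
theorem compSL_mul_inv_of_compSL_eq (f : ℍ → ℂ) (γ γ' : SL(2, ℤ))
    (h : compSL f γ = compSL f γ') : compSL f (γ' * γ⁻¹) = f := by
  funext z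
  have := congrFun h (γ⁻¹ • z)
  show f ((γ' * γ⁻¹) • z) = f z
  rw [mul_smul]
  have h1 : f (γ • γ⁻¹ • z) = f (γ' • γ⁻¹ • z) := this
  rw [← h1, smul_inv_smul]

/-! ### Step 2: the upper left entry -/

/-- The upper left entry of an element of `Γ₀(M)`, as a unit of `ZMod M`. -/
def unitOfGamma0 (δ : SL(2, ℤ)) (hδ : δ ∈ CongruenceSubgroup.Gamma0 M) : (ZMod M)ˣ where
  val := ((δ 0 0 : ℤ) : ZMod M)
  inv := ((δ 1 1 : ℤ) : ZMod M)
  val_inv := by
    have hdet : δ 0 0 * δ 1 1 - δ 0 1 * δ 1 0 = 1 := by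
      have := δ.det_coe
      rw [Matrix.det_fin_two] at this
      exact this
    have h10 : ((δ 1 0 : ℤ) : ZMod M) = 0 := CongruenceSubgroup.Gamma0_mem.mp hδ
    have := congrArg (fun x : ℤ => (x : ZMod M)) hdet
    simp only [Int.cast_sub, Int.cast_mul, Int.cast_one, h10, mul_zero, sub_zero] at this
    exact this
  inv_val := by
    have hdet : δ 0 0 * δ 1 1 - δ 0 1 * δ 1 0 = 1 := by
      have := δ.det_coe
      rw [Matrix.det_fin_two] at this
      exact this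
    have h10 : ((δ 1 0 : ℤ) : ZMod M) = 0 := CongruenceSubgroup.Gamma0_mem.mp hδ
    have := congrArg (fun x : ℤ => (x : ZMod M)) hdet
    simp only [Int.cast_sub, Int.cast_mul, Int.cast_one, h10, mul_zero, sub_zero] at this
    rw [mul_comm]
    exact this

@[simp] theorem coe_unitOfGamma0 (δ : SL(2, ℤ)) (hδ : δ ∈ CongruenceSubgroup.Gamma0 M) :
    ((unitOfGamma0 M δ hδ : (ZMod M)ˣ) : ZMod M) = ((δ 0 0 : ℤ) : ZMod M) := rfl

theorem coe_inv_unitOfGamma0 (δ : SL(2, ℤ)) (hδ : δ ∈ CongruenceSubgroup.Gamma0 M) :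
    (((unitOfGamma0 M δ hδ)⁻¹ : (ZMod M)ˣ) : ZMod M) = ((δ 1 1 : ℤ) : ZMod M) := rfl

/-- An element of `Γ₀(M)` whose upper left entry is `≡ ±1` lies in `±Γ₁(M)`. -/
theorem mem_PG1_of_unit (δ : SL(2, ℤ)) (hδ : δ ∈ CongruenceSubgroup.Gamma0 M)
    (h : unitOfGamma0 M δ hδ = 1 ∨ unitOfGamma0 M δ hδ = -1) : δ ∈ PG1 M := by
  have h10 : ((δ 1 0 : ℤ) : ZMod M) = 0 := CongruenceSubgroup.Gamma0_mem.mp hδ
  rcases h with h | h
  · left
    rw [CongruenceSubgroup.Gamma1_mem]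
    refine ⟨?_, ?_, h10⟩
    · have := congrArg (fun u : (ZMod M)ˣ => (u : ZMod M)) h
      simpa using this
    · have := congrArg (fun u : (ZMod M)ˣ => ((u⁻¹ : (ZMod M)ˣ) : ZMod M)) h
      simp only [coe_inv_unitOfGamma0, inv_one, Units.val_one] at this
      exact this
  · right
    rw [CongruenceSubgroup.Gamma1_mem]
    have e00 : ((-δ : SL(2, ℤ)) 0 0 : ℤ) = -(δ 0 0) := by
      simp [Matrix.SpecialLinearGroup.coe_neg]
    have e11 : ((-δ : SL(2, ℤ)) 1 1 : ℤ) = -(δ 1 1) := by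
      simp [Matrix.SpecialLinearGroup.coe_neg]
    have e10 : ((-δ : SL(2, ℤ)) 1 0 : ℤ) = -(δ 1 0) := by
      simp [Matrix.SpecialLinearGroup.coe_neg]
    refine ⟨?_, ?_, ?_⟩
    · have := congrArg (fun u : (ZMod M)ˣ => (u : ZMod M)) h
      simp only [coe_unitOfGamma0, Units.val_neg, Units.val_one] at this
      rw [e00, Int.cast_neg, this, neg_neg]
    · have := congrArg (fun u : (ZMod M)ˣ => ((u⁻¹ : (ZMod M)ˣ) : ZMod M)) h
      simp only [coe_inv_unitOfGamma0, inv_neg, inv_one, Units.val_neg, Units.val_one] at this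
      rw [e11, Int.cast_neg, this, neg_neg]
    · rw [e10, Int.cast_neg, h10, neg_zero]

/-- If `W_c ∘ δ = W_c` for all units `c` (analytically) and `δ ∈ Γ₀(M)`, then `δ₀₀ ≡ ±1`. -/
theorem unit_eq_one_or_neg_one (hM : 3 ≤ M) (hW : WSlash M) (δ : SL(2, ℤ))
    (hδ : δ ∈ CongruenceSubgroup.Gamma0 M)
    (h : compSL (D.Θ (wR M 1)) δ = D.Θ (wR M 1)) :
    unitOfGamma0 M δ hδ = 1 ∨ unitOfGamma0 M δ hδ = -1 := by
  set a := unitOfGamma0 M δ hδ with ha
  -- `Θ (wR a) = Θ (wR 1)`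
  have h1 : D.Θ (wR M a) = D.Θ (wR M 1) := by
    rw [← h, D.w_eq, D.w_eq]
    funext z
    show wFun M ((a : (ZMod M)ˣ) : ZMod M) z = wFun M (((1 : (ZMod M)ˣ) : ZMod M)) (δ • z)
    rw [hW δ hδ, Units.val_one, one_mul, ha, coe_unitOfGamma0]
  have h2 : wR M a = wR M 1 := D.injective h1
  have h3 : wF M a = wF M 1 := congrArg (fun u : Rsub1 M => (u : FF1 M)) h2
  have h4 : ModularCurve.coeffEmb Kbar (wq M ((a : (ZMod M)ˣ) : ZMod M))
      = ModularCurve.coeffEmb Kbar (wq M (((1 : (ZMod M)ˣ) : ZMod M))) :=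
    congrArg (fun x : FF1 M => (x : LaurentSeries Kbar)) h3
  have h5 : wq M (((1 : (ZMod M)ˣ) : ZMod M)) = wq M ((a : (ZMod M)ˣ) : ZMod M) :=
    ((ModularCurve.coeffEmb Kbar).injective h4).symm
  have hu1 : ((1 : (ZMod M)ˣ) : ZMod M) + ((1 : (ZMod M)ˣ) : ZMod M) ≠ 0 :=
    EisLead13.add_self_ne_zero_of_isUnit hM (Units.isUnit 1)
  have hua : ((a : (ZMod M)ˣ) : ZMod M) + ((a : (ZMod M)ˣ) : ZMod M) ≠ 0 :=
    EisLead13.add_self_ne_zero_of_isUnit hM (Units.isUnit a)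
  rcases EisLead13.eq_or_eq_neg_of_wq_eq hu1 hua h5 with h6 | h6
  · left
    exact Units.ext h6
  · right
    apply Units.ext
    rw [h6, Units.val_neg]

/-! ### DISTINCT -/

include C in
/-- **DISTINCT for `X₁(M)`, analytic form**: if `Θ u ∘ γ = Θ u ∘ γ'` for all `u ∈ R₁` then
`γ' γ⁻¹ ∈ ±Γ₁(M)` (the cusp data `C` are only used through main's DISTINCT for `Γ₀(M)`). -/
theorem mem_PG1_of_compSL_eq (hM : 3 ≤ M) (hW : WSlash M) (γ γ' : SL(2, ℤ))
    (h : ∀ u : Rsub1 M, compSL (D.Θ u) γ = compSL (D.Θ u) γ') : γ' * γ⁻¹ ∈ PG1 M := by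
  -- `Γ₀(M)` from the restricted pair
  have hδ : γ' * γ⁻¹ ∈ CongruenceSubgroup.Gamma0 M := by
    refine Degree.mem_Gamma0_of_compSL_eq M (restrictR M D) (restrictC C) γ γ' fun u => ?_
    exact h (rsubIncl M u)
  refine mem_PG1_of_unit M _ hδ (unit_eq_one_or_neg_one M D hM hW _ hδ ?_)
  exact compSL_mul_inv_of_compSL_eq _ γ γ' (h _)

/-- **DISTINCT for `X₁(M)`** (HYP3): if the cusp expansion maps at `γ` and `γ'` agree then
`γ' γ⁻¹ ∈ ±Γ₁(M)`. -/
theorem mem_PG1_of_T_eq (hM : 3 ≤ M) (hW : WSlash M) (γ γ' : SL(2, ℤ)) (h : C.T γ = C.T γ') :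
    γ' * γ⁻¹ ∈ PG1 M := by
  have hδ := mem_Gamma0_of_T_eq M D C γ γ' h
  refine mem_PG1_of_unit M _ hδ (unit_eq_one_or_neg_one M D hM hW _ hδ ?_)
  refine compSL_mul_inv_of_compSL_eq _ γ γ' (compSL_eq_of_T_eq M D C γ γ' _ ?_)
  rw [h]

/-- Conversely `C.T` only depends on the coset of `±Γ₁(M)` (on `R₁`; twin of the easy half). -/
theorem T_eq_of_mem_PG1 (γ γ' : SL(2, ℤ)) (h : γ' * γ⁻¹ ∈ PG1 M) (u : Rsub1 M) :
    C.T γ' (u : FF1 M) = C.T γ (u : FF1 M) := by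
  have := X1Integrality1.T_mul_of_mem_PG1 M D C (γ' * γ⁻¹) γ h u
  rwa [inv_mul_cancel_right] at this

end Fermat.Agent.ES.R48.X1Distinct14
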