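/-
Programme R (S48), chapter GEOM, sub-chapter G2 DICT₁ (helper14): the twin of
`Fermat/Agent/X0/Degree.lean` for `X₁(M)`: the degree `[F₁ : ℚbar(j)] = (SL(2,ℤ) : ±Γ₁(M))`, the
classification of the embeddings, and the norm formulas, for an ARBITRARY interface pair
`(D : RealizeData1 M) (C : CuspData1 M D)` with `3 ≤ M` and the slash rule `WSlash M`.

This instantiates the abstract lemma `X0.AbsDegree.main` with `X = SL(2,ℤ) ⧸ PG1 M`,
`T x = C.T (rep x)⁻¹`, using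
* `X1Integrality1` (helper1) for HYP1, HYP2,
* `X1Distinct14.mem_PG1_of_T_eq` for HYP3,
* `X1FracR1.isFractionRing` (helper1) for `Frac R₁ = F₁`,
* `X0.transcendental_jF` for `FF.IsGen`.
-/
import Fermat.Agent.X0.AbsDegree
import Fermat.Agent.X0.RootsK
import Fermat.Agent.X0.FFDefs
import Fermat.Agent.ES.R48.X1Integrality1
import Fermat.Agent.ES.R48.X1FracR1
import Fermat.Agent.ES.R48.X1Distinct14

set_option autoImplicit false
set_option linter.unusedSectionVars false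
set_option linter.style.haveILetI false

open ModularCurve UpperHalfPlane
open scoped MatrixGroups IntermediateField

noncomputable section

namespace Fermat.Agent.ES.R48.X1Degree14

open Fermat.Agent.X0 Fermat.Agent.ES.R48.FF1Defs13 Fermat.Agent.ES.R48.X1Iface13
open scoped Polynomial

variable (M : ℕ) [NeZero M] (D : RealizeData1 M) (C : CuspData1 M D)

/-! ### `±Γ₁(M)` has finite index -/

/-- `±Γ₁(M)` has finite index in `SL(2,ℤ)` (a THEOREM, no global instance: consumers write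
`haveI := X1Degree14.finiteIndex_PG1 M`). -/
theorem finiteIndex_PG1 : (PG1 M).FiniteIndex :=
  Subgroup.finiteIndex_of_le (Gamma1_le_PG1 M)

/-- the coset space of `±Γ₁(M)` is finite. -/
theorem finite_quotient_PG1 : Finite (SL(2, ℤ) ⧸ PG1 M) := by
  haveI := finiteIndex_PG1 M
  infer_instance

/-! ### The hypotheses of `AbsDegree.main` -/

section Rep

variable (rep : SL(2, ℤ) ⧸ PG1 M → SL(2, ℤ))
  (hrep : ∀ x, (rep x : SL(2, ℤ) ⧸ PG1 M) = x)

/-- The family of embeddings `x ↦ C.T (rep x)⁻¹`. -/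
def Tx (x : SL(2, ℤ) ⧸ PG1 M) : FF1 M →+* LaurentSeries Kbar :=
  C.T (rep x)⁻¹

theorem Tx_apply (x : SL(2, ℤ) ⧸ PG1 M) (f : FF1 M) :
    Tx M D C rep x f = C.T (rep x)⁻¹ f := rfl

include hrep in
/-- **HYP3**: the embeddings `C.T (rep x)⁻¹` are pairwise distinct. -/
theorem Tx_injective (hM : 3 ≤ M) (hW : WSlash M) : Function.Injective (Tx M D C rep) := by
  intro x y h
  have hmem := X1Distinct14.mem_PG1_of_T_eq M D C hM hW (rep x)⁻¹ (rep y)⁻¹ h
  rw [inv_inv] at hmem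
  have := QuotientGroup.eq.mpr hmem
  rw [hrep, hrep] at this
  exact this.symm

include hrep in
/-- consumer form of **HYP3**. -/
theorem T_rep_inv_injective (hM : 3 ≤ M) (hW : WSlash M) :
    Function.Injective (fun x : SL(2, ℤ) ⧸ PG1 M => C.T (rep x)⁻¹) :=
  Tx_injective M D C rep hrep hM hW

/-- **HYP1**. -/
theorem Tx_agree (x x₀ : SL(2, ℤ) ⧸ PG1 M) (a : Kj1 M) :
    Tx M D C rep x (a : FF1 M) = Tx M D C rep x₀ (a : FF1 M) :=
  X1Integrality1.T_eq_on_Kj1 M D C _ _ a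

include hrep in
/-- **HYP2**. -/
theorem Tx_coeff [Fintype (SL(2, ℤ) ⧸ PG1 M)]
    (x₀ : SL(2, ℤ) ⧸ PG1 M) (u : Rsub1 M) (k : ℕ) :
    ∃ a : Kj1 M, Tx M D C rep x₀ (a : FF1 M)
      = (∏ x, (Polynomial.X - Polynomial.C (Tx M D C rep x (u : FF1 M)))).coeff k := by
  obtain ⟨a, ha⟩ := X1Integrality1.integrality_mem_range M D C rep hrep u k
  refine ⟨a, ?_⟩
  rw [Tx_apply, X1Integrality1.T_eq_on_Kj1 M D C (rep x₀)⁻¹ 1 a]
  exact ha

include hrep in
/-- `AbsDegree.main` instantiated (degree, norm, trace). -/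
theorem main_inst [Fintype (SL(2, ℤ) ⧸ PG1 M)] (hM : 3 ≤ M) (hW : WSlash M)
    (x₀ : SL(2, ℤ) ⧸ PG1 M) :
    FiniteDimensional (Kj1 M) (FF1 M) ∧
      Module.finrank (Kj1 M) (FF1 M) = Fintype.card (SL(2, ℤ) ⧸ PG1 M) ∧
      (∀ f : FF1 M, Tx M D C rep x₀ (algebraMap (Kj1 M) (FF1 M) (Algebra.norm (Kj1 M) f))
        = ∏ x, Tx M D C rep x f) ∧
      (∀ f : FF1 M,
        Tx M D C rep x₀ (algebraMap (Kj1 M) (FF1 M) (Algebra.trace (Kj1 M) (FF1 M) f))
        = ∑ x, Tx M D C rep x f) := by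
  haveI := X1FracR1.isFractionRing M
  have h := AbsDegree.main.{0, 0, 0, 0, 0} (K := Kbar) (F := FF1 M) (L := LaurentSeries Kbar)
    (R := Rsub1 M) (Kj := Kj1 M) (T := Tx M D C rep) (x₀ := x₀)
    (fun x a => Tx_agree M D C rep x x₀ a)
    (fun u k => Tx_coeff M D C rep hrep x₀ u k)
    (Tx_injective M D C rep hrep hM hW)
  exact ⟨h.1, h.2.1, h.2.2.1, h.2.2.2.1⟩

include hrep in
/-- `AbsDegree.main` instantiated (classification of embeddings). -/
theorem main_classify [Fintype (SL(2, ℤ) ⧸ PG1 M)] (hM : 3 ≤ M) (hW : WSlash M)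
    (x₀ : SL(2, ℤ) ⧸ PG1 M)
    {E : Type*} [Field E] (ι : LaurentSeries Kbar →+* E) (τ : FF1 M →+* E)
    (hτ : ∀ a : Kj1 M, τ (a : FF1 M) = ι (Tx M D C rep x₀ (a : FF1 M))) :
    ∃ x, ∀ f : FF1 M, τ f = ι (Tx M D C rep x f) := by
  haveI := X1FracR1.isFractionRing M
  exact (AbsDegree.main (K := Kbar) (F := FF1 M) (L := LaurentSeries Kbar) (R := Rsub1 M)
    (Kj := Kj1 M) (T := Tx M D C rep) (x₀ := x₀)
    (fun x a => Tx_agree M D C rep x x₀ a)
    (fun u k => Tx_coeff M D C rep hrep x₀ u k)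
    (Tx_injective M D C rep hrep hM hW)).2.2.2.2 ι τ hτ

end Rep

/-! ### Exports -/

/-- The canonical section `Quotient.out`. -/
def rep (x : SL(2, ℤ) ⧸ PG1 M) : SL(2, ℤ) := Quotient.out x

theorem rep_spec (x : SL(2, ℤ) ⧸ PG1 M) : (rep M x : SL(2, ℤ) ⧸ PG1 M) = x :=
  QuotientGroup.out_eq' x

include D C in
/-- `F₁` is finite over `ℚbar(j)`. -/
theorem finiteDimensional (hM : 3 ≤ M) (hW : WSlash M) : FiniteDimensional (Kj1 M) (FF1 M) := by
  haveI := finite_quotient_PG1 M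
  haveI : Fintype (SL(2, ℤ) ⧸ PG1 M) := Fintype.ofFinite _
  exact (main_inst M D C (rep M) (rep_spec M) hM hW (1 : SL(2, ℤ))).1

include D C in
/-- `[F₁ : ℚbar(j)] = #(SL(2,ℤ) ⧸ ±Γ₁(M))`. -/
theorem card_eq_finrank (hM : 3 ≤ M) (hW : WSlash M) :
    Nat.card (SL(2, ℤ) ⧸ PG1 M) = Module.finrank (Kj1 M) (FF1 M) := by
  haveI := finite_quotient_PG1 M
  haveI : Fintype (SL(2, ℤ) ⧸ PG1 M) := Fintype.ofFinite _
  rw [(main_inst M D C (rep M) (rep_spec M) hM hW (1 : SL(2, ℤ))).2.1, Nat.card_eq_fintype_card]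

include D C in
/-- `[F₁ : ℚbar(j)]` is the index of `±Γ₁(M)`. -/
theorem finrank_Kj1 (hM : 3 ≤ M) (hW : WSlash M) :
    Module.finrank (Kj1 M) (FF1 M) = (PG1 M).index := by
  rw [← card_eq_finrank M D C hM hW, Subgroup.index]

include D C in
/-- the same with the field written as `ℚbar⟮j⟯`. -/
theorem finiteDimensional_adjoin (hM : 3 ≤ M) (hW : WSlash M) :
    FiniteDimensional Kbar⟮jF1 M⟯ (FF1 M) :=
  finiteDimensional M D C hM hW

include D C in
theorem card_eq_finrank_adjoin (hM : 3 ≤ M) (hW : WSlash M) :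
    Nat.card (SL(2, ℤ) ⧸ PG1 M) = Module.finrank Kbar⟮jF1 M⟯ (FF1 M) :=
  card_eq_finrank M D C hM hW

/-- The underlying Laurent series of `jF1 M` is the formal `j`. -/
theorem coe_jF1 : ((jF1 M : FF1 M) : LaurentSeries Kbar) = jqK := by
  rw [jF1, jdF1, coe_ffIncl]
  exact coe_jF M

/-- `jF1 M` is transcendental over `ℚbar`. -/
theorem transcendental_jF1 : Transcendental Kbar (jF1 M) := by
  intro halg
  apply transcendental_jqK
  have := halg.algHom (IntermediateField.val (F1bar M))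
  rw [← coe_jF1 M]
  exact this

include D C in
/-- `j` is a transcendental generator of `F₁ / ℚbar`. -/
theorem isGen_jF1 (hM : 3 ≤ M) (hW : WSlash M) : FF.IsGen Kbar (jF1 M) :=
  ⟨transcendental_jF1 M, finiteDimensional_adjoin M D C hM hW⟩

include D C in
/-- `F₁ / ℚbar(j)` is separable (characteristic zero). -/
theorem isSeparable_adjoin (hM : 3 ≤ M) (hW : WSlash M) :
    Algebra.IsSeparable Kbar⟮jF1 M⟯ (FF1 M) := by
  haveI := finiteDimensional_adjoin M D C hM hW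
  haveI : CharZero Kbar⟮jF1 M⟯ :=
    charZero_of_injective_algebraMap (algebraMap Kbar Kbar⟮jF1 M⟯).injective
  haveI : Algebra.IsIntegral Kbar⟮jF1 M⟯ (FF1 M) := Algebra.IsIntegral.of_finite _ _
  exact Algebra.IsSeparable.of_integral _ _

section Rep2

variable (rep : SL(2, ℤ) ⧸ PG1 M → SL(2, ℤ))
  (hrep : ∀ x, (rep x : SL(2, ℤ) ⧸ PG1 M) = x)

include hrep in
/-- formal norm formula: `T_1 (N_{F₁/ℚbar(j)} f) = ∏_x T_{(rep x)⁻¹} f`. -/
theorem norm_formula [Fintype (SL(2, ℤ) ⧸ PG1 M)] (hM : 3 ≤ M) (hW : WSlash M) (f : FF1 M) :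
    C.T 1 (algebraMap (Kj1 M) (FF1 M) (Algebra.norm (Kj1 M) f)) = ∏ x, C.T (rep x)⁻¹ f := by
  exact (X1Integrality1.T_eq_on_Kj1 M D C 1 _ (Algebra.norm (Kj1 M) f)).trans
    ((main_inst M D C rep hrep hM hW (1 : SL(2, ℤ))).2.2.1 f)

include hrep in
/-- formal trace formula. -/
theorem trace_formula [Fintype (SL(2, ℤ) ⧸ PG1 M)] (hM : 3 ≤ M) (hW : WSlash M) (f : FF1 M) :
    C.T 1 (algebraMap (Kj1 M) (FF1 M) (Algebra.trace (Kj1 M) (FF1 M) f))
      = ∑ x, C.T (rep x)⁻¹ f := by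
  exact (X1Integrality1.T_eq_on_Kj1 M D C 1 _ (Algebra.trace (Kj1 M) (FF1 M) f)).trans
    ((main_inst M D C rep hrep hM hW (1 : SL(2, ℤ))).2.2.2 f)

include hrep in
/-- classification of the embeddings of `F₁` over `ℚbar(j)`: every ring hom `τ : F₁ → E` which
agrees with `ι ∘ T_1` on `ℚbar(j)` is `ι ∘ T_{(rep x)⁻¹}` for some `x`. -/
theorem exists_eq_T (hM : 3 ≤ M) (hW : WSlash M) {E : Type*} [Field E]
    (ι : LaurentSeries Kbar →+* E) (τ : FF1 M →+* E)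
    (hτ : ∀ a : Kj1 M, τ (a : FF1 M) = ι (C.T 1 (a : FF1 M))) :
    ∃ x : SL(2, ℤ) ⧸ PG1 M, ∀ f : FF1 M, τ f = ι (C.T (rep x)⁻¹ f) := by
  haveI := finite_quotient_PG1 M
  haveI : Fintype (SL(2, ℤ) ⧸ PG1 M) := Fintype.ofFinite _
  refine main_classify M D C rep hrep hM hW (1 : SL(2, ℤ)) ι τ fun a => ?_
  rw [hτ a, Tx_apply, X1Integrality1.T_eq_on_Kj1 M D C 1
    (rep ((1 : SL(2, ℤ)) : SL(2, ℤ) ⧸ PG1 M))⁻¹ a]

include hrep C in
/-- analytic norm formula: for `u ∈ R₁` the norm of `u` is a POLYNOMIAL `p(j)`, `p ∈ ℚbar[X]`, and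
`p(j(z)) = ∏_x (Θ u)((rep x)⁻¹ z)`. -/
theorem norm_formula_analytic [Fintype (SL(2, ℤ) ⧸ PG1 M)] (hM : 3 ≤ M) (hW : WSlash M)
    (u : Rsub1 M) :
    ∃ p : Kbar[X],
      algebraMap (Kj1 M) (FF1 M) (Algebra.norm (Kj1 M) (u : FF1 M)) = Polynomial.aeval (jF1 M) p ∧
      ∀ z, (p.map iotaK).eval (jFun z) = ∏ x, compSL (D.Θ u) (rep x)⁻¹ z := by
  obtain ⟨p, hp, -⟩ := X1Integrality1.integrality M D C rep hrep u 0
  set n := Fintype.card (SL(2, ℤ) ⧸ PG1 M) with hn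
  have h0 : (∏ x, (Polynomial.X - Polynomial.C (C.T (rep x)⁻¹ (u : FF1 M)))).coeff 0
      = (-1) ^ n * ∏ x, C.T (rep x)⁻¹ (u : FF1 M) := by
    rw [Polynomial.coeff_zero_eq_eval_zero, Polynomial.eval_prod]
    simp only [Polynomial.eval_sub, Polynomial.eval_X, Polynomial.eval_C, zero_sub]
    rw [Finset.prod_neg, Finset.card_univ]
  have hprod : ∏ x, C.T (rep x)⁻¹ (u : FF1 M)
      = C.T 1 (Polynomial.aeval (jF1 M) (Polynomial.C ((-1 : Kbar) ^ n) * p)) := by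
    rw [map_mul, map_mul, Polynomial.aeval_C, ← hp, h0, map_pow, map_neg, map_one, map_pow, map_neg,
      map_one, ← mul_assoc, ← mul_pow]
    norm_num
  refine ⟨Polynomial.C ((-1 : Kbar) ^ n) * p, ?_, fun z => ?_⟩
  · apply (C.T 1).injective
    rw [norm_formula M D C rep hrep hM hW, hprod]
  · exact X1Integrality1.integrality_prod_of_eq M D C rep u _ hprod z

include hrep C in
/-- variant of the analytic norm formula recording `p ≠ 0` for `u ≠ 0`. -/
theorem norm_formula_analytic_ne_zero [Fintype (SL(2, ℤ) ⧸ PG1 M)] (hM : 3 ≤ M) (hW : WSlash M)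
    (u : Rsub1 M) (hu : u ≠ 0) :
    ∃ p : Kbar[X], p ≠ 0 ∧
      algebraMap (Kj1 M) (FF1 M) (Algebra.norm (Kj1 M) (u : FF1 M)) = Polynomial.aeval (jF1 M) p ∧
      ∀ z, (p.map iotaK).eval (jFun z) = ∏ x, compSL (D.Θ u) (rep x)⁻¹ z := by
  obtain ⟨p, hp, hpz⟩ := norm_formula_analytic M D C rep hrep hM hW u
  refine ⟨p, ?_, hp, hpz⟩
  rintro rfl
  haveI := finiteDimensional M D C hM hW
  haveI : Module.Free (Kj1 M) (FF1 M) := Module.Free.of_divisionRing _ _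
  rw [map_zero] at hp
  have h0 : Algebra.norm (Kj1 M) (u : FF1 M) = 0 := by
    apply (algebraMap (Kj1 M) (FF1 M)).injective
    rw [hp, map_zero]
  rw [Algebra.norm_eq_zero_iff] at h0
  exact hu (Subtype.ext h0)

end Rep2

/-! ### Non-vanishing at points with transcendental `j`-value -/

include C in
/-- If `j(z₀) ∉ ι(ℚbar)` then no nonzero element of `R₁` vanishes at any `SL(2,ℤ)`-translate
of `z₀`. -/
theorem compSL_Θ_ne_zero_of_transcendental (hM : 3 ≤ M) (hW : WSlash M) (s : Rsub1 M)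
    (hs : s ≠ 0) (z₀ : ℍ) (hz : jFun z₀ ∉ Set.range iotaK) (γ : SL(2, ℤ)) :
    compSL (D.Θ s) γ z₀ ≠ 0 := by
  classical
  haveI := finite_quotient_PG1 M
  haveI : Fintype (SL(2, ℤ) ⧸ PG1 M) := Fintype.ofFinite _
  -- a section passing through `γ⁻¹`
  let x₁ : SL(2, ℤ) ⧸ PG1 M := ((γ⁻¹ : SL(2, ℤ)) : _)
  let r : SL(2, ℤ) ⧸ PG1 M → SL(2, ℤ) := Function.update (rep M) x₁ γ⁻¹
  have hr : ∀ x, (r x : SL(2, ℤ) ⧸ PG1 M) = x := by
    intro x
    by_cases hx : x = x₁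
    · subst hx
      simp only [r, Function.update_self]
      rfl
    · simp only [r, Function.update_of_ne hx]
      exact rep_spec M x
  obtain ⟨p, hp0, -, hpz⟩ := norm_formula_analytic_ne_zero M D C r hr hM hW s hs
  intro h0
  apply hz
  have hprod : ∏ x, compSL (D.Θ s) (r x)⁻¹ z₀ = 0 := by
    refine Finset.prod_eq_zero (Finset.mem_univ x₁) ?_
    have : r x₁ = γ⁻¹ := by simp only [r, Function.update_self]
    rw [this, inv_inv]
    exact h0
  have hroot : (p.map iotaK).IsRoot (jFun z₀) := by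
    rw [Polynomial.IsRoot.def, hpz, hprod]
  exact (IsAlgClosed.splits p).mem_range_of_isRoot hp0 hroot

include C in
/-- if `j(z₀) ∉ ι(ℚbar)` then `Θ s` does not vanish at `z₀` for `s ≠ 0`. -/
theorem Θ_ne_zero_of_transcendental (hM : 3 ≤ M) (hW : WSlash M) (s : Rsub1 M) (hs : s ≠ 0)
    (z₀ : ℍ) (hz : jFun z₀ ∉ Set.range iotaK) : D.Θ s z₀ ≠ 0 := by
  have h := compSL_Θ_ne_zero_of_transcendental M D C hM hW s hs z₀ hz 1
  have h1 : compSL (D.Θ s) 1 z₀ = D.Θ s z₀ := by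
    show D.Θ s ((1 : SL(2, ℤ)) • z₀) = D.Θ s z₀
    rw [one_smul]
  rwa [h1] at h

end Fermat.Agent.ES.R48.X1Degree14
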