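/-
Programme R (S48) / chapter GEOM, sub-chapter G2 DICT₁ (helper23): twin of the cusp half of
`Fermat/Agent/X0/PlaceCountX0.lean` for `X₁(M)`: fibre count over `j = ∞` on the coset space
`X = SL(2, ℤ) ⧸ ±Γ₁(M)`.

* `finiteIndex_PG1`, `finite_quot` : `±Γ₁(M)` has finite index in `SL(2, ℤ)`;
* `count_cusps` : abstract in the function field (`K`, `F`, `x`), with the degree
  `n = [SL(2, ℤ) : ±Γ₁(M)]` as the hypothesis `hsum` (exactly like `pcx_count_cusps`): the number of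
  poles of `x` is the number of `⟨T⟩`-orbits on `X`, and all the width inequalities are equalities;
* `cuspPlaceX_exact` : the same for `x = jF1 M` and the cusp places `cuspPlaceX hC` of
  `X1CuspPlaces23`: `- ord_v j = ` size of the `⟨T⟩`-orbit (EXACT widths), given the degree formula
  and the surjectivity of the cusp places (both as hypotheses; supplied by the `Degree` and
  `CuspSurj` twins).
-/
import Fermat.Agent.X0.PlaceCountX0
import Fermat.Agent.ES.R48.X1CuspPlaces23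

set_option autoImplicit false

open AlgebraicCurve
open scoped MatrixGroups
open MulAction Subgroup CongruenceSubgroup

noncomputable section

namespace Fermat.Agent.ES.R48.X1PlaceCount23

open Fermat.Agent.X0 Fermat.Agent.ES.R48.X1Iface13 Fermat.Agent.ES.R48.X1CuspPlaces23

section Group

variable (M : ℕ) [NeZero M]

/-- `±Γ₁(M)` has finite index in `SL(2, ℤ)`. -/
theorem finiteIndex_PG1 : (PG1 M).FiniteIndex :=
  Subgroup.finiteIndex_of_le (Gamma_le_PG1 M)

/-- The coset space `SL(2, ℤ) ⧸ ±Γ₁(M)` is finite. -/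
theorem finite_quot : Finite (SL(2, ℤ) ⧸ PG1 M) :=
  have := finiteIndex_PG1 M
  Subgroup.finite_quotient_of_finiteIndex

/-- `Nat.card (SL(2, ℤ) ⧸ ±Γ₁(M)) = [SL(2, ℤ) : ±Γ₁(M)]` is positive. -/
theorem card_quot_pos : 0 < Nat.card (SL(2, ℤ) ⧸ PG1 M) :=
  have := finite_quot M
  Nat.card_pos

end Group

section Abstract

variable {K F : Type*} [Field K] [Field F] [Algebra K F]

/-- Places over `∞`: `r_∞ = #(⟨T⟩ \ SL(2, ℤ) ⧸ ±Γ₁(M))`, with exact widths
(twin of `PlaceCountX0.pcx_count_cusps`). -/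
theorem count_cusps (M : ℕ) [NeZero M] (x : F)
    (hfin : {v : Place K F | v.ord x < 0}.Finite)
    (hsum : ∑ᶠ (v : Place K F) (_ : v.ord x < 0), -v.ord x =
      (Nat.card (SL(2, ℤ) ⧸ PG1 M) : ℤ))
    (pl : SL(2, ℤ) ⧸ PG1 M → Place K F)
    (hneg : ∀ a, (pl a).ord x < 0)
    (hsurj : ∀ v : Place K F, v.ord x < 0 → ∃ a, pl a = v)
    (hinv : ∀ a, pl (ModularGroup.T • a) = pl a)
    (hle : ∀ a, -(pl a).ord x ≤ (Nat.card (orbit (zpowers ModularGroup.T) a) : ℤ)) :
    Nat.card {v : Place K F // v.ord x < 0} =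
        Nat.card (orbitRel.Quotient (zpowers ModularGroup.T) (SL(2, ℤ) ⧸ PG1 M)) ∧
      ∀ a, -(pl a).ord x = (Nat.card (orbit (zpowers ModularGroup.T) a) : ℤ) := by
  have := finite_quot M
  exact PlaceCount.pc_pole_count (K := K) x (Nat.card (SL(2, ℤ) ⧸ PG1 M)) hfin hsum
    (X := SL(2, ℤ) ⧸ PG1 M) (G := zpowers ModularGroup.T) rfl pl hneg hsurj
    (PlaceCountX0.pcx_inv_zpowers ModularGroup.T pl hinv) hle

end Abstract

section Concrete

variable {M : ℕ} [NeZero M] {D : RealizeData1 M} {C : CuspData1 M D} (hC : Good C)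

/-- **Exact widths on `X₁(M)`**: given the degree formula `∑_{v ∣ ∞} -ord_v j = [SL₂(ℤ) : ±Γ₁(M)]`
and the surjectivity of the cusp places, `- ord_v j` is the size of the `⟨T⟩`-orbit of the coset,
and the number of places over `∞` is the number of `⟨T⟩`-orbits. -/
theorem cuspPlaceX_exact
    (hfin : {v : Place Kbar (FF1 M) | v.ord (jF1 M) < 0}.Finite)
    (hsum : ∑ᶠ (v : Place Kbar (FF1 M)) (_ : v.ord (jF1 M) < 0), -v.ord (jF1 M) =
      (Nat.card (SL(2, ℤ) ⧸ PG1 M) : ℤ))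
    (hsurj : ∀ v : Place Kbar (FF1 M), v.ord (jF1 M) < 0 → ∃ a, X1CuspPlaces23.cuspPlaceX hC a = v) :
    Nat.card {v : Place Kbar (FF1 M) // v.ord (jF1 M) < 0} =
        Nat.card (orbitRel.Quotient (zpowers ModularGroup.T) (SL(2, ℤ) ⧸ PG1 M)) ∧
      ∀ a, -(X1CuspPlaces23.cuspPlaceX hC a).ord (jF1 M) =
        (Nat.card (orbit (zpowers ModularGroup.T) a) : ℤ) :=
  count_cusps (K := Kbar) M (jF1 M) hfin hsum (X1CuspPlaces23.cuspPlaceX hC)
    (X1CuspPlaces23.cuspPlaceX_ord_jF_neg hC) hsurj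
    (fun a => X1CuspPlaces23.cuspPlaceX_smul_zpowers_T hC ⟨ModularGroup.T, mem_zpowers _⟩ a)
    (X1CuspPlaces23.cuspPlaceX_neg_ord_jF_le hC)

/-- The exact width at a representative: `- ord_{cuspPlace g} j = #(⟨T⟩ · g ±Γ₁(M))`. -/
theorem cuspPlace_neg_ord_jF_eq
    (hfin : {v : Place Kbar (FF1 M) | v.ord (jF1 M) < 0}.Finite)
    (hsum : ∑ᶠ (v : Place Kbar (FF1 M)) (_ : v.ord (jF1 M) < 0), -v.ord (jF1 M) =
      (Nat.card (SL(2, ℤ) ⧸ PG1 M) : ℤ))
    (hsurj : ∀ v : Place Kbar (FF1 M), v.ord (jF1 M) < 0 → ∃ a, X1CuspPlaces23.cuspPlaceX hC a = v)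
    (g : SL(2, ℤ)) :
    -(X1CuspPlaces23.cuspPlace hC g).ord (jF1 M) =
      (Nat.card (orbit (zpowers ModularGroup.T)
        (QuotientGroup.mk g : SL(2, ℤ) ⧸ PG1 M)) : ℤ) := by
  have := (cuspPlaceX_exact hC hfin hsum hsurj).2 (QuotientGroup.mk g)
  rwa [X1CuspPlaces23.cuspPlaceX_mk] at this

end Concrete

end Fermat.Agent.ES.R48.X1PlaceCount23
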