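/-
Programme R (S48) / chapter GEOM, G3 MODEL₁ cusp side (helper23): the closer of helper26's
`CuspExactOne26`: the exactness hypothesis `CuspExactOne26.Exact C` holds for every
`C : CuspData1 M D` (`3 ≤ M`, given the slash formula `WSlash M` of G1), from the G2 dictionary:

* `X1Degree14.isGen_jF1` + main's `FF.finite_poles` / `FF.sum_ord_poles` (poles of `j`, degree),
* `X1Degree14.card_eq_finrank_adjoin` (`[F₁ : ℚbar(j)] = [SL₂(ℤ) : ±Γ₁(M)]`),
* `X1CuspSurj1.exists_cuspPlaceX_eq` + `X1Distinct14.mem_PG1_of_T_eq` (every place over `∞` is a cusp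
  place),
* `X1PlaceCount23.cuspPlaceX_exact` (the count).

Hence the exact statements of `CuspExactOne26` hold unconditionally (`neg_ord_jF_eq`, `order_T_eq`,
`order_Tc`, `mem_placeOf_iff` below, same names, `hex` replaced by `(hM : 3 ≤ M) (hW : WSlash M)`).
-/
import Fermat.Agent.X0.FFSum
import Fermat.Agent.ES.R48.X1Degree14
import Fermat.Agent.ES.R48.X1CuspSurj1
import Fermat.Agent.ES.R48.X1PlaceCount23
import Fermat.Agent.ES.R48.CuspExactOne26

set_option autoImplicit false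
set_option linter.unusedSectionVars false

noncomputable section

namespace Fermat.Agent.ES.R48.CuspExactClose23

open AlgebraicCurve
open scoped MatrixGroups
open Fermat.Agent.X0 Fermat.Agent.ES.R48.FF1Defs13 Fermat.Agent.ES.R48.X1Iface13
open Fermat.Agent.ES.R48.CuspExactOne26

variable {M : ℕ} [NeZero M] {D : RealizeData1 M} (C : CuspData1 M D)

/-- `DistT C` of `X1CuspSurj1` from `X1Distinct14`. -/
theorem distT (hM : 3 ≤ M) (hW : WSlash M) : X1CuspSurj1.DistT C :=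
  fun γ γ' h => X1Distinct14.mem_PG1_of_T_eq M D C hM hW γ γ' h

/-- Every place of `F₁` over `j = ∞` is a cusp place (coset form). -/
theorem exists_cuspPlaceX_eq (hM : 3 ≤ M) (hW : WSlash M) (v : Place Kbar (FF1 M))
    (hv : v.ord (jF1 M) < 0) :
    ∃ a : SL(2, ℤ) ⧸ PG1 M, X1CuspPlaces23.cuspPlaceX (hGood C) a = v := by
  have hfd : FiniteDimensional (IntermediateField.adjoin Kbar {jF1 M}) (FF1 M) :=
    X1Degree14.finiteDimensional_adjoin M D C hM hW
  exact X1CuspSurj1.exists_cuspPlaceX_eq (hGood C) (distT C hM hW)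
    (X1Degree14.card_eq_finrank_adjoin M D C hM hW) v hv

include C in
/-- The poles of `j` on `X₁(M)`: finitely many, and `∑ -ord_v j = [SL₂(ℤ) : ±Γ₁(M)]`. -/
theorem sum_poles (hM : 3 ≤ M) (hW : WSlash M) :
    {v : Place Kbar (FF1 M) | v.ord (jF1 M) < 0}.Finite ∧
      ∑ᶠ (v : Place Kbar (FF1 M)) (_ : v.ord (jF1 M) < 0), -v.ord (jF1 M) =
        (Nat.card (SL(2, ℤ) ⧸ PG1 M) : ℤ) := by
  have hx : FF.IsGen Kbar (jF1 M) := X1Degree14.isGen_jF1 M D C hM hW
  exact ⟨FF.finite_poles hx, by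
    rw [FF.sum_ord_poles hx, X1Degree14.card_eq_finrank_adjoin M D C hM hW]⟩

include C in
/-- The number of places of `F₁` over `j = ∞` is the number of `⟨T⟩`-orbits on
`SL₂(ℤ) ⧸ ±Γ₁(M)`. -/
theorem card_poles (hM : 3 ≤ M) (hW : WSlash M) :
    Nat.card {v : Place Kbar (FF1 M) // v.ord (jF1 M) < 0} =
      Nat.card (MulAction.orbitRel.Quotient (Subgroup.zpowers ModularGroup.T)
        (SL(2, ℤ) ⧸ PG1 M)) :=
  (X1PlaceCount23.cuspPlaceX_exact (hGood C) (sum_poles C hM hW).1 (sum_poles C hM hW).2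
    (exists_cuspPlaceX_eq C hM hW)).1

/-- **`CuspExactOne26.Exact C` holds** (`3 ≤ M`). -/
theorem exact (hM : 3 ≤ M) (hW : WSlash M) : Exact C :=
  (X1PlaceCount23.cuspPlaceX_exact (hGood C) (sum_poles C hM hW).1 (sum_poles C hM hW).2
    (exists_cuspPlaceX_eq C hM hW)).2

/-- `- ord_v j = w` at the cusp place of `γ`. -/
theorem neg_ord_jF_eq (hM : 3 ≤ M) (hW : WSlash M) (γ : SL(2, ℤ)) :
    -(placeOf C γ).ord (jF1 M) = (cuspW (M := M) γ : ℤ) :=
  CuspExactOne26.neg_ord_jF_eq (exact C hM hW) γ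

/-- `ord (C.T γ f) = r * ord_v f`. -/
theorem order_T_eq (hM : 3 ≤ M) (hW : WSlash M) (γ : SL(2, ℤ)) (f : FF1 M) (hf : f ≠ 0) :
    (C.T γ f).order = (cuspR (M := M) γ : ℤ) * (placeOf C γ).ord f :=
  CuspExactOne26.order_T_eq (exact C hM hW) γ f hf

/-- `ord (Tc γ f) = ord_v f`. -/
theorem order_Tc (hM : 3 ≤ M) (hW : WSlash M) (γ : SL(2, ℤ)) (f : FF1 M) (hf : f ≠ 0) :
    (Tc C γ f).order = (placeOf C γ).ord f :=
  CuspExactOne26.order_Tc (exact C hM hW) γ f hf

theorem mem_placeOf_iff (hM : 3 ≤ M) (hW : WSlash M) (γ : SL(2, ℤ)) {f : FF1 M} (hf : f ≠ 0) :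
    f ∈ (placeOf C γ).toValuationSubring ↔ 0 ≤ (Tc C γ f).order :=
  CuspExactOne26.mem_placeOf_iff (exact C hM hW) γ hf

end Fermat.Agent.ES.R48.CuspExactClose23
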