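/-
Programme R (S48), chapter GEOM, sub-chapter G3 MODEL₁ — helper4 (G3 sub-lead).
**The literal targets of G3**: the twins of `RED/Interface4`, `RED/InterfaceGe4`, `RED/NumMain4`,
`RED/ModelTargets4` for the function field `F1 M` of `X₁(M)` (`FF1Defs13`) in place of
`modularFunctionFieldFull M`.

* `FK1 M K = K · F1 M ⊂ K((q))`, `FK_le_FK1`, `tq_mem_FK1`;
* `CLBar1 ℓ M A`, `CLNum1 ℓ M A K` (= `NumInst4.CLStmt (AK A K) (FK1 M K) ℓ`), `DescStepGe1`, `NumStep1`,
  `ModelStep1`, `numStep1_of_model`, `clBar1_of_descStepGe1`;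
* `EventuallyT1`, `HorizTarget1`, `CuspFamilyTarget1` (the deliverables of HORIZ₁ and CUSP₁).
-/
import Mathlib
import Fermat.Agent.RED.NumMain4
import Fermat.Agent.RED.ModelTargets4
import Fermat.Agent.RED.PUR.OffIface4
import Fermat.Agent.RED.CUSP.CuspIface23
import Fermat.Agent.ES.R48.FF1Defs13

set_option autoImplicit false

open HahnSeries AlgebraicCurve ModularCurve IntermediateField
open scoped MatrixGroups

noncomputable section

namespace Fermat.Agent.ES.R48.G3Defs4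

open Fermat.Agent.RED.Interface4 Fermat.Agent.RED.InterfaceGe4 Fermat.Agent.RED.NumInst4
  Fermat.Agent.RED.ModelTargets4 Fermat.Agent.RED.BASE.EtaQuot12
  Fermat.Agent.ES.R48.FF1Defs13 Fermat.Agent.X0

/-- The function field `K · F1 M ⊂ K((q))` of `X₁(M)` over a subfield `K ⊂ ℚ̄`. -/
abbrev FK1 (M : ℕ) (K : IntermediateField ℚ Qbar) : IntermediateField K (LaurentSeries K) :=
  laurentBaseChange K (F1 M)

/-- `K · F_full(M) ≤ K · F1 M`. -/
theorem FK_le_FK1 (M : ℕ) (K : IntermediateField ℚ Qbar) : FK M K ≤ FK1 M K :=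
  laurentBaseChange_mono13 K (full_le_F1 M)

/-- `ℚ̄ · F_full(M) ≤ ℚ̄ · F1 M`. -/
theorem Fbar_le_F1bar (M : ℕ) : Fbar M ≤ F1bar M :=
  laurentBaseChange_mono13 Qbar (full_le_F1 M)

/-- **(CL) over `ℚ̄` for `X₁(M)`, field form** (twin of `Interface4.CLBar`). -/
def CLBar1 (ℓ M : ℕ) (A : ValuationSubring Qbar) : Prop :=
  ∀ (P Q : LaurentSeries A)
    (hP : coeffMap A.subtype P ∈ F1bar M) (hQ : coeffMap A.subtype Q ∈ F1bar M),
    coeffMap (IsLocalRing.residue A) P = coeffMap (IsLocalRing.residue A) Q →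
    coeffMap (IsLocalRing.residue A) P ≠ 0 →
    ∀ m : ℕ, ¬ ℓ ∣ m →
      (∀ v : Place Qbar (F1bar M),
        (m : ℤ) ∣ v.ord (⟨coeffMap A.subtype P, hP⟩ : F1bar M) -
          v.ord (⟨coeffMap A.subtype Q, hQ⟩ : F1bar M)) →
      ∃ s : F1bar M, s ^ m * (⟨coeffMap A.subtype Q, hQ⟩ : F1bar M) = ⟨coeffMap A.subtype P, hP⟩

/-- **(CL) over a number field `K ⊂ ℚ̄` for `X₁(M)`** (twin of `Interface4.CLNum`). -/
def CLNum1 (ℓ M : ℕ) (A : ValuationSubring Qbar) (K : IntermediateField ℚ Qbar) : Prop :=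
  CLStmt (AK A K) (FK1 M K) ℓ

/-- **Chapter DESC₁** (twin of `InterfaceGe4.DescStepGe`). -/
def DescStepGe1 (ℓ M : ℕ) (A : ValuationSubring Qbar) : Prop :=
  ∀ K₀ : IntermediateField ℚ Qbar, FiniteDimensional ℚ K₀ →
    (∀ K : IntermediateField ℚ Qbar, FiniteDimensional ℚ K → K₀ ≤ K → CLNum1 ℓ M A K) →
      CLBar1 ℓ M A

/-- **CORE + MODEL₁** (twin of `InterfaceGe4.NumStep`). -/
def NumStep1 (ℓ M : ℕ) (A : ValuationSubring Qbar) : Prop :=
  ∃ K₀ : IntermediateField ℚ Qbar, FiniteDimensional ℚ K₀ ∧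
    ∀ K : IntermediateField ℚ Qbar, FiniteDimensional ℚ K → K₀ ≤ K → CLNum1 ℓ M A K

theorem clBar1_of_descStepGe1 {ℓ M : ℕ} {A : ValuationSubring Qbar}
    (hdesc : DescStepGe1 ℓ M A) (hnum : NumStep1 ℓ M A) : CLBar1 ℓ M A := by
  obtain ⟨K₀, hK₀, h⟩ := hnum
  exact hdesc K₀ hK₀ h

/-- **The deliverable of MODEL₁** (twin of `NumMain4.ModelStep`): two-chart models of `K · F1 M`
over `A ∩ K` for all sufficiently large number fields `K`. -/
def ModelStep1 (M : ℕ) (A : ValuationSubring Qbar) : Prop :=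
  ∃ K₀ : IntermediateField ℚ Qbar, FiniteDimensional ℚ K₀ ∧
    ∀ K : IntermediateField ℚ Qbar, FiniteDimensional ℚ K → K₀ ≤ K →
      HasModel (AK A K) (FK1 M K)

/-- **NUM₁ from MODEL₁** (twin of `NumMain4.numStep_of_model`; CORE and `AlgClosedIn` are generic). -/
theorem numStep1_of_model {ℓ : ℕ} (hℓ : ℓ.Prime) (M : ℕ) {A : ValuationSubring Qbar}
    (hA : A.LiesOverPrime ℓ) (h : ModelStep1 M A) : NumStep1 ℓ M A := by
  obtain ⟨K₀, hK₀, hK⟩ := h
  refine ⟨K₀, hK₀, fun K hKfd hle => ?_⟩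
  exact clStmt_of_hasModel ℓ (Fermat.Agent.RED.NumMain4.coreBAt (AK A K) (FK1 M K))
    (hK K hKfd hle) (Fermat.Agent.RED.PUR.AlgClosedIn10.algClosedIn (FK1 M K))
    (exists_inv_of_not_dvd hℓ hA K)

section Generic

variable {Kt : Type*} [Field Kt] (O : ValuationSubring Kt)
  (E : IntermediateField Kt (LaurentSeries Kt))

/-- A cusp family over `t = c` of total rank `[E : Kt(t)]` (what
`SmoothProd4.smoothOver_of_family_vert` consumes). -/
def HasCuspFamilyFull (t : ↥E) (c : ↥O) : Prop :=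
  Fermat.Agent.RED.CUSP.CuspIface23.HasCuspFamily O E t c
    (Module.finrank ↥(IntermediateField.adjoin Kt {t}) ↥E)

end Generic

section Targets

variable (n e M : ℕ) [NeZero n] (A : ValuationSubring Qbar)

/-- The Hauptmodul of level `n` lies in `K · F1 M` as soon as it lies in `K · F_full(M)`. -/
theorem tq_mem_FK1 {K : IntermediateField ℚ Qbar} (h : tq K n e ∈ FK M K) : tq K n e ∈ FK1 M K :=
  FK_le_FK1 M K h

/-- `P K ϖ t` holds over all sufficiently large number fields `K`, for every uniformiser `ϖ` of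
`A_K` and `t = tq K n e ∈ FK1 M K` (twin of `ModelTargets4.EventuallyT`). -/
def EventuallyT1
    (P : ∀ K : IntermediateField ℚ Qbar, ↥(AK A K) → ↥(FK1 M K) → Prop) : Prop :=
  ∃ K₀ : IntermediateField ℚ Qbar, FiniteDimensional ℚ K₀ ∧
    ∀ K : IntermediateField ℚ Qbar, FiniteDimensional ℚ K → K₀ ≤ K →
      ∀ ϖ : ↥(AK A K), Irreducible ϖ →
        ∀ t : ↥(FK1 M K), (t : LaurentSeries K) = tq K n e → P K ϖ t

/-- **Deliverable of HORIZ₁** (twin of `HorizConcrete26.hH_all`): the three horizontal inputs. -/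
def HorizTarget1 (cv : SL(2, ℤ) → Option Kbar) : Prop :=
  EventuallyT1 n e M A fun K ϖ t =>
    Fermat.Agent.RED.PUR.OffIface4.HUNROff (AK A K) (FK1 M K) ϖ t (cuspSet A K cv) ∧
    (∀ c ∈ cuspSet A K cv,
      Fermat.Agent.RED.CUSP.CuspIface23.HUNRCusp (AK A K) (FK1 M K) ϖ t c) ∧
    Fermat.Agent.RED.CUSP.CuspIface23.HUNRCusp (AK A K) (FK1 M K) ϖ t⁻¹ 0

/-- **Deliverable of CUSP₁**: cusp families over every finite cusp value and over `t = ∞`, of total
rank `[K · F1 M : K(t)]` (`HasCuspFamilyFull` is generic: typeclass search at the concrete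
number-field types is slow). -/
def CuspFamilyTarget1 (cv : SL(2, ℤ) → Option Kbar) : Prop :=
  EventuallyT1 n e M A fun K _ t =>
    (∀ c ∈ cuspSet A K cv, HasCuspFamilyFull (AK A K) (FK1 M K) t c) ∧
    HasCuspFamilyFull (AK A K) (FK1 M K) t⁻¹ 0

end Targets

end Fermat.Agent.ES.R48.G3Defs4
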