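/-
Programme R (S48, Deligne–Serre), chapter GEOM, sub-chapter G3 MODEL₁ / DESC (helper7), brick D0:
the GENERIC twin of `RED/DESC/PlaceExtend27` §Concrete — extension of places along
`K·F₀ ⊂ K((q))  ⟶  ℚ̄·F₀ ⊂ ℚ̄((q))` for ANY field of rational Laurent series
`F₀ : IntermediateField ℚ (LaurentSeries ℚ)` (main: `F₀ = modularFunctionFieldFull M`;
GEOM: `F₀ = F1 M`, `F1 (M·p)`, …).

* `baseChangeHomG F₀ K : ↥(laurentBaseChange K F₀) →+* ↥(laurentBaseChange Qbar F₀)` (coefficientwise),
  `coe_baseChangeHomG`, `baseChangeHomG_algebraMap`, `baseChangeHomG_injective`;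
* `exists_place_aboveG`, `exists_place_above_memG` : given a generator
  `hgen : ∃ x : ↥(laurentBaseChange Qbar F₀), FF.IsGen Qbar x` of the function field over `ℚ̄`, every
  place `w` of `K·F₀ / K` extends to a place `v` of `ℚ̄·F₀ / ℚ̄` with `ord_v ∘ ι = e · ord_w`, `e ≥ 1`.

The abstract part (`PlaceExtend27.exists_place_above_abstract`, `isAlgebraic_Qbar_over`) and
`CoeffDescent1` are imported AS-IS from main.
-/
import Mathlib
import Fermat.Agent.RED.DESC.PlaceExtend27

set_option autoImplicit false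
set_option linter.unusedSectionVars false

namespace Fermat.Agent.ES.R48.PlaceExtendG7

open AlgebraicCurve ModularCurve HahnSeries
open Fermat.Agent.X0 Fermat.Agent.RED.Interface4 Fermat.Agent.RED.DESC
open Fermat.Agent.RED.DESC.PlaceExtend27

noncomputable section

variable (F₀ : IntermediateField ℚ (LaurentSeries ℚ)) (K : IntermediateField ℚ Qbar)

/-- Coefficientwise base change `K·F₀ → ℚ̄·F₀`. -/
def baseChangeHomG : ↥(laurentBaseChange K F₀) →+* ↥(laurentBaseChange Qbar F₀) :=
  RingHom.codRestrict ((coeffMap (algebraMap K Qbar)).comp (laurentBaseChange K F₀).val.toRingHom)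
    (laurentBaseChange Qbar F₀)
    (fun f => CoeffDescent1.coeffMap_mem_laurentBaseChange_of_algHom (algebraMap K Qbar) F₀ f.2)

@[simp] theorem coe_baseChangeHomG (f : ↥(laurentBaseChange K F₀)) :
    ((baseChangeHomG F₀ K f : ↥(laurentBaseChange Qbar F₀)) : LaurentSeries Qbar) =
      coeffMap (algebraMap K Qbar) (f : LaurentSeries K) := rfl

theorem baseChangeHomG_algebraMap (c : K) :
    baseChangeHomG F₀ K (algebraMap K ↥(laurentBaseChange K F₀) c) =
      algebraMap Qbar ↥(laurentBaseChange Qbar F₀) (c : Qbar) := by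
  apply Subtype.ext
  rw [coe_baseChangeHomG]
  exact CoeffDescent1.coeffMap_algebraMap_of_ringHom (algebraMap K Qbar) c

theorem baseChangeHomG_injective : Function.Injective (baseChangeHomG F₀ K) :=
  (baseChangeHomG F₀ K).injective

/-- **(EXT), generic.**  Every place of `K·F₀ / K` extends to a place of `ℚ̄·F₀ / ℚ̄`. -/
theorem exists_place_aboveG (hgen : ∃ x : ↥(laurentBaseChange Qbar F₀), FF.IsGen Qbar x)
    (w : Place K ↥(laurentBaseChange K F₀)) :
    ∃ (v : Place Qbar ↥(laurentBaseChange Qbar F₀)) (e : ℕ), 0 < e ∧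
      ∀ f : ↥(laurentBaseChange K F₀), v.ord (baseChangeHomG F₀ K f) = (e : ℤ) * w.ord f := by
  have h1 := isAlgebraic_Qbar_over K
  obtain ⟨x, hx⟩ := hgen
  exact exists_place_above_abstract (baseChangeHomG F₀ K) (baseChangeHomG_algebraMap F₀ K) hx w

/-- **(EXT), generic**, membership form. -/
theorem exists_place_above_memG (hgen : ∃ x : ↥(laurentBaseChange Qbar F₀), FF.IsGen Qbar x)
    (w : Place K ↥(laurentBaseChange K F₀)) :
    ∃ (v : Place Qbar ↥(laurentBaseChange Qbar F₀)) (e : ℕ), 0 < e ∧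
      (∀ f : ↥(laurentBaseChange K F₀), v.ord (baseChangeHomG F₀ K f) = (e : ℤ) * w.ord f) ∧
      ∀ f : ↥(laurentBaseChange K F₀),
        baseChangeHomG F₀ K f ∈ v.toValuationSubring ↔ f ∈ w.toValuationSubring := by
  obtain ⟨v, e, he, hord⟩ := exists_place_aboveG F₀ K hgen w
  refine ⟨v, e, he, hord, fun f => ?_⟩
  rw [FF.ffp_mem_iff_ord_nonneg, FF.ffp_mem_iff_ord_nonneg, hord]
  have he' : (0 : ℤ) < (e : ℤ) := by exact_mod_cast he
  constructor
  · intro h
    by_contra hneg
    rw [not_le] at hneg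
    have := mul_neg_of_pos_of_neg he' hneg
    omega
  · intro h
    exact mul_nonneg he'.le h

end

end Fermat.Agent.ES.R48.PlaceExtendG7
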