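/-
Programme R (S48, Deligne–Serre), chapter GEOM, G3 MODEL₁ cusp side / G2 DICT₁ (helper26):
**the cusp expansions of `X₁(M)` restrict to the cusp expansions of `X₀(M)`** — the precise form of
"`t ∘ γ` does not depend on the level structure".

The `X₀` interface `(D : RealizeData M) (C : CuspData M D)` is RIGID: `D.Θ` is determined by its values
on the generators `j_d` and on the constants, and `C.T γ` is determined on `Rsub M` by the
`q_M`-expansion of `Θ u ∘ γ`, hence on `FF M = Frac (Rsub M)`.  Consequently, for ANY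
`(D₁ : RealizeData1 M) (C₁ : CuspData1 M D₁)`:

* `T_ffIncl : C₁.T γ (ffIncl M x) = (cuspData M).T γ x` for every `x : FF M`;

so every statement of main about `(cuspData M).T γ` on `FF M` (in particular the whole of
`RED/BASE/CuspExpT11`, `CuspExpMain11`: `Interface12.CuspExp n e M cv`) transfers AS-IS to `C₁`:

* `cuspShape_T1 : CuspExp n e M cv → ∃ h, ∀ γ, CuspShape n (C₁.T γ (ffIncl M (tF M h))) (cv γ)`.
-/
import Fermat.Agent.X0.CuspEquiv
import Fermat.Agent.X0.CuspExpand
import Fermat.Agent.X0.CuspGood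
import Fermat.Agent.RED.BASE.Interface12
import Fermat.Agent.RED.CUSP.IntegralCusp16
import Fermat.Agent.ES.R48.X1Restrict13

set_option autoImplicit false
set_option linter.unusedSectionVars false

open UpperHalfPlane
open scoped MatrixGroups

noncomputable section

namespace Fermat.Agent.ES.R48.X1CuspT26

open Fermat.Agent.X0 Fermat.Agent.ES.R48.X1Iface13 Fermat.Agent.ES.R48.X1Restrict13

variable {M : ℕ} [NeZero M]

/-! ### Rigidity of the `X₀` interface -/

/-- Two realisations of `Rsub M` have the same `Θ`. -/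
theorem Theta_eq (D D' : RealizeData M) (u : Rsub M) : D.Θ u = D'.Θ u := by
  induction u using FracR.Rsub_induction with
  | hgen d hd => exact (D.jd_eq d hd).trans (D'.jd_eq d hd).symm
  | hconst c => rw [D.algebraMap_eq, D'.algebraMap_eq]
  | hadd u v hu hv => rw [map_add, map_add, hu, hv]
  | hmul u v hu hv => rw [map_mul, map_mul, hu, hv]

/-- Two families of cusp expansions (over possibly different realisations) coincide. -/
theorem T_eq {D D' : RealizeData M} (C : CuspData M D) (C' : CuspData M D') (γ : SL(2, ℤ)) :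
    C.T γ = C'.T γ := by
  apply CuspEquiv.ringHom_ext_Rsub
  intro u
  obtain ⟨m, P, hP, hT⟩ := C.spec γ u
  rw [hT]
  symm
  apply CuspEquiv.T_eq_of_isQExp C' γ u
  rw [← Theta_eq D D' u]
  exact hP

/-! ### Restriction from `X₁(M)` to `X₀(M)` -/

variable {D₁ : RealizeData1 M} (C₁ : CuspData1 M D₁)

/-- **The cusp expansions of `X₁(M)` restrict to those of `X₀(M)`.** -/
theorem T_ffIncl (γ : SL(2, ℤ)) (x : FF M) : C₁.T γ (ffIncl M x) = (cuspData M).T γ x := by
  rw [← restrictC_T C₁ γ x, T_eq (restrictC C₁) (cuspData M) γ]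

/-- The same, as an equality of ring homomorphisms. -/
theorem T_comp_ffIncl (γ : SL(2, ℤ)) :
    (C₁.T γ).comp (ffIncl M : FF M →+* FF1 M) = (cuspData M).T γ :=
  RingHom.ext fun x => T_ffIncl C₁ γ x

/-- The realisation of `X₁(M)` restricts to the one of `X₀(M)`. -/
theorem Theta_rsubIncl (u : Rsub M) : D₁.Θ (rsubIncl M u) = (realizeData M).Θ u :=
  Theta_eq (restrictR M D₁) (realizeData M) u

/-! ### Transfer of the cusp shapes of the Hauptmodul -/

open Fermat.Agent.RED.BASE.Interface12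

/-- **`CuspExp` at level `Γ₁(M)`**: the cusp shapes of the Hauptmodul `t` (level `n ∣ M`), proved on
main for `(cuspData M).T γ`, hold verbatim for the cusp expansions `C₁.T γ` of `X₁(M)`. -/
theorem cuspShape_T1 {n e : ℕ} [NeZero n] {cv : SL(2, ℤ) → Option Kbar}
    (hcv : CuspExp n e M cv) :
    ∃ h : TMem n e M, ∀ γ : SL(2, ℤ), CuspShape n (C₁.T γ (ffIncl M (tF M h))) (cv γ) := by
  obtain ⟨h, hs⟩ := hcv
  exact ⟨h, fun γ => by rw [T_ffIncl]; exact hs γ⟩

/-- The same for a given membership proof. -/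
theorem cuspShape_T1' {n e : ℕ} [NeZero n] {cv : SL(2, ℤ) → Option Kbar}
    (hcv : CuspExp n e M cv) (h : TMem n e M) (γ : SL(2, ℤ)) :
    CuspShape n (C₁.T γ (ffIncl M (tF M h))) (cv γ) := by
  obtain ⟨h', hs⟩ := hcv
  rw [T_ffIncl]
  exact hs γ

/-- The value of `C₁.T γ` on the constants. -/
theorem T_algebraMap (γ : SL(2, ℤ)) (c : Kbar) :
    C₁.T γ (algebraMap Kbar (FF1 M) c) = HahnSeries.C c := by
  have h : algebraMap Kbar (FF1 M) c = ffIncl M (algebraMap Kbar (FF M) c) :=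
    ((ffIncl M).commutes c).symm
  rw [h, T_ffIncl, (CuspGood.good (cuspData M)).map_const]

/-! ### Transfer of the integral cusp expansions of the generators `j_d` -/

/-- `C₁.T γ` on the generator `j_d` of `F₁`. -/
theorem T_jdF1 (γ : SL(2, ℤ)) (d : ℕ) [NeZero d] (hd : d ∣ M) :
    C₁.T γ (jdF1 M d hd) = (cuspData M).T γ (jdF M d hd) :=
  T_ffIncl C₁ γ (jdF M d hd)

/-- **Integral form of the cusp expansion of `j_d` at level `Γ₁(M)`** (transfer of
`IntegralCusp16.exists_T_jd`): `C₁.T γ j_d = q_M^{-m} P`, `m > 0`, all coefficients of `P` in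
`ℤ[ζ_M]`, `P` a series in `X^m`, `P(0)` a power of `ζ_M`. -/
theorem exists_T_jd1 (d : ℕ) [NeZero d] (hd : d ∣ M) (γ : SL(2, ℤ)) :
    ∃ (m : ℕ) (P : PowerSeries Kbar), 0 < m ∧ C₁.T γ (jdF1 M d hd) = laurentOf m P ∧
      (∀ n, PowerSeries.coeff n P ∈ Subring.closure {zetaK M}) ∧
      (∀ n, ¬ m ∣ n → PowerSeries.coeff n P = 0) ∧
      ∃ k : ℤ, PowerSeries.coeff 0 P = zetaK M ^ k := by
  rw [T_jdF1]
  exact Fermat.Agent.RED.CUSP.IntegralCusp16.exists_T_jd M (realizeData M) (cuspData M) d hd γ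

/-- The leading coefficient of `C₁.T γ j_d` is a unit of `ℤ[ζ_M]` (transfer of
`IntegralCusp16.exists_T_jd_leading`). -/
theorem exists_T_jd1_leading (d : ℕ) [NeZero d] (hd : d ∣ M) (γ : SL(2, ℤ)) :
    ∃ (m : ℕ), 0 < m ∧ (∀ n : ℤ, n < -(m : ℤ) → (C₁.T γ (jdF1 M d hd)).coeff n = 0) ∧
      (C₁.T γ (jdF1 M d hd)).coeff (-(m : ℤ)) ∈ Subring.closure {zetaK M} ∧
      ((C₁.T γ (jdF1 M d hd)).coeff (-(m : ℤ)))⁻¹ ∈ Subring.closure {zetaK M} ∧
      (C₁.T γ (jdF1 M d hd)).coeff (-(m : ℤ)) ≠ 0 := by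
  rw [T_jdF1]
  exact Fermat.Agent.RED.CUSP.IntegralCusp16.exists_T_jd_leading M (realizeData M) (cuspData M)
    d hd γ

end Fermat.Agent.ES.R48.X1CuspT26
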