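/-
Programme R (S48, Deligne–Serre), chapter GEOM, G3 MODEL₁ / C. CUSP₁ (helper26): twin of
`RED/CUSP/CuspEmbK16` for `X₁(M)` — the cusp expansions over a number field.

`K : IntermediateField ℚ Qbar` with `zetaK M ∈ K`, `γ ∈ SL(2, ℤ)`, `(D : RealizeData1 M)
(C : CuspData1 M D)`.  With `emb := PlaceExtendG7.baseChangeHomG (F1 M) K : FK1 M K →+* FF1 M`:

* `xdK1`, `wK` : the generators `j(q^d)` (`d ∣ M`) and `W_c` (`c ∈ (ZMod M)ˣ`) of `FK1 M K`,
  `emb_xdK1`, `emb_wK`, and the generator induction `map_mem_of_gen1`;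
* `ZzInv M = ℤ[ζ_M, 1/M] ⊆ ℚbar`; `WInt C` : the HYPOTHESIS "all coefficients of `C.T γ W_c` lie in
  `ℤ[ζ_M, 1/M]`" (= G1-E4, helper10's `WCuspInt10`, through `X1CuspEquiv23.T_eq_of_isQExp`);
  the `j_d`-case is `X1CuspT26.exists_T_jd1` (transfer from main);
* `T_coeff_mem` : all coefficients of `C.T γ (emb z)` lie in `K`;
* `TK γ : FK1 M K →+* K((s))` — the compressed cusp expansion over `K`
  (`coeffMap (K → Qbar) ∘ TK γ = CuspExactOne26.Tc C γ ∘ emb`), `TK_coeff`, `TK_const`,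
  and under `Exact C`: `order_TK` (`= ord_v (emb z)`, `v = placeOf C γ`), `mem_placeOf_iff_TK`;
* for a valuation subring `A` of `Qbar` with `M⁻¹ ∈ A` (`A_K = Interface4.AK A K` a PID):
  `TK_gen_coeff_mem`, `TK_mem_psFrac`, **(C1)** `TK_mem_psRange_of_isIntegral`, `iotaPS`, `toLS_iotaPS`.

The generic lemmas (`coeffMap_injective'`, `mem_range_coeffMap_iff`, `order_coeffMap`, `coeffMap_C`,
`cEquiv`, `mem_psFrac_of_coeff`, `C_mem_psFrac`, `map_mem_psRange_of_isIntegralElem`, `zetaK_mem`,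
`psEquiv`) are imported AS-IS from main's `CuspEmbK16`.
-/
import Fermat.Agent.RED.CUSP.CuspEmbK16
import Fermat.Agent.ES.R48.CuspExactOne26
import Fermat.Agent.ES.R48.X1CuspT26
import Fermat.Agent.ES.R48.PlaceExtendG7
import Fermat.Agent.ES.R48.G3Defs4

set_option autoImplicit false
set_option linter.unusedSectionVars false

noncomputable section

namespace Fermat.Agent.ES.R48.CuspEmbKOne26

open Fermat.Agent.X0 AlgebraicCurve ModularCurve HahnSeries
open Fermat.Agent.RED.Interface4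
open Fermat.Agent.RED.CUSP.CuspEmbK16
open Fermat.Agent.ES.R48.FF1Defs13 Fermat.Agent.ES.R48.X1Iface13
open Fermat.Agent.ES.R48.G3Defs4 Fermat.Agent.ES.R48.PlaceExtendG7
open Fermat.Agent.ES.R48.CuspExactOne26
open scoped MatrixGroups

variable (M : ℕ) [NeZero M] (K : IntermediateField ℚ Qbar)

/-! ### The generators of `FK1 M K` -/

/-- The generator `x_d = j(q^d)` of `FK1 M K`. -/
def xdK1 (d : ℕ) [NeZero d] (hd : d ∣ M) : ↥(FK1 M K) :=
  ⟨coeffEmb K (qExpand ℚ d jq), coeffEmb_mem_laurentBaseChange K (jqd_mem_F1 M hd)⟩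

/-- The generator `W_c` of `FK1 M K`. -/
def wK (c : (ZMod M)ˣ) : ↥(FK1 M K) :=
  ⟨coeffEmb K (wq M (c : ZMod M)), coeffEmb_mem_laurentBaseChange K (wq_mem_F1 M c)⟩

/-- The coefficientwise base change `FK1 M K → FF1 M`. -/
abbrev emb : ↥(FK1 M K) →+* FF1 M := baseChangeHomG (F1 M) K

theorem emb_xdK1 (d : ℕ) [NeZero d] (hd : d ∣ M) : emb M K (xdK1 M K d hd) = jdF1 M d hd := by
  apply Subtype.ext
  rw [coe_baseChangeHomG]
  exact Fermat.Agent.RED.DESC.CoeffDescent1.coeffMap_coeffEmb_of_algHom (algebraMap K Qbar) _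

theorem emb_wK (c : (ZMod M)ˣ) : emb M K (wK M K c) = wF M c := by
  apply Subtype.ext
  rw [coe_baseChangeHomG]
  exact Fermat.Agent.RED.DESC.CoeffDescent1.coeffMap_coeffEmb_of_algHom (algebraMap K Qbar) _

theorem emb_algebraMap (c : K) :
    emb M K (algebraMap K ↥(FK1 M K) c) = algebraMap Kbar (FF1 M) (c : Qbar) :=
  baseChangeHomG_algebraMap (F1 M) K c

theorem emb_injective : Function.Injective (emb M K) := baseChangeHomG_injective (F1 M) K

/-- A ring hom from `FK1 M K` into a field maps everything into a subfield as soon as it does so for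
the constants and the generators `x_d`, `W_c`. -/
theorem map_mem_of_gen1 {L : Type*} [Field L] (f : ↥(FK1 M K) →+* L) (𝔽 : Subfield L)
    (hconst : ∀ c : K, f (algebraMap K ↥(FK1 M K) c) ∈ 𝔽)
    (hj : ∀ (d : ℕ) [NeZero d] (hd : d ∣ M), f (xdK1 M K d hd) ∈ 𝔽)
    (hw : ∀ c : (ZMod M)ˣ, f (wK M K c) ∈ 𝔽) (z : ↥(FK1 M K)) : f z ∈ 𝔽 := by
  -- the image of `F1 M`
  have hF1 : ∀ (x : LaurentSeries ℚ) (hx : x ∈ F1 M),
      f ⟨coeffEmb K x, coeffEmb_mem_laurentBaseChange K hx⟩ ∈ 𝔽 := by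
    intro x hx
    have hmem : ∀ y, y ∈ IntermediateField.adjoin ℚ (divisorExpansions M ∪ wExpansions M) →
        y ∈ F1 M := fun y hy => hy
    suffices h : ∀ (y : LaurentSeries ℚ)
        (hy : y ∈ IntermediateField.adjoin ℚ (divisorExpansions M ∪ wExpansions M)),
        f ⟨coeffEmb K y, coeffEmb_mem_laurentBaseChange K (hmem y hy)⟩ ∈ 𝔽 from h x hx
    intro y hy
    induction hy using IntermediateField.adjoin_induction with
    | mem y hy =>
      rcases hy with ⟨d, hdne, hd, rfl⟩ | ⟨c, rfl⟩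
      · exact hj d hd
      · exact hw c
    | algebraMap r =>
      have : (⟨coeffEmb K (algebraMap ℚ (LaurentSeries ℚ) r),
          coeffEmb_mem_laurentBaseChange K (hmem _ (IntermediateField.algebraMap_mem _ r))⟩ :
          ↥(FK1 M K)) = algebraMap K ↥(FK1 M K) (algebraMap ℚ K r) := by
        apply Subtype.ext
        show coeffEmb K (algebraMap ℚ (LaurentSeries ℚ) r) =
          algebraMap K (LaurentSeries K) (algebraMap ℚ K r)
        rw [coeffEmb]
        exact Fermat.Agent.RED.DESC.CoeffDescent1.coeffMap_algebraMap_of_ringHom _ r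
      rw [this]
      exact hconst _
    | add x y hx hy h1 h2 =>
      have : (⟨coeffEmb K (x + y), coeffEmb_mem_laurentBaseChange K (hmem _ (add_mem hx hy))⟩ :
          ↥(FK1 M K)) = ⟨coeffEmb K x, coeffEmb_mem_laurentBaseChange K (hmem _ hx)⟩ +
            ⟨coeffEmb K y, coeffEmb_mem_laurentBaseChange K (hmem _ hy)⟩ :=
        Subtype.ext (map_add _ _ _)
      rw [this, map_add]
      exact add_mem h1 h2
    | inv x hx h1 =>
      have : (⟨coeffEmb K x⁻¹, coeffEmb_mem_laurentBaseChange K (hmem _ (inv_mem hx))⟩ :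
          ↥(FK1 M K)) = (⟨coeffEmb K x, coeffEmb_mem_laurentBaseChange K (hmem _ hx)⟩ :
            ↥(FK1 M K))⁻¹ :=
        Subtype.ext (map_inv₀ _ _)
      rw [this, map_inv₀]
      exact inv_mem h1
    | mul x y hx hy h1 h2 =>
      have : (⟨coeffEmb K (x * y), coeffEmb_mem_laurentBaseChange K (hmem _ (mul_mem hx hy))⟩ :
          ↥(FK1 M K)) = ⟨coeffEmb K x, coeffEmb_mem_laurentBaseChange K (hmem _ hx)⟩ *
            ⟨coeffEmb K y, coeffEmb_mem_laurentBaseChange K (hmem _ hy)⟩ :=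
        Subtype.ext (map_mul _ _ _)
      rw [this, map_mul]
      exact mul_mem h1 h2
  obtain ⟨z, hz⟩ := z
  have hFK : ∀ y, y ∈ IntermediateField.adjoin K (⇑(coeffEmb K) '' (F1 M : Set (LaurentSeries ℚ))) →
      y ∈ FK1 M K := fun y hy => hy
  suffices h : ∀ (y : LaurentSeries K)
      (hy : y ∈ IntermediateField.adjoin K (⇑(coeffEmb K) '' (F1 M : Set (LaurentSeries ℚ)))),
      f ⟨y, hFK y hy⟩ ∈ 𝔽 from h z hz
  intro y hy
  induction hy using IntermediateField.adjoin_induction with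
  | mem x hx =>
    obtain ⟨x₀, hx₀, rfl⟩ := hx
    exact hF1 x₀ hx₀
  | algebraMap c => exact hconst c
  | add x y hx hy h1 h2 =>
    have : (⟨x + y, hFK _ (add_mem hx hy)⟩ : ↥(FK1 M K)) = ⟨x, hFK _ hx⟩ + ⟨y, hFK _ hy⟩ := rfl
    rw [this, map_add]
    exact add_mem h1 h2
  | inv x hx h1 =>
    have : (⟨x⁻¹, hFK _ (inv_mem hx)⟩ : ↥(FK1 M K)) = (⟨x, hFK _ hx⟩ : ↥(FK1 M K))⁻¹ := rfl
    rw [this, map_inv₀]
    exact inv_mem h1
  | mul x y hx hy h1 h2 =>
    have : (⟨x * y, hFK _ (mul_mem hx hy)⟩ : ↥(FK1 M K)) = ⟨x, hFK _ hx⟩ * ⟨y, hFK _ hy⟩ := rfl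
    rw [this, map_mul]
    exact mul_mem h1 h2

/-! ### The coefficients of the cusp expansions lie in `K` -/

/-- The subring `ℤ[ζ_M, 1/M]` of `Qbar`. -/
def ZzInv : Subring Qbar := Subring.closure {zetaK M, ((M : Qbar))⁻¹}

theorem Zzeta_le_ZzInv : (Zzeta (M := M)) ≤ ZzInv M := by
  rw [Subring.closure_le]
  rintro x rfl
  exact Subring.subset_closure (Set.mem_insert _ _)

variable {M K}

theorem ZzInv_le (hζ : zetaK M ∈ K) : ZzInv M ≤ K.toSubring := by
  rw [ZzInv, Subring.closure_le]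
  rintro x (rfl | rfl)
  · exact hζ
  · show ((M : Qbar))⁻¹ ∈ K
    exact inv_mem (natCast_mem K M)

theorem ZzInv_le_A (A : ValuationSubring Qbar) (hMA : ((M : Qbar))⁻¹ ∈ A) :
    ZzInv M ≤ A.toSubring := by
  rw [ZzInv, Subring.closure_le]
  rintro x (rfl | rfl)
  · exact zetaK_mem A
  · exact hMA

variable {D : RealizeData1 M} (C : CuspData1 M D)

/-- **(E4), integrality of the cusp expansions of `W_c`** (hypothesis; = helper10's `WCuspInt10`
through `X1CuspEquiv23.T_eq_of_isQExp` and `D.w_eq`). -/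
def WInt : Prop :=
  ∀ (c : (ZMod M)ˣ) (γ : SL(2, ℤ)) (n : ℤ), (C.T γ (wF M c)).coeff n ∈ ZzInv M

/-- `WInt` from the `q_M`-expansions of `wFun M c ∘ γ` (the literal shape of
`WCuspInt10.exists_isQExp_compSL_wFun_unit_int`). -/
theorem wInt_of_isQExp
    (h : ∀ (c : (ZMod M)ˣ) (γ : SL(2, ℤ)), ∃ (m : ℕ) (P : PowerSeries Kbar),
      IsQExp M (compSL (wFun M (c : ZMod M)) γ) m (P.map iotaK) ∧
        ∀ n, PowerSeries.coeff n P ∈ ZzInv M) : WInt C := by
  intro c γ n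
  obtain ⟨m, P, hP, hcoef⟩ := h c γ
  have hT : C.T γ ((wR M c : Rsub1 M) : FF1 M) = laurentOf m P := by
    apply X1CuspEquiv23.T_eq_of_isQExp C γ (wR M c)
    rw [D.w_eq]
    exact hP
  rw [coe_wR] at hT
  rw [hT]
  exact Fermat.Agent.IG.AN.DeltaAffine11.coeff_laurentOf_mem _ m hcoef n

variable (hζ : zetaK M ∈ K) (hW : WInt C) (γ : SL(2, ℤ))

/-- The coefficients of the expansion of a generator `x_d` lie in `ℤ[ζ_M] ⊆ ℤ[ζ_M, 1/M]`. -/
theorem T_xd_coeff_mem (d : ℕ) [NeZero d] (hd : d ∣ M) (n : ℤ) :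
    (C.T γ (emb M K (xdK1 M K d hd))).coeff n ∈ ZzInv M := by
  rw [emb_xdK1]
  obtain ⟨m, P, -, hT, hP, -, -⟩ := X1CuspT26.exists_T_jd1 C d hd γ
  rw [hT]
  exact Zzeta_le_ZzInv M (Fermat.Agent.IG.AN.DeltaAffine11.coeff_laurentOf_mem _ m hP n)

include hW in
/-- The coefficients of the expansion of a generator `W_c` lie in `ℤ[ζ_M, 1/M]`. -/
theorem T_w_coeff_mem (c : (ZMod M)ˣ) (n : ℤ) :
    (C.T γ (emb M K (wK M K c))).coeff n ∈ ZzInv M := by
  rw [emb_wK]
  exact hW c γ n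

include hζ hW in
/-- `C.T γ (emb z)` has all its coefficients in `K`. -/
theorem T_mem_fieldRange (z : ↥(FK1 M K)) :
    C.T γ (emb M K z) ∈ (coeffMap (algebraMap K Qbar)).fieldRange := by
  refine map_mem_of_gen1 M K ((C.T γ).comp (emb M K)) _ ?_ ?_ ?_ z
  · intro c
    rw [RingHom.comp_apply, emb_algebraMap, (hGood C).map_const]
    exact ⟨HahnSeries.C c, coeffMap_C _ c⟩
  · intro d _ hd
    rw [RingHom.comp_apply]
    show _ ∈ (coeffMap (algebraMap K Qbar)).range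
    rw [mem_range_coeffMap_iff]
    intro n
    have h1 := ZzInv_le hζ (T_xd_coeff_mem (K := K) C γ d hd n)
    exact ⟨⟨_, h1⟩, rfl⟩
  · intro c
    rw [RingHom.comp_apply]
    show _ ∈ (coeffMap (algebraMap K Qbar)).range
    rw [mem_range_coeffMap_iff]
    intro n
    have h1 := ZzInv_le hζ (T_w_coeff_mem (K := K) C hW γ c n)
    exact ⟨⟨_, h1⟩, rfl⟩

include hζ hW in
theorem T_coeff_mem (z : ↥(FK1 M K)) (n : ℤ) : (C.T γ (emb M K z)).coeff n ∈ K := by
  obtain ⟨y, hy⟩ := T_mem_fieldRange C hζ hW γ z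
  rw [← hy, coeffMap_coeff]
  exact (y.coeff n).2

include hζ hW in
theorem Tc_mem_range (z : ↥(FK1 M K)) :
    Tc C γ (emb M K z) ∈ (coeffMap (algebraMap K Qbar)).range := by
  rw [mem_range_coeffMap_iff]
  intro n
  rw [Tc_coeff]
  exact ⟨⟨_, T_coeff_mem C hζ hW γ z _⟩, rfl⟩

/-! ### The compressed expansion over `K` -/

/-- **The compressed cusp expansion over `K`**: `TK γ : FK1 M K →+* K((s))`. -/
def TK : ↥(FK1 M K) →+* LaurentSeries K :=
  ((cEquiv K).symm : _ →+* LaurentSeries K).comp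
    (((Tc C γ).comp (emb M K)).codRestrict (coeffMap (algebraMap K Qbar)).range
      (Tc_mem_range C hζ hW γ))

theorem coeffMap_TK (z : ↥(FK1 M K)) :
    coeffMap (algebraMap K Qbar) (TK C hζ hW γ z) = Tc C γ (emb M K z) := by
  have h : (cEquiv K) (TK C hζ hW γ z) =
      (((Tc C γ).comp (emb M K)).codRestrict (coeffMap (algebraMap K Qbar)).range
        (Tc_mem_range C hζ hW γ)) z := by
    rw [TK, RingHom.comp_apply]
    exact (cEquiv K).apply_symm_apply _
  exact congrArg Subtype.val h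

theorem TK_coeff (z : ↥(FK1 M K)) (n : ℤ) :
    algebraMap K Qbar ((TK C hζ hW γ z).coeff n) =
      (C.T γ (emb M K z)).coeff ((cuspR (M := M) γ : ℤ) * n) := by
  rw [← coeffMap_coeff, coeffMap_TK, Tc_coeff]

theorem TK_const (c : K) : TK C hζ hW γ (algebraMap K ↥(FK1 M K) c) = HahnSeries.C c := by
  apply coeffMap_injective' (algebraMap K Qbar)
  rw [coeffMap_TK, emb_algebraMap, Tc_const, coeffMap_C]
  rfl

/-- `coeffMap (qExpand r (TK γ z)) = C.T γ (emb z)`. -/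
theorem coeffMap_qExpand_TK (z : ↥(FK1 M K)) :
    coeffMap (algebraMap K Qbar) (qExpand K (cuspR (M := M) γ) (TK C hζ hW γ z)) =
      C.T γ (emb M K z) := by
  rw [ModularCurve.coeffMap_qExpand, coeffMap_TK, qExpand_Tc]

variable (hE : Exact C)

include hE in
/-- **Exact order**: `ord (TK γ z) = ord_v (emb z)`, `v = placeOf C γ`. -/
theorem order_TK (z : ↥(FK1 M K)) (hz : z ≠ 0) :
    (TK C hζ hW γ z).order = (placeOf C γ).ord (emb M K z) := by
  rw [← order_coeffMap (algebraMap K Qbar), coeffMap_TK,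
    order_Tc hE γ _ ((map_ne_zero_iff _ (emb_injective M K)).mpr hz)]

include hE in
theorem mem_placeOf_iff_TK (z : ↥(FK1 M K)) (hz : z ≠ 0) :
    emb M K z ∈ (placeOf C γ).toValuationSubring ↔ 0 ≤ (TK C hζ hW γ z).order := by
  rw [order_TK C hζ hW γ hE z hz, FF.ffp_mem_iff_ord_nonneg]

/-! ### Integrality: the expansions over `A_K = A ∩ K` -/

section Integral

open Fermat.Agent.RED.CUSP.IntClosedPS16

variable (A : ValuationSubring Qbar) (hMA : ((M : Qbar))⁻¹ ∈ A)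

include hMA in
/-- The coefficients of `TK γ x_d` lie in `A_K`. -/
theorem TK_xd_coeff_mem (d : ℕ) [NeZero d] (hd : d ∣ M) (n : ℤ) :
    (TK C hζ hW γ (xdK1 M K d hd)).coeff n ∈ AK A K := by
  rw [AK, ValuationSubring.mem_comap, TK_coeff]
  exact ZzInv_le_A A hMA (T_xd_coeff_mem (K := K) C γ d hd _)

include hMA in
/-- The coefficients of `TK γ W_c` lie in `A_K`. -/
theorem TK_w_coeff_mem (c : (ZMod M)ˣ) (n : ℤ) :
    (TK C hζ hW γ (wK M K c)).coeff n ∈ AK A K := by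
  rw [AK, ValuationSubring.mem_comap, TK_coeff]
  exact ZzInv_le_A A hMA (T_w_coeff_mem (K := K) C hW γ c _)

variable [IsPrincipalIdealRing ↥(AK A K)]

include hMA in
/-- `TK γ` maps `FK1 M K` into `Frac (A_K⟦s⟧)`. -/
theorem TK_mem_psFrac (z : ↥(FK1 M K)) : TK C hζ hW γ z ∈ psFrac ↥(AK A K) ↥K := by
  refine map_mem_of_gen1 M K (TK C hζ hW γ) _ ?_ ?_ ?_ z
  · intro c
    rw [TK_const]
    exact C_mem_psFrac c
  · intro d _ hd
    apply mem_psFrac_of_coeff
    intro n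
    exact ⟨⟨_, TK_xd_coeff_mem C hζ hW γ A hMA d hd n⟩, rfl⟩
  · intro c
    apply mem_psFrac_of_coeff
    intro n
    exact ⟨⟨_, TK_w_coeff_mem C hζ hW γ A hMA c n⟩, rfl⟩

include hMA in
/-- **(C1).**  If `TK γ t ∈ A_K⟦s⟧` then `TK γ b ∈ A_K⟦s⟧` for every `b` integral over `A_K[t]`. -/
theorem TK_mem_psRange_of_isIntegral (t : ↥(FK1 M K))
    (ht : TK C hζ hW γ t ∈ psRange ↥(AK A K) ↥K)
    (b : ↥(FK1 M K)) (hb : IsIntegral (Algebra.adjoin ↥(AK A K) {t}) b) :
    TK C hζ hW γ b ∈ psRange ↥(AK A K) ↥K := by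
  refine map_mem_psRange_of_isIntegralElem (TK C hζ hW γ) (TK_mem_psFrac C hζ hW γ A hMA)
    (algebraMap (Algebra.adjoin ↥(AK A K) {t}) ↥(FK1 M K)) ?_ hb
  rintro ⟨r, hr⟩
  show TK C hζ hW γ r ∈ psRange ↥(AK A K) ↥K
  induction hr using Algebra.adjoin_induction with
  | mem x hx =>
    rw [Set.mem_singleton_iff] at hx
    rw [hx]; exact ht
  | algebraMap a =>
    have h1 : algebraMap ↥(AK A K) ↥(FK1 M K) a = algebraMap K ↥(FK1 M K) (a : K) := rfl
    rw [h1, TK_const]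
    exact C_algebraMap_mem_psRange a
  | add x y _ _ h1 h2 => rw [map_add]; exact add_mem h1 h2
  | mul x y _ _ h1 h2 => rw [map_mul]; exact mul_mem h1 h2

/-- **`ιPS`**: for a ring `B` mapping to `FK1 M K` with image integral over `A_K[t]`, the cusp
expansion as a ring hom `B →+* A_K⟦s⟧`. -/
def iotaPS (t : ↥(FK1 M K)) (ht : TK C hζ hW γ t ∈ psRange ↥(AK A K) ↥K) {B : Type*} [CommRing B]
    (incl : B →+* ↥(FK1 M K))
    (hB : ∀ b, IsIntegral (Algebra.adjoin ↥(AK A K) {t}) (incl b)) :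
    B →+* PowerSeries ↥(AK A K) :=
  ((psEquiv (K := K) A).symm : _ →+* PowerSeries ↥(AK A K)).comp
    (((TK C hζ hW γ).comp incl).codRestrict (psRange ↥(AK A K) ↥K)
      (fun b => TK_mem_psRange_of_isIntegral C hζ hW γ A hMA t ht (incl b) (hB b)))

theorem toLS_iotaPS (t : ↥(FK1 M K)) (ht : TK C hζ hW γ t ∈ psRange ↥(AK A K) ↥K) {B : Type*}
    [CommRing B] (incl : B →+* ↥(FK1 M K))
    (hB : ∀ b, IsIntegral (Algebra.adjoin ↥(AK A K) {t}) (incl b)) (b : B) :
    toLS ↥(AK A K) ↥K (iotaPS C hζ hW γ A hMA t ht incl hB b) = TK C hζ hW γ (incl b) := by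
  have h : (psEquiv (K := K) A) (iotaPS C hζ hW γ A hMA t ht incl hB b) =
      (((TK C hζ hW γ).comp incl).codRestrict (psRange ↥(AK A K) ↥K)
        (fun b => TK_mem_psRange_of_isIntegral C hζ hW γ A hMA t ht (incl b) (hB b))) b := by
    rw [iotaPS, RingHom.comp_apply]
    exact (psEquiv (K := K) A).apply_symm_apply _
  exact congrArg Subtype.val h

end Integral

end Fermat.Agent.ES.R48.CuspEmbKOne26
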