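/-
Programme R (S48, Deligne–Serre), chapter GEOM, G3 MODEL₁ / C. CUSP₁ (helper26): twin of
`RED/CUSP/CuspFamilyK16` for `X₁(M)` — the concrete family `ι γ := CuspEmbKOne26.TK C hζ hW γ` of
cusp expansions over a number field `K ∋ ζ_M`, in the shapes consumed by the generic cusp theorem.

`t : FK1 M K` any coordinate (the Hauptmodul or its inverse), `emb = CuspEmbKOne26.emb M K`.

* `shape_some` (F1): if `C.T γ (emb t)` has `CuspShape n _ (some c̄)` then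
  `TK γ t = C c + toLS (u * X ^ e₀)` with `c : A_K` over `c̄`, `e₀ > 0`, `u ∈ A_K⟦s⟧ˣ`;
  `shape_none`: the pole version for `t⁻¹`;
* `order_sub_of_shape` (F2): `ord (TK γ (t - c)) = e₀`;
  `ord_placeOf_of_shape`: hence `ord_v (emb t - c̄) = e₀` for `v = placeOf C γ` (under `Exact C`);
* `hplaces_of_fibre` (F3): if every `ℚ̄`-place `v` with `0 < ord_v (emb τ)` is a `placeOf C γ` with
  `γ ∈ Γ`, then for every `K`-place `w` with `0 < ord_w τ` there is `γ ∈ Γ` such that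
  `0 ≤ ord (TK γ z) → z ∈ O_w`  (needs a generator of `FF1 M` over `ℚ̄`, for `PlaceExtendG7`).

`toLS_eq`, `order_toLS_mul_X_pow` are imported AS-IS from main's `CuspFamilyK16`.
-/
import Fermat.Agent.RED.CUSP.CuspFamilyK16
import Fermat.Agent.ES.R48.CuspEmbKOne26

set_option autoImplicit false
set_option linter.unusedSectionVars false

noncomputable section

namespace Fermat.Agent.ES.R48.CuspFamilyKOne26

open Fermat.Agent.X0 AlgebraicCurve ModularCurve HahnSeries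
open Fermat.Agent.RED.Interface4
open Fermat.Agent.RED.CUSP.IntClosedPS16 Fermat.Agent.RED.BASE.Interface12
open Fermat.Agent.RED.CUSP.CuspFamilyK16
open Fermat.Agent.ES.R48.FF1Defs13 Fermat.Agent.ES.R48.X1Iface13
open Fermat.Agent.ES.R48.G3Defs4 Fermat.Agent.ES.R48.PlaceExtendG7
open Fermat.Agent.ES.R48.CuspExactOne26 Fermat.Agent.ES.R48.CuspEmbKOne26
open scoped MatrixGroups

variable {M : ℕ} [NeZero M] {K : IntermediateField ℚ Qbar} {D : RealizeData1 M}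
  (C : CuspData1 M D) (hζ : zetaK M ∈ K) (hW : WInt C) (γ : SL(2, ℤ))
variable (A : ValuationSubring Qbar)

/-- **(F1)** the shape of `TK γ t` at a cusp with finite value `c̄`. -/
theorem shape_some (n : ℕ) (hn : n ≠ 0) (hnA : ((n : Qbar))⁻¹ ∈ A) (t : ↥(FK1 M K)) (cbar : Qbar)
    (h : CuspShape n (C.T γ (emb M K t)) (some cbar)) :
    ∃ (c : AK A K) (e₀ : ℕ) (u : PowerSeries ↥(AK A K)), 0 < e₀ ∧
      IsUnit (PowerSeries.constantCoeff u) ∧ algebraMap K Qbar (c : K) = cbar ∧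
      TK C hζ hW γ t = HahnSeries.C (c : K) + toLS ↥(AK A K) ↥K (u * PowerSeries.X ^ e₀) := by
  rw [← coeffMap_qExpand_TK C hζ hW γ t] at h
  obtain ⟨c, a, u, ha, hu, hc, hE⟩ :=
    Fermat.Agent.RED.CUSP.CuspShapeK6.cuspShape_some A K n hn hnA _ cbar h
  obtain ⟨hdvd, u', hu', -, hE'⟩ :=
    Fermat.Agent.RED.CUSP.CuspShapeK6.compress A K (TK C hζ hW γ t) (cuspR (M := M) γ) c a u hu hE
  refine ⟨c, a / cuspR (M := M) γ, u', ?_, hu', hc, hE'⟩
  exact Nat.div_pos (Nat.le_of_dvd ha hdvd) (cuspR_pos (M := M) γ)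

/-- **(F1)**, pole version: the shape of `(TK γ t)⁻¹` at a cusp where `t` has a pole. -/
theorem shape_none (n : ℕ) (hn : n ≠ 0) (hnA : ((n : Qbar))⁻¹ ∈ A) (t : ↥(FK1 M K))
    (h : CuspShape n (C.T γ (emb M K t)) none) :
    ∃ (e₀ : ℕ) (u : PowerSeries ↥(AK A K)), 0 < e₀ ∧
      IsUnit (PowerSeries.constantCoeff u) ∧
      TK C hζ hW γ t⁻¹ = toLS ↥(AK A K) ↥K (u * PowerSeries.X ^ e₀) := by
  rw [← coeffMap_qExpand_TK C hζ hW γ t] at h
  obtain ⟨a, u, ha, hu, hE⟩ :=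
    Fermat.Agent.RED.CUSP.CuspShapeK6.cuspShape_none A K n hn hnA _ h
  obtain ⟨hdvd, u', hu', -, hE'⟩ :=
    Fermat.Agent.RED.CUSP.CuspShapeK6.compress_none A K (TK C hζ hW γ t) (cuspR (M := M) γ) a u hu hE
  refine ⟨a / cuspR (M := M) γ, u', ?_, hu', ?_⟩
  · exact Nat.div_pos (Nat.le_of_dvd ha hdvd) (cuspR_pos (M := M) γ)
  · rw [map_inv₀]; exact hE'

/-- **(F2)** `ord (TK γ (t - c)) = e₀`. -/
theorem order_sub_of_shape (t : ↥(FK1 M K)) (c : AK A K) (e₀ : ℕ) (u : PowerSeries ↥(AK A K))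
    (hu : IsUnit (PowerSeries.constantCoeff u))
    (ht : TK C hζ hW γ t = HahnSeries.C (c : K) + toLS ↥(AK A K) ↥K (u * PowerSeries.X ^ e₀)) :
    (TK C hζ hW γ (t - algebraMap K ↥(FK1 M K) (c : K))).order = e₀ := by
  rw [map_sub, TK_const, ht, add_sub_cancel_left, order_toLS_mul_X_pow A u hu]

/-- **(F2)**, on the `ℚ̄`-side: `ord_v (emb t - c̄) = e₀` for `v = placeOf C γ`. -/
theorem ord_placeOf_of_shape (hE : Exact C) (t : ↥(FK1 M K)) (c : AK A K) (e₀ : ℕ) (he₀ : 0 < e₀)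
    (u : PowerSeries ↥(AK A K)) (hu : IsUnit (PowerSeries.constantCoeff u))
    (ht : TK C hζ hW γ t = HahnSeries.C (c : K) + toLS ↥(AK A K) ↥K (u * PowerSeries.X ^ e₀)) :
    (placeOf C γ).ord (emb M K (t - algebraMap K ↥(FK1 M K) (c : K))) = e₀ := by
  have h1 := order_sub_of_shape C hζ hW γ A t c e₀ u hu ht
  have hne : t - algebraMap K ↥(FK1 M K) (c : K) ≠ 0 := by
    intro h0
    rw [h0, map_zero, HahnSeries.order_zero] at h1
    exact he₀.ne' (by exact_mod_cast h1.symm)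
  rw [← order_TK C hζ hW γ hE _ hne, h1]

/-- **(F3)** `hplaces` from the description of the fibre over `ℚ̄`. -/
theorem hplaces_of_fibre (hE : Exact C) (hgen : ∃ x : FF1 M, FF.IsGen Qbar x)
    (τ : ↥(FK1 M K)) (Γ : Set (SL(2, ℤ)))
    (hfib : ∀ v : Place Qbar (FF1 M), 0 < v.ord (emb M K τ) → ∃ γ ∈ Γ, v = placeOf C γ)
    (w : Place K ↥(FK1 M K)) (hw : 0 < w.ord τ) :
    ∃ γ ∈ Γ, ∀ z : ↥(FK1 M K), z ≠ 0 → 0 ≤ (TK C hζ hW γ z).order →
      z ∈ w.toValuationSubring := by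
  obtain ⟨v, e, he, hord, hmem⟩ := exists_place_above_memG (F1 M) K hgen w
  have hv : 0 < v.ord (emb M K τ) := by
    rw [hord]
    exact mul_pos (by exact_mod_cast he) hw
  obtain ⟨γ, hγ, rfl⟩ := hfib v hv
  refine ⟨γ, hγ, fun z hz h0 => ?_⟩
  rw [← hmem, mem_placeOf_iff_TK C hζ hW γ hE z hz]
  exact h0

end Fermat.Agent.ES.R48.CuspFamilyKOne26
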