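/-
Programme R (S48, Deligne–Serre), chapter GEOM, G3 MODEL₁ / C. CUSP₁ (helper26): twin of
`RED/CUSP/CuspPackK16` for `X₁(M)` — the PACKAGED concrete family of cusp expansions over a cusp
value, in the shape consumed by the generic cusp theorem.

`t₁ := ffIncl M (tF M h) : FF1 M` is the Hauptmodul of level `n ∣ M` seen in `F₁`; `t : FK1 M K` is a
`K`-model of it (`emb M K t = t₁`).  `C : CuspData1 M D` is ANY cusp datum.

The two level-specific descriptions of the fibres of `t₁` are taken as HYPOTHESES, in the literal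
shape of main's `CuspFibre14.exists_placeOf_of_zero / exists_placeOf_of_pole` (their twins are
helper23's `CuspFibreOne23`):

* `ZeroFibre C cv t₁` : zeros of `t₁ - c`, `c` a finite cusp value, are the cusp places `placeOf C γ`
  with `cv γ = some c`;
* `PoleFibre C cv t₁` : poles of `t₁` are the cusp places `placeOf C γ` with `cv γ = none`.

Everything else is supplied: exactness `hE : Exact C` (`CuspExactClose23.exact`), `hj : IsGen (jF1 M)`
(`X1Degree14.isGen_jF1`), tameness (`CuspTameOne23.tame_some / tame_none`), the generic degree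
counts (`CuspFibre14.sum_toNat_fibre / sum_toNat_poles`, AS-IS from main) and
`CuspPackK16.isUnit_natCast_of_dvd` (AS-IS from main).

* `cusp_family_some`, `cusp_family_none` : statements = main's verbatim under
  `FK M K ↦ FK1 M K`, `baseChangeHom M K ↦ emb M K`, `TK hζ γ ↦ TK C hζ hW γ`,
  `tF M h ↦ ffIncl M (tF M h)`, `FF M ↦ FF1 M`.
-/
import Fermat.Agent.RED.CUSP.CuspPackK16
import Fermat.Agent.ES.R48.CuspFamilyKOne26
import Fermat.Agent.ES.R48.CuspTameOne23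

set_option autoImplicit false
set_option linter.unusedSectionVars false

noncomputable section

namespace Fermat.Agent.ES.R48.CuspPackKOne26

open Fermat.Agent.X0 AlgebraicCurve ModularCurve HahnSeries
open Fermat.Agent.RED.Interface4
open Fermat.Agent.RED.CUSP.IntClosedPS16 Fermat.Agent.RED.BASE.Interface12
open Fermat.Agent.RED.BASE.Hauptmodul12
open Fermat.Agent.RED.CUSP.CuspFamilyK16 (order_toLS_mul_X_pow)
open Fermat.Agent.RED.CUSP.CuspPackK16 (isUnit_natCast_of_dvd)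
open Fermat.Agent.ES.R48.FF1Defs13 Fermat.Agent.ES.R48.X1Iface13
open Fermat.Agent.ES.R48.G3Defs4
open Fermat.Agent.ES.R48.CuspExactOne26 Fermat.Agent.ES.R48.CuspEmbKOne26
open Fermat.Agent.ES.R48.CuspFamilyKOne26
open scoped MatrixGroups
open IntermediateField

variable {M : ℕ} [NeZero M] {K : IntermediateField ℚ Qbar} {D : RealizeData1 M}
  (C : CuspData1 M D)

/-- zeros of `T - c`, `c` a finite cusp value, are the cusp places `placeOf C γ`, `cv γ = some c`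
(literal shape of `CuspFibre14.exists_placeOf_of_zero`). -/
def ZeroFibre (cv : SL(2, ℤ) → Option Kbar) (T : FF1 M) : Prop :=
  ∀ (v : Place Kbar (FF1 M)) (γ₀ : SL(2, ℤ)) (c : Kbar), cv γ₀ = some c →
    0 < v.ord (T - algebraMap Kbar (FF1 M) c) → ∃ γ : SL(2, ℤ), placeOf C γ = v ∧ cv γ = some c

/-- poles of `T` are the cusp places `placeOf C γ` with `cv γ = none`
(literal shape of `CuspFibre14.exists_placeOf_of_pole`). -/
def PoleFibre (cv : SL(2, ℤ) → Option Kbar) (T : FF1 M) : Prop :=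
  ∀ v : Place Kbar (FF1 M), v.ord T < 0 → ∃ γ : SL(2, ℤ), placeOf C γ = v ∧ cv γ = none

variable (hζ : zetaK M ∈ K) (hW : WInt C) (A : ValuationSubring Qbar)
variable {n e : ℕ} [NeZero n] (hb : BaseHyp n e) (hnM : n ∣ M)
  (cv : SL(2, ℤ) → Option Kbar) (hcv : CuspExp n e M cv) (h : TMem n e M)

/-- `n⁻¹ ∈ A` from `M⁻¹ ∈ A`, `n ∣ M`. -/
theorem inv_natCast_mem_of_dvd (hMA : ((M : Qbar))⁻¹ ∈ A) (d : ℕ) (hd : d ∣ M) :
    ((d : Qbar))⁻¹ ∈ A := by
  obtain ⟨q, hq⟩ := hd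
  have hM0 : (M : Qbar) ≠ 0 := Nat.cast_ne_zero.mpr (NeZero.ne M)
  have hq0 : (q : Qbar) ≠ 0 := by
    intro h0
    apply hM0
    rw [hq, Nat.cast_mul, h0, mul_zero]
  have hd0 : (d : Qbar) ≠ 0 := by
    intro h0
    apply hM0
    rw [hq, Nat.cast_mul, h0, zero_mul]
  have : ((d : Qbar))⁻¹ = (q : Qbar) * ((M : Qbar))⁻¹ := by
    rw [hq, Nat.cast_mul]
    field_simp
  rw [this]
  exact A.mul_mem _ _ (natCast_mem A q) hMA

/-- `t₁` is a transcendental generator of `F₁` as soon as `j` is. -/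
theorem isGen_t1 (hj : FF.IsGen Kbar (jF1 M)) : FF.IsGen Kbar (ffIncl M (tF M h)) := by
  have := hj.finite
  exact TGenOne7.isGen_tF1 n e M h

include hb hnM hcv in
/-- **The packaged family over a finite cusp value.** -/
theorem cusp_family_some [IsPrincipalIdealRing ↥(AK A K)] (hMA : ((M : Qbar))⁻¹ ∈ A)
    (hE : Exact C) (hj : FF.IsGen Kbar (jF1 M)) (hzero : ZeroFibre C cv (ffIncl M (tF M h)))
    (t : ↥(FK1 M K)) (ht : emb M K t = ffIncl M (tF M h))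
    (γ₀ : SL(2, ℤ)) (cbar : Qbar) (hγ₀ : cv γ₀ = some cbar) :
    ∃ c : ↥(AK A K), algebraMap K Qbar (c : K) = cbar ∧
    ∃ (Cι : Type) (_ : Fintype Cι) (_ : DecidableEq Cι) (γ : Cι → SL(2, ℤ)) (e' : Cι → ℕ)
      (u : Cι → PowerSeries ↥(AK A K)),
      (∀ κ, cv (γ κ) = some cbar) ∧
      (∀ κ, 0 < e' κ) ∧ (∀ κ, IsUnit ((e' κ : ℕ) : ↥(AK A K))) ∧
      (∀ κ, IsUnit (PowerSeries.constantCoeff (u κ))) ∧
      (∀ κ, TK C hζ hW (γ κ) t =
        HahnSeries.C (c : K) + toLS ↥(AK A K) ↥K (u κ * PowerSeries.X ^ e' κ)) ∧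
      (∀ κ, (TK C hζ hW (γ κ) (t - algebraMap K ↥(FK1 M K) (c : K))).order = e' κ) ∧
      (∑ κ, e' κ = Module.finrank Kbar⟮ffIncl M (tF M h)⟯ (FF1 M)) ∧
      (∀ w : Place K ↥(FK1 M K), 0 < w.ord (t - algebraMap K ↥(FK1 M K) (c : K)) →
        ∃ κ, ∀ z : ↥(FK1 M K), z ≠ 0 → 0 ≤ (TK C hζ hW (γ κ) z).order →
          z ∈ w.toValuationSubring) := by
  classical
  have hn0 : n ≠ 0 := NeZero.ne n
  have hnA : ((n : Qbar))⁻¹ ∈ A := inv_natCast_mem_of_dvd A hMA n hnM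
  have hgenT : FF.IsGen Kbar (ffIncl M (tF M h)) := isGen_t1 h hj
  have hshape' : ∀ γ, CuspShape n (C.T γ (emb M K t)) (cv γ) := by
    intro γ
    rw [ht]
    exact X1CuspT26.cuspShape_T1' C hcv h γ
  -- the constant `c`
  have hs₀ := hshape' γ₀
  rw [hγ₀] at hs₀
  obtain ⟨c, -, -, -, -, hc, -⟩ := shape_some C hζ hW γ₀ A n hn0 hnA t cbar hs₀
  refine ⟨c, hc, ?_⟩
  have hemb : emb M K (t - algebraMap K ↥(FK1 M K) (c : K)) =
      ffIncl M (tF M h) - algebraMap Kbar (FF1 M) cbar := by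
    rw [map_sub, ht, emb_algebraMap, ← hc]
    rfl
  -- the index type
  let Cι : Type :=
    {v : Place Kbar (FF1 M) // 0 < v.ord (ffIncl M (tF M h) - algebraMap Kbar (FF1 M) cbar)}
  let instF : Fintype Cι := Fermat.Agent.RED.CUSP.CuspFibre14.fintypeFibre hgenT cbar
  have hγex : ∀ κ : Cι, ∃ γ : SL(2, ℤ), placeOf C γ = κ.1 ∧ cv γ = some cbar := fun κ =>
    hzero κ.1 γ₀ cbar hγ₀ κ.2
  choose γ hγv hγc using hγex
  have hsh : ∀ κ : Cι, ∃ (e₀ : ℕ) (u : PowerSeries ↥(AK A K)), 0 < e₀ ∧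
      IsUnit (PowerSeries.constantCoeff u) ∧
      TK C hζ hW (γ κ) t =
        HahnSeries.C (c : K) + toLS ↥(AK A K) ↥K (u * PowerSeries.X ^ e₀) := by
    intro κ
    have hs := hshape' (γ κ)
    rw [hγc κ] at hs
    obtain ⟨c', e₀, u, he₀, hu, hc', hE'⟩ := shape_some C hζ hW (γ κ) A n hn0 hnA t cbar hs
    have hcc : c' = c := by
      apply Subtype.ext
      apply (algebraMap K Qbar).injective
      rw [hc', hc]
    rw [hcc] at hE'
    exact ⟨e₀, u, he₀, hu, hE'⟩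
  choose e' u he' hu hEq using hsh
  have hord : ∀ κ : Cι,
      (e' κ : ℤ) = κ.1.ord (ffIncl M (tF M h) - algebraMap Kbar (FF1 M) cbar) := by
    intro κ
    have := ord_placeOf_of_shape C hζ hW (γ κ) A hE t c (e' κ) (he' κ) (u κ) (hu κ) (hEq κ)
    rw [hemb, hγv κ] at this
    exact this.symm
  refine ⟨Cι, instF, Classical.decEq Cι, γ, e', u, hγc, he', ?_, hu, hEq, ?_, ?_, ?_⟩
  · intro κ
    apply isUnit_natCast_of_dvd A hMA
    have htame := (CuspTameOne23.tame_some hE hj hb hnM h hcv (γ κ) cbar (hγc κ)).2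
    rw [hγv κ, ← hord κ, Int.natAbs_natCast] at htame
    exact htame
  · intro κ
    exact order_sub_of_shape C hζ hW (γ κ) A t c (e' κ) (u κ) (hu κ) (hEq κ)
  · rw [← Fermat.Agent.RED.CUSP.CuspFibre14.sum_toNat_fibre hgenT cbar]
    refine Finset.sum_congr rfl fun κ _ => ?_
    rw [← hord κ, Int.toNat_natCast]
  · intro w hw
    obtain ⟨γ', ⟨κ, rfl⟩, hκ⟩ := hplaces_of_fibre C hζ hW hE ⟨jF1 M, hj⟩
      (t - algebraMap K ↥(FK1 M K) (c : K))
      (Set.range γ) (fun v hv => by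
        rw [hemb] at hv
        exact ⟨γ ⟨v, hv⟩, ⟨⟨v, hv⟩, rfl⟩, (hγv ⟨v, hv⟩).symm⟩) w hw
    exact ⟨κ, hκ⟩

include hb hnM hcv in
/-- **The packaged family over the poles of `t`**, for the coordinate `t⁻¹` and the value `0`. -/
theorem cusp_family_none [IsPrincipalIdealRing ↥(AK A K)] (hMA : ((M : Qbar))⁻¹ ∈ A)
    (hE : Exact C) (hj : FF.IsGen Kbar (jF1 M)) (hpole : PoleFibre C cv (ffIncl M (tF M h)))
    (t : ↥(FK1 M K)) (ht : emb M K t = ffIncl M (tF M h)) :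
    ∃ (Cι : Type) (_ : Fintype Cι) (_ : DecidableEq Cι) (γ : Cι → SL(2, ℤ)) (e' : Cι → ℕ)
      (u : Cι → PowerSeries ↥(AK A K)),
      (∀ κ, cv (γ κ) = none) ∧
      (∀ κ, 0 < e' κ) ∧ (∀ κ, IsUnit ((e' κ : ℕ) : ↥(AK A K))) ∧
      (∀ κ, IsUnit (PowerSeries.constantCoeff (u κ))) ∧
      (∀ κ, TK C hζ hW (γ κ) t⁻¹ =
        HahnSeries.C (((0 : ↥(AK A K)) : ↥(AK A K)) : K) +
          toLS ↥(AK A K) ↥K (u κ * PowerSeries.X ^ e' κ)) ∧
      (∀ κ, (TK C hζ hW (γ κ)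
          (t⁻¹ - algebraMap K ↥(FK1 M K) (((0 : ↥(AK A K)) : ↥(AK A K)) : K))).order = e' κ) ∧
      (∑ κ, e' κ = Module.finrank Kbar⟮ffIncl M (tF M h)⟯ (FF1 M)) ∧
      (∀ w : Place K ↥(FK1 M K),
        0 < w.ord (t⁻¹ - algebraMap K ↥(FK1 M K) (((0 : ↥(AK A K)) : ↥(AK A K)) : K)) →
        ∃ κ, ∀ z : ↥(FK1 M K), z ≠ 0 → 0 ≤ (TK C hζ hW (γ κ) z).order →
          z ∈ w.toValuationSubring) := by
  classical
  have hn0 : n ≠ 0 := NeZero.ne n
  have hnA : ((n : Qbar))⁻¹ ∈ A := inv_natCast_mem_of_dvd A hMA n hnM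
  have hgenT : FF.IsGen Kbar (ffIncl M (tF M h)) := isGen_t1 h hj
  have hshape' : ∀ γ, CuspShape n (C.T γ (emb M K t)) (cv γ) := by
    intro γ
    rw [ht]
    exact X1CuspT26.cuspShape_T1' C hcv h γ
  have hzero : algebraMap K ↥(FK1 M K) (((0 : ↥(AK A K)) : ↥(AK A K)) : K) = 0 := by
    rw [ZeroMemClass.coe_zero, map_zero]
  have hC0 : HahnSeries.C ((((0 : ↥(AK A K)) : ↥(AK A K)) : K)) = (0 : LaurentSeries K) := by
    rw [ZeroMemClass.coe_zero, map_zero]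
  -- the index type
  let Cι : Type := {v : Place Kbar (FF1 M) // v.ord (ffIncl M (tF M h)) < 0}
  let instF : Fintype Cι := Fermat.Agent.RED.CUSP.CuspFibre14.fintypePoles hgenT
  have hγex : ∀ κ : Cι, ∃ γ : SL(2, ℤ), placeOf C γ = κ.1 ∧ cv γ = none := fun κ =>
    hpole κ.1 κ.2
  choose γ hγv hγc using hγex
  have hsh : ∀ κ : Cι, ∃ (e₀ : ℕ) (u : PowerSeries ↥(AK A K)), 0 < e₀ ∧
      IsUnit (PowerSeries.constantCoeff u) ∧
      TK C hζ hW (γ κ) t⁻¹ = toLS ↥(AK A K) ↥K (u * PowerSeries.X ^ e₀) := by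
    intro κ
    have hs := hshape' (γ κ)
    rw [hγc κ] at hs
    exact shape_none C hζ hW (γ κ) A n hn0 hnA t hs
  choose e' u he' hu hEq using hsh
  have ht0 : t ≠ 0 := by
    intro h0
    have htr := hgenT.transcendental
    rw [← ht, h0, map_zero] at htr
    exact htr (isAlgebraic_zero)
  have hordK : ∀ κ : Cι, (TK C hζ hW (γ κ) t⁻¹).order = e' κ := by
    intro κ
    rw [hEq κ, order_toLS_mul_X_pow A (u κ) (hu κ)]
  have hord : ∀ κ : Cι, (e' κ : ℤ) = -κ.1.ord (ffIncl M (tF M h)) := by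
    intro κ
    have h1 := hordK κ
    have hne : t⁻¹ ≠ 0 := inv_ne_zero ht0
    rw [order_TK C hζ hW (γ κ) hE _ hne, map_inv₀, ht, hγv κ, Place.ord_inv] at h1
    exact h1.symm
  refine ⟨Cι, instF, Classical.decEq Cι, γ, e', u, hγc, he', ?_, hu, ?_, ?_, ?_, ?_⟩
  · intro κ
    apply isUnit_natCast_of_dvd A hMA
    have htame := (CuspTameOne23.tame_none hE hj hb hnM h hcv (γ κ) (hγc κ)).2
    rw [hγv κ] at htame
    have : (κ.1.ord (ffIncl M (tF M h))).natAbs = e' κ := by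
      have := hord κ
      omega
    rwa [this] at htame
  · intro κ
    rw [hC0, zero_add]
    exact hEq κ
  · intro κ
    rw [hzero, sub_zero]
    exact hordK κ
  · rw [← Fermat.Agent.RED.CUSP.CuspFibre14.sum_toNat_poles hgenT]
    refine Finset.sum_congr rfl fun κ _ => ?_
    rw [← hord κ, Int.toNat_natCast]
  · intro w hw
    rw [hzero, sub_zero] at hw
    obtain ⟨γ', ⟨κ, rfl⟩, hκ⟩ := hplaces_of_fibre C hζ hW hE ⟨jF1 M, hj⟩ t⁻¹
      (Set.range γ) (fun v hv => by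
        rw [map_inv₀, ht, Place.ord_inv] at hv
        have hv' : v.ord (ffIncl M (tF M h)) < 0 := by omega
        exact ⟨γ ⟨v, hv'⟩, ⟨⟨v, hv'⟩, rfl⟩, (hγv ⟨v, hv'⟩).symm⟩) w hw
    exact ⟨κ, hκ⟩

end Fermat.Agent.ES.R48.CuspPackKOne26
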