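/-
Programme R (S48, Deligne–Serre), chapter GEOM, sub-chapter G3 MODEL₁ / DESC (helper7), brick D0':
bridge between `PlaceExtendG7.baseChangeHomG F₀ K` (generic twin of main's
`RED/DESC/PlaceExtend27.baseChangeHom`) and main's generic constant-field extension
`J/DESC/LaurentExt24.bc (k := ↥K) (K := Qbar) F₀`: they are THE SAME ring hom
(`baseChangeHomG_eq_bc`), so `bc_algebraMap`, `isConstExt_bc`, `RankBridgeK26.finrank_bc`, … apply
verbatim to `baseChangeHomG` (requested by helper26 for `CuspEmbKOne26`).
-/
import Mathlib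
import Fermat.Agent.ES.R48.PlaceExtendG7
import Fermat.Agent.J.DESC.LaurentExt24

set_option autoImplicit false
set_option linter.unusedSectionVars false

namespace Fermat.Agent.ES.R48.PlaceExtendBc7

open AlgebraicCurve ModularCurve HahnSeries
open Fermat.Agent.X0 Fermat.Agent.RED.Interface4
open Fermat.Agent.ES.R48.PlaceExtendG7
open Fermat.Agent.J.DESC

noncomputable section

variable (F₀ : IntermediateField ℚ (LaurentSeries ℚ)) (K : IntermediateField ℚ Qbar)

/-- `baseChangeHomG` IS main's generic coefficientwise base change `LaurentExt24.bc`. -/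
theorem baseChangeHomG_eq_bc :
    baseChangeHomG F₀ K = LaurentExt24.bc (k := ↥K) (K := Qbar) F₀ :=
  RingHom.ext fun _ => Subtype.ext rfl

theorem baseChangeHomG_apply_eq_bc (f : ↥(laurentBaseChange K F₀)) :
    baseChangeHomG F₀ K f = LaurentExt24.bc (k := ↥K) (K := Qbar) F₀ f :=
  Subtype.ext rfl

/-- `baseChangeHomG` is a constant field extension in the sense of `ConstExt24`. -/
theorem isConstExt_baseChangeHomG :
    ConstExt24.IsConstExt (k := ↥K) (K := Qbar) (baseChangeHomG F₀ K) := by
  rw [baseChangeHomG_eq_bc]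
  exact LaurentExt24.isConstExt_bc F₀

end

end Fermat.Agent.ES.R48.PlaceExtendBc7
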