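/-
Programme R (S48, Deligne–Serre), chapter GEOM, G3 MODEL₁ cusp side (helper26): **the rank bridge
`[K·F₀ : K(x)] = [k·F₀ : k(x)]` for a constant field extension**, generic in the function field
`F₀ ⊆ ℚ((q))` — the level-blind replacement of `RED/CUSP/RankConcrete16.finrank_adjoin_jK`
(which used `[K·F_M : K(j)] = ψ(M)` in every characteristic, i.e. the `IG/` chapters).

Abstract form (`J/DESC/ConstExt24.IsConstExt ι`, `ι : Fk → FK` over `k → K`: linear disjointness
(LD) + generation (GEN)):
* `adjoin_range_eq_top`      : `K(ι Fk) = FK`;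
* `linearIndependent_map`    : a `k(x)`-linearly independent family of `Fk` stays
                               `K(ι x)`-linearly independent in `FK` (from (LD));
* `finrank_eq`               : `[FK : K(ι x)] = [Fk : k(x)]` for every `x` with `[Fk : k(x)]` finite.
Concrete form (`J/DESC/LaurentExt24.bc F₀ : k·F₀ → K·F₀`, coefficientwise base change):
* `finrank_bc`, `finiteDimensional_bc`.
-/
import Fermat.Agent.J.DESC.LaurentExt24
import Fermat.Agent.RED.CUSP.DegCompare5

set_option autoImplicit false
set_option linter.unusedSectionVars false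

open IntermediateField

noncomputable section

namespace Fermat.Agent.ES.R48.RankBridgeK26

open Fermat.Agent.J.DESC.ConstExt24 Fermat.Agent.RED.CUSP.DegCompare5

section Abstract

universe u v w x

variable {k : Type u} {K : Type v} {Fk : Type w} {FK : Type x} [Field k] [Field K] [Field Fk]
  [Field FK] [Algebra k K] [Algebra k Fk] [Algebra K FK]
  {ι : Fk →+* FK} (hι : IsConstExt (k := k) (K := K) ι)

include hι

/-- (GEN) in field form: `K(ι Fk) = FK`. -/
theorem adjoin_range_eq_top : IntermediateField.adjoin K (Set.range ι) = ⊤ := by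
  rw [eq_top_iff]
  intro y _
  obtain ⟨a, ha, b, hb, -, rfl⟩ := hι.gen y
  have hle : Submodule.span K (Set.range ι) ≤
      Subalgebra.toSubmodule (IntermediateField.adjoin K (Set.range ι)).toSubalgebra :=
    Submodule.span_le.mpr fun z hz => IntermediateField.subset_adjoin K _ hz
  exact div_mem (hle ha) (hle hb)

/-- The same over `K(ι x)`. -/
theorem adjoin_range_eq_top' (x : Fk) : IntermediateField.adjoin K⟮ι x⟯ (Set.range ι) = ⊤ := by
  rw [eq_top_iff]
  intro y _
  have hy : y ∈ IntermediateField.adjoin K (Set.range ι) := by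
    rw [adjoin_range_eq_top hι]; exact IntermediateField.mem_top
  have hle : IntermediateField.adjoin K (Set.range ι) ≤
      (IntermediateField.adjoin K⟮ι x⟯ (Set.range ι)).restrictScalars K :=
    adjoin_le_iff.mpr (subset_adjoin _ _)
  exact hle hy

/-- polynomial expressions in `ι x` over `K` lie in the `K`-span of `ι (k(x))`. -/
theorem mem_span_of_mem_adjoin (x : Fk) {r : FK} (hr : r ∈ Algebra.adjoin K {ι x}) :
    r ∈ Submodule.span K (ι '' ((Subalgebra.toSubmodule (k⟮x⟯).toSubalgebra : Submodule k Fk) :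
      Set Fk)) := by
  rw [Algebra.adjoin_singleton_eq_range_aeval] at hr
  obtain ⟨p, rfl⟩ := hr
  rw [AlgHom.toRingHom_eq_coe, RingHom.coe_coe, Polynomial.aeval_eq_sum_range]
  refine Submodule.sum_mem _ fun m _ => Submodule.smul_mem _ _ (Submodule.subset_span ?_)
  refine ⟨x ^ m, ?_, map_pow ι x m⟩
  exact pow_mem (mem_adjoin_simple_self k x) m

open scoped IntermediateField.algebraAdjoinAdjoin in
/-- **(LD) in degree form**: a `k(x)`-linearly independent family stays `K(ι x)`-linearly
independent. -/
theorem linearIndependent_map (x : Fk) {J : Type*} (b : J → Fk)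
    (hb : LinearIndependent k⟮x⟯ b) : LinearIndependent K⟮ι x⟯ (fun i => ι (b i)) := by
  classical
  rw [← LinearIndependent.iff_fractionRing (Algebra.adjoin K {ι x}) K⟮ι x⟯, linearIndependent_iff']
  intro s g hg i hi
  obtain ⟨I, ⟨B⟩⟩ := Module.Basis.exists_basis k K
  -- coordinates of the coefficients
  set P : Submodule k Fk := Subalgebra.toSubmodule (k⟮x⟯).toSubalgebra with hP
  have hcoord : ∀ j : J, ∃ f : I →₀ Fk, (∀ l, f l ∈ P) ∧ coordSum ι B f = ((g j : FK)) := fun j =>
    exists_coord_of_mem_span hι B P (mem_span_of_mem_adjoin hι x (g j).2)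
  choose f hfP hf using hcoord
  -- the relation in coordinates
  have hsum : coordSum ι B (∑ j ∈ s, (f j).mapRange (fun a => b j * a) (mul_zero (b j))) = 0 := by
    rw [map_sum]
    rw [← hg]
    refine Finset.sum_congr rfl fun j _ => ?_
    rw [coordSum_mul_left, hf]
    show ι (b j) * (g j : FK) = (g j : FK) * ι (b j)
    exact mul_comm _ _
  have hzero := coordSum_injective hι B (hsum.trans (map_zero _).symm)
  -- each coordinate vanishes
  have hfl : ∀ l : I, ∀ j ∈ s, f j l = 0 := by
    intro l
    have h1 : ∑ j ∈ s, (⟨f j l, hfP j l⟩ : k⟮x⟯) • b j = 0 := by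
      have h2 := DFunLike.congr_fun hzero l
      rw [Finsupp.coe_finsetSum, Finset.sum_apply, Finsupp.zero_apply] at h2
      refine Eq.trans ?_ h2
      refine Finset.sum_congr rfl fun j _ => ?_
      rw [Finsupp.mapRange_apply, IntermediateField.smul_def, smul_eq_mul, mul_comm]
    intro j hj
    have := linearIndependent_iff'.mp hb s (fun j => (⟨f j l, hfP j l⟩ : k⟮x⟯)) h1 j hj
    exact congrArg Subtype.val this
  have hfi : f i = 0 := Finsupp.ext fun l => hfl l i hi
  apply Subtype.ext
  rw [← hf i, hfi, map_zero]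
  rfl

/-- **The rank bridge**: `[FK : K(ι x)] = [Fk : k(x)]`. -/
theorem finrank_eq (x : Fk) [FiniteDimensional k⟮x⟯ Fk] :
    FiniteDimensional K⟮ι x⟯ FK ∧ Module.finrank K⟮ι x⟯ FK = Module.finrank k⟮x⟯ Fk := by
  obtain ⟨hfin, hle⟩ := finrank_le_of_adjoin_range_eq_top (restrictAdjoin ι hι.comm x) ι
    (fun a => rfl) (adjoin_range_eq_top' hι x)
  refine ⟨hfin, le_antisymm hle ?_⟩
  have hli := linearIndependent_map hι x _ (Module.finBasis k⟮x⟯ Fk).linearIndependent
  have := hli.fintype_card_le_finrank
  rwa [Fintype.card_fin] at this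

end Abstract

/-! ### Laurent series fields -/

section Laurent

open ModularCurve Fermat.Agent.J.DESC.LaurentExt24

universe u v

variable {k : Type u} {K : Type v} [Field k] [Field K] [Algebra ℚ k] [Algebra ℚ K] [Algebra k K]
  (F₀ : IntermediateField ℚ (LaurentSeries ℚ))

/-- **The rank bridge for `F₀ ⊆ ℚ((q))`**: for every `x ∈ k·F₀` over which `k·F₀` is finite,
`[K·F₀ : K(x)] = [k·F₀ : k(x)]` (coefficientwise base change `bc : k·F₀ → K·F₀`). -/
theorem finrank_bc (x : ↥(laurentBaseChange k F₀)) [FiniteDimensional k⟮x⟯ ↥(laurentBaseChange k F₀)] :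
    Module.finrank K⟮bc (K := K) F₀ x⟯ ↥(laurentBaseChange K F₀) =
      Module.finrank k⟮x⟯ ↥(laurentBaseChange k F₀) :=
  (finrank_eq (isConstExt_bc (k := k) (K := K) F₀) x).2

theorem finiteDimensional_bc (x : ↥(laurentBaseChange k F₀))
    [FiniteDimensional k⟮x⟯ ↥(laurentBaseChange k F₀)] :
    FiniteDimensional K⟮bc (K := K) F₀ x⟯ ↥(laurentBaseChange K F₀) :=
  (finrank_eq (isConstExt_bc (k := k) (K := K) F₀) x).1

end Laurent

end Fermat.Agent.ES.R48.RankBridgeK26
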