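/-
Programme R (S48, Deligne–Serre), chapter GEOM, sub-chapter G3 MODEL₁ / BASE (helper7):
the `Γ₁(M)`-twin of `RED/BASE/TGen19`.

For an interface pair `(D : RealizeData1 M) (C : CuspData1 M D)` (`X1Iface13`):

* `hasQExp_Θ`, `intg_T_spec₁`, `Θ_injective` : the basic dictionary for `R₁ = ℚbar[j_d, W_c]`;
* `exists_fraction_of_mem₁`, `T_eq_of_mem₁`, `invariant_of_mem₁` : for ANY `f ∈ F1bar M` which is the
  convergent `q`-expansion of a function `g`: `f = a / b` with `a b ∈ R₁`, `Θ a = Θ b · g`; the cusp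
  expansions `C.T γ f` are the `q_M`-expansions of `g ∘ γ`; `g` is `Γ₁(M)`-invariant;
* `tF1 M h = ffIncl M (tF M h)` : the Hauptmodul `t` of `X₀(n)` (`n ∣ M`) as an element of `FF1 M`;
  `tRealize₁`, `T_tF1_eq`, `transcendental_tF1`, `isGen_tF1`;
* `finrank_adjoin_tF1_mul` : `ψ(n) · [F₁ : ℚbar(t)] = [F₁ : ℚbar(j)]` for `n ∣ M`, given
  `TGenBase n e` (`ℚbar(t) = Fbar_n`, main).
-/
import Mathlib
import Fermat.Agent.RED.BASE.TGen19
import Fermat.Agent.ES.R48.X1Iface13
import Fermat.Agent.ES.R48.X1FracR1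

set_option autoImplicit false
set_option linter.unusedSectionVars false

open ModularCurve UpperHalfPlane Polynomial IntermediateField AlgebraicCurve
open scoped MatrixGroups

noncomputable section

namespace Fermat.Agent.ES.R48.TGenOne7

open Fermat.Agent.X0 Fermat.Agent.X0.Analytic
open Fermat.Agent.RED.BASE.QExpMem19 Fermat.Agent.RED.BASE.Interface12
  Fermat.Agent.RED.BASE.EtaQuot12
open Fermat.Agent.ES.R48.FF1Defs13 Fermat.Agent.ES.R48.X1Iface13

/-! ### the analytic dictionary for `R₁` -/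

section Dictionary

variable {M : ℕ} [NeZero M] (D : RealizeData1 M) (C : CuspData1 M D)

/-- The series of `u ∈ R₁` is the convergent `q`-expansion of `Θ u`. -/
theorem hasQExp_Θ (u : Rsub1 M) :
    HasQExp (toC ((u : FF1 M) : LaurentSeries Kbar)) (D.Θ u) := by
  obtain ⟨m, P, hP, hu⟩ := D.isQExp u
  rw [hu, toC, lor_coeffMap_laurentOf]
  exact intg_hasQExp_of_isQExp hP

/-- `C.T γ u` is the `q_M`-expansion of `Θ u ∘ γ`. -/
theorem intg_T_spec₁ (γ : SL(2, ℤ)) (u : Rsub1 M) :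
    IntgQN M (compSL (D.Θ u) γ) (toC (C.T γ (u : FF1 M))) := by
  obtain ⟨m, P, hP, hT⟩ := C.spec γ u
  rw [hT, toC, lor_coeffMap_laurentOf]
  exact intg_qn_of_isQExp M hP

/-- **(ii)** An element `w = ⟨f, _⟩` of `FF1 M` whose series is the convergent `q`-expansion of `g`
is a fraction `a / b` of elements of `R₁ = ℚbar[j_d, W_c]` with `Θ a = Θ b * g` pointwise. -/
theorem exists_fraction_of_mem₁ {f : LaurentSeries Kbar} {g : ℍ → ℂ} (hf : f ∈ F1bar M)
    (hq : HasQExp (toC f) g) :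
    ∃ a b : Rsub1 M, b ≠ 0 ∧ (⟨f, hf⟩ : FF1 M) * (b : FF1 M) = (a : FF1 M) ∧
      ∀ z, D.Θ a z = D.Θ b z * g z := by
  obtain ⟨a, b, hb, hw⟩ := X1FracR1.exists_div_ne_zero M (⟨f, hf⟩ : FF1 M)
  have hb' : (b : FF1 M) ≠ 0 := fun h0 => hb (Subtype.ext h0)
  have hwb : (⟨f, hf⟩ : FF1 M) * (b : FF1 M) = (a : FF1 M) := by
    rw [hw, div_mul_cancel₀ _ hb']
  refine ⟨a, b, hb, hwb, fun z => ?_⟩
  have hser : ((a : FF1 M) : LaurentSeries Kbar) = f * ((b : FF1 M) : LaurentSeries Kbar) := by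
    rw [← hwb]
    rfl
  have h1 : HasQExp (toC ((a : FF1 M) : LaurentSeries Kbar)) (g * D.Θ b) := by
    rw [hser, map_mul]
    exact hq.mul (hasQExp_Θ D b)
  have h2 := HasQExp.unique_right (hasQExp_Θ D a) h1
  rw [h2]
  show g z * D.Θ b z = D.Θ b z * g z
  ring

/-- **(i)** The cusp expansion `C.T γ w` is the `q_M`-expansion of `g ∘ γ`. -/
theorem T_eq_of_mem₁ {f : LaurentSeries Kbar} {g : ℍ → ℂ} (hf : f ∈ F1bar M)
    (hq : HasQExp (toC f) g) (γ : SL(2, ℤ)) (T : LaurentSeries Kbar)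
    (hT : IntgQN M (compSL g γ) (toC T)) : C.T γ (⟨f, hf⟩ : FF1 M) = T := by
  obtain ⟨a, b, hb, hwb, hfun⟩ := exists_fraction_of_mem₁ D hf hq
  have hb' : (b : FF1 M) ≠ 0 := fun h0 => hb (Subtype.ext h0)
  have hTb : C.T γ (b : FF1 M) ≠ 0 := by
    rw [Ne, map_eq_zero_iff _ (C.T γ).injective]
    exact hb'
  have ha := intg_T_spec₁ D C γ a
  have hbs := intg_T_spec₁ D C γ b
  have hfun' : compSL (D.Θ a) γ = compSL (D.Θ b) γ * compSL g γ := by
    funext z
    exact hfun (γ • z)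
  rw [hfun'] at ha
  have hprod := intg_qn_mul M hbs hT
  have h3 := toC_injective (by
    rw [map_mul]
    exact intg_qn_unique M ha hprod :
      toC (C.T γ (a : FF1 M)) = toC (C.T γ (b : FF1 M) * T))
  rw [← hwb, map_mul, mul_comm] at h3
  exact mul_left_cancel₀ hTb h3

include D in
/-- The function `g` attached to an element of `FF1 M` is `Γ₁(M)`-invariant. -/
theorem invariant_of_mem₁ {f : LaurentSeries Kbar} {g : ℍ → ℂ} (hf : f ∈ F1bar M)
    (hq : HasQExp (toC f) g) (γ : SL(2, ℤ)) (hγ : γ ∈ CongruenceSubgroup.Gamma1 M) :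
    compSL g γ = g := by
  obtain ⟨a, b, hb, hwb, hfun⟩ := exists_fraction_of_mem₁ D hf hq
  have ha := D.invariant a γ hγ
  have hbi := D.invariant b γ hγ
  have hmul : ∀ z, D.Θ b z * (g (γ • z) - g z) = 0 := by
    intro z
    have h1 : D.Θ a (γ • z) = D.Θ b (γ • z) * g (γ • z) := hfun (γ • z)
    have h2 : D.Θ a z = D.Θ b z * g z := hfun z
    have h3 : D.Θ a (γ • z) = D.Θ a z := congrFun ha z
    have h4 : D.Θ b (γ • z) = D.Θ b z := congrFun hbi z
    rw [h3, h4, h2] at h1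
    rw [mul_sub, ← h1, sub_self]
  have hg : g ∈ HolH := hq.mdifferentiable
  have hd : compSL g γ - g ∈ HolH := HolH.sub_mem (compSL_mem_HolH hg γ) hg
  have hprod : D.Θ b * (compSL g γ - g) = 0 := by
    funext z
    exact hmul z
  rcases mul_eq_zero_HolH (D.mem_HolH b) hd hprod with h0 | h0
  · exfalso
    apply hb
    apply D.injective
    rw [h0, map_zero]
  · exact sub_eq_zero.mp h0

end Dictionary

/-! ### the Hauptmodul `t` of `X₀(n)` inside `F₁` -/

section TFacts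

variable (n e : ℕ) [NeZero n] (M : ℕ) [NeZero M]

/-- `t` as an element of `FF1 M`. -/
def tF1 (h : TMem n e M) : FF1 M := ffIncl M (tF M h)

theorem coe_tF1 (h : TMem n e M) :
    ((tF1 n e M h : FF1 M) : LaurentSeries Kbar) = tK n e := by
  rw [tF1, coe_ffIncl]
  rfl

theorem tK_mem_F1bar (h : TMem n e M) : tK n e ∈ F1bar M := fullBar_le_F1bar M h

theorem tF1_eq (h : TMem n e M) : tF1 n e M h = ⟨tK n e, tK_mem_F1bar n e M h⟩ :=
  Subtype.ext (coe_tF1 n e M h)

variable {M} (D : RealizeData1 M) (C : CuspData1 M D)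

/-- **(B2')₁** the analytic dictionary for `t` in `F₁`: `t = a/b` with `Θ a = Θ b · tauFun`. -/
theorem tRealize₁ (h : TMem n e M) :
    ∃ a b : Rsub1 M, b ≠ 0 ∧ tF1 n e M h * (b : FF1 M) = (a : FF1 M) ∧
      ∀ z : ℍ, D.Θ a z = D.Θ b z * tauFun n e z := by
  rw [tF1_eq]
  exact exists_fraction_of_mem₁ D (tK_mem_F1bar n e M h) (hasQExp_tauFun_K n e)

/-- The cusp expansions of `t` in `F₁` are the `q_M`-expansions of `tauFun ∘ γ`. -/
theorem T_tF1_eq (h : TMem n e M) (γ : SL(2, ℤ)) (T : LaurentSeries Kbar)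
    (hT : IntgQN M (compSL (tauFun n e) γ) (toC T)) : C.T γ (tF1 n e M h) = T := by
  rw [tF1_eq]
  exact T_eq_of_mem₁ D C (tK_mem_F1bar n e M h) (hasQExp_tauFun_K n e) γ T hT

variable (M)

/-- `t` is transcendental over `ℚbar` in `F₁`. -/
theorem transcendental_tF1 (h : TMem n e M) : Transcendental Kbar (tF1 n e M h) := by
  intro halg
  exact Fermat.Agent.RED.BASE.TGen19.transcendental_tF n e M h
    ((isAlgebraic_algHom_iff (ffIncl M) (ffIncl_injective M)).mp halg)

/-- `t` is a transcendental generator of `F₁` (given the finiteness of `F₁` over `ℚbar(j)`, a G2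
export). -/
theorem isGen_tF1 [FiniteDimensional (Kbar⟮jF1 M⟯ : IntermediateField Kbar (FF1 M)) (FF1 M)]
    (h : TMem n e M) : FF.IsGen Kbar (tF1 n e M h) :=
  ⟨transcendental_tF1 n e M h,
    FF.ffx_finiteDimensional_of_transcendental (jF1 M) (tF1 n e M h) (transcendental_tF1 n e M h)⟩

end TFacts

/-! ### the degree of `F₁` over `ℚbar(t)` -/

section Degree

variable (n e : ℕ) [NeZero n] (M : ℕ) [NeZero M]

theorem fbar_le_F1bar (hnM : n ∣ M) : modularFunctionFieldBar n ≤ F1bar M :=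
  (fbar_mono hnM).trans (fullBar_le_F1bar M)

theorem coe_jF1 : ((jF1 M : FF1 M) : LaurentSeries Kbar) = jqK := by
  rw [jF1, jdF1, coe_ffIncl]
  exact Fermat.Agent.X0.coe_jF M

/-- The subfield `ℚbar(j)` of `F₁` is the preimage of `K0 = ℚbar(j) ⊆ ℚbar((q))`. -/
theorem adjoin_jF1_eq_comap :
    (Kbar⟮jF1 M⟯ : IntermediateField Kbar (FF1 M)) = K0.comap (F1bar M).val := by
  apply le_antisymm
  · rw [adjoin_simple_le_iff]
    show ((jF1 M : FF1 M) : LaurentSeries Kbar) ∈ K0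
    rw [coe_jF1]
    exact mem_adjoin_simple_self Kbar jqK
  · intro y hy
    have hy' : (y : LaurentSeries Kbar) ∈ K0 := hy
    have h3 : (y : LaurentSeries Kbar) ∈
        IntermediateField.lift (Kbar⟮jF1 M⟯ : IntermediateField Kbar (FF1 M)) := by
      rw [IntermediateField.lift_adjoin_simple, coe_jF1]
      exact hy'
    exact (IntermediateField.mem_lift y).mp h3

/-- The subfield `ℚbar(t)` of `F₁` is the preimage of `Fbar_n`, when `ℚbar(t) = Fbar_n`. -/
theorem adjoin_tF1_eq_comap (hbase : TGenBase n e) (h : TMem n e M) :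
    (Kbar⟮tF1 n e M h⟯ : IntermediateField Kbar (FF1 M)) =
      (modularFunctionFieldBar n).comap (F1bar M).val := by
  obtain ⟨hn, htop⟩ := hbase
  apply le_antisymm
  · rw [adjoin_simple_le_iff]
    show ((tF1 n e M h : FF1 M) : LaurentSeries Kbar) ∈ modularFunctionFieldBar n
    rw [coe_tF1]
    exact hn
  · intro y hy
    have hy' : (y : LaurentSeries Kbar) ∈ modularFunctionFieldBar n := hy
    have h1 : (⟨(y : LaurentSeries Kbar), hy'⟩ : FF n) ∈
        (Kbar⟮tF n hn⟯ : IntermediateField Kbar (FF n)) := by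
      rw [htop]
      exact IntermediateField.mem_top
    have h2 : (y : LaurentSeries Kbar) ∈
        IntermediateField.lift (Kbar⟮tF n hn⟯ : IntermediateField Kbar (FF n)) :=
      (IntermediateField.mem_lift (⟨(y : LaurentSeries Kbar), hy'⟩ : FF n)).mpr h1
    rw [IntermediateField.lift_adjoin_simple] at h2
    have h3 : (y : LaurentSeries Kbar) ∈
        IntermediateField.lift (Kbar⟮tF1 n e M h⟯ : IntermediateField Kbar (FF1 M)) := by
      rw [IntermediateField.lift_adjoin_simple, coe_tF1]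
      exact h2
    exact (IntermediateField.mem_lift y).mp h3

/-- **(B3)₁** `ψ(n) · [F₁ : ℚbar(t)] = [F₁ : ℚbar(j)]` for `n ∣ M`, when `ℚbar(t) = Fbar_n`. -/
theorem finrank_adjoin_tF1_mul (hbase : TGenBase n e) (hnM : n ∣ M) (h : TMem n e M) :
    dedekindPsi n *
        Module.finrank (Kbar⟮tF1 n e M h⟯ : IntermediateField Kbar (FF1 M)) (FF1 M) =
      Module.finrank (Kbar⟮jF1 M⟯ : IntermediateField Kbar (FF1 M)) (FF1 M) := by
  rw [adjoin_tF1_eq_comap n e M hbase h, adjoin_jF1_eq_comap, IntermediateField.finrank_comap,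
    IntermediateField.finrank_comap, IntermediateField.fieldRange_val,
    ← Fermat.Agent.RED.BASE.TGen19.relfinrank_K0 n]
  exact IntermediateField.relfinrank_mul_relfinrank (K0_le n) (fbar_le_F1bar n M hnM)

/-- The same as a quotient. -/
theorem finrank_adjoin_tF1 (hbase : TGenBase n e) (hnM : n ∣ M) (h : TMem n e M) :
    Module.finrank (Kbar⟮tF1 n e M h⟯ : IntermediateField Kbar (FF1 M)) (FF1 M) =
      Module.finrank (Kbar⟮jF1 M⟯ : IntermediateField Kbar (FF1 M)) (FF1 M) / dedekindPsi n := by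
  rw [← finrank_adjoin_tF1_mul n e M hbase hnM h,
    Nat.mul_div_cancel_left _ (GNPsi.gnp_dedekindPsi_pos (NeZero.ne n))]

end Degree

end Fermat.Agent.ES.R48.TGenOne7
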