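/-
Programme R (S48) / chapter GEOM, G3 MODEL₁ / C. CUSP₁ (helper23): twin of
`Fermat/Agent/RED/CUSP/RankConcrete16.lean` for `X₁(M)`: the concrete RANK bridge.

For `K ⊂ ℚ̄`, `t : FK1 M K = K·F1 M` and `emb = CuspEmbKOne26.emb M K : FK1 M K →+* FF1 M`
(coefficientwise base change):

  `[K·F1 M : K(t)] = [ℚ̄·F1 M : ℚ̄(emb t)]`   (`finrank_adjoin_eq`),

as soon as the RIGHT-hand side is finite; in particular `K·F1 M` is finite over `K(t)`
(`finiteDimensional_adjoin`).  Main's proof went through `[K·F_M : K(j)] = ψ(M)` (the `IG/` chapters);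
here both statements come from linear disjointness of constants alone: helper26's
`RankBridgeK26.finrank_eq` (`≥`, given finiteness downstairs) and the NEW
`finiteDimensional_of_isConstExt` (finiteness descends: a `k(x)`-independent family stays
`K(ι x)`-independent, `RankBridgeK26.linearIndependent_map`).  No hypothesis `j ∈ K(t)` is needed.

For the Hauptmodul (`(t : K((q))) = tq K n e`): `emb_eq_tF1 : emb t = ffIncl M (tF M h)`, hence
`finiteDimensional_adjoin_t`, `finrank_adjoin_tF1`, `finrank_adjoin_inv_tF1`, given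
`hj : FF.IsGen Kbar (jF1 M)` (`X1Degree14.isGen_jF1`).
`adjoin_inv_eq`, `finrank_adjoin_inv` are imported AS-IS from main's `RankConcrete16`.
-/
import Fermat.Agent.RED.CUSP.RankConcrete16
import Fermat.Agent.ES.R48.RankBridgeK26
import Fermat.Agent.ES.R48.PlaceExtendBc7
import Fermat.Agent.ES.R48.TGenOne7
import Fermat.Agent.ES.R48.CuspEmbKOne26

set_option autoImplicit false
set_option linter.unusedSectionVars false

open IntermediateField

noncomputable section

namespace Fermat.Agent.ES.R48.RankConcreteOne23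

/-! ### Descent of finiteness along a constant field extension -/

section Abstract

open Fermat.Agent.J.DESC.ConstExt24

universe u v w x

variable {k : Type u} {K : Type v} {Fk : Type w} {FK : Type x} [Field k] [Field K] [Field Fk]
  [Field FK] [Algebra k K] [Algebra k Fk] [Algebra K FK]
  {ι : Fk →+* FK} (hι : IsConstExt (k := k) (K := K) ι)

include hι

/-- **Finiteness descends**: if `FK` is finite over `K(ι x)` then `Fk` is finite over `k(x)`. -/
theorem finiteDimensional_of_isConstExt (x : Fk) [FiniteDimensional K⟮ι x⟯ FK] :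
    FiniteDimensional k⟮x⟯ Fk := by
  have hle : Module.rank k⟮x⟯ Fk ≤ ((Module.finrank K⟮ι x⟯ FK : ℕ) : Cardinal) := by
    apply rank_le
    intro s hs
    have hli := RankBridgeK26.linearIndependent_map hι x (fun i : s => (i : Fk)) hs
    have := hli.fintype_card_le_finrank
    simpa using this
  exact Module.rank_lt_aleph0_iff.mp (lt_of_le_of_lt hle (Cardinal.natCast_lt_aleph0))

/-- **The rank bridge, from finiteness upstairs**: `[Fk : k(x)] = [FK : K(ι x)]`. -/
theorem finrank_eq_of_isConstExt (x : Fk) [FiniteDimensional K⟮ι x⟯ FK] :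
    Module.finrank k⟮x⟯ Fk = Module.finrank K⟮ι x⟯ FK := by
  have := finiteDimensional_of_isConstExt hι x
  exact (RankBridgeK26.finrank_eq hι x).2.symm

end Abstract

/-! ### The concrete bridge for `K·F1 M → ℚ̄·F1 M` -/

open Fermat.Agent.X0 AlgebraicCurve ModularCurve HahnSeries
open Fermat.Agent.RED.Interface4 Fermat.Agent.RED.BASE.Interface12
open Fermat.Agent.ES.R48.FF1Defs13 Fermat.Agent.ES.R48.X1Iface13
open Fermat.Agent.ES.R48.G3Defs4 Fermat.Agent.ES.R48.PlaceExtendG7
open Fermat.Agent.ES.R48.CuspEmbKOne26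

variable (M : ℕ) [NeZero M] (K : IntermediateField ℚ Qbar)

/-- `K·F1 M` is finite over `K(t)` as soon as `ℚ̄·F1 M` is finite over `ℚ̄(emb t)`. -/
theorem finiteDimensional_adjoin (t : ↥(FK1 M K)) [FiniteDimensional Kbar⟮emb M K t⟯ (FF1 M)] :
    FiniteDimensional ↥(IntermediateField.adjoin K {t}) ↥(FK1 M K) :=
  finiteDimensional_of_isConstExt (PlaceExtendBc7.isConstExt_baseChangeHomG (F1 M) K) t

/-- **The concrete rank bridge.** -/
theorem finrank_adjoin_eq (t : ↥(FK1 M K)) [FiniteDimensional Kbar⟮emb M K t⟯ (FF1 M)] :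
    Module.finrank ↥(IntermediateField.adjoin K {t}) ↥(FK1 M K) =
      Module.finrank Kbar⟮emb M K t⟯ (FF1 M) :=
  finrank_eq_of_isConstExt (PlaceExtendBc7.isConstExt_baseChangeHomG (F1 M) K) t

/-- the same for the coordinate `t⁻¹`. -/
theorem finrank_adjoin_inv_eq (t : ↥(FK1 M K)) [FiniteDimensional Kbar⟮emb M K t⟯ (FF1 M)] :
    Module.finrank ↥(IntermediateField.adjoin K {t⁻¹}) ↥(FK1 M K) =
      Module.finrank Kbar⟮emb M K t⟯ (FF1 M) := by
  rw [Fermat.Agent.RED.CUSP.RankConcrete16.finrank_adjoin_inv]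
  exact finrank_adjoin_eq M K t

variable {n e : ℕ} [NeZero n]

/-- The Hauptmodul over `K` maps to the Hauptmodul over `ℚ̄` (seen in `F₁`). -/
theorem emb_eq_tF1 (h : TMem n e M) (t : ↥(FK1 M K))
    (ht : (t : LaurentSeries K) = Fermat.Agent.RED.BASE.EtaQuot12.tq K n e) :
    emb M K t = ffIncl M (tF M h) := by
  apply Subtype.ext
  rw [coe_baseChangeHomG, ht, coe_ffIncl]
  exact Fermat.Agent.RED.BASE.EtaQuot12.coeffMap_tq ↥K (algebraMap K Qbar) n e

/-- `K·F1 M` is finite over `K(t)` for the Hauptmodul. -/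
theorem finiteDimensional_adjoin_t (hj : FF.IsGen Kbar (jF1 M)) (h : TMem n e M)
    (t : ↥(FK1 M K)) (ht : (t : LaurentSeries K) = Fermat.Agent.RED.BASE.EtaQuot12.tq K n e) :
    FiniteDimensional ↥(IntermediateField.adjoin K {t}) ↥(FK1 M K) := by
  have : FiniteDimensional (Kbar⟮jF1 M⟯ : IntermediateField Kbar (FF1 M)) (FF1 M) := hj.finite
  have : FiniteDimensional Kbar⟮emb M K t⟯ (FF1 M) := by
    rw [emb_eq_tF1 M K h t ht]
    exact (TGenOne7.isGen_tF1 n e M h).finite
  exact finiteDimensional_adjoin M K t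

/-- `[K·F1 M : K(t)] = [ℚ̄·F1 M : ℚ̄(t)]` for the Hauptmodul. -/
theorem finrank_adjoin_tF1 (hj : FF.IsGen Kbar (jF1 M)) (h : TMem n e M) (t : ↥(FK1 M K))
    (ht : (t : LaurentSeries K) = Fermat.Agent.RED.BASE.EtaQuot12.tq K n e) :
    Module.finrank ↥(IntermediateField.adjoin K {t}) ↥(FK1 M K) =
      Module.finrank Kbar⟮ffIncl M (tF M h)⟯ (FF1 M) := by
  have : FiniteDimensional (Kbar⟮jF1 M⟯ : IntermediateField Kbar (FF1 M)) (FF1 M) := hj.finite
  have : FiniteDimensional Kbar⟮emb M K t⟯ (FF1 M) := by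
    rw [emb_eq_tF1 M K h t ht]
    exact (TGenOne7.isGen_tF1 n e M h).finite
  rw [← emb_eq_tF1 M K h t ht]
  exact finrank_adjoin_eq M K t

/-- `[K·F1 M : K(t⁻¹)] = [ℚ̄·F1 M : ℚ̄(t)]` for the Hauptmodul. -/
theorem finrank_adjoin_inv_tF1 (hj : FF.IsGen Kbar (jF1 M)) (h : TMem n e M) (t : ↥(FK1 M K))
    (ht : (t : LaurentSeries K) = Fermat.Agent.RED.BASE.EtaQuot12.tq K n e) :
    Module.finrank ↥(IntermediateField.adjoin K {t⁻¹}) ↥(FK1 M K) =
      Module.finrank Kbar⟮ffIncl M (tF M h)⟯ (FF1 M) := by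
  rw [Fermat.Agent.RED.CUSP.RankConcrete16.finrank_adjoin_inv]
  exact finrank_adjoin_tF1 M K hj h t ht

end Fermat.Agent.ES.R48.RankConcreteOne23
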