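/-
Programme R (S48) / chapter GEOM, G3 MODEL₁ / C. CUSP₁ (helper23): **the closer of CUSP₁**,
twin of the family half of `Fermat/Agent/RED/CUSP/CuspConcrete23.lean`:

  `cuspFamilyTarget1 : G3Defs4.CuspFamilyTarget1 n e M A cv`

(cusp families over every finite cusp value and over `t = ∞`, of total rank `[K · F1 M : K(t)]`, over
all sufficiently large number fields `K ∋ ζ_M`) for ANY interface pair
`(D : RealizeData1 M) (C : CuspData1 M D)`.

Inputs: helper26's packaged families `CuspPackKOne26.cusp_family_some/none` (with the fibre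
descriptions `ZeroFibre`/`PoleFibre` supplied by `CuspFibreOneB23`, exactness and surjectivity by
`CuspExactClose23`, `isGen_jF1` by `X1Degree14`), the rank bridge `RankConcreteOne23`, and
`CuspEmbKOne26.TK` (`TK_const`, `TK_mem_psFrac`).  Hypotheses left: `3 ≤ M`, the slash formula
`hWs : WSlash M` (G1-E3) and the integrality `hW : WInt C` of the expansions of the `W_c` (G1-E4).
-/
import Fermat.Agent.RED.CUSP.CuspConcrete23
import Fermat.Agent.ES.R48.CuspPackKOne26
import Fermat.Agent.ES.R48.CuspFibreOneB23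
import Fermat.Agent.ES.R48.CuspExactClose23
import Fermat.Agent.ES.R48.RankConcreteOne23

set_option autoImplicit false
set_option linter.unusedSectionVars false
set_option linter.unusedVariables false

open HahnSeries ModularCurve IntermediateField
open scoped MatrixGroups

noncomputable section

namespace Fermat.Agent.ES.R48.CuspConcreteOne23

open Fermat.Agent.RED.Interface4 Fermat.Agent.RED.ModelTargets4
  Fermat.Agent.RED.BASE.EtaQuot12 Fermat.Agent.X0 Fermat.Agent.RED.NumInst4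
  Fermat.Agent.RED.DESC.NumberFieldDVR27 Fermat.Agent.RED.BASE.Interface12
  Fermat.Agent.RED.CUSP.IntClosedPS16
  Fermat.Agent.RED.BASE.Hauptmodul12 Fermat.Agent.RED.CUSP.CuspIface23
  Fermat.Agent.ES.R48.FF1Defs13 Fermat.Agent.ES.R48.X1Iface13 Fermat.Agent.ES.R48.G3Defs4
  Fermat.Agent.ES.R48.CuspExactOne26 Fermat.Agent.ES.R48.CuspEmbKOne26
  Fermat.Agent.ES.R48.CuspPackKOne26

variable {n e : ℕ} [NeZero n] {M : ℕ} [NeZero M] (A : ValuationSubring Qbar)
  {K : IntermediateField ℚ Qbar} {D : RealizeData1 M} (C : CuspData1 M D)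

section Family

variable (hb : BaseHyp n e) (hnM : n ∣ M) (cv : SL(2, ℤ) → Option Kbar) (hcv : CuspExp n e M cv)
  (h : TMem n e M) (hζ : zetaK M ∈ K) (hW : WInt C)

include hb hnM hcv hζ hW in
/-- the family over a finite cusp value, in the wrapper form. -/
theorem hasCuspFamily_some [IsPrincipalIdealRing ↥(AK A K)] (hMA : ((M : Qbar))⁻¹ ∈ A)
    (hE : Exact C) (hj : FF.IsGen Kbar (jF1 M)) (hzero : ZeroFibre C cv (ffIncl M (tF M h)))
    (t : ↥(FK1 M K)) (ht : emb M K t = ffIncl M (tF M h)) (c : ↥(AK A K)) (γ₀ : SL(2, ℤ))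
    (hγ₀ : cv γ₀ = some (algebraMap K Qbar (c : K))) :
    HasCuspFamily (AK A K) (FK1 M K) t c
      (Module.finrank Kbar⟮ffIncl M (tF M h)⟯ (FF1 M)) := by
  obtain ⟨c', hc', Cι, hfin, hdec, γ, e', u, -, he, heA, hu, hshape, -, hsum, hpl⟩ :=
    cusp_family_some C hζ hW A hb hnM cv hcv h hMA hE hj hzero t ht γ₀ _ hγ₀
  have hcc : c' = c := Subtype.ext ((algebraMap K Qbar).injective hc')
  subst hcc
  exact ⟨Cι, hfin, hdec, fun κ => TK C hζ hW (γ κ), e', u,
    fun κ a => TK_const C hζ hW (γ κ) (a : K),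
    fun κ f => TK_mem_psFrac C hζ hW (γ κ) A hMA f, he, heA, hu, hshape, hpl, hsum⟩

include hb hnM hcv hζ hW in
/-- the family over the poles of `t`, for the coordinate `t⁻¹` and the value `0`. -/
theorem hasCuspFamily_none [IsPrincipalIdealRing ↥(AK A K)] (hMA : ((M : Qbar))⁻¹ ∈ A)
    (hE : Exact C) (hj : FF.IsGen Kbar (jF1 M)) (hpole : PoleFibre C cv (ffIncl M (tF M h)))
    (t : ↥(FK1 M K)) (ht : emb M K t = ffIncl M (tF M h)) :
    HasCuspFamily (AK A K) (FK1 M K) t⁻¹ 0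
      (Module.finrank Kbar⟮ffIncl M (tF M h)⟯ (FF1 M)) := by
  obtain ⟨Cι, hfin, hdec, γ, e', u, -, he, heA, hu, hshape, -, hsum, hpl⟩ :=
    cusp_family_none C hζ hW A hb hnM cv hcv h hMA hE hj hpole t ht
  exact ⟨Cι, hfin, hdec, fun κ => TK C hζ hW (γ κ), e', u,
    fun κ a => TK_const C hζ hW (γ κ) (a : K),
    fun κ f => TK_mem_psFrac C hζ hW (γ κ) A hMA f, he, heA, hu, hshape, hpl, hsum⟩

end Family

section Main

open Fermat.Agent.RED.BASE

variable {A}

/-- **CUSP₁, closed**: cusp families of full rank over every finite cusp value and over `t = ∞`,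
for all sufficiently large number fields. -/
theorem cuspFamilyTarget1 (hM3 : 3 ≤ M) (hWs : WSlash M) (hW : WInt C) (hb : BaseHyp n e)
    (hnM : n ∣ M) {ℓ : ℕ} (hℓ : ℓ.Prime) (hℓM : ¬ ℓ ∣ M) (hA : A.LiesOverPrime ℓ)
    (cv : SL(2, ℤ) → Option Kbar) (hcv : CuspExp n e M cv) :
    CuspFamilyTarget1 n e M A cv := by
  have hB := Main12.baseExports hb M hnM
  obtain ⟨K₃, hK₃, hζ₀⟩ := Fermat.Agent.RED.CUSP.CuspConcrete23.exists_zeta_field M
  have hj : FF.IsGen Kbar (jF1 M) := X1Degree14.isGen_jF1 M D C hM3 hWs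
  have hE : Exact C := CuspExactClose23.exact C hM3 hWs
  have hsurj := CuspExactClose23.exists_cuspPlaceX_eq C hM3 hWs
  have hzero : ZeroFibre C cv (ffIncl M (tF M hB.mem)) := fun v γ₀ c hγ₀ hpos =>
    CuspFibreOneB23.exists_placeOf_of_zero hj hb hnM cv hcv hsurj hB.mem v γ₀ c hγ₀ hpos
  have hpole : PoleFibre C cv (ffIncl M (tF M hB.mem)) := fun v hneg =>
    CuspFibreOneB23.exists_placeOf_of_pole hj hb hnM cv hcv hsurj hB.mem v hneg
  have hMA : ((M : Qbar))⁻¹ ∈ A := inv_natCast_mem hℓ hA M hℓM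
  refine ⟨K₃, hK₃, fun K hKfd hle ϖ hϖ t htq => ?_⟩
  have hζ : zetaK M ∈ K := hle hζ₀
  have hdvr : IsDiscreteValuationRing ↥(AK A K) := isDiscreteValuationRing_AK A K hℓ.ne_zero hA
  have hembt : emb M K t = ffIncl M (tF M hB.mem) :=
    RankConcreteOne23.emb_eq_tF1 M K hB.mem t htq
  refine ⟨fun c hc => ?_, ?_⟩
  · obtain ⟨γ₀, hγ₀⟩ := hc
    have hfam := hasCuspFamily_some A C hb hnM cv hcv hB.mem hζ hW hMA hE hj hzero t hembt c γ₀ hγ₀
    rw [← RankConcreteOne23.finrank_adjoin_tF1 M K hj hB.mem t htq] at hfam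
    exact hfam
  · have hfam := hasCuspFamily_none A C hb hnM cv hcv hB.mem hζ hW hMA hE hj hpole t hembt
    rw [← RankConcreteOne23.finrank_adjoin_inv_tF1 M K hj hB.mem t htq] at hfam
    exact hfam

end Main

end Fermat.Agent.ES.R48.CuspConcreteOne23
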