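/-
Programme R (S48, Deligne–Serre), chapter GEOM, sub-chapter G1 EIS-GEN (helper10):
**shared definition** of the pair-class lattice sums of weight `4`.

`gPair M a z = ∑_{v ∈ ℤ², v ≡ a (mod M)} (v₀ z + v₁)⁻⁴`, `a : Fin 2 → ZMod M`
(the term `v = 0`, present when `a = 0`, is `1 / 0 = 0`).

Consumers: the slash rule `gPair M a (γ • z) = denom γ z ^ 4 * gPair M (a ᵥ* γ) z` and the
decomposition `gFun M c = ∑_{a₁} gPair M ![c, a₁]` (E1/E3), the `q_M`-expansions at all cusps (E4).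
Keep this file TINY and STABLE.
-/
import Mathlib

set_option autoImplicit false

open UpperHalfPlane

noncomputable section

namespace Fermat.Agent.ES.R48.GPairDefs10

/-- the summand `(v₀ z + v₁)⁻⁴` (same shape as in `X1Iface13.gFun`). -/
def term4 (v : Fin 2 → ℤ) (z : ℍ) : ℂ :=
  1 / (((v 0 : ℤ) : ℂ) * (z : ℂ) + ((v 1 : ℤ) : ℂ)) ^ 4

/-- the index set `{v ∈ ℤ² | v ≡ a (mod M)}`. -/
def pairSet (M : ℕ) (a : Fin 2 → ZMod M) : Set (Fin 2 → ℤ) :=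
  {v | ((↑) : ℤ → ZMod M) ∘ v = a}

theorem mem_pairSet {M : ℕ} {a : Fin 2 → ZMod M} {v : Fin 2 → ℤ} :
    v ∈ pairSet M a ↔ ((v 0 : ℤ) : ZMod M) = a 0 ∧ ((v 1 : ℤ) : ZMod M) = a 1 := by
  constructor
  · intro h
    exact ⟨congrFun h 0, congrFun h 1⟩
  · rintro ⟨h0, h1⟩
    funext i
    fin_cases i
    · exact h0
    · exact h1

/-- `G_a(z) = ∑_{v ≡ a (M)} (v₀ z + v₁)⁻⁴`. -/
def gPair (M : ℕ) (a : Fin 2 → ZMod M) (z : ℍ) : ℂ :=
  ∑' v : pairSet M a, term4 v.1 z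

theorem term4_eq_eisSummand (v : Fin 2 → ℤ) (z : ℍ) :
    term4 v z = EisensteinSeries.eisSummand 4 v z := by
  rw [term4, EisensteinSeries.eisSummand, one_div]
  rfl

end Fermat.Agent.ES.R48.GPairDefs10
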