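/-
Programme R (S48, Deligne–Serre), chapter GEOM, sub-chapter G1 EIS-GEN (helper29):
**lattice sums `∑_{v ∈ S} (v₀ z + v₁)^{-k}` over arbitrary sets `S ⊆ ℤ²`** (no coprimality
condition): summability, holomorphy on `ℍ`, and the transformation rule under `SL(2, ℤ)`.

* `latSum k S z = ∑' v : S, eisSummand k v z`;
* `summable_latSum`, `latSum_tendstoLocallyUniformly`, `latSum_mdifferentiable` (`3 ≤ k`);
* `vecMulEquiv γ : ℤ² ≃ ℤ²`, `v ↦ v ᵥ* γ`;
* `latSum_smul_of_iff` : if `v ∈ S ↔ v ᵥ* γ ∈ T` then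
  `latSum k S (γ • z) = denom γ z ^ k * latSum k T z`;
* `pairSet M a = {v | v ≡ a (mod M)}`, `rowSet M c = {v | v₀ ≡ c (mod M)}` and their rules:
  `latSum_pairSet_smul` (every `γ ∈ SL(2, ℤ)`, `a ↦ a ᵥ* γ`),
  `latSum_rowSet_smul` (`γ ∈ Γ₀(M)`, `c ↦ c * γ₀₀`),
  `latSum_rowSet_eq_sum` (`rowSet M c = ⊔_{a₁} pairSet M ![c, a₁]`).

Mathlib only.
-/
import Mathlib

set_option autoImplicit false

open UpperHalfPlane EisensteinSeries Matrix Filter Function Complex Manifold Set Topology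
open scoped MatrixGroups

noncomputable section

namespace Fermat.Agent.ES.R48.GSlash29

/-! ### Lattice sums over arbitrary index sets -/

/-- The lattice sum `∑_{v ∈ S} (v₀ z + v₁)^{-k}`. -/
def latSum (k : ℤ) (S : Set (Fin 2 → ℤ)) (z : ℍ) : ℂ := ∑' x : S, eisSummand k x z

theorem summable_norm_latSum {k : ℤ} (hk : 3 ≤ k) (S : Set (Fin 2 → ℤ)) (z : ℍ) :
    Summable fun x : S => ‖eisSummand k x z‖ :=
  (summable_norm_eisSummand hk z).subtype S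

theorem summable_latSum {k : ℤ} (hk : 3 ≤ k) (S : Set (Fin 2 → ℤ)) (z : ℍ) :
    Summable fun x : S => eisSummand k x z :=
  (summable_norm_latSum hk S z).of_norm

/-- Locally uniform convergence of the lattice sums (copy of Mathlib's
`eisensteinSeries_tendstoLocallyUniformly` for an arbitrary index set). -/
theorem latSum_tendstoLocallyUniformly {k : ℤ} (hk : 3 ≤ k) (S : Set (Fin 2 → ℤ)) :
    TendstoLocallyUniformly (fun (s : Finset S) ↦ (∑ x ∈ s, eisSummand k x ·))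
      (latSum k S ·) Filter.atTop := by
  have hk' : (2 : ℝ) < k := by norm_cast
  have p_sum : Summable fun x : S ↦ ‖x.val‖ ^ (-k) :=
    mod_cast (summable_one_div_norm_rpow hk').subtype (· ∈ S)
  simp only [tendstoLocallyUniformly_iff_forall_isCompact, latSum]
  intro K hK
  obtain ⟨A, B, hB, HABK⟩ := subset_verticalStrip_of_isCompact hK
  refine (tendstoUniformlyOn_tsum (hu := p_sum.mul_left <| r ⟨⟨A, B⟩, hB⟩ ^ (-k : ℝ))
    (fun p z hz ↦ ?_)).mono HABK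
  simpa only [eisSummand, one_div, ← _root_.zpow_neg, norm_zpow, ← Real.rpow_intCast,
    Int.cast_neg] using summand_bound_of_mem_verticalStrip (by positivity) p hB hz

theorem latSum_tendstoLocallyUniformlyOn {k : ℤ} (hk : 3 ≤ k) (S : Set (Fin 2 → ℤ)) :
    TendstoLocallyUniformlyOn (fun (s : Finset S) ↦
      ↑ₕ(fun (z : ℍ) ↦ ∑ x ∈ s, eisSummand k x z)) (↑ₕ(latSum k S))
          Filter.atTop {z : ℂ | 0 < z.im} := by
  rw [← upperHalfPlaneSet, ← range_coe, ← image_univ]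
  apply TendstoLocallyUniformlyOn.comp (s := ⊤) _ _ _ (OpenPartialHomeomorph.continuousOn_symm _)
  · simp only [Set.top_eq_univ, tendstoLocallyUniformlyOn_univ]
    apply latSum_tendstoLocallyUniformly hk
  · simp only [IsOpenEmbedding.toOpenPartialHomeomorph_target, Set.top_eq_univ, mapsTo_range_iff,
    Set.mem_univ, forall_const]

/-- The lattice sums are holomorphic on `ℍ`. -/
theorem latSum_mdifferentiable {k : ℤ} (hk : 3 ≤ k) (S : Set (Fin 2 → ℤ)) :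
    MDifferentiable 𝓘(ℂ) 𝓘(ℂ) (latSum k S) := by
  intro τ
  suffices DifferentiableAt ℂ (↑ₕ(latSum k S)) τ.1 by
    convert!
      MDifferentiableAt.comp τ (DifferentiableAt.mdifferentiableAt this) τ.mdifferentiable_coe
    exact funext fun z ↦ (comp_ofComplex (latSum k S) z).symm
  refine DifferentiableOn.differentiableAt ?_ (isOpen_upperHalfPlaneSet.mem_nhds τ.2)
  exact (latSum_tendstoLocallyUniformlyOn hk S).differentiableOn
    (Eventually.of_forall fun s ↦ DifferentiableOn.fun_sum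
    fun _ _ ↦ eisSummand_extension_differentiableOn _ _) isOpen_upperHalfPlaneSet

/-! ### The action of `SL(2, ℤ)` on index vectors -/

theorem vecMul_vecMul_inv (γ : SL(2, ℤ)) (v : Fin 2 → ℤ) :
    (v ᵥ* (γ : Matrix (Fin 2) (Fin 2) ℤ)) ᵥ* ((γ⁻¹ : SL(2, ℤ)) : Matrix (Fin 2) (Fin 2) ℤ) = v := by
  rw [vecMul_vecMul, ← Matrix.SpecialLinearGroup.coe_mul γ γ⁻¹, mul_inv_cancel,
    Matrix.SpecialLinearGroup.coe_one (n := Fin 2) (R := ℤ), vecMul_one]

theorem vecMul_inv_vecMul (γ : SL(2, ℤ)) (v : Fin 2 → ℤ) :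
    (v ᵥ* ((γ⁻¹ : SL(2, ℤ)) : Matrix (Fin 2) (Fin 2) ℤ)) ᵥ* (γ : Matrix (Fin 2) (Fin 2) ℤ) = v := by
  rw [vecMul_vecMul, ← Matrix.SpecialLinearGroup.coe_mul γ⁻¹ γ, inv_mul_cancel,
    Matrix.SpecialLinearGroup.coe_one (n := Fin 2) (R := ℤ), vecMul_one]

/-- `v ↦ v ᵥ* γ` as a permutation of `ℤ²`. -/
def vecMulEquiv (γ : SL(2, ℤ)) : (Fin 2 → ℤ) ≃ (Fin 2 → ℤ) where
  toFun v := v ᵥ* (γ : Matrix (Fin 2) (Fin 2) ℤ)
  invFun v := v ᵥ* ((γ⁻¹ : SL(2, ℤ)) : Matrix (Fin 2) (Fin 2) ℤ)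
  left_inv v := vecMul_vecMul_inv γ v
  right_inv v := vecMul_inv_vecMul γ v

theorem vecMulEquiv_apply (γ : SL(2, ℤ)) (v : Fin 2 → ℤ) :
    vecMulEquiv γ v = v ᵥ* (γ : Matrix (Fin 2) (Fin 2) ℤ) := rfl

/-- **The transformation rule**: if `γ` maps `S` bijectively onto `T`, then
`latSum k S (γ • z) = denom γ z ^ k * latSum k T z`. -/
theorem latSum_smul_of_iff (k : ℤ) {S T : Set (Fin 2 → ℤ)} (γ : SL(2, ℤ))
    (h : ∀ v : Fin 2 → ℤ, v ∈ S ↔ v ᵥ* (γ : Matrix (Fin 2) (Fin 2) ℤ) ∈ T) (z : ℍ) :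
    latSum k S (γ • z) = denom γ z ^ k * latSum k T z := by
  unfold latSum
  simp_rw [eisSummand_SL2_apply, tsum_mul_left]
  congr 1
  exact ((vecMulEquiv γ).subtypeEquiv h).tsum_eq (fun x : T => eisSummand k x z)

/-! ### Congruence classes -/

/-- The vectors congruent to `a` modulo `M`. -/
def pairSet (M : ℕ) (a : Fin 2 → ZMod M) : Set (Fin 2 → ℤ) :=
  {v | ((↑) : ℤ → ZMod M) ∘ v = a}

/-- The vectors whose first entry is congruent to `c` modulo `M`. -/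
def rowSet (M : ℕ) (c : ZMod M) : Set (Fin 2 → ℤ) := {v | ((v 0 : ℤ) : ZMod M) = c}

theorem mem_pairSet {M : ℕ} {a : Fin 2 → ZMod M} {v : Fin 2 → ℤ} :
    v ∈ pairSet M a ↔ ((v 0 : ℤ) : ZMod M) = a 0 ∧ ((v 1 : ℤ) : ZMod M) = a 1 := by
  simp only [pairSet, Set.mem_ofPred_eq, funext_iff, Fin.forall_fin_two, Function.comp_apply]

theorem mem_rowSet {M : ℕ} {c : ZMod M} {v : Fin 2 → ℤ} :
    v ∈ rowSet M c ↔ ((v 0 : ℤ) : ZMod M) = c := Iff.rfl

/-- entries of `v ᵥ* γ`. -/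
theorem vecMul_zero (v : Fin 2 → ℤ) (γ : SL(2, ℤ)) :
    (v ᵥ* (γ : Matrix (Fin 2) (Fin 2) ℤ)) 0 = v 0 * γ 0 0 + v 1 * γ 1 0 := by
  simp [vecMul, vec2_dotProduct]

theorem vecMul_one' (v : Fin 2 → ℤ) (γ : SL(2, ℤ)) :
    (v ᵥ* (γ : Matrix (Fin 2) (Fin 2) ℤ)) 1 = v 0 * γ 0 1 + v 1 * γ 1 1 := by
  simp [vecMul, vec2_dotProduct]

/-- the reduction of `γ` modulo `M` acting on residue vectors. -/
def redAct (M : ℕ) (a : Fin 2 → ZMod M) (γ : SL(2, ℤ)) : Fin 2 → ZMod M :=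
  ![a 0 * ((γ 0 0 : ℤ) : ZMod M) + a 1 * ((γ 1 0 : ℤ) : ZMod M),
    a 0 * ((γ 0 1 : ℤ) : ZMod M) + a 1 * ((γ 1 1 : ℤ) : ZMod M)]

theorem mem_pairSet_vecMul {M : ℕ} {a : Fin 2 → ZMod M} {v : Fin 2 → ℤ} (hv : v ∈ pairSet M a)
    (γ : SL(2, ℤ)) : v ᵥ* (γ : Matrix (Fin 2) (Fin 2) ℤ) ∈ pairSet M (redAct M a γ) := by
  rw [mem_pairSet] at hv ⊢
  rw [vecMul_zero, vecMul_one']
  simp only [redAct, cons_val_zero, cons_val_one]
  push_cast
  rw [hv.1, hv.2]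
  exact ⟨rfl, rfl⟩

theorem redAct_redAct_inv {M : ℕ} (a : Fin 2 → ZMod M) (γ : SL(2, ℤ)) :
    redAct M (redAct M a γ) γ⁻¹ = a := by
  have h := γ.det_coe
  rw [det_fin_two] at h
  have hM : ((γ 0 0 : ℤ) : ZMod M) * ((γ 1 1 : ℤ) : ZMod M)
      - ((γ 0 1 : ℤ) : ZMod M) * ((γ 1 0 : ℤ) : ZMod M) = 1 := by
    have := congrArg (fun x : ℤ => (x : ZMod M)) h
    simpa using this
  have e00 : (γ⁻¹ : SL(2, ℤ)) 0 0 = γ 1 1 := by
    rw [SpecialLinearGroup.SL2_inv_expl]; rfl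
  have e01 : (γ⁻¹ : SL(2, ℤ)) 0 1 = -γ 0 1 := by
    rw [SpecialLinearGroup.SL2_inv_expl]; rfl
  have e10 : (γ⁻¹ : SL(2, ℤ)) 1 0 = -γ 1 0 := by
    rw [SpecialLinearGroup.SL2_inv_expl]; rfl
  have e11 : (γ⁻¹ : SL(2, ℤ)) 1 1 = γ 0 0 := by
    rw [SpecialLinearGroup.SL2_inv_expl]; rfl
  ext i
  fin_cases i
  · simp only [redAct, e00, e10, cons_val_zero, cons_val_one, Fin.zero_eta]
    push_cast
    linear_combination (a 0) * hM
  · simp only [redAct, e01, e11, cons_val_zero, cons_val_one, Fin.mk_one]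
    push_cast
    linear_combination (a 1) * hM

/-- `γ` maps `pairSet M a` bijectively onto `pairSet M (redAct M a γ)`. -/
theorem mem_pairSet_iff_vecMul {M : ℕ} (a : Fin 2 → ZMod M) (γ : SL(2, ℤ)) (v : Fin 2 → ℤ) :
    v ∈ pairSet M a ↔ v ᵥ* (γ : Matrix (Fin 2) (Fin 2) ℤ) ∈ pairSet M (redAct M a γ) := by
  refine ⟨fun hv => mem_pairSet_vecMul hv γ, fun hv => ?_⟩
  have h := mem_pairSet_vecMul hv γ⁻¹
  rw [redAct_redAct_inv, vecMul_vecMul_inv] at h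
  exact h

/-- **Slash rule for the pair-class sums**, every `γ ∈ SL(2, ℤ)`. -/
theorem latSum_pairSet_smul (k : ℤ) (M : ℕ) (a : Fin 2 → ZMod M) (γ : SL(2, ℤ)) (z : ℍ) :
    latSum k (pairSet M a) (γ • z) = denom γ z ^ k * latSum k (pairSet M (redAct M a γ)) z :=
  latSum_smul_of_iff k γ (mem_pairSet_iff_vecMul a γ) z

/-- For `γ ∈ Γ₀(M)`, `γ` maps `rowSet M c` bijectively onto `rowSet M (c * γ₀₀)`. -/
theorem mem_rowSet_iff_vecMul {M : ℕ} (c : ZMod M) {γ : SL(2, ℤ)}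
    (hγ : γ ∈ CongruenceSubgroup.Gamma0 M) (v : Fin 2 → ℤ) :
    v ∈ rowSet M c ↔
      v ᵥ* (γ : Matrix (Fin 2) (Fin 2) ℤ) ∈ rowSet M (c * ((γ 0 0 : ℤ) : ZMod M)) := by
  have h10 : ((γ 1 0 : ℤ) : ZMod M) = 0 := CongruenceSubgroup.Gamma0_mem.mp hγ
  have h := γ.det_coe
  rw [det_fin_two] at h
  have hM : ((γ 0 0 : ℤ) : ZMod M) * ((γ 1 1 : ℤ) : ZMod M) = 1 := by
    have := congrArg (fun x : ℤ => (x : ZMod M)) h
    simp only [Int.cast_sub, Int.cast_mul, Int.cast_one] at this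
    rw [h10, mul_zero, sub_zero] at this
    exact this
  rw [mem_rowSet, mem_rowSet, vecMul_zero]
  push_cast
  rw [h10, mul_zero, add_zero]
  constructor
  · intro hv
    rw [hv]
  · intro hv
    have := congrArg (fun x => x * ((γ 1 1 : ℤ) : ZMod M)) hv
    simp only [mul_assoc, hM, mul_one] at this
    exact this

/-- **Slash rule for the row-class sums**, `γ ∈ Γ₀(M)`. -/
theorem latSum_rowSet_smul (k : ℤ) (M : ℕ) (c : ZMod M) {γ : SL(2, ℤ)}
    (hγ : γ ∈ CongruenceSubgroup.Gamma0 M) (z : ℍ) :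
    latSum k (rowSet M c) (γ • z)
      = denom γ z ^ k * latSum k (rowSet M (c * ((γ 0 0 : ℤ) : ZMod M))) z :=
  latSum_smul_of_iff k γ (mem_rowSet_iff_vecMul c hγ) z

/-- the row class is the disjoint union of the pair classes. -/
theorem rowSet_eq_iUnion (M : ℕ) [NeZero M] (c : ZMod M) :
    rowSet M c = ⋃ a₁ ∈ (Finset.univ : Finset (ZMod M)), pairSet M ![c, a₁] := by
  ext v
  simp only [mem_rowSet, Set.mem_iUnion, mem_pairSet, cons_val_zero, cons_val_one]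
  constructor
  · intro h
    exact ⟨((v 1 : ℤ) : ZMod M), Finset.mem_univ _, h, rfl⟩
  · rintro ⟨_, _, h, _⟩
    exact h

theorem pairSet_disjoint (M : ℕ) (c : ZMod M) {a₁ a₂ : ZMod M} (h : a₁ ≠ a₂) :
    Disjoint (pairSet M ![c, a₁]) (pairSet M ![c, a₂]) := by
  rw [Set.disjoint_left]
  intro v h1 h2
  rw [mem_pairSet] at h1 h2
  simp only [cons_val_one] at h1 h2
  exact h (h1.2.symm.trans h2.2)

/-- **Decomposition of the row-class sum into pair-class sums.** -/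
theorem latSum_rowSet_eq_sum {k : ℤ} (hk : 3 ≤ k) (M : ℕ) [NeZero M] (c : ZMod M) (z : ℍ) :
    latSum k (rowSet M c) z = ∑ a₁ : ZMod M, latSum k (pairSet M ![c, a₁]) z := by
  unfold latSum
  have hd : ((Finset.univ : Finset (ZMod M)) : Set (ZMod M)).Pairwise
      (Disjoint on fun a₁ : ZMod M => pairSet M ![c, a₁]) := by
    intro a₁ _ a₂ _ h
    exact pairSet_disjoint M c h
  have hs : ∀ a₁ ∈ (Finset.univ : Finset (ZMod M)),
      Summable ((fun v : Fin 2 → ℤ => eisSummand k v z) ∘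
        ((↑) : pairSet M ![c, a₁] → Fin 2 → ℤ)) := fun a₁ _ =>
    summable_latSum hk _ z
  have key := Summable.tsum_finset_bUnion_disjoint (f := fun v : Fin 2 → ℤ => eisSummand k v z)
    hd hs
  rw [rowSet_eq_iUnion M c]
  exact key

end Fermat.Agent.ES.R48.GSlash29
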