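/-
Programme R (S48, Deligne–Serre), chapter GEOM, sub-chapter G1 EIS-GEN (helper29), E1 + E3:
**the analytic `W_c = 3/(8π⁴) · G_c · E₄² / Δ` is holomorphic on `ℍ` and satisfies the slash rule
`X1Iface13.WSlash M`.**

* `gFun_eq_latSum` : `gFun M c = latSum 4 (rowSet M c)` (vocabulary of `GSlash29`);
* `gFun_smul` : `γ ∈ Γ₀(M) → gFun M c (γ • z) = denom γ z ^ 4 * gFun M (c * γ₀₀) z`;
* **`wSlash : X1Iface13.WSlash M`**;
* `gFun_mdifferentiable`, **`wFun_mem_HolH : wFun M c ∈ X0.HolH`**;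
* `wFun_invariant_Gamma1` : `γ ∈ Γ₁(M) → wFun M c (γ • z) = wFun M c z`;
* for EVERY `γ ∈ SL(2, ℤ)` (input of E4, expansions at all cusps):
  `gFun_smul_general`, `wFun_smul_general` :
  `wFun M c (γ • z) = 3/(8π⁴) · (∑_{a₁ : ZMod M} latSum 4 (pairSet M (redAct M ![c, a₁] γ)) z) · E₄(z)²/Δ(z)`.
-/
import Fermat.Agent.X0.LevelOneFunctions
import Fermat.Agent.ES.R48.X1Iface13
import Fermat.Agent.ES.R48.GSlash29

set_option autoImplicit false
set_option linter.unusedSectionVars false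

open UpperHalfPlane ModularForm EisensteinSeries
open scoped MatrixGroups Manifold

noncomputable section

namespace Fermat.Agent.ES.R48.WSlash29

open Fermat.Agent.X0 Fermat.Agent.ES.R48.X1Iface13 Fermat.Agent.ES.R48.GSlash29

variable (M : ℕ) [NeZero M]

/-- the summand of `gFun` is Mathlib's `eisSummand 4`. -/
theorem summand_eq (v : Fin 2 → ℤ) (z : ℍ) :
    1 / (((v 0 : ℤ) : ℂ) * (z : ℂ) + ((v 1 : ℤ) : ℂ)) ^ 4 = eisSummand 4 v z := by
  rw [eisSummand, zpow_neg, one_div]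
  norm_cast

/-- `G_c` in the vocabulary of `GSlash29`. -/
theorem gFun_eq_latSum (c : ZMod M) (z : ℍ) : gFun M c z = latSum 4 (rowSet M c) z := by
  unfold gFun latSum
  exact tsum_congr fun v => summand_eq v.1 z

/-- **Slash rule for `G_c`** under `Γ₀(M)`. -/
theorem gFun_smul {γ : SL(2, ℤ)} (hγ : γ ∈ CongruenceSubgroup.Gamma0 M) (c : ZMod M) (z : ℍ) :
    gFun M c (γ • z) = denom γ z ^ (4 : ℤ) * gFun M (c * ((γ 0 0 : ℤ) : ZMod M)) z := by
  rw [gFun_eq_latSum, gFun_eq_latSum, latSum_rowSet_smul 4 M c hγ z]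

/-- **E3: the slash rule `W_c ∘ γ = W_{c γ₀₀}` for `γ ∈ Γ₀(M)`.** -/
theorem wSlash : WSlash M := by
  intro γ hγ c z
  have hd : denom γ z ≠ 0 := denom_ne_zero γ z
  have hΔ : ModularForm.discriminant z ≠ 0 := discriminant_ne_zero z
  unfold wFun
  rw [gFun_smul M hγ c z, lof_E₄_smul, lof_discriminant_smul]
  have h12 : denom γ z ^ (12 : ℤ) = denom γ z ^ (4 : ℤ) * (denom γ z ^ (4 : ℤ)) ^ 2 := by
    rw [← zpow_natCast (denom γ z ^ (4 : ℤ)) 2, ← zpow_mul, ← zpow_add₀ hd]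
    norm_num
  rw [h12]
  have h4 : denom γ z ^ (4 : ℤ) ≠ 0 := zpow_ne_zero _ hd
  field_simp

/-- `W_c` is `Γ₁(M)`-invariant. -/
theorem wFun_invariant_Gamma1 {γ : SL(2, ℤ)} (hγ : γ ∈ CongruenceSubgroup.Gamma1 M) (c : ZMod M)
    (z : ℍ) : wFun M c (γ • z) = wFun M c z := by
  have h0 : γ ∈ CongruenceSubgroup.Gamma0 M := by
    rw [CongruenceSubgroup.Gamma0_mem]
    exact (CongruenceSubgroup.Gamma1_mem M γ |>.mp hγ).2.2
  rw [wSlash M γ h0 c z, (CongruenceSubgroup.Gamma1_mem M γ |>.mp hγ).1, mul_one]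

/-- `G_c` is holomorphic on `ℍ`. -/
theorem gFun_mdifferentiable (c : ZMod M) : MDifferentiable 𝓘(ℂ) 𝓘(ℂ) (gFun M c) := by
  have h : gFun M c = latSum 4 (rowSet M c) := funext fun z => gFun_eq_latSum M c z
  rw [h]
  exact latSum_mdifferentiable (by norm_num) _

/-- **E1: `W_c` is holomorphic on `ℍ`.** -/
theorem wFun_mem_HolH (c : ZMod M) : wFun M c ∈ HolH := by
  rw [mem_HolH]
  have h1 : MDifferentiable 𝓘(ℂ) 𝓘(ℂ) (fun z : ℍ => E₄ z ^ 2) :=
    lof_mdifferentiable_pow E₄.holo' 2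
  have h2 : MDifferentiable 𝓘(ℂ) 𝓘(ℂ)
      (fun z : ℍ => 3 / (8 * (Real.pi : ℂ) ^ 4) * gFun M c z) :=
    (mdifferentiable_const (c := 3 / (8 * (Real.pi : ℂ) ^ 4))).mul (gFun_mdifferentiable M c)
  exact (h2.mul h1).div lof_mdifferentiable_discriminant discriminant_ne_zero

/-! ### Arbitrary `γ ∈ SL(2, ℤ)` (input for the expansions at all cusps) -/

/-- `G_c ∘ γ` as a finite sum of pair-class lattice sums. -/
theorem gFun_smul_general (γ : SL(2, ℤ)) (c : ZMod M) (z : ℍ) :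
    gFun M c (γ • z) = denom γ z ^ (4 : ℤ) *
      ∑ a₁ : ZMod M, latSum 4 (pairSet M (redAct M ![c, a₁] γ)) z := by
  rw [gFun_eq_latSum, latSum_rowSet_eq_sum (by norm_num) M c (γ • z), Finset.mul_sum]
  exact Finset.sum_congr rfl fun a₁ _ => latSum_pairSet_smul 4 M ![c, a₁] γ z

/-- `W_c ∘ γ` for every `γ ∈ SL(2, ℤ)`: weight `0`, the pair classes are permuted by `γ mod M`. -/
theorem wFun_smul_general (γ : SL(2, ℤ)) (c : ZMod M) (z : ℍ) :
    wFun M c (γ • z) = 3 / (8 * (Real.pi : ℂ) ^ 4) *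
      (∑ a₁ : ZMod M, latSum 4 (pairSet M (redAct M ![c, a₁] γ)) z) * (E₄ z) ^ 2
        / ModularForm.discriminant z := by
  have hd : denom γ z ≠ 0 := denom_ne_zero γ z
  have hΔ : ModularForm.discriminant z ≠ 0 := discriminant_ne_zero z
  unfold wFun
  rw [gFun_smul_general M γ c z, lof_E₄_smul, lof_discriminant_smul]
  have h12 : denom γ z ^ (12 : ℤ) = denom γ z ^ (4 : ℤ) * (denom γ z ^ (4 : ℤ)) ^ 2 := by
    rw [← zpow_natCast (denom γ z ^ (4 : ℤ)) 2, ← zpow_mul, ← zpow_add₀ hd]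
    norm_num
  rw [h12]
  have h4 : denom γ z ^ (4 : ℤ) ≠ 0 := zpow_ne_zero _ hd
  field_simp

end Fermat.Agent.ES.R48.WSlash29
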