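/-
Programme R (S48, Deligne–Serre), chapter GEOM, sub-chapter G1 EIS-GEN (helper29):
**bridge from `GSlash29`/`WSlash29` to the shared vocabulary `GPairDefs10`** (helper10's
`term4`, `pairSet`, `gPair`), in the literal shapes (S1)–(S3) consumed by E4:

* (S1) `summable_term4 z : Summable fun v : Fin 2 → ℤ => term4 v z`;
* (S2) `gPair_smul a γ z : gPair M a (γ • z)
      = denom γ z ^ 4 * gPair M (a ᵥ* (γ.map (Int.castRingHom (ZMod M))).1) z`, every `γ ∈ SL(2, ℤ)`;
* (S3) `gFun_eq_sum c z : X1Iface13.gFun M c z = ∑ a₁ : ZMod M, gPair M ![c, a₁] z`;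
* `gPair_mdifferentiable`, `wFun_smul_gPair` (the `gPair`-form of `WSlash29.wFun_smul_general`).
-/
import Fermat.Agent.ES.R48.GPairDefs10
import Fermat.Agent.ES.R48.WSlash29

set_option autoImplicit false
set_option linter.unusedSectionVars false

open UpperHalfPlane ModularForm EisensteinSeries
open scoped MatrixGroups Manifold

noncomputable section

namespace Fermat.Agent.ES.R48.GPairBridge29

open Fermat.Agent.X0 Fermat.Agent.ES.R48.X1Iface13 Fermat.Agent.ES.R48.GSlash29
open Fermat.Agent.ES.R48.GPairDefs10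

variable (M : ℕ) [NeZero M]

/-- the two `pairSet`s agree (both are Mathlib's `gammaSet` shape without the gcd condition). -/
theorem pairSet_eq (M : ℕ) (a : Fin 2 → ZMod M) :
    GPairDefs10.pairSet M a = GSlash29.pairSet M a := rfl

/-- `gPair` in the vocabulary of `GSlash29`. -/
theorem gPair_eq_latSum (M : ℕ) (a : Fin 2 → ZMod M) (z : ℍ) :
    gPair M a z = latSum 4 (GSlash29.pairSet M a) z := by
  unfold gPair latSum
  exact tsum_congr fun v => term4_eq_eisSummand v.1 z

/-- **(S1)** -/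
theorem summable_term4 (z : ℍ) : Summable fun v : Fin 2 → ℤ => term4 v z := by
  have h : (fun v : Fin 2 → ℤ => term4 v z) = fun v : Fin 2 → ℤ => eisSummand 4 v z :=
    funext fun v => term4_eq_eisSummand v z
  rw [h]
  exact (summable_norm_eisSummand (by norm_num) z).of_norm

/-- `redAct` is the right action of `γ mod M`. -/
theorem redAct_eq_vecMul (M : ℕ) (a : Fin 2 → ZMod M) (γ : SL(2, ℤ)) :
    redAct M a γ
      = Matrix.vecMul a (Matrix.SpecialLinearGroup.map (Int.castRingHom (ZMod M)) γ).1 := by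
  ext i
  fin_cases i
  · simp [redAct, Matrix.vecMul, Matrix.vec2_dotProduct]
  · simp [redAct, Matrix.vecMul, Matrix.vec2_dotProduct]

/-- **(S2)** the slash rule for the pair-class sums, every `γ ∈ SL(2, ℤ)`. -/
theorem gPair_smul (M : ℕ) (a : Fin 2 → ZMod M) (γ : SL(2, ℤ)) (z : ℍ) :
    gPair M a (γ • z) = denom γ z ^ 4 *
      gPair M (Matrix.vecMul a (Matrix.SpecialLinearGroup.map (Int.castRingHom (ZMod M)) γ).1) z := by
  rw [gPair_eq_latSum, gPair_eq_latSum, latSum_pairSet_smul 4 M a γ z, redAct_eq_vecMul]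
  norm_cast

/-- **(S3)** `G_c` is the sum of the pair-class sums with first entry `c`. -/
theorem gFun_eq_sum (c : ZMod M) (z : ℍ) :
    X1Iface13.gFun M c z = ∑ a₁ : ZMod M, gPair M ![c, a₁] z := by
  rw [WSlash29.gFun_eq_latSum, latSum_rowSet_eq_sum (by norm_num) M c z]
  exact Finset.sum_congr rfl fun a₁ _ => (gPair_eq_latSum M ![c, a₁] z).symm

/-- the pair-class sums are holomorphic on `ℍ`. -/
theorem gPair_mdifferentiable (M : ℕ) (a : Fin 2 → ZMod M) :
    MDifferentiable 𝓘(ℂ) 𝓘(ℂ) (gPair M a) := by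
  have h : gPair M a = latSum 4 (GSlash29.pairSet M a) := funext fun z => gPair_eq_latSum M a z
  rw [h]
  exact latSum_mdifferentiable (by norm_num) _

/-- `W_c ∘ γ` for every `γ ∈ SL(2, ℤ)`, in terms of `gPair`. -/
theorem wFun_smul_gPair (γ : SL(2, ℤ)) (c : ZMod M) (z : ℍ) :
    wFun M c (γ • z) = 3 / (8 * (Real.pi : ℂ) ^ 4) *
      (∑ a₁ : ZMod M, gPair M
        (Matrix.vecMul ![c, a₁] (Matrix.SpecialLinearGroup.map (Int.castRingHom (ZMod M)) γ).1) z)
        * (E₄ z) ^ 2 / ModularForm.discriminant z := by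
  rw [WSlash29.wFun_smul_general M γ c z]
  congr 3
  exact Finset.sum_congr rfl fun a₁ _ => by
    rw [gPair_eq_latSum, redAct_eq_vecMul]

end Fermat.Agent.ES.R48.GPairBridge29
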