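/-
Programme R (S48, Deligne–Serre), chapter GEOM, sub-chapter G1 EIS-GEN, part E4 (helper10):
**weighted Lambert rearrangement** (Mathlib only).

For bounded weights `F : ℕ → ℕ → ℂ` and `‖q‖ < 1`:
`∑_{m ≥ 1} ∑_{e ≥ 1} F m e · e³ q^{m e} = ∑_{N ≥ 0} (∑_{m e = N} F m e · e³) q^N`
(`hasSum_lambert`; Mathlib's `sigmaAntidiagonalEquivProd`, `summable_prod_mul_pow`).
-/
import Mathlib

set_option autoImplicit false

open Complex Filter Topology

noncomputable section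

namespace Fermat.Agent.ES.R48.EisLambert10

variable (F : ℕ → ℕ → ℂ) (q : ℂ)

/-- the weighted Lambert summand. -/
def lamTerm (p : ℕ+ × ℕ+) : ℂ :=
  F p.1 p.2 * (((p.2 : ℕ) : ℂ) ^ 3 * q ^ ((p.1 : ℕ) * (p.2 : ℕ)))

/-- the `N`-th coefficient of the rearranged series. -/
def lamCoeff (N : ℕ) : ℂ :=
  ∑ x ∈ N.divisorsAntidiagonal, F x.1 x.2 * ((x.2 : ℕ) : ℂ) ^ 3

@[simp] theorem lamCoeff_zero : lamCoeff F 0 = 0 := by
  simp [lamCoeff]

variable {F q}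

theorem summable_lamTerm {C : ℝ} (hF : ∀ m e, ‖F m e‖ ≤ C) (hq : ‖q‖ < 1) :
    Summable (lamTerm F q) := by
  have h := (summable_prod_mul_pow (𝕜 := ℂ) 3 hq).norm
  refine Summable.of_norm_bounded (g := fun p : ℕ+ × ℕ+ =>
    C * ‖((p.2 : ℕ) : ℂ) ^ 3 * q ^ ((p.1 : ℕ) * (p.2 : ℕ))‖) (h.mul_left C |>.congr ?_) ?_
  · intro p
    simp
  · intro p
    rw [lamTerm, norm_mul]
    exact mul_le_mul_of_nonneg_right (hF _ _) (norm_nonneg _)

theorem hasSum_lambert {C : ℝ} (hF : ∀ m e, ‖F m e‖ ≤ C) (hq : ‖q‖ < 1) :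
    HasSum (fun N : ℕ => lamCoeff F N * q ^ N) (∑' m : ℕ+, ∑' e : ℕ+, lamTerm F q (m, e)) := by
  have hs := summable_lamTerm hF hq
  rw [← hs.tsum_prod]
  have h1 : HasSum (lamTerm F q ∘ sigmaAntidiagonalEquivProd) (∑' p, lamTerm F q p) :=
    (sigmaAntidiagonalEquivProd.hasSum_iff).mpr hs.hasSum
  have h2 : HasSum (fun N : ℕ+ => ∑ x : (N : ℕ).divisorsAntidiagonal,
      (lamTerm F q ∘ sigmaAntidiagonalEquivProd) ⟨N, x⟩) (∑' p, lamTerm F q p) :=
    h1.sigma fun N => hasSum_fintype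
      (fun x : (N : ℕ).divisorsAntidiagonal =>
        (lamTerm F q ∘ sigmaAntidiagonalEquivProd) ⟨N, x⟩)
  have h3 : ∀ N : ℕ+, (∑ x : (N : ℕ).divisorsAntidiagonal,
      (lamTerm F q ∘ sigmaAntidiagonalEquivProd) ⟨N, x⟩) = lamCoeff F N * q ^ (N : ℕ) := by
    intro N
    rw [lamCoeff, Finset.sum_mul, ← Finset.sum_coe_sort ((N : ℕ).divisorsAntidiagonal)]
    refine Fintype.sum_congr _ _ fun x => ?_
    have hx := (Nat.mem_divisorsAntidiagonal.mp x.2).1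
    simp only [Function.comp_apply, sigmaAntidiagonalEquivProd, divisorsAntidiagonalFactors,
      Equiv.coe_fn_mk, lamTerm, PNat.mk_coe, hx]
    ring
  simp only [h3] at h2
  have h4 := (hasSum_pnat_iff (f := fun N : ℕ => lamCoeff F N * q ^ N)).mp h2
  simpa using h4

end Fermat.Agent.ES.R48.EisLambert10
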