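/-
Programme R (S48, Deligne–Serre), chapter GEOM, sub-chapter G1 EIS-GEN, part E4 (helper10):
**Lipschitz row sums in residue classes** (weight `4`), Mathlib only.

* `cubeFun w = w (w² + 4 w + 1) / (1 - w)⁴`, `hasSum_cube : ∑ e³ wᵉ = cubeFun w` (`‖w‖ < 1`);
* `lipschitz4`, `lipschitz4_closed` : `∑_{n ∈ ℤ} (w + n)⁻⁴ = (8π⁴/3) ∑ e³ qᵉ = (8π⁴/3) cubeFun q`,
  `q = exp(2πi w)`, `w ∈ ℍ` (Mathlib's `EisensteinSeries.qExpansion_identity`, `k = 3`);
* `lipschitz4_real` : the closed form persists at real non-integer points (Tannery);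
* level `M`: `zetaC M = exp(2πi/M)`, `row_sum` (`∑_{n ≡ b (M)} (m z + n)⁻⁴`, `m > 0`), `cexp_rowPt`,
  `const_sum` (`∑_{n ≡ b (M)} n⁻⁴`, `M ∤ b`: the cotangent constant), `tsum_residue`.
-/
import Mathlib

set_option autoImplicit false

open UpperHalfPlane hiding I
open Complex Real Filter Topology
open scoped Real

noncomputable section

namespace Fermat.Agent.ES.R48.EisRow10

/-- the rational function `c(w) = w (w² + 4 w + 1) / (1 - w)⁴ = ∑ e³ wᵉ`. -/
def cubeFun (w : ℂ) : ℂ := w * (w ^ 2 + 4 * w + 1) / (1 - w) ^ 4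

theorem six_mul_choose_three (n : ℕ) : 6 * (n + 3).choose 3 = (n + 3) * (n + 2) * (n + 1) := by
  have h := Nat.descFactorial_eq_factorial_mul_choose (n + 3) 3
  simp only [Nat.descFactorial, Nat.factorial] at h
  norm_num at h
  rw [show n + 3 - 2 = n + 1 by omega] at h
  rw [← h]
  ring

theorem two_mul_choose_two (n : ℕ) : 2 * (n + 2).choose 2 = (n + 2) * (n + 1) := by
  have h := Nat.descFactorial_eq_factorial_mul_choose (n + 2) 2
  simp only [Nat.descFactorial, Nat.factorial] at h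
  norm_num at h
  rw [← h]
  ring

theorem hasSum_cube {w : ℂ} (hw : ‖w‖ < 1) :
    HasSum (fun e : ℕ => (e : ℂ) ^ 3 * w ^ e) (cubeFun w) := by
  have h0 := hasSum_choose_mul_geometric_of_norm_lt_one 0 hw
  have h1 := hasSum_choose_mul_geometric_of_norm_lt_one 1 hw
  have h2 := hasSum_choose_mul_geometric_of_norm_lt_one 2 hw
  have h3 := hasSum_choose_mul_geometric_of_norm_lt_one 3 hw
  have hw1 : (1 : ℂ) - w ≠ 0 := by
    intro h
    have : w = 1 := by linear_combination -h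
    rw [this] at hw
    simp at hw
  have H := (((h3.mul_left 6).sub (h2.mul_left 12)).add (h1.mul_left 7)).sub h0
  have hf : (fun e : ℕ => (e : ℂ) ^ 3 * w ^ e) = fun b : ℕ =>
      6 * (((b + 3).choose 3 : ℕ) * w ^ b) - 12 * (((b + 2).choose 2 : ℕ) * w ^ b)
        + 7 * (((b + 1).choose 1 : ℕ) * w ^ b) - ((b + 0).choose 0 : ℕ) * w ^ b := by
    funext n
    have e3 : (6 : ℂ) * ((n + 3).choose 3 : ℕ) = ((n : ℂ) + 3) * (n + 2) * (n + 1) := by
      exact_mod_cast congrArg (Nat.cast : ℕ → ℂ) (six_mul_choose_three n)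
    have e2 : (2 : ℂ) * ((n + 2).choose 2 : ℕ) = ((n : ℂ) + 2) * (n + 1) := by
      exact_mod_cast congrArg (Nat.cast : ℕ → ℂ) (two_mul_choose_two n)
    have e1 : (((n + 1).choose 1 : ℕ) : ℂ) = (n : ℂ) + 1 := by simp
    have e0 : (((n + 0).choose 0 : ℕ) : ℂ) = 1 := by simp
    rw [e1, e0]
    linear_combination (-(w ^ n)) * e3 + (6 * w ^ n) * e2
  have hv : cubeFun w = 6 * (1 / (1 - w) ^ (3 + 1)) - 12 * (1 / (1 - w) ^ (2 + 1))
      + 7 * (1 / (1 - w) ^ (1 + 1)) - 1 / (1 - w) ^ (0 + 1) := by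
    unfold cubeFun
    field_simp
    ring
  rw [hf, hv]
  exact H


/-- the Lipschitz constant `(-2πi)⁴/3! = 8π⁴/3`. -/
theorem lipschitz_const :
    ((-2 * π * I) ^ (3 + 1) / (Nat.factorial 3 : ℂ)) = 8 * (π : ℂ) ^ 4 / 3 := by
  have h : (-2 * (π : ℂ) * I) ^ (3 + 1) = 16 * (π : ℂ) ^ 4 := by
    have : (-2 * (π : ℂ) * I) ^ (3 + 1) = 16 * (π : ℂ) ^ 4 * (I ^ 2) ^ 2 := by ring
    rw [this, I_sq]; ring
  rw [h]
  norm_num [Nat.factorial]
  ring

/-- Lipschitz with `k = 3` in the form we use. -/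
theorem lipschitz4 (w : ℍ) :
    ∑' n : ℤ, 1 / ((w : ℂ) + n) ^ 4 = 8 * (π : ℂ) ^ 4 / 3 *
      ∑' e : ℕ, (e : ℂ) ^ 3 * cexp (2 * π * I * w) ^ e := by
  have h := EisensteinSeries.qExpansion_identity (k := 3) (by norm_num) w
  rw [lipschitz_const] at h
  exact h

theorem norm_cexp_lt_one (w : ℍ) : ‖cexp (2 * π * I * w)‖ < 1 := by
  rw [Complex.norm_exp]
  have : (2 * (π : ℂ) * I * (w : ℂ)).re = -(2 * π * w.im) := by
    simp [Complex.mul_re, Complex.mul_im]
  rw [this, Real.exp_lt_one_iff]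
  have := w.im_pos
  have := Real.pi_pos
  nlinarith

/-- Lipschitz with the closed form of the cube sum. -/
theorem lipschitz4_closed (w : ℍ) :
    ∑' n : ℤ, 1 / ((w : ℂ) + n) ^ 4 = 8 * (π : ℂ) ^ 4 / 3 * cubeFun (cexp (2 * π * I * w)) := by
  rw [lipschitz4, (hasSum_cube (norm_cexp_lt_one w)).tsum_eq]


/-! ### The value at a real non-integer point (cotangent constant) -/

theorem continuousAt_cubeFun {w : ℂ} (hw : w ≠ 1) : ContinuousAt cubeFun w := by
  unfold cubeFun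
  have h1 : (1 - w) ^ 4 ≠ 0 := pow_ne_zero 4 (sub_ne_zero.mpr (Ne.symm hw))
  exact ContinuousAt.div (by fun_prop) (by fun_prop) h1

theorem lipschitz4_real (x : ℝ) (hx : cexp (2 * π * I * x) ≠ 1) :
    ∑' t : ℤ, 1 / ((x : ℂ) + t) ^ 4 = 8 * (π : ℂ) ^ 4 / 3 * cubeFun (cexp (2 * π * I * x)) := by
  -- `x` is not an integer
  have hx' : ∀ t : ℤ, (x : ℂ) + t ≠ 0 := by
    intro t h
    apply hx
    have : (x : ℂ) = ((-t : ℤ) : ℂ) := by push_cast; linear_combination h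
    rw [this, show 2 * (π : ℂ) * I * ((-t : ℤ) : ℂ) = ((-t : ℤ) : ℂ) * (2 * π * I) by ring]
    exact Complex.exp_int_mul_two_pi_mul_I (-t)
  set f : ℝ → ℤ → ℂ := fun ε t => 1 / (((x : ℂ) + ε * I) + t) ^ 4 with hf
  set g : ℤ → ℂ := fun t => 1 / ((x : ℂ) + t) ^ 4 with hg
  -- summable bound
  have hsum : Summable fun t : ℤ => ‖g t‖ := by
    have h := (EisensteinSeries.linear_right_summable (x : ℂ) 1 (k := 4) (by norm_num)).norm
    refine h.congr fun t => ?_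
    simp only [hg, Int.cast_one, one_mul, one_div]
    norm_cast
  -- termwise convergence
  have hab : ∀ t : ℤ, Tendsto (f · t) (𝓝[>] (0 : ℝ)) (𝓝 (g t)) := by
    intro t
    have hc : ContinuousAt (fun ε : ℝ => 1 / (((x : ℂ) + ε * I) + t) ^ 4) 0 := by
      refine ContinuousAt.div continuousAt_const (by fun_prop) ?_
      simpa using pow_ne_zero 4 (hx' t)
    have := hc.tendsto.mono_left (nhdsWithin_le_nhds (s := Set.Ioi (0 : ℝ)))
    simpa [hf, hg] using this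
  -- domination
  have hbound : ∀ᶠ ε in 𝓝[>] (0 : ℝ), ∀ t : ℤ, ‖f ε t‖ ≤ ‖g t‖ := by
    refine Filter.Eventually.of_forall fun ε t => ?_
    simp only [hf, hg, norm_div, norm_one, norm_pow]
    have h0 : 0 < ‖(x : ℂ) + t‖ := norm_pos_iff.mpr (hx' t)
    have hle : ‖(x : ℂ) + t‖ ≤ ‖(x : ℂ) + ε * I + t‖ := by
      have h1 : ‖(x : ℂ) + t‖ = |x + t| := by
        rw [show (x : ℂ) + t = ((x + t : ℝ) : ℂ) by push_cast; rfl, Complex.norm_real,
          Real.norm_eq_abs]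
      have h2 : ((x : ℂ) + ε * I + t).re = x + t := by simp
      rw [h1, ← h2]
      exact Complex.abs_re_le_norm _
    exact one_div_le_one_div_of_le (pow_pos h0 4) (pow_le_pow_left₀ h0.le hle 4)
  have hL := tendsto_tsum_of_dominated_convergence hsum hab hbound
  -- the right-hand side
  have hR : Tendsto (fun ε : ℝ => 8 * (π : ℂ) ^ 4 / 3 * cubeFun (cexp (2 * π * I * (x + ε * I))))
      (𝓝[>] (0 : ℝ)) (𝓝 (8 * (π : ℂ) ^ 4 / 3 * cubeFun (cexp (2 * π * I * x)))) := by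
    have hc : ContinuousAt
        (fun ε : ℝ => 8 * (π : ℂ) ^ 4 / 3 * cubeFun (cexp (2 * π * I * (x + ε * I)))) 0 := by
      refine ContinuousAt.mul continuousAt_const ?_
      have h1 : ContinuousAt (fun ε : ℝ => cexp (2 * π * I * ((x : ℂ) + ε * I))) 0 := by fun_prop
      have h2 : ContinuousAt cubeFun (cexp (2 * π * I * ((x : ℂ) + ((0 : ℝ) : ℂ) * I))) := by
        apply continuousAt_cubeFun
        simpa using hx
      exact ContinuousAt.comp (f := fun ε : ℝ => cexp (2 * π * I * ((x : ℂ) + ε * I))) h2 h1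
    have := hc.tendsto.mono_left (nhdsWithin_le_nhds (s := Set.Ioi (0 : ℝ)))
    simpa using this
  refine tendsto_nhds_unique (hL.congr' ?_) hR
  filter_upwards [self_mem_nhdsWithin] with ε hε
  have hε' : 0 < ((x : ℂ) + ε * I).im := by simpa using hε
  have := lipschitz4_closed ⟨(x : ℂ) + ε * I, hε'⟩
  simpa [hf] using this

section Level

variable (M : ℕ) [NeZero M]

/-- `ζ_M = exp(2πi/M)`. -/
def zetaC : ℂ := cexp (2 * π * I / M)

/-- the point `(m z + b)/M` of `ℍ` (`m > 0`). -/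
def rowPt (m : ℕ) (hm : 0 < m) (b : ℤ) (z : ℍ) : ℍ :=
  ⟨((m : ℂ) * z + b) / M, by
    have hM : (0 : ℝ) < M := by exact_mod_cast Nat.pos_of_ne_zero (NeZero.ne M)
    have hm' : (0 : ℝ) < m := by exact_mod_cast hm
    have : (((m : ℂ) * z + b) / M).im = m * z.im / M := by
      rw [show ((M : ℂ)) = ((M : ℝ) : ℂ) by push_cast; rfl, Complex.div_ofReal_im]
      simp
    rw [this]
    exact div_pos (mul_pos hm' z.im_pos) hM⟩

@[simp] theorem coe_rowPt (m : ℕ) (hm : 0 < m) (b : ℤ) (z : ℍ) :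
    (rowPt M m hm b z : ℂ) = ((m : ℂ) * z + b) / M := rfl

theorem row_sum (m : ℕ) (hm : 0 < m) (b : ℤ) (z : ℍ) :
    ∑' t : ℤ, 1 / ((m : ℂ) * z + ((b + M * t : ℤ) : ℂ)) ^ 4 =
      8 * (π : ℂ) ^ 4 / 3 / (M : ℂ) ^ 4 *
        ∑' e : ℕ, (e : ℂ) ^ 3 * cexp (2 * π * I * (((m : ℂ) * z + b) / M)) ^ e := by
  have hM : (M : ℂ) ≠ 0 := by exact_mod_cast NeZero.ne M
  have h := lipschitz4 (rowPt M m hm b z)
  rw [coe_rowPt] at h
  rw [div_mul_eq_mul_div, ← h, eq_div_iff (pow_ne_zero 4 hM), ← tsum_mul_right]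
  refine tsum_congr fun t => ?_
  have : (m : ℂ) * z + ((b + M * t : ℤ) : ℂ) = M * (((m : ℂ) * z + b) / M + t) := by
    push_cast
    field_simp
    ring
  rw [this, mul_pow]
  field_simp

theorem cexp_rowPt (m b : ℕ) (z : ℍ) :
    cexp (2 * π * I * (((m : ℂ) * z + ((b : ℤ) : ℂ)) / M)) =
      zetaC M ^ b * Function.Periodic.qParam (M : ℝ) (z : ℂ) ^ m := by
  have hM : (M : ℂ) ≠ 0 := by exact_mod_cast NeZero.ne M
  rw [zetaC, Function.Periodic.qParam, ← Complex.exp_nat_mul, ← Complex.exp_nat_mul,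
    ← Complex.exp_add]
  congr 1
  push_cast
  field_simp
  ring

theorem zetaC_isPrimitiveRoot : IsPrimitiveRoot (zetaC M) M :=
  Complex.isPrimitiveRoot_exp M (NeZero.ne M)

theorem zetaC_pow_ne_one {b : ℕ} (hb : ¬ M ∣ b) : zetaC M ^ b ≠ 1 := fun h =>
  hb ((zetaC_isPrimitiveRoot M).pow_eq_one_iff_dvd b |>.mp h)

/-- the constant term: `∑_{n ≡ b (M)} n⁻⁴` for `b ≢ 0`. -/
theorem const_sum (b : ℕ) (hb : ¬ M ∣ b) :
    ∑' t : ℤ, 1 / (((b + M * t : ℤ) : ℂ)) ^ 4 =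
      8 * (π : ℂ) ^ 4 / 3 / (M : ℂ) ^ 4 * cubeFun (zetaC M ^ b) := by
  have hM : (M : ℂ) ≠ 0 := by exact_mod_cast NeZero.ne M
  have hexp : cexp (2 * π * I * (((b : ℝ) / (M : ℝ) : ℝ) : ℂ)) = zetaC M ^ b := by
    rw [zetaC, ← Complex.exp_nat_mul]
    congr 1
    push_cast
    field_simp
  have h := lipschitz4_real ((b : ℝ) / (M : ℝ)) (by rw [hexp]; exact zetaC_pow_ne_one M hb)
  rw [hexp] at h
  rw [div_mul_eq_mul_div, ← h, eq_div_iff (pow_ne_zero 4 hM), ← tsum_mul_right]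
  refine tsum_congr fun t => ?_
  have : (((b + M * t : ℤ) : ℂ)) = M * ((((b : ℝ) / (M : ℝ) : ℝ) : ℂ) + t) := by
    push_cast
    field_simp
  rw [this, mul_pow]
  field_simp

/-- reindexing a sum over a residue class. -/
theorem tsum_residue (f : ℤ → ℂ) (b : ℤ) :
    ∑' n : ℤ, (if ((n : ℤ) : ZMod M) = ((b : ℤ) : ZMod M) then f n else 0) =
      ∑' t : ℤ, f (b + M * t) := by
  have hM : (M : ℤ) ≠ 0 := by exact_mod_cast NeZero.ne M
  have hinj : Function.Injective fun t : ℤ => b + M * t := by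
    intro t t' h
    have : (M : ℤ) * t = M * t' := by linarith
    exact mul_left_cancel₀ hM this
  have hsupp : Function.support (fun n : ℤ =>
      if ((n : ℤ) : ZMod M) = ((b : ℤ) : ZMod M) then f n else 0) ⊆
      Set.range fun t : ℤ => b + M * t := by
    intro n hn
    rw [Function.mem_support] at hn
    have hcong : ((n : ℤ) : ZMod M) = ((b : ℤ) : ZMod M) := by
      by_contra hne
      exact hn (if_neg hne)
    rw [ZMod.intCast_eq_intCast_iff_dvd_sub] at hcong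
    obtain ⟨t, ht⟩ := hcong
    exact ⟨-t, by simp only; linarith⟩
  rw [← hinj.tsum_eq hsupp]
  refine tsum_congr fun t => ?_
  rw [if_pos]
  push_cast
  simp

end Level

end Fermat.Agent.ES.R48.EisRow10
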