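/-
Programme R (S48, Deligne–Serre), chapter GEOM, sub-chapter G1 EIS-GEN, part E4 (helper10):
**the formal `q_M`-expansions of the pair-class Eisenstein sums** (Mathlib only).

For a field `R`, `ζ : R` (an `M`-th root of unity) and `a : Fin 2 → ZMod M`:
* `pairW M ζ a m e = [m ≡ a₀] ζ^(e·a₁) + [m ≡ -a₀] ζ^(e·(-a₁))` (exponents via `ZMod.val`);
* `pairCoeff M ζ a N = ∑_{m e = N} pairW m e · e³` (`N ≥ 1`),
  `pairCoeff M ζ a 0 = [a₀ = 0] · cubeR (ζ^a₁)`, `cubeR w = w (w² + 4 w + 1)/(1 - w)⁴`;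
* `pairS M ζ a : PowerSeries R`.
Analytic meaning (`GPairQExp10`): `(3/(8π⁴)) M⁴ ∑_{v ≡ a (M)} (v₀ z + v₁)⁻⁴ = ∑_N pairCoeff ζ_M a N q_M^N`.
* `pairS_map` : compatibility with field homomorphisms;
* `pairCoeff_mem` : the coefficients lie in every subring containing `ζ` and `M⁻¹`
  (`ζ` a primitive `M`-th root of unity, `a ≠ 0`): integrality away from `M`.
-/
import Mathlib

set_option autoImplicit false
set_option linter.unusedSectionVars false

noncomputable section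

namespace Fermat.Agent.ES.R48.PairSeries10

variable {R : Type*} [Field R] (M : ℕ)

/-- `c(w) = w (w² + 4 w + 1) / (1 - w)⁴`, the value of `∑ e³ wᵉ`. -/
def cubeR (w : R) : R := w * (w ^ 2 + 4 * w + 1) / (1 - w) ^ 4

/-- the weights `[m ≡ a₀] ζ^(e a₁) + [m ≡ -a₀] ζ^(-e a₁)`. -/
def pairW (ζ : R) (a : Fin 2 → ZMod M) (m e : ℕ) : R :=
  (if ((m : ℕ) : ZMod M) = a 0 then ζ ^ (e * (a 1).val) else 0) +
    (if ((m : ℕ) : ZMod M) = -a 0 then ζ ^ (e * (-a 1).val) else 0)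

/-- the `N`-th coefficient of the `q_M`-expansion of `(3/(8π⁴)) M⁴ G_a`. -/
def pairCoeff (ζ : R) (a : Fin 2 → ZMod M) (N : ℕ) : R :=
  if N = 0 then (if a 0 = 0 then cubeR (ζ ^ (a 1).val) else 0)
  else ∑ x ∈ N.divisorsAntidiagonal, pairW M ζ a x.1 x.2 * ((x.2 : ℕ) : R) ^ 3

/-- the `q_M`-expansion of `(3/(8π⁴)) M⁴ G_a` as a formal power series. -/
def pairS (ζ : R) (a : Fin 2 → ZMod M) : PowerSeries R := PowerSeries.mk (pairCoeff M ζ a)

@[simp] theorem coeff_pairS (ζ : R) (a : Fin 2 → ZMod M) (N : ℕ) :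
    PowerSeries.coeff N (pairS M ζ a) = pairCoeff M ζ a N :=
  PowerSeries.coeff_mk N _

theorem pairCoeff_zero (ζ : R) (a : Fin 2 → ZMod M) :
    pairCoeff M ζ a 0 = if a 0 = 0 then cubeR (ζ ^ (a 1).val) else 0 := by
  rw [pairCoeff, if_pos rfl]

theorem pairCoeff_of_ne_zero (ζ : R) (a : Fin 2 → ZMod M) {N : ℕ} (hN : N ≠ 0) :
    pairCoeff M ζ a N =
      ∑ x ∈ N.divisorsAntidiagonal, pairW M ζ a x.1 x.2 * ((x.2 : ℕ) : R) ^ 3 := by
  rw [pairCoeff, if_neg hN]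

/-- no constant term when `a₀ ≠ 0`. -/
theorem pairCoeff_zero_of_ne (ζ : R) (a : Fin 2 → ZMod M) (h : a 0 ≠ 0) :
    pairCoeff M ζ a 0 = 0 := by
  rw [pairCoeff_zero, if_neg h]

/-! ### Base change -/

section Map

variable {S : Type*} [Field S] (φ : R →+* S)

theorem map_cubeR (w : R) : φ (cubeR w) = cubeR (φ w) := by
  simp only [cubeR, map_div₀, map_mul, map_add, map_pow, map_sub, map_one, map_ofNat]

theorem map_pairW (ζ : R) (a : Fin 2 → ZMod M) (m e : ℕ) :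
    φ (pairW M ζ a m e) = pairW M (φ ζ) a m e := by
  simp only [pairW, map_add]
  congr 1 <;> split_ifs <;> simp

theorem map_pairCoeff (ζ : R) (a : Fin 2 → ZMod M) (N : ℕ) :
    φ (pairCoeff M ζ a N) = pairCoeff M (φ ζ) a N := by
  by_cases hN : N = 0
  · subst hN
    rw [pairCoeff_zero, pairCoeff_zero]
    split_ifs
    · rw [map_cubeR, map_pow]
    · exact map_zero φ
  · rw [pairCoeff_of_ne_zero M ζ a hN, pairCoeff_of_ne_zero M (φ ζ) a hN, map_sum]
    refine Finset.sum_congr rfl fun x _ => ?_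
    rw [map_mul, map_pairW, map_pow, map_natCast]

theorem pairS_map (ζ : R) (a : Fin 2 → ZMod M) :
    (pairS M ζ a).map φ = pairS M (φ ζ) a := by
  ext N
  rw [PowerSeries.coeff_map, coeff_pairS, coeff_pairS, map_pairCoeff]

end Map

/-! ### Integrality away from `M` -/

section Integrality

variable [NeZero M]

/-- `(1 - ζ^b)⁻¹ ∈ A` for every subring `A ∋ ζ, M⁻¹`, `ζ` a primitive `M`-th root of unity,
`0 < b < M`. -/
theorem inv_one_sub_pow_mem {ζ : R} (hζ : IsPrimitiveRoot ζ M) (A : Subring R) (hζA : ζ ∈ A)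
    (hMA : ((M : R))⁻¹ ∈ A) {b : ℕ} (hb0 : 0 < b) (hbM : b < M) : (1 - ζ ^ b)⁻¹ ∈ A := by
  obtain ⟨n, rfl⟩ : ∃ n, M = n + 1 := ⟨M - 1, (Nat.succ_pred_eq_of_pos (NeZero.pos M)).symm⟩
  have hprod := hζ.prod_one_sub_pow_eq_order
  have hbmem : b - 1 ∈ Finset.range n := Finset.mem_range.mpr (by omega)
  rw [← Finset.mul_prod_erase _ _ hbmem, show b - 1 + 1 = b by omega] at hprod
  have hM0 : ((n + 1 : ℕ) : R) ≠ 0 := by
    intro h0
    have h1 : (1 - ζ ^ b) * ∏ k ∈ (Finset.range n).erase (b - 1), (1 - ζ ^ (k + 1)) = 0 := by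
      rw [hprod]; exact_mod_cast h0
    rcases mul_eq_zero.mp h1 with h2 | h2
    · have h3 : ζ ^ b = 1 := by linear_combination -h2
      have := (hζ.pow_eq_one_iff_dvd b).mp h3
      exact absurd (Nat.le_of_dvd hb0 this) (by omega)
    · obtain ⟨k, hk, hk0⟩ := Finset.prod_eq_zero_iff.mp h2
      have hk' := Finset.mem_range.mp (Finset.mem_of_mem_erase hk)
      have h3 : ζ ^ (k + 1) = 1 := by linear_combination -hk0
      have := (hζ.pow_eq_one_iff_dvd (k + 1)).mp h3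
      exact absurd (Nat.le_of_dvd (Nat.succ_pos k) this) (by omega)
  have hne : (1 - ζ ^ b) ≠ 0 := by
    intro h0
    rw [h0, zero_mul] at hprod
    exact hM0 (by exact_mod_cast hprod.symm)
  have key : (1 - ζ ^ b)⁻¹ =
      (((n + 1 : ℕ) : R))⁻¹ * ∏ k ∈ (Finset.range n).erase (b - 1), (1 - ζ ^ (k + 1)) := by
    rw [inv_eq_iff_eq_inv, mul_inv_rev, inv_inv, eq_comm, inv_mul_eq_iff_eq_mul₀, mul_comm]
    · rw [hprod]; push_cast; ring
    · intro h0
      rw [h0, mul_zero] at hprod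
      exact hM0 (by exact_mod_cast hprod.symm)
  rw [key]
  refine A.mul_mem hMA (A.prod_mem fun k _ => ?_)
  exact A.sub_mem A.one_mem (A.pow_mem hζA _)

theorem cubeR_mem {ζ : R} (hζ : IsPrimitiveRoot ζ M) (A : Subring R) (hζA : ζ ∈ A)
    (hMA : ((M : R))⁻¹ ∈ A) {b : ℕ} (hb0 : 0 < b) (hbM : b < M) : cubeR (ζ ^ b) ∈ A := by
  have hw : ζ ^ b ∈ A := A.pow_mem hζA b
  have hinv := inv_one_sub_pow_mem M hζ A hζA hMA hb0 hbM
  rw [cubeR, div_eq_mul_inv, ← inv_pow]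
  refine A.mul_mem (A.mul_mem hw ?_) (A.pow_mem hinv 4)
  refine A.add_mem (A.add_mem (A.pow_mem hw 2) (A.mul_mem ?_ hw)) A.one_mem
  exact_mod_cast natCast_mem A 4

theorem pairW_mem {ζ : R} (A : Subring R) (hζA : ζ ∈ A) (a : Fin 2 → ZMod M) (m e : ℕ) :
    pairW M ζ a m e ∈ A := by
  rw [pairW]
  refine A.add_mem ?_ ?_ <;> split_ifs
  · exact A.pow_mem hζA _
  · exact A.zero_mem
  · exact A.pow_mem hζA _
  · exact A.zero_mem

/-- **Integrality away from `M`**: all coefficients of `pairS M ζ a` lie in `ℤ[ζ, 1/M]`. -/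
theorem pairCoeff_mem {ζ : R} (hζ : IsPrimitiveRoot ζ M) (A : Subring R) (hζA : ζ ∈ A)
    (hMA : ((M : R))⁻¹ ∈ A) (a : Fin 2 → ZMod M) (ha : a 0 = 0 → a 1 ≠ 0) (N : ℕ) :
    pairCoeff M ζ a N ∈ A := by
  by_cases hN : N = 0
  · subst hN
    rw [pairCoeff_zero]
    split_ifs with h0
    · have h1 := ha h0
      have hval0 : 0 < (a 1).val := by
        rcases Nat.eq_zero_or_pos (a 1).val with h | h
        · exact absurd ((ZMod.val_eq_zero (a 1)).mp h) h1
        · exact h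
      exact cubeR_mem M hζ A hζA hMA hval0 (ZMod.val_lt (a 1))
    · exact A.zero_mem
  · rw [pairCoeff_of_ne_zero M ζ a hN]
    refine A.sum_mem fun x _ => A.mul_mem (pairW_mem M A hζA a _ _) (A.pow_mem ?_ 3)
    exact natCast_mem A _

end Integrality

end Fermat.Agent.ES.R48.PairSeries10
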