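/-
Programme R (S48, Deligne–Serre), chapter GEOM, sub-chapter G1 EIS-GEN, part E4 (helper10):
**the `q_M`-expansion of the pair-class Eisenstein sums of weight `4`**.

For `a : Fin 2 → ZMod M`, `a ≠ 0` (in the form `a 0 = 0 → a 1 ≠ 0`), `z ∈ ℍ`, `q_M = exp(2πi z/M)`:
`hasSum_gPair : HasSum (fun N => pairCoeff M ζ_M a N * q_M ^ N) (3/(8π⁴) · M⁴ · gPair M a z)`
with the formal coefficients of `PairSeries10` (`ζ_M = zetaC M = exp(2πi/M)`).

Route: rows `rowC` (Lipschitz in residue classes: `EisRow10`), the cotangent constant for the row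
`m = 0` (`EisRow10.const_sum`), Fubini over `ℤ × ℤ` (Mathlib's `summable_norm_eisSummand`),
and the weighted Lambert rearrangement (`EisLambert10`).
-/
import Mathlib
import Fermat.Agent.ES.R48.GPairDefs10
import Fermat.Agent.ES.R48.EisRow10
import Fermat.Agent.ES.R48.EisLambert10
import Fermat.Agent.ES.R48.PairSeries10

set_option autoImplicit false
set_option linter.unusedSectionVars false

open UpperHalfPlane hiding I
open Complex Real Filter Topology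
open scoped Real

noncomputable section

namespace Fermat.Agent.ES.R48.GPairQExp10

open Fermat.Agent.ES.R48.GPairDefs10 Fermat.Agent.ES.R48.EisRow10

variable (M : ℕ) [NeZero M]

local notation "𝕢M" => Function.Periodic.qParam (M : ℝ)

/-- the row `∑_{n ≡ a₁ (M)} (m z + n)⁻⁴`. -/
def rowC (a₁ : ZMod M) (m : ℤ) (z : ℍ) : ℂ :=
  ∑' n : ℤ, if ((n : ℤ) : ZMod M) = a₁ then 1 / ((m : ℂ) * z + n) ^ 4 else 0

theorem intCast_val (a₁ : ZMod M) : (((a₁.val : ℕ) : ℤ) : ZMod M) = a₁ := by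
  rw [Int.cast_natCast, ZMod.natCast_zmod_val]

theorem rowC_eq_tsum (a₁ : ZMod M) (m : ℤ) (z : ℍ) :
    rowC M a₁ m z = ∑' t : ℤ, 1 / ((m : ℂ) * z + (((a₁.val : ℕ) : ℤ) + M * t : ℤ)) ^ 4 := by
  have h := tsum_residue M (fun n : ℤ => 1 / ((m : ℂ) * z + n) ^ 4) ((a₁.val : ℕ) : ℤ)
  rw [intCast_val] at h
  exact h

theorem rowC_pos (a₁ : ZMod M) (m : ℕ) (hm : 0 < m) (z : ℍ) :
    rowC M a₁ (m : ℤ) z = 8 * (π : ℂ) ^ 4 / 3 / (M : ℂ) ^ 4 *
      ∑' e : ℕ, (e : ℂ) ^ 3 * (zetaC M ^ a₁.val * 𝕢M z ^ m) ^ e := by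
  rw [rowC_eq_tsum, ← cexp_rowPt, ← row_sum M m hm]
  simp

theorem rowC_neg (a₁ : ZMod M) (m : ℤ) (z : ℍ) : rowC M a₁ (-m) z = rowC M (-a₁) m z := by
  unfold rowC
  rw [← (Equiv.neg ℤ).tsum_eq]
  refine tsum_congr fun n => ?_
  simp only [Equiv.neg_apply, Int.cast_neg]
  have h1 : (-(n : ZMod M) = a₁) ↔ ((n : ZMod M) = -a₁) := neg_eq_iff_eq_neg
  have h2 : (-(m : ℂ) * z + -(n : ℂ)) ^ 4 = ((m : ℂ) * z + n) ^ 4 := by ring
  simp only [h1, h2]

theorem rowC_zero (a₁ : ZMod M) (h : a₁ ≠ 0) (z : ℍ) :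
    rowC M a₁ 0 z = 8 * (π : ℂ) ^ 4 / 3 / (M : ℂ) ^ 4 * cubeFun (zetaC M ^ a₁.val) := by
  have hb : ¬ M ∣ a₁.val := by
    intro hd
    apply h
    rw [← ZMod.natCast_zmod_val a₁]
    exact (ZMod.natCast_eq_zero_iff _ _).mpr hd
  rw [rowC_eq_tsum, ← const_sum M a₁.val hb]
  simp


/-! ### The two-dimensional sum -/

/-- the summand of `gPair`, extended by zero to `ℤ × ℤ`. -/
def fPair (a : Fin 2 → ZMod M) (z : ℍ) (p : ℤ × ℤ) : ℂ :=
  if ((p.1 : ℤ) : ZMod M) = a 0 ∧ ((p.2 : ℤ) : ZMod M) = a 1 then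
    1 / ((p.1 : ℂ) * z + p.2) ^ 4 else 0

theorem summable_term4 (z : ℍ) : Summable fun v : Fin 2 → ℤ => term4 v z := by
  have h := (EisensteinSeries.summable_norm_eisSummand (k := 4) (by norm_num) z).of_norm
  exact h.congr fun v => (term4_eq_eisSummand v z).symm

theorem fPair_eq_indicator (a : Fin 2 → ZMod M) (z : ℍ) (p : ℤ × ℤ) :
    fPair M a z p = (pairSet M a).indicator (fun v => term4 v z) ((finTwoArrowEquiv ℤ).symm p) := by
  classical
  rw [Set.indicator_apply, fPair]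
  have hmem : ((finTwoArrowEquiv ℤ).symm p ∈ pairSet M a) ↔
      (((p.1 : ℤ) : ZMod M) = a 0 ∧ ((p.2 : ℤ) : ZMod M) = a 1) := by
    rw [mem_pairSet]
    simp
  simp only [hmem]
  congr 1

theorem summable_fPair (a : Fin 2 → ZMod M) (z : ℍ) : Summable (fPair M a z) := by
  have h1 : Summable ((pairSet M a).indicator fun v => term4 v z) :=
    (summable_term4 z).indicator _
  have h2 := (finTwoArrowEquiv ℤ).symm.summable_iff.mpr h1
  exact h2.congr fun p => (fPair_eq_indicator M a z p).symm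

theorem gPair_eq_tsum_fPair (a : Fin 2 → ZMod M) (z : ℍ) :
    gPair M a z = ∑' p : ℤ × ℤ, fPair M a z p := by
  rw [gPair, tsum_subtype (pairSet M a) (fun v => term4 v z),
    ← (finTwoArrowEquiv ℤ).symm.tsum_eq]
  exact tsum_congr fun p => (fPair_eq_indicator M a z p).symm

theorem tsum_fPair_row (a : Fin 2 → ZMod M) (z : ℍ) (m : ℤ) :
    ∑' n : ℤ, fPair M a z (m, n) =
      if ((m : ℤ) : ZMod M) = a 0 then rowC M (a 1) m z else 0 := by
  by_cases hm : ((m : ℤ) : ZMod M) = a 0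
  · rw [if_pos hm, rowC]
    refine tsum_congr fun n => ?_
    simp [fPair, hm]
  · rw [if_neg hm]
    have : ∀ n : ℤ, fPair M a z (m, n) = 0 := fun n => by simp [fPair, hm]
    simp [this]

/-- `gPair` as a sum of rows. -/
theorem gPair_eq_tsum_rows (a : Fin 2 → ZMod M) (z : ℍ) :
    gPair M a z = ∑' m : ℤ, (if ((m : ℤ) : ZMod M) = a 0 then rowC M (a 1) m z else 0) := by
  rw [gPair_eq_tsum_fPair, (summable_fPair M a z).tsum_prod]
  exact tsum_congr fun m => tsum_fPair_row M a z m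

theorem summable_rows (a : Fin 2 → ZMod M) (z : ℍ) :
    Summable fun m : ℤ => (if ((m : ℤ) : ZMod M) = a 0 then rowC M (a 1) m z else 0) :=
  (summable_fPair M a z).prod.congr fun m => tsum_fPair_row M a z m


/-! ### Assembly -/

open Fermat.Agent.ES.R48.PairSeries10 Fermat.Agent.ES.R48.EisLambert10

theorem norm_qM_lt_one (z : ℍ) : ‖𝕢M z‖ < 1 :=
  Function.Periodic.norm_qParam_lt_one
    (by exact_mod_cast Nat.pos_of_ne_zero (NeZero.ne M)) z.im_pos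

theorem norm_zetaC : ‖zetaC M‖ = 1 := by
  rw [zetaC, Complex.norm_exp]
  have : (2 * (π : ℂ) * I / (M : ℂ)).re = 0 := by
    rw [show (2 * (π : ℂ) * I / (M : ℂ)) = ((2 * π / M : ℝ) : ℂ) * I by push_cast; ring]
    simp
  rw [this, Real.exp_zero]

theorem norm_pairW_le (a : Fin 2 → ZMod M) (m e : ℕ) : ‖pairW M (zetaC M) a m e‖ ≤ 2 := by
  rw [pairW]
  refine (norm_add_le _ _).trans ?_
  have h : ∀ (P : Prop) [Decidable P] (k : ℕ), ‖(if P then zetaC M ^ k else 0 : ℂ)‖ ≤ 1 := by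
    intro P _ k
    split_ifs
    · rw [norm_pow, norm_zetaC, one_pow]
    · simp
  linarith [h (((m : ℕ) : ZMod M) = a 0) (e * (a 1).val),
    h (((m : ℕ) : ZMod M) = -a 0) (e * (-a 1).val)]

/-- the cube series `∑ e³ wᵉ` -/
def cubeSum (w : ℂ) : ℂ := ∑' e : ℕ, (e : ℂ) ^ 3 * w ^ e

theorem tsum_pnat_cube (w : ℂ) :
    ∑' e : ℕ+, ((e : ℕ) : ℂ) ^ 3 * w ^ (e : ℕ) = cubeSum w :=
  tsum_pnat_eq_tsum_of_eq_zero (f := fun e : ℕ => (e : ℂ) ^ 3 * w ^ e) (by simp)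

theorem summable_pnat_cube {w : ℂ} (hw : ‖w‖ < 1) :
    Summable fun e : ℕ+ => ((e : ℕ) : ℂ) ^ 3 * w ^ (e : ℕ) :=
  (hasSum_cube hw).summable.comp_injective PNat.coe_injective

theorem norm_zeta_mul_q_lt_one (z : ℍ) (b m : ℕ) (hm : 0 < m) :
    ‖zetaC M ^ b * 𝕢M z ^ m‖ < 1 := by
  rw [norm_mul, norm_pow, norm_pow, norm_zetaC, one_pow, one_mul]
  exact pow_lt_one₀ (norm_nonneg _) (norm_qM_lt_one M z) hm.ne'

/-- the indicator as a number. -/
def ind (P : Prop) [Decidable P] : ℂ := if P then 1 else 0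

theorem ite_eq_ind_mul (P : Prop) [Decidable P] (x : ℂ) : (if P then x else 0) = ind P * x := by
  unfold ind; split_ifs <;> simp

/-- the Lambert rows: for `m ≥ 1` the inner sum of `lamTerm`. -/
theorem tsum_lamTerm_row (a : Fin 2 → ZMod M) (z : ℍ) (m : ℕ+) :
    ∑' e : ℕ+, lamTerm (pairW M (zetaC M) a) (𝕢M z) (m, e) =
      ind (((m : ℕ) : ZMod M) = a 0) * cubeSum (zetaC M ^ (a 1).val * 𝕢M z ^ (m : ℕ)) +
      ind (((m : ℕ) : ZMod M) = -a 0) * cubeSum (zetaC M ^ (-a 1).val * 𝕢M z ^ (m : ℕ)) := by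
  have h1 := norm_zeta_mul_q_lt_one M z (a 1).val m m.pos
  have h2 := norm_zeta_mul_q_lt_one M z (-a 1).val m m.pos
  rw [← tsum_pnat_cube, ← tsum_pnat_cube, ← tsum_mul_left, ← tsum_mul_left,
    ← ((summable_pnat_cube h1).mul_left _).tsum_add ((summable_pnat_cube h2).mul_left _)]
  refine tsum_congr fun e => ?_
  rw [lamTerm, pairW, ite_eq_ind_mul, ite_eq_ind_mul]
  simp only [mul_pow, ← pow_mul]
  ring

theorem rows_pm (a : Fin 2 → ZMod M) (z : ℍ) (m : ℕ+) :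
    (if ((((m : ℕ) : ℤ)) : ZMod M) = a 0 then rowC M (a 1) ((m : ℕ) : ℤ) z else 0) +
      (if (((-((m : ℕ) : ℤ) : ℤ)) : ZMod M) = a 0 then rowC M (a 1) (-((m : ℕ) : ℤ)) z else 0) =
    8 * (π : ℂ) ^ 4 / 3 / (M : ℂ) ^ 4 *
      ∑' e : ℕ+, lamTerm (pairW M (zetaC M) a) (𝕢M z) (m, e) := by
  rw [tsum_lamTerm_row, rowC_neg, rowC_pos M (a 1) m m.pos, rowC_pos M (-a 1) m m.pos,
    ite_eq_ind_mul, ite_eq_ind_mul]
  have e1 : ((((m : ℕ) : ℤ)) : ZMod M) = ((m : ℕ) : ZMod M) := Int.cast_natCast _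
  have e2 : ((((-((m : ℕ) : ℤ) : ℤ)) : ZMod M) = a 0) ↔ (((m : ℕ) : ZMod M) = -a 0) := by
    rw [Int.cast_neg, e1, neg_eq_iff_eq_neg]
  simp only [e1, e2, cubeSum]
  ring


/-- `G_a` = constant + Lambert double sum. -/
theorem gPair_eq_lambert (a : Fin 2 → ZMod M) (ha : a 0 = 0 → a 1 ≠ 0) (z : ℍ) :
    gPair M a z = 8 * (π : ℂ) ^ 4 / 3 / (M : ℂ) ^ 4 *
      ((if a 0 = 0 then cubeFun (zetaC M ^ (a 1).val) else 0) +
        ∑' m : ℕ+, ∑' e : ℕ+, lamTerm (pairW M (zetaC M) a) (𝕢M z) (m, e)) := by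
  set g : ℤ → ℂ := fun m => if ((m : ℤ) : ZMod M) = a 0 then rowC M (a 1) m z else 0 with hg
  have hsum : Summable g := summable_rows M a z
  have hpos : Summable fun m : ℕ+ => g ((m : ℕ) : ℤ) :=
    hsum.comp_injective (fun m m' h => PNat.coe_injective (Nat.cast_injective h))
  have hneg : Summable fun m : ℕ+ => g (-((m : ℕ) : ℤ)) :=
    hsum.comp_injective (fun m m' h =>
      PNat.coe_injective (Nat.cast_injective (neg_injective h)))
  rw [gPair_eq_tsum_rows, tsum_int_eq_zero_add_tsum_pnat hsum, add_assoc,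
    ← hpos.tsum_add hneg, mul_add, ← tsum_mul_left]
  congr 1
  · simp only [hg, Int.cast_zero]
    by_cases h0 : a 0 = 0
    · rw [if_pos h0.symm, if_pos h0, rowC_zero M (a 1) (ha h0)]
    · rw [if_neg (fun h => h0 h.symm), if_neg h0, mul_zero]
  · exact tsum_congr fun m => rows_pm M a z m

/-- **The `q_M`-expansion of the pair-class Eisenstein sum** `G_a`, `a ≠ 0`. -/
theorem hasSum_gPair (a : Fin 2 → ZMod M) (ha : a 0 = 0 → a 1 ≠ 0) (z : ℍ) :
    HasSum (fun N : ℕ => pairCoeff M (zetaC M) a N * 𝕢M z ^ N)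
      (3 / (8 * (π : ℂ) ^ 4) * (M : ℂ) ^ 4 * gPair M a z) := by
  have hM : (M : ℂ) ≠ 0 := by exact_mod_cast NeZero.ne M
  have hpi : (π : ℂ) ≠ 0 := by exact_mod_cast Real.pi_ne_zero
  have hL := hasSum_lambert (F := pairW M (zetaC M) a) (q := 𝕢M z) (C := 2)
    (norm_pairW_le M a) (norm_qM_lt_one M z)
  have hC : HasSum (fun N : ℕ => if N = 0 then
      (if a 0 = 0 then cubeFun (zetaC M ^ (a 1).val) else 0) else 0)
      (if a 0 = 0 then cubeFun (zetaC M ^ (a 1).val) else 0) := hasSum_ite_eq 0 _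
  have hval : 3 / (8 * (π : ℂ) ^ 4) * (M : ℂ) ^ 4 * gPair M a z =
      (if a 0 = 0 then cubeFun (zetaC M ^ (a 1).val) else 0) +
        ∑' m : ℕ+, ∑' e : ℕ+, lamTerm (pairW M (zetaC M) a) (𝕢M z) (m, e) := by
    rw [gPair_eq_lambert M a ha z]
    field_simp
  rw [hval]
  refine (hC.add hL).congr_fun fun N => ?_
  by_cases hN : N = 0
  · subst hN
    rw [pairCoeff_zero, if_pos rfl, lamCoeff_zero, zero_mul, add_zero, pow_zero, mul_one]
    rfl
  · rw [pairCoeff_of_ne_zero M _ a hN, if_neg hN, zero_add, lamCoeff]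

end Fermat.Agent.ES.R48.GPairQExp10
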