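/-
Programme R (S48, Deligne–Serre), chapter GEOM, sub-chapter G1 EIS-GEN, brick **E2** (helper19):
the `q`-expansion at `∞` of the analytic `W_c` of `X1Iface13`.

* `hasSum_gFun` : for `c ≠ 0` in `ZMod M`,
  `3/(8π⁴) · G_c(z) = ∑_{n ≥ 1} eisCoeff M c n · qⁿ`, `q = e^{2πiz}`
  (Mathlib's Lipschitz formula `EisensteinSeries.qExpansion_identity_pnat` on the complete rows
  `m ≡ ± c`, `m > 0`, and a weighted version of Mathlib's `tsum_prod_pow_eq_tsum_sigma`);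
* `isQExp_gFun`, `isQExp_E4`, `isQExp_discriminant_inv` (main's `X0/JQExp` toolkit);
* **`isQExp_wFun`** : `IsQExp 1 (wFun M c) 1 ((wNumQ M c).map (algebraMap ℚ ℂ))`, and the form
  `RealizeData1.isQExp` wants: **`isQExp_wFun_K`**, **`coe_wF_eq_laurentOf`**.
-/
import Mathlib
import Fermat.Agent.ES.R48.X1Iface13
import Fermat.Agent.X0.QExpRing
import Fermat.Agent.X0.JQExp
import Fermat.Agent.X0.JqExpansion

set_option autoImplicit false
set_option linter.unusedSectionVars false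

open UpperHalfPlane hiding I
open Complex EisensteinSeries ModularForm
open scoped Real Nat

noncomputable section

namespace Fermat.Agent.ES.R48.WInfty19

open Fermat.Agent.ES.R48.X1Iface13 Fermat.Agent.ES.R48.FF1Defs13
open Fermat.Agent.X0 Fermat.Agent.X0.JQExp

/-! ### The Lipschitz formula on a complete row -/

/-- the Lipschitz constant at weight four: `(-2πi)⁴/3! = 8π⁴/3`. -/
theorem lipschitz_const : ((-2 * (π : ℂ) * I) ^ (3 + 1) / (3 ! : ℕ)) = 8 * (π : ℂ) ^ 4 / 3 := by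
  have h4 : (I : ℂ) ^ 4 = 1 := by
    rw [show (4 : ℕ) = 2 * 2 from rfl, pow_mul, I_sq]; norm_num
  have : (3 ! : ℕ) = 6 := rfl
  rw [this, mul_pow, mul_pow, h4]
  push_cast
  ring

/-- row sums: `∑_n (w + n)⁻⁴ = (8π⁴/3) ∑_{k ≥ 1} k³ e(w)ᵏ`. -/
theorem row_sum (w : ℍ) :
    ∑' n : ℤ, 1 / ((w : ℂ) + n) ^ 4 =
      8 * (π : ℂ) ^ 4 / 3 * ∑' k : ℕ+, (k : ℂ) ^ 3 * cexp (2 * π * I * w) ^ (k : ℕ) := by
  have h := EisensteinSeries.qExpansion_identity_pnat (k := 3) (by norm_num) w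
  rw [lipschitz_const] at h
  exact h

/-! ### Weighted Lambert double series -/

/-- the weighted Lambert double series is summable. -/
theorem summable_weighted (u : ℕ → ℕ → ℂ) (C : ℝ) (hu : ∀ m k, ‖u m k‖ ≤ C) {r : ℂ}
    (hr : ‖r‖ < 1) :
    Summable fun x : ℕ+ × ℕ+ => u x.1 x.2 * (x.2 : ℂ) ^ 3 * r ^ ((x.1 : ℕ) * (x.2 : ℕ)) := by
  have hr' : ‖(‖r‖ : ℝ)‖ < 1 := by simpa using hr
  have h := (summable_prod_mul_pow (𝕜 := ℝ) 3 hr').mul_left C
  refine Summable.of_norm_bounded h fun x => ?_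
  rw [norm_mul, norm_mul, norm_pow, norm_pow, Complex.norm_natCast, mul_assoc]
  have h0 : (0 : ℝ) ≤ ((x.2 : ℕ) : ℝ) ^ 3 * ‖r‖ ^ ((x.1 : ℕ) * (x.2 : ℕ)) := by positivity
  exact mul_le_mul_of_nonneg_right (hu _ _) h0

/-- the weighted Lambert double series, summed along `m k = N`. -/
theorem hasSum_weighted (u : ℕ → ℕ → ℂ) (C : ℝ) (hu : ∀ m k, ‖u m k‖ ≤ C) {r : ℂ}
    (hr : ‖r‖ < 1) :
    HasSum (fun N : ℕ+ => (∑ x ∈ (N : ℕ).divisorsAntidiagonal, u x.1 x.2 * (x.2 : ℂ) ^ 3) *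
        r ^ (N : ℕ))
      (∑' x : ℕ+ × ℕ+, u x.1 x.2 * (x.2 : ℂ) ^ 3 * r ^ ((x.1 : ℕ) * (x.2 : ℕ))) := by
  have hs := summable_weighted u C hu hr
  have hs' := (sigmaAntidiagonalEquivProd.summable_iff).mpr hs
  have h1 := hs'.hasSum.sigma (fun N => (hasSum_fintype _))
  have h2 := sigmaAntidiagonalEquivProd.tsum_eq
    (fun x : ℕ+ × ℕ+ => u x.1 x.2 * (x.2 : ℂ) ^ 3 * r ^ ((x.1 : ℕ) * (x.2 : ℕ)))
  rw [← h2]
  convert h1 using 1
  · funext N
    rw [Finset.sum_mul, ← Finset.sum_attach]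
    simp only [Finset.univ_eq_attach]
    refine Finset.sum_congr rfl fun x _ => ?_
    have hx := (Nat.mem_divisorsAntidiagonal.mp x.2).1
    simp only [Function.comp_apply, sigmaAntidiagonalEquivProd, divisorsAntidiagonalFactors,
      Equiv.coe_fn_mk, PNat.mk_coe, hx]
  · rfl

/-! ### `G_c` as a double sum -/

variable (M : ℕ) [NeZero M]

/-- the summand of `gFun`, with the congruence condition as an indicator, on `ℤ × ℤ`. -/
def Fsum (c : ZMod M) (z : ℍ) (x : ℤ × ℤ) : ℂ :=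
  if ((x.1 : ℤ) : ZMod M) = c then 1 / ((x.1 : ℂ) * (z : ℂ) + (x.2 : ℂ)) ^ 4 else 0

theorem Fsum_eq_indicator (c : ZMod M) (z : ℍ) :
    Fsum M c z = Set.indicator {x : ℤ × ℤ | ((x.1 : ℤ) : ZMod M) = c}
      (fun x : ℤ × ℤ => eisSummand 4 ![x.1, x.2] z) := by
  funext x
  unfold Fsum
  rw [Set.indicator_apply]
  simp only [Set.mem_ofPred_eq, eisSummand, Matrix.cons_val_zero, Matrix.cons_val_one]
  split_ifs
  · rw [one_div, zpow_neg]
    norm_cast
  · rfl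

theorem summable_Fsum (c : ZMod M) (z : ℍ) : Summable (Fsum M c z) := by
  rw [Fsum_eq_indicator]
  exact (summable_prod_eisSummand (k := 4) (by norm_num) z).indicator _

theorem gFun_eq_tsum_Fsum (c : ZMod M) (z : ℍ) : gFun M c z = ∑' x : ℤ × ℤ, Fsum M c z x := by
  unfold gFun
  have h1 := tsum_subtype {v : Fin 2 → ℤ | ((v 0 : ℤ) : ZMod M) = c}
    (fun v : Fin 2 → ℤ => 1 / (((v 0 : ℤ) : ℂ) * (z : ℂ) + ((v 1 : ℤ) : ℂ)) ^ 4)
  have h2 := (finTwoArrowEquiv ℤ).symm.tsum_eq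
    (Set.indicator {v : Fin 2 → ℤ | ((v 0 : ℤ) : ZMod M) = c}
      (fun v : Fin 2 → ℤ => 1 / (((v 0 : ℤ) : ℂ) * (z : ℂ) + ((v 1 : ℤ) : ℂ)) ^ 4))
  refine h1.trans (h2.symm.trans ?_)
  refine tsum_congr fun x => ?_
  unfold Fsum
  rw [Set.indicator_apply]
  simp only [Set.mem_ofPred_eq, finTwoArrowEquiv_symm_apply, Matrix.cons_val_zero,
    Matrix.cons_val_one]

/-- the full row sum `∑_n (m z + n)⁻⁴`. -/
def rowSum (z : ℍ) (m : ℤ) : ℂ := ∑' n : ℤ, 1 / ((m : ℂ) * (z : ℂ) + (n : ℂ)) ^ 4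

theorem tsum_Fsum_row (c : ZMod M) (z : ℍ) (m : ℤ) :
    ∑' n : ℤ, Fsum M c z (m, n) = if ((m : ℤ) : ZMod M) = c then rowSum z m else 0 := by
  unfold Fsum rowSum
  split_ifs with h
  · rfl
  · exact tsum_zero

/-- the Lambert row `∑_{k ≥ 1} k³ q^{m k}`. -/
def lamRow (q : ℂ) (m : ℕ) : ℂ := ∑' k : ℕ+, (k : ℂ) ^ 3 * q ^ (m * (k : ℕ))

theorem rowSum_pos (z : ℍ) (m : ℕ+) :
    rowSum z ((m : ℕ) : ℤ) = 8 * (π : ℂ) ^ 4 / 3 * lamRow (cexp (2 * π * I * z)) m := by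
  have him : 0 < (((m : ℕ) : ℂ) * (z : ℂ)).im := by
    rw [Complex.mul_im, Complex.natCast_re, Complex.natCast_im, zero_mul, add_zero]
    exact mul_pos (by exact_mod_cast m.pos) z.im_pos
  have h := row_sum ⟨((m : ℕ) : ℂ) * (z : ℂ), him⟩
  unfold rowSum lamRow
  rw [Int.cast_natCast]
  refine h.trans ?_
  congr 1
  refine tsum_congr fun k => ?_
  congr 1
  rw [pow_mul]
  congr 1
  rw [← Complex.exp_nat_mul]
  congr 1
  show (2 * (π : ℂ) * I * (((m : ℕ) : ℂ) * (z : ℂ))) = _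
  ring

theorem rowSum_neg (z : ℍ) (m : ℤ) : rowSum z (-m) = rowSum z m := by
  unfold rowSum
  rw [← (Equiv.neg ℤ).tsum_eq]
  refine tsum_congr fun n => ?_
  simp only [Equiv.neg_apply, Int.cast_neg]
  congr 1
  ring

/-- the indicator weight of the class `c`. -/
def ind (c : ZMod M) (m : ℕ) : ℂ := if ((m : ℕ) : ZMod M) = c then 1 else 0

theorem norm_ind_le (c : ZMod M) (m : ℕ) : ‖ind M c m‖ ≤ 1 := by
  unfold ind
  split_ifs <;> simp

/-- the weighted Lambert double series of the class `c`. -/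
def lamSum (c : ZMod M) (q : ℂ) : ℂ :=
  ∑' x : ℕ+ × ℕ+, ind M c x.1 * (x.2 : ℂ) ^ 3 * q ^ ((x.1 : ℕ) * (x.2 : ℕ))

theorem lamSum_eq (c : ZMod M) {q : ℂ} (hq : ‖q‖ < 1) :
    lamSum M c q = ∑' m : ℕ+, ind M c m * lamRow q m := by
  unfold lamSum
  rw [(summable_weighted (fun m _ => ind M c m) 1 (fun m _ => norm_ind_le M c m) hq).tsum_prod]
  refine tsum_congr fun m => ?_
  unfold lamRow
  rw [← tsum_mul_left]
  refine tsum_congr fun k => ?_
  ring

theorem summable_ind_lamRow (c : ZMod M) {q : ℂ} (hq : ‖q‖ < 1) :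
    Summable fun m : ℕ+ => ind M c m * lamRow q m := by
  have h := (summable_weighted (fun m _ => ind M c m) 1 (fun m _ => norm_ind_le M c m) hq).prod
  refine h.congr fun m => ?_
  unfold lamRow
  rw [← tsum_mul_left]
  refine tsum_congr fun k => ?_
  ring

theorem gFun_eq (c : ZMod M) (hc : c ≠ 0) (z : ℍ) :
    gFun M c z = 8 * (π : ℂ) ^ 4 / 3 *
      (lamSum M c (cexp (2 * π * I * z)) + lamSum M (-c) (cexp (2 * π * I * z))) := by
  have hq : ‖cexp (2 * π * I * z)‖ < 1 := norm_exp_two_pi_I_lt_one z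
  have hs := summable_Fsum M c z
  rw [gFun_eq_tsum_Fsum, hs.tsum_prod]
  have hf : Summable fun m : ℤ => ∑' n : ℤ, Fsum M c z (m, n) := hs.prod
  rw [tsum_int_eq_zero_add_tsum_pnat hf, tsum_Fsum_row]
  have h0 : ¬ (((0 : ℤ) : ZMod M) = c) := by
    rw [Int.cast_zero]
    exact fun h => hc h.symm
  rw [if_neg h0, zero_add, lamSum_eq M c hq, lamSum_eq M (-c) hq, mul_add, ← tsum_mul_left,
    ← tsum_mul_left]
  congr 1
  · refine tsum_congr fun m => ?_
    rw [tsum_Fsum_row, rowSum_pos, Int.cast_natCast]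
    unfold ind
    split_ifs <;> simp
  · refine tsum_congr fun m => ?_
    rw [tsum_Fsum_row, rowSum_neg, rowSum_pos, Int.cast_neg, Int.cast_natCast]
    unfold ind
    have : (-((m : ℕ) : ZMod M) = c) ↔ (((m : ℕ) : ZMod M) = -c) := neg_eq_iff_eq_neg
    simp only [this]
    split_ifs <;> simp

theorem cast_eisCoeff (c : ZMod M) (N : ℕ) :
    ((eisCoeff M c N : ℤ) : ℂ) =
      (∑ x ∈ N.divisorsAntidiagonal, ind M c x.1 * (x.2 : ℂ) ^ 3) +
        ∑ x ∈ N.divisorsAntidiagonal, ind M (-c) x.1 * (x.2 : ℂ) ^ 3 := by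
  rw [Nat.sum_divisorsAntidiagonal (fun m k => ind M c m * (k : ℂ) ^ 3),
    Nat.sum_divisorsAntidiagonal (fun m k => ind M (-c) m * (k : ℂ) ^ 3), ← Finset.sum_add_distrib]
  unfold eisCoeff ind
  rw [Int.cast_sum]
  refine Finset.sum_congr rfl fun m _ => ?_
  rw [Int.cast_add]
  congr 1 <;> split_ifs <;>
    simp only [Int.cast_pow, Int.cast_natCast, one_mul, zero_mul, Int.cast_zero]

theorem hasSum_eisCoeff_pnat (c : ZMod M) {q : ℂ} (hq : ‖q‖ < 1) :
    HasSum (fun N : ℕ+ => ((eisCoeff M c N : ℤ) : ℂ) * q ^ (N : ℕ))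
      (lamSum M c q + lamSum M (-c) q) := by
  have h1 := hasSum_weighted (fun m _ => ind M c m) 1 (fun m _ => norm_ind_le M c m) hq
  have h2 := hasSum_weighted (fun m _ => ind M (-c) m) 1 (fun m _ => norm_ind_le M (-c) m) hq
  refine (h1.add h2).congr_fun fun N => ?_
  rw [cast_eisCoeff, add_mul]

theorem hasSum_eisCoeff (c : ZMod M) {q : ℂ} (hq : ‖q‖ < 1) :
    HasSum (fun n : ℕ => ((eisCoeff M c n : ℤ) : ℂ) * q ^ n)
      (lamSum M c q + lamSum M (-c) q) := by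
  have h := hasSum_eisCoeff_pnat M c hq
  rw [hasSum_pnat_iff (f := fun n : ℕ => ((eisCoeff M c n : ℤ) : ℂ) * q ^ n)] at h
  simpa using h

/-- **Lipschitz formula for `G_c`**, `c ≠ 0`:
`3/(8π⁴) · G_c(z) = ∑_{n ≥ 1} eisCoeff M c n · qⁿ`, `q = e^{2πiz}`. -/
theorem hasSum_gFun (c : ZMod M) (hc : c ≠ 0) (z : ℍ) :
    HasSum (fun n : ℕ => ((eisCoeff M c n : ℤ) : ℂ) * cexp (2 * π * I * z) ^ n)
      (3 / (8 * (π : ℂ) ^ 4) * gFun M c z) := by
  have hq : ‖cexp (2 * π * I * z)‖ < 1 := norm_exp_two_pi_I_lt_one z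
  have h := hasSum_eisCoeff M c hq
  rw [gFun_eq M c hc z]
  have hpi : (π : ℂ) ≠ 0 := by exact_mod_cast Real.pi_ne_zero
  convert h using 1
  field_simp

/-! ### The `q`-expansion of `W_c` at `∞` -/

theorem qh_one_eq (z : ℍ) : qh 1 z = cexp (2 * π * I * z) := by
  unfold qh Function.Periodic.qParam
  rw [Nat.cast_one, Complex.ofReal_one, div_one]

theorem qh_one_eq' (z : ℍ) : qh 1 z = Function.Periodic.qParam 1 (z : ℂ) := by
  unfold qh
  rw [Nat.cast_one]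

/-- `3/(8π⁴) G_c = S_c(q)`. -/
theorem isQExp_gFun (c : ZMod M) (hc : c ≠ 0) :
    IsQExp 1 (fun z => 3 / (8 * (π : ℂ) ^ 4) * gFun M c z) 0
      ((eisS M c).map (Int.castRingHom ℂ)) := by
  intro z
  rw [pow_zero, mul_one, qh_one_eq]
  refine (hasSum_gFun M c hc z).congr_fun fun n => ?_
  rw [PowerSeries.coeff_map, coeff_eisS]
  rfl

/-- `E₄ = eisenstein4(q)`. -/
theorem isQExp_E4 : IsQExp 1 (fun z => E₄ z) 0
    (ModularCurve.eisenstein4.map (Int.castRingHom ℂ)) := by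
  intro z
  rw [pow_zero, mul_one, qh_one_eq']
  refine (hasSum_E₄ z).congr_fun fun n => ?_
  rw [PowerSeries.coeff_map]
  rfl

/-- `q / Δ = dedekindEtaUnitInv(q)`. -/
theorem isQExp_discriminant_inv : IsQExp 1 (fun z => (ModularForm.discriminant z)⁻¹) 1
    (ModularCurve.dedekindEtaUnitInv.map (Int.castRingHom ℂ)) := by
  intro z
  have hq : ‖Function.Periodic.qParam 1 (z : ℂ)‖ < 1 := by simpa using norm_qParam_lt_one 1 z
  have hd : DifferentiableOn ℂ (etaFun ^ 24)⁻¹ (Metric.ball 0 1) := by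
    refine DifferentiableOn.inv (differentiableOn_etaFun.pow 24) fun q hq => ?_
    exact pow_ne_zero _ (etaFun_ne_zero (mem_ball_zero_iff.mp hq))
  have h := hasSum_tps hd hq
  rw [tps_etaFun_pow_inv] at h
  rw [qh_one_eq', pow_one]
  show HasSum _ ((ModularForm.discriminant z)⁻¹ * Function.Periodic.qParam 1 (z : ℂ))
  rw [discriminant_eq_etaFun]
  have hq0 : Function.Periodic.qParam 1 (z : ℂ) ≠ 0 := Function.Periodic.qParam_ne_zero _
  have he : etaFun (Function.Periodic.qParam 1 z) ^ 24 ≠ 0 := pow_ne_zero _ (etaFun_ne_zero hq)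
  have hval : (Function.Periodic.qParam 1 (z : ℂ) * etaFun (Function.Periodic.qParam 1 z) ^ 24)⁻¹ *
      Function.Periodic.qParam 1 (z : ℂ) = (etaFun ^ 24)⁻¹ (Function.Periodic.qParam 1 z) := by
    simp only [Pi.inv_apply, Pi.pow_apply]
    field_simp
  rw [hval]
  exact h

theorem wFun_eq_mul (c : ZMod M) :
    wFun M c = (fun z => 3 / (8 * (π : ℂ) ^ 4) * gFun M c z) * (fun z => E₄ z) * (fun z => E₄ z) *
      (fun z => (ModularForm.discriminant z)⁻¹) := by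
  funext z
  simp only [wFun, Pi.mul_apply]
  rw [div_eq_mul_inv, sq]
  ring

theorem map_wNumQ (c : ZMod M) :
    (wNumQ M c).map (algebraMap ℚ ℂ) =
      (eisS M c).map (Int.castRingHom ℂ) * ModularCurve.eisenstein4.map (Int.castRingHom ℂ) *
        ModularCurve.eisenstein4.map (Int.castRingHom ℂ) *
          ModularCurve.dedekindEtaUnitInv.map (Int.castRingHom ℂ) := by
  have h : (algebraMap ℚ ℂ).comp (Int.castRingHom ℚ) = Int.castRingHom ℂ :=
    RingHom.ext_int _ _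
  rw [wNumQ, ← RingHom.comp_apply, ← PowerSeries.map_comp, h, wNum, map_mul, map_mul, sq, map_mul]
  ring

/-- **E2.** `W_c = q⁻¹ · (S_c E₄² η⁻²⁴)(q)` at `∞`, for `c ≠ 0`. -/
theorem isQExp_wFun (c : ZMod M) (hc : c ≠ 0) :
    IsQExp 1 (wFun M c) 1 ((wNumQ M c).map (algebraMap ℚ ℂ)) := by
  rw [wFun_eq_mul, map_wNumQ]
  exact (((isQExp_gFun M c hc).mul isQExp_E4).mul isQExp_E4).mul isQExp_discriminant_inv

/-- the numerator of `W_c` over `ℚbar`. -/
def wNumK (c : ZMod M) : PowerSeries Kbar := (wNumQ M c).map (algebraMap ℚ Kbar)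

theorem map_iotaK_wNumK (c : ZMod M) :
    (wNumK M c).map iotaK = (wNumQ M c).map (algebraMap ℚ ℂ) := by
  ext n
  simp only [wNumK, PowerSeries.coeff_map, iotaK_algebraMap_rat]
  simp

/-- **E2**, in the form `RealizeData1.isQExp` wants. -/
theorem isQExp_wFun_K (c : ZMod M) (hc : c ≠ 0) :
    IsQExp 1 (wFun M c) 1 ((wNumK M c).map iotaK) := by
  rw [map_iotaK_wNumK]
  exact isQExp_wFun M c hc

theorem coe_wF_eq_laurentOf (c : (ZMod M)ˣ) :
    ((wF M c : FF1 M) : LaurentSeries Kbar) = laurentOf 1 (wNumK M (c : ZMod M)) := by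
  have h1 : wq M (c : ZMod M) = laurentOf 1 (wNumQ M (c : ZMod M)) := by
    simp [wq, laurentOf]
  rw [coe_wF, ModularCurve.coeffEmb, h1, coeffMap_laurentOf, wNumK]

end Fermat.Agent.ES.R48.WInfty19
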