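/-
Programme R (S48, Deligne–Serre), chapter GEOM, sub-chapter G1 EIS-GEN, part E4 (helper10):
**the `q_M`-expansion of `W_c ∘ γ` at every cusp** (`γ ∈ SL(2, ℤ)`, `c ≠ 0`).

* `cuspVec M c γ a₁ = (c, a₁) · (γ mod M)`, never zero for `c ≠ 0`;
* formal side (any field `R`, `ζ : R`): `cuspG M ζ c γ = ∑_{a₁} pairS M ζ (cuspVec M c γ a₁)`,
  `e4eta R = E₄² η⁻²⁴`, `cuspW M ζ c γ = C (M⁻⁴) · cuspG · (e4eta R)(q_M^M)`; `map_cuspW`;
* **`isQExp_compSL_wFun : IsQExp M (compSL (wFun M c) γ) M (cuspW M (zetaC M) c γ)`** (analytic);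
* **`isQExp_compSL_wFun_K`** : the same with `(cuspW M (zetaK M) c γ).map iotaK` (coefficients in `ℚbar`);
* **`exists_isQExp_compSL_wFun`** : the shape consumed by `CuspData1` (G2);
* **`coeff_cuspW_mem`** : every coefficient lies in any subring `A ∋ ζ, M⁻¹` (integrality away from
  `M`, the input of G3 at the cusps); `coeff_cuspW_zetaK_mem` for `ζ = zetaK M`.

Inputs: `GPairQExp10.hasSum_gPair` (pair-class expansions, incl. the cotangent constant),
`GPairBridge29.wFun_smul_gPair` (slash rule, helper29), `WInfty19.isQExp_E4/isQExp_discriminant_inv`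
(helper19), main's `X0/QExpRing` (`IsQExp.mul`, `IsQExp.level_mul`) and `X0/RootsK` (`zetaK`).
-/
import Mathlib
import Fermat.Agent.X0.QExpRing
import Fermat.Agent.X0.RootsK
import Fermat.Agent.ES.R48.X1Iface13
import Fermat.Agent.ES.R48.GPairBridge29
import Fermat.Agent.ES.R48.WInfty19
import Fermat.Agent.ES.R48.GPairQExp10

set_option autoImplicit false
set_option linter.unusedSectionVars false

open UpperHalfPlane hiding I
open Complex ModularForm EisensteinSeries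
open scoped Real MatrixGroups

noncomputable section

namespace Fermat.Agent.ES.R48.WCusp10

open Fermat.Agent.X0 Fermat.Agent.ES.R48.X1Iface13 Fermat.Agent.ES.R48.GPairDefs10
open Fermat.Agent.ES.R48.PairSeries10 Fermat.Agent.ES.R48.EisRow10

variable (M : ℕ) [NeZero M]

/-- `γ mod M`. -/
def redMat (γ : SL(2, ℤ)) : Matrix (Fin 2) (Fin 2) (ZMod M) :=
  (Matrix.SpecialLinearGroup.map (Int.castRingHom (ZMod M)) γ).1

/-- the pair classes `(c, a₁) γ` occurring in `W_c ∘ γ`. -/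
def cuspVec (c : ZMod M) (γ : SL(2, ℤ)) (a₁ : ZMod M) : Fin 2 → ZMod M :=
  Matrix.vecMul ![c, a₁] (redMat M γ)

theorem cuspVec_ne_zero {c : ZMod M} (hc : c ≠ 0) (γ : SL(2, ℤ)) (a₁ : ZMod M) :
    cuspVec M c γ a₁ ≠ 0 := by
  intro h
  have hdet : (redMat M γ).det = 1 :=
    (Matrix.SpecialLinearGroup.map (Int.castRingHom (ZMod M)) γ).2
  have h1 : Matrix.vecMul (cuspVec M c γ a₁) (redMat M γ).adjugate = ![c, a₁] := by
    rw [cuspVec, Matrix.vecMul_vecMul, Matrix.mul_adjugate, hdet, one_smul, Matrix.vecMul_one]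
  rw [h, Matrix.zero_vecMul] at h1
  exact hc (congrFun h1 0).symm

theorem cuspVec_cond {c : ZMod M} (hc : c ≠ 0) (γ : SL(2, ℤ)) (a₁ : ZMod M) :
    cuspVec M c γ a₁ 0 = 0 → cuspVec M c γ a₁ 1 ≠ 0 := by
  intro h0 h1
  apply cuspVec_ne_zero M hc γ a₁
  funext i
  fin_cases i
  · exact h0
  · exact h1


/-! ### The formal expansion of `W_c ∘ γ` -/

section Formal

variable {R : Type*} [Field R]

/-- the Eisenstein part of the `q_M`-expansion of `W_c ∘ γ`:
`∑_{a₁} pairS M ζ ((c, a₁) γ)` (this is `M⁴ · (3/(8π⁴)) · G_c ∘ γ / (cz+d)⁴`). -/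
def cuspG (ζ : R) (c : ZMod M) (γ : SL(2, ℤ)) : PowerSeries R :=
  ∑ a₁ : ZMod M, pairS M ζ (cuspVec M c γ a₁)

variable (R) in
/-- `E₄² η⁻²⁴` with coefficients in `R`. -/
def e4eta : PowerSeries R :=
  (ModularCurve.eisenstein4 * ModularCurve.eisenstein4 * ModularCurve.dedekindEtaUnitInv).map
    (Int.castRingHom R)

/-- **the `q_M`-expansion of `W_c ∘ γ`**, to be read as `q_M^{-M} · cuspW`. -/
def cuspW (ζ : R) (c : ZMod M) (γ : SL(2, ℤ)) : PowerSeries R :=
  PowerSeries.C ((M : R)⁻¹ ^ 4) * cuspG M ζ c γ * (e4eta R).expand M (NeZero.ne M)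

variable {S : Type*} [Field S] (φ : R →+* S)

theorem map_cuspG (ζ : R) (c : ZMod M) (γ : SL(2, ℤ)) :
    (cuspG M ζ c γ).map φ = cuspG M (φ ζ) c γ := by
  rw [cuspG, cuspG, map_sum]
  exact Finset.sum_congr rfl fun a₁ _ => pairS_map M φ ζ _

theorem map_e4eta : (e4eta R).map φ = e4eta S := by
  have h : φ.comp (Int.castRingHom R) = Int.castRingHom S := RingHom.ext_int _ _
  rw [e4eta, e4eta, ← RingHom.comp_apply, ← PowerSeries.map_comp, h]

theorem map_cuspW (ζ : R) (c : ZMod M) (γ : SL(2, ℤ)) :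
    (cuspW M ζ c γ).map φ = cuspW M (φ ζ) c γ := by
  rw [cuspW, cuspW, map_mul, map_mul, PowerSeries.map_C, map_cuspG, PowerSeries.map_expand,
    map_e4eta, map_pow, map_inv₀, map_natCast]

end Formal

/-! ### The analytic expansion -/

theorem qh_eq (z : ℍ) : qh M z = Function.Periodic.qParam (M : ℝ) (z : ℂ) := rfl

/-- the Eisenstein part. -/
theorem isQExp_eisPart {c : ZMod M} (hc : c ≠ 0) (γ : SL(2, ℤ)) :
    IsQExp M (fun z => 3 / (8 * (π : ℂ) ^ 4) * (M : ℂ) ^ 4 *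
      ∑ a₁ : ZMod M, gPair M (cuspVec M c γ a₁) z) 0 (cuspG M (zetaC M) c γ) := by
  intro z
  rw [pow_zero, mul_one, qh_eq]
  beta_reduce
  rw [Finset.mul_sum]
  have h := hasSum_sum (s := Finset.univ) fun (a₁ : ZMod M) _ =>
    GPairQExp10.hasSum_gPair M (cuspVec M c γ a₁) (cuspVec_cond M hc γ a₁) z
  refine h.congr_fun fun N => ?_
  rw [cuspG, map_sum, Finset.sum_mul]
  exact Finset.sum_congr rfl fun a₁ _ => by rw [coeff_pairS]

/-- the modular factor `E₄²/Δ` at level one. -/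
theorem isQExp_e4eta :
    IsQExp 1 (fun z : ℍ => E₄ z * E₄ z * (ModularForm.discriminant z)⁻¹) 1 (e4eta ℂ) := by
  have h := (WInfty19.isQExp_E4.mul WInfty19.isQExp_E4).mul WInfty19.isQExp_discriminant_inv
  have he : e4eta ℂ = ModularCurve.eisenstein4.map (Int.castRingHom ℂ) *
      ModularCurve.eisenstein4.map (Int.castRingHom ℂ) *
        ModularCurve.dedekindEtaUnitInv.map (Int.castRingHom ℂ) := by
    rw [e4eta, map_mul, map_mul]
  rw [he]
  exact h

/-- the modular factor `E₄²/Δ` in `q_M`. -/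
theorem isQExp_e4eta_M :
    IsQExp M (fun z : ℍ => E₄ z * E₄ z * (ModularForm.discriminant z)⁻¹) M
      ((e4eta ℂ).expand M (NeZero.ne M)) := by
  have h := isQExp_e4eta.level_mul M
  simpa only [one_mul] using h

/-- **E4.** The `q_M`-expansion of `W_c ∘ γ` for every `γ ∈ SL(2, ℤ)` (`c ≠ 0`):
`W_c(γ z) = q_M^{-M} · cuspW(q_M)`. -/
theorem isQExp_compSL_wFun {c : ZMod M} (hc : c ≠ 0) (γ : SL(2, ℤ)) :
    IsQExp M (compSL (wFun M c) γ) M (cuspW M (zetaC M) c γ) := by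
  have hfun : compSL (wFun M c) γ =
      (fun _ : ℍ => ((M : ℂ)⁻¹ ^ 4)) *
        (fun z => 3 / (8 * (π : ℂ) ^ 4) * (M : ℂ) ^ 4 *
          ∑ a₁ : ZMod M, gPair M (cuspVec M c γ a₁) z) *
        (fun z : ℍ => E₄ z * E₄ z * (ModularForm.discriminant z)⁻¹) := by
    funext z
    have hM : (M : ℂ) ≠ 0 := by exact_mod_cast NeZero.ne M
    simp only [compSL, Pi.mul_apply]
    rw [GPairBridge29.wFun_smul_gPair M γ c z]
    simp only [cuspVec, redMat]
    field_simp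
  rw [hfun]
  have h := ((isQExp_const M ((M : ℂ)⁻¹ ^ 4)).mul (isQExp_eisPart M hc γ)).mul (isQExp_e4eta_M M)
  rw [zero_add, zero_add] at h
  exact h


/-! ### Coefficients in `ℚbar` -/

theorem iotaK_zetaK_eq : iotaK (zetaK M) = zetaC M := by
  rw [iotaK_zetaK]
  rfl

/-- **E4 over `ℚbar`.** -/
theorem isQExp_compSL_wFun_K {c : ZMod M} (hc : c ≠ 0) (γ : SL(2, ℤ)) :
    IsQExp M (compSL (wFun M c) γ) M ((cuspW M (zetaK M) c γ).map iotaK) := by
  rw [map_cuspW, iotaK_zetaK_eq]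
  exact isQExp_compSL_wFun M hc γ

theorem unit_ne_zero (hM : M ≠ 1) (c : (ZMod M)ˣ) : (c : ZMod M) ≠ 0 := by
  have h1 : 1 < M := by
    have := NeZero.pos M
    omega
  have : Fact (1 < M) := ⟨h1⟩
  exact Units.ne_zero c

/-- **E4 in the shape consumed by `CuspData1`** (G2). -/
theorem exists_isQExp_compSL_wFun (hM : M ≠ 1) (c : (ZMod M)ˣ) (γ : SL(2, ℤ)) :
    ∃ (m : ℕ) (P : PowerSeries Kbar),
      IsQExp M (compSL (wFun M (c : ZMod M)) γ) m (P.map iotaK) :=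
  ⟨M, cuspW M (zetaK M) (c : ZMod M) γ, isQExp_compSL_wFun_K M (unit_ne_zero M hM c) γ⟩

/-! ### Integrality away from `M` -/

section Integrality

variable {R : Type*} [Field R]

theorem coeff_mul_mem (A : Subring R) {P Q : PowerSeries R}
    (hP : ∀ n, PowerSeries.coeff n P ∈ A) (hQ : ∀ n, PowerSeries.coeff n Q ∈ A) (n : ℕ) :
    PowerSeries.coeff n (P * Q) ∈ A := by
  rw [PowerSeries.coeff_mul]
  exact A.sum_mem fun x _ => A.mul_mem (hP _) (hQ _)

theorem coeff_e4eta_expand_mem (A : Subring R) (n : ℕ) :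
    PowerSeries.coeff n ((e4eta R).expand M (NeZero.ne M)) ∈ A := by
  rw [PowerSeries.coeff_expand]
  split_ifs
  · rw [e4eta, PowerSeries.coeff_map]
    exact intCast_mem A _
  · exact A.zero_mem

/-- all coefficients of the expansion of `W_c ∘ γ` lie in `ℤ[ζ, 1/M]`. -/
theorem coeff_cuspW_mem {ζ : R} (hζ : IsPrimitiveRoot ζ M) (A : Subring R) (hζA : ζ ∈ A)
    (hMA : ((M : R))⁻¹ ∈ A) {c : ZMod M} (hc : c ≠ 0) (γ : SL(2, ℤ)) (n : ℕ) :
    PowerSeries.coeff n (cuspW M ζ c γ) ∈ A := by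
  rw [cuspW]
  refine coeff_mul_mem A (coeff_mul_mem A ?_ ?_) (coeff_e4eta_expand_mem M A) n
  · intro k
    rw [PowerSeries.coeff_C]
    split_ifs
    · exact A.pow_mem hMA 4
    · exact A.zero_mem
  · intro k
    rw [cuspG, map_sum]
    refine A.sum_mem fun a₁ _ => ?_
    rw [coeff_pairS]
    exact pairCoeff_mem M hζ A hζA hMA _ (cuspVec_cond M hc γ a₁) k

/-- the `ℚbar`-version. -/
theorem coeff_cuspW_zetaK_mem (A : Subring Kbar) (hζA : zetaK M ∈ A)
    (hMA : ((M : Kbar))⁻¹ ∈ A) {c : ZMod M} (hc : c ≠ 0) (γ : SL(2, ℤ)) (n : ℕ) :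
    PowerSeries.coeff n (cuspW M (zetaK M) c γ) ∈ A :=
  coeff_cuspW_mem M (isPrimitiveRoot_zetaK M) A hζA hMA hc γ n

end Integrality

end Fermat.Agent.ES.R48.WCusp10
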