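/-
Programme R (S48, Deligne–Serre), chapter GEOM, sub-chapter G1 EIS-GEN, part E4 (helper10):
**the cusp expansions of `W_c` with their integrality, in one existential statement**
(the shape asked for by G3/CUSP₁: `∃ m P, IsQExp M … ∧ coefficients ∈ ℤ[ζ_M, 1/M]`).
-/
import Fermat.Agent.ES.R48.WCusp10

set_option autoImplicit false
set_option linter.unusedSectionVars false

open UpperHalfPlane
open scoped MatrixGroups

noncomputable section

namespace Fermat.Agent.ES.R48.WCuspInt10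

open Fermat.Agent.X0 Fermat.Agent.ES.R48.X1Iface13 Fermat.Agent.ES.R48.WCusp10

variable (M : ℕ) [NeZero M]

/-- the ring `ℤ[ζ_M, 1/M] ⊆ ℚbar`. -/
def ZzetaInv : Subring Kbar := Subring.closure {zetaK M, ((M : Kbar))⁻¹}

theorem zetaK_mem : zetaK M ∈ ZzetaInv M :=
  Subring.subset_closure (Set.mem_insert _ _)

theorem inv_mem : ((M : Kbar))⁻¹ ∈ ZzetaInv M :=
  Subring.subset_closure (Set.mem_insert_of_mem _ rfl)

/-- every coefficient of `cuspW M (zetaK M) c γ` lies in `ℤ[ζ_M, 1/M]`. -/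
theorem coeff_cuspW_mem_ZzetaInv {c : ZMod M} (hc : c ≠ 0) (γ : SL(2, ℤ)) (n : ℕ) :
    PowerSeries.coeff n (cuspW M (zetaK M) c γ) ∈ ZzetaInv M :=
  coeff_cuspW_zetaK_mem M (ZzetaInv M) (zetaK_mem M) (inv_mem M) hc γ n

/-- **E4, integral form**: for every `γ ∈ SL(2, ℤ)`, `W_c ∘ γ = q_M^{-M} · P(q_M)` with
`P ∈ ℤ[ζ_M, 1/M][[q_M]]`. -/
theorem exists_isQExp_compSL_wFun_int {c : ZMod M} (hc : c ≠ 0) (γ : SL(2, ℤ)) :
    ∃ P : PowerSeries Kbar, IsQExp M (compSL (wFun M c) γ) M (P.map iotaK) ∧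
      ∀ n, PowerSeries.coeff n P ∈ ZzetaInv M :=
  ⟨cuspW M (zetaK M) c γ, isQExp_compSL_wFun_K M hc γ, coeff_cuspW_mem_ZzetaInv M hc γ⟩

/-- the same for units `c`, `M ≠ 1`, with free pole order (the `CuspData1` shape). -/
theorem exists_isQExp_compSL_wFun_unit_int (hM : M ≠ 1) (c : (ZMod M)ˣ) (γ : SL(2, ℤ)) :
    ∃ (m : ℕ) (P : PowerSeries Kbar), IsQExp M (compSL (wFun M (c : ZMod M)) γ) m (P.map iotaK) ∧
      ∀ n, PowerSeries.coeff n P ∈ ZzetaInv M :=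
  ⟨M, exists_isQExp_compSL_wFun_int M (unit_ne_zero M hM c) γ⟩

end Fermat.Agent.ES.R48.WCuspInt10
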