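/-
Programme R (S48, Deligne–Serre), chapter GEOM, sub-chapter G2 DICT₁ (helper29):
**cusp expansions for `X₁(M)`** — twin of `X0/CuspExpand`.  For `D : RealizeData1 M` and
`γ ∈ SL(2, ℤ)`: every `Θ u ∘ γ` (`u ∈ R₁ = ℚbar[j_d, w_c]`) has a `q_M`-expansion with
coefficients in `ℚbar`; the resulting map `R₁ → ℚbar((q_M))` is an injective ring hom and
extends to the fraction field `F₁`.

The only new input is G1-E4 for the generators `w_c`, taken as the explicit hypothesis
`hE4 : ∀ c γ, ∃ m P, IsQExp M (compSL (wFun M c) γ) m (P.map iotaK)`;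
the generators `j_d` are handled by main's `CuspGen.exists_isQExp_compSL_jdFun'` AS-IS.

Final product: **`cuspDataOf D hE4 : CuspData1 M D`**.
-/
import Fermat.Agent.X0.Iface
import Fermat.Agent.X0.QExpRing
import Fermat.Agent.X0.CuspGen
import Fermat.Agent.X0.HolOrder
import Fermat.Agent.X0.CuspExpand
import Fermat.Agent.ES.R48.X1Iface13
import Fermat.Agent.ES.R48.X1FracR1

set_option autoImplicit false

noncomputable section

namespace Fermat.Agent.ES.R48.X1CuspExpand29

open Fermat.Agent.X0 Fermat.Agent.ES.R48.X1Iface13 Fermat.Agent.ES.R48.FF1Defs13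
open UpperHalfPlane
open scoped MatrixGroups

/-- The shape in which G1-E4 is consumed: every `W_c ∘ γ` has a `q_M`-expansion over `ℚbar`. -/
def HE4 (M : ℕ) [NeZero M] : Prop :=
  ∀ (c : (ZMod M)ˣ) (γ : SL(2, ℤ)), ∃ (m : ℕ) (P : PowerSeries Kbar),
    IsQExp M (compSL (wFun M (c : ZMod M)) γ) m (P.map iotaK)

variable {M : ℕ} [NeZero M] (D : RealizeData1 M) (hE4 : HE4 M) (γ : SL(2, ℤ))

include hE4 in
/-- (2) Every `Θ u ∘ γ` has a `q_M`-expansion with coefficients in `ℚbar`. -/
theorem exists_cuspExp (u : Rsub1 M) :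
    ∃ (m : ℕ) (P : PowerSeries Kbar), IsQExp M (compSL (D.Θ u) γ) m (P.map iotaK) := by
  induction u using X1FracR1.Rsub1_induction with
  | hgen d hd =>
      rw [D.jd_eq d hd]
      exact CuspGen.exists_isQExp_compSL_jdFun' M d hd γ
  | hw c =>
      rw [D.w_eq c]
      exact hE4 c γ
  | hconst c =>
      refine ⟨0, PowerSeries.C c, ?_⟩
      rw [D.algebraMap_eq c, compSL_const, PowerSeries.map_C]
      exact isQExp_const M (iotaK c)
  | hadd u v hu hv =>
      obtain ⟨m, P, hP⟩ := hu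
      obtain ⟨m', Q, hQ⟩ := hv
      refine ⟨m + m', PowerSeries.X ^ m' * P + PowerSeries.X ^ m * Q, ?_⟩
      rw [map_add, compSL_add_fun]
      have := hP.add hQ
      simpa only [map_add, map_mul, map_pow, PowerSeries.map_X] using this
  | hmul u v hu hv =>
      obtain ⟨m, P, hP⟩ := hu
      obtain ⟨m', Q, hQ⟩ := hv
      refine ⟨m + m', P * Q, ?_⟩
      rw [map_mul, compSL_mul_fun]
      have := hP.mul hQ
      simpa only [map_mul] using this

/-- The pole order bound chosen for `u`. -/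
def expM (u : Rsub1 M) : ℕ := (exists_cuspExp D hE4 γ u).choose

/-- The power series chosen for `u`. -/
def expP (u : Rsub1 M) : PowerSeries Kbar := (exists_cuspExp D hE4 γ u).choose_spec.choose

theorem isQExp_exp (u : Rsub1 M) :
    IsQExp M (compSL (D.Θ u) γ) (expM D hE4 γ u) ((expP D hE4 γ u).map iotaK) :=
  (exists_cuspExp D hE4 γ u).choose_spec.choose_spec

/-- The `q_M`-expansion of `Θ u ∘ γ` as a Laurent series over `ℚbar`. -/
def cuspR (u : Rsub1 M) : LaurentSeries Kbar := laurentOf (expM D hE4 γ u) (expP D hE4 γ u)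

/-- Characterisation of `cuspR`: any expansion datum with `ℚbar` coefficients computes it. -/
theorem cuspR_eq (u : Rsub1 M) {m : ℕ} {P : PowerSeries Kbar}
    (h : IsQExp M (compSL (D.Θ u) γ) m (P.map iotaK)) : cuspR D hE4 γ u = laurentOf m P := by
  apply CuspExpand.coeffMap_iotaK_injective
  rw [cuspR, coeffMap_laurentOf, coeffMap_laurentOf]
  exact (isQExp_exp D hE4 γ u).unique h

theorem cuspR_spec (u : Rsub1 M) :
    ∃ (m : ℕ) (P : PowerSeries Kbar),
      IsQExp M (compSL (D.Θ u) γ) m (P.map iotaK) ∧ cuspR D hE4 γ u = laurentOf m P :=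
  ⟨_, _, isQExp_exp D hE4 γ u, rfl⟩

theorem cuspR_add (u v : Rsub1 M) :
    cuspR D hE4 γ (u + v) = cuspR D hE4 γ u + cuspR D hE4 γ v := by
  have hP := isQExp_exp D hE4 γ u
  have hQ := isQExp_exp D hE4 γ v
  have h := hP.add hQ
  rw [← compSL_add_fun, ← map_add] at h
  have h' : IsQExp M (compSL (D.Θ (u + v)) γ) (expM D hE4 γ u + expM D hE4 γ v)
      ((PowerSeries.X ^ expM D hE4 γ v * expP D hE4 γ u
        + PowerSeries.X ^ expM D hE4 γ u * expP D hE4 γ v).map iotaK) := by
    simpa only [map_add, map_mul, map_pow, PowerSeries.map_X] using h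
  rw [cuspR_eq D hE4 γ (u + v) h', cuspR, cuspR]
  rw [laurentOf_add, laurentOf_shift]
  conv_lhs => rw [add_comm (expM D hE4 γ u) (expM D hE4 γ v), laurentOf_shift]

theorem cuspR_mul (u v : Rsub1 M) :
    cuspR D hE4 γ (u * v) = cuspR D hE4 γ u * cuspR D hE4 γ v := by
  have hP := isQExp_exp D hE4 γ u
  have hQ := isQExp_exp D hE4 γ v
  have h := hP.mul hQ
  rw [← compSL_mul_fun, ← map_mul] at h
  have h' : IsQExp M (compSL (D.Θ (u * v)) γ) (expM D hE4 γ u + expM D hE4 γ v)
      ((expP D hE4 γ u * expP D hE4 γ v).map iotaK) := by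
    simpa only [map_mul] using h
  rw [cuspR_eq D hE4 γ (u * v) h', cuspR, cuspR, laurentOf_mul]

theorem cuspR_algebraMap (c : Kbar) :
    cuspR D hE4 γ (algebraMap Kbar (Rsub1 M) c) = HahnSeries.C c := by
  have h : IsQExp M (compSL (D.Θ (algebraMap Kbar (Rsub1 M) c)) γ) 0
      ((PowerSeries.C c).map iotaK) := by
    rw [D.algebraMap_eq c, compSL_const, PowerSeries.map_C]
    exact isQExp_const M (iotaK c)
  rw [cuspR_eq D hE4 γ _ h, laurentOf_zero_left, HahnSeries.ofPowerSeries_C]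

theorem cuspR_one : cuspR D hE4 γ 1 = 1 := by
  have := cuspR_algebraMap D hE4 γ 1
  rwa [map_one, map_one] at this

theorem cuspR_zero : cuspR D hE4 γ 0 = 0 := by
  have := cuspR_algebraMap D hE4 γ 0
  rwa [map_zero, map_zero] at this

/-- The expansion map on `R₁` as a ring hom. -/
def cuspRHom : Rsub1 M →+* LaurentSeries Kbar where
  toFun := cuspR D hE4 γ
  map_one' := cuspR_one D hE4 γ
  map_mul' := cuspR_mul D hE4 γ
  map_zero' := cuspR_zero D hE4 γ
  map_add' := cuspR_add D hE4 γ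

theorem cuspRHom_apply (u : Rsub1 M) : cuspRHom D hE4 γ u = cuspR D hE4 γ u := rfl

theorem cuspRHom_injective : Function.Injective (cuspRHom D hE4 γ) := by
  rw [injective_iff_map_eq_zero]
  intro u hu
  have hP := isQExp_exp D hE4 γ u
  have h0 : (expP D hE4 γ u).map iotaK = 0 := by
    have h1 : laurentOf (expM D hE4 γ u) (expP D hE4 γ u) = 0 := hu
    rw [laurentOf_eq_zero_iff] at h1
    rw [h1, map_zero]
  have h2 : compSL (D.Θ u) γ = 0 := hP.eq_zero_iff.mpr h0
  have h3 : D.Θ u = 0 := CuspExpand.compSL_eq_zero γ h2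
  exact D.injective (by rw [h3, map_zero])

/-- (3) The cusp expansion `T_γ : F₁ → ℚbar((q_M))`. -/
def cuspEmb : FF1 M →+* LaurentSeries Kbar :=
  haveI := X1FracR1.isFractionRing M
  IsFractionRing.lift (A := Rsub1 M) (K := FF1 M) (g := cuspRHom D hE4 γ)
    (cuspRHom_injective D hE4 γ)

theorem cuspEmb_coe (u : Rsub1 M) : cuspEmb D hE4 γ (u : FF1 M) = cuspR D hE4 γ u := by
  have := X1FracR1.isFractionRing M
  have := IsFractionRing.lift_algebraMap (A := Rsub1 M) (K := FF1 M)
    (cuspRHom_injective D hE4 γ) u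
  exact this

theorem cuspEmb_spec (u : Rsub1 M) :
    ∃ (m : ℕ) (P : PowerSeries Kbar),
      IsQExp M (compSL (D.Θ u) γ) m (P.map iotaK) ∧
        cuspEmb D hE4 γ (u : FF1 M) = laurentOf m P := by
  obtain ⟨m, P, h1, h2⟩ := cuspR_spec D hE4 γ u
  exact ⟨m, P, h1, by rw [cuspEmb_coe, h2]⟩

theorem cuspEmb_algebraMap (c : Kbar) :
    cuspEmb D hE4 γ (algebraMap Kbar (FF1 M) c) = HahnSeries.C c := by
  have : algebraMap Kbar (FF1 M) c = ((algebraMap Kbar (Rsub1 M) c : Rsub1 M) : FF1 M) := rfl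
  rw [this, cuspEmb_coe, cuspR_algebraMap]

/-- **The cusp data attached to a realisation of `X₁(M)`** (given G1-E4). -/
def cuspDataOf : CuspData1 M D where
  T := fun γ => cuspEmb D hE4 γ
  spec := fun γ u => cuspEmb_spec D hE4 γ u

theorem cuspDataOf_T (γ : SL(2, ℤ)) : (cuspDataOf D hE4).T γ = cuspEmb D hE4 γ := rfl

end Fermat.Agent.ES.R48.X1CuspExpand29
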