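/-
Programme R (S48, Deligne–Serre), chapter GEOM, sub-chapter G2 DICT₁ (helper29):
**`RealizeData1 M` for every level `M > 1`, unconditionally** — `X1Realize29.realizeData1`
instantiated with G1-E2 (`WInfty19.isQExp_wFun`, helper19).

* `unit_ne_zero` : a unit of `ZMod M` is nonzero for `M ≠ 1`;
* `hE2 M hM` : the hypothesis of `X1Realize29`;
* **`realizeData1 M hM : RealizeData1 M`**, with `Θ (wR M c) = wFun M c`, `Θ (jdR1 M d hd) = jdFun d`.
-/
import Fermat.Agent.ES.R48.X1Realize29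
import Fermat.Agent.ES.R48.WInfty19

set_option autoImplicit false
set_option linter.unusedSectionVars false

open UpperHalfPlane

noncomputable section

namespace Fermat.Agent.ES.R48.X1RealizeFinal29

open Fermat.Agent.X0 Fermat.Agent.ES.R48.X1Iface13 Fermat.Agent.ES.R48.FF1Defs13

variable (M : ℕ) [NeZero M]

theorem unit_ne_zero (hM : M ≠ 1) (c : (ZMod M)ˣ) : (c : ZMod M) ≠ 0 := by
  have : Nontrivial (ZMod M) := ZMod.nontrivial_iff.mpr hM
  exact c.ne_zero

/-- G1-E2 in the shape consumed by `X1Realize29`. -/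
theorem hE2 (hM : M ≠ 1) (c : (ZMod M)ˣ) :
    IsQExp 1 (wFun M (c : ZMod M)) 1 ((wNumQ M (c : ZMod M)).map (algebraMap ℚ ℂ)) :=
  WInfty19.isQExp_wFun M (c : ZMod M) (unit_ne_zero M hM c)

/-- **The analytic realisation data of `X₁(M)`, `M ≠ 1`.** -/
def realizeData1 (hM : M ≠ 1) : RealizeData1 M := X1Realize29.realizeData1 M (hE2 M hM)

theorem realizeData1_w (hM : M ≠ 1) (c : (ZMod M)ˣ) :
    (realizeData1 M hM).Θ (wR M c) = wFun M (c : ZMod M) := (realizeData1 M hM).w_eq c

theorem realizeData1_jd (hM : M ≠ 1) (d : ℕ) [NeZero d] (hd : d ∣ M) :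
    (realizeData1 M hM).Θ (jdR1 M d hd) = jdFun d := (realizeData1 M hM).jd_eq d hd

end Fermat.Agent.ES.R48.X1RealizeFinal29
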