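/-
Programme R (S48, Deligne–Serre), chapter GEOM, sub-chapter G2 DICT₁ (helper29):
**`CuspData1 M (realizeData1 M hM)` for every level `M ≠ 1`, unconditionally** —
`X1CuspExpand29.cuspDataOf` instantiated with G1-E4 (`WCusp10.exists_isQExp_compSL_wFun`,
helper10) over the unconditional realisation `X1RealizeFinal29.realizeData1` (G1-E2, helper19).

* `hE4 M hM : X1CuspExpand29.HE4 M`;
* **`cuspData1 M hM : CuspData1 M (realizeData1 M hM)`**;
* `cuspData1_spec` : on `u ∈ R₁`, `T γ u` is the `q_M`-expansion of `Θ u ∘ γ`;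
* `cuspData1_algebraMap` : `T γ` is the identity on the constants.
-/
import Fermat.Agent.ES.R48.X1RealizeFinal29
import Fermat.Agent.ES.R48.X1CuspExpand29
import Fermat.Agent.ES.R48.WCusp10

set_option autoImplicit false

open UpperHalfPlane
open scoped MatrixGroups

noncomputable section

namespace Fermat.Agent.ES.R48.X1CuspFinal29

open Fermat.Agent.X0 Fermat.Agent.ES.R48.X1Iface13 Fermat.Agent.ES.R48.FF1Defs13
open Fermat.Agent.ES.R48.X1RealizeFinal29

variable (M : ℕ) [NeZero M]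

/-- G1-E4 in the shape consumed by `X1CuspExpand29`. -/
theorem hE4 (hM : M ≠ 1) : X1CuspExpand29.HE4 M :=
  fun c γ => WCusp10.exists_isQExp_compSL_wFun M hM c γ

/-- **The cusp expansion data of `X₁(M)`, `M ≠ 1`.** -/
def cuspData1 (hM : M ≠ 1) : CuspData1 M (realizeData1 M hM) :=
  X1CuspExpand29.cuspDataOf (realizeData1 M hM) (hE4 M hM)

theorem cuspData1_spec (hM : M ≠ 1) (γ : SL(2, ℤ)) (u : Rsub1 M) :
    ∃ (m : ℕ) (P : PowerSeries Kbar),
      IsQExp M (compSL ((realizeData1 M hM).Θ u) γ) m (P.map iotaK) ∧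
        (cuspData1 M hM).T γ (u : FF1 M) = laurentOf m P :=
  (cuspData1 M hM).spec γ u

theorem cuspData1_algebraMap (hM : M ≠ 1) (γ : SL(2, ℤ)) (c : Kbar) :
    (cuspData1 M hM).T γ (algebraMap Kbar (FF1 M) c) = HahnSeries.C c :=
  X1CuspExpand29.cuspEmb_algebraMap (realizeData1 M hM) (hE4 M hM) γ c

end Fermat.Agent.ES.R48.X1CuspFinal29
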