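/-
Programme R (S48) / chapter GEOM, G3 MODEL₁ / C. CUSP₁ (helper23): **CUSP₁, unconditional.**
`CuspConcreteOne23.cuspFamilyTarget1` with its last G1 inputs plugged in:

* `cuspFamilyTarget1_of` : for ANY `(D : RealizeData1 M) (C : CuspData1 M D)`, `3 ≤ M`: the integrality
  `WInt C` of the cusp expansions of the `W_c` from helper10's `WCuspInt10` (G1-E4, integral form) via
  `CuspEmbKOne26.wInt_of_isQExp`, the slash formula from helper29's `WSlash29.wSlash`;
* `cuspFamilyTarget1_final` : the statement with no interface pair at all (the concrete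
  `X1RealizeFinal29.realizeData1` / `X1CuspFinal29.cuspData1` are used internally):

  `3 ≤ M → BaseHyp n e → n ∣ M → ℓ.Prime → ¬ ℓ ∣ M → A.LiesOverPrime ℓ → CuspExp n e M cv →
     G3Defs4.CuspFamilyTarget1 n e M A cv`.
-/
import Fermat.Agent.ES.R48.CuspConcreteOne23
import Fermat.Agent.ES.R48.WCuspInt10
import Fermat.Agent.ES.R48.WSlash29
import Fermat.Agent.ES.R48.X1CuspFinal29

set_option autoImplicit false
set_option linter.unusedSectionVars false

open scoped MatrixGroups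

noncomputable section

namespace Fermat.Agent.ES.R48.CuspConcreteFinal23

open Fermat.Agent.X0 Fermat.Agent.RED.Interface4 Fermat.Agent.RED.BASE.Interface12
  Fermat.Agent.RED.BASE.Hauptmodul12
  Fermat.Agent.ES.R48.X1Iface13 Fermat.Agent.ES.R48.G3Defs4

variable {n e : ℕ} [NeZero n] {M : ℕ} [NeZero M] {A : ValuationSubring Qbar}

/-- `WInt C` for every cusp datum (`M ≠ 1`), from G1-E4 in integral form. -/
theorem wInt {D : RealizeData1 M} (C : CuspData1 M D) (hM1 : M ≠ 1) : CuspEmbKOne26.WInt C :=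
  CuspEmbKOne26.wInt_of_isQExp C
    (fun c γ => WCuspInt10.exists_isQExp_compSL_wFun_unit_int M hM1 c γ)

/-- **CUSP₁ for any interface pair** (`3 ≤ M`). -/
theorem cuspFamilyTarget1_of {D : RealizeData1 M} (C : CuspData1 M D) (hM3 : 3 ≤ M)
    (hb : BaseHyp n e) (hnM : n ∣ M) {ℓ : ℕ} (hℓ : ℓ.Prime) (hℓM : ¬ ℓ ∣ M)
    (hA : A.LiesOverPrime ℓ) (cv : SL(2, ℤ) → Option Kbar) (hcv : CuspExp n e M cv) :
    CuspFamilyTarget1 n e M A cv :=
  CuspConcreteOne23.cuspFamilyTarget1 C hM3 (WSlash29.wSlash M) (wInt C (by omega)) hb hnM hℓ hℓM hA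
    cv hcv

/-- **CUSP₁, unconditional** (`3 ≤ M`). -/
theorem cuspFamilyTarget1_final (hM3 : 3 ≤ M) (hb : BaseHyp n e) (hnM : n ∣ M) {ℓ : ℕ}
    (hℓ : ℓ.Prime) (hℓM : ¬ ℓ ∣ M) (hA : A.LiesOverPrime ℓ) (cv : SL(2, ℤ) → Option Kbar)
    (hcv : CuspExp n e M cv) : CuspFamilyTarget1 n e M A cv :=
  cuspFamilyTarget1_of (X1CuspFinal29.cuspData1 M (by omega)) hM3 hb hnM hℓ hℓM hA cv hcv

end Fermat.Agent.ES.R48.CuspConcreteFinal23
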