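/-
Programme R (S48, Deligne–Serre), chapter GEOM, sub-chapter G3 MODEL₁ / DESC (helper7):
**chapter DESC for ANY field of rational Laurent series** `F₀ : IntermediateField ℚ (LaurentSeries ℚ)`
whose base change `ℚ̄·F₀ / ℚ̄` is a function field of one variable (`hgen : ∃ x, FF.IsGen Qbar x`).
Generic twins of main's `RED/DESC/UnifDescent14` (uniformiser descent), `HypTransfer12` (hypothesis
transfer), `DescMain12` + `DescFinal12` (assembly), over `PlaceExtendG7` (place extension, generic).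
`CoeffDescent1`, `NumberFieldDVR27` and `DescMain12.exists_lift_coeff` are imported AS-IS from main.

* `CLBarG F₀ ℓ A` : `(CL)` over `ℚ̄` for `ℚ̄·F₀` (`Interface4.CLBar` with `Fbar N ↦ ℚ̄·F₀`, verbatim);
* `unif_descentG`, `dvd_ord_sub_of_barG`;
* `descStepGeG F₀ ℓ A hgen` : `(CL)` over all number fields `K ⊇ K₀` (for `K·F₀`) ⇒ `CLBarG F₀ ℓ A`;
* `descStepGe1 ℓ M A (hj : FF.IsGen Kbar (jF1 M)) : G3Defs4.DescStepGe1 ℓ M A` (`F₀ = F1 M`).
-/
import Mathlib
import Fermat.Agent.ES.R48.PlaceExtendG7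
import Fermat.Agent.ES.R48.G3Defs4
import Fermat.Agent.ES.R48.X1Iface13
import Fermat.Agent.RED.DESC.NumberFieldDVR27
import Fermat.Agent.RED.DESC.DescMain12
import Fermat.Agent.X0.FFGenus

set_option autoImplicit false
set_option linter.unusedSectionVars false

open HahnSeries AlgebraicCurve ModularCurve

namespace Fermat.Agent.ES.R48.DescOne7

open Fermat.Agent.X0 Fermat.Agent.RED.Interface4 Fermat.Agent.RED.NumInst4
open Fermat.Agent.RED.DESC Fermat.Agent.RED.DESC.CoeffDescent1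
open Fermat.Agent.RED.DESC.NumberFieldDVR27
open Fermat.Agent.ES.R48.PlaceExtendG7

noncomputable section

variable (F₀ : IntermediateField ℚ (LaurentSeries ℚ))

/-- **(CL) over `ℚ̄` for `ℚ̄·F₀`, field form** (`Interface4.CLBar` with `Fbar N ↦ ℚ̄·F₀`). -/
def CLBarG (ℓ : ℕ) (A : ValuationSubring Qbar) : Prop :=
  ∀ (P Q : LaurentSeries A)
    (hP : coeffMap A.subtype P ∈ laurentBaseChange Qbar F₀)
    (hQ : coeffMap A.subtype Q ∈ laurentBaseChange Qbar F₀),
    coeffMap (IsLocalRing.residue A) P = coeffMap (IsLocalRing.residue A) Q →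
    coeffMap (IsLocalRing.residue A) P ≠ 0 →
    ∀ m : ℕ, ¬ ℓ ∣ m →
      (∀ v : Place Qbar ↥(laurentBaseChange Qbar F₀),
        (m : ℤ) ∣ v.ord (⟨coeffMap A.subtype P, hP⟩ : ↥(laurentBaseChange Qbar F₀)) -
          v.ord (⟨coeffMap A.subtype Q, hQ⟩ : ↥(laurentBaseChange Qbar F₀))) →
      ∃ s : ↥(laurentBaseChange Qbar F₀),
        s ^ m * (⟨coeffMap A.subtype Q, hQ⟩ : ↥(laurentBaseChange Qbar F₀)) =
          ⟨coeffMap A.subtype P, hP⟩

/-! ### uniformiser descent (twin of `UnifDescent14`) -/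

/-- A fixed element of `ℚ̄·F₀` descends to a number field above `K₀`, and to all larger fields. -/
theorem exists_descent_geG (K₀ : IntermediateField ℚ Qbar) [FiniteDimensional ℚ K₀]
    (x : ↥(laurentBaseChange Qbar F₀)) :
    ∃ K₁ : IntermediateField ℚ Qbar, FiniteDimensional ℚ K₁ ∧ K₀ ≤ K₁ ∧
      ∀ K : IntermediateField ℚ Qbar, K₁ ≤ K →
        ∃ x' : ↥(laurentBaseChange K F₀), baseChangeHomG F₀ K x' = x := by
  have := NumberFieldDVR27.isAlgebraic_Qbar
  obtain ⟨K₁, hK₀, hfin, x', hx', hxx⟩ :=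
    CoeffDescent1.exists_finite_descent (L := Qbar) (F₀ := F₀) K₀ x.2
  refine ⟨K₁, hfin, hK₀, fun K hK => ?_⟩
  obtain ⟨x'', hx'', h''⟩ := CoeffDescent1.exists_lift_of_le hK hx'
  refine ⟨⟨x'', hx''⟩, Subtype.ext ?_⟩
  rw [coe_baseChangeHomG]
  exact h''.trans hxx

/-- **Uniformiser descent**, with a prescribed lower bound `K₀`. -/
theorem exists_unif_descentG (K₀ : IntermediateField ℚ Qbar) [FiniteDimensional ℚ K₀]
    (S : Finset (Place Qbar ↥(laurentBaseChange Qbar F₀))) :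
    ∃ K₁ : IntermediateField ℚ Qbar, FiniteDimensional ℚ K₁ ∧ K₀ ≤ K₁ ∧
      ∀ K : IntermediateField ℚ Qbar, K₁ ≤ K → ∀ v ∈ S,
        ∃ τ' : ↥(laurentBaseChange K F₀), v.ord (baseChangeHomG F₀ K τ') = 1 := by
  classical
  induction S using Finset.induction_on with
  | empty => exact ⟨K₀, inferInstance, le_rfl, fun K _ v hv => absurd hv (Finset.notMem_empty v)⟩
  | insert v S _ ih =>
    obtain ⟨K₁, hfin₁, hK₁, H₁⟩ := ih
    have := hfin₁
    obtain ⟨π, hπ⟩ := IsDiscreteValuationRing.exists_irreducible v.toValuationSubring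
    obtain ⟨K₂, hfin₂, hK₂, H₂⟩ :=
      exists_descent_geG F₀ K₁ (π : ↥(laurentBaseChange Qbar F₀))
    refine ⟨K₂, hfin₂, hK₁.trans hK₂, fun K hK u hu => ?_⟩
    rcases Finset.mem_insert.mp hu with rfl | hu
    · obtain ⟨τ', hτ'⟩ := H₂ K hK
      exact ⟨τ', by rw [hτ', Place.ord_coe_irreducible u hπ]⟩
    · exact H₁ K (hK₂.trans hK) u hu

/-- **Uniformiser descent**, in the shape consumed by the assembly (all number fields above
`K₁`). -/
theorem unif_descentG (S : Finset (Place Qbar ↥(laurentBaseChange Qbar F₀))) :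
    ∃ K₁ : IntermediateField ℚ Qbar, FiniteDimensional ℚ K₁ ∧
      ∀ K : IntermediateField ℚ Qbar, FiniteDimensional ℚ K → K₁ ≤ K → ∀ v ∈ S,
        ∃ τ : ↥(laurentBaseChange K F₀), v.ord (baseChangeHomG F₀ K τ) = 1 := by
  have : FiniteDimensional ℚ (⊥ : IntermediateField ℚ Qbar) := inferInstance
  obtain ⟨K₁, hfin, -, H⟩ := exists_unif_descentG F₀ ⊥ S
  exact ⟨K₁, hfin, fun K _ hK v hv => H K hK v hv⟩

/-! ### hypothesis transfer (twin of `HypTransfer12`) -/

variable (K : IntermediateField ℚ Qbar)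

/-- if `K·F₀` contains a uniformiser at `v`, the ramification index of `v` over `w` is one. -/
theorem ord_eq_of_unifG {w : Place K ↥(laurentBaseChange K F₀)}
    {v : Place Qbar ↥(laurentBaseChange Qbar F₀)} {e : ℕ}
    (hord : ∀ f : ↥(laurentBaseChange K F₀), v.ord (baseChangeHomG F₀ K f) = (e : ℤ) * w.ord f)
    (τ : ↥(laurentBaseChange K F₀)) (hτ : v.ord (baseChangeHomG F₀ K τ) = 1)
    (f : ↥(laurentBaseChange K F₀)) :
    v.ord (baseChangeHomG F₀ K f) = w.ord f := by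
  have h1 := hord τ
  rw [hτ] at h1
  have he : (e : ℤ) = 1 := by
    have hdvd : (e : ℤ) ∣ 1 := ⟨w.ord τ, h1⟩
    exact Int.eq_one_of_dvd_one (Int.natCast_nonneg e) hdvd
  rw [hord f, he, one_mul]

/-- **(b)** hypothesis transfer, difference form (the literal hypothesis of `CLStmt`). -/
theorem dvd_ord_sub_of_barG
    (hgen : ∃ x : ↥(laurentBaseChange Qbar F₀), FF.IsGen Qbar x)
    (p q : ↥(laurentBaseChange K F₀)) (m : ℕ)
    (hbar : ∀ v : Place Qbar ↥(laurentBaseChange Qbar F₀),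
      (m : ℤ) ∣ v.ord (baseChangeHomG F₀ K p) - v.ord (baseChangeHomG F₀ K q))
    (hunif : ∀ v : Place Qbar ↥(laurentBaseChange Qbar F₀),
      v.ord (baseChangeHomG F₀ K p) - v.ord (baseChangeHomG F₀ K q) ≠ 0 →
        ∃ τ : ↥(laurentBaseChange K F₀), v.ord (baseChangeHomG F₀ K τ) = 1)
    (w : Place K ↥(laurentBaseChange K F₀)) : (m : ℤ) ∣ w.ord p - w.ord q := by
  obtain ⟨v, e, he, hord⟩ := exists_place_aboveG F₀ K hgen w
  by_cases h0 : v.ord (baseChangeHomG F₀ K p) - v.ord (baseChangeHomG F₀ K q) = 0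
  · rw [hord p, hord q, ← mul_sub] at h0
    have he0 : (e : ℤ) ≠ 0 := by exact_mod_cast he.ne'
    rcases mul_eq_zero.mp h0 with h | h
    · exact absurd h he0
    · rw [h]
      exact dvd_zero _
  · obtain ⟨τ, hτ⟩ := hunif v h0
    have h := hbar v
    rwa [ord_eq_of_unifG F₀ K hord τ hτ p, ord_eq_of_unifG F₀ K hord τ hτ q] at h

/-! ### assembly (twin of `DescMain12.descStepGe_of` + `DescFinal12.descStepGe`) -/

/-- **Chapter DESC, generic**: `(CL)` over all number fields `K ⊇ K₀` (for `K·F₀`) implies `(CL)`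
over `ℚ̄` (for `ℚ̄·F₀`), as soon as `ℚ̄·F₀/ℚ̄` is a function field of one variable. -/
theorem descStepGeG (ℓ : ℕ) (A : ValuationSubring Qbar)
    (hgen : ∃ x : ↥(laurentBaseChange Qbar F₀), FF.IsGen Qbar x) :
    ∀ K₀ : IntermediateField ℚ Qbar, FiniteDimensional ℚ K₀ →
      (∀ K : IntermediateField ℚ Qbar, FiniteDimensional ℚ K → K₀ ≤ K →
        CLStmt (AK A K) (laurentBaseChange K F₀) ℓ) →
      CLBarG F₀ ℓ A := by
  classical
  intro K₀ hK₀ hnum P Q hP hQ hred hne m hℓm hord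
  have := hK₀
  have : Algebra.IsAlgebraic ℚ Qbar := isAlgebraic_Qbar
  have hm : 0 < m := by
    rcases Nat.eq_zero_or_pos m with h | h
    · exact absurd (h ▸ dvd_zero ℓ) hℓm
    · exact h
  -- 1. descent of `P̄`, `Q̄`
  obtain ⟨K₁, hK₀₁, hK₁, p₁, hp₁, hp₁eq⟩ := exists_finite_descent (F₀ := F₀) K₀ hP
  have := hK₁
  obtain ⟨K₂, hK₁₂, hK₂, q₂, hq₂, hq₂eq⟩ := exists_finite_descent (F₀ := F₀) K₁ hQ
  have := hK₂
  -- 2. supports
  have hQred : coeffMap (IsLocalRing.residue A) Q ≠ 0 := hred ▸ hne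
  have hPb0 : (⟨coeffMap A.subtype P, hP⟩ : ↥(laurentBaseChange Qbar F₀)) ≠ 0 := by
    intro h0
    have h1 : coeffMap A.subtype P = 0 := congrArg Subtype.val h0
    have h2 : P = 0 := by
      apply coeffMap_injective_of_injective A.subtype Subtype.val_injective
      rw [h1, map_zero]
    exact hne (by rw [h2, map_zero])
  have hQb0 : (⟨coeffMap A.subtype Q, hQ⟩ : ↥(laurentBaseChange Qbar F₀)) ≠ 0 := by
    intro h0
    have h1 : coeffMap A.subtype Q = 0 := congrArg Subtype.val h0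
    have h2 : Q = 0 := by
      apply coeffMap_injective_of_injective A.subtype Subtype.val_injective
      rw [h1, map_zero]
    exact hQred (by rw [h2, map_zero])
  have hPD : HasPrincipalDivisors Qbar ↥(laurentBaseChange Qbar F₀) := by
    obtain ⟨x, hx⟩ := hgen
    exact FFGenus.hasPrincipalDivisors hx
  obtain ⟨DP, hDP, -⟩ := hPD.exists_divisor _ hPb0
  obtain ⟨DQ, hDQ, -⟩ := hPD.exists_divisor _ hQb0
  obtain ⟨K₃, hK₃, hU⟩ := unif_descentG F₀ (DP.support ∪ DQ.support)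
  have := hK₃
  -- 3. the number field
  have hKfd : FiniteDimensional ℚ ↥(K₂ ⊔ K₃) := inferInstance
  have hK₀K : K₀ ≤ K₂ ⊔ K₃ := (hK₀₁.trans hK₁₂).trans le_sup_left
  have hK₃K : K₃ ≤ K₂ ⊔ K₃ := le_sup_right
  obtain ⟨p, hp, hpeq⟩ := exists_lift_of_le (hK₁₂.trans le_sup_left : K₁ ≤ K₂ ⊔ K₃) hp₁
  obtain ⟨q, hq, hqeq⟩ := exists_lift_of_le (le_sup_left : K₂ ≤ K₂ ⊔ K₃) hq₂
  generalize K₂ ⊔ K₃ = K at hKfd hK₀K hK₃K p hp hpeq q hq hqeq
  have hpP : coeffMap (algebraMap K Qbar) p = coeffMap A.subtype P := hpeq.trans hp₁eq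
  have hqQ : coeffMap (algebraMap K Qbar) q = coeffMap A.subtype Q := hqeq.trans hq₂eq
  -- 4. coefficients in `A ∩ K`
  have hpc : ∀ n, p.coeff n ∈ AK A K := fun n => by
    rw [mem_AK_iff]
    have h := congrArg (fun x : LaurentSeries Qbar => x.coeff n) hpP
    simp only [coeffMap_coeff] at h
    have h' : ((p.coeff n : K) : Qbar) = ((P.coeff n : A) : Qbar) := h
    rw [h']
    exact (P.coeff n).2
  have hqc : ∀ n, q.coeff n ∈ AK A K := fun n => by
    rw [mem_AK_iff]
    have h := congrArg (fun x : LaurentSeries Qbar => x.coeff n) hqQ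
    simp only [coeffMap_coeff] at h
    have h' : ((q.coeff n : K) : Qbar) = ((Q.coeff n : A) : Qbar) := h
    rw [h']
    exact (Q.coeff n).2
  obtain ⟨PK, hPK⟩ := Fermat.Agent.RED.DESC.DescMain12.exists_lift_coeff (AK A K) p hpc
  obtain ⟨QK, hQK⟩ := Fermat.Agent.RED.DESC.DescMain12.exists_lift_coeff (AK A K) q hqc
  have hPKmem : coeffMap (AK A K).subtype PK ∈ laurentBaseChange K F₀ := by rw [hPK]; exact hp
  have hQKmem : coeffMap (AK A K).subtype QK ∈ laurentBaseChange K F₀ := by rw [hQK]; exact hq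
  -- 5. reductions
  have hinclP : coeffMap (incl A K) PK = P := by
    apply coeffMap_injective_of_injective A.subtype Subtype.val_injective
    rw [← hpP, ← hPK, coeffMap_coeffMap, coeffMap_coeffMap]
    exact coeffMap_congr (RingHom.ext fun x => rfl) PK
  have hinclQ : coeffMap (incl A K) QK = Q := by
    apply coeffMap_injective_of_injective A.subtype Subtype.val_injective
    rw [← hqQ, ← hQK, coeffMap_coeffMap, coeffMap_coeffMap]
    exact coeffMap_congr (RingHom.ext fun x => rfl) QK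
  have hcomp : (resMap A K).comp (IsLocalRing.residue (AK A K))
      = (IsLocalRing.residue A).comp (incl A K) :=
    RingHom.ext fun x => resMap_residue A K x
  have hredK : ∀ X : LaurentSeries (AK A K),
      coeffMap (resMap A K) (coeffMap (IsLocalRing.residue (AK A K)) X)
        = coeffMap (IsLocalRing.residue A) (coeffMap (incl A K) X) := fun X => by
    rw [coeffMap_coeffMap, coeffMap_coeffMap, hcomp]
  have hinj := coeffMap_injective_of_injective (resMap A K) (resMap_injective A K)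
  have hred' : coeffMap (IsLocalRing.residue (AK A K)) PK
      = coeffMap (IsLocalRing.residue (AK A K)) QK := by
    apply hinj
    rw [hredK, hredK, hinclP, hinclQ, hred]
  have hne' : coeffMap (IsLocalRing.residue (AK A K)) PK ≠ 0 := by
    intro h0
    apply hne
    rw [← hinclP, ← hredK, h0, map_zero]
  -- 6. base change of `p`, `q`
  have hbcP : baseChangeHomG F₀ K ⟨coeffMap (AK A K).subtype PK, hPKmem⟩
      = (⟨coeffMap A.subtype P, hP⟩ : ↥(laurentBaseChange Qbar F₀)) := by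
    apply Subtype.ext
    rw [coe_baseChangeHomG]
    show coeffMap (algebraMap K Qbar) (coeffMap (AK A K).subtype PK) = _
    rw [hPK, hpP]
  have hbcQ : baseChangeHomG F₀ K ⟨coeffMap (AK A K).subtype QK, hQKmem⟩
      = (⟨coeffMap A.subtype Q, hQ⟩ : ↥(laurentBaseChange Qbar F₀)) := by
    apply Subtype.ext
    rw [coe_baseChangeHomG]
    show coeffMap (algebraMap K Qbar) (coeffMap (AK A K).subtype QK) = _
    rw [hQK, hqQ]
  -- 7. the place hypothesis over `K`
  have hordK : ∀ w : Place K ↥(laurentBaseChange K F₀),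
      (m : ℤ) ∣ w.ord (⟨coeffMap (AK A K).subtype PK, hPKmem⟩ : ↥(laurentBaseChange K F₀)) -
        w.ord (⟨coeffMap (AK A K).subtype QK, hQKmem⟩ : ↥(laurentBaseChange K F₀)) := by
    apply dvd_ord_sub_of_barG F₀ K hgen _ _ m
    · intro v
      rw [hbcP, hbcQ]
      exact hord v
    · intro v hv
      rw [hbcP, hbcQ] at hv
      apply hU K hKfd hK₃K v
      rw [Finset.mem_union, Finsupp.mem_support_iff, Finsupp.mem_support_iff, hDP, hDQ]
      by_contra hcon
      rw [not_or, not_not, not_not] at hcon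
      apply hv
      rw [hcon.1, hcon.2, sub_zero]
  -- 8. `(CL)` over `K` and root extraction
  obtain ⟨c, s, hc0, hs⟩ := hnum K hKfd hK₀K PK QK hPKmem hQKmem hred' hne' m hℓm hordK
  obtain ⟨d, hd⟩ := IsAlgClosed.exists_pow_nat_eq ((c : K) : Qbar) hm
  have hcQ : ((c : K) : Qbar) ≠ 0 := by
    intro h0
    apply hc0
    exact_mod_cast h0
  have hd0 : d ≠ 0 := by
    rintro rfl
    rw [zero_pow hm.ne'] at hd
    exact hcQ hd.symm
  have hdF : algebraMap Qbar ↥(laurentBaseChange Qbar F₀) d ≠ 0 := by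
    rw [Ne, map_eq_zero_iff _ (algebraMap Qbar ↥(laurentBaseChange Qbar F₀)).injective]
    exact hd0
  refine ⟨baseChangeHomG F₀ K s * (algebraMap Qbar ↥(laurentBaseChange Qbar F₀) d)⁻¹, ?_⟩
  have h1 := congrArg (baseChangeHomG F₀ K) hs
  rw [map_mul, map_pow, hbcQ, Algebra.smul_def, map_mul, baseChangeHomG_algebraMap, hbcP, ← hd,
    map_pow] at h1
  rw [mul_pow, inv_pow, mul_assoc,
    mul_comm _ (⟨coeffMap A.subtype Q, hQ⟩ : ↥(laurentBaseChange Qbar F₀)), ← mul_assoc,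
    h1, mul_comm, ← mul_assoc, inv_mul_cancel₀ (pow_ne_zero m hdF), one_mul]

/-! ### the level `Γ₁(M)` -/

open Fermat.Agent.ES.R48.X1Iface13 Fermat.Agent.ES.R48.FF1Defs13 in
/-- **Chapter DESC₁**: `(CL)` over all number fields `K ⊇ K₀` for `K·F1 M` implies `(CL)` over `ℚ̄`
for `F1bar M`.  Sole G2 input: `j` generates `F1bar M / ℚ̄`. -/
theorem descStepGe1 (ℓ M : ℕ) [NeZero M] (A : ValuationSubring Qbar)
    (hj : FF.IsGen Kbar (jF1 M)) :
    Fermat.Agent.ES.R48.G3Defs4.DescStepGe1 ℓ M A :=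
  descStepGeG (F1 M) ℓ A ⟨jF1 M, hj⟩

end

end Fermat.Agent.ES.R48.DescOne7
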