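/-
Programme R (S48, Deligne–Serre), chapter GEOM, sub-chapter G3 MODEL₁ / HORIZ₁ (helper16):
**the horizontal inputs `HUNROff` / `HUNRCusp`, generic in the function field over `ℚbar`** — the
level-blind twin of `RED/PUR/HorizPlace20` §Concrete and of `RED/CUSP/HunrGeneric26`.

On main these two files are stated for `Fbar_M = X0.FF M` and the Hauptmodul `tF M h`, but they use
only two facts about that field:

* `hres`    : residue fields of places are `ℚbar`
  (`∀ v f, f ∈ O_v → ∃ c, f = c ∨ 0 < ord_v (f - c)`; main: `HorizUnram20.exists_ord_sub_pos_bar`);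
* `hsimple` : zeros of `T - c` at values `c` which are not finite cusp values are simple
  (main: `HorizUnram20.ord_sub_eq_one`, from (B6) + the cusp dictionary).

Here `Fb` is ANY field over `ℚbar`, `T : Fb`, and `hres`, `hsimple` are hypotheses; everything else
(`bc : E →+* Fb`, `hExt`, `hK`, …) is verbatim.  Exports (same conclusions as on main):
`hunrCusp_of_horizG : HUNRCusp O E π t c`, `hunrCusp_inv_of_horizG : HUNRCusp O E π t⁻¹ 0`,
`hunrOff_of_horizG : HUNROff O E π t S`.  The proofs are those of main with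
`HorizUnram20.exists_ord_sub_pos_bar M v ↦ hres v`, `HorizUnram20.ord_sub_eq_one … ↦ hsimple`.
-/
import Mathlib
import Fermat.Agent.RED.CUSP.HunrGeneric26

set_option autoImplicit false
set_option linter.unusedSectionVars false
set_option linter.unusedVariables false
set_option linter.style.haveILetI false

open UpperHalfPlane hiding I
open scoped MatrixGroups IntermediateField
open Polynomial

noncomputable section

namespace Fermat.Agent.ES.R48.HorizPlaceG16

open Fermat.Agent.X0 Fermat.Agent.X0.FF AlgebraicCurve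
open Fermat.Agent.RED.PUR Fermat.Agent.RED.PUR.HorizPlace20
open Fermat.Agent.RED.CUSP.PolyToPS16 Fermat.Agent.RED.CUSP.CuspIface23
open Fermat.Agent.RED.PUR.IntClosBase13

/-! ### the concrete statement -/

section Concrete

variable (cv : SL(2, ℤ) → Option Kbar) {Fb : Type*} [Field Fb] [Algebra Kbar Fb]
variable {A K F B : Type*} [CommRing A] [IsDomain A] [Field K] [CharZero K] [Field F] [CommRing B]
  [Algebra A K] [IsFractionRing A K] [Algebra K F] [Algebra A F] [IsScalarTower A K F]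
  [Algebra A[X] B] [Algebra B F]
  [Algebra K Kbar] [Algebra A Kbar] [IsScalarTower A K Kbar] [Algebra.IsAlgebraic K Kbar]

/-- **Generic core of (H3).**  `T' ∈ Fbar_M` non-constant with simple zeros of `T' - c` at the `good`
values `c`; `s ∈ F` with `bc s = T'`; `B` an `A[X]`-algebra in `F` with `X ↦ s`.  A discrete valuation
subring `O ⊇ B` in which `π` is a unit and whose centre value is `good` has a uniformiser `g0(s)`,
`g0 ∈ A[X]`. -/
theorem exists_uniformizer_genG (T' : Fb)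
    (hres : ∀ (v : Place Kbar Fb) (f : Fb), f ∈ v.toValuationSubring →
      ∃ c : Kbar, f = algebraMap Kbar Fb c ∨ 0 < v.ord (f - algebraMap Kbar Fb c))
    (hconst : ∀ c : Kbar, T' ≠ algebraMap Kbar Fb c) (good : Kbar → Prop)
    (hsimple : ∀ (v : Place Kbar Fb) (c : Kbar), good c →
      0 < v.ord (T' - algebraMap Kbar Fb c) → v.ord (T' - algebraMap Kbar Fb c) = 1)
    (bc : F →+* Fb)
    (hbc : ∀ a : K, bc (algebraMap K F a) = algebraMap Kbar Fb (algebraMap K Kbar a))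
    (s : F) (hs : bc s = T')
    (hExt : ∀ w : Place K F, ∃ (v : Place Kbar Fb) (d : ℕ), 0 < d ∧
      ∀ f : F, v.ord (bc f) = (d : ℤ) * w.ord f)
    (hX : ∀ p : A[X], algebraMap B F (algebraMap A[X] B p) = aeval s p)
    (π : A) (hπ0 : algebraMap A F π ≠ 0)
    (hK : ∀ a : K, ∃ (r : A) (k : ℕ), algebraMap K F a * algebraMap A F π ^ k = algebraMap A F r)
    (O : ValuationSubring F) (hB : ∀ z : B, algebraMap B F z ∈ O) [IsDiscreteValuationRing O]
    (hπ : (algebraMap B F (algebraMap A[X] B (C π)))⁻¹ ∈ O)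
    (hgood : ∀ (w : Place K F), w.toValuationSubring = O → ∀ (v : Place Kbar Fb) (d : ℕ),
      0 < d → (∀ f : F, v.ord (bc f) = (d : ℤ) * w.ord f) → ∀ c : Kbar,
      0 < v.ord (T' - algebraMap Kbar Fb c) → good c) :
    ∃ g0 : A[X], (algebraMap B F (algebraMap A[X] B g0))⁻¹ ∉ O ∧
      ∀ y ∈ O, y⁻¹ ∉ O → y / algebraMap B F (algebraMap A[X] B g0) ∈ O := by
  -- `A ⊆ O`, `K ⊆ O`
  have hA : ∀ r : A, algebraMap A F r ∈ O := by
    intro r
    have := hB (algebraMap A[X] B (C r))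
    rwa [hX, aeval_C] at this
  have hπ' : (algebraMap A F π)⁻¹ ∈ O := by rwa [hX, aeval_C] at hπ
  have hKO : ∀ a : K, algebraMap K F a ∈ O := algebraMap_mem_of_inv_mem O π hK hA hπ0 hπ'
  set w : Place K F := placeOfDVR O hKO with hw
  obtain ⟨v, d, hd, hve⟩ := hExt w
  have hdpos : (0 : ℤ) < d := by exact_mod_cast hd
  -- `s ∈ O`
  have hsO : s ∈ O := by
    have := hB (algebraMap A[X] B X)
    rwa [hX, aeval_X] at this
  have hTv : T' ∈ v.toValuationSubring := by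
    apply ffp_mem_of_ord_nonneg
    rw [← hs, hve]
    have : 0 ≤ w.ord s := ffp_ord_nonneg_of_mem w hsO
    positivity
  -- the centre value `c`
  obtain ⟨c, hc | hc⟩ := hres v T' hTv
  · exact absurd hc (hconst c)
  have hgoodc : good c := hgood w rfl v d hd hve c hc
  -- the minimal polynomial of `c` over `K`
  have hcint : IsIntegral K c := (Algebra.IsAlgebraic.isAlgebraic c).isIntegral
  set g : K[X] := minpoly K c with hg
  have hgirr : Irreducible g := minpoly.irreducible hcint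
  have hgsep : g.Separable := hgirr.separable
  have hgroot : (g.map (algebraMap K Kbar)).IsRoot c := by
    rw [IsRoot, eval_map, ← aeval_def]
    exact minpoly.aeval K c
  -- `0 < ord_w g(s)`
  have hbcg : bc (aeval s g) = aeval T' (g.map (algebraMap K Kbar)) := by
    rw [HorizGen20.bc_aeval bc hbc, hs]
  have hgbar0 : g.map (algebraMap K Kbar) ≠ 0 :=
    (Polynomial.map_ne_zero_iff (algebraMap K Kbar).injective).mpr hgirr.ne_zero
  have hTtr : aeval T' (g.map (algebraMap K Kbar)) ≠ 0 := by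
    intro h0
    have halg : IsAlgebraic Kbar T' := ⟨_, hgbar0, h0⟩
    obtain ⟨c', hc'⟩ := FF.eq_algebraMap_of_isAlgebraic halg
    exact hconst c' hc'
  have hposv : 0 < v.ord (aeval T' (g.map (algebraMap K Kbar))) := by
    have hexp := HorizGen20.aeval_eq_add_mul (g.map (algebraMap K Kbar)) c T'
    rw [hgroot, map_zero, zero_add] at hexp
    set Q := aeval T' ((g.map (algebraMap K Kbar)) /ₘ (X - C c)) with hQ
    have hQ0 : Q ≠ 0 := by
      intro hq; rw [hq, mul_zero] at hexp; exact hTtr hexp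
    have hTc0 : T' - algebraMap Kbar Fb c ≠ 0 := by
      intro hq; rw [hq, zero_mul] at hexp; exact hTtr hexp
    have hQmem : Q ∈ v.toValuationSubring := HorizGen20.aeval_mem v hTv _
    have hQord : 0 ≤ v.ord Q := ffp_ord_nonneg_of_mem v hQmem
    rw [hexp, v.ord_mul hTc0 hQ0]
    omega
  have hposw : 0 < w.ord (aeval s g) := by
    have := hve (aeval s g)
    rw [hbcg] at this
    rw [this] at hposv
    by_contra hle
    have : w.ord (aeval s g) ≤ 0 := not_lt.mp hle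
    nlinarith
  -- `ord_w g(s) = 1`
  have hone : w.ord (aeval s g) = 1 := by
    refine HorizGen20.ord_aeval_eq_one v bc hbc w d hd hve (hres v)
      s g hgsep ?_ hposw
    intro c' _ hc'
    rw [hs] at hc' ⊢
    -- `c' = c`
    have hcc : c' = c := by
      by_contra hne
      have hconst' : algebraMap Kbar Fb (c - c') ≠ 0 := by
        rw [Ne, map_eq_zero]; exact sub_ne_zero.mpr (Ne.symm hne)
      have h0 : v.ord (algebraMap Kbar Fb (c - c')) = 0 := ffp_ord_algebraMap v _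
      have hlt : v.ord (algebraMap Kbar Fb (c - c'))
          < v.ord (T' - algebraMap Kbar Fb c) := by rw [h0]; exact hc
      have := ffp_ord_add_eq_of_lt v hconst' hlt
      have heq : algebraMap Kbar Fb (c - c') + (T' - algebraMap Kbar Fb c)
          = T' - algebraMap Kbar Fb c' := by rw [map_sub]; ring
      rw [heq, h0] at this
      omega
    rw [hcc]
    exact hsimple v c hgoodc hc
  -- scale `g` into `A[X]`
  obtain ⟨b, hbM, hb⟩ := IsLocalization.integerNormalization_spec (nonZeroDivisors A) g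
  set g0 : A[X] := IsLocalization.integerNormalization (nonZeroDivisors A) g with hg0
  have hb0 : b ≠ 0 := nonZeroDivisors.ne_zero hbM
  have hbK : algebraMap A K b ≠ 0 := by
    rw [Ne, map_eq_zero_iff _ (IsFractionRing.injective A K)]; exact hb0
  have hG : aeval s g0 = algebraMap K F (algebraMap A K b) * aeval s g := by
    rw [← aeval_map_algebraMap K s g0, hb, ← algebraMap_smul K b g, map_smul, Algebra.smul_def]
  have hgt0 : aeval s g ≠ 0 := by
    intro h0; rw [h0, Place.ord_zero] at hone; exact zero_ne_one hone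
  have hordG : w.ord (aeval s g0) = 1 := by
    rw [hG, w.ord_mul ((_root_.map_ne_zero _).mpr hbK) hgt0, ffp_ord_algebraMap, hone, zero_add]
  refine ⟨g0, ?_⟩
  rw [hX]
  exact uniformizer_of_ord_eq_one w _ hordG

/-- `bc` on the constants coming from `A`. -/
theorem bc_algebraMap_AG (bc : F →+* Fb)
    (hbc : ∀ a : K, bc (algebraMap K F a) = algebraMap Kbar Fb (algebraMap K Kbar a)) (a : A) :
    bc (algebraMap A F a) = algebraMap Kbar Fb (algebraMap A Kbar a) := by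
  rw [IsScalarTower.algebraMap_apply A K F, hbc, ← IsScalarTower.algebraMap_apply A K Kbar]

/-- **Core of (H3), chart `t`.**  A discrete valuation subring `O ⊇ B` of `F` in which `π` and all
`t - c_i` (`c_i` the finite cusp values) are units has a uniformiser of the form `g0(t)`, `g0 ∈ A[X]`. -/
theorem exists_uniformizerG (T : Fb)
    (hres : ∀ (v : Place Kbar Fb) (f : Fb), f ∈ v.toValuationSubring →
      ∃ c : Kbar, f = algebraMap Kbar Fb c ∨ 0 < v.ord (f - algebraMap Kbar Fb c))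
    (hsimple : ∀ (v : Place Kbar Fb) (c : Kbar), (∀ γ, cv γ ≠ some c) →
      0 < v.ord (T - algebraMap Kbar Fb c) → v.ord (T - algebraMap Kbar Fb c) = 1)
    (hconst : ∀ c : Kbar, T ≠ algebraMap Kbar Fb c)
    (hcvA : ∀ γ c, cv γ = some c → ∃ a : A, algebraMap A Kbar a = c)
    (bc : F →+* Fb)
    (hbc : ∀ a : K, bc (algebraMap K F a) = algebraMap Kbar Fb (algebraMap K Kbar a))
    (t : F) (ht : bc t = T)
    (hExt : ∀ w : Place K F, ∃ (v : Place Kbar Fb) (d : ℕ), 0 < d ∧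
      ∀ f : F, v.ord (bc f) = (d : ℤ) * w.ord f)
    (hX : ∀ p : A[X], algebraMap B F (algebraMap A[X] B p) = aeval t p)
    (π : A) (hπ0 : algebraMap A F π ≠ 0)
    (hK : ∀ a : K, ∃ (r : A) (k : ℕ), algebraMap K F a * algebraMap A F π ^ k = algebraMap A F r)
    (O : ValuationSubring F) (hB : ∀ z : B, algebraMap B F z ∈ O) [IsDiscreteValuationRing O]
    (hπ : (algebraMap B F (algebraMap A[X] B (C π)))⁻¹ ∈ O)
    (hcusp : ∀ a : A, (∃ γ, cv γ = some (algebraMap A Kbar a)) →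
      (algebraMap B F (algebraMap A[X] B (X - C a)))⁻¹ ∈ O) :
    ∃ g0 : A[X], (algebraMap B F (algebraMap A[X] B g0))⁻¹ ∉ O ∧
      ∀ y ∈ O, y⁻¹ ∉ O → y / algebraMap B F (algebraMap A[X] B g0) ∈ O := by
  refine exists_uniformizer_genG T hres hconst (fun c => ∀ γ, cv γ ≠ some c)
    (fun v c hgc hc => hsimple v c hgc hc)
    bc hbc t ht hExt hX π hπ0 hK O hB hπ ?_
  intro w hwO v d hd hve c hc γ hγ
  obtain ⟨a, ha⟩ := hcvA γ c hγ
  have h1 := hcusp a ⟨γ, by rw [ha]; exact hγ⟩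
  rw [hX, map_sub, aeval_X, aeval_C, ← hwO] at h1
  have h2 : 0 ≤ w.ord (t - algebraMap A F a)⁻¹ := ffp_ord_nonneg_of_mem w h1
  rw [w.ord_inv] at h2
  have h3 := hve (t - algebraMap A F a)
  rw [map_sub, ht, bc_algebraMap_AG bc hbc, ha] at h3
  rw [h3] at hc
  have hdpos : (0 : ℤ) < d := by exact_mod_cast hd
  nlinarith

/-- **Core of (H3), chart `t⁻¹`.**  `X ↦ s`, `bc s = t_M⁻¹`: a discrete valuation subring `O ⊇ B` in which
`π`, `s` and all `c_i s - 1` are units has a uniformiser of the form `g0(s)`, `g0 ∈ A[X]`. -/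
theorem exists_uniformizer_invG (T : Fb)
    (hres : ∀ (v : Place Kbar Fb) (f : Fb), f ∈ v.toValuationSubring →
      ∃ c : Kbar, f = algebraMap Kbar Fb c ∨ 0 < v.ord (f - algebraMap Kbar Fb c))
    (hsimple : ∀ (v : Place Kbar Fb) (c : Kbar), (∀ γ, cv γ ≠ some c) →
      0 < v.ord (T - algebraMap Kbar Fb c) → v.ord (T - algebraMap Kbar Fb c) = 1)
    (hconst : ∀ c : Kbar, T ≠ algebraMap Kbar Fb c)
    (hcvA : ∀ γ c, cv γ = some c → ∃ a : A, algebraMap A Kbar a = c)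
    (bc : F →+* Fb)
    (hbc : ∀ a : K, bc (algebraMap K F a) = algebraMap Kbar Fb (algebraMap K Kbar a))
    (s : F) (hs : bc s = T⁻¹)
    (hExt : ∀ w : Place K F, ∃ (v : Place Kbar Fb) (d : ℕ), 0 < d ∧
      ∀ f : F, v.ord (bc f) = (d : ℤ) * w.ord f)
    (hX : ∀ p : A[X], algebraMap B F (algebraMap A[X] B p) = aeval s p)
    (π : A) (hπ0 : algebraMap A F π ≠ 0)
    (hK : ∀ a : K, ∃ (r : A) (k : ℕ), algebraMap K F a * algebraMap A F π ^ k = algebraMap A F r)
    (O : ValuationSubring F) (hB : ∀ z : B, algebraMap B F z ∈ O) [IsDiscreteValuationRing O]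
    (hπ : (algebraMap B F (algebraMap A[X] B (C π)))⁻¹ ∈ O)
    (hsunit : (algebraMap B F (algebraMap A[X] B X))⁻¹ ∈ O)
    (hcusp : ∀ a : A, (∃ γ, cv γ = some (algebraMap A Kbar a)) →
      (algebraMap B F (algebraMap A[X] B (C a * X - 1)))⁻¹ ∈ O) :
    ∃ g0 : A[X], (algebraMap B F (algebraMap A[X] B g0))⁻¹ ∉ O ∧
      ∀ y ∈ O, y⁻¹ ∉ O → y / algebraMap B F (algebraMap A[X] B g0) ∈ O := by
  have hT0 : T ≠ 0 := by
    intro h0
    exact hconst 0 (by rw [h0, map_zero])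
  have hconst' : ∀ c : Kbar, T⁻¹ ≠ algebraMap Kbar Fb c := by
    intro c hc
    apply hconst c⁻¹
    rw [map_inv₀, ← hc, inv_inv]
  refine exists_uniformizer_genG T⁻¹ hres hconst'
    (fun c => c ≠ 0 ∧ ∀ γ, cv γ ≠ some c⁻¹) ?_ bc hbc s hs hExt hX π hπ0 hK O hB hπ ?_
  · rintro v c ⟨hc0, hcv⟩ hc
    have heq : v.ord (T⁻¹ - algebraMap Kbar Fb c)
        = v.ord (T - algebraMap Kbar Fb c⁻¹) := HorizGen20.ord_inv_sub v T c hc0 hc
    rw [heq] at hc ⊢
    exact hsimple v c⁻¹ hcv hc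
  · intro w hwO v d hd hve c hc
    have hdpos : (0 : ℤ) < d := by exact_mod_cast hd
    -- `s` is a unit of `O`, so `ord_v T⁻¹ = 0`
    have hsO : s ∈ w.toValuationSubring := by
      have := hB (algebraMap A[X] B X)
      rwa [hX, aeval_X, ← hwO] at this
    have hsinv : s⁻¹ ∈ w.toValuationSubring := by
      rwa [hX, aeval_X, ← hwO] at hsunit
    have hws : w.ord s = 0 := by
      have h1 := ffp_ord_nonneg_of_mem w hsO
      have h2 := ffp_ord_nonneg_of_mem w hsinv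
      rw [w.ord_inv] at h2
      omega
    have hvT : v.ord T⁻¹ = 0 := by rw [← hs, hve, hws, mul_zero]
    have hc0 : c ≠ 0 := by
      intro h0
      rw [h0, map_zero, sub_zero, hvT] at hc
      exact lt_irrefl _ hc
    refine ⟨hc0, fun γ hγ => ?_⟩
    obtain ⟨a, ha⟩ := hcvA γ c⁻¹ hγ
    have h1 := hcusp a ⟨γ, by rw [ha]; exact hγ⟩
    rw [hX, map_sub, map_mul, aeval_X, aeval_C, map_one, ← hwO] at h1
    have h2 : 0 ≤ w.ord (algebraMap A F a * s - 1)⁻¹ := ffp_ord_nonneg_of_mem w h1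
    rw [w.ord_inv] at h2
    have h3 := hve (algebraMap A F a * s - 1)
    rw [map_sub, map_mul, map_one, hs, bc_algebraMap_AG bc hbc, ha] at h3
    -- `c⁻¹ T⁻¹ - 1 = c⁻¹ (T⁻¹ - c)`
    have hfac : algebraMap Kbar Fb c⁻¹ * T⁻¹ - 1
        = algebraMap Kbar Fb c⁻¹ * (T⁻¹ - algebraMap Kbar Fb c) := by
      rw [mul_sub, ← map_mul, inv_mul_cancel₀ hc0, map_one]
    have hcinv : algebraMap Kbar Fb c⁻¹ ≠ 0 := by
      rw [Ne, map_eq_zero]; exact inv_ne_zero hc0
    have hne : T⁻¹ - algebraMap Kbar Fb c ≠ 0 := by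
      intro h0; rw [h0, Place.ord_zero] at hc; exact lt_irrefl _ hc
    rw [hfac, v.ord_mul hcinv hne, ffp_ord_algebraMap, zero_add] at h3
    rw [h3] at hc
    nlinarith

/-! ### the literal `hUNR` shapes of `PurityMain26` (`R0 := A[X]`, `π := C π₀`) -/

/-- **`hUNR` of `PurityMain26.smooth_of_purity`** at a maximal ideal `x` of `B` containing no
`t - c_i` (`c_i` the finite cusp values): a NON-cusp closed point of the chart `t`. -/
theorem hUNR_noncuspG (T : Fb)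
    (hres : ∀ (v : Place Kbar Fb) (f : Fb), f ∈ v.toValuationSubring →
      ∃ c : Kbar, f = algebraMap Kbar Fb c ∨ 0 < v.ord (f - algebraMap Kbar Fb c))
    (hsimple : ∀ (v : Place Kbar Fb) (c : Kbar), (∀ γ, cv γ ≠ some c) →
      0 < v.ord (T - algebraMap Kbar Fb c) → v.ord (T - algebraMap Kbar Fb c) = 1)
    (hconst : ∀ c : Kbar, T ≠ algebraMap Kbar Fb c)
    (hcvA : ∀ γ c, cv γ = some c → ∃ a : A, algebraMap A Kbar a = c)
    (bc : F →+* Fb)
    (hbc : ∀ a : K, bc (algebraMap K F a) = algebraMap Kbar Fb (algebraMap K Kbar a))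
    (t : F) (ht : bc t = T)
    (hExt : ∀ w : Place K F, ∃ (v : Place Kbar Fb) (d : ℕ), 0 < d ∧
      ∀ f : F, v.ord (bc f) = (d : ℤ) * w.ord f)
    (hX : ∀ p : A[X], algebraMap B F (algebraMap A[X] B p) = aeval t p)
    (π : A) (hπ0 : algebraMap A F π ≠ 0)
    (hK : ∀ a : K, ∃ (r : A) (k : ℕ), algebraMap K F a * algebraMap A F π ^ k = algebraMap A F r)
    (x : Ideal B)
    (hx : ∀ a : A, (∃ γ, cv γ = some (algebraMap A Kbar a)) → algebraMap A[X] B (X - C a) ∉ x) :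
    ∀ O : ValuationSubring F, (∀ z : B, algebraMap B F z ∈ O) → IsDiscreteValuationRing O →
      (algebraMap B F (algebraMap A[X] B (C π)))⁻¹ ∈ O →
      (∀ r : A[X], algebraMap A[X] B r ∉ x → (algebraMap B F (algebraMap A[X] B r))⁻¹ ∈ O) →
      ∃ g0 : A[X], (algebraMap B F (algebraMap A[X] B g0))⁻¹ ∉ O ∧
        ∀ y ∈ O, y⁻¹ ∉ O → y / algebraMap B F (algebraMap A[X] B g0) ∈ O := by
  intro O hB hdvr hπ hcen
  have := hdvr
  exact exists_uniformizerG cv T hres hsimple hconst hcvA bc hbc t ht hExt hX π hπ0 hK O hB hπ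
    (fun a ha => hcen _ (hx a ha))

/-- **`hUNR` of `PurityMain26.not_dvd_discr_of_valuative`** at the cusp point `P ∋ X - C a₀` of the chart
`t`, excluded element `q := X - C a₀`: the other cusp values are separated from `a₀` at `P`. -/
theorem hUNR_cuspG (T : Fb)
    (hres : ∀ (v : Place Kbar Fb) (f : Fb), f ∈ v.toValuationSubring →
      ∃ c : Kbar, f = algebraMap Kbar Fb c ∨ 0 < v.ord (f - algebraMap Kbar Fb c))
    (hsimple : ∀ (v : Place Kbar Fb) (c : Kbar), (∀ γ, cv γ ≠ some c) →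
      0 < v.ord (T - algebraMap Kbar Fb c) → v.ord (T - algebraMap Kbar Fb c) = 1)
    (hconst : ∀ c : Kbar, T ≠ algebraMap Kbar Fb c)
    (hcvA : ∀ γ c, cv γ = some c → ∃ a : A, algebraMap A Kbar a = c)
    (bc : F →+* Fb)
    (hbc : ∀ a : K, bc (algebraMap K F a) = algebraMap Kbar Fb (algebraMap K Kbar a))
    (t : F) (ht : bc t = T)
    (hExt : ∀ w : Place K F, ∃ (v : Place Kbar Fb) (d : ℕ), 0 < d ∧
      ∀ f : F, v.ord (bc f) = (d : ℤ) * w.ord f)
    (hX : ∀ p : A[X], algebraMap B F (algebraMap A[X] B p) = aeval t p)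
    (π : A) (hπ0 : algebraMap A F π ≠ 0)
    (hK : ∀ a : K, ∃ (r : A) (k : ℕ), algebraMap K F a * algebraMap A F π ^ k = algebraMap A F r)
    (P : Ideal A[X]) (a₀ : A)
    (hP : ∀ a : A, (∃ γ, cv γ = some (algebraMap A Kbar a)) → a = a₀ ∨ X - C a ∉ P) :
    ∀ O : ValuationSubring F, (∀ z : B, algebraMap B F z ∈ O) → IsDiscreteValuationRing O →
      (algebraMap B F (algebraMap A[X] B (C π)))⁻¹ ∈ O →
      (algebraMap B F (algebraMap A[X] B (X - C a₀)))⁻¹ ∈ O →
      (∀ r : A[X], r ∉ P → (algebraMap B F (algebraMap A[X] B r))⁻¹ ∈ O) →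
      ∃ g0 : A[X], (algebraMap B F (algebraMap A[X] B g0))⁻¹ ∉ O ∧
        ∀ y ∈ O, y⁻¹ ∉ O → y / algebraMap B F (algebraMap A[X] B g0) ∈ O := by
  intro O hB hdvr hπ hq hcen
  have := hdvr
  refine exists_uniformizerG cv T hres hsimple hconst hcvA bc hbc t ht hExt hX π hπ0 hK O hB hπ ?_
  intro a ha
  rcases hP a ha with rfl | hne
  · exact hq
  · exact hcen _ hne

/-- **`hUNR` of `PurityMain26.not_dvd_discr_of_valuative`** at the cusp point `t = ∞` of the chart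
`s = t⁻¹` (`X ↦ s`), excluded element `q := X`. -/
theorem hUNR_cusp_invG (T : Fb)
    (hres : ∀ (v : Place Kbar Fb) (f : Fb), f ∈ v.toValuationSubring →
      ∃ c : Kbar, f = algebraMap Kbar Fb c ∨ 0 < v.ord (f - algebraMap Kbar Fb c))
    (hsimple : ∀ (v : Place Kbar Fb) (c : Kbar), (∀ γ, cv γ ≠ some c) →
      0 < v.ord (T - algebraMap Kbar Fb c) → v.ord (T - algebraMap Kbar Fb c) = 1)
    (hconst : ∀ c : Kbar, T ≠ algebraMap Kbar Fb c)
    (hcvA : ∀ γ c, cv γ = some c → ∃ a : A, algebraMap A Kbar a = c)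
    (bc : F →+* Fb)
    (hbc : ∀ a : K, bc (algebraMap K F a) = algebraMap Kbar Fb (algebraMap K Kbar a))
    (s : F) (hs : bc s = T⁻¹)
    (hExt : ∀ w : Place K F, ∃ (v : Place Kbar Fb) (d : ℕ), 0 < d ∧
      ∀ f : F, v.ord (bc f) = (d : ℤ) * w.ord f)
    (hX : ∀ p : A[X], algebraMap B F (algebraMap A[X] B p) = aeval s p)
    (π : A) (hπ0 : algebraMap A F π ≠ 0)
    (hK : ∀ a : K, ∃ (r : A) (k : ℕ), algebraMap K F a * algebraMap A F π ^ k = algebraMap A F r)
    (P : Ideal A[X])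
    (hP : ∀ a : A, (∃ γ, cv γ = some (algebraMap A Kbar a)) → C a * X - 1 ∉ P) :
    ∀ O : ValuationSubring F, (∀ z : B, algebraMap B F z ∈ O) → IsDiscreteValuationRing O →
      (algebraMap B F (algebraMap A[X] B (C π)))⁻¹ ∈ O →
      (algebraMap B F (algebraMap A[X] B X))⁻¹ ∈ O →
      (∀ r : A[X], r ∉ P → (algebraMap B F (algebraMap A[X] B r))⁻¹ ∈ O) →
      ∃ g0 : A[X], (algebraMap B F (algebraMap A[X] B g0))⁻¹ ∉ O ∧
        ∀ y ∈ O, y⁻¹ ∉ O → y / algebraMap B F (algebraMap A[X] B g0) ∈ O := by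
  intro O hB hdvr hπ hq hcen
  have := hdvr
  exact exists_uniformizer_invG cv T hres hsimple hconst hcvA bc hbc s hs hExt hX π hπ0 hK O hB hπ hq
    (fun a ha => hcen _ (hP a ha))

end Concrete


/-! ### the conversions to `HUNRCusp` / `HUNROff` (twin of `HunrGeneric26`) -/

section Generic

variable (cv : SL(2, ℤ) → Option Kbar) {Fb : Type*} [Field Fb] [Algebra Kbar Fb]
variable {K₁ : Type*} [Field K₁] [CharZero K₁] (O : ValuationSubring K₁)
  (E : IntermediateField K₁ (LaurentSeries K₁)) [Algebra K₁ Kbar] [Algebra.IsAlgebraic K₁ Kbar]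

variable {O E}

/-- **`HUNRCusp` at a finite cusp value**, from the hypotheses of `HorizPlace20.hUNR_cusp`. -/
theorem hunrCusp_of_horizG (T : Fb)
    (hres : ∀ (v : Place Kbar Fb) (f : Fb), f ∈ v.toValuationSubring →
      ∃ c : Kbar, f = algebraMap Kbar Fb c ∨ 0 < v.ord (f - algebraMap Kbar Fb c))
    (hsimple : ∀ (v : Place Kbar Fb) (c : Kbar), (∀ γ, cv γ ≠ some c) →
      0 < v.ord (T - algebraMap Kbar Fb c) → v.ord (T - algebraMap Kbar Fb c) = 1)
    (hconst : ∀ c : Kbar, T ≠ algebraMap Kbar Fb c)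
    (hcvA : ∀ γ c, cv γ = some c → ∃ a : ↥O, algebraMap K₁ Kbar (a : K₁) = c)
    (bc : ↥E →+* Fb)
    (hbc : ∀ a : K₁, bc (algebraMap K₁ ↥E a) = algebraMap Kbar Fb (algebraMap K₁ Kbar a))
    (t : ↥E) (ht : bc t = T)
    (hExt : ∀ w : Place K₁ ↥E, ∃ (v : Place Kbar Fb) (d : ℕ), 0 < d ∧
      ∀ f : ↥E, v.ord (bc f) = (d : ℤ) * w.ord f)
    (π : ↥O) (hπ0 : π ≠ 0)
    (hK : ∀ a : K₁, ∃ (r : ↥O) (k : ℕ), a * (π : K₁) ^ k = (r : K₁))
    (c : ↥O)
    (hsep : ∀ a : ↥O, (∃ γ, cv γ = some (algebraMap K₁ Kbar (a : K₁))) →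
      a = c ∨ (X - C a : (↥O)[X]) ∉ cuspIdeal π c) :
    HUNRCusp O E π t c := by
  haveI : IsScalarTower ↥O K₁ ↥E := Fermat.Agent.RED.NumInst4.isScalarTower_OE O E
  letI : Algebra (↥O)[X] ↥E := polyAlgebra (A := ↥O) t
  haveI : IsScalarTower ↥O (↥O)[X] ↥E := polyAlgebra_isScalarTower (A := ↥O) t
  have hX0 : algebraMap (↥O)[X] ↥E X = t := polyAlgebra_algebraMap_X (A := ↥O) t
  have hX : ∀ p : (↥O)[X], algebraMap (↥O)[X] ↥E (algebraMap (↥O)[X] (↥O)[X] p) = aeval t p :=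
    fun p => algebraMap_eq_aeval hX0 p
  have hπ0' : algebraMap ↥O ↥E π ≠ 0 := by
    intro h0
    apply hπ0
    have h1 : algebraMap K₁ ↥E (π : K₁) = 0 := h0
    have h2 : (π : K₁) = 0 := (map_eq_zero _).mp h1
    exact Subtype.ext h2
  have hK' : ∀ a : K₁, ∃ (r : ↥O) (k : ℕ),
      algebraMap K₁ ↥E a * algebraMap ↥O ↥E π ^ k = algebraMap ↥O ↥E r := by
    intro a
    obtain ⟨r, k, hrk⟩ := hK a
    refine ⟨r, k, ?_⟩
    show algebraMap K₁ ↥E a * algebraMap K₁ ↥E (π : K₁) ^ k = algebraMap K₁ ↥E (r : K₁)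
    rw [← map_pow, ← map_mul, hrk]
  intro O' hint hdvr h1 h2 h3
  have key := hUNR_cuspG cv (A := ↥O) (K := K₁) (F := ↥E)
    (B := (↥O)[X]) T hres hsimple hconst hcvA bc hbc t ht hExt hX π hπ0' hK' (cuspIdeal π c) c hsep O'
    ?_ hdvr ?_ ?_ ?_
  · obtain ⟨g0, hg1, hg2⟩ := key
    exact ⟨g0, by rw [← hX]; exact hg1, fun y hy hy' => by rw [← hX]; exact hg2 y hy hy'⟩
  · intro z
    have h4 : algebraMap (↥O)[X] ↥E z = aeval t z := algebraMap_eq_aeval hX0 z
    rw [h4]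
    apply hint
    have h5 : aeval t z ∈ Algebra.adjoin ↥O {t} := by
      rw [Algebra.adjoin_singleton_eq_range_aeval]
      exact ⟨z, rfl⟩
    exact isIntegral_algebraMap (R := ↥(Algebra.adjoin ↥O {t})) (x := ⟨aeval t z, h5⟩)
  · rw [hX, aeval_C]
    exact h1
  · rw [hX, map_sub, aeval_X, aeval_C]
    exact h2
  · intro r hr
    rw [hX]
    exact h3 r hr

/-- **`HUNRCusp` at infinity** (coordinate `t⁻¹`, value `0`), from the hypotheses of
`HorizPlace20.hUNR_cusp_inv`. -/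
theorem hunrCusp_inv_of_horizG (T : Fb)
    (hres : ∀ (v : Place Kbar Fb) (f : Fb), f ∈ v.toValuationSubring →
      ∃ c : Kbar, f = algebraMap Kbar Fb c ∨ 0 < v.ord (f - algebraMap Kbar Fb c))
    (hsimple : ∀ (v : Place Kbar Fb) (c : Kbar), (∀ γ, cv γ ≠ some c) →
      0 < v.ord (T - algebraMap Kbar Fb c) → v.ord (T - algebraMap Kbar Fb c) = 1)
    (hconst : ∀ c : Kbar, T ≠ algebraMap Kbar Fb c)
    (hcvA : ∀ γ c, cv γ = some c → ∃ a : ↥O, algebraMap K₁ Kbar (a : K₁) = c)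
    (bc : ↥E →+* Fb)
    (hbc : ∀ a : K₁, bc (algebraMap K₁ ↥E a) = algebraMap Kbar Fb (algebraMap K₁ Kbar a))
    (t : ↥E) (ht : bc t = T)
    (hExt : ∀ w : Place K₁ ↥E, ∃ (v : Place Kbar Fb) (d : ℕ), 0 < d ∧
      ∀ f : ↥E, v.ord (bc f) = (d : ℤ) * w.ord f)
    (π : ↥O) (hπ0 : π ≠ 0) (hπu : ¬ IsUnit π)
    (hK : ∀ a : K₁, ∃ (r : ↥O) (k : ℕ), a * (π : K₁) ^ k = (r : K₁)) :
    HUNRCusp O E π t⁻¹ 0 := by
  haveI : IsScalarTower ↥O K₁ ↥E := Fermat.Agent.RED.NumInst4.isScalarTower_OE O E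
  letI : Algebra (↥O)[X] ↥E := polyAlgebra (A := ↥O) t⁻¹
  haveI : IsScalarTower ↥O (↥O)[X] ↥E := polyAlgebra_isScalarTower (A := ↥O) t⁻¹
  have hX0 : algebraMap (↥O)[X] ↥E X = t⁻¹ := polyAlgebra_algebraMap_X (A := ↥O) t⁻¹
  have hX : ∀ p : (↥O)[X], algebraMap (↥O)[X] ↥E (algebraMap (↥O)[X] (↥O)[X] p) = aeval t⁻¹ p :=
    fun p => algebraMap_eq_aeval hX0 p
  have hπ0' : algebraMap ↥O ↥E π ≠ 0 := by
    intro h0
    apply hπ0
    have h1 : algebraMap K₁ ↥E (π : K₁) = 0 := h0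
    have h2 : (π : K₁) = 0 := (map_eq_zero _).mp h1
    exact Subtype.ext h2
  have hK' : ∀ a : K₁, ∃ (r : ↥O) (k : ℕ),
      algebraMap K₁ ↥E a * algebraMap ↥O ↥E π ^ k = algebraMap ↥O ↥E r := by
    intro a
    obtain ⟨r, k, hrk⟩ := hK a
    refine ⟨r, k, ?_⟩
    show algebraMap K₁ ↥E a * algebraMap K₁ ↥E (π : K₁) ^ k = algebraMap K₁ ↥E (r : K₁)
    rw [← map_pow, ← map_mul, hrk]
  have hs : bc t⁻¹ = T⁻¹ := by rw [map_inv₀, ht]
  have hP : ∀ a : ↥O, (∃ γ, cv γ = some (algebraMap ↥O Kbar a)) →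
      (C a * X - 1 : (↥O)[X]) ∉ cuspIdeal π 0 := by
    intro a _ hmem
    rw [mem_cuspIdeal_iff, eval_sub, eval_mul, eval_C, eval_X, mul_zero, zero_sub, eval_one,
      Ideal.mem_span_singleton] at hmem
    exact hπu (isUnit_of_dvd_unit hmem isUnit_one.neg)
  intro O' hint hdvr h1 h2 h3
  have key := hUNR_cusp_invG cv (A := ↥O) (K := K₁)
    (F := ↥E) (B := (↥O)[X]) T hres hsimple hconst hcvA bc hbc t⁻¹ hs hExt hX π hπ0' hK'
    (cuspIdeal π 0) hP O' ?_ hdvr ?_ ?_ ?_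
  · obtain ⟨g0, hg1, hg2⟩ := key
    exact ⟨g0, by rw [← hX]; exact hg1, fun y hy hy' => by rw [← hX]; exact hg2 y hy hy'⟩
  · intro z
    have h4 : algebraMap (↥O)[X] ↥E z = aeval t⁻¹ z := algebraMap_eq_aeval hX0 z
    rw [h4]
    apply hint
    have h5 : aeval t⁻¹ z ∈ Algebra.adjoin ↥O {t⁻¹} := by
      rw [Algebra.adjoin_singleton_eq_range_aeval]
      exact ⟨z, rfl⟩
    exact isIntegral_algebraMap (R := ↥(Algebra.adjoin ↥O {t⁻¹})) (x := ⟨aeval t⁻¹ z, h5⟩)
  · rw [hX, aeval_C]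
    exact h1
  · rw [hX, aeval_X]
    have := h2
    rwa [map_zero, sub_zero] at this
  · intro r hr
    rw [hX]
    exact h3 r hr

/-- **`HUNROff` away from the cusp values**, from the hypotheses of `HorizPlace20.hUNR_noncusp`. -/
theorem hunrOff_of_horizG (T : Fb)
    (hres : ∀ (v : Place Kbar Fb) (f : Fb), f ∈ v.toValuationSubring →
      ∃ c : Kbar, f = algebraMap Kbar Fb c ∨ 0 < v.ord (f - algebraMap Kbar Fb c))
    (hsimple : ∀ (v : Place Kbar Fb) (c : Kbar), (∀ γ, cv γ ≠ some c) →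
      0 < v.ord (T - algebraMap Kbar Fb c) → v.ord (T - algebraMap Kbar Fb c) = 1)
    (hconst : ∀ c : Kbar, T ≠ algebraMap Kbar Fb c)
    (hcvA : ∀ γ c, cv γ = some c → ∃ a : ↥O, algebraMap K₁ Kbar (a : K₁) = c)
    (bc : ↥E →+* Fb)
    (hbc : ∀ a : K₁, bc (algebraMap K₁ ↥E a) = algebraMap Kbar Fb (algebraMap K₁ Kbar a))
    (t : ↥E) (ht : bc t = T)
    (hExt : ∀ w : Place K₁ ↥E, ∃ (v : Place Kbar Fb) (d : ℕ), 0 < d ∧
      ∀ f : ↥E, v.ord (bc f) = (d : ℤ) * w.ord f)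
    (π : ↥O) (hπ0 : π ≠ 0)
    (hK : ∀ a : K₁, ∃ (r : ↥O) (k : ℕ), a * (π : K₁) ^ k = (r : K₁))
    (S : Set ↥O)
    (hS : ∀ a : ↥O, (∃ γ, cv γ = some (algebraMap K₁ Kbar (a : K₁))) → a ∈ S) :
    Fermat.Agent.RED.PUR.OffIface4.HUNROff O E π t S := by
  haveI : IsScalarTower ↥O K₁ ↥E := Fermat.Agent.RED.NumInst4.isScalarTower_OE O E
  letI : Algebra (↥O)[X] ↥E := polyAlgebra (A := ↥O) t
  haveI : IsScalarTower ↥O (↥O)[X] ↥E := polyAlgebra_isScalarTower (A := ↥O) t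
  have hX0 : algebraMap (↥O)[X] ↥E X = t := polyAlgebra_algebraMap_X (A := ↥O) t
  have hX : ∀ p : (↥O)[X], algebraMap (↥O)[X] ↥E (algebraMap (↥O)[X] (↥O)[X] p) = aeval t p :=
    fun p => algebraMap_eq_aeval hX0 p
  have hπ0' : algebraMap ↥O ↥E π ≠ 0 := by
    intro h0
    apply hπ0
    have h1 : algebraMap K₁ ↥E (π : K₁) = 0 := h0
    have h2 : (π : K₁) = 0 := (map_eq_zero _).mp h1
    exact Subtype.ext h2
  have hK' : ∀ a : K₁, ∃ (r : ↥O) (k : ℕ),
      algebraMap K₁ ↥E a * algebraMap ↥O ↥E π ^ k = algebraMap ↥O ↥E r := by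
    intro a
    obtain ⟨r, k, hrk⟩ := hK a
    refine ⟨r, k, ?_⟩
    show algebraMap K₁ ↥E a * algebraMap K₁ ↥E (π : K₁) ^ k = algebraMap K₁ ↥E (r : K₁)
    rw [← map_pow, ← map_mul, hrk]
  intro P hP O' hint hdvr h1 h3
  have hx : ∀ a : ↥O, (∃ γ, cv γ = some (algebraMap ↥O Kbar a)) →
      algebraMap (↥O)[X] (↥O)[X] (X - C a) ∉ P := fun a ha => hP a (hS a ha)
  have key := hUNR_noncuspG cv (A := ↥O) (K := K₁)
    (F := ↥E) (B := (↥O)[X]) T hres hsimple hconst hcvA bc hbc t ht hExt hX π hπ0' hK' P hx O'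
    ?_ hdvr ?_ ?_
  · obtain ⟨g0, hg1, hg2⟩ := key
    exact ⟨g0, by rw [← hX]; exact hg1, fun y hy hy' => by rw [← hX]; exact hg2 y hy hy'⟩
  · intro z
    have h4 : algebraMap (↥O)[X] ↥E z = aeval t z := algebraMap_eq_aeval hX0 z
    rw [h4]
    apply hint
    have h5 : aeval t z ∈ Algebra.adjoin ↥O {t} := by
      rw [Algebra.adjoin_singleton_eq_range_aeval]
      exact ⟨z, rfl⟩
    exact isIntegral_algebraMap (R := ↥(Algebra.adjoin ↥O {t})) (x := ⟨aeval t z, h5⟩)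
  · rw [hX, aeval_C]
    exact h1
  · intro r hr
    rw [hX]
    exact h3 r hr

end Generic

end Fermat.Agent.ES.R48.HorizPlaceG16
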