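/-
Programme R (S48, Deligne–Serre), chapter GEOM, sub-chapter G3 MODEL₁ / BASE (helper16):
**`±Γ₁(M)` has no elliptic points** — the twin of `Fermat/Agent/RED/BASE/NoElliptic14.lean`.

If `M ∤ 2` and `M ∤ 3` (e.g. `4 ∣ M` or `9 ∣ M`) then no conjugate of `S` or of `S * T` fixes a coset of
`SL(2, ℤ) ⧸ PG1 M` (an element of `±Γ₁(M)` has trace `≡ ±2 mod M`, whereas `tr S = 0`,
`tr (S * T) = 1`).  Hence every point place of `F₁ = FF1 M` has multiplicity one: for
`v = pointPlaceD1 D z₀ c hc g`, `ord_{z₀} (Θ u ∘ g⁻¹) = ord_v u` for all `u ∈ R₁`, `u ≠ 0`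
(the uniformisation `ℍ → X₁(M)` is unramified).

The facts of the dictionary G2 that are consumed (finiteness and degree of `F₁ / ℚbar(j)`,
surjectivity onto the point places) are bundled in the hypothesis `DictHyp D`, in the literal shape
of `X1PointSurjT` / `X1Degree`.
-/
import Mathlib
import Fermat.Agent.X0.PlaceCount
import Fermat.Agent.X0.OrbitCount
import Fermat.Agent.X0.P1Fixed
import Fermat.Agent.X0.FFSum
import Fermat.Agent.X0.RootsK
import Fermat.Agent.ES.R48.X1PointPlacesD1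

set_option autoImplicit false
set_option linter.unusedSectionVars false

open UpperHalfPlane hiding I
open scoped MatrixGroups

namespace Fermat.Agent.ES.R48.NoEllipticOne16

open Fermat.Agent.X0 Fermat.Agent.X0.JOrderMain Fermat.Agent.X0.FF AlgebraicCurve MulAction
open ModularGroup CongruenceSubgroup
open Fermat.Agent.X0.PlaceCount Fermat.Agent.X0.OrbitCount
open Fermat.Agent.ES.R48.X1Iface13 Fermat.Agent.ES.R48.X1PointPlaces1
  Fermat.Agent.ES.R48.X1PointPlacesD1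

/-! ### Group theory: no fixed cosets -/

section Group

variable (M : ℕ)

/-- `-1 ∈ ±Γ₁(M)`. -/
theorem neg_one_mem_PG1 [NeZero M] : (-1 : SL(2, ℤ)) ∈ PG1 M := by
  refine Or.inr ?_
  rw [neg_neg]
  exact Subgroup.one_mem _

/-- `±Γ₁(M)` has finite index. -/
theorem finite_quotient_PG1 [NeZero M] : Finite (SL(2, ℤ) ⧸ PG1 M) := by
  have : (PG1 M).FiniteIndex := Subgroup.finiteIndex_of_le (Gamma1_le_PG1 M)
  exact Subgroup.finite_quotient_of_finiteIndex

/-- `-1` acts trivially on `SL(2, ℤ) ⧸ ±Γ₁(M)`. -/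
theorem neg_one_smul_coset [NeZero M] (x : SL(2, ℤ) ⧸ PG1 M) : (-1 : SL(2, ℤ)) • x = x := by
  induction x using QuotientGroup.induction_on with
  | H g =>
    rw [MulAction.Quotient.smul_mk, smul_eq_mul, QuotientGroup.eq]
    have : (-1 * g)⁻¹ * g = -1 := by
      rw [neg_one_mul, show (-g)⁻¹ = -g⁻¹ from by
        rw [inv_eq_iff_eq_inv, eq_comm, inv_eq_iff_mul_eq_one, neg_mul_neg, inv_mul_cancel],
        neg_mul, inv_mul_cancel]
    rw [this]
    exact neg_one_mem_PG1 M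

theorem S_sq_smul_coset [NeZero M] (x : SL(2, ℤ) ⧸ PG1 M) : S ^ 2 • x = x := by
  rw [pow_two, P1Fixed.S_mul_S, neg_one_smul_coset]

theorem ST_cube_smul_coset [NeZero M] (x : SL(2, ℤ) ⧸ PG1 M) : (S * T) ^ 3 • x = x := by
  rw [P1Fixed.ST_pow_three, neg_one_smul_coset]

/-- Conjugation transports "`g ^ n` acts trivially". -/
theorem conj_pow_smul_coset [NeZero M] {g : SL(2, ℤ)} {n : ℕ}
    (h : ∀ x : SL(2, ℤ) ⧸ PG1 M, g ^ n • x = x) (γ : SL(2, ℤ)) (x : SL(2, ℤ) ⧸ PG1 M) :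
    (γ * g * γ⁻¹) ^ n • x = x := by
  rw [conj_pow, mul_smul, mul_smul, h, smul_inv_smul]

/-- The trace of an element of `±Γ₁(M)` is `≡ ±2 mod M`. -/
theorem trace_of_mem_PG1 [NeZero M] {δ : SL(2, ℤ)} (h : δ ∈ PG1 M) :
    ((Matrix.trace (δ : Matrix (Fin 2) (Fin 2) ℤ) : ℤ) : ZMod M) = 2 ∨
      ((Matrix.trace (δ : Matrix (Fin 2) (Fin 2) ℤ) : ℤ) : ZMod M) = -2 := by
  rw [Matrix.trace_fin_two]
  rcases h with h | h
  · left
    obtain ⟨h00, h11, -⟩ := (Gamma1_mem M δ).mp h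
    push_cast
    rw [h00, h11]
    norm_num
  · right
    obtain ⟨h00, h11, -⟩ := (Gamma1_mem M (-δ)).mp h
    simp only [Matrix.SpecialLinearGroup.coe_neg, Matrix.neg_apply, Int.cast_neg] at h00 h11
    push_cast
    rw [← neg_eq_iff_eq_neg, neg_add, h00, h11]
    norm_num

/-- The trace is a class function. -/
theorem trace_conj (h σ : SL(2, ℤ)) :
    Matrix.trace ((h * σ * h⁻¹ : SL(2, ℤ)) : Matrix (Fin 2) (Fin 2) ℤ) =
      Matrix.trace (σ : Matrix (Fin 2) (Fin 2) ℤ) := by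
  rw [Matrix.SpecialLinearGroup.coe_mul, Matrix.SpecialLinearGroup.coe_mul,
    Matrix.trace_mul_cycle, ← Matrix.SpecialLinearGroup.coe_mul, inv_mul_cancel,
    Matrix.SpecialLinearGroup.coe_one, one_mul]

/-- An element fixing a coset of `±Γ₁(M)` has trace `≡ ±2 mod M`. -/
theorem trace_of_fixed [NeZero M] (σ : SL(2, ℤ)) (a : SL(2, ℤ) ⧸ PG1 M) (ha : σ • a = a) :
    ((Matrix.trace (σ : Matrix (Fin 2) (Fin 2) ℤ) : ℤ) : ZMod M) = 2 ∨
      ((Matrix.trace (σ : Matrix (Fin 2) (Fin 2) ℤ) : ℤ) : ZMod M) = -2 := by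
  induction a using QuotientGroup.induction_on with
  | H g =>
    rw [MulAction.Quotient.smul_mk, smul_eq_mul, QuotientGroup.eq] at ha
    have hmem : g⁻¹ * σ * g⁻¹⁻¹ ∈ PG1 M := by
      have h1 := (PG1 M).inv_mem ha
      have e : ((σ * g)⁻¹ * g)⁻¹ = g⁻¹ * σ * g⁻¹⁻¹ := by group
      rwa [e] at h1
    have := trace_of_mem_PG1 M hmem
    rwa [trace_conj] at this

theorem trace_S : Matrix.trace ((S : SL(2, ℤ)) : Matrix (Fin 2) (Fin 2) ℤ) = 0 := by
  rw [Matrix.trace_fin_two, ModularGroup.coe_S]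
  simp

theorem trace_ST : Matrix.trace ((S * T : SL(2, ℤ)) : Matrix (Fin 2) (Fin 2) ℤ) = 1 := by
  rw [Matrix.trace_fin_two, Matrix.SpecialLinearGroup.coe_mul, ModularGroup.coe_S,
    ModularGroup.coe_T]
  simp [Matrix.mul_apply, Fin.sum_univ_two]

/-- `(n : ZMod M) = 0 → M ∣ n`, for a natural number literal. -/
theorem dvd_of_natCast_zmod_eq_zero {n : ℕ} (h : ((n : ℕ) : ZMod M) = 0) : M ∣ n :=
  (ZMod.natCast_eq_zero_iff n M).mp h

/-- No conjugate of `S` fixes a coset of `±Γ₁(M)` when `M ∤ 2`. -/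
theorem conj_S_smul_ne [NeZero M] (hM : ¬ M ∣ 2) (γ : SL(2, ℤ)) (a : SL(2, ℤ) ⧸ PG1 M) :
    (γ * S * γ⁻¹) • a ≠ a := by
  intro ha
  have h := trace_of_fixed M _ a ha
  rw [trace_conj, trace_S] at h
  apply hM
  apply dvd_of_natCast_zmod_eq_zero
  push_cast
  rcases h with h | h
  · exact_mod_cast h.symm
  · have h' : (2 : ZMod M) = 0 := by
      have := congrArg Neg.neg h
      rw [neg_neg] at this
      rw [← this]
      simp
    exact h'

/-- No conjugate of `S * T` fixes a coset of `±Γ₁(M)` when `M ∤ 3` and `M ≠ 1`. -/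
theorem conj_ST_smul_ne [NeZero M] (h1 : M ≠ 1) (hM : ¬ M ∣ 3) (γ : SL(2, ℤ))
    (a : SL(2, ℤ) ⧸ PG1 M) : (γ * (S * T) * γ⁻¹) • a ≠ a := by
  intro ha
  have h := trace_of_fixed M _ a ha
  rw [trace_conj, trace_ST] at h
  rcases h with h | h
  · apply h1
    have h' : ((1 : ℕ) : ZMod M) = 0 := by
      push_cast
      have : (2 : ZMod M) - 1 = 1 := by norm_num
      rw [← this, ← h]
      simp
    exact Nat.dvd_one.mp (dvd_of_natCast_zmod_eq_zero M h')
  · apply hM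
    apply dvd_of_natCast_zmod_eq_zero
    push_cast
    have : (3 : ZMod M) = 1 + 2 := by norm_num
    rw [this]
    have h' : (1 : ZMod M) = -2 := by exact_mod_cast h
    rw [h']
    ring

end Group

/-! ### The hypotheses from the dictionary G2 -/

variable {M : ℕ} [NeZero M]

/-- The facts of the dictionary `places of F₁ ↔ ±Γ₁(M)\ℍ` (G2) that the BASE chapter consumes:
`F₁` is finite over `ℚbar(j)` of degree `|SL₂(ℤ) : ±Γ₁(M)|` (`X1Degree`), and every place over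
`j = c` is a point place (`X1PointSurjT`). -/
structure DictHyp (D : RealizeData1 M) : Prop where
  fin : FiniteDimensional (Kj1 M) (FF1 M)
  deg : Nat.card (SL(2, ℤ) ⧸ PG1 M) = Module.finrank (Kj1 M) (FF1 M)
  surj : ∀ (z₀ : ℍ) (c : Kbar) (hc : jFun z₀ = iotaK c) (v : Place Kbar (FF1 M)),
    0 < v.ord (jF1 M - algebraMap Kbar (FF1 M) c) → ∃ g : SL(2, ℤ), pointPlaceD1 D z₀ c hc g = v

/-- `jF1 M` is transcendental over `ℚbar`. -/
theorem transcendental_jF1 (M : ℕ) [NeZero M] : Transcendental Kbar (jF1 M) := by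
  intro halg
  apply transcendental_jF M
  exact (isAlgebraic_algHom_iff (ffIncl M) (ffIncl_injective M)).mp halg

/-- `j` is a transcendental generator of `F₁`. -/
theorem isGen_jF1 {D : RealizeData1 M} (H : DictHyp D) : IsGen Kbar (jF1 M) :=
  ⟨transcendental_jF1 M, H.fin⟩

theorem finrank_adjoin_jF1 {D : RealizeData1 M} (H : DictHyp D) :
    Module.finrank (IntermediateField.adjoin Kbar {jF1 M}) (FF1 M) =
      Nat.card (SL(2, ℤ) ⧸ PG1 M) := H.deg.symm

/-! ### Multiplicity one -/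

/-- All places over `j = c` have the maximal ramification `p` when no coset is fixed. -/
theorem ord_eq_of_no_fixed1 (D : RealizeData1 M) (H : DictHyp D) (z₀ : ℍ) (c : Kbar)
    (hc : jFun z₀ = iotaK c) (σ : SL(2, ℤ)) (hσz : σ • z₀ = z₀) (p : ℕ) (hp : p.Prime)
    (hσp : ∀ a : SL(2, ℤ) ⧸ PG1 M, σ ^ p • a = a) (hell : ellOrder z₀ = p)
    (hnofix : ∀ a : SL(2, ℤ) ⧸ PG1 M, σ • a ≠ a) (g : SL(2, ℤ)) :
    (pointPlaceD1 D z₀ c hc g).ord (jF1 M - algebraMap Kbar (FF1 M) c) = p := by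
  have hgen := isGen_jF1 H
  have hfin := finite_fibre hgen c
  have hsum := sum_ord_fibre hgen c
  rw [finrank_adjoin_jF1 H] at hsum
  have : Finite (SL(2, ℤ) ⧸ PG1 M) := finite_quotient_PG1 M
  have hle : ∀ a : SL(2, ℤ) ⧸ PG1 M,
      (pointPlaceDX1 D z₀ c hc a).1.ord (jF1 M - algebraMap Kbar (FF1 M) c) ≤
        (Nat.card (orbit (Subgroup.zpowers σ) a) : ℤ) := by
    intro a
    have e1 : Nat.card (orbit (Subgroup.zpowers σ) a) = p :=
      card_orbit_zpowers_of_prime hp (hσp a) (hnofix a)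
    rw [e1]
    have := pointPlaceDX1_ord_le D z₀ c hc a
    rw [hell] at this
    exact this
  have key := (pc_zero_count (K := Kbar) (jF1 M - algebraMap Kbar (FF1 M) c)
    (Nat.card (SL(2, ℤ) ⧸ PG1 M)) hfin hsum
    (X := SL(2, ℤ) ⧸ PG1 M) (G := Subgroup.zpowers σ) rfl
    (fun a => (pointPlaceDX1 D z₀ c hc a).1)
    (fun a => (pointPlaceDX1 D z₀ c hc a).2)
    (fun v hv => by
      obtain ⟨g', hg'⟩ := H.surj z₀ c hc v hv
      exact ⟨QuotientGroup.mk g', by rw [pointPlaceDX1_mk, hg']⟩)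
    (fun τ a => by
      obtain ⟨τ, hτ⟩ := τ
      obtain ⟨k, rfl⟩ := Subgroup.mem_zpowers_iff.mp hτ
      show (pointPlaceDX1 D z₀ c hc ((σ ^ k) • a)).1 = _
      have hfix : (σ ^ k) • z₀ = z₀ := by
        have : σ ^ k ∈ MulAction.stabilizer SL(2, ℤ) z₀ :=
          Subgroup.zpow_mem _ (MulAction.mem_stabilizer_iff.mpr hσz) k
        exact MulAction.mem_stabilizer_iff.mp this
      rw [pointPlaceDX1_smul_of_fixed D z₀ c hc (σ ^ k) hfix])
    hle).2
  have h2 := key (QuotientGroup.mk g)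
  have e1 : Nat.card (orbit (Subgroup.zpowers σ) (QuotientGroup.mk g : SL(2, ℤ) ⧸ PG1 M)) = p :=
    card_orbit_zpowers_of_prime hp (hσp _) (hnofix _)
  rw [pointPlaceDX1_mk, e1] at h2
  exact h2

/-- **Multiplicity one**: if `M ∤ 2`, `M ∤ 3`, every point place of `F₁` has multiplicity `1`. -/
theorem pointMultD1_eq_one (D : RealizeData1 M) (H : DictHyp D) (h1 : M ≠ 1) (h2 : ¬ M ∣ 2)
    (h3 : ¬ M ∣ 3) (z₀ : ℍ) (c : Kbar) (hc : jFun z₀ = iotaK c) (g : SL(2, ℤ)) :
    pointMultD1 D z₀ c hc g = 1 := by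
  have key := pointMultD1_mul_ord D z₀ c hc g
  have hpos := pointMultD1_pos D z₀ c hc g
  by_cases hρ : ∃ γ : SL(2, ℤ), γ • ptRho = z₀
  · obtain ⟨γ, rfl⟩ := hρ
    have hell : ellOrder (γ • ptRho) = 3 := by rw [ellOrder_smul, ellOrder_ptRho]
    have hσz : (γ * (S * T) * γ⁻¹) • (γ • ptRho) = γ • ptRho := by
      rw [← mul_smul, inv_mul_cancel_right, mul_smul, ho_ST_smul_ptRho]
    have hord := ord_eq_of_no_fixed1 D H (γ • ptRho) c hc (γ * (S * T) * γ⁻¹) hσz 3
      Nat.prime_three (conj_pow_smul_coset M (ST_cube_smul_coset M) γ) hell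
      (conj_ST_smul_ne M h1 h3 γ) g
    rw [hord, hell] at key
    have : (pointMultD1 D (γ • ptRho) c hc g : ℤ) = 1 := by
      push_cast at key
      linarith
    exact_mod_cast this
  · by_cases hI : ∃ γ : SL(2, ℤ), γ • ptI = z₀
    · obtain ⟨γ, rfl⟩ := hI
      have hell : ellOrder (γ • ptI) = 2 := by rw [ellOrder_smul, ellOrder_ptI]
      have hσz : (γ * S * γ⁻¹) • (γ • ptI) = γ • ptI := by
        rw [← mul_smul, inv_mul_cancel_right, mul_smul, ho_S_smul_ptI]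
      have hord := ord_eq_of_no_fixed1 D H (γ • ptI) c hc (γ * S * γ⁻¹) hσz 2
        Nat.prime_two (conj_pow_smul_coset M (S_sq_smul_coset M) γ) hell
        (conj_S_smul_ne M h2 γ) g
      rw [hord, hell] at key
      have : (pointMultD1 D (γ • ptI) c hc g : ℤ) = 1 := by
        push_cast at key
        linarith
      exact_mod_cast this
    · have hell : ellOrder z₀ = 1 := by
        unfold ellOrder
        rw [if_neg hρ, if_neg hI]
      rw [hell] at key
      have h1' : (0 : ℤ) ≤ pointMultD1 D z₀ c hc g := by positivity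
      have := Int.eq_one_of_mul_eq_one_right h1' (by exact_mod_cast key)
      exact_mod_cast this

/-- Multiplicity one, spec form: analytic order at `z₀` = order at the place. -/
theorem ordH_eq_ord1 (D : RealizeData1 M) (H : DictHyp D) (h1 : M ≠ 1) (h2 : ¬ M ∣ 2)
    (h3 : ¬ M ∣ 3) (z₀ : ℍ) (c : Kbar) (hc : jFun z₀ = iotaK c) (g : SL(2, ℤ)) (u : Rsub1 M)
    (hu : u ≠ 0) :
    ((ordH (compSL (D.Θ u) g⁻¹) z₀).toNat : ℤ) = (pointPlaceD1 D z₀ c hc g).ord (u : FF1 M) := by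
  have h := pointPlaceD1_spec D z₀ c hc g u hu
  rw [pointMultD1_eq_one D H h1 h2 h3 z₀ c hc g] at h
  simpa using h

/-- The numerical hypotheses hold when `4 ∣ M` or `9 ∣ M`. -/
theorem numerics_of_four_or_nine {M : ℕ} (h : 4 ∣ M ∨ 9 ∣ M) : M ≠ 1 ∧ ¬ M ∣ 2 ∧ ¬ M ∣ 3 := by
  refine ⟨?_, ?_, ?_⟩
  · rintro rfl
    rcases h with h | h <;> omega
  · intro h2
    have := Nat.le_of_dvd (by norm_num) h2
    rcases h with h | h <;> interval_cases M <;> omega
  · intro h3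
    have := Nat.le_of_dvd (by norm_num) h3
    rcases h with h | h <;> interval_cases M <;> omega

end Fermat.Agent.ES.R48.NoEllipticOne16
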