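/-
Programme R (S48, Deligne–Serre), chapter GEOM, sub-chapter G3 MODEL₁ / HORIZ₁ (helper16):
**the horizontal bridge over `ℚbar` for `X₁(M)`** — the twin of `RED/PUR/HorizUnram20` (its §Main),
producing the two hypotheses `hres`, `hsimple` of the generic file `HorizPlaceG16` for
`Fb = FF1 M`, `T = ffIncl M (tF M h)`.

Inputs: the point half of the dictionary G2 (`NoEllipticOne16.DictHyp D`), the cusp half in "spec"
form (`CuspSurjHyp C`: every place over `j = ∞` is a cusp place, i.e. its order function is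
`m⁻¹ · ord_{q_M} (C.T γ ·)` for some `γ`; one line from the `X₁`-twins of `X0/CuspSurj` and
`X0/CuspPlaces`), (B6) `Unbranched1` in unfolded form `hU`, and (B5) the cusp shapes `hC` of
`C.T γ t` (`X1CuspT26.cuspShape_T1`).  Outputs:

* `exists_ord_sub_pos_bar1` (= `hres`): residue fields of places of `F₁` are `ℚbar`;
* `exists_cv_eq_of_ord_jF1_neg` : at a place over `j = ∞` where `t - c` vanishes, `c` is a cusp value;
* `ord_sub_eq_one1` (= `hsimple`): zeros of `t - c` at non-cusp values are simple.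
-/
import Mathlib
import Fermat.Agent.RED.PUR.HorizUnram20
import Fermat.Agent.RED.BASE.TqTranscendental19
import Fermat.Agent.ES.R48.NoEllipticOne16

set_option autoImplicit false
set_option linter.unusedSectionVars false

open UpperHalfPlane hiding I
open scoped MatrixGroups IntermediateField

noncomputable section

namespace Fermat.Agent.ES.R48.HorizUnramOne16

open Fermat.Agent.X0 Fermat.Agent.X0.FF AlgebraicCurve
open Fermat.Agent.RED.BASE.Interface12 Fermat.Agent.RED.BASE.EtaQuot12
open Fermat.Agent.RED.PUR.HorizUnram20 (order_sub_nonpos_of_some order_sub_neg_of_none)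
open Fermat.Agent.ES.R48.X1Iface13 Fermat.Agent.ES.R48.NoEllipticOne16

variable {M : ℕ} [NeZero M]

/-- The cusp half of the dictionary G2, in "spec" form: every place of `F₁` over `j = ∞` is a cusp
place — its order function is a positive multiple of `f ↦ ord_{q_M} (C.T γ f)` for some
`γ ∈ SL(2, ℤ)`.  (From the `X₁`-twins of `X0/CuspSurj.exists_cuspPlace_eq` and
`X0/CuspPlaces.cuspPlace_spec`.) -/
def CuspSurjHyp {D : RealizeData1 M} (C : CuspData1 M D) : Prop :=
  ∀ v : Place Kbar (FF1 M), v.ord (jF1 M) < 0 →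
    ∃ (γ : SL(2, ℤ)) (m : ℕ), 0 < m ∧
      ∀ f : FF1 M, f ≠ 0 → ((C.T γ f).order : ℤ) = (m : ℤ) * v.ord f

/-- Value of `C.T γ` on constants (any `CuspData1`). -/
theorem T_const {D : RealizeData1 M} (C : CuspData1 M D) (γ : SL(2, ℤ)) (c : Kbar) :
    C.T γ (algebraMap Kbar (FF1 M) c) = HahnSeries.C c := by
  rw [Fermat.Agent.ES.R48.X1Integrality1.T_algebraMap M D C γ c]
  exact LaurentSeries.algebraMap_apply Kbar c

section Main

variable {n e : ℕ} [NeZero n] (cv : SL(2, ℤ) → Option Kbar)

/-- **(res)** residue fields of places of `F₁` are `ℚbar`. -/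
theorem exists_ord_sub_pos_bar1 {D : RealizeData1 M} (H : DictHyp D) (v : Place Kbar (FF1 M))
    (f : FF1 M) (hf : f ∈ v.toValuationSubring) :
    ∃ c : Kbar, f = algebraMap Kbar (FF1 M) c ∨ 0 < v.ord (f - algebraMap Kbar (FF1 M) c) :=
  FF.exists_ord_sub_pos (isGen_jF1 H) v hf

/-- At a place over `j = ∞` where `t - c` vanishes, `c` is a (finite) cusp value. -/
theorem exists_cv_eq_of_ord_jF1_neg {D : RealizeData1 M} (C : CuspData1 M D)
    (hS : CuspSurjHyp C) (h : TMem n e M)
    (hC : ∀ γ : SL(2, ℤ), CuspShape n (C.T γ (ffIncl M (tF M h))) (cv γ))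
    (v : Place Kbar (FF1 M)) (hv : v.ord (jF1 M) < 0) (c : Kbar)
    (hpos : 0 < v.ord (ffIncl M (tF M h) - algebraMap Kbar (FF1 M) c)) : ∃ γ, cv γ = some c := by
  obtain ⟨g, m, hm, hspec⟩ := hS v hv
  have hne : ffIncl M (tF M h) - algebraMap Kbar (FF1 M) c ≠ 0 := by
    intro h0
    rw [h0, Place.ord_zero] at hpos
    exact lt_irrefl _ hpos
  have hord := hspec _ hne
  rw [map_sub, T_const] at hord
  have hm' : (0 : ℤ) < m := by exact_mod_cast hm
  have hordpos : 0 < (C.T g (ffIncl M (tF M h)) - HahnSeries.C c).order := by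
    rw [hord]
    positivity
  refine ⟨g, ?_⟩
  have hshape := hC g
  rcases hcv : cv g with _ | c₀
  · rw [hcv] at hshape
    have := order_sub_neg_of_none (c := c) hshape
    omega
  · rw [hcv] at hshape
    by_cases hcc : c₀ = c
    · rw [hcc]
    · have := order_sub_nonpos_of_some hshape hcc
      omega

/-- **(simple)** zeros of `t - c` at non-cusp values are simple. -/
theorem ord_sub_eq_one1 {D : RealizeData1 M} (C : CuspData1 M D) (hS : CuspSurjHyp C)
    (h : TMem n e M)
    (hU : ∀ v : Place Kbar (FF1 M), 0 ≤ v.ord (jF1 M) →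
      ∃ c : Kbar, v.ord (ffIncl M (tF M h) - algebraMap Kbar (FF1 M) c) = 1)
    (hC : ∀ γ : SL(2, ℤ), CuspShape n (C.T γ (ffIncl M (tF M h))) (cv γ))
    (v : Place Kbar (FF1 M)) (c : Kbar) (hnc : ∀ γ, cv γ ≠ some c)
    (hpos : 0 < v.ord (ffIncl M (tF M h) - algebraMap Kbar (FF1 M) c)) :
    v.ord (ffIncl M (tF M h) - algebraMap Kbar (FF1 M) c) = 1 := by
  by_cases hv : 0 ≤ v.ord (jF1 M)
  · obtain ⟨c', hc'⟩ := hU v hv
    by_cases hcc : c' = c
    · rw [← hcc]; exact hc'
    · exfalso
      have hconst : algebraMap Kbar (FF1 M) (c' - c) ≠ 0 := by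
        rw [Ne, map_eq_zero]
        exact sub_ne_zero.mpr hcc
      have h0 : v.ord (algebraMap Kbar (FF1 M) (c' - c)) = 0 := ffp_ord_algebraMap v _
      have hlt : v.ord (algebraMap Kbar (FF1 M) (c' - c))
          < v.ord (ffIncl M (tF M h) - algebraMap Kbar (FF1 M) c') := by
        rw [h0, hc']; exact zero_lt_one
      have := ffp_ord_add_eq_of_lt v hconst hlt
      rw [h0] at this
      have heq : algebraMap Kbar (FF1 M) (c' - c) +
          (ffIncl M (tF M h) - algebraMap Kbar (FF1 M) c')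
          = ffIncl M (tF M h) - algebraMap Kbar (FF1 M) c := by
        rw [map_sub]; ring
      rw [heq] at this
      omega
  · exfalso
    obtain ⟨γ, hγ⟩ := exists_cv_eq_of_ord_jF1_neg cv C hS h hC v (not_le.mp hv) c hpos
    exact hnc γ hγ

/-- The Hauptmodul is not constant in `F₁`. -/
theorem tF1_ne_const (h : TMem n e M) (c : Kbar) :
    ffIncl M (tF M h) ≠ algebraMap Kbar (FF1 M) c := by
  intro heq
  have h1 : ffIncl M (tF M h) = ffIncl M (algebraMap Kbar (FF M) c) := by
    rw [heq, AlgHom.commutes]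
  have h2 : tF M h = algebraMap Kbar (FF M) c := ffIncl_injective M h1
  have h3 : tq Kbar n e = algebraMap Kbar (LaurentSeries Kbar) c := congrArg Subtype.val h2
  exact Fermat.Agent.RED.BASE.TqTranscendental19.transcendental_tq Kbar n e
    (h3 ▸ isAlgebraic_algebraMap c)

end Main

end Fermat.Agent.ES.R48.HorizUnramOne16
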