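/-
Programme R (S48, Deligne–Serre), chapter GEOM, sub-chapter G3 MODEL₁ / BASE (helper16), item (B6):
**the Hauptmodul of `X₀(4)` / `X₀(9)` is unbranched on `X₁(M)`** — the twin of
`Fermat/Agent/RED/BASE/Unbranched14.lean` + `UnbranchedMain14.lean`.

Setting: a base level `N₀` (on `Γ₀`, main AS-IS: `FF N₀`, `RealizeData N₀`, no elliptic points) and
the level `M` on `±Γ₁(M)` (`FF1 M`, `D : RealizeData1 M`, `M ∤ 2`, `M ∤ 3`), a holomorphic function
`τ : ℍ → ℂ` realising an element `t₀` of `FF N₀` generating it (degree one) and an element `t` of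
`FF1 M`.  Then at every place `v` of `FF1 M` which is not a pole of `j`, and every constant `c`:
`0 < ord_v (t - c) → ord_v (t - c) = 1`; and `t` has a value at `v`.

Proof: the point places of `±Γ₁(M)` have multiplicity one (`NoEllipticOne16`), so
`ord_v (t - c) = ord_{z₀} ((τ - c) ∘ g⁻¹)`; the same holds at level `N₀` (main), where it is
`≤ [FF N₀ : ℚbar(t₀)] = 1`.

Literal export: `Unbranched1 n e M` (twin of `Interface12.Unbranched n e M`), for
`ffIncl M (tF M h) ∈ FF1 M`.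
-/
import Mathlib
import Fermat.Agent.RED.BASE.UnbranchedMain14
import Fermat.Agent.RED.BASE.Main12
import Fermat.Agent.ES.R48.NoEllipticOne16
import Fermat.Agent.ES.R48.X1Restrict13

set_option autoImplicit false
set_option linter.unusedSectionVars false

open UpperHalfPlane hiding I
open scoped MatrixGroups IntermediateField

namespace Fermat.Agent.ES.R48.UnbranchedOne16

open Fermat.Agent.X0 Fermat.Agent.X0.FF AlgebraicCurve
open Fermat.Agent.ES.R48.X1Iface13 Fermat.Agent.ES.R48.X1PointPlaces1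
  Fermat.Agent.ES.R48.X1PointPlacesD1 Fermat.Agent.ES.R48.NoEllipticOne16
  Fermat.Agent.ES.R48.X1Restrict13
open Fermat.Agent.RED.BASE.Unbranched14 (IsRealizedBy ord_eq_one_of_finrank_eq_one)

variable {M : ℕ} [NeZero M]

/-! ### Elements of `F₁` realised by a holomorphic function -/

/-- `t ∈ FF1 M` is the modular function `τ`: `t = a / b` with `a, b ∈ R₁`, `Θ a = Θ b · τ`. -/
def IsRealizedBy1 (D : RealizeData1 M) (t : FF1 M) (τ : ℍ → ℂ) : Prop :=
  ∃ a b : Rsub1 M, b ≠ 0 ∧ t * (b : FF1 M) = (a : FF1 M) ∧ ∀ z, D.Θ a z = D.Θ b z * τ z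

theorem isRealizedBy1_coe (D : RealizeData1 M) (u : Rsub1 M) :
    IsRealizedBy1 D (u : FF1 M) (D.Θ u) :=
  ⟨u, 1, one_ne_zero, by simp, fun z => by simp⟩

/-- Two realisations of `R = ℚbar[j_d]` agree (they agree on constants and on the generators). -/
theorem realizeData_Θ_eq {N : ℕ} [NeZero N] (D D' : RealizeData N) (u : Rsub N) :
    D.Θ u = D'.Θ u := by
  have key : ∀ x : FF N, ∀ hx : x ∈ Rsub N, D.Θ ⟨x, hx⟩ = D'.Θ ⟨x, hx⟩ := by
    intro x hx
    unfold Rsub at hx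
    induction hx using Algebra.adjoin_induction with
    | mem y hy =>
        obtain ⟨d, hne, hd, rfl⟩ := hy
        have e : (⟨jdF N d hd, Algebra.subset_adjoin ⟨d, hne, hd, rfl⟩⟩ : Rsub N) = jdR N d hd :=
          rfl
        rw [e, D.jd_eq, D'.jd_eq]
    | algebraMap c =>
        have e : (⟨algebraMap Kbar (FF N) c, Subalgebra.algebraMap_mem _ c⟩ : Rsub N)
            = algebraMap Kbar (Rsub N) c := rfl
        rw [e, D.algebraMap_eq, D'.algebraMap_eq]
    | add y z hy hz ihy ihz =>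
        have e : (⟨y + z, Subalgebra.add_mem _ hy hz⟩ : Rsub N) = ⟨y, hy⟩ + ⟨z, hz⟩ := rfl
        rw [e, map_add, map_add, ihy, ihz]
    | mul y z hy hz ihy ihz =>
        have e : (⟨y * z, Subalgebra.mul_mem _ hy hz⟩ : Rsub N) = ⟨y, hy⟩ * ⟨z, hz⟩ := rfl
        rw [e, map_mul, map_mul, ihy, ihz]
  exact key u.1 u.2

/-- An element of `FF M` realised by `τ` (for ANY realisation of `R`) is realised by `τ` in
`FF1 M`. -/
theorem isRealizedBy1_ffIncl (D : RealizeData1 M) (D' : RealizeData M) {t : FF M} {τ : ℍ → ℂ}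
    (h : IsRealizedBy D' t τ) : IsRealizedBy1 D (ffIncl M t) τ := by
  obtain ⟨a, b, hb, hab, hΘ⟩ := h
  refine ⟨rsubIncl M a, rsubIncl M b, ?_, ?_, fun z => ?_⟩
  · intro h0
    apply hb
    apply Subtype.ext
    apply ffIncl_injective M
    have := congrArg (fun u : Rsub1 M => (u : FF1 M)) h0
    simpa using this
  · rw [coe_rsubIncl, coe_rsubIncl, ← map_mul, hab]
  · have e1 := realizeData_Θ_eq (restrictR M D) D' a
    have e2 := realizeData_Θ_eq (restrictR M D) D' b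
    rw [restrictR_Θ] at e1 e2
    rw [e1, e2]
    exact hΘ z

/-- **(B1)** The order of `t - c` at a point place of `F₁` is the analytic order of
`(τ - c) ∘ g⁻¹` at `z₀`. -/
theorem ord_sub_eq_ordH1 (D : RealizeData1 M) (H : DictHyp D) (h1 : M ≠ 1) (h2 : ¬ M ∣ 2)
    (h3 : ¬ M ∣ 3) {t : FF1 M} {τ : ℍ → ℂ} (hτ : τ ∈ HolH) (ht : IsRealizedBy1 D t τ)
    (z₀ : ℍ) (cj : Kbar) (hc : jFun z₀ = iotaK cj) (g : SL(2, ℤ)) (c : Kbar)
    (hne : t - algebraMap Kbar (FF1 M) c ≠ 0) :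
    (pointPlaceD1 D z₀ cj hc g).ord (t - algebraMap Kbar (FF1 M) c) =
      ((ordH (compSL (fun z => τ z - iotaK c) g⁻¹) z₀).toNat : ℤ) := by
  obtain ⟨a, b, hb, hab, hΘ⟩ := ht
  set v := pointPlaceD1 D z₀ cj hc g with hv
  set u : Rsub1 M := a - algebraMap Kbar (Rsub1 M) c * b with hu
  have hbF : (b : FF1 M) ≠ 0 := fun h => hb (Subtype.ext h)
  -- algebraic side
  have hmul : (t - algebraMap Kbar (FF1 M) c) * (b : FF1 M) = (u : FF1 M) := by
    rw [hu, sub_mul, hab]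
    push_cast
    rfl
  have huF : (u : FF1 M) ≠ 0 := by
    rw [← hmul]
    exact mul_ne_zero hne hbF
  have hu0 : u ≠ 0 := fun h => huF (by rw [h]; rfl)
  have hord : v.ord (t - algebraMap Kbar (FF1 M) c) + v.ord (b : FF1 M) = v.ord (u : FF1 M) := by
    rw [← hmul, Place.ord_mul v hne hbF]
  -- analytic side
  have hΘu : D.Θ u = D.Θ b * fun z => τ z - iotaK c := by
    rw [hu, map_sub, map_mul, D.algebraMap_eq]
    funext z
    simp only [Pi.sub_apply, Pi.mul_apply, hΘ z]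
    ring
  have hσ : (fun z => τ z - iotaK c) ∈ HolH :=
    HolH.sub_mem hτ (HolH.algebraMap_mem (iotaK c))
  have hcomp : compSL (D.Θ u) g⁻¹ =
      compSL (D.Θ b) g⁻¹ * compSL (fun z => τ z - iotaK c) g⁻¹ := by
    rw [hΘu, compSL_mul_fun]
  have hordH : ordH (compSL (D.Θ u) g⁻¹) z₀ =
      ordH (compSL (D.Θ b) g⁻¹) z₀ + ordH (compSL (fun z => τ z - iotaK c) g⁻¹) z₀ := by
    rw [hcomp, ordH_mul (compSL_mem_HolH (D.mem_HolH b) g⁻¹) (compSL_mem_HolH hσ g⁻¹)]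
  have htopu := ordH_ne_top_D1 D z₀ g u hu0
  have htopb := ordH_ne_top_D1 D z₀ g b hb
  have htopσ : ordH (compSL (fun z => τ z - iotaK c) g⁻¹) z₀ ≠ ⊤ := by
    intro h
    rw [h, add_top] at hordH
    exact htopu hordH
  have e1 := ordH_eq_ord1 D H h1 h2 h3 z₀ cj hc g u hu0
  have e2 := ordH_eq_ord1 D H h1 h2 h3 z₀ cj hc g b hb
  have e3 : ((ordH (compSL (D.Θ u) g⁻¹) z₀).toNat : ℤ) =
      ((ordH (compSL (D.Θ b) g⁻¹) z₀).toNat : ℤ) +
        ((ordH (compSL (fun z => τ z - iotaK c) g⁻¹) z₀).toNat : ℤ) := by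
    rw [hordH, ENat.toNat_add htopb htopσ]
    push_cast
    rfl
  rw [← hv] at e1 e2
  linarith

/-- Every place of `FF1 M` that is not a pole of `j` is a point place. -/
theorem exists_pointPlaceD1_eq_of_ord_nonneg (D : RealizeData1 M) (H : DictHyp D)
    (v : Place Kbar (FF1 M)) (hv : 0 ≤ v.ord (jF1 M)) :
    ∃ (z₀ : ℍ) (cj : Kbar) (hc : jFun z₀ = iotaK cj) (g : SL(2, ℤ)),
      pointPlaceD1 D z₀ cj hc g = v := by
  have hgen := isGen_jF1 H
  have hmem : jF1 M ∈ v.toValuationSubring := (ffp_mem_iff_ord_nonneg v).mpr hv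
  obtain ⟨cj, hcj | hcj⟩ := exists_ord_sub_pos hgen v hmem
  · exfalso
    apply transcendental_jF1 M
    rw [hcj]
    exact isAlgebraic_algebraMap cj
  · obtain ⟨z₀, hz₀⟩ := jFun_surjective (iotaK cj)
    obtain ⟨g, hg⟩ := H.surj z₀ cj hz₀ v hcj
    exact ⟨z₀, cj, hz₀, g, hg⟩

/-- **(B6), two-level form.** `t₀ ∈ FF N₀` of degree one (level `N₀` on `Γ₀`, without elliptic
points) and `t ∈ FF1 M` are realised by the same holomorphic function: then `t` is unbranched at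
all places of `FF1 M` that are not poles of `j`. -/
theorem ord_sub_eq_one1 {N₀ : ℕ} [NeZero N₀] (D : RealizeData1 M) (H : DictHyp D)
    (D₀ : RealizeData N₀) (C₀ : CuspData N₀ D₀)
    (h1 : M ≠ 1) (h2 : ¬ M ∣ 2) (h3 : ¬ M ∣ 3)
    (h2₀ : ModularCurve.nuTwo N₀ = 0) (h3₀ : ModularCurve.nuThree N₀ = 0)
    {t : FF1 M} {t₀ : FF N₀} {τ : ℍ → ℂ} (hτ : τ ∈ HolH)
    (ht : IsRealizedBy1 D t τ) (ht₀ : IsRealizedBy D₀ t₀ τ)
    (hgen : IsGen Kbar t₀) (hdeg : Module.finrank Kbar⟮t₀⟯ (FF N₀) = 1)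
    (v : Place Kbar (FF1 M)) (hv : 0 ≤ v.ord (jF1 M)) (c : Kbar)
    (hpos : 0 < v.ord (t - algebraMap Kbar (FF1 M) c)) :
    v.ord (t - algebraMap Kbar (FF1 M) c) = 1 := by
  obtain ⟨z₀, cj, hc, g, rfl⟩ := exists_pointPlaceD1_eq_of_ord_nonneg D H v hv
  have hne : t - algebraMap Kbar (FF1 M) c ≠ 0 := by
    intro h
    rw [h, Place.ord_zero] at hpos
    exact lt_irrefl _ hpos
  have hne₀ : t₀ - algebraMap Kbar (FF N₀) c ≠ 0 := by
    intro h
    apply hgen.transcendental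
    rw [sub_eq_zero.mp h]
    exact isAlgebraic_algebraMap c
  have e := ord_sub_eq_ordH1 D H h1 h2 h3 hτ ht z₀ cj hc g c hne
  have e₀ := Fermat.Agent.RED.BASE.Unbranched14.ord_sub_eq_ordH D₀ C₀ h2₀ h3₀ hτ ht₀ z₀ cj hc g c
    hne₀
  rw [e] at hpos ⊢
  rw [← e₀] at hpos ⊢
  exact ord_eq_one_of_finrank_eq_one hgen hdeg c _ hpos

/-- A function realised by a holomorphic `τ` has no pole at a point place. -/
theorem ord_nonneg_of_isRealizedBy1 (D : RealizeData1 M) (H : DictHyp D)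
    (h1 : M ≠ 1) (h2 : ¬ M ∣ 2) (h3 : ¬ M ∣ 3)
    {t : FF1 M} {τ : ℍ → ℂ} (hτ : τ ∈ HolH) (ht : IsRealizedBy1 D t τ)
    (z₀ : ℍ) (cj : Kbar) (hc : jFun z₀ = iotaK cj) (g : SL(2, ℤ)) :
    0 ≤ (pointPlaceD1 D z₀ cj hc g).ord t := by
  rcases eq_or_ne t 0 with rfl | h0
  · rw [Place.ord_zero]
  have hne : t - algebraMap Kbar (FF1 M) 0 ≠ 0 := by rwa [map_zero, sub_zero]
  have e := ord_sub_eq_ordH1 D H h1 h2 h3 hτ ht z₀ cj hc g 0 hne
  rw [map_zero, sub_zero] at e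
  rw [e]
  positivity

/-- If `t` is realised by `τ` and is a constant, then `τ` is that constant. -/
theorem eq_const_of_isRealizedBy1 (D : RealizeData1 M) {t : FF1 M} {τ : ℍ → ℂ} (hτ : τ ∈ HolH)
    (ht : IsRealizedBy1 D t τ) (c : Kbar) (htc : t = algebraMap Kbar (FF1 M) c) :
    τ = fun _ => iotaK c := by
  obtain ⟨a, b, hb, hab, hΘ⟩ := ht
  have hab' : a = algebraMap Kbar (Rsub1 M) c * b := by
    apply Subtype.ext
    rw [← hab, htc]
    push_cast
    rfl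
  have hΘb : D.Θ b ≠ 0 := fun h => hb (D.injective (by rw [h, map_zero]))
  have hσ : (fun z => τ z - iotaK c) ∈ HolH :=
    HolH.sub_mem hτ (HolH.algebraMap_mem (iotaK c))
  have hprod : D.Θ b * (fun z => τ z - iotaK c) = 0 := by
    funext z
    have h1 := hΘ z
    rw [hab', map_mul, D.algebraMap_eq] at h1
    simp only [Pi.mul_apply, Pi.zero_apply] at h1 ⊢
    linear_combination -h1
  rcases mul_eq_zero_HolH (D.mem_HolH b) hσ hprod with h | h
  · exact absurd h hΘb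
  · funext z
    have := congrFun h z
    simp only [Pi.zero_apply] at this
    linear_combination this

/-- Transcendence transfers from `t₀ ∈ FF N₀` to `t ∈ FF1 M` realised by the same function. -/
theorem transcendental_of_isRealizedBy1 {N₀ : ℕ} [NeZero N₀] (D : RealizeData1 M)
    (D₀ : RealizeData N₀) {t : FF1 M} {t₀ : FF N₀} {τ : ℍ → ℂ} (hτ : τ ∈ HolH)
    (ht : IsRealizedBy1 D t τ) (ht₀ : IsRealizedBy D₀ t₀ τ) (htr : Transcendental Kbar t₀) :
    Transcendental Kbar t := by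
  intro halg
  obtain ⟨c, hc⟩ := eq_algebraMap_of_isAlgebraic halg
  have hconst := eq_const_of_isRealizedBy1 D hτ ht c hc
  rw [hconst] at ht₀
  apply htr
  rw [Fermat.Agent.RED.BASE.Unbranched14.eq_algebraMap_of_isRealizedBy_const D₀ c ht₀]
  exact isAlgebraic_algebraMap c

/-- **(B6)**: at every place `v` of `FF1 M` that is not a pole of `j`, `t` has a value `c` and
`t - c` is a uniformiser at `v`. -/
theorem exists_ord_sub_eq_one1 {N₀ : ℕ} [NeZero N₀] (D : RealizeData1 M) (H : DictHyp D)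
    (D₀ : RealizeData N₀) (C₀ : CuspData N₀ D₀)
    (h1 : M ≠ 1) (h2 : ¬ M ∣ 2) (h3 : ¬ M ∣ 3)
    (h2₀ : ModularCurve.nuTwo N₀ = 0) (h3₀ : ModularCurve.nuThree N₀ = 0)
    {t : FF1 M} {t₀ : FF N₀} {τ : ℍ → ℂ} (hτ : τ ∈ HolH)
    (ht : IsRealizedBy1 D t τ) (ht₀ : IsRealizedBy D₀ t₀ τ)
    (hgen : IsGen Kbar t₀) (hdeg : Module.finrank Kbar⟮t₀⟯ (FF N₀) = 1)
    (v : Place Kbar (FF1 M)) (hv : 0 ≤ v.ord (jF1 M)) :
    ∃ c : Kbar, v.ord (t - algebraMap Kbar (FF1 M) c) = 1 := by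
  have htr := transcendental_of_isRealizedBy1 D D₀ hτ ht ht₀ hgen.transcendental
  have hgenj := isGen_jF1 H
  have htv : 0 ≤ v.ord t := by
    obtain ⟨z₀, cj, hc, g, rfl⟩ := exists_pointPlaceD1_eq_of_ord_nonneg D H v hv
    exact ord_nonneg_of_isRealizedBy1 D H h1 h2 h3 hτ ht z₀ cj hc g
  have hmem : t ∈ v.toValuationSubring := (ffp_mem_iff_ord_nonneg v).mpr htv
  obtain ⟨c, hc | hc⟩ := exists_ord_sub_pos hgenj v hmem
  · exfalso
    apply htr
    rw [hc]
    exact isAlgebraic_algebraMap c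
  · exact ⟨c, ord_sub_eq_one1 D H D₀ C₀ h1 h2 h3 h2₀ h3₀ hτ ht ht₀ hgen hdeg v hv c hc⟩

/-! ### The literal export -/

section Export

open Fermat.Agent.RED.BASE.Interface12 Fermat.Agent.RED.BASE.EtaQuot12
  Fermat.Agent.RED.BASE.UnbranchedMain14

variable {n e : ℕ} [NeZero n]

variable (n e)

/-- (B6) for `X₁(M)`: at every place of `F₁` which is not over `j = ∞`, `t` is regular and
`t - t(v)` is a uniformiser.  Twin of `Interface12.Unbranched n e M`. -/
def Unbranched1 (M : ℕ) [NeZero M] : Prop :=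
  ∃ h : TMem n e M, ∀ v : Place Kbar (FF1 M), 0 ≤ v.ord (jF1 M) →
    ∃ c : Kbar, v.ord (ffIncl M (tF M h) - algebraMap Kbar (FF1 M) c) = 1

/-- **(B6)** for `X₁(M)`, literal shape. -/
theorem unbranched1 (M : ℕ) [NeZero M] (hn : 4 ∣ n ∨ 9 ∣ n) (hnM : n ∣ M)
    (D : RealizeData1 M) (H : DictHyp D)
    (hR₀ : TRealize n e n) (hR : TRealize n e M) (hG : TGenBase n e) : Unbranched1 n e M := by
  have hM : 4 ∣ M ∨ 9 ∣ M := hn.imp (fun h => h.trans hnM) (fun h => h.trans hnM)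
  obtain ⟨h1, h2, h3⟩ := numerics_of_four_or_nine hM
  obtain ⟨h₀, a₀, b₀, hb₀, hab₀, hΘ₀⟩ := hR₀
  obtain ⟨h, a, b, hb, hab, hΘ⟩ := hR
  obtain ⟨h₀', htop⟩ := hG
  obtain ⟨hgen, hdeg⟩ := isGen_of_adjoin_eq_top (transcendental_jF n) htop
  refine ⟨h, fun v hv => ?_⟩
  have ht : IsRealizedBy1 D (ffIncl M (tF M h)) (tauFun n e) :=
    isRealizedBy1_ffIncl D (realizeData M) ⟨a, b, hb, hab, hΘ⟩
  exact exists_ord_sub_eq_one1 D H (realizeData n) (cuspData n) h1 h2 h3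
    (nuTwo_eq_zero hn) (nuThree_eq_zero hn)
    (tauFun_mem_HolH n e) ht ⟨a₀, b₀, hb₀, hab₀, hΘ₀⟩ hgen hdeg v hv

/-- **(B6)** for `X₁(M)` at `(n, e) = (4, 8)` or `(9, 3)`: the only inputs are the G2 facts
`DictHyp D` (everything about the Hauptmodul comes from main's `Main12.baseExports`). -/
theorem unbranched1_of_baseHyp {n e : ℕ} [NeZero n]
    (hb : Fermat.Agent.RED.BASE.Hauptmodul12.BaseHyp n e) (M : ℕ) [NeZero M] (hnM : n ∣ M)
    (D : RealizeData1 M) (H : DictHyp D) : Unbranched1 n e M := by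
  have hB := Fermat.Agent.RED.BASE.Main12.baseExports hb M hnM
  exact unbranched1 n e M hb.four_or_nine hnM D H hB.realizeBase hB.realize hB.genBase

end Export

end Fermat.Agent.ES.R48.UnbranchedOne16
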