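/-
Programme R (S48, Deligne–Serre), chapter GEOM, sub-chapter G3 MODEL₁ / HORIZ₁ (helper16):
**the three horizontal inputs for `K · F1 M`, concrete** — the twin of
`RED/CUSP/HorizConcrete26.hH_all`; deliverable `G3Defs4.HorizTarget1 n e M A cv`.

For all number fields `K ⊇ K₀` (`K₀` contains the finitely many finite cusp values), every
uniformiser `ϖ` of `A_K = AK A K` and the Hauptmodul `t = tq K n e ∈ FK1 M K`:

* `HUNROff (AK A K) (FK1 M K) ϖ t (cuspSet A K cv)`,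
* `∀ c ∈ cuspSet A K cv, HUNRCusp (AK A K) (FK1 M K) ϖ t c`,
* `HUNRCusp (AK A K) (FK1 M K) ϖ t⁻¹ 0`.

Inputs: main's BASE chapter AS-IS (`Main12.baseExports`, `MainCusp12.CuspExports n e M cv` — the
cusp values `cv` and their separation are level-`Γ₀` data), and for `X₁(M)`:
`(D₁ : RealizeData1 M) (C₁ : CuspData1 M D₁)` with the two halves of the dictionary G2
(`NoEllipticOne16.DictHyp D₁`, `HorizUnramOne16.CuspSurjHyp C₁`).  Through: `UnbranchedOne16`
(B6), `X1CuspT26.cuspShape_T1'` (B5), `HorizUnramOne16` (res/simple), `PlaceExtendG7` (EXT) and the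
generic conversions `HorizPlaceG16`.
-/
import Mathlib
import Fermat.Agent.RED.CUSP.HorizConcrete26
import Fermat.Agent.ES.R48.G3Defs4
import Fermat.Agent.ES.R48.HorizPlaceG16
import Fermat.Agent.ES.R48.HorizUnramOne16
import Fermat.Agent.ES.R48.UnbranchedOne16
import Fermat.Agent.ES.R48.X1CuspT26
import Fermat.Agent.ES.R48.PlaceExtendG7

set_option autoImplicit false
set_option linter.unusedSectionVars false
set_option linter.unusedVariables false
set_option linter.style.haveILetI false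

open UpperHalfPlane hiding I
open scoped MatrixGroups IntermediateField
open Polynomial

noncomputable section

namespace Fermat.Agent.ES.R48.HorizConcreteOne16

open Fermat.Agent.X0 Fermat.Agent.X0.FF AlgebraicCurve
open Fermat.Agent.RED.Interface4 Fermat.Agent.RED.ModelTargets4
open Fermat.Agent.RED.BASE Fermat.Agent.RED.BASE.Interface12 Fermat.Agent.RED.BASE.EtaQuot12
open Fermat.Agent.RED.BASE.Hauptmodul12
open Fermat.Agent.RED.CUSP.PolyToPS16 Fermat.Agent.RED.CUSP.CuspIface23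
open Fermat.Agent.RED.CUSP.HunrGeneric26
open Fermat.Agent.RED.PUR.OffIface4
open Fermat.Agent.RED.DESC.PlaceExtend27 Fermat.Agent.RED.DESC.NumberFieldDVR27
open Fermat.Agent.RED.NumInst4
open Fermat.Agent.ES.R48.FF1Defs13 Fermat.Agent.ES.R48.X1Iface13 Fermat.Agent.ES.R48.G3Defs4
open Fermat.Agent.ES.R48.NoEllipticOne16 Fermat.Agent.ES.R48.UnbranchedOne16
open Fermat.Agent.ES.R48.HorizUnramOne16 Fermat.Agent.ES.R48.HorizPlaceG16
open Fermat.Agent.ES.R48.PlaceExtendG7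

variable {n e : ℕ} [NeZero n] {M : ℕ} [NeZero M] {A : ValuationSubring Qbar}

/-- The Hauptmodul over `K` maps to the Hauptmodul over `ℚ̄` (in `F₁`). -/
theorem baseChangeHomG_eq_tF1 (K : IntermediateField ℚ Qbar) (h : TMem n e M) (t : ↥(FK1 M K))
    (ht : (t : LaurentSeries K) = tq K n e) :
    baseChangeHomG (F1 M) K t = ffIncl M (tF M h) := by
  apply Subtype.ext
  rw [coe_baseChangeHomG, ht, coe_ffIncl]
  exact coeffMap_tq ↥K (algebraMap K Qbar) n e

/-- **All three horizontal inputs at once, for `X₁(M)`.** -/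
theorem hH_all1 (hb : BaseHyp n e) (hnM : n ∣ M) {ℓ : ℕ} [Fact ℓ.Prime] (hℓM : ¬ ℓ ∣ M)
    (hA : A.LiesOverPrime ℓ) (cv : SL(2, ℤ) → Option Kbar)
    (hcv : MainCusp12.CuspExports n e M cv)
    (D₁ : RealizeData1 M) (C₁ : CuspData1 M D₁) (H : DictHyp D₁) (hS : CuspSurjHyp C₁) :
    HorizTarget1 n e M A cv := by
  classical
  have hℓ : ℓ.Prime := Fact.out
  have hB := Main12.baseExports hb M hnM
  obtain ⟨S, hS'⟩ := CuspFinite12.exists_finset_cuspValues cv hcv.cuspExp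
  obtain ⟨K₀, hK₀fd, -, hK₀S⟩ := exists_numberField (⊥ : IntermediateField ℚ Qbar) S
  refine ⟨K₀, hK₀fd, fun K hKfd hle ϖ hϖ t htq => ?_⟩
  have hdvr : IsDiscreteValuationRing ↥(AK A K) := isDiscreteValuationRing_AK A K hℓ.ne_zero hA
  have hn0 : n ≠ 0 := NeZero.ne n
  have hℓn : ¬ ℓ ∣ n := fun h => hℓM (h.trans hnM)
  have hnA : ((n : Qbar))⁻¹ ∈ A := inv_natCast_mem hℓ hA n hℓn
  have h : TMem n e M := hB.mem
  obtain ⟨_, hU⟩ := unbranched1_of_baseHyp hb M hnM D₁ H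
  obtain ⟨_, hC⟩ := hcv.cuspExp
  have hC₁ : ∀ γ : SL(2, ℤ), CuspShape n (C₁.T γ (ffIncl M (tF M h))) (cv γ) :=
    fun γ => Fermat.Agent.ES.R48.X1CuspT26.cuspShape_T1' C₁ hcv.cuspExp h γ
  have hres := exists_ord_sub_pos_bar1 H
  have hsimple := ord_sub_eq_one1 cv C₁ hS h hU hC₁
  have hconst : ∀ c : Kbar, ffIncl M (tF M h) ≠ algebraMap Kbar (FF1 M) c := tF1_ne_const h
  have hcvA : ∀ γ c, cv γ = some c → ∃ a : ↥(AK A K), algebraMap ↥K Kbar (a : ↥K) = c := by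
    intro γ c hγ
    have hcK : c ∈ K := hle (hK₀S c (hS' γ c hγ))
    have hcA : c ∈ A :=
      (Fermat.Agent.RED.CUSP.HorizConcrete26.isIntAway_of_cv cv h hC γ c hγ).mem_of_inv_mem A hnA
        hn0
    exact ⟨⟨⟨c, hcK⟩, (mem_AK_iff A K _).mpr hcA⟩, rfl⟩
  have hbc : ∀ a : ↥K, baseChangeHomG (F1 M) K (algebraMap ↥K ↥(FK1 M K) a) =
      algebraMap Kbar (FF1 M) (algebraMap ↥K Kbar a) := fun a => baseChangeHomG_algebraMap (F1 M) K a
  have ht : baseChangeHomG (F1 M) K t = ffIncl M (tF M h) := baseChangeHomG_eq_tF1 K h t htq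
  have hExt : ∀ w : Place ↥K ↥(FK1 M K), ∃ (v : Place Kbar (FF1 M)) (d : ℕ), 0 < d ∧
      ∀ f : ↥(FK1 M K), v.ord (baseChangeHomG (F1 M) K f) = (d : ℤ) * w.ord f :=
    fun w => exists_place_aboveG (F1 M) K ⟨jF1 M, isGen_jF1 H⟩ w
  have hπ0 : ϖ ≠ 0 := hϖ.ne_zero
  haveI : Algebra.IsAlgebraic ↥K Kbar := isAlgebraic_Qbar_over K
  have hK : ∀ a : ↥K, ∃ (r : ↥(AK A K)) (k : ℕ), a * (ϖ : ↥K) ^ k = (r : ↥K) :=
    hK_of_irreducible (AK A K) hϖ
  refine ⟨?_, ?_, ?_⟩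
  · exact hunrOff_of_horizG cv (ffIncl M (tF M h)) hres hsimple hconst hcvA
      (baseChangeHomG (F1 M) K) hbc t ht hExt ϖ hπ0 hK (cuspSet A K cv) (fun a ha => ha)
  · intro c hc
    exact hunrCusp_of_horizG cv (ffIncl M (tF M h)) hres hsimple hconst hcvA
      (baseChangeHomG (F1 M) K) hbc t ht hExt ϖ hπ0 hK c
      (fun a ha => Fermat.Agent.RED.CUSP.CuspSide23.hP_over A hn0 hnA cv hcv.separated hϖ hc a ha)
  · exact hunrCusp_inv_of_horizG cv (ffIncl M (tF M h)) hres hsimple hconst hcvA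
      (baseChangeHomG (F1 M) K) hbc t ht hExt ϖ hπ0 hϖ.not_isUnit hK

end Fermat.Agent.ES.R48.HorizConcreteOne16
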