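/-
Programme R (S48, Deligne–Serre), chapter GEOM, sub-chapter G2 DICT₁ (helper1): **places of
`F₁ = ℚbar(j_d, W_c)` coming from points of the upper half plane** — the twin of
`Fermat/Agent/X0/PointPlaces.lean` (helper23, Program C) for `X₁(M)`.

MECHANICAL TWIN.  The generic `Extension` section of `X0/PointPlaces` (`OrdFunPlace`, `pp_coe_ne_zero`,
`pp_exists_div`, `pp_exists_extension`, `pp_exists_place`, `pp_place_unique`) and the lemmas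
`scaleH_one`, `jdFun_one`, `compSL_inv_cancel`, `compSL_jFun_sub` are imported AS-IS; the rest of
that file is reproduced with the substitutions
`Rsub N ↦ Rsub1 M`, `FF N ↦ FF1 M`, `jF N ↦ jF1 M`, `Gamma0 N ↦ PG1 M` (`= ±Γ₁(M)`), and the renamings
`IsRealize ↦ IsRealize1`, `ptOrd ↦ ptOrd1`, `jSub ↦ jSub1`, `IsPointPlace ↦ IsPointPlace1`,
`PlacesOver ↦ PlacesOver1`, `pointPlace ↦ pointPlace1`, `pointMult ↦ pointMult1`,
`pointPlaceX ↦ pointPlaceX1`, `…mul_Gamma0 ↦ …mul_PG1`, `compSL_invariant_of_fixed ↦ …fixed1`,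
`smul_mk_eq_iff ↦ smul_mk_eq_iff1` (so that both namespaces can be opened together).
-/
import Fermat.Agent.X0.PointPlaces
import Fermat.Agent.ES.R48.X1Iface13

set_option autoImplicit false
set_option linter.unusedSectionVars false

open UpperHalfPlane hiding I
open Complex Filter Function
open scoped Manifold MatrixGroups Topology

namespace Fermat.Agent.ES.R48.X1PointPlaces1

open Fermat.Agent.X0 Fermat.Agent.X0.JOrderMain AlgebraicCurve Fermat.Agent.ES.R48.X1Iface13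
open Fermat.Agent.X0.PointPlaces (OrdFunPlace pp_coe_ne_zero pp_exists_div pp_exists_place
  pp_place_unique scaleH_one jdFun_one compSL_inv_cancel compSL_jFun_sub)

noncomputable section

variable {M : ℕ} [NeZero M]

/-- `j ∈ R`. -/
theorem jF1_mem_Rsub1 (M : ℕ) [NeZero M] : jF1 M ∈ Rsub1 M :=
  Algebra.subset_adjoin (Or.inl ⟨1, inferInstance, one_dvd M, rfl⟩)

/-- The properties of the analytic realisation `Θ : R → Hol(ℍ)` (piece C-F2c) that we use. -/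
structure IsRealize1 (Θ : Rsub1 M →+* (ℍ → ℂ)) : Prop where
  inj : Function.Injective Θ
  map_algebraMap : ∀ c : Kbar, Θ (algebraMap Kbar (Rsub1 M) c) = fun _ => iotaK c
  map_jF1 : Θ ⟨jF1 M, jF1_mem_Rsub1 M⟩ = jFun
  hol : ∀ u, Θ u ∈ HolH
  inv : ∀ (u : Rsub1 M) (γ : SL(2, ℤ)), γ ∈ PG1 M → compSL (Θ u) γ = Θ u

/-- The order function on `R` attached to `g` and `z₀`. -/
def ptOrd1 (Θ : Rsub1 M →+* (ℍ → ℂ)) (g : SL(2, ℤ)) (z₀ : ℍ) (u : Rsub1 M) : ℕ∞ :=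
  ordH (compSL (Θ u) g⁻¹) z₀

variable {Θ : Rsub1 M →+* (ℍ → ℂ)}

theorem ptOrd1_ne_top (hΘ : IsRealize1 Θ) (g : SL(2, ℤ)) (z₀ : ℍ) {u : Rsub1 M} (hu : u ≠ 0) :
    ptOrd1 Θ g z₀ u ≠ ⊤ := by
  intro h
  have h0 := eq_zero_of_ordH_eq_top (compSL_mem_HolH (hΘ.hol u) g⁻¹) z₀ h
  have h1 : Θ u = 0 := by
    rw [← compSL_inv_cancel (Θ u) g, h0]
    rfl
  exact hu (hΘ.inj (by rw [h1, map_zero]))

theorem ptOrd1_mul (hΘ : IsRealize1 Θ) (g : SL(2, ℤ)) (z₀ : ℍ) (u s : Rsub1 M) :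
    ptOrd1 Θ g z₀ (u * s) = ptOrd1 Θ g z₀ u + ptOrd1 Θ g z₀ s := by
  unfold ptOrd1
  rw [map_mul, compSL_mul_fun]
  exact ordH_mul (compSL_mem_HolH (hΘ.hol u) g⁻¹) (compSL_mem_HolH (hΘ.hol s) g⁻¹) z₀

theorem ptOrd1_add (hΘ : IsRealize1 Θ) (g : SL(2, ℤ)) (z₀ : ℍ) (u s : Rsub1 M) :
    min (ptOrd1 Θ g z₀ u) (ptOrd1 Θ g z₀ s) ≤ ptOrd1 Θ g z₀ (u + s) := by
  unfold ptOrd1
  rw [map_add, compSL_add_fun]
  exact le_ordH_add (compSL_mem_HolH (hΘ.hol u) g⁻¹) (compSL_mem_HolH (hΘ.hol s) g⁻¹) z₀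

theorem ptOrd1_algebraMap (hΘ : IsRealize1 Θ) (g : SL(2, ℤ)) (z₀ : ℍ) {c : Kbar} (hc : c ≠ 0) :
    ptOrd1 Θ g z₀ (algebraMap Kbar (Rsub1 M) c) = 0 := by
  unfold ptOrd1
  rw [hΘ.map_algebraMap, compSL_const]
  exact ordH_const (fun h => hc (iotaK_injective (by rw [h, map_zero]))) z₀

/-- The element `j - c` of `R`. -/
def jSub1 (M : ℕ) [NeZero M] (c : Kbar) : Rsub1 M :=
  ⟨jF1 M, jF1_mem_Rsub1 M⟩ - algebraMap Kbar (Rsub1 M) c

theorem coe_jSub1 (c : Kbar) : ((jSub1 M c : Rsub1 M) : FF1 M) = jF1 M - algebraMap Kbar (FF1 M) c := rfl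

theorem realize_jSub1 (hΘ : IsRealize1 Θ) (c : Kbar) : Θ (jSub1 M c) = fun z => jFun z - iotaK c := by
  unfold jSub1
  rw [map_sub, hΘ.map_jF1, hΘ.map_algebraMap]
  rfl

theorem ptOrd1_jSub1 (hΘ : IsRealize1 Θ) (hinj : JInj) (g : SL(2, ℤ)) (z₀ : ℍ) (c : Kbar)
    (hc : jFun z₀ = iotaK c) : ptOrd1 Θ g z₀ (jSub1 M c) = ellOrder z₀ := by
  unfold ptOrd1
  rw [realize_jSub1 hΘ, compSL_jFun_sub]
  exact ordH_jFun_sub_const_of_inj hinj z₀ _ hc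

theorem ptOrd1_jSub1_of_ne (hΘ : IsRealize1 Θ) (g : SL(2, ℤ)) (z₀ : ℍ) (c : Kbar)
    (hc : jFun z₀ ≠ iotaK c) : ptOrd1 Θ g z₀ (jSub1 M c) = 0 := by
  unfold ptOrd1
  rw [realize_jSub1 hΘ, compSL_jFun_sub]
  exact ordH_jFun_sub_const_of_ne z₀ _ hc

/-- The order function only depends on the coset `g ±Γ₁(M)`. -/
theorem ptOrd1_mul_PG1 (hΘ : IsRealize1 Θ) (g γ : SL(2, ℤ))
    (hγ : γ ∈ PG1 M) (z₀ : ℍ) (u : Rsub1 M) :
    ptOrd1 Θ (g * γ) z₀ u = ptOrd1 Θ g z₀ u := by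
  unfold ptOrd1
  rw [mul_inv_rev, compSL_mul, hΘ.inv u γ⁻¹ (inv_mem hγ)]

/-- Moving the point by `σ` and the coset by `σ` gives the same order function. -/
theorem ptOrd1_smul (hΘ : IsRealize1 Θ) (σ g : SL(2, ℤ)) (z₀ : ℍ) (u : Rsub1 M) :
    ptOrd1 Θ (σ * g) (σ • z₀) u = ptOrd1 Θ g z₀ u := by
  unfold ptOrd1
  rw [mul_inv_rev, compSL_mul, ordH_compSL (compSL_mem_HolH (hΘ.hol u) g⁻¹), inv_smul_smul]

/-- If `σ` fixes `z₀` then the cosets `g ±Γ₁(M)` and `σ g ±Γ₁(M)` give the same order function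
at `z₀`. -/
theorem ptOrd1_mul_of_fixed (hΘ : IsRealize1 Θ) (σ g : SL(2, ℤ)) (z₀ : ℍ) (hσ : σ • z₀ = z₀)
    (u : Rsub1 M) : ptOrd1 Θ (σ * g) z₀ u = ptOrd1 Θ g z₀ u := by
  have := ptOrd1_smul hΘ σ g z₀ u
  rwa [hσ] at this

section Concrete

variable {M : ℕ} [NeZero M] [IsFractionRing (Rsub1 M) (FF1 M)] {Θ : Rsub1 M →+* (ℍ → ℂ)}

theorem ptOrd1_zero (g : SL(2, ℤ)) (z₀ : ℍ) : ptOrd1 Θ g z₀ 0 = ⊤ := by
  unfold ptOrd1 ordH
  rw [map_zero, compSL_zero_fun]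
  rw [analyticOrderAt_eq_top]
  exact Eventually.of_forall fun w => rfl

/-- `v` is the place attached to `(g, z₀)`, with multiplicity `m`. -/
def IsPointPlace1 (Θ : Rsub1 M →+* (ℍ → ℂ)) (g : SL(2, ℤ)) (z₀ : ℍ) (v : Place Kbar (FF1 M))
    (m : ℕ) : Prop :=
  0 < m ∧ ∀ u : Rsub1 M, u ≠ 0 → ((ptOrd1 Θ g z₀ u).toNat : ℤ) = m * v.ord (u : FF1 M)

theorem jSub1_ne_zero (hΘ : IsRealize1 Θ) (hinj : JInj) (z₀ : ℍ) (c : Kbar)
    (hc : jFun z₀ = iotaK c) : jSub1 M c ≠ 0 := by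
  intro h
  have h1 := ptOrd1_jSub1 hΘ hinj 1 z₀ c hc
  rw [h, ptOrd1_zero] at h1
  exact ENat.top_ne_natCast _ h1

theorem toNat_ptOrd1_mul (hΘ : IsRealize1 Θ) (g : SL(2, ℤ)) (z₀ : ℍ) {u s : Rsub1 M} (hu : u ≠ 0)
    (hs : s ≠ 0) : (ptOrd1 Θ g z₀ (u * s)).toNat = (ptOrd1 Θ g z₀ u).toNat + (ptOrd1 Θ g z₀ s).toNat := by
  rw [ptOrd1_mul hΘ, ENat.toNat_add (ptOrd1_ne_top hΘ g z₀ hu) (ptOrd1_ne_top hΘ g z₀ hs)]

theorem toNat_ptOrd1_add (hΘ : IsRealize1 Θ) (g : SL(2, ℤ)) (z₀ : ℍ) {u s : Rsub1 M} (hu : u ≠ 0)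
    (hs : s ≠ 0) (hus : u + s ≠ 0) :
    min (ptOrd1 Θ g z₀ u).toNat (ptOrd1 Θ g z₀ s).toNat ≤ (ptOrd1 Θ g z₀ (u + s)).toNat := by
  have h := ptOrd1_add hΘ g z₀ u s
  have hu' := ptOrd1_ne_top hΘ g z₀ hu
  have hs' := ptOrd1_ne_top hΘ g z₀ hs
  have hus' := ptOrd1_ne_top hΘ g z₀ hus
  rw [← ENat.natCast_toNat hu', ← ENat.natCast_toNat hs', ← ENat.natCast_toNat hus'] at h
  rcases min_le_iff.mp h with h | h
  · exact min_le_iff.mpr (Or.inl (by exact_mod_cast h))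
  · exact min_le_iff.mpr (Or.inr (by exact_mod_cast h))

/-- Existence of the place attached to `(g, z₀)` when `j(z₀) = ι(c)`, `c ∈ ℚbar`. -/
theorem exists_isPointPlace1 (hFF5 : OrdFunPlace Kbar (FF1 M)) (hΘ : IsRealize1 Θ) (hinj : JInj)
    (g : SL(2, ℤ)) (z₀ : ℍ) (c : Kbar) (hc : jFun z₀ = iotaK c) :
    ∃ (v : Place Kbar (FF1 M)) (m : ℕ), IsPointPlace1 Θ g z₀ v m := by
  have h := pp_exists_place (R := Rsub1 M) hFF5 (fun u => ((ptOrd1 Θ g z₀ u).toNat : ℤ))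
    (fun u s hu hs => by
      rw [toNat_ptOrd1_mul hΘ g z₀ hu hs]
      push_cast
      ring)
    (fun u s hu hs hus => by
      exact_mod_cast toNat_ptOrd1_add hΘ g z₀ hu hs hus)
    (fun c hc => by
      rw [ptOrd1_algebraMap hΘ g z₀ hc]
      simp)
    ⟨jSub1 M c, jSub1_ne_zero hΘ hinj z₀ c hc, by
      rw [ptOrd1_jSub1 hΘ hinj g z₀ c hc]
      have := ellOrder_pos z₀
      simp only [ENat.toNat_natCast]
      exact_mod_cast this.ne'⟩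
  obtain ⟨v, m, hm, hv⟩ := h
  exact ⟨v, m, hm, hv⟩

namespace IsPointPlace1

variable {g : SL(2, ℤ)} {z₀ : ℍ} {v v' : Place Kbar (FF1 M)} {m m' : ℕ}

theorem place_unique (h : IsPointPlace1 Θ g z₀ v m) (h' : IsPointPlace1 Θ g z₀ v' m') : v = v' :=
  pp_place_unique (R := Rsub1 M) h.1 h'.1 fun u hu => by rw [← h.2 u hu, ← h'.2 u hu]

theorem ord_jSub1 (h : IsPointPlace1 Θ g z₀ v m) (hΘ : IsRealize1 Θ) (hinj : JInj) (c : Kbar)
    (hc : jFun z₀ = iotaK c) :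
    (m : ℤ) * v.ord (jF1 M - algebraMap Kbar (FF1 M) c) = ellOrder z₀ := by
  have := h.2 (jSub1 M c) (jSub1_ne_zero hΘ hinj z₀ c hc)
  rw [ptOrd1_jSub1 hΘ hinj g z₀ c hc, coe_jSub1] at this
  rw [← this]
  simp

theorem ord_jSub1_pos (h : IsPointPlace1 Θ g z₀ v m) (hΘ : IsRealize1 Θ) (hinj : JInj) (c : Kbar)
    (hc : jFun z₀ = iotaK c) : 0 < v.ord (jF1 M - algebraMap Kbar (FF1 M) c) := by
  have h1 := h.ord_jSub1 hΘ hinj c hc
  have h2 : (0 : ℤ) < ellOrder z₀ := by exact_mod_cast ellOrder_pos z₀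
  have hm : (0 : ℤ) < m := by exact_mod_cast h.1
  rw [← h1] at h2
  exact (mul_pos_iff_of_pos_left hm).mp h2

theorem ord_jSub1_le (h : IsPointPlace1 Θ g z₀ v m) (hΘ : IsRealize1 Θ) (hinj : JInj) (c : Kbar)
    (hc : jFun z₀ = iotaK c) : v.ord (jF1 M - algebraMap Kbar (FF1 M) c) ≤ ellOrder z₀ := by
  have h1 := h.ord_jSub1 hΘ hinj c hc
  have h2 := h.ord_jSub1_pos hΘ hinj c hc
  have hm : (1 : ℤ) ≤ m := by exact_mod_cast h.1
  rw [← h1]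
  nlinarith

theorem mul_PG1 (h : IsPointPlace1 Θ g z₀ v m) (hΘ : IsRealize1 Θ) (γ : SL(2, ℤ))
    (hγ : γ ∈ PG1 M) : IsPointPlace1 Θ (g * γ) z₀ v m :=
  ⟨h.1, fun u hu => by rw [ptOrd1_mul_PG1 hΘ g γ hγ]; exact h.2 u hu⟩

theorem smul (h : IsPointPlace1 Θ g z₀ v m) (hΘ : IsRealize1 Θ) (σ : SL(2, ℤ)) :
    IsPointPlace1 Θ (σ * g) (σ • z₀) v m :=
  ⟨h.1, fun u hu => by rw [ptOrd1_smul hΘ σ g z₀]; exact h.2 u hu⟩

theorem mul_of_fixed (h : IsPointPlace1 Θ g z₀ v m) (hΘ : IsRealize1 Θ) (σ : SL(2, ℤ))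
    (hσ : σ • z₀ = z₀) : IsPointPlace1 Θ (σ * g) z₀ v m := by
  have := h.smul hΘ σ
  rwa [hσ] at this

/-- If all values of the order function are divisible by `k` then so is the multiplicity. -/
theorem dvd_mult (h : IsPointPlace1 Θ g z₀ v m) (k : ℕ)
    (hk : ∀ u : Rsub1 M, u ≠ 0 → k ∣ (ptOrd1 Θ g z₀ u).toNat) : k ∣ m := by
  obtain ⟨π, hπ⟩ := FF.ffp_exists_irreducible v
  have hπ1 : v.ord (π : FF1 M) = 1 := v.ord_coe_irreducible hπ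
  have hπ0 : (π : FF1 M) ≠ 0 := by
    intro h0
    rw [h0] at hπ1
    simp at hπ1
  obtain ⟨u, s, hu, hs, hus⟩ := pp_exists_div (R := Rsub1 M) (π : FF1 M) hπ0
  have huF := pp_coe_ne_zero (F := FF1 M) hu
  have hsF := pp_coe_ne_zero (F := FF1 M) hs
  have h1 : v.ord (u : FF1 M) - v.ord (s : FF1 M) = 1 := by
    rw [← hπ1, hus, div_eq_mul_inv, v.ord_mul huF (inv_ne_zero hsF), v.ord_inv]
    ring
  have h2 := h.2 u hu
  have h3 := h.2 s hs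
  have h4 : (m : ℤ) = (ptOrd1 Θ g z₀ u).toNat - (ptOrd1 Θ g z₀ s).toNat := by
    rw [h2, h3, ← mul_sub, h1, mul_one]
  have h5 : (k : ℤ) ∣ (m : ℤ) := by
    rw [h4]
    exact dvd_sub (by exact_mod_cast hk u hu) (by exact_mod_cast hk s hs)
  exact_mod_cast h5

end IsPointPlace1

end Concrete

section Fixed

variable {M : ℕ} [NeZero M] [IsFractionRing (Rsub1 M) (FF1 M)] {Θ : Rsub1 M →+* (ℍ → ℂ)}

/-- If the coset `g ±Γ₁(M)` is fixed by `σ` then `Θ u ∘ g⁻¹` is `σ`-invariant. -/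
theorem compSL_invariant_of_fixed1 (hΘ : IsRealize1 Θ) (g σ : SL(2, ℤ))
    (hfix : g⁻¹ * σ * g ∈ PG1 M) (u : Rsub1 M) :
    compSL (compSL (Θ u) g⁻¹) σ = compSL (Θ u) g⁻¹ := by
  have h1 : g⁻¹ * σ = (g⁻¹ * σ * g) * g⁻¹ := by group
  rw [← compSL_mul, h1, compSL_mul, hΘ.inv u _ hfix]

variable {g : SL(2, ℤ)} {v : Place Kbar (FF1 M)} {m : ℕ}

/-- FIXED cosets over `i`: multiplicity `2`, so `j - c` is a uniformizer. -/
theorem IsPointPlace1.of_fixed_S {hh : SL(2, ℤ)} (h : IsPointPlace1 Θ g (hh • ptI) v m)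
    (hΘ : IsRealize1 Θ) (hinj : JInj)
    (hfix : g⁻¹ * (hh * ModularGroup.S * hh⁻¹) * g ∈ PG1 M)
    (c : Kbar) (hc : jFun (hh • ptI) = iotaK c) :
    m = 2 ∧ v.ord (jF1 M - algebraMap Kbar (FF1 M) c) = 1 := by
  have h2 : 2 ∣ m := by
    refine h.dvd_mult 2 fun u hu => ?_
    have hne := ptOrd1_ne_top hΘ g (hh • ptI) hu
    exact two_dvd_of_invariant_S (compSL_mem_HolH (hΘ.hol u) g⁻¹) hh
      (compSL_invariant_of_fixed1 hΘ g _ hfix u) (ENat.natCast_toNat hne).symm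
  have h3 := h.ord_jSub1 hΘ hinj c hc
  have h4 := h.ord_jSub1_pos hΘ hinj c hc
  rw [ellOrder_smul, ellOrder_ptI] at h3
  obtain ⟨k, rfl⟩ := h2
  have hk : 0 < k := by
    have := h.1
    omega
  push_cast at h3
  have hk' : (1 : ℤ) ≤ k := by exact_mod_cast hk
  have h5 : v.ord (jF1 M - algebraMap Kbar (FF1 M) c) = 1 := by nlinarith
  refine ⟨?_, h5⟩
  rw [h5] at h3
  have : (k : ℤ) = 1 := by linarith
  have : k = 1 := by exact_mod_cast this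
  omega

/-- FIXED cosets over `ρ`: multiplicity `3`, so `j - c` is a uniformizer. -/
theorem IsPointPlace1.of_fixed_ST {hh : SL(2, ℤ)} (h : IsPointPlace1 Θ g (hh • ptRho) v m)
    (hΘ : IsRealize1 Θ) (hinj : JInj)
    (hfix : g⁻¹ * (hh * (ModularGroup.S * ModularGroup.T) * hh⁻¹) * g ∈
      PG1 M)
    (c : Kbar) (hc : jFun (hh • ptRho) = iotaK c) :
    m = 3 ∧ v.ord (jF1 M - algebraMap Kbar (FF1 M) c) = 1 := by
  have h2 : 3 ∣ m := by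
    refine h.dvd_mult 3 fun u hu => ?_
    have hne := ptOrd1_ne_top hΘ g (hh • ptRho) hu
    exact three_dvd_of_invariant_ST (compSL_mem_HolH (hΘ.hol u) g⁻¹) hh
      (compSL_invariant_of_fixed1 hΘ g _ hfix u) (ENat.natCast_toNat hne).symm
  have h3 := h.ord_jSub1 hΘ hinj c hc
  have h4 := h.ord_jSub1_pos hΘ hinj c hc
  rw [ellOrder_smul, ellOrder_ptRho] at h3
  obtain ⟨k, rfl⟩ := h2
  have hk : 0 < k := by
    have := h.1
    omega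
  push_cast at h3
  have hk' : (1 : ℤ) ≤ k := by exact_mod_cast hk
  have h5 : v.ord (jF1 M - algebraMap Kbar (FF1 M) c) = 1 := by nlinarith
  refine ⟨?_, h5⟩
  rw [h5] at h3
  have : (k : ℤ) = 1 := by linarith
  have : k = 1 := by exact_mod_cast this
  omega

/-- Generic points: multiplicity `1`. -/
theorem IsPointPlace1.of_ellOrder_eq_one {z₀ : ℍ} (h : IsPointPlace1 Θ g z₀ v m)
    (hΘ : IsRealize1 Θ) (hinj : JInj) (h1 : ellOrder z₀ = 1)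
    (c : Kbar) (hc : jFun z₀ = iotaK c) :
    m = 1 ∧ v.ord (jF1 M - algebraMap Kbar (FF1 M) c) = 1 := by
  have h3 := h.ord_jSub1 hΘ hinj c hc
  have h4 := h.ord_jSub1_pos hΘ hinj c hc
  rw [h1] at h3
  have hm : (1 : ℤ) ≤ m := by exact_mod_cast h.1
  push_cast at h3
  have h5 : v.ord (jF1 M - algebraMap Kbar (FF1 M) c) = 1 := by nlinarith
  refine ⟨?_, h5⟩
  rw [h5] at h3
  have : (m : ℤ) = 1 := by linarith
  exact_mod_cast this

end Fixed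

section Bundled

variable {M : ℕ} [NeZero M] [IsFractionRing (Rsub1 M) (FF1 M)] {Θ : Rsub1 M →+* (ℍ → ℂ)}

/-- The places of `F` over `j = c`. -/
abbrev PlacesOver1 (M : ℕ) [NeZero M] (c : Kbar) : Type :=
  {v : Place Kbar (FF1 M) // 0 < v.ord (jF1 M - algebraMap Kbar (FF1 M) c)}

variable (hFF5 : OrdFunPlace Kbar (FF1 M)) (hΘ : IsRealize1 Θ) (hinj : JInj) (z₀ : ℍ) (c : Kbar)
  (hc : jFun z₀ = iotaK c)

/-- The place attached to `g ∈ SL(2, ℤ)` and the point `z₀`. -/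
def pointPlace1 (g : SL(2, ℤ)) : Place Kbar (FF1 M) :=
  (exists_isPointPlace1 hFF5 hΘ hinj g z₀ c hc).choose

/-- The multiplicity of the place attached to `g ∈ SL(2, ℤ)` and the point `z₀`. -/
def pointMult1 (g : SL(2, ℤ)) : ℕ :=
  (exists_isPointPlace1 hFF5 hΘ hinj g z₀ c hc).choose_spec.choose

theorem isPointPlace1_pointPlace1 (g : SL(2, ℤ)) :
    IsPointPlace1 Θ g z₀ (pointPlace1 hFF5 hΘ hinj z₀ c hc g) (pointMult1 hFF5 hΘ hinj z₀ c hc g) :=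
  (exists_isPointPlace1 hFF5 hΘ hinj g z₀ c hc).choose_spec.choose_spec

theorem pointPlace1_eq_of_isPointPlace1 {g : SL(2, ℤ)} {v : Place Kbar (FF1 M)} {m : ℕ}
    (h : IsPointPlace1 Θ g z₀ v m) : pointPlace1 hFF5 hΘ hinj z₀ c hc g = v :=
  (isPointPlace1_pointPlace1 hFF5 hΘ hinj z₀ c hc g).place_unique h

theorem pointPlace1_mul_PG1 (g γ : SL(2, ℤ)) (hγ : γ ∈ PG1 M) :
    pointPlace1 hFF5 hΘ hinj z₀ c hc (g * γ) = pointPlace1 hFF5 hΘ hinj z₀ c hc g :=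
  pointPlace1_eq_of_isPointPlace1 hFF5 hΘ hinj z₀ c hc
    ((isPointPlace1_pointPlace1 hFF5 hΘ hinj z₀ c hc g).mul_PG1 hΘ γ hγ)

theorem pointPlace1_mul_of_fixed (σ g : SL(2, ℤ)) (hσ : σ • z₀ = z₀) :
    pointPlace1 hFF5 hΘ hinj z₀ c hc (σ * g) = pointPlace1 hFF5 hΘ hinj z₀ c hc g :=
  pointPlace1_eq_of_isPointPlace1 hFF5 hΘ hinj z₀ c hc
    ((isPointPlace1_pointPlace1 hFF5 hΘ hinj z₀ c hc g).mul_of_fixed hΘ σ hσ)

theorem ord_pointPlace1_pos (g : SL(2, ℤ)) :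
    0 < (pointPlace1 hFF5 hΘ hinj z₀ c hc g).ord (jF1 M - algebraMap Kbar (FF1 M) c) :=
  (isPointPlace1_pointPlace1 hFF5 hΘ hinj z₀ c hc g).ord_jSub1_pos hΘ hinj c hc

theorem ord_pointPlace1_le (g : SL(2, ℤ)) :
    (pointPlace1 hFF5 hΘ hinj z₀ c hc g).ord (jF1 M - algebraMap Kbar (FF1 M) c) ≤ ellOrder z₀ :=
  (isPointPlace1_pointPlace1 hFF5 hΘ hinj z₀ c hc g).ord_jSub1_le hΘ hinj c hc

/-- The map from cosets `SL(2, ℤ) ⧸ ±Γ₁(M)` to the places over `c`. -/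
def pointPlaceX1 (x : SL(2, ℤ) ⧸ PG1 M) : PlacesOver1 M c :=
  Quotient.liftOn' x
    (fun g => (⟨pointPlace1 hFF5 hΘ hinj z₀ c hc g, ord_pointPlace1_pos hFF5 hΘ hinj z₀ c hc g⟩ :
      PlacesOver1 M c))
    (fun a b hab => by
      have hab' : a⁻¹ * b ∈ PG1 M := QuotientGroup.leftRel_apply.mp hab
      apply Subtype.ext
      have := pointPlace1_mul_PG1 hFF5 hΘ hinj z₀ c hc a (a⁻¹ * b) hab'
      rw [mul_inv_cancel_left] at this
      exact this.symm)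

theorem pointPlaceX1_mk (g : SL(2, ℤ)) :
    (pointPlaceX1 hFF5 hΘ hinj z₀ c hc (QuotientGroup.mk g)).1 =
      pointPlace1 hFF5 hΘ hinj z₀ c hc g := rfl

theorem pointPlaceX1_smul_of_fixed (σ : SL(2, ℤ)) (hσ : σ • z₀ = z₀)
    (x : SL(2, ℤ) ⧸ PG1 M) :
    pointPlaceX1 hFF5 hΘ hinj z₀ c hc (σ • x) = pointPlaceX1 hFF5 hΘ hinj z₀ c hc x := by
  induction x using QuotientGroup.induction_on with
  | H g =>
    apply Subtype.ext
    show (pointPlaceX1 hFF5 hΘ hinj z₀ c hc (QuotientGroup.mk (σ * g))).1 = _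
    rw [pointPlaceX1_mk, pointPlaceX1_mk]
    exact pointPlace1_mul_of_fixed hFF5 hΘ hinj z₀ c hc σ g hσ

theorem ord_pointPlaceX1_le (x : SL(2, ℤ) ⧸ PG1 M) :
    (pointPlaceX1 hFF5 hΘ hinj z₀ c hc x).1.ord (jF1 M - algebraMap Kbar (FF1 M) c) ≤ ellOrder z₀ := by
  induction x using QuotientGroup.induction_on with
  | H g => exact ord_pointPlace1_le hFF5 hΘ hinj z₀ c hc g

end Bundled

section BundledFixed

variable {M : ℕ} [NeZero M] [IsFractionRing (Rsub1 M) (FF1 M)] {Θ : Rsub1 M →+* (ℍ → ℂ)}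

theorem smul_mk_eq_iff1 (σ g : SL(2, ℤ)) :
    σ • (QuotientGroup.mk g : SL(2, ℤ) ⧸ PG1 M) = QuotientGroup.mk g ↔
      g⁻¹ * σ * g ∈ PG1 M := by
  rw [MulAction.Quotient.smul_mk, QuotientGroup.eq]
  constructor
  · intro h
    have := inv_mem h
    simpa [mul_assoc] using this
  · intro h
    have := inv_mem h
    simpa [mul_assoc] using this

variable (hFF5 : OrdFunPlace Kbar (FF1 M)) (hΘ : IsRealize1 Θ) (hinj : JInj) (c : Kbar)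

theorem ord_pointPlaceX1_of_fixed_S (hh : SL(2, ℤ)) (hc : jFun (hh • ptI) = iotaK c)
    (x : SL(2, ℤ) ⧸ PG1 M)
    (hx : (hh * ModularGroup.S * hh⁻¹) • x = x) :
    (pointPlaceX1 hFF5 hΘ hinj (hh • ptI) c hc x).1.ord (jF1 M - algebraMap Kbar (FF1 M) c) = 1 := by
  induction x using QuotientGroup.induction_on with
  | H g =>
    rw [smul_mk_eq_iff1] at hx
    rw [pointPlaceX1_mk]
    exact ((isPointPlace1_pointPlace1 hFF5 hΘ hinj (hh • ptI) c hc g).of_fixed_S hΘ hinj hx c hc).2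

theorem ord_pointPlaceX1_of_fixed_ST (hh : SL(2, ℤ)) (hc : jFun (hh • ptRho) = iotaK c)
    (x : SL(2, ℤ) ⧸ PG1 M)
    (hx : (hh * (ModularGroup.S * ModularGroup.T) * hh⁻¹) • x = x) :
    (pointPlaceX1 hFF5 hΘ hinj (hh • ptRho) c hc x).1.ord (jF1 M - algebraMap Kbar (FF1 M) c) = 1 := by
  induction x using QuotientGroup.induction_on with
  | H g =>
    rw [smul_mk_eq_iff1] at hx
    rw [pointPlaceX1_mk]
    exact ((isPointPlace1_pointPlace1 hFF5 hΘ hinj (hh • ptRho) c hc g).of_fixed_ST hΘ hinj hx c hc).2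

theorem ord_pointPlaceX1_of_ellOrder_eq_one (z₀ : ℍ) (hc : jFun z₀ = iotaK c) (h1 : ellOrder z₀ = 1)
    (x : SL(2, ℤ) ⧸ PG1 M) :
    (pointPlaceX1 hFF5 hΘ hinj z₀ c hc x).1.ord (jF1 M - algebraMap Kbar (FF1 M) c) = 1 := by
  induction x using QuotientGroup.induction_on with
  | H g =>
    rw [pointPlaceX1_mk]
    exact ((isPointPlace1_pointPlace1 hFF5 hΘ hinj z₀ c hc g).of_ellOrder_eq_one hΘ hinj h1 c hc).2

end BundledFixed

end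

end Fermat.Agent.ES.R48.X1PointPlaces1
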