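/-
Programme R (S48, Deligne–Serre), chapter GEOM, sub-chapter G2 DICT₁ (helper1): **places from points
for a `RealizeData1 M`** — the twin of `Fermat/Agent/X0/PointPlacesD.lean` (helper23, Program C).

`X1PointPlaces1` with its hypotheses plugged in:
* `OrdFunPlace` := `X0.PointPlacesD.ordFunPlace` (generic, AS-IS),
* `JInj` := `JOrderFinal.jInj` (level one, AS-IS),
* `IsRealize1 D.Θ` from the fields of `D : RealizeData1 M` (`inv` for `±Γ₁(M)` =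
  `X1Integrality1.invariant_PG1`),
* `IsFractionRing (Rsub1 M) (FF1 M)` from `X1FracR1.isFractionRing` (a LOCAL instance in this file:
  consumers write `haveI := X1FracR1.isFractionRing M`; the class is a `Prop`).

MECHANICAL TWIN: `RealizeData N ↦ RealizeData1 M`, `Rsub N ↦ Rsub1 M`, `FF N ↦ FF1 M`, `jF N ↦ jF1 M`,
`Gamma0 N ↦ PG1 M`, and every declared name gets the suffix `1` after its stem (`ptOrdD1`,
`pointPlaceD1`, `pointMultD1`, `pointPlaceDX1`, `isRealize1`, `ordH_ne_top_D1`, `…_mul_PG1`).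
-/
import Fermat.Agent.X0.PointPlacesD
import Fermat.Agent.ES.R48.X1PointPlaces1
import Fermat.Agent.ES.R48.X1FracR1
import Fermat.Agent.ES.R48.X1Integrality1

set_option autoImplicit false
set_option linter.unusedSectionVars false

open UpperHalfPlane hiding I
open Complex Filter Function
open scoped Manifold MatrixGroups Topology

namespace Fermat.Agent.ES.R48.X1PointPlacesD1

open Fermat.Agent.X0 Fermat.Agent.X0.JOrderMain AlgebraicCurve Fermat.Agent.ES.R48.X1Iface13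
  Fermat.Agent.ES.R48.X1PointPlaces1
open Fermat.Agent.X0.PointPlaces (OrdFunPlace jdFun_one)
open Fermat.Agent.X0.PointPlacesD (ordFunPlace)

noncomputable section

attribute [local instance] Fermat.Agent.ES.R48.X1FracR1.isFractionRing

variable {M : ℕ} [NeZero M]

theorem isRealize1 (D : RealizeData1 M) : IsRealize1 D.Θ where
  inj := D.injective
  map_algebraMap := D.algebraMap_eq
  map_jF1 := by
    have h := D.jd_eq 1 (one_dvd M)
    rw [jdFun_one] at h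
    exact h
  hol := D.mem_HolH
  inv := Fermat.Agent.ES.R48.X1Integrality1.invariant_PG1 M D

variable (D : RealizeData1 M)

/-- The order function of `(g, z₀)` on `R`. -/
abbrev ptOrdD1 (g : SL(2, ℤ)) (z₀ : ℍ) (u : Rsub1 M) : ℕ∞ := ptOrd1 D.Θ g z₀ u

theorem ptOrdD1_def (g : SL(2, ℤ)) (z₀ : ℍ) (u : Rsub1 M) :
    ptOrdD1 D g z₀ u = ordH (compSL (D.Θ u) g⁻¹) z₀ := rfl

variable (z₀ : ℍ) (c : Kbar) (hc : jFun z₀ = iotaK c)

/-- The place of `F` attached to `g ∈ SL(2, ℤ)` and a point `z₀` with `j(z₀) = ι(c)`. -/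
def pointPlaceD1 (g : SL(2, ℤ)) : Place Kbar (FF1 M) :=
  pointPlace1 (ordFunPlace _ _) (isRealize1 D) JOrderFinal.jInj z₀ c hc g

/-- Its multiplicity: `ord_{z₀} (Θ u ∘ g⁻¹) = m * ord_v u`. -/
def pointMultD1 (g : SL(2, ℤ)) : ℕ :=
  pointMult1 (ordFunPlace _ _) (isRealize1 D) JOrderFinal.jInj z₀ c hc g

theorem isPointPlace1_pointPlaceD1 (g : SL(2, ℤ)) :
    IsPointPlace1 D.Θ g z₀ (pointPlaceD1 D z₀ c hc g) (pointMultD1 D z₀ c hc g) :=
  isPointPlace1_pointPlace1 _ _ _ z₀ c hc g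

theorem pointMultD1_pos (g : SL(2, ℤ)) : 0 < pointMultD1 D z₀ c hc g :=
  (isPointPlace1_pointPlaceD1 D z₀ c hc g).1

/-- SPEC: `ord_{z₀} (Θ u ∘ g⁻¹) = m * ord_v u` for `u ∈ R`, `u ≠ 0`. -/
theorem pointPlaceD1_spec (g : SL(2, ℤ)) (u : Rsub1 M) (hu : u ≠ 0) :
    ((ordH (compSL (D.Θ u) g⁻¹) z₀).toNat : ℤ) =
      pointMultD1 D z₀ c hc g * (pointPlaceD1 D z₀ c hc g).ord (u : FF1 M) :=
  (isPointPlace1_pointPlaceD1 D z₀ c hc g).2 u hu

theorem ordH_ne_top_D1 (g : SL(2, ℤ)) (u : Rsub1 M) (hu : u ≠ 0) :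
    ordH (compSL (D.Θ u) g⁻¹) z₀ ≠ ⊤ :=
  ptOrd1_ne_top (isRealize1 D) g z₀ hu

/-- To show `v = pointPlaceD1 g` it suffices to show the order relation on `R`. -/
theorem eq_pointPlaceD1_of_spec (g : SL(2, ℤ)) (v : Place Kbar (FF1 M)) (m : ℕ) (hm : 0 < m)
    (h : ∀ u : Rsub1 M, u ≠ 0 →
      ((ordH (compSL (D.Θ u) g⁻¹) z₀).toNat : ℤ) = m * v.ord (u : FF1 M)) :
    v = pointPlaceD1 D z₀ c hc g :=
  (pointPlace1_eq_of_isPointPlace1 _ _ _ z₀ c hc (g := g) (v := v) (m := m) ⟨hm, h⟩).symm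

theorem pointMultD1_mul_ord (g : SL(2, ℤ)) :
    (pointMultD1 D z₀ c hc g : ℤ) *
      (pointPlaceD1 D z₀ c hc g).ord (jF1 M - algebraMap Kbar (FF1 M) c) = ellOrder z₀ :=
  (isPointPlace1_pointPlaceD1 D z₀ c hc g).ord_jSub1 (isRealize1 D) JOrderFinal.jInj c hc

theorem pointPlaceD1_ord_pos (g : SL(2, ℤ)) :
    0 < (pointPlaceD1 D z₀ c hc g).ord (jF1 M - algebraMap Kbar (FF1 M) c) :=
  ord_pointPlace1_pos _ _ _ z₀ c hc g

theorem pointPlaceD1_ord_le (g : SL(2, ℤ)) :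
    (pointPlaceD1 D z₀ c hc g).ord (jF1 M - algebraMap Kbar (FF1 M) c) ≤ ellOrder z₀ :=
  ord_pointPlace1_le _ _ _ z₀ c hc g

theorem pointPlaceD1_mul_PG1 (g γ : SL(2, ℤ)) (hγ : γ ∈ PG1 M) :
    pointPlaceD1 D z₀ c hc (g * γ) = pointPlaceD1 D z₀ c hc g :=
  pointPlace1_mul_PG1 _ _ _ z₀ c hc g γ hγ

theorem pointPlaceD1_mul_of_fixed (σ g : SL(2, ℤ)) (hσ : σ • z₀ = z₀) :
    pointPlaceD1 D z₀ c hc (σ * g) = pointPlaceD1 D z₀ c hc g :=
  pointPlace1_mul_of_fixed _ _ _ z₀ c hc σ g hσ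

/-- The map `SL(2, ℤ) ⧸ ±Γ₁(M) → {places over c}`. -/
def pointPlaceDX1 (x : SL(2, ℤ) ⧸ PG1 M) : PlacesOver1 M c :=
  pointPlaceX1 (ordFunPlace _ _) (isRealize1 D) JOrderFinal.jInj z₀ c hc x

theorem pointPlaceDX1_mk (g : SL(2, ℤ)) :
    (pointPlaceDX1 D z₀ c hc (QuotientGroup.mk g)).1 = pointPlaceD1 D z₀ c hc g := rfl

/-- `hinv` of `Count.card_eq_card_orbits` for the stabiliser of `z₀`. -/
theorem pointPlaceDX1_smul_of_fixed (σ : SL(2, ℤ)) (hσ : σ • z₀ = z₀)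
    (x : SL(2, ℤ) ⧸ PG1 M) :
    pointPlaceDX1 D z₀ c hc (σ • x) = pointPlaceDX1 D z₀ c hc x :=
  pointPlaceX1_smul_of_fixed _ _ _ z₀ c hc σ hσ x

theorem pointPlaceDX1_ord_le (x : SL(2, ℤ) ⧸ PG1 M) :
    (pointPlaceDX1 D z₀ c hc x).1.ord (jF1 M - algebraMap Kbar (FF1 M) c) ≤ ellOrder z₀ :=
  ord_pointPlaceX1_le _ _ _ z₀ c hc x

theorem pointPlaceDX1_ord_of_ellOrder_eq_one (h1 : ellOrder z₀ = 1)
    (x : SL(2, ℤ) ⧸ PG1 M) :
    (pointPlaceDX1 D z₀ c hc x).1.ord (jF1 M - algebraMap Kbar (FF1 M) c) = 1 :=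
  ord_pointPlaceX1_of_ellOrder_eq_one _ _ _ c z₀ hc h1 x

omit z₀ hc in
theorem pointPlaceDX1_ord_of_fixed_S (hh : SL(2, ℤ)) (hc : jFun (hh • ptI) = iotaK c)
    (x : SL(2, ℤ) ⧸ PG1 M)
    (hx : (hh * ModularGroup.S * hh⁻¹) • x = x) :
    (pointPlaceDX1 D (hh • ptI) c hc x).1.ord (jF1 M - algebraMap Kbar (FF1 M) c) = 1 :=
  ord_pointPlaceX1_of_fixed_S _ _ _ c hh hc x hx

omit z₀ hc in
theorem pointPlaceDX1_ord_of_fixed_ST (hh : SL(2, ℤ)) (hc : jFun (hh • ptRho) = iotaK c)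
    (x : SL(2, ℤ) ⧸ PG1 M)
    (hx : (hh * (ModularGroup.S * ModularGroup.T) * hh⁻¹) • x = x) :
    (pointPlaceDX1 D (hh • ptRho) c hc x).1.ord (jF1 M - algebraMap Kbar (FF1 M) c) = 1 :=
  ord_pointPlaceX1_of_fixed_ST _ _ _ c hh hc x hx

end

end Fermat.Agent.ES.R48.X1PointPlacesD1
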