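/-
Programme R (S48, Deligne–Serre), chapter GEOM, sub-chapter G2 DICT₁ (helper1): **SURJ at finite
points for `X₁(M)`** — the twin of `Fermat/Agent/X0/SurjPoint.lean` (helper5, Program C).
Every place `v` of `F₁ = FF1 M` with `0 < v.ord (j - c)`, `j(z₀) = ι c`, is the point place
`pointPlace1 g z₀` for some `g ∈ SL(2, ℤ)`.

MECHANICAL TWIN on top of `X1PointPlaces1`.  The level-free first part of `X0/SurjPoint` (the
instances on `HolH`, `ordH_zero`, `isOrd_ordH`, `MerH`, `valAt`) is imported AS-IS; the rest is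
reproduced with `Rsub N ↦ Rsub1 M`, `FF N ↦ FF1 M`, `Kj N ↦ Kj1 M`, `jF N ↦ jF1 M`,
`Gamma0 N ↦ PG1 M`, `IsRealize ↦ IsRealize1`, `ptOrd ↦ ptOrd1`, `jSub ↦ jSub1`,
`pointPlace ↦ pointPlace1`, and the renamings `embR ↦ embR1`, `emb ↦ emb1` (`emb1_coe`, `emb1_div`,
`emb1_div_mem_iff`, `emb1_algebraMap`, `emb1_jF1`), `exists_comap_eq ↦ exists_comap_eq1`,
`exists_pointPlace_eq ↦ exists_pointPlace1_eq`.  As in the original, the degree `hdeg` and the
distinctness `hdist` of the conjugates are explicit hypotheses (supplied by the `Degree`/`Distinct`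
twins).
-/
import Fermat.Agent.X0.SurjPoint
import Fermat.Agent.ES.R48.X1PointPlaces1

set_option autoImplicit false
set_option linter.unusedSectionVars false

open UpperHalfPlane hiding I
open Complex Filter Function Module
open scoped Manifold MatrixGroups Topology

namespace Fermat.Agent.ES.R48.X1SurjPoint1

open Fermat.Agent.X0 Fermat.Agent.X0.JOrderMain AlgebraicCurve Fermat.Agent.ES.R48.X1Iface13
  Fermat.Agent.ES.R48.X1PointPlaces1
open Fermat.Agent.X0.PointPlaces (OrdFunPlace pp_coe_ne_zero pp_exists_div compSL_inv_cancel)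
open Fermat.Agent.X0.SurjPoint (MerH valAt isOrd_ordH ordH_zero)

noncomputable section

/-! ### The embeddings `F → MerH` -/

variable {M : ℕ} [NeZero M] [IsFractionRing (Rsub1 M) (FF1 M)] {Θ : Rsub1 M →+* (ℍ → ℂ)}

/-- `u ↦ Θ u ∘ g⁻¹` as a ring hom `R → HolH`. -/
def embR1 (hΘ : IsRealize1 Θ) (g : SL(2, ℤ)) : Rsub1 M →+* HolH :=
  (compSLHom g⁻¹).comp (Θ.codRestrict HolH hΘ.hol)

theorem coe_embR1 (hΘ : IsRealize1 Θ) (g : SL(2, ℤ)) (u : Rsub1 M) :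
    ((embR1 hΘ g u : HolH) : ℍ → ℂ) = compSL (Θ u) g⁻¹ := rfl

theorem ordH_embR1 (hΘ : IsRealize1 Θ) (g : SL(2, ℤ)) (z₀ : ℍ) (u : Rsub1 M) :
    ordH ((embR1 hΘ g u : HolH) : ℍ → ℂ) z₀ = ptOrd1 Θ g z₀ u := rfl

theorem embR1_injective (hΘ : IsRealize1 Θ) (g : SL(2, ℤ)) : Function.Injective (embR1 hΘ g) := by
  rw [injective_iff_map_eq_zero]
  intro u hu
  have h0 : compSL (Θ u) g⁻¹ = 0 := by
    rw [← coe_embR1 hΘ g u, hu]
    rfl
  have h1 : Θ u = 0 := by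
    rw [← compSL_inv_cancel (Θ u) g, h0]
    rfl
  exact hΘ.inj (by rw [h1, map_zero])

theorem embR1_ne_zero (hΘ : IsRealize1 Θ) (g : SL(2, ℤ)) {u : Rsub1 M} (hu : u ≠ 0) :
    embR1 hΘ g u ≠ 0 := fun h => hu (embR1_injective hΘ g (by rw [h, map_zero]))

/-- The embedding `F → MerH`, `u / s ↦ (Θ u ∘ g⁻¹) / (Θ s ∘ g⁻¹)`. -/
def emb1 (hΘ : IsRealize1 Θ) (g : SL(2, ℤ)) : FF1 M →+* MerH :=
  IsFractionRing.lift (A := Rsub1 M) (K := FF1 M)
    (g := (algebraMap HolH MerH).comp (embR1 hΘ g))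
    ((IsFractionRing.injective HolH MerH).comp (embR1_injective hΘ g))

theorem emb1_coe (hΘ : IsRealize1 Θ) (g : SL(2, ℤ)) (u : Rsub1 M) :
    emb1 hΘ g (u : FF1 M) = algebraMap HolH MerH (embR1 hΘ g u) :=
  IsFractionRing.lift_algebraMap _ u

theorem emb1_div (hΘ : IsRealize1 Θ) (g : SL(2, ℤ)) (u s : Rsub1 M) :
    emb1 hΘ g ((u : FF1 M) / (s : FF1 M)) =
      algebraMap HolH MerH (embR1 hΘ g u) / algebraMap HolH MerH (embR1 hΘ g s) := by
  rw [map_div₀, emb1_coe, emb1_coe]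

theorem emb1_div_mem_iff (hΘ : IsRealize1 Θ) (g : SL(2, ℤ)) (z₀ : ℍ) (u s : Rsub1 M) (hs : s ≠ 0) :
    emb1 hΘ g ((u : FF1 M) / (s : FF1 M)) ∈ valAt z₀ ↔ ptOrd1 Θ g z₀ s ≤ ptOrd1 Θ g z₀ u := by
  rw [emb1_div]
  exact (isOrd_ordH z₀).div_mem_valuationSubring_iff _ _ (embR1_ne_zero hΘ g hs)

theorem emb1_algebraMap (hΘ : IsRealize1 Θ) (g : SL(2, ℤ)) (a : Kbar) :
    emb1 hΘ g (algebraMap Kbar (FF1 M) a) =
      algebraMap HolH MerH ⟨fun _ => iotaK a, mdifferentiable_const⟩ := by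
  change emb1 hΘ g ((algebraMap Kbar (Rsub1 M) a : Rsub1 M) : FF1 M) = _
  rw [emb1_coe]
  congr 1
  apply Subtype.ext
  rw [coe_embR1, hΘ.map_algebraMap]
  rfl

theorem emb1_jF1 (hΘ : IsRealize1 Θ) (g : SL(2, ℤ)) :
    emb1 hΘ g (jF1 M) = algebraMap HolH MerH ⟨jFun, jFun_mdifferentiable⟩ := by
  change emb1 hΘ g ((⟨jF1 M, jF1_mem_Rsub1 M⟩ : Rsub1 M) : FF1 M) = _
  rw [emb1_coe]
  congr 1
  apply Subtype.ext
  rw [coe_embR1]
  change compSL (Θ ⟨jF1 M, jF1_mem_Rsub1 M⟩) g⁻¹ = jFun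
  rw [hΘ.map_jF1]
  funext z
  exact jFun_smul g⁻¹ z

/-! ### Surjectivity -/

open IntermediateField in
/-- **SURJ at finite points, valuation-subring form.** -/
theorem exists_comap_eq1 (hΘ : IsRealize1 Θ) (hinj : JInj)
    [FiniteDimensional (Kj1 M) (FF1 M)]
    (hdeg : Nat.card (SL(2, ℤ) ⧸ PG1 M) = finrank (Kj1 M) (FF1 M))
    (hdist : ∀ γ γ' : SL(2, ℤ), (∀ u : Rsub1 M, compSL (Θ u) γ = compSL (Θ u) γ') →
      γ' * γ⁻¹ ∈ PG1 M)
    (z₀ : ℍ) (c : Kbar) (hc : jFun z₀ = iotaK c)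
    (v : Place Kbar (FF1 M)) (hv : 0 < v.ord (jF1 M - algebraMap Kbar (FF1 M) c)) :
    ∃ g : SL(2, ℤ), v.toValuationSubring = (valAt z₀).comap (emb1 hΘ g) := by
  have : FiniteDimensional Kbar⟮jF1 M⟯ (FF1 M) := ‹FiniteDimensional (Kj1 M) (FF1 M)›
  have : CharZero Kbar⟮jF1 M⟯ :=
    charZero_of_injective_algebraMap (algebraMap Kbar Kbar⟮jF1 M⟯).injective
  have : Algebra.IsIntegral Kbar⟮jF1 M⟯ (FF1 M) := Algebra.IsIntegral.of_finite _ _
  have : Algebra.IsSeparable Kbar⟮jF1 M⟯ (FF1 M) := Algebra.IsSeparable.of_integral _ _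
  have hdeg' : Nat.card (SL(2, ℤ) ⧸ PG1 M) = finrank Kbar⟮jF1 M⟯ (FF1 M) :=
    hdeg
  have : Finite (SL(2, ℤ) ⧸ PG1 M) := by
    apply Nat.finite_of_card_ne_zero
    rw [hdeg']
    exact (Module.finrank_pos).ne'
  let σ : SL(2, ℤ) ⧸ PG1 M → FF1 M →+* MerH := fun x => emb1 hΘ x.out
  have hσinj : Function.Injective σ := by
    intro x y hxy
    have h1 : ∀ u : Rsub1 M, compSL (Θ u) (x.out)⁻¹ = compSL (Θ u) (y.out)⁻¹ := by
      intro u
      have h2 : emb1 hΘ x.out (u : FF1 M) = emb1 hΘ y.out (u : FF1 M) :=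
        congrArg (fun f : FF1 M →+* MerH => f (u : FF1 M)) hxy
      rw [emb1_coe, emb1_coe] at h2
      have h3 := IsFractionRing.injective HolH MerH h2
      rw [← coe_embR1 hΘ, ← coe_embR1 hΘ, h3]
    have h4 := hdist _ _ h1
    rw [inv_inv] at h4
    have h5 : ((y.out : SL(2, ℤ)) : SL(2, ℤ) ⧸ PG1 M) = (x.out : SL(2, ℤ)) :=
      QuotientGroup.eq.mpr h4
    rw [QuotientGroup.out_eq', QuotientGroup.out_eq'] at h5
    exact h5.symm
  obtain ⟨x, hx⟩ := ValUniq.exists_eq_comap_of_sub_mem_nonunits (K := Kbar) (jF1 M) σ hdeg' hσinj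
    (fun i j a => by simp only [σ]; rw [emb1_algebraMap, emb1_algebraMap])
    (fun i j => by simp only [σ]; rw [emb1_jF1, emb1_jF1])
    (valAt z₀)
    (fun i a => by
      simp only [σ]
      rw [emb1_algebraMap]
      exact (isOrd_ordH z₀).algebraMap_mem_valuationSubring _)
    v.toValuationSubring v.algebraMap_mem' c
    (fun i => by
      simp only [σ]
      rw [← coe_jSub1, emb1_coe]
      refine ((isOrd_ordH z₀).algebraMap_mem_nonunits_iff _).mpr ?_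
      show 0 < ordH ((embR1 hΘ i.out (jSub1 M c) : HolH) : ℍ → ℂ) z₀
      rw [ordH_embR1, ptOrd1_jSub1 hΘ hinj _ z₀ c hc]
      exact_mod_cast ellOrder_pos z₀)
    (by
      rw [ValuationSubring.mem_nonunits_iff_or]
      right
      rw [FF.ffp_mem_iff_ord_nonneg, v.ord_inv]
      omega)
  exact ⟨x.out, hx⟩

/-- **SURJ at finite points**: every place over `j = c = j(z₀)` is a point place. -/
theorem exists_pointPlace1_eq (hFF5 : OrdFunPlace Kbar (FF1 M)) (hΘ : IsRealize1 Θ) (hinj : JInj)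
    (z₀ : ℍ) (c : Kbar) (hc : jFun z₀ = iotaK c)
    [FiniteDimensional (Kj1 M) (FF1 M)]
    (hdeg : Nat.card (SL(2, ℤ) ⧸ PG1 M) = finrank (Kj1 M) (FF1 M))
    (hdist : ∀ γ γ' : SL(2, ℤ), (∀ u : Rsub1 M, compSL (Θ u) γ = compSL (Θ u) γ') →
      γ' * γ⁻¹ ∈ PG1 M)
    (v : Place Kbar (FF1 M)) (hv : 0 < v.ord (jF1 M - algebraMap Kbar (FF1 M) c)) :
    ∃ g : SL(2, ℤ), pointPlace1 hFF5 hΘ hinj z₀ c hc g = v := by
  obtain ⟨g, hg⟩ := exists_comap_eq1 hΘ hinj hdeg hdist z₀ c hc v hv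
  obtain ⟨v', m, hm, hv'⟩ := exists_isPointPlace1 hFF5 hΘ hinj g z₀ c hc
  have hvv' : v = v' := by
    apply Place.ext
    ext f
    rcases eq_or_ne f 0 with rfl | hf
    · simp
    obtain ⟨u, s, hu, hs, rfl⟩ := pp_exists_div (R := Rsub1 M) f hf
    have huF := pp_coe_ne_zero (F := FF1 M) hu
    have hsF := pp_coe_ne_zero (F := FF1 M) hs
    rw [hg, ValuationSubring.mem_comap, emb1_div_mem_iff hΘ g z₀ u s hs,
      FF.ffp_mem_iff_ord_nonneg, div_eq_mul_inv, v'.ord_mul huF (inv_ne_zero hsF), v'.ord_inv]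
    have h1 := hv' u hu
    have h2 := hv' s hs
    have hu' := ptOrd1_ne_top hΘ g z₀ hu
    have hs' := ptOrd1_ne_top hΘ g z₀ hs
    rw [← ENat.natCast_toNat hu', ← ENat.natCast_toNat hs', Nat.cast_le]
    have hmZ : (0 : ℤ) < m := by exact_mod_cast hm
    constructor
    · intro h
      have h3 : ((ptOrd1 Θ g z₀ s).toNat : ℤ) ≤ ((ptOrd1 Θ g z₀ u).toNat : ℤ) := by exact_mod_cast h
      rw [h1, h2] at h3
      have := le_of_mul_le_mul_left h3 hmZ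
      omega
    · intro h
      have h3 : (m : ℤ) * v'.ord (s : FF1 M) ≤ m * v'.ord (u : FF1 M) :=
        mul_le_mul_of_nonneg_left (by omega) hmZ.le
      rw [← h1, ← h2] at h3
      exact_mod_cast h3
  subst hvv'
  exact ⟨g, pointPlace1_eq_of_isPointPlace1 hFF5 hΘ hinj z₀ c hc ⟨hm, hv'⟩⟩

end

end Fermat.Agent.ES.R48.X1SurjPoint1
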