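/-
Programme R (S48, Deligne–Serre), chapter GEOM, sub-chapter G2 DICT₁ (helper1; statement design =
helper12's `X1PointSurjT12`, re-based on the `X1PointPlaces1` chain): twin of
`Fermat/Agent/X0/PointSurjT` (statement level).  Every place of `F₁ = FF1 M` over `j = c` is one of
the point places `pointPlaceD1 D z₀ c hc g`.

The two facts of the `X₁`-twin of `Degree` (the degree `[F₁ : ℚbar(j)] = |SL₂(ℤ) : ±Γ₁(M)|` and
DISTINCT in analytic form) are hypotheses `DegHyp`, `DistHyp`; the proof is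
`X1SurjPoint1.exists_pointPlace1_eq`.
-/
import Fermat.Agent.ES.R48.X1SurjPoint1
import Fermat.Agent.ES.R48.X1PointPlacesD1
import Fermat.Agent.ES.R48.X1PointPlacesPos1

set_option autoImplicit false
set_option linter.unusedSectionVars false

open AlgebraicCurve UpperHalfPlane Module
open scoped MatrixGroups

noncomputable section

namespace Fermat.Agent.ES.R48.X1PointSurjT1

open Fermat.Agent.X0 Fermat.Agent.X0.JOrderMain
open Fermat.Agent.ES.R48.X1Iface13 Fermat.Agent.ES.R48.X1PointPlaces1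
  Fermat.Agent.ES.R48.X1PointPlacesD1

variable {M : ℕ} [NeZero M] (D : RealizeData1 M)

/-- The degree statement of the `X₁`-twin of `X0/Degree`:
`[F₁ : ℚbar(j)] = |SL₂(ℤ) : ±Γ₁(M)|` (with finiteness). -/
def DegHyp (M : ℕ) [NeZero M] : Prop :=
  FiniteDimensional (Kj1 M) (FF1 M) ∧
    Nat.card (SL(2, ℤ) ⧸ PG1 M) = finrank (Kj1 M) (FF1 M)

/-- DISTINCT in analytic form: if all `Θ u ∘ γ = Θ u ∘ γ'` then `γ' γ⁻¹ ∈ ±Γ₁(M)`. -/
def DistHyp : Prop :=
  ∀ γ γ' : SL(2, ℤ), (∀ u : Rsub1 M, compSL (D.Θ u) γ = compSL (D.Θ u) γ') → γ' * γ⁻¹ ∈ PG1 M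

/-- **Surjectivity at finite points.**  Every place `v` of `F₁` with `0 < ord_v (j - c)` is a point
place over any `z₀` with `j(z₀) = ι(c)`. -/
theorem exists_pointPlaceD1_eq (hdeg : DegHyp M) (hdist : DistHyp D) (z₀ : ℍ) (c : Kbar)
    (hc : jFun z₀ = iotaK c)
    (v : Place Kbar (FF1 M)) (hv : 0 < v.ord (jF1 M - algebraMap Kbar (FF1 M) c)) :
    ∃ g : SL(2, ℤ), pointPlaceD1 D z₀ c hc g = v := by
  have := hdeg.1
  have := Fermat.Agent.ES.R48.X1FracR1.isFractionRing M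
  exact X1SurjPoint1.exists_pointPlace1_eq (PointPlacesD.ordFunPlace _ _) (isRealize1 D)
    JOrderFinal.jInj z₀ c hc hdeg.2 hdist v hv

/-- The same with the coset-indexed family: every place over `j = c` is
`pointPlaceDX1 D z₀ c hc x` for some `x ∈ SL(2,ℤ) ⧸ ±Γ₁(M)`. -/
theorem exists_pointPlaceDX1_eq (hdeg : DegHyp M) (hdist : DistHyp D) (z₀ : ℍ) (c : Kbar)
    (hc : jFun z₀ = iotaK c)
    (v : Place Kbar (FF1 M)) (hv : 0 < v.ord (jF1 M - algebraMap Kbar (FF1 M) c)) :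
    ∃ x : SL(2, ℤ) ⧸ PG1 M, (pointPlaceDX1 D z₀ c hc x).1 = v := by
  obtain ⟨g, hg⟩ := exists_pointPlaceD1_eq D hdeg hdist z₀ c hc v hv
  exact ⟨QuotientGroup.mk g, by rw [pointPlaceDX1_mk, hg]⟩

end Fermat.Agent.ES.R48.X1PointSurjT1
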