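/-
Programme R (S48, Deligne–Serre), chapter GEOM, sub-chapter G3 MODEL₁ / BASE–HORIZ (helper16):
**the two dictionary bundles consumed by G3, discharged from G2.**

* `dictHyp : 3 ≤ M → WSlash M → DictHyp D` (`NoEllipticOne16`): `F₁ / ℚbar(j)` finite of degree
  `|SL₂(ℤ) : ±Γ₁(M)|` (`X1Degree14`), every place over `j = c` is a point place (`X1PointSurjT1`,
  with DISTINCT = `X1Distinct14.mem_PG1_of_compSL_eq`);
* `cuspSurjHyp : 3 ≤ M → WSlash M → CuspSurjHyp C` (`HorizUnramOne16`): every place over `j = ∞`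
  is a cusp place with its spec (`X1CuspSurj1.exists_cuspPlace_eq`, `X1CuspGood23.good`,
  `X1CuspPlaces23.cuspPlace_spec`, DISTINCT = `X1Distinct14.mem_PG1_of_T_eq`);

and the resulting closed forms of (B6) and of HORIZ₁ for ANY pair
`(D : RealizeData1 M) (C : CuspData1 M D)` with `WSlash M`:
`unbranched1_final`, `hH_all1_final`.
-/
import Mathlib
import Fermat.Agent.ES.R48.HorizConcreteOne16
import Fermat.Agent.ES.R48.X1Degree14
import Fermat.Agent.ES.R48.X1PointSurjT1
import Fermat.Agent.ES.R48.X1CuspSurj1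
import Fermat.Agent.ES.R48.X1CuspGood23

set_option autoImplicit false
set_option linter.unusedSectionVars false

open UpperHalfPlane hiding I
open scoped MatrixGroups IntermediateField

noncomputable section

namespace Fermat.Agent.ES.R48.DictHypFinal16

open Fermat.Agent.X0 AlgebraicCurve
open Fermat.Agent.RED.BASE.Interface12 Fermat.Agent.RED.BASE.Hauptmodul12
open Fermat.Agent.ES.R48.X1Iface13 Fermat.Agent.ES.R48.NoEllipticOne16
  Fermat.Agent.ES.R48.HorizUnramOne16 Fermat.Agent.ES.R48.UnbranchedOne16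

variable {M : ℕ} [NeZero M]

/-- **Point half of the dictionary**, closed (for `3 ≤ M`, given the slash rule of `W_c`). -/
theorem dictHyp (hM : 3 ≤ M) (hW : WSlash M) (D : RealizeData1 M) (C : CuspData1 M D) :
    DictHyp D where
  fin := X1Degree14.finiteDimensional M D C hM hW
  deg := X1Degree14.card_eq_finrank M D C hM hW
  surj := fun z₀ c hc v hv =>
    X1PointSurjT1.exists_pointPlaceD1_eq D
      ⟨X1Degree14.finiteDimensional M D C hM hW, X1Degree14.card_eq_finrank M D C hM hW⟩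
      (fun γ γ' h => X1Distinct14.mem_PG1_of_compSL_eq M D C hM hW γ γ' h) z₀ c hc v hv

/-- **Cusp half of the dictionary**, closed. -/
theorem cuspSurjHyp (hM : 3 ≤ M) (hW : WSlash M) (D : RealizeData1 M) (C : CuspData1 M D) :
    CuspSurjHyp C := by
  intro v hv
  have hG := X1CuspGood23.good C
  have := X1Degree14.finiteDimensional_adjoin M D C hM hW
  obtain ⟨g, rfl⟩ := X1CuspSurj1.exists_cuspPlace_eq hG
    (fun γ γ' h => X1Distinct14.mem_PG1_of_T_eq M D C hM hW γ γ' h)
    (X1Degree14.card_eq_finrank_adjoin M D C hM hW) v hv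
  obtain ⟨m, hm, hspec, -⟩ := X1CuspPlaces23.cuspPlace_spec hG g
  exact ⟨g⁻¹, m, hm, hspec⟩

/-- `4 ∣ M` or `9 ∣ M` implies `3 ≤ M`. -/
theorem three_le_of_four_or_nine {M : ℕ} [NeZero M] (h : 4 ∣ M ∨ 9 ∣ M) : 3 ≤ M := by
  have h0 : 0 < M := Nat.pos_of_ne_zero (NeZero.ne M)
  rcases h with h | h
  · have := Nat.le_of_dvd h0 h
    omega
  · have := Nat.le_of_dvd h0 h
    omega

/-- **(B6) for `X₁(M)`, closed**: only `WSlash M` and an interface pair `(D, C)` remain. -/
theorem unbranched1_final {n e : ℕ} [NeZero n] (hb : BaseHyp n e) (hnM : n ∣ M)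
    (hW : WSlash M) (D : RealizeData1 M) (C : CuspData1 M D) : Unbranched1 n e M := by
  have hM : 3 ≤ M :=
    three_le_of_four_or_nine (hb.four_or_nine.imp (fun h => h.trans hnM) (fun h => h.trans hnM))
  exact unbranched1_of_baseHyp hb M hnM D (dictHyp hM hW D C)

/-- **HORIZ₁, closed**: `G3Defs4.HorizTarget1 n e M A cv` for ANY interface pair `(D, C)` with
`WSlash M`. -/
theorem hH_all1_final {n e : ℕ} [NeZero n] {A : ValuationSubring Fermat.Agent.RED.Interface4.Qbar}
    (hb : BaseHyp n e) (hnM : n ∣ M) {ℓ : ℕ} [Fact ℓ.Prime] (hℓM : ¬ ℓ ∣ M)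
    (hA : A.LiesOverPrime ℓ) (cv : SL(2, ℤ) → Option Kbar)
    (hcv : Fermat.Agent.RED.BASE.MainCusp12.CuspExports n e M cv)
    (hW : WSlash M) (D : RealizeData1 M) (C : CuspData1 M D) :
    Fermat.Agent.ES.R48.G3Defs4.HorizTarget1 n e M A cv := by
  have hM : 3 ≤ M :=
    three_le_of_four_or_nine (hb.four_or_nine.imp (fun h => h.trans hnM) (fun h => h.trans hnM))
  exact Fermat.Agent.ES.R48.HorizConcreteOne16.hH_all1 hb hnM hℓM hA cv hcv D C
    (dictHyp hM hW D C) (cuspSurjHyp hM hW D C)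

end Fermat.Agent.ES.R48.DictHypFinal16
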