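/-
Programme R (S48, Deligne–Serre), chapter GEOM / G3, step G′(f) (helper8): the BRIDGE
"`π · chart O t` is prime ⇒ `G1Package8.DegLe O E tG n ∧ G1Package8.Irr O E tG n`" for
`n := relfinrank (Kt O tG) E = [E : K(t)]` — exactly the two degree hypotheses consumed by
`RED/ModelIface4.hasModel_of_split`.
-/
import Mathlib
import Fermat.Agent.RED.PUR.G1Package8
import Fermat.Agent.RED.PUR.ChartGeneric22
import Fermat.Agent.RED.ModelAsm4
import Fermat.Agent.IG.PR.FamilyForm20

set_option autoImplicit false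
set_option linter.unusedSectionVars false

noncomputable section

open HahnSeries ModularCurve Polynomial

namespace Fermat.Agent.ES.R48.IrrBridge8

open Fermat.Agent.RED.PUR.GaussGen8 Fermat.Agent.RED.PUR.KtGauss8
  Fermat.Agent.RED.PUR.G1Package8 Fermat.Agent.RED.PUR.ChartGeneric22

/-! ### Incomparability, elementwise -/

section Abstract

variable {A S L : Type*} [CommRing A] [CommRing S] [Algebra A S] [CommRing L]

/-- Let `Q ≤ ker φ` be a prime ideal of `S` such that every element of `A` killed by `φ` lies in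
`Q`.  Then every element of `S` integral over `A` and killed by `φ` lies in `Q`. -/
theorem mem_of_integral_of_map_eq_zero (φ : S →+* L) (Q : Ideal S) [Q.IsPrime]
    (hQ : Q ≤ RingHom.ker φ) (hA : ∀ a : A, φ (algebraMap A S a) = 0 → algebraMap A S a ∈ Q)
    {x : S} (hx : IsIntegral A x) (h0 : φ x = 0) : x ∈ Q := by
  by_contra hxQ
  have hlt := Ideal.comap_lt_comap_of_integral_mem_sdiff (R := A) hQ
    (x := x) ⟨(RingHom.mem_ker).2 h0, hxQ⟩ hx
  apply not_le_of_gt hlt
  intro a ha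
  rw [Ideal.mem_comap, RingHom.mem_ker] at ha
  exact hA a ha

/-- **Incomparability, elementwise form.**  `A ⊆ F` a subalgebra, `V ⊆ F` a subring containing the
integral closure `B` of `A`, `φ : V → L` a ring homomorphism killing `p ∈ A`.  If `p B` is prime and
every element of `A` killed by `φ` is a multiple of `p` (in `B`), then every element of `B` killed
by `φ` is a multiple of `p` in `B`. -/
theorem exists_eq_mul_of_map_eq_zero {R F : Type*} [CommRing R] [Field F] [Algebra R F]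
    [Nontrivial L] (A : Subalgebra R F) (V : Subring F) (hBV : ∀ x : F, IsIntegral A x → x ∈ V)
    (φ : V →+* L) (p : F) (hpA : p ∈ A) (hφp : ∀ h : p ∈ V, φ ⟨p, h⟩ = 0)
    (hprime : ∀ a : F, IsIntegral A a → ∀ b : F, IsIntegral A b →
      (∃ c : F, IsIntegral A c ∧ a * b = p * c) →
      (∃ c : F, IsIntegral A c ∧ a = p * c) ∨ (∃ c : F, IsIntegral A c ∧ b = p * c))
    (hA : ∀ a : F, a ∈ A → ∀ h : a ∈ V, φ ⟨a, h⟩ = 0 → ∃ c : F, IsIntegral A c ∧ a = p * c)
    {x : F} (hx : IsIntegral A x) (h0 : φ ⟨x, hBV x hx⟩ = 0) :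
    ∃ c : F, IsIntegral A c ∧ x = p * c := by
  have hmemS : ∀ y : ↥(integralClosure A F), IsIntegral A (y : F) := fun y => y.2
  let ι : ↥(integralClosure A F) →+* ↥V :=
    { toFun := fun y => ⟨(y : F), hBV _ (hmemS y)⟩
      map_one' := rfl
      map_mul' := fun _ _ => rfl
      map_zero' := rfl
      map_add' := fun _ _ => rfl }
  let ψ : ↥(integralClosure A F) →+* L := φ.comp ι
  have hpS : IsIntegral A p := isIntegral_algebraMap (R := A) (x := ⟨p, hpA⟩)
  let pS : ↥(integralClosure A F) := ⟨p, hpS⟩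
  have hmemQ : ∀ y : ↥(integralClosure A F),
      y ∈ Ideal.span {pS} ↔ ∃ c : F, IsIntegral A c ∧ (y : F) = p * c := by
    intro y
    rw [Ideal.mem_span_singleton']
    constructor
    · rintro ⟨a, rfl⟩
      refine ⟨(a : F), hmemS a, ?_⟩
      rw [MulMemClass.coe_mul, mul_comm]
    · rintro ⟨c, hc, hyc⟩
      refine ⟨⟨c, hc⟩, Subtype.ext ?_⟩
      rw [MulMemClass.coe_mul, hyc, mul_comm]
  have hψp : ψ pS = 0 := hφp _
  have hQprime : (Ideal.span {pS}).IsPrime := by
    rw [Ideal.isPrime_iff]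
    constructor
    · intro htop
      have h1 : (1 : ↥(integralClosure A F)) ∈ Ideal.span {pS} := by
        rw [htop]; exact Submodule.mem_top
      obtain ⟨a, ha⟩ := Ideal.mem_span_singleton'.1 h1
      have := congrArg ψ ha
      rw [map_mul, hψp, mul_zero, map_one] at this
      exact zero_ne_one this
    · intro a b hab
      obtain ⟨c, hc, habc⟩ := (hmemQ _).1 hab
      rw [MulMemClass.coe_mul] at habc
      rcases hprime (a : F) (hmemS a) (b : F) (hmemS b) ⟨c, hc, habc⟩ with h | h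
      · exact Or.inl ((hmemQ a).2 h)
      · exact Or.inr ((hmemQ b).2 h)
  have hQψ : Ideal.span {pS} ≤ RingHom.ker ψ := by
    rw [Ideal.span_le, Set.singleton_subset_iff]
    exact (RingHom.mem_ker).2 hψp
  have hA' : ∀ a : ↥A, ψ (algebraMap ↥A ↥(integralClosure A F) a) = 0 →
      algebraMap ↥A ↥(integralClosure A F) a ∈ Ideal.span {pS} := by
    intro a ha
    rw [hmemQ]
    exact hA (a : F) a.2 _ ha
  have hxQ := mem_of_integral_of_map_eq_zero (A := ↥A) ψ (Ideal.span {pS}) hQψ hA'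
    (x := ⟨x, hx⟩) (integralClosure.isIntegral _) h0
  exact (hmemQ _).1 hxQ

/-- every element of `F` has a nonzero denominator in `R[t]` bringing it into the chart. -/
theorem exists_mul_mem_chart_gen {R K F : Type*} [CommRing R] [IsDomain R] [Field K] [Field F]
    [Algebra R K] [Algebra K F] [Algebra R F] [IsScalarTower R K F] [IsFractionRing R K] (t : F)
    [FiniteDimensional ↥(IntermediateField.adjoin K {t}) F] (x : F) :
    ∃ d : F, d ∈ Algebra.adjoin R {t} ∧ d ≠ 0 ∧ d * x ∈ chart R t := by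
  have hs : t ∈ IntermediateField.adjoin K {t} := IntermediateField.mem_adjoin_simple_self K t
  let _ : Algebra (Algebra.adjoin R {t}) (IntermediateField.adjoin K {t}) :=
    (adjoinToField (R := R) (IntermediateField.adjoin K {t}) hs).toAlgebra
  have : IsFractionRing (Algebra.adjoin R {t}) (IntermediateField.adjoin K {t}) :=
    isFractionRing_adjoin (IntermediateField.adjoin K {t}) hs le_rfl
  have : IsScalarTower (Algebra.adjoin R {t}) (IntermediateField.adjoin K {t}) F :=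
    IsScalarTower.of_algebraMap_eq (fun _ => rfl)
  have halg : IsAlgebraic (Algebra.adjoin R {t}) x :=
    (IsFractionRing.isAlgebraic_iff (Algebra.adjoin R {t}) (IntermediateField.adjoin K {t}) F).2
      (Algebra.IsAlgebraic.isAlgebraic x)
  obtain ⟨y, hy0, hy⟩ := halg.exists_integral_multiple
  exact ⟨(y : F), y.2, fun h => hy0 (Subtype.ext h), hy⟩

theorem finrank_le_card_of_span_eq_top {k V : Type*} [Field k] [AddCommGroup V] [Module k V]
    (S : Finset V) (hS : Submodule.span k (S : Set V) = ⊤) : Module.finrank k V ≤ S.card := by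
  calc Module.finrank k V = Module.finrank k ↥(⊤ : Submodule k V) := (finrank_top _ _).symm
    _ = Set.finrank k (S : Set V) := by
        rw [← hS]
        rfl
    _ ≤ S.card := finrank_span_finset_le_card _

end Abstract

variable {K : Type*} [Field K] {O : ValuationSubring K} [IsDiscreteValuationRing ↥O]
  {π : ↥O} {E : IntermediateField K (LaurentSeries K)}

/-- shortcut instance (typeclass search on `↥E` is slow); it is the instance Lean finds. -/
local instance instAlgebraOE : Algebra ↥O ↥E := Algebra.ofSubsemiring O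

/-- the residue map on the Gauss valuation ring of `E`. -/
def redV (hπ : Irreducible π) (hE : E ≤ fracField O) :
    ↥(OvE O hπ E hE) →+* LaurentSeries (Res O) :=
  (gaussRed O).comp (toGauss O hπ E hE)

theorem redV_apply (hπ : Irreducible π) (hE : E ≤ fracField O) (x : ↥(OvE O hπ E hE)) :
    redV hπ hE x = gaussRed O ⟨((x : ↥E) : LaurentSeries K),
      (mem_OvE_iff O hπ E hE x).mp x.2⟩ := rfl

theorem chart_le_OvE (hπ : Irreducible π) (hE : E ≤ fracField O) (t : ↥E)
    (ht : (t : LaurentSeries K) ∈ gaussRing O) {x : ↥E} (hx : x ∈ chart ↥O t) :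
    x ∈ OvE O hπ E hE :=
  mem_OvE_of_isIntegral hπ hE t ht (mem_chart_iff.1 hx)

/-- the residue of a polynomial expression in `t`. -/
theorem redV_aeval (hπ : Irreducible π) (hE : E ≤ fracField O) (t : ↥E)
    (ht : (t : LaurentSeries K) ∈ gaussRing O) (g : (↥O)[X]) (hg : aeval t g ∈ OvE O hπ E hE) :
    redV hπ hE ⟨aeval t g, hg⟩
      = aeval (gaussRed O ⟨(t : LaurentSeries K), ht⟩) (g.map (res0 O)) := by
  rw [← gaussRed_polyG, redV_apply]
  congr 1
  apply Subtype.ext
  rw [coe_polyG]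
  exact coe_aeval t g

theorem aeval_mem_OvE (hπ : Irreducible π) (hE : E ≤ fracField O) (t : ↥E)
    (ht : (t : LaurentSeries K) ∈ gaussRing O) (g : (↥O)[X]) : aeval t g ∈ OvE O hπ E hE :=
  adjoin_le_OvE hπ hE t ht ⟨aeval t g, Polynomial.aeval_mem_adjoin_singleton _ _⟩

theorem redV_pi (hπ : Irreducible π) (hE : E ≤ fracField O) (h : algebraMap ↥O ↥E π ∈ OvE O hπ E hE) :
    redV hπ hE ⟨algebraMap ↥O ↥E π, h⟩ = 0 := by
  rw [redV_apply]
  have : (⟨((algebraMap ↥O ↥E π : ↥E) : LaurentSeries K), (mem_OvE_iff O hπ E hE _).mp h⟩ :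
      ↥(gaussRing O)) = constG O π := Subtype.ext (coe_algebraMap_pi (E := E) π)
  rw [this]
  exact gaussRed_unif (isUnif_of_irreducible O hπ)

/-- **Incomparability for the chart**: if `π · chart O t` is prime, an element of the chart with
zero residue is a multiple of `π` in the chart. -/
theorem exists_eq_pi_mul_of_redV_eq_zero (hπ : Irreducible π) (hE : E ≤ fracField O) (t : ↥E)
    (ht : (t : LaurentSeries K) ∈ gaussRing O)
    (htr : Transcendental (Res O) (gaussRed O ⟨(t : LaurentSeries K), ht⟩))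
    (hprime : ∀ a ∈ chart ↥O t, ∀ b ∈ chart ↥O t,
      (∃ c ∈ chart ↥O t, a * b = algebraMap ↥O ↥E π * c) →
      (∃ c ∈ chart ↥O t, a = algebraMap ↥O ↥E π * c) ∨
        (∃ c ∈ chart ↥O t, b = algebraMap ↥O ↥E π * c))
    {x : ↥E} (hx : x ∈ chart ↥O t) (h0 : redV hπ hE ⟨x, chart_le_OvE hπ hE t ht hx⟩ = 0) :
    ∃ c ∈ chart ↥O t, x = algebraMap ↥O ↥E π * c := by
  have hBV : ∀ x : ↥E, IsIntegral ↥(Algebra.adjoin ↥O {t}) x → x ∈ (OvE O hπ E hE).toSubring :=
    fun x hx => mem_OvE_of_isIntegral hπ hE t ht hx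
  refine exists_eq_mul_of_map_eq_zero (Algebra.adjoin ↥O {t}) (OvE O hπ E hE).toSubring hBV
    (redV hπ hE) (algebraMap ↥O ↥E π) (Subalgebra.algebraMap_mem _ π)
    (fun h => redV_pi hπ hE h) hprime ?_ hx h0
  intro a haA haV ha
  rw [Algebra.adjoin_singleton_eq_range_aeval] at haA
  obtain ⟨g, rfl⟩ := haA
  have h1 : redV hπ hE ⟨aeval t g, haV⟩ = 0 := ha
  rw [redV_aeval hπ hE t ht] at h1
  have h2 : g.map (res0 O) = 0 := (transcendental_iff.mp htr) _ h1
  obtain ⟨g', rfl⟩ := (map_res0_eq_zero_iff hπ g).1 h2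
  refine ⟨aeval t g', adjoin_le_chart t (Polynomial.aeval_mem_adjoin_singleton _ _), ?_⟩
  show aeval t (Polynomial.C π * g') = _
  rw [map_mul, aeval_C]

/-! ### The localisation `Ov0 · chart` -/

theorem aeval_mem_chart (t : ↥E) (g : (↥O)[X]) : aeval t g ∈ chart ↥O t :=
  adjoin_le_chart t (Polynomial.aeval_mem_adjoin_singleton _ _)

theorem aeval_ne_zero_of_map_ne_zero (t : ↥E) (ht : (t : LaurentSeries K) ∈ gaussRing O)
    (htr : Transcendental (Res O) (gaussRed O ⟨(t : LaurentSeries K), ht⟩))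
    {h : (↥O)[X]} (hh : h.map (res0 O) ≠ 0) : aeval t h ≠ 0 := by
  intro h0
  apply coe_polyG_ne_zero htr hh
  rw [← coe_aeval, h0]
  rfl

/-- `f(t)/h(t)`, `h̃ ≠ 0`, lies in `Ov0`. -/
theorem mem_Ov0_of_rep (t : ↥E) (ht : (t : LaurentSeries K) ∈ gaussRing O)
    (htr : Transcendental (Res O) (gaussRed O ⟨(t : LaurentSeries K), ht⟩))
    (f h : (↥O)[X]) (hh : h.map (res0 O) ≠ 0) {c : ↥E} (hc : c * aeval t h = aeval t f) :
    c ∈ Ov0 O E ⟨(t : LaurentSeries K), ht⟩ := by
  have hrel : (c : LaurentSeries K) * aeval (t : LaurentSeries K) (h.map O.subtype)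
      = aeval (t : LaurentSeries K) (f.map O.subtype) := by
    rw [← coe_aeval, ← coe_aeval, ← hc]
    rfl
  exact mem_of_rep (tG := ⟨(t : LaurentSeries K), ht⟩) htr f h hh hrel

/-- shortcut instance (typeclass search on `↥E` is slow). -/
local instance instAlgebraOv0 (tG : ↥(gaussRing O)) : Algebra ↥(Ov0 O E tG) ↥E :=
  Algebra.ofSubsemiring (Ov0 O E tG)

/-- shortcut instance. -/
local instance instModuleOv0 (tG : ↥(gaussRing O)) : Module ↥(Ov0 O E tG) ↥E :=
  (instAlgebraOv0 tG).toModule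

/-- `Ov0 · chart O t` (the localisation of the chart at the prime `π O[t]`), as an
`Ov0`-submodule of `E`. -/
def locChart (hπ : Irreducible π) (t : ↥E) (ht : (t : LaurentSeries K) ∈ gaussRing O)
    (htr : Transcendental (Res O) (gaussRed O ⟨(t : LaurentSeries K), ht⟩)) :
    Submodule ↥(Ov0 O E ⟨(t : LaurentSeries K), ht⟩) ↥E where
  carrier := {z | ∃ h : (↥O)[X], h.map (res0 O) ≠ 0 ∧ aeval t h * z ∈ chart ↥O t}
  add_mem' := by
    rintro z1 z2 ⟨h1, hh1, hz1⟩ ⟨h2, hh2, hz2⟩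
    refine ⟨h1 * h2, ?_, ?_⟩
    · rw [Polynomial.map_mul]
      exact mul_ne_zero hh1 hh2
    · have e : aeval t (h1 * h2) * (z1 + z2)
          = aeval t h2 * (aeval t h1 * z1) + aeval t h1 * (aeval t h2 * z2) := by
        rw [map_mul]; ring
      rw [e]
      exact add_mem (mul_mem (aeval_mem_chart t h2) hz1) (mul_mem (aeval_mem_chart t h1) hz2)
  zero_mem' := ⟨1, by rw [Polynomial.map_one]; exact one_ne_zero, by
    rw [mul_zero]; exact zero_mem _⟩
  smul_mem' := by
    rintro c z ⟨h2, hh2, hz⟩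
    obtain ⟨f, h, hh, hc⟩ := Ov0_rep hπ t ht htr (c : ↥E) c.2
    refine ⟨h * h2, ?_, ?_⟩
    · rw [Polynomial.map_mul]
      exact mul_ne_zero hh hh2
    · have e : aeval t (h * h2) * (c • z) = aeval t f * (aeval t h2 * z) := by
        rw [map_mul, Subring.smul_def, smul_eq_mul, ← hc]; ring
      rw [e]
      exact mul_mem (aeval_mem_chart t f) hz

theorem mem_locChart_iff (hπ : Irreducible π) (t : ↥E) (ht : (t : LaurentSeries K) ∈ gaussRing O)
    (htr : Transcendental (Res O) (gaussRed O ⟨(t : LaurentSeries K), ht⟩)) (z : ↥E) :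
    z ∈ locChart hπ t ht htr ↔
      ∃ h : (↥O)[X], h.map (res0 O) ≠ 0 ∧ aeval t h * z ∈ chart ↥O t := Iff.rfl

theorem chart_le_locChart (hπ : Irreducible π) (t : ↥E) (ht : (t : LaurentSeries K) ∈ gaussRing O)
    (htr : Transcendental (Res O) (gaussRed O ⟨(t : LaurentSeries K), ht⟩)) {z : ↥E}
    (hz : z ∈ chart ↥O t) : z ∈ locChart hπ t ht htr :=
  ⟨1, by rw [Polynomial.map_one]; exact one_ne_zero, by rw [map_one, one_mul]; exact hz⟩

/-- the localisation is generated over `Ov0` by finitely many elements of the chart. -/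
theorem exists_locChart_eq_span [CharZero K] (hπ : Irreducible π) (t : ↥E)
    (ht : (t : LaurentSeries K) ∈ gaussRing O)
    (htr : Transcendental (Res O) (gaussRed O ⟨(t : LaurentSeries K), ht⟩))
    [FiniteDimensional ↥(IntermediateField.adjoin K {t}) ↥E] (htrK : Transcendental K t) :
    ∃ (r : ℕ) (g : Fin r → ↥E), (∀ i, g i ∈ chart ↥O t) ∧
      locChart hπ t ht htr = Submodule.span ↥(Ov0 O E ⟨(t : LaurentSeries K), ht⟩) (Set.range g) := by
  have : IsScalarTower ↥O K ↥E := Fermat.Agent.RED.NumInst4.isScalarTower_OE O E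
  obtain ⟨-, -, r, g, hg, hgen⟩ := chart_facts (R := ↥O) (IntermediateField.adjoin K {t})
    (IntermediateField.mem_adjoin_simple_self K t) le_rfl htrK
  refine ⟨r, g, hg, le_antisymm ?_ ?_⟩
  · rintro z ⟨h, hh, hz⟩
    obtain ⟨P, hP⟩ := hgen _ hz
    have hne := aeval_ne_zero_of_map_ne_zero t ht htr hh
    have hz' : z = ∑ i, (⟨aeval t (P i) / aeval t h,
        mem_Ov0_of_rep t ht htr (P i) h hh (div_mul_cancel₀ _ hne)⟩ :
          ↥(Ov0 O E ⟨(t : LaurentSeries K), ht⟩)) • g i := by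
      have e1 : ∀ i, (⟨aeval t (P i) / aeval t h,
          mem_Ov0_of_rep t ht htr (P i) h hh (div_mul_cancel₀ _ hne)⟩ :
            ↥(Ov0 O E ⟨(t : LaurentSeries K), ht⟩)) • g i
          = (aeval t (P i) * g i) / aeval t h := by
        intro i
        rw [Subring.smul_def, smul_eq_mul, div_mul_eq_mul_div]
      rw [Finset.sum_congr rfl (fun i _ => e1 i), ← Finset.sum_div, ← hP,
        mul_div_cancel_left₀ _ hne]
    rw [hz']
    exact Submodule.sum_mem _ fun i _ =>
      Submodule.smul_mem _ _ (Submodule.subset_span (Set.mem_range_self i))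
  · rw [Submodule.span_le]
    rintro y ⟨i, rfl⟩
    exact chart_le_locChart hπ t ht htr (hg i)

/-- **saturation of the localisation**: an element of `Ov0 · chart` with zero residue is `π` times
an element of `Ov0 · chart`. -/
theorem locChart_sat (hπ : Irreducible π) (hE : E ≤ fracField O) (t : ↥E)
    (ht : (t : LaurentSeries K) ∈ gaussRing O)
    (htr : Transcendental (Res O) (gaussRed O ⟨(t : LaurentSeries K), ht⟩))
    (hprime : ∀ a ∈ chart ↥O t, ∀ b ∈ chart ↥O t,
      (∃ c ∈ chart ↥O t, a * b = algebraMap ↥O ↥E π * c) →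
      (∃ c ∈ chart ↥O t, a = algebraMap ↥O ↥E π * c) ∨
        (∃ c ∈ chart ↥O t, b = algebraMap ↥O ↥E π * c))
    {z : ↥E} (hz : z ∈ locChart hπ t ht htr) (hzV : z ∈ OvE O hπ E hE)
    (h0 : redV hπ hE ⟨z, hzV⟩ = 0) :
    ∃ w ∈ locChart hπ t ht htr, z = algebraMap ↥O ↥E π * w := by
  obtain ⟨h, hh, hy⟩ := hz
  have hhV : aeval t h ∈ OvE O hπ E hE := aeval_mem_OvE hπ hE t ht h
  have hy0 : redV hπ hE ⟨aeval t h * z, chart_le_OvE hπ hE t ht hy⟩ = 0 := by
    have e : (⟨aeval t h * z, chart_le_OvE hπ hE t ht hy⟩ : ↥(OvE O hπ E hE))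
        = ⟨aeval t h, hhV⟩ * ⟨z, hzV⟩ := rfl
    rw [e, map_mul, h0, mul_zero]
  obtain ⟨c, hc, hyc⟩ := exists_eq_pi_mul_of_redV_eq_zero hπ hE t ht htr hprime hy hy0
  have hpi := algebraMap_pi_ne_zero hπ (E := E)
  refine ⟨(algebraMap ↥O ↥E π)⁻¹ * z, ⟨h, hh, ?_⟩, ?_⟩
  · have e : aeval t h * ((algebraMap ↥O ↥E π)⁻¹ * z) = c := by
      rw [mul_left_comm, hyc, ← mul_assoc, inv_mul_cancel₀ hpi, one_mul]
    rw [e]
    exact hc
  · rw [← mul_assoc, mul_inv_cancel₀ hpi, one_mul]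

/-! ### Units of `Ov0`, denominators -/

theorem isUnit_Ov0_of_redV_ne_zero (hπ : Irreducible π) (hE : E ≤ fracField O) (t : ↥E)
    (ht : (t : LaurentSeries K) ∈ gaussRing O) (u : ↥(Ov0 O E ⟨(t : LaurentSeries K), ht⟩))
    (hu : redV hπ hE ⟨(u : ↥E), Ov0_le_OvE O hπ E hE _ u.2⟩ ≠ 0) : IsUnit u := by
  have hu0 : (u : ↥E) ≠ 0 := by
    intro h0
    apply hu
    have : (⟨(u : ↥E), Ov0_le_OvE O hπ E hE _ u.2⟩ : ↥(OvE O hπ E hE)) = 0 := Subtype.ext h0
    rw [this, map_zero]
  have hinvG : (((u : ↥E)⁻¹ : ↥E) : LaurentSeries K) ∈ gaussRing O :=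
    inv_mem_of_gaussRed_ne_zero O ⟨((u : ↥E) : LaurentSeries K), u.2.2⟩ hu
  have hinvK : (((u : ↥E)⁻¹ : ↥E) : LaurentSeries K) ∈ Kt O ⟨(t : LaurentSeries K), ht⟩ :=
    inv_mem u.2.1
  exact isUnit_iff_exists_inv.2 ⟨⟨(u : ↥E)⁻¹, hinvK, hinvG⟩, Subtype.ext (mul_inv_cancel₀ hu0)⟩

theorem mem_adjoin_of_coe_mem (t : ↥E) {x : ↥E}
    (hx : (x : LaurentSeries K) ∈ IntermediateField.adjoin K {(t : LaurentSeries K)}) :
    x ∈ IntermediateField.adjoin K {t} := by
  have h1 : (IntermediateField.adjoin K {t}).map E.val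
      = IntermediateField.adjoin K {(t : LaurentSeries K)} := by
    rw [IntermediateField.adjoin_map, Set.image_singleton]
    rfl
  rw [← h1] at hx
  obtain ⟨y, hy, hyx⟩ := (IntermediateField.mem_map _).1 hx
  have hyx' : y = x := Subtype.ext hyx
  exact hyx' ▸ hy

/-- every element of `E` has a nonzero denominator in `O[t]` bringing it into the chart. -/
theorem exists_mul_mem_chart (t : ↥E) [FiniteDimensional ↥(IntermediateField.adjoin K {t}) ↥E]
    (x : ↥E) : ∃ d : ↥E, d ∈ Algebra.adjoin ↥O {t} ∧ d ≠ 0 ∧ d * x ∈ chart ↥O t := by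
  have : IsScalarTower ↥O K ↥E := Fermat.Agent.RED.NumInst4.isScalarTower_OE O E
  exact exists_mul_mem_chart_gen (R := ↥O) (K := K) t x

/-! ### Nakayama: a spanning set of residues has at least `[E : K(t)]` elements -/

/-- the residues of the elements of the chart. -/
def chartResidues (hπ : Irreducible π) (hE : E ≤ fracField O) (t : ↥E)
    (ht : (t : LaurentSeries K) ∈ gaussRing O) : Set (LaurentSeries (Res O)) :=
  {v | ∃ x : ↥E, ∃ hx : x ∈ chart ↥O t, redV hπ hE ⟨x, chart_le_OvE hπ hE t ht hx⟩ = v}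

/-- every element of the `κ(t̃)`-span of residues of elements `e v` is the residue of an element of
the `Ov0`-span of the `e v`. -/
theorem exists_lift_of_mem_span (hπ : Irreducible π) (hE : E ≤ fracField O) (t : ↥E)
    (ht : (t : LaurentSeries K) ∈ gaussRing O)
    (htr : Transcendental (Res O) (gaussRed O ⟨(t : LaurentSeries K), ht⟩))
    (bF : Set (LaurentSeries (Res O))) (e : LaurentSeries (Res O) → ↥E)
    (he : ∀ v ∈ bF, ∃ hV : e v ∈ OvE O hπ E hE, redV hπ hE ⟨e v, hV⟩ = v)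
    {v : LaurentSeries (Res O)}
    (hv : v ∈ Submodule.span ↥(kt O ⟨(t : LaurentSeries K), ht⟩) bF) :
    ∃ z ∈ Submodule.span ↥(Ov0 O E ⟨(t : LaurentSeries K), ht⟩) (e '' bF),
      ∃ hV : z ∈ OvE O hπ E hE, redV hπ hE ⟨z, hV⟩ = v := by
  induction hv using Submodule.span_induction with
  | mem v hv =>
    obtain ⟨hV, h⟩ := he v hv
    exact ⟨e v, Submodule.subset_span ⟨v, hv, rfl⟩, hV, h⟩
  | zero => exact ⟨0, zero_mem _, zero_mem _, map_zero _⟩
  | add v w _ _ hv hw =>
    obtain ⟨z1, hz1, hV1, h1⟩ := hv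
    obtain ⟨z2, hz2, hV2, h2⟩ := hw
    refine ⟨z1 + z2, add_mem hz1 hz2, add_mem hV1 hV2, ?_⟩
    rw [← h1, ← h2, ← map_add]
    rfl
  | smul a v _ hv =>
    obtain ⟨z, hz, hV, h⟩ := hv
    obtain ⟨c, hcK, hcG, hc⟩ := exists_gaussRed_eq htr a.2
    have hcE : c ∈ E := Kt_le (tG := ⟨(t : LaurentSeries K), ht⟩) t.2 hcK
    have hcV : (⟨c, hcE⟩ : ↥E) ∈ OvE O hπ E hE := (mem_OvE_iff O hπ E hE _).2 hcG
    refine ⟨(⟨⟨c, hcE⟩, hcK, hcG⟩ : ↥(Ov0 O E ⟨(t : LaurentSeries K), ht⟩)) • z,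
      Submodule.smul_mem _ _ hz, mul_mem hcV hV, ?_⟩
    have e1 : (⟨(⟨⟨c, hcE⟩, hcK, hcG⟩ : ↥(Ov0 O E ⟨(t : LaurentSeries K), ht⟩)) • z,
        mul_mem hcV hV⟩ : ↥(OvE O hπ E hE)) = ⟨⟨c, hcE⟩, hcV⟩ * ⟨z, hV⟩ := rfl
    rw [e1, map_mul, h]
    have e2 : redV hπ hE ⟨⟨c, hcE⟩, hcV⟩ = (a : LaurentSeries (Res O)) := hc
    rw [e2]
    rfl

/-- `π` as an element of `Ov0`. -/
def piOv0 (π : ↥O) (t : ↥E) (ht : (t : LaurentSeries K) ∈ gaussRing O) :
    ↥(Ov0 O E ⟨(t : LaurentSeries K), ht⟩) :=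
  ⟨algebraMap ↥O ↥E π, (Kt O ⟨(t : LaurentSeries K), ht⟩).algebraMap_mem (π : K),
    algebraMap_O_mem π⟩

theorem coe_piOv0 (π : ↥O) (t : ↥E) (ht : (t : LaurentSeries K) ∈ gaussRing O) :
    ((piOv0 π t ht : ↥(Ov0 O E ⟨(t : LaurentSeries K), ht⟩)) : ↥E) = algebraMap ↥O ↥E π := rfl

/-- `π` lies in the Jacobson radical of `Ov0`. -/
theorem span_piOv0_le_jacobson (hπ : Irreducible π) (hE : E ≤ fracField O) (t : ↥E)
    (ht : (t : LaurentSeries K) ∈ gaussRing O) :
    Ideal.span {piOv0 π t ht} ≤ Ideal.jacobson ⊥ := by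
  rw [Ideal.span_le, Set.singleton_subset_iff, SetLike.mem_coe, Ideal.mem_jacobson_bot]
  intro y
  apply isUnit_Ov0_of_redV_ne_zero hπ hE t ht
  have hπV : algebraMap ↥O ↥E π ∈ OvE O hπ E hE :=
    (mem_OvE_iff O hπ E hE _).2 (algebraMap_O_mem π)
  have hyV : (y : ↥E) ∈ OvE O hπ E hE := Ov0_le_OvE O hπ E hE _ y.2
  have e1 : (⟨((piOv0 π t ht * y + 1 : ↥(Ov0 O E ⟨(t : LaurentSeries K), ht⟩)) : ↥E),
      Ov0_le_OvE O hπ E hE _ (piOv0 π t ht * y + 1).2⟩ : ↥(OvE O hπ E hE))
      = ⟨algebraMap ↥O ↥E π, hπV⟩ * ⟨(y : ↥E), hyV⟩ + 1 := rfl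
  rw [e1, map_add, map_mul, redV_pi hπ hE hπV, zero_mul, zero_add, map_one]
  exact one_ne_zero

/-- **Nakayama step**: if the residues of the `e v`, `v ∈ bF`, span all residues of the chart over
`κ(t̃)`, then the `e v` generate `Ov0 · chart` over `Ov0`. -/
theorem locChart_le_span [CharZero K] (hπ : Irreducible π) (hE : E ≤ fracField O) (t : ↥E)
    (ht : (t : LaurentSeries K) ∈ gaussRing O)
    (htr : Transcendental (Res O) (gaussRed O ⟨(t : LaurentSeries K), ht⟩))
    [FiniteDimensional ↥(IntermediateField.adjoin K {t}) ↥E] (htrK : Transcendental K t)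
    (hprime : ∀ a ∈ chart ↥O t, ∀ b ∈ chart ↥O t,
      (∃ c ∈ chart ↥O t, a * b = algebraMap ↥O ↥E π * c) →
      (∃ c ∈ chart ↥O t, a = algebraMap ↥O ↥E π * c) ∨
        (∃ c ∈ chart ↥O t, b = algebraMap ↥O ↥E π * c))
    (bF : Set (LaurentSeries (Res O))) (e : LaurentSeries (Res O) → ↥E)
    (hx : ∀ v ∈ bF, e v ∈ chart ↥O t)
    (he : ∀ v ∈ bF, ∃ hV : e v ∈ OvE O hπ E hE, redV hπ hE ⟨e v, hV⟩ = v)
    (hspan : ∀ v ∈ chartResidues hπ hE t ht,
      v ∈ Submodule.span ↥(kt O ⟨(t : LaurentSeries K), ht⟩) bF) :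
    ∀ z ∈ locChart hπ t ht htr,
      z ∈ Submodule.span ↥(Ov0 O E ⟨(t : LaurentSeries K), ht⟩) (e '' bF) := by
  have hNloc : Submodule.span ↥(Ov0 O E ⟨(t : LaurentSeries K), ht⟩) (e '' bF)
      ≤ locChart hπ t ht htr := by
    rw [Submodule.span_le]
    rintro _ ⟨v, hv, rfl⟩
    exact chart_le_locChart hπ t ht htr (hx v hv)
  obtain ⟨r, g, hg, hloc⟩ := exists_locChart_eq_span hπ t ht htr htrK
  have hNN : locChart hπ t ht htr ≤
      Submodule.span ↥(Ov0 O E ⟨(t : LaurentSeries K), ht⟩) (e '' bF) ⊔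
        (Ideal.span {piOv0 π t ht}) • locChart hπ t ht htr := by
    refine hloc.le.trans (Submodule.span_le.2 ?_)
    rintro _ ⟨i, rfl⟩
    have hgi := hg i
    obtain ⟨z, hzN, hzV, hz⟩ := exists_lift_of_mem_span hπ hE t ht htr bF e he
      (hspan _ ⟨g i, hgi, rfl⟩)
    have hd : g i - z ∈ locChart hπ t ht htr :=
      sub_mem (chart_le_locChart hπ t ht htr hgi) (hNloc hzN)
    have hdV : g i - z ∈ OvE O hπ E hE := sub_mem (chart_le_OvE hπ hE t ht hgi) hzV
    have hd0 : redV hπ hE ⟨g i - z, hdV⟩ = 0 := by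
      have e1 : (⟨g i - z, hdV⟩ : ↥(OvE O hπ E hE))
          = ⟨g i, chart_le_OvE hπ hE t ht hgi⟩ - ⟨z, hzV⟩ := rfl
      rw [e1, map_sub, hz, sub_self]
    obtain ⟨w, hw, hdw⟩ := locChart_sat hπ hE t ht htr hprime hd hdV hd0
    have e2 : g i = z + piOv0 π t ht • w := by
      show g i = z + algebraMap ↥O ↥E π * w
      rw [← hdw]
      ring
    rw [SetLike.mem_coe, e2]
    exact Submodule.add_mem_sup hzN
      (Submodule.smul_mem_smul (Ideal.mem_span_singleton_self _) hw)
  have hle := Submodule.le_of_le_smul_of_le_jacobson_bot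
    (hloc ▸ Submodule.fg_span (Set.finite_range g)) (span_piOv0_le_jacobson hπ hE t ht) hNN
  exact fun z hz => hle hz

/-- the `Ov0`-span lies in the `K(t)`-span. -/
theorem span_Ov0_le_span_adjoin (t : ↥E) (ht : (t : LaurentSeries K) ∈ gaussRing O)
    (S : Set ↥E) {z : ↥E}
    (hz : z ∈ Submodule.span ↥(Ov0 O E ⟨(t : LaurentSeries K), ht⟩) S) :
    z ∈ Submodule.span ↥(IntermediateField.adjoin K {t}) S := by
  induction hz using Submodule.span_induction with
  | mem x hx => exact Submodule.subset_span hx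
  | zero => exact zero_mem _
  | add x y _ _ hx hy => exact add_mem hx hy
  | smul a x _ hx =>
    have e1 : a • x = (⟨(a : ↥E), mem_adjoin_of_coe_mem t a.2.1⟩ :
        ↥(IntermediateField.adjoin K {t})) • x := rfl
    rw [e1]
    exact Submodule.smul_mem _ _ hx

/-- if the chart lies in the `Ov0`-span of `S`, then `S` spans `E` over `K(t)`. -/
theorem span_adjoin_eq_top (t : ↥E) (ht : (t : LaurentSeries K) ∈ gaussRing O)
    [FiniteDimensional ↥(IntermediateField.adjoin K {t}) ↥E] (S : Set ↥E)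
    (hS : ∀ x ∈ chart ↥O t, x ∈ Submodule.span ↥(Ov0 O E ⟨(t : LaurentSeries K), ht⟩) S) :
    Submodule.span ↥(IntermediateField.adjoin K {t}) S = ⊤ := by
  rw [eq_top_iff]
  intro x _
  obtain ⟨d, hdA, hd0, hdx⟩ := exists_mul_mem_chart (O := O) t x
  have h1 := span_Ov0_le_span_adjoin t ht S (hS _ hdx)
  have hdF : d ∈ IntermediateField.adjoin K {t} := by
    have : IsScalarTower ↥O K ↥E := Fermat.Agent.RED.NumInst4.isScalarTower_OE O E
    exact adjoin_le_intermediateField (R := ↥O) (IntermediateField.adjoin K {t})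
      (IntermediateField.mem_adjoin_simple_self K t) hdA
  have e1 : x = (⟨d, hdF⟩ : ↥(IntermediateField.adjoin K {t}))⁻¹ • (d * x) := by
    show x = d⁻¹ * (d * x)
    rw [← mul_assoc, inv_mul_cancel₀ hd0, one_mul]
  rw [e1]
  exact Submodule.smul_mem _ _ h1

/-- a finite spanning family bounds the degree. -/
theorem relfinrank_le_card_of_span_eq_top (t : ↥E) (S : Finset ↥E)
    (hS : Submodule.span ↥(IntermediateField.adjoin K {t}) (S : Set ↥E) = ⊤) :
    IntermediateField.relfinrank (IntermediateField.adjoin K {(t : LaurentSeries K)}) E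
      ≤ S.card := by
  rw [← Fermat.Agent.RED.ModelAsm4.finrank_adjoin_eq_relfinrank t]
  exact finrank_le_card_of_span_eq_top S hS

theorem relfinrank_le_card [CharZero K] (hπ : Irreducible π) (hE : E ≤ fracField O) (t : ↥E)
    (ht : (t : LaurentSeries K) ∈ gaussRing O)
    (htr : Transcendental (Res O) (gaussRed O ⟨(t : LaurentSeries K), ht⟩))
    (hn : IntermediateField.relfinrank (Kt O ⟨(t : LaurentSeries K), ht⟩) E ≠ 0)
    (hprime : ∀ a ∈ chart ↥O t, ∀ b ∈ chart ↥O t,
      (∃ c ∈ chart ↥O t, a * b = algebraMap ↥O ↥E π * c) →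
      (∃ c ∈ chart ↥O t, a = algebraMap ↥O ↥E π * c) ∨
        (∃ c ∈ chart ↥O t, b = algebraMap ↥O ↥E π * c))
    (bF : Finset (LaurentSeries (Res O))) (hbT : ∀ v ∈ bF, v ∈ chartResidues hπ hE t ht)
    (hspan : ∀ v ∈ chartResidues hπ hE t ht,
      v ∈ Submodule.span ↥(kt O ⟨(t : LaurentSeries K), ht⟩) (bF : Set (LaurentSeries (Res O)))) :
    IntermediateField.relfinrank (Kt O ⟨(t : LaurentSeries K), ht⟩) E ≤ bF.card := by
  classical
  have hfd : FiniteDimensional ↥(IntermediateField.adjoin K {t}) ↥E :=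
    Fermat.Agent.RED.ModelAsm4.finiteDimensional_adjoin t hn
  have htrK : Transcendental K t := Fermat.Agent.RED.ModelAsm4.transcendental_of_coe t
    (transcendental_t (tG := ⟨(t : LaurentSeries K), ht⟩) hπ htr)
  -- lifts of the residues in `bF`
  have hlift : ∀ v : LaurentSeries (Res O), v ∈ bF → ∃ x : ↥E, x ∈ chart ↥O t ∧
      ∃ hV : x ∈ OvE O hπ E hE, redV hπ hE ⟨x, hV⟩ = v := by
    intro v hv
    obtain ⟨x, hx, h⟩ := hbT v hv
    exact ⟨x, hx, chart_le_OvE hπ hE t ht hx, h⟩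
  choose! e hx he using hlift
  have hle := locChart_le_span hπ hE t ht htr htrK hprime
    (bF : Set (LaurentSeries (Res O))) e hx he hspan
  have hS : ∀ x ∈ chart ↥O t,
      x ∈ Submodule.span ↥(Ov0 O E ⟨(t : LaurentSeries K), ht⟩)
        (e '' (bF : Set (LaurentSeries (Res O)))) :=
    fun x hx => hle x (chart_le_locChart hπ t ht htr hx)
  have htop := span_adjoin_eq_top t ht (e '' (bF : Set (LaurentSeries (Res O)))) hS
  have h1 := relfinrank_le_card_of_span_eq_top t (bF.image e) (by rw [Finset.coe_image]; exact htop)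
  exact h1.trans Finset.card_image_le

/-! ### The bridge -/

/-- **IrrBridge.**  If `π · chart O t` is prime (in the elementwise form produced by
`ChartCech8.pi_prime_chart`), then `n := [E : K(t)]` satisfies both degree hypotheses `(DEG)`, `(IRR)`
of `G1Package8` — the inputs `hdeg`, `hirr` of `ModelIface4.hasModel_of_split`. -/
theorem degLe_and_irr_of_pi_prime [CharZero K] (hπ : Irreducible π) (hE : E ≤ fracField O) (t : ↥E)
    (ht : (t : LaurentSeries K) ∈ gaussRing O)
    (htr : Transcendental (Res O) (gaussRed O ⟨(t : LaurentSeries K), ht⟩))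
    (hn : IntermediateField.relfinrank (Kt O ⟨(t : LaurentSeries K), ht⟩) E ≠ 0)
    (hprime : ∀ a ∈ chart ↥O t, ∀ b ∈ chart ↥O t,
      (∃ c ∈ chart ↥O t, a * b = algebraMap ↥O ↥E π * c) →
      (∃ c ∈ chart ↥O t, a = algebraMap ↥O ↥E π * c) ∨
        (∃ c ∈ chart ↥O t, b = algebraMap ↥O ↥E π * c)) :
    DegLe O E ⟨(t : LaurentSeries K), ht⟩
        (IntermediateField.relfinrank (Kt O ⟨(t : LaurentSeries K), ht⟩) E) ∧
      Irr O E ⟨(t : LaurentSeries K), ht⟩
        (IntermediateField.relfinrank (Kt O ⟨(t : LaurentSeries K), ht⟩) E) := by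
  classical
  have hTF : Kt O ⟨(t : LaurentSeries K), ht⟩ ≤ E :=
    Kt_le (tG := ⟨(t : LaurentSeries K), ht⟩) t.2
  refine ⟨fun m c hc hli =>
    Fermat.Agent.IG.PR.FamilyForm20.le_relfinrank_of_family hTF m hn c hc hli, ?_⟩
  obtain ⟨b, hbT, hbspan, hli⟩ := exists_linearIndependent ↥(kt O ⟨(t : LaurentSeries K), ht⟩)
    (chartResidues hπ hE t ht)
  have hT : ∀ v ∈ chartResidues hπ hE t ht,
      v ∈ Submodule.span ↥(kt O ⟨(t : LaurentSeries K), ht⟩) b := by
    intro v hv
    rw [hbspan]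
    exact Submodule.subset_span hv
  -- a finite subset of `b` with `n` elements
  obtain ⟨s, hsb, hscard⟩ : ∃ s : Finset (LaurentSeries (Res O)),
      (s : Set (LaurentSeries (Res O))) ⊆ b ∧
        s.card = IntermediateField.relfinrank (Kt O ⟨(t : LaurentSeries K), ht⟩) E := by
    by_cases hfin : b.Finite
    · have h1 : IntermediateField.relfinrank (Kt O ⟨(t : LaurentSeries K), ht⟩) E
          ≤ hfin.toFinset.card :=
        relfinrank_le_card hπ hE t ht htr hn hprime hfin.toFinset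
          (fun v hv => hbT (hfin.mem_toFinset.1 hv))
          (fun v hv => by rw [Set.Finite.coe_toFinset]; exact hT v hv)
      obtain ⟨s, hs, hc⟩ := Finset.exists_subset_card_eq h1
      exact ⟨s, fun v hv => hfin.mem_toFinset.1 (hs hv), hc⟩
    · exact (Set.not_finite.1 hfin).exists_subset_card_eq _
  -- lifts to the Gauss ring
  have hlift : ∀ v : LaurentSeries (Res O), v ∈ s → ∃ x : ↥(gaussRing O),
      (x : LaurentSeries K) ∈ E ∧ gaussRed O x = v := by
    intro v hv
    obtain ⟨x, hx, h⟩ := hbT (hsb hv)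
    exact ⟨⟨(x : LaurentSeries K),
      (mem_OvE_iff O hπ E hE x).1 (chart_le_OvE hπ hE t ht hx)⟩, x.2, h⟩
  choose! f hfE hf using hlift
  refine ⟨fun i => f ((s.equivFinOfCardEq hscard).symm i : LaurentSeries (Res O)),
    fun i => hfE _ (Finset.coe_mem _), ?_⟩
  have e1 : (fun i => gaussRed O (f ((s.equivFinOfCardEq hscard).symm i : LaurentSeries (Res O))))
      = (Subtype.val : ↥b → LaurentSeries (Res O)) ∘
        (fun i => (⟨((s.equivFinOfCardEq hscard).symm i : LaurentSeries (Res O)),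
          hsb (Finset.coe_mem _)⟩ : ↥b)) :=
    funext fun i => hf _ (Finset.coe_mem _)
  rw [e1]
  refine hli.comp _ ?_
  intro i j hij
  have h2 : ((s.equivFinOfCardEq hscard).symm i : LaurentSeries (Res O))
      = ((s.equivFinOfCardEq hscard).symm j : LaurentSeries (Res O)) :=
    congrArg (Subtype.val : ↥b → LaurentSeries (Res O)) hij
  exact (s.equivFinOfCardEq hscard).symm.injective (Subtype.ext h2)

end Fermat.Agent.ES.R48.IrrBridge8
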