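/-
Programme R (S48, Deligne–Serre), chapter GEOM / G3 MODEL₁, part G′ (helper4): the VERTICAL
discriminant criterion `DiscAbstract21.discr_notMem_of_separable` with the target field `L` replaced
by a REDUCED ring (in the application: a finite product of fields, one for each vertical component
of the special fibre — the special fibre is not yet known to be irreducible).

`R` a commutative ring, `S` a finite free `R`-algebra with basis `b`, `𝔮` a prime of `R`;
`ρ₀ : R → k₀` with kernel `𝔮` and `k₀` generated by `ρ₀ R`; `ρ : S → L` with kernel `𝔮 S`, `L` a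
reduced `k₀`-algebra; every element of `S` has, up to a factor from `R ∖ 𝔮`, a separable image.
Then `discr R b ∉ 𝔮`.

* `discr_notMem_of_separable_red` : the criterion;
* `isSeparable_pi` : an element of a finite product of field extensions of `k₀` all of whose components
  are separable over `k₀` is separable over `k₀` (as an element of the product algebra).
-/
import Mathlib
import Fermat.Agent.RED.PUR.DiscAbstract21

set_option autoImplicit false

open Module IsLocalRing Polynomial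

namespace Fermat.Agent.ES.R48.DiscProd4

open Fermat.Agent.RED.PUR.DiscrEtale21 Fermat.Agent.RED.PUR.DiscAbstract21

/-! ### Separable elements of a product of fields -/

section Pi

variable {k₀ : Type*} [Field k₀] {I : Type*} [Finite I] {L : I → Type*} [∀ i, Field (L i)]
  [∀ i, Algebra k₀ (L i)]

/-- An element of a finite product of field extensions with separable components is separable. -/
theorem isSeparable_pi (x : ∀ i, L i) (hx : ∀ i, IsSeparable k₀ (x i)) : IsSeparable k₀ x := by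
  classical
  have : Fintype I := Fintype.ofFinite I
  set T : Finset k₀[X] := Finset.univ.image fun i => minpoly k₀ (x i) with hT
  have hirr : ∀ p ∈ T, Irreducible p := by
    intro p hp
    rw [hT, Finset.mem_image] at hp
    obtain ⟨i, -, rfl⟩ := hp
    exact minpoly.irreducible (hx i).isIntegral
  have hmonic : ∀ p ∈ T, p.Monic := by
    intro p hp
    rw [hT, Finset.mem_image] at hp
    obtain ⟨i, -, rfl⟩ := hp
    exact minpoly.monic (hx i).isIntegral
  have hsepT : ∀ p ∈ T, p.Separable := by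
    intro p hp
    rw [hT, Finset.mem_image] at hp
    obtain ⟨i, -, rfl⟩ := hp
    exact hx i
  have hQ : (∏ p ∈ T, p).Separable := by
    apply Polynomial.separable_prod'
    · intro p hp q hq hpq
      rw [(hirr p hp).coprime_iff_not_dvd]
      intro hdvd
      exact hpq (Polynomial.eq_of_monic_of_associated (hmonic p hp) (hmonic q hq)
        ((hirr p hp).associated_of_dvd (hirr q hq) hdvd))
    · exact hsepT
  have hroot : aeval x (∏ p ∈ T, p) = 0 := by
    funext i
    have h1 : (aeval x (∏ p ∈ T, p)) i = aeval (x i) (∏ p ∈ T, p) := by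
      have := Polynomial.aeval_algHom_apply (Pi.evalAlgHom k₀ L i) x (∏ p ∈ T, p)
      exact this.symm
    rw [h1, Pi.zero_apply]
    have hmem : minpoly k₀ (x i) ∈ T := by
      rw [hT, Finset.mem_image]
      exact ⟨i, Finset.mem_univ _, rfl⟩
    obtain ⟨c, hc⟩ := Finset.dvd_prod_of_mem (fun p : k₀[X] => p) hmem
    rw [hc, map_mul, minpoly.aeval, zero_mul]
  exact hQ.of_dvd (minpoly.dvd _ _ hroot)

end Pi

/-! ### The criterion, generic localisations -/

section Generic

variable {R S : Type*} [CommRing R] [CommRing S] [Algebra R S]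
  {ι : Type*} [Fintype ι] [DecidableEq ι] (b : Basis ι R S) (𝔮 : Ideal R) [h𝔮 : 𝔮.IsPrime]
  (Rq Sq : Type*) [CommRing Rq] [CommRing Sq] [Algebra R Rq] [IsLocalization.AtPrime Rq 𝔮]
  [Algebra S Sq] [Algebra Rq Sq] [Algebra R Sq] [IsScalarTower R Rq Sq] [IsScalarTower R S Sq]
  [IsLocalization (Algebra.algebraMapSubmonoid S 𝔮.primeCompl) Sq]

variable {k₀ L : Type*} [Field k₀] [CommRing L] [IsReduced L] [Algebra k₀ L]
  (ρ₀ : R →+* k₀) (ρ : S →+* L)

attribute [local instance] Ideal.Quotient.field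

include Rq Sq in
/-- generic form of the criterion. -/
theorem discr_notMem_of_separable_red_aux
    (hcomp : ∀ r : R, ρ (algebraMap R S r) = algebraMap k₀ L (ρ₀ r))
    (hker₀ : ∀ r : R, ρ₀ r = 0 ↔ r ∈ 𝔮)
    (hker : ∀ z : S, ρ z = 0 ↔ z ∈ 𝔮.map (algebraMap R S))
    (hgen : ∀ c : k₀, ∃ r r' : R, ρ₀ r' ≠ 0 ∧ c * ρ₀ r' = ρ₀ r)
    (hsep : ∀ z : S, ∃ r : R, r ∉ 𝔮 ∧ IsSeparable k₀ (ρ (algebraMap R S r * z))) :
    Algebra.discr R b ∉ 𝔮 := by
  classical
  have hloc : IsLocalRing Rq := IsLocalization.AtPrime.isLocalRing Rq 𝔮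
  let bq := b.localizationLocalization Rq 𝔮.primeCompl Sq
  have hfree : Module.Free Rq Sq := Module.Free.of_basis bq
  have hfin : Module.Finite Rq Sq := Module.Finite.of_basis bq
  set M := Algebra.algebraMapSubmonoid S 𝔮.primeCompl with hM
  -- extend `ρ₀` and `ρ` to the localisations
  have hu₀ : ∀ y : 𝔮.primeCompl, IsUnit (ρ₀ y) := fun y =>
    isUnit_iff_ne_zero.mpr fun h => y.2 ((hker₀ _).mp h)
  let ρ₀q : Rq →+* k₀ := IsLocalization.lift hu₀
  have hu : ∀ y : M, IsUnit (ρ y) := by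
    rintro ⟨_, r, hr, rfl⟩
    rw [hcomp]
    exact (isUnit_iff_ne_zero.mpr fun h => hr ((hker₀ _).mp h)).map _
  let ρq : Sq →+* L := IsLocalization.lift hu
  have hρq : ∀ z : S, ρq (algebraMap S Sq z) = ρ z := fun z => IsLocalization.lift_eq hu z
  have hρ₀q : ∀ r : R, ρ₀q (algebraMap R Rq r) = ρ₀ r := fun r => IsLocalization.lift_eq hu₀ r
  -- compatibility
  have hcompq : ∀ a : Rq, ρq (algebraMap Rq Sq a) = algebraMap k₀ L (ρ₀q a) := by
    intro a
    have : (ρq.comp (algebraMap Rq Sq)) = (algebraMap k₀ L).comp ρ₀q := by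
      apply IsLocalization.ringHom_ext 𝔮.primeCompl
      ext r
      simp only [RingHom.comp_apply]
      rw [← IsScalarTower.algebraMap_apply, IsScalarTower.algebraMap_apply R S Sq, hρq, hρ₀q,
        hcomp]
    exact congrArg (fun f => f a) this
  set pSq := (maximalIdeal Rq).map (algebraMap Rq Sq) with hpSq
  have hpSq' : pSq = (𝔮.map (algebraMap R S)).map (algebraMap S Sq) :=
    map_maximalIdeal_eq (S := S) 𝔮 Rq Sq
  -- kernel of `ρq`
  have hkerq : ∀ z : Sq, ρq z = 0 ↔ z ∈ pSq := by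
    intro z
    obtain ⟨z₀, m, rfl⟩ := IsLocalization.exists_mk'_eq M z
    rw [hpSq', IsLocalization.mk'_mem_iff, IsLocalization.lift_mk'_spec, mul_zero]
    constructor
    · intro h
      exact Ideal.mem_map_of_mem _ ((hker _).mp h)
    · intro h
      rw [IsLocalization.algebraMap_mem_map_algebraMap_iff M] at h
      obtain ⟨m₁, hm₁, h1⟩ := h
      have h2 := (hker _).mpr h1
      rw [map_mul] at h2
      exact (hu ⟨m₁, hm₁⟩).mul_right_eq_zero.mp h2
  -- the quotient maps
  let κ := Rq ⧸ maximalIdeal Rq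
  let C := Sq ⧸ pSq
  let ρbar : C →+* L := Ideal.Quotient.lift pSq ρq fun z hz => (hkerq z).mpr hz
  have hρbar_mk : ∀ z : Sq, ρbar (Ideal.Quotient.mk pSq z) = ρq z := fun z =>
    Ideal.Quotient.lift_mk _ _ _
  have hρbar_inj : Function.Injective ρbar := by
    rw [injective_iff_map_eq_zero]
    intro c hc
    obtain ⟨z, rfl⟩ := Ideal.Quotient.mk_surjective c
    rw [Ideal.Quotient.eq_zero_iff_mem, ← hkerq, ← hρbar_mk]
    exact hc
  have hker₀q : ∀ a ∈ maximalIdeal Rq, ρ₀q a = 0 := by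
    intro a ha
    obtain ⟨r, s, rfl⟩ := IsLocalization.exists_mk'_eq 𝔮.primeCompl a
    rw [IsLocalization.AtPrime.mk'_mem_maximal_iff Rq 𝔮] at ha
    rw [IsLocalization.lift_mk'_spec, mul_zero]
    exact (hker₀ r).mpr ha
  let ρ₀bar : κ →+* k₀ := Ideal.Quotient.lift (maximalIdeal Rq) ρ₀q hker₀q
  have hρ₀bar_surj : Function.Surjective ρ₀bar := by
    intro c
    obtain ⟨r, r', hr', hc⟩ := hgen c
    have hr'q : r' ∈ 𝔮.primeCompl := fun h => hr' ((hker₀ _).mpr h)
    refine ⟨Ideal.Quotient.mk _ (IsLocalization.mk' Rq r ⟨r', hr'q⟩), ?_⟩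
    show ρ₀q (IsLocalization.mk' Rq r ⟨r', hr'q⟩) = c
    rw [IsLocalization.lift_mk'_spec]
    simp only [hc, mul_comm]
  have hcompbar : ∀ a : κ, ρbar (algebraMap κ C a) = algebraMap k₀ L (ρ₀bar a) := by
    intro a
    obtain ⟨a, rfl⟩ := Ideal.Quotient.mk_surjective a
    show ρbar (Ideal.Quotient.mk pSq (algebraMap Rq Sq a)) = _
    rw [hρbar_mk, hcompq]
    rfl
  let e : κ ≃+* k₀ := RingEquiv.ofBijective ρ₀bar
    ⟨(injective_iff_map_eq_zero ρ₀bar).mpr fun a ha => by
      by_contra hne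
      have := (isUnit_iff_ne_zero.mpr hne).map ρ₀bar
      rw [ha] at this
      exact not_isUnit_zero this, hρ₀bar_surj⟩
  have hcompose : (ρbar.comp (algebraMap κ C)).comp e.symm.toRingHom = algebraMap k₀ L := by
    ext a
    simp only [RingHom.comp_apply]
    rw [hcompbar]
    congr 1
    exact e.apply_symm_apply a
  -- `C` is reduced
  have hfinC : Module.Finite κ C := Module.Finite.of_restrictScalars_finite Rq _ _
  have hred : IsReduced C := isReduced_of_injective ρbar hρbar_inj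
  rw [discr_notMem_iff_isUnit_of_isLocalization b 𝔮 Rq Sq,
    isUnit_discr_iff_reduced_and_separable]
  refine ⟨hred, fun 𝔪 => ?_⟩
  -- the residue field at `𝔪`
  have h𝔪 : 𝔪.asIdeal.IsMaximal := 𝔪.isMaximal
  let q𝔪 : C →ₐ[κ] C ⧸ 𝔪.asIdeal := Ideal.Quotient.mkₐ κ 𝔪.asIdeal
  -- images of elements of `S` with separable `ρ`
  have hS : ∀ s : S, IsSeparable k₀ (ρ s) →
      IsSeparable κ (q𝔪 (Ideal.Quotient.mk pSq (algebraMap S Sq s))) := by
    intro s hs
    set c := Ideal.Quotient.mk pSq (algebraMap S Sq s) with hc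
    have hρc : ρbar c = ρ s := by rw [hc, hρbar_mk, hρq]
    let Q : κ[X] := (minpoly k₀ (ρ s)).map e.symm.toRingHom
    have hQsep : Q.Separable := Polynomial.Separable.map (f := e.symm.toRingHom) hs
    have hQroot : aeval c Q = 0 := by
      apply hρbar_inj
      rw [map_zero, aeval_def, hom_eval₂, eval₂_map, hcompose, hρc, ← aeval_def, minpoly.aeval]
    have hQroot' : aeval (q𝔪 c) Q = 0 := by
      rw [Polynomial.aeval_algHom_apply, hQroot, map_zero]
    exact hQsep.of_dvd (minpoly.dvd _ _ hQroot')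
  refine ⟨fun x => ?_⟩
  obtain ⟨c, rfl⟩ := Ideal.Quotient.mk_surjective x
  obtain ⟨z, rfl⟩ := Ideal.Quotient.mk_surjective c
  obtain ⟨z₀, m, rfl⟩ := IsLocalization.exists_mk'_eq M z
  obtain ⟨_, r₁, hr₁, rfl⟩ := m
  obtain ⟨r, hr, hsepr⟩ := hsep z₀
  have hsr := hS _ hsepr
  -- the scalar
  have hrr : r * r₁ ∈ 𝔮.primeCompl := 𝔮.primeCompl.mul_mem hr hr₁
  set u : κ := Ideal.Quotient.mk (maximalIdeal Rq) (algebraMap R Rq (r * r₁)) with hu_def
  have hu0 : u ≠ 0 := by
    rw [hu_def, Ne, Ideal.Quotient.eq_zero_iff_mem]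
    intro hmem
    have := (IsLocalization.AtPrime.to_map_mem_maximal_iff Rq 𝔮 (r * r₁)).mp hmem
    exact hrr this
  have hkey : q𝔪 (Ideal.Quotient.mk pSq (algebraMap S Sq (algebraMap R S r * z₀))) =
      algebraMap κ (C ⧸ 𝔪.asIdeal) u *
        q𝔪 (Ideal.Quotient.mk pSq
          (IsLocalization.mk' Sq z₀ (⟨algebraMap R S r₁, r₁, hr₁, rfl⟩ : M))) := by
    rw [← AlgHom.commutes q𝔪 u, ← map_mul]
    congr 1
    show _ = Ideal.Quotient.mk pSq (algebraMap Rq Sq (algebraMap R Rq (r * r₁))) * _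
    rw [← map_mul]
    congr 1
    rw [← IsScalarTower.algebraMap_apply R Rq Sq, IsScalarTower.algebraMap_apply R S Sq, map_mul,
      map_mul, map_mul, mul_assoc]
    congr 1
    rw [mul_comm]
    exact (IsLocalization.mk'_spec Sq z₀ (⟨algebraMap R S r₁, r₁, hr₁, rfl⟩ : M)).symm
  have hfinal : (Ideal.Quotient.mk 𝔪.asIdeal) (Ideal.Quotient.mk pSq
      (IsLocalization.mk' Sq z₀ (⟨algebraMap R S r₁, r₁, hr₁, rfl⟩ : M))) =
      algebraMap κ (C ⧸ 𝔪.asIdeal) u⁻¹ *
        q𝔪 (Ideal.Quotient.mk pSq (algebraMap S Sq (algebraMap R S r * z₀))) := by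
    rw [hkey, ← mul_assoc, ← map_mul, inv_mul_cancel₀ hu0, map_one, one_mul]
    rfl
  rw [hfinal]
  exact Field.isSeparable_mul (isSeparable_algebraMap _) hsr

end Generic

/-! ### The criterion, without localisation types -/

section Main

variable {R S : Type*} [CommRing R] [CommRing S] [Algebra R S]
  {ι : Type*} [Fintype ι] [DecidableEq ι] (b : Basis ι R S) (𝔮 : Ideal R) [h𝔮 : 𝔮.IsPrime]

/-- **The vertical discriminant criterion with a reduced target.** -/
theorem discr_notMem_of_separable_red {k₀ L : Type*} [Field k₀] [CommRing L] [IsReduced L]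
    [Algebra k₀ L] (ρ₀ : R →+* k₀) (ρ : S →+* L)
    (hcomp : ∀ r : R, ρ (algebraMap R S r) = algebraMap k₀ L (ρ₀ r))
    (hker₀ : ∀ r : R, ρ₀ r = 0 ↔ r ∈ 𝔮)
    (hker : ∀ z : S, ρ z = 0 ↔ z ∈ 𝔮.map (algebraMap R S))
    (hgen : ∀ c : k₀, ∃ r r' : R, ρ₀ r' ≠ 0 ∧ c * ρ₀ r' = ρ₀ r)
    (hsep : ∀ z : S, ∃ r : R, r ∉ 𝔮 ∧ IsSeparable k₀ (ρ (algebraMap R S r * z))) :
    Algebra.discr R b ∉ 𝔮 := by
  let Rq := Localization.AtPrime 𝔮
  let Sq := Localization (Algebra.algebraMapSubmonoid S 𝔮.primeCompl)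
  let _ : Algebra Rq Sq := localizationAlgebra 𝔮.primeCompl S
  have : IsScalarTower R Rq Sq := IsScalarTower.of_algebraMap_eq'
    (by rw [RingHom.algebraMap_toAlgebra, IsLocalization.map_comp, ← IsScalarTower.algebraMap_eq])
  exact discr_notMem_of_separable_red_aux b 𝔮 Rq Sq ρ₀ ρ hcomp hker₀ hker hgen hsep

end Main

end Fermat.Agent.ES.R48.DiscProd4
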