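/-
Programme R (S48, Deligne–Serre), chapter GEOM / G3 MODEL₁, part G′ (helper4): **purity by hand with a
REDUCED vertical target** — `PurityMain26.not_dvd_discr_of_separable` (C) and
`PurityMain26.smooth_of_purity` with the reduction `ρ : B → L` into a reduced ring `L` (a finite
product of fields: the special fibre may a priori have several components) instead of a field.
Parts (A) `smooth_of_discr` and (B) `not_dvd_discr_of_valuative` of `PurityMain26` are used as they are.
-/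
import Mathlib
import Fermat.Agent.RED.PUR.PurityMain26
import Fermat.Agent.ES.R48.DiscProd4

set_option autoImplicit false
set_option linter.style.haveILetI false
set_option linter.unusedSectionVars false

namespace Fermat.Agent.ES.R48.PurProd4

open IsLocalRing Fermat.Agent.RED.PUR.LocalFree26 Fermat.Agent.RED.PUR
  Fermat.Agent.RED.PUR.PurityMain26

section C

variable {R0 : Type*} [CommRing R0] [IsDomain R0]
  (B : Type*) [CommRing B] [IsDomain B] [Algebra R0 B] [FaithfulSMul R0 B]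

/-- **Theorem C (the vertical prime), reduced target.** -/
theorem not_dvd_discr_of_separable_red (P : Ideal R0) [P.IsPrime] (π : R0) (hπP : π ∈ P)
    {k₀ L : Type*} [Field k₀] [CommRing L] [IsReduced L] [Algebra k₀ L]
    (ρ₀ : R0 →+* k₀) (ρ : B →+* L)
    (hcomp : ∀ r : R0, ρ (algebraMap R0 B r) = algebraMap k₀ L (ρ₀ r))
    (hker₀ : ∀ r : R0, ρ₀ r = 0 ↔ π ∣ r)
    (hker : ∀ z : B, ρ z = 0 ↔ algebraMap R0 B π ∣ z)
    (hgen : ∀ c : k₀, ∃ r r' : R0, ρ₀ r' ≠ 0 ∧ c * ρ₀ r' = ρ₀ r)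
    (hsep : ∀ z : B, IsSeparable k₀ (ρ z))
    {ι : Type*} [Fintype ι] [DecidableEq ι] (b : Module.Basis ι (RP P) (SP B P))
    (hprime : (Ideal.span {algebraMap R0 (RP P) π}).IsPrime) :
    ¬ algebraMap R0 (RP P) π ∣ Algebra.discr (RP P) b := by
  classical
  have hunit₀ : ∀ m : P.primeCompl, IsUnit (ρ₀ (m : R0)) := by
    intro m
    refine IsUnit.mk0 _ fun h0 => m.2 ?_
    obtain ⟨c, hc⟩ := (hker₀ _).mp h0
    rw [hc]
    exact P.mul_mem_right c hπP
  have hunit : ∀ m : Algebra.algebraMapSubmonoid B P.primeCompl, IsUnit (ρ (m : B)) := by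
    rintro ⟨_, m0, hm0, rfl⟩
    rw [hcomp]
    exact (hunit₀ ⟨m0, hm0⟩).map _
  set ρ₀' : RP P →+* k₀ := IsLocalization.lift (M := P.primeCompl) (g := ρ₀) hunit₀ with hρ₀'
  set ρ' : SP B P →+* L :=
    IsLocalization.lift (M := Algebra.algebraMapSubmonoid B P.primeCompl) (g := ρ) hunit with hρ'
  have hρ₀'_eq : ∀ r : R0, ρ₀' (algebraMap R0 (RP P) r) = ρ₀ r := fun r => IsLocalization.lift_eq _ r
  have hρ'_eq : ∀ z : B, ρ' (algebraMap B (SP B P) z) = ρ z := fun z => IsLocalization.lift_eq _ z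
  have hcomp' : ∀ r : RP P, ρ' (algebraMap (RP P) (SP B P) r) = algebraMap k₀ L (ρ₀' r) := by
    have : ρ'.comp (algebraMap (RP P) (SP B P)) = (algebraMap k₀ L).comp ρ₀' := by
      apply IsLocalization.ringHom_ext P.primeCompl
      ext r
      simp only [RingHom.comp_apply]
      rw [← IsScalarTower.algebraMap_apply R0 (RP P) (SP B P),
        IsScalarTower.algebraMap_apply R0 B (SP B P), hρ'_eq, hρ₀'_eq, hcomp]
    intro r
    exact RingHom.congr_fun this r
  have hπS : algebraMap (RP P) (SP B P) (algebraMap R0 (RP P) π) =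
      algebraMap B (SP B P) (algebraMap R0 B π) := by
    rw [← IsScalarTower.algebraMap_apply, ← IsScalarTower.algebraMap_apply]
  have hρπ : ρ (algebraMap R0 B π) = 0 := (hker _).mpr (dvd_refl _)
  have hρ₀π : ρ₀ π = 0 := (hker₀ _).mpr (dvd_refl _)
  have hker₀' : ∀ r : RP P, ρ₀' r = 0 ↔ r ∈ Ideal.span {algebraMap R0 (RP P) π} := by
    intro r
    rw [Ideal.mem_span_singleton]
    constructor
    · intro hr
      obtain ⟨r0, s, rfl⟩ := IsLocalization.exists_mk'_eq P.primeCompl r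
      rw [hρ₀', IsLocalization.lift_mk'_spec, mul_zero] at hr
      obtain ⟨c, hc⟩ := (hker₀ r0).mp hr
      refine ⟨IsLocalization.mk' (RP P) c s, ?_⟩
      rw [hc, ← IsLocalization.mul_mk'_eq_mk'_of_mul]
    · rintro ⟨c, rfl⟩
      rw [map_mul, hρ₀'_eq, hρ₀π, zero_mul]
  have hker' : ∀ z : SP B P, ρ' z = 0 ↔
      z ∈ (Ideal.span {algebraMap R0 (RP P) π}).map (algebraMap (RP P) (SP B P)) := by
    intro z
    rw [Ideal.map_span, Set.image_singleton, Ideal.mem_span_singleton, hπS]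
    constructor
    · intro hz
      obtain ⟨e, m, rfl⟩ := IsLocalization.exists_mk'_eq (Algebra.algebraMapSubmonoid B P.primeCompl) z
      have h1 : ρ e = 0 := by
        have h2 : ρ' (IsLocalization.mk' (SP B P) e m) * ρ' (algebraMap B (SP B P) m) =
            ρ' (algebraMap B (SP B P) e) := by
          rw [← map_mul, IsLocalization.mk'_spec]
        rw [hz, zero_mul, hρ'_eq] at h2
        exact h2.symm
      obtain ⟨c, hc⟩ := (hker e).mp h1
      refine ⟨IsLocalization.mk' (SP B P) c m, ?_⟩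
      rw [hc, ← IsLocalization.mul_mk'_eq_mk'_of_mul]
    · rintro ⟨c, rfl⟩
      rw [map_mul, hρ'_eq, hρπ, zero_mul]
  have hgen' : ∀ c : k₀, ∃ r r' : RP P, ρ₀' r' ≠ 0 ∧ c * ρ₀' r' = ρ₀' r := by
    intro c
    obtain ⟨r, r', hr', e⟩ := hgen c
    exact ⟨algebraMap R0 (RP P) r, algebraMap R0 (RP P) r', by rwa [hρ₀'_eq], by
      rw [hρ₀'_eq, hρ₀'_eq, e]⟩
  have hsep' : ∀ z : SP B P, ∃ r : RP P, r ∉ Ideal.span {algebraMap R0 (RP P) π} ∧
      IsSeparable k₀ (ρ' (algebraMap (RP P) (SP B P) r * z)) := by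
    intro z
    obtain ⟨e, m, rfl⟩ :=
      IsLocalization.exists_mk'_eq (Algebra.algebraMapSubmonoid B P.primeCompl) z
    obtain ⟨m0, hm0, hm⟩ : ∃ m0 ∈ P.primeCompl, algebraMap R0 B m0 = (m : B) := m.2
    refine ⟨algebraMap R0 (RP P) m0, ?_, ?_⟩
    · intro hmem
      have hu : IsUnit (algebraMap R0 (RP P) m0) :=
        IsLocalization.map_units (RP P) (⟨m0, hm0⟩ : P.primeCompl)
      exact hprime.ne_top (Ideal.eq_top_of_isUnit_mem _ hmem hu)
    · have h1 : algebraMap (RP P) (SP B P) (algebraMap R0 (RP P) m0) *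
          IsLocalization.mk' (SP B P) e m = algebraMap B (SP B P) e := by
        rw [← IsScalarTower.algebraMap_apply R0 (RP P) (SP B P),
          IsScalarTower.algebraMap_apply R0 B (SP B P), hm]
        exact IsLocalization.mk'_spec' (SP B P) e m
      rw [h1, hρ'_eq]
      exact hsep e
  haveI := hprime
  have := DiscProd4.discr_notMem_of_separable_red b (Ideal.span {algebraMap R0 (RP P) π})
    ρ₀' ρ' hcomp' hker₀' hker' hgen' hsep'
  intro hdvd
  exact this (Ideal.mem_span_singleton.mpr hdvd)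

end C

section Main

variable {R0 : Type*} [CommRing R0] [IsDomain R0] [IsNoetherianRing R0] [IsIntegrallyClosed R0]
  (B : Type*) [CommRing B] [IsDomain B] [IsIntegrallyClosed B] [Algebra R0 B]
  [Module.Finite R0 B] [FaithfulSMul R0 B]
  (F : Type*) [Field F] [Algebra B F] [IsFractionRing B F]

/-- **Purity by hand, global form (non-cusp closed points), reduced vertical target.**
As `PurityMain26.smooth_of_purity`, with `ρ : B → L` into a reduced `k₀`-algebra `L`. -/
theorem smooth_of_purity_red (π : R0) (hπ : Prime π) [IsPrincipalIdealRing (R0 ⧸ Ideal.span {π})]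
    (x : Ideal B) [hx : x.IsMaximal] (hπx : algebraMap R0 B π ∈ x)
    (hchar : ∀ n : ℕ, n ≠ 0 → ∃ k : ℕ, (n : R0) ∣ π ^ k)
    {k₀ L : Type*} [Field k₀] [CommRing L] [IsReduced L] [Algebra k₀ L]
    (ρ₀ : R0 →+* k₀) (ρ : B →+* L)
    (hcomp : ∀ r : R0, ρ (algebraMap R0 B r) = algebraMap k₀ L (ρ₀ r))
    (hker₀ : ∀ r : R0, ρ₀ r = 0 ↔ π ∣ r)
    (hker : ∀ z : B, ρ z = 0 ↔ algebraMap R0 B π ∣ z)
    (hgen : ∀ c : k₀, ∃ r r' : R0, ρ₀ r' ≠ 0 ∧ c * ρ₀ r' = ρ₀ r)
    (hsep : ∀ z : B, IsSeparable k₀ (ρ z))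
    (hUNR : ∀ O : ValuationSubring F, (∀ s : B, algebraMap B F s ∈ O) →
      IsDiscreteValuationRing O →
      (algebraMap B F (algebraMap R0 B π))⁻¹ ∈ O →
      (∀ r : R0, algebraMap R0 B r ∉ x → (algebraMap B F (algebraMap R0 B r))⁻¹ ∈ O) →
      ∃ g0 : R0, (algebraMap B F (algebraMap R0 B g0))⁻¹ ∉ O ∧
        ∀ y ∈ O, y⁻¹ ∉ O → y / algebraMap B F (algebraMap R0 B g0) ∈ O) :
    ∃ f : R0, algebraMap R0 B f ∈ x ∧ ∀ y ∈ x, ∃ d, d ∉ x ∧
      d * y ∈ Ideal.span {algebraMap R0 B π, algebraMap R0 B f} := by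
  classical
  set P : Ideal R0 := x.comap (algebraMap R0 B) with hP
  have hπP : π ∈ P := hπx
  haveI : Module.Free (RP P) (SP B P) := free_localization B P π hπ hπP
  let b := Module.Free.chooseBasis (RP P) (SP B P)
  refine smooth_of_discr B π hπ x hπx b ?_
  intro g hg
  have hπ'prime : Prime (algebraMap R0 (RP P) π) := prime_pi P π hπ hπP
  by_cases hgπ : algebraMap R0 (RP P) π ∣ g
  · -- `g` is associated to `π`
    intro hdvd
    exact not_dvd_discr_of_separable_red B P π hπP ρ₀ ρ hcomp hker₀ hker hgen hsep b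
      (span_pi_isPrime P π hπ hπP) (hgπ.trans hdvd)
  · refine not_dvd_discr_of_valuative B F P π hπ hπP hchar 1 ?_ b g hg hgπ ?_
    · intro O h1 h2 h3 _ h4
      exact hUNR O h1 h2 h3 h4
    · rw [map_one]
      exact fun h => hg.not_isUnit (isUnit_of_dvd_one h)

end Main

end Fermat.Agent.ES.R48.PurProd4
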