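/-
Programme R (S48, Deligne–Serre), chapter GEOM / G3 MODEL₁, part G′ (helper4): **the generic cusp
theorem with a REDUCED vertical target** — `CuspDisc21.discr_eq_unit_mul_pow`, `hdisc_of_purity`,
`cusp_semi_of_purity` and `CuspGeneric23.smoothOver_generic` with the vertical reduction
`ρ : B → L` into a reduced ring (finite product of fields) instead of a field.  Only the vertical
prime changes (`PurProd4.not_dvd_discr_of_separable_red`); everything else is used as it is.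
-/
import Fermat.Agent.RED.CUSP.CuspGeneric23
import Fermat.Agent.ES.R48.PurProd4

set_option autoImplicit false
set_option linter.unusedSectionVars false
set_option linter.unusedVariables false
set_option linter.style.haveILetI false

noncomputable section

namespace Fermat.Agent.ES.R48.CuspProd4

open Polynomial IntermediateField
open Fermat.Agent.RED.CUSP Fermat.Agent.RED.PUR
open Fermat.Agent.RED.PUR.LocalFree26 Fermat.Agent.RED.PUR.Interface26
open Fermat.Agent.RED.CUSP.PolyToPS16 Fermat.Agent.RED.CUSP.PSRadical6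
open Fermat.Agent.RED.CUSP.PSRadicalBasis6
open Fermat.Agent.RED.CUSP.IntClosedPS16 Fermat.Agent.RED.CUSP.CuspSemi23
open Fermat.Agent.RED.CUSP.CuspDisc21 Fermat.Agent.RED.CUSP.CuspGeneric23
open Fermat.Agent.RED.PUR.IntClosBase13 Fermat.Agent.RED.PUR.ChartsGeneric13
open Fermat.Agent.RED.ChartTransfer3

section Generic

variable {R0 : Type*} [CommRing R0] [IsDomain R0] [IsNoetherianRing R0] [IsIntegrallyClosed R0]
  (B : Type*) [CommRing B] [IsDomain B] [IsIntegrallyClosed B] [Algebra R0 B]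
  [Module.Finite R0 B] [FaithfulSMul R0 B]
  (F : Type*) [Field F] [Algebra B F] [IsFractionRing B F]

/-- **The discriminant at a cusp point**, reduced vertical target. -/
theorem discr_eq_unit_mul_pow_red (P : Ideal R0) [P.IsPrime] (π : R0) (hπ : Prime π)
    [IsPrincipalIdealRing (R0 ⧸ Ideal.span {π})] (hπP : π ∈ P)
    (hchar : ∀ n : ℕ, n ≠ 0 → ∃ k : ℕ, (n : R0) ∣ π ^ k) (q : R0)
    (hq : Prime (algebraMap R0 (RP P) q))
    {k₀ L : Type*} [Field k₀] [CommRing L] [IsReduced L] [Algebra k₀ L]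
    (ρ₀ : R0 →+* k₀) (ρ : B →+* L)
    (hcomp : ∀ r : R0, ρ (algebraMap R0 B r) = algebraMap k₀ L (ρ₀ r))
    (hker₀ : ∀ r : R0, ρ₀ r = 0 ↔ π ∣ r)
    (hker : ∀ z : B, ρ z = 0 ↔ algebraMap R0 B π ∣ z)
    (hgen : ∀ c : k₀, ∃ r r' : R0, ρ₀ r' ≠ 0 ∧ c * ρ₀ r' = ρ₀ r)
    (hsep : ∀ z : B, IsSeparable k₀ (ρ z))
    (hUNR : ∀ O : ValuationSubring F, (∀ s : B, algebraMap B F s ∈ O) →
      IsDiscreteValuationRing O →
      (algebraMap B F (algebraMap R0 B π))⁻¹ ∈ O →
      (algebraMap B F (algebraMap R0 B q))⁻¹ ∈ O →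
      (∀ r : R0, r ∉ P → (algebraMap B F (algebraMap R0 B r))⁻¹ ∈ O) →
      ∃ g0 : R0, (algebraMap B F (algebraMap R0 B g0))⁻¹ ∉ O ∧
        ∀ y ∈ O, y⁻¹ ∉ O → y / algebraMap B F (algebraMap R0 B g0) ∈ O)
    {ι : Type*} [Fintype ι] [DecidableEq ι] (b : Module.Basis ι (RP P) (SP B P)) :
    ∃ (a : ℕ) (u : (RP P)ˣ), Algebra.discr (RP P) b = u * (algebraMap R0 (RP P) q) ^ a := by
  have : UniqueFactorizationMonoid (RP P) := uniqueFactorizationMonoid_RP P π hπ hπP
  have hvert : ¬ algebraMap R0 (RP P) π ∣ Algebra.discr (RP P) b :=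
    PurProd4.not_dvd_discr_of_separable_red B P π hπP ρ₀ ρ hcomp hker₀ hker hgen hsep b
      (span_pi_isPrime P π hπ hπP)
  have hd0 : Algebra.discr (RP P) b ≠ 0 := fun h0 => hvert (h0 ▸ dvd_zero _)
  refine exists_unit_mul_pow_of_forall_prime_dvd _ _ hd0 fun g hg hgd => ?_
  have hgπ : ¬ algebraMap R0 (RP P) π ∣ g := fun h => hvert (h.trans hgd)
  have hgq : g ∣ algebraMap R0 (RP P) q := by
    by_contra hgq
    exact PurityMain26.not_dvd_discr_of_valuative B F P π hπ hπP hchar q hUNR b g hg hgπ hgq hgd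
  exact hg.irreducible.associated_of_dvd hq.irreducible hgq

end Generic

section Cusp

variable {A : Type*} [CommRing A] [IsDomain A] [IsDiscreteValuationRing A] (π : A) (c : A)
variable [hP : (cuspIdeal π c).IsPrime]
variable (B : Type*) [CommRing B] [IsDomain B] [IsIntegrallyClosed B] [Algebra A[X] B]
  [Module.Finite A[X] B] [FaithfulSMul A[X] B]
  (F : Type*) [Field F] [Algebra B F] [IsFractionRing B F]

/-- **(I4)**, reduced vertical target. -/
theorem hdisc_of_purity_red (hπ : Irreducible π)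
    [IsPrincipalIdealRing (A[X] ⧸ Ideal.span {(C π : A[X])})]
    (hchar : ∀ n : ℕ, n ≠ 0 → ∃ k : ℕ, (n : A[X]) ∣ (C π) ^ k)
    {k₀ L : Type*} [Field k₀] [CommRing L] [IsReduced L] [Algebra k₀ L]
    (ρ₀ : A[X] →+* k₀) (ρ : B →+* L)
    (hcomp : ∀ r : A[X], ρ (algebraMap A[X] B r) = algebraMap k₀ L (ρ₀ r))
    (hker₀ : ∀ r : A[X], ρ₀ r = 0 ↔ C π ∣ r)
    (hker : ∀ z : B, ρ z = 0 ↔ algebraMap A[X] B (C π) ∣ z)
    (hgen : ∀ c' : k₀, ∃ r r' : A[X], ρ₀ r' ≠ 0 ∧ c' * ρ₀ r' = ρ₀ r)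
    (hsep : ∀ z : B, IsSeparable k₀ (ρ z))
    (hUNR : ∀ O : ValuationSubring F, (∀ s : B, algebraMap B F s ∈ O) →
      IsDiscreteValuationRing O →
      (algebraMap B F (algebraMap A[X] B (C π)))⁻¹ ∈ O →
      (algebraMap B F (algebraMap A[X] B (X - C c)))⁻¹ ∈ O →
      (∀ r : A[X], r ∉ cuspIdeal π c → (algebraMap B F (algebraMap A[X] B r))⁻¹ ∈ O) →
      ∃ g0 : A[X], (algebraMap B F (algebraMap A[X] B g0))⁻¹ ∉ O ∧
        ∀ y ∈ O, y⁻¹ ∉ O → y / algebraMap B F (algebraMap A[X] B g0) ∈ O)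
    {ι : Type*} [Fintype ι] [DecidableEq ι] (b : Module.Basis ι (Rloc π c) (Sloc π c B)) :
    ∃ a : ℕ, Associated (jloc π c hπ (Algebra.discr (Rloc π c) b))
      ((PowerSeries.X : PowerSeries A) ^ a) := by
  have hCπ : Prime (C π : A[X]) := prime_C_iff.mpr hπ.prime
  obtain ⟨a, v, hv⟩ := discr_eq_unit_mul_pow_red B F (cuspIdeal π c) (C π) hCπ
    (C_pi_mem_cuspIdeal π c) hchar (X - C c) (prime_tauR π c) ρ₀ ρ hcomp hker₀ hker hgen hsep
    hUNR b
  refine ⟨a, ?_⟩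
  have h1 : jloc π c hπ (algebraMap A[X] (Rloc π c) (X - C c)) = PowerSeries.X :=
    phiLoc_tauR π c (maximalIdeal_eq π hπ) (Rloc π c)
  rw [hv, map_mul, map_pow, h1]
  exact associated_unit_mul_left _ _ (v.isUnit.map (jloc π c hπ))

variable {Cκ : Type*} [Fintype Cκ] [DecidableEq Cκ] (e : Cκ → ℕ) (he : ∀ k, 0 < e k)
  (heA : ∀ k, IsUnit ((e k : ℕ) : A)) (u : Cκ → PowerSeries A) (u₀ : Cκ → Aˣ)
  (hu : ∀ k, PowerSeries.constantCoeff (u k) = u₀ k)
variable (ιPS : Cκ → B →+* PowerSeries A)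
  (hι : ∀ k (p : A[X]), ιPS k (algebraMap A[X] B p) = psi (e k) (he k) (u k) (phi c p))

include he heA hu hι in
/-- **The semi-concrete cusp theorem with (I4) discharged by purity**, reduced vertical target. -/
theorem cusp_semi_of_purity_red (hπ : Irreducible π)
    [IsPrincipalIdealRing (A[X] ⧸ Ideal.span {(C π : A[X])})]
    (hiv : ∀ b : B, (∀ k, (PowerSeries.X : PowerSeries A) ^ (e k) ∣ ιPS k b) →
      ∃ a : A, a ≠ 0 ∧ ∃ y : B, (C a : A[X]) • b = (X - C c : A[X]) • y)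
    (hrank : ∑ k, e k = Module.finrank (Rloc π c) (Sloc π c B))
    (hchar : ∀ n : ℕ, n ≠ 0 → ∃ k : ℕ, (n : A[X]) ∣ (C π) ^ k)
    {k₀ L : Type*} [Field k₀] [CommRing L] [IsReduced L] [Algebra k₀ L]
    (ρ₀ : A[X] →+* k₀) (ρ : B →+* L)
    (hcomp : ∀ r : A[X], ρ (algebraMap A[X] B r) = algebraMap k₀ L (ρ₀ r))
    (hker₀ : ∀ r : A[X], ρ₀ r = 0 ↔ C π ∣ r)
    (hker : ∀ z : B, ρ z = 0 ↔ algebraMap A[X] B (C π) ∣ z)
    (hgen : ∀ c' : k₀, ∃ r r' : A[X], ρ₀ r' ≠ 0 ∧ c' * ρ₀ r' = ρ₀ r)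
    (hsep : ∀ z : B, IsSeparable k₀ (ρ z))
    (hUNR : ∀ O : ValuationSubring F, (∀ s : B, algebraMap B F s ∈ O) →
      IsDiscreteValuationRing O →
      (algebraMap B F (algebraMap A[X] B (C π)))⁻¹ ∈ O →
      (algebraMap B F (algebraMap A[X] B (X - C c)))⁻¹ ∈ O →
      (∀ r : A[X], r ∉ cuspIdeal π c → (algebraMap B F (algebraMap A[X] B r))⁻¹ ∈ O) →
      ∃ g0 : A[X], (algebraMap B F (algebraMap A[X] B g0))⁻¹ ∉ O ∧
        ∀ y ∈ O, y⁻¹ ∉ O → y / algebraMap B F (algebraMap A[X] B g0) ∈ O)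
    (x : Ideal B) (hx : x.IsMaximal)
    (hπx : algebraMap A[X] B (C π) ∈ x)
    (hτx : algebraMap A[X] B (X - C c) ∈ x) :
    LocPrin (algebraMap A[X] B (C π)) x :=
  cusp_semi π c B e he heA u u₀ hu ιPS hι hπ hiv hrank
    (fun b => hdisc_of_purity_red π c B F hπ hchar ρ₀ ρ hcomp hker₀ hker hgen hsep hUNR b)
    x hx hπx hτx

end Cusp

section Main

variable {A K F : Type*} [CommRing A] [IsDomain A] [IsDiscreteValuationRing A]
  [Field K] [Algebra A K] [IsFractionRing A K] [CharZero K]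
  [Field F] [Algebra K F] [Algebra A F] [IsScalarTower A K F]
  [Algebra A[X] F] [IsScalarTower A A[X] F] {t : F}

/-- **The generic cusp theorem**, reduced vertical target. -/
theorem smoothOver_generic_red (hX : algebraMap A[X] F X = t) (ht : Transcendental K t)
    [FiniteDimensional ↥K⟮t⟯ F] (π c : A) (hπ : Irreducible π)
    {Cκ : Type*} [Fintype Cκ] [DecidableEq Cκ]
    (ι : Cκ → F →+* LaurentSeries K)
    (ιPS : Cκ → ↥(integralClosure A[X] F) →+* PowerSeries A)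
    (hcompat : ∀ k (b : ↥(integralClosure A[X] F)), toLS A K (ιPS k b) = ι k (b : F))
    (hconst : ∀ k (a : A), ι k (algebraMap A F a) = HahnSeries.C (algebraMap A K a))
    (e : Cκ → ℕ) (he : ∀ k, 0 < e k) (heA : ∀ k, IsUnit ((e k : ℕ) : A))
    (u : Cκ → PowerSeries A) (u₀ : Cκ → Aˣ)
    (hu : ∀ k, PowerSeries.constantCoeff (u k) = u₀ k)
    (hshape : ∀ k, ι k t = HahnSeries.C (algebraMap A K c) +
      toLS A K (u k * PowerSeries.X ^ e k))
    (hplaces : ∀ w : AlgebraicCurve.Place K F, 0 < w.ord (t - algebraMap A F c) →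
      ∃ k, ∀ z : F, z ≠ 0 → 0 ≤ (ι k z).order → z ∈ w.toValuationSubring)
    (hrank : ∑ k, e k = Module.finrank ↥K⟮t⟯ F)
    {k₀ L : Type*} [Field k₀] [CommRing L] [IsReduced L] [Algebra k₀ L] (ρ₀ : A[X] →+* k₀)
    (ρ : ↥(integralClosure A[X] F) →+* L)
    (hcomp : ∀ r : A[X], ρ (algebraMap A[X] ↥(integralClosure A[X] F) r) = algebraMap k₀ L (ρ₀ r))
    (hker₀ : ∀ r : A[X], ρ₀ r = 0 ↔ C π ∣ r)
    (hker : ∀ z : ↥(integralClosure A[X] F), ρ z = 0 ↔
      algebraMap A[X] ↥(integralClosure A[X] F) (C π) ∣ z)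
    (hgen : ∀ c' : k₀, ∃ r r' : A[X], ρ₀ r' ≠ 0 ∧ c' * ρ₀ r' = ρ₀ r)
    (hsep : ∀ z : ↥(integralClosure A[X] F), IsSeparable k₀ (ρ z))
    (hUNR : ∀ O : ValuationSubring F, (∀ s : ↥(integralClosure A[X] F), (s : F) ∈ O) →
      IsDiscreteValuationRing O →
      (algebraMap A[X] F (C π))⁻¹ ∈ O →
      (algebraMap A[X] F (X - C c))⁻¹ ∈ O →
      (∀ r : A[X], r ∉ cuspIdeal π c → (algebraMap A[X] F r)⁻¹ ∈ O) →
      ∃ g0 : A[X], (algebraMap A[X] F g0)⁻¹ ∉ O ∧
        ∀ y ∈ O, y⁻¹ ∉ O → y / algebraMap A[X] F g0 ∈ O)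
    (x : Ideal ↥(chart A t)) (hx : x.IsMaximal) (hπx : algebraMap A ↥(chart A t) π ∈ x)
    (τ : ↥(chart A t)) (hτ : (τ : F) = t - algebraMap A F c) (hτx : τ ∈ x) :
    SmoothAt π (chart A t) x := by
  classical
  -- the instances on `B`
  haveI := finite_integralClosure (A := A) (K := K) hX ht
  haveI := isIntegrallyClosed_integralClosure (A := A) (K := K) hX ht
  haveI := faithfulSMul_integralClosure (A := A) (K := K) hX ht
  haveI := isFractionRing_integralClosure (A := A) (K := K) hX ht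
  haveI := isPrincipalIdealRing_quot hπ
  have hmaxA : (Ideal.span {π}).IsMaximal := by
    rw [← Irreducible.maximalIdeal_eq hπ]; exact IsLocalRing.maximalIdeal.isMaximal A
  haveI hP : (cuspIdeal π c).IsPrime := (cuspIdeal_isMaximal π c hmaxA).isPrime
  apply smoothAt_of_locPrin hX π x
  set ee := chartEquiv (A := A) hX with hee
  have hemax : (x.comap (ee : ↥(integralClosure A[X] F) →+* ↥(chart A t))).IsMaximal :=
    Ideal.comap_isMaximal_of_surjective _ ee.surjective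
  have hπ' : algebraMap A[X] ↥(integralClosure A[X] F) (C π) ∈
      x.comap (ee : ↥(integralClosure A[X] F) →+* ↥(chart A t)) := by
    rw [Ideal.mem_comap]
    show ee _ ∈ x
    rw [hee, chartEquiv_algebraMap]
    exact hπx
  have hτ' : algebraMap A[X] ↥(integralClosure A[X] F) (X - C c) ∈
      x.comap (ee : ↥(integralClosure A[X] F) →+* ↥(chart A t)) := by
    rw [Ideal.mem_comap]
    have : (ee : ↥(integralClosure A[X] F) →+* ↥(chart A t))
        (algebraMap A[X] ↥(integralClosure A[X] F) (X - C c)) = τ := by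
      apply Subtype.ext
      show algebraMap A[X] F (X - C c) = (τ : F)
      rw [hτ, algebraMap_eq_aeval hX, map_sub, aeval_X, aeval_C]
    rw [this]
    exact hτx
  -- orders of `t - c`
  have hord : ∀ k, (ι k (t - algebraMap A F c)).order = e k := by
    intro k
    rw [map_sub, hshape, hconst, add_sub_cancel_left]
    exact order_toLS_mul_X_pow A K (u k) (by rw [hu]; exact (u₀ k).ne_zero) (e k)
  have hRF : ∀ r : A[X], algebraMap ↥(integralClosure A[X] F) F
      (algebraMap A[X] ↥(integralClosure A[X] F) r) = algebraMap A[X] F r := fun r => rfl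
  exact cusp_semi_of_purity_red π c ↥(integralClosure A[X] F) F e he heA u u₀ hu ιPS
    (fun k p => hι_of_shape hX c (ι k) (ιPS k) (hcompat k) (hconst k) (e k) (he k) (u k)
      (hshape k) p)
    hπ
    (CharZeroB9.hiv_of_places hX ht c ι ιPS hcompat e hord hplaces)
    (by rw [hrank, finrank_localization, RankBridge13.finrank_integralClosure (K := K) hX ht])
    (hchar_of_dvr (K := K) π hπ) ρ₀ ρ hcomp hker₀ hker hgen hsep
    (fun O hBO hdvr h1 h2 h3 => hUNR O hBO hdvr h1 h2 h3)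
    _ hemax hπ' hτ'

end Main

end Fermat.Agent.ES.R48.CuspProd4
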