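/-
Programme R (S48, Deligne–Serre), chapter GEOM / G3 MODEL₁, part G′ (helper4): **the two smoothness
wrappers of `ModelIface4` with the vertical side as a HYPOTHESIS** (`VertData`: a reduction of the
contract chart into a reduced ring, i.e. a finite product of fields, with kernel `π`), instead of
`(DEG)+(IRR)` of `G1Package8`.  This is what the model of `X₁(M)` needs: there the irreducibility of
the special fibre is proved AFTER smoothness.

Level 1 (abstract E3 setting of `IntClosBase13`):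
* `polyToChart A t : A[X] →+* chart A t`, `r ↦ r(t)`;
* `smoothAt_off_of_vert`, `smoothAt_over_of_vert` : `ChartTransfer3.SmoothAt` at a closed point of the
  contract chart from explicit vertical data `(ρ₀, ρ)` on the chart and the horizontal hypothesis.

Level 2 (`(O, E)` setting of `ModelIface4`):
* `VertData O E π t` : the vertical data for the chart `chart O t`;
* `smoothOff_of_vert`  : `VertData → OffIface4.HUNROff → ModelIface4.SmoothOff`
  (variant of `OffIface4.smoothOff_of_hunrOff`);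
* `smoothOver_of_family_vert` : `VertData → CuspIface23.HasCuspFamily → CuspIface23.HUNRCusp →
  ModelIface4.SmoothOver` (variant of `CuspIface23.smoothOver_of_family`).
-/
import Fermat.Agent.RED.PUR.OffIface4
import Fermat.Agent.RED.CUSP.CuspIface23
import Fermat.Agent.ES.R48.CuspProd4

set_option autoImplicit false
set_option linter.unusedSectionVars false
set_option linter.unusedVariables false
set_option linter.style.haveILetI false

noncomputable section

namespace Fermat.Agent.ES.R48.SmoothProd4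

open Polynomial IntermediateField
open Fermat.Agent.RED.CUSP.PolyToPS16 Fermat.Agent.RED.CUSP.IntClosedPS16
open Fermat.Agent.RED.PUR.IntClosBase13 Fermat.Agent.RED.PUR.ChartsGeneric13
open Fermat.Agent.RED.ChartTransfer3
open Fermat.Agent.RED.PUR.SmoothOffGen21

/-! ### `r ↦ r(t)` into the contract chart -/

section PolyToChart

variable (A : Type*) {F : Type*} [CommRing A] [Field F] [Algebra A F]

/-- `r ↦ r(t)`, as a ring homomorphism into the contract chart. -/
def polyToChart (t : F) : A[X] →+* ↥(chart A t) :=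
  ((Polynomial.aeval (⟨t, t_mem_chart A t⟩ : ↥(chart A t)) :
    A[X] →ₐ[A] ↥(chart A t)) : A[X] →+* ↥(chart A t))

theorem coe_polyToChart (t : F) (r : A[X]) :
    ((polyToChart A t r : ↥(chart A t)) : F) = aeval t r := by
  have h := Polynomial.aeval_algHom_apply (chart A t).val
    (⟨t, t_mem_chart A t⟩ : ↥(chart A t)) r
  exact h.symm

end PolyToChart

/-! ### Level 1: the abstract E3 setting -/

section Abstract

variable {A K F : Type*} [CommRing A] [IsDomain A] [IsDiscreteValuationRing A]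
  [Field K] [Field F] [Algebra A K] [IsFractionRing A K] [CharZero K] [Algebra K F] [Algebra A F]
  [IsScalarTower A K F] [Algebra A[X] F] [IsScalarTower A A[X] F] {t : F}

/-- the chart equivalence sends the image of a polynomial to `polyToChart`. -/
theorem chartEquiv_algebraMap_poly (hX : algebraMap A[X] F X = t) (r : A[X]) :
    chartEquiv (A := A) hX (algebraMap A[X] ↥(integralClosure A[X] F) r) = polyToChart A t r := by
  apply Subtype.ext
  rw [coe_polyToChart]
  show algebraMap A[X] F r = _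
  exact algebraMap_eq_aeval hX r

section Transport

variable {k₀ L : Type*} [Field k₀] [CommRing L] [Algebra k₀ L] (ρ₀ : A[X] →+* k₀)
  (ρ : ↥(chart A t) →+* L)

/-- the vertical reduction, transported to `integralClosure A[X] F`. -/
def rhoIC (hX : algebraMap A[X] F X = t) : ↥(integralClosure A[X] F) →+* L :=
  ρ.comp (chartEquiv (A := A) hX).toRingHom

theorem rhoIC_apply (hX : algebraMap A[X] F X = t) (z : ↥(integralClosure A[X] F)) :
    rhoIC ρ hX z = ρ (chartEquiv (A := A) hX z) := rfl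

theorem rhoIC_comp (hX : algebraMap A[X] F X = t)
    (hcomp : ∀ r : A[X], ρ (polyToChart A t r) = algebraMap k₀ L (ρ₀ r)) (r : A[X]) :
    rhoIC ρ hX (algebraMap A[X] ↥(integralClosure A[X] F) r) = algebraMap k₀ L (ρ₀ r) := by
  rw [rhoIC_apply, chartEquiv_algebraMap_poly hX, hcomp]

theorem rhoIC_ker (hX : algebraMap A[X] F X = t) (ϖ : A)
    (hker : ∀ z : ↥(chart A t), ρ z = 0 ↔ algebraMap A ↥(chart A t) ϖ ∣ z)
    (z : ↥(integralClosure A[X] F)) :
    rhoIC ρ hX z = 0 ↔ algebraMap A[X] ↥(integralClosure A[X] F) (C ϖ) ∣ z := by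
  rw [rhoIC_apply, hker, ← chartEquiv_algebraMap (A := A) hX ϖ]
  constructor
  · rintro ⟨c, hc⟩
    refine ⟨(chartEquiv (A := A) hX).symm c, ?_⟩
    apply (chartEquiv (A := A) hX).injective
    rw [map_mul, RingEquiv.apply_symm_apply]
    exact hc
  · rintro ⟨c, rfl⟩
    exact ⟨chartEquiv (A := A) hX c, map_mul _ _ _⟩

end Transport

/-- **(LOC) at a closed point away from the cusp values**, abstract form, from explicit vertical
data on the contract chart (reduced target) and the horizontal hypothesis (shape of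
`OffIface4.HUNROff`). -/
theorem smoothAt_off_of_vert (hX : algebraMap A[X] F X = t) (ht : Transcendental K t)
    [FiniteDimensional K⟮t⟯ F] {ϖ : A} (hϖ : Irreducible ϖ) (S : Set A)
    {k₀ L : Type*} [Field k₀] [CommRing L] [IsReduced L] [Algebra k₀ L] (ρ₀ : A[X] →+* k₀)
    (ρ : ↥(chart A t) →+* L)
    (hcomp : ∀ r : A[X], ρ (polyToChart A t r) = algebraMap k₀ L (ρ₀ r))
    (hker₀ : ∀ r : A[X], ρ₀ r = 0 ↔ C ϖ ∣ r)
    (hker : ∀ z : ↥(chart A t), ρ z = 0 ↔ algebraMap A ↥(chart A t) ϖ ∣ z)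
    (hgen : ∀ c : k₀, ∃ r r' : A[X], ρ₀ r' ≠ 0 ∧ c * ρ₀ r' = ρ₀ r)
    (hsep : ∀ z : ↥(chart A t), IsSeparable k₀ (ρ z))
    (hunr : ∀ P : Ideal A[X], (∀ c ∈ S, (X - C c : A[X]) ∉ P) →
      ∀ O' : ValuationSubring F,
        (∀ s : F, IsIntegral ↥(Algebra.adjoin A {t}) s → s ∈ O') →
        IsDiscreteValuationRing O' →
        (algebraMap A F ϖ)⁻¹ ∈ O' →
        (∀ r : A[X], r ∉ P → (aeval t r)⁻¹ ∈ O') →
        ∃ g0 : A[X], (aeval t g0)⁻¹ ∉ O' ∧ ∀ y ∈ O', y⁻¹ ∉ O' → y / aeval t g0 ∈ O')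
    (x : Ideal ↥(chart A t)) (hx : x.IsMaximal) (hπx : algebraMap A ↥(chart A t) ϖ ∈ x)
    (hS : ∀ c ∈ S, (⟨t, t_mem_chart A t⟩ : ↥(chart A t)) - algebraMap A ↥(chart A t) c ∉ x) :
    SmoothAt ϖ (chart A t) x := by
  classical
  have hcharA : CharZero A :=
    ⟨fun a b hab => by
      have := congrArg (algebraMap A K) hab
      simpa using this⟩
  have hfin : Module.Finite A[X] ↥(integralClosure A[X] F) := finite_integralClosure hX ht
  have hic : IsIntegrallyClosed ↥(integralClosure A[X] F) :=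
    isIntegrallyClosed_integralClosure hX ht
  have hfr : IsFractionRing ↥(integralClosure A[X] F) F := isFractionRing_integralClosure hX ht
  have hfa : FaithfulSMul A[X] ↥(integralClosure A[X] F) := faithfulSMul_integralClosure hX ht
  have hpir : IsPrincipalIdealRing (A[X] ⧸ Ideal.span {(C ϖ : A[X])}) :=
    isPrincipalIdealRing_quot hϖ
  obtain ⟨hx'max, hπx', hSx'⟩ := comap_chartEquiv_props hX ϖ S x hx hπx hS
  have haev : ∀ r : A[X], algebraMap ↥(integralClosure A[X] F) F
      (algebraMap A[X] ↥(integralClosure A[X] F) r) = aeval t r := fun r =>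
    algebraMap_eq_aeval hX r
  refine smoothAt_chart_of_loc hX ϖ x
    (PurProd4.smooth_of_purity_red ↥(integralClosure A[X] F) F (C ϖ) (prime_C hϖ) _ hπx'
      (hchar_poly hϖ) ρ₀ (rhoIC ρ hX) (rhoIC_comp ρ₀ ρ hX hcomp) hker₀ (rhoIC_ker ρ hX ϖ hker)
      hgen (fun z => hsep _) ?_)
  intro O' hB hdvr h1 h3
  refine (fun ⟨g0, hg1, hg2⟩ => ⟨g0, by rw [haev]; exact hg1, fun y hy hy' => by
    rw [haev]; exact hg2 y hy hy'⟩)
    (hunr ((x.comap (chartEquiv (A := A) hX :
        ↥(integralClosure A[X] F) →+* ↥(chart A t))).comap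
        (algebraMap A[X] ↥(integralClosure A[X] F)))
      (fun c hc hmem => hSx' c hc hmem) O' ?_ hdvr ?_ ?_)
  · intro s hs
    exact hB ⟨s, (isIntegral_iff hX s).mpr hs⟩
  · have := h1
    rwa [haev, aeval_C] at this
  · intro r hr
    have := h3 r hr
    rwa [haev] at this

/-- **(LOC) at a closed point over a cusp value**, abstract form, from explicit vertical data on the
contract chart (reduced target), the family of cusp expansions and the horizontal hypothesis (shape of
`CuspIface23.HUNRCusp`). -/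
theorem smoothAt_over_of_vert (hX : algebraMap A[X] F X = t) (ht : Transcendental K t)
    [FiniteDimensional ↥K⟮t⟯ F] (π c : A) (hπ : Irreducible π)
    {Cκ : Type*} [Fintype Cκ] [DecidableEq Cκ]
    (ι : Cκ → F →+* LaurentSeries K)
    (hconst : ∀ k (a : A), ι k (algebraMap A F a) = HahnSeries.C (algebraMap A K a))
    (hfrac : ∀ k f, ι k f ∈ psFrac A K)
    (e : Cκ → ℕ) (he : ∀ k, 0 < e k) (heA : ∀ k, IsUnit ((e k : ℕ) : A))
    (u : Cκ → PowerSeries A) (hu : ∀ k, IsUnit (PowerSeries.constantCoeff (u k)))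
    (hshape : ∀ k, ι k t = HahnSeries.C (algebraMap A K c) +
      toLS A K (u k * PowerSeries.X ^ e k))
    (hplaces : ∀ w : AlgebraicCurve.Place K F, 0 < w.ord (t - algebraMap A F c) →
      ∃ k, ∀ z : F, z ≠ 0 → 0 ≤ (ι k z).order → z ∈ w.toValuationSubring)
    (hrank : ∑ k, e k = Module.finrank ↥K⟮t⟯ F)
    {k₀ L : Type*} [Field k₀] [CommRing L] [IsReduced L] [Algebra k₀ L] (ρ₀ : A[X] →+* k₀)
    (ρ : ↥(chart A t) →+* L)
    (hcomp : ∀ r : A[X], ρ (polyToChart A t r) = algebraMap k₀ L (ρ₀ r))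
    (hker₀ : ∀ r : A[X], ρ₀ r = 0 ↔ C π ∣ r)
    (hker : ∀ z : ↥(chart A t), ρ z = 0 ↔ algebraMap A ↥(chart A t) π ∣ z)
    (hgen : ∀ c' : k₀, ∃ r r' : A[X], ρ₀ r' ≠ 0 ∧ c' * ρ₀ r' = ρ₀ r)
    (hsep : ∀ z : ↥(chart A t), IsSeparable k₀ (ρ z))
    (hunr : ∀ O' : ValuationSubring F,
      (∀ s : F, IsIntegral ↥(Algebra.adjoin A {t}) s → s ∈ O') →
      IsDiscreteValuationRing O' →
      (algebraMap A F π)⁻¹ ∈ O' →
      (t - algebraMap A F c)⁻¹ ∈ O' →
      (∀ r : A[X], r ∉ cuspIdeal π c → (aeval t r)⁻¹ ∈ O') →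
      ∃ g0 : A[X], (aeval t g0)⁻¹ ∉ O' ∧ ∀ y ∈ O', y⁻¹ ∉ O' → y / aeval t g0 ∈ O')
    (x : Ideal ↥(chart A t)) (hx : x.IsMaximal) (hπx : algebraMap A ↥(chart A t) π ∈ x)
    (τ : ↥(chart A t)) (hτ : (τ : F) = t - algebraMap A F c) (hτx : τ ∈ x) :
    SmoothAt π (chart A t) x := by
  classical
  have haev : ∀ r : A[X], algebraMap A[X] F r = aeval t r := fun r => algebraMap_eq_aeval hX r
  choose ιPS hcompat _ using fun k =>
    Fermat.Agent.RED.CUSP.CuspPS6.exists_iotaPS hX (ι k) (hconst k) (hfrac k) c (u k) (e k) (he k)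
      (hshape k)
  refine CuspProd4.smoothOver_generic_red hX ht π c hπ ι ιPS hcompat
    hconst e he heA u (fun k => (hu k).unit) (fun k => (hu k).unit_spec.symm) hshape hplaces hrank
    ρ₀ (rhoIC ρ hX) (rhoIC_comp ρ₀ ρ hX hcomp) hker₀ (rhoIC_ker ρ hX π hker) hgen
    (fun z => hsep _) ?_ x hx hπx τ hτ hτx
  intro O' hB hdvr h1 h2 h3
  refine (fun ⟨g0, hg1, hg2⟩ => ⟨g0, by rw [haev]; exact hg1, fun y hy hy' => by
    rw [haev]; exact hg2 y hy hy'⟩) (hunr O' ?_ hdvr ?_ ?_ ?_)
  · intro s hs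
    exact hB ⟨s, (isIntegral_iff hX s).mpr hs⟩
  · have := h1
    rwa [haev, aeval_C] at this
  · have := h2
    rwa [haev, map_sub, aeval_X, aeval_C] at this
  · intro r hr
    have := h3 r hr
    rwa [haev] at this

end Abstract

/-! ### Level 2: the `(O, E)` setting of `ModelIface4` -/

section OE

open ModularCurve
open Fermat.Agent.RED.ModelIface4 Fermat.Agent.RED.PUR.OffIface4 Fermat.Agent.RED.CUSP.CuspIface23

universe u v w

variable {K : Type u} [Field K] (O : ValuationSubring K) (E : IntermediateField K (LaurentSeries K))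

/-- **The vertical data of the chart `chart O t`**: a reduction `ρ` of the chart into a reduced ring
`L` (a finite product of fields) with kernel `π`, over a reduction `ρ₀ : O[X] → k₀` with kernel `π`
onto a generating subring of the field `k₀`, all values separable over `k₀`. -/
def VertData (π : ↥O) (t : ↥E) : Prop :=
  ∃ (k₀ : Type v) (L : Type w) (_ : Field k₀) (_ : CommRing L) (_ : IsReduced L)
    (_ : Algebra k₀ L) (ρ₀ : (↥O)[X] →+* k₀) (ρ : ↥(chart ↥O t) →+* L),
    (∀ r : (↥O)[X], ρ (polyToChart ↥O t r) = algebraMap k₀ L (ρ₀ r)) ∧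
    (∀ r : (↥O)[X], ρ₀ r = 0 ↔ C π ∣ r) ∧
    (∀ z : ↥(chart ↥O t), ρ z = 0 ↔ algebraMap ↥O ↥(chart ↥O t) π ∣ z) ∧
    (∀ c : k₀, ∃ r r' : (↥O)[X], ρ₀ r' ≠ 0 ∧ c * ρ₀ r' = ρ₀ r) ∧
    ∀ z : ↥(chart ↥O t), IsSeparable k₀ (ρ z)

variable {O E}

/-- **(LOC) away from the cusp values, from the vertical data and the horizontal hypothesis.** -/
theorem smoothOff_of_vert [CharZero K] [IsDiscreteValuationRing ↥O] {π : ↥O}
    (hπ : Irreducible π) (t : ↥E) (htrK : Transcendental K t) [FiniteDimensional ↥K⟮t⟯ ↥E]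
    (S : Set ↥O) (hvert : VertData.{u, v, w} O E π t) (hunr : HUNROff O E π t S) :
    SmoothOff O E π t S := by
  haveI : IsScalarTower ↥O K ↥E := Fermat.Agent.RED.NumInst4.isScalarTower_OE O E
  letI : Algebra (↥O)[X] ↥E := polyAlgebra (A := ↥O) t
  haveI : IsScalarTower ↥O (↥O)[X] ↥E := polyAlgebra_isScalarTower (A := ↥O) t
  have hX : algebraMap (↥O)[X] ↥E X = t := polyAlgebra_algebraMap_X (A := ↥O) t
  obtain ⟨k₀, L, _, _, _, _, ρ₀, ρ, hcomp, hker₀, hker, hgen, hsep⟩ := hvert
  intro x hx hπx hS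
  exact smoothAt_off_of_vert (A := ↥O) (K := K) (F := ↥E) hX htrK hπ S ρ₀ ρ hcomp hker₀ hker hgen
    hsep hunr x hx hπx hS

/-- **(LOC) over a cusp value, from the vertical data, the cusp family and the horizontal
hypothesis.** -/
theorem smoothOver_of_family_vert [CharZero K] [IsDiscreteValuationRing ↥O] {π : ↥O}
    (hπ : Irreducible π) (t : ↥E) (htrK : Transcendental K t) [FiniteDimensional ↥K⟮t⟯ ↥E]
    (c : ↥O) (hvert : VertData.{u, v, w} O E π t)
    (hfam : HasCuspFamily O E t c (Module.finrank ↥K⟮t⟯ ↥E))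
    (hunr : HUNRCusp O E π t c) : SmoothOver O E π t c := by
  haveI : IsScalarTower ↥O K ↥E := Fermat.Agent.RED.NumInst4.isScalarTower_OE O E
  letI : Algebra (↥O)[X] ↥E := polyAlgebra (A := ↥O) t
  haveI : IsScalarTower ↥O (↥O)[X] ↥E := polyAlgebra_isScalarTower (A := ↥O) t
  have hX : algebraMap (↥O)[X] ↥E X = t := polyAlgebra_algebraMap_X (A := ↥O) t
  obtain ⟨k₀, L, _, _, _, _, ρ₀, ρ, hcomp, hker₀, hker, hgen, hsep⟩ := hvert
  obtain ⟨Cκ, hfinκ, hdec, ι, e, u, hconst, hfrac, he, heA, hu, hshape, hplaces, hrank⟩ := hfam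
  intro x hx hπx hτx
  exact smoothAt_over_of_vert (A := ↥O) (K := K) (F := ↥E) hX htrK π c hπ ι hconst hfrac e he heA u
    hu hshape hplaces hrank ρ₀ ρ hcomp hker₀ hker hgen hsep hunr x hx hπx (subConst O E t c) rfl hτx

end OE

end Fermat.Agent.ES.R48.SmoothProd4
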