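/-
Programme R (S48), chapter GEOM, sub-chapter G3 MODEL₁ — helper4 (G3 sub-lead).
**The literal target of VERT₁** (complement of `G3Defs4`): over all sufficiently large number fields
`K`, for `t = tq K n e ∈ FK1 M K`:

* `[K · F1 M : K(t)]` is finite (`relfinrank ≠ 0`, the `hn` of `ModelAsm4.hasModel_of_g1`);
* the charts `chart (AK A K) t` and `chart (AK A K) t⁻¹` carry vertical data (`SmoothProd4.VertData`).

Produced by `VertConcreteOne4` (diamond group of `K · F1 M / K · F_full(M)` + saturation of
`K · F_full(M)`), consumed by the assembly `ModelStepOne`.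
-/
import Fermat.Agent.ES.R48.G3Defs4
import Fermat.Agent.ES.R48.SmoothProd4

set_option autoImplicit false

open HahnSeries ModularCurve IntermediateField
open scoped MatrixGroups

noncomputable section

namespace Fermat.Agent.ES.R48.G3Targets4

open Fermat.Agent.RED.Interface4 Fermat.Agent.RED.BASE.EtaQuot12 Fermat.Agent.ES.R48.G3Defs4

variable (n e M : ℕ) [NeZero n] (A : ValuationSubring Qbar)

/-- **Deliverable of VERT₁**: finiteness over `K(t)` and the vertical data of both charts. -/
def VertTarget1 : Prop :=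
  EventuallyT1 n e M A fun K ϖ t =>
    relfinrank (IntermediateField.adjoin (↥K) {((t : ↥(FK1 M K)) : LaurentSeries K)}) (FK1 M K) ≠ 0 ∧
    Fermat.Agent.ES.R48.SmoothProd4.VertData.{0, 0, 0} (AK A K) (FK1 M K) ϖ t ∧
    Fermat.Agent.ES.R48.SmoothProd4.VertData.{0, 0, 0} (AK A K) (FK1 M K) ϖ t⁻¹

end Fermat.Agent.ES.R48.G3Targets4
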