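/-
Programme R (S48, Deligne–Serre), chapter GEOM, sub-chapter G4 "CONG₁" (helper15):
**the function field of `X₁(M)` over an arbitrary field `K`** (in particular the special fibre,
`K = k` of characteristic `p ∤ M`), inside `K((q))` — the twin of the Prelude's
`ModularCurve.modularFunctionFieldFullC` and of `ES/KRON/FrobPlace13` for helper13's `F1 M`
(`FF1Defs13`).

* `wqC R M d : LaurentSeries R` : `W_d = S_d E₄² / Δ` with coefficients in any commutative ring `R`
  (`wqC ℚ M d = wq M d` by `rfl`; `coeffMap_wqC`: compatible with every coefficient homomorphism);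
* `F1C K M := K(j(q^d) (d ∣ M), W_c (c ∈ (ZMod M)ˣ)) ⊆ K((q))` (`F1C ℚ M = F1 M` by `rfl`),
  `fullC_le_F1C`, `JOneC K M := Pic⁰(F1C K M)`;
* `coeffMap_mem_F1C` : `F1C K M` is stable under every coefficientwise endomorphism; hence
  `coeffAut1`, `coeffSemi1 K M σ : SemilinearAut K (F1C K M)`, `coeffSemiHom1`;
* Frobenius (for `k` perfect of exponential characteristic `l`): `frobSemi1 k l M`,
  `frobPlace1 k l M : Place k (F1C k M) ≃ Place k (F1C k M)` with `ord_frobPlace1`, `deg_frobPlace1`,
  `ord_sub_const_frobPlace1` (literal twins of `FrobPlace13`).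
-/
import Mathlib
import Fermat.Prelude.Def_ModularCurve_X0ModL
import Fermat.Prelude.Def_AlgebraicCurve_BaseChangeGalois
import Fermat.Agent.ES.R48.FF1Defs13

set_option autoImplicit false
set_option linter.unusedSectionVars false

noncomputable section

namespace Fermat.Agent.ES.R48.F1CDefs15

open ModularCurve AlgebraicCurve HahnSeries IntermediateField
open Fermat.Agent.ES.R48.FF1Defs13

/-! ### The series `W_d` over an arbitrary coefficient ring -/

section Series

variable (R : Type*) [CommRing R] (M : ℕ) (d : ZMod M)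

/-- `W_d = q⁻¹ S_d E₄² η⁻²⁴` with coefficients in `R`. -/
def wqC : LaurentSeries R :=
  HahnSeries.single (-1 : ℤ) 1 *
    HahnSeries.ofPowerSeries ℤ R ((wNum M d).map (Int.castRingHom R))

theorem wqC_rat : wqC ℚ M d = wq M d := rfl

variable {R} in
/-- `W_d` is compatible with every homomorphism of coefficient rings. -/
theorem coeffMap_wqC {S : Type*} [CommRing S] (f : R →+* S) :
    coeffMap f (wqC R M d) = wqC S M d := by
  rw [wqC, map_mul, coeffMap_single, map_one, coeffMap_ofPowerSeries,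
    ← RingHom.comp_apply (PowerSeries.map f) (PowerSeries.map (Int.castRingHom R)),
    ← PowerSeries.map_comp, RingHom.ext_int (f.comp (Int.castRingHom R)) (Int.castRingHom S)]
  rfl

theorem wqC_neg : wqC R M (-d) = wqC R M d := by
  rw [wqC, wqC, wNum, wNum, eisS_neg]

end Series

/-! ### The function field of `X₁(M)` over `K` -/

section FunctionField

variable (K : Type*) [Field K] (M : ℕ)

/-- the generators `W_c`, `c ∈ (ZMod M)ˣ`, over `K`. -/
def wExpansionsC : Set (LaurentSeries K) :=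
  Set.range fun c : (ZMod M)ˣ => wqC K M (c : ZMod M)

/-- **The function field of `X₁(M)` over `K`**, inside `K((q))`. -/
def F1C : IntermediateField K (LaurentSeries K) :=
  IntermediateField.adjoin K (divisorExpansionsC K M ∪ wExpansionsC K M)

theorem F1C_rat : F1C ℚ M = F1 M := rfl

theorem wqC_mem_F1C (c : (ZMod M)ˣ) : wqC K M (c : ZMod M) ∈ F1C K M :=
  subset_adjoin K _ (Or.inr ⟨c, rfl⟩)

theorem fullC_le_F1C : modularFunctionFieldFullC K M ≤ F1C K M := by
  rw [modularFunctionFieldFullC, F1C]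
  exact IntermediateField.adjoin.mono K _ _ Set.subset_union_left

theorem jqModCd_mem_F1C {d : ℕ} [NeZero d] (hd : d ∣ M) :
    qExpand K d (jqModC K) ∈ F1C K M :=
  fullC_le_F1C K M (jqModCd_mem_full K M hd)

/-- `F1C K M ≤ E` as soon as `E` contains the generators. -/
theorem F1C_le_iff (E : IntermediateField K (LaurentSeries K)) :
    F1C K M ≤ E ↔ modularFunctionFieldFullC K M ≤ E ∧ ∀ c : (ZMod M)ˣ, wqC K M (c : ZMod M) ∈ E := by
  rw [F1C, modularFunctionFieldFullC, adjoin_le_iff, adjoin_le_iff, Set.union_subset_iff]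
  refine and_congr Iff.rfl ⟨fun h c => h ⟨c, rfl⟩, ?_⟩
  rintro h _ ⟨c, rfl⟩
  exact h c

/-- **`J₁(M)` over `K`** (the special fibre for `K = k`), as a degree-zero divisor class group. -/
abbrev JOneC : Type _ := Pic0 K (F1C K M)

example : AddCommGroup (JOneC K M) := inferInstance

variable {K M} in
/-- `coeffMap σ` preserves `F1C K M`: the generators have integer coefficients. -/
theorem coeffMap_mem_F1C (σ : K →+* K) {x : LaurentSeries K} (hx : x ∈ F1C K M) :
    coeffMap σ x ∈ F1C K M := by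
  change x ∈ Subfield.closure
      (Set.range (algebraMap K (LaurentSeries K)) ∪
        (divisorExpansionsC K M ∪ wExpansionsC K M)) at hx
  induction hx using Subfield.closure_induction with
  | mem y hy =>
      rcases hy with ⟨a, rfl⟩ | ⟨d, hd, hdM, rfl⟩ | ⟨c, rfl⟩
      · rw [coeffMap_algebraMap]
        exact (F1C K M).algebraMap_mem _
      · have := hd
        rw [coeffMap_qExpand, coeffMap_jqModC]
        exact jqModCd_mem_F1C K M hdM
      · rw [coeffMap_wqC]
        exact wqC_mem_F1C K M c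
  | one => rw [map_one]; exact one_mem _
  | add x y _ _ hx hy => rw [map_add]; exact add_mem hx hy
  | neg x _ hx => rw [map_neg]; exact neg_mem hx
  | inv x _ hx => rw [map_inv₀]; exact inv_mem hx
  | mul x y _ _ hx hy => rw [map_mul]; exact mul_mem hx hy

end FunctionField

/-! ### Coefficientwise automorphisms -/

section Generic

variable (K : Type*) [Field K] (M : ℕ)

/-- the ring automorphism of `F1C K M` induced by a ring automorphism of the coefficients. -/
def coeffAut1 (σ : K ≃+* K) : ↥(F1C K M) ≃+* ↥(F1C K M) where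
  toFun x := ⟨coeffMap (σ : K →+* K) x, coeffMap_mem_F1C _ x.2⟩
  invFun x := ⟨coeffMap (σ.symm : K →+* K) x, coeffMap_mem_F1C _ x.2⟩
  left_inv x := Subtype.ext (by
    show coeffMap (σ.symm : K →+* K) (coeffMap (σ : K →+* K) x) = x
    rw [coeffMap_coeffMap]
    have : (σ.symm : K →+* K).comp (σ : K →+* K) = RingHom.id K :=
      RingHom.ext fun a => σ.symm_apply_apply a
    rw [this, coeffMap_id])
  right_inv x := Subtype.ext (by
    show coeffMap (σ : K →+* K) (coeffMap (σ.symm : K →+* K) x) = x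
    rw [coeffMap_coeffMap]
    have : (σ : K →+* K).comp (σ.symm : K →+* K) = RingHom.id K :=
      RingHom.ext fun a => σ.apply_symm_apply a
    rw [this, coeffMap_id])
  map_mul' x y := Subtype.ext (map_mul (coeffMap (σ : K →+* K)) _ _)
  map_add' x y := Subtype.ext (map_add (coeffMap (σ : K →+* K)) _ _)

@[simp] theorem coe_coeffAut1 (σ : K ≃+* K) (x : ↥(F1C K M)) :
    ((coeffAut1 K M σ x : ↥(F1C K M)) : LaurentSeries K) = coeffMap (σ : K →+* K) x := rfl

@[simp] theorem coe_coeffAut1_symm (σ : K ≃+* K) (x : ↥(F1C K M)) :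
    (((coeffAut1 K M σ).symm x : ↥(F1C K M)) : LaurentSeries K) =
      coeffMap (σ.symm : K →+* K) x := rfl

theorem coeffAut1_algebraMap (σ : K ≃+* K) (a : K) :
    coeffAut1 K M σ (algebraMap K ↥(F1C K M) a) = algebraMap K ↥(F1C K M) (σ a) :=
  Subtype.ext (by
    show coeffMap (σ : K →+* K) (algebraMap K (LaurentSeries K) a) = _
    rw [coeffMap_algebraMap]
    rfl)

/-- **the semilinear automorphism of `F1C K M / K` induced by `σ ∈ Aut K`.** -/
def coeffSemi1 (σ : K ≃+* K) : SemilinearAut K ↥(F1C K M) :=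
  ⟨(coeffAut1 K M σ, σ), fun a => coeffAut1_algebraMap K M σ a⟩

@[simp] theorem toRingAut_coeffSemi1 (σ : K ≃+* K) :
    SemilinearAut.toRingAut (coeffSemi1 K M σ) = coeffAut1 K M σ := rfl

@[simp] theorem baseAut_coeffSemi1 (σ : K ≃+* K) :
    SemilinearAut.baseAut (coeffSemi1 K M σ) = σ := rfl

theorem coe_coeffSemi1_smul (σ : K ≃+* K) (x : ↥(F1C K M)) :
    ((coeffSemi1 K M σ • x : ↥(F1C K M)) : LaurentSeries K) = coeffMap (σ : K →+* K) x := rfl

theorem coeffSemi1_smul_algebraMap (σ : K ≃+* K) (a : K) :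
    coeffSemi1 K M σ • algebraMap K ↥(F1C K M) a = algebraMap K ↥(F1C K M) (σ a) :=
  coeffAut1_algebraMap K M σ a

/-- `σ ↦ coeffSemi1 σ` is a group homomorphism. -/
def coeffSemiHom1 : (K ≃+* K) →* SemilinearAut K ↥(F1C K M) where
  toFun := coeffSemi1 K M
  map_one' := Subtype.ext (Prod.ext (RingEquiv.ext fun x => Subtype.ext (by
    show coeffMap ((1 : K ≃+* K) : K →+* K) x = x
    have : ((1 : K ≃+* K) : K →+* K) = RingHom.id K := rfl
    rw [this, coeffMap_id])) rfl)
  map_mul' σ τ := Subtype.ext (Prod.ext (RingEquiv.ext fun x => Subtype.ext (by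
    show coeffMap ((σ * τ : K ≃+* K) : K →+* K) x =
      coeffMap (σ : K →+* K) (coeffMap (τ : K →+* K) x)
    rw [coeffMap_coeffMap]
    rfl)) rfl)

@[simp] theorem coeffSemiHom1_apply (σ : K ≃+* K) : coeffSemiHom1 K M σ = coeffSemi1 K M σ := rfl

/-- the generators `W_c` are fixed by the coefficientwise automorphisms. -/
theorem coeffSemi1_smul_wqC (σ : K ≃+* K) (c : (ZMod M)ˣ) :
    coeffSemi1 K M σ • (⟨wqC K M (c : ZMod M), wqC_mem_F1C K M c⟩ : ↥(F1C K M)) =
      ⟨wqC K M (c : ZMod M), wqC_mem_F1C K M c⟩ :=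
  Subtype.ext (by rw [coe_coeffSemi1_smul]; exact coeffMap_wqC M _ _)

end Generic

/-! ### Frobenius -/

section Frobenius

variable (k : Type*) [Field k] (l : ℕ) [ExpChar k l] [PerfectField k] (M : ℕ)

/-- **the coefficientwise Frobenius `cφ : g ↦ g^φ`** as a semilinear automorphism of `F1C k M`. -/
def frobSemi1 : SemilinearAut k ↥(F1C k M) := coeffSemi1 k M (frobeniusEquiv k l)

theorem coe_frobSemi1_smul (g : ↥(F1C k M)) :
    ((frobSemi1 k l M • g : ↥(F1C k M)) : LaurentSeries k) = coeffMap (frobenius k l) g := rfl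

theorem coeff_frobSemi1_smul (g : ↥(F1C k M)) (n : ℤ) :
    ((frobSemi1 k l M • g : ↥(F1C k M)) : LaurentSeries k).coeff n =
      ((g : LaurentSeries k).coeff n) ^ l := rfl

theorem baseAut_frobSemi1 : SemilinearAut.baseAut (frobSemi1 k l M) = frobeniusEquiv k l := rfl

/-- semilinearity: `(a)^φ = a ^ l` on constants. -/
theorem frobSemi1_smul_algebraMap (a : k) :
    frobSemi1 k l M • algebraMap k ↥(F1C k M) a = algebraMap k ↥(F1C k M) (a ^ l) :=
  coeffSemi1_smul_algebraMap k M (frobeniusEquiv k l) a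

/-- `(a • g)^φ = a ^ l • g^φ`. -/
theorem frobSemi1_smul_smul (a : k) (g : ↥(F1C k M)) :
    frobSemi1 k l M • (a • g) = (a ^ l) • (frobSemi1 k l M • g) := by
  rw [Algebra.smul_def, Algebra.smul_def, smul_mul', frobSemi1_smul_algebraMap]

/-- **the Frobenius bijection on the places of `F1C k M`**: `Fr Q` has valuation ring `cφ (O_Q)`. -/
def frobPlace1 : Place k ↥(F1C k M) ≃ Place k ↥(F1C k M) :=
  MulAction.toPerm (frobSemi1 k l M)

@[simp] theorem frobPlace1_apply (Q : Place k ↥(F1C k M)) :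
    frobPlace1 k l M Q = frobSemi1 k l M • Q := rfl

@[simp] theorem frobPlace1_symm_apply (Q : Place k ↥(F1C k M)) :
    (frobPlace1 k l M).symm Q = (frobSemi1 k l M)⁻¹ • Q := rfl

theorem mem_frobPlace1_iff (Q : Place k ↥(F1C k M)) (g : ↥(F1C k M)) :
    frobSemi1 k l M • g ∈ (frobPlace1 k l M Q).toValuationSubring ↔ g ∈ Q.toValuationSubring := by
  rw [frobPlace1_apply, SemilinearAut.smul_toValuationSubring,
    ValuationSubring.mem_pointwise_smul_iff_inv_smul_mem, inv_smul_smul]

/-- `ord_{Fr Q} (cφ g) = ord_Q g`. -/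
theorem ord_frobPlace1 (Q : Place k ↥(F1C k M)) (g : ↥(F1C k M)) :
    (frobPlace1 k l M Q).ord (frobSemi1 k l M • g) = Q.ord g :=
  SemilinearAut.ord_smul (frobSemi1 k l M) Q g

/-- `ord_{Fr Q} g = ord_Q (cφ⁻¹ g)`. -/
theorem ord_frobPlace1' (Q : Place k ↥(F1C k M)) (g : ↥(F1C k M)) :
    (frobPlace1 k l M Q).ord g = Q.ord ((frobSemi1 k l M)⁻¹ • g) := by
  rw [← ord_frobPlace1 k l M Q ((frobSemi1 k l M)⁻¹ • g), smul_inv_smul]

/-- degrees are preserved. -/
theorem deg_frobPlace1 (Q : Place k ↥(F1C k M)) : (frobPlace1 k l M Q).deg = Q.deg :=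
  SemilinearAut.deg_smul (frobSemi1 k l M) Q

/-- **value rule** (order form): `ord_{Fr Q} (cφ g - a ^ l) = ord_Q (g - a)`. -/
theorem ord_sub_const_frobPlace1 (Q : Place k ↥(F1C k M)) (g : ↥(F1C k M)) (a : k) :
    (frobPlace1 k l M Q).ord (frobSemi1 k l M • g - algebraMap k ↥(F1C k M) (a ^ l)) =
      Q.ord (g - algebraMap k ↥(F1C k M) a) := by
  rw [← ord_frobPlace1 k l M Q (g - algebraMap k _ a), smul_sub, frobSemi1_smul_algebraMap]

/-- **value rule** (residue form, constants). -/
theorem residueEquiv_algebraMap1 (Q : Place k ↥(F1C k M)) (a : k) :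
    SemilinearAut.smulResidueRingEquiv (frobSemi1 k l M) Q (algebraMap k Q.ResidueField a) =
      algebraMap k (frobSemi1 k l M • Q).ResidueField (a ^ l) :=
  SemilinearAut.smulResidueRingEquiv_algebraMap (frobSemi1 k l M) Q a

end Frobenius

end Fermat.Agent.ES.R48.F1CDefs15
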