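/-
Programme R (S48, Deligne–Serre), chapter GEOM, sub-chapter G3 MODEL₁, part E GAUSS₁ (helper10):
the twin of `RED/PUR/GaussBridge10` for the function field of `X₁(M)`: the CONCRETE bridge between
the generic Gauss ring (`RED/PUR/GaussGen8`) and `K·F1 M`, `F1C K M`.

* (GB2) `embK_wqC`, `redL_wqC`, `wqC_mem_gaussRing`, `gaussRed_wqC` : the generators `W_c` have
  integer coefficients, lie in the Gauss ring and reduce to `W̃_c`;
* (GB1) `F1C_le_fracField`, `laurentBaseChange_F1_le_fracField`, `FK1_le_fracField` :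
  `K·F1 M ⊂ Frac O((q))`; `OvK1 A K M hπ : ValuationSubring (laurentBaseChange K (F1 M))`;
* (RES) `F1C_le_resField`, `F1C_le_resField_laurentBaseChange`, `F1C_le_resField_FK1` :
  `κ(j̃(q^d), W̃_c) ⊂ resField O (K·F1 M)`;
* (GB3) `FK1_const_of_isAlgebraic(')` : `K` is algebraically closed in `K·F1 M`.
(`laurentBaseChange K (F1 M)` is `G3Defs4.FK1 M K` unfolded.)
-/
import Mathlib
import Fermat.Agent.RED.PUR.GaussBridge10
import Fermat.Agent.ES.R48.FF1Defs13
import Fermat.Agent.ES.R48.F1CDefs15

set_option autoImplicit false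
set_option linter.unusedSectionVars false

noncomputable section

open HahnSeries ModularCurve

namespace Fermat.Agent.ES.R48.GaussBridgeOne10

open Fermat.Agent.RED.PUR.GaussGen8 Fermat.Agent.RED.PUR.GaussBridge10
open Fermat.Agent.ES.R48.FF1Defs13 Fermat.Agent.ES.R48.F1CDefs15

section Generators

variable {K : Type*} [Field K] (O : ValuationSubring K) (M : ℕ)

theorem embK_wqC (c : ZMod M) : embK O (wqC ↥O M c) = wqC K M c := by
  unfold embK
  rw [coeffMap_wqC]

theorem redL_wqC (c : ZMod M) : redL O (wqC ↥O M c) = wqC (Res O) M c := by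
  unfold redL
  rw [coeffMap_wqC]

/-- the generators `W_c` lie in the Gauss ring. -/
theorem wqC_mem_gaussRing (c : ZMod M) : wqC K M c ∈ gaussRing O := by
  rw [← embK_wqC O M c]; exact embK_mem O _

theorem gaussRed_wqC (c : ZMod M) :
    gaussRed O ⟨wqC K M c, wqC_mem_gaussRing O M c⟩ = wqC (Res O) M c := by
  have h : (⟨wqC K M c, wqC_mem_gaussRing O M c⟩ : gaussRing O) =
      ⟨embK O (wqC ↥O M c), embK_mem O _⟩ := Subtype.ext (embK_wqC O M c).symm
  rw [h, gaussRed_embK, redL_wqC]

/-- **(GB1)** `K(j(q^d), W_c) ⊂ Frac O((q))`. -/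
theorem F1C_le_fracField [NeZero M] : F1C K M ≤ fracField O := by
  rw [F1C_le_iff]
  refine ⟨fullC_le_fracField O M, fun c => ?_⟩
  rw [← embK_wqC O M (c : ZMod M)]
  exact embK_mem_fracField O _

/-- **(RES)** every element of `κ(j̃(q^d), W̃_c)` is the residue of an element of
`gaussRing O ∩ K(j(q^d), W_c)`. -/
theorem F1C_le_resField [NeZero M] : F1C (Res O) M ≤ resField O (F1C K M) := by
  rw [F1C_le_iff]
  refine ⟨(fullC_le_resField O M).trans (resField_mono O (fullC_le_F1C K M)), fun c => ?_⟩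
  exact ⟨wqC K M (c : ZMod M), wqC_mem_gaussRing O M _, wqC_mem_F1C K M c, gaussRed_wqC O M _⟩

end Generators

section BaseChange

variable {K : Type*} [Field K] [Algebra ℚ K] (O : ValuationSubring K) (M : ℕ)

theorem coeffEmb_wq (c : ZMod M) : coeffEmb K (wq M c) = wqC K M c := by
  unfold coeffEmb
  rw [← wqC_rat, coeffMap_wqC]

/-- **(GB1)** `K·F1 M ⊂ Frac O((q))`. -/
theorem coeffEmb_mem_fracField1 [NeZero M] {x : LaurentSeries ℚ} (hx : x ∈ F1 M) :
    coeffEmb K x ∈ fracField O := by
  unfold F1 at hx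
  induction hx using IntermediateField.adjoin_induction with
  | mem y hy =>
      rcases hy with hy | ⟨c, rfl⟩
      · exact coeffEmb_mem_fracField O M (IntermediateField.subset_adjoin ℚ _ hy)
      · rw [coeffEmb_wq, ← embK_wqC O M (c : ZMod M)]
        exact embK_mem_fracField O _
  | algebraMap r =>
      rw [coeffEmb_algebraMap]
      exact (fracField O).algebraMap_mem _
  | add x y _ _ hx hy => rw [map_add]; exact add_mem hx hy
  | inv x _ hx => rw [map_inv₀]; exact inv_mem hx
  | mul x y _ _ hx hy => rw [map_mul]; exact mul_mem hx hy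

theorem laurentBaseChange_F1_le_fracField [NeZero M] :
    laurentBaseChange K (F1 M) ≤ fracField O := by
  unfold laurentBaseChange
  rw [IntermediateField.adjoin_le_iff]
  rintro _ ⟨x, hx, rfl⟩
  exact coeffEmb_mem_fracField1 O M hx

/-- `K(j(q^d), W_c) ⊂ K·F1 M` (the easy inclusion). -/
theorem F1C_le_laurentBaseChange [NeZero M] : F1C K M ≤ laurentBaseChange K (F1 M) := by
  rw [F1C_le_iff]
  refine ⟨(fullC_le_laurentBaseChange M).trans
    (FF1Defs13.laurentBaseChange_mono13 K (full_le_F1 M)), fun c => ?_⟩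
  rw [← coeffEmb_wq]
  exact coeffEmb_mem_laurentBaseChange K (wq_mem_F1 M c)

/-- **(RES)** for `K·F1 M`. -/
theorem F1C_le_resField_laurentBaseChange [NeZero M] :
    F1C (Res O) M ≤ resField O (laurentBaseChange K (F1 M)) :=
  (F1C_le_resField O M).trans (resField_mono O (F1C_le_laurentBaseChange M))

end BaseChange

section Concrete

open Fermat.Agent.RED.Interface4

variable (A : ValuationSubring Qbar) (K : IntermediateField ℚ Qbar) (M : ℕ) [NeZero M]

/-- **(GB1)** for the contract objects: `K·F1 M ⊂ Frac A_K((q))`. -/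
theorem FK1_le_fracField : laurentBaseChange K (F1 M) ≤ fracField (AK A K) :=
  laurentBaseChange_F1_le_fracField (AK A K) M

/-- The generators `W_c` lie in `K·F1 M`. -/
theorem wqC_mem_FK1 (c : (ZMod M)ˣ) : wqC K M (c : ZMod M) ∈ laurentBaseChange K (F1 M) :=
  F1C_le_laurentBaseChange M (wqC_mem_F1C K M c)

/-- **(RES)** for the contract objects. -/
theorem F1C_le_resField_FK1 :
    F1C (Res (AK A K)) M ≤ resField (AK A K) (laurentBaseChange K (F1 M)) :=
  F1C_le_resField_laurentBaseChange (AK A K) M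

set_option synthInstance.maxHeartbeats 400000 in
/-- **(GB3)** for the contract objects: `K` is algebraically closed in `K·F1 M`. -/
theorem FK1_const_of_isAlgebraic {y : laurentBaseChange K (F1 M)} (hy : IsAlgebraic K y) :
    ∃ c : K, (y : LaurentSeries K) = HahnSeries.C c := by
  have h1 : IsAlgebraic K ((laurentBaseChange K (F1 M)).val y) :=
    hy.algHom (laurentBaseChange K (F1 M)).val
  exact ⟨_, eq_C_of_isAlgebraic h1⟩

set_option synthInstance.maxHeartbeats 400000 in
/-- **(GB3)**, `algebraMap` form. -/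
theorem FK1_const_of_isAlgebraic' {y : laurentBaseChange K (F1 M)} (hy : IsAlgebraic K y) :
    ∃ c : K, y = algebraMap K (laurentBaseChange K (F1 M)) c :=
  exists_algebraMap_eq_of_isAlgebraic (laurentBaseChange K (F1 M)) hy

/-- The Gauss valuation ring of `K·F1 M` over `A_K`. -/
def OvK1 {π : ↥(AK A K)} (hπ : IsUnif (AK A K) π) :
    ValuationSubring (laurentBaseChange K (F1 M)) :=
  gaussVS hπ (laurentBaseChange K (F1 M)) (FK1_le_fracField A K M)

theorem mem_OvK1_iff {π : ↥(AK A K)} (hπ : IsUnif (AK A K) π)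
    (f : laurentBaseChange K (F1 M)) :
    f ∈ OvK1 A K M hπ ↔ (f : LaurentSeries K) ∈ gaussRing (AK A K) :=
  mem_gaussVS_iff hπ (laurentBaseChange K (F1 M)) (FK1_le_fracField A K M) f

end Concrete

end Fermat.Agent.ES.R48.GaussBridgeOne10
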