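/-
Programme R (S48, Deligne–Serre), chapter GEOM / G3, step G′(d)+(e) (helper8): the Čech hypotheses
`hH0`, `hsat` of `RED/CORE/CechConnected14` for the CONTRACT charts `chart R t`, `chart R t⁻¹` of
`RED/PUR/ChartGeneric22`, and the assembled statement "`π · chart R t` is prime".

`R` a noetherian integrally closed domain, `K = Frac R`, `F ⊇ K(t)` finite, `t` transcendental
over `K`, and `K` algebraically closed in `F` (`hK`).  Then

* `mem_range_of_mem_adjoin_inv` : `R[t] ∩ R[t⁻¹] = R`;
* `coeff_minpoly_mem_adjoin`    : the minimal polynomial over `K(t)` of an element integral over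
  `R[s]` (`s = t` or `t⁻¹`) has coefficients in `R[s]`;
* `hH0_chart`  : `chart R t ⊓ chart R t⁻¹ = R`;
* `hsat_chart` : `π · chart R t ∩ R = π R`;
* `pi_prime_chart`, `pi_prime_chart_inv` : with `dvrR`, the smoothness predicates `smooth0`,
  `smooth1` of `TwoChartModel` and reducedness of the two special fibres, `π · chart R t` is prime;
  with `t⁻¹` a non-zero-divisor modulo `π · chart R t⁻¹`, so is `π · chart R t⁻¹`.
-/
import Mathlib
import Fermat.Agent.RED.PUR.ChartGeneric22
import Fermat.Agent.ES.R48.RegConnModel8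

set_option autoImplicit false

namespace Fermat.Agent.ES.R48.ChartCech8

open Polynomial Fermat.Agent.RED.PUR.ChartGeneric22

/-! ### `R[t] ∩ R[t⁻¹] = R` -/

section Inter

variable {R F : Type*} [CommRing R] [IsDomain R] [Field F] [Algebra R F]

theorem mem_range_of_mem_adjoin_inv {t : F} (ht : Transcendental R t) {y : F}
    (h0 : y ∈ Algebra.adjoin R {t}) (h1 : y ∈ Algebra.adjoin R {t⁻¹}) :
    ∃ a : R, algebraMap R F a = y := by
  rw [Algebra.adjoin_singleton_eq_range_aeval] at h0 h1
  obtain ⟨P, rfl⟩ := h0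
  obtain ⟨Q, hQ⟩ := h1
  have ht0 : t ≠ 0 := by
    rintro rfl
    exact ht isAlgebraic_zero
  let _ : Invertible t := invertibleOfNonzero ht0
  set N := Q.natDegree with hN
  -- `Q(t⁻¹) t^N = (reflect N Q)(t)`
  have h2 : eval₂ (algebraMap R F) (⅟t) (reflect N (reflect N Q)) * t ^ N
      = eval₂ (algebraMap R F) t (reflect N Q) :=
    eval₂_reflect_mul_pow (algebraMap R F) t N (reflect N Q)
      (natDegree_reflect_le.trans (by rw [max_self]))
  rw [reflect_reflect, invOf_eq_inv] at h2
  have h3 : aeval t (P * X ^ N) = aeval t (reflect N Q) := by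
    rw [map_mul, map_pow, aeval_X]
    show (aeval t) P * t ^ N = _
    have hQ' : (aeval t⁻¹) Q = (aeval t) P := hQ
    rw [← hQ']
    exact h2
  have h4 : P * X ^ N = reflect N Q := (transcendental_iff_injective.1 ht) h3
  by_cases hP : P = 0
  · exact ⟨0, by rw [hP, map_zero, map_zero]⟩
  · have hdeg : (P * X ^ N).natDegree = P.natDegree + N := by
      rw [natDegree_mul hP (pow_ne_zero N X_ne_zero), natDegree_X_pow]
    have hle : (reflect N Q).natDegree ≤ N := natDegree_reflect_le.trans (by rw [max_self])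
    rw [← h4, hdeg] at hle
    have hP0 : P.natDegree = 0 := by omega
    obtain ⟨a, rfl⟩ : ∃ a : R, P = C a := ⟨P.coeff 0, eq_C_of_natDegree_eq_zero hP0⟩
    refine ⟨a, ?_⟩
    show algebraMap R F a = aeval t (C a)
    rw [aeval_C]

end Inter

/-! ### Coefficients of minimal polynomials -/

section Coeffs

variable {R K F : Type*} [CommRing R] [IsDomain R] [Field K] [Field F] [Algebra R K] [Algebra K F]
  [Algebra R F] [IsScalarTower R K F] [IsFractionRing R K] [IsIntegrallyClosed R]

theorem coeff_minpoly_mem_adjoin (E : IntermediateField K F) {s : F} (hs : s ∈ E)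
    (hE : E ≤ IntermediateField.adjoin K {s}) (htr : Transcendental K s) {x : F}
    (hx : IsIntegral (Algebra.adjoin R {s}) x) (n : ℕ) :
    (((minpoly E x).coeff n : E) : F) ∈ Algebra.adjoin R {s} := by
  let _ : Algebra (Algebra.adjoin R {s}) E := (adjoinToField E hs).toAlgebra
  have : IsFractionRing (Algebra.adjoin R {s}) E := isFractionRing_adjoin E hs hE
  have : IsScalarTower (Algebra.adjoin R {s}) E F := IsScalarTower.of_algebraMap_eq (fun _ => rfl)
  have : IsIntegrallyClosed (Algebra.adjoin R {s}) :=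
    isIntegrallyClosed_adjoin (transcendental_of_field htr)
  have h := minpoly.isIntegrallyClosed_eq_field_fractions' E hx
  rw [h, coeff_map]
  exact ((minpoly (Algebra.adjoin R {s}) x).coeff n).2

end Coeffs

/-! ### The Čech hypotheses for the contract charts -/

section Cech

variable {R K F : Type*} [CommRing R] [IsDomain R] [Field K] [Field F] [Algebra R K] [Algebra K F]
  [Algebra R F] [IsScalarTower R K F] [IsFractionRing R K] [IsIntegrallyClosed R]

omit [IsDomain R] in
/-- an element of `F` which is integral over `R` lies in `R`, when `K` is algebraically closed in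
`F`. -/
theorem mem_range_of_isIntegral (hK : ∀ x : F, IsAlgebraic K x → ∃ k : K, algebraMap K F k = x)
    {x : F} (hx : IsIntegral R x) : ∃ a : R, algebraMap R F a = x := by
  have halg : IsAlgebraic K x := (hx.tower_top (A := K)).isAlgebraic
  obtain ⟨k, rfl⟩ := hK x halg
  have hk : IsIntegral R k :=
    (isIntegral_algebraMap_iff (algebraMap K F).injective).mp hx
  obtain ⟨a, rfl⟩ := IsIntegrallyClosed.isIntegral_iff.mp hk
  exact ⟨a, (IsScalarTower.algebraMap_apply R K F a)⟩

/-- **`hH0`**: `chart R t ⊓ chart R t⁻¹ = R`. -/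
theorem hH0_chart {t : F} (htr : Transcendental K t)
    (hK : ∀ x : F, IsAlgebraic K x → ∃ k : K, algebraMap K F k = x) :
    ∀ x : F, x ∈ chart R t → x ∈ chart R t⁻¹ → ∃ a : R, algebraMap R F a = x := by
  intro x h0 h1
  rw [mem_chart_iff] at h0 h1
  set E : IntermediateField K F := IntermediateField.adjoin K {t} with hEdef
  have hmem : t ∈ E := IntermediateField.mem_adjoin_simple_self K t
  have hinv_mem : t⁻¹ ∈ E := inv_mem hmem
  have hE' : E ≤ IntermediateField.adjoin K {t⁻¹} := by
    rw [hEdef, IntermediateField.adjoin_le_iff, Set.singleton_subset_iff]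
    have h1 : t⁻¹ ∈ IntermediateField.adjoin K {t⁻¹} :=
      IntermediateField.mem_adjoin_simple_self K t⁻¹
    have h2 := inv_mem h1
    rwa [inv_inv] at h2
  have htr' : Transcendental K t⁻¹ := fun h => htr (IsAlgebraic.inv_iff.1 h)
  have htrR : Transcendental R t := transcendental_of_field htr
  -- every coefficient of the minimal polynomial over `K(t)` lies in `R`
  have hcoeff : ∀ n, ∃ a : R, algebraMap R F a = (((minpoly E x).coeff n : E) : F) := fun n =>
    mem_range_of_mem_adjoin_inv htrR (coeff_minpoly_mem_adjoin E hmem le_rfl htr h0 n)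
      (coeff_minpoly_mem_adjoin E hinv_mem hE' htr' h1 n)
  have hxE : IsIntegral E x := by
    let _ : Algebra (Algebra.adjoin R {t}) E := (adjoinToField E hmem).toAlgebra
    have : IsScalarTower (Algebra.adjoin R {t}) E F :=
      IsScalarTower.of_algebraMap_eq (fun _ => rfl)
    exact h0.tower_top
  -- so `x` is integral over `R`
  have hl : (minpoly E x).map (algebraMap E F) ∈ lifts (algebraMap R F) := by
    rw [lifts_iff_coeff_lifts]
    intro n
    obtain ⟨a, ha⟩ := hcoeff n
    exact ⟨a, by rw [ha, coeff_map]; rfl⟩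
  obtain ⟨q, hq, -, hqm⟩ := lifts_and_natDegree_eq_and_monic hl
    ((minpoly.monic hxE).map (algebraMap E F))
  have hint : IsIntegral R x := by
    refine ⟨q, hqm, ?_⟩
    rw [← eval_map, hq, eval_map, ← aeval_def]
    exact minpoly.aeval E x
  exact mem_range_of_isIntegral hK hint

/-- **`hsat`**: `π · chart R t ∩ R = π R`. -/
theorem hsat_chart {t : F} (htr : Transcendental K t) (π : R) :
    ∀ a : R, (∃ b ∈ chart R t, algebraMap R F a = algebraMap R F π * b) → π ∣ a := by
  rintro a ⟨b, hb, hab⟩
  have hRK : Function.Injective (algebraMap R K) := IsFractionRing.injective R K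
  have hRF : Function.Injective (algebraMap R F) := by
    rw [IsScalarTower.algebraMap_eq R K F]
    exact (algebraMap K F).injective.comp hRK
  by_cases hπ : π = 0
  · rw [hπ, map_zero, zero_mul] at hab
    have : a = 0 := hRF (by rw [hab, map_zero])
    rw [this]
    exact dvd_zero _
  rw [mem_chart_iff] at hb
  have hπF : algebraMap R F π ≠ 0 := fun h => hπ (hRF (by rw [h, map_zero]))
  -- `b` is the constant `a / π ∈ K`
  set k : K := algebraMap R K a / algebraMap R K π with hk
  have hbk : b = algebraMap K F k := by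
    have e1 : algebraMap K F (algebraMap R K a) = algebraMap R F a :=
      (IsScalarTower.algebraMap_apply R K F a).symm
    have e2 : algebraMap K F (algebraMap R K π) = algebraMap R F π :=
      (IsScalarTower.algebraMap_apply R K F π).symm
    rw [hk, map_div₀ (algebraMap K F), e1, e2, hab, mul_div_cancel_left₀ _ hπF]
  set E : IntermediateField K F := IntermediateField.adjoin K {t} with hEdef
  have hmem : t ∈ E := IntermediateField.mem_adjoin_simple_self K t
  -- coefficient `0` of `minpoly E b = X - C k`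
  have hmin : minpoly E b = X - C (algebraMap K E k) := by
    have : b = algebraMap E F (algebraMap K E k) := by rw [hbk]; rfl
    rw [this]
    exact minpoly.eq_X_sub_C F (algebraMap K E k)
  have h0 := coeff_minpoly_mem_adjoin (R := R) E hmem le_rfl htr hb 0
  rw [hmin, coeff_sub, coeff_X_zero, coeff_C_zero, zero_sub] at h0
  have hkmem : algebraMap K F k ∈ Algebra.adjoin R {t} := by
    have h1 := (Algebra.adjoin R {t}).neg_mem h0
    have e : -(((-(algebraMap K E k) : E)) : F) = algebraMap K F k := by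
      rw [IntermediateField.coe_neg, neg_neg]; rfl
    rwa [e] at h1
  rw [Algebra.adjoin_singleton_eq_range_aeval] at hkmem
  obtain ⟨P, hP⟩ := hkmem
  -- `P` is the constant polynomial `k`
  have h2 : aeval t (P.map (algebraMap R K) - C k) = 0 := by
    rw [map_sub, aeval_map_algebraMap, aeval_C]
    exact sub_eq_zero.mpr hP
  have h3 : P.map (algebraMap R K) - C k = 0 := by
    by_contra hne
    exact htr ⟨_, hne, h2⟩
  have h4 : algebraMap R K (P.coeff 0) = k := by
    have := congrArg (fun p : K[X] => p.coeff 0) (sub_eq_zero.mp h3)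
    simpa using this
  refine ⟨P.coeff 0, ?_⟩
  apply hRK
  rw [map_mul, h4, hk, mul_div_cancel₀]
  exact fun h => hπ (hRK (by rw [h, map_zero]))

end Cech

/-! ### Assembly: `π · chart R t` is prime -/

section Assembly

variable {R K F : Type*} [CommRing R] [IsDomain R] [Field K] [Field F] [Algebra R K] [Algebra K F]
  [Algebra R F] [IsScalarTower R K F] [IsFractionRing R K] [IsNoetherianRing R]
  [IsIntegrallyClosed R] [CharZero K]

/-- **Regular + connected ⇒ integral, for the contract charts.** -/
theorem pi_prime_chart {π : R} {t : F} [FiniteDimensional (IntermediateField.adjoin K {t}) F]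
    (htr : Transcendental K t)
    (hK : ∀ x : F, IsAlgebraic K x → ∃ k : K, algebraMap K F k = x)
    (dvrR : ∀ r : R, r ≠ 0 → ∃ (k : ℕ) (v : Rˣ), r = π ^ k * v)
    (smooth0 : ∀ x : Ideal (chart R t), x.IsMaximal → algebraMap R (chart R t) π ∈ x →
      ∃ s ∈ x, ∀ y ∈ x, ∃ d : chart R t, d ∉ x ∧
        d * y ∈ Ideal.span {algebraMap R (chart R t) π, s})
    (smooth1 : ∀ x : Ideal (chart R t⁻¹), x.IsMaximal → algebraMap R (chart R t⁻¹) π ∈ x →
      ∃ s ∈ x, ∀ y ∈ x, ∃ d : chart R t⁻¹, d ∉ x ∧
        d * y ∈ Ideal.span {algebraMap R (chart R t⁻¹) π, s})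
    (red0 : ∀ b ∈ chart R t, ∀ n : ℕ, (∃ c ∈ chart R t, b ^ n = algebraMap R F π * c) →
      ∃ c ∈ chart R t, b = algebraMap R F π * c)
    (red1 : ∀ b ∈ chart R t⁻¹, ∀ n : ℕ, (∃ c ∈ chart R t⁻¹, b ^ n = algebraMap R F π * c) →
      ∃ c ∈ chart R t⁻¹, b = algebraMap R F π * c) :
    ∀ a ∈ chart R t, ∀ b ∈ chart R t, (∃ c ∈ chart R t, a * b = algebraMap R F π * c) →
      (∃ c ∈ chart R t, a = algebraMap R F π * c) ∨ (∃ c ∈ chart R t, b = algebraMap R F π * c) := by
  have ht0 : t ≠ 0 := by
    rintro rfl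
    exact htr isAlgebraic_zero
  have hmem : t ∈ IntermediateField.adjoin K {t} := IntermediateField.mem_adjoin_simple_self K t
  have hinv_mem : t⁻¹ ∈ IntermediateField.adjoin K {t} := inv_mem hmem
  have hE' : IntermediateField.adjoin K {t} ≤ IntermediateField.adjoin K {t⁻¹} := by
    rw [IntermediateField.adjoin_le_iff, Set.singleton_subset_iff]
    have h1 : t⁻¹ ∈ IntermediateField.adjoin K {t⁻¹} :=
      IntermediateField.mem_adjoin_simple_self K t⁻¹
    have h2 := inv_mem h1
    rwa [inv_inv] at h2
  have htr' : Transcendental K t⁻¹ := fun h => htr (IsAlgebraic.inv_iff.1 h)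
  obtain ⟨hn0, -, hg0⟩ := chart_facts (R := R) (IntermediateField.adjoin K {t}) hmem le_rfl htr
  obtain ⟨hn1, -, -⟩ := chart_facts (R := R) (IntermediateField.adjoin K {t}) hinv_mem hE' htr'
  exact RegConnModel8.pi_prime_B0 π t (chart R t) (chart R t⁻¹) inferInstance dvrR hn0 hn1 ht0
    (self_mem_chart t) (self_mem_chart t⁻¹) hg0
    (fun x hx => exists_pow_mul_mem_chart ht0 hx)
    (fun x hx => by
      have hx' : x ∈ chart R (t⁻¹)⁻¹ := by rwa [inv_inv]
      exact exists_pow_mul_mem_chart (inv_ne_zero ht0) hx')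
    smooth0 smooth1 red0 red1 (hH0_chart htr hK) (hsat_chart htr π)

omit [IsNoetherianRing R] [IsIntegrallyClosed R] [CharZero K] [IsFractionRing R K] [IsDomain R] in
/-- **The chart at infinity**: `π · chart R t⁻¹` is prime as well, if `t⁻¹` is a non-zero-divisor
modulo `π · chart R t⁻¹`. -/
theorem pi_prime_chart_inv {π : R} {t : F} (ht0 : t ≠ 0)
    (hnzd1 : ∀ y ∈ chart R t⁻¹, (∃ c ∈ chart R t⁻¹, t⁻¹ * y = algebraMap R F π * c) →
      ∃ c ∈ chart R t⁻¹, y = algebraMap R F π * c)
    (hprime0 : ∀ a ∈ chart R t, ∀ b ∈ chart R t,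
      (∃ c ∈ chart R t, a * b = algebraMap R F π * c) →
      (∃ c ∈ chart R t, a = algebraMap R F π * c) ∨ (∃ c ∈ chart R t, b = algebraMap R F π * c)) :
    ∀ a ∈ chart R t⁻¹, ∀ b ∈ chart R t⁻¹, (∃ c ∈ chart R t⁻¹, a * b = algebraMap R F π * c) →
      (∃ c ∈ chart R t⁻¹, a = algebraMap R F π * c) ∨
        (∃ c ∈ chart R t⁻¹, b = algebraMap R F π * c) :=
  RegConnModel8.pi_prime_B1 π t (chart R t) (chart R t⁻¹) ht0 (self_mem_chart t)
    (self_mem_chart t⁻¹) (fun x hx => exists_pow_mul_mem_chart ht0 hx)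
    (fun x hx => by
      have hx' : x ∈ chart R (t⁻¹)⁻¹ := by rwa [inv_inv]
      exact exists_pow_mul_mem_chart (inv_ne_zero ht0) hx')
    hnzd1 hprime0

end Assembly

end Fermat.Agent.ES.R48.ChartCech8
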