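/-
Programme R (S48, Deligne–Serre), chapter GEOM / G3 MODEL₁ (helper4): **generic assembly of the
two-chart model from vertical data** — no irreducibility hypothesis on the special fibre.

Gauss setting `(O, π, E ≤ fracField O ⊂ K((q)), t)`.  Inputs:

* `VertData O E π t`, `VertData O E π t⁻¹`        (`SmoothProd4`; produced by `VertGalData4.vertData`);
* `HUNROff O E π t S`                             (horizontal, away from the cusp values `S`);
* `HasCuspFamily`/`HUNRCusp` over every `c ∈ S` and over `t⁻¹ = 0`  (cusps).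

Outputs:

* `smoothCharts_of_vert` : `ModelAsm4.SmoothChart O E π t ∧ SmoothChart O E π t⁻¹`;
* `red_of_vert`          : the special fibre of a chart with vertical data is reduced;
* `pi_prime_of_vert`     : `π · chart O t` is prime (`ChartCech8.pi_prime_chart`: regular + connected
  ⇒ integral; `K` is algebraically closed in `E ⊂ K((q))` by `AlgClosedIn10`);
* `hasModel_of_vert_of_irr` : `NumInst4.HasModel O E`, given `(DEG) + (IRR)` — which `IrrBridge8`
  derives from `pi_prime_of_vert`.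
-/
import Fermat.Agent.ES.R48.SmoothProd4
import Fermat.Agent.ES.R48.ChartCech8
import Fermat.Agent.RED.PUR.AlgClosedIn10

set_option autoImplicit false
set_option linter.unusedSectionVars false
set_option linter.unusedVariables false

noncomputable section

open ModularCurve Polynomial IntermediateField

namespace Fermat.Agent.ES.R48.ModelVert4

open Fermat.Agent.RED.PUR.GaussGen8 Fermat.Agent.RED.PUR.KtGauss8 Fermat.Agent.RED.PUR.G1Package8
  Fermat.Agent.RED.PUR.ChartGeneric22 Fermat.Agent.RED.NumInst4 Fermat.Agent.RED.ModelAsm4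
  Fermat.Agent.RED.ModelIface4 Fermat.Agent.RED.PUR.OffIface4 Fermat.Agent.RED.CUSP.CuspIface23
  Fermat.Agent.ES.R48.SmoothProd4

universe u

variable {K : Type u} [Field K] [CharZero K] {O : ValuationSubring K} [IsDiscreteValuationRing ↥O]
  {E : IntermediateField K (LaurentSeries K)}

/-! ### Smoothness of both charts -/

theorem adjoin_inv_eq (t : ↥E) :
    IntermediateField.adjoin K {t} = IntermediateField.adjoin K {t⁻¹} := by
  apply le_antisymm
  · rw [IntermediateField.adjoin_le_iff, Set.singleton_subset_iff]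
    have h2 := inv_mem (IntermediateField.mem_adjoin_simple_self K t⁻¹)
    rwa [inv_inv] at h2
  · rw [IntermediateField.adjoin_le_iff, Set.singleton_subset_iff]
    exact inv_mem (IntermediateField.mem_adjoin_simple_self K t)

/-- **(LOC) on both charts from the vertical data, the horizontal hypotheses and the cusp
families.** -/
theorem smoothCharts_of_vert {π : ↥O} (hπ : Irreducible π)
    [Finite (↥O ⧸ (Ideal.span {π} : Ideal ↥O))] (t : ↥E) (htrK : Transcendental K t)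
    [FiniteDimensional ↥K⟮t⟯ ↥E] (S : Set ↥O)
    (hv0 : VertData.{u, u, u} O E π t) (hv1 : VertData.{u, u, u} O E π t⁻¹)
    (hoff : HUNROff O E π t S)
    (hfam : ∀ c ∈ S, HasCuspFamily O E t c (Module.finrank ↥K⟮t⟯ ↥E))
    (hunr : ∀ c ∈ S, HUNRCusp O E π t c)
    (hfamInf : HasCuspFamily O E t⁻¹ 0 (Module.finrank ↥K⟮t⁻¹⟯ ↥E))
    (hunrInf : HUNRCusp O E π t⁻¹ 0) :
    SmoothChart O E π t ∧ SmoothChart O E π t⁻¹ := by
  have htr' : Transcendental K t⁻¹ := fun h => htrK (IsAlgebraic.inv_iff.1 h)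
  have : FiniteDimensional ↥K⟮t⁻¹⟯ ↥E := adjoin_inv_eq t ▸ ‹FiniteDimensional ↥K⟮t⟯ ↥E›
  have h0 : SmoothChart O E π t :=
    smoothChart_of_split (smoothOff_of_vert hπ t htrK S hv0 hoff)
      (fun c hc => smoothOver_of_family_vert hπ t htrK c hv0 (hfam c hc) (hunr c hc))
  have hinf : SmoothOver O E π t⁻¹ 0 :=
    smoothOver_of_family_vert hπ t⁻¹ htr' 0 hv1 hfamInf hunrInf
  exact ⟨h0, smoothChart_inv_of_split hπ htrK h0 hinf⟩

/-! ### Reducedness of the special fibre -/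

/-- The special fibre of a chart carrying vertical data is reduced (element-wise form, shape of
`RegConnModel8.pi_prime_B0`). -/
theorem red_of_vert {π : ↥O} (t : ↥E) (hv : VertData.{u, u, u} O E π t) :
    ∀ b ∈ Fermat.Agent.RED.PUR.ChartsGeneric13.chart ↥O t, ∀ n : ℕ,
      (∃ c ∈ Fermat.Agent.RED.PUR.ChartsGeneric13.chart ↥O t,
        b ^ n = algebraMap ↥O ↥E π * c) →
      ∃ c ∈ Fermat.Agent.RED.PUR.ChartsGeneric13.chart ↥O t, b = algebraMap ↥O ↥E π * c := by
  obtain ⟨k₀, L, _, _, _, _, ρ₀, ρ, hcomp, hker₀, hker, hgen, hsep⟩ := hv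
  intro b hb n ⟨c, hc, hbc⟩
  have hpow : (⟨b, hb⟩ : ↥(Fermat.Agent.RED.PUR.ChartsGeneric13.chart ↥O t)) ^ n =
      algebraMap ↥O ↥(Fermat.Agent.RED.PUR.ChartsGeneric13.chart ↥O t) π * ⟨c, hc⟩ :=
    Subtype.ext hbc
  have h1 : ρ (⟨b, hb⟩ : ↥(Fermat.Agent.RED.PUR.ChartsGeneric13.chart ↥O t)) ^ n = 0 := by
    rw [← map_pow, hpow]
    exact (hker _).2 (Dvd.intro _ rfl)
  have h2 : ρ (⟨b, hb⟩ : ↥(Fermat.Agent.RED.PUR.ChartsGeneric13.chart ↥O t)) = 0 :=
    IsReduced.eq_zero _ ⟨n, h1⟩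
  obtain ⟨d, hd⟩ := (hker _).1 h2
  exact ⟨d, d.2, congrArg Subtype.val hd⟩

/-! ### `π · chart O t` is prime -/

/-- `K` is algebraically closed in `E ⊂ K((q))`, in the shape of `ChartCech8`. -/
theorem hK_of_laurent (x : ↥E) (hx : IsAlgebraic K x) : ∃ k : K, algebraMap K ↥E k = x :=
  Fermat.Agent.RED.PUR.AlgClosedIn10.algClosedIn E x hx.isIntegral

/-- **Regular + connected ⇒ integral**: `π · chart O t` is a prime ideal, from smoothness of both
charts and reducedness of both special fibres. -/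
theorem pi_prime_of_smooth {π : ↥O} (hπ : Irreducible π) (t : ↥E) (htrK : Transcendental K t)
    [FiniteDimensional ↥K⟮t⟯ ↥E]
    (hsm0 : SmoothChart O E π t) (hsm1 : SmoothChart O E π t⁻¹)
    (hv0 : VertData.{u, u, u} O E π t) (hv1 : VertData.{u, u, u} O E π t⁻¹) :
    ∀ a ∈ chart ↥O t, ∀ b ∈ chart ↥O t,
      (∃ c ∈ chart ↥O t, a * b = algebraMap ↥O ↥E π * c) →
      (∃ c ∈ chart ↥O t, a = algebraMap ↥O ↥E π * c) ∨
        (∃ c ∈ chart ↥O t, b = algebraMap ↥O ↥E π * c) := by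
  have : IsScalarTower ↥O K ↥E := isScalarTower_OE O E
  exact Fermat.Agent.ES.R48.ChartCech8.pi_prime_chart (R := ↥O) (K := K) (F := ↥E) htrK
    hK_of_laurent (dvr_factor hπ) hsm0 hsm1 (red_of_vert t hv0) (red_of_vert t⁻¹ hv1)

/-- **`π · chart O t` is prime, from the vertical data, the horizontal hypotheses and the cusp
families.** -/
theorem pi_prime_of_vert {π : ↥O} (hπ : Irreducible π)
    [Finite (↥O ⧸ (Ideal.span {π} : Ideal ↥O))] (t : ↥E) (htrK : Transcendental K t)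
    [FiniteDimensional ↥K⟮t⟯ ↥E] (S : Set ↥O)
    (hv0 : VertData.{u, u, u} O E π t) (hv1 : VertData.{u, u, u} O E π t⁻¹)
    (hoff : HUNROff O E π t S)
    (hfam : ∀ c ∈ S, HasCuspFamily O E t c (Module.finrank ↥K⟮t⟯ ↥E))
    (hunr : ∀ c ∈ S, HUNRCusp O E π t c)
    (hfamInf : HasCuspFamily O E t⁻¹ 0 (Module.finrank ↥K⟮t⁻¹⟯ ↥E))
    (hunrInf : HUNRCusp O E π t⁻¹ 0) :
    ∀ a ∈ chart ↥O t, ∀ b ∈ chart ↥O t,
      (∃ c ∈ chart ↥O t, a * b = algebraMap ↥O ↥E π * c) →
      (∃ c ∈ chart ↥O t, a = algebraMap ↥O ↥E π * c) ∨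
        (∃ c ∈ chart ↥O t, b = algebraMap ↥O ↥E π * c) := by
  obtain ⟨h0, h1⟩ := smoothCharts_of_vert hπ t htrK S hv0 hv1 hoff hfam hunr hfamInf hunrInf
  exact pi_prime_of_smooth hπ t htrK h0 h1 hv0 hv1

/-! ### The model -/

/-- **MODEL from vertical data**, given `(DEG) + (IRR)` (supplied by `IrrBridge8` from
`pi_prime_of_vert`). -/
theorem hasModel_of_vert_of_irr {π : ↥O} (hπ : Irreducible π)
    [Finite (↥O ⧸ (Ideal.span {π} : Ideal ↥O))] (hE : E ≤ fracField O) (t : ↥E)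
    (ht : (t : LaurentSeries K) ∈ gaussRing O)
    (htr : Transcendental (Res O) (gaussRed O ⟨(t : LaurentSeries K), ht⟩))
    {n : ℕ} (hn : relfinrank (Kt O ⟨(t : LaurentSeries K), ht⟩) E ≠ 0)
    (hdeg : DegLe O E ⟨(t : LaurentSeries K), ht⟩ n)
    (hirr : Irr O E ⟨(t : LaurentSeries K), ht⟩ n)
    (S : Set ↥O)
    (hv0 : VertData.{u, u, u} O E π t) (hv1 : VertData.{u, u, u} O E π t⁻¹)
    (hoff : HUNROff O E π t S)
    (hfam : ∀ c ∈ S, HasCuspFamily O E t c (Module.finrank ↥K⟮t⟯ ↥E))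
    (hunr : ∀ c ∈ S, HUNRCusp O E π t c)
    (hfamInf : HasCuspFamily O E t⁻¹ 0 (Module.finrank ↥K⟮t⁻¹⟯ ↥E))
    (hunrInf : HUNRCusp O E π t⁻¹ 0) :
    HasModel O E := by
  have hfd : FiniteDimensional ↥K⟮t⟯ ↥E := finiteDimensional_adjoin t hn
  have htrK : Transcendental K t :=
    transcendental_of_coe t (transcendental_t (tG := ⟨(t : LaurentSeries K), ht⟩) hπ htr)
  obtain ⟨h0, h1⟩ := smoothCharts_of_vert hπ t htrK S hv0 hv1 hoff hfam hunr hfamInf hunrInf
  exact hasModel_of_g1 hπ hE t ht htr hn hdeg hirr h0 h1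

end Fermat.Agent.ES.R48.ModelVert4
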