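/-
Programme R (S48, Deligne–Serre), chapter GEOM, sub-chapter G3 MODEL₁ (helper7, for helper4):
**the assembly of the two-chart model of `K · F1 M`** from the three targets of G3.

Generic part (`(O, E, π, t)` Gauss setting over a field `K : Type`):

* `IrrBridge` : the statement of helper8's `IrrBridge8` ("`π · chart O t` prime ⇒ `(DEG) + (IRR)` for
  `n = [E : K(t)]`"), as a `Prop` (hypothesis until `IrrBridge8` is in trunk);
* `degLe_irr_of_vert` : `(DEG) + (IRR)` from vertical data + horizontal hypotheses + cusp families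
  (`ModelVert4.pi_prime_of_vert` ⇒ `IrrBridge`);
* `twoChartModel_of_vert` : the model at the EXPLICIT charts `chart O t`, `chart O t⁻¹`, with the
  Gauss valuation ring (`ModelExplicit26.twoChartModel_of_g1 ∘ ModelVert4.smoothCharts_of_vert`);
* `hasModel_of_vert` : `NumInst4.HasModel O E`.

Concrete part (`O = AK A K`, `E = FK1 M K`, `t = tq K n e`, all number fields `K ⊇ K₀`):

* `explicitModelStep1` : twin of `ES/RED/ModelExplicit26.explicitModelStep_of_targets` from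
  `G3Targets4.VertTarget1`, `G3Defs4.HorizTarget1`, `G3Defs4.CuspFamilyTarget1`, with the `(DEG)+(IRR)`
  export asked by G4;
* `modelStep1`, `modelStep1_of_tMem : G3Defs4.ModelStep1 M A`, `numStep1_of_targets : NumStep1 ℓ M A`.
-/
import Mathlib
import Fermat.Agent.ES.R48.ModelVert4
import Fermat.Agent.ES.R48.G3Targets4
import Fermat.Agent.ES.R48.G3Defs4
import Fermat.Agent.ES.R48.GaussBridgeOne10
import Fermat.Agent.ES.RED.ModelExplicit26
import Fermat.Agent.RED.ModelFinal4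
import Fermat.Agent.RED.DESC.NumberFieldDVR27

set_option autoImplicit false
set_option linter.unusedSectionVars false
set_option linter.unusedVariables false

open HahnSeries ModularCurve IntermediateField
open scoped MatrixGroups

noncomputable section

namespace Fermat.Agent.ES.R48.ModelStepOne7

open Fermat.Agent.RED.CORE.CoreIface24 Fermat.Agent.RED.PUR.GaussGen8
  Fermat.Agent.RED.PUR.KtGauss8 Fermat.Agent.RED.PUR.G1Package8
  Fermat.Agent.RED.PUR.ChartGeneric22 Fermat.Agent.RED.NumInst4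
  Fermat.Agent.RED.ModelAsm4 Fermat.Agent.RED.ModelIface4
  Fermat.Agent.RED.PUR.OffIface4 Fermat.Agent.RED.CUSP.CuspIface23
  Fermat.Agent.ES.R48.SmoothProd4 Fermat.Agent.ES.R48.ModelVert4

/-! ### The statement of `IrrBridge8` -/

/-- **The statement of `IrrBridge8`** (helper8): in the Gauss setting `(O, π, E ≤ fracField O, t)`
with `n = [E : K(t)] ≠ 0`, if `π · chart O t` is prime (element-wise form, = the conclusion of
`ModelVert4.pi_prime_of_vert`) then `(DEG)` and `(IRR)` hold for `n`. -/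
def IrrBridge : Prop :=
  ∀ {K : Type} [Field K] [CharZero K] (O : ValuationSubring K) [IsDiscreteValuationRing ↥O]
    {π : ↥O} (hπ : Irreducible π) (E : IntermediateField K (LaurentSeries K))
    (hE : E ≤ fracField O) (t : ↥E) (ht : (t : LaurentSeries K) ∈ gaussRing O)
    (htr : Transcendental (Res O) (gaussRed O ⟨(t : LaurentSeries K), ht⟩))
    (hn : relfinrank (Kt O ⟨(t : LaurentSeries K), ht⟩) E ≠ 0)
    (hprime : ∀ a ∈ chart ↥O t, ∀ b ∈ chart ↥O t,
      (∃ c ∈ chart ↥O t, a * b = algebraMap ↥O ↥E π * c) →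
      (∃ c ∈ chart ↥O t, a = algebraMap ↥O ↥E π * c) ∨
        (∃ c ∈ chart ↥O t, b = algebraMap ↥O ↥E π * c)),
    DegLe O E ⟨(t : LaurentSeries K), ht⟩ (relfinrank (Kt O ⟨(t : LaurentSeries K), ht⟩) E) ∧
      Irr O E ⟨(t : LaurentSeries K), ht⟩ (relfinrank (Kt O ⟨(t : LaurentSeries K), ht⟩) E)

/-! ### Generic assembly -/

section Generic

variable {K : Type} [Field K] [CharZero K] {O : ValuationSubring K} [IsDiscreteValuationRing ↥O]
  {E : IntermediateField K (LaurentSeries K)}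

/-- `(DEG) + (IRR)` for `n = [E : K(t)]` from the vertical data, the horizontal hypotheses and the
cusp families. -/
theorem degLe_irr_of_vert (hI : IrrBridge) {π : ↥O} (hπ : Irreducible π)
    [Finite (↥O ⧸ (Ideal.span {π} : Ideal ↥O))] (hE : E ≤ fracField O) (t : ↥E)
    (ht : (t : LaurentSeries K) ∈ gaussRing O)
    (htr : Transcendental (Res O) (gaussRed O ⟨(t : LaurentSeries K), ht⟩))
    (hn : relfinrank (Kt O ⟨(t : LaurentSeries K), ht⟩) E ≠ 0)
    (S : Set ↥O)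
    (hv0 : VertData.{0, 0, 0} O E π t) (hv1 : VertData.{0, 0, 0} O E π t⁻¹)
    (hoff : HUNROff O E π t S)
    (hfam : ∀ c ∈ S, HasCuspFamily O E t c (Module.finrank ↥K⟮t⟯ ↥E))
    (hunr : ∀ c ∈ S, HUNRCusp O E π t c)
    (hfamInf : HasCuspFamily O E t⁻¹ 0 (Module.finrank ↥K⟮t⁻¹⟯ ↥E))
    (hunrInf : HUNRCusp O E π t⁻¹ 0) :
    DegLe O E ⟨(t : LaurentSeries K), ht⟩ (relfinrank (Kt O ⟨(t : LaurentSeries K), ht⟩) E) ∧
      Irr O E ⟨(t : LaurentSeries K), ht⟩ (relfinrank (Kt O ⟨(t : LaurentSeries K), ht⟩) E) := by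
  have hfd : FiniteDimensional ↥K⟮t⟯ ↥E := finiteDimensional_adjoin t hn
  have htrK : Transcendental K t :=
    transcendental_of_coe t (transcendental_t (tG := ⟨(t : LaurentSeries K), ht⟩) hπ htr)
  exact hI O hπ E hE t ht htr hn
    (pi_prime_of_vert hπ t htrK S hv0 hv1 hoff hfam hunr hfamInf hunrInf)

/-- **MODEL at the explicit charts, from vertical data** (no `(DEG)`/`(IRR)` hypothesis). -/
theorem twoChartModel_of_vert (hI : IrrBridge) {π : ↥O} (hπ : Irreducible π)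
    [Finite (↥O ⧸ (Ideal.span {π} : Ideal ↥O))] (hE : E ≤ fracField O) (t : ↥E)
    (ht : (t : LaurentSeries K) ∈ gaussRing O)
    (htr : Transcendental (Res O) (gaussRed O ⟨(t : LaurentSeries K), ht⟩))
    (hn : relfinrank (Kt O ⟨(t : LaurentSeries K), ht⟩) E ≠ 0)
    (S : Set ↥O)
    (hv0 : VertData.{0, 0, 0} O E π t) (hv1 : VertData.{0, 0, 0} O E π t⁻¹)
    (hoff : HUNROff O E π t S)
    (hfam : ∀ c ∈ S, HasCuspFamily O E t c (Module.finrank ↥K⟮t⟯ ↥E))
    (hunr : ∀ c ∈ S, HUNRCusp O E π t c)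
    (hfamInf : HasCuspFamily O E t⁻¹ 0 (Module.finrank ↥K⟮t⁻¹⟯ ↥E))
    (hunrInf : HUNRCusp O E π t⁻¹ 0) :
    TwoChartModel ↥O K ↥E π t (chart ↥O t) (chart ↥O t⁻¹) (OvE O hπ E hE) := by
  have hfd : FiniteDimensional ↥K⟮t⟯ ↥E := finiteDimensional_adjoin t hn
  have htrK : Transcendental K t :=
    transcendental_of_coe t (transcendental_t (tG := ⟨(t : LaurentSeries K), ht⟩) hπ htr)
  obtain ⟨hdeg, hirr⟩ :=
    degLe_irr_of_vert hI hπ hE t ht htr hn S hv0 hv1 hoff hfam hunr hfamInf hunrInf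
  obtain ⟨h0, h1⟩ := smoothCharts_of_vert hπ t htrK S hv0 hv1 hoff hfam hunr hfamInf hunrInf
  exact Fermat.Agent.ES.RED.ModelExplicit26.twoChartModel_of_g1 hπ hE t ht htr hn hdeg hirr h0 h1

/-- **MODEL from vertical data** (no `(DEG)`/`(IRR)` hypothesis). -/
theorem hasModel_of_vert (hI : IrrBridge) {π : ↥O} (hπ : Irreducible π)
    [Finite (↥O ⧸ (Ideal.span {π} : Ideal ↥O))] (hE : E ≤ fracField O) (t : ↥E)
    (ht : (t : LaurentSeries K) ∈ gaussRing O)
    (htr : Transcendental (Res O) (gaussRed O ⟨(t : LaurentSeries K), ht⟩))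
    (hn : relfinrank (Kt O ⟨(t : LaurentSeries K), ht⟩) E ≠ 0)
    (S : Set ↥O)
    (hv0 : VertData.{0, 0, 0} O E π t) (hv1 : VertData.{0, 0, 0} O E π t⁻¹)
    (hoff : HUNROff O E π t S)
    (hfam : ∀ c ∈ S, HasCuspFamily O E t c (Module.finrank ↥K⟮t⟯ ↥E))
    (hunr : ∀ c ∈ S, HUNRCusp O E π t c)
    (hfamInf : HasCuspFamily O E t⁻¹ 0 (Module.finrank ↥K⟮t⁻¹⟯ ↥E))
    (hunrInf : HUNRCusp O E π t⁻¹ 0) :
    HasModel O E := by
  obtain ⟨hdeg, hirr⟩ :=
    degLe_irr_of_vert hI hπ hE t ht htr hn S hv0 hv1 hoff hfam hunr hfamInf hunrInf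
  exact hasModel_of_vert_of_irr hπ hE t ht htr hn hdeg hirr S hv0 hv1 hoff hfam hunr hfamInf
    hunrInf

/-- Bundled form: the explicit model together with `(DEG) + (IRR)` for `n = [E : K(t)] ≠ 0`. -/
theorem twoChartModel_and_irr_of_vert (hI : IrrBridge) {π : ↥O} (hπ : Irreducible π)
    [Finite (↥O ⧸ (Ideal.span {π} : Ideal ↥O))] (hE : E ≤ fracField O) (t : ↥E)
    (ht : (t : LaurentSeries K) ∈ gaussRing O)
    (htr : Transcendental (Res O) (gaussRed O ⟨(t : LaurentSeries K), ht⟩))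
    (hn : relfinrank (Kt O ⟨(t : LaurentSeries K), ht⟩) E ≠ 0)
    (S : Set ↥O)
    (hv0 : VertData.{0, 0, 0} O E π t) (hv1 : VertData.{0, 0, 0} O E π t⁻¹)
    (hoff : HUNROff O E π t S)
    (hfam : ∀ c ∈ S, Fermat.Agent.ES.R48.G3Defs4.HasCuspFamilyFull O E t c)
    (hunr : ∀ c ∈ S, HUNRCusp O E π t c)
    (hfamInf : Fermat.Agent.ES.R48.G3Defs4.HasCuspFamilyFull O E t⁻¹ 0)
    (hunrInf : HUNRCusp O E π t⁻¹ 0) :
    TwoChartModel ↥O K ↥E π t (chart ↥O t) (chart ↥O t⁻¹) (OvE O hπ E hE) ∧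
      ∃ nn : ℕ, nn ≠ 0 ∧ DegLe O E ⟨(t : LaurentSeries K), ht⟩ nn ∧
        Irr O E ⟨(t : LaurentSeries K), ht⟩ nn :=
  ⟨twoChartModel_of_vert hI hπ hE t ht htr hn S hv0 hv1 hoff hfam hunr hfamInf hunrInf,
    _, hn, degLe_irr_of_vert hI hπ hE t ht htr hn S hv0 hv1 hoff hfam hunr hfamInf hunrInf⟩

end Generic

/-! ### The level `Γ₁(M)` over the number fields -/

section Concrete

open Fermat.Agent.RED.Interface4 Fermat.Agent.RED.ModelTargets4
  Fermat.Agent.RED.BASE.EtaQuot12 Fermat.Agent.X0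
  Fermat.Agent.RED.DESC.NumberFieldDVR27
  Fermat.Agent.ES.R48.G3Defs4 Fermat.Agent.ES.R48.G3Targets4

variable {n e M : ℕ} [NeZero n] [NeZero M] {A : ValuationSubring Qbar}

/-- **The explicit model of `K · F1 M` over all large number fields** (twin of
`ModelExplicit26.explicitModelStep_of_targets`), with the `(DEG) + (IRR)` export. -/
theorem explicitModelStep1 (hI : IrrBridge) {cv : SL(2, ℤ) → Option Kbar}
    (hV : VertTarget1 n e M A) (hH : HorizTarget1 n e M A cv)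
    (hC : CuspFamilyTarget1 n e M A cv) {ℓ : ℕ} [Fact ℓ.Prime] (hℓM : ¬ ℓ ∣ M)
    (hA : A.LiesOverPrime ℓ) :
    ∃ K₀ : IntermediateField ℚ Qbar, FiniteDimensional ℚ K₀ ∧
      ∀ K : IntermediateField ℚ Qbar, FiniteDimensional ℚ K → K₀ ≤ K →
        IsDiscreteValuationRing ↥(AK A K) ∧
        ∀ (ϖ : ↥(AK A K)) (_ : Irreducible ϖ) (hu : IsUnif (AK A K) ϖ) (t : ↥(FK1 M K)),
          (t : LaurentSeries K) = tq K n e →
          TwoChartModel ↥(AK A K) K ↥(FK1 M K) ϖ t (chart ↥(AK A K) t) (chart ↥(AK A K) t⁻¹)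
            (Fermat.Agent.ES.R48.GaussBridgeOne10.OvK1 A K M hu) ∧
          ∃ (ht : (t : LaurentSeries K) ∈ gaussRing (AK A K)) (nn : ℕ), nn ≠ 0 ∧
            DegLe (AK A K) (FK1 M K) ⟨(t : LaurentSeries K), ht⟩ nn ∧
            Irr (AK A K) (FK1 M K) ⟨(t : LaurentSeries K), ht⟩ nn := by
  have hℓ : ℓ.Prime := Fact.out
  obtain ⟨K₁, hK₁, hV⟩ := hV
  obtain ⟨K₂, hK₂, hH⟩ := hH
  obtain ⟨K₃, hK₃, hC⟩ := hC
  refine ⟨K₁ ⊔ K₂ ⊔ K₃, inferInstance, fun K hKfd hle => ?_⟩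
  have hle1 : K₁ ≤ K := le_trans (le_trans le_sup_left le_sup_left) hle
  have hle2 : K₂ ≤ K := le_trans (le_trans le_sup_right le_sup_left) hle
  have hle3 : K₃ ≤ K := le_trans le_sup_right hle
  have hdvr : IsDiscreteValuationRing ↥(AK A K) := isDiscreteValuationRing_AK A K hℓ.ne_zero hA
  refine ⟨hdvr, fun ϖ hϖ hu t htq => ?_⟩
  have hfin : Finite (↥(AK A K) ⧸ (Ideal.span {ϖ} : Ideal ↥(AK A K))) := by
    have h1 : Finite (IsLocalRing.ResidueField ↥(AK A K)) :=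
      finite_residueField_AK A K hℓ.ne_zero hA
    rw [← hϖ.maximalIdeal_eq]
    exact h1
  have hE : FK1 M K ≤ fracField (AK A K) :=
    Fermat.Agent.ES.R48.GaussBridgeOne10.FK1_le_fracField A K M
  have ht : ((t : ↥(FK1 M K)) : LaurentSeries K) ∈ gaussRing (AK A K) := by
    rw [htq]; exact tq_mem_gaussRing (AK A K) n e
  have htr : Transcendental (Res (AK A K))
      (gaussRed (AK A K) ⟨((t : ↥(FK1 M K)) : LaurentSeries K), ht⟩) := by
    have h1 : (⟨((t : ↥(FK1 M K)) : LaurentSeries K), ht⟩ : ↥(gaussRing (AK A K))) =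
        ⟨tq K n e, tq_mem_gaussRing (AK A K) n e⟩ := Subtype.ext htq
    rw [h1]
    exact transcendental_gaussRed_tq (AK A K) n e
  obtain ⟨hn, hv0, hv1⟩ := hV K hKfd hle1 ϖ hϖ t htq
  obtain ⟨hoff, hunr, hunrInf⟩ := hH K hKfd hle2 ϖ hϖ t htq
  obtain ⟨hfam, hfamInf⟩ := hC K hKfd hle3 ϖ hϖ t htq
  obtain ⟨hmodel, nn, hnn, hdeg, hirr⟩ :=
    twoChartModel_and_irr_of_vert hI hϖ hE t ht htr hn (cuspSet A K cv) hv0 hv1 hoff hfam hunr
      hfamInf hunrInf
  exact ⟨hmodel, ht, nn, hnn, hdeg, hirr⟩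

/-- **MODEL₁**: two-chart models of `K · F1 M` over `A ∩ K` for all large number fields `K`,
provided the Hauptmodul lies in `K · F_full(M)` for all large `K` (`ModelTargets4.TTarget`, from
`TBridge15` on main). -/
theorem modelStep1 (hI : IrrBridge) {cv : SL(2, ℤ) → Option Kbar} (hT : TTarget n e M)
    (hV : VertTarget1 n e M A) (hH : HorizTarget1 n e M A cv)
    (hC : CuspFamilyTarget1 n e M A cv) {ℓ : ℕ} [Fact ℓ.Prime] (hℓM : ¬ ℓ ∣ M)
    (hA : A.LiesOverPrime ℓ) : ModelStep1 M A := by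
  have hℓ : ℓ.Prime := Fact.out
  obtain ⟨K₀, hK₀, hK⟩ := explicitModelStep1 hI hV hH hC hℓM hA
  obtain ⟨K₁, hK₁, hT⟩ := hT
  refine ⟨K₀ ⊔ K₁, inferInstance, fun K hKfd hle => ?_⟩
  have hle0 : K₀ ≤ K := le_trans le_sup_left hle
  have hle1 : K₁ ≤ K := le_trans le_sup_right hle
  obtain ⟨hdvr, H⟩ := hK K hKfd hle0
  obtain ⟨ϖ, hϖ⟩ := IsDiscreteValuationRing.exists_irreducible ↥(AK A K)
  have hu : IsUnif (AK A K) ϖ := isUnif_of_irreducible (AK A K) hϖ
  have htE : tq K n e ∈ FK1 M K := tq_mem_FK1 n e M (hT K hKfd hle1)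
  obtain ⟨hmodel, -⟩ := H ϖ hϖ hu ⟨tq K n e, htE⟩ rfl
  exact ⟨ϖ, hu, Fermat.Agent.ES.R48.GaussBridgeOne10.FK1_le_fracField A K M, ⟨tq K n e, htE⟩,
    _, _, hmodel⟩

/-- **MODEL₁**, with `(T1)` discharged by main's `ModelFinal4.tTarget` (`TBridge15`). -/
theorem modelStep1_of_tMem (hI : IrrBridge) {cv : SL(2, ℤ) → Option Kbar}
    (hmem : Fermat.Agent.RED.BASE.Interface12.TMem n e M)
    (hV : VertTarget1 n e M A) (hH : HorizTarget1 n e M A cv)
    (hC : CuspFamilyTarget1 n e M A cv) {ℓ : ℕ} [Fact ℓ.Prime] (hℓM : ¬ ℓ ∣ M)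
    (hA : A.LiesOverPrime ℓ) : ModelStep1 M A :=
  modelStep1 hI (Fermat.Agent.RED.ModelFinal4.tTarget M hmem) hV hH hC hℓM hA

/-- **NUM₁**: `(CL)` for `K · F1 M` over all large number fields. -/
theorem numStep1_of_targets (hI : IrrBridge) {cv : SL(2, ℤ) → Option Kbar}
    (hmem : Fermat.Agent.RED.BASE.Interface12.TMem n e M)
    (hV : VertTarget1 n e M A) (hH : HorizTarget1 n e M A cv)
    (hC : CuspFamilyTarget1 n e M A cv) {ℓ : ℕ} [Fact ℓ.Prime] (hℓM : ¬ ℓ ∣ M)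
    (hA : A.LiesOverPrime ℓ) : NumStep1 ℓ M A :=
  numStep1_of_model Fact.out M hA (modelStep1_of_tMem hI hmem hV hH hC hℓM hA)

end Concrete

end Fermat.Agent.ES.R48.ModelStepOne7
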