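/-
Programme R (S48, Deligne–Serre), chapter GEOM, sub-chapter G0 (helper13):
**the TOTAL operators on `J₁(M)(ℚbar) = JOne M`** (blueprint `R48_GEOM13.md`, D2–D3).

* `heckeOne M p : JOne M →+ JOne M` : the Hecke correspondence `(π_α)_* ∘ π_β^*` (pull back along
  `β : q ↦ q^p`, push forward along the inclusion `α`), made total exactly as the Prelude's
  `heckeOperatorAlong` (`= 0` if one of the geometric inputs fails, or if `p = 0`);
  `heckeOne_eq` unfolds it when the inputs `HeckeOneInputsAlong` hold.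
* `IsDiamondBar L M e τ` : the `L`-automorphism `τ` of `L · F1 M` is the base change of the diamond
  automorphism `⟨e⟩` (`W_d ↦ W_{e d}`, identity on `L · F_full`); `IsDiamondBar.unique`;
  `diamondBar L M e` (classical choice, `1` if there is none), `HasDiamonds L M`.
* `diamondOne M e : JOne M →+ JOne M` : the action of `diamondBar` on `Pic⁰` (push forward of places
  along the FIELD automorphism, i.e. PULL BACK of divisors along the curve automorphism
  `(E, P) ↦ (E, e P)`).
* Unconditional: `diamondOne_one`, `diamondOne_neg_one` (`W_{-d} = W_d`), `diamondOne_galois`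
  (diamonds commute with `G_ℚ`); under `HasDiamonds`: `diamondOne_mul`.

ORIENTATION (complex-analytic dictionary, `q = e^{2πiτ}`; NOT used in any proof here):
`F1 M` is the function field of the moduli problem `(E, P)`, `P` of exact order `M`, embedded in
`ℚ((q))` by the Tate pair `(𝔾_m / q^{Mℤ}, q)`, i.e. `τ ↦ (ℂ/(ℤMτ + ℤ), τ)`.
`W_d ∘ γ = W_{d · γ₀₀}` for `γ ∈ Γ₀(M)`.  Hence
* `diamondOne M e` = pull back of divisor classes along `z ↦ γ z`, `γ₀₀ ≡ e`, `γ₁₁ ≡ e⁻¹`
  (on weight-2 forms: `Gamma1Slash9.diamond 2 e⁻¹`);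
* `heckeOne M p` = the correspondence of the double coset `Γ₁ diag(p,1) Γ₁` (on weight-2 forms:
  `f ↦ ∑_j f ∣ diag(p,1) γ_j = T_p^* = T_p ∘ ⟨p⟩⁻¹`, `T_p = TpForm9.Tp`), on points
  `(E, P) ↦ ∑_{ψ : E' → E, deg ψ = p, ψ P' = P} (E', P')`.
-/
import Mathlib
import Fermat.Prelude.Def_ModularCurve_ArithmeticGalois
import Fermat.Agent.ES.R48.FF1Defs13

set_option autoImplicit false

noncomputable section

open ModularCurve HahnSeries IntermediateField AlgebraicCurve

namespace Fermat.Agent.ES.R48.JOneOps13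

open FF1Defs13

/-! ### The total Hecke operator -/

section Total

variable (L : Type*) [Field L] [Algebra ℚ L] (M p : ℕ) [NeZero p]

/-- the geometric inputs of the Hecke correspondence (twin of the Prelude's `HeckeInputsAlong`). -/
def HeckeOneInputsAlong : Prop :=
  ∃ (_ : HeckeOneAlphaBarIntegral M p L) (hβ : HeckeOneBetaBarIntegral M p L)
    (_ : HasPrincipalDivisors L (laurentBaseChange L (F1p M p)))
    (hfin : FiniteAlong L (heckeOneAlphaBar M p L)),
    FundamentalIdentityAlong L (heckeOneBetaBar M p L) hβ ∧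
      NormFormulaAlong L (heckeOneAlphaBar M p L) hfin

open Classical in
/-- the total Hecke operator on `Pic⁰(L · F1 M)` (twin of the Prelude's `heckeOperatorAlong`). -/
def heckeOneAlong :
    Pic0 L (laurentBaseChange L (F1 M)) →+ Pic0 L (laurentBaseChange L (F1 M)) :=
  if h : HeckeOneInputsAlong L M p then
    haveI := h.snd.snd.fst
    heckeOnePic0Bar h.fst h.snd.fst h.snd.snd.snd.snd.1 h.snd.snd.snd.fst h.snd.snd.snd.snd.2
  else 0

variable {L M p}

theorem heckeOneInputsAlong_intro (hα : HeckeOneAlphaBarIntegral M p L)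
    (hβ : HeckeOneBetaBarIntegral M p L)
    [hP : HasPrincipalDivisors L (laurentBaseChange L (F1p M p))]
    (hFI : FundamentalIdentityAlong L (heckeOneBetaBar M p L) hβ)
    (hfin : FiniteAlong L (heckeOneAlphaBar M p L))
    (hN : NormFormulaAlong L (heckeOneAlphaBar M p L) hfin) : HeckeOneInputsAlong L M p :=
  ⟨hα, hβ, hP, hfin, hFI, hN⟩

theorem heckeOneAlong_eq (hα : HeckeOneAlphaBarIntegral M p L)
    (hβ : HeckeOneBetaBarIntegral M p L)
    [HasPrincipalDivisors L (laurentBaseChange L (F1p M p))]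
    (hFI : FundamentalIdentityAlong L (heckeOneBetaBar M p L) hβ)
    (hfin : FiniteAlong L (heckeOneAlphaBar M p L))
    (hN : NormFormulaAlong L (heckeOneAlphaBar M p L) hfin) :
    heckeOneAlong L M p = heckeOnePic0Bar hα hβ hFI hfin hN := by
  have h : HeckeOneInputsAlong L M p := heckeOneInputsAlong_intro hα hβ hFI hfin hN
  rw [heckeOneAlong, dif_pos h]

theorem heckeOneAlong_of_not (h : ¬ HeckeOneInputsAlong L M p) : heckeOneAlong L M p = 0 := by
  rw [heckeOneAlong, dif_neg h]

end Total

/-- **the Hecke operator `T_p^*` on `J₁(M)(ℚbar)`** (total in `p`; `0` for `p = 0`). -/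
def heckeOne (M p : ℕ) : JOne M →+ JOne M :=
  if h : p = 0 then 0 else
    haveI : NeZero p := ⟨h⟩
    heckeOneAlong (AlgebraicClosure ℚ) M p

theorem heckeOne_eq (M p : ℕ) [NeZero p] :
    heckeOne M p = heckeOneAlong (AlgebraicClosure ℚ) M p := by
  rw [heckeOne, dif_neg (NeZero.ne p)]

/-! ### Generation of `L · F1 M` -/

section Generation

variable {L : Type*} [Field L] [Algebra ℚ L] {M : ℕ}

/-- the coefficient embedding of an element of `F1 M`, as an element of `L · F1 M`. -/
def emb1 (L : Type*) [Field L] [Algebra ℚ L] {M : ℕ} (x : LaurentSeries ℚ) (hx : x ∈ F1 M) :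
    laurentBaseChange L (F1 M) :=
  ⟨coeffEmb L x, coeffEmb_mem_laurentBaseChange L hx⟩

@[simp]
theorem coe_emb1 (x : LaurentSeries ℚ) (hx : x ∈ F1 M) :
    ((emb1 L x hx : laurentBaseChange L (F1 M)) : LaurentSeries L) = coeffEmb L x :=
  rfl

/-- two ring homomorphisms out of `L · F1 M` into a field agree as soon as they agree on the
constants, on `F_full` and on the `W_d`. -/
theorem ringHom_ext1 {K' : Type*} [Field K'] {f g : laurentBaseChange L (F1 M) →+* K'}
    (hc : ∀ a : L, f (algebraMap L (laurentBaseChange L (F1 M)) a)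
      = g (algebraMap L (laurentBaseChange L (F1 M)) a))
    (hfull : ∀ (x : LaurentSeries ℚ) (hx : x ∈ modularFunctionFieldFull M),
      f (emb1 L x (full_le_F1 M hx)) = g (emb1 L x (full_le_F1 M hx)))
    (hw : ∀ d : (ZMod M)ˣ, f (emb1 L (wq M (d : ZMod M)) (wq_mem_F1 M d))
      = g (emb1 L (wq M (d : ZMod M)) (wq_mem_F1 M d))) : f = g := by
  -- step 1: agreement on the coefficient embedding of `F1 M`
  have key1 : ∀ (x : LaurentSeries ℚ) (hx : x ∈ F1 M), f (emb1 L x hx) = g (emb1 L x hx) := by
    intro x hx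
    unfold F1 at hx
    induction hx using IntermediateField.adjoin_induction with
    | mem y hy =>
        rcases hy with hy | ⟨d, rfl⟩
        · exact hfull y (subset_adjoin ℚ _ hy)
        · exact hw d
    | algebraMap c =>
        have h1 : ∀ h, (emb1 L (algebraMap ℚ (LaurentSeries ℚ) c) h : laurentBaseChange L (F1 M))
            = algebraMap L (laurentBaseChange L (F1 M)) (algebraMap ℚ L c) := fun h =>
          Subtype.ext (by
            show coeffEmb L (algebraMap ℚ (LaurentSeries ℚ) c)
              = algebraMap L (LaurentSeries L) (algebraMap ℚ L c)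
            rw [algebraMap_laurentSeries_eq_single, algebraMap_laurentSeries_eq_single, coeffEmb,
              coeffMap_single])
        rw [h1, hc]
    | add y z hy hz ihy ihz =>
        have h1 : ∀ h, (emb1 L (y + z) h : laurentBaseChange L (F1 M))
            = emb1 L y hy + emb1 L z hz := fun h => Subtype.ext (map_add (coeffEmb L) y z)
        rw [h1, map_add, map_add, ihy, ihz]
    | inv y hy ihy =>
        have h1 : ∀ h, (emb1 L y⁻¹ h : laurentBaseChange L (F1 M)) = (emb1 L y hy)⁻¹ := fun h =>
          Subtype.ext (map_inv₀ (coeffEmb L) y)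
        rw [h1, map_inv₀, map_inv₀, ihy]
    | mul y z hy hz ihy ihz =>
        have h1 : ∀ h, (emb1 L (y * z) h : laurentBaseChange L (F1 M))
            = emb1 L y hy * emb1 L z hz := fun h => Subtype.ext (map_mul (coeffEmb L) y z)
        rw [h1, map_mul, map_mul, ihy, ihz]
  -- step 2: agreement on the closure
  have key2 : ∀ (x : LaurentSeries L) (hx : x ∈ laurentBaseChange L (F1 M)),
      f ⟨x, hx⟩ = g ⟨x, hx⟩ := by
    intro x hx
    have hx' := mem_laurentBaseChange_iff.mp hx
    induction hx' using Subfield.closure_induction with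
    | mem y hy =>
        rcases hy with ⟨a, rfl⟩ | ⟨z, hz, rfl⟩
        · exact hc a
        · exact key1 z hz
    | one => exact (map_one f).trans (map_one g).symm
    | add y z hy hz ihy ihz =>
        have hy' : y ∈ laurentBaseChange L (F1 M) := mem_laurentBaseChange_iff.mpr hy
        have hz' : z ∈ laurentBaseChange L (F1 M) := mem_laurentBaseChange_iff.mpr hz
        have h1 : (⟨y + z, hx⟩ : laurentBaseChange L (F1 M)) = ⟨y, hy'⟩ + ⟨z, hz'⟩ := rfl
        rw [h1, map_add, map_add, ihy hy', ihz hz']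
    | neg y hy ihy =>
        have hy' : y ∈ laurentBaseChange L (F1 M) := mem_laurentBaseChange_iff.mpr hy
        have h1 : (⟨-y, hx⟩ : laurentBaseChange L (F1 M)) = -⟨y, hy'⟩ := rfl
        rw [h1, map_neg, map_neg, ihy hy']
    | inv y hy ihy =>
        have hy' : y ∈ laurentBaseChange L (F1 M) := mem_laurentBaseChange_iff.mpr hy
        have h1 : (⟨y⁻¹, hx⟩ : laurentBaseChange L (F1 M)) = (⟨y, hy'⟩ : _)⁻¹ := rfl
        rw [h1, map_inv₀, map_inv₀, ihy hy']
    | mul y z hy hz ihy ihz =>
        have hy' : y ∈ laurentBaseChange L (F1 M) := mem_laurentBaseChange_iff.mpr hy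
        have hz' : z ∈ laurentBaseChange L (F1 M) := mem_laurentBaseChange_iff.mpr hz
        have h1 : (⟨y * z, hx⟩ : laurentBaseChange L (F1 M)) = ⟨y, hy'⟩ * ⟨z, hz'⟩ := rfl
        rw [h1, map_mul, map_mul, ihy hy', ihz hz']
  exact RingHom.ext fun x => key2 x.1 x.2

end Generation

/-! ### Diamond automorphisms of `L · F1 M` -/

section Diamond

variable (L : Type*) [Field L] [Algebra ℚ L] (M : ℕ)

/-- `τ` is the diamond automorphism `⟨e⟩` of `L · F1 M`: it fixes the coefficient embedding of
`modularFunctionFieldFull M` and sends `W_d` to `W_{e d}`. -/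
def IsDiamondBar (e : (ZMod M)ˣ)
    (τ : laurentBaseChange L (F1 M) ≃ₐ[L] laurentBaseChange L (F1 M)) : Prop :=
  (∀ (x : LaurentSeries ℚ) (hx : x ∈ modularFunctionFieldFull M),
      τ (emb1 L x (full_le_F1 M hx)) = emb1 L x (full_le_F1 M hx)) ∧
    ∀ d : (ZMod M)ˣ, τ (emb1 L (wq M (d : ZMod M)) (wq_mem_F1 M d))
      = emb1 L (wq M ((e * d : (ZMod M)ˣ) : ZMod M)) (wq_mem_F1 M (e * d))

variable {L M}

/-- a diamond automorphism is determined by `e`. -/
theorem IsDiamondBar.unique {e : (ZMod M)ˣ}
    {σ τ : laurentBaseChange L (F1 M) ≃ₐ[L] laurentBaseChange L (F1 M)}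
    (hσ : IsDiamondBar L M e σ) (hτ : IsDiamondBar L M e τ) : σ = τ := by
  have h : (σ : laurentBaseChange L (F1 M) →+* laurentBaseChange L (F1 M))
      = (τ : laurentBaseChange L (F1 M) →+* laurentBaseChange L (F1 M)) :=
    ringHom_ext1 (fun a => (σ.commutes a).trans (τ.commutes a).symm)
      (fun x hx => (hσ.1 x hx).trans (hτ.1 x hx).symm)
      (fun d => (hσ.2 d).trans (hτ.2 d).symm)
  exact AlgEquiv.ext fun x => RingHom.congr_fun h x

theorem IsDiamondBar.one : IsDiamondBar L M 1 AlgEquiv.refl :=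
  ⟨fun _ _ => rfl, fun d => by
    show emb1 L (wq M (d : ZMod M)) (wq_mem_F1 M d) = _
    apply Subtype.ext
    rw [coe_emb1, coe_emb1, one_mul]⟩

/-- `⟨-1⟩ = 1`, because `W_{-d} = W_d`. -/
theorem IsDiamondBar.neg_one : IsDiamondBar L M (-1) AlgEquiv.refl :=
  ⟨fun _ _ => rfl, fun d => by
    show emb1 L (wq M (d : ZMod M)) (wq_mem_F1 M d) = _
    apply Subtype.ext
    rw [coe_emb1, coe_emb1, neg_one_mul, Units.val_neg, wq_neg]⟩

theorem IsDiamondBar.mul {e e' : (ZMod M)ˣ}
    {σ τ : laurentBaseChange L (F1 M) ≃ₐ[L] laurentBaseChange L (F1 M)}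
    (hσ : IsDiamondBar L M e σ) (hτ : IsDiamondBar L M e' τ) :
    IsDiamondBar L M (e * e') (σ * τ) :=
  ⟨fun x hx => by
    show σ (τ _) = _
    rw [hτ.1 x hx, hσ.1 x hx], fun d => by
    show σ (τ _) = _
    rw [hτ.2 d, hσ.2 (e' * d)]
    apply Subtype.ext
    rw [coe_emb1, coe_emb1, mul_assoc]⟩

/-- a diamond automorphism commutes with the arithmetic Galois action on coefficients. -/
theorem IsDiamondBar.arithmetic_comm {e : (ZMod M)ˣ}
    {τ : laurentBaseChange L (F1 M) ≃ₐ[L] laurentBaseChange L (F1 M)}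
    (hτ : IsDiamondBar L M e τ) (σ : L ≃ₐ[ℚ] L) (x : laurentBaseChange L (F1 M)) :
    τ (arithmeticRingAut (F1 M) σ x) = arithmeticRingAut (F1 M) σ (τ x) := by
  have harith : ∀ (y : LaurentSeries ℚ) (hy : y ∈ F1 M),
      arithmeticRingAut (F1 M) σ (emb1 L y hy) = emb1 L y hy := fun y hy =>
    Subtype.ext (by
      rw [coe_arithmeticRingAut_apply, coe_emb1, coeffMap_coeffEmb])
  have h : ((τ : laurentBaseChange L (F1 M) →+* laurentBaseChange L (F1 M)).comp
        (arithmeticRingAut (F1 M) σ : laurentBaseChange L (F1 M) →+* laurentBaseChange L (F1 M)))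
      = ((arithmeticRingAut (F1 M) σ : laurentBaseChange L (F1 M) →+*
          laurentBaseChange L (F1 M)).comp
        (τ : laurentBaseChange L (F1 M) →+* laurentBaseChange L (F1 M))) := by
    refine ringHom_ext1 (fun a => ?_) (fun x hx => ?_) (fun d => ?_)
    · show τ (arithmeticRingAut (F1 M) σ (algebraMap L _ a))
        = arithmeticRingAut (F1 M) σ (τ (algebraMap L _ a))
      rw [arithmeticRingAut_algebraMap, τ.commutes, τ.commutes, arithmeticRingAut_algebraMap]
    · show τ (arithmeticRingAut (F1 M) σ (emb1 L x _)) = arithmeticRingAut (F1 M) σ (τ (emb1 L x _))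
      rw [harith, hτ.1 x hx, harith]
    · show τ (arithmeticRingAut (F1 M) σ (emb1 L _ _)) = arithmeticRingAut (F1 M) σ (τ (emb1 L _ _))
      rw [harith, hτ.2 d, harith]
  exact RingHom.congr_fun h x

variable (L M)

/-- all diamond automorphisms exist (proved in G2/G3: `L · F1 M / L · F_full` is Galois with group
`(ZMod M)ˣ / ±1`). -/
def HasDiamonds : Prop :=
  ∀ e : (ZMod M)ˣ, ∃ τ : laurentBaseChange L (F1 M) ≃ₐ[L] laurentBaseChange L (F1 M),
    IsDiamondBar L M e τ

open Classical in
/-- the diamond automorphism `⟨e⟩` of `L · F1 M` (`1` if it does not exist). -/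
def diamondBar (e : (ZMod M)ˣ) : laurentBaseChange L (F1 M) ≃ₐ[L] laurentBaseChange L (F1 M) :=
  if h : ∃ τ : laurentBaseChange L (F1 M) ≃ₐ[L] laurentBaseChange L (F1 M), IsDiamondBar L M e τ
  then h.choose else AlgEquiv.refl

variable {L M}

theorem diamondBar_spec {e : (ZMod M)ˣ}
    (h : ∃ τ : laurentBaseChange L (F1 M) ≃ₐ[L] laurentBaseChange L (F1 M), IsDiamondBar L M e τ) :
    IsDiamondBar L M e (diamondBar L M e) := by
  rw [diamondBar, dif_pos h]
  exact h.choose_spec

theorem diamondBar_eq {e : (ZMod M)ˣ}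
    {τ : laurentBaseChange L (F1 M) ≃ₐ[L] laurentBaseChange L (F1 M)}
    (hτ : IsDiamondBar L M e τ) : diamondBar L M e = τ :=
  (diamondBar_spec ⟨τ, hτ⟩).unique hτ

@[simp]
theorem diamondBar_one : diamondBar L M 1 = 1 :=
  diamondBar_eq IsDiamondBar.one

@[simp]
theorem diamondBar_neg_one : diamondBar L M (-1) = 1 :=
  diamondBar_eq IsDiamondBar.neg_one

theorem diamondBar_mul (h : HasDiamonds L M) (e e' : (ZMod M)ˣ) :
    diamondBar L M (e * e') = diamondBar L M e * diamondBar L M e' :=
  diamondBar_eq ((diamondBar_spec (h e)).mul (diamondBar_spec (h e')))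

/-- `diamondBar` always commutes with the arithmetic Galois action. -/
theorem diamondBar_arithmetic_comm (e : (ZMod M)ˣ) (σ : L ≃ₐ[ℚ] L)
    (x : laurentBaseChange L (F1 M)) :
    diamondBar L M e (arithmeticRingAut (F1 M) σ x)
      = arithmeticRingAut (F1 M) σ (diamondBar L M e x) := by
  by_cases h : ∃ τ : laurentBaseChange L (F1 M) ≃ₐ[L] laurentBaseChange L (F1 M),
      IsDiamondBar L M e τ
  · exact (diamondBar_spec h).arithmetic_comm σ x
  · rw [diamondBar, dif_neg h]
    rfl

variable (L M)

/-- the diamond automorphism as a semilinear automorphism (trivial on constants). -/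
def diamondAut (e : (ZMod M)ˣ) : SemilinearAut L (laurentBaseChange L (F1 M)) :=
  SemilinearAut.ofAlgAut (diamondBar L M e)

variable {L M}

@[simp]
theorem diamondAut_one : diamondAut L M 1 = 1 := by
  rw [diamondAut, diamondBar_one, map_one]

@[simp]
theorem diamondAut_neg_one : diamondAut L M (-1) = 1 := by
  rw [diamondAut, diamondBar_neg_one, map_one]

theorem diamondAut_mul (h : HasDiamonds L M) (e e' : (ZMod M)ˣ) :
    diamondAut L M (e * e') = diamondAut L M e * diamondAut L M e' := by
  rw [diamondAut, diamondBar_mul h, map_mul]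
  rfl

/-- diamonds commute with the arithmetic Galois group, inside the semilinear automorphisms. -/
theorem diamondAut_comm (e : (ZMod M)ˣ) (σ : L ≃ₐ[ℚ] L) :
    diamondAut L M e * arithmeticGalois (F1 M) σ
      = arithmeticGalois (F1 M) σ * diamondAut L M e := by
  refine Subtype.ext (Prod.ext (RingEquiv.ext fun x => ?_) ?_)
  · exact diamondBar_arithmetic_comm e σ x
  · show (1 : RingAut L) * σ.toRingEquiv = σ.toRingEquiv * 1
    rw [one_mul, mul_one]

end Diamond

/-! ### Diamond operators on `J₁(M)(ℚbar)` -/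

section DiamondOne

variable (M : ℕ)

/-- **the diamond operator on `J₁(M)(ℚbar)`**: the action of the field automorphism
`W_d ↦ W_{e d}` on divisor classes. -/
def diamondOne (e : (ZMod M)ˣ) : JOne M →+ JOne M :=
  DistribSMul.toAddMonoidHom (JOne M) (diamondAut (AlgebraicClosure ℚ) M e)

variable {M}

theorem diamondOne_apply (e : (ZMod M)ˣ) (x : JOne M) :
    diamondOne M e x = diamondAut (AlgebraicClosure ℚ) M e • x :=
  rfl

@[simp]
theorem diamondOne_one (x : JOne M) : diamondOne M 1 x = x := by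
  rw [diamondOne_apply, diamondAut_one, one_smul]

/-- `⟨-1⟩ = 1` on `J₁(M)`. -/
@[simp]
theorem diamondOne_neg_one (x : JOne M) : diamondOne M (-1) x = x := by
  rw [diamondOne_apply, diamondAut_neg_one, one_smul]

theorem diamondOne_mul (h : HasDiamonds (AlgebraicClosure ℚ) M) (e e' : (ZMod M)ˣ) (x : JOne M) :
    diamondOne M (e * e') x = diamondOne M e (diamondOne M e' x) := by
  rw [diamondOne_apply, diamondOne_apply, diamondOne_apply, diamondAut_mul h, mul_smul]

theorem diamondOne_inv_cancel (h : HasDiamonds (AlgebraicClosure ℚ) M) (e : (ZMod M)ˣ)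
    (x : JOne M) : diamondOne M e⁻¹ (diamondOne M e x) = x := by
  rw [← diamondOne_mul h, inv_mul_cancel, diamondOne_one]

theorem diamondOne_cancel_inv (h : HasDiamonds (AlgebraicClosure ℚ) M) (e : (ZMod M)ˣ)
    (x : JOne M) : diamondOne M e (diamondOne M e⁻¹ x) = x := by
  rw [← diamondOne_mul h, mul_inv_cancel, diamondOne_one]

/-- **diamonds commute with `G_ℚ`** (unconditionally). -/
theorem diamondOne_galois (e : (ZMod M)ˣ) (σ : GQ) (x : JOne M) :
    diamondOne M e (σ • x) = σ • diamondOne M e x := by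
  rw [diamondOne_apply, diamondOne_apply, galois_smul_pic0_def, galois_smul_pic0_def, ← mul_smul,
    ← mul_smul, diamondAut_comm]

/-- the diamond operator of a natural number prime to `M` (`0` otherwise). -/
def diamondNat (M p : ℕ) : JOne M →+ JOne M :=
  if h : p.Coprime M then diamondOne M (ZMod.unitOfCoprime p h) else 0

theorem diamondNat_eq {p : ℕ} (h : p.Coprime M) :
    diamondNat M p = diamondOne M (ZMod.unitOfCoprime p h) := by
  rw [diamondNat, dif_pos h]

theorem diamondNat_galois (p : ℕ) (σ : GQ) (x : JOne M) :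
    diamondNat M p (σ • x) = σ • diamondNat M p x := by
  by_cases h : p.Coprime M
  · rw [diamondNat_eq h, diamondOne_galois]
  · rw [diamondNat, dif_neg h, AddMonoidHom.zero_apply, AddMonoidHom.zero_apply, smul_zero]

end DiamondOne

end Fermat.Agent.ES.R48.JOneOps13
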