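/-
Programme R (S48, Deligne–Serre), chapter GEOM, sub-chapter G3 MODEL₁ / E (helper11):
**DESCENT OF THE DIAMOND AUTOMORPHISMS to `K · F1 M`, `K ⊂ ℚ̄` any intermediate field** — the
`H`-action on `E = FK1 M K` with fixed field `E₀ = FK M K` consumed by `VertGal4`.

With `ι := PlaceExtendG7.baseChangeHomG (F1 M) K : ↥(FK1 M K) →+* ↥(F1bar M)` (coefficientwise):
every `τ` with `IsDiamondBar Qbar M e τ` maps `ι(K · F1 M)` into itself (constants of `K` are
fixed, the `ℚ`-form `coeffEmb (F1 M)` is stable: `j_d ↦ j_d`, `W_c ↦ W_{e c}`), hence restricts to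
a `K`-automorphism `diaK h K e` of `K · F1 M` (`h : HasDiamonds Qbar M`, closed in
`X1DiamondFinal11.hasDiamonds`).

* `restrictHom`, `restrictEquiv` : restriction of a ring automorphism along an injective ring hom;
* `exists_emb1_eq`, `exists_baseChange_eq` : stability;
* **`diaK h K e : ↥(FK1 M K) ≃ₐ[K] ↥(FK1 M K)`**, **`baseChange_diaK`** (`ι ∘ diaK = ⟨e⟩ ∘ ι`),
  `diaK_one`, `diaK_mul`, `diaKHom : (ZMod M)ˣ →* (↥(FK1 M K) ≃ₐ[K] ↥(FK1 M K))`;
* `diaK_emb1_full`, `diaK_emb1_w`, **`isDiamondBar_diaK`**, **`hasDiamondsK : HasDiamonds K M`**;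
* `diaK_inclusion` : `diaK` fixes `FK M K` pointwise;
* **`mem_FK_of_fixed`** : `E^H ⊆ E₀`, from the `ℚ̄`-statement `F1bar^H ⊆ Fbar` (hypothesis `hL2`,
  = `X1FixedField14.mem_range_ffIncl_of_fixed`) and the `q`-expansion principle
  `J/DESC/LaurentExt24.mem_range_bc_iff` (main, generic).
-/
import Mathlib
import Fermat.Agent.J.DESC.LaurentExt24
import Fermat.Agent.ES.R48.JOneOps13
import Fermat.Agent.ES.R48.PlaceExtendG7
import Fermat.Agent.ES.R48.G3Defs4

set_option autoImplicit false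
set_option linter.unusedSectionVars false

open ModularCurve HahnSeries IntermediateField

noncomputable section

namespace Fermat.Agent.ES.R48.DiamondK11

open Fermat.Agent.RED.Interface4 Fermat.Agent.RED.DESC
open Fermat.Agent.ES.R48.FF1Defs13 Fermat.Agent.ES.R48.JOneOps13 Fermat.Agent.ES.R48.G3Defs4
open Fermat.Agent.ES.R48.PlaceExtendG7

/-! ### Restriction of an automorphism along an injective ring homomorphism -/

section Restrict

variable {E F : Type*} [Field E] [Field F] (ι : E →+* F)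

/-- `E ≃ ι(E)`. -/
def rangeEquiv : E ≃+* ι.range :=
  RingEquiv.ofBijective ι.rangeRestrict
    ⟨fun _ _ h => ι.injective (congrArg Subtype.val h), ι.rangeRestrict_surjective⟩

theorem coe_rangeEquiv (x : E) : ((rangeEquiv ι x : ι.range) : F) = ι x := by
  unfold rangeEquiv
  rw [RingEquiv.ofBijective_apply]
  rfl

/-- the restriction to `E` of an endomorphism `τ` of `F` preserving `ι(E)`. -/
def restrictHom (τ : F →+* F) (h : ∀ x, ∃ y, ι y = τ (ι x)) : E →+* E :=
  ((rangeEquiv ι).symm : ι.range →+* E).comp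
    ((τ.comp ι).codRestrict ι.range fun x => by
      obtain ⟨y, hy⟩ := h x
      exact ⟨y, hy⟩)

theorem ι_restrictHom (τ : F →+* F) (h : ∀ x, ∃ y, ι y = τ (ι x)) (x : E) :
    ι (restrictHom ι τ h x) = τ (ι x) := by
  rw [← coe_rangeEquiv]
  unfold restrictHom
  rw [RingHom.comp_apply, RingEquiv.coe_toRingHom, RingEquiv.apply_symm_apply]
  rfl

end Restrict

/-! ### Stability of `ι(K · F1 M)` under the diamonds -/

section Stable

variable {M : ℕ} (K : IntermediateField ℚ Qbar)

/-- `ι (coeffEmb K z) = coeffEmb ℚ̄ z`. -/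
theorem baseChange_emb1 (z : LaurentSeries ℚ) (hz : z ∈ F1 M) :
    baseChangeHomG (F1 M) K (emb1 K z hz) = emb1 Qbar z hz := by
  apply Subtype.ext
  rw [coe_baseChangeHomG, coe_emb1, coe_emb1]
  exact CoeffDescent1.coeffMap_coeffEmb_of_algHom (algebraMap K Qbar) z

theorem emb1_add {L : Type*} [Field L] [Algebra ℚ L] {y z : LaurentSeries ℚ} (hy : y ∈ F1 M)
    (hz : z ∈ F1 M) (h : y + z ∈ F1 M) :
    (emb1 L (y + z) h : laurentBaseChange L (F1 M)) = emb1 L y hy + emb1 L z hz :=
  Subtype.ext (map_add (coeffEmb L) y z)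

theorem emb1_mul {L : Type*} [Field L] [Algebra ℚ L] {y z : LaurentSeries ℚ} (hy : y ∈ F1 M)
    (hz : z ∈ F1 M) (h : y * z ∈ F1 M) :
    (emb1 L (y * z) h : laurentBaseChange L (F1 M)) = emb1 L y hy * emb1 L z hz :=
  Subtype.ext (map_mul (coeffEmb L) y z)

theorem emb1_inv {L : Type*} [Field L] [Algebra ℚ L] {y : LaurentSeries ℚ} (hy : y ∈ F1 M)
    (h : y⁻¹ ∈ F1 M) :
    (emb1 L y⁻¹ h : laurentBaseChange L (F1 M)) = (emb1 L y hy)⁻¹ :=
  Subtype.ext (map_inv₀ (coeffEmb L) y)

theorem emb1_algebraMap {L : Type*} [Field L] [Algebra ℚ L] (c : ℚ)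
    (h : algebraMap ℚ (LaurentSeries ℚ) c ∈ F1 M) :
    (emb1 L (algebraMap ℚ (LaurentSeries ℚ) c) h : laurentBaseChange L (F1 M))
      = algebraMap L (laurentBaseChange L (F1 M)) (algebraMap ℚ L c) :=
  Subtype.ext (by
    show coeffEmb L (algebraMap ℚ (LaurentSeries ℚ) c)
      = algebraMap L (LaurentSeries L) (algebraMap ℚ L c)
    rw [algebraMap_laurentSeries_eq_single, algebraMap_laurentSeries_eq_single, coeffEmb,
      coeffMap_single])

variable {e : (ZMod M)ˣ} {τ : laurentBaseChange Qbar (F1 M) ≃ₐ[Qbar] laurentBaseChange Qbar (F1 M)}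

/-- a diamond automorphism preserves the `ℚ`-form `coeffEmb (F1 M)`. -/
theorem exists_emb1_eq (hτ : IsDiamondBar Qbar M e τ) (z : LaurentSeries ℚ) (hz : z ∈ F1 M) :
    ∃ (z' : LaurentSeries ℚ) (hz' : z' ∈ F1 M), τ (emb1 Qbar z hz) = emb1 Qbar z' hz' := by
  have key : ∀ (z : LaurentSeries ℚ) (_ : z ∈ F1 M) (hz : z ∈ F1 M),
      ∃ (z' : LaurentSeries ℚ) (hz' : z' ∈ F1 M), τ (emb1 Qbar z hz) = emb1 Qbar z' hz' := by
    intro z hz0
    unfold F1 at hz0
    induction hz0 using IntermediateField.adjoin_induction with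
    | mem y hy =>
        intro hz
        rcases hy with hy | ⟨d, rfl⟩
        · exact ⟨y, hz, hτ.1 y (subset_adjoin ℚ _ hy)⟩
        · exact ⟨_, wq_mem_F1 M (e * d), hτ.2 d⟩
    | algebraMap c =>
        intro hz
        refine ⟨_, hz, ?_⟩
        rw [emb1_algebraMap, AlgEquiv.commutes]
    | add y z hy hz ihy ihz =>
        intro h
        have hy' : y ∈ F1 M := by unfold F1; exact hy
        have hz' : z ∈ F1 M := by unfold F1; exact hz
        obtain ⟨y1, hy1, ey⟩ := ihy hy'
        obtain ⟨z1, hz1, ez⟩ := ihz hz'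
        refine ⟨y1 + z1, add_mem hy1 hz1, ?_⟩
        rw [emb1_add hy' hz', map_add, ey, ez, emb1_add hy1 hz1]
    | inv y hy ihy =>
        intro h
        have hy' : y ∈ F1 M := by unfold F1; exact hy
        obtain ⟨y1, hy1, ey⟩ := ihy hy'
        refine ⟨y1⁻¹, inv_mem hy1, ?_⟩
        rw [emb1_inv hy', map_inv₀, ey, emb1_inv hy1]
    | mul y z hy hz ihy ihz =>
        intro h
        have hy' : y ∈ F1 M := by unfold F1; exact hy
        have hz' : z ∈ F1 M := by unfold F1; exact hz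
        obtain ⟨y1, hy1, ey⟩ := ihy hy'
        obtain ⟨z1, hz1, ez⟩ := ihz hz'
        refine ⟨y1 * z1, mul_mem hy1 hz1, ?_⟩
        rw [emb1_mul hy' hz', map_mul, ey, ez, emb1_mul hy1 hz1]
  exact key z hz hz

/-- **a diamond automorphism preserves `ι(K · F1 M)`.** -/
theorem exists_baseChange_eq (hτ : IsDiamondBar Qbar M e τ) (x : ↥(FK1 M K)) :
    ∃ y : ↥(FK1 M K), baseChangeHomG (F1 M) K y = τ (baseChangeHomG (F1 M) K x) := by
  have key : ∀ (x : LaurentSeries K) (hx : x ∈ laurentBaseChange K (F1 M)),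
      ∃ y : ↥(FK1 M K), baseChangeHomG (F1 M) K y = τ (baseChangeHomG (F1 M) K ⟨x, hx⟩) := by
    intro x hx
    have hx' := mem_laurentBaseChange_iff.mp hx
    induction hx' using Subfield.closure_induction with
    | mem y hy =>
        rcases hy with ⟨a, rfl⟩ | ⟨z, hz, rfl⟩
        · refine ⟨algebraMap K ↥(FK1 M K) a, ?_⟩
          have h1 : (⟨algebraMap K (LaurentSeries K) a, hx⟩ : ↥(FK1 M K))
              = algebraMap K ↥(FK1 M K) a := rfl
          rw [h1, baseChangeHomG_algebraMap, AlgEquiv.commutes]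
        · obtain ⟨z', hz', ez⟩ := exists_emb1_eq hτ z hz
          refine ⟨emb1 K z' hz', ?_⟩
          have h1 : (⟨coeffEmb K z, hx⟩ : ↥(FK1 M K)) = emb1 K z hz := rfl
          rw [h1, baseChange_emb1, baseChange_emb1, ez]
    | one =>
        refine ⟨1, ?_⟩
        have h1 : (⟨1, hx⟩ : ↥(FK1 M K)) = 1 := rfl
        rw [h1, map_one, map_one]
    | add y z hy hz ihy ihz =>
        have hy' : y ∈ laurentBaseChange K (F1 M) := mem_laurentBaseChange_iff.mpr hy
        have hz' : z ∈ laurentBaseChange K (F1 M) := mem_laurentBaseChange_iff.mpr hz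
        obtain ⟨y1, ey⟩ := ihy hy'
        obtain ⟨z1, ez⟩ := ihz hz'
        refine ⟨y1 + z1, ?_⟩
        have h1 : (⟨y + z, hx⟩ : ↥(FK1 M K)) = ⟨y, hy'⟩ + ⟨z, hz'⟩ := rfl
        rw [h1, map_add, map_add, map_add, ey, ez]
    | neg y hy ihy =>
        have hy' : y ∈ laurentBaseChange K (F1 M) := mem_laurentBaseChange_iff.mpr hy
        obtain ⟨y1, ey⟩ := ihy hy'
        refine ⟨-y1, ?_⟩
        have h1 : (⟨-y, hx⟩ : ↥(FK1 M K)) = -⟨y, hy'⟩ := rfl
        rw [h1, map_neg, map_neg, map_neg, ey]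
    | inv y hy ihy =>
        have hy' : y ∈ laurentBaseChange K (F1 M) := mem_laurentBaseChange_iff.mpr hy
        obtain ⟨y1, ey⟩ := ihy hy'
        refine ⟨y1⁻¹, ?_⟩
        have h1 : (⟨y⁻¹, hx⟩ : ↥(FK1 M K)) = (⟨y, hy'⟩ : ↥(FK1 M K))⁻¹ := rfl
        rw [h1, map_inv₀, map_inv₀, map_inv₀, ey]
    | mul y z hy hz ihy ihz =>
        have hy' : y ∈ laurentBaseChange K (F1 M) := mem_laurentBaseChange_iff.mpr hy
        have hz' : z ∈ laurentBaseChange K (F1 M) := mem_laurentBaseChange_iff.mpr hz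
        obtain ⟨y1, ey⟩ := ihy hy'
        obtain ⟨z1, ez⟩ := ihz hz'
        refine ⟨y1 * z1, ?_⟩
        have h1 : (⟨y * z, hx⟩ : ↥(FK1 M K)) = ⟨y, hy'⟩ * ⟨z, hz'⟩ := rfl
        rw [h1, map_mul, map_mul, map_mul, ey, ez]
  exact key x.1 x.2

end Stable

/-! ### The diamond automorphisms of `K · F1 M` -/

section DiaK

variable {M : ℕ} (h : HasDiamonds Qbar M) (K : IntermediateField ℚ Qbar)

/-- the `K`-algebra endomorphism of `K · F1 M` induced by `⟨e⟩`. -/
def diaKHomAux (e : (ZMod M)ˣ) : ↥(FK1 M K) →ₐ[K] ↥(FK1 M K) :=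
  { restrictHom (baseChangeHomG (F1 M) K)
      (diamondBar Qbar M e : laurentBaseChange Qbar (F1 M) →+* laurentBaseChange Qbar (F1 M))
      (exists_baseChange_eq K (diamondBar_spec (h e))) with
    commutes' := fun c => (baseChangeHomG (F1 M) K).injective <| by
      show baseChangeHomG (F1 M) K (restrictHom _ _ _ (algebraMap K ↥(FK1 M K) c)) = _
      rw [ι_restrictHom, baseChangeHomG_algebraMap]
      exact AlgEquiv.commutes _ _ }

theorem baseChange_diaKHomAux (e : (ZMod M)ˣ) (x : ↥(FK1 M K)) :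
    baseChangeHomG (F1 M) K (diaKHomAux h K e x)
      = diamondBar Qbar M e (baseChangeHomG (F1 M) K x) :=
  ι_restrictHom (baseChangeHomG (F1 M) K) _ (exists_baseChange_eq K (diamondBar_spec (h e))) x

theorem diaKHomAux_comp (e e' : (ZMod M)ˣ) (hee' : e * e' = 1) :
    (diaKHomAux h K e).comp (diaKHomAux h K e') = AlgHom.id K ↥(FK1 M K) := by
  refine AlgHom.ext fun x => (baseChangeHomG (F1 M) K).injective ?_
  rw [AlgHom.comp_apply, baseChange_diaKHomAux, baseChange_diaKHomAux]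
  have h1 := diamondBar_mul h e e'
  rw [hee', diamondBar_one] at h1
  have h2 := congrArg (fun f : laurentBaseChange Qbar (F1 M) ≃ₐ[Qbar] laurentBaseChange Qbar (F1 M)
    => f (baseChangeHomG (F1 M) K x)) h1
  exact h2.symm

/-- **the diamond automorphism `⟨e⟩` of `K · F1 M`**, `K ⊂ ℚ̄`. -/
def diaK (e : (ZMod M)ˣ) : ↥(FK1 M K) ≃ₐ[K] ↥(FK1 M K) :=
  AlgEquiv.ofAlgHom (diaKHomAux h K e) (diaKHomAux h K e⁻¹)
    (diaKHomAux_comp h K e e⁻¹ (mul_inv_cancel e)) (diaKHomAux_comp h K e⁻¹ e (inv_mul_cancel e))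

/-- **`ι ∘ diaK e = ⟨e⟩ ∘ ι`**. -/
theorem baseChange_diaK (e : (ZMod M)ˣ) (x : ↥(FK1 M K)) :
    baseChangeHomG (F1 M) K (diaK h K e x)
      = diamondBar Qbar M e (baseChangeHomG (F1 M) K x) :=
  baseChange_diaKHomAux h K e x

theorem diaK_one : diaK h K (1 : (ZMod M)ˣ) = 1 := by
  refine AlgEquiv.ext fun x => (baseChangeHomG (F1 M) K).injective ?_
  rw [baseChange_diaK, diamondBar_one]
  rfl

theorem diaK_mul (e e' : (ZMod M)ˣ) : diaK h K (e * e') = diaK h K e * diaK h K e' := by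
  refine AlgEquiv.ext fun x => (baseChangeHomG (F1 M) K).injective ?_
  rw [baseChange_diaK, diamondBar_mul h]
  show _ = baseChangeHomG (F1 M) K (diaK h K e (diaK h K e' x))
  rw [baseChange_diaK, baseChange_diaK]
  rfl

/-- the diamond action as a group homomorphism. -/
def diaKHom : (ZMod M)ˣ →* (↥(FK1 M K) ≃ₐ[K] ↥(FK1 M K)) where
  toFun := diaK h K
  map_one' := diaK_one h K
  map_mul' := diaK_mul h K

theorem diaKHom_apply (e : (ZMod M)ˣ) : diaKHom h K e = diaK h K e := rfl

/-- `⟨e⟩` fixes the coefficient embedding of `F_full(M)`. -/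
theorem diaK_emb1_full (e : (ZMod M)ˣ) (x : LaurentSeries ℚ)
    (hx : x ∈ modularFunctionFieldFull M) :
    diaK h K e (emb1 K x (full_le_F1 M hx)) = emb1 K x (full_le_F1 M hx) := by
  apply (baseChangeHomG (F1 M) K).injective
  rw [baseChange_diaK, baseChange_emb1]
  exact (diamondBar_spec (h e)).1 x hx

/-- `⟨e⟩ W_d = W_{e d}`. -/
theorem diaK_emb1_w (e d : (ZMod M)ˣ) :
    diaK h K e (emb1 K (wq M (d : ZMod M)) (wq_mem_F1 M d))
      = emb1 K (wq M ((e * d : (ZMod M)ˣ) : ZMod M)) (wq_mem_F1 M (e * d)) := by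
  apply (baseChangeHomG (F1 M) K).injective
  rw [baseChange_diaK, baseChange_emb1, baseChange_emb1]
  exact (diamondBar_spec (h e)).2 d

/-- **`diaK e` is the diamond automorphism `⟨e⟩` of `K · F1 M`.** -/
theorem isDiamondBar_diaK (e : (ZMod M)ˣ) : IsDiamondBar K M e (diaK h K e) :=
  ⟨fun x hx => diaK_emb1_full h K e x hx, fun d => diaK_emb1_w h K e d⟩

include h in
/-- **All diamond automorphisms of `K · F1 M` exist**, for every `K ⊂ ℚ̄`. -/
theorem hasDiamondsK : HasDiamonds K M := fun e => ⟨diaK h K e, isDiamondBar_diaK h K e⟩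

/-! ### The fixed field -/

/-- `ι` on `K · F_full(M)`: the coefficientwise base change lands in `ℚ̄ · F_full(M)`. -/
theorem baseChange_inclusion_mem (x : ↥(FK M K)) :
    ((baseChangeHomG (F1 M) K (IntermediateField.inclusion (FK_le_FK1 M K) x) :
        laurentBaseChange Qbar (F1 M)) : LaurentSeries Qbar)
      ∈ laurentBaseChange Qbar (modularFunctionFieldFull M) := by
  rw [coe_baseChangeHomG, IntermediateField.coe_inclusion]
  exact CoeffDescent1.coeffMap_mem_laurentBaseChange_of_algHom (algebraMap K Qbar)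
    (modularFunctionFieldFull M) x.2

/-- a diamond automorphism of `ℚ̄ · F1 M` fixes `ℚ̄ · F_full(M)` pointwise. -/
theorem isDiamondBar_fix_full {L : Type*} [Field L] [Algebra ℚ L] {e : (ZMod M)ˣ}
    {τ : laurentBaseChange L (F1 M) ≃ₐ[L] laurentBaseChange L (F1 M)}
    (hτ : IsDiamondBar L M e τ) (y : LaurentSeries L)
    (hy : y ∈ laurentBaseChange L (modularFunctionFieldFull M))
    (hy1 : y ∈ laurentBaseChange L (F1 M)) : τ ⟨y, hy1⟩ = ⟨y, hy1⟩ := by
  have key : ∀ (y : LaurentSeries L) (_ : y ∈ laurentBaseChange L (modularFunctionFieldFull M))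
      (hy1 : y ∈ laurentBaseChange L (F1 M)), τ ⟨y, hy1⟩ = ⟨y, hy1⟩ := by
    intro y hy
    have hy' := mem_laurentBaseChange_iff.mp hy
    clear hy
    induction hy' using Subfield.closure_induction with
    | mem y hy =>
        intro hy1
        rcases hy with ⟨a, rfl⟩ | ⟨z, hz, rfl⟩
        · exact τ.commutes a
        · exact hτ.1 z hz
    | one =>
        intro hy1
        exact map_one τ
    | add y z hy hz ihy ihz =>
        intro hy1
        have hyF : y ∈ laurentBaseChange L (modularFunctionFieldFull M) :=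
          mem_laurentBaseChange_iff.mpr hy
        have hzF : z ∈ laurentBaseChange L (modularFunctionFieldFull M) :=
          mem_laurentBaseChange_iff.mpr hz
        have hy' := laurentBaseChange_mono13 L (full_le_F1 M) hyF
        have hz' := laurentBaseChange_mono13 L (full_le_F1 M) hzF
        have h1 : (⟨y + z, hy1⟩ : laurentBaseChange L (F1 M)) = ⟨y, hy'⟩ + ⟨z, hz'⟩ := rfl
        rw [h1, map_add, ihy hy', ihz hz']
    | neg y hy ihy =>
        intro hy1
        have hyF : y ∈ laurentBaseChange L (modularFunctionFieldFull M) :=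
          mem_laurentBaseChange_iff.mpr hy
        have hy' := laurentBaseChange_mono13 L (full_le_F1 M) hyF
        have h1 : (⟨-y, hy1⟩ : laurentBaseChange L (F1 M)) = -⟨y, hy'⟩ := rfl
        rw [h1, map_neg, ihy hy']
    | inv y hy ihy =>
        intro hy1
        have hyF : y ∈ laurentBaseChange L (modularFunctionFieldFull M) :=
          mem_laurentBaseChange_iff.mpr hy
        have hy' := laurentBaseChange_mono13 L (full_le_F1 M) hyF
        have h1 : (⟨y⁻¹, hy1⟩ : laurentBaseChange L (F1 M)) = (⟨y, hy'⟩ : _)⁻¹ := rfl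
        rw [h1, map_inv₀, ihy hy']
    | mul y z hy hz ihy ihz =>
        intro hy1
        have hyF : y ∈ laurentBaseChange L (modularFunctionFieldFull M) :=
          mem_laurentBaseChange_iff.mpr hy
        have hzF : z ∈ laurentBaseChange L (modularFunctionFieldFull M) :=
          mem_laurentBaseChange_iff.mpr hz
        have hy' := laurentBaseChange_mono13 L (full_le_F1 M) hyF
        have hz' := laurentBaseChange_mono13 L (full_le_F1 M) hzF
        have h1 : (⟨y * z, hy1⟩ : laurentBaseChange L (F1 M)) = ⟨y, hy'⟩ * ⟨z, hz'⟩ := rfl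
        rw [h1, map_mul, ihy hy', ihz hz']
  exact key y hy hy1

/-- **`diaK e` fixes `E₀ = K · F_full(M)` pointwise.** -/
theorem diaK_inclusion (e : (ZMod M)ˣ) (x : ↥(FK M K)) :
    diaK h K e (IntermediateField.inclusion (FK_le_FK1 M K) x)
      = IntermediateField.inclusion (FK_le_FK1 M K) x :=
  isDiamondBar_fix_full (isDiamondBar_diaK h K e) (x : LaurentSeries K) x.2 _

/-- **`E^H ⊆ E₀`**: an element of `K · F1 M` fixed by all diamonds lies in `K · F_full(M)`.
`hL2` is the same statement over `ℚ̄` (`X1FixedField14.mem_range_ffIncl_of_fixed`). -/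
theorem mem_FK_of_fixed
    (hL2 : ∀ y : laurentBaseChange Qbar (F1 M), (∀ e : (ZMod M)ˣ, diamondBar Qbar M e y = y) →
      (y : LaurentSeries Qbar) ∈ laurentBaseChange Qbar (modularFunctionFieldFull M))
    (y : ↥(FK1 M K)) (hy : ∀ e : (ZMod M)ˣ, diaK h K e y = y) :
    (y : LaurentSeries K) ∈ FK M K := by
  have h1 : ((baseChangeHomG (F1 M) K y : laurentBaseChange Qbar (F1 M)) : LaurentSeries Qbar)
      ∈ laurentBaseChange Qbar (modularFunctionFieldFull M) := by
    refine hL2 _ fun e => ?_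
    rw [← baseChange_diaK h K e, hy e]
  rw [coe_baseChangeHomG] at h1
  have h2 := (Fermat.Agent.J.DESC.LaurentExt24.mem_range_bc_iff (k := ↥K) (K := Qbar)
    (modularFunctionFieldFull M) ⟨_, h1⟩).mpr (fun n => by
      refine ⟨(y : LaurentSeries K).coeff n, ?_⟩
      simp)
  obtain ⟨y₀, hy₀⟩ := h2
  have h3 : (y₀ : LaurentSeries K) = (y : LaurentSeries K) := by
    apply Fermat.Agent.J.DESC.LaurentExt24.bcS_injective (k := ↥K) (K := Qbar)
    have := congrArg Subtype.val hy₀
    exact this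
  rw [← h3]
  exact y₀.2

end DiaK

end Fermat.Agent.ES.R48.DiamondK11
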