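/-
Programme R (S48, Deligne–Serre), chapter GEOM, sub-chapter G2 DICT₁ (helper11):
**EXISTENCE of the diamond automorphisms `⟨e⟩` of `F₁ = ℚbar · F1 M`**, i.e. the field
`diamonds : HasDiamonds (AlgebraicClosure ℚ) M` of `GeomIface13.GeomInputs` (`JOneOps13`).

Input: an analytic realisation `D : RealizeData1 M` and the slash rule `hW : WSlash M`
(`W_c ∘ γ = W_{c γ₀₀}` for `γ ∈ Γ₀(M)`).  For `δ ∈ Γ₀(M)` the ring homomorphism
`u ↦ (D.Θ u) ∘ δ` maps `Θ(R₁)` into itself (`j_d ↦ j_d`, `W_c ↦ W_{c δ₀₀}`, constants fixed); as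
`Θ` is injective this is an endomorphism `diaHom` of `R₁ = ℚbar[j_d, W_c]`; it is invertible
(`δ⁻¹`), and extends to the fraction field `F₁`.

* `exists_Gamma0_upper e : ∃ δ ∈ Γ₀(M), δ₀₀ ≡ e`;
* `diaHom D hW δ hδ : Rsub1 M →ₐ[Kbar] Rsub1 M`, `Θ_diaHom : Θ (diaHom u) = compSL (Θ u) δ`,
  `diaHom_jdR1`, `diaHom_wR`;
* `diaR D hW e : Rsub1 M ≃ₐ[Kbar] Rsub1 M`, `diaR_jdR1`, `diaR_wR`, **`Θ_diaR`** (the analytic
  meaning, for every `δ ∈ Γ₀(M)` with `δ₀₀ ≡ e`);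
* `diaF D hW e : FF1 M ≃ₐ[Kbar] FF1 M`, `diaF_coe`, `diaF_jdF1`, `diaF_wF`, `diaF_ffIncl`;
* **`isDiamondBar_diaF`**, **`hasDiamonds_of D hW : HasDiamonds (AlgebraicClosure ℚ) M`**.
-/
import Mathlib
import Fermat.Agent.X0.Analytic
import Fermat.Agent.ES.R48.X1Iface13
import Fermat.Agent.ES.R48.X1FracR1
import Fermat.Agent.ES.R48.JOneOps13

set_option autoImplicit false
set_option linter.unusedSectionVars false

open ModularCurve UpperHalfPlane
open scoped MatrixGroups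

noncomputable section

namespace Fermat.Agent.ES.R48.X1Diamond11

open Fermat.Agent.X0 Fermat.Agent.ES.R48.X1Iface13 Fermat.Agent.ES.R48.FF1Defs13
open Fermat.Agent.ES.R48.JOneOps13

/-! ### Representatives in `Γ₀(M)` -/

/-- every unit mod `M` is the upper-left entry of an element of `Γ₀(M)`. -/
theorem exists_Gamma0_upper (M : ℕ) [NeZero M] (e : (ZMod M)ˣ) :
    ∃ δ : SL(2, ℤ), δ ∈ CongruenceSubgroup.Gamma0 M ∧ ((δ 0 0 : ℤ) : ZMod M) = (e : ZMod M) := by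
  have hcop : IsCoprime (((e : ZMod M).val : ℕ) : ℤ) (M : ℤ) :=
    Nat.isCoprime_iff_coprime.mpr (ZMod.val_coe_unit_coprime e)
  obtain ⟨a, b, hab⟩ := hcop
  refine ⟨⟨!![(((e : ZMod M).val : ℕ) : ℤ), -b; (M : ℤ), a], ?_⟩, ?_, ?_⟩
  · rw [Matrix.det_fin_two_of]; linear_combination hab
  · rw [CongruenceSubgroup.Gamma0_mem]
    show (((M : ℤ) : ℤ) : ZMod M) = 0
    simp
  · show ((((e : ZMod M).val : ℕ) : ℤ) : ZMod M) = (e : ZMod M)
    rw [Int.cast_natCast, ZMod.natCast_val, ZMod.cast_id', id]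

/-- the upper-left entry of an element of `Γ₀(M)` is a unit mod `M`. -/
theorem isUnit_upper (M : ℕ) {δ : SL(2, ℤ)} (hδ : δ ∈ CongruenceSubgroup.Gamma0 M) :
    IsUnit ((δ 0 0 : ℤ) : ZMod M) := by
  rw [CongruenceSubgroup.Gamma0_mem] at hδ
  have hdet : δ 0 0 * δ 1 1 - δ 0 1 * δ 1 0 = 1 := by
    have := δ.det_coe
    rwa [Matrix.det_fin_two] at this
  refine IsUnit.of_mul_eq_one (((δ 1 1 : ℤ)) : ZMod M) ?_
  have h := congrArg (Int.cast : ℤ → ZMod M) hdet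
  push_cast at h
  rw [hδ, mul_zero, sub_zero] at h
  exact h

/-! ### `compSL · δ` as a ring endomorphism of `ℍ → ℂ` -/

/-- precomposition with `δ`, as a ring homomorphism. -/
def compHom (δ : SL(2, ℤ)) : (ℍ → ℂ) →+* (ℍ → ℂ) where
  toFun f := compSL f δ
  map_one' := rfl
  map_mul' _ _ := rfl
  map_zero' := rfl
  map_add' _ _ := rfl

theorem compHom_apply (δ : SL(2, ℤ)) (f : ℍ → ℂ) : compHom δ f = compSL f δ := rfl

theorem compSL_mul (f : ℍ → ℂ) (γ δ : SL(2, ℤ)) : compSL (compSL f γ) δ = compSL f (γ * δ) := by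
  funext z
  show f (γ • δ • z) = f ((γ * δ) • z)
  rw [mul_smul]

theorem compSL_one (f : ℍ → ℂ) : compSL f 1 = f := by
  funext z
  show f ((1 : SL(2, ℤ)) • z) = f z
  rw [one_smul]

section Realized

variable {M : ℕ} [NeZero M] (D : RealizeData1 M) (hW : WSlash M)

/-! ### The endomorphism of `R₁` attached to `δ ∈ Γ₀(M)` -/

theorem compSL_jd {δ : SL(2, ℤ)} (hδ : δ ∈ CongruenceSubgroup.Gamma0 M) (d : ℕ) [NeZero d]
    (hd : d ∣ M) : compSL (D.Θ (jdR1 M d hd)) δ = D.Θ (jdR1 M d hd) := by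
  have hM : (M : ℤ) ∣ δ 1 0 := by
    rw [CongruenceSubgroup.Gamma0_mem] at hδ
    exact (ZMod.intCast_zmod_eq_zero_iff_dvd _ _).mp hδ
  rw [D.jd_eq d hd]
  funext z
  exact Analytic.jdFun_smul_of_dvd δ d ((Int.natCast_dvd_natCast.mpr hd).trans hM) z

include hW in
theorem compSL_w {δ : SL(2, ℤ)} (hδ : δ ∈ CongruenceSubgroup.Gamma0 M) {e : (ZMod M)ˣ}
    (he : ((δ 0 0 : ℤ) : ZMod M) = (e : ZMod M)) (c : (ZMod M)ˣ) :
    compSL (D.Θ (wR M c)) δ = D.Θ (wR M (e * c)) := by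
  rw [D.w_eq c, D.w_eq (e * c)]
  funext z
  show wFun M (c : ZMod M) (δ • z) = _
  rw [hW δ hδ (c : ZMod M) z, he, Units.val_mul, mul_comm]

include hW in
/-- `Θ(R₁)` is stable under `compSL · δ`, `δ ∈ Γ₀(M)`. -/
theorem exists_Θ_eq_compSL {δ : SL(2, ℤ)} (hδ : δ ∈ CongruenceSubgroup.Gamma0 M) (u : Rsub1 M) :
    ∃ u' : Rsub1 M, D.Θ u' = compSL (D.Θ u) δ := by
  obtain ⟨e, he⟩ := (isUnit_upper M hδ)
  induction u using X1FracR1.Rsub1_induction with
  | hgen d hd => exact ⟨jdR1 M d hd, (compSL_jd D hδ d hd).symm⟩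
  | hw c => exact ⟨wR M (e * c), (compSL_w D hW hδ he.symm c).symm⟩
  | hconst c =>
      refine ⟨algebraMap Kbar (Rsub1 M) c, ?_⟩
      rw [D.algebraMap_eq]
      rfl
  | hadd u v hu hv =>
      obtain ⟨u', hu'⟩ := hu
      obtain ⟨v', hv'⟩ := hv
      refine ⟨u' + v', ?_⟩
      rw [map_add, map_add, hu', hv']
      rfl
  | hmul u v hu hv =>
      obtain ⟨u', hu'⟩ := hu
      obtain ⟨v', hv'⟩ := hv
      refine ⟨u' * v', ?_⟩
      rw [map_mul, map_mul, hu', hv']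
      rfl

/-- `R₁ ≃ Θ(R₁)`. -/
def rangeEquiv : Rsub1 M ≃+* D.Θ.range :=
  RingEquiv.ofBijective D.Θ.rangeRestrict
    ⟨fun _ _ h => D.injective (congrArg Subtype.val h), D.Θ.rangeRestrict_surjective⟩

theorem coe_rangeEquiv (u : Rsub1 M) : ((rangeEquiv D u : D.Θ.range) : ℍ → ℂ) = D.Θ u := by
  unfold rangeEquiv
  rw [RingEquiv.ofBijective_apply]
  rfl

/-- the ring endomorphism of `R₁` induced by `δ ∈ Γ₀(M)`. -/
def diaRingHom {δ : SL(2, ℤ)} (hδ : δ ∈ CongruenceSubgroup.Gamma0 M) : Rsub1 M →+* Rsub1 M :=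
  ((rangeEquiv D).symm : D.Θ.range →+* Rsub1 M).comp
    (((compHom δ).comp D.Θ).codRestrict D.Θ.range fun u => by
      obtain ⟨u', hu'⟩ := exists_Θ_eq_compSL D hW hδ u
      exact ⟨u', hu'⟩)

theorem Θ_diaRingHom {δ : SL(2, ℤ)} (hδ : δ ∈ CongruenceSubgroup.Gamma0 M) (u : Rsub1 M) :
    D.Θ (diaRingHom D hW hδ u) = compSL (D.Θ u) δ := by
  rw [← coe_rangeEquiv]
  unfold diaRingHom
  rw [RingHom.comp_apply, RingEquiv.coe_toRingHom, RingEquiv.apply_symm_apply]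
  rfl

/-- the `ℚbar`-algebra endomorphism of `R₁` induced by `δ ∈ Γ₀(M)`. -/
def diaHom {δ : SL(2, ℤ)} (hδ : δ ∈ CongruenceSubgroup.Gamma0 M) : Rsub1 M →ₐ[Kbar] Rsub1 M :=
  { diaRingHom D hW hδ with
    commutes' := fun c => D.injective <| by
      show D.Θ (diaRingHom D hW hδ (algebraMap Kbar (Rsub1 M) c)) = _
      rw [Θ_diaRingHom, D.algebraMap_eq]
      rfl }

theorem Θ_diaHom {δ : SL(2, ℤ)} (hδ : δ ∈ CongruenceSubgroup.Gamma0 M) (u : Rsub1 M) :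
    D.Θ (diaHom D hW hδ u) = compSL (D.Θ u) δ :=
  Θ_diaRingHom D hW hδ u

theorem diaHom_jdR1 {δ : SL(2, ℤ)} (hδ : δ ∈ CongruenceSubgroup.Gamma0 M) (d : ℕ) [NeZero d]
    (hd : d ∣ M) : diaHom D hW hδ (jdR1 M d hd) = jdR1 M d hd :=
  D.injective <| by rw [Θ_diaHom, compSL_jd D hδ d hd]

theorem diaHom_wR {δ : SL(2, ℤ)} (hδ : δ ∈ CongruenceSubgroup.Gamma0 M) {e : (ZMod M)ˣ}
    (he : ((δ 0 0 : ℤ) : ZMod M) = (e : ZMod M)) (c : (ZMod M)ˣ) :
    diaHom D hW hδ (wR M c) = wR M (e * c) :=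
  D.injective <| by rw [Θ_diaHom, compSL_w D hW hδ he c]

/-- two `ℚbar`-algebra homomorphisms out of `R₁` agree as soon as they agree on the generators. -/
theorem algHom_ext_Rsub1 {A : Type*} [Semiring A] [Algebra Kbar A] {f g : Rsub1 M →ₐ[Kbar] A}
    (hj : ∀ (d : ℕ) [NeZero d] (hd : d ∣ M), f (jdR1 M d hd) = g (jdR1 M d hd))
    (hw : ∀ c : (ZMod M)ˣ, f (wR M c) = g (wR M c)) : f = g := by
  refine AlgHom.ext fun u => ?_
  induction u using X1FracR1.Rsub1_induction with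
  | hgen d hd => exact hj d hd
  | hw c => exact hw c
  | hconst c => rw [f.commutes, g.commutes]
  | hadd u v hu hv => rw [map_add, map_add, hu, hv]
  | hmul u v hu hv => rw [map_mul, map_mul, hu, hv]

theorem diaHom_comp {δ δ' : SL(2, ℤ)} (hδ : δ ∈ CongruenceSubgroup.Gamma0 M)
    (hδ' : δ' ∈ CongruenceSubgroup.Gamma0 M) {e e' : (ZMod M)ˣ}
    (he : ((δ 0 0 : ℤ) : ZMod M) = (e : ZMod M)) (he' : ((δ' 0 0 : ℤ) : ZMod M) = (e' : ZMod M))
    (hee' : e * e' = 1) : (diaHom D hW hδ).comp (diaHom D hW hδ') = AlgHom.id Kbar (Rsub1 M) := by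
  refine algHom_ext_Rsub1 (fun d _ hd => ?_) fun c => ?_
  · rw [AlgHom.comp_apply, diaHom_jdR1, diaHom_jdR1]
    rfl
  · rw [AlgHom.comp_apply, diaHom_wR D hW hδ' he', diaHom_wR D hW hδ he, ← mul_assoc, hee',
      one_mul]
    rfl

/-! ### The diamond automorphism of `R₁` -/

/-- the chosen representative of `e` in `Γ₀(M)` (upper-left entry `≡ e`). -/
def rep (M : ℕ) [NeZero M] (e : (ZMod M)ˣ) : SL(2, ℤ) := (exists_Gamma0_upper M e).choose

theorem rep_mem (e : (ZMod M)ˣ) : rep M e ∈ CongruenceSubgroup.Gamma0 M :=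
  (exists_Gamma0_upper M e).choose_spec.1

theorem rep_apply (e : (ZMod M)ˣ) : ((rep M e 0 0 : ℤ) : ZMod M) = (e : ZMod M) :=
  (exists_Gamma0_upper M e).choose_spec.2

/-- **the diamond automorphism `⟨e⟩` of `R₁ = ℚbar[j_d, W_c]`**: `j_d ↦ j_d`, `W_c ↦ W_{e c}`. -/
def diaR (e : (ZMod M)ˣ) : Rsub1 M ≃ₐ[Kbar] Rsub1 M :=
  AlgEquiv.ofAlgHom (diaHom D hW (rep_mem e)) (diaHom D hW (rep_mem e⁻¹))
    (diaHom_comp D hW (rep_mem e) (rep_mem e⁻¹) (rep_apply e) (rep_apply e⁻¹) (mul_inv_cancel e))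
    (diaHom_comp D hW (rep_mem e⁻¹) (rep_mem e) (rep_apply e⁻¹) (rep_apply e) (inv_mul_cancel e))

theorem diaR_apply (e : (ZMod M)ˣ) (u : Rsub1 M) :
    diaR D hW e u = diaHom D hW (rep_mem e) u := rfl

theorem diaR_jdR1 (e : (ZMod M)ˣ) (d : ℕ) [NeZero d] (hd : d ∣ M) :
    diaR D hW e (jdR1 M d hd) = jdR1 M d hd :=
  diaHom_jdR1 D hW (rep_mem e) d hd

theorem diaR_wR (e c : (ZMod M)ˣ) : diaR D hW e (wR M c) = wR M (e * c) :=
  diaHom_wR D hW (rep_mem e) (rep_apply e) c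

/-- `diaR e` is the endomorphism induced by ANY `δ ∈ Γ₀(M)` with `δ₀₀ ≡ e`. -/
theorem diaR_eq_diaHom (e : (ZMod M)ˣ) {δ : SL(2, ℤ)} (hδ : δ ∈ CongruenceSubgroup.Gamma0 M)
    (he : ((δ 0 0 : ℤ) : ZMod M) = (e : ZMod M)) :
    (diaR D hW e : Rsub1 M →ₐ[Kbar] Rsub1 M) = diaHom D hW hδ := by
  refine algHom_ext_Rsub1 (fun d _ hd => ?_) fun c => ?_
  · show diaR D hW e (jdR1 M d hd) = _
    rw [diaR_jdR1, diaHom_jdR1]
  · show diaR D hW e (wR M c) = _
    rw [diaR_wR, diaHom_wR D hW hδ he]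

/-- **the analytic meaning of `⟨e⟩`**: `Θ (⟨e⟩ u) = (Θ u) ∘ δ` for every `δ ∈ Γ₀(M)`, `δ₀₀ ≡ e`. -/
theorem Θ_diaR (e : (ZMod M)ˣ) {δ : SL(2, ℤ)} (hδ : δ ∈ CongruenceSubgroup.Gamma0 M)
    (he : ((δ 0 0 : ℤ) : ZMod M) = (e : ZMod M)) (u : Rsub1 M) :
    D.Θ (diaR D hW e u) = compSL (D.Θ u) δ := by
  have h := congrArg (fun f : Rsub1 M →ₐ[Kbar] Rsub1 M => f u) (diaR_eq_diaHom D hW e hδ he)
  have h' : diaR D hW e u = diaHom D hW hδ u := h
  rw [h', Θ_diaHom]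

theorem diaR_mul (e e' : (ZMod M)ˣ) (u : Rsub1 M) :
    diaR D hW (e * e') u = diaR D hW e (diaR D hW e' u) := by
  have h : (diaR D hW (e * e') : Rsub1 M →ₐ[Kbar] Rsub1 M)
      = (diaR D hW e : Rsub1 M →ₐ[Kbar] Rsub1 M).comp (diaR D hW e' : Rsub1 M →ₐ[Kbar] Rsub1 M) := by
    refine algHom_ext_Rsub1 (fun d _ hd => ?_) fun c => ?_
    · show diaR D hW (e * e') (jdR1 M d hd) = diaR D hW e (diaR D hW e' (jdR1 M d hd))
      rw [diaR_jdR1, diaR_jdR1, diaR_jdR1]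
    · show diaR D hW (e * e') (wR M c) = diaR D hW e (diaR D hW e' (wR M c))
      rw [diaR_wR, diaR_wR, diaR_wR, mul_assoc]
  exact congrArg (fun f : Rsub1 M →ₐ[Kbar] Rsub1 M => f u) h

/-! ### The diamond automorphism of `F₁` -/

/-- **the diamond automorphism `⟨e⟩` of `F₁ = ℚbar · F1 M`**. -/
def diaF (e : (ZMod M)ˣ) : FF1 M ≃ₐ[Kbar] FF1 M :=
  haveI := X1FracR1.isFractionRing M
  IsFractionRing.algEquivOfAlgEquiv (K := FF1 M) (L := FF1 M) (diaR D hW e)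

theorem diaF_coe (e : (ZMod M)ˣ) (u : Rsub1 M) :
    diaF D hW e (u : FF1 M) = ((diaR D hW e u : Rsub1 M) : FF1 M) := by
  have := X1FracR1.isFractionRing M
  exact IsFractionRing.algEquivOfAlgEquiv_algebraMap (K := FF1 M) (L := FF1 M) (diaR D hW e) u

theorem diaF_jdF1 (e : (ZMod M)ˣ) (d : ℕ) [NeZero d] (hd : d ∣ M) :
    diaF D hW e (jdF1 M d hd) = jdF1 M d hd := by
  have h := diaF_coe D hW e (jdR1 M d hd)
  rwa [diaR_jdR1, coe_jdR1] at h

theorem diaF_wF (e c : (ZMod M)ˣ) : diaF D hW e (wF M c) = wF M (e * c) := by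
  have h := diaF_coe D hW e (wR M c)
  rwa [diaR_wR, coe_wR, coe_wR] at h

/-- `⟨e⟩` fixes the coefficient embedding of `F_full(M)`. -/
theorem diaF_emb1_full (e : (ZMod M)ˣ) (x : LaurentSeries ℚ)
    (hx : x ∈ modularFunctionFieldFull M) :
    diaF D hW e (emb1 Kbar x (full_le_F1 M hx)) = emb1 Kbar x (full_le_F1 M hx) := by
  have key : ∀ (x : LaurentSeries ℚ) (hx : x ∈ modularFunctionFieldFull M) (h : x ∈ F1 M),
      diaF D hW e (emb1 Kbar x h) = emb1 Kbar x h := by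
    intro x hx
    unfold modularFunctionFieldFull at hx
    induction hx using IntermediateField.adjoin_induction with
    | mem y hy =>
        obtain ⟨d, hne, hd, rfl⟩ := hy
        intro h
        exact diaF_jdF1 D hW e d hd
    | algebraMap c =>
        intro h
        have h1 : (emb1 Kbar (algebraMap ℚ (LaurentSeries ℚ) c) h : FF1 M)
            = algebraMap Kbar (FF1 M) (algebraMap ℚ Kbar c) :=
          Subtype.ext (by
            show coeffEmb Kbar (algebraMap ℚ (LaurentSeries ℚ) c)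
              = algebraMap Kbar (LaurentSeries Kbar) (algebraMap ℚ Kbar c)
            rw [algebraMap_laurentSeries_eq_single, algebraMap_laurentSeries_eq_single, coeffEmb,
              coeffMap_single])
        rw [h1, AlgEquiv.commutes]
    | add y z hy hz ihy ihz =>
        intro h
        have hy' : y ∈ F1 M := full_le_F1 M hy
        have hz' : z ∈ F1 M := full_le_F1 M hz
        have h1 : (emb1 Kbar (y + z) h : FF1 M) = emb1 Kbar y hy' + emb1 Kbar z hz' :=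
          Subtype.ext (map_add (coeffEmb Kbar) y z)
        rw [h1, map_add, ihy hy', ihz hz']
    | inv y hy ihy =>
        intro h
        have hy' : y ∈ F1 M := full_le_F1 M hy
        have h1 : (emb1 Kbar y⁻¹ h : FF1 M) = (emb1 Kbar y hy')⁻¹ :=
          Subtype.ext (map_inv₀ (coeffEmb Kbar) y)
        rw [h1, map_inv₀, ihy hy']
    | mul y z hy hz ihy ihz =>
        intro h
        have hy' : y ∈ F1 M := full_le_F1 M hy
        have hz' : z ∈ F1 M := full_le_F1 M hz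
        have h1 : (emb1 Kbar (y * z) h : FF1 M) = emb1 Kbar y hy' * emb1 Kbar z hz' :=
          Subtype.ext (map_mul (coeffEmb Kbar) y z)
        rw [h1, map_mul, ihy hy', ihz hz']
  exact key x hx _

/-- `⟨e⟩` fixes `F_full(M) · ℚbar` pointwise. -/
theorem diaF_ffIncl (e : (ZMod M)ˣ) (x : FF M) : diaF D hW e (ffIncl M x) = ffIncl M x := by
  have key : ∀ u : Rsub M, diaF D hW e (ffIncl M (u : FF M)) = ffIncl M (u : FF M) := by
    intro u
    induction u using Fermat.Agent.X0.FracR.Rsub_induction with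
    | hgen d hd => exact diaF_jdF1 D hW e d hd
    | hconst c =>
        have h1 : ((algebraMap Kbar (Rsub M) c : Rsub M) : FF M) = algebraMap Kbar (FF M) c := rfl
        rw [h1, AlgHom.commutes, AlgEquiv.commutes]
    | hadd u v hu hv =>
        have h1 : ((u + v : Rsub M) : FF M) = (u : FF M) + (v : FF M) := rfl
        rw [h1, map_add, map_add, hu, hv]
    | hmul u v hu hv =>
        have h1 : ((u * v : Rsub M) : FF M) = (u : FF M) * (v : FF M) := rfl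
        rw [h1, map_mul, map_mul, hu, hv]
  obtain ⟨r, s, rfl⟩ := Fermat.Agent.X0.FracR.exists_div M x
  rw [map_div₀, map_div₀, key r, key s]

/-- **`diaF e` is the diamond automorphism `⟨e⟩`** in the sense of `JOneOps13`. -/
theorem isDiamondBar_diaF (e : (ZMod M)ˣ) :
    IsDiamondBar (AlgebraicClosure ℚ) M e (diaF D hW e) :=
  ⟨fun x hx => diaF_emb1_full D hW e x hx, fun d => diaF_wF D hW e d⟩

include D hW in
/-- **All diamond automorphisms of `F₁` exist.** -/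
theorem hasDiamonds_of : HasDiamonds (AlgebraicClosure ℚ) M :=
  fun e => ⟨diaF D hW e, isDiamondBar_diaF D hW e⟩

end Realized

end Fermat.Agent.ES.R48.X1Diamond11
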