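/-
Programme R (S48, Deligne–Serre), chapter GEOM, sub-chapter G2 DICT₁ (helper11):
**`HasDiamonds (AlgebraicClosure ℚ) M` for every level `M ≠ 1`, unconditionally** —
`X1Diamond11.hasDiamonds_of` instantiated with G1 (`WSlash29.wSlash`) and the realisation
`X1RealizeFinal29.realizeData1` (helper29).

* `dia M hM e : FF1 M ≃ₐ[Kbar] FF1 M` : the diamond automorphism `⟨e⟩` of `F₁ = ℚbar · F1 M`;
* `dia_ffIncl`, `dia_wF`, `dia_jdF1` (the two L1-properties consumed by `X1FixedField14`);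
* `Θ_dia_coe` : `Θ (⟨e⟩ u) = (Θ u) ∘ δ` for `δ ∈ Γ₀(M)`, `δ₀₀ ≡ e`;
* **`hasDiamonds M hM : HasDiamonds (AlgebraicClosure ℚ) M`**.
-/
import Fermat.Agent.ES.R48.X1Diamond11
import Fermat.Agent.ES.R48.X1RealizeFinal29

set_option autoImplicit false
set_option linter.unusedSectionVars false

open UpperHalfPlane
open scoped MatrixGroups

noncomputable section

namespace Fermat.Agent.ES.R48.X1DiamondFinal11

open Fermat.Agent.X0 Fermat.Agent.ES.R48.X1Iface13 Fermat.Agent.ES.R48.FF1Defs13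
open Fermat.Agent.ES.R48.JOneOps13

variable (M : ℕ) [NeZero M]

/-- the diamond automorphism `⟨e⟩` of `F₁ = ℚbar · F1 M`, `M ≠ 1`. -/
def dia (hM : M ≠ 1) (e : (ZMod M)ˣ) : FF1 M ≃ₐ[Kbar] FF1 M :=
  X1Diamond11.diaF (X1RealizeFinal29.realizeData1 M hM) (WSlash29.wSlash M) e

theorem dia_ffIncl (hM : M ≠ 1) (e : (ZMod M)ˣ) (x : FF M) :
    dia M hM e (ffIncl M x) = ffIncl M x :=
  X1Diamond11.diaF_ffIncl _ _ e x

theorem dia_wF (hM : M ≠ 1) (e c : (ZMod M)ˣ) : dia M hM e (wF M c) = wF M (e * c) :=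
  X1Diamond11.diaF_wF _ _ e c

theorem dia_jdF1 (hM : M ≠ 1) (e : (ZMod M)ˣ) (d : ℕ) [NeZero d] (hd : d ∣ M) :
    dia M hM e (jdF1 M d hd) = jdF1 M d hd :=
  X1Diamond11.diaF_jdF1 _ _ e d hd

/-- `⟨e⟩` preserves `R₁`, and on `R₁` it is precomposition with any `δ ∈ Γ₀(M)`, `δ₀₀ ≡ e`. -/
theorem Θ_dia_coe (hM : M ≠ 1) (e : (ZMod M)ˣ) {δ : SL(2, ℤ)}
    (hδ : δ ∈ CongruenceSubgroup.Gamma0 M) (he : ((δ 0 0 : ℤ) : ZMod M) = (e : ZMod M))
    (u : Rsub1 M) :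
    ∃ u' : Rsub1 M, dia M hM e (u : FF1 M) = (u' : FF1 M) ∧
      (X1RealizeFinal29.realizeData1 M hM).Θ u'
        = compSL ((X1RealizeFinal29.realizeData1 M hM).Θ u) δ :=
  ⟨X1Diamond11.diaR (X1RealizeFinal29.realizeData1 M hM) (WSlash29.wSlash M) e u,
    X1Diamond11.diaF_coe _ _ e u, X1Diamond11.Θ_diaR _ _ e hδ he u⟩

theorem isDiamondBar_dia (hM : M ≠ 1) (e : (ZMod M)ˣ) :
    IsDiamondBar (AlgebraicClosure ℚ) M e (dia M hM e) :=
  X1Diamond11.isDiamondBar_diaF _ _ e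

/-- **All diamond automorphisms of `ℚbar · F1 M` exist (`M ≠ 1`).** -/
theorem hasDiamonds (hM : M ≠ 1) : HasDiamonds (AlgebraicClosure ℚ) M :=
  X1Diamond11.hasDiamonds_of (X1RealizeFinal29.realizeData1 M hM) (WSlash29.wSlash M)

/-- `diamondBar` of `JOneOps13` is `dia`. -/
theorem diamondBar_eq_dia (hM : M ≠ 1) (e : (ZMod M)ˣ) :
    diamondBar (AlgebraicClosure ℚ) M e = dia M hM e :=
  diamondBar_eq (isDiamondBar_dia M hM e)

end Fermat.Agent.ES.R48.X1DiamondFinal11
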