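/-
Programme R (S48), chapter GEOM, sub-chapter G2 DICT₁ / G′(a) (helper14): **the fixed field of the
diamond automorphisms of `F₁ = ℚbar · F1 M` is `ℚbar · F_full(M)`**, and the polynomial
`P_H = ∏_{d ∈ (ZMod M)ˣ/±1} (X - W_d)` has its coefficients in `ℚbar · F_full(M)`.

No Artin theorem and no degree count: the input is main's `q`-expansion membership principle
`RED/BASE/QExpMem19.mem_Fbar_of_invariant` for `X₀(M)` (AS-IS), applied to `g := D.Θ u`,
`T γ := C.T γ u` for an interface pair `(D : RealizeData1 M) (C : CuspData1 M D)`: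

* `mem_fullBar_of_invariant` : `u ∈ R₁` with `Θ u` invariant under `Γ₀(M)` lies in `ℚbar · F_full`.

The diamond automorphisms enter as a family `σ : (ZMod M)ˣ → (FF1 M ≃ₐ[Kbar] FF1 M)` with the two
HYPOTHESES `hfull : σ e (ffIncl M x) = ffIncl M x`, `hw : σ e (wF M c) = wF M (e * c)`
(what `X1Diamond11` provides).  Then `σ e` preserves `R₁`, `Θ (σ e u) = Θ u ∘ δ` for `δ ∈ Γ₀(M)`
with `δ₀₀ ≡ e` (slash rule `WSlash M`), `σ (e e') = σ e ∘ σ e'` on `R₁`, and by the norm trick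
(`y = r / s`, `N = ∏_e σ e s`):

* `mem_range_ffIncl_of_fixed` : `(∀ e, σ e y = y) → y ∈ Set.range (ffIncl M)`;
* `polyH M = ∏ w ∈ univ.image (wF M), (X - C w)` (`= P_H`: the `Finset` image identifies
  `W_d = W_{-d}`), `polyH_coeff_mem`, `exists_polyH_lift`.
-/
import Fermat.Agent.RED.BASE.QExpMem19
import Fermat.Agent.ES.R48.X1Integrality1
import Fermat.Agent.ES.R48.X1FracR1
import Fermat.Agent.ES.R48.X1Distinct14

set_option autoImplicit false
set_option linter.unusedSectionVars false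

open ModularCurve UpperHalfPlane
open scoped MatrixGroups

noncomputable section

namespace Fermat.Agent.ES.R48.X1FixedField14

open Fermat.Agent.X0 Fermat.Agent.X0.Analytic Fermat.Agent.ES.R48.FF1Defs13
open Fermat.Agent.ES.R48.X1Iface13 Fermat.Agent.RED.BASE
open scoped Polynomial

variable (M : ℕ) [NeZero M] (D : RealizeData1 M) (C : CuspData1 M D)

/-! ### The membership principle for `R₁` -/

/-- the formal element `u ∈ R₁` is the `q`-expansion of `Θ u`. -/
theorem hasQExp_Θ (u : Rsub1 M) :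
    HasQExp (toC ((u : FF1 M) : LaurentSeries Kbar)) (D.Θ u) := by
  obtain ⟨m, P, hP, hu⟩ := D.isQExp u
  rw [hu, toC, lor_coeffMap_laurentOf]
  exact intg_hasQExp_of_isQExp hP

include C in
/-- **Membership principle**: an element of `R₁ = ℚbar[j_d, W_c]` whose realisation is invariant
under `Γ₀(M)` lies in `ℚbar · F_full(M)`. -/
theorem mem_fullBar_of_invariant (u : Rsub1 M)
    (hinv : ∀ γ : SL(2, ℤ), γ ∈ CongruenceSubgroup.Gamma0 M → compSL (D.Θ u) γ = D.Θ u) :
    ((u : FF1 M) : LaurentSeries Kbar) ∈ modularFunctionFieldBar M :=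
  QExpMem19.mem_Fbar_of_invariant (D.Θ u) (D.mem_HolH u) hinv
    (fun γ => C.T γ (u : FF1 M)) (fun γ => X1Integrality1.T_spec M D C γ u) _ (hasQExp_Θ M D u)

include C in
/-- the same, as membership in the image of `ffIncl`. -/
theorem mem_range_ffIncl_of_invariant (u : Rsub1 M)
    (hinv : ∀ γ : SL(2, ℤ), γ ∈ CongruenceSubgroup.Gamma0 M → compSL (D.Θ u) γ = D.Θ u) :
    (u : FF1 M) ∈ Set.range (ffIncl M) :=
  ⟨⟨_, mem_fullBar_of_invariant M D C u hinv⟩, Subtype.ext rfl⟩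

/-! ### Diamond families -/

section Diamonds

variable (σ : (ZMod M)ˣ → (FF1 M ≃ₐ[Kbar] FF1 M))

/-- the two defining properties of a family of diamond automorphisms. -/
structure IsDiamondFamily : Prop where
  full : ∀ (e : (ZMod M)ˣ) (x : FF M), σ e (ffIncl M x) = ffIncl M x
  w : ∀ (e c : (ZMod M)ˣ), σ e (wF M c) = wF M (e * c)

variable {M σ}

theorem IsDiamondFamily.jdF1 (h : IsDiamondFamily M σ) (e : (ZMod M)ˣ) (d : ℕ) [NeZero d]
    (hd : d ∣ M) : σ e (jdF1 M d hd) = jdF1 M d hd :=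
  h.full e _

/-- `σ e` preserves `R₁`. -/
theorem IsDiamondFamily.mem_Rsub1 (h : IsDiamondFamily M σ) (e : (ZMod M)ˣ) {x : FF1 M}
    (hx : x ∈ Rsub1 M) : σ e x ∈ Rsub1 M := by
  unfold Rsub1 at hx
  induction hx using Algebra.adjoin_induction with
  | mem y hy =>
      rcases hy with ⟨d, hne, hd, rfl⟩ | ⟨c, rfl⟩
      · have := hne
        rw [h.jdF1 e d hd]
        exact (jdR1 M d hd).2
      · rw [h.w e c]
        exact (wR M (e * c)).2
  | algebraMap c =>
      rw [AlgEquiv.commutes]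
      exact Subalgebra.algebraMap_mem _ c
  | add x y _ _ hx hy => rw [map_add]; exact Subalgebra.add_mem _ hx hy
  | mul x y _ _ hx hy => rw [map_mul]; exact Subalgebra.mul_mem _ hx hy

/-- the restriction of `σ e` to `R₁`. -/
def sR (h : IsDiamondFamily M σ) (e : (ZMod M)ˣ) : Rsub1 M →ₐ[Kbar] Rsub1 M :=
  (((σ e : FF1 M ≃ₐ[Kbar] FF1 M) : FF1 M →ₐ[Kbar] FF1 M).comp (Rsub1 M).val).codRestrict
    (Rsub1 M) fun u => h.mem_Rsub1 e u.2

@[simp] theorem coe_sR (h : IsDiamondFamily M σ) (e : (ZMod M)ˣ) (u : Rsub1 M) :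
    ((sR h e u : Rsub1 M) : FF1 M) = σ e (u : FF1 M) := rfl

theorem sR_jdR1 (h : IsDiamondFamily M σ) (e : (ZMod M)ˣ) (d : ℕ) [NeZero d] (hd : d ∣ M) :
    sR h e (jdR1 M d hd) = jdR1 M d hd :=
  Subtype.ext (h.jdF1 e d hd)

theorem sR_wR (h : IsDiamondFamily M σ) (e c : (ZMod M)ˣ) : sR h e (wR M c) = wR M (e * c) :=
  Subtype.ext (h.w e c)

/-- **analytic meaning of the diamonds**: `Θ (σ e u) = Θ u ∘ δ` for `δ ∈ Γ₀(M)` with `δ₀₀ ≡ e`. -/
theorem Θ_sR (hW : WSlash M) (h : IsDiamondFamily M σ) (δ : SL(2, ℤ))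
    (hδ : δ ∈ CongruenceSubgroup.Gamma0 M) (u : Rsub1 M) :
    D.Θ (sR h (X1Distinct14.unitOfGamma0 M δ hδ) u) = compSL (D.Θ u) δ := by
  set e := X1Distinct14.unitOfGamma0 M δ hδ with he
  have hM : (M : ℤ) ∣ δ 1 0 := by
    rw [CongruenceSubgroup.Gamma0_mem] at hδ
    exact (ZMod.intCast_zmod_eq_zero_iff_dvd _ _).mp hδ
  refine X1FracR1.Rsub1_induction M (p := fun u => D.Θ (sR h e u) = compSL (D.Θ u) δ)
    ?_ ?_ ?_ ?_ ?_ u
  · intro d _ hd
    rw [sR_jdR1, D.jd_eq]
    funext z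
    have hd' : (d : ℤ) ∣ δ 1 0 := (Int.natCast_dvd_natCast.mpr hd).trans hM
    exact (jdFun_smul_of_dvd δ d hd' z).symm
  · intro c
    rw [sR_wR, D.w_eq, D.w_eq]
    funext z
    show wFun M (((e * c : (ZMod M)ˣ)) : ZMod M) z = wFun M ((c : (ZMod M)ˣ) : ZMod M) (δ • z)
    rw [hW δ hδ, Units.val_mul, he, X1Distinct14.coe_unitOfGamma0, mul_comm]
  · intro c
    rw [AlgHom.commutes, D.algebraMap_eq]
    rfl
  · intro u v hu hv
    have e1 : D.Θ (u + v) = D.Θ u + D.Θ v := map_add _ _ _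
    rw [map_add, map_add, hu, hv, e1]
    rfl
  · intro u v hu hv
    have e1 : D.Θ (u * v) = D.Θ u * D.Θ v := map_mul _ _ _
    rw [map_mul, map_mul, hu, hv, e1]
    rfl

include C in
/-- an element of `R₁` fixed by all diamonds lies in `ℚbar · F_full(M)`. -/
theorem mem_range_ffIncl_of_fixed_Rsub1 (hW : WSlash M) (h : IsDiamondFamily M σ) (u : Rsub1 M)
    (hu : ∀ e, σ e (u : FF1 M) = (u : FF1 M)) : (u : FF1 M) ∈ Set.range (ffIncl M) := by
  refine mem_range_ffIncl_of_invariant M D C u fun δ hδ => ?_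
  rw [← Θ_sR D hW h δ hδ u]
  congr 1
  exact Subtype.ext (hu _)

/-- `σ 1` is the identity on `R₁`. -/
theorem sR_one (h : IsDiamondFamily M σ) (u : Rsub1 M) : sR h 1 u = u := by
  refine X1FracR1.Rsub1_induction M (p := fun u => sR h 1 u = u) ?_ ?_ ?_ ?_ ?_ u
  · intro d _ hd
    exact sR_jdR1 h 1 d hd
  · intro c
    rw [sR_wR, one_mul]
  · intro c
    exact AlgHom.commutes _ c
  · intro u v hu hv
    rw [map_add, hu, hv]
  · intro u v hu hv
    rw [map_mul, hu, hv]

/-- `σ (e e') = σ e ∘ σ e'` on `R₁`. -/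
theorem sR_mul (h : IsDiamondFamily M σ) (e e' : (ZMod M)ˣ) (u : Rsub1 M) :
    sR h (e * e') u = sR h e (sR h e' u) := by
  refine X1FracR1.Rsub1_induction M (p := fun u => sR h (e * e') u = sR h e (sR h e' u))
    ?_ ?_ ?_ ?_ ?_ u
  · intro d _ hd
    rw [sR_jdR1, sR_jdR1, sR_jdR1]
  · intro c
    rw [sR_wR, sR_wR, sR_wR, mul_assoc]
  · intro c
    rw [AlgHom.commutes, AlgHom.commutes, AlgHom.commutes]
  · intro u v hu hv
    rw [map_add, map_add, map_add, hu, hv]
  · intro u v hu hv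
    rw [map_mul, map_mul, map_mul, hu, hv]

/-- the norm `∏_e σ e s` of `s ∈ R₁`. -/
def normR (h : IsDiamondFamily M σ) (s : Rsub1 M) : Rsub1 M := ∏ e : (ZMod M)ˣ, sR h e s

theorem sR_normR (h : IsDiamondFamily M σ) (e : (ZMod M)ˣ) (s : Rsub1 M) :
    sR h e (normR h s) = normR h s := by
  unfold normR
  rw [map_prod]
  simp only [← sR_mul]
  exact Fintype.prod_equiv (Equiv.mulLeft e) _ _ fun _ => rfl

theorem normR_eq_mul (h : IsDiamondFamily M σ) (s : Rsub1 M) :
    normR h s = s * ∏ e ∈ (Finset.univ : Finset (ZMod M)ˣ).erase 1, sR h e s := by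
  unfold normR
  rw [← Finset.mul_prod_erase Finset.univ (fun e => sR h e s) (Finset.mem_univ 1), sR_one]

theorem normR_ne_zero (h : IsDiamondFamily M σ) {s : Rsub1 M} (hs : s ≠ 0) : normR h s ≠ 0 := by
  unfold normR
  rw [Finset.prod_ne_zero_iff]
  intro e _ h0
  apply hs
  have h1 : σ e (s : FF1 M) = 0 := by
    have := congrArg (fun u : Rsub1 M => (u : FF1 M)) h0
    simpa using this
  exact Subtype.ext ((map_eq_zero_iff _ (σ e).injective).mp h1)

include C in
/-- **The fixed field of the diamonds is `ℚbar · F_full(M)`.** -/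
theorem mem_range_ffIncl_of_fixed (hW : WSlash M) (h : IsDiamondFamily M σ) (y : FF1 M)
    (hy : ∀ e, σ e y = y) : y ∈ Set.range (ffIncl M) := by
  classical
  obtain ⟨r, s, hs, hyrs⟩ := X1FracR1.exists_div_ne_zero M y
  have hs' : (s : FF1 M) ≠ 0 := fun h0 => hs (Subtype.ext h0)
  set N : Rsub1 M := normR h s with hN
  set t : Rsub1 M := r * ∏ e ∈ (Finset.univ : Finset (ZMod M)ˣ).erase 1, sR h e s with ht
  have hN0 : N ≠ 0 := normR_ne_zero h hs
  have hN0' : (N : FF1 M) ≠ 0 := fun h0 => hN0 (Subtype.ext h0)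
  -- `y * N = t`
  have hyN : y * (N : FF1 M) = (t : FF1 M) := by
    have h1 : (N : FF1 M)
        = (s : FF1 M) * ((∏ e ∈ (Finset.univ : Finset (ZMod M)ˣ).erase 1, sR h e s : Rsub1 M) :
          FF1 M) := by
      rw [hN, normR_eq_mul]
      rfl
    have h2 : (t : FF1 M)
        = (r : FF1 M) * ((∏ e ∈ (Finset.univ : Finset (ZMod M)ˣ).erase 1, sR h e s : Rsub1 M) :
          FF1 M) := rfl
    rw [h1, h2, hyrs]
    field_simp
  -- both are fixed
  have hNfix : ∀ e, σ e (N : FF1 M) = (N : FF1 M) := fun e => by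
    have := congrArg (fun u : Rsub1 M => (u : FF1 M)) (sR_normR h e s)
    exact this
  have htfix : ∀ e, σ e (t : FF1 M) = (t : FF1 M) := fun e => by
    rw [← hyN, map_mul, hy e, hNfix e]
  obtain ⟨a, ha⟩ := mem_range_ffIncl_of_fixed_Rsub1 D C hW h t htfix
  obtain ⟨b, hb⟩ := mem_range_ffIncl_of_fixed_Rsub1 D C hW h N hNfix
  refine ⟨a / b, ?_⟩
  rw [map_div₀, ha, hb, ← hyN, mul_div_assoc, div_self hN0', mul_one]

/-! ### The polynomial `P_H` -/

variable (M) in
/-- `P_H = ∏_{d ∈ (ZMod M)ˣ/±1} (X - W_d)`: the product over the DISTINCT `W_d`. -/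
def polyH : (FF1 M)[X] :=
  open Classical in ∏ w ∈ (Finset.univ : Finset (ZMod M)ˣ).image (wF M), (Polynomial.X - Polynomial.C w)

theorem polyH_monic : (polyH M).Monic := by
  classical
  unfold polyH
  exact Polynomial.monic_prod_of_monic _ _ fun w _ => Polynomial.monic_X_sub_C w

theorem polyH_eval_wF (c : (ZMod M)ˣ) : (polyH M).eval (wF M c) = 0 := by
  classical
  unfold polyH
  rw [Polynomial.eval_prod]
  refine Finset.prod_eq_zero (Finset.mem_image_of_mem _ (Finset.mem_univ c)) ?_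
  simp

/-- `P_H` is separable: its roots, the distinct `W_d`, are simple. -/
theorem polyH_separable : (polyH M).Separable := by
  classical
  unfold polyH
  exact (Polynomial.separable_prod_X_sub_C_iff' (f := fun w : FF1 M => w)).mpr
    fun x _ y _ hxy => hxy

/-- `σ e` permutes the roots of `P_H`. -/
theorem polyH_map (h : IsDiamondFamily M σ) (e : (ZMod M)ˣ) :
    (polyH M).map ((σ e : FF1 M ≃ₐ[Kbar] FF1 M) : FF1 M →+* FF1 M) = polyH M := by
  classical
  unfold polyH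
  rw [Polynomial.map_prod]
  simp only [Polynomial.map_sub, Polynomial.map_X, Polynomial.map_C]
  have hmaps : ∀ w ∈ (Finset.univ : Finset (ZMod M)ˣ).image (wF M),
      ((σ e : FF1 M ≃ₐ[Kbar] FF1 M) : FF1 M →+* FF1 M) w
        ∈ (Finset.univ : Finset (ZMod M)ˣ).image (wF M) := by
    intro w hw
    obtain ⟨c, -, rfl⟩ := Finset.mem_image.mp hw
    refine Finset.mem_image.mpr ⟨e * c, Finset.mem_univ _, ?_⟩
    exact (h.w e c).symm
  refine Finset.prod_bij' (fun w _ => ((σ e : FF1 M ≃ₐ[Kbar] FF1 M) : FF1 M →+* FF1 M) w)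
    (fun w _ => (σ e).symm w) hmaps ?_ ?_ ?_ ?_
  · intro w hw
    obtain ⟨c, -, rfl⟩ := Finset.mem_image.mp hw
    refine Finset.mem_image.mpr ⟨e⁻¹ * c, Finset.mem_univ _, ?_⟩
    rw [AlgEquiv.eq_symm_apply, h.w e (e⁻¹ * c), mul_inv_cancel_left]
  · intro w _
    exact (σ e).symm_apply_apply w
  · intro w _
    exact (σ e).apply_symm_apply w
  · intro w _
    rfl

include C in
/-- **the coefficients of `P_H` lie in `ℚbar · F_full(M)`.** -/
theorem polyH_coeff_mem (hW : WSlash M) (h : IsDiamondFamily M σ) (k : ℕ) :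
    (polyH M).coeff k ∈ Set.range (ffIncl M) := by
  refine mem_range_ffIncl_of_fixed D C hW h _ fun e => ?_
  have := congrArg (fun p : (FF1 M)[X] => p.coeff k) (polyH_map h e)
  simp only [Polynomial.coeff_map] at this
  exact this

include C in
/-- `P_H` descends to a monic polynomial over `ℚbar · F_full(M)`. -/
theorem exists_polyH_lift (hW : WSlash M) (h : IsDiamondFamily M σ) :
    ∃ P : (FF M)[X], P.Monic ∧ P.map ((ffIncl M : FF M →ₐ[Kbar] FF1 M) : FF M →+* FF1 M)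
      = polyH M := by
  have hl : polyH M ∈ Polynomial.lifts ((ffIncl M : FF M →ₐ[Kbar] FF1 M) : FF M →+* FF1 M) :=
    (Polynomial.lifts_iff_coeff_lifts _).mpr fun k => polyH_coeff_mem D C hW h k
  obtain ⟨P, hP, -, hm⟩ := Polynomial.lifts_and_degree_eq_and_monic hl polyH_monic
  exact ⟨P, hm, hP⟩

end Diamonds

end Fermat.Agent.ES.R48.X1FixedField14
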