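/-
Programme R (S48, Deligne–Serre), chapter GEOM, sub-chapter G3 MODEL₁ / E (helper11):
**the finite group `H` of `K`-automorphisms of `K · F1 M` with fixed field `K · F_full(M)`**,
unconditionally for `M ≠ 1` and every `K ⊂ ℚ̄` — the `(H, hHt, hfix)` input of
`VertGalData4.vertData` (helper4).

`DiamondK11` instantiated with `X1DiamondFinal11.hasDiamonds` (existence over `ℚ̄`),
`X1FixedField14.mem_range_ffIncl_of_fixed` (`F1bar^H = Fbar`, helper14) and the cusp data
`X1CuspFinal29.cuspData1` (helper29).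

* `isDiamondFamily_dia`, `fixed_mem_Fbar` (`hL2` of `DiamondK11.mem_FK_of_fixed`);
* `diaK M hM K e`, `diaKHom M hM K`, `baseChange_diaK`, `diaK_inclusion`, `mem_FK_of_fixed`;
* **`exists_diamondK`**.
-/
import Fermat.Agent.ES.R48.DiamondK11
import Fermat.Agent.ES.R48.X1DiamondFinal11
import Fermat.Agent.ES.R48.X1FixedField14
import Fermat.Agent.ES.R48.X1CuspFinal29

set_option autoImplicit false
set_option linter.unusedSectionVars false

open ModularCurve HahnSeries IntermediateField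

noncomputable section

namespace Fermat.Agent.ES.R48.DiamondKFinal11

open Fermat.Agent.X0 Fermat.Agent.RED.Interface4
open Fermat.Agent.ES.R48.FF1Defs13 Fermat.Agent.ES.R48.X1Iface13 Fermat.Agent.ES.R48.JOneOps13
open Fermat.Agent.ES.R48.G3Defs4 Fermat.Agent.ES.R48.PlaceExtendG7

variable (M : ℕ) [NeZero M]

/-- the diamonds `X1DiamondFinal11.dia` form a diamond family in the sense of `X1FixedField14`. -/
theorem isDiamondFamily_dia (hM : M ≠ 1) :
    X1FixedField14.IsDiamondFamily M (X1DiamondFinal11.dia M hM) :=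
  ⟨fun e x => X1DiamondFinal11.dia_ffIncl M hM e x, fun e c => X1DiamondFinal11.dia_wF M hM e c⟩

/-- **`F1bar^H ⊆ Fbar`** in the shape consumed by `DiamondK11.mem_FK_of_fixed`. -/
theorem fixed_mem_Fbar (hM : M ≠ 1) (y : laurentBaseChange Qbar (F1 M))
    (hy : ∀ e : (ZMod M)ˣ, diamondBar Qbar M e y = y) :
    (y : LaurentSeries Qbar) ∈ laurentBaseChange Qbar (modularFunctionFieldFull M) := by
  have h := X1FixedField14.mem_range_ffIncl_of_fixed (X1RealizeFinal29.realizeData1 M hM)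
    (X1CuspFinal29.cuspData1 M hM) (WSlash29.wSlash M) (isDiamondFamily_dia M hM) y
    (fun e => by rw [← X1DiamondFinal11.diamondBar_eq_dia M hM e]; exact hy e)
  obtain ⟨x, rfl⟩ := h
  rw [coe_ffIncl]
  exact x.2

/-- the diamond automorphism `⟨e⟩` of `K · F1 M`. -/
def diaK (hM : M ≠ 1) (K : IntermediateField ℚ Qbar) (e : (ZMod M)ˣ) :
    ↥(FK1 M K) ≃ₐ[K] ↥(FK1 M K) :=
  DiamondK11.diaK (X1DiamondFinal11.hasDiamonds M hM) K e

/-- the diamond action on `K · F1 M`. -/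
def diaKHom (hM : M ≠ 1) (K : IntermediateField ℚ Qbar) :
    (ZMod M)ˣ →* (↥(FK1 M K) ≃ₐ[K] ↥(FK1 M K)) :=
  DiamondK11.diaKHom (X1DiamondFinal11.hasDiamonds M hM) K

theorem diaKHom_apply (hM : M ≠ 1) (K : IntermediateField ℚ Qbar) (e : (ZMod M)ˣ) :
    diaKHom M hM K e = diaK M hM K e := rfl

/-- `ι ∘ diaK e = dia e ∘ ι`. -/
theorem baseChange_diaK (hM : M ≠ 1) (K : IntermediateField ℚ Qbar) (e : (ZMod M)ˣ)
    (x : ↥(FK1 M K)) :
    baseChangeHomG (F1 M) K (diaK M hM K e x)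
      = X1DiamondFinal11.dia M hM e (baseChangeHomG (F1 M) K x) := by
  rw [← X1DiamondFinal11.diamondBar_eq_dia M hM e]
  exact DiamondK11.baseChange_diaK _ K e x

theorem diaK_inclusion (hM : M ≠ 1) (K : IntermediateField ℚ Qbar) (e : (ZMod M)ˣ)
    (x : ↥(FK M K)) :
    diaK M hM K e (IntermediateField.inclusion (FK_le_FK1 M K) x)
      = IntermediateField.inclusion (FK_le_FK1 M K) x :=
  DiamondK11.diaK_inclusion _ K e x

theorem diaK_of_mem_FK (hM : M ≠ 1) (K : IntermediateField ℚ Qbar) (e : (ZMod M)ˣ)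
    (x : ↥(FK1 M K)) (hx : (x : LaurentSeries K) ∈ FK M K) : diaK M hM K e x = x :=
  diaK_inclusion M hM K e ⟨(x : LaurentSeries K), hx⟩

theorem mem_FK_of_fixed (hM : M ≠ 1) (K : IntermediateField ℚ Qbar) (y : ↥(FK1 M K))
    (hy : ∀ e : (ZMod M)ˣ, diaK M hM K e y = y) : (y : LaurentSeries K) ∈ FK M K :=
  DiamondK11.mem_FK_of_fixed _ K (fixed_mem_Fbar M hM) y hy

theorem hasDiamondsK (hM : M ≠ 1) (K : IntermediateField ℚ Qbar) : HasDiamonds K M :=
  DiamondK11.hasDiamondsK (X1DiamondFinal11.hasDiamonds M hM) K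

/-- **The finite group of diamond automorphisms of `K · F1 M`, with fixed field `K · F_full(M)`.** -/
theorem exists_diamondK (hM : M ≠ 1) (K : IntermediateField ℚ Qbar) :
    ∃ H : Subgroup (↥(FK1 M K) ≃ₐ[K] ↥(FK1 M K)), Finite H ∧
      (∀ σ ∈ H, ∀ x : ↥(FK1 M K), (x : LaurentSeries K) ∈ FK M K → σ x = x) ∧
      ∀ x : ↥(FK1 M K), (∀ σ ∈ H, σ x = x) → (x : LaurentSeries K) ∈ FK M K := by
  refine ⟨(diaKHom M hM K).range, ?_, ?_, ?_⟩
  · exact Set.finite_range (diaKHom M hM K)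
  · rintro _ ⟨e, rfl⟩ x hx
    exact diaK_of_mem_FK M hM K e x hx
  · intro x hx
    exact mem_FK_of_fixed M hM K x fun e => hx _ ⟨e, rfl⟩

end Fermat.Agent.ES.R48.DiamondKFinal11
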