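/-
Programme R (S48, Deligne–Serre), chapter GEOM / G3 MODEL₁, part G′ (a) (helper4): **the vertical
data of a Galois cover of a saturated field.**

Gauss setting `(O, π, E ≤ fracField O ⊂ K((q)), t ∈ E ∩ gaussRing O, t̃ transcendental)`.  Let `H` be a
finite group of `K`-automorphisms of `E` fixing `t`, `E₀` an intermediate field containing the fixed
field of `H`, and assume `E₀` is SATURATED for the chart `O[t]`:
`x ∈ E₀ ∩ gaussRing`, `π x` integral over `O[t]` ⟹ `x` integral over `O[t]`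
(for `E₀ = K·F_full(M)`, `E = K·F₁(M)` this is `G1Package8.isIntegral_of_mul` on main).  Then

* `isIntegral_of_forall_mem` : `y ∈ E` with all conjugates `σ y` in the Gauss ring and `π y` integral
  over `O[t]` is integral over `O[t]` (the coefficients of `∏_σ (X - σ y)` lie in `E₀ ∩ gaussRing`, and
  become integral after multiplication by powers of `π`);
* `iotaS σ : chart O t →+* E`, `z ↦ σ z`, with `iotaS_poly`, `iotaS_isIntegral`, `iotaS_injective`
  (the conjugate embeddings of the contract chart; consumed by `VertGalData4.vertData`).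

The abstract core is `isIntegral_of_conj_abs` (any field `F`, subalgebra `B`, finite family of ring
endomorphisms fixing `B`, stable under composition up to a permutation of the indices).

No irreducibility of the special fibre of `E` is used: it is a CONSEQUENCE (via smoothness and
connectedness) in the application.
-/
import Fermat.Agent.RED.PUR.VertPurity22
import Fermat.Agent.ES.R48.SmoothProd4

set_option autoImplicit false
set_option linter.unusedSectionVars false
set_option linter.unusedVariables false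

noncomputable section

open ModularCurve Polynomial

namespace Fermat.Agent.ES.R48.VertGal4

/-! ### Polynomial lemmas -/

section Poly

variable {F : Type*} [CommRing F]

/-- the coefficients of `∏ (X - a i)` lie in every subring containing the `a i`. -/
theorem coeff_prod_X_sub_C_mem {ι : Type*} (s : Finset ι) (a : ι → F) (S : Subring F)
    (ha : ∀ i ∈ s, a i ∈ S) (k : ℕ) : (∏ i ∈ s, (X - C (a i))).coeff k ∈ S := by
  classical
  have key : ∏ i ∈ s, (X - C (a i)) =
      (∏ i ∈ s.attach, (X - C (⟨a i.1, ha i.1 i.2⟩ : S))).map S.subtype := by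
    rw [Polynomial.map_prod, ← Finset.prod_attach s]
    refine Finset.prod_congr rfl fun i _ => ?_
    rw [Polynomial.map_sub, Polynomial.map_X, Polynomial.map_C]
    rfl
  rw [key, coeff_map]
  exact SetLike.coe_mem _

/-- scaling the roots of `∏ (X - a i)`. -/
theorem prod_X_sub_C_scaleRoots [NoZeroDivisors F] {ι : Type*} (s : Finset ι) (a : ι → F) (r : F) :
    (∏ i ∈ s, (X - C (a i))).scaleRoots r = ∏ i ∈ s, (X - C (a i * r)) := by
  classical
  induction s using Finset.induction_on with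
  | empty => rw [Finset.prod_empty, Finset.prod_empty, one_scaleRoots]
  | insert i s hi ih =>
    rw [Finset.prod_insert hi, Finset.prod_insert hi, mul_scaleRoots_of_noZeroDivisors, ih,
      X_sub_C_scaleRoots]

theorem monic_prod_X_sub_C' {ι : Type*} (s : Finset ι) (a : ι → F) :
    (∏ i ∈ s, (X - C (a i))).Monic :=
  monic_prod_of_monic _ _ fun i _ => monic_X_sub_C (a i)

theorem natDegree_prod_X_sub_C' [Nontrivial F] {ι : Type*} (s : Finset ι) (a : ι → F) :
    (∏ i ∈ s, (X - C (a i))).natDegree = s.card := by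
  rw [natDegree_prod_of_monic _ _ fun i _ => monic_X_sub_C (a i)]
  simp

end Poly

/-! ### The abstract integrality lemma -/

section Abstract

variable {A F : Type*} [CommRing A] [Field F] [Algebra A F] (B : Subalgebra A F)

/-- a ring endomorphism fixing `B` pointwise preserves integrality over `B`. -/
theorem isIntegral_map_of_fix (f : F →+* F) (hfB : ∀ a ∈ B, f a = a) {x : F}
    (hx : IsIntegral ↥B x) : IsIntegral ↥B (f x) := by
  obtain ⟨P, hP, hcoeff, hPx⟩ :=
    (Fermat.Agent.RED.PUR.ChartGeneric22.isIntegral_subalgebra_iff B x).1 hx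
  refine (Fermat.Agent.RED.PUR.ChartGeneric22.isIntegral_subalgebra_iff B (f x)).2
    ⟨P, hP, hcoeff, ?_⟩
  have hmap : P.map f = P := by
    refine Polynomial.ext fun k => ?_
    rw [coeff_map]
    exact hfB _ (hcoeff k)
  have h := Polynomial.eval_map_apply (p := P) f x
  rw [hmap, hPx, RingHom.map_zero] at h
  exact h

/-- iterated saturation. -/
theorem isIntegral_of_pow_mul_abs (G E₀ : Subring F) (ϖ : F) (hϖE₀ : ϖ ∈ E₀) (hϖG : ϖ ∈ G)
    (hsat : ∀ x ∈ E₀, x ∈ G → IsIntegral ↥B (ϖ * x) → IsIntegral ↥B x)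
    (x : F) (hx0 : x ∈ E₀) (hxg : x ∈ G) (k : ℕ) (h : IsIntegral ↥B (ϖ ^ k * x)) :
    IsIntegral ↥B x := by
  induction k with
  | zero => rwa [pow_zero, one_mul] at h
  | succ k ih =>
    apply ih
    apply hsat _ (mul_mem (pow_mem hϖE₀ k) hx0) (mul_mem (pow_mem hϖG k) hxg)
    rwa [← mul_assoc, ← pow_succ']

/-- **The integrality lemma, abstract form.**  `f i` (`i : ι`) a finite family of ring endomorphisms
of `F` fixing `B`, containing the identity and stable under left composition up to a permutation of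
the indices; `E₀` contains the common fixed elements and is saturated with respect to `(G, ϖ)`.
Then `y` with all `f i y ∈ G` and `ϖ y` integral over `B` is integral over `B`. -/
theorem isIntegral_of_conj_abs {ι : Type*} [Fintype ι] (f : ι → F →+* F) (i₀ : ι)
    (hi₀ : ∀ x, f i₀ x = x) (hfB : ∀ i, ∀ a ∈ B, f i a = a)
    (hperm : ∀ j : ι, ∃ e : ι ≃ ι, ∀ i x, f j (f i x) = f (e i) x)
    (G E₀ : Subring F) (ϖ : F) (hϖB : ϖ ∈ B) (hϖE₀ : ϖ ∈ E₀) (hϖG : ϖ ∈ G)
    (hfix : ∀ x : F, (∀ j, f j x = x) → x ∈ E₀)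
    (hsat : ∀ x ∈ E₀, x ∈ G → IsIntegral ↥B (ϖ * x) → IsIntegral ↥B x)
    (y : F) (hy : ∀ i, f i y ∈ G) (hϖy : IsIntegral ↥B (ϖ * y)) : IsIntegral ↥B y := by
  classical
  have hQdef : ∃ Q : F[X], Q = ∏ i : ι, (X - C (f i y)) := ⟨_, rfl⟩
  obtain ⟨Q, hQ⟩ := hQdef
  -- invariance
  have hinv : ∀ j : ι, Q.map (f j) = Q := by
    intro j
    obtain ⟨e, he⟩ := hperm j
    rw [hQ, Polynomial.map_prod]
    refine Fintype.prod_equiv e _ _ fun i => ?_
    rw [Polynomial.map_sub, Polynomial.map_X, Polynomial.map_C, he i y]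
  have hE0 : ∀ k, Q.coeff k ∈ E₀ := by
    intro k
    apply hfix
    intro j
    have h := congrArg (fun P : F[X] => P.coeff k) (hinv j)
    simp only [coeff_map] at h
    exact h
  have hG : ∀ k, Q.coeff k ∈ G := by
    intro k
    rw [hQ]
    exact coeff_prod_X_sub_C_mem Finset.univ (fun i => f i y) G (fun i _ => hy i) k
  have hQdeg : Q.natDegree = Fintype.card ι := by
    rw [hQ, natDegree_prod_X_sub_C']
    rfl
  have hint : ∀ k, IsIntegral ↥B (ϖ ^ (Fintype.card ι - k) * Q.coeff k) := by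
    intro k
    have h1 : (Q.scaleRoots ϖ).coeff k = Q.coeff k * ϖ ^ (Fintype.card ι - k) := by
      rw [coeff_scaleRoots, hQdeg]
    have hfϖ : ∀ i, f i (ϖ * y) = f i y * ϖ := by
      intro i
      rw [RingHom.map_mul, hfB i ϖ hϖB, mul_comm]
    have h2 : Q.scaleRoots ϖ = ∏ i : ι, (X - C (f i (ϖ * y))) := by
      rw [hQ, prod_X_sub_C_scaleRoots]
      refine Finset.prod_congr rfl fun i _ => ?_
      rw [hfϖ i]
    have h3 := coeff_prod_X_sub_C_mem Finset.univ (fun i => f i (ϖ * y))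
      (integralClosure ↥B F).toSubring
      (fun i _ => isIntegral_map_of_fix B (f i) (hfB i) hϖy) k
    rw [← h2, h1, mul_comm] at h3
    exact h3
  have hcoeff : ∀ k, IsIntegral ↥B (Q.coeff k) := fun k =>
    isIntegral_of_pow_mul_abs B G E₀ ϖ hϖE₀ hϖG hsat (Q.coeff k) (hE0 k) (hG k) _ (hint k)
  have hroot : Q.eval y = 0 := by
    rw [hQ, eval_prod]
    refine Finset.prod_eq_zero (Finset.mem_univ i₀) ?_
    rw [eval_sub, eval_X, eval_C, hi₀, sub_self]
  have hyI : IsIntegral ↥(integralClosure ↥B F) y :=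
    (Fermat.Agent.RED.PUR.ChartGeneric22.isIntegral_subalgebra_iff (integralClosure ↥B F) y).2
      ⟨Q, hQ ▸ monic_prod_X_sub_C' _ _, hcoeff, hroot⟩
  exact isIntegral_trans (R := ↥B) (A := ↥(integralClosure ↥B F)) y hyI

end Abstract

/-! ### The integrality lemma in the Gauss setting -/

section Main

open Fermat.Agent.RED.PUR.GaussGen8 Fermat.Agent.RED.PUR.KtGauss8 Fermat.Agent.RED.PUR.G1Package8
  Fermat.Agent.RED.PUR.VertGauss22 Fermat.Agent.RED.PUR.VertPurity22

variable {K : Type*} [Field K] (O : ValuationSubring K) [IsDiscreteValuationRing ↥O]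
  {π : ↥O}
  (E : IntermediateField K (LaurentSeries K))
  (t : ↥E)
  (H : Subgroup (↥E ≃ₐ[K] ↥E)) [Finite H]
  (hHt : ∀ σ ∈ H, σ t = t)
  (E₀ : IntermediateField K (LaurentSeries K))
  (hfix : ∀ x : ↥E, (∀ σ ∈ H, σ x = x) → (x : LaurentSeries K) ∈ E₀)
  (hsat : ∀ x : ↥E, (x : LaurentSeries K) ∈ E₀ → (x : LaurentSeries K) ∈ gaussRing O →
    IsIntegral ↥(Algebra.adjoin ↥O {t}) (algebraMap ↥O ↥E π * x) →
    IsIntegral ↥(Algebra.adjoin ↥O {t}) x)

/-- a `K`-automorphism fixes the constants of `O`. -/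
theorem apply_algebraMap_O (σ : ↥E ≃ₐ[K] ↥E) (c : ↥O) :
    (σ : ↥E →+* ↥E) (algebraMap ↥O ↥E c) = algebraMap ↥O ↥E c := by
  have : IsScalarTower ↥O K ↥E := Fermat.Agent.RED.NumInst4.isScalarTower_OE O E
  rw [IsScalarTower.algebraMap_apply ↥O K ↥E]
  exact σ.commutes _

/-- a ring endomorphism fixing `O` and `t` fixes `O[t]`. -/
theorem apply_adjoin (f : ↥E →+* ↥E) (hfO : ∀ c : ↥O, f (algebraMap ↥O ↥E c) = algebraMap ↥O ↥E c)
    (hft : f t = t) (a : ↥E) (ha : a ∈ Algebra.adjoin ↥O {t}) : f a = a := by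
  induction ha using Algebra.adjoin_induction with
  | mem x hx =>
    rw [Set.mem_singleton_iff] at hx
    rw [hx, hft]
  | algebraMap c => exact hfO c
  | add x y _ _ hx hy => rw [RingHom.map_add, hx, hy]
  | mul x y _ _ hx hy => rw [RingHom.map_mul, hx, hy]

include hHt hfix hsat in
/-- **The integrality lemma**: an element all of whose conjugates lie in the Gauss ring and whose
`π`-multiple is integral over `O[t]` is integral over `O[t]`. -/
theorem isIntegral_of_forall_mem (y : ↥E)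
    (hy : ∀ σ ∈ H, ((σ y : ↥E) : LaurentSeries K) ∈ gaussRing O)
    (hπy : IsIntegral ↥(Algebra.adjoin ↥O {t}) (algebraMap ↥O ↥E π * y)) :
    IsIntegral ↥(Algebra.adjoin ↥O {t}) y := by
  classical
  have : Fintype H := Fintype.ofFinite H
  refine isIntegral_of_conj_abs (Algebra.adjoin ↥O {t})
    (fun σ : H => ((σ : ↥E ≃ₐ[K] ↥E) : ↥E →+* ↥E)) (1 : H) (fun x => rfl)
    (fun σ a ha => apply_adjoin O E t _ (apply_algebraMap_O O E σ) (hHt σ σ.2) a ha)
    (fun τ => ⟨Equiv.mulLeft τ, fun σ x => rfl⟩)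
    (Subring.comap (E.val : ↥E →+* LaurentSeries K) (gaussRing O))
    (Subring.comap (E.val : ↥E →+* LaurentSeries K) E₀.toSubring)
    (algebraMap ↥O ↥E π) (Subalgebra.algebraMap_mem _ π) ?_ ?_ ?_ ?_ y (fun σ => hy σ σ.2) hπy
  · show ((algebraMap ↥O ↥E π : ↥E) : LaurentSeries K) ∈ E₀
    have h0 : ((algebraMap ↥O ↥E π : ↥E) : LaurentSeries K) =
        algebraMap K (LaurentSeries K) ((π : ↥O) : K) := rfl
    rw [h0]
    exact E₀.algebraMap_mem _
  · show ((algebraMap ↥O ↥E π : ↥E) : LaurentSeries K) ∈ gaussRing O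
    exact algebraMap_O_mem π
  · intro x hx
    exact hfix x fun σ hσ => hx ⟨σ, hσ⟩
  · intro x hx0 hxg h
    exact hsat x hx0 hxg h

/-! ### The vertical data -/

variable (hπ : Irreducible π) (hE : E ≤ fracField O)
  (ht : (t : LaurentSeries K) ∈ gaussRing O)
  (htr : Transcendental (Res O) (gaussRed O ⟨(t : LaurentSeries K), ht⟩))

open Fermat.Agent.RED.PUR.ChartsGeneric13 Fermat.Agent.ES.R48.SmoothProd4

/-- the conjugate embedding `z ↦ σ z` of the chart into `E`. -/
def iotaS (σ : ↥E ≃ₐ[K] ↥E) : ↥(chart ↥O t) →+* ↥E :=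
  ((σ : ↥E ≃ₐ[K] ↥E) : ↥E →+* ↥E).comp (chart ↥O t).val.toRingHom

theorem iotaS_apply (σ : ↥E ≃ₐ[K] ↥E) (z : ↥(chart ↥O t)) :
    iotaS O E t σ z = (σ : ↥E →+* ↥E) (z : ↥E) := rfl

theorem iotaS_injective (σ : ↥E ≃ₐ[K] ↥E) : Function.Injective (iotaS O E t σ) := by
  intro a b h
  apply Subtype.ext
  exact σ.injective h

theorem iotaS_poly (σ : ↥E ≃ₐ[K] ↥E) (hσt : σ t = t) (r : (↥O)[X]) :
    iotaS O E t σ (polyToChart ↥O t r) = aeval t r := by
  rw [iotaS_apply, coe_polyToChart]
  refine apply_adjoin O E t _ (apply_algebraMap_O O E σ) hσt _ ?_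
  rw [Algebra.adjoin_singleton_eq_range_aeval]
  exact ⟨r, rfl⟩

theorem iotaS_isIntegral (σ : ↥E ≃ₐ[K] ↥E) (hσt : σ t = t) (z : ↥(chart ↥O t)) :
    IsIntegral ↥(Algebra.adjoin ↥O {t}) (iotaS O E t σ z) :=
  isIntegral_map_of_fix (Algebra.adjoin ↥O {t}) _
    (fun a ha => apply_adjoin O E t _ (apply_algebraMap_O O E σ) hσt a ha)
    ((mem_chart ↥O).1 z.2)

end Main

end Fermat.Agent.ES.R48.VertGal4
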