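/-
Programme R (S48, Deligne–Serre), chapter GEOM / G3 MODEL₁, part G′ (a) (helper4): **the vertical
data of a Galois cover of a saturated field** (continuation of `VertGal4`).

Gauss setting `(O, π, E ≤ fracField O ⊂ K((q)), t ∈ E ∩ gaussRing O, t̃ transcendental)`, `H` a
finite group of `K`-automorphisms of `E` fixing `t`, `E₀` an intermediate field containing the fixed
field of `H`, saturated for the chart `O[t]`.  Then

* `vertData` : `SmoothProd4.VertData O E π t`, with `k₀ := κ(t̃)`, `L := H → κ((q))`,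
  `ρ₀ := VertGauss22.phi`, `ρ z := (gaussRed (σ z))_{σ ∈ H}`;
  the kernel of `ρ` is `π · chart O t` by `VertGal4.isIntegral_of_forall_mem`, the values are
  separable by `SepLaurent25` (`ord t̃` prime to the residue characteristic) and
  `DiscProd4.isSeparable_pi`.

No irreducibility of the special fibre of `E` is used.
-/
import Fermat.Agent.ES.R48.VertGal4

set_option autoImplicit false
set_option linter.unusedSectionVars false
set_option linter.unusedVariables false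
set_option linter.style.haveILetI false

noncomputable section

open ModularCurve Polynomial

namespace Fermat.Agent.ES.R48.VertGalData4

open Fermat.Agent.RED.PUR.GaussGen8 Fermat.Agent.RED.PUR.KtGauss8 Fermat.Agent.RED.PUR.G1Package8
  Fermat.Agent.RED.PUR.VertGauss22 Fermat.Agent.RED.PUR.VertPurity22
  Fermat.Agent.RED.PUR.ChartsGeneric13 Fermat.Agent.ES.R48.SmoothProd4
  Fermat.Agent.ES.R48.VertGal4

universe u

variable {K : Type u} [Field K] (O : ValuationSubring K) [IsDiscreteValuationRing ↥O]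
  {π : ↥O} (hπ : Irreducible π)
  (E : IntermediateField K (LaurentSeries K)) (hE : E ≤ fracField O)
  (t : ↥E) (ht : (t : LaurentSeries K) ∈ gaussRing O)

/-- the Gauss reduction of the `σ`-conjugate, on the chart. -/
def psiS (σ : ↥E ≃ₐ[K] ↥E) (hσt : σ t = t) : ↥(chart ↥O t) →+* LaurentSeries (Res O) :=
  (gaussVSRed (isUnif_of_irreducible O hπ) E hE).comp
    (RingHom.codRestrict (iotaS O E t σ) (OvE O hπ E hE)
      (fun z => mem_OvE_of_isIntegral hπ hE t ht (iotaS_isIntegral O E t σ hσt z)))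

theorem psiS_apply (σ : ↥E ≃ₐ[K] ↥E) (hσt : σ t = t) (z : ↥(chart ↥O t)) :
    psiS O hπ E hE t ht σ hσt z =
      gaussRed O ⟨((iotaS O E t σ z : ↥E) : LaurentSeries K),
        (mem_OvE_iff O hπ E hE _).mp
          (mem_OvE_of_isIntegral hπ hE t ht (iotaS_isIntegral O E t σ hσt z))⟩ := rfl

/-- **`hcomp`** for one conjugate. -/
theorem psiS_comp (σ : ↥E ≃ₐ[K] ↥E) (hσt : σ t = t) (r : (↥O)[X]) :
    psiS O hπ E hE t ht σ hσt (polyToChart ↥O t r) =
      algebraMap ↥(kt O ⟨(t : LaurentSeries K), ht⟩) (LaurentSeries (Res O))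
        (phi O E t ht r) := by
  letI : Algebra (↥O)[X] ↥(chart ↥O t) := (polyToChart ↥O t).toAlgebra
  exact psi_comp O hπ E hE t ht (iotaS O E t σ) (fun r => iotaS_poly O E t σ hσt r)
    (iotaS_isIntegral O E t σ hσt) r

/-- **`hsep`** for one conjugate. -/
theorem psiS_isSeparable
    (htr : Transcendental (Res O) (gaussRed O ⟨(t : LaurentSeries K), ht⟩))
    (ℓ : ℕ) [Fact ℓ.Prime] [CharP (Res O) ℓ] [PerfectField (Res O)]
    (hord : IsCoprime (gaussRed O ⟨(t : LaurentSeries K), ht⟩).order (ℓ : ℤ))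
    (σ : ↥E ≃ₐ[K] ↥E) (hσt : σ t = t) (z : ↥(chart ↥O t)) :
    IsSeparable ↥(kt O ⟨(t : LaurentSeries K), ht⟩) (psiS O hπ E hE t ht σ hσt z) := by
  letI : Algebra (↥O)[X] ↥(chart ↥O t) := (polyToChart ↥O t).toAlgebra
  exact isSeparable_psi_of_order O hπ E hE t ht htr (iotaS O E t σ)
    (fun r => iotaS_poly O E t σ hσt r) (iotaS_isIntegral O E t σ hσt)
    (iotaS_injective O E t σ) ℓ hord z

theorem algebraMap_pi_eq_poly :
    algebraMap ↥O ↥(chart ↥O t) π = polyToChart ↥O t (C π) := by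
  apply Subtype.ext
  rw [coe_polyToChart, aeval_C]
  rfl

/-- `ψ_σ (π) = 0`. -/
theorem psiS_pi (σ : ↥E ≃ₐ[K] ↥E) (hσt : σ t = t) :
    psiS O hπ E hE t ht σ hσt (algebraMap ↥O ↥(chart ↥O t) π) = 0 := by
  rw [algebraMap_pi_eq_poly, psiS_comp, phi_C_pi O hπ E t ht, map_zero]

/-- if `ψ_σ z = 0` then the `σ`-conjugate of `π⁻¹ z` lies in the Gauss ring. -/
theorem conj_div_pi_mem (σ : ↥E ≃ₐ[K] ↥E) (hσt : σ t = t) (z : ↥(chart ↥O t))
    (h : psiS O hπ E hE t ht σ hσt z = 0) :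
    (((σ : ↥E →+* ↥E) ((algebraMap ↥O ↥E π)⁻¹ * (z : ↥E)) : ↥E) : LaurentSeries K) ∈
      gaussRing O := by
  have hu := isUnif_of_irreducible O hπ
  rw [psiS_apply] at h
  obtain ⟨g, hg⟩ := (gaussRed_eq_zero_iff hu _).mp h
  have hg' : ((iotaS O E t σ z : ↥E) : LaurentSeries K) = piK π * (g : LaurentSeries K) :=
    congrArg (fun y : ↥(gaussRing O) => (y : LaurentSeries K)) hg
  have h2 : ((σ : ↥E →+* ↥E) ((algebraMap ↥O ↥E π)⁻¹ * (z : ↥E)) : ↥E) =
      (algebraMap ↥O ↥E π)⁻¹ * iotaS O E t σ z := by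
    rw [RingHom.map_mul, map_inv₀, apply_algebraMap_O O E σ π, iotaS_apply]
  have h3 : (((σ : ↥E →+* ↥E) ((algebraMap ↥O ↥E π)⁻¹ * (z : ↥E)) : ↥E) : LaurentSeries K) =
      (g : LaurentSeries K) := by
    rw [h2]
    show ((algebraMap ↥O ↥E π : ↥E) : LaurentSeries K)⁻¹ *
      ((iotaS O E t σ z : ↥E) : LaurentSeries K) = _
    rw [coe_algebraMap_pi, hg', ← mul_assoc, inv_mul_cancel₀ (piK_ne_zero hu), one_mul]
  rw [h3]
  exact g.2

section Data

variable (H : Subgroup (↥E ≃ₐ[K] ↥E)) [Finite H]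
  (hHt : ∀ σ ∈ H, σ t = t)
  (E₀ : IntermediateField K (LaurentSeries K))
  (hfix : ∀ x : ↥E, (∀ σ ∈ H, σ x = x) → (x : LaurentSeries K) ∈ E₀)
  (hsat : ∀ x : ↥E, (x : LaurentSeries K) ∈ E₀ → (x : LaurentSeries K) ∈ gaussRing O →
    IsIntegral ↥(Algebra.adjoin ↥O {t}) (algebraMap ↥O ↥E π * x) →
    IsIntegral ↥(Algebra.adjoin ↥O {t}) x)

/-- the total reduction `z ↦ (gaussRed (σ z))_σ`. -/
def rhoH : ↥(chart ↥O t) →+* (↥H → LaurentSeries (Res O)) :=
  RingHom.pi fun σ : ↥H => psiS O hπ E hE t ht (σ : ↥E ≃ₐ[K] ↥E) (hHt σ σ.2)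

theorem rhoH_apply (z : ↥(chart ↥O t)) (σ : ↥H) :
    rhoH O hπ E hE t ht H hHt z σ = psiS O hπ E hE t ht (σ : ↥E ≃ₐ[K] ↥E) (hHt σ σ.2) z := rfl

include hfix hsat in
/-- **`hker`**: the kernel of the total reduction is `π · chart O t`. -/
theorem rhoH_eq_zero_iff (z : ↥(chart ↥O t)) :
    rhoH O hπ E hE t ht H hHt z = 0 ↔ algebraMap ↥O ↥(chart ↥O t) π ∣ z := by
  have hpi := algebraMap_pi_ne_zero hπ (E := E)
  constructor
  · intro h0
    obtain ⟨y, hy⟩ : ∃ y : ↥E, y = (algebraMap ↥O ↥E π)⁻¹ * (z : ↥E) := ⟨_, rfl⟩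
    have hzy : (z : ↥E) = algebraMap ↥O ↥E π * y := by
      rw [hy, ← mul_assoc, mul_inv_cancel₀ hpi, one_mul]
    have hyint : IsIntegral ↥(Algebra.adjoin ↥O {t}) y := by
      refine isIntegral_of_forall_mem O E t H hHt E₀ hfix hsat y ?_ ?_
      · intro σ hσH
        have h1 : psiS O hπ E hE t ht σ (hHt σ hσH) z = 0 :=
          congrFun h0 (⟨σ, hσH⟩ : ↥H)
        rw [hy]
        exact conj_div_pi_mem O hπ E hE t ht σ (hHt σ hσH) z h1
      · rw [← hzy]
        exact (mem_chart ↥O).1 z.2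
    exact ⟨⟨y, (mem_chart ↥O).2 hyint⟩, Subtype.ext hzy⟩
  · rintro ⟨c, rfl⟩
    funext σ
    have h1 : rhoH O hπ E hE t ht H hHt (algebraMap ↥O ↥(chart ↥O t) π * c) σ =
        psiS O hπ E hE t ht (σ : ↥E ≃ₐ[K] ↥E) (hHt σ σ.2)
          (algebraMap ↥O ↥(chart ↥O t) π * c) := rfl
    rw [h1, RingHom.map_mul, psiS_pi, zero_mul]
    rfl

include hπ hE hHt hfix hsat in
/-- **The vertical data of a Galois cover of a saturated field.** -/
theorem vertData
    (htr : Transcendental (Res O) (gaussRed O ⟨(t : LaurentSeries K), ht⟩))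
    (ℓ : ℕ) [Fact ℓ.Prime] [CharP (Res O) ℓ] [PerfectField (Res O)]
    (hord : IsCoprime (gaussRed O ⟨(t : LaurentSeries K), ht⟩).order (ℓ : ℤ)) :
    VertData.{u, u, u} O E π t := by
  refine ⟨↥(kt O ⟨(t : LaurentSeries K), ht⟩), ↥H → LaurentSeries (Res O), inferInstance,
    inferInstance, inferInstance,
    Pi.algebra ↥H (fun _ => LaurentSeries (Res O)) (R := ↥(kt O ⟨(t : LaurentSeries K), ht⟩)),
    phi O E t ht, rhoH O hπ E hE t ht H hHt, ?_, ?_, ?_, ?_, ?_⟩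
  · intro r
    funext σ
    rw [rhoH_apply, psiS_comp]
    rfl
  · exact phi_eq_zero_iff O hπ E t ht htr
  · exact rhoH_eq_zero_iff O hπ E hE t ht H hHt E₀ hfix hsat
  · exact phi_frac O E t ht
  · intro z
    exact Fermat.Agent.ES.R48.DiscProd4.isSeparable_pi _ fun σ =>
      psiS_isSeparable O hπ E hE t ht htr ℓ hord (σ : ↥E ≃ₐ[K] ↥E) (hHt σ σ.2) z

end Data

end Fermat.Agent.ES.R48.VertGalData4
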