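/-
Programme R (S48, Deligne–Serre), chapter GEOM / G3 MODEL₁, part G′ (a) (helper4): **saturation of a
subfield, stated inside the big field** — the `hsat` hypothesis of `VertGalData4.vertData`.

Gauss setting `(O, π, E₀ ≤ E ≤ fracField O ⊂ K((q)), t ∈ E₀ ∩ gaussRing O, t̃ transcendental)`.  If
`E₀` satisfies `(DEG) + (IRR)` of `G1Package8` (main's `GaussInst25.exists_degLe_irr_FK` for
`E₀ = K · F_full(M)`), then an element `x ∈ E₀ ∩ gaussRing O` whose `π`-multiple is integral over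
`O[t]` is integral over `O[t]` — as a statement about elements of `E`:

* `hsat_of_sub`, `hsat_inv_of_sub`  (charts `O[t]`, `O[t⁻¹]`);
* `order_inv`, `isCoprime_order_inv` (`hord` for `t⁻¹`);
* `vertData_pair` : `VertData O E π t ∧ VertData O E π t⁻¹` for a finite group `H` of
  `K`-automorphisms of `E` fixing `E₀` pointwise with `E^H ⊆ E₀`.
-/
import Fermat.Agent.ES.R48.VertGalData4

set_option autoImplicit false
set_option linter.unusedSectionVars false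
set_option linter.unusedVariables false

noncomputable section

open ModularCurve Polynomial

namespace Fermat.Agent.ES.R48.SatTransfer4

open Fermat.Agent.RED.PUR.GaussGen8 Fermat.Agent.RED.PUR.KtGauss8 Fermat.Agent.RED.PUR.G1Package8
  Fermat.Agent.ES.R48.SmoothProd4

universe u

variable {K : Type u} [Field K] {O : ValuationSubring K} [IsDiscreteValuationRing ↥O]
  {π : ↥O} (hπ : Irreducible π)
  {E₀ E : IntermediateField K (LaurentSeries K)} (h0 : E₀ ≤ E) (hE : E ≤ fracField O)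

/-- the inclusion `Ov0(E₀) → Ov0(E)`. -/
def ov0Incl (tG : ↥(gaussRing O)) : ↥(Ov0 O E₀ tG) →+* ↥(Ov0 O E tG) where
  toFun y := ⟨⟨((y : ↥E₀) : LaurentSeries K), h0 (y : ↥E₀).2⟩, y.2⟩
  map_one' := rfl
  map_mul' _ _ := rfl
  map_zero' := rfl
  map_add' _ _ := rfl

include hπ h0 hE in
/-- **`hsat` for the chart `O[t]`**, from `(DEG) + (IRR)` of the subfield `E₀ ∋ t`. -/
theorem hsat_of_sub (t : ↥E) (ht : (t : LaurentSeries K) ∈ gaussRing O)
    (htE₀ : (t : LaurentSeries K) ∈ E₀)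
    (htr : Transcendental (Res O) (gaussRed O ⟨(t : LaurentSeries K), ht⟩))
    {n : ℕ} (hdeg : DegLe O E₀ ⟨(t : LaurentSeries K), ht⟩ n)
    (hirr : Irr O E₀ ⟨(t : LaurentSeries K), ht⟩ n) :
    ∀ x : ↥E, (x : LaurentSeries K) ∈ E₀ → (x : LaurentSeries K) ∈ gaussRing O →
      IsIntegral ↥(Algebra.adjoin ↥O {t}) (algebraMap ↥O ↥E π * x) →
      IsIntegral ↥(Algebra.adjoin ↥O {t}) x := by
  intro x hx0 hxg hπx
  have hE₀ : E₀ ≤ fracField O := h0.trans hE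
  have hx₀ : (⟨(x : LaurentSeries K), hx0⟩ : ↥E₀) ∈ OvE O hπ E₀ hE₀ :=
    (mem_OvE_iff O hπ E₀ hE₀ _).mpr hxg
  have hsp : IsIntegral ↥(Ov0 O E₀ ⟨(t : LaurentSeries K), ht⟩)
      (⟨(x : LaurentSeries K), hx0⟩ : ↥E₀) :=
    span hπ hE₀ htr htE₀ hdeg hirr _ hx₀
  have hb : IsIntegral ↥(Ov0 O E ⟨(t : LaurentSeries K), ht⟩) x := by
    have h1 := IsIntegral.map_of_comp_eq (ov0Incl h0 ⟨(t : LaurentSeries K), ht⟩)
      ((IntermediateField.inclusion h0 : ↥E₀ →ₐ[K] ↥E) : ↥E₀ →+* ↥E)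
      (by ext y; rfl) hsp
    have h2 : ((IntermediateField.inclusion h0 : ↥E₀ →ₐ[K] ↥E) : ↥E₀ →+* ↥E)
        (⟨(x : LaurentSeries K), hx0⟩ : ↥E₀) = x := Subtype.ext rfl
    rwa [h2] at h1
  exact isIntegral_adjoin_of_mul hπ (transcendental_O hπ t ht htr)
    (Ov0 O E ⟨(t : LaurentSeries K), ht⟩) (Ov0_rep hπ t ht htr) hb hπx

include hπ h0 hE in
/-- **`hsat` for the chart `O[t⁻¹]`.** -/
theorem hsat_inv_of_sub (t : ↥E) (ht : (t : LaurentSeries K) ∈ gaussRing O)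
    (htE₀ : (t : LaurentSeries K) ∈ E₀)
    (htr : Transcendental (Res O) (gaussRed O ⟨(t : LaurentSeries K), ht⟩))
    {n : ℕ} (hdeg : DegLe O E₀ ⟨(t : LaurentSeries K), ht⟩ n)
    (hirr : Irr O E₀ ⟨(t : LaurentSeries K), ht⟩ n) :
    ∀ x : ↥E, (x : LaurentSeries K) ∈ E₀ → (x : LaurentSeries K) ∈ gaussRing O →
      IsIntegral ↥(Algebra.adjoin ↥O {t⁻¹}) (algebraMap ↥O ↥E π * x) →
      IsIntegral ↥(Algebra.adjoin ↥O {t⁻¹}) x :=
  hsat_of_sub hπ h0 hE t⁻¹ (tinv_mem_gaussRing t ht htr) (inv_mem htE₀)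
    (transcendental_inv t ht htr)
    (degLe_inv (E := E₀) (⟨(t : LaurentSeries K), htE₀⟩ : ↥E₀) ht htr hdeg)
    (irr_inv (E := E₀) (⟨(t : LaurentSeries K), htE₀⟩ : ↥E₀) ht htr hirr)

/-- the order of the inverse of a nonzero Laurent series over a field. -/
theorem order_inv {k : Type*} [Field k] (x : LaurentSeries k) (hx : x ≠ 0) :
    (x⁻¹).order = -x.order := by
  have h1 : (x * x⁻¹).order = x.order + (x⁻¹).order :=
    HahnSeries.order_mul hx (inv_ne_zero hx)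
  rw [mul_inv_cancel₀ hx, HahnSeries.order_one] at h1
  linarith

/-- **`hord` for `t⁻¹`.** -/
theorem isCoprime_order_inv (t : ↥E) (ht : (t : LaurentSeries K) ∈ gaussRing O)
    (htr : Transcendental (Res O) (gaussRed O ⟨(t : LaurentSeries K), ht⟩)) (ℓ : ℤ)
    (hord : IsCoprime (gaussRed O ⟨(t : LaurentSeries K), ht⟩).order ℓ) :
    IsCoprime (gaussRed O ⟨((t⁻¹ : ↥E) : LaurentSeries K), tinv_mem_gaussRing t ht htr⟩).order ℓ := by
  rw [gaussRed_inv' t ht htr, order_inv _ (gaussRed_ne_zero_of_transcendental t ht htr)]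
  exact hord.neg_left

include hπ h0 hE in
/-- **The vertical data of both charts**: `E / E₀` Galois-like with finite group `H`
(`E₀` fixed pointwise, `E^H ⊆ E₀`), `E₀ ∋ t` with `(DEG) + (IRR)`. -/
theorem vertData_pair (t : ↥E) (ht : (t : LaurentSeries K) ∈ gaussRing O)
    (htE₀ : (t : LaurentSeries K) ∈ E₀)
    (H : Subgroup (↥E ≃ₐ[K] ↥E)) [Finite H]
    (hHfix : ∀ σ ∈ H, ∀ x : ↥E, (x : LaurentSeries K) ∈ E₀ → σ x = x)
    (hfix : ∀ x : ↥E, (∀ σ ∈ H, σ x = x) → (x : LaurentSeries K) ∈ E₀)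
    (htr : Transcendental (Res O) (gaussRed O ⟨(t : LaurentSeries K), ht⟩))
    (ℓ : ℕ) [Fact ℓ.Prime] [CharP (Res O) ℓ] [PerfectField (Res O)]
    (hord : IsCoprime (gaussRed O ⟨(t : LaurentSeries K), ht⟩).order (ℓ : ℤ))
    {n : ℕ} (hdeg : DegLe O E₀ ⟨(t : LaurentSeries K), ht⟩ n)
    (hirr : Irr O E₀ ⟨(t : LaurentSeries K), ht⟩ n) :
    VertData.{u, u, u} O E π t ∧ VertData.{u, u, u} O E π t⁻¹ := by
  have hHt : ∀ σ ∈ H, σ t = t := fun σ hσ => hHfix σ hσ t htE₀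
  have hHt' : ∀ σ ∈ H, σ t⁻¹ = t⁻¹ := fun σ hσ => hHfix σ hσ t⁻¹ (inv_mem htE₀)
  refine ⟨?_, ?_⟩
  · exact Fermat.Agent.ES.R48.VertGalData4.vertData O hπ E hE t ht H hHt E₀ hfix
      (hsat_of_sub hπ h0 hE t ht htE₀ htr hdeg hirr) htr ℓ hord
  · exact Fermat.Agent.ES.R48.VertGalData4.vertData O hπ E hE t⁻¹ (tinv_mem_gaussRing t ht htr) H
      hHt' E₀ hfix (hsat_inv_of_sub hπ h0 hE t ht htE₀ htr hdeg hirr)
      (transcendental_inv t ht htr) ℓ (isCoprime_order_inv t ht htr (ℓ : ℤ) hord)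

end Fermat.Agent.ES.R48.SatTransfer4
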