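/-
Programme R (S48, Deligne–Serre), chapter GEOM / G3 MODEL₁ (helper4): **VERT₁, concrete** —
`vertTarget1 : G3Targets4.VertTarget1 n e M A`.

For all large number fields `K`, `O = A ∩ K`, `E = K · F1 M`, `E₀ = K · F_full(M)`, `t = tq K n e`:

* `H` := the finite group of diamond automorphisms of `E` (`DiamondKFinal11.exists_diamondK`,
  helper11): `E₀` fixed pointwise, `E^H ⊆ E₀`;
* `E ≤ fracField O` (`GaussBridgeOne10.FK1_le_fracField`, helper10);
* `(DEG) + (IRR)` for `E₀` (main's `GaussInst25.exists_degLe_irr_FK`);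
* `ord t̃ = -1` prime to `ℓ` (`TqOrder26`);
⇒ `SatTransfer4.vertData_pair` gives the vertical data of both charts.  The finiteness clause of the
target is an input (`RankConcreteOne`).
-/
import Fermat.Agent.ES.R48.SatTransfer4
import Fermat.Agent.ES.R48.G3Targets4
import Fermat.Agent.ES.R48.DiamondKFinal11
import Fermat.Agent.ES.R48.GaussBridgeOne10
import Fermat.Agent.RED.PUR.GaussInst25
import Fermat.Agent.RED.PUR.TqOrder26
import Fermat.Agent.RED.ModelFinal4
import Fermat.Agent.RED.DESC.NumberFieldDVR27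

set_option autoImplicit false
set_option linter.unusedSectionVars false
set_option linter.unusedVariables false
set_option linter.style.haveILetI false

open HahnSeries ModularCurve IntermediateField
open scoped MatrixGroups

noncomputable section

namespace Fermat.Agent.ES.R48.VertConcreteOne4

open Fermat.Agent.RED.Interface4 Fermat.Agent.RED.PUR.GaussGen8 Fermat.Agent.RED.PUR.KtGauss8
  Fermat.Agent.RED.PUR.G1Package8 Fermat.Agent.RED.ModelTargets4
  Fermat.Agent.RED.BASE.EtaQuot12 Fermat.Agent.X0 Fermat.Agent.RED.NumInst4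
  Fermat.Agent.RED.DESC.NumberFieldDVR27 Fermat.Agent.RED.BASE.Interface12
  Fermat.Agent.RED.BASE Fermat.Agent.RED.BASE.Hauptmodul12 Fermat.Agent.ES.R48.G3Defs4
  Fermat.Agent.ES.R48.G3Targets4

variable {n e : ℕ} [NeZero n] {M : ℕ} [NeZero M] {A : ValuationSubring Qbar}

/-- **VERT₁**: the vertical data of both charts of `K · F1 M` over `A ∩ K`, for all large number
fields `K` and `t = tq K n e`, given the finiteness of `K · F1 M` over `K(t)`. -/
theorem vertTarget1 (hb : BaseHyp n e) (hnM : n ∣ M) (hM1 : M ≠ 1) {ℓ : ℕ} [Fact ℓ.Prime]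
    (hℓM : ¬ ℓ ∣ M) (hA : A.LiesOverPrime ℓ)
    (hfin : EventuallyT1 n e M A fun K _ t =>
      relfinrank (IntermediateField.adjoin (↥K) {((t : ↥(FK1 M K)) : LaurentSeries K)})
        (FK1 M K) ≠ 0) :
    VertTarget1 n e M A := by
  have hℓ : ℓ.Prime := Fact.out
  have hB := Main12.baseExports hb M hnM
  obtain ⟨K₁, hK₁, hT⟩ := Fermat.Agent.RED.ModelFinal4.tTarget (n := n) (e := e) M hB.mem
  obtain ⟨K₂, hK₂, hJ⟩ := Fermat.Agent.RED.ModelFinal4.jTarget (n := n) (e := e) hB.genBase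
  obtain ⟨K₃, hK₃, hfin⟩ := hfin
  refine ⟨K₁ ⊔ K₂ ⊔ K₃, inferInstance, fun K hKfd hle ϖ hϖ t htq => ?_⟩
  have hle1 : K₁ ≤ K := le_trans (le_trans le_sup_left le_sup_left) hle
  have hle2 : K₂ ≤ K := le_trans (le_trans le_sup_right le_sup_left) hle
  have hle3 : K₃ ≤ K := le_trans le_sup_right hle
  have hdvr : IsDiscreteValuationRing ↥(AK A K) := isDiscreteValuationRing_AK A K hℓ.ne_zero hA
  have hchar : CharP (Res (AK A K)) ℓ := charP_residueField_AK A K hℓ hA
  have hfinres : Finite (Res (AK A K)) := finite_residueField_AK A K hℓ.ne_zero hA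
  have hperf : PerfectField (Res (AK A K)) := PerfectField.ofFinite
  have hE : FK1 M K ≤ fracField (AK A K) :=
    Fermat.Agent.ES.R48.GaussBridgeOne10.FK1_le_fracField A K M
  have ht : ((t : ↥(FK1 M K)) : LaurentSeries K) ∈ gaussRing (AK A K) := by
    rw [htq]; exact tq_mem_gaussRing (AK A K) n e
  have htr : Transcendental (Res (AK A K))
      (gaussRed (AK A K) ⟨((t : ↥(FK1 M K)) : LaurentSeries K), ht⟩) := by
    have h1 : (⟨((t : ↥(FK1 M K)) : LaurentSeries K), ht⟩ : gaussRing (AK A K)) =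
        ⟨tq K n e, tq_mem_gaussRing (AK A K) n e⟩ := Subtype.ext htq
    rw [h1]
    exact transcendental_gaussRed_tq (AK A K) n e
  have htE₀ : ((t : ↥(FK1 M K)) : LaurentSeries K) ∈ FK M K := by
    rw [htq]; exact hT K hKfd hle1
  have hjt : jqModC K ∈ Kt (AK A K) ⟨((t : ↥(FK1 M K)) : LaurentSeries K), ht⟩ := by
    show jqModC K ∈ IntermediateField.adjoin K {((t : ↥(FK1 M K)) : LaurentSeries K)}
    rw [htq]
    exact hJ K hKfd hle2
  obtain ⟨nn, -, hdeg, hirr⟩ := Fermat.Agent.RED.PUR.GaussInst25.exists_degLe_irr_FK A K hϖ ℓ M hℓM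
    ⟨((t : ↥(FK1 M K)) : LaurentSeries K), ht⟩ htE₀ hjt
  obtain ⟨H, hHfin, hHfix, hfix⟩ :=
    Fermat.Agent.ES.R48.DiamondKFinal11.exists_diamondK M hM1 K
  have hord := Fermat.Agent.RED.PUR.TqOrder26.isCoprime_order_gaussRed (AK A K) n e t ht htq (ℓ : ℤ)
  obtain ⟨hv0, hv1⟩ := Fermat.Agent.ES.R48.SatTransfer4.vertData_pair hϖ (FK_le_FK1 M K) hE t ht
    htE₀ H hHfix hfix htr ℓ hord hdeg hirr
  exact ⟨hfin K hKfd hle3 ϖ hϖ t htq, hv0, hv1⟩

end Fermat.Agent.ES.R48.VertConcreteOne4
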