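/-
Programme R (S48, Deligne–Serre), interface file (helper27): THE CONTRACT between

* half B ("mod-ℓ representations": from the frozen hypotheses to `DSContract`), and
* half A ("Deligne–Serre proper": from `DSContract` to the frozen conclusion).

Only prime-indexed data `a p`, `p ∤ N`, enter.  `K` is an abstract number field with a chosen
embedding `ι : K →+* ℂ`; `aO p`, `eO x` are the algebraic integers `a p`, `ε x` inside `𝓞 K`.
-/
import Mathlib
import Fermat.Prelude.Def_GaloisRep_Residual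
import Fermat.Prelude.Def_Deformations_MatrixRepresentation

set_option autoImplicit false

open CongruenceSubgroup NumberField
open scoped MatrixGroups

namespace Fermat.Agent.ES.R48.DSIface27

/-- the absolute Galois group of `ℚ` (as in the frozen statement S48). -/
abbrev GQ := (AlgebraicClosure ℚ ≃ₐ[ℚ] AlgebraicClosure ℚ)

/-- The formal Hecke relations of the frozen statement, for a weight-one cusp form `f` of ANY
level `N'`, a Dirichlet character `ε` mod `N`, at the primes `p ∤ N`. -/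
def HeckeRel (N : ℕ) (ε : DirichletCharacter ℂ N) {N' : ℕ} (f : CuspForm (Gamma1 N') 1) : Prop :=
  ∀ p : ℕ, p.Prime → ¬ p ∣ N → ∀ n : ℕ,
    ModularFormClass.qCoeff f (p * n) +
        ε (p : ZMod N) * (if p ∣ n then ModularFormClass.qCoeff f (n / p) else 0) =
      ModularFormClass.qCoeff f p * ModularFormClass.qCoeff f n

/-- Elementary semisimplicity of a two-dimensional representation: every stable line has a stable
complementary line. -/
def IsSemisimple2 {k : Type} [CommRing k] (ρ : GQ →* GL (Fin 2) k) : Prop :=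
  ∀ v : Fin 2 → k, v ≠ 0 → (∀ σ : GQ, ∃ c : k, (ρ σ : Matrix (Fin 2) (Fin 2) k).mulVec v = c • v) →
    ∃ w : Fin 2 → k, (∀ c : k, w ≠ c • v) ∧
      ∀ σ : GQ, ∃ c : k, (ρ σ : Matrix (Fin 2) (Fin 2) k).mulVec w = c • w

/-- "Unramified at every `p ∤ M`, with trace `t p` and determinant `d p` at the (arithmetic)
Frobenius elements": the local shape of the frozen conclusion, over any field `k`. -/
def FrobData {k : Type} [CommRing k] (M : ℕ) (ρ : GQ →* GL (Fin 2) k) (t d : ℕ → k) : Prop :=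
  ∀ p : ℕ, p.Prime → ¬ p ∣ M →
    ∀ A : ValuationSubring (AlgebraicClosure ℚ), A.LiesOverPrime p →
      (∀ σ ∈ A.inertiaSubgroupIn ℚ, ρ σ = 1) ∧
      ∀ σ : GQ, A.IsFrobeniusAt σ p →
        ((ρ σ : GL (Fin 2) k) : Matrix (Fin 2) (Fin 2) k).trace = t p ∧
        ((ρ σ : GL (Fin 2) k) : Matrix (Fin 2) (Fin 2) k).det = d p

/-- **THE CONTRACT.**  `a p` (`p ∤ N` prime) are the Hecke eigenvalues of the frozen `f`. -/
def DSContract (N : ℕ) [NeZero N] (ε : DirichletCharacter ℂ N) (a : ℕ → ℂ) : Prop :=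
  ∃ (K : Type) (_ : Field K) (_ : NumberField K) (ι : K →+* ℂ)
    (aO : ℕ → 𝓞 K) (eO : ZMod N → 𝓞 K),
    -- (RAT-1) the data are algebraic integers of the number field `K`
    (∀ p : ℕ, p.Prime → ¬ p ∣ N → ι (aO p : K) = a p) ∧
    (∀ x : ZMod N, ι (eO x : K) = ε x) ∧
    -- (RAT-2) every conjugate system is again the system of a weight-one cusp form (any level)
    (∀ τ : K →+* ℂ, ∃ (N' : ℕ) (_ : NeZero N') (ε' : DirichletCharacter ℂ N)
        (f' : CuspForm (Gamma1 N') 1),
        ModularFormClass.qCoeff f' 1 = 1 ∧ HeckeRel N ε' f' ∧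
        (∀ p : ℕ, p.Prime → ¬ p ∣ N → ModularFormClass.qCoeff f' p = τ (aO p : K)) ∧
        ∀ x : ZMod N, ε' x = τ (eO x : K)) ∧
    -- (MODLAM) for all but finitely many `ℓ`, every reduction `𝓞 K → 𝔽_ℓ` carries a semisimple
    -- mod-`ℓ` representation with the reduced Frobenius data
    ∃ S₀ : Finset ℕ, ∀ ℓ : ℕ, ℓ.Prime → ℓ ∉ S₀ → ∀ φ : 𝓞 K →+* ZMod ℓ,
      ∃ ρb : GQ →* GL (Fin 2) (ZMod ℓ),
        GaloisFactorsThroughFiniteLevel ρb ∧ IsSemisimple2 ρb ∧
        FrobData (N * ℓ) ρb (fun p => φ (aO p)) (fun p => φ (eO (p : ZMod N)))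

/-- The frozen conclusion of S48, with `a p` in place of `qCoeff f p`. -/
def Conclusion (N : ℕ) [NeZero N] (ε : DirichletCharacter ℂ N) (a : ℕ → ℂ) : Prop :=
  ∃ ρ : GQ →* GL (Fin 2) ℂ, GaloisFactorsThroughFiniteLevel ρ ∧
    (Deformation.matrixRepresentation ρ).IsIrreducible ∧
    FrobData N ρ a (fun p => ε (p : ZMod N))

/-- Target of half A. -/
def HalfA : Prop :=
  ∀ (N : ℕ) [NeZero N] (ε : DirichletCharacter ℂ N) (a : ℕ → ℂ), DSContract N ε a → Conclusion N ε a

/-- Target of half B. -/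
def HalfB : Prop :=
  ∀ (N : ℕ) [NeZero N] (ε : DirichletCharacter ℂ N) (f : CuspForm (Gamma1 N) 1),
    ModularFormClass.qCoeff f 1 = 1 → HeckeRel N ε f →
      DSContract N ε (fun p => ModularFormClass.qCoeff f p)

/-- **Shape check**: the two halves give the frozen statement S48 verbatim. -/
theorem s48_of_halves (hA : HalfA) (hB : HalfB)
    (N : ℕ) [NeZero N] (ε : DirichletCharacter ℂ N) (f : CuspForm (Gamma1 N) 1)
    (hf₁ : ModularFormClass.qCoeff f 1 = 1)
    (hT : ∀ p : ℕ, p.Prime → ¬ p ∣ N → ∀ n : ℕ,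
        ModularFormClass.qCoeff f (p * n) +
            ε (p : ZMod N) * (if p ∣ n then ModularFormClass.qCoeff f (n / p) else 0) =
          ModularFormClass.qCoeff f p * ModularFormClass.qCoeff f n) :
    ∃ ρ : GQ →* GL (Fin 2) ℂ, GaloisFactorsThroughFiniteLevel ρ ∧
      (Deformation.matrixRepresentation ρ).IsIrreducible ∧
      ∀ p : ℕ, p.Prime → ¬ p ∣ N →
        ∀ A : ValuationSubring (AlgebraicClosure ℚ), A.LiesOverPrime p →
          (∀ σ ∈ A.inertiaSubgroupIn ℚ, ρ σ = 1) ∧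
          ∀ σ : GQ, A.IsFrobeniusAt σ p →
            ((ρ σ : GL (Fin 2) ℂ) : Matrix (Fin 2) (Fin 2) ℂ).trace = ModularFormClass.qCoeff f p ∧
            ((ρ σ : GL (Fin 2) ℂ) : Matrix (Fin 2) (Fin 2) ℂ).det = ε (p : ZMod N) :=
  hA N ε _ (hB N ε f hf₁ hT)

end Fermat.Agent.ES.R48.DSIface27
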