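/-
Programme R (S48, Deligne–Serre), chapter GEOM (helper13): **THE INTERNAL CONTRACT of GEOM**
(blueprint `R48_GEOM13.md`): literal `Prop`s for what the geometric sub-chapters export to the
two-dimensional wrapper G7, all stated on `JOne M = J₁(M)(ℚbar)` with the total operators
`heckeOne M p`, `diamondOne M e` of `JOneOps13`.

* G2/G3 : `HasDiamonds (AlgebraicClosure ℚ) M` (in `JOneOps13`), `HasLevelOne M` (open stabilisers:
  twin of `ES/GAL/OpenStab12.hasLevel_pic0`);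
* G5 (A) : `TorsionFinite M ℓ`;
* G4 : `UnramifiedAt M ℓ p`, `FrobRelAt M ℓ p` (Eichler–Shimura), `HeckeGaloisComm M p`;
* G5 ∘ G6 : `EigenOccursJ M ℓ tJ dJ` (a joint eigenvector in `J₁(M)[ℓ]`);
* G7 (helper13) proves `GeomJ` from `GeomInputs`.

ORIENTATION (see the header of `JOneOps13`): `heckeOne M p` is `T_p^* = T_p ⟨p⟩⁻¹` and
`diamondOne M e` is `⟨e⟩⁻¹` in the conventions of `TpForm9` / `Gamma1Slash9` (pull-backs of divisor
classes), so the Eichler–Shimura relation for an arithmetic Frobenius `σ` at `p ∤ M ℓ` reads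

  `⟨p⟩₁ σ² - T₁ σ + p = 0`  on `J₁(M)[ℓ]`,   `⟨p⟩₁ = diamondOne M p`, `T₁ = heckeOne M p`

(on points in characteristic `p`: `T₁ = ⟨p⟩₁ Frob + p Frob⁻¹`).  On a joint eigenvector with
`T₁ = tJ p`, `⟨e⟩₁ = dJ e` this is `σ² - (tJ p / dJ p) σ + p / dJ p = 0`.  For the eigensystem
`(θT, θD)` of `TpForm9.Tp`, `Gamma1Slash9.diamond` transported by a NATURAL (pull-back compatible)
`κ : Λ/ℓΛ → J₁(M)[ℓ]` one has `tJ = θT / θD`, `dJ = θD⁻¹`, whence `σ² - θT(p) σ + p θD(p) = 0`.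
-/
import Mathlib
import Fermat.Prelude.Def_GaloisRep_Residual
import Fermat.Prelude.Def_FLTPrelim_Ramification
import Fermat.Prelude.Def_EllipticCurve_FrobeniusTrace
import Fermat.Agent.ES.R48.DSIface27
import Fermat.Agent.ES.R48.JOneOps13

set_option autoImplicit false

noncomputable section

open ModularCurve AlgebraicCurve

namespace Fermat.Agent.ES.R48.GeomIface13

open FF1Defs13 JOneOps13
open DSIface27 (IsSemisimple2 FrobData)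

/-- the level is rigid at every prime not dividing it (`p` odd if `4 ∣ M`, `p ≠ 3` if `9 ∣ M`). -/
def BaseHyp (M : ℕ) : Prop := 4 ∣ M ∨ 9 ∣ M

/-- `p` as a unit modulo `M` (`1` if `p` is not prime to `M`). -/
def unitNat (M p : ℕ) : (ZMod M)ˣ :=
  if h : p.Coprime M then ZMod.unitOfCoprime p h else 1

theorem coe_unitNat {M p : ℕ} (h : p.Coprime M) : ((unitNat M p : (ZMod M)ˣ) : ZMod M) = p := by
  rw [unitNat, dif_pos h, ZMod.coe_unitOfCoprime]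

theorem unitNat_of_prime {M p : ℕ} (hp : p.Prime) (hpM : ¬ p ∣ M) :
    ((unitNat M p : (ZMod M)ˣ) : ZMod M) = p :=
  coe_unitNat ((Nat.Prime.coprime_iff_not_dvd hp).mpr hpM)

/-! ### Exports of the geometric sub-chapters -/

/-- **G2** (twin of `OpenStab12.hasLevel_pic0`): every point of `J₁(M)(ℚbar)` is fixed by an open
subgroup of `G_ℚ`. -/
def HasLevelOne (M : ℕ) : Prop :=
  ∀ y : JOne M, ∃ L : IntermediateField ℚ (AlgebraicClosure ℚ), FiniteDimensional ℚ L ∧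
    ∀ σ : GQ, (∀ a ∈ L, σ a = a) → σ • y = y

/-- **G5 (A)**: `J₁(M)[ℓ]` is finite. -/
def TorsionFinite (M ℓ : ℕ) : Prop := {x : JOne M | ℓ • x = 0}.Finite

/-- **G4 (a)**: `J₁(M)[ℓ]` is unramified at `p`. -/
def UnramifiedAt (M ℓ p : ℕ) : Prop :=
  ∀ A : ValuationSubring (AlgebraicClosure ℚ), A.LiesOverPrime p →
    ∀ σ ∈ A.inertiaSubgroupIn ℚ, ∀ x : JOne M, ℓ • x = 0 → σ • x = x

/-- **G4 (b)**, Eichler–Shimura at `p` on `J₁(M)[ℓ]`: `⟨p⟩₁ σ² - T₁ σ + p = 0` for every arithmetic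
Frobenius `σ` at `p`. -/
def FrobRelAt (M ℓ p : ℕ) : Prop :=
  ∀ A : ValuationSubring (AlgebraicClosure ℚ), A.LiesOverPrime p →
    ∀ σ : GQ, A.IsFrobeniusAt σ p → ∀ x : JOne M, ℓ • x = 0 →
      diamondOne M (unitNat M p) (σ • σ • x) - heckeOne M p (σ • x) + p • x = 0

/-- **G4 (c)**: `T_p` is defined over `ℚ`. -/
def HeckeGaloisComm (M p : ℕ) : Prop :=
  ∀ (σ : GQ) (x : JOne M), heckeOne M p (σ • x) = σ • heckeOne M p x

/-- everything G7 consumes from G2–G5 at the level `M` and the residue characteristic `ℓ`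
(`ℓ ∣ M` in the applications, so that `p ∤ M` implies `p ≠ ℓ`). -/
structure GeomInputs (M ℓ : ℕ) : Prop where
  diamonds : HasDiamonds (AlgebraicClosure ℚ) M
  level : HasLevelOne M
  finite : TorsionFinite M ℓ
  unram : ∀ p : ℕ, p.Prime → ¬ p ∣ M → UnramifiedAt M ℓ p
  frob : ∀ p : ℕ, p.Prime → ¬ p ∣ M → FrobRelAt M ℓ p
  comm : ∀ p : ℕ, p.Prime → ¬ p ∣ M → HeckeGaloisComm M p

/-- **G5 ∘ G6**: the eigensystem `(tJ, dJ)` of `(heckeOne M p, diamondOne M e)` occurs in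
`J₁(M)[ℓ]`. -/
def EigenOccursJ (M ℓ : ℕ) (tJ : ℕ → ZMod ℓ) (dJ : (ZMod M)ˣ → ZMod ℓ) : Prop :=
  ∃ x : JOne M, x ≠ 0 ∧ ℓ • x = 0 ∧
    (∀ p : ℕ, p.Prime → ¬ p ∣ M → heckeOne M p x = (tJ p).val • x) ∧
    ∀ e : (ZMod M)ˣ, diamondOne M e x = (dJ e).val • x

/-! ### The target of G7 -/

/-- the conclusion of G7 for the eigensystem `(tJ, dJ)` of the `J`-operators: a semisimple
two-dimensional mod-`ℓ` representation of finite level, unramified outside `M`, with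
`tr Frob_p = tJ p / dJ p`, `det Frob_p = p / dJ p`. -/
def RhobarJ (M ℓ : ℕ) (tJ : ℕ → ZMod ℓ) (dJ : (ZMod M)ˣ →* (ZMod ℓ)ˣ) : Prop :=
  ∃ ρb : GQ →* GL (Fin 2) (ZMod ℓ),
    GaloisFactorsThroughFiniteLevel ρb ∧ IsSemisimple2 ρb ∧
    FrobData M ρb (fun p => tJ p * (((dJ (unitNat M p))⁻¹ : (ZMod ℓ)ˣ) : ZMod ℓ))
      (fun p => (p : ZMod ℓ) * (((dJ (unitNat M p))⁻¹ : (ZMod ℓ)ˣ) : ZMod ℓ))

/-- **the target of G7** (`GeomTwoDim13`). -/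
def GeomJ : Prop :=
  ∀ (M ℓ : ℕ) [NeZero M], ℓ.Prime → ℓ ≠ 2 → ℓ ∣ M → GeomInputs M ℓ →
    ∀ (tJ : ℕ → ZMod ℓ) (dJ : (ZMod M)ˣ →* (ZMod ℓ)ˣ),
      EigenOccursJ M ℓ tJ (fun e => ((dJ e : (ZMod ℓ)ˣ) : ZMod ℓ)) → RhobarJ M ℓ tJ dJ

/-- the same in terms of the eigensystem `(θT, θD)` of `TpForm9.Tp`, `Gamma1Slash9.diamond`:
`tJ = θT / θD`, `dJ = θD⁻¹`, so that `tr Frob_p = θT p`, `det Frob_p = p θD(p)`. -/
def RhobarTheta (M ℓ : ℕ) (θT : ℕ → ZMod ℓ) (θD : (ZMod M)ˣ →* (ZMod ℓ)ˣ) : Prop :=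
  ∃ ρb : GQ →* GL (Fin 2) (ZMod ℓ),
    GaloisFactorsThroughFiniteLevel ρb ∧ IsSemisimple2 ρb ∧
    FrobData M ρb θT (fun p => (p : ZMod ℓ) * ((θD (unitNat M p) : (ZMod ℓ)ˣ) : ZMod ℓ))

/-- the eigensystem of the `J`-operators attached to `(θT, θD)`. -/
def tJOf {M ℓ : ℕ} (θT : ℕ → ZMod ℓ) (θD : (ZMod M)ˣ →* (ZMod ℓ)ˣ) : ℕ → ZMod ℓ :=
  fun p => θT p * (((θD (unitNat M p))⁻¹ : (ZMod ℓ)ˣ) : ZMod ℓ)

/-- `RhobarJ` for `(θT / θD, θD⁻¹)` is `RhobarTheta` for `(θT, θD)`. -/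
theorem rhobarTheta_of_rhobarJ {M ℓ : ℕ} {θT : ℕ → ZMod ℓ} {θD : (ZMod M)ˣ →* (ZMod ℓ)ˣ}
    (h : RhobarJ M ℓ (tJOf θT θD) θD⁻¹) : RhobarTheta M ℓ θT θD := by
  obtain ⟨ρb, h1, h2, h3⟩ := h
  refine ⟨ρb, h1, h2, ?_⟩
  intro p hp hpM A hA
  obtain ⟨hin, hfr⟩ := h3 p hp hpM A hA
  refine ⟨hin, fun σ hσ => ?_⟩
  obtain ⟨ht, hd⟩ := hfr σ hσ
  refine ⟨ht.trans ?_, hd.trans ?_⟩
  · show θT p * _ * _ = θT p
    rw [MonoidHom.inv_apply, inv_inv, mul_assoc, ← Units.val_mul, inv_mul_cancel, Units.val_one,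
      mul_one]
  · show (p : ZMod ℓ) * _ = _
    rw [MonoidHom.inv_apply, inv_inv]

end Fermat.Agent.ES.R48.GeomIface13
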