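/-
Programme R (S48, Deligne–Serre), chapter GEOM, G4 export (c) (helper13): **`heckeOne M p` commutes
with `G_ℚ`** — the twin of main's `ES/HECKE/HeckeGalois12.heckeOperatorAlong_smul` for `J₁(M)`.

The generic statement (`HeckeGalois12.pic0_correspondence_smul`) is imported from main; the only
geometric input is `FF.IsGen Qb (jF1 M)` (G2's degree theorem), used for "all inertia degrees are
one" (`FundId12.inertiaDegAlong_eq_one`).

* `heckeGaloisComm : FF.IsGen Qb (jF1 M) → ∀ p, GeomIface13.HeckeGaloisComm M p`.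
-/
import Mathlib
import Fermat.Agent.ES.HECKE.HeckeGalois12
import Fermat.Agent.ES.R48.X1Iface13
import Fermat.Agent.ES.R48.GeomIface13

set_option autoImplicit false
set_option synthInstance.maxHeartbeats 400000
set_option linter.unusedSectionVars false
set_option linter.style.haveILetI false

noncomputable section

open AlgebraicCurve ModularCurve

namespace Fermat.Agent.ES.R48.HeckeGalOne13

open Fermat.Agent.X0.FF Fermat.Agent.ES.HECKE.HeckeGalois12
open FF1Defs13 JOneOps13 X1Iface13

/-! ### The degeneracy maps and the coefficientwise Galois action -/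

section Degeneracy

variable {L : Type*} [Field L] [Algebra ℚ L] (M p : ℕ) [NeZero p]

theorem heckeOneAlphaBar_smul (σ : L ≃ₐ[ℚ] L) (f : laurentBaseChange L (F1 M)) :
    heckeOneAlphaBar M p L (arithmeticGalois (F1 M) σ • f) =
      arithmeticGalois (F1p M p) σ • heckeOneAlphaBar M p L f := by
  apply Subtype.ext
  rw [coe_heckeOneAlphaBar, coe_arithmeticGalois_smul, coe_arithmeticGalois_smul,
    coe_heckeOneAlphaBar]

theorem heckeOneBetaBar_smul (σ : L ≃ₐ[ℚ] L) (f : laurentBaseChange L (F1 M)) :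
    heckeOneBetaBar M p L (arithmeticGalois (F1 M) σ • f) =
      arithmeticGalois (F1p M p) σ • heckeOneBetaBar M p L f := by
  apply Subtype.ext
  rw [coe_heckeOneBetaBar, coe_arithmeticGalois_smul, coe_arithmeticGalois_smul,
    coe_heckeOneBetaBar, coeffMap_qExpand13]

end Degeneracy

/-! ### `T_p` commutes with `Gal(ℚ̄/ℚ)` -/

section Hecke

/-- `ℚbar`. -/
local notation "Qb" => AlgebraicClosure ℚ

variable (M : ℕ) [NeZero M]

/-- **`T_p (σ • x) = σ • T_p x`** on `J₁(M)(ℚ̄)`. -/
theorem heckeOneAlong_smul (hj : IsGen Qb (jF1 M)) (p : ℕ) [NeZero p] (σ : Qb ≃ₐ[ℚ] Qb)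
    (x : JOne M) :
    heckeOneAlong Qb M p (σ • x) = σ • heckeOneAlong Qb M p x := by
  by_cases h : HeckeOneInputsAlong Qb M p
  · obtain ⟨hα, hβ, hP, hfin, hFI, hN⟩ := h
    haveI := hP
    rw [heckeOneAlong_eq hα hβ hFI hfin hN, galois_smul_pic0_def, galois_smul_pic0_def]
    exact pic0_correspondence_smul (heckeOneBetaBar M p Qb) (heckeOneAlphaBar M p Qb) hβ hα
      (arithmeticGalois (F1 M) σ) (arithmeticGalois (F1p M p) σ) hFI hfin hN
      (heckeOneBetaBar_smul M p σ) (heckeOneAlphaBar_smul M p σ)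
      (fun w => Fermat.Agent.ES.HECKE.FundId12.inertiaDegAlong_eq_one (heckeOneAlphaBar M p Qb) hα
        hfin hj w) x
  · rw [heckeOneAlong_of_not h, AddMonoidHom.zero_apply, AddMonoidHom.zero_apply]
    exact (smul_zero (A := JOne M) σ).symm

/-- **G4 export (c)**: `GeomIface13.HeckeGaloisComm M p`, for every `p`. -/
theorem heckeGaloisComm (hj : IsGen Qb (jF1 M)) (p : ℕ) : GeomIface13.HeckeGaloisComm M p := by
  intro σ x
  by_cases hp : p = 0
  · rw [heckeOne, dif_pos hp, AddMonoidHom.zero_apply, AddMonoidHom.zero_apply]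
    exact (smul_zero (A := JOne M) σ).symm
  · haveI : NeZero p := ⟨hp⟩
    rw [heckeOne_eq]
    exact heckeOneAlong_smul M hj p σ x

end Hecke

end Fermat.Agent.ES.R48.HeckeGalOne13
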