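/-
Programme R (S48, Deligne–Serre), chapter GEOM, G2 export (helper13): **open stabilisers on
`J₁(M)(ℚbar)`** — the twin of main's `ES/GAL/OpenStab12` (§ Modular) for `F1bar M`.

The only geometric input is `FF.IsGen Qb (jF1 M)` (`j` is a transcendental generator of
`F1bar M / ℚbar`: G2's degree theorem); everything else is generic and imported from main
(`OpenStab12.smul_place_eq`, `HasLevel` calculus, `CoeffDescent1.exists_finite_descent`).

* `hasLevelOne : FF.IsGen Qb (jF1 M) → GeomIface13.HasLevelOne M`.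
-/
import Mathlib
import Fermat.Agent.ES.GAL.OpenStab12
import Fermat.Agent.ES.R48.X1Iface13
import Fermat.Agent.ES.R48.GeomIface13

set_option autoImplicit false
set_option synthInstance.maxHeartbeats 400000
set_option linter.unusedSectionVars false
set_option linter.style.haveILetI false

noncomputable section

open AlgebraicCurve ModularCurve IntermediateField

namespace Fermat.Agent.ES.R48.OpenStabOne13

open Fermat.Agent.X0.FF Fermat.Agent.ES.RED.SpecialFibre13 Fermat.Agent.ES.RED.PlaceValue13
open Fermat.Agent.ES.GAL.OpenStab12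
open FF1Defs13 X1Iface13

/-- `ℚbar`. -/
local notation "Qb" => AlgebraicClosure ℚ

attribute [local instance] isAlgebraic_qb

variable (M : ℕ) [NeZero M]

/-- every element of `F1bar M` is fixed by an open subgroup. -/
theorem hasLevel_elt1 (b : F1bar M) :
    HasLevel (fun σ => arithmeticGalois (F1 M) σ • b = b) := by
  obtain ⟨L, -, hL, b', -, hb'⟩ :=
    Fermat.Agent.RED.DESC.CoeffDescent1.exists_finite_descent (L := Qb)
      (F₀ := F1 M) ⊥ b.2
  refine ⟨L, hL, fun σ hσ => Subtype.ext ?_⟩
  rw [coe_arithmeticGalois_smul, ← hb', coeffMap_coeffMap]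
  refine coeffMap_congr (RingHom.ext fun a => ?_) b'
  exact hσ _ a.2

/-- the formal `j` is fixed by the whole Galois group. -/
theorem arithmeticGalois_smul_jF1 (σ : Qb ≃ₐ[ℚ] Qb) :
    arithmeticGalois (F1 M) σ • jF1 M = jF1 M := by
  apply Subtype.ext
  rw [coe_arithmeticGalois_smul]
  exact coeffMap_coeffEmb σ _

variable (hj : IsGen Qb (jF1 M))
include hj

/-- **every place of `F1bar M` is fixed by an open subgroup of `Gal(ℚ̄/ℚ)`.** -/
theorem hasLevel_place1 (P : Place Qb (F1bar M)) :
    HasLevel (fun σ => arithmeticGalois (F1 M) σ • P = P) := by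
  obtain ⟨x, hx, hgx, hP⟩ : ∃ x : F1bar M, IsGen Qb x ∧
      (∀ σ : Qb ≃ₐ[ℚ] Qb, arithmeticGalois (F1 M) σ • x = x) ∧
      x ∈ P.toValuationSubring := by
    rcases mem_or_inv_mem (x := jF1 M) P with h | h
    · exact ⟨_, hj, arithmeticGalois_smul_jF1 M, h⟩
    · refine ⟨_, isGen_inv hj, fun σ => ?_, h⟩
      rw [smul_inv'', arithmeticGalois_smul_jF1]
  haveI := finite_intRing hx
  obtain ⟨S, hS⟩ := (Module.finite_def.1 (finite_intRing hx) :
    (⊤ : Submodule (polyRing Qb x) (intRing Qb x)).FG)
  have h1 := hasLevel_forall_finset S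
    (fun b σ => arithmeticGalois (F1 M) σ • ((b : intRing Qb x) : F1bar M) = b)
    (fun b _ => hasLevel_elt1 M b)
  have h2 := hasLevel_forall_finset S
    (fun b σ => σ (chartPoint hx P hP b) = chartPoint hx P hP b)
    (fun b _ => hasLevel_const _)
  have h3 := hasLevel_const (chartPoint hx P hP (genB Qb x))
  refine ((h1.and h2).and h3).mono ?_
  rintro σ ⟨⟨hσ1, hσ2⟩, hσ3⟩
  exact smul_place_eq hx _ (hgx σ) P hP S hS hσ1 hσ3 hσ2

/-- every divisor of `F1bar M` is fixed by an open subgroup. -/
theorem hasLevel_divisor1 (D : Divisor Qb (F1bar M)) :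
    HasLevel (fun σ => arithmeticGalois (F1 M) σ • D = D) := by
  refine (hasLevel_forall_finset D.support
    (fun P σ => arithmeticGalois (F1 M) σ • P = P)
    (fun P _ => hasLevel_place1 M hj P)).mono fun σ hσ => ?_
  rw [SemilinearAut.divisor_smul_def]
  have := Finsupp.mapDomain_congr (v := D)
    (f := (arithmeticGalois (F1 M) σ • ·)) (g := id) (fun P hP => hσ P hP)
  rw [this, Finsupp.mapDomain_id]

/-- **every point of `J₁(M)(ℚ̄)` is fixed by an open subgroup.** -/
theorem hasLevel_pic01 (y : JOne M) : HasLevel (fun σ => σ • y = y) := by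
  obtain ⟨D, rfl⟩ := Pic0.mk_surjective y
  refine (hasLevel_divisor1 M hj (D : Divisor Qb (F1bar M))).mono fun σ hσ => ?_
  rw [galois_smul_pic0_def, SemilinearAut.pic0_smul_mk]
  exact congrArg Pic0.mk (Subtype.ext hσ)

/-- **G2 export**: `GeomIface13.HasLevelOne M`. -/
theorem hasLevelOne : GeomIface13.HasLevelOne M := fun y => hasLevel_pic01 M hj y

end Fermat.Agent.ES.R48.OpenStabOne13
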