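/-
Programme R (S48, Deligne–Serre), chapter GEOM, sub-chapter G2 DICT₁, CLOSER (helper12):
**`j` is a transcendental generator of `F1bar M / ℚbar` for every `3 ≤ M`, unconditionally**, and
hence the two fields `level` and `comm` of `GeomIface13.GeomInputs M ℓ`.

Pure plugging: `X1Degree14.isGen_jF1 M D C hM hW` (helper14) fed with
* `D := X1RealizeFinal29.realizeData1 M _` (helper29 / helper19),
* `C := X1CuspFinal29.cuspData1 M _` (helper29 / helper10),
* `hW := WSlash29.wSlash M` (helper29),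
then `OpenStabOne13.hasLevelOne` and `HeckeGalOne13.heckeGaloisComm` (helper13).

* `isGen_jF1 (M) [NeZero M] (hM : 3 ≤ M) : FF.IsGen Kbar (X1Iface13.jF1 M)`;
* `finiteDimensional`, `card_eq_finrank` : `[F1bar M : ℚbar(j)] = (SL(2,ℤ) : ±Γ₁(M))`;
* `hasLevelOne (M) [NeZero M] (hM : 3 ≤ M) : GeomIface13.HasLevelOne M`;
* `heckeGaloisComm (M) [NeZero M] (hM : 3 ≤ M) (p) : GeomIface13.HeckeGaloisComm M p`;
* `three_le_of_four_or_nine : 4 ∣ M ∨ 9 ∣ M → 3 ≤ M` (the numerics available in `InputsExport`).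
-/
import Fermat.Agent.ES.R48.X1Degree14
import Fermat.Agent.ES.R48.X1CuspFinal29
import Fermat.Agent.ES.R48.WSlash29
import Fermat.Agent.ES.R48.OpenStabOne13
import Fermat.Agent.ES.R48.HeckeGalOne13

set_option autoImplicit false

open scoped MatrixGroups

noncomputable section

namespace Fermat.Agent.ES.R48.X1GenFinal12

open Fermat.Agent.X0 Fermat.Agent.ES.R48.FF1Defs13 Fermat.Agent.ES.R48.X1Iface13

variable (M : ℕ) [NeZero M]

omit [NeZero M] in
theorem ne_one_of_three_le (hM : 3 ≤ M) : M ≠ 1 := by omega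

/-- the numerics available in `GeomTop13.InputsExport`. -/
theorem three_le_of_four_or_nine (h : 4 ∣ M ∨ 9 ∣ M) : 3 ≤ M := by
  have hpos : 0 < M := Nat.pos_of_ne_zero (NeZero.ne M)
  rcases h with h | h
  · exact le_trans (by norm_num) (Nat.le_of_dvd hpos h)
  · exact le_trans (by norm_num) (Nat.le_of_dvd hpos h)

/-- **`j` is a transcendental generator of `F1bar M` over `ℚbar`, `3 ≤ M`.** -/
theorem isGen_jF1 (hM : 3 ≤ M) : FF.IsGen Kbar (jF1 M) :=
  X1Degree14.isGen_jF1 M (X1RealizeFinal29.realizeData1 M (ne_one_of_three_le M hM))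
    (X1CuspFinal29.cuspData1 M (ne_one_of_three_le M hM)) hM (WSlash29.wSlash M)

theorem finiteDimensional (hM : 3 ≤ M) : FiniteDimensional (Kj1 M) (FF1 M) :=
  X1Degree14.finiteDimensional M (X1RealizeFinal29.realizeData1 M (ne_one_of_three_le M hM))
    (X1CuspFinal29.cuspData1 M (ne_one_of_three_le M hM)) hM (WSlash29.wSlash M)

theorem card_eq_finrank (hM : 3 ≤ M) :
    Nat.card (SL(2, ℤ) ⧸ PG1 M) = Module.finrank (Kj1 M) (FF1 M) :=
  X1Degree14.card_eq_finrank M (X1RealizeFinal29.realizeData1 M (ne_one_of_three_le M hM))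
    (X1CuspFinal29.cuspData1 M (ne_one_of_three_le M hM)) hM (WSlash29.wSlash M)

/-- **field `level` of `GeomInputs`**, closed. -/
theorem hasLevelOne (hM : 3 ≤ M) : GeomIface13.HasLevelOne M :=
  OpenStabOne13.hasLevelOne M (isGen_jF1 M hM)

/-- **field `comm` of `GeomInputs`**, closed. -/
theorem heckeGaloisComm (hM : 3 ≤ M) (p : ℕ) : GeomIface13.HeckeGaloisComm M p :=
  HeckeGalOne13.heckeGaloisComm M (isGen_jF1 M hM) p

end Fermat.Agent.ES.R48.X1GenFinal12
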