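/-
Programme R (S48, Deligne–Serre), chapter GEOM / G3 MODEL₁ — helper4 (G3 sub-lead).
**THE EXPORT OF G3: `clBar1 : CLBar1 ℓ M A`** — the class-group statement (CL) over `ℚ̄` for the
function field `ℚ̄ · F1 M` of `X₁(M)`, for `4 ∣ M ∨ 9 ∣ M`, `ℓ ∤ M`, `A` a valuation ring of `ℚ̄` over
`ℓ`.

Assembly:
* `finTarget1`   : `[K · F1 M : K(t)] < ∞` (`RankConcreteOne23`, linear disjointness);
* `targets1`     : VERT₁ (`VertConcreteOne4`) ∧ HORIZ₁ (`DictHypFinal16`) ∧ CUSP₁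
  (`CuspConcreteFinal23`), for the analytic data `X1RealizeFinal29.realizeData1`,
  `X1CuspFinal29.cuspData1`;
* `irrBridge`    : `IrrBridge8.degLe_and_irr_of_pi_prime` in the shape `ModelStepOne7.IrrBridge`;
* `modelStep1`, `explicitModelStep1` : MODEL₁ (`ModelStepOne7`), unconditional;
* `clBar1_of_base`, **`clBar1`** : NUM₁ (`G3Defs4.numStep1_of_model`) + DESC₁ (`DescOne7`) ⇒ (CL) over
  `ℚ̄`; dispatch `4 ∣ M` ↦ `(n, e) = (4, 8)`, `9 ∣ M` ↦ `(9, 3)`.
-/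
import Fermat.Agent.ES.R48.VertConcreteOne4
import Fermat.Agent.ES.R48.CuspConcreteFinal23
import Fermat.Agent.ES.R48.DictHypFinal16
import Fermat.Agent.ES.R48.DescOne7
import Fermat.Agent.ES.R48.X1GenFinal12
import Fermat.Agent.ES.R48.ModelStepOne7
import Fermat.Agent.ES.R48.IrrBridge8

set_option autoImplicit false
set_option linter.unusedSectionVars false
set_option linter.unusedVariables false

open HahnSeries AlgebraicCurve ModularCurve IntermediateField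
open scoped MatrixGroups

noncomputable section

namespace Fermat.Agent.ES.R48.CLBarOne4

open Fermat.Agent.RED.Interface4 Fermat.Agent.RED.ModelTargets4
  Fermat.Agent.RED.BASE.EtaQuot12 Fermat.Agent.X0 Fermat.Agent.RED.BASE.Interface12
  Fermat.Agent.RED.BASE Fermat.Agent.RED.BASE.Hauptmodul12
  Fermat.Agent.ES.R48.FF1Defs13 Fermat.Agent.ES.R48.X1Iface13
  Fermat.Agent.ES.R48.G3Defs4 Fermat.Agent.ES.R48.G3Targets4

variable {n e : ℕ} [NeZero n] {M : ℕ} [NeZero M] {A : ValuationSubring Qbar}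

/-- **Finiteness of `K · F1 M` over `K(t)`**, for every `K ⊂ ℚ̄`. -/
theorem finTarget1 (h : TMem n e M) (hj : FF.IsGen Kbar (jF1 M)) :
    EventuallyT1 n e M A fun K _ t =>
      relfinrank (IntermediateField.adjoin (↥K) {((t : ↥(FK1 M K)) : LaurentSeries K)})
        (FK1 M K) ≠ 0 := by
  refine ⟨⊥, inferInstance, fun K _ _ ϖ _ t htq => ?_⟩
  have hfd : FiniteDimensional ↥(IntermediateField.adjoin K {t}) ↥(FK1 M K) :=
    Fermat.Agent.ES.R48.RankConcreteOne23.finiteDimensional_adjoin_t M K hj h t htq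
  show relfinrank (IntermediateField.adjoin (↥K) {((t : ↥(FK1 M K)) : LaurentSeries K)})
    (FK1 M K) ≠ 0
  rw [← Fermat.Agent.RED.ModelAsm4.finrank_adjoin_eq_relfinrank]
  exact Module.finrank_pos.ne'

/-- **The three targets of MODEL₁** at a base level `(n, e)`, `n ∣ M`. -/
theorem targets1 (hb : BaseHyp n e) (hnM : n ∣ M) (cv : SL(2, ℤ) → Option Kbar)
    (hcv : MainCusp12.CuspExports n e M cv) {ℓ : ℕ} [Fact ℓ.Prime] (hℓM : ¬ ℓ ∣ M)
    (hA : A.LiesOverPrime ℓ) :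
    VertTarget1 n e M A ∧ HorizTarget1 n e M A cv ∧ CuspFamilyTarget1 n e M A cv := by
  have hM3 : 3 ≤ M := Fermat.Agent.ES.R48.DictHypFinal16.three_le_of_four_or_nine
    (hb.four_or_nine.imp (fun h => h.trans hnM) (fun h => h.trans hnM))
  have hM1 : M ≠ 1 := by omega
  have hW := Fermat.Agent.ES.R48.WSlash29.wSlash M
  have hj := Fermat.Agent.ES.R48.X1GenFinal12.isGen_jF1 M hM3
  have h : TMem n e M := (Main12.baseExports hb M hnM).mem
  refine ⟨Fermat.Agent.ES.R48.VertConcreteOne4.vertTarget1 hb hnM hM1 hℓM hA (finTarget1 h hj),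
    Fermat.Agent.ES.R48.DictHypFinal16.hH_all1_final hb hnM hℓM hA cv hcv hW
      (Fermat.Agent.ES.R48.X1RealizeFinal29.realizeData1 M hM1)
      (Fermat.Agent.ES.R48.X1CuspFinal29.cuspData1 M hM1), ?_⟩
  exact Fermat.Agent.ES.R48.CuspConcreteFinal23.cuspFamilyTarget1_final hM3 hb hnM Fact.out hℓM hA cv
    hcv.cuspExp

/-- (CL) over `ℚ̄` from MODEL₁ (DESC₁ + CORE). -/
theorem clBar1_of_model (hM3 : 3 ≤ M) {ℓ : ℕ} (hℓ : ℓ.Prime) (hA : A.LiesOverPrime ℓ)
    (hmodel : ModelStep1 M A) : CLBar1 ℓ M A :=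
  clBar1_of_descStepGe1
    (Fermat.Agent.ES.R48.DescOne7.descStepGe1 ℓ M A
      (Fermat.Agent.ES.R48.X1GenFinal12.isGen_jF1 M hM3))
    (numStep1_of_model hℓ M hA hmodel)

/-- `IrrBridge8` in the shape consumed by `ModelStepOne7`. -/
theorem irrBridge : Fermat.Agent.ES.R48.ModelStepOne7.IrrBridge :=
  fun O _ _ hπ E hE t ht htr hn hprime =>
    Fermat.Agent.ES.R48.IrrBridge8.degLe_and_irr_of_pi_prime hπ hE t ht htr hn hprime

/-- **MODEL₁, unconditional**: two-chart models of `K · F1 M` over `A ∩ K` for all large number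
fields `K`. -/
theorem modelStep1 (hb : BaseHyp n e) (hnM : n ∣ M) (cv : SL(2, ℤ) → Option Kbar)
    (hcv : MainCusp12.CuspExports n e M cv) {ℓ : ℕ} [Fact ℓ.Prime] (hℓM : ¬ ℓ ∣ M)
    (hA : A.LiesOverPrime ℓ) : ModelStep1 M A := by
  obtain ⟨hV, hH, hC⟩ := targets1 hb hnM cv hcv hℓM hA
  exact Fermat.Agent.ES.R48.ModelStepOne7.modelStep1_of_tMem irrBridge
    (Main12.baseExports hb M hnM).mem hV hH hC hℓM hA

/-- **MODEL₁ at the explicit charts, unconditional** (the export to G4: two-chart model at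
`chart (AK A K) t^{±1}` with the Gauss valuation ring `OvK1`, and `(DEG) + (IRR)` of `K · F1 M`). -/
theorem explicitModelStep1 (hb : BaseHyp n e) (hnM : n ∣ M) (cv : SL(2, ℤ) → Option Kbar)
    (hcv : MainCusp12.CuspExports n e M cv) {ℓ : ℕ} [Fact ℓ.Prime] (hℓM : ¬ ℓ ∣ M)
    (hA : A.LiesOverPrime ℓ) :
    ∃ K₀ : IntermediateField ℚ Qbar, FiniteDimensional ℚ K₀ ∧
      ∀ K : IntermediateField ℚ Qbar, FiniteDimensional ℚ K → K₀ ≤ K →
        IsDiscreteValuationRing ↥(AK A K) ∧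
        ∀ (ϖ : ↥(AK A K)) (_ : Irreducible ϖ)
          (hu : Fermat.Agent.RED.PUR.GaussGen8.IsUnif (AK A K) ϖ) (t : ↥(FK1 M K)),
          (t : LaurentSeries K) = tq K n e →
          Fermat.Agent.RED.CORE.CoreIface24.TwoChartModel ↥(AK A K) K ↥(FK1 M K) ϖ t
            (Fermat.Agent.RED.PUR.ChartGeneric22.chart ↥(AK A K) t)
            (Fermat.Agent.RED.PUR.ChartGeneric22.chart ↥(AK A K) t⁻¹)
            (Fermat.Agent.ES.R48.GaussBridgeOne10.OvK1 A K M hu) ∧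
          ∃ (ht : (t : LaurentSeries K) ∈ Fermat.Agent.RED.PUR.GaussGen8.gaussRing (AK A K))
            (nn : ℕ), nn ≠ 0 ∧
            Fermat.Agent.RED.PUR.G1Package8.DegLe (AK A K) (FK1 M K)
              ⟨(t : LaurentSeries K), ht⟩ nn ∧
            Fermat.Agent.RED.PUR.G1Package8.Irr (AK A K) (FK1 M K)
              ⟨(t : LaurentSeries K), ht⟩ nn := by
  obtain ⟨hV, hH, hC⟩ := targets1 hb hnM cv hcv hℓM hA
  exact Fermat.Agent.ES.R48.ModelStepOne7.explicitModelStep1 irrBridge hV hH hC hℓM hA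

/-- (CL) over `ℚ̄` for `X₁(M)`, from a base level `(n, e)`, `n ∣ M`. -/
theorem clBar1_of_base (hb : BaseHyp n e) (hnM : n ∣ M) (cv : SL(2, ℤ) → Option Kbar)
    (hcv : MainCusp12.CuspExports n e M cv) {ℓ : ℕ} [Fact ℓ.Prime] (hℓM : ¬ ℓ ∣ M)
    (hA : A.LiesOverPrime ℓ) : CLBar1 ℓ M A :=
  clBar1_of_model
    (Fermat.Agent.ES.R48.DictHypFinal16.three_le_of_four_or_nine
      (hb.four_or_nine.imp (fun h => h.trans hnM) (fun h => h.trans hnM)))
    Fact.out hA (modelStep1 hb hnM cv hcv hℓM hA)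

/-- **THE EXPORT OF G3**: (CL) over `ℚ̄` for the function field of `X₁(M)`, `4 ∣ M ∨ 9 ∣ M`,
`ℓ ∤ M`, `A` a valuation ring of `ℚ̄` over `ℓ`. -/
theorem clBar1 (hM : 4 ∣ M ∨ 9 ∣ M) {ℓ : ℕ} [Fact ℓ.Prime] (hℓM : ¬ ℓ ∣ M)
    (hA : A.LiesOverPrime ℓ) : CLBar1 ℓ M A := by
  rcases hM with h4 | h9
  · exact clBar1_of_base baseHyp_four h4 _ (MainCusp12.cuspExports_four M h4) hℓM hA
  · exact clBar1_of_base baseHyp_nine h9 _ (MainCusp12.cuspExports_nine M h9) hℓM hA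

end Fermat.Agent.ES.R48.CLBarOne4
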