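/-
Programme R (S48), chapter GEOM, sub-chapter G5 KUM₁ (helper3): the twin of `ES/KUM/CReal5` for
`X₁(M)` — the function field `F₁,ℂ = ℂ(j_d, W_c) ⊆ ℂ((q))` of `X₁(M)` over `ℂ` and its analytic
realisation.

* `FC1 M := ↥(laurentBaseChange ℂ (F1 M))`, generators `jdC1` (`d ∣ M`), `wC1` (`c ∈ (ZMod M)ˣ`),
  the subalgebra `RC1 M = ℂ[j_d, W_c]`, `IsFractionRing (RC1 M) (FC1 M)`;
* the inclusions `fcIncl : FC M →ₐ[ℂ] FC1 M`, `rcIncl : RC M →ₐ[ℂ] RC1 M`;
* `WAnalytic M` : the analytic input from G1 (`W_c` has the convergent `q`-expansion `wq M c`,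
  and the slash rule `X1Iface13.WSlash M`);
* `realC1 hW : RC1 M →+* HolH` (injective, `j_d ↦ j(d z)`, `W_c ↦ wFun M c`, constants,
  `Γ₁(M)`-invariant values, `Γ₀(M)` acts by `W_c ↦ W_{c·a}`, convergent `q`-expansion = the formal
  element), compatible with `realC M` on `RC M`;
* `embC1 hW g : FC1 M →+* MerH`, `u / s ↦ (Θ u ∘ g⁻¹) / (Θ s ∘ g⁻¹)`; `realMer1 hW := embC1 hW 1`.

`slMer`, `compSLHom_*` are those of `ES/KUM/CReal5` (generic).
-/
import Fermat.Agent.ES.KUM.CReal5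
import Fermat.Agent.ES.R48.X1Iface13

set_option autoImplicit false
set_option linter.unusedSectionVars false

open ModularCurve HahnSeries UpperHalfPlane
open scoped Topology Manifold MatrixGroups

noncomputable section

namespace Fermat.Agent.ES.R48.CReal1_3

open Fermat.Agent.X0 Fermat.Agent.X0.Analytic Fermat.Agent.X0.SurjPoint Fermat.Agent.X0.JQExp
open Fermat.Agent.ES.KUM Fermat.Agent.ES.R48.FF1Defs13 Fermat.Agent.ES.R48.X1Iface13
open IntermediateField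

variable (M : ℕ) [NeZero M]

/-- The function field `F₁,ℂ = ℂ(j(q^d), W_c) ⊆ ℂ((q))` of `X₁(M)` over `ℂ`. -/
abbrev FC1 : Type := ↥(laurentBaseChange ℂ (F1 M))

/-- The formal `j(q^d)` as an element of `F₁,ℂ`, for `d ∣ M`. -/
def jdC1 (d : ℕ) [NeZero d] (hd : d ∣ M) : FC1 M :=
  ⟨coeffEmb ℂ (qExpand ℚ d jq), coeffEmb_mem_laurentBaseChange ℂ (jqd_mem_F1 M hd)⟩

/-- The formal `j` as an element of `F₁,ℂ`. -/
def jC1 : FC1 M := jdC1 M 1 (one_dvd M)

/-- The formal `W_c` as an element of `F₁,ℂ`. -/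
def wC1 (c : (ZMod M)ˣ) : FC1 M :=
  ⟨coeffEmb ℂ (wq M (c : ZMod M)), coeffEmb_mem_laurentBaseChange ℂ (wq_mem_F1 M c)⟩

/-- The generators `j_d`, `d ∣ M`, and `W_c`, `c ∈ (ZMod M)ˣ`, of `F₁,ℂ`. -/
def genSetC1 : Set (FC1 M) :=
  {x | (∃ (d : ℕ) (_ : NeZero d) (hd : d ∣ M), x = jdC1 M d hd) ∨ ∃ c : (ZMod M)ˣ, x = wC1 M c}

/-- The `ℂ`-subalgebra `R₁,ℂ = ℂ[j_d, W_c]` of `F₁,ℂ`. -/
def RC1 : Subalgebra ℂ (FC1 M) := Algebra.adjoin ℂ (genSetC1 M)

theorem coe_jdC1 (d : ℕ) [NeZero d] (hd : d ∣ M) :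
    ((jdC1 M d hd : FC1 M) : LaurentSeries ℂ) = coeffEmb ℂ (qExpand ℚ d jq) := rfl

theorem coe_wC1 (c : (ZMod M)ˣ) :
    ((wC1 M c : FC1 M) : LaurentSeries ℂ) = coeffEmb ℂ (wq M (c : ZMod M)) := rfl

theorem jdC1_mem_genSetC1 (d : ℕ) [NeZero d] (hd : d ∣ M) : jdC1 M d hd ∈ genSetC1 M :=
  Or.inl ⟨d, inferInstance, hd, rfl⟩

theorem wC1_mem_genSetC1 (c : (ZMod M)ˣ) : wC1 M c ∈ genSetC1 M := Or.inr ⟨c, rfl⟩

/-- The generators `j_d`, as elements of `R₁,ℂ`. -/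
def jdRC1 (d : ℕ) [NeZero d] (hd : d ∣ M) : RC1 M :=
  ⟨jdC1 M d hd, Algebra.subset_adjoin (jdC1_mem_genSetC1 M d hd)⟩

/-- The generators `W_c`, as elements of `R₁,ℂ`. -/
def wRC1 (c : (ZMod M)ˣ) : RC1 M :=
  ⟨wC1 M c, Algebra.subset_adjoin (wC1_mem_genSetC1 M c)⟩

@[simp] theorem coe_jdRC1 (d : ℕ) [NeZero d] (hd : d ∣ M) :
    ((jdRC1 M d hd : RC1 M) : FC1 M) = jdC1 M d hd := rfl

@[simp] theorem coe_wRC1 (c : (ZMod M)ˣ) : ((wRC1 M c : RC1 M) : FC1 M) = wC1 M c := rfl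

/-- `j` as an element of `R₁,ℂ`. -/
def jRC1 : RC1 M := jdRC1 M 1 (one_dvd M)

@[simp] theorem coe_jRC1 : ((jRC1 M : RC1 M) : FC1 M) = jC1 M := rfl

/-- Induction principle for `R₁,ℂ`. -/
theorem RC1_induction {p : RC1 M → Prop}
    (hgen : ∀ (d : ℕ) [NeZero d] (hd : d ∣ M), p (jdRC1 M d hd))
    (hw : ∀ c : (ZMod M)ˣ, p (wRC1 M c))
    (hconst : ∀ c : ℂ, p (algebraMap ℂ (RC1 M) c))
    (hadd : ∀ u v, p u → p v → p (u + v))
    (hmul : ∀ u v, p u → p v → p (u * v)) (u : RC1 M) : p u := by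
  obtain ⟨x, hx⟩ := u
  induction hx using Algebra.adjoin_induction with
  | mem y hy =>
      rcases hy with ⟨d, hne, hd, rfl⟩ | ⟨c, rfl⟩
      · have := hne
        exact hgen d hd
      · exact hw c
  | algebraMap c => exact hconst c
  | add x y hx hy ihx ihy => exact hadd ⟨x, hx⟩ ⟨y, hy⟩ ihx ihy
  | mul x y hx hy ihx ihy => exact hmul ⟨x, hx⟩ ⟨y, hy⟩ ihx ihy

/-! ### `F₁,ℂ = Frac R₁,ℂ` -/

theorem coeffEmbC_mem_map1 {x : LaurentSeries ℚ} (hx : x ∈ F1 M) :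
    coeffEmb ℂ x ∈
      (IntermediateField.adjoin ℂ (genSetC1 M)).map (laurentBaseChange ℂ (F1 M)).val := by
  unfold F1 at hx
  induction hx using IntermediateField.adjoin_induction with
  | mem y hy =>
      rcases hy with ⟨d, hne, hd, rfl⟩ | ⟨c, rfl⟩
      · have := hne
        exact ⟨jdC1 M d hd, IntermediateField.subset_adjoin _ _ (jdC1_mem_genSetC1 M d hd), rfl⟩
      · exact ⟨wC1 M c, IntermediateField.subset_adjoin _ _ (wC1_mem_genSetC1 M c), rfl⟩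
  | algebraMap r =>
      rw [coeffEmbC_algebraMap]
      exact IntermediateField.algebraMap_mem _ _
  | add x y _ _ hx hy => rw [map_add]; exact add_mem hx hy
  | inv x _ hx => rw [map_inv₀]; exact inv_mem hx
  | mul x y _ _ hx hy => rw [map_mul]; exact mul_mem hx hy

/-- `F₁,ℂ = ℂ(j_d, W_c)`. -/
theorem FC1_eq_adjoin :
    (⊤ : IntermediateField ℂ (FC1 M)) = IntermediateField.adjoin ℂ (genSetC1 M) := by
  symm
  rw [eq_top_iff]
  intro y _
  have hle : laurentBaseChange ℂ (F1 M) ≤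
      (IntermediateField.adjoin ℂ (genSetC1 M)).map (laurentBaseChange ℂ (F1 M)).val := by
    unfold laurentBaseChange
    rw [IntermediateField.adjoin_le_iff]
    rintro _ ⟨x, hx, rfl⟩
    exact coeffEmbC_mem_map1 M hx
  obtain ⟨a, ha, hay⟩ := hle y.2
  have : a = y := Subtype.ext hay
  rw [← this]
  exact ha

theorem mem_adjoin_genSetC1 (y : FC1 M) : y ∈ IntermediateField.adjoin ℂ (genSetC1 M) := by
  rw [← FC1_eq_adjoin]
  exact IntermediateField.mem_top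

/-- Every element of `F₁,ℂ` is a quotient of two elements of `R₁,ℂ`. -/
theorem exists_divC1 (y : FC1 M) : ∃ r s : RC1 M, y = (r : FC1 M) / (s : FC1 M) := by
  obtain ⟨r, hr, s, hs, h⟩ := IntermediateField.mem_adjoin_iff_div.mp (mem_adjoin_genSetC1 M y)
  exact ⟨⟨r, hr⟩, ⟨s, hs⟩, h⟩

/-- `F₁,ℂ` is the fraction field of `R₁,ℂ = ℂ[j_d, W_c]`. -/
instance isFractionRingC1 : IsFractionRing (RC1 M) (FC1 M) :=
  IsFractionRing.of_field _ _ fun y => by
    obtain ⟨r, s, h⟩ := exists_divC1 M y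
    exact ⟨r, s, h⟩

/-- Variant with a nonzero denominator. -/
theorem exists_divC1_ne_zero (y : FC1 M) :
    ∃ r s : RC1 M, s ≠ 0 ∧ y = (r : FC1 M) / (s : FC1 M) := by
  obtain ⟨r, s, h⟩ := exists_divC1 M y
  by_cases hs : s = 0
  · refine ⟨0, 1, one_ne_zero, ?_⟩
    rw [h, hs]
    simp
  · exact ⟨r, s, hs, h⟩

/-! ### The inclusion of the `X₀(M)`-objects -/

theorem fullC_le_F1C :
    laurentBaseChange ℂ (modularFunctionFieldFull M) ≤ laurentBaseChange ℂ (F1 M) :=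
  laurentBaseChange_mono13 ℂ (full_le_F1 M)

/-- the inclusion `F_ℂ(X₀(M)) → F_ℂ(X₁(M))`. -/
def fcIncl : FC M →ₐ[ℂ] FC1 M := IntermediateField.inclusion (fullC_le_F1C M)

@[simp] theorem coe_fcIncl (x : FC M) :
    ((fcIncl M x : FC1 M) : LaurentSeries ℂ) = (x : LaurentSeries ℂ) :=
  IntermediateField.coe_inclusion _ x

theorem fcIncl_injective : Function.Injective (fcIncl M) := (fcIncl M).injective

theorem fcIncl_jdC (d : ℕ) [NeZero d] (hd : d ∣ M) : fcIncl M (jdC M d hd) = jdC1 M d hd := by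
  apply Subtype.ext
  rw [coe_fcIncl, coe_jdC, coe_jdC1]

theorem fcIncl_mem_RC1 {x : FC M} (hx : x ∈ RC M) : fcIncl M x ∈ RC1 M := by
  have h : (RC M).map (fcIncl M) ≤ RC1 M := by
    show (Algebra.adjoin ℂ (genSetC M)).map (fcIncl M) ≤ Algebra.adjoin ℂ (genSetC1 M)
    rw [AlgHom.map_adjoin]
    refine Algebra.adjoin_mono ?_
    rintro _ ⟨y, ⟨d, hne, hd, rfl⟩, rfl⟩
    have := hne
    rw [fcIncl_jdC]
    exact jdC1_mem_genSetC1 M d hd
  exact h ⟨x, hx, rfl⟩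

/-- The inclusion `R_ℂ → R₁,ℂ`. -/
def rcIncl : RC M →ₐ[ℂ] RC1 M :=
  ((fcIncl M).comp (RC M).val).codRestrict (RC1 M) fun x => fcIncl_mem_RC1 M x.2

@[simp] theorem coe_rcIncl (u : RC M) : ((rcIncl M u : RC1 M) : FC1 M) = fcIncl M (u : FC M) := rfl

theorem rcIncl_jdRC (d : ℕ) [NeZero d] (hd : d ∣ M) : rcIncl M (jdRC M d hd) = jdRC1 M d hd :=
  Subtype.ext (fcIncl_jdC M d hd)

/-! ### The analytic input -/

/-- **Analytic input from G1** (E2 + E3): `W_c` has the convergent `q`-expansion `wq M c`, and the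
slash rule under `Γ₀(M)`. -/
structure WAnalytic : Prop where
  hasQExp : ∀ c : (ZMod M)ˣ, HasQExp (coeffEmb ℂ (wq M (c : ZMod M))) (wFun M (c : ZMod M))
  slash : WSlash M

variable {M}

/-! ### convergent `q`-expansions of the elements of `R₁,ℂ` -/

theorem exists_hasQExp_of_memC1 (hW : WAnalytic M) {x : FC1 M} (hx : x ∈ RC1 M) :
    ∃ g : ℍ → ℂ, HasQExp (x : LaurentSeries ℂ) g := by
  unfold RC1 at hx
  induction hx using Algebra.adjoin_induction with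
  | mem y hy =>
      rcases hy with ⟨d, hd0, hd, rfl⟩ | ⟨c, rfl⟩
      · exact ⟨jdFun d, hasQExp_jdC d⟩
      · exact ⟨wFun M (c : ZMod M), hW.hasQExp c⟩
  | algebraMap c =>
      refine ⟨fun _ => c, ?_⟩
      have : ((algebraMap ℂ (FC1 M) c : FC1 M) : LaurentSeries ℂ)
          = algebraMap ℂ (LaurentSeries ℂ) c := rfl
      rw [this, algebraMapC_eq_C]
      exact HasQExp.const _
  | add y z _ _ hy hz =>
      obtain ⟨g₁, h₁⟩ := hy
      obtain ⟨g₂, h₂⟩ := hz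
      refine ⟨g₁ + g₂, ?_⟩
      have : ((y + z : FC1 M) : LaurentSeries ℂ) = (y : LaurentSeries ℂ) + z := rfl
      rw [this]
      exact h₁.add h₂
  | mul y z _ _ hy hz =>
      obtain ⟨g₁, h₁⟩ := hy
      obtain ⟨g₂, h₂⟩ := hz
      refine ⟨g₁ * g₂, ?_⟩
      have : ((y * z : FC1 M) : LaurentSeries ℂ) = (y : LaurentSeries ℂ) * z := rfl
      rw [this]
      exact h₁.mul h₂

/-- the holomorphic function attached to an element of `R₁,ℂ`. -/
def anFunC1 (hW : WAnalytic M) (u : RC1 M) : ℍ → ℂ := (exists_hasQExp_of_memC1 hW u.2).choose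

theorem hasQExp_anFunC1 (hW : WAnalytic M) (u : RC1 M) :
    HasQExp (((u : FC1 M)) : LaurentSeries ℂ) (anFunC1 hW u) :=
  (exists_hasQExp_of_memC1 hW u.2).choose_spec

theorem anFunC1_eq (hW : WAnalytic M) {u : RC1 M} {g : ℍ → ℂ}
    (h : HasQExp (((u : FC1 M)) : LaurentSeries ℂ) g) : anFunC1 hW u = g :=
  (hasQExp_anFunC1 hW u).unique_right h

theorem anFunC1_mem_HolH (hW : WAnalytic M) (u : RC1 M) : anFunC1 hW u ∈ HolH :=
  (hasQExp_anFunC1 hW u).mdifferentiable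

/-- The analytic realisation `Θ₁,ℂ : R₁,ℂ = ℂ[j_d, W_c] → Hol(ℍ)`. -/
def realC1 (hW : WAnalytic M) : RC1 M →+* HolH where
  toFun u := ⟨anFunC1 hW u, anFunC1_mem_HolH hW u⟩
  map_one' := by
    apply Subtype.ext
    apply anFunC1_eq hW
    have : (((1 : RC1 M) : FC1 M) : LaurentSeries ℂ) = 1 := rfl
    rw [this]
    have h := HasQExp.const 1
    rw [map_one] at h
    exact h
  map_mul' u w := by
    apply Subtype.ext
    apply anFunC1_eq hW
    have : (((u * w : RC1 M) : FC1 M) : LaurentSeries ℂ)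
        = ((u : FC1 M) : LaurentSeries ℂ) * ((w : FC1 M) : LaurentSeries ℂ) := rfl
    rw [this]
    exact (hasQExp_anFunC1 hW u).mul (hasQExp_anFunC1 hW w)
  map_zero' := by
    apply Subtype.ext
    apply anFunC1_eq hW
    have : (((0 : RC1 M) : FC1 M) : LaurentSeries ℂ) = 0 := rfl
    rw [this]
    have h := HasQExp.const 0
    rw [map_zero] at h
    exact h
  map_add' u w := by
    apply Subtype.ext
    apply anFunC1_eq hW
    have : (((u + w : RC1 M) : FC1 M) : LaurentSeries ℂ)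
        = ((u : FC1 M) : LaurentSeries ℂ) + ((w : FC1 M) : LaurentSeries ℂ) := rfl
    rw [this]
    exact (hasQExp_anFunC1 hW u).add (hasQExp_anFunC1 hW w)

theorem coe_realC1 (hW : WAnalytic M) (u : RC1 M) :
    ((realC1 hW u : HolH) : ℍ → ℂ) = anFunC1 hW u := rfl

/-- The realisation has the formal element as its convergent `q`-expansion. -/
theorem hasQExp_realC1 (hW : WAnalytic M) (u : RC1 M) :
    HasQExp (((u : FC1 M)) : LaurentSeries ℂ) ((realC1 hW u : HolH) : ℍ → ℂ) :=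
  hasQExp_anFunC1 hW u

theorem realC1_eq_of_hasQExp (hW : WAnalytic M) {u : RC1 M} {g : ℍ → ℂ}
    (h : HasQExp (((u : FC1 M)) : LaurentSeries ℂ) g) : ((realC1 hW u : HolH) : ℍ → ℂ) = g :=
  anFunC1_eq hW h

theorem realC1_injective (hW : WAnalytic M) : Function.Injective (realC1 hW) := by
  intro u w h
  have h1 := hasQExp_realC1 hW u
  have h2 := hasQExp_realC1 hW w
  rw [h] at h1
  exact Subtype.ext (Subtype.ext (h1.unique_left h2))

theorem realC1_algebraMap (hW : WAnalytic M) (c : ℂ) :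
    ((realC1 hW (algebraMap ℂ (RC1 M) c) : HolH) : ℍ → ℂ) = fun _ => c := by
  apply realC1_eq_of_hasQExp
  have : (((algebraMap ℂ (RC1 M) c : RC1 M) : FC1 M) : LaurentSeries ℂ)
      = algebraMap ℂ (LaurentSeries ℂ) c := rfl
  rw [this, algebraMapC_eq_C]
  exact HasQExp.const _

theorem realC1_algebraMap' (hW : WAnalytic M) (c : ℂ) :
    realC1 hW (algebraMap ℂ (RC1 M) c) = algebraMap ℂ HolH c :=
  Subtype.ext (realC1_algebraMap hW c)

theorem realC1_jdRC1 (hW : WAnalytic M) (d : ℕ) [NeZero d] (hd : d ∣ M) :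
    ((realC1 hW (jdRC1 M d hd) : HolH) : ℍ → ℂ) = jdFun d := by
  apply realC1_eq_of_hasQExp
  exact hasQExp_jdC d

theorem realC1_wRC1 (hW : WAnalytic M) (c : (ZMod M)ˣ) :
    ((realC1 hW (wRC1 M c) : HolH) : ℍ → ℂ) = wFun M (c : ZMod M) := by
  apply realC1_eq_of_hasQExp
  exact hW.hasQExp c

theorem realC1_jRC1 (hW : WAnalytic M) : ((realC1 hW (jRC1 M) : HolH) : ℍ → ℂ) = jFun := by
  rw [jRC1, realC1_jdRC1]
  funext z
  unfold jdFun
  congr 1
  apply UpperHalfPlane.ext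
  simp

/-- compatibility with the realisation of `X₀(M)`. -/
theorem realC1_rcIncl (hW : WAnalytic M) (u : RC M) : realC1 hW (rcIncl M u) = realC M u := by
  apply Subtype.ext
  apply realC1_eq_of_hasQExp
  rw [coe_rcIncl, coe_fcIncl]
  exact hasQExp_realC M u

/-- `q`-expansion datum in the sense of `X0/AnDefs`. -/
theorem realC1_isQExp (hW : WAnalytic M) (u : RC1 M) :
    ∃ (m : ℕ) (P : PowerSeries ℂ), IsQExp 1 ((realC1 hW u : HolH) : ℍ → ℂ) m P ∧
      (((u : FC1 M)) : LaurentSeries ℂ) = laurentOf m P :=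
  (hasQExp_realC1 hW u).exists_isQExp

/-! ### The action of `Γ₀(M)`: diamonds -/

theorem isUnit_upperLeft {γ : SL(2, ℤ)} (hγ : γ ∈ CongruenceSubgroup.Gamma0 M) :
    IsUnit (((γ 0 0 : ℤ) : ZMod M)) := by
  rw [CongruenceSubgroup.Gamma0_mem] at hγ
  have hdet : (γ 0 0 : ℤ) * γ 1 1 - γ 0 1 * γ 1 0 = 1 := by
    have := γ.det_coe
    rwa [Matrix.det_fin_two] at this
  have h1 : ((γ 0 0 : ℤ) : ZMod M) * ((γ 1 1 : ℤ) : ZMod M) = 1 := by
    have := congrArg (Int.cast : ℤ → ZMod M) hdet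
    push_cast at this
    rw [hγ, mul_zero, sub_zero] at this
    exact this
  exact IsUnit.of_mul_eq_one _ h1

/-- the upper left entry of `γ ∈ Γ₀(M)` as a unit mod `M`. -/
def diamondUnit (γ : SL(2, ℤ)) (hγ : γ ∈ CongruenceSubgroup.Gamma0 M) : (ZMod M)ˣ :=
  (isUnit_upperLeft hγ).unit

@[simp] theorem coe_diamondUnit (γ : SL(2, ℤ)) (hγ : γ ∈ CongruenceSubgroup.Gamma0 M) :
    ((diamondUnit γ hγ : (ZMod M)ˣ) : ZMod M) = ((γ 0 0 : ℤ) : ZMod M) :=
  IsUnit.unit_spec _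

theorem diamondUnit_eq_one {γ : SL(2, ℤ)} (hγ : γ ∈ CongruenceSubgroup.Gamma1 M) :
    diamondUnit γ (CongruenceSubgroup.Gamma1_in_Gamma0 M hγ) = 1 := by
  apply Units.ext
  rw [coe_diamondUnit, Units.val_one]
  exact ((CongruenceSubgroup.Gamma1_mem M γ).mp hγ).1

/-- `Γ₀(M)` acts on the realisation of `W_c` through the diamond: `W_c ∘ γ = W_{c a(γ)}`. -/
theorem realC1_wRC1_comp (hW : WAnalytic M) (c : (ZMod M)ˣ) (γ : SL(2, ℤ))
    (hγ : γ ∈ CongruenceSubgroup.Gamma0 M) :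
    compSL ((realC1 hW (wRC1 M c) : HolH) : ℍ → ℂ) γ =
      ((realC1 hW (wRC1 M (c * diamondUnit γ hγ)) : HolH) : ℍ → ℂ) := by
  rw [realC1_wRC1, realC1_wRC1]
  funext z
  show wFun M (c : ZMod M) (γ • z) = _
  rw [hW.slash γ hγ (c : ZMod M) z, Units.val_mul, coe_diamondUnit]

theorem realC1_jdRC1_comp (hW : WAnalytic M) (d : ℕ) [NeZero d] (hd : d ∣ M) (γ : SL(2, ℤ))
    (hγ : γ ∈ CongruenceSubgroup.Gamma0 M) :
    compSL ((realC1 hW (jdRC1 M d hd) : HolH) : ℍ → ℂ) γ =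
      ((realC1 hW (jdRC1 M d hd) : HolH) : ℍ → ℂ) := by
  have hN : (M : ℤ) ∣ γ 1 0 := by
    rw [CongruenceSubgroup.Gamma0_mem] at hγ
    exact (ZMod.intCast_zmod_eq_zero_iff_dvd _ _).mp hγ
  rw [realC1_jdRC1]
  funext z
  have hd' : (d : ℤ) ∣ γ 1 0 := (Int.natCast_dvd_natCast.mpr hd).trans hN
  exact Analytic.jdFun_smul_of_dvd γ d hd' z

/-- `Γ₁(M)`-invariance of the realisation. -/
theorem realC1_Gamma1_invariant (hW : WAnalytic M) (u : RC1 M) (γ : SL(2, ℤ))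
    (hγ : γ ∈ CongruenceSubgroup.Gamma1 M) :
    compSL ((realC1 hW u : HolH) : ℍ → ℂ) γ = ((realC1 hW u : HolH) : ℍ → ℂ) := by
  have hγ0 := CongruenceSubgroup.Gamma1_in_Gamma0 M hγ
  induction u using RC1_induction with
  | hgen d hd => exact realC1_jdRC1_comp hW d hd γ hγ0
  | hw c =>
      rw [realC1_wRC1_comp hW c γ hγ0, diamondUnit_eq_one hγ, mul_one]
  | hconst c =>
      rw [realC1_algebraMap]
      rfl
  | hadd u v ihu ihv =>
      rw [map_add]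
      show compSL ((realC1 hW u : HolH) : ℍ → ℂ) γ + compSL ((realC1 hW v : HolH) : ℍ → ℂ) γ = _
      rw [ihu, ihv]
      rfl
  | hmul u v ihu ihv =>
      rw [map_mul]
      show compSL ((realC1 hW u : HolH) : ℍ → ℂ) γ * compSL ((realC1 hW v : HolH) : ℍ → ℂ) γ = _
      rw [ihu, ihv]
      rfl

theorem compSLHom_realC1_of_mem (hW : WAnalytic M) (u : RC1 M) (γ : SL(2, ℤ))
    (hγ : γ ∈ CongruenceSubgroup.Gamma1 M) : compSLHom γ (realC1 hW u) = realC1 hW u :=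
  Subtype.ext (realC1_Gamma1_invariant hW u γ hγ)

/-! ### The embeddings `F₁,ℂ → MerH` -/

/-- `u ↦ Θ u ∘ g⁻¹` as a ring hom `R₁,ℂ → HolH`. -/
def embRC1 (hW : WAnalytic M) (g : SL(2, ℤ)) : RC1 M →+* HolH :=
  (compSLHom g⁻¹).comp (realC1 hW)

theorem coe_embRC1 (hW : WAnalytic M) (g : SL(2, ℤ)) (u : RC1 M) :
    ((embRC1 hW g u : HolH) : ℍ → ℂ) = compSL ((realC1 hW u : HolH) : ℍ → ℂ) g⁻¹ := rfl

theorem embRC1_injective (hW : WAnalytic M) (g : SL(2, ℤ)) :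
    Function.Injective (embRC1 hW g) :=
  (compSLHom_injective g⁻¹).comp (realC1_injective hW)

theorem embRC1_ne_zero (hW : WAnalytic M) (g : SL(2, ℤ)) {u : RC1 M} (hu : u ≠ 0) :
    embRC1 hW g u ≠ 0 :=
  fun h => hu (embRC1_injective hW g (by rw [h, map_zero]))

/-- The embedding `F₁,ℂ → MerH`, `u / s ↦ (Θ u ∘ g⁻¹) / (Θ s ∘ g⁻¹)`. -/
def embC1 (hW : WAnalytic M) (g : SL(2, ℤ)) : FC1 M →+* MerH :=
  IsFractionRing.lift (A := RC1 M) (K := FC1 M)
    (g := (algebraMap HolH MerH).comp (embRC1 hW g))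
    ((IsFractionRing.injective HolH MerH).comp (embRC1_injective hW g))

theorem embC1_coe (hW : WAnalytic M) (g : SL(2, ℤ)) (u : RC1 M) :
    embC1 hW g (u : FC1 M) = algebraMap HolH MerH (embRC1 hW g u) :=
  IsFractionRing.lift_algebraMap _ u

theorem embC1_div (hW : WAnalytic M) (g : SL(2, ℤ)) (u s : RC1 M) :
    embC1 hW g ((u : FC1 M) / (s : FC1 M)) =
      algebraMap HolH MerH (embRC1 hW g u) / algebraMap HolH MerH (embRC1 hW g s) := by
  rw [map_div₀, embC1_coe, embC1_coe]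

theorem embC1_injective (hW : WAnalytic M) (g : SL(2, ℤ)) : Function.Injective (embC1 hW g) :=
  (embC1 hW g).injective

theorem embC1_algebraMap (hW : WAnalytic M) (g : SL(2, ℤ)) (a : ℂ) :
    embC1 hW g (algebraMap ℂ (FC1 M) a) = algebraMap HolH MerH (algebraMap ℂ HolH a) := by
  change embC1 hW g ((algebraMap ℂ (RC1 M) a : RC1 M) : FC1 M) = _
  rw [embC1_coe]
  congr 1
  apply Subtype.ext
  rw [coe_embRC1, realC1_algebraMap]
  rfl

theorem embC1_jC1 (hW : WAnalytic M) (g : SL(2, ℤ)) :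
    embC1 hW g (jC1 M) = algebraMap HolH MerH ⟨jFun, jFun_mdifferentiable⟩ := by
  change embC1 hW g ((jRC1 M : RC1 M) : FC1 M) = _
  rw [embC1_coe]
  congr 1
  apply Subtype.ext
  rw [coe_embRC1, realC1_jRC1]
  funext z
  exact jFun_smul g⁻¹ z

/-- The realisation of `F₁,ℂ` in the field of meromorphic functions on `ℍ`. -/
def realMer1 (hW : WAnalytic M) : FC1 M →+* MerH := embC1 hW 1

theorem embRC1_eq (hW : WAnalytic M) (g : SL(2, ℤ)) (u : RC1 M) :
    embRC1 hW g u = compSLHom g⁻¹ (realC1 hW u) := rfl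

theorem embRC1_one (hW : WAnalytic M) (u : RC1 M) : embRC1 hW 1 u = realC1 hW u := by
  rw [embRC1_eq, inv_one, compSLHom_one]

theorem realMer1_coe (hW : WAnalytic M) (u : RC1 M) :
    realMer1 hW (u : FC1 M) = algebraMap HolH MerH (realC1 hW u) := by
  rw [realMer1, embC1_coe, embRC1_one]

/-- `embC1 g = (· ∘ g⁻¹) ∘ realMer1`. -/
theorem embC1_eq_slMer (hW : WAnalytic M) (g : SL(2, ℤ)) (f : FC1 M) :
    embC1 hW g f = slMer g⁻¹ (realMer1 hW f) := by
  obtain ⟨u, s, -, rfl⟩ := exists_divC1_ne_zero M f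
  rw [embC1_div, realMer1, embC1_div, slMer_div, embRC1_one, embRC1_one]
  rfl

/-- The realisation of `F₁,ℂ` consists of `Γ₁(M)`-invariant functions. -/
theorem slMer_realMer1_of_mem (hW : WAnalytic M) (γ : SL(2, ℤ))
    (hγ : γ ∈ CongruenceSubgroup.Gamma1 M) (f : FC1 M) :
    slMer γ (realMer1 hW f) = realMer1 hW f := by
  obtain ⟨u, s, -, rfl⟩ := exists_divC1_ne_zero M f
  rw [map_div₀, realMer1_coe, realMer1_coe, slMer_div, compSLHom_realC1_of_mem hW u γ hγ,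
    compSLHom_realC1_of_mem hW s γ hγ]

/-- `embC1` only depends on the coset `g Γ₁(M)`. -/
theorem embC1_mul_of_mem (hW : WAnalytic M) (g γ : SL(2, ℤ))
    (hγ : γ ∈ CongruenceSubgroup.Gamma1 M) (f : FC1 M) :
    embC1 hW (g * γ) f = embC1 hW g f := by
  rw [embC1_eq_slMer, embC1_eq_slMer, mul_inv_rev, slMer_mul,
    slMer_realMer1_of_mem hW γ⁻¹ (inv_mem hγ)]

theorem realMer1_algebraMap (hW : WAnalytic M) (a : ℂ) :
    realMer1 hW (algebraMap ℂ (FC1 M) a) = algebraMap HolH MerH (algebraMap ℂ HolH a) :=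
  embC1_algebraMap hW 1 a

theorem realMer1_jC1 (hW : WAnalytic M) :
    realMer1 hW (jC1 M) = algebraMap HolH MerH ⟨jFun, jFun_mdifferentiable⟩ :=
  embC1_jC1 hW 1

/-- compatibility of the two meromorphic realisations. -/
theorem realMer1_fcIncl (hW : WAnalytic M) (f : FC M) :
    realMer1 hW (fcIncl M f) = realMer M f := by
  obtain ⟨u, s, -, rfl⟩ := exists_divC_ne_zero M f
  rw [map_div₀ (realMer M), realMer_coe, realMer_coe, map_div₀ (fcIncl M),
    map_div₀ (realMer1 hW), ← coe_rcIncl, ← coe_rcIncl, realMer1_coe, realMer1_coe,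
    realC1_rcIncl, realC1_rcIncl]

end Fermat.Agent.ES.R48.CReal1_3
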