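/-
Programme R (S48), chapter GEOM, sub-chapter G5 KUM₁ (helper3): the twin of `ES/KUM/CPoint5`
(second half) for `X₁(M)` — the POINT PLACES of `F₁,ℂ` (weak form): for `g ∈ SL(2, ℤ)`, `z₀ ∈ ℍ`
there are a place `ptPlaceC1 hW g z₀` of `F₁,ℂ / ℂ` and an index `ptIdx1 hW g z₀ > 0` with
  `ordMer z₀ (embC1 hW g f) = ptIdx1 hW g z₀ * (ptPlaceC1 hW g z₀).ord f`   (`f ≠ 0`).
The generic first half of `CPoint5` (`ordFrac`, `ordMer`, `ordMer_slMer`, …) is used AS-IS.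
Everything only depends on the coset of `g` modulo `±Γ₁(M) = X1Iface13.PG1 M` (`…_of_mem_PG1`).
(For `M ≥ 4` the group `Γ₁(M)` is torsion free and all indices are `1`; this is not needed here.)
-/
import Fermat.Agent.ES.KUM.CPoint5
import Fermat.Agent.ES.R48.CReal1_3

set_option autoImplicit false
set_option linter.unusedSectionVars false

open UpperHalfPlane
open scoped Topology Manifold MatrixGroups

noncomputable section

namespace Fermat.Agent.ES.R48.CPoint1_3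

open Fermat.Agent.X0 Fermat.Agent.X0.SurjPoint Fermat.Agent.X0.OrdVal AlgebraicCurve
open Fermat.Agent.ES.KUM Fermat.Agent.ES.R48.FF1Defs13 Fermat.Agent.ES.R48.X1Iface13
  Fermat.Agent.ES.R48.CReal1_3

variable {M : ℕ} [NeZero M] (hW : WAnalytic M)

/-! ### Point places of `F₁,ℂ` -/


/-- The order function on `F₁,ℂ` at the point `z₀`, through the embedding `embC1 hW g`. -/
def ptOrdC1 (g : SL(2, ℤ)) (z₀ : ℍ) (f : FC1 M) : ℤ := ordMer z₀ (embC1 hW g f)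

theorem embC1_ne_zero (g : SL(2, ℤ)) {f : FC1 M} (hf : f ≠ 0) : embC1 hW g f ≠ 0 :=
  fun h => hf ((embC1 hW g).injective (by rw [h, map_zero]))

theorem ptOrdC1_mul (g : SL(2, ℤ)) (z₀ : ℍ) {f f' : FC1 M} (hf : f ≠ 0) (hf' : f' ≠ 0) :
    ptOrdC1 hW g z₀ (f * f') = ptOrdC1 hW g z₀ f + ptOrdC1 hW g z₀ f' := by
  unfold ptOrdC1
  rw [map_mul, ordMer_mul z₀ (embC1_ne_zero hW g hf) (embC1_ne_zero hW g hf')]

theorem ptOrdC1_add (g : SL(2, ℤ)) (z₀ : ℍ) {f f' : FC1 M} (hf : f ≠ 0) (hf' : f' ≠ 0)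
    (h : f + f' ≠ 0) :
    min (ptOrdC1 hW g z₀ f) (ptOrdC1 hW g z₀ f') ≤ ptOrdC1 hW g z₀ (f + f') := by
  unfold ptOrdC1
  rw [map_add]
  refine ordMer_add z₀ (embC1_ne_zero hW g hf) (embC1_ne_zero hW g hf') ?_
  rw [← map_add]
  exact embC1_ne_zero hW g h

theorem ptOrdC1_algebraMap (g : SL(2, ℤ)) (z₀ : ℍ) {c : ℂ} (hc : c ≠ 0) :
    ptOrdC1 hW g z₀ (algebraMap ℂ (FC1 M) c) = 0 := by
  unfold ptOrdC1
  rw [embC1_algebraMap, ordMer_const z₀ hc]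

/-- `embC1 hW g (j - c) = jFun - c`. -/
theorem embC1_jC1_sub (g : SL(2, ℤ)) (c : ℂ) :
    embC1 hW g (jC1 M - algebraMap ℂ (FC1 M) c) =
      algebraMap HolH MerH ⟨fun z => jFun z - c,
        jFun_mdifferentiable.sub mdifferentiable_const⟩ := by
  rw [map_sub, embC1_jC1, embC1_algebraMap, ← map_sub]
  rfl

open Fermat.Agent.X0.JOrderFinal Fermat.Agent.X0.JOrderMain in
/-- The order of `j - j(z₀)` at `z₀` is `ellOrder z₀`. -/
theorem ptOrdC1_jC1_sub (g : SL(2, ℤ)) (z₀ : ℍ) :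
    ptOrdC1 hW g z₀ (jC1 M - algebraMap ℂ (FC1 M) (jFun z₀)) = ellOrder z₀ := by
  unfold ptOrdC1
  rw [embC1_jC1_sub, ordMer_algebraMap z₀ (jFun_sub_ne_zero _)]
  have : ordH (fun z => jFun z - jFun z₀) z₀ = ellOrder z₀ := ordH_jFun_sub z₀
  show ((ordH (fun z => jFun z - jFun z₀) z₀).toNat : ℤ) = _
  rw [this]
  rfl

open Fermat.Agent.X0.JOrderFinal Fermat.Agent.X0.JOrderMain in
/-- If `c ≠ j(z₀)`, then `j - c` has order `0` at `z₀`. -/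
theorem ptOrdC1_jC1_sub_of_ne (g : SL(2, ℤ)) (z₀ : ℍ) {c : ℂ} (hc : jFun z₀ ≠ c) :
    ptOrdC1 hW g z₀ (jC1 M - algebraMap ℂ (FC1 M) c) = 0 := by
  unfold ptOrdC1
  rw [embC1_jC1_sub, ordMer_algebraMap z₀ (jFun_sub_ne_zero _)]
  have : ordH (fun z => jFun z - c) z₀ = 0 := ordH_jFun_sub_const_of_ne z₀ c hc
  show ((ordH (fun z => jFun z - c) z₀).toNat : ℤ) = _
  rw [this]
  rfl

include hW in
theorem jC1_sub_ne_zero (c : ℂ) : jC1 M - algebraMap ℂ (FC1 M) c ≠ 0 := by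
  intro h
  have h1 := congrArg (embC1 hW 1) h
  rw [embC1_jC1_sub, map_zero] at h1
  exact algebraMap_ne_zero_of_ne (jFun_sub_ne_zero c) h1

open Fermat.Agent.X0.JOrderMain in
/-- Existence of the point place (FF5). -/
theorem exists_ptPlaceC1 (g : SL(2, ℤ)) (z₀ : ℍ) :
    ∃ (v : Place ℂ (FC1 M)) (m : ℕ), 0 < m ∧
      (∀ f : FC1 M, f ≠ 0 → ptOrdC1 hW g z₀ f = m * v.ord f) ∧
      (∀ f : FC1 M, f ≠ 0 → (f ∈ v.toValuationSubring ↔ 0 ≤ ptOrdC1 hW g z₀ f)) := by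
  refine FF.exists_place_of_order (K := ℂ) (ptOrdC1 hW g z₀)
    (fun f f' hf hf' => ptOrdC1_mul hW g z₀ hf hf')
    (fun f f' hf hf' h => ptOrdC1_add hW g z₀ hf hf' h)
    (fun c hc => ptOrdC1_algebraMap hW g z₀ hc)
    ⟨jC1 M - algebraMap ℂ (FC1 M) (jFun z₀), jC1_sub_ne_zero hW _, ?_⟩
  rw [ptOrdC1_jC1_sub]
  exact_mod_cast (ellOrder_pos z₀).ne'

/-- The point place of `F₁,ℂ` attached to `(g, z₀)`. -/
def ptPlaceC1 (g : SL(2, ℤ)) (z₀ : ℍ) : Place ℂ (FC1 M) := (exists_ptPlaceC1 hW g z₀).choose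

/-- The index of the analytic order at `z₀` with respect to the point place. -/
def ptIdx1 (g : SL(2, ℤ)) (z₀ : ℍ) : ℕ := (exists_ptPlaceC1 hW g z₀).choose_spec.choose

theorem ptIdx1_pos (g : SL(2, ℤ)) (z₀ : ℍ) : 0 < ptIdx1 hW g z₀ :=
  (exists_ptPlaceC1 hW g z₀).choose_spec.choose_spec.1

/-- **Point dictionary over `ℂ`, weak form.** -/
theorem ptOrdC1_eq (g : SL(2, ℤ)) (z₀ : ℍ) {f : FC1 M} (hf : f ≠ 0) :
    ptOrdC1 hW g z₀ f = ptIdx1 hW g z₀ * (ptPlaceC1 hW g z₀).ord f :=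
  (exists_ptPlaceC1 hW g z₀).choose_spec.choose_spec.2.1 f hf

theorem ordMer_embC1 (g : SL(2, ℤ)) (z₀ : ℍ) {f : FC1 M} (hf : f ≠ 0) :
    ordMer z₀ (embC1 hW g f) = ptIdx1 hW g z₀ * (ptPlaceC1 hW g z₀).ord f :=
  ptOrdC1_eq hW g z₀ hf

theorem mem_ptPlaceC1_iff (g : SL(2, ℤ)) (z₀ : ℍ) {f : FC1 M} (hf : f ≠ 0) :
    f ∈ (ptPlaceC1 hW g z₀).toValuationSubring ↔ 0 ≤ ptOrdC1 hW g z₀ f :=
  (exists_ptPlaceC1 hW g z₀).choose_spec.choose_spec.2.2 f hf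

/-- The valuation subring of the point place is the pull-back of the ring of functions regular at
`z₀`. -/
theorem ptPlaceC1_toValuationSubring (g : SL(2, ℤ)) (z₀ : ℍ) :
    (ptPlaceC1 hW g z₀).toValuationSubring = (valAt z₀).comap (embC1 hW g) := by
  ext f
  rcases eq_or_ne f 0 with rfl | hf
  · simp
  rw [mem_ptPlaceC1_iff hW g z₀ hf, ValuationSubring.mem_comap, mem_valAt_iff z₀ (embC1_ne_zero hW g hf)]
  rfl

/-- A place whose valuation subring is the pull-back of `valAt z₀` is the point place. -/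
theorem eq_ptPlaceC1_of_comap {v : Place ℂ (FC1 M)} {g : SL(2, ℤ)} {z₀ : ℍ}
    (h : v.toValuationSubring = (valAt z₀).comap (embC1 hW g)) : v = ptPlaceC1 hW g z₀ :=
  Place.ext (h.trans (ptPlaceC1_toValuationSubring hW g z₀).symm)

/-- The point place only depends on the coset `g Γ₁(M)`. -/
theorem ptPlaceC1_mul_of_mem (g γ : SL(2, ℤ)) (hγ : γ ∈ CongruenceSubgroup.Gamma1 M) (z₀ : ℍ) :
    ptPlaceC1 hW (g * γ) z₀ = ptPlaceC1 hW g z₀ := by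
  apply eq_ptPlaceC1_of_comap
  rw [ptPlaceC1_toValuationSubring]
  ext f
  rw [ValuationSubring.mem_comap, ValuationSubring.mem_comap, embC1_mul_of_mem hW g γ hγ]

theorem ptOrdC1_mul_of_mem (g γ : SL(2, ℤ)) (hγ : γ ∈ CongruenceSubgroup.Gamma1 M) (z₀ : ℍ)
    (f : FC1 M) : ptOrdC1 hW (g * γ) z₀ f = ptOrdC1 hW g z₀ f := by
  unfold ptOrdC1
  rw [embC1_mul_of_mem hW g γ hγ]

/-- Moving the base point: `(σ g, σ z₀)` and `(g, z₀)` give the same order function. -/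
theorem ptOrdC1_smul (σ g : SL(2, ℤ)) (z₀ : ℍ) (f : FC1 M) :
    ptOrdC1 hW (σ * g) (σ • z₀) f = ptOrdC1 hW g z₀ f := by
  unfold ptOrdC1
  rw [embC1_eq_slMer, embC1_eq_slMer, mul_inv_rev, slMer_mul, ordMer_slMer, inv_smul_smul]

theorem ptPlaceC1_smul (σ g : SL(2, ℤ)) (z₀ : ℍ) :
    ptPlaceC1 hW (σ * g) (σ • z₀) = ptPlaceC1 hW g z₀ := by
  apply Place.ext
  ext f
  rcases eq_or_ne f 0 with rfl | hf
  · simp
  rw [mem_ptPlaceC1_iff hW _ _ hf, mem_ptPlaceC1_iff hW _ _ hf, ptOrdC1_smul]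

theorem ptIdx1_smul (σ g : SL(2, ℤ)) (z₀ : ℍ) : ptIdx1 hW (σ * g) (σ • z₀) = ptIdx1 hW g z₀ := by
  have h1 := ptOrdC1_eq hW (σ * g) (σ • z₀) (jC1_sub_ne_zero hW (jFun z₀))
  have h2 := ptOrdC1_eq hW g z₀ (jC1_sub_ne_zero hW (jFun z₀))
  rw [ptOrdC1_smul, ptPlaceC1_smul] at h1
  rw [h1] at h2
  have h3 : (ptPlaceC1 hW g z₀).ord (jC1 M - algebraMap ℂ (FC1 M) (jFun z₀)) ≠ 0 := by
    intro h0
    rw [h0, mul_zero] at h1
    have h4 := ptOrdC1_jC1_sub hW g z₀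
    rw [h1] at h4
    have := Fermat.Agent.X0.JOrderMain.ellOrder_pos z₀
    omega
  exact_mod_cast mul_right_cancel₀ h3 h2

theorem ptIdx1_mul_of_mem (g γ : SL(2, ℤ)) (hγ : γ ∈ CongruenceSubgroup.Gamma1 M) (z₀ : ℍ) :
    ptIdx1 hW (g * γ) z₀ = ptIdx1 hW g z₀ := by
  have h1 := ptOrdC1_eq hW (g * γ) z₀ (jC1_sub_ne_zero hW (jFun z₀))
  have h2 := ptOrdC1_eq hW g z₀ (jC1_sub_ne_zero hW (jFun z₀))
  rw [ptOrdC1_mul_of_mem hW g γ hγ, ptPlaceC1_mul_of_mem hW g γ hγ] at h1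
  rw [h1] at h2
  have h3 : (ptPlaceC1 hW g z₀).ord (jC1 M - algebraMap ℂ (FC1 M) (jFun z₀)) ≠ 0 := by
    intro h0
    rw [h0, mul_zero] at h1
    have h4 := ptOrdC1_jC1_sub hW g z₀
    rw [h1] at h4
    have := Fermat.Agent.X0.JOrderMain.ellOrder_pos z₀
    omega
  exact_mod_cast mul_right_cancel₀ h3 h2

/-- `ptIdx1 * ord_P (j - j(z₀)) = ellOrder z₀`. -/
theorem ptIdx1_mul_ord_jC1_sub (g : SL(2, ℤ)) (z₀ : ℍ) :
    (ptIdx1 hW g z₀ : ℤ) * (ptPlaceC1 hW g z₀).ord (jC1 M - algebraMap ℂ (FC1 M) (jFun z₀)) =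
      ellOrder z₀ := by
  rw [← ptOrdC1_eq hW g z₀ (jC1_sub_ne_zero hW _), ptOrdC1_jC1_sub]

theorem ord_jC1_sub_pos (g : SL(2, ℤ)) (z₀ : ℍ) :
    0 < (ptPlaceC1 hW g z₀).ord (jC1 M - algebraMap ℂ (FC1 M) (jFun z₀)) := by
  have h := ptIdx1_mul_ord_jC1_sub hW g z₀
  have h1 : (0 : ℤ) < ptIdx1 hW g z₀ := by exact_mod_cast ptIdx1_pos hW g z₀
  have h2 : (0 : ℤ) < ellOrder z₀ := by exact_mod_cast Fermat.Agent.X0.JOrderMain.ellOrder_pos z₀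
  rw [← h] at h2
  exact (mul_pos_iff_of_pos_left h1).mp h2

theorem ptIdx1_dvd_ellOrder (g : SL(2, ℤ)) (z₀ : ℍ) : ptIdx1 hW g z₀ ∣ ellOrder z₀ := by
  have h := ptIdx1_mul_ord_jC1_sub hW g z₀
  have : (ptIdx1 hW g z₀ : ℤ) ∣ (ellOrder z₀ : ℤ) := ⟨_, h.symm⟩
  exact_mod_cast this

/-- The analytic order of the realisation at any point, in terms of the point place `(1, z₀)`. -/
theorem ordMer_realMer1 (z₀ : ℍ) {f : FC1 M} (hf : f ≠ 0) :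
    ordMer z₀ (realMer1 hW f) = ptIdx1 hW 1 z₀ * (ptPlaceC1 hW 1 z₀).ord f :=
  ordMer_embC1 hW 1 z₀ hf

/-! ### `-1` acts trivially on `ℍ`: everything only depends on the coset modulo `±Γ₁(M)` -/

theorem compSL_neg (f : ℍ → ℂ) (γ : SL(2, ℤ)) : compSL f (-γ) = compSL f γ := by
  funext z
  unfold compSL
  rw [ModularGroup.SL_neg_smul]

theorem compSLHom_neg (γ : SL(2, ℤ)) (f : HolH) : compSLHom (-γ) f = compSLHom γ f :=
  Subtype.ext (compSL_neg f.1 γ)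

theorem slMer_neg (γ : SL(2, ℤ)) (h : MerH) : slMer (-γ) h = slMer γ h := by
  obtain ⟨a, b, -, rfl⟩ := exists_div_MerH h
  rw [slMer_div, slMer_div, compSLHom_neg, compSLHom_neg]

/-- The realisation of `F₁,ℂ` consists of `±Γ₁(M)`-invariant functions. -/
theorem slMer_realMer1_of_mem_PG1 (γ : SL(2, ℤ)) (hγ : γ ∈ PG1 M) (f : FC1 M) :
    slMer γ (realMer1 hW f) = realMer1 hW f := by
  rcases (mem_PG1_iff M).mp hγ with h | h
  · exact slMer_realMer1_of_mem hW γ h f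
  · rw [← slMer_neg, slMer_realMer1_of_mem hW (-γ) h f]

/-- `embC1` only depends on the coset `g (±Γ₁(M))`. -/
theorem embC1_mul_of_mem_PG1 (g γ : SL(2, ℤ)) (hγ : γ ∈ PG1 M) (f : FC1 M) :
    embC1 hW (g * γ) f = embC1 hW g f := by
  rw [embC1_eq_slMer, embC1_eq_slMer, mul_inv_rev, slMer_mul,
    slMer_realMer1_of_mem_PG1 hW γ⁻¹ (inv_mem hγ)]

theorem ptOrdC1_mul_of_mem_PG1 (g γ : SL(2, ℤ)) (hγ : γ ∈ PG1 M) (z₀ : ℍ) (f : FC1 M) :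
    ptOrdC1 hW (g * γ) z₀ f = ptOrdC1 hW g z₀ f := by
  unfold ptOrdC1
  rw [embC1_mul_of_mem_PG1 hW g γ hγ]

/-- The point place only depends on the coset `g (±Γ₁(M))`. -/
theorem ptPlaceC1_mul_of_mem_PG1 (g γ : SL(2, ℤ)) (hγ : γ ∈ PG1 M) (z₀ : ℍ) :
    ptPlaceC1 hW (g * γ) z₀ = ptPlaceC1 hW g z₀ := by
  apply eq_ptPlaceC1_of_comap
  rw [ptPlaceC1_toValuationSubring]
  ext f
  rw [ValuationSubring.mem_comap, ValuationSubring.mem_comap, embC1_mul_of_mem_PG1 hW g γ hγ]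

theorem ptIdx1_mul_of_mem_PG1 (g γ : SL(2, ℤ)) (hγ : γ ∈ PG1 M) (z₀ : ℍ) :
    ptIdx1 hW (g * γ) z₀ = ptIdx1 hW g z₀ := by
  have h1 := ptOrdC1_eq hW (g * γ) z₀ (jC1_sub_ne_zero hW (jFun z₀))
  have h2 := ptOrdC1_eq hW g z₀ (jC1_sub_ne_zero hW (jFun z₀))
  rw [ptOrdC1_mul_of_mem_PG1 hW g γ hγ, ptPlaceC1_mul_of_mem_PG1 hW g γ hγ] at h1
  rw [h1] at h2
  have h3 : (ptPlaceC1 hW g z₀).ord (jC1 M - algebraMap ℂ (FC1 M) (jFun z₀)) ≠ 0 :=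
    (ord_jC1_sub_pos hW g z₀).ne'
  exact_mod_cast mul_right_cancel₀ h3 h2

end Fermat.Agent.ES.R48.CPoint1_3
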