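/-
Programme R (S48, Deligne–Serre), chapter RAT, bricks (19a) + (19b) (helper19).

(19a) From main's S23 (`CuspForm.HasIntegralStructure M 2`, all `M`): every weight-two cusp form
on `Γ₀(M)` is a FINITE `ℂ`-combination of forms with integer `q`-coefficients.

(19b) If all `q`-coefficients of `g ∈ S₂(Γ₀(M))` lie in a subfield `K ⊆ ℂ`, then for every ring
homomorphism `τ : K →+* ℂ` there is `g' ∈ S₂(Γ₀(M))` with `q`-coefficients `τ (a_n(g))`
(a `K`-linear retraction `ℂ → K` applied to the coordinates of `g` in an integral family).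
-/
import Mathlib
import Fermat.Agent.S23
import Fermat.Agent.S49.QExp

set_option autoImplicit false

open CongruenceSubgroup ModularFormClass

namespace Fermat.Agent.ES.R48.IntSpan19

variable {M : ℕ}

/-- `f` has integer `q`-coefficients. -/
def IntCoeff (f : CuspForm (Gamma0 M) 2) : Prop :=
  ∀ n : ℕ, ∃ m : ℤ, qCoeff f n = (m : ℂ)

/-- `qCoeff` of a finite linear combination. -/
theorem qCoeff_sum_smul {r : ℕ} (c : Fin r → ℂ) (b : Fin r → CuspForm (Gamma0 M) 2) (n : ℕ) :
    qCoeff (⇑(∑ j, c j • b j)) n = ∑ j, c j * qCoeff (⇑(b j)) n := by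
  have h := congrFun (map_sum (Fermat.Agent.S49.qCoeffLin M) (fun j => c j • b j) Finset.univ) n
  simp only [Fermat.Agent.S49.qCoeffLin_apply, Finset.sum_apply, map_smul, Pi.smul_apply,
    smul_eq_mul] at h
  exact h

/-- **(19a)** every `g ∈ S₂(Γ₀(M))` is a finite `ℂ`-combination of forms with integer
`q`-coefficients (main's S23). -/
theorem exists_int_combination [NeZero M] (g : CuspForm (Gamma0 M) 2) :
    ∃ (r : ℕ) (c : Fin r → ℂ) (b : Fin r → CuspForm (Gamma0 M) 2),
      (∀ j, IntCoeff (b j)) ∧ g = ∑ j, c j • b j ∧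
      ∀ n : ℕ, qCoeff g n = ∑ j, c j * qCoeff (b j) n := by
  have hS23 : CuspForm.HasIntegralStructure M 2 := Fermat.Agent.S23.result M
  unfold CuspForm.HasIntegralStructure CuspForm.intLattice at hS23
  rw [Submodule.span_span_of_tower] at hS23
  have hg : g ∈ Submodule.span ℂ
      {f : CuspForm (Gamma0 M) 2 | ∀ n : ℕ, ∃ m : ℤ, qCoeff f n = (m : ℂ)} := by
    rw [hS23]; exact Submodule.mem_top
  obtain ⟨r, c, b, hsum⟩ := Submodule.mem_span_set'.mp hg
  refine ⟨r, c, fun j => (b j : CuspForm (Gamma0 M) 2), fun j => (b j).2, hsum.symm, ?_⟩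
  intro n
  rw [← hsum]
  exact qCoeff_sum_smul c (fun j => (b j : CuspForm (Gamma0 M) 2)) n

/-- **(19b)** conjugation of a weight-two cusp form on `Γ₀(M)` with coefficients in a subfield
`K ⊆ ℂ` by a ring homomorphism `τ : K →+* ℂ`. -/
theorem exists_conj [NeZero M] (g : CuspForm (Gamma0 M) 2) (K : IntermediateField ℚ ℂ)
    (hK : ∀ n : ℕ, qCoeff g n ∈ K) (τ : K →+* ℂ) :
    ∃ g' : CuspForm (Gamma0 M) 2, ∀ n : ℕ, qCoeff g' n = τ ⟨qCoeff g n, hK n⟩ := by
  obtain ⟨r, c, b, hb, -, hcoef⟩ := exists_int_combination g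
  -- a `K`-linear retraction of `K ↪ ℂ`
  obtain ⟨π, hπ⟩ := LinearMap.exists_leftInverse_of_injective (Algebra.linearMap K ℂ)
    (LinearMap.ker_eq_bot.mpr (algebraMap K ℂ).injective)
  have hπK : ∀ x : K, π (x : ℂ) = x := fun x => by
    have := LinearMap.congr_fun hπ x
    simpa using this
  have hπint : ∀ (z : ℂ) (m : ℤ), π (z * (m : ℂ)) = π z * (m : K) := by
    intro z m
    have h1 : z * (m : ℂ) = (m : K) • z := by
      rw [Algebra.smul_def, mul_comm]; simp
    rw [h1, map_smul, smul_eq_mul, mul_comm]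
  refine ⟨∑ j, τ (π (c j)) • b j, fun n => ?_⟩
  rw [qCoeff_sum_smul]
  choose m hm using fun j => hb j n
  have hkey : (⟨qCoeff g n, hK n⟩ : K) = ∑ j, π (c j) * (m j : K) := by
    have h2 : π (qCoeff g n) = ∑ j, π (c j) * (m j : K) := by
      rw [hcoef n, map_sum]
      refine Finset.sum_congr rfl fun j _ => ?_
      rw [hm j, hπint]
    rw [← h2]
    exact (hπK ⟨qCoeff g n, hK n⟩).symm
  rw [hkey, map_sum]
  refine Finset.sum_congr rfl fun j _ => ?_
  rw [hm j, map_mul, map_intCast]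

end Fermat.Agent.ES.R48.IntSpan19
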