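/-
Programme R (S48, Deligne–Serre), chapter RAT, brick (19d) (helper19).

Pure algebra on a sequence `a : ℕ → ℂ` with `a 1 = 1` satisfying the formal Hecke relations of
the frozen statement (character values `ε : ZMod N → ℂ`, primes `p ∤ N`, all `n`), all of whose
terms lie in a finitely generated `ℤ`-submodule `M₀ ⊆ ℂ` stable under the values of `ε`:

* every `a p` (`p ∤ N` prime) and every `ε x` is an algebraic integer;
* the field `ratField = ℚ(ε x, a p : p ∤ N)` is finite over `ℚ`;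
* if moreover `a n = 0` for `n` not prime to `N`, every `a n` lies in `ratField`.

Mathlib only.
-/
import Mathlib

set_option autoImplicit false

namespace Fermat.Agent.ES.R48.IntegralAp19

/-- The formal Hecke relations of the frozen statement S48, for a sequence. -/
def SeqHeckeRel (N : ℕ) (ε : ZMod N → ℂ) (a : ℕ → ℂ) : Prop :=
  ∀ p : ℕ, p.Prime → ¬ p ∣ N → ∀ n : ℕ,
    a (p * n) + ε (p : ZMod N) * (if p ∣ n then a (n / p) else 0) = a p * a n

/-- The generators of the coefficient field. -/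
def gens (N : ℕ) (ε : ZMod N → ℂ) (a : ℕ → ℂ) : Set ℂ :=
  Set.range ε ∪ {z | ∃ p : ℕ, p.Prime ∧ ¬ p ∣ N ∧ z = a p}

/-- The coefficient field `ℚ(ε x, a p : p ∤ N)`. -/
noncomputable def ratField (N : ℕ) (ε : ZMod N → ℂ) (a : ℕ → ℂ) : IntermediateField ℚ ℂ :=
  IntermediateField.adjoin ℚ (gens N ε a)

variable {N : ℕ} {ε : ZMod N → ℂ} {a : ℕ → ℂ}

/-- A complex number stabilising a non-zero finitely generated `ℤ`-submodule of `ℂ` is an
algebraic integer. -/
theorem isIntegral_of_stable (M : Submodule ℤ ℂ) (hfg : M.FG) (hne : M ≠ ⊥) (x : ℂ)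
    (hx : ∀ m ∈ M, x * m ∈ M) : IsIntegral ℤ x :=
  isIntegral_of_smul_mem_submodule M hne hfg x (fun m hm => by simpa using hx m hm)

/-- the `ε`-values are algebraic integers. -/
theorem isIntegral_eps (ha1 : a 1 = 1) (M₀ : Submodule ℤ ℂ) (hfg : M₀.FG)
    (hε : ∀ x : ZMod N, ∀ m ∈ M₀, ε x * m ∈ M₀) (ha : ∀ n, a n ∈ M₀) (x : ZMod N) :
    IsIntegral ℤ (ε x) := by
  refine isIntegral_of_stable M₀ hfg ?_ (ε x) (hε x)
  intro h
  have h1 : (1 : ℂ) ∈ M₀ := ha1 ▸ ha 1
  rw [h] at h1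
  exact one_ne_zero ((Submodule.mem_bot ℤ).mp h1)

/-- the submodule of `M₀` of elements `m` with `a (p ^ j) * m`-type stability: we use the
`ℤ`-span of all `e * a (p ^ j)`, `e` a product of `ε`-values (encoded as: the smallest
submodule containing the `a (p^j)` and stable under the `ε x`). -/
noncomputable def powSpan (N : ℕ) (ε : ZMod N → ℂ) (a : ℕ → ℂ) (p : ℕ) : Submodule ℤ ℂ :=
  sInf {P : Submodule ℤ ℂ | (∀ j : ℕ, a (p ^ j) ∈ P) ∧ ∀ x : ZMod N, ∀ m ∈ P, ε x * m ∈ P}

theorem powSpan_le (M₀ : Submodule ℤ ℂ)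
    (hε : ∀ x : ZMod N, ∀ m ∈ M₀, ε x * m ∈ M₀) (ha : ∀ n, a n ∈ M₀) (p : ℕ) :
    powSpan N ε a p ≤ M₀ :=
  sInf_le ⟨fun _ => ha _, hε⟩

theorem apow_mem_powSpan (p j : ℕ) : a (p ^ j) ∈ powSpan N ε a p :=
  (Submodule.mem_sInf).mpr fun _ hP => hP.1 j

theorem eps_mul_mem_powSpan (p : ℕ) (x : ZMod N) {m : ℂ} (hm : m ∈ powSpan N ε a p) :
    ε x * m ∈ powSpan N ε a p :=
  (Submodule.mem_sInf).mpr fun P hP => hP.2 x m ((Submodule.mem_sInf).mp hm P hP)

/-- `a p` stabilises `powSpan`. -/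
theorem ap_mul_mem_powSpan (hT : SeqHeckeRel N ε a) {p : ℕ} (hp : p.Prime) (hpN : ¬ p ∣ N)
    {m : ℂ} (hm : m ∈ powSpan N ε a p) : a p * m ∈ powSpan N ε a p := by
  -- the set of `m` with `a p * m ∈ powSpan` is a submodule containing the generators and
  -- stable under `ε`
  let Q : Submodule ℤ ℂ :=
    { carrier := {m | m ∈ powSpan N ε a p ∧ a p * m ∈ powSpan N ε a p}
      add_mem' := by
        rintro x y ⟨hx, hx'⟩ ⟨hy, hy'⟩
        exact ⟨Submodule.add_mem _ hx hy, by rw [mul_add]; exact Submodule.add_mem _ hx' hy'⟩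
      zero_mem' := ⟨Submodule.zero_mem _, by rw [mul_zero]; exact Submodule.zero_mem _⟩
      smul_mem' := by
        rintro c x ⟨hx, hx'⟩
        refine ⟨Submodule.smul_mem _ c hx, ?_⟩
        rw [mul_smul_comm]
        exact Submodule.smul_mem _ c hx' }
  have hQ : powSpan N ε a p ≤ Q := by
    refine sInf_le ⟨fun j => ⟨apow_mem_powSpan p j, ?_⟩, fun x m hm => ⟨?_, ?_⟩⟩
    · -- `a p * a (p^j) = a (p^(j+1)) + ε p * a (p^(j-1))`
      have h := hT p hp hpN (p ^ j)
      rw [← h, ← pow_succ']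
      refine Submodule.add_mem _ (apow_mem_powSpan p (j + 1)) ?_
      refine eps_mul_mem_powSpan p _ ?_
      split_ifs with hd
      · rcases Nat.eq_zero_or_pos j with rfl | hj
        · exfalso
          rw [pow_zero] at hd
          exact hp.one_lt.ne' (Nat.dvd_one.mp hd)
        · obtain ⟨i, rfl⟩ : ∃ i, j = i + 1 := ⟨j - 1, by omega⟩
          rw [pow_succ, Nat.mul_div_cancel _ hp.pos]
          exact apow_mem_powSpan p i
      · exact Submodule.zero_mem _
    · exact eps_mul_mem_powSpan p x hm.1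
    · rw [mul_left_comm]
      exact eps_mul_mem_powSpan p x hm.2
  exact (hQ hm).2

/-- **(19d-i)** the `a p`, `p ∤ N` prime, are algebraic integers. -/
theorem isIntegral_ap (ha1 : a 1 = 1) (hT : SeqHeckeRel N ε a)
    (M₀ : Submodule ℤ ℂ) (hfg : M₀.FG)
    (hε : ∀ x : ZMod N, ∀ m ∈ M₀, ε x * m ∈ M₀) (ha : ∀ n, a n ∈ M₀)
    {p : ℕ} (hp : p.Prime) (hpN : ¬ p ∣ N) : IsIntegral ℤ (a p) := by
  have hnoeth : IsNoetherian ℤ M₀ := isNoetherian_of_fg_of_noetherian M₀ hfg
  have hfgP : (powSpan N ε a p).FG :=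
    isNoetherian_submodule.mp hnoeth (powSpan N ε a p) (powSpan_le (a := a) M₀ hε ha p)
  refine isIntegral_of_stable (powSpan N ε a p) hfgP ?_ (a p)
    (fun m hm => ap_mul_mem_powSpan hT hp hpN hm)
  intro h
  have h1 : (1 : ℂ) ∈ powSpan N ε a p := by
    have := apow_mem_powSpan (N := N) (ε := ε) (a := a) p 0
    rwa [pow_zero, ha1] at this
  rw [h] at h1
  exact one_ne_zero ((Submodule.mem_bot ℤ).mp h1)

/-! ### The coefficient field is finite over `ℚ` -/

/-- the smallest `ℤ`-submodule of `ℂ` containing all `a n` and stable under the `ε x`. -/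
noncomputable def allSpan (N : ℕ) (ε : ZMod N → ℂ) (a : ℕ → ℂ) : Submodule ℤ ℂ :=
  sInf {P : Submodule ℤ ℂ | (∀ n : ℕ, a n ∈ P) ∧ ∀ x : ZMod N, ∀ m ∈ P, ε x * m ∈ P}

theorem allSpan_le (M₀ : Submodule ℤ ℂ)
    (hε : ∀ x : ZMod N, ∀ m ∈ M₀, ε x * m ∈ M₀) (ha : ∀ n, a n ∈ M₀) :
    allSpan N ε a ≤ M₀ :=
  sInf_le ⟨ha, hε⟩

theorem a_mem_allSpan (n : ℕ) : a n ∈ allSpan N ε a :=
  (Submodule.mem_sInf).mpr fun _ hP => hP.1 n

theorem eps_mul_mem_allSpan (x : ZMod N) {m : ℂ} (hm : m ∈ allSpan N ε a) :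
    ε x * m ∈ allSpan N ε a :=
  (Submodule.mem_sInf).mpr fun P hP => hP.2 x m ((Submodule.mem_sInf).mp hm P hP)

/-- `a p` stabilises `allSpan`. -/
theorem ap_mul_mem_allSpan (hT : SeqHeckeRel N ε a) {p : ℕ} (hp : p.Prime) (hpN : ¬ p ∣ N)
    {m : ℂ} (hm : m ∈ allSpan N ε a) : a p * m ∈ allSpan N ε a := by
  let Q : Submodule ℤ ℂ :=
    { carrier := {m | m ∈ allSpan N ε a ∧ a p * m ∈ allSpan N ε a}
      add_mem' := by
        rintro x y ⟨hx, hx'⟩ ⟨hy, hy'⟩
        exact ⟨Submodule.add_mem _ hx hy, by rw [mul_add]; exact Submodule.add_mem _ hx' hy'⟩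
      zero_mem' := ⟨Submodule.zero_mem _, by rw [mul_zero]; exact Submodule.zero_mem _⟩
      smul_mem' := by
        rintro c x ⟨hx, hx'⟩
        refine ⟨Submodule.smul_mem _ c hx, ?_⟩
        rw [mul_smul_comm]
        exact Submodule.smul_mem _ c hx' }
  have hQ : allSpan N ε a ≤ Q := by
    refine sInf_le ⟨fun n => ⟨a_mem_allSpan n, ?_⟩, fun x m hm => ⟨?_, ?_⟩⟩
    · have h := hT p hp hpN n
      rw [← h]
      refine Submodule.add_mem _ (a_mem_allSpan _) (eps_mul_mem_allSpan _ ?_)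
      split_ifs
      · exact a_mem_allSpan _
      · exact Submodule.zero_mem _
    · exact eps_mul_mem_allSpan x hm.1
    · rw [mul_left_comm]
      exact eps_mul_mem_allSpan x hm.2
  exact (hQ hm).2

/-- every generator of the coefficient field stabilises `allSpan`. -/
theorem gen_mul_mem_allSpan (hT : SeqHeckeRel N ε a) {g : ℂ} (hg : g ∈ gens N ε a)
    {m : ℂ} (hm : m ∈ allSpan N ε a) : g * m ∈ allSpan N ε a := by
  rcases hg with ⟨x, rfl⟩ | ⟨p, hp, hpN, rfl⟩
  · exact eps_mul_mem_allSpan x hm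
  · exact ap_mul_mem_allSpan hT hp hpN hm

/-- the `ℚ`-span of `allSpan`. -/
noncomputable def ratSpan (N : ℕ) (ε : ZMod N → ℂ) (a : ℕ → ℂ) : Submodule ℚ ℂ :=
  Submodule.span ℚ (allSpan N ε a : Set ℂ)

theorem gen_mul_mem_ratSpan (hT : SeqHeckeRel N ε a) {g : ℂ} (hg : g ∈ gens N ε a)
    {s : ℂ} (hs : s ∈ ratSpan N ε a) : g * s ∈ ratSpan N ε a := by
  refine Submodule.span_induction (p := fun s _ => g * s ∈ ratSpan N ε a) ?_ ?_ ?_ ?_ hs
  · intro m hm
    exact Submodule.subset_span (gen_mul_mem_allSpan hT hg hm)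
  · rw [mul_zero]; exact Submodule.zero_mem _
  · intro x y _ _ hx hy; rw [mul_add]; exact Submodule.add_mem _ hx hy
  · intro r x _ hx; rw [mul_smul_comm]; exact Submodule.smul_mem _ r hx

theorem finiteDimensional_ratSpan (M₀ : Submodule ℤ ℂ) (hfg : M₀.FG)
    (hε : ∀ x : ZMod N, ∀ m ∈ M₀, ε x * m ∈ M₀) (ha : ∀ n, a n ∈ M₀) :
    FiniteDimensional ℚ (ratSpan N ε a) := by
  have hnoeth : IsNoetherian ℤ M₀ := isNoetherian_of_fg_of_noetherian M₀ hfg
  have hfgP : (allSpan N ε a).FG :=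
    isNoetherian_submodule.mp hnoeth (allSpan N ε a) (allSpan_le (a := a) M₀ hε ha)
  obtain ⟨t, ht⟩ := hfgP
  have : ratSpan N ε a = Submodule.span ℚ (t : Set ℂ) := by
    unfold ratSpan
    rw [← ht]
    exact Submodule.span_span_of_tower ℤ ℚ (t : Set ℂ)
  rw [this]
  exact FiniteDimensional.span_finset ℚ t

/-- the `ℚ`-algebra generated by the generators lies in `ratSpan`. -/
theorem adjoin_le_ratSpan (ha1 : a 1 = 1) (hT : SeqHeckeRel N ε a) :
    Subalgebra.toSubmodule (Algebra.adjoin ℚ (gens N ε a)) ≤ ratSpan N ε a := by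
  have key : ∀ b ∈ Algebra.adjoin ℚ (gens N ε a), ∀ s ∈ ratSpan N ε a, b * s ∈ ratSpan N ε a := by
    intro b hb
    refine Algebra.adjoin_induction (p := fun b _ => ∀ s ∈ ratSpan N ε a, b * s ∈ ratSpan N ε a)
      ?_ ?_ ?_ ?_ hb
    · intro g hg s hs; exact gen_mul_mem_ratSpan hT hg hs
    · intro r s hs
      rw [Algebra.algebraMap_eq_smul_one, smul_mul_assoc, one_mul]
      exact Submodule.smul_mem _ r hs
    · intro x y _ _ hx hy s hs; rw [add_mul]; exact Submodule.add_mem _ (hx s hs) (hy s hs)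
    · intro x y _ _ hx hy s hs; rw [mul_assoc]; exact hx _ (hy s hs)
  intro b hb
  have h1 : (1 : ℂ) ∈ ratSpan N ε a := by
    have : a 1 ∈ allSpan N ε a := a_mem_allSpan 1
    rw [ha1] at this
    exact Submodule.subset_span this
  simpa using key b hb 1 h1

/-- every generator of the coefficient field is an algebraic integer. -/
theorem isIntegral_gen (ha1 : a 1 = 1) (hT : SeqHeckeRel N ε a)
    (M₀ : Submodule ℤ ℂ) (hfg : M₀.FG)
    (hε : ∀ x : ZMod N, ∀ m ∈ M₀, ε x * m ∈ M₀) (ha : ∀ n, a n ∈ M₀)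
    {g : ℂ} (hg : g ∈ gens N ε a) : IsIntegral ℤ g := by
  rcases hg with ⟨x, rfl⟩ | ⟨p, hp, hpN, rfl⟩
  · exact isIntegral_eps ha1 M₀ hfg hε ha x
  · exact isIntegral_ap ha1 hT M₀ hfg hε ha hp hpN

/-- **(19d-ii)** the coefficient field is finite over `ℚ`. -/
theorem finiteDimensional_ratField (ha1 : a 1 = 1) (hT : SeqHeckeRel N ε a)
    (M₀ : Submodule ℤ ℂ) (hfg : M₀.FG)
    (hε : ∀ x : ZMod N, ∀ m ∈ M₀, ε x * m ∈ M₀) (ha : ∀ n, a n ∈ M₀) :
    FiniteDimensional ℚ (ratField N ε a) := by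
  have halg : ∀ x ∈ gens N ε a, IsAlgebraic ℚ x := fun x hx =>
    ((isIntegral_gen ha1 hT M₀ hfg hε ha hx).tower_top (A := ℚ)).isAlgebraic
  have hEq : (ratField N ε a).toSubalgebra = Algebra.adjoin ℚ (gens N ε a) :=
    IntermediateField.adjoin_toSubalgebra_of_isAlgebraic halg
  have hfdS : FiniteDimensional ℚ (ratSpan N ε a) := finiteDimensional_ratSpan (a := a) M₀ hfg hε ha
  have hfd : FiniteDimensional ℚ (Subalgebra.toSubmodule (Algebra.adjoin ℚ (gens N ε a))) :=
    Submodule.finiteDimensional_of_le (adjoin_le_ratSpan ha1 hT)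
  have hfd' : FiniteDimensional ℚ (Subalgebra.toSubmodule (ratField N ε a).toSubalgebra) := by
    rw [hEq]; exact hfd
  exact hfd'

/-! ### Membership of all coefficients -/

theorem eps_mem_ratField (x : ZMod N) : ε x ∈ ratField N ε a :=
  IntermediateField.subset_adjoin ℚ _ (Or.inl ⟨x, rfl⟩)

theorem ap_mem_ratField {p : ℕ} (hp : p.Prime) (hpN : ¬ p ∣ N) : a p ∈ ratField N ε a :=
  IntermediateField.subset_adjoin ℚ _ (Or.inr ⟨p, hp, hpN, rfl⟩)

/-- **(19d-iii)** for a depleted sequence every coefficient lies in the coefficient field. -/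
theorem a_mem_ratField (ha0 : a 0 = 0) (ha1 : a 1 = 1) (hT : SeqHeckeRel N ε a)
    (hdep : ∀ n : ℕ, ¬ n.Coprime N → a n = 0) (n : ℕ) : a n ∈ ratField N ε a := by
  induction n using Nat.strong_induction_on with
  | _ n ih =>
    rcases Nat.lt_or_ge n 2 with hn | hn
    · interval_cases n
      · rw [ha0]; exact zero_mem _
      · rw [ha1]; exact one_mem _
    · by_cases hc : n.Coprime N
      · have hn1 : n ≠ 1 := by omega
        set p := n.minFac with hpdef
        have hp : p.Prime := Nat.minFac_prime hn1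
        have hpn : p ∣ n := Nat.minFac_dvd n
        have hpN : ¬ p ∣ N := by
          intro h
          have : p ∣ Nat.gcd n N := Nat.dvd_gcd hpn h
          rw [Nat.Coprime] at hc
          rw [hc] at this
          exact hp.one_lt.ne' (Nat.dvd_one.mp this)
        obtain ⟨m, hm⟩ := hpn
        have hmpos : 0 < m := by
          rcases Nat.eq_zero_or_pos m with h | h
          · rw [h, mul_zero] at hm; omega
          · exact h
        have hmlt : m < n := by
          rw [hm]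
          exact lt_mul_of_one_lt_left hmpos hp.one_lt
        have h := hT p hp hpN m
        have hval : a n = a p * a m - ε (p : ZMod N) * (if p ∣ m then a (m / p) else 0) := by
          rw [hm, ← h]; ring
        rw [hval]
        refine sub_mem (mul_mem (ap_mem_ratField hp hpN) (ih m hmlt)) ?_
        refine mul_mem (eps_mem_ratField _) ?_
        split_ifs
        · exact ih _ (lt_of_le_of_lt (Nat.div_le_self m p) hmlt)
        · exact zero_mem _
      · rw [hdep n hc]; exact zero_mem _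

end Fermat.Agent.ES.R48.IntegralAp19
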