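/-
Programme R (S48, Deligne–Serre), chapter RAT, brick (19c) (helper19).

`φ * (X * u) = ψ` in `ℂ⟦X⟧`, where `u` has coefficients in a subring `R ⊆ ℂ` and constant
coefficient `1`.  Then every coefficient of `φ` lies in the `R`-span of the coefficients of `ψ`.

(Used with `φ = qExp f♭`, `X * u = qExp D_χ`, `ψ = qExp (f♭ · D_χ)`, `R = ℤ[ε]`: the coefficients
of the depleted weight-one form lie in a finitely generated `ℤ`-module.)  Mathlib only.
-/
import Mathlib

set_option autoImplicit false

open PowerSeries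

namespace Fermat.Agent.ES.R48.InvSeries19

/-- the coefficient recursion behind the statement. -/
theorem coeff_succ_eq (φ u : PowerSeries ℂ) (n : ℕ) :
    coeff (n + 1) (φ * (X * u)) =
      (∑ i ∈ Finset.range n, coeff i φ * coeff (n - i) u) + coeff n φ * constantCoeff u := by
  have h1 : φ * (X * u) = X * (φ * u) := by ring
  rw [h1, coeff_succ_X_mul, coeff_mul, Finset.Nat.sum_antidiagonal_eq_sum_range_succ
    (fun i j => coeff i φ * coeff j u), Finset.sum_range_succ, Nat.sub_self, coeff_zero_eq_constantCoeff]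

/-- **(19c)**: if `φ * (X * u) = ψ`, the coefficients of `u` lie in the subring `R` and `u` has
constant coefficient `1`, then every coefficient of `φ` lies in the `R`-span of the coefficients
of `ψ`. -/
theorem coeff_mem_span_of_mul_X_mul (R : Subring ℂ) (φ ψ u : PowerSeries ℂ)
    (hu : ∀ n, coeff n u ∈ R) (hu0 : constantCoeff u = 1)
    (h : φ * (X * u) = ψ) (n : ℕ) :
    coeff n φ ∈ Submodule.span R (Set.range fun m => coeff m ψ) := by
  induction n using Nat.strong_induction_on with
  | _ n ih =>
    have hrec := coeff_succ_eq φ u n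
    rw [h, hu0, mul_one] at hrec
    have hval : coeff n φ =
        coeff (n + 1) ψ - ∑ i ∈ Finset.range n, coeff i φ * coeff (n - i) u := by
      rw [hrec]; ring
    rw [hval]
    refine Submodule.sub_mem _ (Submodule.subset_span ⟨n + 1, rfl⟩) ?_
    refine Submodule.sum_mem _ fun i hi => ?_
    have hi' : i < n := Finset.mem_range.mp hi
    have hmem := ih i hi'
    have : coeff i φ * coeff (n - i) u = (⟨coeff (n - i) u, hu (n - i)⟩ : R) • coeff i φ := by
      rw [mul_comm]; rfl
    rw [this]
    exact Submodule.smul_mem _ _ hmem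

/-- variant: the same conclusion phrased with a `ℤ`-submodule `M₀` of `ℂ` that is stable under
multiplication by `R` and contains the coefficients of `ψ`. -/
theorem coeff_mem_of_mul_X_mul (R : Subring ℂ) (M₀ : Submodule ℤ ℂ)
    (hM : ∀ r ∈ R, ∀ m ∈ M₀, r * m ∈ M₀)
    (φ ψ u : PowerSeries ℂ)
    (hu : ∀ n, coeff n u ∈ R) (hu0 : constantCoeff u = 1)
    (h : φ * (X * u) = ψ) (hψ : ∀ m, coeff m ψ ∈ M₀) (n : ℕ) :
    coeff n φ ∈ M₀ := by
  have key := coeff_mem_span_of_mul_X_mul R φ ψ u hu hu0 h n
  refine Submodule.span_induction (p := fun x _ => x ∈ M₀) ?_ ?_ ?_ ?_ key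
  · rintro x ⟨m, rfl⟩; exact hψ m
  · exact M₀.zero_mem
  · intro x y _ _ hx hy; exact M₀.add_mem hx hy
  · intro r x _ hx
    exact hM r r.2 x hx

end Fermat.Agent.ES.R48.InvSeries19
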