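/-
Programme R (S48, Deligne–Serre), chapter RAT, brick (19f) (helper19): the algebra half of
`RatMain`.

From ONE weight-two product: `g_D ∈ S₂(Γ₀(M))` (trivial character) whose `q`-expansion is
`(∑ a_n qⁿ) · (q · u)` with `u ∈ ℤ[ε]⟦q⟧`, `u(0) = 1`, and the formal Hecke relations for `a`:

* all `a n` lie in a finitely generated, `ε`-stable `ℤ`-submodule `M₀ ⊆ ℂ`
  (main's S23 through `IntSpan19` + `InvSeries19`);
* hence (`IntegralAp19`): `a p` (`p ∤ N`) and `ε x` are algebraic integers and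
  `ℚ(ε, a_p : p ∤ N)` is a number field.
-/
import Mathlib
import Fermat.Agent.ES.R48.InvSeries19
import Fermat.Agent.ES.R48.IntegralAp19
import Fermat.Agent.ES.R48.IntSpan19

set_option autoImplicit false

open CongruenceSubgroup ModularFormClass PowerSeries
open Fermat.Agent.ES.R48.IntegralAp19 Fermat.Agent.ES.R48.IntSpan19

namespace Fermat.Agent.ES.R48.RatAlg19

variable {N : ℕ}

/-- the values of a Dirichlet character are algebraic integers. -/
theorem isIntegral_dirichlet [NeZero N] (ε : DirichletCharacter ℂ N) (x : ZMod N) :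
    IsIntegral ℤ (ε x) := by
  by_cases hx : IsUnit x
  · obtain ⟨y, rfl⟩ := hx
    have hpos : 0 < Fintype.card (ZMod N)ˣ := Fintype.card_pos
    refine IsIntegral.of_pow hpos ?_
    have : ε (y : ZMod N) ^ Fintype.card (ZMod N)ˣ = 1 := by
      rw [← map_pow, ← Units.val_pow_eq_pow_val, pow_card_eq_one, Units.val_one, map_one]
    rw [this]
    exact isIntegral_one
  · rw [ε.map_nonunit hx]
    exact isIntegral_zero

/-- the ring `ℤ[ε]`, as a `ℤ`-subalgebra of `ℂ`. -/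
noncomputable def Zeps (ε : ZMod N → ℂ) : Subalgebra ℤ ℂ := Algebra.adjoin ℤ (Set.range ε)

theorem eps_mem_Zeps (ε : ZMod N → ℂ) (x : ZMod N) : ε x ∈ Zeps ε :=
  Algebra.subset_adjoin ⟨x, rfl⟩

theorem Zeps_fg [NeZero N] (ε : ZMod N → ℂ) (hε : ∀ x, IsIntegral ℤ (ε x)) :
    (Subalgebra.toSubmodule (Zeps ε)).FG :=
  fg_adjoin_of_finite (Set.finite_range ε) (by rintro _ ⟨x, rfl⟩; exact hε x)

/-- **the module `M₀`**: `ℤ[ε] · (ℤ c₁ + … + ℤ c_r)`. -/
noncomputable def M0 (ε : ZMod N → ℂ) {r : ℕ} (c : Fin r → ℂ) : Submodule ℤ ℂ :=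
  Subalgebra.toSubmodule (Zeps ε) * Submodule.span ℤ (Set.range c)

theorem M0_fg [NeZero N] (ε : ZMod N → ℂ) (hε : ∀ x, IsIntegral ℤ (ε x)) {r : ℕ} (c : Fin r → ℂ) :
    (M0 ε c).FG :=
  Submodule.FG.mul (Zeps_fg ε hε) (Submodule.fg_span (Set.finite_range c))

theorem Zeps_mul_mem_M0 (ε : ZMod N → ℂ) {r : ℕ} (c : Fin r → ℂ) {e z : ℂ}
    (he : e ∈ Zeps ε) (hz : z ∈ M0 ε c) : e * z ∈ M0 ε c := by
  unfold M0 at hz ⊢
  refine Submodule.mul_induction_on hz ?_ ?_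
  · intro m hm n hn
    rw [← mul_assoc]
    exact Submodule.mul_mem_mul ((Zeps ε).mul_mem he hm) hn
  · intro x y hx hy
    rw [mul_add]
    exact Submodule.add_mem _ hx hy

theorem int_comb_mem_M0 (ε : ZMod N → ℂ) {r : ℕ} (c : Fin r → ℂ) (m : Fin r → ℤ) :
    ∑ j, c j * (m j : ℂ) ∈ M0 ε c := by
  refine Submodule.sum_mem _ fun j _ => ?_
  have h1 : c j * (m j : ℂ) = (m j : ℂ) * c j := mul_comm _ _
  rw [h1]
  exact Submodule.mul_mem_mul ((Zeps ε).intCast_mem (m j))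
    (Submodule.subset_span ⟨j, rfl⟩)

/-- **(19f-i)** all coefficients `a n` lie in a finitely generated `ε`-stable `ℤ`-module. -/
theorem exists_M0 [NeZero N] (ε : ZMod N → ℂ) (hε : ∀ x, IsIntegral ℤ (ε x))
    {M : ℕ} [NeZero M] (gD : CuspForm (Gamma0 M) 2) (a : ℕ → ℂ) (u : PowerSeries ℂ)
    (hu : ∀ n, coeff n u ∈ Zeps ε) (hu0 : constantCoeff u = 1)
    (hprod : PowerSeries.mk a * (X * u) = PowerSeries.mk (fun n => qCoeff gD n)) :
    ∃ M₀ : Submodule ℤ ℂ, M₀.FG ∧ (∀ x : ZMod N, ∀ z ∈ M₀, ε x * z ∈ M₀) ∧ ∀ n, a n ∈ M₀ := by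
  obtain ⟨r, c, b, hb, -, hcoef⟩ := exists_int_combination gD
  refine ⟨M0 ε c, M0_fg ε hε c, fun x z hz => Zeps_mul_mem_M0 ε c (eps_mem_Zeps ε x) hz, ?_⟩
  intro n
  have key := InvSeries19.coeff_mem_of_mul_X_mul (Zeps ε).toSubring (M0 ε c)
    (fun e he z hz => Zeps_mul_mem_M0 ε c he hz)
    (PowerSeries.mk a) (PowerSeries.mk (fun n => qCoeff gD n)) u hu hu0 hprod ?_ n
  · simpa using key
  · intro m
    rw [coeff_mk, hcoef m]
    choose k hk using fun j => hb j m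
    have : ∑ j, c j * qCoeff (b j) m = ∑ j, c j * (k j : ℂ) :=
      Finset.sum_congr rfl fun j _ => by rw [hk j]
    rw [this]
    exact int_comb_mem_M0 ε c k

/-- **(19f-ii)** the algebraic conclusions of chapter RAT. -/
theorem integral_and_finite [NeZero N] (ε : DirichletCharacter ℂ N)
    {M : ℕ} [NeZero M] (gD : CuspForm (Gamma0 M) 2) (a : ℕ → ℂ) (u : PowerSeries ℂ)
    (hu : ∀ n, coeff n u ∈ Zeps (fun x => ε x)) (hu0 : constantCoeff u = 1)
    (hprod : PowerSeries.mk a * (X * u) = PowerSeries.mk (fun n => qCoeff gD n))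
    (ha1 : a 1 = 1) (hT : SeqHeckeRel N (fun x => ε x) a) :
    (∀ p : ℕ, p.Prime → ¬ p ∣ N → IsIntegral ℤ (a p)) ∧
      FiniteDimensional ℚ (ratField N (fun x => ε x) a) := by
  obtain ⟨M₀, hfg, hεM, haM⟩ :=
    exists_M0 (fun x => ε x) (isIntegral_dirichlet ε) gD a u hu hu0 hprod
  exact ⟨fun p hp hpN => isIntegral_ap ha1 hT M₀ hfg hεM haM hp hpN,
    finiteDimensional_ratField ha1 hT M₀ hfg hεM haM⟩

end Fermat.Agent.ES.R48.RatAlg19
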