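/-
Programme R (S48, Deligne–Serre), chapter RAT, brick `CharPrim19` (helper19), requested by
helper22 (#16407): Dirichlet-character bookkeeping.

Setting: `ε : DirichletCharacter ℂ N`, `L = ε.conductor`, `χ = chi ε = (ε.primitiveCharacter)⁻¹`
(a character mod `L`).

* (a) `neZero_conductor`, `conductor_dvd`; (b) `chi_isPrimitive`; (c) `chi_odd`;
* (d) `eps_mul_chi`: `ε(d) χ(d) = 1` for `γ = (a b; c d) ∈ Γ₀(M)`, `N ∣ M`;
* (e) `chi_mem_Zeps`: the values of `χ` lie in `ℤ[ε]`.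

Conjugates: for `K ⊆ ℂ` containing the values of `ε` and `τ : K →+* ℂ`, with
`conjChar K ψ h τ = τ ∘ ψ` and `chiConj K ε hε τ = conjChar K (chi ε) _ τ`:

* (f) `chiConj_isPrimitive`, `chiConj_odd`; (g) `epsConj_mul_chiConj` (for any `K`-valued avatar
  `εK` of `ε`, e.g. `NumFieldPack19.epsK ε a`);
* (h) `chi_mem`, `chiConj_apply`; (i) `eisConst_mem`, `eisConst_conjChar`;
* (j) `sigmaChi_mem`, `sigmaChi_conjChar`.
-/
import Mathlib
import Fermat.Agent.ES.R48.RatIface22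
import Fermat.Agent.ES.R48.RatAlg19

set_option autoImplicit false

open CongruenceSubgroup
open scoped MatrixGroups

noncomputable section

namespace Fermat.Agent.ES.R48.CharPrim19

open Fermat.Agent.ES.R48.RatAlg19 Fermat.Agent.ES.R48.RatIface22

variable {N : ℕ}

/-- the primitive character mod `L = cond ε` inverse to `ε`. -/
def chi (ε : DirichletCharacter ℂ N) : DirichletCharacter ℂ ε.conductor :=
  (ε.primitiveCharacter)⁻¹

theorem neZero_conductor [NeZero N] (ε : DirichletCharacter ℂ N) : NeZero ε.conductor :=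
  ⟨ε.conductor_ne_zero⟩

theorem conductor_dvd (ε : DirichletCharacter ℂ N) : ε.conductor ∣ N := ε.conductor_dvd_level

theorem chi_isPrimitive (ε : DirichletCharacter ℂ N) : (chi ε).IsPrimitive := by
  unfold chi
  rw [DirichletCharacter.isPrimitive_def, DirichletCharacter.conductor_inv]
  exact ε.primitiveCharacter_isPrimitive

/-- `ε₀(x mod L) = ε(x)` for units `x` mod `N`. -/
theorem primitiveCharacter_cast (ε : DirichletCharacter ℂ N) (x : (ZMod N)ˣ) :
    ε.primitiveCharacter (ZMod.cast (x : ZMod N)) = ε x := by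
  conv_rhs => rw [← ε.changeLevel_primitiveCharacter]
  rw [DirichletCharacter.changeLevel_eq_cast_of_dvd]

theorem isUnit_cast (ε : DirichletCharacter ℂ N) (x : (ZMod N)ˣ) :
    IsUnit (ZMod.cast (x : ZMod N) : ZMod ε.conductor) := by
  have := (ZMod.unitsMap ε.conductor_dvd_level x).isUnit
  rwa [ZMod.unitsMap_val] at this

theorem chi_cast (ε : DirichletCharacter ℂ N) (x : (ZMod N)ˣ) :
    chi ε (ZMod.cast (x : ZMod N)) = ε ((x⁻¹ : (ZMod N)ˣ) : ZMod N) := by
  unfold chi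
  rw [MulChar.inv_apply_eq_inv', primitiveCharacter_cast, ← map_units_inv]
  
theorem chi_cast_mul (ε : DirichletCharacter ℂ N) (x : (ZMod N)ˣ) :
    ε x * chi ε (ZMod.cast (x : ZMod N)) = 1 := by
  rw [chi_cast, ← map_mul, ← Units.val_mul, mul_inv_cancel, Units.val_one, map_one]

/-- **(c)** -/
theorem chi_odd (ε : DirichletCharacter ℂ N) (hε : ε.Odd) : (chi ε).Odd := by
  have h := chi_cast ε (-1)
  rw [Units.val_neg, Units.val_one, ZMod.cast_neg ε.conductor_dvd_level, ZMod.cast_one ε.conductor_dvd_level] at h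
  unfold DirichletCharacter.Odd
  rw [h, inv_neg, inv_one, Units.val_neg, Units.val_one]
  exact hε

/-- the `(2,2)`-entry of `γ ∈ Γ₀(M)` is a unit mod `N ∣ M`. -/
theorem isUnit_d {M : ℕ} (hNM : N ∣ M) (γ : SL(2, ℤ)) (hγ : γ ∈ Gamma0 M) :
    IsUnit (((γ 1 1 : ℤ)) : ZMod N) := by
  have hdet := Matrix.SpecialLinearGroup.det_coe γ
  rw [Matrix.det_fin_two] at hdet
  rw [Gamma0_mem] at hγ
  have hc : ((γ 1 0 : ℤ) : ZMod N) = 0 := by
    rw [ZMod.intCast_zmod_eq_zero_iff_dvd] at hγ ⊢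
    exact dvd_trans (Int.natCast_dvd_natCast.mpr hNM) hγ
  have h2 := congrArg (fun z : ℤ => (z : ZMod N)) hdet
  simp only [Int.cast_sub, Int.cast_mul, Int.cast_one, hc, mul_zero, sub_zero] at h2
  exact ⟨⟨_, _, by rw [mul_comm]; exact h2, h2⟩, rfl⟩

/-- **(d)** -/
theorem eps_mul_chi (ε : DirichletCharacter ℂ N) {M : ℕ} (hNM : N ∣ M) (γ : SL(2, ℤ))
    (hγ : γ ∈ Gamma0 M) :
    ε ((γ 1 1 : ℤ) : ZMod N) * chi ε ((γ 1 1 : ℤ) : ZMod ε.conductor) = 1 := by
  obtain ⟨u, hu⟩ := isUnit_d hNM γ hγ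
  have := chi_cast_mul ε u
  rw [hu, ZMod.cast_intCast ε.conductor_dvd_level] at this
  exact this

/-- **(e)** -/
theorem chi_mem_Zeps [NeZero N] (ε : DirichletCharacter ℂ N) (k : ZMod ε.conductor) :
    chi ε k ∈ Zeps (fun x => ε x) := by
  by_cases hk : IsUnit k
  · obtain ⟨u, rfl⟩ := hk
    obtain ⟨v, rfl⟩ := ZMod.unitsMap_surjective ε.conductor_dvd_level u
    rw [ZMod.unitsMap_val, chi_cast]
    exact eps_mem_Zeps (fun x => ε x) _
  · rw [MulChar.map_nonunit _ hk]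
    exact Subalgebra.zero_mem _

/-! ### Injective post-composition does not change the conductor -/

/-- post-composition with an injective ring homomorphism does not change the kernel. -/
theorem ker_toUnitHom_ringHomComp {n : ℕ} {R R' : Type*} [CommRing R] [CommRing R']
    (ψ : DirichletCharacter R n) (f : R →+* R') (hf : Function.Injective f) :
    (ψ.ringHomComp f).toUnitHom.ker = ψ.toUnitHom.ker := by
  ext x
  rw [MonoidHom.mem_ker, MonoidHom.mem_ker, Units.ext_iff, Units.ext_iff, MulChar.coe_toUnitHom,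
    MulChar.coe_toUnitHom, MulChar.ringHomComp_apply, Units.val_one, Units.val_one]
  constructor
  · intro h
    apply hf
    rw [h, map_one]
  · intro h
    rw [h, map_one]

theorem factorsThrough_ringHomComp_iff {n : ℕ} [NeZero n] {R R' : Type*} [CommRing R] [CommRing R']
    (ψ : DirichletCharacter R n) (f : R →+* R') (hf : Function.Injective f) (d : ℕ) :
    DirichletCharacter.FactorsThrough (ψ.ringHomComp f) d ↔ ψ.FactorsThrough d := by
  by_cases hd : d ∣ n
  · rw [DirichletCharacter.factorsThrough_iff_ker_unitsMap hd,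
      DirichletCharacter.factorsThrough_iff_ker_unitsMap hd, ker_toUnitHom_ringHomComp ψ f hf]
  · exact ⟨fun h => absurd h.dvd hd, fun h => absurd h.dvd hd⟩

theorem conductor_ringHomComp {n : ℕ} [NeZero n] {R R' : Type*} [CommRing R] [CommRing R']
    (ψ : DirichletCharacter R n) (f : R →+* R') (hf : Function.Injective f) :
    DirichletCharacter.conductor (ψ.ringHomComp f) = ψ.conductor := by
  unfold DirichletCharacter.conductor
  congr 1
  ext d
  exact factorsThrough_ringHomComp_iff ψ f hf d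

/-! ### Conjugates -/

variable (K : IntermediateField ℚ ℂ)

/-- a `ℂ`-valued character with values in `K`, as a `K`-valued character. -/
def charK {n : ℕ} (ψ : DirichletCharacter ℂ n) (h : ∀ x, ψ x ∈ K) : DirichletCharacter K n where
  toFun x := ⟨ψ x, h x⟩
  map_one' := Subtype.ext (by simp)
  map_mul' x y := Subtype.ext (by simp)
  map_nonunit' x hx := Subtype.ext (by simpa using ψ.map_nonunit hx)

theorem charK_apply {n : ℕ} (ψ : DirichletCharacter ℂ n) (h : ∀ x, ψ x ∈ K) (x : ZMod n) :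
    charK K ψ h x = ⟨ψ x, h x⟩ := rfl

/-- the conjugate character `τ ∘ ψ`. -/
def conjChar {n : ℕ} (ψ : DirichletCharacter ℂ n) (h : ∀ x, ψ x ∈ K) (τ : K →+* ℂ) :
    DirichletCharacter ℂ n :=
  (charK K ψ h).ringHomComp τ

theorem conjChar_apply {n : ℕ} (ψ : DirichletCharacter ℂ n) (h : ∀ x, ψ x ∈ K) (τ : K →+* ℂ)
    (x : ZMod n) : conjChar K ψ h τ x = τ ⟨ψ x, h x⟩ := rfl

theorem charK_ringHomComp_algebraMap {n : ℕ} (ψ : DirichletCharacter ℂ n) (h : ∀ x, ψ x ∈ K) :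
    (charK K ψ h).ringHomComp (algebraMap K ℂ) = ψ :=
  MulChar.ext' fun _ => rfl

theorem conductor_conjChar {n : ℕ} [NeZero n] (ψ : DirichletCharacter ℂ n) (h : ∀ x, ψ x ∈ K)
    (τ : K →+* ℂ) : (conjChar K ψ h τ).conductor = ψ.conductor := by
  unfold conjChar
  rw [conductor_ringHomComp _ τ τ.injective]
  conv_rhs => rw [← charK_ringHomComp_algebraMap K ψ h]
  rw [conductor_ringHomComp _ _ (algebraMap K ℂ).injective]

theorem conjChar_isPrimitive {n : ℕ} [NeZero n] (ψ : DirichletCharacter ℂ n) (h : ∀ x, ψ x ∈ K)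
    (τ : K →+* ℂ) (hψ : ψ.IsPrimitive) : (conjChar K ψ h τ).IsPrimitive := by
  rw [DirichletCharacter.isPrimitive_def] at hψ ⊢
  rw [conductor_conjChar, hψ]

theorem conjChar_odd {n : ℕ} (ψ : DirichletCharacter ℂ n) (h : ∀ x, ψ x ∈ K)
    (τ : K →+* ℂ) (hψ : ψ.Odd) : (conjChar K ψ h τ).Odd := by
  unfold DirichletCharacter.Odd at hψ ⊢
  rw [conjChar_apply]
  have : (⟨ψ (-1), h (-1)⟩ : K) = -1 := Subtype.ext hψ
  rw [this, map_neg, map_one]

/-- **(h)**, first half: the values of `χ` lie in any field containing the values of `ε`. -/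
theorem chi_mem [NeZero N] (ε : DirichletCharacter ℂ N) (hε : ∀ x, ε x ∈ K)
    (k : ZMod ε.conductor) : chi ε k ∈ K := by
  by_cases hk : IsUnit k
  · obtain ⟨u, rfl⟩ := hk
    obtain ⟨v, rfl⟩ := ZMod.unitsMap_surjective ε.conductor_dvd_level u
    rw [ZMod.unitsMap_val, chi_cast]
    exact hε _
  · rw [MulChar.map_nonunit _ hk]
    exact K.zero_mem

/-- the conjugate `χ' = τ ∘ χ`. -/
def chiConj [NeZero N] (ε : DirichletCharacter ℂ N) (hε : ∀ x, ε x ∈ K) (τ : K →+* ℂ) :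
    DirichletCharacter ℂ ε.conductor :=
  conjChar K (chi ε) (chi_mem K ε hε) τ

/-- **(h)**, second half. -/
theorem chiConj_apply [NeZero N] (ε : DirichletCharacter ℂ N) (hε : ∀ x, ε x ∈ K) (τ : K →+* ℂ)
    (k : ZMod ε.conductor) : chiConj K ε hε τ k = τ ⟨chi ε k, chi_mem K ε hε k⟩ := rfl

/-- **(f)** -/
theorem chiConj_isPrimitive [NeZero N] (ε : DirichletCharacter ℂ N) (hε : ∀ x, ε x ∈ K)
    (τ : K →+* ℂ) : (chiConj K ε hε τ).IsPrimitive := by
  have := neZero_conductor ε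
  exact conjChar_isPrimitive K _ _ τ (chi_isPrimitive ε)

/-- **(f)** -/
theorem chiConj_odd [NeZero N] (ε : DirichletCharacter ℂ N) (hε : ∀ x, ε x ∈ K)
    (τ : K →+* ℂ) (hodd : ε.Odd) : (chiConj K ε hε τ).Odd :=
  conjChar_odd K _ _ τ (chi_odd ε hodd)

/-- **(g)**, for any `K`-valued avatar `εK` of `ε` (e.g. `charK K ε hε`, or
`NumFieldPack19.epsK ε a` when `K = KF ε a`). -/
theorem epsConj_mul_chiConj [NeZero N] (ε : DirichletCharacter ℂ N) (hε : ∀ x, ε x ∈ K)
    (εK : DirichletCharacter K N) (hεK : ∀ x, (εK x : ℂ) = ε x) (τ : K →+* ℂ)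
    {M : ℕ} (hNM : N ∣ M) (γ : SL(2, ℤ)) (hγ : γ ∈ Gamma0 M) :
    (εK.ringHomComp τ) ((γ 1 1 : ℤ) : ZMod N) *
      chiConj K ε hε τ ((γ 1 1 : ℤ) : ZMod ε.conductor) = 1 := by
  rw [MulChar.ringHomComp_apply, chiConj_apply, ← map_mul]
  have : εK ((γ 1 1 : ℤ) : ZMod N) *
      ⟨chi ε ((γ 1 1 : ℤ) : ZMod ε.conductor), chi_mem K ε hε _⟩ = 1 := by
    apply Subtype.ext
    rw [MulMemClass.coe_mul, hεK]
    exact eps_mul_chi ε hNM γ hγ
  rw [this, map_one]

/-- the constant term, as an element of `K`. -/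
def eisConstK {L : ℕ} (ψ : DirichletCharacter ℂ L) (h : ∀ x, ψ x ∈ K) : K :=
  -(1 / (2 * (L : K))) * ∑ a ∈ Finset.range L, (a : K) * charK K ψ h (a : ZMod L)

/-- `eisConst` of `σ ∘ ψK` is `σ` of the `K`-valued expression. -/
theorem map_eisConstK {L : ℕ} (ψ : DirichletCharacter ℂ L) (h : ∀ x, ψ x ∈ K) (σ : K →+* ℂ) :
    σ (eisConstK K ψ h) = eisConst (conjChar K ψ h σ) := by
  unfold eisConstK eisConst
  have h2 : σ 2 = 2 := map_ofNat σ 2
  simp only [conjChar_apply, charK_apply, map_neg, map_mul, map_div₀, map_one, h2, map_natCast,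
    map_sum]

theorem coe_eisConstK {L : ℕ} (ψ : DirichletCharacter ℂ L) (h : ∀ x, ψ x ∈ K) :
    (eisConstK K ψ h : ℂ) = eisConst ψ := by
  have := map_eisConstK K ψ h (algebraMap K ℂ)
  rw [show conjChar K ψ h (algebraMap K ℂ) = ψ from charK_ringHomComp_algebraMap K ψ h] at this
  exact this

/-- **(i)**, first half. -/
theorem eisConst_mem {L : ℕ} (ψ : DirichletCharacter ℂ L) (h : ∀ x, ψ x ∈ K) :
    eisConst ψ ∈ K := by
  rw [← coe_eisConstK K ψ h]
  exact (eisConstK K ψ h).2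

/-- **(i)**, second half. -/
theorem eisConst_conjChar {L : ℕ} (ψ : DirichletCharacter ℂ L) (h : ∀ x, ψ x ∈ K)
    (τ : K →+* ℂ) : eisConst (conjChar K ψ h τ) = τ ⟨eisConst ψ, eisConst_mem K ψ h⟩ := by
  have : (⟨eisConst ψ, eisConst_mem K ψ h⟩ : K) = eisConstK K ψ h :=
    Subtype.ext (coe_eisConstK K ψ h).symm
  rw [this, map_eisConstK]

/-- the twisted divisor sum, as an element of `K`. -/
def sigmaChiK {L : ℕ} (ψ : DirichletCharacter ℂ L) (h : ∀ x, ψ x ∈ K) (n : ℕ) : K :=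
  ∑ k ∈ n.divisors, charK K ψ h (k : ZMod L)

theorem map_sigmaChiK {L : ℕ} (ψ : DirichletCharacter ℂ L) (h : ∀ x, ψ x ∈ K) (σ : K →+* ℂ)
    (n : ℕ) : σ (sigmaChiK K ψ h n) = sigmaChi (conjChar K ψ h σ) n := by
  unfold sigmaChiK sigmaChi
  simp only [conjChar_apply, charK_apply, map_sum]

theorem coe_sigmaChiK {L : ℕ} (ψ : DirichletCharacter ℂ L) (h : ∀ x, ψ x ∈ K) (n : ℕ) :
    (sigmaChiK K ψ h n : ℂ) = sigmaChi ψ n := by
  have := map_sigmaChiK K ψ h (algebraMap K ℂ) n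
  rw [show conjChar K ψ h (algebraMap K ℂ) = ψ from charK_ringHomComp_algebraMap K ψ h] at this
  exact this

/-- **(j)**, first half. -/
theorem sigmaChi_mem {L : ℕ} (ψ : DirichletCharacter ℂ L) (h : ∀ x, ψ x ∈ K) (n : ℕ) :
    sigmaChi ψ n ∈ K := by
  rw [← coe_sigmaChiK K ψ h n]
  exact (sigmaChiK K ψ h n).2

/-- **(j)**, second half. -/
theorem sigmaChi_conjChar {L : ℕ} (ψ : DirichletCharacter ℂ L) (h : ∀ x, ψ x ∈ K)
    (τ : K →+* ℂ) (n : ℕ) :
    sigmaChi (conjChar K ψ h τ) n = τ ⟨sigmaChi ψ n, sigmaChi_mem K ψ h n⟩ := by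
  have : (⟨sigmaChi ψ n, sigmaChi_mem K ψ h n⟩ : K) = sigmaChiK K ψ h n :=
    Subtype.ext (coe_sigmaChiK K ψ h n).symm
  rw [this, map_sigmaChiK]

/-- **(i)** for `χ' = chiConj`. -/
theorem eisConst_chiConj [NeZero N] (ε : DirichletCharacter ℂ N) (hε : ∀ x, ε x ∈ K)
    (τ : K →+* ℂ) :
    eisConst (chiConj K ε hε τ) =
      τ ⟨eisConst (chi ε), eisConst_mem K (chi ε) (chi_mem K ε hε)⟩ :=
  eisConst_conjChar K (chi ε) (chi_mem K ε hε) τ

/-- **(j)** for `χ' = chiConj`. -/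
theorem sigmaChi_chiConj [NeZero N] (ε : DirichletCharacter ℂ N) (hε : ∀ x, ε x ∈ K)
    (τ : K →+* ℂ) (n : ℕ) :
    sigmaChi (chiConj K ε hε τ) n =
      τ ⟨sigmaChi (chi ε) n, sigmaChi_mem K (chi ε) (chi_mem K ε hε) n⟩ :=
  sigmaChi_conjChar K (chi ε) (chi_mem K ε hε) τ n

end Fermat.Agent.ES.R48.CharPrim19
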