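/-
Programme R (S48, Deligne–Serre), half A, chapter A7 "CHAR0" (helper15).

The characteristic-zero pigeonhole of Deligne–Serre §8.  Data: an infinite set `𝓛` of primes, for
`ℓ ∈ 𝓛` a proper ideal `𝔪 ℓ ∋ ℓ` of `ℤ̄ = integralClosure ℤ ℂ` and a representation
`ρ ℓ : Gal(ℚ̄/ℚ) → GL₂(ℂ)` all of whose values have order `≤ A` (a bound independent of `ℓ`),
unramified off `N ℓ`, with `tr ρ_ℓ(Frob_p) ≡ t p`, `det ρ_ℓ(Frob_p) ≡ d p (mod 𝔪 ℓ)`; the `t p`,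
`d p` are algebraic integers.  Then for all but finitely many `ℓ ∈ 𝓛` the congruences are
equalities: `FrobData (N ℓ) (ρ ℓ) t d` (`charZero`).

Proof.  `Y` = the finite set of pairs `(α + β, α β)`, `α, β` roots of unity of order `≤ A`.
* (trace, det) of a matrix of order `≤ A` lies in `Y` (`trace_det_mem_pairs`);
* a nonzero algebraic integer lies in `𝔪 ℓ` for finitely many `ℓ` only (`exists_finset_of_ne_zero`);
* hence `(t p, d p) ∈ Y` for every `p ∤ N` (pigeonhole over `𝓛`), and off the finite set of `ℓ`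
  modulo which two distinct members of `Y` become congruent, congruent members of `Y` are equal.
-/
import Mathlib
import Fermat.Agent.ES.R48.DSIface27
import Fermat.Agent.ES.FROB.FrobFacts12

set_option autoImplicit false

open scoped MatrixGroups
open Polynomial

namespace Fermat.Agent.ES.R48.CharZero15

open Fermat.Agent.ES.R48.DSIface27

/-- the ring of all algebraic integers in `ℂ`. -/
abbrev Zbar := integralClosure ℤ ℂ

/-- Congruence of two complex numbers modulo an ideal of `ℤ̄`: the difference is (the value of) a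
member of the ideal. -/
def Cong (I : Ideal Zbar) (x y : ℂ) : Prop := ∃ z : Zbar, z ∈ I ∧ (z : ℂ) = x - y

theorem Cong.refl (I : Ideal Zbar) (x : ℂ) : Cong I x x :=
  ⟨0, I.zero_mem, by simp⟩

theorem Cong.of_eq (I : Ideal Zbar) {x y : ℂ} (h : x = y) : Cong I x y := h ▸ Cong.refl I x

theorem Cong.symm {I : Ideal Zbar} {x y : ℂ} (h : Cong I x y) : Cong I y x := by
  obtain ⟨z, hz, hzv⟩ := h
  exact ⟨-z, I.neg_mem hz, by push_cast; rw [hzv]; ring⟩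

theorem Cong.trans {I : Ideal Zbar} {x y w : ℂ} (h : Cong I x y) (h' : Cong I y w) :
    Cong I x w := by
  obtain ⟨z, hz, hzv⟩ := h
  obtain ⟨z', hz', hzv'⟩ := h'
  exact ⟨z + z', I.add_mem hz hz', by push_cast; rw [hzv, hzv']; ring⟩

/-- A bound on the order of the image gives the order hypothesis of `charZero`. -/
theorem exists_pow_eq_one_of_card_range {G : Type*} [Group G] (ρ : GQ →* G) [Finite ρ.range]
    {A : ℕ} (hA : Nat.card ρ.range ≤ A) (σ : GQ) : ∃ m : ℕ, 0 < m ∧ m ≤ A ∧ ρ σ ^ m = 1 := by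
  set g : ρ.range := ⟨ρ σ, σ, rfl⟩ with hg
  refine ⟨orderOf g, orderOf_pos g, (orderOf_le_card (G := ρ.range)).trans hA, ?_⟩
  have h1 := pow_orderOf_eq_one g
  have h2 : ((g ^ orderOf g : ρ.range) : G) = ((1 : ρ.range) : G) := congrArg Subtype.val h1
  rw [Subgroup.coe_pow, Subgroup.coe_one] at h2
  exact h2

/-! ### A nonzero algebraic integer lies over finitely many primes -/

/-- A nonzero algebraic integer divides a nonzero rational integer in `ℤ̄`. -/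
theorem exists_int_mul (z : Zbar) (hz : z ≠ 0) : ∃ (n : ℤ) (w : Zbar), n ≠ 0 ∧ (n : Zbar) = z * w := by
  have hzC : (z : ℂ) ≠ 0 := fun h => hz (Subtype.ext h)
  have halg : IsAlgebraic ℤ ((z : ℂ)⁻¹) := (z.2.isAlgebraic).inv
  obtain ⟨n, hn, hint⟩ := halg.exists_integral_multiple
  refine ⟨n, ⟨n • (z : ℂ)⁻¹, hint⟩, hn, Subtype.ext ?_⟩
  have h1 : ((n : Zbar) : ℂ) = (n : ℂ) := by simp
  rw [h1]
  change (n : ℂ) = (z : ℂ) * (n • (z : ℂ)⁻¹)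
  rw [zsmul_eq_mul]
  field_simp

/-- **(INF)** A nonzero algebraic integer lies in a proper ideal containing the prime `ℓ` for
finitely many `ℓ` only. -/
theorem exists_finset_of_ne_zero (z : ℂ) (hint : IsIntegral ℤ z) (hz : z ≠ 0) :
    ∃ F : Finset ℕ, ∀ ℓ : ℕ, ℓ.Prime → ∀ I : Ideal Zbar, I ≠ ⊤ → ((ℓ : ℕ) : Zbar) ∈ I →
      (∃ w : Zbar, w ∈ I ∧ (w : ℂ) = z) → ℓ ∈ F := by
  obtain ⟨n, w, hn, hnw⟩ := exists_int_mul ⟨z, hint⟩ (fun h => hz (congrArg Subtype.val h))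
  refine ⟨n.natAbs.primeFactors, fun ℓ hℓ I hI hℓI ⟨w', hw'I, hw'⟩ => ?_⟩
  have hw'z : w' = ⟨z, hint⟩ := Subtype.ext hw'
  have hnI : (n : Zbar) ∈ I := by
    rw [hnw, ← hw'z]
    exact I.mul_mem_right _ hw'I
  rw [Nat.mem_primeFactors]
  refine ⟨hℓ, ?_, Int.natAbs_ne_zero.mpr hn⟩
  by_contra hdvd
  apply hI
  rw [Ideal.eq_top_iff_one]
  have hcop : IsCoprime (ℓ : ℤ) n := by
    rw [Int.isCoprime_iff_gcd_eq_one]
    have hg : Int.gcd (ℓ : ℤ) n = Nat.gcd ℓ n.natAbs := by simp [Int.gcd]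
    rw [hg]
    exact (Nat.Prime.coprime_iff_not_dvd hℓ).mpr hdvd
  obtain ⟨u, v, huv⟩ := hcop
  have h1 : ((u : Zbar) * ((ℓ : ℕ) : Zbar) + (v : Zbar) * (n : Zbar)) = 1 := by
    have := congrArg (fun m : ℤ => (m : Zbar)) huv
    push_cast at this
    exact this
  rw [← h1]
  exact I.add_mem (I.mul_mem_left _ hℓI) (I.mul_mem_left _ hnI)

/-- (INF) for a finite set of nonzero algebraic integers. -/
theorem exists_finset_of_finset (D : Finset ℂ) (hD : ∀ z ∈ D, IsIntegral ℤ z ∧ z ≠ 0) :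
    ∃ F : Finset ℕ, ∀ ℓ : ℕ, ℓ.Prime → ∀ I : Ideal Zbar, I ≠ ⊤ → ((ℓ : ℕ) : Zbar) ∈ I →
      ∀ z ∈ D, (∃ w : Zbar, w ∈ I ∧ (w : ℂ) = z) → ℓ ∈ F := by
  classical
  induction D using Finset.induction_on with
  | empty => exact ⟨∅, fun ℓ _ I _ _ z hz => absurd hz (Finset.notMem_empty z)⟩
  | insert a D _ ih =>
    obtain ⟨F₁, hF₁⟩ := ih fun z hz => hD z (Finset.mem_insert_of_mem hz)
    obtain ⟨F₂, hF₂⟩ := exists_finset_of_ne_zero a (hD a (Finset.mem_insert_self a D)).1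
      (hD a (Finset.mem_insert_self a D)).2
    refine ⟨F₁ ∪ F₂, fun ℓ hℓ I hI hℓI z hz hw => ?_⟩
    rcases Finset.mem_insert.mp hz with rfl | hz
    · exact Finset.mem_union_right _ (hF₂ ℓ hℓ I hI hℓI hw)
    · exact Finset.mem_union_left _ (hF₁ ℓ hℓ I hI hℓI z hz hw)

/-! ### The finite set `Y` -/

/-- the roots of unity of order at most `A` in `ℂ`. -/
noncomputable def smallRoots (A : ℕ) : Finset ℂ :=
  (Finset.Icc 1 A).biUnion fun m => nthRootsFinset m (1 : ℂ)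

theorem mem_smallRoots {A : ℕ} {ζ : ℂ} :
    ζ ∈ smallRoots A ↔ ∃ m : ℕ, 0 < m ∧ m ≤ A ∧ ζ ^ m = 1 := by
  rw [smallRoots, Finset.mem_biUnion]
  constructor
  · rintro ⟨m, hm, hζ⟩
    have hm' := Finset.mem_Icc.mp hm
    exact ⟨m, hm'.1, hm'.2, (mem_nthRootsFinset hm'.1 1).mp hζ⟩
  · rintro ⟨m, hm0, hmA, hζ⟩
    exact ⟨m, Finset.mem_Icc.mpr ⟨hm0, hmA⟩, (mem_nthRootsFinset hm0 1).mpr hζ⟩

theorem isIntegral_of_mem_smallRoots {A : ℕ} {ζ : ℂ} (h : ζ ∈ smallRoots A) : IsIntegral ℤ ζ := by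
  obtain ⟨m, hm0, -, hζ⟩ := mem_smallRoots.mp h
  exact IsIntegral.of_pow hm0 (hζ ▸ isIntegral_one)

/-- `Y`: the pairs `(α + β, α β)` with `α`, `β` roots of unity of order at most `A`. -/
noncomputable def pairs (A : ℕ) : Finset (ℂ × ℂ) :=
  (smallRoots A ×ˢ smallRoots A).image fun x => (x.1 + x.2, x.1 * x.2)

theorem isIntegral_of_mem_pairs {A : ℕ} {y : ℂ × ℂ} (h : y ∈ pairs A) :
    IsIntegral ℤ y.1 ∧ IsIntegral ℤ y.2 := by
  rw [pairs, Finset.mem_image] at h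
  obtain ⟨x, hx, rfl⟩ := h
  obtain ⟨h1, h2⟩ := Finset.mem_product.mp hx
  exact ⟨(isIntegral_of_mem_smallRoots h1).add (isIntegral_of_mem_smallRoots h2),
    (isIntegral_of_mem_smallRoots h1).mul (isIntegral_of_mem_smallRoots h2)⟩

/-- The (trace, determinant) of a complex `2 × 2` matrix of order at most `A` lies in `Y`. -/
theorem trace_det_mem_pairs {A m : ℕ} (hm0 : 0 < m) (hmA : m ≤ A)
    {M : Matrix (Fin 2) (Fin 2) ℂ} (hM : M ^ m = 1) : (M.trace, M.det) ∈ pairs A := by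
  -- a root `α` of the characteristic polynomial
  have hdeg : (X ^ 2 - C M.trace * X + C M.det : ℂ[X]).degree ≠ 0 := by
    have : (X ^ 2 - C M.trace * X + C M.det : ℂ[X]).degree = 2 := by
      compute_degree!
    rw [this]; norm_num
  obtain ⟨α, hα⟩ := IsAlgClosed.exists_root _ hdeg
  have hα' : α ^ 2 - M.trace * α + M.det = 0 := by
    simpa [IsRoot.def] using hα
  set β : ℂ := M.trace - α with hβ
  have hαβ : α * β = M.det := by rw [hβ]; linear_combination -hα'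
  -- `α` is an eigenvalue
  have hdet0 : (M - α • (1 : Matrix (Fin 2) (Fin 2) ℂ)).det = 0 := by
    rw [Matrix.det_fin_two]
    simp only [Matrix.sub_apply, Matrix.smul_apply, Matrix.one_apply_eq, smul_eq_mul, mul_one,
      Matrix.one_apply_ne (show (0 : Fin 2) ≠ 1 by decide),
      Matrix.one_apply_ne (show (1 : Fin 2) ≠ 0 by decide), mul_zero, sub_zero]
    have ht : M.trace = M 0 0 + M 1 1 := Matrix.trace_fin_two M
    have hd : M.det = M 0 0 * M 1 1 - M 0 1 * M 1 0 := Matrix.det_fin_two M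
    rw [ht, hd] at hα'
    linear_combination hα'
  obtain ⟨v, hv0, hv⟩ := Matrix.exists_mulVec_eq_zero_iff.mpr hdet0
  have hMv : M.mulVec v = α • v := by
    rw [Matrix.sub_mulVec, Matrix.smul_mulVec, Matrix.one_mulVec, sub_eq_zero] at hv
    exact hv
  have hpow : ∀ j : ℕ, (M ^ j).mulVec v = α ^ j • v := by
    intro j
    induction j with
    | zero => simp
    | succ j ih =>
      rw [pow_succ, ← Matrix.mulVec_mulVec, hMv, Matrix.mulVec_smul, ih, smul_smul, pow_succ,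
        mul_comm]
  have hαm : α ^ m = 1 := by
    have h1 := hpow m
    rw [hM, Matrix.one_mulVec] at h1
    have h2 : (α ^ m - 1) • v = 0 := by rw [sub_smul, one_smul, ← h1, sub_self]
    rcases smul_eq_zero.mp h2 with h | h
    · exact sub_eq_zero.mp h
    · exact absurd h hv0
  have hdm : M.det ^ m = 1 := by rw [← Matrix.det_pow, hM, Matrix.det_one]
  have hβm : β ^ m = 1 := by
    have : α ^ m * β ^ m = 1 := by rw [← mul_pow, hαβ, hdm]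
    rwa [hαm, one_mul] at this
  rw [pairs, Finset.mem_image]
  refine ⟨(α, β), Finset.mem_product.mpr
    ⟨mem_smallRoots.mpr ⟨m, hm0, hmA, hαm⟩, mem_smallRoots.mpr ⟨m, hm0, hmA, hβm⟩⟩, ?_⟩
  simp only [Prod.mk.injEq]
  exact ⟨by rw [hβ]; ring, hαβ⟩

/-! ### The pigeonhole -/

/-- **A7.**  See the file header. -/
theorem charZero {N : ℕ} (t d : ℕ → ℂ)
    (ht : ∀ p : ℕ, p.Prime → ¬ p ∣ N → IsIntegral ℤ (t p))
    (hd : ∀ p : ℕ, p.Prime → ¬ p ∣ N → IsIntegral ℤ (d p))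
    (A : ℕ) (𝓛 : Set ℕ) (h𝓛 : 𝓛.Infinite) (hpr : ∀ ℓ ∈ 𝓛, ℓ.Prime)
    (𝔪 : ℕ → Ideal Zbar) (h𝔪 : ∀ ℓ ∈ 𝓛, 𝔪 ℓ ≠ ⊤ ∧ ((ℓ : ℕ) : Zbar) ∈ 𝔪 ℓ)
    (ρ : ℕ → GQ →* GL (Fin 2) ℂ)
    (hord : ∀ ℓ ∈ 𝓛, ∀ σ : GQ, ∃ m : ℕ, 0 < m ∧ m ≤ A ∧ ρ ℓ σ ^ m = 1)
    (hloc : ∀ ℓ ∈ 𝓛, ∀ p : ℕ, p.Prime → ¬ p ∣ N * ℓ →
      ∀ B : ValuationSubring (AlgebraicClosure ℚ), B.LiesOverPrime p →
        (∀ σ ∈ B.inertiaSubgroupIn ℚ, ρ ℓ σ = 1) ∧
        ∀ σ : GQ, B.IsFrobeniusAt σ p →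
          Cong (𝔪 ℓ) ((ρ ℓ σ : GL (Fin 2) ℂ) : Matrix (Fin 2) (Fin 2) ℂ).trace (t p) ∧
          Cong (𝔪 ℓ) ((ρ ℓ σ : GL (Fin 2) ℂ) : Matrix (Fin 2) (Fin 2) ℂ).det (d p)) :
    ∃ F : Finset ℕ, ∀ ℓ ∈ 𝓛, ℓ ∉ F → FrobData (N * ℓ) (ρ ℓ) t d := by
  classical
  -- Step A: the (trace, det) of every value of `ρ ℓ` lies in `Y`
  have stepA : ∀ ℓ ∈ 𝓛, ∀ σ : GQ,
      (((ρ ℓ σ : GL (Fin 2) ℂ) : Matrix (Fin 2) (Fin 2) ℂ).trace,
        ((ρ ℓ σ : GL (Fin 2) ℂ) : Matrix (Fin 2) (Fin 2) ℂ).det) ∈ pairs A := by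
    intro ℓ hℓ σ
    obtain ⟨m, hm0, hmA, hm⟩ := hord ℓ hℓ σ
    refine trace_det_mem_pairs hm0 hmA ?_
    rw [← Units.val_pow_eq_pow_val, hm, Units.val_one]
  -- the key consequence of (INF): a difference of algebraic integers lying in `𝔪 ℓ` for
  -- infinitely many `ℓ ∈ 𝓛` vanishes
  have key : ∀ (x y : ℂ), IsIntegral ℤ x → IsIntegral ℤ y → ∀ S : Set ℕ, S.Infinite → S ⊆ 𝓛 →
      (∀ ℓ ∈ S, Cong (𝔪 ℓ) x y) → x = y := by
    intro x y hx hy S hS hS𝓛 hcong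
    by_contra hne
    obtain ⟨F, hF⟩ := exists_finset_of_ne_zero (x - y) (hx.sub hy) (sub_ne_zero.mpr hne)
    apply hS
    refine F.finite_toSet.subset fun ℓ hℓ => ?_
    obtain ⟨z, hz, hzv⟩ := hcong ℓ hℓ
    exact hF ℓ (hpr ℓ (hS𝓛 hℓ)) (𝔪 ℓ) (h𝔪 ℓ (hS𝓛 hℓ)).1 (h𝔪 ℓ (hS𝓛 hℓ)).2 ⟨z, hz, hzv⟩
  -- Step B: `(t p, d p) ∈ Y` for every prime `p ∤ N`
  have stepB : ∀ p : ℕ, p.Prime → ¬ p ∣ N → (t p, d p) ∈ pairs A := by
    intro p hp hpN
    obtain ⟨B, hB⟩ := Fermat.Agent.Lib.FrobeniusExists.exists_valuationSubring_liesOverPrime p hp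
    obtain ⟨σ, hσ⟩ := Fermat.Agent.ES.FROB.FrobFacts12.exists_isFrobeniusAt_of p hp B hB
    have hinf : (𝓛 \ {p}).Infinite := h𝓛.sdiff (Set.finite_singleton p)
    have : Infinite ↥(𝓛 \ {p}) := hinf.to_subtype
    let f : ↥(𝓛 \ {p}) → {y // y ∈ pairs A} := fun ℓ =>
      ⟨_, stepA ℓ.1 ℓ.2.1 σ⟩
    obtain ⟨y, hy⟩ := Finite.exists_infinite_fiber f
    -- the infinite set of `ℓ` with value `y`
    set S : Set ℕ := (fun ℓ : ↥(𝓛 \ {p}) => (ℓ : ℕ)) '' (f ⁻¹' {y}) with hS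
    have hSinf : S.Infinite :=
      (Set.infinite_coe_iff.mp hy).image (Subtype.val_injective.injOn)
    have hS𝓛 : S ⊆ 𝓛 := by
      rintro _ ⟨ℓ, -, rfl⟩
      exact ℓ.2.1
    have hScong : ∀ ℓ ∈ S, Cong (𝔪 ℓ) y.1.1 (t p) ∧ Cong (𝔪 ℓ) y.1.2 (d p) := by
      rintro _ ⟨ℓ, hℓy, rfl⟩
      have hℓp : (ℓ : ℕ) ≠ p := fun h => ℓ.2.2 (Set.mem_singleton_iff.mpr h)
      have hpNℓ : ¬ p ∣ N * (ℓ : ℕ) := by
        intro h1
        rcases (Nat.Prime.dvd_mul hp).mp h1 with h2 | h2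
        · exact hpN h2
        · exact hℓp ((Nat.prime_dvd_prime_iff_eq hp (hpr _ ℓ.2.1)).mp h2).symm
      have h2 := (hloc ℓ.1 ℓ.2.1 p hp hpNℓ B hB).2 σ hσ
      have hfy : f ℓ = y := hℓy
      have h3 : y.1 = (((ρ ℓ.1 σ : GL (Fin 2) ℂ) : Matrix (Fin 2) (Fin 2) ℂ).trace,
          ((ρ ℓ.1 σ : GL (Fin 2) ℂ) : Matrix (Fin 2) (Fin 2) ℂ).det) := by
        rw [← hfy]
      rw [h3]
      exact h2
    have hyint := isIntegral_of_mem_pairs y.2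
    have e1 : y.1.1 = t p :=
      key _ _ hyint.1 (ht p hp hpN) S hSinf hS𝓛 fun ℓ hℓ => (hScong ℓ hℓ).1
    have e2 : y.1.2 = d p :=
      key _ _ hyint.2 (hd p hp hpN) S hSinf hS𝓛 fun ℓ hℓ => (hScong ℓ hℓ).2
    have : (t p, d p) = y.1 := by rw [← e1, ← e2]
    rw [this]
    exact y.2
  -- Step C: the separating finite set
  set D : Finset ℂ :=
    (((pairs A ×ˢ pairs A).image fun x => x.1.1 - x.2.1) ∪
      ((pairs A ×ˢ pairs A).image fun x => x.1.2 - x.2.2)).filter (· ≠ 0) with hDdef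
  have hD : ∀ z ∈ D, IsIntegral ℤ z ∧ z ≠ 0 := by
    intro z hz
    rw [hDdef, Finset.mem_filter, Finset.mem_union, Finset.mem_image, Finset.mem_image] at hz
    refine ⟨?_, hz.2⟩
    rcases hz.1 with ⟨x, hx, rfl⟩ | ⟨x, hx, rfl⟩
    · obtain ⟨h1, h2⟩ := Finset.mem_product.mp hx
      exact (isIntegral_of_mem_pairs h1).1.sub (isIntegral_of_mem_pairs h2).1
    · obtain ⟨h1, h2⟩ := Finset.mem_product.mp hx
      exact (isIntegral_of_mem_pairs h1).2.sub (isIntegral_of_mem_pairs h2).2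
  obtain ⟨F, hF⟩ := exists_finset_of_finset D hD
  refine ⟨F, fun ℓ hℓ hℓF p hp hpNℓ B hB => ⟨(hloc ℓ hℓ p hp hpNℓ B hB).1, fun σ hσ => ?_⟩⟩
  have hpN : ¬ p ∣ N := fun h => hpNℓ (h.mul_right ℓ)
  obtain ⟨c1, c2⟩ := (hloc ℓ hℓ p hp hpNℓ B hB).2 σ hσ
  have hy := stepA ℓ hℓ σ
  have hy' := stepB p hp hpN
  -- congruent members of `Y` are equal for `ℓ ∉ F`
  have sep : ∀ x y : ℂ, x - y ∈ D ∨ x - y = 0 → Cong (𝔪 ℓ) x y → x = y := by
    intro x y hxy hc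
    rcases hxy with h | h
    · exfalso
      obtain ⟨z, hz, hzv⟩ := hc
      exact hℓF (hF ℓ (hpr ℓ hℓ) (𝔪 ℓ) (h𝔪 ℓ hℓ).1 (h𝔪 ℓ hℓ).2 _ h ⟨z, hz, hzv⟩)
    · exact sub_eq_zero.mp h
  constructor
  · refine sep _ _ ?_ c1
    by_cases h0 : ((ρ ℓ σ : GL (Fin 2) ℂ) : Matrix (Fin 2) (Fin 2) ℂ).trace - t p = 0
    · exact Or.inr h0
    · left
      rw [hDdef, Finset.mem_filter]
      refine ⟨Finset.mem_union_left _ (Finset.mem_image.mpr
        ⟨(_, _), Finset.mem_product.mpr ⟨hy, hy'⟩, rfl⟩), h0⟩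
  · refine sep _ _ ?_ c2
    by_cases h0 : ((ρ ℓ σ : GL (Fin 2) ℂ) : Matrix (Fin 2) (Fin 2) ℂ).det - d p = 0
    · exact Or.inr h0
    · left
      rw [hDdef, Finset.mem_filter]
      refine ⟨Finset.mem_union_right _ (Finset.mem_image.mpr
        ⟨(_, _), Finset.mem_product.mpr ⟨hy, hy'⟩, rfl⟩), h0⟩

end Fermat.Agent.ES.R48.CharZero15
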