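/-
Programme R (S48, Deligne–Serre), chapter GEOM, sub-chapter G4 "CONG₁" (helper15):
**GENERIC twin of the Prelude's `Def_ModularCurve_ReductionModL`** (sections `Spec`, `SpecLemmas`,
`Descent`): the reduction of places / divisors / `Pic⁰` for an ARBITRARY pair of function fields
`F₀ ⊆ ℚ((q))` (characteristic zero, base-changed to `L`) and `Fk ⊆ k((q))` (special fibre),
instead of the hard-wired pair `modularFunctionFieldFull N`, `modularFunctionFieldFullC k N`.

Literal copy of the Prelude text with `modularFunctionFieldFull N ↦ F₀`,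
`modularFunctionFieldFullC k N ↦ Fk`, `JZeroC k N ↦ Pic0 k Fk`; every declaration `X` of the
Prelude is `XG` here.  For `X₁(M)`: `F₀ := FF1Defs13.F1 M`, `Fk := F1CDefs15.F1C k M`
(abbreviations `IsPlaceReductionAlong1`, … at the end).
-/
import Mathlib
import Fermat.Prelude.Def_ModularCurve_ArithmeticGalois
import Fermat.Prelude.Def_ModularCurve_X0ModL
import Fermat.Agent.ES.R48.F1CDefs15

set_option autoImplicit false

noncomputable section

open HahnSeries IntermediateField AlgebraicCurve ModularCurve

namespace Fermat.Agent.ES.R48.RedDefsG15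

section Spec

variable {L : Type*} [Field L] [Algebra ℚ L] (A : ValuationSubring L)
variable {k : Type*} [Field k] (π : A →+* k)
variable (F₀ : IntermediateField ℚ (LaurentSeries ℚ)) (Fk : IntermediateField k (LaurentSeries k))

def IsPlaceReductionAlongG
    (r : Place L (laurentBaseChange L F₀) →
      Place k Fk) : Prop :=
  (∀ P, (r P).deg = P.deg) ∧
    ∀ (y : LaurentSeries A)
      (hy : coeffMap A.subtype y ∈ laurentBaseChange L F₀)
      (hyk : coeffMap π y ∈ Fk),
      coeffMap π y ≠ 0 →
        ∀ D : Divisor L (laurentBaseChange L F₀),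
          (∀ P, D P = P.ord (⟨coeffMap A.subtype y, hy⟩ : laurentBaseChange L F₀)) →
            ∀ Q, Finsupp.mapDomain r D Q = Q.ord (⟨coeffMap π y, hyk⟩ : Fk)

def integralPrincipalDivisorsG : Set (Divisor L (laurentBaseChange L F₀)) :=
  {D | ∃ (y : LaurentSeries A)
      (hy : coeffMap A.subtype y ∈ laurentBaseChange L F₀),
      coeffMap π y ∈ Fk ∧ coeffMap π y ≠ 0 ∧
        ∀ P, D P = P.ord (⟨coeffMap A.subtype y, hy⟩ : laurentBaseChange L F₀)}

def PrincipalGeneratedByIntegralG : Prop :=
  Divisor.principal (K := L) (F := laurentBaseChange L F₀) ≤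
    AddSubgroup.closure (integralPrincipalDivisorsG A π F₀ Fk)

def ReductionInputsAlongG : Prop :=
  ∃ r, IsPlaceReductionAlongG A π F₀ Fk r ∧ PrincipalGeneratedByIntegralG A π F₀ Fk

end Spec

section SpecLemmas

variable {L : Type*} [Field L] [Algebra ℚ L] {A : ValuationSubring L}
variable {k : Type*} [Field k] {π : A →+* k}
variable {F₀ : IntermediateField ℚ (LaurentSeries ℚ)} {Fk : IntermediateField k (LaurentSeries k)}
variable {r : Place L (laurentBaseChange L F₀) →
  Place k Fk}

theorem IsPlaceReductionAlongG.deg_eq (hr : IsPlaceReductionAlongG A π F₀ Fk r)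
    (P : Place L (laurentBaseChange L F₀)) : (r P).deg = P.deg :=
  hr.1 P

theorem IsPlaceReductionAlongG.isPrincipal_mapDomain (hr : IsPlaceReductionAlongG A π F₀ Fk r)
    {D : Divisor L (laurentBaseChange L F₀)}
    (hD : D ∈ integralPrincipalDivisorsG A π F₀ Fk) :
    Divisor.IsPrincipal (Finsupp.mapDomain r D) := by
  obtain ⟨y, hy, hyk, hne, hDy⟩ := hD
  refine ⟨⟨coeffMap π y, hyk⟩, fun h => hne (congrArg Subtype.val h), fun Q => ?_⟩
  exact hr.2 y hy hyk hne D hDy Q

theorem degree_mapDomain_of_deg_eqG
    (hdeg : ∀ P, (r P).deg = P.deg)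
    (D : Divisor L (laurentBaseChange L F₀)) :
    Divisor.degree (Finsupp.mapDomain r D) = Divisor.degree D := by
  induction D using Finsupp.induction with
  | zero => simp
  | single_add P n D _ _ ih =>
    rw [Finsupp.mapDomain_add, map_add, map_add, ih, Finsupp.mapDomain_single,
      Divisor.degree_single, Divisor.degree_single, hdeg]

theorem mapDomain_mem_degZero_of_deg_eqG
    (hdeg : ∀ P, (r P).deg = P.deg)
    {D : Divisor L (laurentBaseChange L F₀)}
    (hD : D ∈ Divisor.degZero (K := L) (F := laurentBaseChange L F₀)) :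
    Finsupp.mapDomain r D ∈ Divisor.degZero (K := k) (F := Fk) := by
  rw [Divisor.mem_degZero] at hD ⊢
  rw [degree_mapDomain_of_deg_eqG hdeg, hD]

theorem IsPlaceReductionAlongG.mapDomain_mem_principal (hr : IsPlaceReductionAlongG A π F₀ Fk r)
    (hgen : PrincipalGeneratedByIntegralG A π F₀ Fk)
    {D : Divisor L (laurentBaseChange L F₀)}
    (hD : D ∈ Divisor.principal (K := L) (F := laurentBaseChange L F₀)) :
    Finsupp.mapDomain r D ∈ Divisor.principal (K := k) (F := Fk) := by
  have hD' := hgen hD
  clear hD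
  induction hD' using AddSubgroup.closure_induction with
  | mem E hE => exact hr.isPrincipal_mapDomain hE
  | zero => rw [Finsupp.mapDomain_zero]; exact AddSubgroup.zero_mem _
  | add E E' _ _ hE hE' => rw [Finsupp.mapDomain_add]; exact AddSubgroup.add_mem _ hE hE'
  | neg E _ hE =>
    rw [← Finsupp.mapDomain.addMonoidHom_apply, map_neg, Finsupp.mapDomain.addMonoidHom_apply]
    exact AddSubgroup.neg_mem _ hE

end SpecLemmas

section Descent

variable {L : Type*} [Field L] [Algebra ℚ L] {A : ValuationSubring L}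
variable {k : Type*} [Field k] {π : A →+* k}
variable {F₀ : IntermediateField ℚ (LaurentSeries ℚ)} {Fk : IntermediateField k (LaurentSeries k)}
variable (r : Place L (laurentBaseChange L F₀) →
  Place k Fk)

def reductionDivAlongG :
    Divisor L (laurentBaseChange L F₀) →+ Divisor k Fk :=
  Finsupp.mapDomain.addMonoidHom r

@[simp]
theorem reductionDivAlong_applyG (D : Divisor L (laurentBaseChange L F₀)) :
    reductionDivAlongG r D = Finsupp.mapDomain r D :=
  rfl

theorem reductionDivAlong_singleG (P : Place L (laurentBaseChange L F₀)) (n : ℤ) :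
    reductionDivAlongG r (Finsupp.single P n) = Finsupp.single (r P) n :=
  Finsupp.mapDomain_single

def reductionDegZeroAlongG (hdeg : ∀ P, (r P).deg = P.deg) :
    Divisor.degZero (K := L) (F := laurentBaseChange L F₀) →+
      Divisor.degZero (K := k) (F := Fk) :=
  ((reductionDivAlongG r).domRestrict _).codRestrict _ fun D => mapDomain_mem_degZero_of_deg_eqG hdeg D.2

@[simp]
theorem coe_reductionDegZeroAlongG (hdeg : ∀ P, (r P).deg = P.deg)
    (D : Divisor.degZero (K := L) (F := laurentBaseChange L F₀)) :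
    (reductionDegZeroAlongG r hdeg D : Divisor k Fk) =
      Finsupp.mapDomain r (D : Divisor L (laurentBaseChange L F₀)) :=
  rfl

def reductionPic0AlongG (hr : IsPlaceReductionAlongG A π F₀ Fk r) (hgen : PrincipalGeneratedByIntegralG A π F₀ Fk) :
    Pic0 L (laurentBaseChange L F₀) →+ Pic0 k Fk :=
  QuotientAddGroup.map _ _ (reductionDegZeroAlongG r hr.1) (by
    rintro ⟨D, hD0⟩ hD
    simp only [AddSubgroup.mem_addSubgroupOf] at hD ⊢
    exact hr.mapDomain_mem_principal hgen hD)

theorem reductionPic0Along_mkG (hr : IsPlaceReductionAlongG A π F₀ Fk r)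
    (hgen : PrincipalGeneratedByIntegralG A π F₀ Fk)
    (D : Divisor.degZero (K := L) (F := laurentBaseChange L F₀)) :
    reductionPic0AlongG r hr hgen (Pic0.mk D) = Pic0.mk (reductionDegZeroAlongG r hr.1 D) :=
  rfl

end Descent


/-! ### The case of `X₁(M)` -/

section One

open Fermat.Agent.ES.R48.FF1Defs13 Fermat.Agent.ES.R48.F1CDefs15

variable {L : Type*} [Field L] [Algebra ℚ L] (A : ValuationSubring L)
variable {k : Type*} [Field k] (π : A →+* k) (M : ℕ)

/-- `IsPlaceReductionAlongG` for `X₁(M)`. -/
abbrev IsPlaceReductionAlong1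
    (r : Place L (laurentBaseChange L (F1 M)) → Place k (F1C k M)) : Prop :=
  IsPlaceReductionAlongG A π (F1 M) (F1C k M) r

/-- `PrincipalGeneratedByIntegralG` for `X₁(M)`. -/
abbrev PrincipalGeneratedByIntegral1 : Prop :=
  PrincipalGeneratedByIntegralG A π (F1 M) (F1C k M)

end One

end Fermat.Agent.ES.R48.RedDefsG15

end
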