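/-
Programme R (S48, Deligne–Serre), chapter GEOM, sub-chapter G4 "CONG₁", brick L1a (helper15):
GENERIC twin of main's `ES/RED/RedAssembly15` (+ the `Prelude` section of `ES/RED/GaussRing15`):
assembly of `RedDefsG15.IsPlaceReductionAlongG A π F₀ Fk r` from the abstract one-chart theorem
`R2Abstract14.r2_chart_mapDomain` on TWO charts covering the special fibre, for an ARBITRARY pair
`F₀ ⊆ ℚ((q))`, `Fk ⊆ k((q))`.  Literal copy with `modularFunctionFieldFull N ↦ F₀`,
`modularFunctionFieldFullC k N ↦ Fk`; each declaration `X` of the original is `XG` here.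
(`finDiv_of_hasPrincipalDivisors` is generic on main already: use `RedAssembly15`'s.)
-/
import Mathlib
import Fermat.Agent.ES.R48.RedDefsG15
import Fermat.Agent.ES.RED.R2Abstract14
import Fermat.Agent.ES.RED.GaussRing15

set_option autoImplicit false

open AlgebraicCurve ModularCurve HahnSeries

noncomputable section

namespace Fermat.Agent.ES.R48.RedAssemblyG15

open Fermat.Agent.ES.RED.R2Abstract14 Fermat.Agent.ES.R48.RedDefsG15

section Abstract

variable {L : Type*} [Field L] [Algebra ℚ L] (A : ValuationSubring L)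
variable {k : Type*} [Field k] (π : A →+* k)
variable (F₀ : IntermediateField ℚ (LaurentSeries ℚ)) (Fk : IntermediateField k (LaurentSeries k))

/-- The bridge between the Prelude's `A`-integral `q`-expansions and the Gauss ring `G` with its
reduction `red`. -/
def GaussBridgeG (G : Subring ↥(laurentBaseChange L F₀)) (red : G →+* ↥Fk) : Prop :=
  ∀ (y : LaurentSeries A)
    (hy : coeffMap A.subtype y ∈ laurentBaseChange L F₀)
    (hyk : coeffMap π y ∈ Fk),
    ∃ g : G, (g : ↥(laurentBaseChange L F₀)) = ⟨coeffMap A.subtype y, hy⟩ ∧ red g = ⟨coeffMap π y, hyk⟩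

variable {A π F₀ Fk}

/-- **RED-Z, abstract form**: two charts covering the special fibre give the Prelude's
`IsPlaceReductionAlongG`. -/
theorem isPlaceReductionAlong_of_chartsG [IsAlgClosed L]
    (r : Place L ↥(laurentBaseChange L F₀) → Place k ↥Fk) (G : Subring ↥(laurentBaseChange L F₀)) (red : G →+* ↥Fk)
    (hbridge : GaussBridgeG A π F₀ Fk G red) (hfin : FinDiv L ↥(laurentBaseChange L F₀))
    (hdeg : ∀ P, (r P).deg = P.deg)
    {B₀ B₁ : Subring ↥(laurentBaseChange L F₀)} {x₀ x₁ : G} {n₀ n₁ : ℕ} {S₀ S₁ : Set (Place L ↥(laurentBaseChange L F₀))}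
    {St₀ St₁ : Set (Place k ↥Fk)}
    (h₀ : ChartHyp A π G red r B₀ x₀ n₀ S₀ St₀) (h₁ : ChartHyp A π G red r B₁ x₁ n₁ S₁ St₁)
    (hcov : ∀ Q : Place k ↥Fk, Q ∈ St₀ ∨ Q ∈ St₁) :
    IsPlaceReductionAlongG A π F₀ Fk r := by
  refine ⟨hdeg, ?_⟩
  intro y hy hyk hne D hD Q
  obtain ⟨g, hg, hred⟩ := hbridge y hy hyk
  have hredne : red g ≠ 0 := by
    rw [hred]
    intro h0
    exact hne (congrArg Subtype.val h0)
  have hD' : ∀ P, D P = P.ord (g : ↥(laurentBaseChange L F₀)) := by
    intro P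
    rw [hD P, hg]
  rw [← hred]
  rcases hcov Q with hQ | hQ
  · exact r2_chart_mapDomain h₀ hfin hQ g hredne D hD'
  · exact r2_chart_mapDomain h₁ hfin hQ g hredne D hD'

/-- **RED-Z, abstract form**, packaged as the Prelude's `ReductionInputsAlongG`. -/
theorem reductionInputsAlong_of_chartsG [IsAlgClosed L]
    (r : Place L ↥(laurentBaseChange L F₀) → Place k ↥Fk) (G : Subring ↥(laurentBaseChange L F₀)) (red : G →+* ↥Fk)
    (hbridge : GaussBridgeG A π F₀ Fk G red) (hfin : FinDiv L ↥(laurentBaseChange L F₀))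
    (hdeg : ∀ P, (r P).deg = P.deg)
    {B₀ B₁ : Subring ↥(laurentBaseChange L F₀)} {x₀ x₁ : G} {n₀ n₁ : ℕ} {S₀ S₁ : Set (Place L ↥(laurentBaseChange L F₀))}
    {St₀ St₁ : Set (Place k ↥Fk)}
    (h₀ : ChartHyp A π G red r B₀ x₀ n₀ S₀ St₀) (h₁ : ChartHyp A π G red r B₁ x₁ n₁ S₁ St₁)
    (hcov : ∀ Q : Place k ↥Fk, Q ∈ St₀ ∨ Q ∈ St₁)
    (hgen : PrincipalGeneratedByIntegralG A π F₀ Fk) :
    ReductionInputsAlongG A π F₀ Fk :=
  ⟨r, isPlaceReductionAlong_of_chartsG r G red hbridge hfin hdeg h₀ h₁ hcov, hgen⟩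


end Abstract

/-! ### The common Gauss ring (twin of the `Prelude` section of `GaussRing15`) -/

section Gauss

open Fermat.Agent.ES.RED.GaussRing15

variable {L : Type*} [Field L] [Algebra ℚ L] (A : ValuationSubring L) {k : Type*} [Field k]
  (π : ↥A →+* k)
variable (F₀ : IntermediateField ℚ (LaurentSeries ℚ)) (Fk : IntermediateField k (LaurentSeries k))

/-- The Gauss ring of `F = L · F₀` relative to `Fk`. -/
abbrev gaussRingG : Subring ↥(laurentBaseChange L F₀) :=
  gaussRing A π (laurentBaseChange L F₀) Fk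

/-- Its reduction. -/
abbrev gaussRedG : ↥(gaussRingG A π F₀ Fk) →+* ↥Fk :=
  gaussRed A π (laurentBaseChange L F₀) Fk

/-- The bridge to `IsPlaceReductionAlongG` holds by construction. -/
theorem gaussBridgeG : GaussBridgeG A π F₀ Fk (gaussRingG A π F₀ Fk) (gaussRedG A π F₀ Fk) := by
  intro y hy hyk
  exact ⟨⟨⟨coeffMap A.subtype y, hy⟩, mem_gaussRing_of_coeffMap A π _ _ y hy hyk⟩, rfl,
    gaussRed_mk A π _ _ y hy hyk⟩

end Gauss

end Fermat.Agent.ES.R48.RedAssemblyG15
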