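/-
Programme R (S48, Deligne–Serre), chapter GEOM, sub-chapter G4 "CONG₁", brick L1a (helper15):
GENERIC twin of main's `ES/RED/RedCharts15`: assembly of `RedDefsG15.IsPlaceReductionAlongG` from
TWO charts of `Contract8.ChartSpec`, for an ARBITRARY pair `F₀ ⊆ ℚ((q))`, `Fk ⊆ κ_A((q))`.
Literal copy with `modularFunctionFieldFull N ↦ F₀`, `modularFunctionFieldFullC (kA A) N ↦ Fk`.
At `ℚbar` the two facts `FbarFacts20.hasPrincipalDivisors_bar`, `deg_eq_one_bar` of the original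
become hypotheses (`[HasPrincipalDivisors …]`, `hdeg1`), to be supplied by G2 for `F₀ = F1 M`;
`(Rgen)` stays a hypothesis (the primed variant with `GaussUnit25` has no twin here).
-/
import Mathlib
import Fermat.Agent.ES.R48.RedAssemblyG15
import Fermat.Agent.ES.RED.ChangeG15
import Fermat.Agent.ES.RED.Contract8
import Fermat.Agent.ES.RED.RedAssembly15
import Fermat.Agent.ES.KRON.KronInst10

set_option autoImplicit false

open AlgebraicCurve ModularCurve HahnSeries

noncomputable section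

namespace Fermat.Agent.ES.R48.RedChartsG15

open Fermat.Agent.ES.RED.R2Abstract14 Fermat.Agent.ES.RED.R2Peel14
open Fermat.Agent.ES.RED.RedAssembly15 Fermat.Agent.ES.RED.GaussRing15
open Fermat.Agent.ES.RED.Contract8 Fermat.Agent.ES.RED.ChangeG15
open Fermat.Agent.X0
open Fermat.Agent.ES.R48.RedDefsG15 Fermat.Agent.ES.R48.RedAssemblyG15

/-! ### compatibility of a chart with the common Gauss ring -/

section Compat

variable {L : Type*} [Field L] [Algebra ℚ L] [IsAlgClosed L] (A : ValuationSubring L)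
variable (F₀ : IntermediateField ℚ (LaurentSeries ℚ))
  (Fk : IntermediateField (kA A) (LaurentSeries (kA A)))
variable {x : ↥(laurentBaseChange L F₀)} {hx : FF.IsGen L x}
variable (S : ChartSpec A hx ↥Fk)

/-- **Compatibility of a chart with `q`-expansions**: every element of the chart ring has an
`A`-integral `q`-expansion, and the chart's reduction is its coefficientwise reduction. -/
def Compat : Prop :=
  ∀ b : ↥S.B, ∃ Y : LaurentSeries ↥A,
    coeffMap A.subtype Y =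
      (((b : ↥(laurentBaseChange L F₀)) : LaurentSeries L)) ∧
    ((S.red b : ↥Fk) : LaurentSeries (kA A)) =
      coeffMap (resA A) Y

variable {A F₀ Fk S}

theorem Compat.le_gaussRingN (hS : Compat A F₀ Fk S) : S.B ≤ gaussRingG A (resA A) F₀ Fk := by
  intro b hb
  obtain ⟨Y, hY, hYr⟩ := hS ⟨b, hb⟩
  refine ⟨Y, hY, ?_⟩
  rw [← hYr]
  exact (S.red ⟨b, hb⟩).2

theorem Compat.gaussRedN_eq (hS : Compat A F₀ Fk S)
    (b : ↥(laurentBaseChange L F₀)) (hb : b ∈ S.B) :
    gaussRedG A (resA A) F₀ Fk ⟨b, hS.le_gaussRingN hb⟩ = S.red ⟨b, hb⟩ := by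
  obtain ⟨Y, hY, hYr⟩ := hS ⟨b, hb⟩
  apply Subtype.ext
  rw [gaussRed_eq A (resA A) _ _ _ (Y := Y) hY, hYr]

end Compat

/-! ### the assembly from two `Contract8.ChartSpec`s -/

section Main

variable {L : Type*} [Field L] [Algebra ℚ L] [IsAlgClosed L] {A : ValuationSubring L}
variable {F₀ : IntermediateField ℚ (LaurentSeries ℚ)}
  {Fk : IntermediateField (kA A) (LaurentSeries (kA A))}
variable {x : ↥(laurentBaseChange L F₀)} {hx : FF.IsGen L x}
variable {S₀ S₁ : ChartSpec A hx ↥Fk}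

/-- **RED-Z from two charts of `Contract8`**: the adapter's `ChartHypA` on each chart (with
`G := B`, `red := S.red`), compatibility with `q`-expansions, and `s₁~ = s₀~⁻¹` give the
Prelude's `IsPlaceReductionAlong`. -/
theorem isPlaceReductionAlong_of_chartSpecs
    (r : Place L ↥(laurentBaseChange L F₀) →
      Place (kA A) ↥Fk)
    (hS₀ : Compat A F₀ Fk S₀) (hS₁ : Compat A F₀ Fk S₁) {n₀ n₁ : ℕ}
    (h₀ : ChartHypA A (resA A) S₀.B S₀.red r S₀.B S₀.sB n₀ {P | S₀.InChart P}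
      {Q | 0 ≤ Q.ord (S₀.red S₀.sB)})
    (h₁ : ChartHypA A (resA A) S₁.B S₁.red r S₁.B S₁.sB n₁ {P | S₁.InChart P}
      {Q | 0 ≤ Q.ord (S₁.red S₁.sB)})
    (hinv : S₁.red S₁.sB = (S₀.red S₀.sB)⁻¹)
    (hfin : FinDiv L ↥(laurentBaseChange L F₀))
    (hdeg : ∀ P, (r P).deg = P.deg) :
    IsPlaceReductionAlongG A (resA A) F₀ Fk r := by
  have g₀ := changeG h₀ (gaussRingG A (resA A) F₀ Fk) (gaussRedG A (resA A) F₀ Fk) hS₀.le_gaussRingN
    (fun b hb => hS₀.gaussRedN_eq b hb)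
  have g₁ := changeG h₁ (gaussRingG A (resA A) F₀ Fk) (gaussRedG A (resA A) F₀ Fk) hS₁.le_gaussRingN
    (fun b hb => hS₁.gaussRedN_eq b hb)
  refine isPlaceReductionAlong_of_chartsG r _ _ (gaussBridgeG A (resA A) F₀ Fk) hfin hdeg
    g₀.toChartHyp g₁.toChartHyp ?_
  intro Q
  rcases le_total 0 (Q.ord (S₀.red S₀.sB)) with h | h
  · exact Or.inl h
  · right
    show 0 ≤ Q.ord (S₁.red S₁.sB)
    rw [hinv, Q.ord_inv]
    omega

end Main

/-! ### at `ℚbar` -/

section Qbar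

/-- `ℚbar`. -/
abbrev Qb : Type := AlgebraicClosure ℚ

variable {A : ValuationSubring Qb} {F₀ : IntermediateField ℚ (LaurentSeries ℚ)}
  {Fk : IntermediateField (kA A) (LaurentSeries (kA A))}
variable {x : ↥(laurentBaseChange Qb F₀)} {hx : FF.IsGen Qb x}
variable {S₀ S₁ : ChartSpec A hx ↥Fk}

/-- **RED-Z at `ℚbar`**: `IsPlaceReductionAlongG A (resA A) F₀ Fk r` and `ReductionInputsAlongG A (resA A) F₀ Fk` from the two
charts, a generator `xt` of the special fibre (all places of degree one) and `(Rgen)`. -/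
theorem reductionInputsModL_of_chartSpecs
    (r : Place Qb ↥(laurentBaseChange Qb F₀) →
      Place (kA A) ↥Fk)
    (hS₀ : Compat A F₀ Fk S₀) (hS₁ : Compat A F₀ Fk S₁) {n₀ n₁ : ℕ}
    (h₀ : ChartHypA A (resA A) S₀.B S₀.red r S₀.B S₀.sB n₀ {P | S₀.InChart P}
      {Q | 0 ≤ Q.ord (S₀.red S₀.sB)})
    (h₁ : ChartHypA A (resA A) S₁.B S₁.red r S₁.B S₁.sB n₁ {P | S₁.InChart P}
      {Q | 0 ≤ Q.ord (S₁.red S₁.sB)})
    (hinv : S₁.red S₁.sB = (S₀.red S₀.sB)⁻¹)
    {xt : ↥Fk} (hxt : FF.IsGen (kA A) xt)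
    (hgen : PrincipalGeneratedByIntegralG A (resA A) F₀ Fk)
    [HasPrincipalDivisors Qb ↥(laurentBaseChange Qb F₀)]
    (hdeg1 : ∀ P : Place Qb ↥(laurentBaseChange Qb F₀), P.deg = 1) :
    IsPlaceReductionAlongG A (resA A) F₀ Fk r ∧ ReductionInputsAlongG A (resA A) F₀ Fk := by
  have : IsAlgClosed (kA A) := Fermat.Agent.ES.KRON.KronInst10.isAlgClosed_residueField A
  have hdeg : ∀ P, (r P).deg = P.deg := fun P => by
    rw [FF.deg_eq_one hxt (r P), hdeg1 P]
  have hr : IsPlaceReductionAlongG A (resA A) F₀ Fk r :=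
    isPlaceReductionAlong_of_chartSpecs r hS₀ hS₁ h₀ h₁ hinv finDiv_of_hasPrincipalDivisors hdeg
  exact ⟨hr, r, hr, hgen⟩

end Qbar

end Fermat.Agent.ES.R48.RedChartsG15
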