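/-
Programme R (S48, Deligne–Serre), chapter GEOM, sub-chapter G4 "CONG₁", brick L1a (helper15):
GENERIC twin of main's `ES/RED/RedMain15`: THE ASSEMBLY
`RedDefsG15.IsPlaceReductionAlongG A (residue A) F₀ Fk T.r` for the global reduction map `T.r` of
`TwoCharts8.TwoCharts`, for an ARBITRARY pair `F₀ ⊆ ℚ((q))`, `Fk ⊆ κ_A((q))`.  Literal copy with
`modularFunctionFieldFull N ↦ F₀`, `modularFunctionFieldFullC (kA A) N ↦ Fk`;
`ChartInputs A N S ↦ ChartInputsG A F₀ Fk S` (same eight fields).  At `ℚbar`,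
`FbarFacts20.hasPrincipalDivisors_bar`, `deg_eq_one_bar` become hypotheses (G2 supplies them for
`F₀ = F1 M`); the `(Rgen)`-packaged variant has no twin here.
-/
import Mathlib
import Fermat.Agent.ES.R48.RedChartsG15
import Fermat.Agent.ES.RED.R2Adapter9
import Fermat.Agent.ES.RED.TwoCharts8

set_option autoImplicit false

open AlgebraicCurve ModularCurve HahnSeries Polynomial IntermediateField

noncomputable section

namespace Fermat.Agent.ES.R48.RedMainG15

open Fermat.Agent.ES.RED.R2Abstract14 Fermat.Agent.ES.RED.R2Peel14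
open Fermat.Agent.ES.RED.RedAssembly15 Fermat.Agent.ES.RED.GaussRing15
open Fermat.Agent.ES.RED.Contract8
open Fermat.Agent.ES.RED.TwoCharts8 Fermat.Agent.ES.RED.R2Adapter9
open Fermat.Agent.X0 Fermat.Agent.X0.FF
open Fermat.Agent.ES.R48.RedDefsG15 Fermat.Agent.ES.R48.RedAssemblyG15
open Fermat.Agent.ES.R48.RedChartsG15

section Generic

variable {L : Type*} [Field L] [Algebra ℚ L] [IsAlgClosed L] (A : ValuationSubring L)
variable (F₀ : IntermediateField ℚ (LaurentSeries ℚ))
  (Fk : IntermediateField (kA A) (LaurentSeries (kA A)))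
variable {x : ↥(laurentBaseChange L F₀)} {hx : IsGen L x}

/-- The analytic inputs on one chart. -/
structure ChartInputsG (S : ChartSpec A hx ↥Fk) : Prop where
  compat : Compat A F₀ Fk S
  gen : IsGen L S.s
  gent : IsGen (kA A) (S.red S.sB)
  sep : Algebra.IsSeparable (kA A)⟮S.red S.sB⟯ ↥Fk
  peel : ∀ (P : Place L ↥(laurentBaseChange L F₀))
    (hP : S.InChart P), S.PeelA P hP
  int : ∀ b : ↥S.B, IsIntegral (Algebra.adjoin (kA A) {S.red S.sB}) (S.red b)
  norm : ∀ z : ↥S.B, z ≠ 0 → ∃ z' : ↥S.B, z' ≠ 0 ∧ ∃ p : L[X],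
    ((z : ↥(laurentBaseChange L F₀)) *
      (z' : ↥(laurentBaseChange L F₀))) = aeval S.s p
  deg : Module.finrank L⟮S.s⟯ ↥(laurentBaseChange L F₀) =
    Module.finrank (kA A)⟮S.red S.sB⟯ ↥Fk

variable {A F₀ Fk}
variable (T : TwoCharts A hx ↥Fk)

/-- chart consistency in chart 0: `r P` has valuation ring `O_{rP}`. -/
theorem hr0 (P : Place L ↥(laurentBaseChange L F₀))
    (hP : T.S0.InChart P) (y : ↥Fk) :
    y ∈ (T.r P).toValuationSubring ↔ y ∈ T.S0.rSubring P hP := by
  rw [T.r_eq0 P hP]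
  exact Iff.rfl

/-- chart consistency in chart 1. -/
theorem hr1 [IsAlgClosed (kA A)] {xt : ↥Fk}
    (hxt : IsGen (kA A) xt)
    (P : Place L ↥(laurentBaseChange L F₀))
    (hP : T.S1.InChart P) (y : ↥Fk) :
    y ∈ (T.r P).toValuationSubring ↔ y ∈ T.S1.rSubring P hP := by
  rw [T.r_eq1 hxt P hP]
  exact Iff.rfl

/-- tube condition in chart 0. -/
theorem hrmem0 [IsAlgClosed (kA A)] {xt : ↥Fk}
    (hxt : IsGen (kA A) xt)
    (P : Place L ↥(laurentBaseChange L F₀)) :
    0 ≤ (T.r P).ord (T.S0.red T.S0.sB) ↔ T.S0.InChart P := by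
  constructor
  · intro h
    exact T.inChart0_of_red_mem hxt P (FF.mem_of_ord_nonneg _ h)
  · intro hP
    apply FF.ord_nonneg_of_mem
    rw [T.r_eq0 P hP]
    exact red_mem_rAt T.places0 T.tr0 P hP _

/-- tube condition in chart 1. -/
theorem hrmem1 [IsAlgClosed (kA A)] {xt : ↥Fk}
    (hxt : IsGen (kA A) xt)
    (P : Place L ↥(laurentBaseChange L F₀)) :
    0 ≤ (T.r P).ord (T.S1.red T.S1.sB) ↔ T.S1.InChart P := by
  constructor
  · intro h
    exact T.inChart1_of_red_mem hxt P (FF.mem_of_ord_nonneg _ h)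
  · intro hP
    apply FF.ord_nonneg_of_mem
    rw [T.r_eq1 hxt P hP]
    exact red_mem_rAt T.places1 T.tr1 P hP _

/-- **RED-Z**: the global reduction map of two charts satisfying the analytic inputs is a place
reduction in the sense of the Prelude. -/
theorem isPlaceReductionAlong_twoCharts [CharZero L] [IsAlgClosed (kA A)]
    (h0 : ChartInputsG A F₀ Fk T.S0) (h1 : ChartInputsG A F₀ Fk T.S1)
    (hfin : FinDiv L ↥(laurentBaseChange L F₀))
    (hdeg : ∀ P, (T.r P).deg = P.deg) :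
    IsPlaceReductionAlongG A (resA A) F₀ Fk T.r := by
  have := h0.sep
  have := h1.sep
  have c0 := chartHypA_of_chartSpec_self T.S0 h0.gen h0.gent T.r (hr0 T)
    (hrmem0 T h0.gent) h0.peel h0.int h0.norm h0.deg
  have c1 := chartHypA_of_chartSpec_self T.S1 h1.gen h1.gent T.r (hr1 T h0.gent)
    (hrmem1 T h0.gent) h1.peel h1.int h1.norm h1.deg
  exact isPlaceReductionAlong_of_chartSpecs T.r h0.compat h1.compat c0 c1 T.red_s1_eq hfin hdeg

end Generic

section Qbar

variable {A : ValuationSubring Qb} {F₀ : IntermediateField ℚ (LaurentSeries ℚ)}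
  {Fk : IntermediateField (kA A) (LaurentSeries (kA A))}
variable {x : ↥(laurentBaseChange Qb F₀)} {hx : IsGen Qb x}
variable (T : TwoCharts A hx ↥Fk)

/-- **RED-Z at `ℚbar`**. -/
theorem isPlaceReductionModL_twoCharts
    (h0 : ChartInputsG A F₀ Fk T.S0) (h1 : ChartInputsG A F₀ Fk T.S1)
    [HasPrincipalDivisors Qb ↥(laurentBaseChange Qb F₀)]
    (hdeg1 : ∀ P : Place Qb ↥(laurentBaseChange Qb F₀), P.deg = 1) :
    IsPlaceReductionAlongG A (resA A) F₀ Fk T.r := by
  have : IsAlgClosed (kA A) := Fermat.Agent.ES.KRON.KronInst10.isAlgClosed_residueField A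
  have hdeg : ∀ P, (T.r P).deg = P.deg := fun P => by
    rw [FF.deg_eq_one h0.gent (T.r P), hdeg1 P]
  exact isPlaceReductionAlong_twoCharts T h0 h1 finDiv_of_hasPrincipalDivisors hdeg

end Qbar

end Fermat.Agent.ES.R48.RedMainG15
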