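/-
Programme R (S48, Deligne–Serre), chapter GEOM, sub-chapter G4 "CONG₁", brick L1a (helper15):
GENERIC twins of `GaloisInst21.CoeffChart` (the structure only) and of main's
`ES/RED/ChartInputsOf15`, for an ARBITRARY pair `F₀ ⊆ ℚ((q))`, `Fk ⊆ κ_A((q))`.

* `CoeffChartG (F₀ := F₀) (Fk := Fk) S` : the four elementary facts about a coefficientwise chart
  (chart ring = integral closure of `A[s]`, `s` has rational coefficients, every element has an
  `A`-integral `q`-expansion, `red` = coefficientwise reduction) — the same four fields as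
  `GaloisInst21.CoeffChart`, with `modularFunctionFieldFullC (kA A) M ↦ Fk`.  THE structure to be
  used by every G4 twin (Galois side `CoeffChart.sym`: helper21's `GaloisInstOne21`).
* `chartInputs_of_coeffChartG` : `RedMainG15.ChartInputsG` for a coefficientwise chart (`compat`,
  `int`, `norm` automatic).
-/
import Mathlib
import Fermat.Agent.ES.R48.RedMainG15
import Fermat.Agent.ES.RED.ChartFacts9
import Fermat.Agent.ES.RED.NormFrac18
import Fermat.Agent.RED.PUR.ChartGeneric22

set_option autoImplicit false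
set_option linter.unusedSectionVars false

open AlgebraicCurve ModularCurve HahnSeries Polynomial IntermediateField

noncomputable section

namespace Fermat.Agent.ES.R48.ChartInputsOfG15

open Fermat.Agent.ES.RED.Contract8 Fermat.Agent.ES.RED.ChartFacts9
open Fermat.Agent.RED.PUR.ChartGeneric22 Fermat.Agent.X0.FF
open Fermat.Agent.ES.R48.RedChartsG15 Fermat.Agent.ES.R48.RedMainG15

section Structure

variable {L : Type*} [Field L] [Algebra ℚ L] [IsAlgClosed L] {A : ValuationSubring L}
  {F₀ : IntermediateField ℚ (LaurentSeries ℚ)}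
  {Fk : IntermediateField (kA A) (LaurentSeries (kA A))}
  {x : ↥(laurentBaseChange L F₀)} {hx : IsGen L x}

/-- the four elementary facts about a coefficientwise chart (generic twin of
`GaloisInst21.CoeffChart`). -/
structure CoeffChartG (S : ChartSpec A hx ↥Fk) : Prop where
  mem_iff : ∀ b : ↥(laurentBaseChange L F₀), b ∈ S.B ↔ b ∈ chart ↥A S.s
  smul_s : ∀ σ : L ≃ₐ[ℚ] L, arithmeticGalois F₀ σ • S.s = S.s
  exists_series : ∀ b : ↥S.B, ∃ Y : LaurentSeries ↥A,
    coeffMap A.subtype Y = ((b : ↥(laurentBaseChange L F₀)) : LaurentSeries L)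
  red_eq : ∀ (b : ↥S.B) (Y : LaurentSeries ↥A),
    coeffMap A.subtype Y = ((b : ↥(laurentBaseChange L F₀)) : LaurentSeries L) →
    ((S.red b : ↥Fk) : LaurentSeries (kA A)) = coeffMap (resA A) Y

end Structure

variable {L : Type*} [Field L] [Algebra ℚ L] [IsAlgClosed L] {A : ValuationSubring L}
variable {F₀ : IntermediateField ℚ (LaurentSeries ℚ)}
  {Fk : IntermediateField (kA A) (LaurentSeries (kA A))}
variable {x : ↥(laurentBaseChange L F₀)} {hx : IsGen L x}
variable {S : ChartSpec A hx ↥Fk}

/-- compatibility with `q`-expansions from a `CoeffChart`. -/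
theorem compat_of_coeffChartG (hS : CoeffChartG (F₀ := F₀) (Fk := Fk) S) :
    Compat A F₀ Fk S := by
  intro b
  obtain ⟨Y, hY⟩ := hS.exists_series b
  exact ⟨Y, hY, hS.red_eq b Y hY⟩

/-- integrality of the reductions from a `CoeffChart`. -/
theorem int_of_coeffChartG (hS : CoeffChartG (F₀ := F₀) (Fk := Fk) S) (b : ↥S.B) :
    IsIntegral (Algebra.adjoin (kA A) {S.red S.sB}) (S.red b) :=
  isIntegral_red_of_mem_chart A (resA A) S.B S.red S.sB
    (fun c hc => (hS.mem_iff c).mpr (adjoin_le_chart S.s hc))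
    (fun a _ => S.red_const a) b ((hS.mem_iff b).mp b.2)

/-- the norm property from a `CoeffChart`. -/
theorem norm_of_coeffChartG (hS : CoeffChartG (F₀ := F₀) (Fk := Fk) S)
    (hs : IsGen L S.s) (z : ↥S.B) (hz : z ≠ 0) :
    ∃ z' : ↥S.B, z' ≠ 0 ∧ ∃ p : L[X],
      ((z : ↥(laurentBaseChange L F₀)) *
        (z' : ↥(laurentBaseChange L F₀))) = aeval S.s p := by
  have hzF : (z : ↥(laurentBaseChange L F₀)) ≠ 0 :=
    fun h0 => hz (Subtype.ext h0)
  obtain ⟨z', hz', hz'0, p, e⟩ :=
    Fermat.Agent.ES.RED.NormFrac18.norm_chart A hs.transcendental ((hS.mem_iff z).mp z.2) hzF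
  exact ⟨⟨z', (hS.mem_iff z').mpr hz'⟩, fun h0 => hz'0 (congrArg Subtype.val h0), p, e⟩

/-- **`ChartInputs` for a coefficientwise chart.** -/
theorem chartInputs_of_coeffChartG (hS : CoeffChartG (F₀ := F₀) (Fk := Fk) S)
    (gen : IsGen L S.s) (gent : IsGen (kA A) (S.red S.sB))
    (sep : Algebra.IsSeparable (kA A)⟮S.red S.sB⟯ ↥Fk)
    (peel : ∀ (P : Place L ↥(laurentBaseChange L F₀))
      (hP : S.InChart P), S.PeelA P hP)
    (deg : Module.finrank L⟮S.s⟯ ↥(laurentBaseChange L F₀) =
      Module.finrank (kA A)⟮S.red S.sB⟯ ↥Fk) :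
    ChartInputsG A F₀ Fk S where
  compat := compat_of_coeffChartG hS
  gen := gen
  gent := gent
  sep := sep
  peel := peel
  int := int_of_coeffChartG hS
  norm := norm_of_coeffChartG hS gen
  deg := deg

end Fermat.Agent.ES.R48.ChartInputsOfG15
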