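/-
Programme R (S48, Deligne–Serre), chapter GEOM, sub-chapter G4 "CONG₁" (helper15), Layer 2:
**GENERIC twin of `ES/RED/ChartUnion1`** (helper1): the chart ring over `A ≤ ℚ̄` is the union of the
chart rings over the number fields, for ANY field of rational Laurent series `F₀` (main:
`F₀ = modularFunctionFieldFull M`; here `F₀ = F1 M`).  Literal copy with `FK M K ↦ K·F₀`,
`Fbar M ↦ ℚ̄·F₀`, `baseChangeHom M K ↦ PlaceExtendG7.baseChangeHomG F₀ K`,
`UnifDescent14.exists_descent_ge ↦ DescOne7.exists_descent_geG`; every declaration `X` is `XG`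
(`exists_common` is used AS-IS from main).
-/
import Mathlib
import Fermat.Agent.ES.RED.ChartUnion1
import Fermat.Agent.ES.R48.DescOne7

set_option autoImplicit false

open HahnSeries ModularCurve Polynomial

noncomputable section

namespace Fermat.Agent.ES.R48.ChartUnionG15

open Fermat.Agent.RED.Interface4 Fermat.Agent.RED.DESC.PlaceExtend27
  Fermat.Agent.RED.DESC Fermat.Agent.RED.PUR.ChartGeneric22 Fermat.Agent.RED.NumInst4
  Fermat.Agent.ES.R48.PlaceExtendG7 Fermat.Agent.ES.R48.DescOne7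

variable (A : ValuationSubring Qbar) (F₀ : IntermediateField ℚ (LaurentSeries ℚ))

/-- `f` is compatible with the structure maps `A ∩ K → K·F_M`, `A → ℚ̄·F_M`. -/
theorem baseChangeHom_algebraMap_AKG (K : IntermediateField ℚ Qbar) (a : AK A K) :
    baseChangeHomG F₀ K (algebraMap ↥(AK A K) ↥(laurentBaseChange K F₀) a) =
      algebraMap ↥A ↥(laurentBaseChange Qbar F₀) (NumberFieldDVR27.incl A K a) := by
  have h := baseChangeHomG_algebraMap F₀ K ((a : AK A K) : K)
  exact h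

/-- `f` maps `(A ∩ K)[tK]` into `A[f tK]`. -/
theorem baseChangeHom_mem_adjoinG (K : IntermediateField ℚ Qbar) (tK : ↥(laurentBaseChange K F₀)) {c : ↥(laurentBaseChange K F₀)}
    (hc : c ∈ Algebra.adjoin ↥(AK A K) {tK}) :
    baseChangeHomG F₀ K c ∈ Algebra.adjoin ↥A {baseChangeHomG F₀ K tK} := by
  induction hc using Algebra.adjoin_induction with
  | mem x hx =>
      rw [Set.mem_singleton_iff.mp hx]
      exact Algebra.self_mem_adjoin_singleton _ _
  | algebraMap a =>
      rw [baseChangeHom_algebraMap_AKG]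
      exact Subalgebra.algebraMap_mem _ _
  | add x y _ _ hx hy => rw [map_add]; exact add_mem hx hy
  | mul x y _ _ hx hy => rw [map_mul]; exact mul_mem hx hy

/-- `f` maps the chart over `A ∩ K` into the chart over `A`. -/
theorem baseChangeHom_mem_chartG (K : IntermediateField ℚ Qbar) (tK x : ↥(laurentBaseChange K F₀))
    (hx : x ∈ chart ↥(AK A K) tK) :
    baseChangeHomG F₀ K x ∈ chart ↥A (baseChangeHomG F₀ K tK) := by
  rw [mem_chart_iff, isIntegral_subalgebra_iff] at hx ⊢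
  obtain ⟨P, hP, hcoeff, hx⟩ := hx
  refine ⟨P.map (baseChangeHomG F₀ K), hP.map _, fun i => ?_, ?_⟩
  · rw [coeff_map]
    exact baseChangeHom_mem_adjoinG A F₀ K tK (hcoeff i)
  · rw [eval_map, eval₂_at_apply, hx, map_zero]

/-- Every element of `A[t]` comes from `(A ∩ K)[tK]` for all large number fields `K`. -/
theorem exists_adjoin_descentG (K₀ : IntermediateField ℚ Qbar) [FiniteDimensional ℚ K₀]
    (t : ↥(laurentBaseChange Qbar F₀)) {c : ↥(laurentBaseChange Qbar F₀)} (hc : c ∈ Algebra.adjoin ↥A {t}) :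
    ∃ K₁ : IntermediateField ℚ Qbar, FiniteDimensional ℚ K₁ ∧ K₀ ≤ K₁ ∧
      ∀ K : IntermediateField ℚ Qbar, K₁ ≤ K → ∀ tK : ↥(laurentBaseChange K F₀), baseChangeHomG F₀ K tK = t →
        ∃ c' ∈ Algebra.adjoin ↥(AK A K) {tK}, baseChangeHomG F₀ K c' = c := by
  classical
  obtain ⟨p, hp⟩ := Algebra.adjoin_mem_exists_aeval ↥A t hc
  obtain ⟨K₁, hfin, hK₀, hS⟩ := NumberFieldDVR27.exists_numberField K₀
    (p.support.image fun i => ((p.coeff i : A) : Qbar))
  refine ⟨K₁, hfin, hK₀, fun K hK tK htK => ?_⟩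
  have hl : p ∈ lifts (NumberFieldDVR27.incl A K) := by
    rw [lifts_iff_coeff_lifts]
    intro n
    by_cases hn : n ∈ p.support
    · have h1 : ((p.coeff n : A) : Qbar) ∈ K :=
        hK (hS _ (Finset.mem_image.mpr ⟨n, hn, rfl⟩))
      refine ⟨⟨⟨((p.coeff n : A) : Qbar), h1⟩, ?_⟩, ?_⟩
      · rw [NumberFieldDVR27.mem_AK_iff]
        exact (p.coeff n).2
      · exact Subtype.ext rfl
    · rw [notMem_support_iff.mp hn]
      exact ⟨0, map_zero _⟩
  obtain ⟨p', hp'⟩ := hl
  rw [coe_mapRingHom] at hp'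
  refine ⟨aeval tK p', aeval_mem_adjoin_singleton _ _, ?_⟩
  rw [← hp, ← hp', aeval_def, aeval_def, hom_eval₂, eval₂_map, htK]
  congr 1
  exact RingHom.ext fun a => baseChangeHom_algebraMap_AKG A F₀ K a

/-- **The chart over `A` is the union of the charts over the number fields.** -/
theorem exists_chart_descentG (K₀ : IntermediateField ℚ Qbar) [FiniteDimensional ℚ K₀]
    (t y : ↥(laurentBaseChange Qbar F₀)) (hy : y ∈ chart ↥A t) :
    ∃ K₁ : IntermediateField ℚ Qbar, FiniteDimensional ℚ K₁ ∧ K₀ ≤ K₁ ∧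
      ∀ K : IntermediateField ℚ Qbar, K₁ ≤ K → ∀ tK : ↥(laurentBaseChange K F₀), baseChangeHomG F₀ K tK = t →
        ∃ x ∈ chart ↥(AK A K) tK, baseChangeHomG F₀ K x = y := by
  classical
  rw [mem_chart_iff, isIntegral_subalgebra_iff] at hy
  obtain ⟨P, hP, hcoeff, hPy⟩ := hy
  obtain ⟨K₁, hfin₁, hK₁, Hy⟩ := exists_descent_geG F₀ K₀ y
  have := hfin₁
  obtain ⟨K₂, hfin₂, hK₂, Hc⟩ := Fermat.Agent.ES.RED.ChartUnion1.exists_common (Finset.range (P.natDegree + 1)) K₁
    (fun i K => ∀ tK : ↥(laurentBaseChange K F₀), baseChangeHomG F₀ K tK = t →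
      ∃ c' ∈ Algebra.adjoin ↥(AK A K) {tK}, baseChangeHomG F₀ K c' = P.coeff i)
    (fun i _ => exists_adjoin_descentG A F₀ K₁ t (hcoeff i))
  refine ⟨K₂, hfin₂, hK₁.trans hK₂, fun K hK tK htK => ?_⟩
  obtain ⟨x, hx⟩ := Hy K (hK₂.trans hK)
  refine ⟨x, ?_, hx⟩
  have hinj := baseChangeHomG_injective F₀ K
  have hc : ∀ i, ∃ c' ∈ Algebra.adjoin ↥(AK A K) {tK}, baseChangeHomG F₀ K c' = P.coeff i := by
    intro i
    by_cases hi : i ∈ Finset.range (P.natDegree + 1)
    · exact Hc K hK i hi tK htK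
    · refine ⟨0, zero_mem _, ?_⟩
      rw [map_zero]
      rw [Finset.mem_range, not_lt] at hi
      exact (coeff_eq_zero_of_natDegree_lt (by omega)).symm
  have hl : P ∈ lifts (baseChangeHomG F₀ K) := by
    rw [lifts_iff_coeff_lifts]
    intro n
    obtain ⟨c', -, hc'⟩ := hc n
    exact ⟨c', hc'⟩
  obtain ⟨q, hq, -, hqm⟩ := lifts_and_natDegree_eq_and_monic hl hP
  rw [mem_chart_iff, isIntegral_subalgebra_iff]
  refine ⟨q, hqm, fun i => ?_, ?_⟩
  · obtain ⟨c', hc'mem, hc'⟩ := hc i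
    have : q.coeff i = c' := by
      apply hinj
      rw [hc', ← hq, coeff_map]
    rw [this]
    exact hc'mem
  · apply hinj
    rw [map_zero, ← eval₂_at_apply, ← eval_map, hq, hx]
    exact hPy

end Fermat.Agent.ES.R48.ChartUnionG15
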