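/-
Programme R (S48, Deligne–Serre), chapter GEOM, sub-chapter G4 "CONG₁" (helper15), Layer 2:
**base change of constants for `F1C`** — the twins of the `fullC`-lemmas of
`RED/PUR/DegBaseChange25` (§Concrete, §BaseChangeEq), `RED/PUR/GaussBridge10` (§Generators,
§BaseChange) and `ES/RED/GaussUnit25` (§Fraction, §BaseChangeFullC) for the function field
`F1C K M = K(j(q^d), W_c)` of `X₁(M)` (`F1CDefs15`).

* `gens1 K M` : the generating set; `image_gens1`, `coeffMap_mem_F1C'` (any `φ : k →+* κ`);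
* `laurentBaseChange_F1_eq : laurentBaseChange L (F1 M) = F1C L M`, `jqModC_mem_F1C`;
* over a valuation subring `O ⊆ K`: `wdO`, `embK_wdO`, `redL_wdO`, `wqC_mem_gaussRing`, `gaussRed_wqC`,
  `F1C_le_fracField`, `F1C_le_resField` (every element of `F1C (Res O) M` is a residue);
* `isIntFrac_of_mem_F1C`, `exists_integral_fraction1` (twins of `GaussUnit25`).
-/
import Mathlib
import Fermat.Agent.ES.RED.GaussUnit25
import Fermat.Agent.ES.R48.F1CDefs15

set_option autoImplicit false
set_option linter.style.haveILetI false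

noncomputable section

open HahnSeries ModularCurve IntermediateField

namespace Fermat.Agent.ES.R48.F1CBase15

open Fermat.Agent.RED.PUR.GaussGen8 Fermat.Agent.RED.PUR.KtGauss8
open Fermat.Agent.RED.PUR.GaussBridge10 Fermat.Agent.RED.PUR
open Fermat.Agent.ES.RED.GaussUnit25
open Fermat.Agent.ES.R48.FF1Defs13 Fermat.Agent.ES.R48.F1CDefs15

/-! ### Base change of constants -/

section Concrete

variable {k κ : Type*} [Field k] [Field κ] (φ : k →+* κ)

/-- the generating set of `F1C K M`. -/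
def gens1 (K : Type*) [Field K] (M : ℕ) : Set (LaurentSeries K) :=
  divisorExpansionsC K M ∪ wExpansionsC K M

theorem F1C_eq_adjoin (K : Type*) [Field K] (M : ℕ) :
    F1C K M = IntermediateField.adjoin K (gens1 K M) := rfl

theorem image_wExpansionsC (M : ℕ) :
    (coeffMap φ) '' (wExpansionsC k M) = wExpansionsC κ M := by
  ext y
  constructor
  · rintro ⟨x, ⟨c, rfl⟩, rfl⟩
    exact ⟨c, (coeffMap_wqC M _ φ).symm⟩
  · rintro ⟨c, rfl⟩
    exact ⟨wqC k M (c : ZMod M), ⟨c, rfl⟩, coeffMap_wqC M _ φ⟩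

theorem image_gens1 (M : ℕ) : (coeffMap φ) '' (gens1 k M) = gens1 κ M := by
  rw [gens1, Set.image_union, DegBaseChange25.image_divisorExpansionsC, image_wExpansionsC]
  rfl

/-- `coeffMap φ` maps `F1C k M` into `F1C κ M`. -/
theorem coeffMap_mem_F1C' (M : ℕ) {x : LaurentSeries k} (hx : x ∈ F1C k M) :
    coeffMap φ x ∈ F1C κ M := by
  have := DegBaseChange25.map_mem_adjoin φ (coeffMap φ) (DegBaseChange25.coeffMap_algebraMap' φ)
    (gens1 k M) hx
  rwa [image_gens1] at this

theorem jqModC_mem_F1C (K : Type*) [Field K] (M : ℕ) : jqModC K ∈ F1C K M :=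
  fullC_le_F1C K M (jqModC_mem_full K M)

end Concrete

section BaseChangeEq

variable (L : Type*) [Field L] [Algebra ℚ L]

/-- `L · F1 M = L(j(q^d), W_c)` inside `L((q))`. -/
theorem laurentBaseChange_F1_eq (M : ℕ) : laurentBaseChange L (F1 M) = F1C L M := by
  have himg : (coeffEmb L) '' (gens1 ℚ M) = gens1 L M := image_gens1 (k := ℚ) (algebraMap ℚ L) M
  apply le_antisymm
  · rw [laurentBaseChange, adjoin_le_iff]
    rintro _ ⟨x, hx, rfl⟩
    have := DegBaseChange25.map_mem_adjoin (algebraMap ℚ L) (coeffEmb L)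
      (DegBaseChange25.coeffMap_algebraMap' (algebraMap ℚ L)) (gens1 ℚ M) hx
    rw [himg] at this
    exact this
  · rw [F1C_eq_adjoin, ← himg, laurentBaseChange]
    exact adjoin.mono L _ _ (Set.image_mono (subset_adjoin ℚ _))

theorem jqModC_mem_laurentBaseChange_F1 (M : ℕ) : jqModC L ∈ laurentBaseChange L (F1 M) := by
  rw [laurentBaseChange_F1_eq]
  exact jqModC_mem_F1C L M

theorem fullBase_le_F1Base (M : ℕ) :
    laurentBaseChange L (modularFunctionFieldFull M) ≤ laurentBaseChange L (F1 M) := by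
  rw [laurentBaseChange_F1_eq, DegBaseChange25.laurentBaseChange_full_eq]
  exact fullC_le_F1C L M

end BaseChangeEq

/-! ### The Gauss side -/

section Generators

variable {K : Type*} [Field K] (O : ValuationSubring K)

/-- The integral generator `W_c` over `O`. -/
def wdO (M : ℕ) (c : ZMod M) : LaurentSeries ↥O := wqC ↥O M c

theorem embK_wdO (M : ℕ) (c : ZMod M) : embK O (wdO O M c) = wqC K M c := by
  unfold wdO embK
  rw [coeffMap_wqC]

theorem redL_wdO (M : ℕ) (c : ZMod M) : redL O (wdO O M c) = wqC (Res O) M c := by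
  unfold wdO redL
  rw [coeffMap_wqC]

theorem wqC_mem_gaussRing (M : ℕ) (c : ZMod M) : wqC K M c ∈ gaussRing O := by
  rw [← embK_wdO O M c]; exact embK_mem O _

theorem gaussRed_wqC (M : ℕ) (c : ZMod M) :
    gaussRed O ⟨wqC K M c, wqC_mem_gaussRing O M c⟩ = wqC (Res O) M c := by
  have h : (⟨wqC K M c, wqC_mem_gaussRing O M c⟩ : gaussRing O) =
      ⟨embK O (wdO O M c), embK_mem O _⟩ := Subtype.ext (embK_wdO O M c).symm
  rw [h, gaussRed_embK, redL_wdO]

/-- **(GB1)₁** `K(j(q^d), W_c) ⊂ Frac O((q))`. -/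
theorem F1C_le_fracField (M : ℕ) : F1C K M ≤ fracField O := by
  rw [F1C_eq_adjoin, IntermediateField.adjoin_le_iff]
  rintro _ (⟨d, hne, hd, rfl⟩ | ⟨c, rfl⟩)
  · rw [← embK_jdO O d]
    exact embK_mem_fracField O _
  · show wqC K M (c : ZMod M) ∈ fracField O
    rw [← embK_wdO O M c]
    exact embK_mem_fracField O _

/-- **(RES)₁** every element of `κ(j̃(q^d), W̃_c)` is the residue of an element of
`gaussRing O ∩ K(j(q^d), W_c)`. -/
theorem F1C_le_resField (M : ℕ) : F1C (Res O) M ≤ resField O (F1C K M) := by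
  rw [F1C_eq_adjoin, IntermediateField.adjoin_le_iff]
  rintro _ (⟨d, hne, hd, rfl⟩ | ⟨c, rfl⟩)
  · exact ⟨qExpand K d (jqModC K), jqd_mem_gaussRing O d, jqModCd_mem_F1C K M hd, gaussRed_jqd O d⟩
  · exact ⟨wqC K M (c : ZMod M), wqC_mem_gaussRing O M _, wqC_mem_F1C K M c, gaussRed_wqC O M _⟩

end Generators

section Fraction

variable {K : Type*} [Field K] {O : ValuationSubring K}

/-- every element of `K(j(q^d), W_c)` is a quotient of elements of `O((q)) ∩ K(j(q^d), W_c)`. -/
theorem isIntFrac_of_mem_F1C (M : ℕ) {f : LaurentSeries K} (hf : f ∈ F1C K M) :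
    IsIntFrac O (F1C K M) f := by
  rw [F1C_eq_adjoin] at hf
  induction hf using IntermediateField.adjoin_induction with
  | mem x hx =>
    rcases hx with ⟨d, hne, hd, rfl⟩ | ⟨c, rfl⟩
    · rw [← embK_jdO O d]
      refine isIntFrac_of_embK O _ _ ?_
      rw [embK_jdO O d]
      exact jqModCd_mem_F1C K M hd
    · show IsIntFrac O (F1C K M) (wqC K M (c : ZMod M))
      rw [← embK_wdO O M c]
      refine isIntFrac_of_embK O _ _ ?_
      rw [embK_wdO O M c]
      exact wqC_mem_F1C K M c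
  | algebraMap c => exact isIntFrac_algebraMap O _ c
  | add x y _ _ hx hy => exact hx.add hy
  | inv x _ hx => exact hx.inv
  | mul x y _ _ hx hy => exact hx.mul hy

/-- **Integral fraction with Gauss units** for `E = K(j(q^d), W_c)`: every nonzero `f ∈ E` is
`c · a / b` with `c ∈ Kˣ` and `a, b ∈ O((q)) ∩ E` of nonzero reduction. -/
theorem exists_integral_fraction1 {π : ↥O} (hπ : IsUnif O π) (M : ℕ)
    {f : LaurentSeries K} (hf : f ∈ F1C K M) (hf0 : f ≠ 0) :
    ∃ (c : K) (a b : LaurentSeries ↥O), c ≠ 0 ∧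
      embK O a ∈ F1C K M ∧ embK O b ∈ F1C K M ∧
      redL O a ≠ 0 ∧ redL O b ≠ 0 ∧ f * embK O b = HahnSeries.C c * embK O a := by
  obtain ⟨a, b, hb, haE, hbE, h⟩ := isIntFrac_of_mem_F1C (O := O) M hf
  have hb' : embK O b ≠ 0 := fun hh => hb ((embK_eq_zero_iff O b).mp hh)
  have ha : a ≠ 0 := by
    rintro rfl
    rw [map_zero] at h
    exact hf0 ((mul_eq_zero.mp h).resolve_right hb')
  obtain ⟨i, a₀, rfl, ha₀⟩ := exists_eq_pow_mul hπ a ha
  obtain ⟨j, b₀, rfl, hb₀⟩ := exists_eq_pow_mul hπ b hb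
  have hπK : ((π : ↥O) : K) ≠ 0 := fun h0 => hπ.ne_zero (Subtype.ext h0)
  have hCπ : (HahnSeries.C ((π : ↥O) : K) : LaurentSeries K) ≠ 0 := by
    intro h0
    have := congrArg (fun z : LaurentSeries K => z.coeff 0) h0
    simp only [HahnSeries.C_apply, HahnSeries.coeff_single_same, HahnSeries.coeff_zero] at this
    exact hπK this
  have hCmem : (HahnSeries.C ((π : ↥O) : K) : LaurentSeries K) ∈ F1C K M := by
    rw [← algebraMap_eq_C (K := K)]
    exact (F1C K M).algebraMap_mem _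
  simp only [map_mul, map_pow, embK_C] at haE hbE h
  have ha₀E : embK O a₀ ∈ F1C K M := by
    have := mul_mem (inv_mem (pow_mem hCmem i)) haE
    rwa [← mul_assoc, inv_mul_cancel₀ (pow_ne_zero i hCπ), one_mul] at this
  have hb₀E : embK O b₀ ∈ F1C K M := by
    have := mul_mem (inv_mem (pow_mem hCmem j)) hbE
    rwa [← mul_assoc, inv_mul_cancel₀ (pow_ne_zero j hCπ), one_mul] at this
  refine ⟨((π : ↥O) : K) ^ i * (((π : ↥O) : K) ^ j)⁻¹, a₀, b₀,
    mul_ne_zero (pow_ne_zero i hπK) (inv_ne_zero (pow_ne_zero j hπK)), ha₀E, hb₀E, ha₀, hb₀, ?_⟩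
  rw [map_mul, map_pow, map_inv₀, map_pow]
  have hj := pow_ne_zero j hCπ
  field_simp
  rw [← h]
  ring

end Fraction

end Fermat.Agent.ES.R48.F1CBase15
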