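/-
Programme R (S48, Deligne–Serre), chapter GEOM, sub-chapter G4 "CONG₁" (helper15), Layer 2:
**the Gauss side of the contract objects `(AK A K, FK1 M K)`** — twin of `RED/PUR/GaussBridge10`
§Concrete (helper10) for `X₁(M)`:

* `FK1_eq_F1C : FK1 M K = F1C K M`, `FK1_le_fracField` ((GB1)₁), `F1C_le_resField_FK1` ((RES)₁),
  `OvK1 A K M hπ` (the Gauss valuation ring of `K·F1 M` over `A ∩ K`), `mem_OvK1_iff`;
* the CONTRACT with (GB2)₁ (`ResFieldOne10` + G3): `ResFieldLe A K M :=
  resField (AK A K) (FK1 M K) ≤ F1C (Res (AK A K)) M` ((R0a)₁ at the number field `K`) and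
  `ResFieldStep1 A M` (for all large number fields).
-/
import Mathlib
import Fermat.Agent.ES.R48.F1CBase15
import Fermat.Agent.ES.R48.G3Defs4

set_option autoImplicit false

noncomputable section

open HahnSeries ModularCurve IntermediateField

namespace Fermat.Agent.ES.R48.GaussBridgeOne15

open Fermat.Agent.RED.PUR.GaussGen8 Fermat.Agent.RED.PUR.KtGauss8
open Fermat.Agent.RED.PUR.GaussBridge10 Fermat.Agent.RED.Interface4
open Fermat.Agent.ES.R48.FF1Defs13 Fermat.Agent.ES.R48.F1CDefs15 Fermat.Agent.ES.R48.F1CBase15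
open Fermat.Agent.ES.R48.G3Defs4

variable (A : ValuationSubring Qbar) (K : IntermediateField ℚ Qbar) (M : ℕ)

/-- `K · F1 M = K(j(q^d), W_c)`. -/
theorem FK1_eq_F1C : FK1 M K = F1C ↥K M := laurentBaseChange_F1_eq ↥K M

/-- **(GB1)₁** for the contract objects: `K·F1 M ⊂ Frac A_K((q))`. -/
theorem FK1_le_fracField : FK1 M K ≤ fracField (AK A K) := by
  rw [FK1_eq_F1C]
  exact F1C_le_fracField (AK A K) M

/-- **(RES)₁** for the contract objects. -/
theorem F1C_le_resField_FK1 : F1C (Res (AK A K)) M ≤ resField (AK A K) (FK1 M K) := by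
  rw [FK1_eq_F1C]
  exact F1C_le_resField (AK A K) M

/-- The Gauss valuation ring of `K·F1 M` over `A_K`. -/
def OvK1 {π : ↥(AK A K)} (hπ : IsUnif (AK A K) π) : ValuationSubring ↥(FK1 M K) :=
  gaussVS hπ (FK1 M K) (FK1_le_fracField A K M)

theorem mem_OvK1_iff {π : ↥(AK A K)} (hπ : IsUnif (AK A K) π) (f : ↥(FK1 M K)) :
    f ∈ OvK1 A K M hπ ↔ (f : LaurentSeries K) ∈ gaussRing (AK A K) :=
  mem_gaussVS_iff hπ (FK1 M K) (FK1_le_fracField A K M) f

/-- **(R0a)₁ at the number field `K`** (the inclusion `≤` of (GB2)₁): the Gauss-integral elements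
of `K·F1 M` reduce into `κ(j̃(q^d), W̃_c)`. -/
def ResFieldLe : Prop :=
  resField (AK A K) (FK1 M K) ≤ F1C (Res (AK A K)) M

variable {A K M} in
theorem ResFieldLe.toF1C (h : ResFieldLe A K M) :
    resField (AK A K) (F1C ↥K M) ≤ F1C (Res (AK A K)) M := by
  rw [← FK1_eq_F1C]
  exact h

variable {A K M} in
/-- **(GB2)₁** for the contract objects, from (R0a)₁. -/
theorem ResFieldLe.eq (h : ResFieldLe A K M) :
    resField (AK A K) (FK1 M K) = F1C (Res (AK A K)) M :=
  le_antisymm h (F1C_le_resField_FK1 A K M)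

/-- **(R0a)₁ for all large number fields** (deliverable of `ResFieldOne10` + G3). -/
def ResFieldStep1 : Prop :=
  ∃ K₀ : IntermediateField ℚ Qbar, FiniteDimensional ℚ K₀ ∧
    ∀ K : IntermediateField ℚ Qbar, FiniteDimensional ℚ K → K₀ ≤ K → ResFieldLe A K M

end Fermat.Agent.ES.R48.GaussBridgeOne15
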