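/-
Programme R (S48, Deligne–Serre), chapter GEOM, sub-chapter G4 "CONG₁" (helper15), Layer 2:
twin of main's `ES/RED/ChartInstGen4` for `X₁(M)`.  **A `Contract8.ChartSpec` over `A ≤ ℚ̄` from a
coordinate `t ∈ ℚ̄·F1 M` with `A`-integral `q`-expansion** (`ChartIntegralAOne15` packaged by main's
generic `ChartSpecOfChart18.chartSpecOfChart`), with the interface facts used downstream:

* `chartSpecA A M ℓ hA hres hx t ht hgen hsat : ChartSpec A hx ↥(F1C (kA A) M)` with `.s = t`,
  `.B = (chart A t).toSubring`, `.red = redChart` (all by `rfl`);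
* `coeffChart_chartSpecA` : `ChartInputsOfG15.CoeffChartG` (for `t` with rational coefficients);
* `compat_chartSpecA`     : `RedChartsG15.Compat`.

Substitution: `hℓM ↦ hres : GaussBridgeOne15.ResFieldStep1 A M`, `Fbar M ↦ F1bar M`,
`modularFunctionFieldFullC (kA A) M ↦ F1C (kA A) M`, `GaloisInst21.CoeffChart ↦ CoeffChartG`
(`kA` is always `Contract8.kA`).
-/
import Mathlib
import Fermat.Agent.ES.R48.ChartIntegralAOne15
import Fermat.Agent.ES.RED.ChartSpecOfChart18
import Fermat.Agent.ES.R48.ChartInputsOfG15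

set_option autoImplicit false
set_option linter.unusedSectionVars false

open HahnSeries ModularCurve AlgebraicCurve

noncomputable section

namespace Fermat.Agent.ES.R48.ChartInstGenOne15

open Fermat.Agent.ES.RED
open Fermat.Agent.RED.Interface4 Fermat.Agent.RED.PUR.ChartGeneric22
  Fermat.Agent.ES.R48.ChartIntegralAOne15 Fermat.Agent.ES.RED.Contract8
  Fermat.Agent.ES.RED.ChartSpecOfChart18 Fermat.Agent.X0.FF
  Fermat.Agent.ES.R48.FF1Defs13 Fermat.Agent.ES.R48.F1CDefs15
  Fermat.Agent.ES.R48.ChartInputsOfG15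

variable (A : ValuationSubring Qbar) (M : ℕ) [NeZero M] (ℓ : ℕ) [Fact ℓ.Prime]
  (hA : A.LiesOverPrime ℓ) (hres : GaussBridgeOne15.ResFieldStep1 A M)
variable {x : ↥(F1bar M)} (hx : IsGen Qbar x)

/-- **The chart over `A` with coordinate `t`.** -/
def chartSpecA (t : ↥(F1bar M)) (ht : t ∈ intF A M) (hgen : IsGen Qbar t)
    (hsat : LevelSat A M t) :
    ChartSpec A hx ↥(F1C (Contract8.kA A) M) :=
  chartSpecOfChart A hx t hgen (redChart A M ℓ hA hres ht)
    (fun a => redF_algebraMap A M ℓ hA hres a)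
    (fun b hb0 => exists_content A M ℓ hA hres ht hsat b hb0)

@[simp] theorem chartSpecA_s (t : ↥(F1bar M)) (ht : t ∈ intF A M) (hgen : IsGen Qbar t)
    (hsat : LevelSat A M t) : (chartSpecA A M ℓ hA hres hx t ht hgen hsat).s = t := rfl

@[simp] theorem chartSpecA_B (t : ↥(F1bar M)) (ht : t ∈ intF A M) (hgen : IsGen Qbar t)
    (hsat : LevelSat A M t) :
    (chartSpecA A M ℓ hA hres hx t ht hgen hsat).B = (chart ↥A t).toSubring := rfl

@[simp] theorem chartSpecA_red (t : ↥(F1bar M)) (ht : t ∈ intF A M) (hgen : IsGen Qbar t)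
    (hsat : LevelSat A M t) :
    (chartSpecA A M ℓ hA hres hx t ht hgen hsat).red = redChart A M ℓ hA hres ht := rfl

/-- every element of the chart ring has an `A`-series. -/
theorem exists_series_chartSpecA (t : ↥(F1bar M)) (ht : t ∈ intF A M) (hgen : IsGen Qbar t)
    (hsat : LevelSat A M t) (b : ↥(chartSpecA A M ℓ hA hres hx t ht hgen hsat).B) :
    ∃ Y : LaurentSeries ↥A,
      coeffMap A.subtype Y = ((b : ↥(F1bar M)) : LaurentSeries Qbar) :=
  (mem_intF_iff A M).mp (chart_le_intF A M ℓ hA ht b.2)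

/-- the reduction is the coefficientwise reduction of the `A`-series. -/
theorem red_eq_chartSpecA (t : ↥(F1bar M)) (ht : t ∈ intF A M) (hgen : IsGen Qbar t)
    (hsat : LevelSat A M t) (b : ↥(chartSpecA A M ℓ hA hres hx t ht hgen hsat).B)
    (Y : LaurentSeries ↥A)
    (hY : coeffMap A.subtype Y = ((b : ↥(F1bar M)) : LaurentSeries Qbar)) :
    (((chartSpecA A M ℓ hA hres hx t ht hgen hsat).red b :
        ↥(F1C (Contract8.kA A) M)) : LaurentSeries (Contract8.kA A)) =
      coeffMap (resA A) Y :=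
  coe_redChart_eq_of A M ℓ hA hres ht b hY

/-- **(R3) interface**: the chart is coefficientwise (for `t` with rational coefficients). -/
theorem coeffChart_chartSpecA (t : ↥(F1bar M)) (ht : t ∈ intF A M) (hgen : IsGen Qbar t)
    (hsat : LevelSat A M t)
    (hsσ : ∀ σ : Qbar ≃ₐ[ℚ] Qbar, coeffMap ((σ : Qbar ≃+* Qbar) : Qbar →+* Qbar)
      ((t : ↥(F1bar M)) : LaurentSeries Qbar) = ((t : ↥(F1bar M)) : LaurentSeries Qbar)) :
    CoeffChartG (F₀ := F1 M) (Fk := F1C (Contract8.kA A) M)
      (chartSpecA A M ℓ hA hres hx t ht hgen hsat) where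
  mem_iff _ := Iff.rfl
  smul_s σ := Subtype.ext (hsσ σ)
  exists_series b := exists_series_chartSpecA A M ℓ hA hres hx t ht hgen hsat b
  red_eq b Y hY := red_eq_chartSpecA A M ℓ hA hres hx t ht hgen hsat b Y hY

/-- **RED-Z interface**: compatibility with `q`-expansions. -/
theorem compat_chartSpecA (t : ↥(F1bar M)) (ht : t ∈ intF A M) (hgen : IsGen Qbar t)
    (hsat : LevelSat A M t) :
    RedChartsG15.Compat A (F1 M) (F1C (Contract8.kA A) M)
      (chartSpecA A M ℓ hA hres hx t ht hgen hsat) := by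
  intro b
  obtain ⟨Y, hY⟩ := exists_series_chartSpecA A M ℓ hA hres hx t ht hgen hsat b
  exact ⟨Y, hY, red_eq_chartSpecA A M ℓ hA hres hx t ht hgen hsat b Y hY⟩

end Fermat.Agent.ES.R48.ChartInstGenOne15
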