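/-
Programme R (S48, Deligne–Serre), chapter A4 CHEB, brick CR5 (helper11):
**the crossing field `Ω = L(ζ_q)` and its Galois group.**

`K ⊆ L ⊆ Ω` number fields, `L/K` Galois, `Ω = L(ζ_q)` with `q` prime to `disc L`
(`IsCyclotomicExtension {q} L Ω`, e.g. `Ω = CyclotomicField q L`), `ζ ∈ Ω` a primitive `q`-th root of
unity.  Put `Γ = Gal(Ω/K)`, `G = Gal(L/K)`, `π₁ = AlgEquiv.restrictNormalHom L : Γ →* G`,
`π₂ = hζ.autToPow K : Γ →* (ZMod q)ˣ`.  On top of `CFT/CycloDisjoint` (`Γ ≃* G × (ZMod q)ˣ` by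
`(π₁, π₂)`) this file provides, in the shapes consumed by the descent (CR4) and the assembly (CR6):

* `joint_injective`, `exists_restrict_autToPow'` : `(π₁, π₂)` is injective and surjective;
* `exists_c0` : the element `c₀ = (1, -1)`, central of square one;
* `card_gal_units`, `card_gal`, `card_gal_prime`, `card_subtype_prod` : `|Γ| = |G| φ(q)` and
  `#{γ | π₁ γ ∈ C ∧ P (π₂ γ)} = |C| · #{τ | P τ}`;
* for an intermediate field `Fld` of `Ω/K` (general `K`, `Ω`): `toGal Fld : Gal(Ω/Fld) →* Gal(Ω/K)`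
  (`g ↦ g.restrictScalars K`; injective, range `Fld.fixingSubgroup`), `autToPow_toGal` (the
  cyclotomic character of `Gal(Ω/Fld)` is the restriction of `π₂`), `injective_autToPow`,
  `exists_lift_c0`, `isMulCommutative_of_fixingSubgroup`, `finsum_toGal`, and the package
  `crossing_hyps` (`crossing_hyps_of_injOn`) for `Fld = fixedField B`, which yields literally the hypotheses of
  `cyclo_density_pm` for `(↥Fld, Ω)`;
* `isArithFrobAt_restrictNormalHom`, `exists_frob_under` : a Frobenius of `Ω/K` at `P` restricts to a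
  Frobenius of `L/K` at `P ∩ 𝓞 L`, a prime over the same prime of `K`.
-/
import Mathlib
import Fermat.Agent.CFT.CycloDisjoint
import Fermat.Agent.CFT.FrobFunct

set_option autoImplicit false
set_option linter.unusedSectionVars false

namespace Fermat.Agent.ES.R48.CrossField11

open NumberField IntermediateField
open Fermat.Agent.CFT.CycloDisjoint

/-! ### The cyclotomic character over varying base rings -/

section Character

variable {Ω : Type*} [Field Ω] {q : ℕ} [NeZero q] {ζ : Ω}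

/-- The cyclotomic character only depends on the image of `ζ`, whatever the base rings. -/
theorem autToPow_eq_of_apply_eq (hζ : IsPrimitiveRoot ζ q) {A B : Type*} [CommRing A] [CommRing B]
    [Algebra A Ω] [Algebra B Ω] (g : Ω ≃ₐ[A] Ω) (h : Ω ≃ₐ[B] Ω) (hgh : g ζ = h ζ) :
    hζ.autToPow A g = hζ.autToPow B h := by
  have h1 : ζ ^ ((hζ.autToPow A g : (ZMod q)ˣ) : ZMod q).val =
      ζ ^ ((hζ.autToPow B h : (ZMod q)ˣ) : ZMod q).val := by
    rw [hζ.autToPow_spec A g, hζ.autToPow_spec B h, hgh]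
  have h2 := hζ.pow_inj (ZMod.val_lt _) (ZMod.val_lt _) h1
  exact Units.ext (ZMod.val_injective q h2)

variable {K : Type*} [Field K] [Algebra K Ω]

/-- The cyclotomic character of `Gal(Ω/Fld)` is the restriction of that of `Gal(Ω/K)`. -/
theorem autToPow_restrictScalars (hζ : IsPrimitiveRoot ζ q) (Fld : IntermediateField K Ω)
    (g : Ω ≃ₐ[Fld] Ω) : hζ.autToPow Fld g = hζ.autToPow K (g.restrictScalars K) :=
  autToPow_eq_of_apply_eq hζ g (g.restrictScalars K) rfl

theorem restrictScalars_mem_fixingSubgroup (Fld : IntermediateField K Ω) (g : Ω ≃ₐ[Fld] Ω) :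
    g.restrictScalars K ∈ Fld.fixingSubgroup := by
  rw [IntermediateField.mem_fixingSubgroup_iff]
  intro x hx
  exact g.commutes ⟨x, hx⟩

theorem restrictScalars_fixingSubgroupEquiv (Fld : IntermediateField K Ω) {g : Ω ≃ₐ[K] Ω}
    (hg : g ∈ Fld.fixingSubgroup) :
    (Fld.fixingSubgroupEquiv ⟨g, hg⟩).restrictScalars K = g := by
  ext x
  rfl

theorem restrictScalars_mul (Fld : IntermediateField K Ω) (a b : Ω ≃ₐ[Fld] Ω) :
    (a * b).restrictScalars K = a.restrictScalars K * b.restrictScalars K := rfl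

theorem restrictScalars_one (Fld : IntermediateField K Ω) :
    (1 : Ω ≃ₐ[Fld] Ω).restrictScalars K = 1 := rfl

theorem restrictScalars_inv (Fld : IntermediateField K Ω) (a : Ω ≃ₐ[Fld] Ω) :
    (a⁻¹).restrictScalars K = (a.restrictScalars K)⁻¹ := by
  ext x
  rfl

/-- `Gal(Ω/Fld) → Gal(Ω/K)` as a monoid hom (`g ↦ g.restrictScalars K`).  For `K = ℚ` use this
constant (or the lemmas of this section) rather than elaborating `g.restrictScalars ℚ` afresh:
the latter picks the `DivisionRing.toRatAlgebra` instance on `↥Fld`, which is not syntactically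
the `IntermediateField` one carried by every general-`K` statement. -/
def toGal (Fld : IntermediateField K Ω) : (Ω ≃ₐ[Fld] Ω) →* (Ω ≃ₐ[K] Ω) where
  toFun g := g.restrictScalars K
  map_one' := rfl
  map_mul' _ _ := rfl

theorem toGal_eq (Fld : IntermediateField K Ω) (g : Ω ≃ₐ[Fld] Ω) :
    toGal Fld g = g.restrictScalars K := rfl

theorem toGal_apply (Fld : IntermediateField K Ω) (g : Ω ≃ₐ[Fld] Ω) (x : Ω) :
    toGal Fld g x = g x := rfl

theorem toGal_injective (Fld : IntermediateField K Ω) : Function.Injective (toGal Fld) :=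
  AlgEquiv.restrictScalars_injective K

theorem toGal_mem_fixingSubgroup (Fld : IntermediateField K Ω) (g : Ω ≃ₐ[Fld] Ω) :
    toGal Fld g ∈ Fld.fixingSubgroup :=
  restrictScalars_mem_fixingSubgroup Fld g

theorem toGal_fixingSubgroupEquiv (Fld : IntermediateField K Ω) {g : Ω ≃ₐ[K] Ω}
    (hg : g ∈ Fld.fixingSubgroup) : toGal Fld (Fld.fixingSubgroupEquiv ⟨g, hg⟩) = g :=
  restrictScalars_fixingSubgroupEquiv Fld hg

theorem coe_fixingSubgroupEquiv_symm (Fld : IntermediateField K Ω) (g : Ω ≃ₐ[Fld] Ω) :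
    ((Fld.fixingSubgroupEquiv.symm g : Fld.fixingSubgroup) : Ω ≃ₐ[K] Ω) = toGal Fld g := by
  ext x
  rfl

theorem range_toGal (Fld : IntermediateField K Ω) : (toGal Fld).range = Fld.fixingSubgroup := by
  ext g
  constructor
  · rintro ⟨h, rfl⟩
    exact toGal_mem_fixingSubgroup Fld h
  · intro hg
    exact ⟨_, toGal_fixingSubgroupEquiv Fld hg⟩

theorem autToPow_toGal (hζ : IsPrimitiveRoot ζ q) (Fld : IntermediateField K Ω)
    (g : Ω ≃ₐ[Fld] Ω) : hζ.autToPow K (toGal Fld g) = hζ.autToPow Fld g :=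
  (autToPow_restrictScalars hζ Fld g).symm

/-- If the cyclotomic character of `Gal(Ω/K)` has trivial kernel on the subgroup fixing `Fld`, then
the cyclotomic character of `Gal(Ω/Fld)` is injective. -/
theorem injective_autToPow (hζ : IsPrimitiveRoot ζ q) (Fld : IntermediateField K Ω)
    (hker : ∀ g ∈ Fld.fixingSubgroup, hζ.autToPow K g = 1 → g = 1) :
    Function.Injective (hζ.autToPow Fld) := by
  refine (injective_iff_map_eq_one _).mpr fun g hg => ?_
  rw [← autToPow_toGal hζ Fld g] at hg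
  have h1 := hker _ (toGal_mem_fixingSubgroup Fld g) hg
  apply toGal_injective Fld
  rw [h1, map_one]

/-- The same from injectivity on the subgroup. -/
theorem injective_autToPow_of_injOn (hζ : IsPrimitiveRoot ζ q) (Fld : IntermediateField K Ω)
    (hinj : Set.InjOn (hζ.autToPow K) (Fld.fixingSubgroup : Set (Ω ≃ₐ[K] Ω))) :
    Function.Injective (hζ.autToPow Fld) :=
  injective_autToPow hζ Fld fun g hg h =>
    hinj hg (one_mem Fld.fixingSubgroup) (by rw [h, map_one])

/-- An element of `Gal(Ω/K)` fixing `Fld`, seen in `Gal(Ω/Fld)`, with the same cyclotomic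
character. -/
theorem exists_lift_of_mem_fixingSubgroup (hζ : IsPrimitiveRoot ζ q) (Fld : IntermediateField K Ω)
    {c : Ω ≃ₐ[K] Ω} (hc : c ∈ Fld.fixingSubgroup) :
    ∃ c' : Ω ≃ₐ[Fld] Ω, toGal Fld c' = c ∧ hζ.autToPow Fld c' = hζ.autToPow K c :=
  ⟨Fld.fixingSubgroupEquiv ⟨c, hc⟩, toGal_fixingSubgroupEquiv Fld hc, by
    rw [← autToPow_toGal, toGal_fixingSubgroupEquiv Fld hc]⟩

/-- `c₀` seen in `Gal(Ω/Fld)`. -/
theorem exists_lift_c0 (hζ : IsPrimitiveRoot ζ q) (Fld : IntermediateField K Ω)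
    {c₀ : Ω ≃ₐ[K] Ω} (hc : c₀ ∈ Fld.fixingSubgroup) (hc₀ : hζ.autToPow K c₀ = -1) :
    ∃ c' : Ω ≃ₐ[Fld] Ω, toGal Fld c' = c₀ ∧ hζ.autToPow Fld c' = -1 := by
  obtain ⟨c', h1, h2⟩ := exists_lift_of_mem_fixingSubgroup hζ Fld hc
  exact ⟨c', h1, h2.trans hc₀⟩

/-- `Gal(Ω/Fld)` is commutative as soon as the subgroup of `Gal(Ω/K)` fixing `Fld` is. -/
theorem isMulCommutative_of_fixingSubgroup (Fld : IntermediateField K Ω)
    (hcomm : ∀ a ∈ Fld.fixingSubgroup, ∀ b ∈ Fld.fixingSubgroup, a * b = b * a) :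
    IsMulCommutative (Ω ≃ₐ[Fld] Ω) := by
  refine IsMulCommutative.of_comm fun a b => ?_
  apply toGal_injective Fld
  rw [map_mul, map_mul]
  exact hcomm _ (toGal_mem_fixingSubgroup Fld a) _ (toGal_mem_fixingSubgroup Fld b)

/-- **The hypotheses of `cyclo_density_pm` for `(↥Fld, Ω)`, `Fld = fixedField B`**: if `B` is a
commutative subgroup of `Gal(Ω/K)` on which the cyclotomic character has trivial kernel and which
contains `c₀` (of character `-1`), then `Gal(Ω/Fld)` is commutative, its cyclotomic character is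
injective, and `c₀` is the image of an element `c'` of `Gal(Ω/Fld)` of character `-1`. -/
theorem crossing_hyps [FiniteDimensional K Ω] (hζ : IsPrimitiveRoot ζ q)
    (B : Subgroup (Ω ≃ₐ[K] Ω)) (hcomm : ∀ a ∈ B, ∀ b ∈ B, a * b = b * a)
    (hker : ∀ g ∈ B, hζ.autToPow K g = 1 → g = 1) {c₀ : Ω ≃ₐ[K] Ω} (hcB : c₀ ∈ B)
    (hc₀ : hζ.autToPow K c₀ = -1) :
    IsMulCommutative (Ω ≃ₐ[IntermediateField.fixedField B] Ω) ∧
      Function.Injective (hζ.autToPow (IntermediateField.fixedField B)) ∧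
      ∃ c' : Ω ≃ₐ[IntermediateField.fixedField B] Ω,
        toGal (IntermediateField.fixedField B) c' = c₀ ∧
          hζ.autToPow (IntermediateField.fixedField B) c' = -1 := by
  have hB : (IntermediateField.fixedField B).fixingSubgroup = B :=
    IntermediateField.fixingSubgroup_fixedField B
  refine ⟨isMulCommutative_of_fixingSubgroup _ ?_, injective_autToPow hζ _ ?_,
    exists_lift_c0 hζ _ (by rw [hB]; exact hcB) hc₀⟩
  · rw [hB]; exact hcomm
  · rw [hB]; exact hker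

/-- `crossing_hyps` with the injectivity of the cyclotomic character on `B` as hypothesis. -/
theorem crossing_hyps_of_injOn [FiniteDimensional K Ω] (hζ : IsPrimitiveRoot ζ q)
    (B : Subgroup (Ω ≃ₐ[K] Ω)) (hcomm : ∀ a ∈ B, ∀ b ∈ B, a * b = b * a)
    (hinj : Set.InjOn (hζ.autToPow K) (B : Set (Ω ≃ₐ[K] Ω))) {c₀ : Ω ≃ₐ[K] Ω} (hcB : c₀ ∈ B)
    (hc₀ : hζ.autToPow K c₀ = -1) :
    IsMulCommutative (Ω ≃ₐ[IntermediateField.fixedField B] Ω) ∧
      Function.Injective (hζ.autToPow (IntermediateField.fixedField B)) ∧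
      ∃ c' : Ω ≃ₐ[IntermediateField.fixedField B] Ω,
        toGal (IntermediateField.fixedField B) c' = c₀ ∧
          hζ.autToPow (IntermediateField.fixedField B) c' = -1 :=
  crossing_hyps hζ B hcomm
    (fun g hg h => hinj hg (one_mem B) (by rw [h, map_one])) hcB hc₀

/-- Transport of a sum over `B = fixingSubgroup Fld` to a sum over `Gal(Ω/Fld)`. -/
theorem finsum_toGal (Fld : IntermediateField K Ω) {M : Type*} [AddCommMonoid M]
    (W : (Ω ≃ₐ[K] Ω) → M) :
    ∑ᶠ g : Ω ≃ₐ[Fld] Ω, W (toGal Fld g) = ∑ᶠ b : Fld.fixingSubgroup, W b := by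
  rw [← finsum_comp_equiv Fld.fixingSubgroupEquiv.toEquiv]
  refine finsum_congr fun b => ?_
  exact congrArg W (toGal_fixingSubgroupEquiv Fld b.2)

/-- `|Gal(Ω/Fld)| = |fixingSubgroup Fld|`. -/
theorem card_gal_eq_card_fixingSubgroup (Fld : IntermediateField K Ω) :
    Nat.card (Ω ≃ₐ[Fld] Ω) = Nat.card Fld.fixingSubgroup :=
  (Nat.card_congr Fld.fixingSubgroupEquiv.toEquiv).symm

end Character

/-! ### The Galois group of `Ω = L(ζ_q)` over `K` -/

section Galois

variable {K L Ω : Type*} [Field K] [Field L] [Field Ω] [NumberField K] [NumberField L]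
  [NumberField Ω] [Algebra K L] [Algebra L Ω] [Algebra K Ω] [IsScalarTower K L Ω]
  {q : ℕ} [NeZero q] [IsCyclotomicExtension {q} L Ω] {ζ : Ω} [IsGalois K L]

/-- `(π₁, π₂)` is injective on `Gal(Ω/K)`. -/
theorem joint_injective (hζ : IsPrimitiveRoot ζ q) {g h : Ω ≃ₐ[K] Ω}
    (h1 : AlgEquiv.restrictNormalHom L g = AlgEquiv.restrictNormalHom L h)
    (h2 : hζ.autToPow K g = hζ.autToPow K h) : g = h := by
  have := eq_one_of_restrict_of_autToPow (K := K) (L := L) hζ (g * h⁻¹)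
    (by rw [map_mul, map_inv, h1, mul_inv_cancel]) (by rw [map_mul, map_inv, h2, mul_inv_cancel])
  exact mul_inv_eq_one.mp this

/-- `(π₁, π₂)` is surjective onto `Gal(L/K) × (ZMod q)ˣ`. -/
theorem exists_restrict_autToPow' (hζ : IsPrimitiveRoot ζ q)
    (hq : Nat.Coprime q (discr L).natAbs) (σ : L ≃ₐ[K] L) (u : (ZMod q)ˣ) :
    ∃ g : Ω ≃ₐ[K] Ω, AlgEquiv.restrictNormalHom L g = σ ∧ hζ.autToPow K g = u :=
  exists_restrict_autToPow (K := K) hζ hq σ u

/-- **The element `c₀ = (1, -1)`**: trivial on `L`, inverting `ζ`; it is central of square one. -/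
theorem exists_c0 (hζ : IsPrimitiveRoot ζ q) (hq : Nat.Coprime q (discr L).natAbs) :
    ∃ c₀ : Ω ≃ₐ[K] Ω, AlgEquiv.restrictNormalHom L c₀ = 1 ∧ hζ.autToPow K c₀ = -1 ∧
      (∀ g : Ω ≃ₐ[K] Ω, c₀ * g = g * c₀) ∧ c₀ * c₀ = 1 := by
  obtain ⟨c₀, h1, h2⟩ := exists_restrict_autToPow (K := K) hζ hq (1 : L ≃ₐ[K] L) (-1)
  refine ⟨c₀, h1, h2, fun g => ?_, ?_⟩
  · apply joint_injective (L := L) hζ
    · rw [map_mul, map_mul, h1, one_mul, mul_one]
    · rw [map_mul, map_mul, mul_comm]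
  · apply joint_injective (L := L) hζ
    · rw [map_mul, h1, one_mul, map_one]
    · rw [map_mul, h2, map_one, neg_mul_neg, one_mul]

/-- `|Gal(Ω/K)| = |Gal(L/K)| · |(ℤ/q)ˣ|`. -/
theorem card_gal_units (hζ : IsPrimitiveRoot ζ q) (hq : Nat.Coprime q (discr L).natAbs) :
    Nat.card (Ω ≃ₐ[K] Ω) = Nat.card (L ≃ₐ[K] L) * Nat.card (ZMod q)ˣ := by
  rw [Nat.card_congr (galEquivProd (K := K) (L := L) hζ hq).toEquiv, Nat.card_prod]

/-- `|Gal(Ω/K)| = |Gal(L/K)| · φ(q)`. -/
theorem card_gal (hζ : IsPrimitiveRoot ζ q) (hq : Nat.Coprime q (discr L).natAbs) :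
    Nat.card (Ω ≃ₐ[K] Ω) = Nat.card (L ≃ₐ[K] L) * Nat.totient q := by
  rw [card_gal_units (K := K) (L := L) hζ hq, Nat.card_eq_fintype_card (α := (ZMod q)ˣ),
    ZMod.card_units_eq_totient]

theorem card_gal_prime (hζ : IsPrimitiveRoot ζ q) (hq : Nat.Coprime q (discr L).natAbs)
    (hp : q.Prime) : Nat.card (Ω ≃ₐ[K] Ω) = Nat.card (L ≃ₐ[K] L) * (q - 1) := by
  rw [card_gal (K := K) (L := L) hζ hq, Nat.totient_prime hp]

/-- Counting in the product: `#{γ | π₁ γ ∈ C ∧ P (π₂ γ)} = |C| · #{τ | P τ}`. -/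
theorem card_subtype_prod (hζ : IsPrimitiveRoot ζ q) (hq : Nat.Coprime q (discr L).natAbs)
    (C : Set (L ≃ₐ[K] L)) (P : (ZMod q)ˣ → Prop) :
    Nat.card {g : Ω ≃ₐ[K] Ω // AlgEquiv.restrictNormalHom L g ∈ C ∧ P (hζ.autToPow K g)} =
      Nat.card C * Nat.card {τ : (ZMod q)ˣ // P τ} := by
  rw [← Nat.card_prod]
  refine Nat.card_congr (Equiv.ofBijective
    (fun g => (⟨AlgEquiv.restrictNormalHom L g.1, g.2.1⟩, ⟨hζ.autToPow K g.1, g.2.2⟩)) ⟨?_, ?_⟩)
  · rintro ⟨g, hg⟩ ⟨h, hh⟩ e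
    simp only [Prod.mk.injEq, Subtype.mk.injEq] at e
    exact Subtype.ext (joint_injective (L := L) hζ e.1 e.2)
  · rintro ⟨⟨σ, hσ⟩, ⟨u, hu⟩⟩
    obtain ⟨g, h1, h2⟩ := exists_restrict_autToPow (K := K) hζ hq σ u
    exact ⟨⟨g, by rw [h1]; exact hσ, by rw [h2]; exact hu⟩, by
      simp only [Prod.mk.injEq, Subtype.mk.injEq]; exact ⟨h1, h2⟩⟩

end Galois

/-! ### Restriction of Frobenius elements -/

section Frobenius

variable {K L Ω : Type*} [Field K] [Field L] [Field Ω] [NumberField K] [NumberField L]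
  [NumberField Ω] [Algebra K L] [Algebra L Ω] [Algebra K Ω] [IsScalarTower K L Ω]
  [IsGalois K L] [IsGalois K Ω]

/-- A Frobenius of `Ω/K` at `P` restricts to a Frobenius of `L/K` at `P ∩ 𝓞 L`. -/
theorem isArithFrobAt_restrictNormalHom {σ : Ω ≃ₐ[K] Ω} {P : Ideal (𝓞 Ω)}
    (hσ : IsArithFrobAt (𝓞 K) σ P) :
    IsArithFrobAt (𝓞 K) (AlgEquiv.restrictNormalHom L σ) (P.under (𝓞 L)) :=
  Fermat.Agent.CFT.FrobFunct.isArithFrobAt_restrictNormal (L := L) hσ

/-- The same, packaged for sets of primes of `K`: below a prime `P` of `Ω` with Frobenius `σ` there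
is a prime of `L`, over the same prime of `K`, with Frobenius `σ|_L`. -/
theorem exists_frob_under {σ : Ω ≃ₐ[K] Ω} {P : Ideal (𝓞 Ω)} (hP : P.IsPrime)
    (hσ : IsArithFrobAt (𝓞 K) σ P) :
    ∃ P' : Ideal (𝓞 L), P'.IsPrime ∧ P'.under (𝓞 K) = P.under (𝓞 K) ∧
      IsArithFrobAt (𝓞 K) (AlgEquiv.restrictNormalHom L σ) P' :=
  ⟨P.under (𝓞 L), Ideal.IsPrime.under (𝓞 L) P, Ideal.under_under P,
    isArithFrobAt_restrictNormalHom hσ⟩

end Frobenius

/-! ### The concrete crossing field over `ℚ` -/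

section Concrete

variable (L : Type) [Field L] [NumberField L] (q : ℕ) [NeZero q]

/-- `Ω = L(ζ_q)`. -/
abbrev Om : Type := CyclotomicField q L

/-- The chosen primitive `q`-th root of unity of `Ω`. -/
noncomputable def zetaOm : Om L q := IsCyclotomicExtension.zeta q L (Om L q)

theorem zetaOm_spec : IsPrimitiveRoot (zetaOm L q) q :=
  IsCyclotomicExtension.zeta_spec q L (Om L q)

theorem numberField_Om : NumberField (Om L q) := inferInstance

/-- `Ω/ℚ` is Galois when `L/ℚ` is. -/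
theorem isGalois_Om [IsGalois ℚ L] : IsGalois ℚ (Om L q) :=
  isGalois_top (K := ℚ) (L := L) (zetaOm_spec L q)

/-- **The crossing field, existential form**: all the data and instances over `ℚ`. -/
theorem exists_crossField [IsGalois ℚ L] :
    ∃ (Ω : Type) (_ : Field Ω) (_ : NumberField Ω) (_ : Algebra L Ω)
      (_ : IsCyclotomicExtension {q} L Ω) (_ : IsGalois ℚ Ω) (ζ : Ω), IsPrimitiveRoot ζ q :=
  ⟨Om L q, inferInstance, inferInstance, inferInstance, inferInstance, isGalois_Om L q,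
    zetaOm L q, zetaOm_spec L q⟩

end Concrete

end Fermat.Agent.ES.R48.CrossField11
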