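/-
Programme R (S48), chapter A4 (CHEB), brick NR1 (helper11): the norm-residue symbol
`g_χ(α) = χ(N_{F/ℚ} α mod m)` on the ring of integers of a number field `F`
(`χ` a Dirichlet character modulo `m`, signed norm `Algebra.norm ℤ α`).

* (N1) `norm_cast_eq_of_sub_mem`, `gchi_eq_of_sub_mem` : `α ≡ β mod m𝓞_F ⇒ N α ≡ N β mod m`; `g_χ` is `m𝓞_F`-periodic;
* `gchi_one`, `gchi_mul`, `norm_gchi_le_one`;
* (N2) `gchi_units_mul`, `gchi_neg` (even `χ`), `apply_absNorm_span_singleton : χ(N(α)) = g_χ(α)` (even `χ`);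
* (N3) `isUnit_mk_of_gchi_ne_zero`, `span_sup_span_eq_top_of_gchi_ne_zero` : `g_χ(α) ≠ 0 ⇒ α` is invertible modulo `m𝓞_F`;
* (case A of the blueprint) `sum_gchi_out_eq_zero` : if some `g_χ(u) ∉ {0, 1}` then `∑_{r mod m} g_χ(r) = 0`.
-/
import Mathlib

set_option autoImplicit false
set_option linter.unusedSectionVars false

open NumberField

namespace Fermat.Agent.ES.R48.NormPeriodic11

variable (F : Type*) [Field F] [NumberField F] {m : ℕ}

/-- `g_χ(α) = χ(N_{F/ℚ} α mod m)` (signed norm). -/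
noncomputable def gchi (χ : DirichletCharacter ℂ m) (α : 𝓞 F) : ℂ :=
  χ ((Algebra.norm ℤ α : ℤ) : ZMod m)

variable {F}

/-- **(N1)** congruent integers of `F` modulo `m` have congruent norms modulo `m`. -/
theorem norm_cast_eq_of_sub_mem (α β : 𝓞 F) (h : α - β ∈ Ideal.span {(m : 𝓞 F)}) :
    ((Algebra.norm ℤ α : ℤ) : ZMod m) = ((Algebra.norm ℤ β : ℤ) : ZMod m) := by
  classical
  obtain ⟨γ, hγ⟩ := Ideal.mem_span_singleton'.mp h
  have hα : α = β + (m : ℤ) • γ := by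
    have : α = β + γ * (m : 𝓞 F) := by rw [hγ]; ring
    rw [this, zsmul_eq_mul, mul_comm]
    push_cast
    rfl
  let b := RingOfIntegers.basis F
  rw [Algebra.norm_eq_matrix_det b α, Algebra.norm_eq_matrix_det b β, hα, map_add, map_zsmul]
  change (Int.castRingHom (ZMod m)) _ = (Int.castRingHom (ZMod m)) _
  rw [RingHom.map_det, RingHom.map_det]
  congr 1
  rw [map_add, map_zsmul]
  have h0 : ((m : ℤ) • (Int.castRingHom (ZMod m)).mapMatrix (Algebra.leftMulMatrix b γ)) = 0 := by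
    ext i j
    rw [Matrix.smul_apply, zsmul_eq_mul, Int.cast_natCast, ZMod.natCast_self, zero_mul]
    rfl
  rw [h0, add_zero]

variable (χ : DirichletCharacter ℂ m)

/-- `g_χ` is `m𝓞_F`-periodic. -/
theorem gchi_eq_of_sub_mem {α β : 𝓞 F} (h : α - β ∈ Ideal.span {(m : 𝓞 F)}) :
    gchi F χ α = gchi F χ β := by
  unfold gchi
  rw [norm_cast_eq_of_sub_mem α β h]

theorem gchi_one : gchi F χ 1 = 1 := by
  unfold gchi
  rw [map_one, Int.cast_one, map_one]

theorem gchi_mul (α β : 𝓞 F) : gchi F χ (α * β) = gchi F χ α * gchi F χ β := by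
  unfold gchi
  rw [map_mul, Int.cast_mul, map_mul]

theorem norm_gchi_le_one (α : 𝓞 F) : ‖gchi F χ α‖ ≤ 1 :=
  DirichletCharacter.norm_le_one χ _

variable {χ}

/-- an even character does not see the sign -/
theorem apply_neg_of_even (hev : χ.Even) (x : ZMod m) : χ (-x) = χ x := by
  rw [← neg_one_mul, map_mul, hev, one_mul]

theorem gchi_neg (hev : χ.Even) (α : 𝓞 F) : gchi F χ (-α) = gchi F χ α := by
  have h : -α = (-1 : 𝓞 F) * α := by ring
  unfold gchi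
  rw [h, map_mul, Int.cast_mul]
  have h1 : Algebra.norm ℤ (-1 : 𝓞 F) = 1 ∨ Algebra.norm ℤ (-1 : 𝓞 F) = -1 :=
    Int.isUnit_iff.mp ((isUnit_one.neg).map (Algebra.norm ℤ))
  rcases h1 with h1 | h1
  · rw [h1, Int.cast_one, one_mul]
  · rw [h1, Int.cast_neg, Int.cast_one, neg_one_mul, apply_neg_of_even hev]

/-- **(N2)** `g_χ` is invariant under units (`χ` even). -/
theorem gchi_units_mul (hev : χ.Even) (u : (𝓞 F)ˣ) (α : 𝓞 F) :
    gchi F χ ((u : 𝓞 F) * α) = gchi F χ α := by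
  unfold gchi
  rw [map_mul, Int.cast_mul]
  have h1 : Algebra.norm ℤ (u : 𝓞 F) = 1 ∨ Algebra.norm ℤ (u : 𝓞 F) = -1 :=
    Int.isUnit_iff.mp (u.isUnit.map (Algebra.norm ℤ))
  rcases h1 with h1 | h1
  · rw [h1, Int.cast_one, one_mul]
  · rw [h1, Int.cast_neg, Int.cast_one, neg_one_mul, apply_neg_of_even hev]

/-- **(N2′)** for even `χ`, `χ` of the absolute norm of a principal ideal is `g_χ` of a generator. -/
theorem apply_absNorm_span_singleton (hev : χ.Even) (α : 𝓞 F) :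
    χ ((Ideal.absNorm (Ideal.span {α}) : ℕ) : ZMod m) = gchi F χ α := by
  unfold gchi
  rw [Ideal.absNorm_span_singleton]
  rcases Int.natAbs_eq (Algebra.norm ℤ α) with h | h
  · conv_rhs => rw [h]
    rw [Int.cast_natCast]
  · conv_rhs => rw [h]
    rw [Int.cast_neg, Int.cast_natCast, apply_neg_of_even hev]

/-- the integer `N α`, seen in `𝓞 F`, is a multiple of `α` -/
theorem dvd_algebraMap_norm (α : 𝓞 F) : α ∣ algebraMap ℤ (𝓞 F) (Algebra.norm ℤ α) := by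
  have hmem : ((Ideal.absNorm (Ideal.span {α}) : ℕ) : 𝓞 F) ∈ Ideal.span {α} :=
    Ideal.absNorm_mem _
  rw [Ideal.absNorm_span_singleton, Ideal.mem_span_singleton] at hmem
  rcases Int.natAbs_eq (Algebra.norm ℤ α) with h | h
  · rw [h]
    simpa using hmem
  · rw [h, map_neg]
    simpa using hmem.neg_right

/-- **(N3)** `g_χ(α) ≠ 0` forces `α` to be invertible modulo `m𝓞_F`. -/
theorem isUnit_mk_of_gchi_ne_zero {α : 𝓞 F} (h : gchi F χ α ≠ 0) :
    IsUnit (Ideal.Quotient.mk (Ideal.span {(m : 𝓞 F)}) α) := by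
  have hu : IsUnit (((Algebra.norm ℤ α : ℤ)) : ZMod m) := by
    by_contra hcon
    exact h (MulChar.map_nonunit χ hcon)
  rw [ZMod.coe_int_isUnit_iff_isCoprime] at hu
  obtain ⟨a, b, hab⟩ := hu
  -- `a * m + b * N α = 1`
  obtain ⟨c, hc⟩ := dvd_algebraMap_norm α
  have h1 : (algebraMap ℤ (𝓞 F) a) * (m : 𝓞 F) + (algebraMap ℤ (𝓞 F) b) * (α * c) = 1 := by
    rw [← hc]
    have := congrArg (algebraMap ℤ (𝓞 F)) hab
    simpa using this
  refine IsUnit.of_mul_eq_one (Ideal.Quotient.mk _ (algebraMap ℤ (𝓞 F) b * c)) ?_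
  rw [← map_mul, ← map_one (Ideal.Quotient.mk (Ideal.span {(m : 𝓞 F)})), Ideal.Quotient.eq,
    Ideal.mem_span_singleton]
  refine ⟨-(algebraMap ℤ (𝓞 F) a), ?_⟩
  linear_combination h1

theorem span_sup_span_eq_top_of_gchi_ne_zero {α : 𝓞 F} (h : gchi F χ α ≠ 0) :
    Ideal.span {α} ⊔ Ideal.span {(m : 𝓞 F)} = ⊤ := by
  obtain ⟨v, hv⟩ := (isUnit_mk_of_gchi_ne_zero h).exists_right_inv
  obtain ⟨β, rfl⟩ := Ideal.Quotient.mk_surjective v
  rw [← map_mul, ← map_one (Ideal.Quotient.mk (Ideal.span {(m : 𝓞 F)})), Ideal.Quotient.eq] at hv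
  rw [Ideal.eq_top_iff_one]
  have : (1 : 𝓞 F) = α * β - (α * β - 1) := by ring
  rw [this]
  exact Submodule.sub_mem _ (Submodule.mem_sup_left (Ideal.mul_mem_right _ _
    (Ideal.mem_span_singleton_self α))) (Submodule.mem_sup_right hv)

/-- **Case A**: if `g_χ` takes a value outside `{0, 1}`, its sum over the residues modulo `m` vanishes. -/
theorem sum_gchi_out_eq_zero [Fintype (𝓞 F ⧸ Ideal.span {(m : 𝓞 F)})]
    (h : ∃ u : 𝓞 F, gchi F χ u ≠ 0 ∧ gchi F χ u ≠ 1) :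
    ∑ r : 𝓞 F ⧸ Ideal.span {(m : 𝓞 F)}, gchi F χ (Quotient.out r) = 0 := by
  obtain ⟨u, hu0, hu1⟩ := h
  -- `g` descends to the quotient
  have hout : ∀ α : 𝓞 F, gchi F χ (Quotient.out (Ideal.Quotient.mk (Ideal.span {(m : 𝓞 F)}) α)) = gchi F χ α := by
    intro α
    apply gchi_eq_of_sub_mem
    rw [← Ideal.Quotient.eq]
    exact Ideal.Quotient.mk_out _
  obtain ⟨U, hU⟩ := isUnit_mk_of_gchi_ne_zero hu0
  -- multiplication by the unit `ū` permutes the residues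
  have hperm : ∑ r : 𝓞 F ⧸ Ideal.span {(m : 𝓞 F)}, gchi F χ (Quotient.out r)
      = ∑ r : 𝓞 F ⧸ Ideal.span {(m : 𝓞 F)}, gchi F χ (Quotient.out ((U : 𝓞 F ⧸ Ideal.span {(m : 𝓞 F)}) * r)) :=
    (Equiv.sum_comp (Units.mulLeft U) (fun r => gchi F χ (Quotient.out r))).symm
  have hterm : ∀ r : 𝓞 F ⧸ Ideal.span {(m : 𝓞 F)}, gchi F χ (Quotient.out ((U : 𝓞 F ⧸ Ideal.span {(m : 𝓞 F)}) * r))
      = gchi F χ u * gchi F χ (Quotient.out r) := by
    intro r
    have e : (U : 𝓞 F ⧸ Ideal.span {(m : 𝓞 F)}) * r = Ideal.Quotient.mk (Ideal.span {(m : 𝓞 F)}) (u * Quotient.out r) := by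
      rw [map_mul, hU]
      congr 1
      exact (Ideal.Quotient.mk_out r).symm
    rw [e, hout, gchi_mul]
  rw [Finset.sum_congr rfl (fun r _ => hterm r), ← Finset.mul_sum] at hperm
  -- `(1 - g u) * Θ = 0`
  have hz : (1 - gchi F χ u) * ∑ r : 𝓞 F ⧸ Ideal.span {(m : 𝓞 F)}, gchi F χ (Quotient.out r) = 0 := by
    rw [sub_mul, one_mul, ← hperm, sub_self]
  rcases mul_eq_zero.mp hz with h0 | h0
  · exact absurd (sub_eq_zero.mp h0).symm hu1
  · exact h0

end Fermat.Agent.ES.R48.NormPeriodic11
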