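/-
Programme R (S48), chapter A4 (CHEB), brick NR4 (helper11): **(N4)** for comaximal ideals `J`, `𝔪` of a
commutative ring `R`, the cosets of `𝔠 = 𝔪 ⊓ J (= 𝔪 * J)` contained in `J`, with the representatives
`Quotient.out` used by `CFT/ClassZeta.cosetEquiv`, are in bijection with `R ⧸ 𝔪`; hence for every `𝔪`-periodic
function `g`
  `∑_{q : R ⧸ 𝔠, out q ∈ J} g (out q) = ∑_{r : R ⧸ 𝔪} g (out r)`.
Pure Mathlib (+ `NormPeriodic11` for the number-field corollaries at the end: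
`coprime_absNorm_of_sup_eq_top`, `apply_absNorm_ne_zero`, `natCard_coset_natCast`).
-/
import Mathlib
import Fermat.Agent.ES.R48.NormPeriodic11

set_option autoImplicit false

namespace Fermat.Agent.ES.R48.CoprimeQuot11

variable {R : Type*} [CommRing R]

/-- the comparison map on representatives: the residue modulo `𝔪` of the chosen representative. -/
noncomputable def toQuot (𝔪 J 𝔠 : Ideal R) (q : {q : R ⧸ 𝔠 // Quotient.out q ∈ J}) : R ⧸ 𝔪 :=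
  Ideal.Quotient.mk 𝔪 (Quotient.out q.1)

theorem out_sub_mem (𝔠 : Ideal R) (x : R) : Quotient.out (Ideal.Quotient.mk 𝔠 x) - x ∈ 𝔠 := by
  rw [← Ideal.Quotient.eq]
  exact Ideal.Quotient.mk_out _

theorem toQuot_injective (𝔪 J 𝔠 : Ideal R) (h𝔠 : 𝔪 ⊓ J ≤ 𝔠) :
    Function.Injective (toQuot 𝔪 J 𝔠) := by
  intro q₁ q₂ h
  unfold toQuot at h
  rw [Ideal.Quotient.eq] at h
  have hJ : Quotient.out q₁.1 - Quotient.out q₂.1 ∈ J := J.sub_mem q₁.2 q₂.2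
  have hc : Quotient.out q₁.1 - Quotient.out q₂.1 ∈ 𝔠 := h𝔠 ⟨h, hJ⟩
  apply Subtype.ext
  rw [← Ideal.Quotient.mk_out q₁.1, ← Ideal.Quotient.mk_out q₂.1, Ideal.Quotient.eq]
  exact hc

theorem toQuot_surjective (𝔪 J 𝔠 : Ideal R) (hJ : J ⊔ 𝔪 = ⊤) (h1 : 𝔠 ≤ 𝔪) (h2 : 𝔠 ≤ J) :
    Function.Surjective (toQuot 𝔪 J 𝔠) := by
  intro r
  obtain ⟨x, rfl⟩ := Ideal.Quotient.mk_surjective r
  obtain ⟨j, hj, t, ht, hjt⟩ := Submodule.mem_sup.mp (by rw [hJ]; exact Submodule.mem_top : (1 : R) ∈ J ⊔ 𝔪)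
  have hy : x * j ∈ J := J.mul_mem_left x hj
  have hd := out_sub_mem 𝔠 (x * j)
  have hout : Quotient.out (Ideal.Quotient.mk 𝔠 (x * j)) ∈ J := by
    have : Quotient.out (Ideal.Quotient.mk 𝔠 (x * j))
        = (Quotient.out (Ideal.Quotient.mk 𝔠 (x * j)) - x * j) + x * j := by ring
    rw [this]
    exact J.add_mem (h2 hd) hy
  refine ⟨⟨Ideal.Quotient.mk 𝔠 (x * j), hout⟩, ?_⟩
  unfold toQuot
  rw [Ideal.Quotient.eq]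
  have e : Quotient.out (Ideal.Quotient.mk 𝔠 (x * j)) - x
      = (Quotient.out (Ideal.Quotient.mk 𝔠 (x * j)) - x * j) - x * t := by
    have hj' : j = 1 - t := by rw [← hjt]; ring
    rw [hj']; ring
  rw [e]
  exact 𝔪.sub_mem (h1 hd) (𝔪.mul_mem_left x ht)

theorem toQuot_bijective (𝔪 J 𝔠 : Ideal R) (hJ : J ⊔ 𝔪 = ⊤) (h𝔠 : 𝔠 = 𝔪 ⊓ J) :
    Function.Bijective (toQuot 𝔪 J 𝔠) :=
  ⟨toQuot_injective 𝔪 J 𝔠 h𝔠.ge,
    toQuot_surjective 𝔪 J 𝔠 hJ (h𝔠.le.trans inf_le_left) (h𝔠.le.trans inf_le_right)⟩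

/-- the bijection of (N4) -/
noncomputable def cosetEquivQuot (𝔪 J 𝔠 : Ideal R) (hJ : J ⊔ 𝔪 = ⊤) (h𝔠 : 𝔠 = 𝔪 ⊓ J) :
    {q : R ⧸ 𝔠 // Quotient.out q ∈ J} ≃ R ⧸ 𝔪 :=
  Equiv.ofBijective _ (toQuot_bijective 𝔪 J 𝔠 hJ h𝔠)

theorem natCard_coset_eq (𝔪 J 𝔠 : Ideal R) (hJ : J ⊔ 𝔪 = ⊤) (h𝔠 : 𝔠 = 𝔪 ⊓ J) :
    Nat.card {q : R ⧸ 𝔠 // Quotient.out q ∈ J} = Nat.card (R ⧸ 𝔪) :=
  Nat.card_congr (cosetEquivQuot 𝔪 J 𝔠 hJ h𝔠)

/-- a function that is periodic modulo `𝔪` takes the same value on a representative of a coset of `𝔠`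
and on the representative of its residue modulo `𝔪`. -/
theorem apply_out_toQuot {M : Type*} (𝔪 J 𝔠 : Ideal R) (g : R → M)
    (hg : ∀ α β, α - β ∈ 𝔪 → g α = g β) (q : {q : R ⧸ 𝔠 // Quotient.out q ∈ J}) :
    g (Quotient.out (toQuot 𝔪 J 𝔠 q)) = g (Quotient.out q.1) :=
  hg _ _ (out_sub_mem 𝔪 _)

/-- **(N4)**, general form: `𝔠 = 𝔪 ⊓ J`. -/
theorem sum_coset_eq_sum_quot_inf {M : Type*} [AddCommMonoid M] (𝔪 J 𝔠 : Ideal R)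
    (hJ : J ⊔ 𝔪 = ⊤) (h𝔠 : 𝔠 = 𝔪 ⊓ J) (g : R → M) (hg : ∀ α β, α - β ∈ 𝔪 → g α = g β)
    [Fintype {q : R ⧸ 𝔠 // Quotient.out q ∈ J}] [Fintype (R ⧸ 𝔪)] :
    ∑ q : {q : R ⧸ 𝔠 // Quotient.out q ∈ J}, g (Quotient.out q.1)
      = ∑ r : R ⧸ 𝔪, g (Quotient.out r) :=
  Fintype.sum_bijective (toQuot 𝔪 J 𝔠) (toQuot_bijective 𝔪 J 𝔠 hJ h𝔠) _ _
    (fun q => (apply_out_toQuot 𝔪 J 𝔠 g hg q).symm)

theorem mul_eq_inf_of_sup_eq_top (𝔪 J : Ideal R) (hJ : J ⊔ 𝔪 = ⊤) : 𝔪 * J = 𝔪 ⊓ J :=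
  Ideal.mul_eq_inf_of_isCoprime (Ideal.isCoprime_iff_sup_eq.mpr (by rwa [sup_comm] at hJ))

/-- **(N4)** with `𝔠 = 𝔪 * J`. -/
theorem sum_coset_eq_sum_quot {M : Type*} [AddCommMonoid M] (𝔪 J : Ideal R) (hJ : J ⊔ 𝔪 = ⊤)
    (g : R → M) (hg : ∀ α β, α - β ∈ 𝔪 → g α = g β)
    [Fintype {q : R ⧸ (𝔪 * J) // Quotient.out q ∈ J}] [Fintype (R ⧸ 𝔪)] :
    ∑ q : {q : R ⧸ (𝔪 * J) // Quotient.out q ∈ J}, g (Quotient.out q.1)
      = ∑ r : R ⧸ 𝔪, g (Quotient.out r) :=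
  sum_coset_eq_sum_quot_inf 𝔪 J (𝔪 * J) hJ (mul_eq_inf_of_sup_eq_top 𝔪 J hJ) g hg

/-- **(N4)** with `𝔠 = J * 𝔪`. -/
theorem sum_coset_eq_sum_quot' {M : Type*} [AddCommMonoid M] (𝔪 J : Ideal R) (hJ : J ⊔ 𝔪 = ⊤)
    (g : R → M) (hg : ∀ α β, α - β ∈ 𝔪 → g α = g β)
    [Fintype {q : R ⧸ (J * 𝔪) // Quotient.out q ∈ J}] [Fintype (R ⧸ 𝔪)] :
    ∑ q : {q : R ⧸ (J * 𝔪) // Quotient.out q ∈ J}, g (Quotient.out q.1)
      = ∑ r : R ⧸ 𝔪, g (Quotient.out r) :=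
  sum_coset_eq_sum_quot_inf 𝔪 J (J * 𝔪) hJ
    (by rw [mul_comm]; exact mul_eq_inf_of_sup_eq_top 𝔪 J hJ) g hg

/-! ### Number fields: ideals prime to `m` -/

section NumberField

open NumberField Fermat.Agent.ES.R48.NormPeriodic11

variable {F : Type*} [Field F] [NumberField F] {m : ℕ}

/-- An ideal comaximal with `m𝓞_F` has absolute norm prime to `m`. -/
theorem coprime_absNorm_of_sup_eq_top {I : Ideal (𝓞 F)}
    (h : I ⊔ Ideal.span {(m : 𝓞 F)} = ⊤) : Nat.Coprime (Ideal.absNorm I) m := by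
  obtain ⟨i, hi, t, ht, hit⟩ :=
    Submodule.mem_sup.mp (by rw [h]; exact Submodule.mem_top : (1 : 𝓞 F) ∈ I ⊔ Ideal.span {(m : 𝓞 F)})
  -- `N i ≡ 1 mod m`
  have h1 : ((Algebra.norm ℤ i : ℤ) : ZMod m) = 1 := by
    have hsub : i - 1 ∈ Ideal.span {(m : 𝓞 F)} := by
      have : i - 1 = -t := by rw [← hit]; ring
      rw [this]
      exact (Ideal.span {(m : 𝓞 F)}).neg_mem ht
    rw [norm_cast_eq_of_sub_mem i 1 hsub, map_one, Int.cast_one]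
  have hu : IsUnit ((Algebra.norm ℤ i : ℤ) : ZMod m) := by rw [h1]; exact isUnit_one
  rw [ZMod.coe_int_isUnit_iff_isCoprime] at hu
  have hdvd : ((Ideal.absNorm I : ℕ) : ℤ) ∣ Algebra.norm ℤ i := Ideal.absNorm_dvd_norm_of_mem hi
  have hc : IsCoprime ((m : ℕ) : ℤ) ((Ideal.absNorm I : ℕ) : ℤ) :=
    IsCoprime.of_isCoprime_of_dvd_right hu hdvd
  exact (Nat.isCoprime_iff_coprime.mp hc).symm

/-- A Dirichlet character modulo `m` does not vanish at the norm of an ideal prime to `m`. -/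
theorem apply_absNorm_ne_zero (χ : DirichletCharacter ℂ m) {I : Ideal (𝓞 F)}
    (h : I ⊔ Ideal.span {(m : 𝓞 F)} = ⊤) : χ ((Ideal.absNorm I : ℕ) : ZMod m) ≠ 0 :=
  (((ZMod.isUnit_iff_coprime _ _).mpr (coprime_absNorm_of_sup_eq_top h)).map χ).ne_zero

/-- the number of cosets of `mJ` in `J`, for `J` prime to `m`: `m ^ [F : ℚ]`. -/
theorem natCard_coset_natCast (J : Ideal (𝓞 F)) (hJ : J ⊔ Ideal.span {(m : 𝓞 F)} = ⊤) :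
    Nat.card {q : 𝓞 F ⧸ (Ideal.span {(m : 𝓞 F)} * J) // Quotient.out q ∈ J}
      = m ^ Module.finrank ℚ F := by
  rw [natCard_coset_eq (Ideal.span {(m : 𝓞 F)}) J _ hJ (mul_eq_inf_of_sup_eq_top _ J hJ),
    ← Submodule.cardQuot_apply, ← Ideal.absNorm_apply, Ideal.absNorm_span_natCast,
    RingOfIntegers.rank]

end NumberField

end Fermat.Agent.ES.R48.CoprimeQuot11
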