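/-
Programme R (S48, Deligne–Serre), chapter A4 CHEB, file NR0 (helper7): **norm-residue `L`-series
of a number field**, definitions.

For a number field `F` and a Dirichlet character `χ` modulo `m`:
`nterm F χ s 𝔞 = χ (N 𝔞) * (N 𝔞) ^ (-s)` (a completely multiplicative function of the ideal `𝔞`),
`normL F χ s = ∑_𝔞 nterm F χ s 𝔞` and the prime sum `normP F χ s = ∑_𝔮 nterm F χ s 𝔮`.
Only real `s`.
-/
import Mathlib
import Fermat.Agent.CFT.IdealZetaSum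

set_option autoImplicit false

open NumberField Ideal IsDedekindDomain

namespace Fermat.Agent.ES.R48.NormLDefs7

variable (F : Type*) [Field F] [NumberField F] {m : ℕ}

/-- `χ (N 𝔞) * (N 𝔞) ^ (-s)`. -/
noncomputable def nterm (χ : DirichletCharacter ℂ m) (s : ℝ) (𝔞 : Ideal (𝓞 F)) : ℂ :=
  χ ((absNorm 𝔞 : ℕ) : ZMod m) * (((absNorm 𝔞 : ℝ) ^ (-s) : ℝ) : ℂ)

/-- The norm-residue `L`-series `∑_𝔞 χ (N 𝔞) (N 𝔞) ^ (-s)` over all ideals of `𝓞 F`. -/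
noncomputable def normL (χ : DirichletCharacter ℂ m) (s : ℝ) : ℂ :=
  ∑' 𝔞 : Ideal (𝓞 F), nterm F χ s 𝔞

/-- The prime sum `∑_𝔮 χ (N 𝔮) (N 𝔮) ^ (-s)`. -/
noncomputable def normP (χ : DirichletCharacter ℂ m) (s : ℝ) : ℂ :=
  ∑' 𝔮 : HeightOneSpectrum (𝓞 F), nterm F χ s 𝔮.asIdeal

variable {F}

theorem norm_nterm_le (χ : DirichletCharacter ℂ m) (s : ℝ) (𝔞 : Ideal (𝓞 F)) :
    ‖nterm F χ s 𝔞‖ ≤ (absNorm 𝔞 : ℝ) ^ (-s) := by
  unfold nterm
  rw [norm_mul, Complex.norm_real, Real.norm_of_nonneg (Real.rpow_nonneg (Nat.cast_nonneg _) _)]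
  calc ‖χ ((absNorm 𝔞 : ℕ) : ZMod m)‖ * (absNorm 𝔞 : ℝ) ^ (-s)
      ≤ 1 * (absNorm 𝔞 : ℝ) ^ (-s) :=
        mul_le_mul_of_nonneg_right (DirichletCharacter.norm_le_one χ _)
          (Real.rpow_nonneg (Nat.cast_nonneg _) _)
    _ = _ := one_mul _

variable (F) in
theorem summable_norm_nterm (χ : DirichletCharacter ℂ m) {s : ℝ} (hs : 1 < s) :
    Summable fun 𝔞 : Ideal (𝓞 F) => ‖nterm F χ s 𝔞‖ :=
  Summable.of_nonneg_of_le (fun _ => norm_nonneg _) (norm_nterm_le χ s)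
    (Fermat.Agent.CFT.IdealZetaSum.summable_absNorm_rpow F hs)

variable (F) in
theorem summable_nterm (χ : DirichletCharacter ℂ m) {s : ℝ} (hs : 1 < s) :
    Summable fun 𝔞 : Ideal (𝓞 F) => nterm F χ s 𝔞 :=
  (summable_norm_nterm F χ hs).of_norm

theorem nterm_one (χ : DirichletCharacter ℂ m) (s : ℝ) : nterm F χ s 1 = 1 := by
  unfold nterm
  simp

theorem nterm_bot (χ : DirichletCharacter ℂ m) {s : ℝ} (hs : s ≠ 0) : nterm F χ s ⊥ = 0 := by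
  unfold nterm
  simp [Real.zero_rpow (neg_ne_zero.mpr hs)]

theorem nterm_mul (χ : DirichletCharacter ℂ m) (s : ℝ) (𝔞 𝔟 : Ideal (𝓞 F)) :
    nterm F χ s (𝔞 * 𝔟) = nterm F χ s 𝔞 * nterm F χ s 𝔟 := by
  unfold nterm
  rw [map_mul, Nat.cast_mul, Nat.cast_mul, map_mul,
    Real.mul_rpow (Nat.cast_nonneg _) (Nat.cast_nonneg _)]
  push_cast
  ring

variable (F) in
/-- `nterm` as a completely multiplicative function on ideals (`s ≠ 0`). -/
noncomputable def ntermHom (χ : DirichletCharacter ℂ m) {s : ℝ} (hs : s ≠ 0) :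
    Ideal (𝓞 F) →*₀ ℂ where
  toFun := nterm F χ s
  map_zero' := nterm_bot χ hs
  map_one' := nterm_one χ s
  map_mul' := nterm_mul χ s

@[simp] theorem ntermHom_apply (χ : DirichletCharacter ℂ m) {s : ℝ} (hs : s ≠ 0)
    (𝔞 : Ideal (𝓞 F)) : ntermHom F χ hs 𝔞 = nterm F χ s 𝔞 := rfl

end Fermat.Agent.ES.R48.NormLDefs7
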