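/-
Programme R (S48, Deligne–Serre), chapter A4 CHEB, file NR3 (helper7): **periodic coset sums**.

`U : ClassZeta.WeightData K` (the smoothed unit-unfolding weight of `CFT/ClassZeta`), `𝔠 ≤ 𝔟` nonzero
ideals of `𝓞 K`, `g : 𝓞 K → ℂ` bounded by `1` and periodic modulo `𝔠`.  Then, uniformly in
`s ∈ [1, 2]`,

  `∑_{β ∈ 𝔟} g β * U.F s β = (∑_{q ∈ 𝔟/𝔠} g q) * ∑_{γ ∈ 𝔠} U.F s γ + O(1)`.

This is `ClassZeta.coset_compare` with the twist `g` (same proof: coset decomposition and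
`ClassZeta.shift_bound` on each of the finitely many cosets).
-/
import Mathlib
import Fermat.Agent.CFT.ClassZeta

set_option autoImplicit false
set_option linter.unusedSectionVars false

open NumberField NumberField.mixedEmbedding Module
open Fermat.Agent.CFT.ClassZeta

namespace Fermat.Agent.ES.R48.PeriodicCoset7

variable {K : Type*} [Field K] [NumberField K]

/-- A `𝔠`-periodic function is constant on the cosets `out q + 𝔠`. -/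
theorem apply_out_add {𝔠 : Ideal (𝓞 K)} {g : 𝓞 K → ℂ}
    (hper : ∀ α γ : 𝓞 K, γ ∈ 𝔠 → g (α + γ) = g α) (q : 𝓞 K ⧸ 𝔠) (γ : 𝔠) :
    g (Quotient.out q + γ.1) = g (Quotient.out q) :=
  hper _ _ γ.2

open scoped Classical in
/-- **Periodic coset comparison.** -/
theorem periodic_coset_compare (U : WeightData K) (𝔟 𝔠 : Ideal (𝓞 K)) (hle : 𝔠 ≤ 𝔟)
    [Fintype {q : 𝓞 K ⧸ 𝔠 // Quotient.out q ∈ 𝔟}] :
    ∃ B : ℝ, ∀ (g : 𝓞 K → ℂ), (∀ α, ‖g α‖ ≤ 1) →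
      (∀ α γ : 𝓞 K, γ ∈ 𝔠 → g (α + γ) = g α) →
      ∀ s ∈ Set.Icc (1:ℝ) 2, Summable (fun γ : 𝔠 => U.F s γ.1) →
      Summable (fun β : 𝔟 => g β.1 * ((U.F s β.1 : ℝ) : ℂ)) ∧
      ‖∑' β : 𝔟, g β.1 * ((U.F s β.1 : ℝ) : ℂ) -
        (∑ q : {q : 𝓞 K ⧸ 𝔠 // Quotient.out q ∈ 𝔟}, g (Quotient.out q.1)) *
          ((∑' γ : 𝔠, U.F s γ.1 : ℝ) : ℂ)‖ ≤ B := by
  set d : ℝ := ∑ q : {q : 𝓞 K ⧸ 𝔠 // Quotient.out q ∈ 𝔟},
    ‖mixedEmbedding K ((Quotient.out q.1 : 𝓞 K) : K)‖ with hd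
  obtain ⟨C, hC⟩ := U.lip d
  refine ⟨(Fintype.card {q : 𝓞 K ⧸ 𝔠 // Quotient.out q ∈ 𝔟} : ℝ) * (C * majT K), ?_⟩
  intro g hg1 hper s hs hsum
  have hq : ∀ q : {q : 𝓞 K ⧸ 𝔠 // Quotient.out q ∈ 𝔟},
      ‖mixedEmbedding K ((Quotient.out q.1 : 𝓞 K) : K)‖ ≤ d := by
    intro q
    rw [hd]
    exact Finset.single_le_sum (f := fun q : {q : 𝓞 K ⧸ 𝔠 // Quotient.out q ∈ 𝔟} =>
      ‖mixedEmbedding K ((Quotient.out q.1 : 𝓞 K) : K)‖) (fun _ _ => norm_nonneg _)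
      (Finset.mem_univ q)
  have hsh := fun q : {q : 𝓞 K ⧸ 𝔠 // Quotient.out q ∈ 𝔟} =>
    shift_bound U 𝔠 hs hC (Quotient.out q.1) (hq q) hsum
  -- the real majorant on the product
  let G₀ : {q : 𝓞 K ⧸ 𝔠 // Quotient.out q ∈ 𝔟} × 𝔠 → ℝ :=
    fun p => U.F s (Quotient.out p.1.1 + p.2.1)
  have hG₀0 : 0 ≤ G₀ := fun p => U.F_nonneg _ _
  have hG₀s : Summable G₀ := by
    refine (summable_prod_of_nonneg hG₀0).mpr ⟨fun q => (hsh q).1, ?_⟩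
    exact Summable.of_finite
  -- the twisted function on the product
  let G : {q : 𝓞 K ⧸ 𝔠 // Quotient.out q ∈ 𝔟} × 𝔠 → ℂ :=
    fun p => g (Quotient.out p.1.1 + p.2.1) * ((U.F s (Quotient.out p.1.1 + p.2.1) : ℝ) : ℂ)
  have hGle : ∀ p, ‖G p‖ ≤ G₀ p := by
    intro p
    show ‖g (Quotient.out p.1.1 + p.2.1) * ((U.F s (Quotient.out p.1.1 + p.2.1) : ℝ) : ℂ)‖ ≤
      U.F s (Quotient.out p.1.1 + p.2.1)
    rw [norm_mul, Complex.norm_real, Real.norm_of_nonneg (U.F_nonneg _ _)]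
    calc ‖g (Quotient.out p.1.1 + p.2.1)‖ * U.F s (Quotient.out p.1.1 + p.2.1)
        ≤ 1 * U.F s (Quotient.out p.1.1 + p.2.1) :=
          mul_le_mul_of_nonneg_right (hg1 _) (U.F_nonneg _ _)
      _ = _ := one_mul _
  have hGs : Summable G := Summable.of_norm_bounded hG₀s hGle
  have hGe : (fun β : 𝔟 => g β.1 * ((U.F s β.1 : ℝ) : ℂ)) ∘ (cosetEquiv 𝔟 𝔠 hle) = G := by
    funext p; rfl
  have hsumb : Summable (fun β : 𝔟 => g β.1 * ((U.F s β.1 : ℝ) : ℂ)) := by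
    rw [← (cosetEquiv 𝔟 𝔠 hle).summable_iff, hGe]; exact hGs
  refine ⟨hsumb, ?_⟩
  have hinner : ∀ q : {q : 𝓞 K ⧸ 𝔠 // Quotient.out q ∈ 𝔟},
      ∑' γ : 𝔠, G (q, γ) =
        g (Quotient.out q.1) * ((∑' γ : 𝔠, U.F s (Quotient.out q.1 + γ.1) : ℝ) : ℂ) := by
    intro q
    rw [Complex.ofReal_tsum, ← tsum_mul_left]
    refine tsum_congr (fun γ => ?_)
    show g (Quotient.out q.1 + γ.1) * _ = _
    rw [apply_out_add hper q.1 γ]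
  have htsum : ∑' β : 𝔟, g β.1 * ((U.F s β.1 : ℝ) : ℂ) =
      ∑ q : {q : 𝓞 K ⧸ 𝔠 // Quotient.out q ∈ 𝔟},
        g (Quotient.out q.1) * ((∑' γ : 𝔠, U.F s (Quotient.out q.1 + γ.1) : ℝ) : ℂ) := by
    calc ∑' β : 𝔟, g β.1 * ((U.F s β.1 : ℝ) : ℂ) = ∑' p, G p := by
          rw [← (cosetEquiv 𝔟 𝔠 hle).tsum_eq (fun β : 𝔟 => g β.1 * ((U.F s β.1 : ℝ) : ℂ))]; rfl
      _ = ∑' q : {q : 𝓞 K ⧸ 𝔠 // Quotient.out q ∈ 𝔟}, ∑' γ : 𝔠, G (q, γ) := hGs.tsum_prod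
      _ = ∑ q : {q : 𝓞 K ⧸ 𝔠 // Quotient.out q ∈ 𝔟}, ∑' γ : 𝔠, G (q, γ) := tsum_fintype _
      _ = _ := Finset.sum_congr rfl (fun q _ => hinner q)
  rw [htsum, Finset.sum_mul, ← Finset.sum_sub_distrib]
  calc ‖∑ q : {q : 𝓞 K ⧸ 𝔠 // Quotient.out q ∈ 𝔟},
        (g (Quotient.out q.1) * ((∑' γ : 𝔠, U.F s (Quotient.out q.1 + γ.1) : ℝ) : ℂ) -
          g (Quotient.out q.1) * ((∑' γ : 𝔠, U.F s γ.1 : ℝ) : ℂ))‖
      ≤ ∑ q : {q : 𝓞 K ⧸ 𝔠 // Quotient.out q ∈ 𝔟},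
        ‖g (Quotient.out q.1) * ((∑' γ : 𝔠, U.F s (Quotient.out q.1 + γ.1) : ℝ) : ℂ) -
          g (Quotient.out q.1) * ((∑' γ : 𝔠, U.F s γ.1 : ℝ) : ℂ)‖ := norm_sum_le _ _
    _ ≤ ∑ _q : {q : 𝓞 K ⧸ 𝔠 // Quotient.out q ∈ 𝔟}, C * majT K := by
        refine Finset.sum_le_sum (fun q _ => ?_)
        rw [← mul_sub, norm_mul, ← Complex.ofReal_sub, Complex.norm_real, Real.norm_eq_abs]
        calc ‖g (Quotient.out q.1)‖ *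
              |∑' γ : 𝔠, U.F s (Quotient.out q.1 + γ.1) - ∑' γ : 𝔠, U.F s γ.1|
            ≤ 1 * (C * majT K) :=
              mul_le_mul (hg1 _) (hsh q).2 (abs_nonneg _) zero_le_one
          _ = C * majT K := one_mul _
    _ = _ := by rw [Finset.sum_const, nsmul_eq_mul, Finset.card_univ]

end Fermat.Agent.ES.R48.PeriodicCoset7
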