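/-
Programme R (S48, Deligne–Serre), chapter A4 CHEB, file NR5 (helper7): **the norm-residue
`L`-series of an even Dirichlet character is bounded on `(1, 2]`**.

`F` a number field, `χ` an even Dirichlet character modulo `m ≠ 0`, and some ideal `𝔞₀` with
`χ (N 𝔞₀) ∉ {0, 1}`.  Then `‖∑_𝔞 χ (N 𝔞) N(𝔞)^(-s)‖ ≤ B` for `s ∈ (1, 2]` (`normL_bounded`).

Proof (blueprint `R48_A4_CHEB7.md`, §1.1).  Split the sum over the ideal classes `C`; for an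
integral `J` in `C⁻¹` prime to `m` the twisted unfolding (`TwistUnfold7`) turns the class sum into
`χ(NJ)⁻¹ NJ^s ∑_{α ∈ J} g(α) W_s(α)` with `g(α) = χ(N α)` (periodic modulo `m`, because `χ` is
even), and the periodic coset comparison (`PeriodicCoset7`) gives
`∑_{α ∈ J} g(α) W_s(α) = Θ · ∑_{γ ∈ mJ} W_s(γ) + O(1)`, `Θ = ∑_{r mod m} g(r)` independent of `J`.
The same with `g = 1` identifies `NJ^s ∑_{γ ∈ mJ} W_s(γ)` with `ζ(s, C) / N(m)` up to `O(1)`, and all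
`ζ(s, C)` agree up to `O(1)` (`ClassZeta.exists_classZeta_sub_le'`).  Finally
`Θ · ∑_C χ(NJ_C)⁻¹ = 0`: either `Θ = 0` (`NormPeriodic11.sum_gchi_out_eq_zero`) or `χ ∘ N` is a
function of the ideal class and the class of `𝔞₀` translates the sum into `χ(N𝔞₀)` times itself.
-/
import Mathlib
import Fermat.Agent.CFT.ClassZeta
import Fermat.Agent.CFT.CoprimeRep
import Fermat.Agent.ES.R48.NormLDefs7
import Fermat.Agent.ES.R48.TwistUnfold7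
import Fermat.Agent.ES.R48.PeriodicCoset7
import Fermat.Agent.ES.R48.NormPeriodic11
import Fermat.Agent.ES.R48.CoprimeQuot11

set_option autoImplicit false
set_option linter.unusedSectionVars false
set_option linter.style.haveILetI false

open NumberField Module nonZeroDivisors
open Fermat.Agent.CFT.ClassZeta Fermat.Agent.CFT.ZetaRBounds
open Fermat.Agent.ES.R48.NormLDefs7 Fermat.Agent.ES.R48.TwistUnfold7
  Fermat.Agent.ES.R48.PeriodicCoset7 Fermat.Agent.ES.R48.NormPeriodic11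
  Fermat.Agent.ES.R48.CoprimeQuot11

namespace Fermat.Agent.ES.R48.NormLBound7

variable (F : Type*) [Field F] [NumberField F] {m : ℕ}

/-- The modulus `m 𝓞 F`. -/
abbrev modI (m : ℕ) : Ideal (𝓞 F) := Ideal.span {(m : 𝓞 F)}

theorem modI_ne_bot [NeZero m] : modI F m ≠ ⊥ := by
  intro h
  rw [modI, Ideal.span_singleton_eq_bot] at h
  exact NeZero.ne m (by exact_mod_cast h)

/-- `χ ∘ N` on ideals. -/
noncomputable def hchi (χ : DirichletCharacter ℂ m) (I : Ideal (𝓞 F)) : ℂ :=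
  χ ((Ideal.absNorm I : ℕ) : ZMod m)

variable {F}

theorem norm_hchi_le (χ : DirichletCharacter ℂ m) (I : Ideal (𝓞 F)) : ‖hchi F χ I‖ ≤ 1 :=
  DirichletCharacter.norm_le_one χ _

theorem hchi_mul (χ : DirichletCharacter ℂ m) (I J : Ideal (𝓞 F)) :
    hchi F χ (I * J) = hchi F χ I * hchi F χ J := by
  unfold hchi
  rw [map_mul, Nat.cast_mul, map_mul]

theorem hchi_span (χ : DirichletCharacter ℂ m) (hev : χ.Even) (α : 𝓞 F) :
    hchi F χ (Ideal.span {α}) = gchi F χ α :=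
  apply_absNorm_span_singleton hev α

theorem nterm_eq (χ : DirichletCharacter ℂ m) (s : ℝ) (I : Ideal (𝓞 F)) :
    nterm F χ s I = hchi F χ I * (((Ideal.absNorm I : ℝ) ^ (-s) : ℝ) : ℂ) := rfl

/-- `gchi` is periodic modulo every ideal contained in `m 𝓞 F`. -/
theorem gchi_add_of_mem (χ : DirichletCharacter ℂ m) {𝔠 : Ideal (𝓞 F)} (h𝔠 : 𝔠 ≤ modI F m)
    (α γ : 𝓞 F) (hγ : γ ∈ 𝔠) : gchi F χ (α + γ) = gchi F χ α :=
  gchi_eq_of_sub_mem χ (by simpa using h𝔠 hγ)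

/-! ### One ideal class -/

section OneClass

variable [NeZero m] (χ : DirichletCharacter ℂ m)

/-- the product `m J` as a nonzero ideal -/
noncomputable abbrev mJ (m : ℕ) [NeZero m] (J : (Ideal (𝓞 F))⁰) : (Ideal (𝓞 F))⁰ :=
  ⟨modI F m * (J : Ideal (𝓞 F)),
    mem_nonZeroDivisors_of_ne_zero (mul_ne_zero (modI_ne_bot F) (nonZeroDivisors.coe_ne_zero J))⟩

theorem mJ_le (J : (Ideal (𝓞 F))⁰) : ((mJ m J : (Ideal (𝓞 F))⁰) : Ideal (𝓞 F)) ≤ J :=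
  Ideal.mul_le_right (I := modI F m) (J := (J : Ideal (𝓞 F)))

theorem mJ_le_modI (J : (Ideal (𝓞 F))⁰) : ((mJ m J : (Ideal (𝓞 F))⁰) : Ideal (𝓞 F)) ≤ modI F m :=
  Ideal.mul_le_left (I := modI F m) (J := (J : Ideal (𝓞 F)))

/-- the algebraic identity behind `class_sum_approx` -/
theorem alg_id (A Z T Θ hJ Ns Nms k : ℂ) (hJ0 : hJ ≠ 0) (hk : k ≠ 0) (hN : Ns * Nms = 1) :
    A - hJ⁻¹ * Θ * k⁻¹ * Z =
      hJ⁻¹ * Ns * ((Nms * (hJ * A) - Θ * T) - Θ * k⁻¹ * (Nms * Z - k * T)) := by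
  have e1 : hJ⁻¹ * hJ = 1 := inv_mul_cancel₀ hJ0
  have e2 : k⁻¹ * k = 1 := inv_mul_cancel₀ hk
  linear_combination (-(A - hJ⁻¹ * Θ * k⁻¹ * Z)) * hN - (Ns * Nms * A) * e1 -
    (hJ⁻¹ * Ns * Θ * T) * e2

theorem card_coset_eq (J : (Ideal (𝓞 F))⁰) :
    Nat.card {q : 𝓞 F ⧸ ((mJ m J : (Ideal (𝓞 F))⁰) : Ideal (𝓞 F)) //
      Quotient.out q ∈ (J : Ideal (𝓞 F))} = Ideal.absNorm (modI F m) := by
  have h := card_coset_mul (J : Ideal (𝓞 F)) ((mJ m J : (Ideal (𝓞 F))⁰) : Ideal (𝓞 F)) (mJ_le J)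
  have h2 : Ideal.absNorm ((mJ m J : (Ideal (𝓞 F))⁰) : Ideal (𝓞 F)) =
      Ideal.absNorm (modI F m) * Ideal.absNorm (J : Ideal (𝓞 F)) := map_mul _ _ _
  rw [h2] at h
  exact Nat.eq_of_mul_eq_mul_right
    (Nat.pos_of_ne_zero (Ideal.absNorm_ne_zero_of_nonZeroDivisors J)) h

open scoped Classical in
/-- **One class.**  For `J` in `C⁻¹` prime to `m`, the class sum of `χ ∘ N` is
`χ(NJ)⁻¹ · Θ · N(m)⁻¹ · ζ(s, C)` up to a bounded error. -/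
theorem class_sum_approx (hev : χ.Even) [Fintype (𝓞 F ⧸ modI F m)] (J : (Ideal (𝓞 F))⁰)
    (C : ClassGroup (𝓞 F))
    (hJ : ClassGroup.mk0 J = C⁻¹) (hJm : (J : Ideal (𝓞 F)) ⊔ modI F m = ⊤) :
    ∃ B : ℝ, ∀ s ∈ Set.Ioc (1:ℝ) 2,
      ‖(∑' I : {I : (Ideal (𝓞 F))⁰ // ClassGroup.mk0 I = C}, nterm F χ s (I.1 : Ideal (𝓞 F))) -
        (hchi F χ (J : Ideal (𝓞 F)))⁻¹ *
          (∑ r : 𝓞 F ⧸ modI F m, gchi F χ (Quotient.out r)) *
          ((Ideal.absNorm (modI F m) : ℝ) : ℂ)⁻¹ * ((classZeta C s : ℝ) : ℂ)‖ ≤ B := by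
  set U := weightData F with hU
  haveI : Finite (𝓞 F ⧸ (modI F m * (J : Ideal (𝓞 F)))) :=
    Ideal.finiteQuotientOfFreeOfNeBot _ (nonZeroDivisors.coe_ne_zero (mJ m J))
  haveI : Fintype {q : 𝓞 F ⧸ (modI F m * (J : Ideal (𝓞 F))) //
      Quotient.out q ∈ (J : Ideal (𝓞 F))} := Fintype.ofFinite _
  obtain ⟨B₁, hB₁⟩ := periodic_coset_compare U (J : Ideal (𝓞 F))
    (modI F m * (J : Ideal (𝓞 F))) (mJ_le J)
  set Θ : ℂ := ∑ r : 𝓞 F ⧸ modI F m, gchi F χ (Quotient.out r) with hΘ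
  have hΘJ : ∑ q : {q : 𝓞 F ⧸ (modI F m * (J : Ideal (𝓞 F))) //
      Quotient.out q ∈ (J : Ideal (𝓞 F))}, gchi F χ (Quotient.out q.1) = Θ :=
    sum_coset_eq_sum_quot (modI F m) (J : Ideal (𝓞 F)) hJm (gchi F χ)
      (fun _ _ h => gchi_eq_of_sub_mem χ h)
  set N : ℝ := (Ideal.absNorm (J : Ideal (𝓞 F)) : ℝ) with hN
  set k : ℝ := (Ideal.absNorm (modI F m) : ℝ) with hk
  have hk0 : k ≠ 0 := by
    rw [hk]
    exact_mod_cast (Ideal.absNorm_eq_zero_iff.not.mpr (modI_ne_bot F))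
  have hkpos : 0 < k := lt_of_le_of_ne (Nat.cast_nonneg _) (Ne.symm hk0)
  have hcard : (Fintype.card {q : 𝓞 F ⧸ (modI F m * (J : Ideal (𝓞 F))) //
      Quotient.out q ∈ (J : Ideal (𝓞 F))} : ℝ) = k := by
    rw [hk, ← Nat.card_eq_fintype_card]
    exact_mod_cast card_coset_eq J
  have hN1 : 1 ≤ N := absNorm_one_le J
  have hNpos : 0 < N := by linarith
  have hJ0 : hchi F χ (J : Ideal (𝓞 F)) ≠ 0 := apply_absNorm_ne_zero χ hJm
  refine ⟨‖(hchi F χ (J : Ideal (𝓞 F)))⁻¹‖ * N ^ (2:ℝ) * (B₁ + ‖Θ‖ * k⁻¹ * B₁), ?_⟩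
  intro s hs
  have hS := summable_zetaR F hs.1
  obtain ⟨hsumc, -, -⟩ := sum_ideal_le U hs.1 (mJ m J) hS
  obtain ⟨hsg, hEg⟩ := hB₁ (gchi F χ) (norm_gchi_le_one χ)
    (gchi_add_of_mem χ (mJ_le_modI J)) s ⟨hs.1.le, hs.2⟩ hsumc
  obtain ⟨hs1, hE1⟩ := hB₁ (fun _ => 1) (fun _ => by simp) (fun _ _ _ => rfl) s
    ⟨hs.1.le, hs.2⟩ hsumc
  rw [hΘJ] at hEg
  -- the sum with `g = 1`
  have hone : (∑ _q : {q : 𝓞 F ⧸ (modI F m * (J : Ideal (𝓞 F))) //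
      Quotient.out q ∈ (J : Ideal (𝓞 F))}, (1:ℂ)) = ((k : ℝ) : ℂ) := by
    rw [Finset.sum_const, Finset.card_univ, nsmul_eq_mul, mul_one, ← hcard]
    push_cast
    rfl
  rw [hone] at hE1
  -- unfoldings
  have hUg := (hasSum_ideal_twist U hs.1 (hchi F χ) (norm_hchi_le χ) J C hJ hS).tsum_eq
  have hU1 := (hasSum_ideal U hs.1 J C hJ hS).tsum_eq
  set A : ℂ := ∑' I : {I : (Ideal (𝓞 F))⁰ // ClassGroup.mk0 I = C},
    nterm F χ s (I.1 : Ideal (𝓞 F)) with hA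
  set T : ℝ := ∑' γ : (modI F m * (J : Ideal (𝓞 F)) : Ideal (𝓞 F)), U.F s γ.1 with hT
  have hSg : ∑' a : (J : Ideal (𝓞 F)), gchi F χ a.1 * ((U.F s a.1 : ℝ) : ℂ) =
      ((N ^ (-s) : ℝ) : ℂ) * (hchi F χ (J : Ideal (𝓞 F)) * A) := by
    have e : ∀ I : {I : (Ideal (𝓞 F))⁰ // ClassGroup.mk0 I = C},
        hchi F χ ((J : Ideal (𝓞 F)) * (I.1 : Ideal (𝓞 F))) *
          (((Ideal.absNorm (I.1 : Ideal (𝓞 F)) : ℝ) ^ (-s) : ℝ) : ℂ) =
        hchi F χ (J : Ideal (𝓞 F)) * nterm F χ s (I.1 : Ideal (𝓞 F)) := by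
      intro I
      rw [hchi_mul, nterm_eq, mul_assoc]
    rw [hA, ← tsum_mul_left, ← tsum_congr e, ← hUg]
    exact tsum_congr (fun a => by rw [hchi_span χ hev])
  have hS1 : ∑' a : (J : Ideal (𝓞 F)), (1:ℂ) * ((U.F s a.1 : ℝ) : ℂ) =
      ((N ^ (-s) : ℝ) : ℂ) * ((classZeta C s : ℝ) : ℂ) := by
    simp only [one_mul]
    rw [← Complex.ofReal_tsum, hU1]
    push_cast
    rfl
  rw [hSg] at hEg
  rw [hS1] at hE1
  have hNN : ((N ^ s : ℝ) : ℂ) * ((N ^ (-s) : ℝ) : ℂ) = 1 := by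
    rw [← Complex.ofReal_mul, ← Real.rpow_add hNpos]
    simp
  have hkC : ((k : ℝ) : ℂ) ≠ 0 := by exact_mod_cast hk0
  rw [alg_id A ((classZeta C s : ℝ) : ℂ) ((T : ℝ) : ℂ) Θ (hchi F χ (J : Ideal (𝓞 F)))
    ((N ^ s : ℝ) : ℂ) ((N ^ (-s) : ℝ) : ℂ) ((k : ℝ) : ℂ) hJ0 hkC hNN]
  have hNs2 : N ^ s ≤ N ^ (2:ℝ) := Real.rpow_le_rpow_of_exponent_le hN1 hs.2
  have hNs0 : 0 ≤ N ^ s := by positivity
  have hB₁0 : 0 ≤ B₁ := (norm_nonneg _).trans hEg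
  calc ‖(hchi F χ (J : Ideal (𝓞 F)))⁻¹ * ((N ^ s : ℝ) : ℂ) *
        ((((N ^ (-s) : ℝ) : ℂ) * (hchi F χ (J : Ideal (𝓞 F)) * A) - Θ * ((T : ℝ) : ℂ)) -
          Θ * ((k : ℝ) : ℂ)⁻¹ *
            (((N ^ (-s) : ℝ) : ℂ) * ((classZeta C s : ℝ) : ℂ) - ((k : ℝ) : ℂ) * ((T : ℝ) : ℂ)))‖
      ≤ ‖(hchi F χ (J : Ideal (𝓞 F)))⁻¹‖ * N ^ s * (B₁ + ‖Θ‖ * k⁻¹ * B₁) := by
        rw [norm_mul, norm_mul, Complex.norm_real, Real.norm_of_nonneg hNs0]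
        refine mul_le_mul_of_nonneg_left ?_ (by positivity)
        refine (norm_sub_le _ _).trans (add_le_add hEg ?_)
        rw [norm_mul, norm_mul, norm_inv, Complex.norm_real, Real.norm_of_nonneg hkpos.le]
        exact mul_le_mul_of_nonneg_left hE1 (by positivity)
    _ ≤ ‖(hchi F χ (J : Ideal (𝓞 F)))⁻¹‖ * N ^ (2:ℝ) * (B₁ + ‖Θ‖ * k⁻¹ * B₁) := by
        have : 0 ≤ B₁ + ‖Θ‖ * k⁻¹ * B₁ := by positivity
        gcongr

end OneClass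

/-! ### Splitting along the ideal classes -/

theorem normL_eq_sum_classes (χ : DirichletCharacter ℂ m) {s : ℝ} (hs : 1 < s) :
    normL F χ s = ∑ C : ClassGroup (𝓞 F),
      ∑' I : {I : (Ideal (𝓞 F))⁰ // ClassGroup.mk0 I = C}, nterm F χ s (I.1 : Ideal (𝓞 F)) := by
  classical
  have hsum0 : Summable fun a : (Ideal (𝓞 F))⁰ => nterm F χ s (a : Ideal (𝓞 F)) :=
    (summable_nterm F χ hs).subtype _
  have hsupp : Function.support (fun a : Ideal (𝓞 F) => nterm F χ s a) ⊆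
      ((Ideal (𝓞 F))⁰ : Set (Ideal (𝓞 F))) := by
    intro a ha
    rw [SetLike.mem_coe, mem_nonZeroDivisors_iff_ne_zero]
    rintro rfl
    exact ha (nterm_bot χ (by linarith))
  have h1 : normL F χ s = ∑' a : (Ideal (𝓞 F))⁰, nterm F χ s (a : Ideal (𝓞 F)) :=
    (tsum_subtype_eq_of_support_subset hsupp).symm
  rw [h1, ← (Equiv.sigmaFiberEquiv (ClassGroup.mk0 (R := 𝓞 F))).tsum_eq]
  rw [Summable.tsum_sigma' (fun C => ?_) ?_, tsum_fintype]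
  · rfl
  · exact hsum0.comp_injective (Equiv.sigmaFiberEquiv (ClassGroup.mk0 (R := 𝓞 F))).injective
  · exact hsum0.comp_injective
      ((Equiv.sigmaFiberEquiv (ClassGroup.mk0 (R := 𝓞 F))).injective.comp sigma_mk_injective)

/-! ### The vanishing of the main term -/

theorem hchi_bot_eq (χ : DirichletCharacter ℂ m) :
    hchi F χ (⊥ : Ideal (𝓞 F)) = 0 ∨ hchi F χ (⊥ : Ideal (𝓞 F)) = 1 := by
  unfold hchi
  rw [Ideal.absNorm_bot, Nat.cast_zero]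
  by_cases h0 : IsUnit (0 : ZMod m)
  · right
    rw [isUnit_zero_iff] at h0
    rw [h0, map_one]
  · left
    exact MulChar.map_nonunit χ h0

/-- In case B the value of `χ ∘ N` at an ideal prime to `m` only depends on its class. -/
theorem hchi_eq_inv_of_class (χ : DirichletCharacter ℂ m) (hev : χ.Even)
    (hB : ∀ u : 𝓞 F, gchi F χ u ≠ 0 → gchi F χ u = 1)
    (J I : (Ideal (𝓞 F))⁰) (C : ClassGroup (𝓞 F)) (hJ : ClassGroup.mk0 J = C⁻¹)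
    (hI : ClassGroup.mk0 I = C) (hJ0 : hchi F χ (J : Ideal (𝓞 F)) ≠ 0)
    (hI0 : hchi F χ (I : Ideal (𝓞 F)) ≠ 0) :
    hchi F χ (I : Ideal (𝓞 F)) = (hchi F χ (J : Ideal (𝓞 F)))⁻¹ := by
  have h1 : ClassGroup.mk0 (J * I) = 1 := by rw [map_mul, hJ, hI]; simp
  have hp : ((J * I : (Ideal (𝓞 F))⁰) : Ideal (𝓞 F)).IsPrincipal :=
    (ClassGroup.mk0_eq_one_iff (J * I).2).mp h1
  obtain ⟨α, hα⟩ := hp.principal
  have h2 : hchi F χ (J : Ideal (𝓞 F)) * hchi F χ (I : Ideal (𝓞 F)) = gchi F χ α := by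
    rw [← hchi_mul, ← hchi_span χ hev α]
    congr 1
  have h3 : gchi F χ α = 1 := hB α (by rw [← h2]; exact mul_ne_zero hJ0 hI0)
  rw [h3] at h2
  exact eq_inv_of_mul_eq_one_right h2

open scoped Classical in
theorem theta_mul_sum_eq_zero [NeZero m] (χ : DirichletCharacter ℂ m) (hev : χ.Even)
    [Fintype (𝓞 F ⧸ modI F m)]
    (h : ∃ 𝔞 : Ideal (𝓞 F), hchi F χ 𝔞 ≠ 0 ∧ hchi F χ 𝔞 ≠ 1)
    (Jrep : ClassGroup (𝓞 F) → (Ideal (𝓞 F))⁰)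
    (hJrep : ∀ C, ((Jrep C : (Ideal (𝓞 F))⁰) : Ideal (𝓞 F)) ⊔ modI F m = ⊤ ∧
      ClassGroup.mk0 (Jrep C) = C⁻¹) :
    (∑ r : 𝓞 F ⧸ modI F m, gchi F χ (Quotient.out r)) *
      ∑ C : ClassGroup (𝓞 F), (hchi F χ ((Jrep C : (Ideal (𝓞 F))⁰) : Ideal (𝓞 F)))⁻¹ = 0 := by
  by_cases hA : ∃ u : 𝓞 F, gchi F χ u ≠ 0 ∧ gchi F χ u ≠ 1
  · rw [sum_gchi_out_eq_zero hA, zero_mul]
  · push Not at hA
    obtain ⟨𝔞₀, h0, h1⟩ := h
    have h𝔞₀ : 𝔞₀ ≠ ⊥ := by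
      rintro rfl
      rcases hchi_bot_eq (F := F) χ with h | h
      · exact h0 h
      · exact h1 h
    let A₀ : (Ideal (𝓞 F))⁰ := ⟨𝔞₀, mem_nonZeroDivisors_of_ne_zero h𝔞₀⟩
    set C₀ : ClassGroup (𝓞 F) := ClassGroup.mk0 A₀ with hC₀
    choose Irep hIrep using fun C : ClassGroup (𝓞 F) =>
      Fermat.Agent.CFT.CoprimeRep.exists_coprime_rep_classGroup (modI F m) (modI_ne_bot F) C
    set ψ : ClassGroup (𝓞 F) → ℂ :=
      fun C => (hchi F χ ((Jrep C : (Ideal (𝓞 F))⁰) : Ideal (𝓞 F)))⁻¹ with hψ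
    have hJ0 : ∀ C, hchi F χ ((Jrep C : (Ideal (𝓞 F))⁰) : Ideal (𝓞 F)) ≠ 0 :=
      fun C => apply_absNorm_ne_zero χ (hJrep C).1
    have hI0 : ∀ C, hchi F χ ((Irep C : (Ideal (𝓞 F))⁰) : Ideal (𝓞 F)) ≠ 0 :=
      fun C => apply_absNorm_ne_zero χ (hIrep C).1
    have hkey : ∀ C, ψ (C * C₀) = ψ C * hchi F χ 𝔞₀ := by
      intro C
      have e1 : hchi F χ ((Irep C : (Ideal (𝓞 F))⁰) : Ideal (𝓞 F)) = ψ C :=
        hchi_eq_inv_of_class χ hev hA (Jrep C) (Irep C) C (hJrep C).2 (hIrep C).2 (hJ0 C) (hI0 C)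
      have e2 : hchi F χ (((Irep C * A₀ : (Ideal (𝓞 F))⁰)) : Ideal (𝓞 F)) = ψ (C * C₀) := by
        refine hchi_eq_inv_of_class χ hev hA (Jrep (C * C₀)) (Irep C * A₀) (C * C₀)
          (hJrep (C * C₀)).2 (by rw [map_mul, (hIrep C).2]) (hJ0 _) ?_
        show hchi F χ (((Irep C : (Ideal (𝓞 F))⁰) : Ideal (𝓞 F)) * 𝔞₀) ≠ 0
        rw [hchi_mul]
        exact mul_ne_zero (hI0 C) h0
      rw [← e2, ← e1]
      exact hchi_mul χ _ _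
    have hsum : ∑ C : ClassGroup (𝓞 F), ψ C = (∑ C : ClassGroup (𝓞 F), ψ C) * hchi F χ 𝔞₀ := by
      conv_lhs => rw [← Equiv.sum_comp (Equiv.mulRight C₀) ψ]
      rw [Finset.sum_mul]
      exact Finset.sum_congr rfl (fun C _ => hkey C)
    have hz : ∑ C : ClassGroup (𝓞 F), ψ C = 0 := by
      have h2 : (∑ C : ClassGroup (𝓞 F), ψ C) * (1 - hchi F χ 𝔞₀) = 0 := by
        rw [mul_sub, mul_one, ← hsum, sub_self]
      rcases mul_eq_zero.mp h2 with h3 | h3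
      · exact h3
      · exact absurd (sub_eq_zero.mp h3).symm h1
    rw [hz, mul_zero]

/-! ### The theorem -/

/-- **(NR)** The norm-residue `L`-series of an even Dirichlet character which is not trivial on
the norms of ideals is bounded on `(1, 2]`. -/
theorem normL_bounded [NeZero m] (χ : DirichletCharacter ℂ m) (hev : χ.Even)
    (h : ∃ 𝔞 : Ideal (𝓞 F), χ ((Ideal.absNorm 𝔞 : ℕ) : ZMod m) ≠ 0 ∧
      χ ((Ideal.absNorm 𝔞 : ℕ) : ZMod m) ≠ 1) :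
    ∃ B : ℝ, ∀ s ∈ Set.Ioc (1 : ℝ) 2, ‖normL F χ s‖ ≤ B := by
  classical
  haveI : Finite (𝓞 F ⧸ modI F m) := Ideal.finiteQuotientOfFreeOfNeBot _ (modI_ne_bot F)
  haveI : Fintype (𝓞 F ⧸ modI F m) := Fintype.ofFinite _
  choose Jrep hJrep using fun C : ClassGroup (𝓞 F) =>
    Fermat.Agent.CFT.CoprimeRep.exists_coprime_rep_classGroup (modI F m) (modI_ne_bot F) C⁻¹
  choose Bc hBc using fun C : ClassGroup (𝓞 F) =>
    class_sum_approx χ hev (Jrep C) C (hJrep C).2 (hJrep C).1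
  obtain ⟨B₀, hB₀⟩ := exists_classZeta_sub_le' F
  set Θ : ℂ := ∑ r : 𝓞 F ⧸ modI F m, gchi F χ (Quotient.out r) with hΘ
  set ψ : ClassGroup (𝓞 F) → ℂ :=
    fun C => (hchi F χ ((Jrep C : (Ideal (𝓞 F))⁰) : Ideal (𝓞 F)))⁻¹ with hψ
  set k : ℂ := ((Ideal.absNorm (modI F m) : ℝ) : ℂ) with hk
  have hz : Θ * ∑ C : ClassGroup (𝓞 F), ψ C = 0 :=
    theta_mul_sum_eq_zero χ hev h Jrep hJrep
  refine ⟨∑ C : ClassGroup (𝓞 F), Bc C +
    ‖Θ‖ * ‖k⁻¹‖ * ∑ C : ClassGroup (𝓞 F), ‖ψ C‖ * B₀, fun s hs => ?_⟩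
  rw [normL_eq_sum_classes χ hs.1]
  set A : ClassGroup (𝓞 F) → ℂ := fun C =>
    ∑' I : {I : (Ideal (𝓞 F))⁰ // ClassGroup.mk0 I = C}, nterm F χ s (I.1 : Ideal (𝓞 F)) with hA
  set Z : ClassGroup (𝓞 F) → ℂ := fun C => ((classZeta C s : ℝ) : ℂ) with hZ
  have hmain : ∑ C : ClassGroup (𝓞 F), ψ C * Θ * k⁻¹ * Z C =
      Θ * k⁻¹ * ∑ C : ClassGroup (𝓞 F), ψ C * (Z C - Z 1) := by
    have e : ∑ C : ClassGroup (𝓞 F), ψ C * Θ * k⁻¹ * Z C =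
        Θ * k⁻¹ * ∑ C : ClassGroup (𝓞 F), ψ C * (Z C - Z 1) +
          k⁻¹ * Z 1 * (Θ * ∑ C : ClassGroup (𝓞 F), ψ C) := by
      rw [Finset.mul_sum, Finset.mul_sum, Finset.mul_sum, ← Finset.sum_add_distrib]
      refine Finset.sum_congr rfl (fun C _ => ?_)
      ring
    rw [e, hz, mul_zero, add_zero]
  have hsplit : ∑ C : ClassGroup (𝓞 F), A C =
      ∑ C : ClassGroup (𝓞 F), (A C - ψ C * Θ * k⁻¹ * Z C) +
        Θ * k⁻¹ * ∑ C : ClassGroup (𝓞 F), ψ C * (Z C - Z 1) := by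
    rw [← hmain, ← Finset.sum_add_distrib]
    exact Finset.sum_congr rfl (fun C _ => by ring)
  rw [hsplit]
  refine (norm_add_le _ _).trans (add_le_add ?_ ?_)
  · refine (norm_sum_le _ _).trans (Finset.sum_le_sum (fun C _ => ?_))
    exact hBc C s hs
  · rw [norm_mul, norm_mul]
    refine mul_le_mul_of_nonneg_left ?_ (by positivity)
    refine (norm_sum_le _ _).trans (Finset.sum_le_sum (fun C _ => ?_))
    rw [norm_mul]
    refine mul_le_mul_of_nonneg_left ?_ (norm_nonneg _)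
    rw [hZ]
    simp only
    rw [← Complex.ofReal_sub, Complex.norm_real, Real.norm_eq_abs]
    exact hB₀ s hs C 1

end Fermat.Agent.ES.R48.NormLBound7
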