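/-
Programme R (S48) / chapter A4 CHEB, brick CY3 (helper23): **density up to `{inversion, c₀}` in a
cyclotomic-type abelian extension** — the chapter-internal export `cyclo_density_pm` (CY), in the
literal shape of `R48_A4_CHEB7.md` §2.

`Ω/F` finite abelian extension of number fields, `ζ ∈ Ω` a primitive `q`-th root of unity whose
cyclotomic character `κ = hζ.autToPow F : Gal(Ω/F) →* (ZMod q)ˣ` is injective, `κ c₀ = -1`,
`q ∣ M`.  For `w : Gal(Ω/F) → ℝ` with `w g⁻¹ = w g = w (c₀ g)`: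

  `∑_{𝔮 good} w(Frob 𝔮) · N𝔮^(-s) = (|Gal(Ω/F)|⁻¹ ∑_g w g) · log (1/(s-1)) + O(1)` on `(1, 2]`.

This is `CycloDensityCore23.cyclo_density_pm_of_bounded` with its hypothesis `hNR` discharged by
`NormLBound7.normL_bounded` (NR5).  `cyclo_density_lower` is the one-sided form consumed by
`Descent18.descent_lower` (`hcyc`), over `goodPrimes F (M * |disc Ω|) = good F Ω M`.
-/
import Mathlib
import Fermat.Agent.ES.R48.NormLBound7
import Fermat.Agent.ES.R48.CycloDensityCore23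

set_option autoImplicit false

open IsDedekindDomain Ideal NumberField
open Fermat.Agent.CFT.ArtinSymbol Fermat.Agent.CFT.NotAllSplit Fermat.Agent.CFT.SplitPrimes
open Fermat.Agent.ES.GAL.ChebDensity23

namespace Fermat.Agent.ES.R48.CycloDensityPM23

/-- **(CY)** Density up to `{inversion, c₀}` in a cyclotomic-type abelian extension. -/
theorem cyclo_density_pm (F Ω : Type) [Field F] [Field Ω] [NumberField F] [NumberField Ω]
    [Algebra F Ω] [IsGalois F Ω] [IsMulCommutative (Ω ≃ₐ[F] Ω)] {q : ℕ} [NeZero q] {ζ : Ω}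
    (hζ : IsPrimitiveRoot ζ q) (hinj : Function.Injective (hζ.autToPow F)) (c₀ : Ω ≃ₐ[F] Ω)
    (hc₀ : hζ.autToPow F c₀ = -1) (M : ℕ) (hM : M ≠ 0) (hqM : q ∣ M)
    (w : (Ω ≃ₐ[F] Ω) → ℝ) (hinv : ∀ g, w g⁻¹ = w g) (hc : ∀ g, w (c₀ * g) = w g) :
    ∃ B : ℝ, ∀ s ∈ Set.Ioc (1 : ℝ) 2,
      |∑' 𝔮 : HeightOneSpectrum (𝓞 F), (good F Ω M).indicator
            (fun 𝔮 => w (frobOf F Ω 𝔮.asIdeal) * xP F s 𝔮) 𝔮
        - (∑ᶠ g, w g) / Nat.card (Ω ≃ₐ[F] Ω) * Real.log (1 / (s - 1))| ≤ B :=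
  Fermat.Agent.ES.R48.CycloDensityCore23.cyclo_density_pm_of_bounded hζ hinj c₀ hc₀ M hM hqM
    (fun ψ hev h => Fermat.Agent.ES.R48.NormLBound7.normL_bounded (F := F) ψ hev h) w hinv hc

/-- The lower half of (CY), in the shape of the hypothesis `hcyc` of `Descent18.descent_lower`
(with `M' = M * |disc Ω|`, so that `goodPrimes F M'` is `good F Ω M`). -/
theorem cyclo_density_lower (F Ω : Type) [Field F] [Field Ω] [NumberField F] [NumberField Ω]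
    [Algebra F Ω] [IsGalois F Ω] [IsMulCommutative (Ω ≃ₐ[F] Ω)] {q : ℕ} [NeZero q] {ζ : Ω}
    (hζ : IsPrimitiveRoot ζ q) (hinj : Function.Injective (hζ.autToPow F)) (c₀ : Ω ≃ₐ[F] Ω)
    (hc₀ : hζ.autToPow F c₀ = -1) (M : ℕ) (hM : M ≠ 0) (hqM : q ∣ M) :
    ∀ w : (Ω ≃ₐ[F] Ω) → ℝ, (∀ g, 0 ≤ w g) → (∀ g, w g⁻¹ = w g) → (∀ g, w (c₀ * g) = w g) →
      ∃ B : ℝ, ∀ s ∈ Set.Ioc (1 : ℝ) 2,
        (∑ᶠ g, w g) / Nat.card (Ω ≃ₐ[F] Ω) * Real.log (1 / (s - 1)) - B ≤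
          ∑' 𝔮 : HeightOneSpectrum (𝓞 F), (goodPrimes F (M * (discr Ω).natAbs)).indicator
            (fun 𝔮 => w (frobOf F Ω 𝔮.asIdeal) * xP F s 𝔮) 𝔮 := by
  intro w _ hinv hc
  obtain ⟨B, hB⟩ := cyclo_density_pm F Ω hζ hinj c₀ hc₀ M hM hqM w hinv hc
  refine ⟨B, fun s hs => ?_⟩
  have h := (abs_le.mp (hB s hs)).1
  linarith

end Fermat.Agent.ES.R48.CycloDensityPM23
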