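/-
Programme R (S48, Deligne–Serre), chapter A4 CHEB (helper18): **the counting core of Deuring's
reduction**, abstractly.  Pure Mathlib.

A finite group `G` acts on a set `Y` ("primes of `L`"), `π : Y → ι` ("the prime of `K` below") is
`G`-invariant with the `G`-orbits as fibres over a set `S ⊆ ι` ("good primes"), and `fr : Y → G`
("Frobenius") satisfies `fr (g • P) = g * fr P * g⁻¹` and `stabilizer G P = zpowers (fr P)` over `S`.
Then for every conjugation-stable finite set `C ⊆ G` and every weight `x : ι → ℝ≥0∞`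

  `#G * ∑_{p ∈ S, Frobenius class of p in C} x p = ∑_{τ ∈ C} orderOf τ * ∑_{P, π P ∈ S, fr P = τ} x (π P)`

(`card_mul_tsum_eq_sum`).  The inner sums on the right are, in the application, sums over the degree
one primes of the fixed field of `τ` with Frobenius `τ`.
-/
import Mathlib

set_option autoImplicit false
set_option linter.unusedSectionVars false

open scoped ENNReal

namespace Fermat.Agent.ES.R48.DeuringAbs18

variable {G Y ι : Type*} [Group G] [Finite G] [MulAction G Y]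

/-- **Fibre count.**  If the fibre of `π` through `P` is the orbit of `P` and the stabilizer of `P`
is generated by `τ`, then the fibre has `#G / orderOf τ` elements. -/
theorem ncard_fiber_mul_orderOf (π : Y → ι) (hπ : ∀ (g : G) (P : Y), π (g • P) = π P) (P : Y)
    (horb : ∀ Q : Y, π P = π Q → ∃ g : G, g • P = Q) (τ : G)
    (hstab : MulAction.stabilizer G P = Subgroup.zpowers τ) :
    (π ⁻¹' {π P}).ncard * orderOf τ = Nat.card G := by
  have hfib : π ⁻¹' {π P} = MulAction.orbit G P := by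
    ext Q
    constructor
    · intro hQ
      obtain ⟨g, hg⟩ := horb Q (Eq.symm hQ)
      exact ⟨g, hg⟩
    · rintro ⟨g, rfl⟩
      exact hπ g P
  rw [hfib, ← Nat.card_zpowers, ← hstab, ← Nat.card_coe_set_eq, ← Nat.card_prod]
  exact Nat.card_congr (MulAction.orbitProdStabilizerEquivGroup G P)

theorem finite_fiber (π : Y → ι) (P : Y)
    (horb : ∀ Q : Y, π P = π Q → ∃ g : G, g • P = Q) : (π ⁻¹' {π P}).Finite := by
  have hsub : π ⁻¹' {π P} ⊆ MulAction.orbit G P := by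
    intro Q hQ
    obtain ⟨g, hg⟩ := horb Q (Eq.symm hQ)
    exact ⟨g, hg⟩
  exact (Set.finite_range _).subset hsub

/-- **Deuring's counting identity.** -/
theorem card_mul_tsum_eq_sum (π : Y → ι) (fr : Y → G) (S : Set ι)
    (hπ : ∀ (g : G) (P : Y), π (g • P) = π P)
    (horb : ∀ P Q : Y, π P ∈ S → π P = π Q → ∃ g : G, g • P = Q)
    (hfr : ∀ (g : G) (P : Y), π P ∈ S → fr (g • P) = g * fr P * g⁻¹)
    (hstab : ∀ P : Y, π P ∈ S → MulAction.stabilizer G P = Subgroup.zpowers (fr P))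
    (x : ι → ℝ≥0∞) (C : Finset G) (hC : ∀ g τ : G, τ ∈ C → g * τ * g⁻¹ ∈ C) :
    (Nat.card G : ℝ≥0∞) * ∑' p, ({p | p ∈ S ∧ ∃ P, π P = p ∧ fr P ∈ C} : Set ι).indicator x p =
      ∑ τ ∈ C, (orderOf τ : ℝ≥0∞) *
        ∑' P, ({P | π P ∈ S ∧ fr P = τ} : Set Y).indicator (fun P => x (π P)) P := by
  classical
  -- the weight on `Y`
  set h : Y → ℝ≥0∞ := fun P =>
    ({P | π P ∈ S ∧ fr P ∈ C} : Set Y).indicator (fun P => (orderOf (fr P) : ℝ≥0∞) * x (π P)) P
    with hh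
  -- right hand side as a single sum over `Y`
  have hR : ∑ τ ∈ C, (orderOf τ : ℝ≥0∞) *
      ∑' P, ({P | π P ∈ S ∧ fr P = τ} : Set Y).indicator (fun P => x (π P)) P = ∑' P, h P := by
    simp_rw [← ENNReal.tsum_mul_left]
    rw [← Summable.tsum_finsetSum (fun τ _ => ENNReal.summable)]
    refine tsum_congr (fun P => ?_)
    rw [hh]
    beta_reduce
    by_cases hP : π P ∈ S ∧ fr P ∈ C
    · rw [Set.indicator_of_mem (show P ∈ {P | π P ∈ S ∧ fr P ∈ C} from hP)]
      rw [Finset.sum_eq_single (fr P)]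
      · rw [Set.indicator_of_mem (show P ∈ {Q | π Q ∈ S ∧ fr Q = fr P} from ⟨hP.1, rfl⟩)]
      · intro τ _ hτ
        rw [Set.indicator_of_notMem (fun hmem : P ∈ {P | π P ∈ S ∧ fr P = τ} => hτ hmem.2.symm),
          mul_zero]
      · intro hnot
        exact absurd hP.2 hnot
    · rw [Set.indicator_of_notMem (show P ∉ {P | π P ∈ S ∧ fr P ∈ C} from hP)]
      refine Finset.sum_eq_zero (fun τ hτ => ?_)
      rw [Set.indicator_of_notMem, mul_zero]
      rintro ⟨h1, h2⟩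
      exact hP ⟨h1, h2 ▸ hτ⟩
  rw [hR, ← ENNReal.tsum_fiberwise h π, ← ENNReal.tsum_mul_left]
  refine tsum_congr (fun p => ?_)
  by_cases hp : p ∈ S ∧ ∃ P, π P = p ∧ fr P ∈ C
  · obtain ⟨hpS, P₀, hP₀, hP₀C⟩ := hp
    rw [Set.indicator_of_mem (show p ∈ {p | p ∈ S ∧ ∃ P, π P = p ∧ fr P ∈ C} from
      ⟨hpS, P₀, hP₀, hP₀C⟩)]
    have hS₀ : π P₀ ∈ S := hP₀ ▸ hpS
    have horb₀ : ∀ Q : Y, π P₀ = π Q → ∃ g : G, g • P₀ = Q := fun Q hQ => horb P₀ Q hS₀ hQ
    have hfin : (π ⁻¹' {p}).Finite := hP₀ ▸ finite_fiber (G := G) π P₀ horb₀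
    have hcount : (π ⁻¹' {p}).ncard * orderOf (fr P₀) = Nat.card G :=
      hP₀ ▸ ncard_fiber_mul_orderOf π hπ P₀ horb₀ (fr P₀) (hstab P₀ hS₀)
    have hval : ∀ Q : π ⁻¹' {p}, h Q = (orderOf (fr P₀) : ℝ≥0∞) * x p := by
      rintro ⟨Q, hQ⟩
      have hQp : π Q = p := hQ
      obtain ⟨g, rfl⟩ := horb₀ Q (hP₀.trans hQp.symm)
      have hfrg : fr (g • P₀) = g * fr P₀ * g⁻¹ := hfr g P₀ hS₀
      have hmem : g • P₀ ∈ {P | π P ∈ S ∧ fr P ∈ C} :=
        ⟨hQp ▸ hpS, hfrg ▸ hC g (fr P₀) hP₀C⟩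
      rw [hh]
      beta_reduce
      rw [Set.indicator_of_mem hmem, hQp, hfrg]
      congr 2
      exact (MulAut.conj g).orderOf_eq (fr P₀)
    simp_rw [hval]
    have := hfin.fintype
    rw [tsum_fintype, Finset.sum_const, Finset.card_univ, nsmul_eq_mul, ← mul_assoc,
      ← Nat.card_eq_fintype_card, Nat.card_coe_set_eq, ← hcount]
    push_cast
    ring
  · rw [Set.indicator_of_notMem (show p ∉ {p | p ∈ S ∧ ∃ P, π P = p ∧ fr P ∈ C} from hp),
      mul_zero]
    symm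
    rw [ENNReal.tsum_eq_zero]
    rintro ⟨Q, hQ⟩
    have hQp : π Q = p := hQ
    rw [hh]
    beta_reduce
    rw [Set.indicator_of_notMem]
    rintro ⟨h1, h2⟩
    exact hp ⟨hQp ▸ h1, Q, hQp, h2⟩

end Fermat.Agent.ES.R48.DeuringAbs18
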