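/-
Programme R (S48, Deligne–Serre), chapter A4 CHEB (helper18): **Deuring's reduction for number
fields**, as an exact identity of prime sums.

`L/K` a Galois extension of number fields, `G = Gal(L/K)`, `M` a multiple of `disc L`.  A prime `p`
of `K` is *good* if its absolute norm is a prime number not dividing `M`
(`NotAllSplit.goodPrimes K M`); good primes are unramified in `L`.

* `frobClassIn K L M C` : the good primes `p` of `K` with a Frobenius element in `C` at some prime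
  of `L` over `p` (for a conjugation-stable `C`: at all of them);
* `frobAt K L M τ` : the primes `P` of `L` over a good prime of `K` whose Frobenius is `τ`;
* **(A) `card_mul_tsum_frobClassIn`** : for a conjugation-stable finite `C`,
  `#G * ∑_{p ∈ frobClassIn C} N p ^ (-s) = ∑_{τ ∈ C} orderOf τ * ∑_{P ∈ frobAt τ} N (P ∩ K) ^ (-s)`;
* **(B) `tsum_frobAt_eq`** : if `F` is an intermediate field with `Gal(L/F) = ⟨τ⟩` and `τ'` is `τ`
  seen in `Gal(L/F)`, then `P ↦ P ∩ F` is a norm-preserving bijection from `frobAt K L M τ` onto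
  `frobClassIn F L M {τ'}`, so `∑_{P ∈ frobAt τ} N (P ∩ K) ^ (-s) = ∑_{q ∈ frobClassIn F L M {τ'}} N q ^ (-s)`;
* **`card_mul_wsum_frobClassIn`** : (A) and (B) together, in `ℝ`, with `F τ = fixedField ⟨τ⟩`.
-/
import Mathlib
import Fermat.Agent.CFT.NotAllSplit
import Fermat.Agent.CFT.DecompGroup
import Fermat.Agent.PT.GLOB.FrobGenerate19
import Fermat.Agent.ES.GAL.ChebDensity23
import Fermat.Agent.ES.R48.DeuringAbs18

set_option autoImplicit false
set_option linter.unusedSectionVars false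
set_option linter.style.haveILetI false

open IsDedekindDomain Ideal NumberField
open scoped Pointwise ENNReal
open Fermat.Agent.CFT.SplitPrimes Fermat.Agent.CFT.NotAllSplit
  Fermat.Agent.ES.GAL.ChebAbstract23 Fermat.Agent.PT.GLOB.FrobGenerate19

namespace Fermat.Agent.ES.R48.DeuringNF18

noncomputable section

/-! ### The Galois action on the primes of `L` -/

section Action

variable {K L : Type} [Field K] [Field L] [NumberField K] [NumberField L] [Algebra K L]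
  [IsGalois K L]

/-- The Galois group acts on the height one primes of `𝓞 L`. -/
@[reducible] def primesAction : MulAction (L ≃ₐ[K] L) (HeightOneSpectrum (𝓞 L)) where
  smul g P := ⟨g • P.asIdeal, inferInstance, fun h => P.ne_bot (by
    have h1 : g⁻¹ • (g • P.asIdeal) = g⁻¹ • (⊥ : Ideal (𝓞 L)) := congrArg (fun I => g⁻¹ • I) h
    rwa [inv_smul_smul, Ideal.smul_bot] at h1)⟩
  one_smul P := HeightOneSpectrum.ext (one_smul _ P.asIdeal)
  mul_smul g h P := HeightOneSpectrum.ext (mul_smul g h P.asIdeal)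

attribute [local instance] primesAction

theorem smul_asIdeal (g : L ≃ₐ[K] L) (P : HeightOneSpectrum (𝓞 L)) :
    (g • P).asIdeal = g • P.asIdeal := rfl

theorem below_smul (g : L ≃ₐ[K] L) (P : HeightOneSpectrum (𝓞 L)) :
    below (R := 𝓞 K) (g • P) = below (R := 𝓞 K) P :=
  HeightOneSpectrum.ext (Ideal.under_smul (𝓞 K) P.asIdeal g)

theorem exists_smul_eq_of_below_eq {P Q : HeightOneSpectrum (𝓞 L)}
    (h : below (R := 𝓞 K) P = below (R := 𝓞 K) Q) : ∃ g : L ≃ₐ[K] L, g • P = Q := by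
  have h' : P.asIdeal.under (𝓞 K) = Q.asIdeal.under (𝓞 K) := congrArg HeightOneSpectrum.asIdeal h
  obtain ⟨g, hg⟩ := Algebra.IsInvariant.exists_smul_of_under_eq (𝓞 K) (𝓞 L) (L ≃ₐ[K] L)
    P.asIdeal Q.asIdeal h'
  exact ⟨g, HeightOneSpectrum.ext hg.symm⟩

theorem mem_stabilizer_iff (g : L ≃ₐ[K] L) (P : HeightOneSpectrum (𝓞 L)) :
    g ∈ MulAction.stabilizer (L ≃ₐ[K] L) P ↔ g ∈ MulAction.stabilizer (L ≃ₐ[K] L) P.asIdeal := by
  rw [MulAction.mem_stabilizer_iff, MulAction.mem_stabilizer_iff]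
  constructor
  · intro h
    exact congrArg HeightOneSpectrum.asIdeal h
  · intro h
    exact HeightOneSpectrum.ext h

end Action

/-! ### Good primes are unramified; the Frobenius of a prime of `L` -/

section Frob

variable (K L : Type) [Field K] [Field L] [NumberField K] [NumberField L] [Algebra K L]
  [IsGalois K L]

variable {K L} in
theorem not_dvd_discr_of_good {M : ℕ} (hM : (discr L).natAbs ∣ M) {ℓ : ℕ} (h : ¬ ℓ ∣ M) :
    ¬ (ℓ : ℤ) ∣ discr L := by
  intro h'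
  apply h
  have : ℓ ∣ (discr L).natAbs := by
    rw [← Int.natCast_dvd_natCast, Int.natCast_natAbs]
    exact (dvd_abs _ _).mpr h'
  exact this.trans hM

variable {K L} in
/-- A prime of `L` over a good prime of `K` is unramified. -/
theorem inertia_eq_bot_of_good {M : ℕ} (hM : (discr L).natAbs ∣ M) {P : HeightOneSpectrum (𝓞 L)}
    (hP : below (R := 𝓞 K) P ∈ goodPrimes K M) : P.asIdeal.inertia (L ≃ₐ[K] L) = ⊥ :=
  inertia_eq_bot_of_not_dvd_discr P.asIdeal hP.1
    (Fermat.Agent.ES.GAL.ChebDensity23.natCast_absNorm_under_mem (K := K) P.asIdeal)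
    (not_dvd_discr_of_good hM hP.2)

variable {L} in
/-- A Frobenius element at the prime `P` of `L`, relative to `K`. -/
def fr (P : HeightOneSpectrum (𝓞 L)) : L ≃ₐ[K] L :=
  (Fermat.Agent.CFT.ArtinSymbol.exists_isArithFrobAt (K := K) P.asIdeal P.ne_bot).choose

variable {L} in
theorem isArithFrobAt_fr (P : HeightOneSpectrum (𝓞 L)) :
    IsArithFrobAt (𝓞 K) (fr K P) P.asIdeal :=
  (Fermat.Agent.CFT.ArtinSymbol.exists_isArithFrobAt (K := K) P.asIdeal P.ne_bot).choose_spec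

variable {K L} in
theorem fr_eq {M : ℕ} (hM : (discr L).natAbs ∣ M) {P : HeightOneSpectrum (𝓞 L)}
    (hP : below (R := 𝓞 K) P ∈ goodPrimes K M) {σ : L ≃ₐ[K] L}
    (hσ : IsArithFrobAt (𝓞 K) σ P.asIdeal) : fr K P = σ :=
  Fermat.Agent.CFT.ArtinSymbol.isArithFrobAt_unique (inertia_eq_bot_of_good hM hP)
    (isArithFrobAt_fr K P) hσ

/-- The good primes of `K` having a Frobenius element in `C`. -/
def frobClassIn (M : ℕ) (C : Set (L ≃ₐ[K] L)) : Set (HeightOneSpectrum (𝓞 K)) :=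
  {p | p ∈ goodPrimes K M ∧ ∃ P : Ideal (𝓞 L), P.IsPrime ∧ P.under (𝓞 K) = p.asIdeal ∧
    ∃ σ ∈ C, IsArithFrobAt (𝓞 K) σ P}

/-- The primes of `L` over a good prime of `K` with Frobenius `τ`. -/
def frobAt (M : ℕ) (τ : L ≃ₐ[K] L) : Set (HeightOneSpectrum (𝓞 L)) :=
  {P | below (R := 𝓞 K) P ∈ goodPrimes K M ∧ IsArithFrobAt (𝓞 K) τ P.asIdeal}

variable {K L} in
theorem frobClassIn_mono {M : ℕ} {C C' : Set (L ≃ₐ[K] L)} (h : C ⊆ C') :
    frobClassIn K L M C ⊆ frobClassIn K L M C' := by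
  rintro p ⟨hp, P, hP, hPp, σ, hσ, hfrob⟩
  exact ⟨hp, P, hP, hPp, σ, h hσ, hfrob⟩

variable {K L} in
theorem frobClassIn_subset_good {M : ℕ} {C : Set (L ≃ₐ[K] L)} :
    frobClassIn K L M C ⊆ goodPrimes K M := fun _ hp => hp.1

end Frob

/-! ### (A) Deuring's counting identity -/

section CountA

variable (K L : Type) [Field K] [Field L] [NumberField K] [NumberField L] [Algebra K L]
  [IsGalois K L]

attribute [local instance] primesAction

theorem card_mul_tsum_frobClassIn {M : ℕ} (hM : (discr L).natAbs ∣ M) (C : Finset (L ≃ₐ[K] L))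
    (hC : ∀ g τ : L ≃ₐ[K] L, τ ∈ C → g * τ * g⁻¹ ∈ C) (s : ℝ) :
    (Nat.card (L ≃ₐ[K] L) : ℝ≥0∞) * ∑' p : HeightOneSpectrum (𝓞 K),
        (frobClassIn K L M (C : Set (L ≃ₐ[K] L))).indicator
          (fun p => ENNReal.ofReal (xP K s p)) p =
      ∑ τ ∈ C, (orderOf τ : ℝ≥0∞) * ∑' P : HeightOneSpectrum (𝓞 L),
        (frobAt K L M τ).indicator (fun P => ENNReal.ofReal (xP K s (below (R := 𝓞 K) P))) P := by
  classical
  have key := Fermat.Agent.ES.R48.DeuringAbs18.card_mul_tsum_eq_sum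
    (G := L ≃ₐ[K] L) (Y := HeightOneSpectrum (𝓞 L)) (ι := HeightOneSpectrum (𝓞 K))
    (below (R := 𝓞 K)) (fr K) (goodPrimes K M)
    (fun g P => below_smul g P)
    (fun P Q _ h => exists_smul_eq_of_below_eq h)
    (fun g P hP => by
      have hgP : below (R := 𝓞 K) (g • P) ∈ goodPrimes K M := by rw [below_smul]; exact hP
      exact fr_eq hM hgP ((isArithFrobAt_fr K P).conj g))
    (fun P hP => by
      ext g
      rw [mem_stabilizer_iff,
        Fermat.Agent.CFT.DecompGroup.stabilizer_eq_zpowers_of_isArithFrobAt P.ne_bot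
          (inertia_eq_bot_of_good hM hP) (isArithFrobAt_fr K P)])
    (fun p => ENNReal.ofReal (xP K s p)) C hC
  have hset : ({p | p ∈ goodPrimes K M ∧ ∃ P : HeightOneSpectrum (𝓞 L),
      below (R := 𝓞 K) P = p ∧ fr K P ∈ C} : Set (HeightOneSpectrum (𝓞 K))) =
      frobClassIn K L M (C : Set (L ≃ₐ[K] L)) := by
    ext p
    constructor
    · rintro ⟨hp, P, hPp, hfrC⟩
      exact ⟨hp, P.asIdeal, P.isPrime, congrArg HeightOneSpectrum.asIdeal hPp, fr K P, hfrC,
        isArithFrobAt_fr K P⟩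
    · rintro ⟨hp, P, hP, hPp, σ, hσC, hσ⟩
      have hP0 : P ≠ ⊥ :=
        Fermat.Agent.CFT.ArtinSymbol.ne_bot_of_under_ne_bot hPp p.ne_bot
      set P' : HeightOneSpectrum (𝓞 L) := ⟨P, hP, hP0⟩ with hP'
      have hbel : below (R := 𝓞 K) P' = p := HeightOneSpectrum.ext hPp
      refine ⟨hp, P', hbel, ?_⟩
      have : fr K P' = σ := fr_eq hM (hbel ▸ hp) hσ
      rw [this]
      exact hσC
  have hsetτ : ∀ τ : L ≃ₐ[K] L,
      ({P | below (R := 𝓞 K) P ∈ goodPrimes K M ∧ fr K P = τ} : Set (HeightOneSpectrum (𝓞 L))) =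
        frobAt K L M τ := by
    intro τ
    ext P
    constructor
    · rintro ⟨hP, rfl⟩
      exact ⟨hP, isArithFrobAt_fr K P⟩
    · rintro ⟨hP, hτ⟩
      exact ⟨hP, fr_eq hM hP hτ⟩
  rw [hset] at key
  simp_rw [hsetτ] at key
  exact key

end CountA

/-! ### (B) The primes with Frobenius `τ` and the fixed field of `τ` -/

section CountB

variable (K L : Type) [Field K] [Field L] [NumberField K] [NumberField L] [Algebra K L]
  [IsGalois K L]

variable {K L}

/-- Transfer of the Frobenius property from `K` to an intermediate field when the residue fields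
have the same size. -/
theorem isArithFrobAt_of_card_eq (F : IntermediateField K L) {P : Ideal (𝓞 L)}
    {τ : L ≃ₐ[K] L} {τ' : L ≃ₐ[F] L} (hτ' : τ'.restrictScalars K = τ)
    (hcard : Nat.card (𝓞 F ⧸ P.under (𝓞 F)) = Nat.card (𝓞 K ⧸ P.under (𝓞 K))) :
    IsArithFrobAt (𝓞 K) τ P ↔ IsArithFrobAt (𝓞 F) τ' P := by
  constructor
  · intro h x
    have := h x
    change τ • x - x ^ Nat.card (𝓞 K ⧸ P.under (𝓞 K)) ∈ P at this
    change τ' • x - x ^ Nat.card (𝓞 F ⧸ P.under (𝓞 F)) ∈ P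
    rw [hcard, ← Fermat.Agent.CFT.FrobFunct.restrictScalars_smul (K := K) F τ' x, hτ']
    exact this
  · intro h x
    have := h x
    change τ' • x - x ^ Nat.card (𝓞 F ⧸ P.under (𝓞 F)) ∈ P at this
    change τ • x - x ^ Nat.card (𝓞 K ⧸ P.under (𝓞 K)) ∈ P
    rw [← hcard, ← hτ', Fermat.Agent.CFT.FrobFunct.restrictScalars_smul (K := K) F τ' x]
    exact this

variable (K L)

/-- **(B)**, the bijection.  `P ↦ P ∩ 𝓞 F` maps the primes of `L` with Frobenius `τ` (over good primes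
of `K`) bijectively onto the good primes of `F = L^⟨τ⟩` with Frobenius `τ'`. -/
theorem bijOn_below_frobAt {M : ℕ} (hM : (discr L).natAbs ∣ M) (F : IntermediateField K L)
    (τ : L ≃ₐ[K] L) (hF : F.fixingSubgroup = Subgroup.zpowers τ) (τ' : L ≃ₐ[F] L)
    (hτ' : τ'.restrictScalars K = τ) :
    Set.BijOn (below (R := 𝓞 F) (S := 𝓞 L)) (frobAt K L M τ) (frobClassIn F L M {τ'}) ∧
      ∀ P ∈ frobAt K L M τ, absNorm (below (R := 𝓞 F) P).asIdeal =
        absNorm (below (R := 𝓞 K) P).asIdeal := by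
  have hτF : τ ∈ F.fixingSubgroup := by rw [hF]; exact Subgroup.mem_zpowers τ
  -- norms
  have hnorm : ∀ P ∈ frobAt K L M τ, absNorm (below (R := 𝓞 F) P).asIdeal =
      absNorm (below (R := 𝓞 K) P).asIdeal := by
    rintro P ⟨hPg, hPτ⟩
    have hunr := inertia_eq_bot_of_good hM hPg
    have h1 := Fermat.Agent.CFT.DecompGroup.relNorm_under_of_mem_fixingSubgroup P.ne_bot hunr hPτ
      F hτF
    show absNorm (P.asIdeal.under (𝓞 F)) = absNorm (P.asIdeal.under (𝓞 K))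
    rw [← h1, Ideal.absNorm_relNorm]
  refine ⟨⟨?_, ?_, ?_⟩, hnorm⟩
  · -- maps to
    rintro P ⟨hPg, hPτ⟩
    have hn := hnorm P ⟨hPg, hPτ⟩
    refine ⟨⟨by rw [hn]; exact hPg.1, by rw [hn]; exact hPg.2⟩, P.asIdeal, P.isPrime, rfl, τ',
      Set.mem_singleton _, ?_⟩
    refine (isArithFrobAt_of_card_eq F hτ' ?_).mp hPτ
    rw [← Fermat.Agent.CFT.NotAllSplit10.absNorm_eq_card,
      ← Fermat.Agent.CFT.NotAllSplit10.absNorm_eq_card]
    exact hn
  · -- injective
    rintro P ⟨hPg, hPτ⟩ P' ⟨hP'g, hP'τ⟩ hPP'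
    have h' : P.asIdeal.under (𝓞 F) = P'.asIdeal.under (𝓞 F) :=
      congrArg HeightOneSpectrum.asIdeal hPP'
    obtain ⟨g, hg⟩ := Algebra.IsInvariant.exists_smul_of_under_eq (𝓞 F) (𝓞 L) (L ≃ₐ[F] L)
      P.asIdeal P'.asIdeal h'
    have hgF : g.restrictScalars K ∈ F.fixingSubgroup := by
      rw [IntermediateField.mem_fixingSubgroup_iff]
      intro x hx
      exact g.commutes ⟨x, hx⟩
    have hstab := Fermat.Agent.CFT.DecompGroup.stabilizer_eq_zpowers_of_isArithFrobAt P.ne_bot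
      (inertia_eq_bot_of_good hM hPg) hPτ
    rw [hF, ← hstab, MulAction.mem_stabilizer_iff,
      Fermat.Agent.CFT.FrobFunct.restrictScalars_smul_ideal] at hgF
    apply HeightOneSpectrum.ext
    rw [hg, hgF]
  · -- surjective
    rintro q ⟨hqg, P, hP, hPq, σ, hσ, hfrob⟩
    rw [Set.mem_singleton_iff] at hσ
    subst hσ
    haveI := hP
    have hP0 : P ≠ ⊥ := Fermat.Agent.CFT.ArtinSymbol.ne_bot_of_under_ne_bot hPq q.ne_bot
    set P' : HeightOneSpectrum (𝓞 L) := ⟨P, hP, hP0⟩ with hP'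
    have hbel : below (R := 𝓞 F) P' = q := HeightOneSpectrum.ext hPq
    -- the residue fields of `q` and of the prime of `K` below have the same size
    set ℓ := absNorm q.asIdeal with hℓ
    have hfinw : Finite (𝓞 F ⧸ P.under (𝓞 F)) := hfrob.finite_quotient
    haveI : (P.under (𝓞 F)).IsMaximal :=
      Fermat.Agent.CFT.FrobFunct.isMaximal_of_finite_quotient _
    haveI : ((P.under (𝓞 F)).under (𝓞 K)).IsMaximal :=
      Ideal.isMaximal_comap_of_isIntegral_of_isMaximal (P.under (𝓞 F))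
    have hw0 : P.under (𝓞 F) ≠ ⊥ := by rw [hPq]; exact q.ne_bot
    have hq0 : (P.under (𝓞 F)).under (𝓞 K) ≠ ⊥ := fun h => hw0 (Ideal.eq_bot_of_comap_eq_bot h)
    haveI : Finite (𝓞 K ⧸ (P.under (𝓞 F)).under (𝓞 K)) :=
      Ideal.finiteQuotientOfFreeOfNeBot _ hq0
    have hcard := Fermat.Agent.CFT.FrobFunct.card_quot_eq_pow_inertiaDeg (R := 𝓞 K)
      (P.under (𝓞 F))
    have hKK : (P.under (𝓞 F)).under (𝓞 K) = P.under (𝓞 K) := Ideal.under_under _
    rw [hKK] at hcard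
    have hcardw : Nat.card (𝓞 F ⧸ P.under (𝓞 F)) = ℓ := by
      rw [hPq, hℓ, Fermat.Agent.CFT.NotAllSplit10.absNorm_eq_card]
    rw [hcardw] at hcard
    have hcardq : Nat.card (𝓞 K ⧸ P.under (𝓞 K)) = ℓ := eq_of_pow_prime hqg.1 hcard.symm
    have hgood : below (R := 𝓞 K) P' ∈ goodPrimes K M := by
      have h1 : absNorm (below (R := 𝓞 K) P').asIdeal = ℓ := by
        show absNorm (P.under (𝓞 K)) = ℓ
        rw [Fermat.Agent.CFT.NotAllSplit10.absNorm_eq_card, hcardq]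
      exact ⟨by rw [h1]; exact hqg.1, by rw [h1]; exact hqg.2⟩
    refine ⟨P', ⟨hgood, ?_⟩, hbel⟩
    exact (isArithFrobAt_of_card_eq F hτ' (hcardw.trans hcardq.symm)).mpr hfrob

/-- **(B)**, the sums. -/
theorem tsum_frobAt_eq {M : ℕ} (hM : (discr L).natAbs ∣ M) (F : IntermediateField K L)
    (τ : L ≃ₐ[K] L) (hF : F.fixingSubgroup = Subgroup.zpowers τ) (τ' : L ≃ₐ[F] L)
    (hτ' : τ'.restrictScalars K = τ) (s : ℝ) :
    ∑' P : HeightOneSpectrum (𝓞 L),
        (frobAt K L M τ).indicator (fun P => ENNReal.ofReal (xP K s (below (R := 𝓞 K) P))) P =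
      ∑' q : HeightOneSpectrum (𝓞 F),
        (frobClassIn F L M {τ'}).indicator (fun q => ENNReal.ofReal (xP F s q)) q := by
  obtain ⟨hbij, hnorm⟩ := bijOn_below_frobAt K L hM F τ hF τ' hτ'
  rw [← tsum_subtype (frobAt K L M τ)
    (fun P => ENNReal.ofReal (xP K s (below (R := 𝓞 K) P))),
    ← tsum_subtype (frobClassIn F L M {τ'}) (fun q => ENNReal.ofReal (xP F s q))]
  rw [← (hbij.equiv _).tsum_eq]
  refine tsum_congr (fun P => ?_)
  have h1 : ((hbij.equiv _ P : frobClassIn F L M {τ'}) : HeightOneSpectrum (𝓞 F)) =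
      below (R := 𝓞 F) (P : HeightOneSpectrum (𝓞 L)) := rfl
  rw [h1]
  unfold xP
  rw [hnorm P.1 P.2]

end CountB

/-! ### (A) and (B) together, in `ℝ` -/

section Real

variable (K L : Type) [Field K] [Field L] [NumberField K] [NumberField L] [Algebra K L]
  [IsGalois K L]

variable {L} in
/-- The fixed field of `τ`. -/
abbrev fixF (τ : L ≃ₐ[K] L) : IntermediateField K L :=
  IntermediateField.fixedField (Subgroup.zpowers τ)

variable {K L} in
theorem fixingSubgroup_fixF (τ : L ≃ₐ[K] L) : (fixF K τ).fixingSubgroup = Subgroup.zpowers τ :=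
  IntermediateField.fixingSubgroup_fixedField _

variable {K L} in
theorem mem_fixingSubgroup_fixF (τ : L ≃ₐ[K] L) : τ ∈ (fixF K τ).fixingSubgroup := by
  rw [fixingSubgroup_fixF]
  exact Subgroup.mem_zpowers τ

variable {L} in
/-- `τ` as an element of `Gal(L / L^⟨τ⟩)`. -/
def gen (τ : L ≃ₐ[K] L) : L ≃ₐ[fixF K τ] L :=
  (fixF K τ).fixingSubgroupEquiv ⟨τ, mem_fixingSubgroup_fixF τ⟩

variable {K L} in
theorem gen_restrictScalars (τ : L ≃ₐ[K] L) : (gen K τ).restrictScalars K = τ := by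
  ext x
  rfl

variable {K L} in
theorem gen_inv_restrictScalars (τ : L ≃ₐ[K] L) : ((gen K τ)⁻¹).restrictScalars K = τ⁻¹ := by
  have h : ∀ g : L ≃ₐ[fixF K τ] L, (g⁻¹).restrictScalars K = (g.restrictScalars K)⁻¹ := by
    intro g
    ext x
    rfl
  rw [h, gen_restrictScalars]

variable {K} in
theorem tsum_indicator_eq_ofReal_wsum (T : Set (HeightOneSpectrum (𝓞 K))) {s : ℝ} (hs : 1 < s) :
    ∑' p : HeightOneSpectrum (𝓞 K), T.indicator (fun p => ENNReal.ofReal (xP K s p)) p =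
      ENNReal.ofReal (wsum (xP K s) T) := by
  rw [tsum_indicator_ofReal K T hs]
  congr 1
  have h1 : T.primeIdealZetaSum s = ∑' p : T, xP K s p.1 := rfl
  rw [h1]
  exact _root_.tsum_subtype T (xP K s)

variable {K} in
theorem wsum_xP_nonneg (T : Set (HeightOneSpectrum (𝓞 K))) (s : ℝ) : 0 ≤ wsum (xP K s) T :=
  wsum_nonneg (fun p => (xP_pos K s p).le) T

/-- **Deuring's reduction as an identity**: for a conjugation-stable `C ⊆ Gal(L/K)`,
`#G * ∑_{p : Frob_p ⊆ C} N p ^ (-s) = ∑_{τ ∈ C} ord τ * ∑_{q prime of L^⟨τ⟩ : Frob_q = τ} N q ^ (-s)`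
(sums over primes of prime norm not dividing `M`). -/
theorem card_mul_wsum_frobClassIn {M : ℕ} (hM : (discr L).natAbs ∣ M) (C : Finset (L ≃ₐ[K] L))
    (hC : ∀ g τ : L ≃ₐ[K] L, τ ∈ C → g * τ * g⁻¹ ∈ C) {s : ℝ} (hs : 1 < s) :
    (Nat.card (L ≃ₐ[K] L) : ℝ) * wsum (xP K s) (frobClassIn K L M (C : Set (L ≃ₐ[K] L))) =
      ∑ τ ∈ C, (orderOf τ : ℝ) *
        wsum (xP (fixF K τ) s) (frobClassIn (fixF K τ) L M {gen K τ}) := by
  have key := card_mul_tsum_frobClassIn K L hM C hC s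
  have hτ : ∀ τ ∈ C, (orderOf τ : ℝ≥0∞) * ∑' P : HeightOneSpectrum (𝓞 L),
      (frobAt K L M τ).indicator (fun P => ENNReal.ofReal (xP K s (below (R := 𝓞 K) P))) P =
      ENNReal.ofReal ((orderOf τ : ℝ) *
        wsum (xP (fixF K τ) s) (frobClassIn (fixF K τ) L M {gen K τ})) := by
    intro τ _
    rw [tsum_frobAt_eq K L hM (fixF K τ) τ (fixingSubgroup_fixF τ) (gen K τ)
      (gen_restrictScalars τ) s, tsum_indicator_eq_ofReal_wsum _ hs,
      ENNReal.ofReal_mul (Nat.cast_nonneg _), ENNReal.ofReal_natCast]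
  rw [Finset.sum_congr rfl hτ, tsum_indicator_eq_ofReal_wsum _ hs,
    ← ENNReal.ofReal_sum_of_nonneg (fun τ _ => mul_nonneg (Nat.cast_nonneg _)
      (wsum_xP_nonneg _ s)),
    ← ENNReal.ofReal_natCast, ← ENNReal.ofReal_mul (Nat.cast_nonneg _)] at key
  exact (ENNReal.ofReal_eq_ofReal_iff (mul_nonneg (Nat.cast_nonneg _) (wsum_xP_nonneg _ s))
    (Finset.sum_nonneg fun τ _ => mul_nonneg (Nat.cast_nonneg _) (wsum_xP_nonneg _ s))).mp key

/-- The same with `τ⁻¹` in place of `τ`, still over the fixed field of `τ`. -/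
theorem card_mul_wsum_frobClassIn_inv {M : ℕ} (hM : (discr L).natAbs ∣ M)
    (C : Finset (L ≃ₐ[K] L)) (hC : ∀ g τ : L ≃ₐ[K] L, τ ∈ C → g * τ * g⁻¹ ∈ C)
    (hinv : ∀ τ ∈ C, τ⁻¹ ∈ C) {s : ℝ} (hs : 1 < s) :
    (Nat.card (L ≃ₐ[K] L) : ℝ) * wsum (xP K s) (frobClassIn K L M (C : Set (L ≃ₐ[K] L))) =
      ∑ τ ∈ C, (orderOf τ : ℝ) *
        wsum (xP (fixF K τ) s) (frobClassIn (fixF K τ) L M {(gen K τ)⁻¹}) := by
  have key := card_mul_tsum_frobClassIn K L hM C hC s
  -- reindex the sum over `C` by inversion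
  have hre : ∑ τ ∈ C, (orderOf τ : ℝ≥0∞) * ∑' P : HeightOneSpectrum (𝓞 L),
      (frobAt K L M τ).indicator (fun P => ENNReal.ofReal (xP K s (below (R := 𝓞 K) P))) P =
      ∑ τ ∈ C, (orderOf τ⁻¹ : ℝ≥0∞) * ∑' P : HeightOneSpectrum (𝓞 L),
      (frobAt K L M τ⁻¹).indicator (fun P => ENNReal.ofReal (xP K s (below (R := 𝓞 K) P))) P := by
    refine Finset.sum_nbij' (fun τ => τ⁻¹) (fun τ => τ⁻¹) (fun τ hτ => hinv τ hτ)
      (fun τ hτ => hinv τ hτ) (fun τ _ => inv_inv τ) (fun τ _ => inv_inv τ) (fun τ _ => ?_)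
    rw [inv_inv]
  have hτ : ∀ τ ∈ C, (orderOf τ⁻¹ : ℝ≥0∞) * ∑' P : HeightOneSpectrum (𝓞 L),
      (frobAt K L M τ⁻¹).indicator (fun P => ENNReal.ofReal (xP K s (below (R := 𝓞 K) P))) P =
      ENNReal.ofReal ((orderOf τ : ℝ) *
        wsum (xP (fixF K τ) s) (frobClassIn (fixF K τ) L M {(gen K τ)⁻¹})) := by
    intro τ _
    have hF : (fixF K τ).fixingSubgroup = Subgroup.zpowers τ⁻¹ := by
      rw [fixingSubgroup_fixF, Subgroup.zpowers_inv]
    rw [tsum_frobAt_eq K L hM (fixF K τ) τ⁻¹ hF (gen K τ)⁻¹ (gen_inv_restrictScalars τ) s,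
      tsum_indicator_eq_ofReal_wsum _ hs, orderOf_inv,
      ENNReal.ofReal_mul (Nat.cast_nonneg _), ENNReal.ofReal_natCast]
  rw [hre, Finset.sum_congr rfl hτ, tsum_indicator_eq_ofReal_wsum _ hs,
    ← ENNReal.ofReal_sum_of_nonneg (fun τ _ => mul_nonneg (Nat.cast_nonneg _)
      (wsum_xP_nonneg _ s)),
    ← ENNReal.ofReal_natCast, ← ENNReal.ofReal_mul (Nat.cast_nonneg _)] at key
  exact (ENNReal.ofReal_eq_ofReal_iff (mul_nonneg (Nat.cast_nonneg _) (wsum_xP_nonneg _ s))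
    (Finset.sum_nonneg fun τ _ => mul_nonneg (Nat.cast_nonneg _) (wsum_xP_nonneg _ s))).mp key

end Real

end

end Fermat.Agent.ES.R48.DeuringNF18
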