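/-
Programme R (S48, Deligne–Serre), chapter A4 CHEB, brick CR3 (helper18): **Deuring's count**, exact
form, in `ℝ`.

`L/K` Galois extension of number fields, `M` a multiple of `disc L`, `s > 1`.  For `τ ∈ Gal(L/K)` let
`S τ = ∑_{P prime of L over a good prime of K, Frob_P = τ} N(P ∩ K) ^ (-s)` (`S K L M s τ`).  Then

* `S_conj` : `S` is a class function;
* **(A) `card_mul_wsum_eq_sum`** : `#G * ∑_{p : Frob_p ⊆ C} N p ^ (-s) = ∑_{τ ∈ C} ord τ * S τ` for a
  conjugation-stable `C`;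
* **(B′) `card_mul_wsum_singleton`** : for an intermediate field `F` with `Gal(L/F)` abelian and
  `τ' ∈ Gal(L/F)`: `#Gal(L/F) * ∑_{q good prime of F : Frob_q = τ'} N q ^ (-s) = ord τ' * S τ'`;
* `frobClassIn_singleton_eq` / `tsum_good_frobOf_eq_sum` : in the abelian case the good primes are
  partitioned by their Frobenius `frobOf`.
-/
import Mathlib
import Fermat.Agent.ES.R48.DeuringNF18

set_option autoImplicit false
set_option linter.unusedSectionVars false
set_option linter.style.haveILetI false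

open IsDedekindDomain Ideal NumberField
open scoped Pointwise ENNReal
open Fermat.Agent.CFT.SplitPrimes Fermat.Agent.CFT.NotAllSplit
  Fermat.Agent.ES.GAL.ChebAbstract23 Fermat.Agent.PT.GLOB.FrobGenerate19
  Fermat.Agent.CFT.ArtinSymbol Fermat.Agent.ES.R48.DeuringNF18

namespace Fermat.Agent.ES.R48.DeuringCount18

noncomputable section

variable (K L : Type) [Field K] [Field L] [NumberField K] [NumberField L] [Algebra K L]
  [IsGalois K L]

/-! ### Base change of `frobAt` -/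

theorem restrictScalars_mem_fixingSubgroup (F : IntermediateField K L) (g : L ≃ₐ[F] L) :
    g.restrictScalars K ∈ F.fixingSubgroup := by
  rw [IntermediateField.mem_fixingSubgroup_iff]
  intro x hx
  exact g.commutes ⟨x, hx⟩

/-- **Base change of `frobAt`**, first half: a prime of `L` over a good prime of `K` whose Frobenius
`τ` fixes `F` lies over a good prime of `F` of the same norm, with Frobenius `τ` again. -/
theorem mem_frobAt_of_base {M : ℕ} (hM : (discr L).natAbs ∣ M) (F : IntermediateField K L)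
    (τ' : L ≃ₐ[F] L) {P : HeightOneSpectrum (𝓞 L)}
    (hP : P ∈ frobAt K L M (τ'.restrictScalars K)) :
    absNorm (below (R := 𝓞 F) P).asIdeal = absNorm (below (R := 𝓞 K) P).asIdeal ∧
      P ∈ frobAt F L M τ' := by
  obtain ⟨hPg, hPτ⟩ := hP
  have hunr := inertia_eq_bot_of_good hM hPg
  have h1 := Fermat.Agent.CFT.DecompGroup.relNorm_under_of_mem_fixingSubgroup P.ne_bot hunr hPτ
    F (restrictScalars_mem_fixingSubgroup K L F τ')
  have hn : absNorm (below (R := 𝓞 F) P).asIdeal = absNorm (below (R := 𝓞 K) P).asIdeal := by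
    show absNorm (P.asIdeal.under (𝓞 F)) = absNorm (P.asIdeal.under (𝓞 K))
    rw [← h1, Ideal.absNorm_relNorm]
  refine ⟨hn, ⟨by rw [hn]; exact hPg.1, by rw [hn]; exact hPg.2⟩, ?_⟩
  refine (isArithFrobAt_of_card_eq F rfl ?_).mp hPτ
  rw [← Fermat.Agent.CFT.NotAllSplit10.absNorm_eq_card,
    ← Fermat.Agent.CFT.NotAllSplit10.absNorm_eq_card]
  exact hn

/-- **Base change of `frobAt`**, second half: a prime of `L` over a good prime of `F` with Frobenius
`τ'` lies over a good prime of `K` of the same norm, with Frobenius `τ'` (seen in `Gal(L/K)`). -/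
theorem mem_frobAt_base {M : ℕ} (F : IntermediateField K L)
    (τ' : L ≃ₐ[F] L) {P : HeightOneSpectrum (𝓞 L)} (hP : P ∈ frobAt F L M τ') :
    absNorm (below (R := 𝓞 F) P).asIdeal = absNorm (below (R := 𝓞 K) P).asIdeal ∧
      P ∈ frobAt K L M (τ'.restrictScalars K) := by
  obtain ⟨hqg, hfrob⟩ := hP
  set ℓ := absNorm (below (R := 𝓞 F) P).asIdeal with hℓ
  have hfinw : Finite (𝓞 F ⧸ P.asIdeal.under (𝓞 F)) := hfrob.finite_quotient
  haveI : (P.asIdeal.under (𝓞 F)).IsMaximal :=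
    Fermat.Agent.CFT.FrobFunct.isMaximal_of_finite_quotient _
  haveI : ((P.asIdeal.under (𝓞 F)).under (𝓞 K)).IsMaximal :=
    Ideal.isMaximal_comap_of_isIntegral_of_isMaximal (P.asIdeal.under (𝓞 F))
  have hw0 : P.asIdeal.under (𝓞 F) ≠ ⊥ := (below (R := 𝓞 F) P).ne_bot
  have hq0 : (P.asIdeal.under (𝓞 F)).under (𝓞 K) ≠ ⊥ :=
    fun h => hw0 (Ideal.eq_bot_of_comap_eq_bot h)
  haveI : Finite (𝓞 K ⧸ (P.asIdeal.under (𝓞 F)).under (𝓞 K)) :=
    Ideal.finiteQuotientOfFreeOfNeBot _ hq0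
  have hcard := Fermat.Agent.CFT.FrobFunct.card_quot_eq_pow_inertiaDeg (R := 𝓞 K)
    (P.asIdeal.under (𝓞 F))
  have hKK : (P.asIdeal.under (𝓞 F)).under (𝓞 K) = P.asIdeal.under (𝓞 K) := Ideal.under_under _
  rw [hKK] at hcard
  have hcardw : Nat.card (𝓞 F ⧸ P.asIdeal.under (𝓞 F)) = ℓ := by
    rw [hℓ, Fermat.Agent.CFT.NotAllSplit10.absNorm_eq_card]
    rfl
  rw [hcardw] at hcard
  have hcardq : Nat.card (𝓞 K ⧸ P.asIdeal.under (𝓞 K)) = ℓ := eq_of_pow_prime hqg.1 hcard.symm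
  have h1 : absNorm (below (R := 𝓞 K) P).asIdeal = ℓ := by
    show absNorm (P.asIdeal.under (𝓞 K)) = ℓ
    rw [Fermat.Agent.CFT.NotAllSplit10.absNorm_eq_card, hcardq]
  refine ⟨h1.symm, ⟨by rw [h1]; exact hqg.1, by rw [h1]; exact hqg.2⟩, ?_⟩
  exact (isArithFrobAt_of_card_eq F rfl (hcardw.trans hcardq.symm)).mpr hfrob

/-- **Base change of `frobAt`.** -/
theorem frobAt_base_change {M : ℕ} (hM : (discr L).natAbs ∣ M) (F : IntermediateField K L)
    (τ' : L ≃ₐ[F] L) : frobAt F L M τ' = frobAt K L M (τ'.restrictScalars K) := by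
  ext P
  exact ⟨fun h => (mem_frobAt_base K L F τ' h).2, fun h => (mem_frobAt_of_base K L hM F τ' h).2⟩

/-! ### The sums `S τ` -/

/-- `∑_{P ∈ frobAt τ} N(P ∩ K) ^ (-s)` in `ℝ≥0∞`. -/
def SE (M : ℕ) (s : ℝ) (τ : L ≃ₐ[K] L) : ℝ≥0∞ :=
  ∑' P : HeightOneSpectrum (𝓞 L),
    (frobAt K L M τ).indicator (fun P => ENNReal.ofReal (xP K s (below (R := 𝓞 K) P))) P

/-- `∑_{P ∈ frobAt τ} N(P ∩ K) ^ (-s)` as a real number. -/
def S (M : ℕ) (s : ℝ) (τ : L ≃ₐ[K] L) : ℝ := (SE K L M s τ).toReal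

theorem S_nonneg (M : ℕ) (s : ℝ) (τ : L ≃ₐ[K] L) : 0 ≤ S K L M s τ := ENNReal.toReal_nonneg

theorem SE_ne_top (M : ℕ) {s : ℝ} (hs : 1 < s) (τ : L ≃ₐ[K] L) : SE K L M s τ ≠ ⊤ := by
  have h1 : SE K L M s τ ≤ ∑' P : HeightOneSpectrum (𝓞 L),
      (fun p : HeightOneSpectrum (𝓞 K) => ENNReal.ofReal (xP K s p)) (below (R := 𝓞 K) P) := by
    refine ENNReal.tsum_le_tsum (fun P => ?_)
    exact Set.indicator_le_self' (fun _ _ => zero_le) P
  have h2 := tsum_comp_le_mul_tsum (below (R := 𝓞 K) (S := 𝓞 L)) _ (fun p => ncard_fiber_le p)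
    (fun p : HeightOneSpectrum (𝓞 K) => ENNReal.ofReal (xP K s p))
  rw [tsum_ofReal_xP K hs] at h2
  refine ne_top_of_le_ne_top ?_ (h1.trans h2)
  exact ENNReal.mul_ne_top (ENNReal.natCast_ne_top _) ENNReal.ofReal_ne_top

theorem SE_eq_ofReal (M : ℕ) {s : ℝ} (hs : 1 < s) (τ : L ≃ₐ[K] L) :
    SE K L M s τ = ENNReal.ofReal (S K L M s τ) :=
  (ENNReal.ofReal_toReal (SE_ne_top K L M hs τ)).symm

/-! ### `S` is a class function -/

section Conj

attribute [local instance] primesAction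

theorem smul_mem_frobAt_iff (M : ℕ) (g τ : L ≃ₐ[K] L) (P : HeightOneSpectrum (𝓞 L)) :
    g • P ∈ frobAt K L M (g * τ * g⁻¹) ↔ P ∈ frobAt K L M τ := by
  constructor
  · rintro ⟨h1, h2⟩
    rw [below_smul] at h1
    refine ⟨h1, ?_⟩
    have h3 := h2.conj g⁻¹
    rw [smul_asIdeal, inv_smul_smul] at h3
    have h4 : g⁻¹ * (g * τ * g⁻¹) * g⁻¹⁻¹ = τ := by group
    rwa [h4] at h3
  · rintro ⟨h1, h2⟩
    refine ⟨by rw [below_smul]; exact h1, ?_⟩
    exact h2.conj g

theorem SE_conj (M : ℕ) (s : ℝ) (g τ : L ≃ₐ[K] L) :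
    SE K L M s (g * τ * g⁻¹) = SE K L M s τ := by
  classical
  unfold SE
  rw [← (MulAction.toPerm g : Equiv.Perm (HeightOneSpectrum (𝓞 L))).tsum_eq]
  refine tsum_congr (fun P => ?_)
  rw [MulAction.toPerm_apply]
  by_cases hP : P ∈ frobAt K L M τ
  · rw [Set.indicator_of_mem hP, Set.indicator_of_mem ((smul_mem_frobAt_iff K L M g τ P).mpr hP),
      below_smul]
  · rw [Set.indicator_of_notMem hP,
      Set.indicator_of_notMem (fun h => hP ((smul_mem_frobAt_iff K L M g τ P).mp h))]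

theorem S_conj (M : ℕ) (s : ℝ) (g τ : L ≃ₐ[K] L) :
    S K L M s (g * τ * g⁻¹) = S K L M s τ := by
  unfold S
  rw [SE_conj]

end Conj

/-! ### (A) in `ℝ` -/

theorem card_mul_wsum_eq_sum {M : ℕ} (hM : (discr L).natAbs ∣ M) (C : Finset (L ≃ₐ[K] L))
    (hC : ∀ g τ : L ≃ₐ[K] L, τ ∈ C → g * τ * g⁻¹ ∈ C) {s : ℝ} (hs : 1 < s) :
    (Nat.card (L ≃ₐ[K] L) : ℝ) * wsum (xP K s) (frobClassIn K L M (C : Set (L ≃ₐ[K] L))) =
      ∑ τ ∈ C, (orderOf τ : ℝ) * S K L M s τ := by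
  have key := card_mul_tsum_frobClassIn K L hM C hC s
  have hτ : ∀ τ ∈ C, (orderOf τ : ℝ≥0∞) * ∑' P : HeightOneSpectrum (𝓞 L),
      (frobAt K L M τ).indicator (fun P => ENNReal.ofReal (xP K s (below (R := 𝓞 K) P))) P =
      ENNReal.ofReal ((orderOf τ : ℝ) * S K L M s τ) := by
    intro τ _
    rw [ENNReal.ofReal_mul (Nat.cast_nonneg _), ENNReal.ofReal_natCast, ← SE_eq_ofReal K L M hs τ]
    rfl
  rw [Finset.sum_congr rfl hτ, tsum_indicator_eq_ofReal_wsum _ hs,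
    ← ENNReal.ofReal_sum_of_nonneg (fun τ _ => mul_nonneg (Nat.cast_nonneg _)
      (S_nonneg K L M s τ)),
    ← ENNReal.ofReal_natCast, ← ENNReal.ofReal_mul (Nat.cast_nonneg _)] at key
  exact (ENNReal.ofReal_eq_ofReal_iff (mul_nonneg (Nat.cast_nonneg _) (wsum_xP_nonneg _ s))
    (Finset.sum_nonneg fun τ _ => mul_nonneg (Nat.cast_nonneg _) (S_nonneg K L M s τ))).mp key

/-! ### (B′) in `ℝ` -/

theorem SE_base_change {M : ℕ} (hM : (discr L).natAbs ∣ M) (F : IntermediateField K L)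
    (τ' : L ≃ₐ[F] L) (s : ℝ) : SE F L M s τ' = SE K L M s (τ'.restrictScalars K) := by
  unfold SE
  refine tsum_congr (fun P => ?_)
  rw [frobAt_base_change K L hM F τ']
  by_cases hP : P ∈ frobAt K L M (τ'.restrictScalars K)
  · rw [Set.indicator_of_mem hP, Set.indicator_of_mem hP]
    unfold xP
    rw [(mem_frobAt_of_base K L hM F τ' hP).1]
  · rw [Set.indicator_of_notMem hP, Set.indicator_of_notMem hP]

theorem S_base_change {M : ℕ} (hM : (discr L).natAbs ∣ M) (F : IntermediateField K L)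
    (τ' : L ≃ₐ[F] L) (s : ℝ) : S F L M s τ' = S K L M s (τ'.restrictScalars K) := by
  unfold S
  rw [SE_base_change K L hM]

/-- **(B′)**: the good primes of `F` with Frobenius `τ'`, `Gal(L/F)` abelian. -/
theorem card_mul_wsum_singleton {M : ℕ} (hM : (discr L).natAbs ∣ M) (F : IntermediateField K L)
    [IsMulCommutative (L ≃ₐ[F] L)] (τ' : L ≃ₐ[F] L) {s : ℝ} (hs : 1 < s) :
    (Nat.card (L ≃ₐ[F] L) : ℝ) * wsum (xP F s) (frobClassIn F L M {τ'}) =
      (orderOf τ' : ℝ) * S K L M s (τ'.restrictScalars K) := by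
  classical
  have hC : ∀ g τ : L ≃ₐ[F] L, τ ∈ ({τ'} : Finset (L ≃ₐ[F] L)) → g * τ * g⁻¹ ∈
      ({τ'} : Finset (L ≃ₐ[F] L)) := by
    intro g τ hτ
    rw [Finset.mem_singleton] at hτ ⊢
    rw [hτ, mul_comm' g τ', mul_inv_cancel_right]
  have h := card_mul_wsum_eq_sum F L hM {τ'} hC hs
  rw [Finset.coe_singleton, Finset.sum_singleton, S_base_change K L hM] at h
  exact h

/-! ### The abelian case: good primes are partitioned by `frobOf` -/

section Abelian

variable [IsMulCommutative (L ≃ₐ[K] L)]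

theorem mem_frobClassIn_singleton_iff {M : ℕ} (hM : (discr L).natAbs ∣ M) (σ : L ≃ₐ[K] L)
    (p : HeightOneSpectrum (𝓞 K)) :
    p ∈ frobClassIn K L M {σ} ↔ p ∈ goodPrimes K M ∧ frobOf K L p.asIdeal = σ := by
  constructor
  · rintro ⟨hp, P, hP, hPp, τ, hτ, hfrob⟩
    rw [Set.mem_singleton_iff] at hτ
    subst hτ
    refine ⟨hp, ?_⟩
    have hP0 : P ≠ ⊥ := ne_bot_of_under_ne_bot hPp p.ne_bot
    set P' : HeightOneSpectrum (𝓞 L) := ⟨P, hP, hP0⟩ with hP'
    have hbel : below (R := 𝓞 K) P' = p := HeightOneSpectrum.ext hPp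
    have hunr : P.inertia (L ≃ₐ[K] L) = ⊥ := inertia_eq_bot_of_good (P := P') hM (hbel ▸ hp)
    exact (eq_frobOf_of_isArithFrobAt p.isPrime p.ne_bot hPp hunr hfrob).symm
  · rintro ⟨hp, rfl⟩
    obtain ⟨P, hP, hPp⟩ := exists_prime_over K L p.asIdeal
    exact ⟨hp, P, hP, hPp, _, Set.mem_singleton _, isArithFrobAt_frobOf p.isPrime p.ne_bot P hPp⟩

/-- In the abelian case a weighted sum over the good primes splits according to the Frobenius. -/
theorem tsum_good_frobOf_eq_sum {M : ℕ} (hM : (discr L).natAbs ∣ M) (w : (L ≃ₐ[K] L) → ℝ)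
    {s : ℝ} (hs : 1 < s) :
    ∑' p : HeightOneSpectrum (𝓞 K),
        (goodPrimes K M).indicator (fun p => w (frobOf K L p.asIdeal) * xP K s p) p =
      ∑ᶠ σ : L ≃ₐ[K] L, w σ * wsum (xP K s) (frobClassIn K L M {σ}) := by
  classical
  haveI : Fintype (L ≃ₐ[K] L) := Fintype.ofFinite _
  rw [finsum_eq_sum_of_fintype]
  unfold wsum
  simp_rw [← tsum_mul_left]
  rw [← Summable.tsum_finsetSum (fun σ _ => ((summable_xP K hs).indicator _).mul_left (w σ))]
  refine tsum_congr (fun p => ?_)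
  by_cases hp : p ∈ goodPrimes K M
  · rw [Set.indicator_of_mem hp, Finset.sum_eq_single (frobOf K L p.asIdeal)]
    · rw [Set.indicator_of_mem ((mem_frobClassIn_singleton_iff K L hM _ p).mpr ⟨hp, rfl⟩)]
    · intro σ _ hσ
      rw [Set.indicator_of_notMem, mul_zero]
      intro hmem
      exact hσ ((mem_frobClassIn_singleton_iff K L hM σ p).mp hmem).2.symm
    · intro h
      exact absurd (Finset.mem_univ _) h
  · rw [Set.indicator_of_notMem hp]
    symm
    refine Finset.sum_eq_zero (fun σ _ => ?_)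
    rw [Set.indicator_of_notMem, mul_zero]
    intro hmem
    exact hp hmem.1

end Abelian

end

end Fermat.Agent.ES.R48.DeuringCount18
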