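/-
Programme R (S48, Deligne–Serre), chapter A4 CHEB, brick CR4 (helper18): **the descent** (R4) of
`R48_A4_CHEB7.md`.

`Ω/K` a Galois extension of number fields, `Γ = Gal(Ω/K)`, `Fld` an intermediate field with
`A = Gal(Ω/Fld)` abelian, `B = Fld.fixingSubgroup ≤ Γ`, `c₀ ∈ A` with `c₀ * c₀ = 1`, central in `Γ`.
If the good primes of `Fld` are equidistributed in `A` up to inversion and `c₀` (hypothesis `hcyc`, the
lower-bound half of `cyclo_density_pm`), then for every `T ⊆ Γ` stable under conjugation, inversion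
and `c₀ ·`, all of whose elements are conjugate into `B`:

  `(#T / #Γ) * log (1 / (s - 1)) - O(1) ≤ ∑_{p good prime of K, Frob_p ⊆ T} N p ^ (-s)`   (`descent_lower`).

The proof is exact: with `S t = ∑_{P over a good prime, Frob_P = t} N(P ∩ K) ^ (-s)` (a class function,
`DeuringCount18`), `#Γ * ∑_{Frob_p ⊆ T} N p ^ (-s) = ∑_{t ∈ T} ord t * S t` and
`#A * ∑_{q good prime of Fld, Frob_q = b} N q ^ (-s) = ord b * S b`; a double count over
`{(g, t) | g t g⁻¹ ∈ B}` turns the first sum into `#A * ∑_q w (Frob_q) N q ^ (-s)` with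
`w = 1_T / N_B`, `N_B t = #{g | g t g⁻¹ ∈ B}`, and `∑_b w b = #T / #Γ`.
-/
import Mathlib
import Fermat.Agent.ES.R48.DeuringCount18

set_option autoImplicit false
set_option linter.unusedSectionVars false
set_option linter.style.haveILetI false

open IsDedekindDomain Ideal NumberField
open scoped Pointwise
open Fermat.Agent.CFT.SplitPrimes Fermat.Agent.CFT.NotAllSplit
  Fermat.Agent.ES.GAL.ChebAbstract23 Fermat.Agent.CFT.ArtinSymbol
  Fermat.Agent.ES.R48.DeuringNF18 Fermat.Agent.ES.R48.DeuringCount18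

namespace Fermat.Agent.ES.R48.Descent18

noncomputable section

/-! ### The double count, abstractly -/

section Abstract

variable {Γ : Type*} [Group Γ] [Fintype Γ] [DecidableEq Γ]

/-- The number of `g` conjugating `t` into `R`. -/
def nconj (R : Finset Γ) (t : Γ) : ℕ := (Finset.univ.filter fun g : Γ => g * t * g⁻¹ ∈ R).card

theorem nconj_conj (R : Finset Γ) (h t : Γ) : nconj R (h * t * h⁻¹) = nconj R t := by
  unfold nconj
  refine Finset.card_nbij' (fun g => g * h) (fun g => g * h⁻¹) ?_ ?_ ?_ ?_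
  · intro g hg
    rw [Finset.mem_coe, Finset.mem_filter] at hg ⊢
    refine ⟨Finset.mem_univ _, ?_⟩
    have : g * h * t * (g * h)⁻¹ = g * (h * t * h⁻¹) * g⁻¹ := by group
    rw [this]
    exact hg.2
  · intro g hg
    rw [Finset.mem_coe, Finset.mem_filter] at hg ⊢
    refine ⟨Finset.mem_univ _, ?_⟩
    have : g * h⁻¹ * (h * t * h⁻¹) * (g * h⁻¹)⁻¹ = g * t * g⁻¹ := by group
    rw [this]
    exact hg.2
  · intro g _
    exact mul_inv_cancel_right g h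
  · intro g _
    exact inv_mul_cancel_right g h

theorem nconj_pos {R : Finset Γ} {t : Γ} (h : ∃ g : Γ, g * t * g⁻¹ ∈ R) : 0 < nconj R t := by
  obtain ⟨g, hg⟩ := h
  exact Finset.card_pos.mpr ⟨g, Finset.mem_filter.mpr ⟨Finset.mem_univ _, hg⟩⟩

/-- **Double count.**  For a class function `u`, a conjugation-stable `T` all of whose elements are
conjugate into `R`: `∑_{t ∈ T} u t = #Γ * ∑_{b ∈ T ∩ R} u b / N_R b`. -/
theorem sum_eq_card_mul_sum_div (R T : Finset Γ)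
    (hT : ∀ g t : Γ, t ∈ T → g * t * g⁻¹ ∈ T) (u : Γ → ℝ)
    (hu : ∀ g t : Γ, u (g * t * g⁻¹) = u t) (hR : ∀ t ∈ T, ∃ g : Γ, g * t * g⁻¹ ∈ R) :
    ∑ t ∈ T, u t =
      (Fintype.card Γ : ℝ) * ∑ b ∈ T, if b ∈ R then u b / (nconj R b : ℝ) else 0 := by
  set F : Γ → ℝ := fun b => if b ∈ R then u b / (nconj R b : ℝ) else 0 with hF
  have h1 : ∀ g : Γ, ∑ b ∈ T, F b = ∑ t ∈ T, F (g * t * g⁻¹) := by
    intro g
    refine Finset.sum_nbij' (fun b => g⁻¹ * b * g⁻¹⁻¹) (fun t => g * t * g⁻¹) ?_ ?_ ?_ ?_ ?_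
    · intro b hb
      exact hT g⁻¹ b hb
    · intro t ht
      exact hT g t ht
    · intro b _
      group
    · intro t _
      group
    · intro b _
      congr 1
      group
  have h2 : (Fintype.card Γ : ℝ) * ∑ b ∈ T, F b = ∑ g : Γ, ∑ t ∈ T, F (g * t * g⁻¹) := by
    rw [← Finset.sum_congr rfl (fun g _ => h1 g), Finset.sum_const, Finset.card_univ,
      nsmul_eq_mul]
  rw [h2, Finset.sum_comm]
  refine Finset.sum_congr rfl (fun t ht => ?_)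
  have h3 : ∀ g : Γ, F (g * t * g⁻¹) =
      if g * t * g⁻¹ ∈ R then u t / (nconj R t : ℝ) else 0 := by
    intro g
    rw [hF]
    beta_reduce
    rw [hu, nconj_conj]
  rw [Finset.sum_congr rfl (fun g _ => h3 g), ← Finset.sum_filter, Finset.sum_const,
    nsmul_eq_mul]
  have hpos : (0 : ℝ) < (nconj R t : ℝ) := by exact_mod_cast nconj_pos (hR t ht)
  change u t = (nconj R t : ℝ) * (u t / (nconj R t : ℝ))
  field_simp

theorem nconj_inv (R : Finset Γ) (hR : ∀ x : Γ, x⁻¹ ∈ R ↔ x ∈ R) (t : Γ) :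
    nconj R t⁻¹ = nconj R t := by
  unfold nconj
  congr 1
  ext g
  rw [Finset.mem_filter, Finset.mem_filter]
  have : g * t⁻¹ * g⁻¹ = (g * t * g⁻¹)⁻¹ := by group
  rw [this, hR]

theorem nconj_mul_central (R : Finset Γ) (c : Γ) (hc : ∀ g : Γ, g * c = c * g)
    (hR : ∀ x : Γ, c * x ∈ R ↔ x ∈ R) (t : Γ) : nconj R (c * t) = nconj R t := by
  unfold nconj
  congr 1
  ext g
  rw [Finset.mem_filter, Finset.mem_filter]
  have : g * (c * t) * g⁻¹ = c * (g * t * g⁻¹) := by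
    rw [← mul_assoc, hc g, mul_assoc c, mul_assoc c]
  rw [this, hR]

end Abstract

/-! ### Restriction of scalars `Gal(Ω/Fld) → Gal(Ω/K)` -/

section Field

variable (K Ω : Type) [Field K] [Field Ω] [NumberField K] [NumberField Ω] [Algebra K Ω]
  [IsGalois K Ω] (Fld : IntermediateField K Ω)

/-- Restriction of scalars as a monoid homomorphism. -/
def rsHom : (Ω ≃ₐ[Fld] Ω) →* (Ω ≃ₐ[K] Ω) where
  toFun σ := σ.restrictScalars K
  map_one' := rfl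
  map_mul' _ _ := rfl

theorem rsHom_apply (σ : Ω ≃ₐ[Fld] Ω) : rsHom K Ω Fld σ = σ.restrictScalars K := rfl

theorem rsHom_injective : Function.Injective (rsHom K Ω Fld) :=
  AlgEquiv.restrictScalars_injective K

theorem exists_rsHom_eq_iff (x : Ω ≃ₐ[K] Ω) :
    (∃ b : Ω ≃ₐ[Fld] Ω, rsHom K Ω Fld b = x) ↔ x ∈ Fld.fixingSubgroup := by
  constructor
  · rintro ⟨b, rfl⟩
    exact restrictScalars_mem_fixingSubgroup K Ω Fld b
  · intro hx
    refine ⟨Fld.fixingSubgroupEquiv ⟨x, hx⟩, ?_⟩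
    ext y
    rfl

theorem orderOf_rsHom (b : Ω ≃ₐ[Fld] Ω) : orderOf (rsHom K Ω Fld b) = orderOf b :=
  orderOf_injective (rsHom K Ω Fld) (rsHom_injective K Ω Fld) b

end Field

/-! ### The descent -/

section Main

variable (K Ω : Type) [Field K] [Field Ω] [NumberField K] [NumberField Ω] [Algebra K Ω]
  [IsGalois K Ω] (Fld : IntermediateField K Ω) [IsMulCommutative (Ω ≃ₐ[Fld] Ω)]

/-- **Exact descent identity.**  With `R` the image of `Gal(Ω/Fld)` in `Γ = Gal(Ω/K)` and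
`w b = 1_T (b) / N_R (b)`: the good primes of `K` with Frobenius class in `T` weigh `#Gal(Ω/Fld)`
times the `w`-weighted good primes of `Fld`. -/
theorem wsum_frobClassIn_eq [Fintype (Ω ≃ₐ[K] Ω)] [DecidableEq (Ω ≃ₐ[K] Ω)]
    [Fintype (Ω ≃ₐ[Fld] Ω)] {M : ℕ} (hM : (discr Ω).natAbs ∣ M)
    (T : Finset (Ω ≃ₐ[K] Ω)) (hconj : ∀ g t : Ω ≃ₐ[K] Ω, t ∈ T → g * t * g⁻¹ ∈ T)
    (hB : ∀ t ∈ T, ∃ g : Ω ≃ₐ[K] Ω, g * t * g⁻¹ ∈ Fld.fixingSubgroup) {s : ℝ} (hs : 1 < s) :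
    wsum (xP K s) (frobClassIn K Ω M (T : Set (Ω ≃ₐ[K] Ω))) =
      (Fintype.card (Ω ≃ₐ[Fld] Ω) : ℝ) *
        ∑' 𝔮 : HeightOneSpectrum (𝓞 Fld), (goodPrimes Fld M).indicator
          (fun 𝔮 => (if rsHom K Ω Fld (frobOf Fld Ω 𝔮.asIdeal) ∈ T then
            1 / (nconj (Finset.univ.image (rsHom K Ω Fld))
              (rsHom K Ω Fld (frobOf Fld Ω 𝔮.asIdeal)) : ℝ) else 0) * xP Fld s 𝔮) 𝔮 := by
  classical
  set R : Finset (Ω ≃ₐ[K] Ω) := Finset.univ.image (rsHom K Ω Fld) with hRdef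
  have hmemR : ∀ x : Ω ≃ₐ[K] Ω, x ∈ R ↔ x ∈ Fld.fixingSubgroup := by
    intro x
    rw [hRdef, Finset.mem_image, ← exists_rsHom_eq_iff K Ω Fld x]
    constructor
    · rintro ⟨b, -, hb⟩
      exact ⟨b, hb⟩
    · rintro ⟨b, hb⟩
      exact ⟨b, Finset.mem_univ _, hb⟩
  set u : (Ω ≃ₐ[K] Ω) → ℝ := fun t => (orderOf t : ℝ) * S K Ω M s t with hu
  have hucl : ∀ g t : Ω ≃ₐ[K] Ω, u (g * t * g⁻¹) = u t := by
    intro g t
    rw [hu]
    beta_reduce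
    rw [S_conj, (MulAut.conj g).orderOf_eq t |>.symm]
    rfl
  -- (A) and the double count
  have hA := card_mul_wsum_eq_sum K Ω hM T hconj hs
  have hR' : ∀ t ∈ T, ∃ g : Ω ≃ₐ[K] Ω, g * t * g⁻¹ ∈ R := by
    intro t ht
    obtain ⟨g, hg⟩ := hB t ht
    exact ⟨g, (hmemR _).mpr hg⟩
  have hD := sum_eq_card_mul_sum_div R T hconj u hucl hR'
  have hcard : (Nat.card (Ω ≃ₐ[K] Ω) : ℝ) = (Fintype.card (Ω ≃ₐ[K] Ω) : ℝ) := by
    rw [Nat.card_eq_fintype_card]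
  have hΓ : (0 : ℝ) < (Fintype.card (Ω ≃ₐ[K] Ω) : ℝ) := by exact_mod_cast Fintype.card_pos
  have h1 : wsum (xP K s) (frobClassIn K Ω M (T : Set (Ω ≃ₐ[K] Ω))) =
      ∑ b ∈ T, if b ∈ R then u b / (nconj R b : ℝ) else 0 := by
    have : (Fintype.card (Ω ≃ₐ[K] Ω) : ℝ) *
        wsum (xP K s) (frobClassIn K Ω M (T : Set (Ω ≃ₐ[K] Ω))) =
        (Fintype.card (Ω ≃ₐ[K] Ω) : ℝ) * ∑ b ∈ T, if b ∈ R then u b / (nconj R b : ℝ) else 0 := by
      rw [hcard] at hA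
      rw [hA, ← hD]
    exact mul_left_cancel₀ hΓ.ne' this
  -- reindex by `Gal(Ω/Fld)`
  have h2 : ∑ b ∈ T, (if b ∈ R then u b / (nconj R b : ℝ) else 0) =
      ∑ b' : Ω ≃ₐ[Fld] Ω, if rsHom K Ω Fld b' ∈ T then
        u (rsHom K Ω Fld b') / (nconj R (rsHom K Ω Fld b') : ℝ) else 0 := by
    rw [Finset.sum_ite_mem, Finset.inter_comm, ← Finset.sum_ite_mem, hRdef,
      Finset.sum_image (fun a _ b _ h => rsHom_injective K Ω Fld h)]
  -- (B′) for every `b'`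
  have h3 : ∀ b' : Ω ≃ₐ[Fld] Ω, (if rsHom K Ω Fld b' ∈ T then
        u (rsHom K Ω Fld b') / (nconj R (rsHom K Ω Fld b') : ℝ) else 0) =
      (Fintype.card (Ω ≃ₐ[Fld] Ω) : ℝ) * ((if rsHom K Ω Fld b' ∈ T then
        1 / (nconj R (rsHom K Ω Fld b') : ℝ) else 0) *
          wsum (xP Fld s) (frobClassIn Fld Ω M {b'})) := by
    intro b'
    by_cases hb : rsHom K Ω Fld b' ∈ T
    · rw [if_pos hb, if_pos hb]
      have hB' := card_mul_wsum_singleton K Ω hM Fld b' hs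
      rw [Nat.card_eq_fintype_card] at hB'
      rw [hu]
      beta_reduce
      rw [orderOf_rsHom, rsHom_apply, ← hB']
      ring
    · rw [if_neg hb, if_neg hb, zero_mul, mul_zero]
  rw [h1, h2, Finset.sum_congr rfl (fun b' _ => h3 b'), ← Finset.mul_sum,
    tsum_good_frobOf_eq_sum Fld Ω hM (fun b' => if rsHom K Ω Fld b' ∈ T then
      1 / (nconj R (rsHom K Ω Fld b') : ℝ) else 0) hs, finsum_eq_sum_of_fintype]

/-- **(DESC)**, brick CR4: the descent as a lower bound, with the cyclotomic equidistribution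
(up to inversion and `c₀`) of the good primes of `Fld` as the hypothesis `hcyc`. -/
theorem descent_lower {M : ℕ} (hM : (discr Ω).natAbs ∣ M) (c₀ : Ω ≃ₐ[Fld] Ω)
    (hc₀sq : c₀ * c₀ = 1)
    (hcentral : ∀ g : Ω ≃ₐ[K] Ω, g * c₀.restrictScalars K = c₀.restrictScalars K * g)
    (hcyc : ∀ w : (Ω ≃ₐ[Fld] Ω) → ℝ, (∀ g, 0 ≤ w g) → (∀ g, w g⁻¹ = w g) →
      (∀ g, w (c₀ * g) = w g) →
      ∃ B : ℝ, ∀ s ∈ Set.Ioc (1 : ℝ) 2,
        (∑ᶠ g, w g) / Nat.card (Ω ≃ₐ[Fld] Ω) * Real.log (1 / (s - 1)) - B ≤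
          ∑' 𝔮 : HeightOneSpectrum (𝓞 Fld), (goodPrimes Fld M).indicator
            (fun 𝔮 => w (frobOf Fld Ω 𝔮.asIdeal) * xP Fld s 𝔮) 𝔮)
    (T : Set (Ω ≃ₐ[K] Ω)) (hconj : ∀ t ∈ T, ∀ g : Ω ≃ₐ[K] Ω, g * t * g⁻¹ ∈ T)
    (hinv : ∀ t ∈ T, t⁻¹ ∈ T) (hc₀ : ∀ t ∈ T, c₀.restrictScalars K * t ∈ T)
    (hB : ∀ t ∈ T, ∃ g : Ω ≃ₐ[K] Ω, g * t * g⁻¹ ∈ Fld.fixingSubgroup) :
    ∃ B : ℝ, ∀ s ∈ Set.Ioc (1 : ℝ) 2,
      (Nat.card T : ℝ) / Nat.card (Ω ≃ₐ[K] Ω) * Real.log (1 / (s - 1)) - B ≤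
        wsum (xP K s) (frobClassIn K Ω M T) := by
  classical
  haveI : Fintype (Ω ≃ₐ[K] Ω) := Fintype.ofFinite _
  haveI : Fintype (Ω ≃ₐ[Fld] Ω) := Fintype.ofFinite _
  set Tf : Finset (Ω ≃ₐ[K] Ω) := Finset.univ.filter (· ∈ T) with hTf
  have hmemT : ∀ t : Ω ≃ₐ[K] Ω, t ∈ Tf ↔ t ∈ T := by
    intro t
    rw [hTf, Finset.mem_filter]
    exact ⟨fun h => h.2, fun h => ⟨Finset.mem_univ _, h⟩⟩
  have hTcoe : (Tf : Set (Ω ≃ₐ[K] Ω)) = T := by
    ext t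
    exact hmemT t
  have hTcard : (Nat.card T : ℝ) = (Tf.card : ℝ) := by
    rw [← hTcoe, Nat.card_coe_set_eq, Set.ncard_coe_finset]
  set c : Ω ≃ₐ[K] Ω := rsHom K Ω Fld c₀ with hc
  have hcc : c * c = 1 := by
    rw [hc, ← map_mul, hc₀sq, map_one]
  set R : Finset (Ω ≃ₐ[K] Ω) := Finset.univ.image (rsHom K Ω Fld) with hRdef
  have hmemR : ∀ x : Ω ≃ₐ[K] Ω, x ∈ R ↔ x ∈ Fld.fixingSubgroup := by
    intro x
    rw [hRdef, Finset.mem_image, ← exists_rsHom_eq_iff K Ω Fld x]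
    constructor
    · rintro ⟨b, -, hb⟩
      exact ⟨b, hb⟩
    · rintro ⟨b, hb⟩
      exact ⟨b, Finset.mem_univ _, hb⟩
  have hcR : c ∈ Fld.fixingSubgroup := restrictScalars_mem_fixingSubgroup K Ω Fld c₀
  have hRinv : ∀ x : Ω ≃ₐ[K] Ω, x⁻¹ ∈ R ↔ x ∈ R := by
    intro x
    rw [hmemR, hmemR, inv_mem_iff]
  have hRc : ∀ x : Ω ≃ₐ[K] Ω, c * x ∈ R ↔ x ∈ R := by
    intro x
    rw [hmemR, hmemR]
    exact Subgroup.mul_mem_cancel_left _ hcR
  have hTinv : ∀ t : Ω ≃ₐ[K] Ω, t⁻¹ ∈ Tf ↔ t ∈ Tf := by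
    intro t
    rw [hmemT, hmemT]
    exact ⟨fun h => by simpa using hinv _ h, fun h => hinv t h⟩
  have hTc : ∀ t : Ω ≃ₐ[K] Ω, c * t ∈ Tf ↔ t ∈ Tf := by
    intro t
    rw [hmemT, hmemT]
    constructor
    · intro h
      have := hc₀ _ h
      rwa [← mul_assoc, ← rsHom_apply, ← hc, hcc, one_mul] at this
    · intro h
      exact hc₀ t h
  have hconj' : ∀ g t : Ω ≃ₐ[K] Ω, t ∈ Tf → g * t * g⁻¹ ∈ Tf := by
    intro g t ht
    rw [hmemT] at ht ⊢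
    exact hconj t ht g
  have hB' : ∀ t ∈ Tf, ∃ g : Ω ≃ₐ[K] Ω, g * t * g⁻¹ ∈ Fld.fixingSubgroup :=
    fun t ht => hB t ((hmemT t).mp ht)
  -- the weight
  set w : (Ω ≃ₐ[Fld] Ω) → ℝ := fun b' => if rsHom K Ω Fld b' ∈ Tf then
    1 / (nconj R (rsHom K Ω Fld b') : ℝ) else 0 with hw
  have hw0 : ∀ g, 0 ≤ w g := by
    intro g
    rw [hw]
    beta_reduce
    split_ifs
    · exact div_nonneg zero_le_one (Nat.cast_nonneg _)
    · exact le_rfl
  have hwinv : ∀ g, w g⁻¹ = w g := by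
    intro g
    rw [hw]
    beta_reduce
    rw [map_inv, nconj_inv R hRinv]
    by_cases h : rsHom K Ω Fld g ∈ Tf
    · rw [if_pos h, if_pos ((hTinv _).mpr h)]
    · rw [if_neg h, if_neg (fun h' => h ((hTinv _).mp h'))]
  have hwc : ∀ g, w (c₀ * g) = w g := by
    intro g
    rw [hw]
    beta_reduce
    rw [map_mul, ← hc, nconj_mul_central R c hcentral hRc]
    by_cases h : rsHom K Ω Fld g ∈ Tf
    · rw [if_pos h, if_pos ((hTc _).mpr h)]
    · rw [if_neg h, if_neg (fun h' => h ((hTc _).mp h'))]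
  -- the total weight
  have hR' : ∀ t ∈ Tf, ∃ g : Ω ≃ₐ[K] Ω, g * t * g⁻¹ ∈ R := by
    intro t ht
    obtain ⟨g, hg⟩ := hB' t ht
    exact ⟨g, (hmemR _).mpr hg⟩
  have hΓ : (0 : ℝ) < (Fintype.card (Ω ≃ₐ[K] Ω) : ℝ) := by exact_mod_cast Fintype.card_pos
  have hA : (0 : ℝ) < (Fintype.card (Ω ≃ₐ[Fld] Ω) : ℝ) := by exact_mod_cast Fintype.card_pos
  have hsum : ∑ᶠ g, w g = (Tf.card : ℝ) / (Fintype.card (Ω ≃ₐ[K] Ω) : ℝ) := by
    rw [finsum_eq_sum_of_fintype]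
    have hD := sum_eq_card_mul_sum_div R Tf hconj' (fun _ => (1 : ℝ)) (fun _ _ => rfl) hR'
    rw [Finset.sum_const, nsmul_eq_mul, mul_one] at hD
    rw [hD, mul_div_cancel_left₀ _ hΓ.ne', Finset.sum_ite_mem, Finset.inter_comm,
      ← Finset.sum_ite_mem, hRdef, Finset.sum_image (fun a _ b _ h => rsHom_injective K Ω Fld h)]
  obtain ⟨B₀, hB₀⟩ := hcyc w hw0 hwinv hwc
  refine ⟨(Fintype.card (Ω ≃ₐ[Fld] Ω) : ℝ) * B₀, fun s hs => ?_⟩
  have hW := hB₀ s hs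
  rw [hsum, Nat.card_eq_fintype_card] at hW
  have hid := wsum_frobClassIn_eq K Ω Fld hM Tf hconj' hB' hs.1
  rw [hTcoe] at hid
  rw [hid, hTcard, Nat.card_eq_fintype_card]
  have hmul := mul_le_mul_of_nonneg_left hW hA.le
  refine le_trans (le_of_eq ?_) hmul
  field_simp

end Main

end

end Fermat.Agent.ES.R48.Descent18
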