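/-
Programme R (S48, Deligne–Serre), chapter A4 CHEB (owner helper7), brick CR1 (helper1).

(R2) of `R48_A4_CHEB7.md`: for every `e > 0`, `δ > 0` and bound `D` there is a prime `q > D` such
that all but a proportion `δ` of the `τ ∈ (ZMod q)ˣ` are *good for `e`*: a power `τ ^ k` equal to
`1` or `-1` forces `e ∣ k`.  Goodness follows from `2 * e ∣ orderOf τ`; we take
`q ≡ 1 mod (2e)^(k+1)` and count, for each prime `ℓ ∣ 2e`, the `τ` with `τ ^ ((q-1)/ℓ^(k+1)) = 1`.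
Mathlib only.
-/
import Mathlib

set_option autoImplicit false

namespace Fermat.Agent.ES.R48.GoodTau1

/-- `τ` is good for `e`: a power of `τ` equal to `1` or `-1` has an exponent divisible by `e`. -/
def GoodTau (e : ℕ) {q : ℕ} (τ : (ZMod q)ˣ) : Prop :=
  ∀ k : ℕ, τ ^ k = 1 ∨ τ ^ k = -1 → e ∣ k

theorem goodTau_of_dvd_orderOf {e q : ℕ} {τ : (ZMod q)ˣ} (h : 2 * e ∣ orderOf τ) :
    GoodTau e τ := by
  intro k hk
  rcases hk with hk | hk
  · have h1 : orderOf τ ∣ k := orderOf_dvd_iff_pow_eq_one.mpr hk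
    exact (Dvd.intro_left 2 rfl).trans (h.trans h1)
  · have h2 : τ ^ (2 * k) = 1 := by
      rw [mul_comm, pow_mul, hk]
      simp
    have h3 : orderOf τ ∣ 2 * k := orderOf_dvd_iff_pow_eq_one.mpr h2
    exact (Nat.mul_dvd_mul_iff_left two_pos).mp (h.trans h3)

theorem GoodTau.inv {e q : ℕ} {τ : (ZMod q)ˣ} (h : GoodTau e τ) : GoodTau e τ⁻¹ := by
  intro k hk
  apply h k
  rcases hk with hk | hk
  · left
    rw [inv_pow, inv_eq_one] at hk
    exact hk
  · right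
    rw [inv_pow, inv_eq_iff_eq_inv] at hk
    rw [hk]
    ext
    simp

theorem GoodTau.neg {e q : ℕ} {τ : (ZMod q)ˣ} (h : GoodTau e τ) : GoodTau e (-τ) := by
  intro k hk
  apply h k
  rw [neg_pow] at hk
  rcases neg_one_pow_eq_or (ZMod q)ˣ k with h1 | h1
  · rw [h1, one_mul] at hk
    exact hk
  · rw [h1, neg_one_mul] at hk
    rcases hk with hk | hk
    · right
      rw [← hk, neg_neg]
    · left
      exact neg_injective hk

/-- In a finite cyclic group of order `n`, an element whose order is not divisible by `m`, where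
`m ^ (k + 1) ∣ n`, is killed by `n / ℓ ^ (k + 1)` for some prime `ℓ ∣ m`. -/
theorem exists_prime_pow_eq_one {G : Type*} [Group G] [Fintype G] {m k : ℕ} (hm0 : m ≠ 0)
    (hmn : m ^ (k + 1) ∣ Fintype.card G) (τ : G) (hτ : ¬ m ∣ orderOf τ) :
    ∃ ℓ ∈ m.primeFactors, τ ^ (Fintype.card G / ℓ ^ (k + 1)) = 1 := by
  set n := Fintype.card G with hn
  have hn0 : n ≠ 0 := Fintype.card_ne_zero
  have ho0 : orderOf τ ≠ 0 := (orderOf_pos τ).ne'
  have hon : orderOf τ ∣ n := orderOf_dvd_card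
  -- a prime at which the order has too small a valuation
  obtain ⟨ℓ, hℓ, hlt⟩ : ∃ ℓ : ℕ, ℓ.Prime ∧ (orderOf τ).factorization ℓ < m.factorization ℓ := by
    by_contra hcon
    simp only [not_exists, not_and, not_lt] at hcon
    exact hτ ((Nat.factorization_prime_le_iff_dvd hm0 ho0).mp hcon)
  have hℓm : ℓ ∈ m.primeFactors := by
    rw [← Nat.support_factorization, Finsupp.mem_support_iff]
    omega
  refine ⟨ℓ, hℓm, ?_⟩
  have hℓ0 : ℓ ^ (k + 1) ≠ 0 := pow_ne_zero _ hℓ.ne_zero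
  -- `orderOf τ * ℓ ^ (k + 1) ∣ n`
  have hdvd : orderOf τ * ℓ ^ (k + 1) ∣ n := by
    rw [← Nat.factorization_prime_le_iff_dvd (Nat.mul_ne_zero ho0 hℓ0) hn0]
    intro p hp
    rw [Nat.factorization_mul ho0 hℓ0, hℓ.factorization_pow, Finsupp.add_apply]
    have h1 : (orderOf τ).factorization p ≤ n.factorization p :=
      (Nat.factorization_le_iff_dvd ho0 hn0).mpr hon p
    by_cases hpl : p = ℓ
    · subst hpl
      rw [Finsupp.single_eq_same]
      have h2 : (m ^ (k + 1)).factorization p ≤ n.factorization p :=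
        (Nat.factorization_le_iff_dvd (pow_ne_zero _ hm0) hn0).mpr hmn p
      rw [Nat.factorization_pow, Finsupp.smul_apply, smul_eq_mul] at h2
      have h3 : 1 ≤ m.factorization p := by omega
      have h4 : m.factorization p + k ≤ (k + 1) * m.factorization p := by nlinarith
      omega
    · rw [Finsupp.single_eq_of_ne hpl, add_zero]
      exact h1
  have hℓn : ℓ ^ (k + 1) ∣ n := (Dvd.intro_left _ rfl).trans hdvd
  have h5 : orderOf τ ∣ n / ℓ ^ (k + 1) := by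
    obtain ⟨c, hc⟩ := hdvd
    refine ⟨c, ?_⟩
    rw [hc, mul_comm (orderOf τ) (ℓ ^ (k + 1)), mul_assoc,
      Nat.mul_div_cancel_left _ (Nat.pos_of_ne_zero hℓ0)]
  exact orderOf_dvd_iff_pow_eq_one.mp h5

/-- (R2): for `e > 0`, `δ > 0`, `D` there is a prime `q > D` such that at most `δ (q - 1)` of
the `τ ∈ (ZMod q)ˣ` are not good for `e`. -/
theorem exists_prime_good_tau (e : ℕ) (he : 0 < e) (δ : ℝ) (hδ : 0 < δ) (D : ℕ) :
    ∃ q : ℕ, q.Prime ∧ D < q ∧
      (Nat.card {τ : (ZMod q)ˣ // ¬ GoodTau e τ} : ℝ) ≤ δ * (q - 1) := by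
  classical
  set m := 2 * e with hm
  have hm0 : m ≠ 0 := by omega
  obtain ⟨k, hk⟩ : ∃ k : ℕ, (m.primeFactors.card : ℝ) ≤ δ * 2 ^ k := by
    obtain ⟨k, hk⟩ := pow_unbounded_of_one_lt ((m.primeFactors.card : ℝ) / δ) one_lt_two
    refine ⟨k, ?_⟩
    have := (div_lt_iff₀ hδ).mp hk
    linarith
  obtain ⟨q, hq, hDq, hqm⟩ :=
    Nat.exists_prime_gt_modEq_one (k := m ^ (k + 1)) D (pow_ne_zero _ hm0)
  have : Fact q.Prime := ⟨hq⟩
  refine ⟨q, hq, hDq, ?_⟩
  have hcard : Fintype.card (ZMod q)ˣ = q - 1 := by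
    rw [ZMod.card_units_eq_totient, Nat.totient_prime hq]
  have hmn : m ^ (k + 1) ∣ Fintype.card (ZMod q)ˣ := by
    rw [hcard]
    exact (Nat.modEq_iff_dvd' hq.one_le).mp hqm.symm
  set n := Fintype.card (ZMod q)ˣ with hn
  have hn0 : 0 < n := Fintype.card_pos
  -- the bad set is covered by the kernels of the powers `n / ℓ ^ (k + 1)`
  have hsub : (Finset.univ.filter fun τ : (ZMod q)ˣ => ¬ GoodTau e τ) ⊆
      m.primeFactors.biUnion fun ℓ =>
        Finset.univ.filter fun τ : (ZMod q)ˣ => τ ^ (n / ℓ ^ (k + 1)) = 1 := by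
    intro τ hτ
    rw [Finset.mem_filter] at hτ
    have hnd : ¬ m ∣ orderOf τ := fun h => hτ.2 (goodTau_of_dvd_orderOf h)
    obtain ⟨ℓ, hℓ, hpow⟩ := exists_prime_pow_eq_one hm0 hmn τ hnd
    rw [Finset.mem_biUnion]
    exact ⟨ℓ, hℓ, Finset.mem_filter.mpr ⟨Finset.mem_univ _, hpow⟩⟩
  have hone : ∀ ℓ ∈ m.primeFactors,
      (((Finset.univ.filter fun τ : (ZMod q)ˣ => τ ^ (n / ℓ ^ (k + 1)) = 1).card : ℕ) : ℝ) ≤
        (n : ℝ) / 2 ^ k := by
    intro ℓ hℓ
    have hℓp : ℓ.Prime := Nat.prime_of_mem_primeFactors hℓ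
    have hℓm : ℓ ∣ m := Nat.dvd_of_mem_primeFactors hℓ
    have hℓn : ℓ ^ (k + 1) ∣ n := (pow_dvd_pow_of_dvd hℓm _).trans hmn
    have hpos : 0 < n / ℓ ^ (k + 1) :=
      Nat.div_pos (Nat.le_of_dvd hn0 hℓn) (pow_pos hℓp.pos _)
    have h1 := IsCyclic.card_pow_eq_one_le (α := (ZMod q)ˣ) hpos
    have h2 : ((n / ℓ ^ (k + 1) : ℕ) : ℝ) ≤ (n : ℝ) / 2 ^ k := by
      rw [Nat.cast_div hℓn (by exact_mod_cast (pow_pos hℓp.pos _).ne')]
      have h3 : (2 : ℝ) ^ k ≤ ((ℓ ^ (k + 1) : ℕ) : ℝ) := by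
        have : (2 : ℕ) ^ k ≤ ℓ ^ (k + 1) :=
          (Nat.pow_le_pow_right two_pos (Nat.le_succ k)).trans
            (Nat.pow_le_pow_left hℓp.two_le _)
        exact_mod_cast this
      exact div_le_div_of_nonneg_left (Nat.cast_nonneg n) (by positivity) h3
    exact (Nat.cast_le.mpr h1).trans h2
  have hbound : (((Finset.univ.filter fun τ : (ZMod q)ˣ => ¬ GoodTau e τ).card : ℕ) : ℝ) ≤
      (m.primeFactors.card : ℝ) * ((n : ℝ) / 2 ^ k) := by
    have h1 := (Finset.card_le_card hsub).trans Finset.card_biUnion_le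
    have h2 : ((∑ ℓ ∈ m.primeFactors,
        (Finset.univ.filter fun τ : (ZMod q)ˣ => τ ^ (n / ℓ ^ (k + 1)) = 1).card : ℕ) : ℝ) ≤
        ∑ _ℓ ∈ m.primeFactors, (n : ℝ) / 2 ^ k := by
      rw [Nat.cast_sum]
      exact Finset.sum_le_sum hone
    rw [Finset.sum_const, nsmul_eq_mul] at h2
    exact (Nat.cast_le.mpr h1).trans h2
  have hnq : (n : ℝ) = (q : ℝ) - 1 := by
    rw [hcard, Nat.cast_pred hq.pos]
  rw [Nat.card_eq_fintype_card, Fintype.card_subtype]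
  have h2k : (0 : ℝ) < 2 ^ k := by positivity
  calc (((Finset.univ.filter fun τ : (ZMod q)ˣ => ¬ GoodTau e τ).card : ℕ) : ℝ)
      ≤ (m.primeFactors.card : ℝ) * ((n : ℝ) / 2 ^ k) := hbound
    _ ≤ (δ * 2 ^ k) * ((n : ℝ) / 2 ^ k) :=
        mul_le_mul_of_nonneg_right hk (div_nonneg (Nat.cast_nonneg n) h2k.le)
    _ = δ * ((q : ℝ) - 1) := by
        rw [hnq]
        field_simp

end Fermat.Agent.ES.R48.GoodTau1
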