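/-
Programme R (S48), chapter A4 (Chebotarev up to inversion), brick CR2 (helper12): the abstract
group theory of the cyclotomic crossing, blueprint `R48_A4_CHEB7.md` §1.3 (R1), (R4), (R5).

`Γ` a finite group, `c₀ ∈ Γ` central with `c₀ ^ 2 = 1`, `B ≤ Γ` a subgroup containing `c₀`.

* `NB B t = #{g | g t g⁻¹ ∈ B}` is invariant under conjugation, inversion and `c₀ ·`.
* `double_count`: for a conjugation-stable `T` all of whose elements are conjugate into `B`,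
  `Σ_{b ∈ T ∩ B} 1 / NB b = |T| / |Γ|`.
* `orb c₀ γ`: the orbit of `γ` under conjugation, inversion and `c₀ ·`; it is stable under the three
  operations, `x ∈ orb γ ↔ γ ∈ orb x`, and then `orb x = orb γ`; for a union `S` of orbits,
  `Σ_{γ ∈ S} [x ∈ orb γ] / |orb γ| = [x ∈ S]`.
* `closure_pair`: (R1) `closure {γ, c₀}` is commutative and `π₂` is injective on it when `π₂ γ` is
  good.
-/
import Mathlib

set_option autoImplicit false

namespace Fermat.Agent.ES.R48.CrossGroupPM12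

open scoped Classical

variable {Γ : Type*} [Group Γ]

/-! ### (a) The conjugation count `NB` -/

/-- The number of `g` conjugating `t` into `B`. -/
noncomputable def NB (B : Subgroup Γ) (t : Γ) : ℕ := Nat.card {g : Γ // g * t * g⁻¹ ∈ B}

theorem NB_conj (B : Subgroup Γ) (h t : Γ) : NB B (h * t * h⁻¹) = NB B t := by
  unfold NB
  refine Nat.card_congr
    { toFun := fun g => ⟨g.1 * h, by
        have := g.2
        have e : g.1 * h * t * (g.1 * h)⁻¹ = g.1 * (h * t * h⁻¹) * g.1⁻¹ := by group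
        rw [e]; exact this⟩
      invFun := fun g => ⟨g.1 * h⁻¹, by
        have := g.2
        have e : g.1 * h⁻¹ * (h * t * h⁻¹) * (g.1 * h⁻¹)⁻¹ = g.1 * t * g.1⁻¹ := by group
        rw [e]; exact this⟩
      left_inv := fun g => Subtype.ext (by simp)
      right_inv := fun g => Subtype.ext (by simp) }

theorem NB_inv (B : Subgroup Γ) (t : Γ) : NB B t⁻¹ = NB B t := by
  unfold NB
  refine Nat.card_congr (Equiv.subtypeEquivRight fun g => ?_)
  have e : g * t⁻¹ * g⁻¹ = (g * t * g⁻¹)⁻¹ := by group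
  rw [e, inv_mem_iff]

theorem NB_central_mul (B : Subgroup Γ) {c₀ : Γ} (hc : ∀ g : Γ, c₀ * g = g * c₀) (hcB : c₀ ∈ B)
    (t : Γ) : NB B (c₀ * t) = NB B t := by
  unfold NB
  refine Nat.card_congr (Equiv.subtypeEquivRight fun g => ?_)
  have e : g * (c₀ * t) * g⁻¹ = c₀ * (g * t * g⁻¹) := by
    rw [← mul_assoc g c₀ t, ← hc g]
    group
  rw [e]
  exact ⟨fun h => by simpa using B.mul_mem (B.inv_mem hcB) h, fun h => B.mul_mem hcB h⟩

theorem NB_pos [Finite Γ] (B : Subgroup Γ) {t : Γ} (h : ∃ g : Γ, g * t * g⁻¹ ∈ B) : 0 < NB B t := by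
  obtain ⟨g, hg⟩ := h
  have : Nonempty {g : Γ // g * t * g⁻¹ ∈ B} := ⟨⟨g, hg⟩⟩
  exact Nat.card_pos

/-! ### (b) The double count -/

omit [Group Γ] in
/-- A finite sum over a subset of a finite type, as a `Fintype` sum of an `if`. -/
theorem finsum_mem_eq_sum_ite [Fintype Γ] (S : Set Γ) (f : Γ → ℝ) :
    ∑ᶠ b ∈ S, f b = ∑ b : Γ, if b ∈ S then f b else 0 := by
  rw [finsum_mem_def, finsum_eq_sum_of_fintype]
  refine Finset.sum_congr rfl fun b _ => ?_
  rw [Set.indicator_apply]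

/-- **Double count** (Fintype form). -/
theorem double_count_sum [Fintype Γ] (B : Subgroup Γ) (T : Set Γ)
    (hT : ∀ t ∈ T, ∀ g : Γ, g * t * g⁻¹ ∈ T) (hTB : ∀ t ∈ T, ∃ g : Γ, g * t * g⁻¹ ∈ B) :
    (Fintype.card Γ : ℝ) * ∑ b : Γ, (if b ∈ T ∧ b ∈ B then (1 : ℝ) / NB B b else 0)
      = Nat.card T := by
  set F : Γ → Γ → ℝ := fun g t => if t ∈ T ∧ g * t * g⁻¹ ∈ B then (1 : ℝ) / NB B t else 0 with hF
  -- summing over `g` first
  have h1 : ∀ t : Γ, ∑ g : Γ, F g t = if t ∈ T then 1 else 0 := by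
    intro t
    by_cases ht : t ∈ T
    · rw [if_pos ht]
      have hpos : 0 < NB B t := NB_pos B (hTB t ht)
      have : ∀ g : Γ, F g t = if g * t * g⁻¹ ∈ B then (1 : ℝ) / NB B t else 0 := by
        intro g
        simp only [hF, ht, true_and]
      simp_rw [this]
      rw [← Finset.sum_filter, Finset.sum_const, nsmul_eq_mul]
      have hcard : (Finset.univ.filter fun g : Γ => g * t * g⁻¹ ∈ B).card = NB B t := by
        unfold NB
        rw [Nat.card_eq_fintype_card, Fintype.card_subtype]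
      rw [hcard]
      field_simp
    · rw [if_neg ht]
      refine Finset.sum_eq_zero fun g _ => ?_
      simp only [hF, ht, false_and, if_false]
  -- summing over `t` first
  have h2 : ∀ g : Γ, ∑ t : Γ, F g t
      = ∑ b : Γ, (if b ∈ T ∧ b ∈ B then (1 : ℝ) / NB B b else 0) := by
    intro g
    rw [← Equiv.sum_comp (MulAut.conj g⁻¹).toEquiv (fun t => F g t)]
    refine Finset.sum_congr rfl fun b _ => ?_
    have e1 : (MulAut.conj g⁻¹).toEquiv b = g⁻¹ * b * g := by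
      simp
    have e2 : g * (g⁻¹ * b * g) * g⁻¹ = b := by group
    have e3 : g⁻¹ * b * g ∈ T ↔ b ∈ T := by
      constructor
      · intro h
        have := hT _ h g
        rwa [e2] at this
      · intro h
        have := hT b h g⁻¹
        rwa [inv_inv] at this
    have e4 : NB B (g⁻¹ * b * g) = NB B b := by
      have := NB_conj B g⁻¹ b
      rwa [inv_inv] at this
    simp only [hF, e1, e2, e3, e4]
  have h3 : ∑ t : Γ, ∑ g : Γ, F g t = Nat.card T := by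
    simp_rw [h1]
    rw [Finset.sum_ite, Finset.sum_const_zero, add_zero, Finset.sum_const, nsmul_eq_mul, mul_one,
      Nat.card_eq_fintype_card, Fintype.card_subtype]
  rw [← h3, Finset.sum_comm]
  simp_rw [h2]
  rw [Finset.sum_const, Finset.card_univ, nsmul_eq_mul]

/-- **Double count**: `Σ_{b ∈ T ∩ B} 1 / NB b = |T| / |Γ|`. -/
theorem double_count [Finite Γ] (B : Subgroup Γ) (T : Set Γ)
    (hT : ∀ t ∈ T, ∀ g : Γ, g * t * g⁻¹ ∈ T) (hTB : ∀ t ∈ T, ∃ g : Γ, g * t * g⁻¹ ∈ B) :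
    ∑ᶠ b ∈ {b : Γ | b ∈ T ∧ b ∈ B}, (1 : ℝ) / NB B b = (Nat.card T : ℝ) / Nat.card Γ := by
  have : Fintype Γ := Fintype.ofFinite Γ
  have h := double_count_sum B T hT hTB
  have hΓ : (0 : ℝ) < Fintype.card Γ := by exact_mod_cast Fintype.card_pos
  rw [finsum_mem_eq_sum_ite, Nat.card_eq_fintype_card (α := Γ), eq_div_iff hΓ.ne', mul_comm]
  rw [← h]
  congr 1
  refine Finset.sum_congr rfl fun b _ => ?_
  simp only [Set.mem_ofPred_eq]
  congr

/-! ### (c) Orbits under conjugation, inversion and `c₀ ·` -/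

section Orbits

variable (c₀ : Γ)

/-- The orbit of `γ` under conjugation, inversion and multiplication by `c₀`. -/
def orb (γ : Γ) : Set Γ :=
  {x | ∃ g : Γ, x = g * γ * g⁻¹ ∨ x = g * γ⁻¹ * g⁻¹ ∨ x = g * (c₀ * γ) * g⁻¹ ∨
    x = g * (c₀ * γ⁻¹) * g⁻¹}

theorem mem_orb_self (γ : Γ) : γ ∈ orb c₀ γ := ⟨1, Or.inl (by group)⟩

variable {c₀}

theorem conj_mem_orb {γ x : Γ} (hx : x ∈ orb c₀ γ) (h : Γ) : h * x * h⁻¹ ∈ orb c₀ γ := by
  obtain ⟨g, hg⟩ := hx
  refine ⟨h * g, ?_⟩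
  rcases hg with rfl | rfl | rfl | rfl
  · left; group
  · right; left; group
  · right; right; left; group
  · right; right; right; group

variable (hc : ∀ g : Γ, c₀ * g = g * c₀) (h2 : c₀ * c₀ = 1)

include hc in
theorem conj_central_mul (g y : Γ) : g * (c₀ * y) * g⁻¹ = c₀ * (g * y * g⁻¹) := by
  rw [← mul_assoc g c₀ y, ← hc g]
  group

include hc h2 in
theorem inv_central_mul (y : Γ) : (c₀ * y)⁻¹ = c₀ * y⁻¹ := by
  have hinv : c₀⁻¹ = c₀ := inv_eq_of_mul_eq_one_right h2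
  rw [mul_inv_rev, hinv, ← hc y⁻¹]

include hc h2 in
theorem inv_mem_orb {γ x : Γ} (hx : x ∈ orb c₀ γ) : x⁻¹ ∈ orb c₀ γ := by
  obtain ⟨g, hg⟩ := hx
  refine ⟨g, ?_⟩
  rcases hg with rfl | rfl | rfl | rfl
  · right; left; group
  · left; group
  · right; right; right
    have : (g * (c₀ * γ) * g⁻¹)⁻¹ = g * (c₀ * γ)⁻¹ * g⁻¹ := by group
    rw [this, inv_central_mul hc h2]
  · right; right; left
    have : (g * (c₀ * γ⁻¹) * g⁻¹)⁻¹ = g * (c₀ * γ⁻¹)⁻¹ * g⁻¹ := by group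
    rw [this, inv_central_mul hc h2, inv_inv]

include hc h2 in
theorem central_mul_mem_orb {γ x : Γ} (hx : x ∈ orb c₀ γ) : c₀ * x ∈ orb c₀ γ := by
  obtain ⟨g, hg⟩ := hx
  refine ⟨g, ?_⟩
  rcases hg with rfl | rfl | rfl | rfl
  · right; right; left
    rw [conj_central_mul hc]
  · right; right; right
    rw [conj_central_mul hc]
  · left
    rw [conj_central_mul hc, ← mul_assoc, h2, one_mul]
  · right; left
    rw [conj_central_mul hc, ← mul_assoc, h2, one_mul]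

include hc h2 in
/-- Symmetry. -/
theorem mem_orb_symm {γ x : Γ} (hx : x ∈ orb c₀ γ) : γ ∈ orb c₀ x := by
  obtain ⟨g, hg⟩ := hx
  have hconj : g⁻¹ * x * g⁻¹⁻¹ ∈ orb c₀ x := conj_mem_orb (mem_orb_self c₀ x) g⁻¹
  rcases hg with rfl | rfl | rfl | rfl
  · have e : g⁻¹ * (g * γ * g⁻¹) * g⁻¹⁻¹ = γ := by group
    rwa [e] at hconj
  · have e : g⁻¹ * (g * γ⁻¹ * g⁻¹) * g⁻¹⁻¹ = γ⁻¹ := by group
    rw [e] at hconj
    have := inv_mem_orb hc h2 hconj
    rwa [inv_inv] at this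
  · have e : g⁻¹ * (g * (c₀ * γ) * g⁻¹) * g⁻¹⁻¹ = c₀ * γ := by group
    rw [e] at hconj
    have := central_mul_mem_orb hc h2 hconj
    have e2 : c₀ * (c₀ * γ) = γ := by rw [← mul_assoc, h2, one_mul]
    rwa [e2] at this
  · have e : g⁻¹ * (g * (c₀ * γ⁻¹) * g⁻¹) * g⁻¹⁻¹ = c₀ * γ⁻¹ := by group
    rw [e] at hconj
    have h1 := central_mul_mem_orb hc h2 hconj
    have e2 : c₀ * (c₀ * γ⁻¹) = γ⁻¹ := by rw [← mul_assoc, h2, one_mul]
    rw [e2] at h1
    have := inv_mem_orb hc h2 h1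
    rwa [inv_inv] at this

include hc h2 in
/-- Transitivity. -/
theorem orb_subset_of_mem {γ x : Γ} (hx : x ∈ orb c₀ γ) : orb c₀ x ⊆ orb c₀ γ := by
  rintro y ⟨g, hg⟩
  rcases hg with rfl | rfl | rfl | rfl
  · exact conj_mem_orb hx g
  · exact conj_mem_orb (inv_mem_orb hc h2 hx) g
  · exact conj_mem_orb (central_mul_mem_orb hc h2 hx) g
  · exact conj_mem_orb (central_mul_mem_orb hc h2 (inv_mem_orb hc h2 hx)) g

include hc h2 in
theorem orb_eq_of_mem {γ x : Γ} (hx : x ∈ orb c₀ γ) : orb c₀ x = orb c₀ γ :=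
  Set.Subset.antisymm (orb_subset_of_mem hc h2 hx)
    (orb_subset_of_mem hc h2 (mem_orb_symm hc h2 hx))

include hc h2 in
/-- **Partition identity**: for a union `S` of orbits,
`Σ_{γ ∈ S} [x ∈ orb γ] / |orb γ| = [x ∈ S]`. -/
theorem finsum_orb [Finite Γ] (S : Set Γ) (hS : ∀ γ ∈ S, orb c₀ γ ⊆ S) (x : Γ) :
    ∑ᶠ γ ∈ S, (if x ∈ orb c₀ γ then (1 : ℝ) / Nat.card (orb c₀ γ) else 0)
      = if x ∈ S then 1 else 0 := by
  have : Fintype Γ := Fintype.ofFinite Γ
  rw [finsum_mem_eq_sum_ite]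
  by_cases hx : x ∈ S
  · rw [if_pos hx]
    have hterm : ∀ γ : Γ, (if γ ∈ S then
        (if x ∈ orb c₀ γ then (1 : ℝ) / Nat.card (orb c₀ γ) else 0) else 0)
        = if γ ∈ orb c₀ x then (1 : ℝ) / Nat.card (orb c₀ x) else 0 := by
      intro γ
      by_cases hγ : γ ∈ orb c₀ x
      · rw [if_pos hγ, if_pos (hS x hx hγ), if_pos (mem_orb_symm hc h2 hγ),
          orb_eq_of_mem hc h2 hγ]
      · rw [if_neg hγ]
        have : x ∉ orb c₀ γ := fun h => hγ (mem_orb_symm hc h2 h)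
        rw [if_neg this, ite_self]
    simp_rw [hterm]
    rw [← Finset.sum_filter, Finset.sum_const, nsmul_eq_mul]
    have hcard : (Finset.univ.filter fun γ : Γ => γ ∈ orb c₀ x).card = Nat.card (orb c₀ x) := by
      rw [Nat.card_eq_fintype_card, Fintype.card_subtype]
    rw [hcard]
    have hpos : 0 < Nat.card (orb c₀ x) := by
      have : Nonempty (orb c₀ x) := ⟨⟨x, mem_orb_self c₀ x⟩⟩
      exact Nat.card_pos
    field_simp
  · rw [if_neg hx]
    refine Finset.sum_eq_zero fun γ _ => ?_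
    by_cases hγ : γ ∈ S
    · rw [if_pos hγ, if_neg fun h => hx (hS γ hγ h)]
    · rw [if_neg hγ]

end Orbits

/-! ### (d) (R1): the abelian subgroup `closure {γ, c₀}` -/

section Closure

variable {c₀ : Γ} (hc : ∀ g : Γ, c₀ * g = g * c₀)

include hc in
/-- Every element of `closure {γ, c₀}` is `γ ^ k * c₀ ^ j`. -/
theorem exists_zpow_of_mem_closure {γ x : Γ} (hx : x ∈ Subgroup.closure ({γ, c₀} : Set Γ)) :
    ∃ k j : ℤ, x = γ ^ k * c₀ ^ j := by
  have hnormal : (Subgroup.closure ({c₀} : Set Γ)).Normal := by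
    refine ⟨fun n hn g => ?_⟩
    rw [Subgroup.mem_closure_singleton] at hn ⊢
    obtain ⟨j, rfl⟩ := hn
    refine ⟨j, ?_⟩
    have hcomm : Commute (c₀ ^ j) g := (Commute.zpow_left (hc g) j)
    rw [← hcomm.eq, mul_assoc, mul_inv_cancel, mul_one]
  rw [← Set.singleton_union, Subgroup.closure_union, Subgroup.mem_sup_of_normal_right] at hx
  obtain ⟨y, hy, z, hz, rfl⟩ := hx
  rw [Subgroup.mem_closure_singleton] at hy hz
  obtain ⟨k, rfl⟩ := hy
  obtain ⟨j, rfl⟩ := hz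
  exact ⟨k, j, rfl⟩

include hc in
/-- `closure {γ, c₀}` is commutative. -/
theorem commute_of_mem_closure {γ x y : Γ} (hx : x ∈ Subgroup.closure ({γ, c₀} : Set Γ))
    (hy : y ∈ Subgroup.closure ({γ, c₀} : Set Γ)) : x * y = y * x := by
  obtain ⟨k, j, rfl⟩ := exists_zpow_of_mem_closure hc hx
  obtain ⟨k', j', rfl⟩ := exists_zpow_of_mem_closure hc hy
  have h1 : ∀ (i : ℤ) (g : Γ), Commute (c₀ ^ i) g := fun i g => Commute.zpow_left (hc g) i
  have h2 : Commute (γ ^ k) (γ ^ k') := (Commute.refl γ).zpow_zpow k k'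
  have h3 : Commute (c₀ ^ j) (c₀ ^ j') := (Commute.refl c₀).zpow_zpow j j'
  have hA : Commute (γ ^ k * c₀ ^ j) (γ ^ k' * c₀ ^ j') :=
    Commute.mul_left (Commute.mul_right h2 (h1 j' (γ ^ k)).symm)
      (Commute.mul_right (h1 j (γ ^ k')) h3)
  exact hA.eq

include hc in
/-- **(R1)**: if `π₂ γ` is good, `π₂` is injective on `closure {γ, c₀}`. -/
theorem eq_one_of_mem_closure {G Z : Type*} [Group G] [Finite G] [CommGroup Z]
    (π₁ : Γ →* G) (π₂ : Γ →* Z) (hinj : ∀ x : Γ, π₁ x = 1 → π₂ x = 1 → x = 1)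
    (neg1 : Z) (hneg : neg1 * neg1 = 1) (h1 : π₁ c₀ = 1) (h2 : π₂ c₀ = neg1) {γ : Γ}
    (hgood : ∀ k : ℕ, (π₂ γ) ^ k = 1 ∨ (π₂ γ) ^ k = neg1 → Nat.card G ∣ k)
    {x : Γ} (hx : x ∈ Subgroup.closure ({γ, c₀} : Set Γ)) (hx2 : π₂ x = 1) : x = 1 := by
  obtain ⟨k, j, rfl⟩ := exists_zpow_of_mem_closure hc hx
  have hneginv : neg1⁻¹ = neg1 := inv_eq_of_mul_eq_one_right hneg
  -- `neg1 ^ j ∈ {1, neg1}`
  have hj : neg1 ^ j = 1 ∨ neg1 ^ j = neg1 := by
    rcases Int.even_or_odd' j with ⟨i, rfl | rfl⟩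
    · left
      rw [zpow_mul, zpow_two, hneg, one_zpow]
    · right
      rw [zpow_add, zpow_one, zpow_mul, zpow_two, hneg, one_zpow, one_mul]
  -- `(π₂ γ) ^ k ∈ {1, neg1}`
  have hk : (π₂ γ) ^ k * neg1 ^ j = 1 := by
    rw [← h2, ← map_zpow, ← map_zpow, ← map_mul]
    exact hx2
  have hk' : (π₂ γ) ^ k = 1 ∨ (π₂ γ) ^ k = neg1 := by
    have : (π₂ γ) ^ k = (neg1 ^ j)⁻¹ := eq_inv_of_mul_eq_one_left hk
    rcases hj with h | h
    · left; rw [this, h, inv_one]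
    · right; rw [this, h, hneginv]
  -- `|G|` divides `|k|`
  have hdvd : Nat.card G ∣ k.natAbs := by
    apply hgood
    rcases Int.natAbs_eq k with hk0 | hk0
    · have : (π₂ γ) ^ k.natAbs = (π₂ γ) ^ k := by
        conv_rhs => rw [hk0]
        rw [zpow_natCast]
      rw [this]; exact hk'
    · have : (π₂ γ) ^ k.natAbs = ((π₂ γ) ^ k)⁻¹ := by
        conv_rhs => rw [hk0]
        rw [zpow_neg, inv_inv, zpow_natCast]
      rw [this]
      rcases hk' with h | h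
      · left; rw [h, inv_one]
      · right; rw [h, hneginv]
  -- hence `π₁ (γ ^ k) = 1`
  have hγk : (π₁ γ) ^ k = 1 := by
    have hpow : (π₁ γ) ^ k.natAbs = 1 := by
      obtain ⟨m, hm⟩ := hdvd
      rw [hm, pow_mul, pow_card_eq_one', one_pow]
    rcases Int.natAbs_eq k with hk0 | hk0
    · rw [hk0, zpow_natCast]; exact hpow
    · rw [hk0, zpow_neg, zpow_natCast, hpow, inv_one]
  refine hinj _ ?_ hx2
  rw [map_mul, map_zpow, map_zpow, hγk, h1, one_zpow, one_mul]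

include hc in
/-- `closure {γ, c₀}` is commutative (as an `IsMulCommutative` instance-shaped statement). -/
theorem isMulCommutative_closure (γ : Γ) :
    IsMulCommutative (Subgroup.closure ({γ, c₀} : Set Γ)) :=
  ⟨⟨fun x y => Subtype.ext (commute_of_mem_closure hc x.2 y.2)⟩⟩

include hc in
/-- **(R1)**, injectivity form. -/
theorem injOn_closure {G Z : Type*} [Group G] [Finite G] [CommGroup Z]
    (π₁ : Γ →* G) (π₂ : Γ →* Z) (hinj : ∀ x : Γ, π₁ x = 1 → π₂ x = 1 → x = 1)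
    (neg1 : Z) (hneg : neg1 * neg1 = 1) (h1 : π₁ c₀ = 1) (h2 : π₂ c₀ = neg1) {γ : Γ}
    (hgood : ∀ k : ℕ, (π₂ γ) ^ k = 1 ∨ (π₂ γ) ^ k = neg1 → Nat.card G ∣ k) :
    Set.InjOn π₂ (Subgroup.closure ({γ, c₀} : Set Γ) : Set Γ) := by
  intro x hx y hy hxy
  have hmem : x * y⁻¹ ∈ Subgroup.closure ({γ, c₀} : Set Γ) :=
    Subgroup.mul_mem _ hx (Subgroup.inv_mem _ hy)
  have h : π₂ (x * y⁻¹) = 1 := by rw [map_mul, map_inv, hxy, mul_inv_cancel]
  exact mul_inv_eq_one.mp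
    (eq_one_of_mem_closure hc π₁ π₂ hinj neg1 hneg h1 h2 hgood hmem h)

end Closure

end Fermat.Agent.ES.R48.CrossGroupPM12
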