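/-
Programme R (S48, Deligne–Serre), chapter A4 CHEB (owner helper7), brick for CR6: **the orbit
decomposition of a prime sum**.

`Ω/K` a Galois extension of number fields, `Γ = Gal(Ω/K)`, `c₀ ∈ Γ` central with `c₀ * c₀ = 1`,
`S ⊆ Γ` a union of orbits under conjugation, inversion and `c₀ ·` (`CrossGroupPM12.orb`).  Then

  `∑_{p : Frob_p ⊆ S} N p ^ (-s) = ∑_{γ ∈ S} |orb γ|⁻¹ ∑_{p : Frob_p ⊆ orb γ} N p ^ (-s)`

(sums over the good primes, `DeuringNF18.frobClassIn`).  Pointwise in `p`: for a good prime `p`, a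
prime `P` over it and a conjugation-stable `T`, `p ∈ frobClassIn T ↔ Frob_P ∈ T`; then
`CrossGroupPM12.finsum_orb`.
-/
import Mathlib
import Fermat.Agent.ES.R48.DeuringNF18
import Fermat.Agent.ES.R48.CrossGroupPM12

set_option autoImplicit false
set_option linter.unusedSectionVars false
set_option linter.style.haveILetI false

open IsDedekindDomain Ideal NumberField
open scoped Pointwise
open Fermat.Agent.CFT.SplitPrimes Fermat.Agent.CFT.NotAllSplit
  Fermat.Agent.ES.GAL.ChebAbstract23 Fermat.Agent.CFT.ArtinSymbol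
  Fermat.Agent.ES.R48.DeuringNF18 Fermat.Agent.ES.R48.CrossGroupPM12

namespace Fermat.Agent.ES.R48.OrbitSum7

variable (K Ω : Type) [Field K] [Field Ω] [NumberField K] [NumberField Ω] [Algebra K Ω]
  [IsGalois K Ω]

attribute [local instance] primesAction

/-- For a prime `P` of `Ω` over a good prime `p` of `K` and a conjugation-stable `T`:
`p ∈ frobClassIn T ↔ Frob_P ∈ T`. -/
theorem mem_frobClassIn_iff_fr {M : ℕ} (hM : (discr Ω).natAbs ∣ M) {T : Set (Ω ≃ₐ[K] Ω)}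
    (hT : ∀ t ∈ T, ∀ g : Ω ≃ₐ[K] Ω, g * t * g⁻¹ ∈ T) (P : HeightOneSpectrum (𝓞 Ω))
    (hP : below (R := 𝓞 K) P ∈ goodPrimes K M) :
    below (R := 𝓞 K) P ∈ frobClassIn K Ω M T ↔ fr K P ∈ T := by
  constructor
  · rintro ⟨-, Q, hQ, hQp, σ, hσT, hσ⟩
    have hQ0 : Q ≠ ⊥ := ne_bot_of_under_ne_bot hQp (below (R := 𝓞 K) P).ne_bot
    have hbel : below (R := 𝓞 K) (⟨Q, hQ, hQ0⟩ : HeightOneSpectrum (𝓞 Ω)) =
        below (R := 𝓞 K) P := HeightOneSpectrum.ext hQp
    obtain ⟨g, hg⟩ := exists_smul_eq_of_below_eq hbel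
    have h1 : IsArithFrobAt (𝓞 K) (g * σ * g⁻¹) (g • Q) := hσ.conj g
    have h2 : fr K P = g * σ * g⁻¹ := by
      refine fr_eq hM hP ?_
      rw [← hg]
      exact h1
    rw [h2]
    exact hT σ hσT g
  · intro h
    exact ⟨hP, P.asIdeal, P.isPrime, rfl, fr K P, h, isArithFrobAt_fr K P⟩

/-- **Orbit decomposition** of the prime sum over a union `S` of orbits. -/
theorem wsum_frobClassIn_eq_finsum_orb {M : ℕ} (hM : (discr Ω).natAbs ∣ M)
    {c₀ : Ω ≃ₐ[K] Ω} (hc : ∀ g : Ω ≃ₐ[K] Ω, c₀ * g = g * c₀) (h2 : c₀ * c₀ = 1)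
    (S : Set (Ω ≃ₐ[K] Ω)) (hS : ∀ γ ∈ S, orb c₀ γ ⊆ S) {s : ℝ} (hs : 1 < s) :
    wsum (xP K s) (frobClassIn K Ω M S) =
      ∑ᶠ γ ∈ S, (1 / (Nat.card (orb c₀ γ) : ℝ)) *
        wsum (xP K s) (frobClassIn K Ω M (orb c₀ γ)) := by
  classical
  haveI : Fintype (Ω ≃ₐ[K] Ω) := Fintype.ofFinite _
  rw [finsum_mem_eq_sum_ite]
  unfold wsum
  have hterm : ∀ γ : Ω ≃ₐ[K] Ω,
      (if γ ∈ S then 1 / (Nat.card (orb c₀ γ) : ℝ) *
        ∑' p, (frobClassIn K Ω M (orb c₀ γ)).indicator (xP K s) p else 0) =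
      ∑' p, (if γ ∈ S then 1 / (Nat.card (orb c₀ γ) : ℝ) else 0) *
        (frobClassIn K Ω M (orb c₀ γ)).indicator (xP K s) p := by
    intro γ
    rw [tsum_mul_left]
    by_cases h : γ ∈ S
    · rw [if_pos h, if_pos h]
    · rw [if_neg h, if_neg h, zero_mul]
  rw [Finset.sum_congr rfl (fun γ _ => hterm γ),
    ← Summable.tsum_finsetSum (fun γ _ => ((summable_xP K hs).indicator _).mul_left _)]
  refine tsum_congr (fun p => ?_)
  by_cases hp : p ∈ goodPrimes K M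
  · obtain ⟨P, hP, hPp⟩ := exists_prime_over K Ω p.asIdeal
    have hP0 : P ≠ ⊥ := ne_bot_of_under_ne_bot hPp p.ne_bot
    set P' : HeightOneSpectrum (𝓞 Ω) := ⟨P, hP, hP0⟩ with hP'
    have hbel : below (R := 𝓞 K) P' = p := HeightOneSpectrum.ext hPp
    have hgood : below (R := 𝓞 K) P' ∈ goodPrimes K M := by rw [hbel]; exact hp
    have hSconj : ∀ t ∈ S, ∀ g : Ω ≃ₐ[K] Ω, g * t * g⁻¹ ∈ S :=
      fun t ht g => hS t ht (conj_mem_orb (mem_orb_self c₀ t) g)
    have hiffS := mem_frobClassIn_iff_fr K Ω hM hSconj P' hgood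
    have hiffO : ∀ γ : Ω ≃ₐ[K] Ω,
        below (R := 𝓞 K) P' ∈ frobClassIn K Ω M (orb c₀ γ) ↔ fr K P' ∈ orb c₀ γ :=
      fun γ => mem_frobClassIn_iff_fr K Ω hM (fun t ht g => conj_mem_orb ht g) P' hgood
    rw [hbel] at hiffS hiffO
    have key := finsum_orb hc h2 S hS (fr K P')
    rw [finsum_mem_eq_sum_ite] at key
    have hL : (frobClassIn K Ω M S).indicator (xP K s) p =
        (if fr K P' ∈ S then 1 else 0) * xP K s p := by
      by_cases h : fr K P' ∈ S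
      · rw [if_pos h, one_mul, Set.indicator_of_mem (hiffS.mpr h)]
      · rw [if_neg h, zero_mul, Set.indicator_of_notMem (fun h' => h (hiffS.mp h'))]
    have hR : ∀ γ : Ω ≃ₐ[K] Ω, (if γ ∈ S then 1 / (Nat.card (orb c₀ γ) : ℝ) else 0) *
        (frobClassIn K Ω M (orb c₀ γ)).indicator (xP K s) p =
        (if γ ∈ S then (if fr K P' ∈ orb c₀ γ then 1 / (Nat.card (orb c₀ γ) : ℝ) else 0)
          else 0) * xP K s p := by
      intro γ
      by_cases h : fr K P' ∈ orb c₀ γ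
      · rw [if_pos h, Set.indicator_of_mem ((hiffO γ).mpr h)]
      · rw [if_neg h, Set.indicator_of_notMem (fun h' => h ((hiffO γ).mp h')), mul_zero,
          ite_self, zero_mul]
    rw [hL, Finset.sum_congr rfl (fun γ _ => hR γ), ← Finset.sum_mul, key]
  · rw [Set.indicator_of_notMem (fun h => hp h.1)]
    symm
    refine Finset.sum_eq_zero (fun γ _ => ?_)
    rw [Set.indicator_of_notMem (fun h => hp h.1), mul_zero]

end Fermat.Agent.ES.R48.OrbitSum7
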