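/-
Programme R (S48, Deligne–Serre), chapter A4 CHEB, brick for CR6 (helper20):
**Frobenius classes restrict along a tower.**

`K ⊆ L ⊆ Ω` number fields, `L/K` and `Ω/K` Galois, `M ∣ M'`.  If `T ⊆ Gal(Ω/K)` restricts into
`C ⊆ Gal(L/K)`, then every good prime of `K` (for `M'`) with a Frobenius element in `T` at some prime
of `Ω` is a good prime (for `M`) with a Frobenius element in `C` at some prime of `L`:
`frobClassIn K Ω M' T ⊆ frobClassIn K L M C`  (`DeuringNF18.frobClassIn`).
-/
import Mathlib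
import Fermat.Agent.CFT.FrobFunct
import Fermat.Agent.CFT.NotAllSplit
import Fermat.Agent.ES.R48.DeuringNF18

set_option autoImplicit false

open IsDedekindDomain Ideal NumberField
open Fermat.Agent.CFT.NotAllSplit Fermat.Agent.ES.R48.DeuringNF18

namespace Fermat.Agent.ES.R48.RestrictClass20

/-- good primes for a multiple `M'` of `M` are good primes for `M`. -/
theorem goodPrimes_anti (K : Type) [Field K] [NumberField K] {M M' : ℕ} (h : M ∣ M') :
    goodPrimes K M' ⊆ goodPrimes K M :=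
  fun _ hp => ⟨hp.1, fun h' => hp.2 (h'.trans h)⟩

variable (K L Ω : Type) [Field K] [Field L] [Field Ω] [NumberField K] [NumberField L]
  [NumberField Ω] [Algebra K L] [Algebra L Ω] [Algebra K Ω] [IsScalarTower K L Ω]
  [IsGalois K L] [IsGalois K Ω]

/-- **Restriction of Frobenius classes along the tower `K ⊆ L ⊆ Ω`.** -/
theorem frobClassIn_restrict {M M' : ℕ} (hMM' : M ∣ M') (T : Set (Ω ≃ₐ[K] Ω))
    (C : Set (L ≃ₐ[K] L)) (hTC : ∀ t ∈ T, AlgEquiv.restrictNormalHom L t ∈ C) :
    frobClassIn K Ω M' T ⊆ frobClassIn K L M C := by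
  rintro p ⟨hp, P, hP, hPp, σ, hσ, hfrob⟩
  refine ⟨goodPrimes_anti K hMM' hp, P.under (𝓞 L), inferInstance, ?_,
    AlgEquiv.restrictNormalHom L σ, hTC σ hσ, ?_⟩
  · rw [Ideal.under_under]
    exact hPp
  · exact Fermat.Agent.CFT.FrobFunct.isArithFrobAt_restrictNormal hfrob

/-- The same with the pointwise hypothesis on the whole group (handy form):
`T = restrictNormalHom ⁻¹' C`. -/
theorem frobClassIn_preimage_subset {M M' : ℕ} (hMM' : M ∣ M') (C : Set (L ≃ₐ[K] L)) :
    frobClassIn K Ω M' ((AlgEquiv.restrictNormalHom L : (Ω ≃ₐ[K] Ω) →* (L ≃ₐ[K] L)) ⁻¹' C) ⊆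
      frobClassIn K L M C :=
  frobClassIn_restrict K L Ω hMM' _ C (fun _ ht => ht)

end Fermat.Agent.ES.R48.RestrictClass20
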