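/-
Programme R (S48, Deligne–Serre), chapter A4 CHEB (owner helper7), brick CR6: **the assembly**
(R5)–(R7) of `R48_A4_CHEB7.md`: Chebotarev for inversion-stable classes, as a lower bound with an
arbitrarily small loss, for a Galois number field `L/ℚ`.

* `orbit_lower` : `Ω = L(ζ_q)`, `Γ = Gal(Ω/K)`, `c₀ = (1, -1)`; for `γ ∈ Γ` whose cyclotomic
  character is good for `|Gal(L/K)|`, the subgroup `B = ⟨γ, c₀⟩` is abelian and embeds into
  `(ZMod q)ˣ`, so the cyclotomic density theorem (CY3) over `Ω^B` and the descent (CR4) give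
  `(|orb γ| / |Γ|) log (1/(s-1)) - O(1) ≤ ∑_{p : Frob_p ⊆ orb γ} N p ^ (-s)`.
* `crossing_lower` : summing over the orbits in `S = {γ | γ|_L ∈ C, χ_q(γ) good}` (OrbitSum7) and
  restricting to `L` (RestrictClass20):
  `(|C| · #good / |Γ|) log (1/(s-1)) - O(1) ≤ ∑_{p : Frob_p(L) ⊆ C} N p ^ (-s)`.
* **`cheb_inv_nf`** : `K = ℚ`, `q` a prime with `#good ≥ (1 - δ)(q - 1)` (CR1), `Ω = L(ζ_q)`.
-/
import Mathlib
import Fermat.Agent.ES.R48.Descent18
import Fermat.Agent.ES.R48.CrossGroupPM12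
import Fermat.Agent.ES.R48.CrossField11
import Fermat.Agent.ES.R48.GoodTau1
import Fermat.Agent.ES.R48.RestrictClass20
import Fermat.Agent.ES.R48.CycloDensityPM23
import Fermat.Agent.ES.R48.OrbitSum7

set_option autoImplicit false
set_option linter.unusedSectionVars false
set_option linter.style.haveILetI false

open IsDedekindDomain Ideal NumberField
open Fermat.Agent.CFT.SplitPrimes Fermat.Agent.CFT.NotAllSplit
  Fermat.Agent.ES.GAL.ChebAbstract23 Fermat.Agent.CFT.ArtinSymbol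
  Fermat.Agent.ES.R48.DeuringNF18 Fermat.Agent.ES.R48.CrossGroupPM12
  Fermat.Agent.ES.R48.CrossField11 Fermat.Agent.ES.R48.GoodTau1

namespace Fermat.Agent.ES.R48.ChebInvNF7

/-! ### The crossing -/

section Crossing

variable {K L Ω : Type} [Field K] [Field L] [Field Ω] [NumberField K] [NumberField L]
  [NumberField Ω] [Algebra K L] [Algebra L Ω] [Algebra K Ω] [IsScalarTower K L Ω]
  [IsGalois K L] [IsGalois K Ω] {q : ℕ} [NeZero q] [IsCyclotomicExtension {q} L Ω] {ζ : Ω}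

/-- **One orbit.**  For `γ` with good cyclotomic character, the primes of `K` with Frobenius class
in the orbit of `γ` under conjugation, inversion and `c₀ ·` have at least their expected weight. -/
theorem orbit_lower (hζ : IsPrimitiveRoot ζ q) {c₀ : Ω ≃ₐ[K] Ω}
    (h1 : AlgEquiv.restrictNormalHom L c₀ = 1) (h2 : hζ.autToPow K c₀ = -1)
    (hc : ∀ g : Ω ≃ₐ[K] Ω, c₀ * g = g * c₀) (hsq : c₀ * c₀ = 1) {M₁ : ℕ} (hM₁ : M₁ ≠ 0)
    (hqM : q ∣ M₁) (γ : Ω ≃ₐ[K] Ω)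
    (hγ : GoodTau (Nat.card (L ≃ₐ[K] L)) (hζ.autToPow K γ)) :
    ∃ B : ℝ, ∀ s ∈ Set.Ioc (1 : ℝ) 2,
      (Nat.card (orb c₀ γ) : ℝ) / Nat.card (Ω ≃ₐ[K] Ω) * Real.log (1 / (s - 1)) - B ≤
        wsum (xP K s) (frobClassIn K Ω (M₁ * (discr Ω).natAbs) (orb c₀ γ)) := by
  classical
  set B : Subgroup (Ω ≃ₐ[K] Ω) := Subgroup.closure ({γ, c₀} : Set (Ω ≃ₐ[K] Ω)) with hB
  have hγB : γ ∈ B := Subgroup.subset_closure (Set.mem_insert _ _)
  have hcB : c₀ ∈ B := Subgroup.subset_closure (Set.mem_insert_of_mem _ rfl)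
  have hcomm : ∀ a ∈ B, ∀ b ∈ B, a * b = b * a :=
    fun a ha b hb => commute_of_mem_closure hc ha hb
  have hneg : (-1 : (ZMod q)ˣ) * -1 = 1 := by rw [neg_mul_neg, one_mul]
  have hker : ∀ g ∈ B, hζ.autToPow K g = 1 → g = 1 := fun g hg hg1 =>
    eq_one_of_mem_closure hc (AlgEquiv.restrictNormalHom L) (hζ.autToPow K)
      (fun x hx1 hx2 =>
        Fermat.Agent.CFT.CycloDisjoint.eq_one_of_restrict_of_autToPow (K := K) (L := L) hζ x
          hx1 hx2)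
      (-1) hneg h1 h2 hγ hg hg1
  obtain ⟨inst, hinjF, c', hc'G, hc'pow⟩ := crossing_hyps hζ B hcomm hker hcB h2
  haveI := inst
  have hfix : (IntermediateField.fixedField B).fixingSubgroup = B :=
    IntermediateField.fixingSubgroup_fixedField B
  have hc'sq : c' * c' = 1 := by
    apply toGal_injective (IntermediateField.fixedField B)
    rw [map_mul, hc'G, hsq, map_one]
  refine Fermat.Agent.ES.R48.Descent18.descent_lower K Ω (IntermediateField.fixedField B) (M := M₁ * (discr Ω).natAbs)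
    (Dvd.intro_left _ rfl) c' hc'sq ?_ ?_ (orb c₀ γ) ?_ ?_ ?_ ?_
  · intro g
    rw [← toGal_eq, hc'G]
    exact (hc g).symm
  · exact Fermat.Agent.ES.R48.CycloDensityPM23.cyclo_density_lower
      (↥(IntermediateField.fixedField B)) Ω hζ hinjF c' hc'pow M₁ hM₁ hqM
  · exact fun t ht g => conj_mem_orb ht g
  · exact fun t ht => inv_mem_orb hc hsq ht
  · intro t ht
    rw [← toGal_eq, hc'G]
    exact central_mul_mem_orb hc hsq ht
  · intro t ht
    rw [hfix]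
    obtain ⟨g, hg⟩ := ht
    refine ⟨g⁻¹, ?_⟩
    have hγinv : γ⁻¹ ∈ B := B.inv_mem hγB
    rcases hg with rfl | rfl | rfl | rfl
    · have : g⁻¹ * (g * γ * g⁻¹) * g⁻¹⁻¹ = γ := by group
      rw [this]; exact hγB
    · have : g⁻¹ * (g * γ⁻¹ * g⁻¹) * g⁻¹⁻¹ = γ⁻¹ := by group
      rw [this]; exact hγinv
    · have : g⁻¹ * (g * (c₀ * γ) * g⁻¹) * g⁻¹⁻¹ = c₀ * γ := by group
      rw [this]; exact B.mul_mem hcB hγB
    · have : g⁻¹ * (g * (c₀ * γ⁻¹) * g⁻¹) * g⁻¹⁻¹ = c₀ * γ⁻¹ := by group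
      rw [this]; exact B.mul_mem hcB hγinv

/-- **All orbits.**  With `S = {γ | γ|_L ∈ C, χ_q(γ) good}`, a union of orbits of cardinality
`|C| · #good`. -/
theorem crossing_lower (hζ : IsPrimitiveRoot ζ q) (hq : Nat.Coprime q (discr L).natAbs) {M : ℕ}
    (hM0 : M ≠ 0) (C : Set (L ≃ₐ[K] L)) (hconj : ∀ g ∈ C, ∀ h : L ≃ₐ[K] L, h * g * h⁻¹ ∈ C)
    (hinv : ∀ g ∈ C, g⁻¹ ∈ C) :
    ∃ B : ℝ, ∀ s ∈ Set.Ioc (1 : ℝ) 2,
      ((Nat.card C : ℝ) * Nat.card {τ : (ZMod q)ˣ // GoodTau (Nat.card (L ≃ₐ[K] L)) τ}) /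
          Nat.card (Ω ≃ₐ[K] Ω) * Real.log (1 / (s - 1)) - B ≤
        wsum (xP K s) (frobClassIn K L M C) := by
  classical
  haveI : Fintype (Ω ≃ₐ[K] Ω) := Fintype.ofFinite _
  obtain ⟨c₀, h1, h2, hc, hsq⟩ := exists_c0 (K := K) (L := L) hζ hq
  set e := Nat.card (L ≃ₐ[K] L) with he
  set S : Set (Ω ≃ₐ[K] Ω) :=
    {γ | AlgEquiv.restrictNormalHom L γ ∈ C ∧ GoodTau e (hζ.autToPow K γ)} with hS
  set M' : ℕ := (M * q) * (discr Ω).natAbs with hM'
  have hMM' : M ∣ M' := ⟨q * (discr Ω).natAbs, by rw [hM', mul_assoc]⟩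
  have hM₁ : M * q ≠ 0 := Nat.mul_ne_zero hM0 (NeZero.ne q)
  -- `S` is a union of orbits
  have hSorb : ∀ γ ∈ S, orb c₀ γ ⊆ S := by
    rintro γ ⟨hγC, hγg⟩ x ⟨g, hg⟩
    have hCinv : AlgEquiv.restrictNormalHom L γ⁻¹ ∈ C := by
      rw [map_inv]; exact hinv _ hγC
    have hginv : GoodTau e (hζ.autToPow K γ⁻¹) := by
      rw [map_inv]; exact hγg.inv
    have key : ∀ y : Ω ≃ₐ[K] Ω, AlgEquiv.restrictNormalHom L y ∈ C →
        GoodTau e (hζ.autToPow K y) → g * y * g⁻¹ ∈ S ∧ g * (c₀ * y) * g⁻¹ ∈ S := by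
      intro y hyC hyg
      refine ⟨⟨?_, ?_⟩, ⟨?_, ?_⟩⟩
      · rw [map_mul, map_mul, map_inv]; exact hconj _ hyC _
      · rw [map_mul, map_mul, map_inv, mul_inv_cancel_comm]; exact hyg
      · rw [map_mul, map_mul, map_mul, map_inv, h1, one_mul]; exact hconj _ hyC _
      · rw [map_mul, map_mul, map_mul, map_inv, h2, mul_inv_cancel_comm, neg_one_mul]
        exact hyg.neg
    rcases hg with rfl | rfl | rfl | rfl
    · exact (key γ hγC hγg).1
    · exact (key γ⁻¹ hCinv hginv).1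
    · exact (key γ hγC hγg).2
    · exact (key γ⁻¹ hCinv hginv).2
  -- the orbit constants
  have horb : ∀ γ : Ω ≃ₐ[K] Ω, ∃ B : ℝ, γ ∈ S → ∀ s ∈ Set.Ioc (1 : ℝ) 2,
      (Nat.card (orb c₀ γ) : ℝ) / Nat.card (Ω ≃ₐ[K] Ω) * Real.log (1 / (s - 1)) - B ≤
        wsum (xP K s) (frobClassIn K Ω M' (orb c₀ γ)) := by
    intro γ
    by_cases hγ : γ ∈ S
    · obtain ⟨B, hB⟩ := orbit_lower (L := L) hζ h1 h2 hc hsq hM₁ (Dvd.intro_left _ rfl) γ hγ.2
      exact ⟨B, fun _ => hB⟩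
    · exact ⟨0, fun h => absurd h hγ⟩
  choose Bf hBf using horb
  refine ⟨∑ γ : Ω ≃ₐ[K] Ω, if γ ∈ S then Bf γ / Nat.card (orb c₀ γ) else 0, fun s hs => ?_⟩
  have hsum := Fermat.Agent.ES.R48.OrbitSum7.wsum_frobClassIn_eq_finsum_orb K Ω (M := M')
    (Dvd.intro_left _ rfl) hc hsq S hSorb hs.1
  have hmono : wsum (xP K s) (frobClassIn K Ω M' S) ≤ wsum (xP K s) (frobClassIn K L M C) :=
    wsum_mono (fun p => (xP_pos K s p).le) (summable_xP K hs.1)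
      (Fermat.Agent.ES.R48.RestrictClass20.frobClassIn_restrict K L Ω hMM' S C
        (fun t ht => ht.1))
  refine le_trans ?_ hmono
  rw [hsum, finsum_mem_eq_sum_ite]
  have hcardS : (Nat.card C : ℝ) * Nat.card {τ : (ZMod q)ˣ // GoodTau e τ} =
      ∑ γ : Ω ≃ₐ[K] Ω, if γ ∈ S then (1 : ℝ) else 0 := by
    rw [← Nat.cast_mul, ← card_subtype_prod (K := K) (L := L) hζ hq C (fun τ => GoodTau e τ),
      Finset.sum_boole, Nat.card_eq_fintype_card, Fintype.card_subtype]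
    rfl
  rw [hcardS, Finset.sum_div, Finset.sum_mul, ← Finset.sum_sub_distrib]
  refine Finset.sum_le_sum fun γ _ => ?_
  by_cases hγ : γ ∈ S
  · rw [if_pos hγ, if_pos hγ, if_pos hγ]
    have hpos : (0 : ℝ) < Nat.card (orb c₀ γ) := by
      have : Nonempty (orb c₀ γ) := ⟨⟨γ, mem_orb_self c₀ γ⟩⟩
      exact_mod_cast Nat.card_pos
    have h3 := mul_le_mul_of_nonneg_left (hBf γ hγ s hs) (one_div_pos.mpr hpos).le
    refine le_trans (le_of_eq ?_) h3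
    field_simp
  · rw [if_neg hγ, if_neg hγ, if_neg hγ]
    simp

end Crossing

/-! ### The theorem over `ℚ` -/

section Rat

theorem log_nonneg_of_mem {s : ℝ} (hs : s ∈ Set.Ioc (1 : ℝ) 2) :
    0 ≤ Real.log (1 / (s - 1)) := by
  apply Real.log_nonneg
  rw [le_div_iff₀ (by linarith [hs.1])]
  linarith [hs.2]

/-- If at most `δ (q - 1)` units are bad, at least `(1 - δ)(q - 1)` are good. -/
theorem card_good_ge {q : ℕ} (hq : q.Prime) (e : ℕ) (δ : ℝ)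
    (h : (Nat.card {τ : (ZMod q)ˣ // ¬ GoodTau e τ} : ℝ) ≤ δ * (q - 1)) :
    (1 - δ) * ((q : ℝ) - 1) ≤ (Nat.card {τ : (ZMod q)ˣ // GoodTau e τ} : ℝ) := by
  classical
  haveI : Fact q.Prime := ⟨hq⟩
  have h1 : Nat.card {τ : (ZMod q)ˣ // GoodTau e τ} +
      Nat.card {τ : (ZMod q)ˣ // ¬ GoodTau e τ} = q - 1 := by
    rw [← Nat.card_sum, Nat.card_congr (Equiv.sumCompl fun τ : (ZMod q)ˣ => GoodTau e τ),
      Nat.card_eq_fintype_card, ZMod.card_units_eq_totient, Nat.totient_prime hq]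
  have h2 : (Nat.card {τ : (ZMod q)ˣ // GoodTau e τ} : ℝ) +
      Nat.card {τ : (ZMod q)ˣ // ¬ GoodTau e τ} = (q : ℝ) - 1 := by
    rw [← Nat.cast_add, h1, Nat.cast_pred hq.pos]
  linarith

/-- **(CHEB-INV), number field form.**  For a Galois number field `L/ℚ`, a subset `C` of
`Gal(L/ℚ)` stable under conjugation and inversion, and `η < |C| / |Gal(L/ℚ)|`, the rational primes
not dividing `M` with Frobenius class in `C` weigh at least `η log (1/(s-1)) - O(1)` on `(1, 2]`. -/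
theorem cheb_inv_nf (L : Type) [Field L] [NumberField L] [IsGalois ℚ L] {M : ℕ} (hM0 : M ≠ 0)
    (hM : (discr L).natAbs ∣ M) (C : Set (L ≃ₐ[ℚ] L))
    (hconj : ∀ g ∈ C, ∀ h : L ≃ₐ[ℚ] L, h * g * h⁻¹ ∈ C) (hinv : ∀ g ∈ C, g⁻¹ ∈ C) (η : ℝ)
    (hη : η < (Nat.card C : ℝ) / Nat.card (L ≃ₐ[ℚ] L)) :
    ∃ B : ℝ, ∀ s ∈ Set.Ioc (1 : ℝ) 2,
      η * Real.log (1 / (s - 1)) - B ≤ wsum (xP ℚ s) (frobClassIn ℚ L M C) := by
  have _ := hM
  rcases le_or_gt η 0 with hη0 | hη0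
  · refine ⟨0, fun s hs => ?_⟩
    have h1 := mul_nonpos_of_nonpos_of_nonneg hη0 (log_nonneg_of_mem hs)
    have h2 := wsum_xP_nonneg (frobClassIn ℚ L M C) s
    linarith
  · set r : ℝ := (Nat.card C : ℝ) / Nat.card (L ≃ₐ[ℚ] L) with hr
    have hr0 : 0 < r := hη0.trans hη
    set δ : ℝ := 1 - η / r with hδ
    have hδ0 : 0 < δ := by
      rw [hδ, sub_pos, div_lt_one hr0]
      exact hη
    have he : 0 < Nat.card (L ≃ₐ[ℚ] L) := Nat.card_pos
    obtain ⟨q, hqp, hDq, hbad⟩ :=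
      exists_prime_good_tau (Nat.card (L ≃ₐ[ℚ] L)) he δ hδ0 (discr L).natAbs
    haveI : NeZero q := ⟨hqp.ne_zero⟩
    have hcop : Nat.Coprime q (discr L).natAbs := by
      rw [Nat.Prime.coprime_iff_not_dvd hqp]
      intro hdvd
      have hpos : 0 < (discr L).natAbs := Int.natAbs_pos.mpr (NumberField.discr_ne_zero L)
      exact absurd (Nat.le_of_dvd hpos hdvd) (not_le.mpr hDq)
    haveI : IsGalois ℚ (Om L q) := isGalois_Om L q
    obtain ⟨B, hB⟩ := crossing_lower (K := ℚ) (L := L) (Ω := Om L q) (zetaOm_spec L q) hcop hM0 C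
      hconj hinv
    refine ⟨B, fun s hs => le_trans ?_ (hB s hs)⟩
    have hℓ := log_nonneg_of_mem hs
    have hgood := card_good_ge hqp (Nat.card (L ≃ₐ[ℚ] L)) δ hbad
    have hΓ : (Nat.card (Om L q ≃ₐ[ℚ] Om L q) : ℝ) =
        (Nat.card (L ≃ₐ[ℚ] L) : ℝ) * ((q : ℝ) - 1) := by
      rw [card_gal_prime (K := ℚ) (L := L) (zetaOm_spec L q) hcop hqp, Nat.cast_mul,
        Nat.cast_pred hqp.pos]
    have hG : (0 : ℝ) < (Nat.card (L ≃ₐ[ℚ] L) : ℝ) := by exact_mod_cast he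
    have hq1 : (0 : ℝ) < (q : ℝ) - 1 := by
      have : (1 : ℝ) < (q : ℝ) := by exact_mod_cast hqp.one_lt
      linarith
    have hηr : η = (1 - δ) * r := by
      rw [hδ]
      field_simp
      ring
    have hcoef : η ≤ ((Nat.card C : ℝ) *
        Nat.card {τ : (ZMod q)ˣ // GoodTau (Nat.card (L ≃ₐ[ℚ] L)) τ}) /
          Nat.card (Om L q ≃ₐ[ℚ] Om L q) := by
      rw [hΓ, hηr, hr, le_div_iff₀ (mul_pos hG hq1)]
      calc (1 - δ) * ((Nat.card C : ℝ) / Nat.card (L ≃ₐ[ℚ] L)) *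
            ((Nat.card (L ≃ₐ[ℚ] L) : ℝ) * ((q : ℝ) - 1))
          = (Nat.card C : ℝ) * ((1 - δ) * ((q : ℝ) - 1)) := by
            field_simp
        _ ≤ _ := mul_le_mul_of_nonneg_left hgood (Nat.cast_nonneg _)
    have := mul_le_mul_of_nonneg_right hcoef hℓ
    linarith

end Rat

end Fermat.Agent.ES.R48.ChebInvNF7
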