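/-
Programme R (S48, Deligne–Serre), chapter A3 DENS, file 1 (helper16): **Dirichlet-density vocabulary
for sets of rational primes**, shared by A2 (Rankin), A3 (density of the exceptional set), A4
(Chebotarev) and the assembly of half A.

With `ℓ(s) = log (1 / (s - 1))` on `(1, 2]`:
* `term w s n = w n * n ^ (-s)` at primes `n`, `0` elsewhere;  `WPS w s = ∑' n, term w s n`;
* `PS X s = WPS (indicator of X) s = ∑_{p ∈ X prime} p ^ (-s)`;
* `UpperLe X η : ∃ C, ∀ s ∈ (1, 2], PS X s ≤ η * ℓ(s) + C`,  `LowerGe X η : ∃ C, ∀ s ∈ (1, 2], η * ℓ(s) - C ≤ PS X s`;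
* `WUpperLe w η` : the same for a weight `w` (with summability on `(1, 2]`, which is automatic for
  bounded weights but NOT for `‖a_p‖²`);
* calculus: `summable_term_of_le`, `WPS_le_WPS`, `PS_mono`, `PS_union_le`, `PS_le_of_finite`,
  `UpperLe.mono`, `UpperLe.of_subset_union_finite`, `LowerGe.mono`, and
  **`le_of_lowerGe_of_upperLe` : `LowerGe X a → UpperLe X b → a ≤ b`** (`ℓ(s) → ∞`).
-/
import Mathlib

set_option autoImplicit false

open scoped Topology

namespace Fermat.Agent.ES.R48.DensDefs16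

noncomputable section

/-- `w n * n ^ (-s)` at the primes, `0` elsewhere. -/
def term (w : ℕ → ℝ) (s : ℝ) (n : ℕ) : ℝ :=
  open Classical in if n.Prime then w n * (n : ℝ) ^ (-s) else 0

/-- the weighted prime sum `∑_p w p * p ^ (-s)`. -/
def WPS (w : ℕ → ℝ) (s : ℝ) : ℝ := ∑' n : ℕ, term w s n

/-- the weight of a set of natural numbers. -/
def ind (X : Set ℕ) : ℕ → ℝ := X.indicator 1

/-- the prime sum `∑_{p ∈ X, p prime} p ^ (-s)`. -/
def PS (X : Set ℕ) (s : ℝ) : ℝ := WPS (ind X) s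

/-- upper Dirichlet density `≤ η` (with an `O(1)`). -/
def UpperLe (X : Set ℕ) (η : ℝ) : Prop :=
  ∃ C : ℝ, ∀ s ∈ Set.Ioc (1 : ℝ) 2, PS X s ≤ η * Real.log (1 / (s - 1)) + C

/-- lower Dirichlet density `≥ η` (with an `O(1)`). -/
def LowerGe (X : Set ℕ) (η : ℝ) : Prop :=
  ∃ C : ℝ, ∀ s ∈ Set.Ioc (1 : ℝ) 2, η * Real.log (1 / (s - 1)) - C ≤ PS X s

/-- weighted upper bound, with summability. -/
def WUpperLe (w : ℕ → ℝ) (η : ℝ) : Prop :=
  (∀ s ∈ Set.Ioc (1 : ℝ) 2, Summable (term w s)) ∧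
    ∃ C : ℝ, ∀ s ∈ Set.Ioc (1 : ℝ) 2, WPS w s ≤ η * Real.log (1 / (s - 1)) + C

/-! ### terms -/

theorem term_of_prime {w : ℕ → ℝ} {s : ℝ} {n : ℕ} (hn : n.Prime) :
    term w s n = w n * (n : ℝ) ^ (-s) := by
  unfold term; rw [if_pos hn]

theorem term_of_not_prime {w : ℕ → ℝ} {s : ℝ} {n : ℕ} (hn : ¬ n.Prime) : term w s n = 0 := by
  unfold term; rw [if_neg hn]

theorem rpow_neg_nonneg (s : ℝ) (n : ℕ) : 0 ≤ (n : ℝ) ^ (-s) :=
  Real.rpow_nonneg (Nat.cast_nonneg n) _

theorem term_nonneg {w : ℕ → ℝ} (hw : ∀ n, 0 ≤ w n) (s : ℝ) (n : ℕ) : 0 ≤ term w s n := by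
  by_cases hn : n.Prime
  · rw [term_of_prime hn]; exact mul_nonneg (hw n) (rpow_neg_nonneg s n)
  · rw [term_of_not_prime hn]

theorem term_le_term {w w' : ℕ → ℝ} (h : ∀ n, n.Prime → w n ≤ w' n) (s : ℝ) (n : ℕ) :
    term w s n ≤ term w' s n := by
  by_cases hn : n.Prime
  · rw [term_of_prime hn, term_of_prime hn]
    exact mul_le_mul_of_nonneg_right (h n hn) (rpow_neg_nonneg s n)
  · rw [term_of_not_prime hn, term_of_not_prime hn]

theorem term_add (w w' : ℕ → ℝ) (s : ℝ) (n : ℕ) :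
    term (fun n => w n + w' n) s n = term w s n + term w' s n := by
  by_cases hn : n.Prime
  · rw [term_of_prime hn, term_of_prime hn, term_of_prime hn, add_mul]
  · rw [term_of_not_prime hn, term_of_not_prime hn, term_of_not_prime hn, add_zero]

theorem term_const_mul (c : ℝ) (w : ℕ → ℝ) (s : ℝ) (n : ℕ) :
    term (fun n => c * w n) s n = c * term w s n := by
  by_cases hn : n.Prime
  · rw [term_of_prime hn, term_of_prime hn, mul_assoc]
  · rw [term_of_not_prime hn, term_of_not_prime hn, mul_zero]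

theorem term_finset_sum {ι : Type*} (I : Finset ι) (w : ι → ℕ → ℝ) (s : ℝ) (n : ℕ) :
    term (fun n => ∑ i ∈ I, w i n) s n = ∑ i ∈ I, term (w i) s n := by
  by_cases hn : n.Prime
  · simp only [term_of_prime hn, Finset.sum_mul]
  · simp only [term_of_not_prime hn, Finset.sum_const_zero]

/-! ### summability -/

theorem summable_rpow_neg {s : ℝ} (hs : 1 < s) : Summable (fun n : ℕ => (n : ℝ) ^ (-s)) :=
  Real.summable_nat_rpow.mpr (by linarith)

/-- a bounded nonnegative weight gives a summable prime series for `s > 1`. -/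
theorem summable_term_of_le {w : ℕ → ℝ} (hw : ∀ n, 0 ≤ w n) {B : ℝ} (hB : ∀ n, w n ≤ B) {s : ℝ}
    (hs : 1 < s) : Summable (term w s) := by
  refine Summable.of_nonneg_of_le (term_nonneg hw s) (fun n => ?_)
    ((summable_rpow_neg hs).mul_left B)
  by_cases hn : n.Prime
  · rw [term_of_prime hn]
    exact mul_le_mul_of_nonneg_right (hB n) (rpow_neg_nonneg s n)
  · rw [term_of_not_prime hn]
    exact mul_nonneg ((hw 0).trans (hB 0)) (rpow_neg_nonneg s n)

theorem ind_of_mem {X : Set ℕ} {n : ℕ} (h : n ∈ X) : ind X n = 1 := by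
  unfold ind; rw [Set.indicator_of_mem h]; rfl

theorem ind_of_notMem {X : Set ℕ} {n : ℕ} (h : n ∉ X) : ind X n = 0 := by
  unfold ind; rw [Set.indicator_of_notMem h]

theorem ind_nonneg (X : Set ℕ) (n : ℕ) : 0 ≤ ind X n := by
  by_cases hn : n ∈ X
  · rw [ind_of_mem hn]; exact zero_le_one
  · rw [ind_of_notMem hn]

theorem ind_le_one (X : Set ℕ) (n : ℕ) : ind X n ≤ 1 := by
  by_cases hn : n ∈ X
  · rw [ind_of_mem hn]
  · rw [ind_of_notMem hn]; exact zero_le_one

theorem summable_term_ind (X : Set ℕ) {s : ℝ} (hs : 1 < s) : Summable (term (ind X) s) :=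
  summable_term_of_le (ind_nonneg X) (ind_le_one X) hs

/-! ### monotonicity and additivity of `WPS`, `PS` -/

theorem WPS_nonneg {w : ℕ → ℝ} (hw : ∀ n, 0 ≤ w n) (s : ℝ) : 0 ≤ WPS w s :=
  tsum_nonneg (term_nonneg hw s)

theorem WPS_le_WPS {w w' : ℕ → ℝ} (h : ∀ n, n.Prime → w n ≤ w' n) {s : ℝ}
    (hw : Summable (term w s)) (hw' : Summable (term w' s)) : WPS w s ≤ WPS w' s :=
  hw.tsum_le_tsum (term_le_term h s) hw'

theorem WPS_add {w w' : ℕ → ℝ} {s : ℝ} (hw : Summable (term w s)) (hw' : Summable (term w' s)) :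
    WPS (fun n => w n + w' n) s = WPS w s + WPS w' s := by
  unfold WPS
  rw [← hw.tsum_add hw']
  exact tsum_congr (term_add w w' s)

theorem WPS_const_mul (c : ℝ) (w : ℕ → ℝ) (s : ℝ) :
    WPS (fun n => c * w n) s = c * WPS w s := by
  unfold WPS
  rw [← tsum_mul_left]
  exact tsum_congr (term_const_mul c w s)

theorem WPS_finset_sum {ι : Type*} (I : Finset ι) (w : ι → ℕ → ℝ) {s : ℝ}
    (hw : ∀ i ∈ I, Summable (term (w i) s)) :
    WPS (fun n => ∑ i ∈ I, w i n) s = ∑ i ∈ I, WPS (w i) s := by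
  unfold WPS
  rw [← Summable.tsum_finsetSum hw]
  exact tsum_congr (term_finset_sum I w s)

theorem summable_term_finset_sum {ι : Type*} (I : Finset ι) (w : ι → ℕ → ℝ) {s : ℝ}
    (hw : ∀ i ∈ I, Summable (term (w i) s)) : Summable (term (fun n => ∑ i ∈ I, w i n) s) := by
  have h : term (fun n => ∑ i ∈ I, w i n) s = fun n => ∑ i ∈ I, term (w i) s n :=
    funext (term_finset_sum I w s)
  rw [h]
  exact summable_sum hw

theorem PS_nonneg (X : Set ℕ) (s : ℝ) : 0 ≤ PS X s := WPS_nonneg (ind_nonneg X) s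

theorem PS_mono {X X' : Set ℕ} (h : X ⊆ X') {s : ℝ} (hs : 1 < s) : PS X s ≤ PS X' s := by
  refine WPS_le_WPS (fun n _ => ?_) (summable_term_ind X hs) (summable_term_ind X' hs)
  by_cases hn : n ∈ X
  · rw [ind_of_mem hn, ind_of_mem (h hn)]
  · rw [ind_of_notMem hn]; exact ind_nonneg X' n

theorem PS_union_le (X X' : Set ℕ) {s : ℝ} (hs : 1 < s) : PS (X ∪ X') s ≤ PS X s + PS X' s := by
  unfold PS
  rw [← WPS_add (summable_term_ind X hs) (summable_term_ind X' hs)]
  refine WPS_le_WPS (fun n _ => ?_) (summable_term_ind _ hs) ?_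
  · by_cases hn : n ∈ X
    · rw [ind_of_mem (Or.inl hn), ind_of_mem hn]
      linarith [ind_nonneg X' n]
    · by_cases hn' : n ∈ X'
      · rw [ind_of_mem (Or.inr hn'), ind_of_mem hn']
        linarith [ind_nonneg X n]
      · rw [ind_of_notMem (fun h => h.elim hn hn'), ind_of_notMem hn, ind_of_notMem hn']
        linarith
  · have h : term (fun n => ind X n + ind X' n) s = fun n => term (ind X) s n + term (ind X') s n :=
      funext (term_add _ _ s)
    rw [h]
    exact (summable_term_ind X hs).add (summable_term_ind X' hs)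

/-- a finite set has a bounded prime sum. -/
theorem PS_le_of_finite {X : Set ℕ} (hX : X.Finite) {s : ℝ} (hs : 0 ≤ s) : PS X s ≤ hX.toFinset.card := by
  classical
  unfold PS WPS
  have hsupp : ∀ n ∉ hX.toFinset, term (ind X) s n = 0 := by
    intro n hn
    have hnX : n ∉ X := fun h => hn (hX.mem_toFinset.mpr h)
    by_cases hp : n.Prime
    · rw [term_of_prime hp, ind_of_notMem hnX, zero_mul]
    · rw [term_of_not_prime hp]
  rw [tsum_eq_sum hsupp]
  calc ∑ n ∈ hX.toFinset, term (ind X) s n ≤ ∑ _n ∈ hX.toFinset, (1 : ℝ) := by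
        refine Finset.sum_le_sum fun n _ => ?_
        by_cases hp : n.Prime
        · rw [term_of_prime hp]
          have h1 : (n : ℝ) ^ (-s) ≤ 1 := by
            have hn1 : (1 : ℝ) ≤ n := by exact_mod_cast hp.one_lt.le
            exact Real.rpow_le_one_of_one_le_of_nonpos hn1 (by linarith)
          calc ind X n * (n : ℝ) ^ (-s) ≤ 1 * 1 :=
                mul_le_mul (ind_le_one X n) h1 (rpow_neg_nonneg s n) zero_le_one
            _ = 1 := one_mul 1
        · rw [term_of_not_prime hp]; exact zero_le_one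
    _ = hX.toFinset.card := by simp

/-! ### densities -/

theorem log_nonneg_of_mem {s : ℝ} (hs : s ∈ Set.Ioc (1 : ℝ) 2) : 0 ≤ Real.log (1 / (s - 1)) := by
  apply Real.log_nonneg
  rw [le_div_iff₀ (by linarith [hs.1])]
  linarith [hs.2]

theorem UpperLe.mono {X X' : Set ℕ} {η η' : ℝ} (h : UpperLe X' η) (hX : X ⊆ X') (hη : η ≤ η') :
    UpperLe X η' := by
  obtain ⟨C, hC⟩ := h
  refine ⟨C, fun s hs => (PS_mono hX hs.1).trans ((hC s hs).trans ?_)⟩
  have := mul_le_mul_of_nonneg_right hη (log_nonneg_of_mem hs)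
  linarith

theorem LowerGe.mono {X X' : Set ℕ} {η η' : ℝ} (h : LowerGe X η) (hX : X ⊆ X') (hη : η' ≤ η) :
    LowerGe X' η' := by
  obtain ⟨C, hC⟩ := h
  refine ⟨C, fun s hs => le_trans ?_ ((hC s hs).trans (PS_mono hX hs.1))⟩
  have := mul_le_mul_of_nonneg_right hη (log_nonneg_of_mem hs)
  linarith

theorem upperLe_of_finite {X : Set ℕ} (hX : X.Finite) : UpperLe X 0 :=
  ⟨hX.toFinset.card, fun s hs => by
    rw [zero_mul, zero_add]; exact PS_le_of_finite hX (by linarith [hs.1])⟩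

/-- a set contained in `X' ∪ (finite)` has upper density at most that of `X'`. -/
theorem UpperLe.of_subset_union_finite {X X' F : Set ℕ} {η : ℝ} (h : UpperLe X' η) (hF : F.Finite)
    (hX : X ⊆ X' ∪ F) : UpperLe X η := by
  obtain ⟨C, hC⟩ := h
  refine ⟨C + hF.toFinset.card, fun s hs => ?_⟩
  have h1 := PS_mono hX hs.1
  have h2 := PS_union_le X' F hs.1
  have h3 := PS_le_of_finite hF (s := s) (by linarith [hs.1])
  linarith [hC s hs]

/-- a set containing `X ∖ (finite)` has lower density at least that of `X`. -/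
theorem LowerGe.of_subset_union_finite {X X' F : Set ℕ} {η : ℝ} (h : LowerGe X η) (hF : F.Finite)
    (hX : X ⊆ X' ∪ F) : LowerGe X' η := by
  obtain ⟨C, hC⟩ := h
  refine ⟨C + hF.toFinset.card, fun s hs => ?_⟩
  have h1 := PS_mono hX hs.1
  have h2 := PS_union_le X' F hs.1
  have h3 := PS_le_of_finite hF (s := s) (by linarith [hs.1])
  linarith [hC s hs]

/-- `ℓ(s) → ∞` as `s → 1⁺`: explicit witness. -/
theorem exists_log_gt (B : ℝ) : ∃ s ∈ Set.Ioc (1 : ℝ) 2, B < Real.log (1 / (s - 1)) := by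
  refine ⟨1 + Real.exp (-(|B| + 1)), ⟨by linarith [Real.exp_pos (-(|B| + 1))], ?_⟩, ?_⟩
  · have : Real.exp (-(|B| + 1)) ≤ 1 := Real.exp_le_one_iff.mpr (by linarith [abs_nonneg B])
    linarith
  · rw [add_sub_cancel_left, one_div, ← Real.exp_neg, neg_neg, Real.log_exp]
    linarith [le_abs_self B]

/-- **a lower density never exceeds an upper density of the same set.** -/
theorem le_of_lowerGe_of_upperLe {X : Set ℕ} {a b : ℝ} (ha : LowerGe X a) (hb : UpperLe X b) :
    a ≤ b := by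
  obtain ⟨C₁, h₁⟩ := ha
  obtain ⟨C₂, h₂⟩ := hb
  by_contra hlt
  rw [not_le] at hlt
  have hpos : 0 < a - b := by linarith
  obtain ⟨s, hs, hB⟩ := exists_log_gt ((C₁ + C₂) / (a - b))
  have h := (h₁ s hs).trans (h₂ s hs)
  have h' : (a - b) * Real.log (1 / (s - 1)) ≤ C₁ + C₂ := by linarith
  have h'' : (a - b) * ((C₁ + C₂) / (a - b)) < (a - b) * Real.log (1 / (s - 1)) :=
    mul_lt_mul_of_pos_left hB hpos
  rw [mul_div_cancel₀ _ hpos.ne'] at h''
  linarith

/-- `WUpperLe` for a finite sum of weights. -/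
theorem WUpperLe.finset_sum {ι : Type*} (I : Finset ι) (w : ι → ℕ → ℝ) (η : ι → ℝ)
    (h : ∀ i ∈ I, WUpperLe (w i) (η i)) : WUpperLe (fun n => ∑ i ∈ I, w i n) (∑ i ∈ I, η i) := by
  classical
  refine ⟨fun s hs => summable_term_finset_sum I w fun i hi => (h i hi).1 s hs, ?_⟩
  choose! C hC using fun i hi => (h i hi).2
  refine ⟨∑ i ∈ I, C i, fun s hs => ?_⟩
  rw [WPS_finset_sum I w fun i hi => (h i hi).1 s hs, Finset.sum_mul, ← Finset.sum_add_distrib]
  exact Finset.sum_le_sum fun i hi => hC i hi s hs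

end

end Fermat.Agent.ES.R48.DensDefs16
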