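/-
Programme R (S48, Deligne–Serre), chapter A4 CHEB, dictionary leaf (helper18): **the primes of `ℚ`
as natural numbers**.

The analytic machinery on main (`CFT/SplitPrimes`, `CFT/NotAllSplit`, `ES/GAL/ChebDensity23`) speaks
about sets `T` of height one primes of `𝓞 K` and the sums `wsum (xP K s) T = T.primeIdealZetaSum s`;
the density vocabulary of Programme R (`DensDefs16`) speaks about sets `X` of natural numbers and
`PS X s = ∑_{p ∈ X prime} p ^ (-s)`.  For `K = ℚ` the two coincide: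

* `nrm v = absNorm v.asIdeal`, a prime number (`nrm_prime`); `nrm` is injective (`nrm_injective`)
  and hits every prime (`exists_nrm_eq`); `primesEquiv18 : HeightOneSpectrum (𝓞 ℚ) ≃ Nat.Primes`;
* `ofSet X = {v | nrm v ∈ X}`, `toSet T = nrm '' T`;
* **`PS_eq_wsum`** : `PS X s = wsum (xP ℚ s) (ofSet X)`, **`wsum_eq_PS`** : `wsum (xP ℚ s) T =
  PS (toSet T) s`, and the `primeIdealZetaSum` forms;
* **`PS_univ_bound`** : `|PS univ s - log (1 / (s - 1))| ≤ B` on `(1, 2]`;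
* `lowerGe_of_wsum`, `upperLe_of_wsum`, `lowerGe_toSet`, `upperLe_toSet` : a number field density
  bound over `ℚ` is literally a `LowerGe` / `UpperLe`.
-/
import Mathlib
import Fermat.Agent.CFT.NotAllSplit
import Fermat.Agent.ES.GAL.ChebAbstract23
import Fermat.Agent.ES.R48.DensDefs16

set_option autoImplicit false
set_option linter.unusedSectionVars false

open IsDedekindDomain Ideal NumberField
open Fermat.Agent.CFT.SplitPrimes Fermat.Agent.CFT.NotAllSplit
  Fermat.Agent.ES.GAL.ChebAbstract23 Fermat.Agent.ES.R48.DensDefs16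

namespace Fermat.Agent.ES.R48.RatPrimes18

noncomputable section

/-! ### The norm of a prime of `ℚ` -/

/-- The rational prime under a height one prime of `𝓞 ℚ`. -/
def nrm (v : HeightOneSpectrum (𝓞 ℚ)) : ℕ := absNorm v.asIdeal

theorem nrm_prime (v : HeightOneSpectrum (𝓞 ℚ)) : (nrm v).Prime := absNorm_prime_of_rat v

theorem finrank_int_rat : Module.finrank ℤ (𝓞 ℚ) = 1 := by
  rw [RingOfIntegers.rank, Module.finrank_self]

theorem absNorm_span_natCast_rat (n : ℕ) : absNorm (span {(n : 𝓞 ℚ)}) = n := by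
  rw [Ideal.absNorm_span_natCast, finrank_int_rat, pow_one]

/-- A height one prime of `𝓞 ℚ` is generated by its norm. -/
theorem asIdeal_eq_span (v : HeightOneSpectrum (𝓞 ℚ)) :
    v.asIdeal = span {((nrm v : ℕ) : 𝓞 ℚ)} := by
  have hle : span {((nrm v : ℕ) : 𝓞 ℚ)} ≤ v.asIdeal := by
    rw [Ideal.span_singleton_le_iff_mem]
    exact Ideal.absNorm_mem v.asIdeal
  obtain ⟨J, hJ⟩ : v.asIdeal ∣ span {((nrm v : ℕ) : 𝓞 ℚ)} := Ideal.dvd_iff_le.mpr hle
  have hn : absNorm (span {((nrm v : ℕ) : 𝓞 ℚ)}) = absNorm v.asIdeal :=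
    absNorm_span_natCast_rat (nrm v)
  have h0 : absNorm v.asIdeal ≠ 0 := (nrm_prime v).ne_zero
  rw [hJ, map_mul] at hn
  have hJ1 : absNorm J = 1 := by
    have h1 : absNorm v.asIdeal * absNorm J = absNorm v.asIdeal * 1 := by rw [hn, mul_one]
    exact Nat.eq_of_mul_eq_mul_left (Nat.pos_of_ne_zero h0) h1
  rw [Ideal.absNorm_eq_one_iff] at hJ1
  rw [hJ, hJ1, Ideal.mul_top]

theorem nrm_injective : Function.Injective nrm := by
  intro v w h
  apply HeightOneSpectrum.ext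
  rw [asIdeal_eq_span v, asIdeal_eq_span w, h]

/-- Every prime number is the norm of a prime of `𝓞 ℚ`. -/
theorem exists_nrm_eq {p : ℕ} (hp : p.Prime) : ∃ v : HeightOneSpectrum (𝓞 ℚ), nrm v = p := by
  have hne : span {(p : 𝓞 ℚ)} ≠ ⊤ := by
    intro h
    have := absNorm_span_natCast_rat p
    rw [h, Ideal.absNorm_top] at this
    exact hp.one_lt.ne this
  obtain ⟨M, hM, hle⟩ := Ideal.exists_le_maximal _ hne
  have hM0 : M ≠ ⊥ := by
    rintro rfl
    have h1 : span {(p : 𝓞 ℚ)} = ⊥ := le_bot_iff.mp hle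
    have := absNorm_span_natCast_rat p
    rw [h1, Ideal.absNorm_bot] at this
    exact hp.ne_zero this.symm
  refine ⟨⟨M, hM.isPrime, hM0⟩, ?_⟩
  set v : HeightOneSpectrum (𝓞 ℚ) := ⟨M, hM.isPrime, hM0⟩ with hv
  have hmem : (p : 𝓞 ℚ) ∈ v.asIdeal := (Ideal.span_singleton_le_iff_mem _).mp hle
  rw [asIdeal_eq_span v, Ideal.mem_span_singleton] at hmem
  -- `nrm v ∣ p` in `𝓞 ℚ`, hence in `ℕ` by taking norms of the ideals
  have hdvd : span {((nrm v : ℕ) : 𝓞 ℚ)} ∣ span {(p : 𝓞 ℚ)} := by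
    rw [Ideal.dvd_iff_le, Ideal.span_singleton_le_span_singleton]
    exact hmem
  have h2 := Ideal.absNorm_dvd_absNorm_of_le (Ideal.dvd_iff_le.mp hdvd)
  rw [absNorm_span_natCast_rat, absNorm_span_natCast_rat] at h2
  exact ((Nat.prime_dvd_prime_iff_eq (nrm_prime v) hp).mp h2)

/-- The primes of `ℚ` are the prime numbers. -/
def primesEquiv18 : HeightOneSpectrum (𝓞 ℚ) ≃ Nat.Primes :=
  Equiv.ofBijective (fun v => ⟨nrm v, nrm_prime v⟩)
    ⟨fun v w h => nrm_injective (congrArg Subtype.val h),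
      fun p => by
        obtain ⟨v, hv⟩ := exists_nrm_eq p.2
        exact ⟨v, Subtype.ext hv⟩⟩

@[simp] theorem coe_primesEquiv18 (v : HeightOneSpectrum (𝓞 ℚ)) :
    ((primesEquiv18 v : Nat.Primes) : ℕ) = nrm v := rfl

theorem xP_rat (s : ℝ) (v : HeightOneSpectrum (𝓞 ℚ)) : xP ℚ s v = ((nrm v : ℕ) : ℝ) ^ (-s) := rfl

/-! ### Sets of primes -/

/-- The primes of `ℚ` whose norm lies in `X`. -/
def ofSet (X : Set ℕ) : Set (HeightOneSpectrum (𝓞 ℚ)) := {v | nrm v ∈ X}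

/-- The norms of a set of primes of `ℚ`. -/
def toSet (T : Set (HeightOneSpectrum (𝓞 ℚ))) : Set ℕ := nrm '' T

@[simp] theorem mem_ofSet {X : Set ℕ} {v : HeightOneSpectrum (𝓞 ℚ)} : v ∈ ofSet X ↔ nrm v ∈ X :=
  Iff.rfl

theorem mem_toSet {T : Set (HeightOneSpectrum (𝓞 ℚ))} {p : ℕ} :
    p ∈ toSet T ↔ ∃ v ∈ T, nrm v = p := Iff.rfl

theorem nrm_mem_toSet {T : Set (HeightOneSpectrum (𝓞 ℚ))} {v : HeightOneSpectrum (𝓞 ℚ)} :
    nrm v ∈ toSet T ↔ v ∈ T :=
  nrm_injective.mem_set_image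

theorem ofSet_toSet (T : Set (HeightOneSpectrum (𝓞 ℚ))) : ofSet (toSet T) = T := by
  ext v
  exact nrm_mem_toSet

theorem toSet_ofSet (X : Set ℕ) : toSet (ofSet X) = {p | p.Prime ∧ p ∈ X} := by
  ext p
  constructor
  · rintro ⟨v, hv, rfl⟩
    exact ⟨nrm_prime v, hv⟩
  · rintro ⟨hp, hpX⟩
    obtain ⟨v, rfl⟩ := exists_nrm_eq hp
    exact ⟨v, hpX, rfl⟩

theorem prime_of_mem_toSet {T : Set (HeightOneSpectrum (𝓞 ℚ))} {p : ℕ} (hp : p ∈ toSet T) :
    p.Prime := by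
  obtain ⟨v, -, rfl⟩ := hp
  exact nrm_prime v

/-! ### The dictionary of prime sums -/

/-- The prime sum of `DensDefs16` as a sum over the prime numbers. -/
theorem WPS_eq_tsum_primes (w : ℕ → ℝ) (s : ℝ) :
    WPS w s = ∑' p : Nat.Primes, w p * ((p : ℕ) : ℝ) ^ (-s) := by
  unfold WPS
  have hsupp : Function.support (term w s) ⊆ {n : ℕ | n.Prime} := by
    intro n hn
    by_contra hnp
    exact hn (term_of_not_prime hnp)
  rw [← tsum_subtype_eq_of_support_subset hsupp]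
  refine tsum_congr (fun p => ?_)
  exact term_of_prime p.2

/-- The prime sum of `DensDefs16` as a sum over the primes of `ℚ`. -/
theorem WPS_eq_tsum_rat (w : ℕ → ℝ) (s : ℝ) :
    WPS w s = ∑' v : HeightOneSpectrum (𝓞 ℚ), w (nrm v) * xP ℚ s v := by
  rw [WPS_eq_tsum_primes, ← primesEquiv18.tsum_eq]
  rfl

/-- **Dictionary, from `ℕ` to `ℚ`.** -/
theorem PS_eq_wsum (X : Set ℕ) (s : ℝ) : PS X s = wsum (xP ℚ s) (ofSet X) := by
  unfold PS wsum
  rw [WPS_eq_tsum_rat]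
  refine tsum_congr (fun v => ?_)
  by_cases hv : nrm v ∈ X
  · rw [ind_of_mem hv, one_mul, Set.indicator_of_mem (mem_ofSet.mpr hv)]
  · rw [ind_of_notMem hv, zero_mul, Set.indicator_of_notMem (fun h => hv (mem_ofSet.mp h))]

/-- **Dictionary, from `ℚ` to `ℕ`.** -/
theorem wsum_eq_PS (T : Set (HeightOneSpectrum (𝓞 ℚ))) (s : ℝ) :
    wsum (xP ℚ s) T = PS (toSet T) s := by
  rw [PS_eq_wsum, ofSet_toSet]

theorem primeIdealZetaSum_eq_wsum (T : Set (HeightOneSpectrum (𝓞 ℚ))) (s : ℝ) :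
    T.primeIdealZetaSum s = wsum (xP ℚ s) T := by
  have h1 : T.primeIdealZetaSum s = ∑' p : T, xP ℚ s p.1 := rfl
  rw [h1]
  exact _root_.tsum_subtype T (xP ℚ s)

theorem primeIdealZetaSum_eq_PS (T : Set (HeightOneSpectrum (𝓞 ℚ))) (s : ℝ) :
    T.primeIdealZetaSum s = PS (toSet T) s := by
  rw [primeIdealZetaSum_eq_wsum, wsum_eq_PS]

theorem PS_eq_primeIdealZetaSum (X : Set ℕ) (s : ℝ) :
    PS X s = (ofSet X).primeIdealZetaSum s := by
  rw [primeIdealZetaSum_eq_wsum, PS_eq_wsum]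

theorem PS_univ_eq_primeZeta (s : ℝ) : PS Set.univ s = primeZeta ℚ s := by
  rw [PS_eq_wsum]
  have : ofSet (Set.univ : Set ℕ) = Set.univ := by
    ext v
    simp
  rw [this]
  unfold wsum primeZeta
  rw [Set.indicator_univ]

/-- **All primes**: `∑_p p ^ (-s) = log (1 / (s - 1)) + O(1)` on `(1, 2]`. -/
theorem PS_univ_bound :
    ∃ B : ℝ, ∀ s ∈ Set.Ioc (1 : ℝ) 2, |PS Set.univ s - Real.log (1 / (s - 1))| ≤ B := by
  obtain ⟨B, hB⟩ := primeZeta_bound ℚ
  refine ⟨B, fun s hs => ?_⟩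
  rw [PS_univ_eq_primeZeta]
  exact hB s hs

theorem lowerGe_univ : LowerGe Set.univ 1 := by
  obtain ⟨B, hB⟩ := PS_univ_bound
  refine ⟨B, fun s hs => ?_⟩
  have := (abs_le.mp (hB s hs)).1
  linarith

theorem upperLe_univ : UpperLe Set.univ 1 := by
  obtain ⟨B, hB⟩ := PS_univ_bound
  refine ⟨B, fun s hs => ?_⟩
  have := (abs_le.mp (hB s hs)).2
  linarith

/-! ### Number field bounds over `ℚ` as densities -/

theorem lowerGe_of_wsum {X : Set ℕ} {η : ℝ}
    (h : ∃ C : ℝ, ∀ s ∈ Set.Ioc (1 : ℝ) 2,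
      η * Real.log (1 / (s - 1)) - C ≤ wsum (xP ℚ s) (ofSet X)) : LowerGe X η := by
  obtain ⟨C, hC⟩ := h
  exact ⟨C, fun s hs => by rw [PS_eq_wsum]; exact hC s hs⟩

theorem upperLe_of_wsum {X : Set ℕ} {η : ℝ}
    (h : ∃ C : ℝ, ∀ s ∈ Set.Ioc (1 : ℝ) 2,
      wsum (xP ℚ s) (ofSet X) ≤ η * Real.log (1 / (s - 1)) + C) : UpperLe X η := by
  obtain ⟨C, hC⟩ := h
  exact ⟨C, fun s hs => by rw [PS_eq_wsum]; exact hC s hs⟩

theorem lowerGe_toSet {T : Set (HeightOneSpectrum (𝓞 ℚ))} {η : ℝ}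
    (h : ∃ C : ℝ, ∀ s ∈ Set.Ioc (1 : ℝ) 2,
      η * Real.log (1 / (s - 1)) - C ≤ wsum (xP ℚ s) T) : LowerGe (toSet T) η := by
  obtain ⟨C, hC⟩ := h
  exact ⟨C, fun s hs => by rw [← wsum_eq_PS]; exact hC s hs⟩

theorem upperLe_toSet {T : Set (HeightOneSpectrum (𝓞 ℚ))} {η : ℝ}
    (h : ∃ C : ℝ, ∀ s ∈ Set.Ioc (1 : ℝ) 2,
      wsum (xP ℚ s) T ≤ η * Real.log (1 / (s - 1)) + C) : UpperLe (toSet T) η := by
  obtain ⟨C, hC⟩ := h
  exact ⟨C, fun s hs => by rw [← wsum_eq_PS]; exact hC s hs⟩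

/-- The complement of a set of primes: lower density from upper density. -/
theorem lowerGe_compl {X : Set ℕ} {η : ℝ} (h : UpperLe X η) : LowerGe Xᶜ (1 - η) := by
  obtain ⟨C, hC⟩ := h
  obtain ⟨B, hB⟩ := PS_univ_bound
  refine ⟨B + C, fun s hs => ?_⟩
  have h1 := (abs_le.mp (hB s hs)).1
  have h2 : PS Set.univ s ≤ PS X s + PS Xᶜ s := by
    have := PS_union_le X Xᶜ hs.1
    rwa [Set.union_compl_self] at this
  have h3 := hC s hs
  linarith

/-- The complement of a set of primes: upper density from lower density. -/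
theorem upperLe_compl {X : Set ℕ} {η : ℝ} (h : LowerGe X η) : UpperLe Xᶜ (1 - η) := by
  obtain ⟨C, hC⟩ := h
  obtain ⟨B, hB⟩ := PS_univ_bound
  refine ⟨B + C, fun s hs => ?_⟩
  have h1 := (abs_le.mp (hB s hs)).2
  have h3 := hC s hs
  -- `PS X + PS Xᶜ = PS univ`
  have h2 : PS X s + PS Xᶜ s = PS Set.univ s := by
    unfold PS
    rw [← WPS_add (summable_term_ind X hs.1) (summable_term_ind Xᶜ hs.1)]
    unfold WPS
    refine tsum_congr (fun n => ?_)
    by_cases hp : n.Prime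
    · rw [term_of_prime hp, term_of_prime hp]
      by_cases hn : n ∈ X
      · rw [ind_of_mem hn, ind_of_notMem (fun h : n ∈ Xᶜ => h hn), ind_of_mem (Set.mem_univ n),
          add_zero]
      · rw [ind_of_notMem hn, ind_of_mem (show n ∈ Xᶜ from hn), ind_of_mem (Set.mem_univ n),
          zero_add]
    · rw [term_of_not_prime hp, term_of_not_prime hp]
  linarith

/-- Lower density of `X'` from the upper density of `X` when every prime lies in `X`, in `X'` or
in a finite exceptional set. -/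
theorem LowerGe.of_upperLe_compl {X X' F : Set ℕ} {a : ℝ} (h : UpperLe X a) (hF : F.Finite)
    (hcov : ∀ p : ℕ, p.Prime → p ∈ X ∨ p ∈ X' ∨ p ∈ F) : LowerGe X' (1 - a) := by
  have h1 : LowerGe Xᶜ (1 - a) := lowerGe_compl h
  -- only the primes of `Xᶜ` matter
  have h2 : LowerGe {p | p.Prime ∧ p ∈ Xᶜ} (1 - a) := by
    obtain ⟨C, hC⟩ := h1
    refine ⟨C, fun s hs => (hC s hs).trans (le_of_eq ?_)⟩
    unfold PS WPS
    refine tsum_congr (fun n => ?_)
    by_cases hp : n.Prime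
    · rw [term_of_prime hp, term_of_prime hp]
      by_cases hn : n ∈ Xᶜ
      · rw [ind_of_mem hn, ind_of_mem (show n ∈ {p | p.Prime ∧ p ∈ Xᶜ} from ⟨hp, hn⟩)]
      · rw [ind_of_notMem hn,
          ind_of_notMem (fun h : n ∈ {p | p.Prime ∧ p ∈ Xᶜ} => hn h.2)]
    · rw [term_of_not_prime hp, term_of_not_prime hp]
  refine h2.of_subset_union_finite hF ?_
  rintro p ⟨hp, hpX⟩
  rcases hcov p hp with h | h | h
  · exact absurd h hpX
  · exact Or.inl h
  · exact Or.inr h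

/-- Upper density of `X'` from the lower density of `X` when no prime outside a finite exceptional
set lies in both. -/
theorem UpperLe.of_lowerGe_compl {X X' F : Set ℕ} {a : ℝ} (h : LowerGe X a) (hF : F.Finite)
    (hdisj : ∀ p : ℕ, p.Prime → p ∈ X → p ∈ X' → p ∈ F) : UpperLe X' (1 - a) := by
  have h1 : UpperLe Xᶜ (1 - a) := upperLe_compl h
  have h2 : UpperLe {p | p.Prime ∧ p ∈ X'} (1 - a) := by
    refine h1.of_subset_union_finite hF ?_
    rintro p ⟨hp, hpX'⟩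
    by_cases hpX : p ∈ X
    · exact Or.inr (hdisj p hp hpX hpX')
    · exact Or.inl hpX
  obtain ⟨C, hC⟩ := h2
  refine ⟨C, fun s hs => le_trans (le_of_eq ?_) (hC s hs)⟩
  unfold PS WPS
  refine tsum_congr (fun n => ?_)
  by_cases hp : n.Prime
  · rw [term_of_prime hp, term_of_prime hp]
    by_cases hn : n ∈ X'
    · rw [ind_of_mem hn, ind_of_mem (show n ∈ {p | p.Prime ∧ p ∈ X'} from ⟨hp, hn⟩)]
    · rw [ind_of_notMem hn,
        ind_of_notMem (fun h : n ∈ {p | p.Prime ∧ p ∈ X'} => hn h.2)]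
  · rw [term_of_not_prime hp, term_of_not_prime hp]

/-- Finite unions: upper densities add. -/
theorem UpperLe.finset_union {ι : Type*} (I : Finset ι) (X : ι → Set ℕ) (η : ι → ℝ)
    (h : ∀ i ∈ I, UpperLe (X i) (η i)) : UpperLe (⋃ i ∈ I, X i) (∑ i ∈ I, η i) := by
  classical
  induction I using Finset.induction_on with
  | empty =>
    simp only [Finset.notMem_empty, Set.iUnion_of_empty, Set.iUnion_empty, Finset.sum_empty]
    exact upperLe_of_finite Set.finite_empty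
  | insert i I hi ih =>
    obtain ⟨C₁, h₁⟩ := h i (Finset.mem_insert_self i I)
    obtain ⟨C₂, h₂⟩ := ih (fun j hj => h j (Finset.mem_insert_of_mem hj))
    refine ⟨C₁ + C₂, fun s hs => ?_⟩
    rw [Finset.set_biUnion_insert, Finset.sum_insert hi, add_mul]
    have := PS_union_le (X i) (⋃ j ∈ I, X j) hs.1
    linarith [h₁ s hs, h₂ s hs]

end

end Fermat.Agent.ES.R48.RatPrimes18
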