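/-
Programme R (S48, Deligne–Serre), chapter A4 CHEB, brick CR7 (helper18): **the `ℚ̄` form of
Chebotarev's theorem up to inversion**, from its number field form.

* `ChebInvNF` : the number field statement (brick CR6, `cheb_inv_nf`) as a `Prop`: for `L/ℚ` finite
  Galois, `C ⊆ Gal(L/ℚ)` stable under conjugation and inversion and `η < #C / #G`, the primes `p ∤ M`
  with Frobenius class in `C` have lower Dirichlet density `≥ η` (in the form
  `η * log (1/(s-1)) - B ≤ wsum (xP ℚ s) (frobClassIn ℚ L M C)`).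
* dictionary at a finite Galois level `N ⊂ ℚ̄`: `toSet_frobClassIn_subset`, `frobPrimes_subset`
  (valuation subrings of `ℚ̄` and `IsFrobeniusAt` versus primes of `𝓞 N` and `IsArithFrobAt`);
* `exists_level` : a representation of finite level factors through `Gal(N/ℚ)`, `N` finite Galois;
* `chebInvNF_of_canonical` : `ChebInvNF` from the literal shape of CR6 (canonical `Algebra ℚ L`);
* **`cheb_inv_export`** (= `ImageBound12.ChebExport`, literally); `frobPrimes_subset` and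
  `frobClassIn_disjoint` are the tools for a two-sided corollary (not needed by the consumers).
-/
import Mathlib
import Fermat.Agent.ES.GAL.ChebQbar23
import Fermat.Agent.ES.R48.RatPrimes18
import Fermat.Agent.ES.R48.DeuringNF18
import Fermat.Prelude.Def_GaloisRep_Residual

set_option autoImplicit false
set_option linter.unusedSectionVars false
set_option linter.style.haveILetI false

open IsDedekindDomain Ideal NumberField
open scoped Pointwise
open Fermat.Agent.Lib.FrobeniusExists Fermat.Agent.PT.GLOB.FrobGenerate19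
  Fermat.Agent.CFT.SplitPrimes Fermat.Agent.CFT.NotAllSplit Fermat.Agent.ES.GAL.ChebAbstract23
  Fermat.Agent.ES.GAL.ChebQbar23 Fermat.Agent.ES.R48.DensDefs16 Fermat.Agent.ES.R48.RatPrimes18
  Fermat.Agent.ES.R48.DeuringNF18

namespace Fermat.Agent.ES.R48.ChebInvQbar18

attribute [local instance] isGalois_Qbar isIntegral_Qbar

/-- **The number field form of Chebotarev's theorem up to inversion** (brick CR6), as a `Prop`. -/
def ChebInvNF : Prop :=
  ∀ (L : Type) [Field L] [NumberField L] [Algebra ℚ L] [IsGalois ℚ L] (M : ℕ), M ≠ 0 →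
    (discr L).natAbs ∣ M →
    ∀ C : Set (L ≃ₐ[ℚ] L), (∀ g ∈ C, ∀ h : L ≃ₐ[ℚ] L, h * g * h⁻¹ ∈ C) → (∀ g ∈ C, g⁻¹ ∈ C) →
      ∀ η : ℝ, η < (Nat.card C : ℝ) / Nat.card (L ≃ₐ[ℚ] L) →
        ∃ B : ℝ, ∀ s ∈ Set.Ioc (1 : ℝ) 2,
          η * Real.log (1 / (s - 1)) - B ≤ wsum (xP ℚ s) (frobClassIn ℚ L M C)

/-- `ChebInvNF` from the literal shape of brick CR6 (`cheb_inv_nf`, stated with the canonical
`ℚ`-algebra structure of a field of characteristic zero): the `ℚ`-algebra structure is unique. -/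
theorem chebInvNF_of_canonical
    (h : ∀ (L : Type) [Field L] [NumberField L] [IsGalois ℚ L] {M : ℕ}, M ≠ 0 →
      (discr L).natAbs ∣ M →
      ∀ C : Set (L ≃ₐ[ℚ] L), (∀ g ∈ C, ∀ h : L ≃ₐ[ℚ] L, h * g * h⁻¹ ∈ C) → (∀ g ∈ C, g⁻¹ ∈ C) →
        ∀ η : ℝ, η < (Nat.card C : ℝ) / Nat.card (L ≃ₐ[ℚ] L) →
          ∃ B : ℝ, ∀ s ∈ Set.Ioc (1 : ℝ) 2,
            η * Real.log (1 / (s - 1)) - B ≤ wsum (xP ℚ s) (frobClassIn ℚ L M C)) :
    ChebInvNF := by
  intro L _ _ inst _ M hM0 hM C hconj hinv η hη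
  obtain rfl : inst = DivisionRing.toRatAlgebra := Subsingleton.elim _ _
  exact h L hM0 hM C hconj hinv η hη

/-! ### Primes of `ℚ` -/

theorem nrm_eq_of_mem {v : HeightOneSpectrum (𝓞 ℚ)} {p : ℕ} (hp : p.Prime)
    (h : (p : 𝓞 ℚ) ∈ v.asIdeal) : nrm v = p := by
  rw [asIdeal_eq_span v, Ideal.mem_span_singleton] at h
  have hle : span {(p : 𝓞 ℚ)} ≤ span {((nrm v : ℕ) : 𝓞 ℚ)} := by
    rw [Ideal.span_singleton_le_span_singleton]
    exact h
  have h2 := Ideal.absNorm_dvd_absNorm_of_le hle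
  rw [absNorm_span_natCast_rat, absNorm_span_natCast_rat] at h2
  exact (Nat.prime_dvd_prime_iff_eq (nrm_prime v) hp).mp h2

/-! ### The dictionary at a finite Galois level -/

section Dictionary

variable (N : IntermediateField ℚ Qbar) [NumberField N] [IsGalois ℚ N]

/-- The rational primes having a Frobenius element (at some valuation subring of `ℚ̄`) whose
restriction to `N` lies in `C`. -/
def frobPrimes (C : Set (N ≃ₐ[ℚ] N)) : Set ℕ :=
  {p | p.Prime ∧ ∃ (A : ValuationSubring Qbar) (σ : GQ), A.LiesOverPrime p ∧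
    A.IsFrobeniusAt σ p ∧ AlgEquiv.restrictNormalHom N σ ∈ C}

/-- From primes of `𝓞 N` to valuation subrings of `ℚ̄`. -/
theorem toSet_frobClassIn_subset {M : ℕ} (hM : (discr N).natAbs ∣ M) (C : Set (N ≃ₐ[ℚ] N)) :
    toSet (frobClassIn ℚ N M C) ⊆ frobPrimes N C := by
  rintro p ⟨v, ⟨hvg, P, hP, hPv, τ, hτC, hτ⟩, rfl⟩
  haveI := hP
  have hp : (nrm v).Prime := nrm_prime v
  have hP0 : P ≠ ⊥ := Fermat.Agent.CFT.ArtinSymbol.ne_bot_of_under_ne_bot hPv v.ne_bot
  haveI hPmax : P.IsMaximal := Ring.DimensionLEOne.maximalOfPrime hP0 hP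
  obtain ⟨A, hA⟩ := exists_valuationSubring_over N P
  have hnorm : absNorm (P.under (𝓞 ℚ)) = nrm v := by rw [hPv]; rfl
  have hpP : ((nrm v : ℕ) : 𝓞 N) ∈ P := by
    have := Fermat.Agent.ES.GAL.ChebDensity23.natCast_absNorm_under_mem (K := ℚ) P
    rwa [hnorm] at this
  have hAp : A.LiesOverPrime (nrm v) := by
    have h1 := (hA ((nrm v : ℕ) : 𝓞 N)).mpr hpP
    have h2 : incl N ((nrm v : ℕ) : 𝓞 N) = ((nrm v : ℕ) : Qbar) := map_natCast _ _
    rw [h2] at h1
    exact h1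
  obtain ⟨φ, hφ⟩ := Fermat.Agent.ES.FROB.FrobFacts12.exists_isFrobeniusAt_of (nrm v) hp A hAp
  have hφ' : IsArithFrobAt (𝓞 ℚ) (AlgEquiv.restrictNormalHom N φ) P :=
    isArithFrobAt_restrict N hA hnorm hφ
  have hunr : P.inertia (N ≃ₐ[ℚ] N) = ⊥ :=
    inertia_eq_bot_of_good (K := ℚ) (P := ⟨P, hP, hP0⟩) hM
      (by
        have : below (R := 𝓞 ℚ) (⟨P, hP, hP0⟩ : HeightOneSpectrum (𝓞 N)) = v :=
          HeightOneSpectrum.ext hPv
        rw [this]
        exact hvg)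
  have heq : AlgEquiv.restrictNormalHom N φ = τ :=
    Fermat.Agent.CFT.ArtinSymbol.isArithFrobAt_unique hunr hφ' hτ
  exact ⟨hp, A, φ, hAp, hφ, heq ▸ hτC⟩

/-- From valuation subrings of `ℚ̄` to primes of `𝓞 N`. -/
theorem frobPrimes_subset (M : ℕ) (C : Set (N ≃ₐ[ℚ] N)) :
    frobPrimes N C ⊆ toSet (frobClassIn ℚ N M C) ∪ {p | p ∣ M} := by
  rintro p ⟨hp, A, σ, hAp, hσ, hσC⟩
  by_cases hpM : p ∣ M
  · exact Or.inr hpM
  left
  -- the centre of `A` on `𝓞 N`
  let ι : 𝓞 N →+* A := (incl N).codRestrict A.toSubring (incl_mem N A)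
  set P : Ideal (𝓞 N) := Ideal.comap ι (IsLocalRing.maximalIdeal A) with hPdef
  haveI hP : P.IsPrime := Ideal.comap_isPrime ι _
  have hAP : ∀ x : 𝓞 N, incl N x ∈ A.nonunits ↔ x ∈ P := by
    intro x
    rw [hPdef, Ideal.mem_comap, ← ValuationSubring.coe_mem_nonunits_iff]
    rfl
  have hpP : ((p : ℕ) : 𝓞 N) ∈ P := by
    rw [← hAP]
    have h2 : incl N ((p : ℕ) : 𝓞 N) = ((p : ℕ) : Qbar) := map_natCast _ _
    rw [h2]
    exact hAp
  have hP0 : P ≠ ⊥ := by
    intro h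
    rw [h, Ideal.mem_bot] at hpP
    have : ((p : ℕ) : 𝓞 N) ≠ 0 := by exact_mod_cast hp.ne_zero
    exact this hpP
  set P' : HeightOneSpectrum (𝓞 N) := ⟨P, hP, hP0⟩ with hP'
  set v : HeightOneSpectrum (𝓞 ℚ) := below (R := 𝓞 ℚ) P' with hv
  have hpv : ((p : ℕ) : 𝓞 ℚ) ∈ v.asIdeal := by
    show ((p : ℕ) : 𝓞 ℚ) ∈ P.under (𝓞 ℚ)
    rw [Ideal.under_def, Ideal.mem_comap, map_natCast]
    exact hpP
  have hnv : nrm v = p := nrm_eq_of_mem hp hpv
  have hnorm : absNorm (P.under (𝓞 ℚ)) = p := hnv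
  refine ⟨v, ⟨⟨?_, ?_⟩, P, hP, rfl, AlgEquiv.restrictNormalHom N σ, hσC,
    isArithFrobAt_restrict N hAP hnorm hσ⟩, hnv⟩
  · show (absNorm v.asIdeal).Prime
    have : absNorm v.asIdeal = p := hnv
    rw [this]
    exact hp
  · show ¬ absNorm v.asIdeal ∣ M
    have : absNorm v.asIdeal = p := hnv
    rw [this]
    exact hpM

/-- At a good prime the Frobenius classes of `C` and of its complement are disjoint. -/
theorem frobClassIn_disjoint {M : ℕ} (hM : (discr N).natAbs ∣ M) (C : Set (N ≃ₐ[ℚ] N))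
    (hconj : ∀ g ∈ C, ∀ h : N ≃ₐ[ℚ] N, h * g * h⁻¹ ∈ C) {v : HeightOneSpectrum (𝓞 ℚ)}
    (h1 : v ∈ frobClassIn ℚ N M C) (h2 : v ∈ frobClassIn ℚ N M Cᶜ) : False := by
  obtain ⟨hvg, P, hP, hPv, τ, hτC, hτ⟩ := h1
  obtain ⟨-, P', hP', hP'v, τ', hτ'C, hτ'⟩ := h2
  haveI := hP
  haveI := hP'
  obtain ⟨g, hg⟩ := Algebra.IsInvariant.exists_smul_of_under_eq (𝓞 ℚ) (𝓞 N) (N ≃ₐ[ℚ] N) P P'
    (by rw [hPv, hP'v])
  have hP'0 : P' ≠ ⊥ := Fermat.Agent.CFT.ArtinSymbol.ne_bot_of_under_ne_bot hP'v v.ne_bot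
  have hunr : P'.inertia (N ≃ₐ[ℚ] N) = ⊥ :=
    inertia_eq_bot_of_good (K := ℚ) (P := ⟨P', hP', hP'0⟩) hM
      (by
        have : below (R := 𝓞 ℚ) (⟨P', hP', hP'0⟩ : HeightOneSpectrum (𝓞 N)) = v :=
          HeightOneSpectrum.ext hP'v
        rw [this]
        exact hvg)
  have hconjτ := hτ.conj g
  rw [← hg] at hconjτ
  have heq : τ' = g * τ * g⁻¹ :=
    Fermat.Agent.CFT.ArtinSymbol.isArithFrobAt_unique hunr hτ' hconjτ
  exact hτ'C (heq ▸ hconj τ hτC g)

end Dictionary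

/-! ### Finite level -/

/-- A representation of finite level factors through the Galois group of a finite Galois
extension `N ⊂ ℚ̄` of `ℚ`. -/
theorem exists_level {Γ : Type} [Group Γ] (ρ : GQ →* Γ) (hρ : GaloisFactorsThroughFiniteLevel ρ) :
    ∃ (N : IntermediateField ℚ Qbar) (_ : FiniteDimensional ℚ N) (_ : IsGalois ℚ N)
      (ρ' : (N ≃ₐ[ℚ] N) →* Γ), ∀ σ : GQ, ρ' (AlgEquiv.restrictNormalHom N σ) = ρ σ := by
  obtain ⟨L₀, hfin, hL₀⟩ := hρ
  obtain ⟨N, hNfin, hnorm, hLN⟩ : ∃ N : IntermediateField ℚ Qbar,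
      FiniteDimensional ℚ N ∧ Normal ℚ N ∧ L₀ ≤ N :=
    ⟨IntermediateField.normalClosure ℚ L₀ Qbar, normalClosure.is_finiteDimensional ℚ L₀ Qbar,
      normalClosure.normal ℚ L₀ Qbar, IntermediateField.le_normalClosure L₀⟩
  have hgal : IsGalois ℚ N := ⟨⟩
  refine ⟨N, hNfin, hgal, ?_⟩
  have hsurj : Function.Surjective (AlgEquiv.restrictNormalHom (F := ℚ) (K₁ := Qbar) N) :=
    AlgEquiv.restrictNormalHom_surjective Qbar
  have hker : (AlgEquiv.restrictNormalHom (F := ℚ) (K₁ := Qbar) N).ker ≤ ρ.ker := by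
    intro σ hσ
    rw [MonoidHom.mem_ker] at hσ ⊢
    apply hL₀
    intro x hx
    have h1 : algebraMap N Qbar ((AlgEquiv.restrictNormalHom N σ) ⟨x, hLN hx⟩) =
        σ (algebraMap N Qbar ⟨x, hLN hx⟩) :=
      AlgEquiv.restrictNormal_commutes σ N ⟨x, hLN hx⟩
    rw [hσ] at h1
    exact h1.symm
  refine ⟨(AlgEquiv.restrictNormalHom (F := ℚ) (K₁ := Qbar) N).liftOfRightInverseAux
    (Function.surjInv hsurj) (Function.rightInverse_surjInv hsurj) ρ hker, fun σ => ?_⟩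
  exact MonoidHom.liftOfRightInverseAux_comp_apply _ _ _ _ hker σ

/-! ### Counting preimages -/

/-- Preimages under a surjective homomorphism of finite groups keep proportions. -/
theorem card_preimage_div {G Γ : Type} [Group G] [Group Γ] [Finite G] [Finite Γ] (f : G →* Γ)
    (hf : Function.Surjective f) (C : Set Γ) :
    (Nat.card (f ⁻¹' C) : ℝ) / Nat.card G = (Nat.card C : ℝ) / Nat.card Γ := by
  classical
  haveI : Fintype G := Fintype.ofFinite G
  haveI : Fintype Γ := Fintype.ofFinite Γ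
  set k : ℕ := (Finset.univ.filter fun g : G => f g = 1).card with hk
  have hfib : ∀ y : Γ, (Finset.univ.filter fun g : G => f g = y).card = k := fun y =>
    MonoidHom.card_fiber_eq_of_mem_range f (hf y) (hf 1)
  have hcount : ∀ D : Set Γ, Nat.card (f ⁻¹' D) = Nat.card D * k := by
    intro D
    rw [Nat.card_eq_fintype_card, Nat.card_eq_fintype_card, Fintype.card_subtype,
      Fintype.card_subtype]
    have h1 : (Finset.univ.filter fun g : G => g ∈ f ⁻¹' D) =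
        (Finset.univ.filter fun y : Γ => y ∈ D).biUnion
          fun y => Finset.univ.filter fun g : G => f g = y := by
      ext g
      simp only [Finset.mem_filter, Finset.mem_univ, true_and, Finset.mem_biUnion,
        Set.mem_preimage]
      constructor
      · intro h
        exact ⟨f g, h, rfl⟩
      · rintro ⟨y, hy, rfl⟩
        exact hy
    rw [h1, Finset.card_biUnion]
    · rw [Finset.sum_congr rfl (fun y _ => hfib y), Finset.sum_const, smul_eq_mul]
    · intro y _ y' _ hyy'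
      rw [Function.onFun, Finset.disjoint_left]
      intro g hg hg'
      rw [Finset.mem_filter] at hg hg'
      exact hyy' (hg.2.symm.trans hg'.2)
  have hG : Nat.card G = Nat.card Γ * k := by
    have := hcount Set.univ
    rwa [Set.preimage_univ, Nat.card_univ, Nat.card_univ] at this
  have hk0 : (k : ℝ) ≠ 0 := by
    have hpos : 0 < Nat.card G := Nat.card_pos
    rw [hG] at hpos
    have : 0 < k := Nat.pos_of_mul_pos_left hpos |> fun _ => by
      rcases Nat.eq_zero_or_pos k with h | h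
      · rw [h, mul_zero] at hpos
        exact absurd hpos (lt_irrefl 0)
      · exact h
    exact_mod_cast this.ne'
  have hΓ0 : (Nat.card Γ : ℝ) ≠ 0 := by
    have : 0 < Nat.card Γ := Nat.card_pos
    exact_mod_cast this.ne'
  rw [hcount C, hG]
  push_cast
  field_simp

/-! ### The exports -/

/-- **Chebotarev up to inversion over `ℚ̄`**, from the number field form: this is
`ImageBound12.ChebExport` literally. -/
theorem cheb_inv_export (hNF : ChebInvNF) (Γ : Type) [Group Γ] [Finite Γ] (ρ : GQ →* Γ)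
    (hρ : GaloisFactorsThroughFiniteLevel ρ) (hsurj : Function.Surjective ρ) (C : Set Γ)
    (hconj : ∀ g ∈ C, ∀ h : Γ, h * g * h⁻¹ ∈ C) (hinv : ∀ g ∈ C, g⁻¹ ∈ C)
    (η : ℝ) (hη : η < (Nat.card C : ℝ) / Nat.card Γ) :
    LowerGe {p | p.Prime ∧ ∃ (A : ValuationSubring (AlgebraicClosure ℚ)) (σ : GQ),
        A.LiesOverPrime p ∧ A.IsFrobeniusAt σ p ∧ ρ σ ∈ C} η := by
  obtain ⟨N, hNfin, hgal, ρ', hρ'⟩ := exists_level ρ hρ
  haveI := hNfin
  haveI := hgal
  haveI hNnf : NumberField N := ⟨⟩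
  have hsurj' : Function.Surjective ρ' := by
    intro γ
    obtain ⟨σ, rfl⟩ := hsurj γ
    exact ⟨_, hρ' σ⟩
  set C' : Set (N ≃ₐ[ℚ] N) := ρ' ⁻¹' C with hC'
  have hconj' : ∀ g ∈ C', ∀ h : N ≃ₐ[ℚ] N, h * g * h⁻¹ ∈ C' := by
    intro g hg h
    show ρ' (h * g * h⁻¹) ∈ C
    rw [map_mul, map_mul, map_inv]
    exact hconj _ hg _
  have hinv' : ∀ g ∈ C', g⁻¹ ∈ C' := by
    intro g hg
    show ρ' g⁻¹ ∈ C
    rw [map_inv]
    exact hinv _ hg
  have hη' : η < (Nat.card C' : ℝ) / Nat.card (N ≃ₐ[ℚ] N) := by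
    rw [hC', card_preimage_div ρ' hsurj' C]
    exact hη
  have hd0 : (discr N).natAbs ≠ 0 := Int.natAbs_ne_zero.mpr (discr_ne_zero N)
  obtain ⟨B, hB⟩ := hNF N (discr N).natAbs hd0 dvd_rfl C' hconj' hinv' η hη'
  have h1 : LowerGe (toSet (frobClassIn ℚ N (discr N).natAbs C')) η := lowerGe_toSet ⟨B, hB⟩
  refine h1.mono ?_ le_rfl
  intro p hp
  obtain ⟨hpp, A, σ, hAp, hσ, hσC⟩ := toSet_frobClassIn_subset N dvd_rfl C' hp
  refine ⟨hpp, A, σ, hAp, hσ, ?_⟩
  rw [← hρ' σ]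
  exact hσC

end Fermat.Agent.ES.R48.ChebInvQbar18
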