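/-
Programme R (S48, Deligne–Serre), chapter A3 DENS, file 1b (helper16): additions to the density
calculus of `DensDefs16` (Mathlib only).

* `RankinBound N a` : the finite-subset form of the Rankin bound for a sequence `a : ℕ → ℂ`
  (`∑_{p ∈ P} ‖a p‖² p^{-s} ≤ log (1 / (s - 1)) + C` for all finite sets `P` of primes `∤ N`) —
  the shape of A2's export;
* `WPS_eq_tsum_primes`, `PS_eq_tsum_primes` : the prime sums as sums over the subtype `Nat.Primes`;
* `wUpperLe_of_finset_bound` : a uniform bound for the finite prime sums gives `WUpperLe`;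
* `UpperLe.union`, `UpperLe.finset_union` : (finite) subadditivity of the upper density;
* `le_of_lowerGe_of_upperLe_of_subset` (D1), `le_of_forall_lowerGe_of_upperLe` (D1') : a set of
  lower density `≥ c` (resp. `≥ η` for every `η < c`) inside `X ∪ (finite)`, `X` of upper density
  `≤ b`, forces `c ≤ b`.
-/
import Mathlib
import Fermat.Agent.ES.R48.DensDefs16

set_option autoImplicit false

namespace Fermat.Agent.ES.R48.DensCalc16

open Fermat.Agent.ES.R48.DensDefs16

noncomputable section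

/-- **The Rankin bound** for a sequence `a : ℕ → ℂ`, off `N`, in finite-subset form. -/
def RankinBound (N : ℕ) (a : ℕ → ℂ) : Prop :=
  ∃ C : ℝ, ∀ s : ℝ, 1 < s → s ≤ 2 → ∀ P : Finset ℕ, (∀ p ∈ P, p.Prime ∧ ¬ p ∣ N) →
    ∑ p ∈ P, ‖a p‖ ^ 2 * (p : ℝ) ^ (-s) ≤ Real.log (1 / (s - 1)) + C

/-- only the values at the primes `∤ N` matter. -/
theorem RankinBound.congr {N : ℕ} {a a' : ℕ → ℂ} (h : RankinBound N a)
    (haa' : ∀ p : ℕ, p.Prime → ¬ p ∣ N → a' p = a p) : RankinBound N a' := by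
  obtain ⟨C, hC⟩ := h
  refine ⟨C, fun s hs1 hs2 P hP => ?_⟩
  have h1 : ∑ p ∈ P, ‖a' p‖ ^ 2 * (p : ℝ) ^ (-s) = ∑ p ∈ P, ‖a p‖ ^ 2 * (p : ℝ) ^ (-s) :=
    Finset.sum_congr rfl fun p hp => by rw [haa' p (hP p hp).1 (hP p hp).2]
  rw [h1]
  exact hC s hs1 hs2 P hP

/-! ### sums over `Nat.Primes` -/

theorem term_eq_indicator (w : ℕ → ℝ) (s : ℝ) :
    term w s = Set.indicator {n : ℕ | n.Prime} (fun n => w n * (n : ℝ) ^ (-s)) := by
  funext n
  by_cases hn : n.Prime
  · rw [term_of_prime hn, Set.indicator_of_mem (show n ∈ {n : ℕ | n.Prime} from hn)]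
  · rw [term_of_not_prime hn, Set.indicator_of_notMem (show n ∉ {n : ℕ | n.Prime} from hn)]

/-- the weighted prime sum as a sum over the subtype of primes. -/
theorem WPS_eq_tsum_primes (w : ℕ → ℝ) (s : ℝ) :
    WPS w s = ∑' p : Nat.Primes, w p * ((p : ℕ) : ℝ) ^ (-s) := by
  unfold WPS
  rw [term_eq_indicator]
  exact (tsum_subtype {n : ℕ | n.Prime} fun n => w n * (n : ℝ) ^ (-s)).symm

/-- the prime sum of a set as a sum over the subtype of primes. -/
theorem PS_eq_tsum_primes (X : Set ℕ) (s : ℝ) :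
    PS X s = ∑' p : Nat.Primes, ind X p * ((p : ℕ) : ℝ) ^ (-s) :=
  WPS_eq_tsum_primes (ind X) s

/-- the prime sum of `Set.univ`. -/
theorem PS_univ_eq_tsum_primes (s : ℝ) :
    PS Set.univ s = ∑' p : Nat.Primes, ((p : ℕ) : ℝ) ^ (-s) := by
  rw [PS_eq_tsum_primes]
  refine tsum_congr fun p => ?_
  rw [ind_of_mem (Set.mem_univ _), one_mul]

/-! ### from the finite-subset form to `WUpperLe` -/

/-- nonnegative weights whose finite prime sums are uniformly bounded by `η ℓ(s) + C`. -/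
theorem wUpperLe_of_finset_bound {w : ℕ → ℝ} (hw : ∀ n, 0 ≤ w n) {η : ℝ}
    (h : ∃ C : ℝ, ∀ s : ℝ, 1 < s → s ≤ 2 → ∀ P : Finset ℕ, (∀ p ∈ P, p.Prime) →
      ∑ p ∈ P, w p * (p : ℝ) ^ (-s) ≤ η * Real.log (1 / (s - 1)) + C) :
    WUpperLe w η := by
  classical
  obtain ⟨C, hC⟩ := h
  have key : ∀ s ∈ Set.Ioc (1 : ℝ) 2, ∀ P' : Finset ℕ,
      ∑ n ∈ P', term w s n ≤ η * Real.log (1 / (s - 1)) + C := by
    intro s hs P'
    have h1 : ∑ n ∈ P', term w s n = ∑ p ∈ P'.filter Nat.Prime, w p * (p : ℝ) ^ (-s) := by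
      rw [Finset.sum_filter]
      refine Finset.sum_congr rfl fun n _ => ?_
      by_cases hn : n.Prime
      · rw [term_of_prime hn, if_pos hn]
      · rw [term_of_not_prime hn, if_neg hn]
    rw [h1]
    exact hC s hs.1 hs.2 _ fun p hp => (Finset.mem_filter.mp hp).2
  refine ⟨fun s hs => summable_of_sum_le (term_nonneg hw s) (key s hs), C, fun s hs => ?_⟩
  exact (summable_of_sum_le (term_nonneg hw s) (key s hs)).tsum_le_of_sum_le (key s hs)

/-! ### subadditivity of the upper density -/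

theorem UpperLe.union {X X' : Set ℕ} {η η' : ℝ} (h : UpperLe X η) (h' : UpperLe X' η') :
    UpperLe (X ∪ X') (η + η') := by
  obtain ⟨C, hC⟩ := h
  obtain ⟨C', hC'⟩ := h'
  refine ⟨C + C', fun s hs => ?_⟩
  have h1 := PS_union_le X X' hs.1
  have h2 := hC s hs
  have h3 := hC' s hs
  calc PS (X ∪ X') s ≤ PS X s + PS X' s := h1
    _ ≤ (η * Real.log (1 / (s - 1)) + C) + (η' * Real.log (1 / (s - 1)) + C') := add_le_add h2 h3
    _ = (η + η') * Real.log (1 / (s - 1)) + (C + C') := by ring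

theorem upperLe_empty : UpperLe (∅ : Set ℕ) 0 := upperLe_of_finite Set.finite_empty

theorem UpperLe.finset_union {ι : Type*} (I : Finset ι) (X : ι → Set ℕ) (η : ι → ℝ)
    (h : ∀ i ∈ I, UpperLe (X i) (η i)) : UpperLe (⋃ i ∈ I, X i) (∑ i ∈ I, η i) := by
  classical
  induction I using Finset.induction_on with
  | empty =>
    simp only [Finset.notMem_empty, Set.iUnion_of_empty, Set.iUnion_empty, Finset.sum_empty]
    exact upperLe_empty
  | insert i I hi ih =>
    rw [Finset.set_biUnion_insert, Finset.sum_insert hi]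
    exact UpperLe.union (h i (Finset.mem_insert_self i I))
      (ih fun j hj => h j (Finset.mem_insert_of_mem hj))

/-! ### (D1) and (D1'): comparison of a lower and an upper density -/

/-- **(D1)**: `X' ⊆ X ∪ (finite)`, `X'` of lower density `≥ c`, `X` of upper density `≤ b`:
`c ≤ b`. -/
theorem le_of_lowerGe_of_upperLe_of_subset {X X' F : Set ℕ} {b c : ℝ} (hX : UpperLe X b)
    (hF : F.Finite) (hsub : X' ⊆ X ∪ F) (h : LowerGe X' c) : c ≤ b :=
  le_of_lowerGe_of_upperLe (h.of_subset_union_finite hF hsub) hX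

/-- **(D1')**: the same when the lower density of `X'` is only known to be `≥ η` for every
`η < c` (the shape of A4's export). -/
theorem le_of_forall_lowerGe_of_upperLe {X X' F : Set ℕ} {b c : ℝ} (hX : UpperLe X b)
    (hF : F.Finite) (hsub : X' ⊆ X ∪ F) (h : ∀ η : ℝ, η < c → LowerGe X' η) : c ≤ b := by
  by_contra hlt
  rw [not_le] at hlt
  have h1 : (b + c) / 2 < c := by linarith
  have h2 := le_of_lowerGe_of_upperLe_of_subset hX hF hsub (h _ h1)
  linarith

end

end Fermat.Agent.ES.R48.DensCalc16
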