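/-
Programme R (S48, Deligne–Serre), chapter A3 DENS, file 2 (helper16): **the exceptional set of
primes has small upper density** (DS §7, (7a) of R48_RANKIN7).

`K` a number field, `aO : ℕ → 𝓞 K` (the Hecke eigenvalues `a_p` as algebraic integers), and for
EVERY embedding `τ : K →+* ℂ` the Rankin bound
`∑_{p ∤ N} ‖τ (a_p)‖² p^{-s} ≤ log (1 / (s - 1)) + O(1)` (`WUpperLe … 1`, chapter A2 applied to the
conjugate form `f^τ` of the contract).  Then for every `η > 0` there is a FINITE set `Y ⊆ 𝓞 K` such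
that `{p ∤ N : a_p ∉ Y}` has upper Dirichlet density `≤ η`:

* `sqSum K a = ∑_τ ‖τ a‖²`, `finite_sqSum_le` : finitely many algebraic integers with `sqSum ≤ c`;
* **`exists_finset_upperLe`** (from `WUpperLe` for every `τ`);
* **`exists_finset_upperLe_of_rankinBound`** : the same from `DensCalc16.RankinBound N (τ ∘ a)` for
  every `τ` (the finite-subset form of A2's export), and `exists_finset_exists_set` (the shape asked
  for by the half-A assembly);
* `RankinExport` (the literal statement of A2's export for forms, as a `Prop`) and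
  **`exists_finset_upperLe_of_conj`** / `exists_finset_upperLe_of_rat2` : the chapter export in the
  vocabulary of `DSIface27` (clause (RAT-2) of `DSContract` + `RankinExport` ⇒ for every `η > 0` a
  finite `Y ⊆ 𝓞 K` with `UpperLe {p ∤ N : a_p ∉ Y} η`).
-/
import Mathlib
import Fermat.Agent.ES.R48.DensDefs16
import Fermat.Agent.ES.R48.DensCalc16
import Fermat.Agent.ES.R48.DSIface27

set_option autoImplicit false
set_option linter.unusedSectionVars false

open NumberField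

namespace Fermat.Agent.ES.R48.DensExc16

open Fermat.Agent.ES.R48.DensDefs16 Fermat.Agent.ES.R48.DensCalc16

noncomputable section

variable (K : Type*) [Field K] [NumberField K]

/-- `∑_τ ‖τ a‖²` over all complex embeddings. -/
def sqSum (a : K) : ℝ := ∑ τ : K →+* ℂ, ‖τ a‖ ^ 2

theorem sqSum_nonneg (a : K) : 0 ≤ sqSum K a :=
  Finset.sum_nonneg fun _ _ => sq_nonneg _

/-- finitely many algebraic integers of `K` have `∑_τ ‖τ a‖² ≤ c`. -/
theorem finite_sqSum_le (c : ℝ) : {a : 𝓞 K | sqSum K (a : K) ≤ c}.Finite := by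
  have h := NumberField.Embeddings.finite_of_norm_le K ℂ (Real.sqrt (max c 0))
  refine (h.preimage (f := fun a : 𝓞 K => (a : K)) ?_).subset ?_
  · intro a _ b _ hab
    exact RingOfIntegers.ext hab
  · intro a ha
    refine ⟨a.2, fun φ => ?_⟩
    have h1 : ‖φ (a : K)‖ ^ 2 ≤ sqSum K (a : K) :=
      Finset.single_le_sum (f := fun τ : K →+* ℂ => ‖τ (a : K)‖ ^ 2)
        (fun _ _ => sq_nonneg _) (Finset.mem_univ φ)
    have h2 : ‖φ (a : K)‖ ^ 2 ≤ max c 0 := (h1.trans ha).trans (le_max_left c 0)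
    exact Real.le_sqrt_of_sq_le h2

variable {K}

/-- the weight `‖τ (a_p)‖²` off `N`. -/
def wt (N : ℕ) (aO : ℕ → 𝓞 K) (τ : K →+* ℂ) (p : ℕ) : ℝ :=
  if p ∣ N then 0 else ‖τ (aO p : K)‖ ^ 2

theorem wt_nonneg (N : ℕ) (aO : ℕ → 𝓞 K) (τ : K →+* ℂ) (p : ℕ) : 0 ≤ wt N aO τ p := by
  unfold wt
  split_ifs
  · exact le_rfl
  · exact sq_nonneg _

theorem sum_wt_of_not_dvd {N : ℕ} (aO : ℕ → 𝓞 K) {p : ℕ} (hp : ¬ p ∣ N) :
    ∑ τ : K →+* ℂ, wt N aO τ p = sqSum K (aO p : K) := by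
  unfold wt sqSum
  simp only [if_neg hp]

/-- **(7a)** the exceptional set has upper density `≤ η`. -/
theorem exists_finset_upperLe (N : ℕ) (aO : ℕ → 𝓞 K)
    (hR : ∀ τ : K →+* ℂ, WUpperLe (wt N aO τ) 1) {η : ℝ} (hη : 0 < η) :
    ∃ Y : Finset (𝓞 K), UpperLe {p : ℕ | p.Prime ∧ ¬ p ∣ N ∧ aO p ∉ Y} η := by
  classical
  set d : ℝ := (Fintype.card (K →+* ℂ) : ℝ) with hd
  have hd0 : 0 ≤ d := Nat.cast_nonneg _
  set c : ℝ := (d + 1) / η with hc
  have hc0 : 0 < c := div_pos (by linarith) hη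
  refine ⟨(finite_sqSum_le K c).toFinset, ?_⟩
  set X : Set ℕ := {p : ℕ | p.Prime ∧ ¬ p ∣ N ∧ aO p ∉ (finite_sqSum_le K c).toFinset} with hX
  -- the total weight
  set W : ℕ → ℝ := fun p => ∑ τ : K →+* ℂ, wt N aO τ p with hW
  have hWU : WUpperLe W (∑ _τ : K →+* ℂ, (1 : ℝ)) :=
    WUpperLe.finset_sum Finset.univ (fun τ => wt N aO τ) (fun _ => 1) fun τ _ => hR τ
  have hsum1 : (∑ _τ : K →+* ℂ, (1 : ℝ)) = d := by
    rw [Finset.sum_const, Finset.card_univ, nsmul_eq_mul, mul_one]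
  rw [hsum1] at hWU
  obtain ⟨hWs, C, hC⟩ := hWU
  have hW0 : ∀ p, 0 ≤ W p := fun p => Finset.sum_nonneg fun τ _ => wt_nonneg N aO τ p
  -- pointwise comparison at primes
  have hcmp : ∀ p : ℕ, p.Prime → ind X p ≤ c⁻¹ * W p := by
    intro p _
    by_cases hp : p ∈ X
    · rw [ind_of_mem hp]
      obtain ⟨_, hpN, hpY⟩ := hp
      have hgt : c < sqSum K (aO p : K) := by
        by_contra hle
        rw [not_lt] at hle
        exact hpY ((finite_sqSum_le K c).mem_toFinset.mpr hle)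
      have hWp : W p = sqSum K (aO p : K) := sum_wt_of_not_dvd aO hpN
      rw [hWp, inv_mul_eq_div, le_div_iff₀ hc0]
      linarith
    · rw [ind_of_notMem hp]
      exact mul_nonneg (inv_pos.mpr hc0).le (hW0 p)
  refine ⟨c⁻¹ * max C 0, fun s hs => ?_⟩
  have hsW : Summable (term (fun p => c⁻¹ * W p) s) := by
    have h : term (fun p => c⁻¹ * W p) s = fun n => c⁻¹ * term W s n :=
      funext (term_const_mul c⁻¹ W s)
    rw [h]
    exact (hWs s hs).mul_left _
  have h1 : PS X s ≤ WPS (fun p => c⁻¹ * W p) s :=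
    WPS_le_WPS hcmp (summable_term_ind X hs.1) hsW
  rw [WPS_const_mul] at h1
  have h2 := hC s hs
  have hlog := log_nonneg_of_mem hs
  have hcinv : 0 < c⁻¹ := inv_pos.mpr hc0
  have h3 : c⁻¹ * WPS W s ≤ c⁻¹ * (d * Real.log (1 / (s - 1)) + max C 0) :=
    mul_le_mul_of_nonneg_left (h2.trans (by linarith [le_max_left C 0])) hcinv.le
  have h4 : c⁻¹ * d ≤ η := by
    rw [hc, inv_div, div_mul_eq_mul_div, div_le_iff₀ (by linarith)]
    nlinarith
  have h5 : c⁻¹ * d * Real.log (1 / (s - 1)) ≤ η * Real.log (1 / (s - 1)) :=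
    mul_le_mul_of_nonneg_right h4 hlog
  calc PS X s ≤ c⁻¹ * WPS W s := h1
    _ ≤ c⁻¹ * (d * Real.log (1 / (s - 1)) + max C 0) := h3
    _ = c⁻¹ * d * Real.log (1 / (s - 1)) + c⁻¹ * max C 0 := by ring
    _ ≤ η * Real.log (1 / (s - 1)) + c⁻¹ * max C 0 := by linarith

/-! ### from `RankinBound` to the exceptional set -/

/-- the Rankin bound for `τ ∘ a` is the weighted upper bound `1` for the weight `‖τ (a_p)‖²`. -/
theorem wUpperLe_wt_of_rankinBound {N : ℕ} {aO : ℕ → 𝓞 K} {τ : K →+* ℂ}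
    (h : RankinBound N (fun p => τ (aO p : K))) : WUpperLe (wt N aO τ) 1 := by
  classical
  obtain ⟨C, hC⟩ := h
  refine wUpperLe_of_finset_bound (wt_nonneg N aO τ) ⟨C, fun s hs1 hs2 P hP => ?_⟩
  rw [one_mul]
  -- drop the primes dividing `N`
  have h1' : ∑ p ∈ P, wt N aO τ p * (p : ℝ) ^ (-s) =
      ∑ p ∈ P.filter (fun p => ¬ p ∣ N), ‖τ (aO p : K)‖ ^ 2 * (p : ℝ) ^ (-s) := by
    rw [Finset.sum_filter]
    refine Finset.sum_congr rfl fun p _ => ?_
    by_cases hpN : p ∣ N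
    · rw [if_neg (not_not.mpr hpN)]
      unfold wt
      rw [if_pos hpN, zero_mul]
    · rw [if_pos hpN]
      unfold wt
      rw [if_neg hpN]
  rw [h1']
  exact hC s hs1 hs2 _ fun p hp =>
    ⟨hP p (Finset.mem_filter.mp hp).1, (Finset.mem_filter.mp hp).2⟩

/-- **A3 from `RankinBound`**: if every conjugate sequence `τ ∘ a` satisfies the Rankin bound, the
primes `p ∤ N` with `a_p` outside a suitable finite set have upper density `≤ η`. -/
theorem exists_finset_upperLe_of_rankinBound (N : ℕ) (aO : ℕ → 𝓞 K)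
    (hR : ∀ τ : K →+* ℂ, RankinBound N (fun p => τ (aO p : K))) {η : ℝ} (hη : 0 < η) :
    ∃ Y : Finset (𝓞 K), UpperLe {p : ℕ | p.Prime ∧ ¬ p ∣ N ∧ aO p ∉ Y} η :=
  exists_finset_upperLe N aO (fun τ => wUpperLe_wt_of_rankinBound (hR τ)) hη

/-- the same, in the shape asked for by the half-A assembly. -/
theorem exists_finset_exists_set (N : ℕ) (aO : ℕ → 𝓞 K)
    (hR : ∀ τ : K →+* ℂ, RankinBound N (fun p => τ (aO p : K))) {η : ℝ} (hη : 0 < η) :
    ∃ (Y : Finset (𝓞 K)) (X : Set ℕ), UpperLe X η ∧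
      ∀ p : ℕ, p.Prime → ¬ p ∣ N → p ∉ X → aO p ∈ Y := by
  obtain ⟨Y, hY⟩ := exists_finset_upperLe_of_rankinBound N aO hR hη
  refine ⟨Y, _, hY, fun p hp hpN hpX => ?_⟩
  by_contra hpY
  exact hpX ⟨hp, hpN, hpY⟩

/-! ### the chapter export, in the vocabulary of the contract -/

open Fermat.Agent.ES.R48.DSIface27 CongruenceSubgroup

/-- The literal statement of A2's export `rankin_bound` (level-blind): every normalised weight-one
cusp form of any level with the Hecke relations off `N` satisfies the Rankin bound off `N`. -/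
def RankinExport : Prop :=
  ∀ {N : ℕ} [NeZero N] (ε : DirichletCharacter ℂ N) {N' : ℕ} [NeZero N']
    (f : CuspForm (Gamma1 N') 1), ModularFormClass.qCoeff f 1 = 1 → HeckeRel N ε f →
    RankinBound N (fun p => ModularFormClass.qCoeff f p)

/-- `RankinExport` unfolded. -/
theorem rankinExport_iff : RankinExport ↔
    ∀ {N : ℕ} [NeZero N] (ε : DirichletCharacter ℂ N) {N' : ℕ} [NeZero N']
      (f : CuspForm (Gamma1 N') 1), ModularFormClass.qCoeff f 1 = 1 → HeckeRel N ε f →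
      ∃ C : ℝ, ∀ s : ℝ, 1 < s → s ≤ 2 → ∀ P : Finset ℕ, (∀ p ∈ P, p.Prime ∧ ¬ p ∣ N) →
        ∑ p ∈ P, ‖ModularFormClass.qCoeff f p‖ ^ 2 * (p : ℝ) ^ (-s) ≤
          Real.log (1 / (s - 1)) + C :=
  Iff.rfl

/-- clause (RAT-2) (without its `ε'`-part) and A2's export give the Rankin bound for every
conjugate sequence. -/
theorem rankinBound_of_conj (hRB : RankinExport) (N : ℕ) [NeZero N] (aO : ℕ → 𝓞 K)
    (hconj : ∀ τ : K →+* ℂ, ∃ (N' : ℕ) (_ : NeZero N') (ε' : DirichletCharacter ℂ N)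
        (f' : CuspForm (Gamma1 N') 1),
        ModularFormClass.qCoeff f' 1 = 1 ∧ HeckeRel N ε' f' ∧
        (∀ p : ℕ, p.Prime → ¬ p ∣ N → ModularFormClass.qCoeff f' p = τ (aO p : K)))
    (τ : K →+* ℂ) : RankinBound N (fun p => τ (aO p : K)) := by
  obtain ⟨N', hN', ε', f', h1, hT, hap⟩ := hconj τ
  exact (hRB ε' f' h1 hT).congr fun p hp hpN => (hap p hp hpN).symm

/-- **A3, chapter export.**  From the clause (RAT-2) of `DSContract` (without its `ε'`-part) and
the Rankin bound: for every `η > 0` there is a finite set `Y` of algebraic integers of `K` such that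
the primes `p ∤ N` with `a_p ∉ Y` have upper Dirichlet density `≤ η`. -/
theorem exists_finset_upperLe_of_conj (hRB : RankinExport) (N : ℕ) [NeZero N] (aO : ℕ → 𝓞 K)
    (hconj : ∀ τ : K →+* ℂ, ∃ (N' : ℕ) (_ : NeZero N') (ε' : DirichletCharacter ℂ N)
        (f' : CuspForm (Gamma1 N') 1),
        ModularFormClass.qCoeff f' 1 = 1 ∧ HeckeRel N ε' f' ∧
        (∀ p : ℕ, p.Prime → ¬ p ∣ N → ModularFormClass.qCoeff f' p = τ (aO p : K)))
    {η : ℝ} (hη : 0 < η) :
    ∃ Y : Finset (𝓞 K), UpperLe {p : ℕ | p.Prime ∧ ¬ p ∣ N ∧ aO p ∉ Y} η :=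
  exists_finset_upperLe_of_rankinBound N aO (rankinBound_of_conj hRB N aO hconj) hη

/-- The same, with the clause (RAT-2) of `DSContract` taken literally (including the `ε'`-clause,
which is not used). -/
theorem exists_finset_upperLe_of_rat2 (hRB : RankinExport) (N : ℕ) [NeZero N] (aO : ℕ → 𝓞 K)
    (eO : ZMod N → 𝓞 K)
    (hconj : ∀ τ : K →+* ℂ, ∃ (N' : ℕ) (_ : NeZero N') (ε' : DirichletCharacter ℂ N)
        (f' : CuspForm (Gamma1 N') 1),
        ModularFormClass.qCoeff f' 1 = 1 ∧ HeckeRel N ε' f' ∧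
        (∀ p : ℕ, p.Prime → ¬ p ∣ N → ModularFormClass.qCoeff f' p = τ (aO p : K)) ∧
        ∀ x : ZMod N, ε' x = τ (eO x : K))
    {η : ℝ} (hη : 0 < η) :
    ∃ Y : Finset (𝓞 K), UpperLe {p : ℕ | p.Prime ∧ ¬ p ∣ N ∧ aO p ∉ Y} η := by
  refine exists_finset_upperLe_of_conj hRB N aO (fun τ => ?_) hη
  obtain ⟨N', hN', ε', f', h1, hT, hap, _⟩ := hconj τ
  exact ⟨N', hN', ε', f', h1, hT, hap⟩

end

end Fermat.Agent.ES.R48.DensExc16
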