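/-
Programme R (S48, Deligne–Serre), HALF A, interface file of the integrator (helper12).

The chapter EXPORTS of half A, as `Prop`s.  `HalfA12.halfA` proves `DSIface27.HalfA` from them; each
chapter owner proves (a statement that implies) the corresponding export.  Everything here is
density-free: the analytic chapters A2–A5 enter through the single export `ImageBoundExport`
("the images of the mod-`ℓ` representations have bounded order"), A9 through `IrredExport`.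
-/
import Mathlib
import Fermat.Agent.ES.R48.DSIface27

set_option autoImplicit false

open CongruenceSubgroup NumberField
open scoped MatrixGroups

namespace Fermat.Agent.ES.R48.HalfAIface12

open Fermat.Agent.ES.R48.DSIface27

/-- The ring `ℤ̄` of all algebraic integers in `ℂ`. -/
abbrev Zbar := integralClosure ℤ ℂ

/-- **(SPLIT)**: every number field has, outside every finite set, a rational prime all of whose
primes in `𝓞 K` have residue degree one. -/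
def SplitExport : Prop :=
  ∀ (K : Type) [Field K] [NumberField K] (S : Finset ℕ),
    ∃ ℓ : ℕ, ℓ.Prime ∧ ℓ ∉ S ∧
      ∀ 𝔭 : Ideal (𝓞 K), 𝔭.IsMaximal → (ℓ : 𝓞 K) ∈ 𝔭 → Nat.card (𝓞 K ⧸ 𝔭) = ℓ

/-- **(A6 LIFT)**: for every prime `ℓ` there is a maximal ideal `𝔪 ∋ ℓ` of `ℤ̄` such that every
subgroup `G ≤ GL₂(𝔽_ℓ)` of order prime to `ℓ` has a complex lift with integral traces and
determinants, congruent mod `𝔪` to the traces and determinants in `𝔽_ℓ`. -/
def LiftExport : Prop :=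
  ∀ (ℓ : ℕ) [Fact ℓ.Prime], ∃ 𝔪 : Ideal Zbar, 𝔪.IsMaximal ∧ (ℓ : Zbar) ∈ 𝔪 ∧
    ∀ G : Subgroup (GL (Fin 2) (ZMod ℓ)), ¬ ℓ ∣ Nat.card G →
      ∃ r : G →* GL (Fin 2) ℂ, ∀ g : G, ∃ t d : Zbar,
        (t : ℂ) = ((r g : GL (Fin 2) ℂ) : Matrix (Fin 2) (Fin 2) ℂ).trace ∧
        (d : ℂ) = ((r g : GL (Fin 2) ℂ) : Matrix (Fin 2) (Fin 2) ℂ).det ∧
        t - ((((g : GL (Fin 2) (ZMod ℓ)) : Matrix (Fin 2) (Fin 2) (ZMod ℓ)).trace.val : ℕ) : Zbar)
          ∈ 𝔪 ∧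
        d - ((((g : GL (Fin 2) (ZMod ℓ)) : Matrix (Fin 2) (Fin 2) (ZMod ℓ)).det.val : ℕ) : Zbar)
          ∈ 𝔪

/-- **(A7 SEP)**: a nonzero algebraic integer lies in proper ideals of only finitely many residue
characteristics. -/
def SepExport : Prop :=
  ∀ x : Zbar, x ≠ 0 → ∃ S : Finset ℕ, ∀ ℓ : ℕ, ℓ.Prime → ∀ 𝔪 : Ideal Zbar, 𝔪 ≠ ⊤ →
    (ℓ : Zbar) ∈ 𝔪 → x ∈ 𝔪 → ℓ ∈ S

/-- **(A7 CHAR0)**: the (trace, determinant) pairs of the elements of `GL₂(ℂ)` of order `≤ A`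
form a finite set of pairs of algebraic integers. -/
def Char0Export : Prop :=
  ∀ A : ℕ, ∃ Y : Finset (Zbar × Zbar), ∀ g : GL (Fin 2) ℂ,
    (∃ n : ℕ, 0 < n ∧ n ≤ A ∧ g ^ n = 1) →
      ∃ y ∈ Y, (y.1 : ℂ) = (g : Matrix (Fin 2) (Fin 2) ℂ).trace ∧
        (y.2 : ℂ) = (g : Matrix (Fin 2) (Fin 2) ℂ).det

/-- **(A8 TWO-ℓ)**: two finite-level complex representations with the same Frobenius data away
from `N ℓ₁`, resp. `N ℓ₂`, `ℓ₁ ≠ ℓ₂`: the first one has the Frobenius data away from `N`. -/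
def TwoEllExport : Prop :=
  ∀ (N ℓ₁ ℓ₂ : ℕ), ℓ₁.Prime → ℓ₂.Prime → ℓ₁ ≠ ℓ₂ →
    ∀ (ρ₁ ρ₂ : GQ →* GL (Fin 2) ℂ) (t d : ℕ → ℂ),
      GaloisFactorsThroughFiniteLevel ρ₁ → GaloisFactorsThroughFiniteLevel ρ₂ →
      FrobData (N * ℓ₁) ρ₁ t d → FrobData (N * ℓ₂) ρ₂ t d → FrobData N ρ₁ t d

/-- **(A9 IRRED)**: a finite-level complex representation carrying the Frobenius data of a
weight-one cusp form (with the formal Hecke relations) is irreducible. -/
def IrredExport : Prop :=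
  ∀ (N : ℕ) [NeZero N] (ε' : DirichletCharacter ℂ N) (N' : ℕ) [NeZero N']
    (f' : CuspForm (Gamma1 N') 1),
    ModularFormClass.qCoeff f' 1 = 1 → HeckeRel N ε' f' →
    ∀ ρ : GQ →* GL (Fin 2) ℂ, GaloisFactorsThroughFiniteLevel ρ →
      FrobData N ρ (fun p => ModularFormClass.qCoeff f' p) (fun p => ε' (p : ZMod N)) →
      (Deformation.matrixRepresentation ρ).IsIrreducible

/-- The clause (RAT-2) of the contract. -/
def ConjClause (N : ℕ) [NeZero N] (K : Type) [Field K] [NumberField K]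
    (aO : ℕ → 𝓞 K) (eO : ZMod N → 𝓞 K) : Prop :=
  ∀ τ : K →+* ℂ, ∃ (N' : ℕ) (_ : NeZero N') (ε' : DirichletCharacter ℂ N)
    (f' : CuspForm (Gamma1 N') 1),
    ModularFormClass.qCoeff f' 1 = 1 ∧ HeckeRel N ε' f' ∧
    (∀ p : ℕ, p.Prime → ¬ p ∣ N → ModularFormClass.qCoeff f' p = τ (aO p : K)) ∧
    ∀ x : ZMod N, ε' x = τ (eO x : K)

/-- **(A2–A5 BOUND)**: under (RAT-2), the images of all semisimple mod-`ℓ` representations with
the reduced Frobenius data have bounded order (Rankin + density + Chebotarev + subgroups of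
`GL₂(𝔽_ℓ)`). -/
def ImageBoundExport : Prop :=
  ∀ (N : ℕ) [NeZero N] (K : Type) [Field K] [NumberField K]
    (aO : ℕ → 𝓞 K) (eO : ZMod N → 𝓞 K), ConjClause N K aO eO →
    ∃ A : ℕ, ∀ (ℓ : ℕ), ℓ.Prime → ∀ (φ : 𝓞 K →+* ZMod ℓ) (ρb : GQ →* GL (Fin 2) (ZMod ℓ)),
      GaloisFactorsThroughFiniteLevel ρb → IsSemisimple2 ρb →
      FrobData (N * ℓ) ρb (fun p => φ (aO p)) (fun p => φ (eO (p : ZMod N))) →
      Nat.card ρb.range ≤ A

end Fermat.Agent.ES.R48.HalfAIface12
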