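/-
Programme R (S48), HALF A (helper12): `HalfAIface12.ImageBoundExport` from the exports of the
chapters A2 (Rankin, `DensExc16.RankinExport`), A3 (density of exceptional primes,
`DensExc16.exists_finset_upperLe_of_rat2`), A4 (Chebotarev up to inversion, `ChebExport` below =
helper7's `ChebExport7`) and A5 (subgroups of `GL₂(𝔽_ℓ)`, `GrpDefs20.BoundedImage`), in the
vocabulary of `DensDefs16`.

Deligne–Serre §8, first half: with `η = 1/24`, `Y` the finite set of A3, the set
`C = {g ∈ im ρb : charData g ∉ P ∧ charData g⁻¹ ∉ P}` (`P` = the reductions of `Y × im eO`) is stable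
under conjugation and inversion; the primes with a Frobenius in `C` are exceptional or divide
`N ℓ`, so `|C|/|G| ≤ 1/24` by A4; on the complement `H` the char. data take at most `2|Y × im eO|`
values, and A5 bounds `|G|`.
-/
import Mathlib
import Fermat.Agent.ES.R48.HalfAIface12
import Fermat.Agent.ES.R48.DensDefs16
import Fermat.Agent.ES.R48.DensExc16
import Fermat.Agent.ES.R48.GrpDefs20

set_option autoImplicit false

open CongruenceSubgroup NumberField
open scoped MatrixGroups

namespace Fermat.Agent.ES.R48.ImageBound12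

open Fermat.Agent.ES.R48.DSIface27 Fermat.Agent.ES.R48.HalfAIface12
open Fermat.Agent.ES.R48.DensDefs16 Fermat.Agent.ES.R48.GrpDefs20

/-- **(A4 CHEB, up to inversion)**, export shape (helper7's `ChebExport7`: every lower density
`η < |C|/|Γ|`). -/
def ChebExport : Prop :=
  ∀ (Γ : Type) [Group Γ] [Finite Γ] (ρ : GQ →* Γ), GaloisFactorsThroughFiniteLevel ρ →
    Function.Surjective ρ →
    ∀ C : Set Γ, (∀ g ∈ C, ∀ h : Γ, h * g * h⁻¹ ∈ C) → (∀ g ∈ C, g⁻¹ ∈ C) →
      ∀ η : ℝ, η < (Nat.card C : ℝ) / Nat.card Γ →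
      LowerGe {p | p.Prime ∧ ∃ (A : ValuationSubring (AlgebraicClosure ℚ)) (σ : GQ),
        A.LiesOverPrime p ∧ A.IsFrobeniusAt σ p ∧ ρ σ ∈ C} η

/-! ### Small tools -/

section CharData

variable {k : Type} [Field k]

theorem charData_conj (g h : GL (Fin 2) k) : charData (h * g * h⁻¹) = charData g := by
  unfold charData
  refine Prod.ext ?_ ?_
  · show ((h * g * h⁻¹ : GL (Fin 2) k) : Matrix (Fin 2) (Fin 2) k).trace = _
    rw [Units.val_mul, Units.val_mul, Matrix.trace_mul_comm, ← mul_assoc, ← Units.val_mul,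
      inv_mul_cancel, Units.val_one, one_mul]
  · show ((h * g * h⁻¹ : GL (Fin 2) k) : Matrix (Fin 2) (Fin 2) k).det = _
    rw [Units.val_mul, Units.val_mul, Matrix.det_mul, Matrix.det_mul, mul_right_comm,
      ← Matrix.det_mul, ← Units.val_mul, mul_inv_cancel, Units.val_one, Matrix.det_one, one_mul]

/-- The transformation of the char. data under inversion. -/
def invData (x : k × k) : k × k := (x.1 * x.2⁻¹, x.2⁻¹)

theorem charData_inv (g : GL (Fin 2) k) : charData g⁻¹ = invData (charData g) := by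
  unfold charData invData
  have h1 : ((g⁻¹ : GL (Fin 2) k) : Matrix (Fin 2) (Fin 2) k)
      = (g : Matrix (Fin 2) (Fin 2) k)⁻¹ := Matrix.coe_units_inv g
  have hdet : (g : Matrix (Fin 2) (Fin 2) k).det ≠ 0 := by
    have := Matrix.isUnits_det_units g
    exact this.ne_zero
  refine Prod.ext ?_ ?_
  · show ((g⁻¹ : GL (Fin 2) k) : Matrix (Fin 2) (Fin 2) k).trace = _
    rw [h1, Matrix.inv_def, Matrix.trace_smul, Ring.inverse_eq_inv', Matrix.adjugate_fin_two,
      Matrix.trace_fin_two, Matrix.trace_fin_two]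
    simp only [Matrix.of_apply, Matrix.cons_val', Matrix.cons_val_zero, Matrix.cons_val_one,
      Matrix.empty_val', Matrix.cons_val_fin_one, smul_eq_mul]
    ring
  · show ((g⁻¹ : GL (Fin 2) k) : Matrix (Fin 2) (Fin 2) k).det = _
    rw [h1, Matrix.det_nonsing_inv, Ring.inverse_eq_inv']

end CharData

/-- The image of a semisimple representation is a semisimple subgroup. -/
theorem isSemisimple2Sub_range {k : Type} [CommRing k] {ρ : GQ →* GL (Fin 2) k}
    (h : IsSemisimple2 ρ) : IsSemisimple2Sub ρ.range := by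
  intro v hv hstab
  obtain ⟨w, hw, hws⟩ := h v hv (fun σ => hstab (ρ σ) ⟨σ, rfl⟩)
  refine ⟨w, hw, ?_⟩
  rintro g ⟨σ, rfl⟩
  exact hws σ

/-- **The images of the mod-`ℓ` representations have bounded order** (Deligne–Serre §8, first
half), from the exports of A2 (+ A3, proved in `DensExc16`), A4, A5. -/
theorem imageBound (hR : DensExc16.RankinExport) (hC : ChebExport) (hG : BoundedImage) :
    ImageBoundExport := by
  classical
  intro N _ K _ _ aO eO hconj
  -- A2 + A3: the exceptional primes have upper density `≤ 1/24`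
  obtain ⟨Y, hY⟩ := DensExc16.exists_finset_upperLe_of_rat2 hR N aO eO hconj
    (η := 1 / 24) (by norm_num)
  set PK : Finset (𝓞 K × 𝓞 K) := Y ×ˢ (Finset.univ.image eO) with hPK
  obtain ⟨A, hA⟩ := hG (2 * PK.card)
  refine ⟨A, fun ℓ hℓ φ ρb hfl hss hfrob => ?_⟩
  have : Fact ℓ.Prime := ⟨hℓ⟩
  have : NeZero ℓ := ⟨hℓ.ne_zero⟩
  set P : Finset (ZMod ℓ × ZMod ℓ) := PK.image (Prod.map φ φ) with hP
  -- the bad set: stable under conjugation and inversion
  set C : Set ρb.range := {g | charData (g : GL (Fin 2) (ZMod ℓ)) ∉ P ∧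
    charData ((g : GL (Fin 2) (ZMod ℓ))⁻¹) ∉ P} with hCdef
  have hCconj : ∀ g ∈ C, ∀ h : ρb.range, h * g * h⁻¹ ∈ C := by
    intro g hg h
    refine ⟨?_, ?_⟩
    · show charData ((h : GL (Fin 2) (ZMod ℓ)) * (g : GL (Fin 2) (ZMod ℓ)) *
        (h : GL (Fin 2) (ZMod ℓ))⁻¹) ∉ P
      rw [charData_conj]
      exact hg.1
    · show charData (((h : GL (Fin 2) (ZMod ℓ)) * (g : GL (Fin 2) (ZMod ℓ)) *
        (h : GL (Fin 2) (ZMod ℓ))⁻¹)⁻¹) ∉ P
      have : ((h : GL (Fin 2) (ZMod ℓ)) * (g : GL (Fin 2) (ZMod ℓ)) *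
          (h : GL (Fin 2) (ZMod ℓ))⁻¹)⁻¹
          = (h : GL (Fin 2) (ZMod ℓ)) * (g : GL (Fin 2) (ZMod ℓ))⁻¹ *
            (h : GL (Fin 2) (ZMod ℓ))⁻¹ := by group
      rw [this, charData_conj]
      exact hg.2
  have hCinv : ∀ g ∈ C, g⁻¹ ∈ C := by
    intro g hg
    refine ⟨hg.2, ?_⟩
    show charData (((g : GL (Fin 2) (ZMod ℓ))⁻¹)⁻¹) ∉ P
    rw [inv_inv]
    exact hg.1
  have hfl' : GaloisFactorsThroughFiniteLevel ρb.rangeRestrict := by
    obtain ⟨L, hL, hLker⟩ := hfl
    exact ⟨L, hL, fun σ hσ => Subtype.ext (hLker σ hσ)⟩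
  have hlow := hC ρb.range ρb.rangeRestrict hfl' ρb.rangeRestrict_surjective C hCconj hCinv
  -- the primes with a Frobenius in `C` are exceptional or divide `N ℓ`
  have hNℓ : N * ℓ ≠ 0 := Nat.mul_ne_zero (NeZero.ne N) hℓ.ne_zero
  have hfin : {p : ℕ | p ∣ N * ℓ}.Finite :=
    (Nat.divisors (N * ℓ)).finite_toSet.subset fun p hp =>
      Finset.mem_coe.mpr (Nat.mem_divisors.mpr ⟨hp, hNℓ⟩)
  have hsub : {p : ℕ | p.Prime ∧ ∃ (V : ValuationSubring (AlgebraicClosure ℚ)) (σ : GQ),
        V.LiesOverPrime p ∧ V.IsFrobeniusAt σ p ∧ ρb.rangeRestrict σ ∈ C} ⊆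
      {p : ℕ | p.Prime ∧ ¬ p ∣ N ∧ aO p ∉ Y} ∪ {p : ℕ | p ∣ N * ℓ} := by
    rintro p ⟨hp, V, σ, hV, hσ, hmem⟩
    by_cases hdiv : p ∣ N * ℓ
    · exact Or.inr hdiv
    · refine Or.inl ⟨hp, fun h => hdiv (Dvd.dvd.mul_right h ℓ), fun hY' => ?_⟩
      obtain ⟨htr, hdet⟩ := (hfrob p hp hdiv V hV).2 σ hσ
      apply hmem.1
      show charData (ρb σ) ∈ P
      rw [hP, Finset.mem_image]
      refine ⟨(aO p, eO (p : ZMod N)), ?_, ?_⟩
      · rw [hPK, Finset.mem_product]
        exact ⟨hY', Finset.mem_image.mpr ⟨_, Finset.mem_univ _, rfl⟩⟩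
      · unfold charData
        rw [htr, hdet]
        rfl
  have hup := hY.of_subset_union_finite hfin hsub
  have hle : (Nat.card C : ℝ) / Nat.card ρb.range ≤ 1 / 24 :=
    le_of_forall_lt_imp_le_of_dense fun η hη => le_of_lowerGe_of_upperLe (hlow η hη) hup
  have hGpos : 0 < Nat.card ρb.range := Nat.card_pos
  have hle' : 24 * Nat.card C ≤ Nat.card ρb.range := by
    rw [div_le_div_iff₀ (by exact_mod_cast hGpos) (by norm_num)] at hle
    have : ((24 * Nat.card C : ℕ) : ℝ) ≤ ((Nat.card ρb.range : ℕ) : ℝ) := by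
      push_cast
      linarith
    exact_mod_cast this
  -- the good set
  set H : Finset (GL (Fin 2) (ZMod ℓ)) := Finset.univ.filter
    (fun g => g ∈ ρb.range ∧ (charData g ∈ P ∨ charData g⁻¹ ∈ P)) with hH
  have himage : Subtype.val '' Cᶜ = (H : Set (GL (Fin 2) (ZMod ℓ))) := by
    ext x
    simp only [Set.mem_image, Set.mem_compl_iff, hH, Finset.coe_filter, Finset.mem_univ,
      true_and, Set.mem_ofPred_eq]
    constructor
    · rintro ⟨g, hg, rfl⟩
      refine ⟨g.2, ?_⟩
      by_contra hcon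
      rw [not_or] at hcon
      exact hg hcon
    · rintro ⟨hx, hor⟩
      refine ⟨⟨x, hx⟩, fun hcon => ?_, rfl⟩
      rcases hor with h | h
      · exact hcon.1 h
      · exact hcon.2 h
  have hHcard : H.card = (Cᶜ : Set ρb.range).ncard := by
    rw [← Set.ncard_coe_finset, ← himage, Set.ncard_image_of_injective _ Subtype.val_injective]
  have hsplit : C.ncard + (Cᶜ : Set ρb.range).ncard = Nat.card ρb.range :=
    Set.ncard_add_ncard_compl C
  have hCcard : Nat.card C = C.ncard := Nat.card_coe_set_eq C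
  apply hA ℓ ρb.range (isSemisimple2Sub_range hss)
  refine ⟨H, fun h hh => ?_, ?_, ?_⟩
  · rw [hH, Finset.mem_filter] at hh
    exact hh.2.1
  · omega
  · have hsubset : H.image charData ⊆ P ∪ P.image invData := by
      intro x hx
      rw [Finset.mem_image] at hx
      obtain ⟨g, hg, rfl⟩ := hx
      rw [hH, Finset.mem_filter] at hg
      rcases hg.2.2 with h | h
      · exact Finset.mem_union_left _ h
      · refine Finset.mem_union_right _ (Finset.mem_image.mpr ⟨charData g⁻¹, h, ?_⟩)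
        rw [← charData_inv, inv_inv]
    calc (H.image charData).card ≤ (P ∪ P.image invData).card := Finset.card_le_card hsubset
      _ ≤ P.card + (P.image invData).card := Finset.card_union_le _ _
      _ ≤ P.card + P.card := Nat.add_le_add_left Finset.card_image_le _
      _ ≤ PK.card + PK.card := Nat.add_le_add Finset.card_image_le Finset.card_image_le
      _ = 2 * PK.card := (two_mul _).symm

end Fermat.Agent.ES.R48.ImageBound12
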