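/-
Programme R (S48, Deligne–Serre), chapter A4 CHEB (owner helper7): **the chapter export**.

`chebExport : ImageBound12.ChebExport` — Chebotarev's density theorem for inversion-stable,
conjugation-stable subsets, as a lower density bound with an arbitrarily small loss, for finite
quotients of `Gal(ℚ̄/ℚ)`.  It is `ChebInvQbar18.cheb_inv_export` (CR7) applied to
`ChebInvNF7.cheb_inv_nf` (CR6).
-/
import Mathlib
import Fermat.Agent.ES.R48.ChebInvNF7
import Fermat.Agent.ES.R48.ChebInvQbar18
import Fermat.Agent.ES.R48.ImageBound12

set_option autoImplicit false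

namespace Fermat.Agent.ES.R48.ChebExport7

/-- **(A4)** The chapter export of A4 CHEB. -/
theorem chebExport : Fermat.Agent.ES.R48.ImageBound12.ChebExport :=
  Fermat.Agent.ES.R48.ChebInvQbar18.cheb_inv_export
    (Fermat.Agent.ES.R48.ChebInvQbar18.chebInvNF_of_canonical
      @Fermat.Agent.ES.R48.ChebInvNF7.cheb_inv_nf)

end Fermat.Agent.ES.R48.ChebExport7
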