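/-
Programme R (S48, Deligne–Serre), chapter GEOM, sub-chapter G3 MODEL₁ / E (helper7):
**coefficient descent for `laurentBaseChange`** — a Laurent series over the small field whose base
change lies in `K·F₀` already lies in `k·F₀`.  This is main's q-expansion principle
`J/DESC/LaurentExt24.mem_range_bc_iff` (generic in `k ⊂ K`, `F₀`), restated in the membership form
needed by G3/E (`DiamondK`: the diamond automorphisms of `F1bar M` restrict to `K·F1 M`, and the
fixed field of the restricted group is `K·F_full(M)`).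

* `mem_laurentBaseChange_of_bcS_mem` : `coeffMap (algebraMap k K) x ∈ K·F₀ → x ∈ k·F₀` (generic);
* `mem_laurentBaseChange_iff_coeffMap_mem` : the `iff`;
* `mem_FKG_of_coeffMap_mem` : the instance `k = K ⊂ ℚ̄` (`K : IntermediateField ℚ Qbar`);
* `mem_range_baseChangeHomG_iff`, `exists_baseChangeHomG_eq_of_coeff_mem` : the same for
  `PlaceExtendG7.baseChangeHomG F₀ K`.
-/
import Mathlib
import Fermat.Agent.ES.R48.PlaceExtendBc7

set_option autoImplicit false
set_option linter.unusedSectionVars false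

namespace Fermat.Agent.ES.R48.CoeffDescG7

open AlgebraicCurve ModularCurve HahnSeries
open Fermat.Agent.X0 Fermat.Agent.RED.Interface4
open Fermat.Agent.ES.R48.PlaceExtendG7 Fermat.Agent.ES.R48.PlaceExtendBc7
open Fermat.Agent.J.DESC

noncomputable section

section Generic

universe u v

variable {k : Type u} {K : Type v} [Field k] [Field K] [Algebra ℚ k] [Algebra ℚ K] [Algebra k K]
  (F₀ : IntermediateField ℚ (LaurentSeries ℚ))

/-- **Coefficient descent.**  If the coefficientwise base change of `x ∈ k((q))` lies in `K·F₀`,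
then `x ∈ k·F₀`. -/
theorem mem_laurentBaseChange_of_bcS_mem {x : LaurentSeries k}
    (h : coeffMap (algebraMap k K) x ∈ laurentBaseChange K F₀) : x ∈ laurentBaseChange k F₀ := by
  have hcoef : ∀ n, ((⟨coeffMap (algebraMap k K) x, h⟩ : ↥(laurentBaseChange K F₀)) :
      LaurentSeries K).coeff n ∈ Set.range (algebraMap k K) := fun n =>
    ⟨x.coeff n, (LaurentExt24.coeff_bcS (K := K) x n).symm⟩
  obtain ⟨y₀, hy₀⟩ := (LaurentExt24.mem_range_bc_iff (k := k) (K := K) F₀ ⟨_, h⟩).mpr hcoef
  have h1 : LaurentExt24.bcS (K := K) (y₀ : LaurentSeries k) = LaurentExt24.bcS (K := K) x := by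
    have := congrArg (fun z : ↥(laurentBaseChange K F₀) => (z : LaurentSeries K)) hy₀
    simpa [LaurentExt24.coe_bc] using this
  have h2 : (y₀ : LaurentSeries k) = x := LaurentExt24.bcS_injective h1
  rw [← h2]
  exact y₀.2

theorem mem_laurentBaseChange_iff_coeffMap_mem (x : LaurentSeries k) :
    x ∈ laurentBaseChange k F₀ ↔ coeffMap (algebraMap k K) x ∈ laurentBaseChange K F₀ :=
  ⟨fun h => LaurentExt24.bcS_mem (K := K) F₀ h, mem_laurentBaseChange_of_bcS_mem F₀⟩

end Generic

section Concrete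

variable (F₀ F₁ : IntermediateField ℚ (LaurentSeries ℚ)) (K : IntermediateField ℚ Qbar)

/-- **Coefficient descent, `K ⊂ ℚ̄`.** -/
theorem mem_FKG_of_coeffMap_mem {x : LaurentSeries K}
    (h : coeffMap (algebraMap K Qbar) x ∈ laurentBaseChange Qbar F₀) :
    x ∈ laurentBaseChange K F₀ :=
  mem_laurentBaseChange_of_bcS_mem (k := ↥K) (K := Qbar) F₀ h

/-- An element of `K·F₁` whose base change lies in `ℚ̄·F₀` lies in `K·F₀` (for ANY two fields
`F₀, F₁`; used with `F₀ = F_full(M) ≤ F₁ = F1 M`). -/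
theorem coe_mem_of_baseChangeHomG_mem (f : ↥(laurentBaseChange K F₁))
    (h : ((baseChangeHomG F₁ K f : ↥(laurentBaseChange Qbar F₁)) : LaurentSeries Qbar) ∈
      laurentBaseChange Qbar F₀) :
    (f : LaurentSeries K) ∈ laurentBaseChange K F₀ := by
  rw [coe_baseChangeHomG] at h
  exact mem_FKG_of_coeffMap_mem F₀ K h

/-- **q-expansion principle for `baseChangeHomG`**: `y ∈ ℚ̄·F₀` comes from `K·F₀` iff all its
coefficients lie in `K`. -/
theorem mem_range_baseChangeHomG_iff (y : ↥(laurentBaseChange Qbar F₀)) :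
    y ∈ Set.range (baseChangeHomG F₀ K) ↔
      ∀ n, (y : LaurentSeries Qbar).coeff n ∈ Set.range (algebraMap K Qbar) := by
  rw [baseChangeHomG_eq_bc]
  exact LaurentExt24.mem_range_bc_iff (k := ↥K) (K := Qbar) F₀ y

theorem exists_baseChangeHomG_eq_of_coeff_mem (y : ↥(laurentBaseChange Qbar F₀))
    (h : ∀ n, (y : LaurentSeries Qbar).coeff n ∈ K) :
    ∃ x : ↥(laurentBaseChange K F₀), baseChangeHomG F₀ K x = y :=
  (mem_range_baseChangeHomG_iff F₀ K y).mpr fun n => ⟨⟨_, h n⟩, rfl⟩

end Concrete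

end

end Fermat.Agent.ES.R48.CoeffDescG7
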