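/-
Programme R (S48), chapter GEOM, sub-chapter G4 CONG₁, layer 2 (helper22):
**an ALGEBRAIC extension of the field of constants does not change degrees** of subfields of
Laurent series fields.  Generic (Mathlib + main's `DegBaseChange25.family_bound_map` +
`FamilyForm20`); replaces main's `ψ`-sandwich `SpecialDegree25.baseChange_degrees`, which has no
`X₁`-twin.

Let `k / κ` be an algebraic field extension, `Φ = coeffMap (algebraMap κ k) : κ((q)) → k((q))`.

* `coordMap ℓ : k((q)) →+ κ((q))` : coefficientwise application of a `κ`-linear functional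
  `ℓ : k → κ`; `coordMap_coeffMap_mul : coordMap ℓ (Φ a * y) = a * coordMap ℓ y`
  (`coordMap ℓ` is `κ((q))`-linear), `eq_zero_of_coordMap` (the `coordMap ℓ` separate points);
* `coordMap_mem_adjoin` : `coordMap ℓ` maps `k(Φ T)` into `κ(T)` — because `k(Φ T)` is the
  `Φ(κ(T))`-span of the constants `k` (here `k / κ` algebraic is used);
* **`linearIndependent_coeffMap`** : a `κ(T)`-linearly independent family of series stays
  `k(Φ T)`-linearly independent (linear disjointness of `κ((q))` and `k` over `κ`);
* **`relfinrank_coeffMap_eq`** : `[k(Φ S) : k(Φ T)] = [κ(S) : κ(T)]` if the latter is finite;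
  `relfinrank_coeffMap_eq'` : the same for an arbitrary `φ : κ →+* k` with `k` algebraic over `φ κ`.
-/
import Mathlib
import Fermat.Prelude.Def_ModularCurve_LaurentCoeff
import Fermat.Agent.IG.PR.FamilyForm20
import Fermat.Agent.RED.PUR.DegBaseChange25

set_option autoImplicit false
set_option linter.style.haveILetI false
set_option linter.unusedSectionVars false

noncomputable section

open HahnSeries IntermediateField ModularCurve Polynomial

namespace Fermat.Agent.ES.R48.CoeffIndep22

/-! ### Coefficientwise linear functionals -/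

section Coord

variable {κ k : Type*} [Field κ] [Field k] [Algebra κ k]

/-- coefficientwise application of a `κ`-linear functional `ℓ : k → κ`. -/
def coordMap (ℓ : k →ₗ[κ] κ) : LaurentSeries k →+ LaurentSeries κ where
  toFun y := y.map ℓ
  map_zero' := by
    ext n
    simp
  map_add' x y := by
    ext n
    simp

theorem coordMap_coeff (ℓ : k →ₗ[κ] κ) (y : LaurentSeries k) (n : ℤ) :
    (coordMap ℓ y).coeff n = ℓ (y.coeff n) :=
  rfl

theorem support_coordMap_subset (ℓ : k →ₗ[κ] κ) (y : LaurentSeries k) :
    (coordMap ℓ y).support ⊆ y.support := by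
  intro n hn
  rw [HahnSeries.mem_support, coordMap_coeff] at hn
  rw [HahnSeries.mem_support]
  intro h
  exact hn (by rw [h, map_zero])

theorem support_coeffMap_subset (a : LaurentSeries κ) :
    (coeffMap (algebraMap κ k) a).support ⊆ a.support := by
  intro n hn
  rw [HahnSeries.mem_support, coeffMap_coeff] at hn
  rw [HahnSeries.mem_support]
  intro h
  exact hn (by rw [h, map_zero])

/-- **`coordMap ℓ` is `κ((q))`-linear**: `coordMap ℓ (Φ a * y) = a * coordMap ℓ y`. -/
theorem coordMap_coeffMap_mul (ℓ : k →ₗ[κ] κ) (a : LaurentSeries κ) (y : LaurentSeries k) :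
    coordMap ℓ (coeffMap (algebraMap κ k) a * y) = a * coordMap ℓ y := by
  ext n
  rw [coordMap_coeff, HahnSeries.coeff_mul_left' a.isPWO_support (support_coeffMap_subset a),
    HahnSeries.coeff_mul_right' y.isPWO_support (support_coordMap_subset ℓ y), map_sum]
  refine Finset.sum_congr rfl fun ij _ => ?_
  rw [coeffMap_coeff, coordMap_coeff, ← Algebra.smul_def, map_smul, smul_eq_mul]

theorem coordMap_mul_coeffMap (ℓ : k →ₗ[κ] κ) (y : LaurentSeries k) (a : LaurentSeries κ) :
    coordMap ℓ (y * coeffMap (algebraMap κ k) a) = coordMap ℓ y * a := by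
  rw [mul_comm, coordMap_coeffMap_mul, mul_comm]

/-- on constants. -/
theorem coordMap_algebraMap (ℓ : k →ₗ[κ] κ) (c : k) :
    coordMap ℓ (algebraMap k (LaurentSeries k) c) = algebraMap κ (LaurentSeries κ) (ℓ c) := by
  rw [algebraMap_laurentSeries_eq_single, algebraMap_laurentSeries_eq_single]
  ext n
  rw [coordMap_coeff]
  rcases eq_or_ne n 0 with rfl | hn
  · rw [HahnSeries.coeff_single_same, HahnSeries.coeff_single_same]
  · rw [HahnSeries.coeff_single_of_ne hn, HahnSeries.coeff_single_of_ne hn, map_zero]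

/-- the `coordMap ℓ` separate points. -/
theorem eq_zero_of_coordMap {y : LaurentSeries k} (h : ∀ ℓ : k →ₗ[κ] κ, coordMap ℓ y = 0) :
    y = 0 := by
  ext n
  rw [HahnSeries.coeff_zero]
  refine (Module.forall_dual_apply_eq_zero_iff κ (y.coeff n)).mp fun ℓ => ?_
  have := congrArg (fun z : LaurentSeries κ => z.coeff n) (h ℓ)
  simpa [coordMap_coeff] using this

end Coord

/-! ### `k(Φ T)` is the `Φ(κ(T))`-span of the constants -/

section Span

variable {κ k : Type*} [Field κ] [Field k] [Algebra κ k] [Algebra.IsAlgebraic κ k]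

/-- **`coordMap ℓ` maps `k(Φ T)` into `κ(T)`.** -/
theorem coordMap_mem_adjoin (T : Set (LaurentSeries κ)) (ℓ : k →ₗ[κ] κ) {α : LaurentSeries k}
    (hα : α ∈ adjoin k (coeffMap (algebraMap κ k) '' T)) : coordMap ℓ α ∈ adjoin κ T := by
  classical
  -- the image `A₁ = Φ(κ(T))`, a subfield of `k((q))`
  let A₁ : Subfield (LaurentSeries k) :=
    (adjoin κ T).toSubfield.map (coeffMap (algebraMap κ k))
  have hA₁ : ∀ a ∈ adjoin κ T, coeffMap (algebraMap κ k) a ∈ A₁ := fun a ha => ⟨a, ha, rfl⟩
  let S₁ : Set (LaurentSeries k) := Set.range (algebraMap k (LaurentSeries k))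
  -- the constants are algebraic over `A₁`
  have halg : ∀ x ∈ S₁, IsAlgebraic ↥A₁ x := by
    rintro _ ⟨c, rfl⟩
    obtain ⟨p, hp0, hp⟩ := Algebra.IsAlgebraic.isAlgebraic (R := κ) c
    let ψ : κ →+* ↥A₁ :=
      { toFun := fun r => ⟨coeffMap (algebraMap κ k) (algebraMap κ (LaurentSeries κ) r),
          hA₁ _ ((adjoin κ T).algebraMap_mem r)⟩
        map_one' := Subtype.ext (by simp)
        map_mul' := fun r s => Subtype.ext (by simp)
        map_zero' := Subtype.ext (by simp)
        map_add' := fun r s => Subtype.ext (by simp) }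
    refine ⟨p.map ψ, (Polynomial.map_ne_zero_iff ψ.injective).mpr hp0, ?_⟩
    have hcomp : (algebraMap ↥A₁ (LaurentSeries k)).comp ψ =
        (algebraMap k (LaurentSeries k)).comp (algebraMap κ k) := by
      ext r : 1
      show coeffMap (algebraMap κ k) (algebraMap κ (LaurentSeries κ) r) = _
      rw [Fermat.Agent.RED.PUR.DegBaseChange25.coeffMap_algebraMap']
      rfl
    rw [Polynomial.aeval_def, Polynomial.eval₂_map, hcomp, ← Polynomial.hom_eval₂,
      ← Polynomial.aeval_def, hp, map_zero]
  -- hence `A₁(k) = A₁[k]` is the `A₁`-span of the constants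
  have hsub := IntermediateField.adjoin_toSubalgebra_of_isAlgebraic (F := ↥A₁) halg
  have hle : (adjoin k (coeffMap (algebraMap κ k) '' T)).toSubfield ≤
      (adjoin ↥A₁ S₁).toSubfield := by
    show Subfield.closure (Set.range (algebraMap k (LaurentSeries k)) ∪
      coeffMap (algebraMap κ k) '' T) ≤ _
    rw [Subfield.closure_le]
    rintro x (hx | ⟨t, ht, rfl⟩)
    · exact subset_adjoin ↥A₁ S₁ hx
    · exact (adjoin ↥A₁ S₁).algebraMap_mem
        (⟨coeffMap (algebraMap κ k) t, hA₁ t (subset_adjoin κ T ht)⟩ : ↥A₁)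
  have h1 : α ∈ (adjoin ↥A₁ S₁).toSubalgebra := hle hα
  rw [hsub] at h1
  have h2 : α ∈ Submodule.span ↥A₁ S₁ := by
    have h3 := Algebra.adjoin_eq_span (R := ↥A₁) S₁
    have h4 : (Submonoid.closure S₁ : Set (LaurentSeries k)) = S₁ :=
      congrArg (fun M : Submonoid (LaurentSeries k) => (M : Set (LaurentSeries k)))
        (Submonoid.closure_eq (algebraMap k (LaurentSeries k)).rangeS.toSubmonoid)
    rw [h4] at h3
    rw [← h3]
    exact h1
  -- induction on the span
  have key : ∀ x ∈ Submodule.span ↥A₁ S₁, coordMap ℓ x ∈ adjoin κ T := by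
    intro x hx
    induction hx using Submodule.span_induction with
    | mem x hx =>
        obtain ⟨c, rfl⟩ := hx
        rw [coordMap_algebraMap]
        exact (adjoin κ T).algebraMap_mem _
    | zero =>
        rw [map_zero]
        exact zero_mem _
    | add x y _ _ hx hy =>
        rw [map_add]
        exact add_mem hx hy
    | smul a x _ hx =>
        obtain ⟨a₀, ha₀, ha⟩ := a.2
        have hax : a • x = coeffMap (algebraMap κ k) a₀ * x := by
          rw [Algebra.smul_def]
          show (a : LaurentSeries k) * x = _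
          rw [← ha]
        rw [hax, coordMap_coeffMap_mul]
        exact mul_mem ha₀ hx
  exact key α h2

end Span

/-! ### Linear disjointness and degrees -/

section Main

variable {κ k : Type*} [Field κ] [Field k] [Algebra κ k] [Algebra.IsAlgebraic κ k]

/-- **Linear disjointness**: a `κ(T)`-linearly independent family of Laurent series over `κ` stays
`k(Φ T)`-linearly independent after the coefficientwise base change `Φ`, for `k / κ` algebraic. -/
theorem linearIndependent_coeffMap (T : Set (LaurentSeries κ)) {ι : Type*}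
    (c : ι → LaurentSeries κ) (hc : LinearIndependent ↥(adjoin κ T) c) :
    LinearIndependent ↥(adjoin k (coeffMap (algebraMap κ k) '' T))
      (fun i => coeffMap (algebraMap κ k) (c i)) := by
  classical
  rw [linearIndependent_iff'] at hc ⊢
  intro s g hg i hi
  apply Subtype.ext
  show (g i : LaurentSeries k) = 0
  refine eq_zero_of_coordMap (κ := κ) fun ℓ => ?_
  have h1 : ∑ j ∈ s, (⟨coordMap ℓ (g j : LaurentSeries k), coordMap_mem_adjoin T ℓ (g j).2⟩ :
      ↥(adjoin κ T)) • c j = 0 := by
    have h2 := congrArg (coordMap ℓ) hg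
    rw [map_sum, map_zero] at h2
    rw [← h2]
    refine Finset.sum_congr rfl fun j _ => ?_
    rw [IntermediateField.smul_def, IntermediateField.smul_def, smul_eq_mul, smul_eq_mul,
      coordMap_mul_coeffMap]
  have h3 := hc s _ h1 i hi
  exact congrArg Subtype.val h3

/-- a family-form upper bound makes `B / A` finite: `relfinrank A B ≠ 0`. -/
theorem relfinrank_ne_zero_of_bound {F E : Type*} [Field F] [Field E] [Algebra F E]
    {A B : IntermediateField F E} (h : A ≤ B) (m : ℕ)
    (hub : ∀ (n : ℕ) (c : Fin n → E), (∀ i, c i ∈ B) → LinearIndependent ↥A c → n ≤ m) :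
    relfinrank A B ≠ 0 := by
  classical
  rw [relfinrank_eq_finrank_of_le h]
  have hrank : Module.rank ↥A ↥(extendScalars h) ≤ m := by
    apply rank_le
    intro s hs
    have h1 : LinearIndependent ↥A
        (fun i : Fin s.card => (((s.equivFin.symm i : ↥s) : ↥(extendScalars h)) : E)) := by
      have h2 : LinearIndependent ↥A
          (fun i : Fin s.card => ((s.equivFin.symm i : ↥s) : ↥(extendScalars h))) :=
        hs.comp _ s.equivFin.symm.injective
      exact h2.map' (extendScalars h).val.toLinearMap
        (LinearMap.ker_eq_bot.mpr (extendScalars h).val.injective)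
    exact hub s.card _ (fun i => (mem_extendScalars h).mp (s.equivFin.symm i : ↥s).1.2) h1
  have hfin : Module.Finite ↥A ↥(extendScalars h) := by
    rw [← Module.rank_lt_aleph0_iff]
    exact lt_of_le_of_lt hrank Cardinal.natCast_lt_aleph0
  exact (Module.finrank_pos (R := ↥A) (M := ↥(extendScalars h))).ne'

open Fermat.Agent.RED.PUR.DegBaseChange25 Fermat.Agent.IG.PR.FamilyForm20

/-- `k(Φ T) ≤ k(Φ S)`. -/
theorem adjoin_image_le (T S : Set (LaurentSeries κ)) (hTS : adjoin κ T ≤ adjoin κ S) :
    adjoin k (coeffMap (algebraMap κ k) '' T) ≤ adjoin k (coeffMap (algebraMap κ k) '' S) := by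
  rw [adjoin_le_iff]
  rintro _ ⟨t, ht, rfl⟩
  exact map_mem_adjoin (algebraMap κ k) (coeffMap (algebraMap κ k))
    (fun c => coeffMap_algebraMap' (algebraMap κ k) c) S (hTS (subset_adjoin κ T ht))

/-- family-form upper bound (no algebraicity needed; `DegBaseChange25.family_bound_map`). -/
theorem family_bound_coeffMap (T S : Set (LaurentSeries κ)) (hTS : adjoin κ T ≤ adjoin κ S)
    (hfin : relfinrank (adjoin κ T) (adjoin κ S) ≠ 0)
    (n : ℕ) (c : Fin n → LaurentSeries k)
    (hc : ∀ i, c i ∈ adjoin k (coeffMap (algebraMap κ k) '' S))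
    (hli : LinearIndependent ↥(adjoin k (coeffMap (algebraMap κ k) '' T)) c) :
    n ≤ relfinrank (adjoin κ T) (adjoin κ S) :=
  family_bound_map (algebraMap κ k) (coeffMap (algebraMap κ k))
    (fun a => coeffMap_algebraMap' (algebraMap κ k) a) T S hTS _
    (fun n' c' hc' hli' => le_relfinrank_of_family hTS n' hfin c' hc' hli') n c hc hli

/-- finiteness is preserved. -/
theorem relfinrank_coeffMap_ne_zero (T S : Set (LaurentSeries κ))
    (hTS : adjoin κ T ≤ adjoin κ S) (hfin : relfinrank (adjoin κ T) (adjoin κ S) ≠ 0) :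
    relfinrank (adjoin k (coeffMap (algebraMap κ k) '' T))
      (adjoin k (coeffMap (algebraMap κ k) '' S)) ≠ 0 :=
  relfinrank_ne_zero_of_bound (adjoin_image_le T S hTS) _ (family_bound_coeffMap T S hTS hfin)

/-- **An algebraic extension of the constants does not change the degree**:
`[k(Φ S) : k(Φ T)] = [κ(S) : κ(T)]`. -/
theorem relfinrank_coeffMap_eq (T S : Set (LaurentSeries κ)) (hTS : adjoin κ T ≤ adjoin κ S)
    (hfin : relfinrank (adjoin κ T) (adjoin κ S) ≠ 0) :
    relfinrank (adjoin k (coeffMap (algebraMap κ k) '' T))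
        (adjoin k (coeffMap (algebraMap κ k) '' S)) =
      relfinrank (adjoin κ T) (adjoin κ S) := by
  apply le_antisymm
  · exact relfinrank_le_of_family_bound (adjoin_image_le T S hTS) _
      (family_bound_coeffMap T S hTS hfin)
  · obtain ⟨c, hc, hli⟩ := exists_basis_family hTS
    exact le_relfinrank_of_family (adjoin_image_le T S hTS) _
      (relfinrank_coeffMap_ne_zero T S hTS hfin)
      (fun i => coeffMap (algebraMap κ k) (c i))
      (fun i => map_mem_adjoin (algebraMap κ k) (coeffMap (algebraMap κ k))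
        (fun a => coeffMap_algebraMap' (algebraMap κ k) a) S (hc i))
      (linearIndependent_coeffMap T c hli)

end Main

/-! ### The same for an arbitrary homomorphism of the constants -/

section Hom

variable {κ k : Type*} [Field κ] [Field k]

/-- **`relfinrank_coeffMap_eq` for `φ : κ →+* k` with `k` algebraic over `φ κ`.** -/
theorem relfinrank_coeffMap_eq' (φ : κ →+* k)
    (hφ : ∀ c : k, ∃ p : κ[X], p ≠ 0 ∧ Polynomial.eval₂ φ c p = 0)
    (T S : Set (LaurentSeries κ)) (hTS : adjoin κ T ≤ adjoin κ S)
    (hfin : relfinrank (adjoin κ T) (adjoin κ S) ≠ 0) :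
    relfinrank (adjoin k (coeffMap φ '' T)) (adjoin k (coeffMap φ '' S)) =
      relfinrank (adjoin κ T) (adjoin κ S) := by
  letI : Algebra κ k := φ.toAlgebra
  haveI : Algebra.IsAlgebraic κ k := ⟨fun c => by
    obtain ⟨p, hp0, hp⟩ := hφ c
    exact ⟨p, hp0, hp⟩⟩
  exact relfinrank_coeffMap_eq T S hTS hfin

/-- linear disjointness for `φ : κ →+* k` with `k` algebraic over `φ κ`. -/
theorem linearIndependent_coeffMap' (φ : κ →+* k)
    (hφ : ∀ c : k, ∃ p : κ[X], p ≠ 0 ∧ Polynomial.eval₂ φ c p = 0)
    (T : Set (LaurentSeries κ)) {ι : Type*} (c : ι → LaurentSeries κ)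
    (hc : LinearIndependent ↥(adjoin κ T) c) :
    LinearIndependent ↥(adjoin k (coeffMap φ '' T)) (fun i => coeffMap φ (c i)) := by
  letI : Algebra κ k := φ.toAlgebra
  haveI : Algebra.IsAlgebraic κ k := ⟨fun c => by
    obtain ⟨p, hp0, hp⟩ := hφ c
    exact ⟨p, hp0, hp⟩⟩
  exact linearIndependent_coeffMap T c hc

end Hom

end Fermat.Agent.ES.R48.CoeffIndep22
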