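/-
Programme R (S48), chapter GEOM, sub-chapter G4 CONG₁, layer 2 (helper22):
the two INSTANCES of `CoeffIndep22.relfinrank_coeffMap_eq'` used by the special-fibre degree
computation (twin of the two calls of main's `SpecialDegree25.baseChange_degrees`):

* `K ↪ ℚbar` for a subfield `K ⊆ ℚbar` (`relfinrank_coeffMap_Qbar`);
* `Res (A ∩ K) ↪ Res A` for a valuation subring `A ⊆ ℚbar` over a prime `ℓ`
  (`relfinrank_coeffMap_resMap`, `resMap = NumberFieldDVR27.resMap`).

The second uses that the residue field of a valuation subring of an algebraic extension of `ℚ`, of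
residue characteristic `ℓ`, is algebraic over its prime field (`exists_int_poly_residue`: a
primitive integer polynomial killing a lift does not vanish modulo `ℓ`), hence over the image of
ANY field (`algebraic_of_hom`).
-/
import Mathlib
import Fermat.Agent.ES.R48.CoeffIndep22
import Fermat.Agent.RED.DESC.NumberFieldDVR27

set_option autoImplicit false
set_option linter.style.haveILetI false
set_option linter.unusedSectionVars false

noncomputable section

open HahnSeries IntermediateField ModularCurve Polynomial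

namespace Fermat.Agent.ES.R48.CoeffIndepInst22

open Fermat.Agent.ES.R48.CoeffIndep22

/-! ### Residue fields are algebraic over the prime field -/

section Residue

variable {L : Type*} [Field L] [CharZero L] [Algebra.IsAlgebraic ℚ L] (A : ValuationSubring L)

/-- every element of the residue field of `A` is a root of an integer polynomial which does not
vanish in the residue field. -/
theorem exists_int_poly_residue {ℓ : ℕ} (hℓ : ℓ.Prime) [CharP (IsLocalRing.ResidueField A) ℓ]
    (c : IsLocalRing.ResidueField A) :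
    ∃ p : ℤ[X], p.map (Int.castRingHom (IsLocalRing.ResidueField A)) ≠ 0 ∧
      Polynomial.eval₂ (Int.castRingHom (IsLocalRing.ResidueField A)) c p = 0 := by
  obtain ⟨x, rfl⟩ := IsLocalRing.residue_surjective c
  have hx : IsAlgebraic ℤ (x : L) :=
    (IsFractionRing.isAlgebraic_iff ℤ ℚ L).mpr (Algebra.IsAlgebraic.isAlgebraic (R := ℚ) (x : L))
  obtain ⟨p, hp0, hp⟩ := hx
  have hprim : p.primPart.IsPrimitive := p.isPrimitive_primPart
  have hpp : Polynomial.aeval (x : L) p.primPart = 0 := Polynomial.aeval_primPart_eq_zero hp0 hp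
  refine ⟨p.primPart, fun h0 => ?_, ?_⟩
  · -- all coefficients divisible by `ℓ` contradicts primitivity
    have hdvd : Polynomial.C (ℓ : ℤ) ∣ p.primPart := by
      rw [Polynomial.C_dvd_iff_dvd_coeff]
      intro i
      have := congrArg (fun q : (IsLocalRing.ResidueField A)[X] => q.coeff i) h0
      simp only [Polynomial.coeff_map, Polynomial.coeff_zero, eq_intCast] at this
      exact (CharP.intCast_eq_zero_iff (IsLocalRing.ResidueField A) ℓ _).mp this
    have hu := hprim _ hdvd
    rw [Int.isUnit_iff] at hu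
    have h2 := hℓ.two_le
    omega
  · -- reduce `p.primPart (x) = 0` modulo the maximal ideal
    have h1 : Polynomial.eval₂ (Int.castRingHom ↥A) x p.primPart = 0 := by
      apply Subtype.ext
      have h2 : A.subtype (Polynomial.eval₂ (Int.castRingHom ↥A) x p.primPart) =
          Polynomial.eval₂ (Int.castRingHom L) (x : L) p.primPart := by
        rw [Polynomial.hom_eval₂ p.primPart (Int.castRingHom ↥A) A.subtype x]
        congr 1
      have h4 : Polynomial.eval₂ (Int.castRingHom L) (x : L) p.primPart = 0 := by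
        rw [← hpp, Polynomial.aeval_def]
        congr 1
      exact h2.trans h4
    have h3 := congrArg (IsLocalRing.residue ↥A) h1
    rw [Polynomial.hom_eval₂, map_zero] at h3
    rw [← h3]
    congr 1

/-- the residue field of `A` is algebraic over the image of any field mapping to it. -/
theorem algebraic_of_hom {ℓ : ℕ} (hℓ : ℓ.Prime) [CharP (IsLocalRing.ResidueField A) ℓ]
    {κ : Type*} [Field κ] (φ : κ →+* IsLocalRing.ResidueField A) (c : IsLocalRing.ResidueField A) :
    ∃ p : κ[X], p ≠ 0 ∧ Polynomial.eval₂ φ c p = 0 := by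
  obtain ⟨p, hp0, hp⟩ := exists_int_poly_residue A hℓ c
  have hcomp : φ.comp (Int.castRingHom κ) = Int.castRingHom (IsLocalRing.ResidueField A) :=
    RingHom.ext_int _ _
  refine ⟨p.map (Int.castRingHom κ), fun h0 => hp0 ?_, ?_⟩
  · rw [← hcomp, ← Polynomial.map_map, h0, Polynomial.map_zero]
  · rw [Polynomial.eval₂_map, hcomp, hp]

end Residue

/-! ### The two instances -/

section Instances

open Fermat.Agent.RED.Interface4 Fermat.Agent.RED.DESC.NumberFieldDVR27

/-- `ℚbar` is algebraic over every subfield, polynomial form. -/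
theorem algebraic_Qbar_over (K : IntermediateField ℚ Qbar) (c : Qbar) :
    ∃ p : (↥K)[X], p ≠ 0 ∧ Polynomial.eval₂ (algebraMap ↥K Qbar) c p = 0 := by
  have h0 : Algebra.IsAlgebraic ℚ Qbar := AlgebraicClosure.isAlgebraic ℚ
  have h1 : Algebra.IsAlgebraic ↥K Qbar := Algebra.IsAlgebraic.tower_top (K := ℚ) ↥K
  obtain ⟨p, hp0, hp⟩ := h1.isAlgebraic c
  exact ⟨p, hp0, hp⟩

/-- **instance `K ↪ ℚbar`**: `[ℚbar(Φ S) : ℚbar(Φ T)] = [K(S) : K(T)]`. -/
theorem relfinrank_coeffMap_Qbar (K : IntermediateField ℚ Qbar) (T S : Set (LaurentSeries ↥K))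
    (hTS : adjoin ↥K T ≤ adjoin ↥K S) (hfin : relfinrank (adjoin ↥K T) (adjoin ↥K S) ≠ 0) :
    relfinrank (adjoin Qbar (coeffMap (algebraMap ↥K Qbar) '' T))
        (adjoin Qbar (coeffMap (algebraMap ↥K Qbar) '' S)) =
      relfinrank (adjoin ↥K T) (adjoin ↥K S) :=
  relfinrank_coeffMap_eq' (algebraMap ↥K Qbar) (algebraic_Qbar_over K) T S hTS hfin

/-- **instance `Res (A ∩ K) ↪ Res A`**. -/
theorem relfinrank_coeffMap_resMap (A : ValuationSubring Qbar) (K : IntermediateField ℚ Qbar)
    {ℓ : ℕ} (hℓ : ℓ.Prime) [CharP (IsLocalRing.ResidueField ↥A) ℓ]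
    (T S : Set (LaurentSeries (IsLocalRing.ResidueField ↥(AK A K))))
    (hTS : adjoin (IsLocalRing.ResidueField ↥(AK A K)) T ≤
      adjoin (IsLocalRing.ResidueField ↥(AK A K)) S)
    (hfin : relfinrank (adjoin (IsLocalRing.ResidueField ↥(AK A K)) T)
      (adjoin (IsLocalRing.ResidueField ↥(AK A K)) S) ≠ 0) :
    relfinrank (adjoin (IsLocalRing.ResidueField ↥A) (coeffMap (resMap A K) '' T))
        (adjoin (IsLocalRing.ResidueField ↥A) (coeffMap (resMap A K) '' S)) =
      relfinrank (adjoin (IsLocalRing.ResidueField ↥(AK A K)) T)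
        (adjoin (IsLocalRing.ResidueField ↥(AK A K)) S) :=
  haveI : Algebra.IsAlgebraic ℚ Qbar := AlgebraicClosure.isAlgebraic ℚ
  relfinrank_coeffMap_eq' (resMap A K) (algebraic_of_hom A hℓ (resMap A K)) T S hTS hfin

end Instances

end Fermat.Agent.ES.R48.CoeffIndepInst22
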