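/-
Programme R (S48, Deligne–Serre), chapter G4 CONG₁, brick r1b (helper21): the Kronecker congruences
(K1) with TWO series — generalised twin of main's `ES/KRON/KronCong24` (helper24), whose lemmas
(`twistU`, `pow_char`, `qExpand_sq_eq_pow`, `mem_range_qExpand_of_coeffMap`, …) are reused AS-IS.

For Laurent series `y₁ y₂` with coefficients in a ring `R` carrying a root of unity `ζ` (`ζ ^ l = 1`),
`kronProd2 l ζ y₁ y₂ = ∏_{b < l} (Y - y₁(ζ^b q)) * (Y - y₂(q^{l²}))`
(for `X₁(M)`: `y₂ = W_c`, `y₁ = W_{pc} = ⟨p⟩ W_c`; for `y₁ = y₂` this is `KronCong24.kronProd`).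
Modulo `res : R → k` into a field of characteristic `l`:

  `kronProd2 l ζ y₁ y₂ ≡ (Y^l - (ȳ₁^φ)(q^l)) * (Y - ((ȳ₂^{φ⁻¹})(q^l))^l)`      (`kronProd2_map_res`),

and if `kronProd2 l ζ y₁ y₂` is (after an injective coefficient extension `ι : R → K`) of the form
`Ψ(q^l)`, then `Ψ` has coefficients in `R((q))` and reduces to `(Y^l - ȳ₁^φ) * (Y - (ȳ₂^{φ⁻¹})^l)`
(`kron_descent2`).
-/
import Mathlib
import Fermat.Prelude.Def_ModularCurve_X0ModL
import Fermat.Agent.ES.KRON.KronCong24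

set_option autoImplicit false

open HahnSeries Polynomial ModularCurve

noncomputable section

namespace Fermat.Agent.ES.R48.KronCongV21

open Fermat.Agent.ES.KRON.KronCong24

section Kron

variable {R : Type*} [CommRing R]

/-- `∏_{b < l} (Y - y₁(ζ^b q)) * (Y - y₂(q^{l²}))`. -/
def kronProd2 (l : ℕ) [NeZero l] (ζ : Rˣ) (y₁ y₂ : LaurentSeries R) :
    Polynomial (LaurentSeries R) :=
  (∏ b ∈ Finset.range l, (X - Polynomial.C (twistU (ζ ^ b) y₁))) *
    (X - Polynomial.C (qExpand R (l ^ 2) y₂))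

theorem kronProd2_self (l : ℕ) [NeZero l] (ζ : Rˣ) (y : LaurentSeries R) :
    kronProd2 l ζ y y = kronProd l ζ y := rfl

theorem kronProd2_monic (l : ℕ) [NeZero l] (ζ : Rˣ) (y₁ y₂ : LaurentSeries R) [Nontrivial R] :
    (kronProd2 l ζ y₁ y₂).Monic :=
  (monic_prod_of_monic _ _ fun _ _ => monic_X_sub_C _).mul (monic_X_sub_C _)

theorem kronProd2_natDegree (l : ℕ) [NeZero l] (ζ : Rˣ) (y₁ y₂ : LaurentSeries R)
    [Nontrivial R] : (kronProd2 l ζ y₁ y₂).natDegree = l + 1 := by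
  rw [kronProd2, Monic.natDegree_mul (monic_prod_of_monic _ _ fun b _ => monic_X_sub_C _)
    (monic_X_sub_C _), natDegree_X_sub_C, natDegree_prod_of_monic _ _ fun b _ => monic_X_sub_C _]
  simp

theorem kronProd2_map {S : Type*} [CommRing S] (φ : R →+* S) (l : ℕ) [NeZero l] (ζ : Rˣ)
    (y₁ y₂ : LaurentSeries R) :
    (kronProd2 l ζ y₁ y₂).map (coeffMap φ) =
      kronProd2 l (Units.map (φ : R →* S) ζ) (coeffMap φ y₁) (coeffMap φ y₂) := by
  rw [kronProd2, kronProd2, Polynomial.map_mul, Polynomial.map_prod]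
  congr 1
  · refine Finset.prod_congr rfl fun b _ => ?_
    rw [Polynomial.map_sub, Polynomial.map_X, Polynomial.map_C, coeffMap_twistU, map_pow]
  · rw [Polynomial.map_sub, Polynomial.map_X, Polynomial.map_C, coeffMap_qExpand]

variable {k : Type*} [Field k] (l : ℕ) [hl : Fact l.Prime] [CharP k l]

/-- `kronProd2` over a field of characteristic `l` (where `ζ = 1`). -/
theorem kronProd2_char (ψ : k →+* k) (hψ : ∀ a, ψ a ^ l = a) (ζ : kˣ) (hζ : ζ ^ l = 1)
    (x₁ x₂ : LaurentSeries k) :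
    kronProd2 l ζ x₁ x₂ = ((X ^ l - Polynomial.C (coeffMap (frobenius k l) x₁)) *
      (X - Polynomial.C ((coeffMap ψ x₂) ^ l))).map (qExpand k l) := by
  have hζ1 : ζ = 1 := by
    apply Units.ext
    apply eq_one_of_pow_char_eq_one l
    rw [← Units.val_pow_eq_pow_val, hζ, Units.val_one]
  subst hζ1
  rw [kronProd2, Polynomial.map_mul, Polynomial.map_sub, Polynomial.map_sub, Polynomial.map_pow,
    Polynomial.map_X, Polynomial.map_C, Polynomial.map_C, map_pow, ← qExpand_sq_eq_pow l ψ hψ,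
    ← pow_char]
  congr 1
  simp only [one_pow, twistU_one, Finset.prod_const, Finset.card_range]
  rw [sub_pow_char, ← Polynomial.C_pow]

/-- **(K1), two series**: modulo `res : R → k` (characteristic `l`),
`∏_b (Y - y₁(ζ^b q)) * (Y - y₂(q^{l²})) ≡ (Y^l - (ȳ₁^φ)(q^l)) * (Y - ((ȳ₂^{φ⁻¹})(q^l))^l)`. -/
theorem kronProd2_map_res (res : R →+* k) (ψ : k →+* k) (hψ : ∀ a, ψ a ^ l = a)
    (ζ : Rˣ) (hζ : ζ ^ l = 1) (y₁ y₂ : LaurentSeries R) :
    (kronProd2 l ζ y₁ y₂).map (coeffMap res) =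
      ((X ^ l - Polynomial.C (coeffMap (frobenius k l) (coeffMap res y₁))) *
        (X - Polynomial.C ((coeffMap ψ (coeffMap res y₂)) ^ l))).map (qExpand k l) := by
  rw [kronProd2_map]
  exact kronProd2_char l ψ hψ _ (by rw [← map_pow, hζ, map_one]) _ _

/-- **(K1′), two series**: descent and reduction of `Ψ`: if `kronProd2 l ζ y₁ y₂` (after the
injective coefficient extension `ι`) equals `Ψ(q^l)`, then `Ψ` has coefficients in `R((q))`,
`Ψ_R(q^l) = kronProd2 l ζ y₁ y₂`, and `Ψ_R` reduces modulo `res` to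
`(Y^l - ȳ₁^φ) * (Y - (ȳ₂^{φ⁻¹})^l)`. -/
theorem kron_descent2 {K : Type*} [CommRing K] (ι : R →+* K) (hι : Function.Injective ι)
    (res : R →+* k) (ψ : k →+* k) (hψ : ∀ a, ψ a ^ l = a)
    (ζ : Rˣ) (hζ : ζ ^ l = 1) (y₁ y₂ : LaurentSeries R) (Ψ : Polynomial (LaurentSeries K))
    (hΨ : Ψ.map (qExpand K l) = (kronProd2 l ζ y₁ y₂).map (coeffMap ι)) :
    ∃ ΨR : Polynomial (LaurentSeries R),
      ΨR.map (qExpand R l) = kronProd2 l ζ y₁ y₂ ∧
      ΨR.map (coeffMap ι) = Ψ ∧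
      ΨR.map (coeffMap res) =
        (X ^ l - Polynomial.C (coeffMap (frobenius k l) (coeffMap res y₁))) *
          (X - Polynomial.C ((coeffMap ψ (coeffMap res y₂)) ^ l)) := by
  have hlift : kronProd2 l ζ y₁ y₂ ∈ Polynomial.lifts (qExpand R l) := by
    rw [Polynomial.lifts_iff_coeff_lifts]
    intro n
    have h := congrArg (fun P => P.coeff n) hΨ
    simp only [Polynomial.coeff_map] at h
    obtain ⟨z, hz⟩ := mem_range_qExpand_of_coeffMap ι hι l _ _ h.symm
    exact ⟨z, hz⟩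
  obtain ⟨ΨR, hΨR⟩ := (Polynomial.mem_lifts _).mp hlift
  refine ⟨ΨR, hΨR, ?_, ?_⟩
  · apply map_qExpand_injective l
    rw [hΨ, ← hΨR, Polynomial.map_map, Polynomial.map_map]
    congr 1
    ext x : 1
    exact (coeffMap_qExpand ι l x).symm
  · apply map_qExpand_injective l
    rw [← kronProd2_map_res l res ψ hψ ζ hζ y₁ y₂, ← hΨR, Polynomial.map_map, Polynomial.map_map]
    congr 1
    ext x : 1
    exact (coeffMap_qExpand res l x).symm

end Kron

end Fermat.Agent.ES.R48.KronCongV21
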