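/-
Programme R (S48, Deligne–Serre), chapter G4 CONG₁, brick r1c (helper21): "Kronecker at `Y = 0`" and
the instantiation at a valuation subring, with TWO series — generalised twins of main's
`ES/KRON/KronNorm10` and `ES/KRON/KronInst10.kron_inst` (helper10), on top of `KronCongV21`.

`normProd2 l ζ y₁ y₂ = ∏_{b<l} y₁(ζ^b q) · y₂(q^{l²})` (the constant coefficient of
`KronCongV21.kronProd2`, up to the sign `(-1)^(l+1)`); for `X₁(M)`: `y₂ = f`, `y₁ = ⟨p⟩ f`.

* `normProd2_map`, `normProd2_char` (characteristic `l`: `= (y₁^φ · (y₂^ψ)^l)(q^l)`),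
  `kronProd2_coeff_zero`;
* `norm_descent2` / `norm_descent2_sign`; `frob_mul_pow_ne_zero2`;
* `kron_inst2`, `norm_inst2` / `norm_inst2_sign` : the same at a valuation subring `A` (over `ℓ`) of an
  algebraically closed field `L`.
-/
import Mathlib
import Fermat.Agent.ES.KRON.KronCong24
import Fermat.Agent.ES.KRON.KronInst10
import Fermat.Agent.ES.R48.KronCongV21

set_option autoImplicit false
set_option linter.style.haveILetI false

open HahnSeries Polynomial ModularCurve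

noncomputable section

namespace Fermat.Agent.ES.R48.KronNormV21

open Fermat.Agent.ES.KRON.KronCong24 Fermat.Agent.ES.KRON.KronInst10
open Fermat.Agent.ES.R48.KronCongV21

section Generic

variable {R : Type*} [CommRing R]

/-- The norm product `∏_{b<l} y₁(ζ^b q) · y₂(q^{l²})`. -/
def normProd2 (l : ℕ) [NeZero l] (ζ : Rˣ) (y₁ y₂ : LaurentSeries R) : LaurentSeries R :=
  (∏ b ∈ Finset.range l, twistU (ζ ^ b) y₁) * qExpand R (l ^ 2) y₂

theorem normProd2_map {S : Type*} [CommRing S] (φ : R →+* S) (l : ℕ) [NeZero l] (ζ : Rˣ)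
    (y₁ y₂ : LaurentSeries R) :
    coeffMap φ (normProd2 l ζ y₁ y₂) =
      normProd2 l (Units.map (φ : R →* S) ζ) (coeffMap φ y₁) (coeffMap φ y₂) := by
  unfold normProd2
  rw [map_mul, map_prod, coeffMap_qExpand]
  congr 1
  refine Finset.prod_congr rfl fun b _ => ?_
  rw [coeffMap_twistU, map_pow]

variable {k : Type*} [Field k] (l : ℕ) [hl : Fact l.Prime] [CharP k l]

/-- In characteristic `l`: `∏_b y₁(ζ^b q) · y₂(q^{l²}) = (y₁^φ · (y₂^ψ)^l)(q^l)`. -/
theorem normProd2_char (ψ : k →+* k) (hψ : ∀ a, ψ a ^ l = a) (ζ : kˣ) (hζ : ζ ^ l = 1)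
    (x₁ x₂ : LaurentSeries k) :
    haveI : NeZero l := ⟨hl.out.ne_zero⟩
    normProd2 l ζ x₁ x₂ = qExpand k l (coeffMap (frobenius k l) x₁ * (coeffMap ψ x₂) ^ l) := by
  haveI : NeZero l := ⟨hl.out.ne_zero⟩
  have hζ1 : ζ = 1 := by
    apply Units.ext
    apply eq_one_of_pow_char_eq_one l
    rw [← Units.val_pow_eq_pow_val, hζ, Units.val_one]
  subst hζ1
  unfold normProd2
  rw [map_mul, map_pow, ← qExpand_sq_eq_pow l ψ hψ, ← pow_char]
  congr 1
  simp only [one_pow, twistU_one, Finset.prod_const, Finset.card_range]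

/-- **Kronecker at `Y = 0`, descent form, two series.** -/
theorem norm_descent2 {K : Type*} [CommRing K] (ι : R →+* K) (hι : Function.Injective ι)
    (res : R →+* k) (ψ : k →+* k) (hψ : ∀ a, ψ a ^ l = a)
    (ζ : Rˣ) (hζ : ζ ^ l = 1) (y₁ y₂ : LaurentSeries R) (Nn : LaurentSeries K) :
    haveI : NeZero l := ⟨hl.out.ne_zero⟩
    qExpand K l Nn = coeffMap ι (normProd2 l ζ y₁ y₂) →
    ∃ NR : LaurentSeries R, qExpand R l NR = normProd2 l ζ y₁ y₂ ∧ coeffMap ι NR = Nn ∧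
      coeffMap res NR =
        coeffMap (frobenius k l) (coeffMap res y₁) * (coeffMap ψ (coeffMap res y₂)) ^ l := by
  haveI : NeZero l := ⟨hl.out.ne_zero⟩
  intro hN
  obtain ⟨z, hz⟩ := mem_range_qExpand_of_coeffMap ι hι l (normProd2 l ζ y₁ y₂) Nn hN.symm
  refine ⟨z, hz, ?_, ?_⟩
  · apply qExpand_injective (R := K) l
    rw [hN, ← hz, coeffMap_qExpand]
  · apply qExpand_injective (R := k) l
    rw [← coeffMap_qExpand, hz, normProd2_map]
    exact normProd2_char l ψ hψ _ (by rw [← map_pow, hζ, map_one]) _ _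

/-- Signed variant of `norm_descent2`. -/
theorem norm_descent2_sign {K : Type*} [CommRing K] (ι : R →+* K) (hι : Function.Injective ι)
    (res : R →+* k) (ψ : k →+* k) (hψ : ∀ a, ψ a ^ l = a)
    (ζ : Rˣ) (hζ : ζ ^ l = 1) (y₁ y₂ : LaurentSeries R) (Nn : LaurentSeries K) :
    haveI : NeZero l := ⟨hl.out.ne_zero⟩
    qExpand K l Nn = (-1) ^ (l + 1) * coeffMap ι (normProd2 l ζ y₁ y₂) →
    ∃ NR : LaurentSeries R, coeffMap ι NR = Nn ∧
      coeffMap res NR = (-1) ^ (l + 1) *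
        (coeffMap (frobenius k l) (coeffMap res y₁) * (coeffMap ψ (coeffMap res y₂)) ^ l) := by
  haveI : NeZero l := ⟨hl.out.ne_zero⟩
  intro hN
  have hs : ((-1 : LaurentSeries K) ^ (l + 1)) * ((-1) ^ (l + 1)) = 1 := by
    rw [← _root_.pow_add, ← two_mul, pow_mul, neg_one_sq, one_pow]
  have hN' : qExpand K l ((-1) ^ (l + 1) * Nn) = coeffMap ι (normProd2 l ζ y₁ y₂) := by
    rw [map_mul, map_pow, map_neg, map_one, hN, ← mul_assoc, hs, one_mul]
  obtain ⟨NR', -, h2, h3⟩ := norm_descent2 l ι hι res ψ hψ ζ hζ y₁ y₂ _ hN'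
  refine ⟨(-1) ^ (l + 1) * NR', ?_, ?_⟩
  · rw [map_mul, map_pow, map_neg, map_one, h2, ← mul_assoc, hs, one_mul]
  · rw [map_mul, map_pow, map_neg, map_one, h3]

/-- The norm product is, up to the sign `(-1)^(l+1)`, the constant coefficient of `kronProd2`. -/
theorem kronProd2_coeff_zero (l' : ℕ) [NeZero l'] (ζ : Rˣ) (y₁ y₂ : LaurentSeries R) :
    (kronProd2 l' ζ y₁ y₂).coeff 0 = (-1) ^ (l' + 1) * normProd2 l' ζ y₁ y₂ := by
  unfold kronProd2 normProd2
  rw [Polynomial.coeff_zero_eq_eval_zero, Polynomial.eval_mul, Polynomial.eval_prod]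
  simp only [Polynomial.eval_sub, Polynomial.eval_X, Polynomial.eval_C, zero_sub]
  rw [Finset.prod_neg, Finset.card_range]
  generalize qExpand R (l' ^ 2) y₂ = c
  generalize ∏ b ∈ Finset.range l', twistU (ζ ^ b) y₁ = P
  ring

/-- Nonvanishing of the reduced norm. -/
theorem frob_mul_pow_ne_zero2 (ψ : k →+* k) {x₁ x₂ : LaurentSeries k} (hx₁ : x₁ ≠ 0)
    (hx₂ : x₂ ≠ 0) : coeffMap (frobenius k l) x₁ * (coeffMap ψ x₂) ^ l ≠ 0 := by
  have h1 : coeffMap (frobenius k l) x₁ ≠ 0 := by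
    intro h0
    apply hx₁
    ext n
    have := congrArg (fun z => z.coeff n) h0
    simp only [coeffMap_coeff, HahnSeries.coeff_zero] at this
    exact (map_eq_zero (frobenius k l)).mp this
  have h2 : coeffMap ψ x₂ ≠ 0 := by
    intro h0
    apply hx₂
    ext n
    have := congrArg (fun z => z.coeff n) h0
    simp only [coeffMap_coeff, HahnSeries.coeff_zero] at this
    exact (map_eq_zero ψ).mp this
  exact mul_ne_zero h1 (pow_ne_zero _ h2)

end Generic

section Inst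

variable {L : Type*} [Field L] [IsAlgClosed L] (A : ValuationSubring L) (ℓ : ℕ) [Fact ℓ.Prime]

/-- **(K1-inst), two series.**  If `Ψ(q^ℓ) = ∏_b (Y - f₁(ζ^b q)) (Y - f₂(q^{ℓ²}))` over `L((q))` with
`fᵢ = coeffMap A.subtype yᵢ`, then `Ψ` has coefficients in `A((q))` and reduces to
`(Y^ℓ - f̃₁^φ)(Y - (f̃₂^ψ)^ℓ)`. -/
theorem kron_inst2 (hA : A.LiesOverPrime ℓ) (ζ : Lˣ) (hζ : ζ ^ ℓ = 1) :
    haveI := charP_residueField A (Fact.out : ℓ.Prime) hA
    haveI : NeZero ℓ := ⟨(Fact.out : ℓ.Prime).ne_zero⟩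
    ∃ ψ : IsLocalRing.ResidueField A →+* IsLocalRing.ResidueField A,
      (∀ a, ψ a ^ ℓ = a) ∧ (∀ a, ψ (a ^ ℓ) = a) ∧
      ∀ (y₁ y₂ : LaurentSeries ↥A) (Ψ : Polynomial (LaurentSeries L)),
        Ψ.map (qExpand L ℓ) = kronProd2 ℓ ζ (coeffMap A.subtype y₁) (coeffMap A.subtype y₂) →
        ∃ ΨA : Polynomial (LaurentSeries ↥A),
          ΨA.map (coeffMap A.subtype) = Ψ ∧
          ΨA.map (coeffMap (IsLocalRing.residue A)) =
            (X ^ ℓ - Polynomial.C (coeffMap (frobenius (IsLocalRing.ResidueField A) ℓ)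
                (coeffMap (IsLocalRing.residue A) y₁))) *
              (X - Polynomial.C ((coeffMap ψ (coeffMap (IsLocalRing.residue A) y₂)) ^ ℓ)) := by
  haveI := charP_residueField A (Fact.out : ℓ.Prime) hA
  haveI := isAlgClosed_residueField A
  haveI : NeZero ℓ := ⟨(Fact.out : ℓ.Prime).ne_zero⟩
  obtain ⟨ψ, hψ1, hψ2⟩ := exists_frobInv (k := IsLocalRing.ResidueField A) ℓ
  refine ⟨ψ, hψ1, hψ2, fun y₁ y₂ Ψ hΨ => ?_⟩
  have hℓpos : 0 < ℓ := (Fact.out : ℓ.Prime).pos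
  have hζL : (ζ : L) ^ ℓ = 1 := by rw [← Units.val_pow_eq_pow_val, hζ, Units.val_one]
  set ζA : (↥A)ˣ := unitOfPowEqOne A hℓpos hζL with hζA
  have hζApow : ζA ^ ℓ = 1 := unitOfPowEqOne_pow A hℓpos hζL
  have hmap : Units.map ((A.subtype : ↥A →+* L) : ↥A →* L) ζA = ζ := Units.ext rfl
  have hΨ' : Ψ.map (qExpand L ℓ) = (kronProd2 ℓ ζA y₁ y₂).map (coeffMap A.subtype) := by
    rw [kronProd2_map, hmap]
    exact hΨ
  obtain ⟨ΨR, -, h2, h3⟩ := kron_descent2 ℓ A.subtype Subtype.val_injective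
    (IsLocalRing.residue A) ψ hψ1 ζA hζApow y₁ y₂ Ψ hΨ'
  exact ⟨ΨR, h2, h3⟩

/-- **Kronecker at `Y = 0` at a valuation subring, two series.** -/
theorem norm_inst2 (hA : A.LiesOverPrime ℓ) (ζ : Lˣ) (hζ : ζ ^ ℓ = 1) :
    haveI := charP_residueField A (Fact.out : ℓ.Prime) hA
    haveI : NeZero ℓ := ⟨(Fact.out : ℓ.Prime).ne_zero⟩
    ∃ ψ : IsLocalRing.ResidueField A →+* IsLocalRing.ResidueField A,
      (∀ a, ψ a ^ ℓ = a) ∧ (∀ a, ψ (a ^ ℓ) = a) ∧
      ∀ (y₁ y₂ : LaurentSeries ↥A) (Nn : LaurentSeries L),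
        qExpand L ℓ Nn = normProd2 ℓ ζ (coeffMap A.subtype y₁) (coeffMap A.subtype y₂) →
        ∃ NR : LaurentSeries ↥A,
          coeffMap A.subtype NR = Nn ∧
          coeffMap (IsLocalRing.residue A) NR =
            coeffMap (frobenius (IsLocalRing.ResidueField A) ℓ)
                (coeffMap (IsLocalRing.residue A) y₁) *
              (coeffMap ψ (coeffMap (IsLocalRing.residue A) y₂)) ^ ℓ := by
  haveI := charP_residueField A (Fact.out : ℓ.Prime) hA
  haveI := isAlgClosed_residueField A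
  haveI : NeZero ℓ := ⟨(Fact.out : ℓ.Prime).ne_zero⟩
  obtain ⟨ψ, hψ1, hψ2⟩ := exists_frobInv (k := IsLocalRing.ResidueField A) ℓ
  refine ⟨ψ, hψ1, hψ2, fun y₁ y₂ Nn hN => ?_⟩
  have hℓpos : 0 < ℓ := (Fact.out : ℓ.Prime).pos
  have hζL : (ζ : L) ^ ℓ = 1 := by rw [← Units.val_pow_eq_pow_val, hζ, Units.val_one]
  set ζA : (↥A)ˣ := unitOfPowEqOne A hℓpos hζL with hζA
  have hmap : Units.map ((A.subtype : ↥A →+* L) : ↥A →* L) ζA = ζ := Units.ext rfl
  have hN' : qExpand L ℓ Nn = coeffMap A.subtype (normProd2 ℓ ζA y₁ y₂) := by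
    rw [normProd2_map, hmap]
    exact hN
  obtain ⟨NR, -, h2, h3⟩ := norm_descent2 ℓ A.subtype Subtype.val_injective
    (IsLocalRing.residue A) ψ hψ1 ζA (unitOfPowEqOne_pow A hℓpos hζL) y₁ y₂ Nn hN'
  exact ⟨NR, h2, h3⟩

/-- Signed variant of `norm_inst2`. -/
theorem norm_inst2_sign (hA : A.LiesOverPrime ℓ) (ζ : Lˣ) (hζ : ζ ^ ℓ = 1) :
    haveI := charP_residueField A (Fact.out : ℓ.Prime) hA
    haveI : NeZero ℓ := ⟨(Fact.out : ℓ.Prime).ne_zero⟩
    ∃ ψ : IsLocalRing.ResidueField A →+* IsLocalRing.ResidueField A,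
      (∀ a, ψ a ^ ℓ = a) ∧ (∀ a, ψ (a ^ ℓ) = a) ∧
      ∀ (y₁ y₂ : LaurentSeries ↥A) (Nn : LaurentSeries L),
        qExpand L ℓ Nn =
          (-1) ^ (ℓ + 1) * normProd2 ℓ ζ (coeffMap A.subtype y₁) (coeffMap A.subtype y₂) →
        ∃ NR : LaurentSeries ↥A,
          coeffMap A.subtype NR = Nn ∧
          coeffMap (IsLocalRing.residue A) NR = (-1) ^ (ℓ + 1) *
            (coeffMap (frobenius (IsLocalRing.ResidueField A) ℓ)
                (coeffMap (IsLocalRing.residue A) y₁) *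
              (coeffMap ψ (coeffMap (IsLocalRing.residue A) y₂)) ^ ℓ) := by
  haveI := charP_residueField A (Fact.out : ℓ.Prime) hA
  haveI := isAlgClosed_residueField A
  haveI : NeZero ℓ := ⟨(Fact.out : ℓ.Prime).ne_zero⟩
  obtain ⟨ψ, hψ1, hψ2⟩ := exists_frobInv (k := IsLocalRing.ResidueField A) ℓ
  refine ⟨ψ, hψ1, hψ2, fun y₁ y₂ Nn hN => ?_⟩
  have hℓpos : 0 < ℓ := (Fact.out : ℓ.Prime).pos
  have hζL : (ζ : L) ^ ℓ = 1 := by rw [← Units.val_pow_eq_pow_val, hζ, Units.val_one]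
  set ζA : (↥A)ˣ := unitOfPowEqOne A hℓpos hζL with hζA
  have hmap : Units.map ((A.subtype : ↥A →+* L) : ↥A →* L) ζA = ζ := Units.ext rfl
  have hN' : qExpand L ℓ Nn =
      (-1) ^ (ℓ + 1) * coeffMap A.subtype (normProd2 ℓ ζA y₁ y₂) := by
    rw [normProd2_map, hmap]
    exact hN
  exact norm_descent2_sign ℓ A.subtype Subtype.val_injective
    (IsLocalRing.residue A) ψ hψ1 ζA (unitOfPowEqOne_pow A hℓpos hζL) y₁ y₂ Nn hN'

end Inst

end Fermat.Agent.ES.R48.KronNormV21
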