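/-
Programme R (S48, Deligne–Serre), chapter GEOM, sub-chapter G4 "CONG₁", brick L1d (helper24):
the CONCRETE Kronecker identity (3) for `X₁(M)` — the twin of main's `ES/KRON/KronMain24`
(sections `Norm`, `Kron`), with the DIAMOND on the Frobenius term:

  `r_* (T_p (div f)) = Fr_* (div g~) + p · Fr⁻¹_* (div f~)`,   `g = c · ⟨p⟩ f`,

for `f, g ∈ F1bar M` with `A`-integral `q`-expansions `y, y'` and non-zero reductions in
`F1C k M`, against helper15's `IsPlaceReductionAlong1 A π M r` (R2), helper13's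
`T_p = heckeOneDivBar = α_* β^*`, and helper15's Frobenius `frobPlace1 k p M`.

The norm formula (NORM-α₁) — proved by the conjugates chapter — enters as a HYPOTHESIS, in two
equivalent shapes:
* `hNy` (core theorem `map_hecke_principal₁`): for some `c ≠ 0` and `ζ ^ p = 1`,
  `(c · N_α (β f))(q^p) = ∏_b y'(ζ^b q) · y(q^{p²})`  (`= KronNormV21.normProd2 p ζ y' y`);
* `NormConj1 M p δ` (corollaries): for EVERY `f`, `N_α (β f)(q^p) = normProd2 p ζ (δ f) f`, with
  `δ : F1bar M → F1bar M` the diamond `⟨p⟩` (any function: only this identity is used).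
  `map_hecke_principal_of_normConj` (`y' = δ f` exactly — the `δ̃` route) and
  `map_hecke_principal_of_normConj_smul` (`y' = c · δ f` — the torsion route).
-/
import Mathlib
import Fermat.Agent.ES.KRON.KronCong24
import Fermat.Agent.ES.KRON.KronInst10
import Fermat.Agent.ES.HECKE.PointFormula28
import Fermat.Agent.X0.Defs
import Fermat.Agent.X0.FFDict
import Fermat.Agent.ES.R48.KronNormV21
import Fermat.Agent.ES.R48.FF1Defs13
import Fermat.Agent.ES.R48.F1CDefs15
import Fermat.Agent.ES.R48.RedDefsG15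

set_option autoImplicit false
set_option linter.unusedSectionVars false

open ModularCurve AlgebraicCurve HahnSeries IntermediateField

noncomputable section

namespace Fermat.Agent.ES.R48.KronMainOne24

open Fermat.Agent.X0
open Fermat.Agent.ES.KRON.KronCong24
open Fermat.Agent.ES.KRON.KronInst10
open Fermat.Agent.ES.HECKE.PointFormula28
open Fermat.Agent.ES.R48.KronNormV21
open Fermat.Agent.ES.R48.FF1Defs13
open Fermat.Agent.ES.R48.F1CDefs15
open Fermat.Agent.ES.R48.RedDefsG15

/-! ### Scalars and the norm product -/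

section Scalars

variable {R : Type*} [CommRing R]

theorem qExpand_C_mul (n : ℕ) [NeZero n] (c : R) (x : LaurentSeries R) :
    qExpand R n (HahnSeries.C c * x) = HahnSeries.C c * qExpand R n x := by
  rw [map_mul, qExpand_C]

theorem twistU_C_mul (u : Rˣ) (c : R) (x : LaurentSeries R) :
    twistU u (HahnSeries.C c * x) = HahnSeries.C c * twistU u x := by
  ext n
  rw [twistU_coeff, HahnSeries.C_mul_eq_smul, HahnSeries.C_mul_eq_smul, HahnSeries.coeff_smul,
    HahnSeries.coeff_smul, twistU_coeff, smul_eq_mul, smul_eq_mul]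
  ring

/-- `normProd2 l ζ (c · y₁) y₂ = c ^ l · normProd2 l ζ y₁ y₂`. -/
theorem normProd2_C_mul_left (l : ℕ) [NeZero l] (ζ : Rˣ) (c : R) (y₁ y₂ : LaurentSeries R) :
    normProd2 l ζ (HahnSeries.C c * y₁) y₂ = HahnSeries.C (c ^ l) * normProd2 l ζ y₁ y₂ := by
  unfold normProd2
  have h : ∏ b ∈ Finset.range l, twistU (ζ ^ b) (HahnSeries.C c * y₁) =
      HahnSeries.C (c ^ l) * ∏ b ∈ Finset.range l, twistU (ζ ^ b) y₁ := by
    rw [Finset.prod_congr rfl fun b _ => twistU_C_mul (ζ ^ b) c y₁, Finset.prod_mul_distrib,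
      Finset.prod_const, Finset.card_range, map_pow]
  rw [h, mul_assoc]

end Scalars

/-! ### The reduced norm (pure `q`-series statement) -/

section Norm

variable (p : ℕ) [hp : Fact p.Prime]
variable {L : Type*} [Field L] (A : ValuationSubring L) {k : Type*} [Field k] [CharP k p]
  [PerfectField k] (π : A →+* k)

/-- **The reduced norm**: if `N(q^p) = ∏_b y'(ζ^b q) · y(q^{p²})` over `L((q))` with `y, y'`
`A`-integral, then `N` is `A`-integral, `N = coeffMap A.subtype NR`, and
`NR~ = (y'~)^φ · ((y~)^{φ⁻¹})^p`. -/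
theorem exists_norm_reduction₁ (ζ : Lˣ) (hζ : ζ ^ p = 1) (y y' : LaurentSeries A)
    (N : LaurentSeries L)
    (hN : haveI : NeZero p := ⟨hp.out.ne_zero⟩
      qExpand L p N = normProd2 p ζ (coeffMap A.subtype y') (coeffMap A.subtype y)) :
    ∃ NR : LaurentSeries A, coeffMap A.subtype NR = N ∧
      coeffMap π NR = coeffMap (frobenius k p) (coeffMap π y') *
        (coeffMap ((frobeniusEquiv k p).symm : k →+* k) (coeffMap π y)) ^ p := by
  have : NeZero p := ⟨hp.out.ne_zero⟩
  have hppos : 0 < p := hp.out.pos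
  have hζL : (ζ : L) ^ p = 1 := by rw [← Units.val_pow_eq_pow_val, hζ, Units.val_one]
  set ζA : (↥A)ˣ := unitOfPowEqOne A hppos hζL with hζA
  have hmap : Units.map ((A.subtype : ↥A →+* L) : ↥A →* L) ζA = ζ := Units.ext rfl
  have hψ : ∀ a : k, ((frobeniusEquiv k p).symm : k →+* k) a ^ p = a := fun a =>
    frobeniusEquiv_symm_pow_p k p a
  have hN' : qExpand L p N = coeffMap A.subtype (normProd2 p ζA y' y) := by
    rw [normProd2_map, hmap]
    exact hN
  obtain ⟨NR, -, h2, h3⟩ := norm_descent2 p A.subtype Subtype.val_injective π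
    ((frobeniusEquiv k p).symm : k →+* k) hψ ζA (unitOfPowEqOne_pow A hppos hζL) y' y N hN'
  exact ⟨NR, h2, h3⟩

end Norm

/-! ### The Kronecker identity (3) for `X₁(M)` -/

section Kron

variable (M p : ℕ) [NeZero M] [NeZero p] [hp : Fact p.Prime]
variable (A : ValuationSubring Kbar) {k : Type*} [Field k] [CharP k p] [PerfectField k]
  (π : A →+* k)

/-- the inverse of the coefficientwise Frobenius is `coeffMap φ⁻¹`. -/
theorem coe_frobSemi1_inv_smul (g : ↥(F1C k M)) :
    (((frobSemi1 k p M)⁻¹ • g : ↥(F1C k M)) : LaurentSeries k) =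
      coeffMap ((frobeniusEquiv k p).symm : k →+* k) g := by
  have h : (frobSemi1 k p M)⁻¹ = coeffSemi1 k M (frobeniusEquiv k p)⁻¹ := by
    show (coeffSemiHom1 k M (frobeniusEquiv k p))⁻¹ = coeffSemiHom1 k M (frobeniusEquiv k p)⁻¹
    rw [map_inv]
  rw [h, coe_coeffSemi1_smul]
  rfl

/-- **The Kronecker identity (3) for `X₁(M)`, core form**: if `f = coeffMap A.subtype y`,
`g = coeffMap A.subtype y'` lie in `F1bar M`, have non-zero reductions in `F1C k M`, and
`(c · N_α (β f))(q^p) = ∏_b g(ζ^b q) · f(q^{p²})`, then coefficientwise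
`r_* (T_p (div f)) = Fr_* (div g~) + p · Fr⁻¹_* (div f~)`. -/
theorem map_hecke_principal₁
    (hα : HeckeOneAlphaBarIntegral M p Kbar) (hβ : HeckeOneBetaBarIntegral M p Kbar)
    [HasPrincipalDivisors Kbar (laurentBaseChange Kbar (F1p M p))]
    (hfin : FiniteAlong Kbar (heckeOneAlphaBar M p Kbar))
    (hN : NormFormulaAlong Kbar (heckeOneAlphaBar M p Kbar) hfin)
    {r : Place Kbar (laurentBaseChange Kbar (F1 M)) → Place k (F1C k M)}
    (hr : IsPlaceReductionAlong1 A π M r)
    (y y' : LaurentSeries A)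
    (hy : coeffMap A.subtype y ∈ laurentBaseChange Kbar (F1 M))
    (hyk : coeffMap π y ∈ F1C k M) (hne : coeffMap π y ≠ 0)
    (hyk' : coeffMap π y' ∈ F1C k M) (hne' : coeffMap π y' ≠ 0)
    (hNy : ∃ (c : Kbar) (ζ : Kbarˣ), c ≠ 0 ∧ ζ ^ p = 1 ∧
      qExpand Kbar p (HahnSeries.C c * ((normAlong (heckeOneAlphaBar M p Kbar)
        (heckeOneBetaBar M p Kbar
          (⟨coeffMap A.subtype y, hy⟩ : laurentBaseChange Kbar (F1 M))) :
            laurentBaseChange Kbar (F1 M)) : LaurentSeries Kbar)) =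
        normProd2 p ζ (coeffMap A.subtype y') (coeffMap A.subtype y))
    (D : Divisor Kbar (laurentBaseChange Kbar (F1 M)))
    (hD : ∀ P, D P = P.ord (⟨coeffMap A.subtype y, hy⟩ : laurentBaseChange Kbar (F1 M)))
    (Q : Place k (F1C k M)) :
    Finsupp.mapDomain r (heckeOneDivBar hα hβ D) Q =
      ((frobPlace1 k p M).symm Q).ord (⟨coeffMap π y', hyk'⟩ : F1C k M) +
        (p : ℤ) * (frobPlace1 k p M Q).ord (⟨coeffMap π y, hyk⟩ : F1C k M) := by
  obtain ⟨c, ζ, hc, hζ, hq⟩ := hNy
  set f : laurentBaseChange Kbar (F1 M) := ⟨coeffMap A.subtype y, hy⟩ with hf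
  set g : ↥(F1C k M) := ⟨coeffMap π y, hyk⟩ with hg
  set g' : ↥(F1C k M) := ⟨coeffMap π y', hyk'⟩ with hg'
  set Nf : laurentBaseChange Kbar (F1 M) :=
    normAlong (heckeOneAlphaBar M p Kbar) (heckeOneBetaBar M p Kbar f) with hNf
  have hf0 : f ≠ 0 := by
    intro h
    apply hne
    have h1 : coeffMap A.subtype y = 0 := congrArg Subtype.val h
    have h2 : y = 0 := by
      ext n
      have := congrArg (fun z => z.coeff n) h1
      simpa using this
    rw [h2, map_zero]
  obtain ⟨NR, hNR1, hNR2⟩ := exists_norm_reduction₁ p A π ζ hζ y y' _ hq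
  have hTD : ∀ v, heckeOneDivBar hα hβ D v = v.ord Nf := fun v =>
    correspondence_eq_ord_norm (heckeOneBetaBar M p Kbar) (heckeOneAlphaBar M p Kbar) hβ hα hfin hN
      hf0 hD v
  have hcoe : ((algebraMap Kbar (laurentBaseChange Kbar (F1 M)) c * Nf :
      laurentBaseChange Kbar (F1 M)) : LaurentSeries Kbar) =
      HahnSeries.C c * (Nf : LaurentSeries Kbar) := by
    push_cast
    congr 1
    exact algebraMap_laurentSeries_eq_single (L := Kbar) c
  have hNRmem : coeffMap A.subtype NR ∈ laurentBaseChange Kbar (F1 M) := by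
    rw [hNR1, ← hcoe]
    exact Subtype.property _
  have hNRk_eq : coeffMap π NR =
      ((frobSemi1 k p M • g' * ((frobSemi1 k p M)⁻¹ • g) ^ p : ↥(F1C k M)) :
        LaurentSeries k) := by
    rw [hNR2]
    push_cast
    rw [coe_frobSemi1_smul, coe_frobSemi1_inv_smul]
  have hNRk : coeffMap π NR ∈ F1C k M := by
    rw [hNRk_eq]
    exact Subtype.property _
  have hneR : coeffMap π NR ≠ 0 := by
    rw [hNR2]
    exact frob_mul_pow_ne_zero2 p _ hne' hne
  have hcNf : ∀ P : Place Kbar (laurentBaseChange Kbar (F1 M)),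
      P.ord (algebraMap Kbar (laurentBaseChange Kbar (F1 M)) c * Nf) = P.ord Nf := by
    intro P
    by_cases hNf0 : Nf = 0
    · rw [hNf0, mul_zero]
    · rw [P.ord_mul ((_root_.map_ne_zero _).mpr hc) hNf0,
        Fermat.Agent.X0.FF.ord_algebraMap, zero_add]
  have h := hr.2 NR hNRmem hNRk hneR (heckeOneDivBar hα hβ D)
    (fun P => by
      rw [hTD P, ← hcNf P]
      congr 1
      exact Subtype.ext (hcoe.trans hNR1.symm)) Q
  rw [h]
  have hprod : (⟨coeffMap π NR, hNRk⟩ : ↥(F1C k M)) =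
      frobSemi1 k p M • g' * ((frobSemi1 k p M)⁻¹ • g) ^ p := Subtype.ext hNRk_eq
  have hprod0 : frobSemi1 k p M • g' * ((frobSemi1 k p M)⁻¹ • g) ^ p ≠ 0 := by
    rw [← hprod]
    intro h0
    exact hneR (congrArg Subtype.val h0)
  rw [hprod, Place.ord_mul _ (left_ne_zero_of_mul hprod0) (right_ne_zero_of_mul hprod0),
    Fermat.Agent.X0.FF.ord_pow]
  have h1 : Q.ord (frobSemi1 k p M • g') = ((frobPlace1 k p M).symm Q).ord g' := by
    have := ord_frobPlace1 k p M ((frobPlace1 k p M).symm Q) g'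
    rwa [Equiv.apply_symm_apply] at this
  have h2 : Q.ord ((frobSemi1 k p M)⁻¹ • g) = (frobPlace1 k p M Q).ord g :=
    (ord_frobPlace1' k p M Q g).symm
  rw [h1, h2]

end Kron

/-! ### The norm formula as a hypothesis -/

section NormConj

variable (M p : ℕ) [NeZero M] [NeZero p] [hp : Fact p.Prime]

/-- **(NORM-α₁)**, the output of the conjugates chapter: for every `f ∈ F1bar M`,
`N_α (β f)(q^p) = ∏_b (δ f)(ζ^b q) · f(q^{p²})`, `δ = ⟨p⟩` the diamond operator on `F1bar M`. -/
def NormConj1 (δ : laurentBaseChange Kbar (F1 M) → laurentBaseChange Kbar (F1 M)) : Prop :=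
  ∀ (ζ : Kbarˣ), IsPrimitiveRoot ζ p → ∀ f : laurentBaseChange Kbar (F1 M),
    qExpand Kbar p ((normAlong (heckeOneAlphaBar M p Kbar) (heckeOneBetaBar M p Kbar f) :
        laurentBaseChange Kbar (F1 M)) : LaurentSeries Kbar) =
      normProd2 p ζ ((δ f : laurentBaseChange Kbar (F1 M)) : LaurentSeries Kbar)
        (f : LaurentSeries Kbar)

variable (A : ValuationSubring Kbar) {k : Type*} [Field k] [CharP k p] [PerfectField k]
  (π : A →+* k)

/-- **Identity (3) from (NORM-α₁), torsion route**: `y'` is the expansion of `c · δ f`, `c ≠ 0`. -/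
theorem map_hecke_principal_of_normConj_smul
    {δ : laurentBaseChange Kbar (F1 M) → laurentBaseChange Kbar (F1 M)} (hδ : NormConj1 M p δ)
    (hα : HeckeOneAlphaBarIntegral M p Kbar) (hβ : HeckeOneBetaBarIntegral M p Kbar)
    [HasPrincipalDivisors Kbar (laurentBaseChange Kbar (F1p M p))]
    (hfin : FiniteAlong Kbar (heckeOneAlphaBar M p Kbar))
    (hN : NormFormulaAlong Kbar (heckeOneAlphaBar M p Kbar) hfin)
    {r : Place Kbar (laurentBaseChange Kbar (F1 M)) → Place k (F1C k M)}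
    (hr : IsPlaceReductionAlong1 A π M r)
    (y y' : LaurentSeries A)
    (hy : coeffMap A.subtype y ∈ laurentBaseChange Kbar (F1 M))
    (hyk : coeffMap π y ∈ F1C k M) (hne : coeffMap π y ≠ 0)
    (hyk' : coeffMap π y' ∈ F1C k M) (hne' : coeffMap π y' ≠ 0)
    (c : Kbar) (hc : c ≠ 0)
    (hy' : coeffMap A.subtype y' =
      HahnSeries.C c * ((δ (⟨coeffMap A.subtype y, hy⟩ : laurentBaseChange Kbar (F1 M)) :
        laurentBaseChange Kbar (F1 M)) : LaurentSeries Kbar))
    (D : Divisor Kbar (laurentBaseChange Kbar (F1 M)))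
    (hD : ∀ P, D P = P.ord (⟨coeffMap A.subtype y, hy⟩ : laurentBaseChange Kbar (F1 M)))
    (Q : Place k (F1C k M)) :
    Finsupp.mapDomain r (heckeOneDivBar hα hβ D) Q =
      ((frobPlace1 k p M).symm Q).ord (⟨coeffMap π y', hyk'⟩ : F1C k M) +
        (p : ℤ) * (frobPlace1 k p M Q).ord (⟨coeffMap π y, hyk⟩ : F1C k M) := by
  obtain ⟨ζ, hζ1, hζp⟩ := exists_primitiveRoot_unit (L := Kbar) p
  refine map_hecke_principal₁ M p A π hα hβ hfin hN hr y y' hy hyk hne hyk' hne'
    ⟨c ^ p, ζ, pow_ne_zero _ hc, hζ1, ?_⟩ D hD Q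
  rw [qExpand_C_mul, hδ ζ (IsPrimitiveRoot.coe_units_iff.mp hζp), hy',
    normProd2_C_mul_left]

/-- **Identity (3) from (NORM-α₁), `δ̃` route**: `y'` is the expansion of `δ f` itself. -/
theorem map_hecke_principal_of_normConj
    {δ : laurentBaseChange Kbar (F1 M) → laurentBaseChange Kbar (F1 M)} (hδ : NormConj1 M p δ)
    (hα : HeckeOneAlphaBarIntegral M p Kbar) (hβ : HeckeOneBetaBarIntegral M p Kbar)
    [HasPrincipalDivisors Kbar (laurentBaseChange Kbar (F1p M p))]
    (hfin : FiniteAlong Kbar (heckeOneAlphaBar M p Kbar))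
    (hN : NormFormulaAlong Kbar (heckeOneAlphaBar M p Kbar) hfin)
    {r : Place Kbar (laurentBaseChange Kbar (F1 M)) → Place k (F1C k M)}
    (hr : IsPlaceReductionAlong1 A π M r)
    (y y' : LaurentSeries A)
    (hy : coeffMap A.subtype y ∈ laurentBaseChange Kbar (F1 M))
    (hyk : coeffMap π y ∈ F1C k M) (hne : coeffMap π y ≠ 0)
    (hyk' : coeffMap π y' ∈ F1C k M) (hne' : coeffMap π y' ≠ 0)
    (hy' : coeffMap A.subtype y' =
      ((δ (⟨coeffMap A.subtype y, hy⟩ : laurentBaseChange Kbar (F1 M)) :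
        laurentBaseChange Kbar (F1 M)) : LaurentSeries Kbar))
    (D : Divisor Kbar (laurentBaseChange Kbar (F1 M)))
    (hD : ∀ P, D P = P.ord (⟨coeffMap A.subtype y, hy⟩ : laurentBaseChange Kbar (F1 M)))
    (Q : Place k (F1C k M)) :
    Finsupp.mapDomain r (heckeOneDivBar hα hβ D) Q =
      ((frobPlace1 k p M).symm Q).ord (⟨coeffMap π y', hyk'⟩ : F1C k M) +
        (p : ℤ) * (frobPlace1 k p M Q).ord (⟨coeffMap π y, hyk⟩ : F1C k M) :=
  map_hecke_principal_of_normConj_smul M p A π hδ hα hβ hfin hN hr y y' hy hyk hne hyk' hne' 1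
    one_ne_zero (by rw [map_one, one_mul]; exact hy') D hD Q

end NormConj

end Fermat.Agent.ES.R48.KronMainOne24
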