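/-
Programme R (S48, Deligne–Serre), chapter GEOM, sub-chapter G4 "CONG₁", brick L1e-(4), formal part
(helper24): (POLY-α₁) and (NORM-α₁) for `X₁(M)` — the twin of main's `ES/KRON/ConjAlpha24`, with
the analytic inputs as HYPOTHESES:

* `W : F1p-bar →+* ℚbar((q))`, the compressed expansion at the cusp `p / M`, with
  `W (α a) = a(q^p)` and `W (β f) = δ f` (`δ = ⟨p⟩` the diamond; any function here);
* `[F1p-bar : α F1bar] = p + 1`;
* one `f₀` with `(δ f₀)` having a non-zero coefficient of `q⁻¹` (e.g. `f₀ = j`, `δ j = j`).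

The `p + 1` conjugates of `β f` over the base embedding `ι = (q ↦ q^p)`:
`σ_∞ = (q ↦ q^p) ∘ incl` (`α a ↦ a(q^p)`, `β f ↦ f(q^{p²})`) and
`σ_b = (q ↦ ζ^b q) ∘ W` (`α a ↦ a(q^p)`, `β f ↦ (δ f)(ζ^b q)`).  Results:

* `charpolyAlong_alpha_map_of_W` (POLY-α₁):
  `((charpolyAlong α β hfin f).map val).map (qExpand p) = kronProd2 p ζ (δ f) f`;
* `normConj1_of_W` (NORM-α₁) `: KronMainOne24.NormConj1 M p δ`.
-/
import Mathlib
import Fermat.Agent.ES.KRON.Conjugates11
import Fermat.Agent.ES.KRON.ConjAlpha24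
import Fermat.Agent.ES.R48.KronMainOne24

set_option autoImplicit false
set_option linter.unusedSectionVars false

open ModularCurve IntermediateField AlgebraicCurve Polynomial

noncomputable section

namespace Fermat.Agent.ES.R48.ConjAlphaOne24

open Fermat.Agent.X0
open Fermat.Agent.ES.KRON.KronCong24
open Fermat.Agent.ES.KRON.Conjugates11
open Fermat.Agent.ES.KRON.ConjAlpha24
open Fermat.Agent.ES.HECKE.PointFormula28
open Fermat.Agent.ES.R48.KronCongV21
open Fermat.Agent.ES.R48.KronNormV21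
open Fermat.Agent.ES.R48.FF1Defs13
open Fermat.Agent.ES.R48.KronMainOne24

variable (M p : ℕ) [NeZero M] [NeZero p]

/-- **(POLY-α₁)** the characteristic polynomial of `β f` over `α (F1bar M)`, read in `ℚbar((q))`
through `q ↦ q^p`, is `∏_b (Y - (δ f)(ζ^b q)) · (Y - f(q^{p²}))`. -/
theorem charpolyAlong_alpha_map_of_W (hp : p.Prime) (ζ : Kbarˣ) (hζ : IsPrimitiveRoot ζ p)
    (δ : laurentBaseChange Kbar (F1 M) → laurentBaseChange Kbar (F1 M))
    (W : ↥(laurentBaseChange Kbar (F1p M p)) →+* LaurentSeries Kbar)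
    (hWα : ∀ a : laurentBaseChange Kbar (F1 M),
      W (heckeOneAlphaBar M p Kbar a) = qExpand Kbar p (a : LaurentSeries Kbar))
    (hWβ : ∀ f : laurentBaseChange Kbar (F1 M),
      W (heckeOneBetaBar M p Kbar f) =
        ((δ f : laurentBaseChange Kbar (F1 M)) : LaurentSeries Kbar))
    (f₀ : laurentBaseChange Kbar (F1 M))
    (hf₀ : ((δ f₀ : laurentBaseChange Kbar (F1 M)) : LaurentSeries Kbar).coeff (-1) ≠ 0)
    (val : laurentBaseChange Kbar (F1 M) →+* LaurentSeries Kbar)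
    (hval : ∀ x : laurentBaseChange Kbar (F1 M), val x = (x : LaurentSeries Kbar))
    (hfin : FiniteAlong Kbar (heckeOneAlphaBar M p Kbar))
    (hn : finrankAlong Kbar (heckeOneAlphaBar M p Kbar) = p + 1)
    (f : laurentBaseChange Kbar (F1 M)) :
    ((charpolyAlong (heckeOneAlphaBar M p Kbar) (heckeOneBetaBar M p Kbar) hfin f).map val).map
        (qExpand Kbar p) =
      kronProd2 p ζ ((δ f : laurentBaseChange Kbar (F1 M)) : LaurentSeries Kbar)
        (f : LaurentSeries Kbar) := by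
  have hζp : ζ ^ p = 1 := hζ.pow_eq_one
  set σ' : ↥(laurentBaseChange Kbar (F1p M p)) →+* LaurentSeries Kbar :=
    (qExpand Kbar p).comp (algebraMap (↥(laurentBaseChange Kbar (F1p M p))) (LaurentSeries Kbar))
    with hσ'def
  have hσ'α : ∀ a : laurentBaseChange Kbar (F1 M),
      σ' (heckeOneAlphaBar M p Kbar a) = qExpand Kbar p (a : LaurentSeries Kbar) := by
    intro a
    show qExpand Kbar p ((heckeOneAlphaBar M p Kbar a : laurentBaseChange Kbar (F1p M p)) :
      LaurentSeries Kbar) = _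
    rw [coe_heckeOneAlphaBar]
  have hσ'β : ∀ g : laurentBaseChange Kbar (F1 M), σ' (heckeOneBetaBar M p Kbar g) =
      qExpand Kbar (p ^ 2) (g : LaurentSeries Kbar) := by
    intro g
    show qExpand Kbar p ((heckeOneBetaBar M p Kbar g : laurentBaseChange Kbar (F1p M p)) :
      LaurentSeries Kbar) = _
    rw [coe_heckeOneBetaBar, qExpand_qExpand]
    exact qExpand_congr (sq p).symm _
  set σ : Fin (p + 1) → (↥(laurentBaseChange Kbar (F1p M p)) →+* LaurentSeries Kbar) :=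
    fun i => if (i : ℕ) < p then (twistU (ζ ^ (i : ℕ))).comp W else σ' with hσdef
  have hσlt : ∀ i : Fin (p + 1), (i : ℕ) < p → σ i = (twistU (ζ ^ (i : ℕ))).comp W := by
    intro i hi
    simp only [hσdef, if_pos hi]
  have hσge : ∀ i : Fin (p + 1), ¬ (i : ℕ) < p → σ i = σ' := by
    intro i hi
    simp only [hσdef, if_neg hi]
  have hσ : ∀ (i : Fin (p + 1)) (a : laurentBaseChange Kbar (F1 M)),
      σ i (heckeOneAlphaBar M p Kbar a) = ((qExpand Kbar p).comp val) a := by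
    intro i a
    rw [RingHom.comp_apply, hval]
    by_cases hi : (i : ℕ) < p
    · rw [hσlt i hi, RingHom.comp_apply, hWα]
      exact twistU_qExpand p _ (by rw [← pow_mul, mul_comm, pow_mul, hζp, one_pow]) _
    · rw [hσge i hi, hσ'α]
  have hp2 : ¬ ((p ^ 2 : ℕ) : ℤ) ∣ (-1 : ℤ) := by
    intro h
    have h1 : ((p ^ 2 : ℕ) : ℤ) ∣ 1 := (dvd_neg).mp h
    have h2 : (p ^ 2 : ℕ) ∣ 1 := by exact_mod_cast h1
    have h3 : p ^ 2 = 1 := Nat.dvd_one.mp h2
    have h4 : p = 1 := by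
      rcases Nat.pow_eq_one.mp h3 with h | h
      · exact h
      · exact absurd h (by norm_num)
    exact hp.one_lt.ne' h4
  have hcoeff' : (σ' (heckeOneBetaBar M p Kbar f₀)).coeff (-1) = 0 := by
    rw [hσ'β]
    exact qExpand_coeff_of_not_dvd (p ^ 2) _ hp2
  have hcoeff : ∀ b : ℕ, (((twistU (ζ ^ b)).comp W) (heckeOneBetaBar M p Kbar f₀)).coeff (-1) =
      (((ζ ^ b) ^ (-1 : ℤ) : Kbarˣ) : Kbar) *
        ((δ f₀ : laurentBaseChange Kbar (F1 M)) : LaurentSeries Kbar).coeff (-1) := by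
    intro b
    rw [RingHom.comp_apply, hWβ, twistU_coeff]
  have hinj : Function.Injective σ := by
    intro i j hij
    have hval' : (σ i (heckeOneBetaBar M p Kbar f₀)).coeff (-1) =
        (σ j (heckeOneBetaBar M p Kbar f₀)).coeff (-1) := by rw [hij]
    by_cases hi : (i : ℕ) < p <;> by_cases hj : (j : ℕ) < p
    · rw [hσlt i hi, hσlt j hj, hcoeff, hcoeff] at hval'
      have h0 : (((ζ ^ (i : ℕ)) ^ (-1 : ℤ) : Kbarˣ) : Kbar) =
          (((ζ ^ (j : ℕ)) ^ (-1 : ℤ) : Kbarˣ) : Kbar) := mul_right_cancel₀ hf₀ hval'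
      have h1 : (ζ ^ (i : ℕ)) ^ (-1 : ℤ) = (ζ ^ (j : ℕ)) ^ (-1 : ℤ) := Units.ext h0
      have h2 : ζ ^ (i : ℕ) = ζ ^ (j : ℕ) := by
        rw [zpow_neg_one, zpow_neg_one] at h1
        exact inv_injective h1
      exact Fin.ext (hζ.pow_inj hi hj h2)
    · rw [hσlt i hi, hσge j hj, hcoeff, hcoeff'] at hval'
      exact absurd hval' (mul_ne_zero (Units.ne_zero _) hf₀)
    · rw [hσge i hi, hσlt j hj, hcoeff, hcoeff'] at hval'
      exact absurd hval'.symm (mul_ne_zero (Units.ne_zero _) hf₀)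
    · have hi' : (i : ℕ) = p := le_antisymm (Nat.lt_succ_iff.mp i.isLt) (not_lt.mp hi)
      have hj' : (j : ℕ) = p := le_antisymm (Nat.lt_succ_iff.mp j.isLt) (not_lt.mp hj)
      exact Fin.ext (hi'.trans hj'.symm)
  rw [Polynomial.map_map,
    charpolyAlong_map_eq_prod (heckeOneAlphaBar M p Kbar) (heckeOneBetaBar M p Kbar) hfin hn
      ((qExpand Kbar p).comp val) σ hσ hinj f,
    Fin.prod_univ_castSucc, kronProd2]
  congr 1
  · rw [← Fin.prod_univ_eq_prod_range (fun b => X - Polynomial.C (twistU (ζ ^ b)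
      ((δ f : laurentBaseChange Kbar (F1 M)) : LaurentSeries Kbar))) p]
    refine Finset.prod_congr rfl fun i _ => ?_
    have hi : ((Fin.castSucc i : Fin (p + 1)) : ℕ) < p := by
      rw [Fin.val_castSucc]
      exact i.isLt
    rw [hσlt _ hi, RingHom.comp_apply, hWβ, Fin.val_castSucc]
  · have hl : ¬ ((Fin.last p : Fin (p + 1)) : ℕ) < p := by
      rw [Fin.val_last]
      exact lt_irrefl p
    rw [hσge _ hl, hσ'β]

/-- **(NORM-α₁)**: `N_α (β f) (q^p) = ∏_b (δ f)(ζ^b q) · f(q^{p²})`, from `W` and the degree. -/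
theorem normConj1_of_W (hp : p.Prime)
    (δ : laurentBaseChange Kbar (F1 M) → laurentBaseChange Kbar (F1 M))
    (W : ↥(laurentBaseChange Kbar (F1p M p)) →+* LaurentSeries Kbar)
    (hWα : ∀ a : laurentBaseChange Kbar (F1 M),
      W (heckeOneAlphaBar M p Kbar a) = qExpand Kbar p (a : LaurentSeries Kbar))
    (hWβ : ∀ f : laurentBaseChange Kbar (F1 M),
      W (heckeOneBetaBar M p Kbar f) =
        ((δ f : laurentBaseChange Kbar (F1 M)) : LaurentSeries Kbar))
    (f₀ : laurentBaseChange Kbar (F1 M))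
    (hf₀ : ((δ f₀ : laurentBaseChange Kbar (F1 M)) : LaurentSeries Kbar).coeff (-1) ≠ 0)
    (hfin : FiniteAlong Kbar (heckeOneAlphaBar M p Kbar))
    (hn : finrankAlong Kbar (heckeOneAlphaBar M p Kbar) = p + 1) :
    NormConj1 M p δ := by
  intro ζ hζ f
  have hpoly := charpolyAlong_alpha_map_of_W M p hp ζ hζ δ W hWα hWβ f₀ hf₀
    (algebraMap (laurentBaseChange Kbar (F1 M)) (LaurentSeries Kbar)) (fun _ => rfl) hfin hn f
  have h0 := congrArg (fun P => P.coeff 0) hpoly
  simp only [Polynomial.coeff_map] at h0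
  rw [kronProd2_coeff_zero] at h0
  rw [normAlong_eq_coeff_zero (heckeOneAlphaBar M p Kbar) (heckeOneBetaBar M p Kbar) hfin f, hn]
  have hs : ((-1 : LaurentSeries Kbar) ^ (p + 1)) * (-1) ^ (p + 1) = 1 := by
    rw [← mul_pow, neg_one_mul, neg_neg, one_pow]
  show qExpand Kbar p (algebraMap (laurentBaseChange Kbar (F1 M)) (LaurentSeries Kbar)
    ((-1) ^ (p + 1) *
      (charpolyAlong (heckeOneAlphaBar M p Kbar) (heckeOneBetaBar M p Kbar) hfin f).coeff 0))
    = _
  rw [map_mul, map_mul, h0, map_pow, map_pow, map_neg, map_neg, map_one, map_one, ← mul_assoc, hs,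
    one_mul]

end Fermat.Agent.ES.R48.ConjAlphaOne24
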