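/-
Programme R (S48), chapter RAT (helper22): the level-raising operator `V_t : E(z) ↦ E(t z)` on
weight-one modular forms for `Γ₁(L)`: it is a modular form for `Γ₁(L t)`, keeps the nebentypus on
`Γ₀(L t)`, and its `q`-coefficients are `a_n(V_t E) = [t ∣ n] a_{n/t}(E)`.
-/
import Mathlib
import Fermat.Prelude.Def_FLTPrelim_Modularity
import Fermat.Agent.ES.R48.RatIface22

set_option autoImplicit false

open CongruenceSubgroup UpperHalfPlane ModularForm Filter Topology Matrix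
open scoped MatrixGroups ModularForm

noncomputable section

namespace Fermat.Agent.ES.R48.VtOp22

open Fermat.Agent.ES.R48.RatIface22

/-- the matrix `diag(t, 1)`. -/
def gt (t : ℕ) [NeZero t] : GL (Fin 2) ℝ :=
  Matrix.GeneralLinearGroup.mkOfDetNeZero !![(t : ℝ), 0; 0, 1]
    (by simp [Matrix.det_fin_two, NeZero.ne t])

lemma gt_val (t : ℕ) [NeZero t] : (gt t : Matrix (Fin 2) (Fin 2) ℝ) = !![(t : ℝ), 0; 0, 1] := rfl

lemma gt_det (t : ℕ) [NeZero t] : (gt t).det.val = (t : ℝ) := by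
  simp [gt, Matrix.GeneralLinearGroup.mkOfDetNeZero, Matrix.det_fin_two]

lemma gt_det_pos (t : ℕ) [NeZero t] : 0 < (gt t).det.val := by
  rw [gt_det]
  exact_mod_cast Nat.pos_of_ne_zero (NeZero.ne t)

lemma coe_gt_smul (t : ℕ) [NeZero t] (z : ℍ) : ((gt t • z : ℍ) : ℂ) = (t : ℂ) * z := by
  rw [UpperHalfPlane.coe_smul_of_det_pos (gt_det_pos t)]
  simp [num, denom, gt_val]

lemma denom_gt (t : ℕ) [NeZero t] (z : ℍ) : denom (gt t) z = 1 := by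
  simp [denom, gt_val]

lemma σ_gt (t : ℕ) [NeZero t] (w : ℂ) : σ (gt t) w = w := by
  simp only [σ, if_pos (gt_det_pos t)]
  rfl

lemma slash_gt_apply (t : ℕ) [NeZero t] (F : ℍ → ℂ) (z : ℍ) :
    (F ∣[(1 : ℤ)] gt t) z = F (gt t • z) := by
  rw [ModularForm.slash_apply, denom_gt, σ_gt]
  simp

/-- conjugate of `γ` by `diag(t,1)`: entries `(a, t b; c / t, d)`. -/
def conjT (t : ℕ) (γ : SL(2, ℤ)) (h : (t : ℤ) ∣ γ 1 0) : SL(2, ℤ) :=
  ⟨!![γ 0 0, (t : ℤ) * γ 0 1; γ 1 0 / (t : ℤ), γ 1 1], by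
    have hdet := γ.det_coe
    rw [Matrix.det_fin_two] at hdet
    rw [Matrix.det_fin_two_of]
    obtain ⟨c, hc⟩ := h
    rcases eq_or_ne (t : ℤ) 0 with ht | ht
    · simp [ht] at hc ⊢
      rw [hc] at hdet
      simpa using hdet
    · rw [hc, Int.mul_ediv_cancel_left _ ht]
      rw [hc] at hdet
      linear_combination hdet⟩

@[simp] lemma conjT_11 (t : ℕ) (γ : SL(2, ℤ)) (h : (t : ℤ) ∣ γ 1 0) : conjT t γ h 1 1 = γ 1 1 := rfl
@[simp] lemma conjT_00 (t : ℕ) (γ : SL(2, ℤ)) (h : (t : ℤ) ∣ γ 1 0) : conjT t γ h 0 0 = γ 0 0 := rfl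
@[simp] lemma conjT_10 (t : ℕ) (γ : SL(2, ℤ)) (h : (t : ℤ) ∣ γ 1 0) :
    conjT t γ h 1 0 = γ 1 0 / (t : ℤ) := rfl
@[simp] lemma conjT_01 (t : ℕ) (γ : SL(2, ℤ)) (h : (t : ℤ) ∣ γ 1 0) :
    conjT t γ h 0 1 = (t : ℤ) * γ 0 1 := rfl

lemma gt_mul_coe (t : ℕ) [NeZero t] (γ : SL(2, ℤ)) (h : (t : ℤ) ∣ γ 1 0) :
    gt t * (γ : GL (Fin 2) ℝ) = (conjT t γ h : GL (Fin 2) ℝ) * gt t := by
  apply Units.ext
  have ht : (t : ℝ) ≠ 0 := by exact_mod_cast NeZero.ne t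
  obtain ⟨c, hc⟩ := h
  have htz : (t : ℤ) ≠ 0 := by exact_mod_cast NeZero.ne t
  ext i j
  fin_cases i <;> fin_cases j <;>
    simp [gt_val, Matrix.mul_apply, Fin.sum_univ_two, conjT, hc, Int.mul_ediv_cancel_left _ htz] <;>
    ring


/-- restriction of a modular form to a smaller group. -/
def restrictLE {Γ Γ' : Subgroup (GL (Fin 2) ℝ)} {k : ℤ} (h : Γ' ≤ Γ) (f : ModularForm Γ k) :
    ModularForm Γ' k where
  toFun := f
  slash_action_eq' A hA := f.slash_action_eq' A (h hA)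
  holo' := f.holo'
  bdd_at_cusps' hc := f.bdd_at_cusps' (hc.mono h)

@[simp] lemma restrictLE_apply {Γ Γ' : Subgroup (GL (Fin 2) ℝ)} {k : ℤ} (h : Γ' ≤ Γ)
    (f : ModularForm Γ k) (z : ℍ) : restrictLE h f z = f z := rfl

lemma conjT_mem_Gamma1 (L t : ℕ) [NeZero t] (γ : SL(2, ℤ)) (hγ : γ ∈ Gamma1 (L * t))
    (h : (t : ℤ) ∣ γ 1 0) : conjT t γ h ∈ Gamma1 L := by
  rw [Gamma1_mem] at hγ ⊢
  obtain ⟨h00, h11, h10⟩ := hγ
  have hd : ∀ x : ℤ, ((x : ZMod (L * t)) = 1) → ((x : ZMod L) = 1) := by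
    intro x hx
    have := congrArg (ZMod.castHom (Dvd.intro t rfl) (ZMod L)) hx
    simpa using this
  refine ⟨hd _ h00, hd _ h11, ?_⟩
  rw [conjT_10]
  have h10' : ((L * t : ℕ) : ℤ) ∣ γ 1 0 := by
    exact (ZMod.intCast_zmod_eq_zero_iff_dvd _ _).mp h10
  rw [ZMod.intCast_zmod_eq_zero_iff_dvd]
  obtain ⟨c, hc⟩ := h10'
  have htz : (t : ℤ) ≠ 0 := by exact_mod_cast NeZero.ne t
  refine ⟨c, ?_⟩
  rw [hc]
  push_cast
  rw [show (L : ℤ) * t * c = t * (L * c) by ring, Int.mul_ediv_cancel_left _ htz]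

lemma dvd_of_mem_Gamma0 (L t : ℕ) (γ : SL(2, ℤ)) (hγ : γ ∈ Gamma0 (L * t)) :
    (t : ℤ) ∣ γ 1 0 := by
  rw [Gamma0_mem, ZMod.intCast_zmod_eq_zero_iff_dvd] at hγ
  exact Dvd.dvd.trans ⟨L, by push_cast; ring⟩ hγ

lemma conjT_mem_Gamma0 (L t : ℕ) [NeZero t] (γ : SL(2, ℤ)) (hγ : γ ∈ Gamma0 (L * t)) :
    conjT t γ (dvd_of_mem_Gamma0 L t γ hγ) ∈ Gamma0 L := by
  rw [Gamma0_mem] at hγ ⊢
  rw [conjT_10]
  have h10' : ((L * t : ℕ) : ℤ) ∣ γ 1 0 := (ZMod.intCast_zmod_eq_zero_iff_dvd _ _).mp hγ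
  rw [ZMod.intCast_zmod_eq_zero_iff_dvd]
  obtain ⟨c, hc⟩ := h10'
  have htz : (t : ℤ) ≠ 0 := by exact_mod_cast NeZero.ne t
  refine ⟨c, ?_⟩
  rw [hc]
  push_cast
  rw [show (L : ℤ) * t * c = t * (L * c) by ring, Int.mul_ediv_cancel_left _ htz]


open ConjAct Pointwise in
lemma Gamma1_le_conj (L t : ℕ) [NeZero t] :
    ((Gamma1 (L * t) : Subgroup SL(2, ℤ)) : Subgroup (GL (Fin 2) ℝ)) ≤
      toConjAct (gt t)⁻¹ • ((Gamma1 L : Subgroup SL(2, ℤ)) : Subgroup (GL (Fin 2) ℝ)) := by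
  intro x hx
  obtain ⟨γ, hγ, rfl⟩ := Subgroup.mem_map.mp hx
  rw [Subgroup.mem_pointwise_smul_iff_inv_smul_mem, ← map_inv, inv_inv, ConjAct.smul_def, ConjAct.ofConjAct_toConjAct]
  have ht : (t : ℤ) ∣ γ 1 0 :=
    dvd_of_mem_Gamma0 L t γ (Gamma1_in_Gamma0 _ hγ)
  refine Subgroup.mem_map.mpr ⟨conjT t γ ht, conjT_mem_Gamma1 L t γ hγ ht, ?_⟩
  exact eq_mul_inv_of_mul_eq (gt_mul_coe t γ ht).symm

/-- **`V_t`**: `E(z) ↦ E(t z)`, from level `Γ₁(L)` to level `Γ₁(L t)` (weight one). -/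
def Vt (L t : ℕ) [NeZero t] (E : ModularForm (Gamma1 L) 1) : ModularForm (Gamma1 (L * t)) 1 :=
  restrictLE (Gamma1_le_conj L t) (ModularForm.translate E (gt t))

lemma Vt_apply (L t : ℕ) [NeZero t] (E : ModularForm (Gamma1 L) 1) (z : ℍ) :
    Vt L t E z = E (gt t • z) := by
  show ((⇑E) ∣[(1 : ℤ)] gt t) z = _
  exact slash_gt_apply t E z

lemma coe_Vt (L t : ℕ) [NeZero t] (E : ModularForm (Gamma1 L) 1) :
    (⇑(Vt L t E) : ℍ → ℂ) = (⇑E) ∣[(1 : ℤ)] gt t := rfl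

/-- `V_t` keeps the nebentypus. -/
lemma Vt_neben (L t : ℕ) [NeZero t] {χ : DirichletCharacter ℂ L} (E : ModularForm (Gamma1 L) 1)
    (hE : HasNeben L χ 1 E) (γ : SL(2, ℤ)) (hγ : γ ∈ Gamma0 (L * t)) :
    (⇑(Vt L t E) : ℍ → ℂ) ∣[(1 : ℤ)] γ = χ ((γ 1 1 : ℤ) : ZMod L) • ⇑(Vt L t E) := by
  have ht := dvd_of_mem_Gamma0 L t γ hγ
  rw [coe_Vt, ModularForm.SL_slash, ← SlashAction.slash_mul, gt_mul_coe t γ ht, SlashAction.slash_mul,
    ← ModularForm.SL_slash, hE _ (conjT_mem_Gamma0 L t γ hγ), conjT_11]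
  ext z
  simp [ModularForm.slash_apply, σ_gt]
  ring


lemma one_mem_strictPeriods_Gamma1 (L : ℕ) :
    (1 : ℝ) ∈ ((Gamma1 L : Subgroup SL(2, ℤ)) : Subgroup (GL (Fin 2) ℝ)).strictPeriods := by
  simp [strictPeriods_Gamma1]

lemma qParam_gt_smul (t : ℕ) [NeZero t] (z : ℍ) :
    Function.Periodic.qParam 1 ((gt t • z : ℍ) : ℂ) = Function.Periodic.qParam 1 (z : ℂ) ^ t := by
  rw [coe_gt_smul, Function.Periodic.qParam, Function.Periodic.qParam, ← Complex.exp_nat_mul]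
  congr 1
  ring

/-- `q`-coefficients of `V_t E`. -/
lemma qCoeff_Vt (L t : ℕ) [NeZero L] [NeZero t] (E : ModularForm (Gamma1 L) 1) (n : ℕ) :
    ModularFormClass.qCoeff (Vt L t E) n =
      if t ∣ n then ModularFormClass.qCoeff E (n / t) else 0 := by
  have htpos : 0 < t := Nat.pos_of_ne_zero (NeZero.ne t)
  have hL : NeZero (L * t) := ⟨Nat.mul_ne_zero (NeZero.ne L) (NeZero.ne t)⟩
  set c : ℕ → ℂ := fun n => if t ∣ n then ModularFormClass.qCoeff E (n / t) else 0 with hc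
  have hsum : ∀ τ : ℍ, HasSum (fun m => c m • Function.Periodic.qParam 1 (τ : ℂ) ^ m)
      (Vt L t E τ) := by
    intro τ
    have h1 := ModularForm.hasSum_qExpansion (f := E) (h := 1) one_pos
      (one_mem_strictPeriods_Gamma1 L) (gt t • τ)
    rw [qParam_gt_smul] at h1
    rw [Vt_apply]
    have hinj : Function.Injective (fun m : ℕ => t * m) := fun a b h => by
      exact Nat.eq_of_mul_eq_mul_left htpos h
    rw [← hinj.hasSum_iff]
    · convert h1 using 1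
      ext m
      simp only [Function.comp_apply, hc, smul_eq_mul, ModularFormClass.qCoeff]
      rw [if_pos (Dvd.intro m rfl), Nat.mul_div_cancel_left _ htpos, pow_mul]
    · intro x hx
      have : ¬ t ∣ x := by
        rintro ⟨m, rfl⟩
        exact hx ⟨m, rfl⟩
      simp [hc, this]
  have := ModularFormClass.qExpansion_coeff_unique (f := Vt L t E) (h := 1) one_pos
    (one_mem_strictPeriods_Gamma1 (L * t)) hsum n
  rw [ModularFormClass.qCoeff, ← this]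

end Fermat.Agent.ES.R48.VtOp22
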