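/-
Programme R (S48), chapter RAT (helper22): "every cusp is seen".  For `γ = (a b; c d) ∈ SL₂(ℤ)` with
`c = t > 0`:  `diag(t,1) γ = Tᵃ S (t d; 0 1)`, hence `(V_t E) ∣[1] γ (z) = (E ∣[1] S)(t z + d)`, and the
limit at `i∞` of `(V_t E) ∣[1] γ` is the value of `E` at the cusp `0`.
-/
import Mathlib
import Fermat.Prelude.Def_FLTPrelim_Modularity
import Fermat.Agent.ES.R48.RatIface22
import Fermat.Agent.ES.R48.VtOp22

set_option autoImplicit false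

open CongruenceSubgroup UpperHalfPlane ModularForm Filter Topology Matrix
open scoped MatrixGroups ModularForm

noncomputable section

namespace Fermat.Agent.ES.R48.CuspSeen22

open Fermat.Agent.ES.R48.RatIface22 Fermat.Agent.ES.R48.VtOp22

/-- the matrix `(t d; 0 1)`. -/
def umat (t : ℕ) [NeZero t] (d : ℤ) : GL (Fin 2) ℝ :=
  Matrix.GeneralLinearGroup.mkOfDetNeZero !![(t : ℝ), (d : ℝ); 0, 1]
    (by simp [Matrix.det_fin_two, NeZero.ne t])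

lemma umat_val (t : ℕ) [NeZero t] (d : ℤ) :
    (umat t d : Matrix (Fin 2) (Fin 2) ℝ) = !![(t : ℝ), (d : ℝ); 0, 1] := rfl

lemma umat_det (t : ℕ) [NeZero t] (d : ℤ) : (umat t d).det.val = (t : ℝ) := by
  simp [umat, Matrix.GeneralLinearGroup.mkOfDetNeZero, Matrix.det_fin_two]

lemma umat_det_pos (t : ℕ) [NeZero t] (d : ℤ) : 0 < (umat t d).det.val := by
  rw [umat_det]
  exact_mod_cast Nat.pos_of_ne_zero (NeZero.ne t)

lemma coe_umat_smul (t : ℕ) [NeZero t] (d : ℤ) (z : ℍ) :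
    ((umat t d • z : ℍ) : ℂ) = (t : ℂ) * z + d := by
  rw [UpperHalfPlane.coe_smul_of_det_pos (umat_det_pos t d)]
  simp [num, denom, umat_val]

lemma im_umat_smul (t : ℕ) [NeZero t] (d : ℤ) (z : ℍ) :
    (umat t d • z : ℍ).im = (t : ℝ) * z.im := by
  have := congrArg Complex.im (coe_umat_smul t d z)
  simpa using this

lemma denom_umat (t : ℕ) [NeZero t] (d : ℤ) (z : ℍ) : denom (umat t d) z = 1 := by
  simp [denom, umat_val]

lemma σ_umat (t : ℕ) [NeZero t] (d : ℤ) (w : ℂ) : σ (umat t d) w = w := by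
  simp only [σ, if_pos (umat_det_pos t d)]
  rfl

lemma slash_umat_apply (t : ℕ) [NeZero t] (d : ℤ) (F : ℍ → ℂ) (z : ℍ) :
    (F ∣[(1 : ℤ)] umat t d) z = F (umat t d • z) := by
  rw [ModularForm.slash_apply, denom_umat, σ_umat]
  simp

lemma tendsto_umat_smul (t : ℕ) [NeZero t] (d : ℤ) :
    Tendsto (fun z : ℍ => umat t d • z) atImInfty atImInfty := by
  rw [atImInfty, tendsto_comap_iff]
  have htpos : (0 : ℝ) < t := by exact_mod_cast Nat.pos_of_ne_zero (NeZero.ne t)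
  have : (UpperHalfPlane.im ∘ fun z : ℍ => umat t d • z) = fun z : ℍ => (t : ℝ) * z.im := by
    ext z
    exact im_umat_smul t d z
  rw [this]
  exact (tendsto_id.const_mul_atTop htpos).comp tendsto_comap


/-- the matrix `Tᵃ S = (a -1; 1 0)`. -/
def taS (a : ℤ) : SL(2, ℤ) := ⟨!![a, -1; 1, 0], by simp [Matrix.det_fin_two]⟩

lemma taS_eq (a : ℤ) : taS a = ModularGroup.T ^ a * ModularGroup.S := by
  ext i j
  fin_cases i <;> fin_cases j <;>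
    simp [taS, ModularGroup.coe_T_zpow, ModularGroup.S, Matrix.mul_apply, Fin.sum_univ_two]

/-- the matrix identity `diag(t,1) γ = Tᵃ S (t d; 0 1)` for `γ = (a b; t d)`. -/
lemma gt_mul_eq (t : ℕ) [NeZero t] (γ : SL(2, ℤ)) (ht : (t : ℤ) = γ 1 0) :
    gt t * (γ : GL (Fin 2) ℝ) = (taS (γ 0 0) : GL (Fin 2) ℝ) * umat t (γ 1 1) := by
  apply Units.ext
  have hdet := γ.det_coe
  rw [Matrix.det_fin_two] at hdet
  have hdetR : ((γ 0 0 : ℤ) : ℝ) * (γ 1 1 : ℤ) - (γ 0 1 : ℤ) * (γ 1 0 : ℤ) = 1 := by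
    exact_mod_cast hdet
  have htR : (t : ℝ) = ((γ 1 0 : ℤ) : ℝ) := by exact_mod_cast ht
  ext i j
  fin_cases i <;> fin_cases j <;>
    simp [gt_val, umat_val, Matrix.mul_apply, Fin.sum_univ_two, taS, htR] <;>
    linarith


lemma T_zpow_mem_Gamma1 (L : ℕ) (a : ℤ) : ModularGroup.T ^ a ∈ Gamma1 L := by
  rw [Gamma1_mem]
  simp [ModularGroup.coe_T_zpow]

lemma slash_T_zpow (L : ℕ) (E : ModularForm (Gamma1 L) 1) (a : ℤ) :
    (⇑E : ℍ → ℂ) ∣[(1 : ℤ)] (ModularGroup.T ^ a) = ⇑E := by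
  rw [ModularForm.SL_slash]
  exact SlashInvariantFormClass.slash_action_eq E _
    (Subgroup.mem_map.mpr ⟨_, T_zpow_mem_Gamma1 L a, rfl⟩)

/-- `(V_t E) ∣[1] γ (z) = (E ∣[1] S)(t z + d)` for `γ = (a b; t d)`. -/
theorem Vt_slash_eq (L t : ℕ) [NeZero t] (E : ModularForm (Gamma1 L) 1) (γ : SL(2, ℤ))
    (ht : (t : ℤ) = γ 1 0) (z : ℍ) :
    ((⇑(Vt L t E) : ℍ → ℂ) ∣[(1 : ℤ)] γ) z =
      ((⇑E : ℍ → ℂ) ∣[(1 : ℤ)] ModularGroup.S) (umat t (γ 1 1) • z) := by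
  rw [coe_Vt, ModularForm.SL_slash, ← SlashAction.slash_mul, gt_mul_eq t γ ht,
    SlashAction.slash_mul, slash_umat_apply, ← ModularForm.SL_slash, taS_eq,
    SlashAction.slash_mul, slash_T_zpow]

/-- the limit at `i∞` of `(V_t E) ∣[1] γ` is the value of `E` at the cusp `0`. -/
theorem tendsto_Vt_slash (L t : ℕ) [NeZero t] (E : ModularForm (Gamma1 L) 1) {cS : ℂ}
    (hS : Tendsto ((⇑E : ℍ → ℂ) ∣[(1 : ℤ)] ModularGroup.S) atImInfty (𝓝 cS))
    (γ : SL(2, ℤ)) (ht : (t : ℤ) = γ 1 0) :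
    Tendsto ((⇑(Vt L t E) : ℍ → ℂ) ∣[(1 : ℤ)] γ) atImInfty (𝓝 cS) := by
  have : ((⇑(Vt L t E) : ℍ → ℂ) ∣[(1 : ℤ)] γ) =
      ((⇑E : ℍ → ℂ) ∣[(1 : ℤ)] ModularGroup.S) ∘ fun z : ℍ => umat t (γ 1 1) • z := by
    ext z
    exact Vt_slash_eq L t E γ ht z
  rw [this]
  exact hS.comp (tendsto_umat_smul t (γ 1 1))

end Fermat.Agent.ES.R48.CuspSeen22
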