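/-
Programme R (S48), chapter RAT (helper22): holomorphic gluing.  If `g_t · A = g · A_t` for a family
`A_t` without common zero on `ℍ` (`A ≢ 0`), then there is ONE holomorphic `F` on `ℍ` with
`F · A = g` and `F · A_t = g_t` for all `t`.
-/
import Mathlib

set_option autoImplicit false

open UpperHalfPlane Filter Topology
open scoped Manifold

noncomputable section

namespace Fermat.Agent.ES.R48.DivGlue22

/-- the cross relation `g_t A_s = g_s A_t`. -/
lemma cross_rel {g A : ℍ → ℂ} (hA : MDiff A) (hA0 : A ≠ 0)
    (gt At : ℕ → ℍ → ℂ) (hgt : ∀ t, MDiff (gt t)) (hAt : ∀ t, MDiff (At t))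
    (hrel : ∀ t z, gt t z * A z = g z * At t z) (s t : ℕ) (z : ℍ) :
    gt t z * At s z = gt s z * At t z := by
  have hD : MDiff (gt t * At s - gt s * At t) := ((hgt t).mul (hAt s)).sub ((hgt s).mul (hAt t))
  have h0 : (gt t * At s - gt s * At t) * A = 0 := by
    ext w
    simp only [Pi.mul_apply, Pi.sub_apply, Pi.zero_apply]
    linear_combination (At s w) * hrel t w - (At t w) * hrel s w
  rcases (UpperHalfPlane.mul_eq_zero_iff hD hA).mp h0 with h | h
  · have := congrFun h z
    simp only [Pi.mul_apply, Pi.sub_apply, Pi.zero_apply] at this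
    linear_combination this
  · exact absurd h hA0

theorem exists_quotient {g A : ℍ → ℂ} (hA : MDiff A) (hA0 : A ≠ 0)
    (gt At : ℕ → ℍ → ℂ) (hgt : ∀ t, MDiff (gt t)) (hAt : ∀ t, MDiff (At t))
    (hrel : ∀ t z, gt t z * A z = g z * At t z) (hcover : ∀ z, ∃ t, At t z ≠ 0) :
    ∃ F : ℍ → ℂ, MDiff F ∧ (∀ z, F z * A z = g z) ∧ ∀ t z, F z * At t z = gt t z := by
  classical
  choose tz htz using hcover
  set F : ℍ → ℂ := fun z => gt (tz z) z / At (tz z) z with hF
  have hcross := cross_rel hA hA0 gt At hgt hAt hrel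
  -- value of `F` through any admissible index
  have hFval : ∀ z t, At t z ≠ 0 → F z = gt t z / At t z := by
    intro z t ht
    simp only [hF]
    rw [div_eq_div_iff (htz z) ht]
    exact (hcross t (tz z) z).symm ▸ rfl
  refine ⟨F, ?_, ?_, ?_⟩
  · intro z₀
    set s := tz z₀
    have hs : At s z₀ ≠ 0 := htz z₀
    have hcont : ContinuousAt (At s) z₀ := (hAt s z₀).continuousAt
    have hev : ∀ᶠ z in 𝓝 z₀, At s z ≠ 0 := hcont.eventually_ne hs
    have hq : MDiffAt (fun z => gt s z / At s z) z₀ := by
      have h1 := (hgt s) z₀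
      have h2 := (hAt s) z₀
      rw [UpperHalfPlane.mdifferentiableAt_iff] at h1 h2 ⊢
      have : ((fun z => gt s z / At s z) ∘ ofComplex) =
          fun w => (gt s ∘ ofComplex) w / (At s ∘ ofComplex) w := rfl
      rw [this]
      refine h1.div h2 ?_
      simpa using hs
    refine hq.congr_of_eventuallyEq ?_
    filter_upwards [hev] with z hz
    exact hFval z s hz
  · intro z
    rw [hFval z (tz z) (htz z), div_mul_eq_mul_div, hrel, mul_div_assoc, div_self (htz z), mul_one]
  · intro t z
    by_cases ht : At t z = 0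
    · have := hcross t (tz z) z
      rw [ht, mul_zero] at this
      have h0 : gt t z = 0 := by
        rcases mul_eq_zero.mp this.symm with h | h
        · exact h
        · exact absurd h (htz z)
      rw [ht, mul_zero, h0]
    · rw [hFval z t ht, div_mul_cancel₀ _ ht]

end Fermat.Agent.ES.R48.DivGlue22
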