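/-
Programme R (S48), chapter RAT (helper22): THE DIVISION LEMMA.
`E` a weight-one form on `Γ₁(L)` with nebentypus `χ`, non-zero at the cusps `∞` and `0`;
`g ∈ S₂(Γ₀(M))`, `g_t ∈ S₂(Γ₀(M (t+1)))` with `g_t · E = g · V_{t+1}E` for all `t`.
Then `g = F · E` for a weight-one CUSP form `F` on `Γ₁(M)` with nebentypus `ε = χ⁻¹`.
-/
import Mathlib
import Fermat.Prelude.Def_FLTPrelim_Modularity
import Fermat.Agent.ES.R48.RatIface22
import Fermat.Agent.ES.R48.VtOp22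
import Fermat.Agent.ES.R48.CuspSeen22
import Fermat.Agent.ES.R48.DivGlue22

set_option autoImplicit false

open CongruenceSubgroup UpperHalfPlane ModularForm Filter Topology Matrix
open scoped MatrixGroups ModularForm Manifold

noncomputable section

namespace Fermat.Agent.ES.R48.DivForm22

open Fermat.Agent.ES.R48.RatIface22 Fermat.Agent.ES.R48.VtOp22 Fermat.Agent.ES.R48.CuspSeen22
open Fermat.Agent.ES.R48.DivGlue22

lemma im_gt_smul (t : ℕ) [NeZero t] (z : ℍ) : (gt t • z : ℍ).im = (t : ℝ) * z.im := by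
  have := congrArg Complex.im (coe_gt_smul t z)
  simpa using this

/-- `(n+1) • z₀ → i∞`. -/
lemma tendsto_gt_succ_smul (z₀ : ℍ) :
    Tendsto (fun n : ℕ => gt (n + 1) • z₀) atTop atImInfty := by
  rw [atImInfty, tendsto_comap_iff]
  have : (UpperHalfPlane.im ∘ fun n : ℕ => gt (n + 1) • z₀) =
      fun n : ℕ => ((n : ℝ) + 1) * z₀.im := by
    ext n
    simp only [Function.comp_apply, im_gt_smul]
    push_cast
    ring
  rw [this]
  exact (tendsto_natCast_atTop_atTop.atTop_add tendsto_const_nhds).atTop_mul_const z₀.im_pos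

/-- no common zero of the family `V_{t+1} E`. -/
lemma exists_Vt_ne_zero (L : ℕ) (E : ModularForm (Gamma1 L) 1) {c0 : ℂ} (hc0 : c0 ≠ 0)
    (h0 : Tendsto (⇑E : ℍ → ℂ) atImInfty (𝓝 c0)) (z₀ : ℍ) :
    ∃ t : ℕ, Vt L (t + 1) E z₀ ≠ 0 := by
  have h1 : Tendsto (fun n : ℕ => E (gt (n + 1) • z₀)) atTop (𝓝 c0) :=
    h0.comp (tendsto_gt_succ_smul z₀)
  obtain ⟨t, ht⟩ := (h1.eventually_ne hc0).exists
  exact ⟨t, by rwa [Vt_apply]⟩


/-- transformation law of the quotient. -/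
lemma slash_eq_of_mul {F E g : ℍ → ℂ} (hF : MDiff F) (hE : MDiff E) (hE0 : E ≠ 0)
    (γ : SL(2, ℤ)) {c e : ℂ} (hce : e * c = 1) (hFE : F * E = g)
    (hg : g ∣[(2 : ℤ)] γ = g) (hEγ : E ∣[(1 : ℤ)] γ = c • E) :
    F ∣[(1 : ℤ)] γ = e • F := by
  have h1 : (F ∣[(1 : ℤ)] γ) * (c • E) = F * E := by
    rw [← hEγ, ← ModularForm.mul_slash_SL2, show (1 : ℤ) + 1 = 2 by norm_num, hFE, hg]
  have hFγ : MDiff (F ∣[(1 : ℤ)] γ) := by
    rw [ModularForm.SL_slash]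
    exact hF.slash 1 _
  have h2 : (c • (F ∣[(1 : ℤ)] γ) - F) * E = 0 := by
    ext z
    have := congrFun h1 z
    simp only [Pi.mul_apply, Pi.smul_apply, Pi.sub_apply, smul_eq_mul, Pi.zero_apply] at this ⊢
    linear_combination this
  have h3 : MDiff (c • (F ∣[(1 : ℤ)] γ) - F) := (hFγ.const_smul c).sub hF
  rcases (UpperHalfPlane.mul_eq_zero_iff h3 hE).mp h2 with h | h
  · ext z
    have := congrFun h z
    simp only [Pi.smul_apply, Pi.sub_apply, smul_eq_mul, Pi.zero_apply] at this ⊢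
    linear_combination e * this - (F ∣[(1 : ℤ)] γ) z * hce
  · exact absurd h hE0

/-- weight-one slash by `-γ`. -/
lemma slash_neg_one (F : ℍ → ℂ) (γ : SL(2, ℤ)) :
    F ∣[(1 : ℤ)] (-γ) = -(F ∣[(1 : ℤ)] γ) := by
  ext z
  rw [Pi.neg_apply, ModularForm.SL_slash_apply, ModularForm.SL_slash_apply,
    ModularGroup.SL_neg_smul, ModularGroup.denom_apply, ModularGroup.denom_apply]
  have hd : ((γ 1 0 : ℤ) : ℂ) * z + (γ 1 1 : ℤ) ≠ 0 := by
    have := denom_ne_zero γ z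
    rwa [ModularGroup.denom_apply] at this
  simp only [Matrix.SpecialLinearGroup.coe_neg, Matrix.neg_apply, Int.cast_neg, _root_.zpow_neg,
    zpow_one]
  have h2 : -((γ 1 0 : ℤ) : ℂ) * z + -((γ 1 1 : ℤ) : ℂ) = -(((γ 1 0 : ℤ) : ℂ) * z + (γ 1 1 : ℤ)) := by
    ring
  rw [h2, inv_neg]
  ring


/-- a quotient by a function with non-zero limit tends to zero. -/
lemma isZeroAtImInfty_of_mul {P Q R : ℍ → ℂ} {c : ℂ} (hc : c ≠ 0) (hPQ : P * Q = R)
    (hQ : Tendsto Q atImInfty (𝓝 c)) (hR : IsZeroAtImInfty R) : IsZeroAtImInfty P := by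
  have h1 : Tendsto (fun z => R z / Q z) atImInfty (𝓝 (0 / c)) := Tendsto.div hR hQ hc
  rw [zero_div] at h1
  refine h1.congr' ?_
  filter_upwards [hQ.eventually_ne hc] with z hz
  have := congrFun hPQ z
  simp only [Pi.mul_apply] at this
  rw [← this, mul_div_assoc, div_self hz, mul_one]

lemma isCusp_SL2Z_smul_infty (γ : SL(2, ℤ)) :
    IsCusp ((Matrix.SpecialLinearGroup.mapGL ℝ γ) • (OnePoint.infty : OnePoint ℝ)) 𝒮ℒ :=
  isCusp_SL2Z_iff'.mpr ⟨γ, rfl⟩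

/-- a weight-two cusp form on `Γ₀(M)` is zero at `i∞` after slashing with any `γ ∈ SL₂(ℤ)`. -/
lemma isZeroAtImInfty_slash {M : ℕ} [NeZero M] (g : CuspForm (Gamma0 M) 2) (γ : SL(2, ℤ)) :
    IsZeroAtImInfty ((⇑g : ℍ → ℂ) ∣[(2 : ℤ)] γ) := by
  have hc : IsCusp ((Matrix.SpecialLinearGroup.mapGL ℝ γ) • (OnePoint.infty : OnePoint ℝ))
      ((Gamma0 M : Subgroup SL(2, ℤ)) : Subgroup (GL (Fin 2) ℝ)) := by
    rw [Subgroup.IsArithmetic.isCusp_iff_isCusp_SL2Z]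
    exact isCusp_SL2Z_smul_infty γ
  exact g.zero_at_cusps' hc (Matrix.SpecialLinearGroup.mapGL ℝ γ) rfl


lemma Gamma0_le_of_dvd {M M' : ℕ} (h : M ∣ M') : Gamma0 M' ≤ Gamma0 M := by
  intro γ hγ
  rw [Gamma0_mem] at hγ ⊢
  have := congrArg (ZMod.castHom h (ZMod M)) hγ
  simpa using this

lemma mem_Gamma0_of_lower_left_zero (M : ℕ) (γ : SL(2, ℤ)) (h : γ 1 0 = 0) : γ ∈ Gamma0 M := by
  rw [Gamma0_mem, h]
  simp

/-- **The division lemma.** -/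
theorem exists_cuspForm_of_div {M N L : ℕ} [NeZero M] [NeZero L] (hNM : N ∣ M) (hLM : L ∣ M)
    (ε : DirichletCharacter ℂ N) (χ : DirichletCharacter ℂ L)
    (hεχ : ∀ γ : SL(2, ℤ), γ ∈ Gamma0 M →
      ε ((γ 1 1 : ℤ) : ZMod N) * χ ((γ 1 1 : ℤ) : ZMod L) = 1)
    (E : ModularForm (Gamma1 L) 1) (hE : HasNeben L χ 1 E)
    {c0 cS : ℂ} (hc0 : c0 ≠ 0) (h0 : Tendsto (⇑E : ℍ → ℂ) atImInfty (𝓝 c0))
    (hcS : cS ≠ 0) (hS : Tendsto ((⇑E : ℍ → ℂ) ∣[(1 : ℤ)] ModularGroup.S) atImInfty (𝓝 cS))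
    (g : CuspForm (Gamma0 M) 2) (gs : ∀ t : ℕ, CuspForm (Gamma0 (M * (t + 1))) 2)
    (hrel : ∀ t z, gs t z * E z = g z * Vt L (t + 1) E z) :
    ∃ F : CuspForm (Gamma1 M) 1, HasNeben M ε 1 F ∧ ∀ z, F z * E z = g z := by
  -- `E ≢ 0`
  have hE0 : (⇑E : ℍ → ℂ) ≠ 0 := by
    intro h
    rw [h] at h0
    exact hc0 (tendsto_nhds_unique h0 tendsto_const_nhds)
  have hEhol : MDiff (⇑E : ℍ → ℂ) := E.holo'
  -- the quotient function
  obtain ⟨F, hFhol, hFE, hFV⟩ := exists_quotient (g := g) (A := E) hEhol hE0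
    (fun t => gs t) (fun t => Vt L (t + 1) E) (fun t => (gs t).holo') (fun t => (Vt L (t + 1) E).holo')
    hrel (exists_Vt_ne_zero L E hc0 h0)
  have hFEfun : F * (⇑E : ℍ → ℂ) = ⇑g := funext hFE
  -- nebentypus
  have hneb : HasNeben M ε 1 F := by
    intro γ hγ
    have hgγ : (⇑g : ℍ → ℂ) ∣[(2 : ℤ)] γ = ⇑g := by
      rw [ModularForm.SL_slash]
      exact SlashInvariantFormClass.slash_action_eq g _ (Subgroup.mem_map.mpr ⟨γ, hγ, rfl⟩)
    have hEγ := hE γ (Gamma0_le_of_dvd hLM hγ)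
    exact slash_eq_of_mul hFhol hEhol hE0 γ (hεχ γ hγ) hFEfun hgγ hEγ
  -- zero at all cusps: positive lower-left entry
  have hpos : ∀ γ : SL(2, ℤ), 0 < γ 1 0 → IsZeroAtImInfty (F ∣[(1 : ℤ)] γ) := by
    intro γ hγ
    obtain ⟨t, ht⟩ : ∃ t : ℕ, ((t + 1 : ℕ) : ℤ) = γ 1 0 := by
      refine ⟨(γ 1 0).toNat - 1, ?_⟩
      have h1 : 1 ≤ (γ 1 0).toNat := by omega
      rw [Nat.sub_add_cancel h1, Int.toNat_of_nonneg hγ.le]
    have hPQ : (F ∣[(1 : ℤ)] γ) * ((⇑(Vt L (t + 1) E) : ℍ → ℂ) ∣[(1 : ℤ)] γ) =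
        (⇑(gs t) : ℍ → ℂ) ∣[(2 : ℤ)] γ := by
      rw [← ModularForm.mul_slash_SL2, show (1 : ℤ) + 1 = 2 by norm_num]
      congr 1
      ext z
      exact hFV t z
    exact isZeroAtImInfty_of_mul hcS hPQ (tendsto_Vt_slash L (t + 1) E hS γ ht)
      (isZeroAtImInfty_slash (gs t) γ)
  have hzero : ∀ γ : SL(2, ℤ), γ 1 0 = 0 → IsZeroAtImInfty (F ∣[(1 : ℤ)] γ) := by
    intro γ hγ
    have hγM : γ ∈ Gamma0 M := mem_Gamma0_of_lower_left_zero M γ hγ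
    have hEγ := hE γ (mem_Gamma0_of_lower_left_zero L γ hγ)
    have hχ : χ ((γ 1 1 : ℤ) : ZMod L) ≠ 0 := by
      intro h
      have := hεχ γ hγM
      rw [h, mul_zero] at this
      exact zero_ne_one this
    have hPQ : (F ∣[(1 : ℤ)] γ) * ((⇑E : ℍ → ℂ) ∣[(1 : ℤ)] γ) = (⇑g : ℍ → ℂ) ∣[(2 : ℤ)] γ := by
      rw [← ModularForm.mul_slash_SL2, show (1 : ℤ) + 1 = 2 by norm_num, hFEfun]
    have hQ : Tendsto ((⇑E : ℍ → ℂ) ∣[(1 : ℤ)] γ) atImInfty
        (𝓝 (χ ((γ 1 1 : ℤ) : ZMod L) * c0)) := by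
      rw [hEγ]
      exact h0.const_mul _
    exact isZeroAtImInfty_of_mul (mul_ne_zero hχ hc0) hPQ hQ (isZeroAtImInfty_slash g γ)
  have hall : ∀ γ : SL(2, ℤ), IsZeroAtImInfty (F ∣[(1 : ℤ)] γ) := by
    intro γ
    rcases lt_trichotomy (γ 1 0) 0 with h | h | h
    · have h1 : 0 < (-γ) 1 0 := by
        simp only [Matrix.SpecialLinearGroup.coe_neg, Matrix.neg_apply]
        omega
      have h2 := hpos (-γ) h1
      rw [slash_neg_one] at h2
      have h3 : IsZeroAtImInfty (-(-(F ∣[(1 : ℤ)] γ))) := h2.neg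
      rwa [neg_neg] at h3
    · exact hzero γ h
    · exact hpos γ h
  refine ⟨{ toFun := F
            slash_action_eq' := ?_
            holo' := hFhol
            zero_at_cusps' := ?_ }, hneb, hFE⟩
  · intro A hA
    obtain ⟨γ, hγ, rfl⟩ := Subgroup.mem_map.mp hA
    have h1 := hneb γ (Gamma1_in_Gamma0 M hγ)
    have hd : ((γ 1 1 : ℤ) : ZMod N) = 1 := by
      have := ((Gamma1_mem M γ).mp hγ).2.1
      have h2 := congrArg (ZMod.castHom hNM (ZMod N)) this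
      rwa [map_intCast, map_one] at h2
    rw [hd, map_one, one_smul] at h1
    exact h1
  · intro c hc
    rw [Subgroup.IsArithmetic.isCusp_iff_isCusp_SL2Z] at hc
    rw [OnePoint.isZeroAt_iff_forall_SL2Z hc]
    intro γ _
    exact hall γ

end Fermat.Agent.ES.R48.DivForm22
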