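/-
Programme R (S48), chapter RAT (helper22): product of a weight-one cusp form with nebentypus `ε`
and a weight-one modular form with nebentypus `χ`, `ε χ = 1` on `Γ₀(M')`:
a weight-two cusp form on `Γ₀(M')` with TRIVIAL character, `q`-expansion = product.
-/
import Mathlib
import Fermat.Prelude.Def_FLTPrelim_Modularity
import Fermat.Agent.ES.R48.RatIface22

set_option autoImplicit false

open CongruenceSubgroup UpperHalfPlane ModularForm Filter Topology Matrix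
open scoped MatrixGroups ModularForm

noncomputable section

namespace Fermat.Agent.ES.R48.MulNeben22

open Fermat.Agent.ES.R48.RatIface22

lemma isCusp_Gamma1_of_isCusp_Gamma0 {M M' : ℕ} [NeZero M] [NeZero M'] {c : OnePoint ℝ}
    (hc : IsCusp c ((Gamma0 M' : Subgroup SL(2, ℤ)) : Subgroup (GL (Fin 2) ℝ))) :
    IsCusp c ((Gamma1 M : Subgroup SL(2, ℤ)) : Subgroup (GL (Fin 2) ℝ)) := by
  rw [Subgroup.IsArithmetic.isCusp_iff_isCusp_SL2Z] at hc ⊢
  exact hc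

/-- the product form. -/
def mulNeben {M L M' N L₀ : ℕ} [NeZero M] [NeZero L] [NeZero M']
    {ε : DirichletCharacter ℂ N} {χ : DirichletCharacter ℂ L₀}
    (F : CuspForm (Gamma1 M) 1) (hF : HasNeben M ε 1 F)
    (E : ModularForm (Gamma1 L) 1) (hE : HasNeben L χ 1 E)
    (hM : Gamma0 M' ≤ Gamma0 M) (hL : Gamma0 M' ≤ Gamma0 L)
    (hεχ : ∀ γ : SL(2, ℤ), γ ∈ Gamma0 M' →
      ε ((γ 1 1 : ℤ) : ZMod N) * χ ((γ 1 1 : ℤ) : ZMod L₀) = 1) :
    CuspForm (Gamma0 M') 2 where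
  toFun := (⇑F : ℍ → ℂ) * ⇑E
  slash_action_eq' A hA := by
    obtain ⟨γ, hγ, rfl⟩ := Subgroup.mem_map.mp hA
    show ((⇑F : ℍ → ℂ) * ⇑E) ∣[(2 : ℤ)] γ = _
    rw [show (2 : ℤ) = 1 + 1 by norm_num, ModularForm.mul_slash_SL2, hF γ (hM hγ), hE γ (hL hγ)]
    ext z
    simp only [Pi.mul_apply, Pi.smul_apply, smul_eq_mul]
    linear_combination ((F z) * (E z)) * hεχ γ hγ
  holo' := F.holo'.mul E.holo'
  zero_at_cusps' {c} hc g hg := by
    have hF0 : IsZeroAtImInfty ((⇑F : ℍ → ℂ) ∣[(1 : ℤ)] g) :=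
      F.zero_at_cusps' (isCusp_Gamma1_of_isCusp_Gamma0 (M := M) hc) g hg
    have hE0 : IsBoundedAtImInfty ((⇑E : ℍ → ℂ) ∣[(1 : ℤ)] g) :=
      E.bdd_at_cusps' (isCusp_Gamma1_of_isCusp_Gamma0 (M := L) hc) g hg
    show IsZeroAtImInfty (((⇑F : ℍ → ℂ) * ⇑E) ∣[(2 : ℤ)] g)
    rw [show (2 : ℤ) = 1 + 1 by norm_num, ModularForm.mul_slash]
    exact (ZeroAtFilter.mul_boundedAtFilter hF0 hE0).smul _


section
variable {M L M' N L₀ : ℕ} [NeZero M] [NeZero L] [NeZero M']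
    {ε : DirichletCharacter ℂ N} {χ : DirichletCharacter ℂ L₀}
    (F : CuspForm (Gamma1 M) 1) (hF : HasNeben M ε 1 F)
    (E : ModularForm (Gamma1 L) 1) (hE : HasNeben L χ 1 E)
    (hM : Gamma0 M' ≤ Gamma0 M) (hL : Gamma0 M' ≤ Gamma0 L)
    (hεχ : ∀ γ : SL(2, ℤ), γ ∈ Gamma0 M' →
      ε ((γ 1 1 : ℤ) : ZMod N) * χ ((γ 1 1 : ℤ) : ZMod L₀) = 1)

lemma coe_mulNeben : (⇑(mulNeben F hF E hE hM hL hεχ) : ℍ → ℂ) = ⇑F * ⇑E := rfl

lemma mulNeben_apply (z : ℍ) : mulNeben F hF E hE hM hL hεχ z = F z * E z := rfl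

lemma one_mem_strictPeriods_Gamma1 (L : ℕ) :
    (1 : ℝ) ∈ ((Gamma1 L : Subgroup SL(2, ℤ)) : Subgroup (GL (Fin 2) ℝ)).strictPeriods := by
  simp [strictPeriods_Gamma1]

lemma qExpansion_mulNeben :
    qExpansion 1 (mulNeben F hF E hE hM hL hεχ) = qExpansion 1 F * qExpansion 1 E := by
  rw [coe_mulNeben]
  exact UpperHalfPlane.qExpansion_mul
    (ModularFormClass.analyticAt_cuspFunction_zero F one_pos (one_mem_strictPeriods_Gamma1 M))
    (ModularFormClass.analyticAt_cuspFunction_zero E one_pos (one_mem_strictPeriods_Gamma1 L))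

lemma qCoeff_mulNeben (n : ℕ) :
    ModularFormClass.qCoeff (mulNeben F hF E hE hM hL hεχ) n =
      ∑ ij ∈ Finset.HasAntidiagonal.antidiagonal n,
        ModularFormClass.qCoeff F ij.1 * ModularFormClass.qCoeff E ij.2 := by
  simp only [ModularFormClass.qCoeff]
  rw [qExpansion_mulNeben, PowerSeries.coeff_mul]

end

/-- `Γ₀(M') ≤ Γ₀(M)` when `M ∣ M'`. -/
lemma Gamma0_le_of_dvd {M M' : ℕ} (h : M ∣ M') : Gamma0 M' ≤ Gamma0 M := by
  intro γ hγ
  rw [Gamma0_mem] at hγ ⊢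
  have := congrArg (ZMod.castHom h (ZMod M)) hγ
  simpa using this

end Fermat.Agent.ES.R48.MulNeben22
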