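/-
Programme R (S48), chapter RAT (helper22): CONJUGATES.  If the depleted form `f♭` (nebentypus `ε`)
has `q`-coefficients in a subfield `K ⊆ ℂ` and `τ : K →+* ℂ`, then there is a weight-one CUSP form
`f_τ` on `Γ₁(M)` with nebentypus `ε' = τ∘ε` and `q`-coefficients `τ(a_n(f♭))`:
`g := f♭·E_χ`, `g_t := f♭·V_{t+1}E_χ` are conjugated inside `S₂(Γ₀(·))` (main's S23 via
`IntSpan19.exists_conj`), the identity `g_t·E_χ = g·V_{t+1}E_χ` is `τ`-stable (with `E_{χ'}`,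
`χ' = τ∘χ`), and the division lemma `DivForm22.exists_cuspForm_of_div` produces `f_τ = g^τ/E_{χ'}`.
-/
import Mathlib
import Fermat.Prelude.Def_FLTPrelim_Modularity
import Fermat.Prelude.Thm_UpperHalfPlane_eq_of_forall_qCoeff_eq
import Fermat.Agent.ES.R48.RatIface22
import Fermat.Agent.ES.R48.VtOp22
import Fermat.Agent.ES.R48.MulNeben22
import Fermat.Agent.ES.R48.DivForm22
import Fermat.Agent.ES.R48.IntSpan19

set_option autoImplicit false

open CongruenceSubgroup UpperHalfPlane ModularForm Filter Topology Matrix PowerSeries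
open scoped MatrixGroups ModularForm Manifold

noncomputable section

namespace Fermat.Agent.ES.R48.ConjOne22

open Fermat.Agent.ES.R48.RatIface22 Fermat.Agent.ES.R48.VtOp22 Fermat.Agent.ES.R48.MulNeben22
open Fermat.Agent.ES.R48.DivForm22 Fermat.Agent.ES.R48.IntSpan19

/-- a modular form on `Γ₁(L)` tends to its constant `q`-coefficient at `i∞`. -/
lemma tendsto_qCoeff_zero {L : ℕ} [NeZero L] (E : ModularForm (Gamma1 L) 1) :
    Tendsto (⇑E : ℍ → ℂ) atImInfty (𝓝 (ModularFormClass.qCoeff E 0)) := by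
  have hper : Function.Periodic ((⇑E : ℍ → ℂ) ∘ ofComplex) 1 :=
    SlashInvariantFormClass.periodic_comp_ofComplex E (by simp)
  have han : AnalyticAt ℂ (cuspFunction 1 (⇑E : ℍ → ℂ)) 0 :=
    ModularFormClass.analyticAt_cuspFunction_zero E one_pos (by simp)
  have h0 : ModularFormClass.qCoeff E 0 = cuspFunction 1 (⇑E : ℍ → ℂ) 0 := by
    simp [ModularFormClass.qCoeff, qExpansion_coeff]
  have hcomp : (cuspFunction 1 (⇑E : ℍ → ℂ) ∘ fun τ : ℍ => Function.Periodic.qParam 1 (τ : ℂ)) = ⇑E := by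
    funext τ
    simpa using eq_cuspFunction τ one_ne_zero hper
  rw [h0]
  have := han.continuousAt.tendsto.comp (qParam_tendsto_atImInfty one_pos)
  rwa [hcomp] at this


section prod

variable {M L : ℕ} (g : CuspForm (Gamma0 M) 2) (E : ModularForm (Gamma1 L) 1)

lemma prod_periodic : Function.Periodic (((⇑g : ℍ → ℂ) * ⇑E) ∘ ofComplex) 1 := by
  have h1 : Function.Periodic ((⇑g : ℍ → ℂ) ∘ ofComplex) 1 :=
    SlashInvariantFormClass.periodic_comp_ofComplex g (by simp)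
  have h2 : Function.Periodic ((⇑E : ℍ → ℂ) ∘ ofComplex) 1 :=
    SlashInvariantFormClass.periodic_comp_ofComplex E (by simp)
  intro w
  simp only [Function.comp_apply, Pi.mul_apply]
  have h1' := h1 w
  have h2' := h2 w
  simp only [Function.comp_apply] at h1' h2'
  rw [h1', h2']

lemma prod_mdiff : MDiff ((⇑g : ℍ → ℂ) * ⇑E) := g.holo'.mul E.holo'

lemma prod_bdd [NeZero M] [NeZero L] : IsBoundedAtImInfty ((⇑g : ℍ → ℂ) * ⇑E) :=
  BoundedAtFilter.mul (ModularFormClass.bdd_at_infty g) (ModularFormClass.bdd_at_infty E)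

lemma prod_qExp : qExpansion 1 ((⇑g : ℍ → ℂ) * ⇑E) = qExpansion 1 g * qExpansion 1 E :=
  UpperHalfPlane.qExpansion_mul
    (ModularFormClass.analyticAt_cuspFunction_zero g one_pos (by simp))
    (ModularFormClass.analyticAt_cuspFunction_zero E one_pos (by simp))

end prod

/-- equality of products of forms from equality of products of `q`-expansions. -/
lemma mul_eq_mul_of_qExp {M₁ M₂ L₁ L₂ : ℕ} [NeZero M₁] [NeZero M₂] [NeZero L₁] [NeZero L₂]
    (g₁ : CuspForm (Gamma0 M₁) 2) (E₁ : ModularForm (Gamma1 L₁) 1)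
    (g₂ : CuspForm (Gamma0 M₂) 2) (E₂ : ModularForm (Gamma1 L₂) 1)
    (h : qExpansion 1 g₁ * qExpansion 1 E₁ = qExpansion 1 g₂ * qExpansion 1 E₂) (z : ℍ) :
    g₁ z * E₁ z = g₂ z * E₂ z := by
  have key : (⇑g₁ : ℍ → ℂ) * ⇑E₁ = (⇑g₂ : ℍ → ℂ) * ⇑E₂ := by
    refine UpperHalfPlane.eq_of_forall_qCoeff_eq (prod_periodic g₁ E₁) (prod_mdiff g₁ E₁)
      (prod_bdd g₁ E₁) (prod_periodic g₂ E₂) (prod_mdiff g₂ E₂) (prod_bdd g₂ E₂) ?_
    intro n
    simp only [ModularFormClass.qCoeff]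
    rw [prod_qExp, prod_qExp, h]
  exact congrFun key z


/-- the `q`-coefficients of `E_χ` lie in `K` and are moved by `τ` to those of `E_{χ'}`. -/
lemma eis_coeff_conj {L : ℕ} {χ χ' : DirichletCharacter ℂ L} (ED : EisData L χ) (ED' : EisData L χ')
    (K : IntermediateField ℚ ℂ) (τ : K →+* ℂ)
    (hσK : ∀ n, sigmaChi χ n ∈ K) (hστ : ∀ n, sigmaChi χ' n = τ ⟨sigmaChi χ n, hσK n⟩)
    (hcK : eisConst χ ∈ K) (hcτ : eisConst χ' = τ ⟨eisConst χ, hcK⟩) :
    ∃ heK : ∀ n, ModularFormClass.qCoeff ED.E n ∈ K,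
      ∀ n, ModularFormClass.qCoeff ED'.E n = τ ⟨ModularFormClass.qCoeff ED.E n, heK n⟩ := by
  have heK : ∀ n, ModularFormClass.qCoeff ED.E n ∈ K := by
    intro n
    rcases Nat.eq_zero_or_pos n with rfl | hn
    · rw [ED.qCoeff_zero]; exact hcK
    · rw [ED.qCoeff_pos n hn]; exact hσK n
  refine ⟨heK, fun n => ?_⟩
  rcases Nat.eq_zero_or_pos n with rfl | hn
  · rw [ED'.qCoeff_zero, hcτ]
    congr 1
    exact Subtype.ext ED.qCoeff_zero.symm
  · rw [ED'.qCoeff_pos n hn, hστ n]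
    congr 1
    exact Subtype.ext (ED.qCoeff_pos n hn).symm


lemma neZero_mul_succ (M t : ℕ) [NeZero M] : NeZero (M * (t + 1)) :=
  ⟨Nat.mul_ne_zero (NeZero.ne M) (Nat.succ_ne_zero t)⟩

/-- `τ` of a Cauchy-product coefficient. -/
lemma conj_antidiagonal_sum (K : IntermediateField ℚ ℂ) (τ : K →+* ℂ) (a e : ℕ → ℂ)
    (haK : ∀ n, a n ∈ K) (heK : ∀ n, e n ∈ K) (n : ℕ) (x : ℂ) (hx : x ∈ K)
    (hxe : x = ∑ ij ∈ Finset.HasAntidiagonal.antidiagonal n, a ij.1 * e ij.2) :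
    τ ⟨x, hx⟩ = ∑ ij ∈ Finset.HasAntidiagonal.antidiagonal n,
      τ ⟨a ij.1, haK ij.1⟩ * τ ⟨e ij.2, heK ij.2⟩ := by
  have h1 : (⟨x, hx⟩ : K) = ∑ ij ∈ Finset.HasAntidiagonal.antidiagonal n,
      (⟨a ij.1, haK ij.1⟩ : K) * ⟨e ij.2, heK ij.2⟩ := by
    apply Subtype.ext
    push_cast
    exact hxe
  rw [h1, map_sum]
  refine Finset.sum_congr rfl fun ij _ => ?_
  rw [map_mul]

lemma sum_antidiagonal_mem (K : IntermediateField ℚ ℂ) (a e : ℕ → ℂ)
    (haK : ∀ n, a n ∈ K) (heK : ∀ n, e n ∈ K) (n : ℕ) :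
    ∑ ij ∈ Finset.HasAntidiagonal.antidiagonal n, a ij.1 * e ij.2 ∈ K :=
  K.sum_mem fun ij _ => K.mul_mem (haK ij.1) (heK ij.2)

/-- **The conjugate form.** -/
theorem exists_conj_cuspForm {M N L : ℕ} [NeZero M] [NeZero L] (hNM : N ∣ M) (hLM : L ∣ M)
    (ε ε' : DirichletCharacter ℂ N) (χ χ' : DirichletCharacter ℂ L)
    (fd : CuspForm (Gamma1 M) 1) (hfd : HasNeben M ε 1 fd)
    (hεχ : ∀ γ : SL(2, ℤ), γ ∈ Gamma0 M →
      ε ((γ 1 1 : ℤ) : ZMod N) * χ ((γ 1 1 : ℤ) : ZMod L) = 1)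
    (hεχ' : ∀ γ : SL(2, ℤ), γ ∈ Gamma0 M →
      ε' ((γ 1 1 : ℤ) : ZMod N) * χ' ((γ 1 1 : ℤ) : ZMod L) = 1)
    (ED : EisData L χ) (ED' : EisData L χ')
    (K : IntermediateField ℚ ℂ) (τ : K →+* ℂ)
    (hfK : ∀ n, ModularFormClass.qCoeff fd n ∈ K)
    (hσK : ∀ n, sigmaChi χ n ∈ K) (hστ : ∀ n, sigmaChi χ' n = τ ⟨sigmaChi χ n, hσK n⟩)
    (hcK : eisConst χ ∈ K) (hcτ : eisConst χ' = τ ⟨eisConst χ, hcK⟩) :
    ∃ fτ : CuspForm (Gamma1 M) 1, HasNeben M ε' 1 fτ ∧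
      ∀ n, ModularFormClass.qCoeff fτ n = τ ⟨ModularFormClass.qCoeff fd n, hfK n⟩ := by
  obtain ⟨heK, heτ⟩ := eis_coeff_conj ED ED' K τ hσK hστ hcK hcτ
  -- the `V_t` coefficient sequences
  have hVK : ∀ (t n : ℕ), ModularFormClass.qCoeff (Vt L (t + 1) ED.E) n ∈ K := by
    intro t n
    rw [qCoeff_Vt]
    split_ifs
    · exact heK _
    · exact K.zero_mem
  have hVτ : ∀ (t n : ℕ), ModularFormClass.qCoeff (Vt L (t + 1) ED'.E) n =
      τ ⟨ModularFormClass.qCoeff (Vt L (t + 1) ED.E) n, hVK t n⟩ := by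
    intro t n
    by_cases h : (t + 1) ∣ n
    · have h1 : (⟨ModularFormClass.qCoeff (Vt L (t + 1) ED.E) n, hVK t n⟩ : K) =
          ⟨ModularFormClass.qCoeff ED.E (n / (t + 1)), heK _⟩ :=
        Subtype.ext (by
          show ModularFormClass.qCoeff (Vt L (t + 1) ED.E) n = ModularFormClass.qCoeff ED.E _
          rw [qCoeff_Vt, if_pos h])
      rw [h1, qCoeff_Vt, if_pos h]
      exact heτ _
    · have h1 : (⟨ModularFormClass.qCoeff (Vt L (t + 1) ED.E) n, hVK t n⟩ : K) = 0 :=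
        Subtype.ext (by
          show ModularFormClass.qCoeff (Vt L (t + 1) ED.E) n = (0 : ℂ)
          rw [qCoeff_Vt, if_neg h])
      rw [h1, qCoeff_Vt, if_neg h, map_zero]
  -- the weight-two products
  have hML : Gamma0 M ≤ Gamma0 L := MulNeben22.Gamma0_le_of_dvd hLM
  set g : CuspForm (Gamma0 M) 2 := mulNeben fd hfd ED.E ED.neben le_rfl hML hεχ with hg
  have hMt : ∀ t : ℕ, Gamma0 (M * (t + 1)) ≤ Gamma0 M := fun t =>
    MulNeben22.Gamma0_le_of_dvd (Dvd.intro (t + 1) rfl)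
  have hLt : ∀ t : ℕ, Gamma0 (M * (t + 1)) ≤ Gamma0 (L * (t + 1)) := fun t =>
    MulNeben22.Gamma0_le_of_dvd (Nat.mul_dvd_mul_right hLM (t + 1))
  let gs : ∀ t : ℕ, CuspForm (Gamma0 (M * (t + 1))) 2 := fun t =>
    haveI := neZero_mul_succ M t
    haveI := neZero_mul_succ L t
    mulNeben fd hfd (Vt L (t + 1) ED.E) (Vt_neben L (t + 1) ED.E ED.neben) (hMt t) (hLt t)
      (fun γ hγ => hεχ γ (hMt t hγ))
  have hgK : ∀ n, ModularFormClass.qCoeff g n ∈ K := by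
    intro n
    rw [hg, qCoeff_mulNeben]
    exact sum_antidiagonal_mem K _ _ hfK heK n
  have hgsK : ∀ t n, ModularFormClass.qCoeff (gs t) n ∈ K := by
    intro t n
    have := neZero_mul_succ M t
    have := neZero_mul_succ L t
    show ModularFormClass.qCoeff (mulNeben fd hfd (Vt L (t + 1) ED.E)
      (Vt_neben L (t + 1) ED.E ED.neben) (hMt t) (hLt t) (fun γ hγ => hεχ γ (hMt t hγ))) n ∈ K
    rw [qCoeff_mulNeben]
    exact sum_antidiagonal_mem K _ _ hfK (hVK t) n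
  -- conjugate them inside `S₂(Γ₀(·))`
  obtain ⟨g', hg'⟩ := IntSpan19.exists_conj g K hgK τ
  have hex : ∀ t : ℕ, ∃ h : CuspForm (Gamma0 (M * (t + 1))) 2,
      ∀ n : ℕ, ModularFormClass.qCoeff h n = τ ⟨ModularFormClass.qCoeff (gs t) n, hgsK t n⟩ := by
    intro t
    have := neZero_mul_succ M t
    exact IntSpan19.exists_conj (gs t) K (hgsK t) τ
  choose gs' hgs' using hex
  -- their `q`-expansions
  set B : PowerSeries ℂ :=
    PowerSeries.mk fun n => τ ⟨ModularFormClass.qCoeff fd n, hfK n⟩ with hB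
  have hqg' : qExpansion 1 g' = B * qExpansion 1 ED'.E := by
    ext n
    have h1 : coeff n (qExpansion 1 g') = τ ⟨ModularFormClass.qCoeff g n, hgK n⟩ := hg' n
    rw [h1, PowerSeries.coeff_mul]
    rw [conj_antidiagonal_sum K τ _ _ hfK heK n _ (hgK n) (by rw [hg, qCoeff_mulNeben])]
    refine Finset.sum_congr rfl fun ij _ => ?_
    rw [hB, PowerSeries.coeff_mk]
    congr 1
    exact (heτ ij.2).symm
  have hqgs' : ∀ t, qExpansion 1 (gs' t) = B * qExpansion 1 (Vt L (t + 1) ED'.E) := by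
    intro t
    have := neZero_mul_succ M t
    have := neZero_mul_succ L t
    ext n
    have h1 : coeff n (qExpansion 1 (gs' t)) =
        τ ⟨ModularFormClass.qCoeff (gs t) n, hgsK t n⟩ := hgs' t n
    rw [h1, PowerSeries.coeff_mul]
    rw [conj_antidiagonal_sum K τ _ _ hfK (hVK t) n _ (hgsK t n) (by
      show ModularFormClass.qCoeff (mulNeben fd hfd (Vt L (t + 1) ED.E)
        (Vt_neben L (t + 1) ED.E ED.neben) (hMt t) (hLt t) (fun γ hγ => hεχ γ (hMt t hγ))) n = _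
      rw [qCoeff_mulNeben])]
    refine Finset.sum_congr rfl fun ij _ => ?_
    rw [hB, PowerSeries.coeff_mk]
    congr 1
    exact (hVτ t ij.2).symm
  -- the relation for the conjugates
  have hrel : ∀ (t : ℕ) (z : ℍ), gs' t z * ED'.E z = g' z * Vt L (t + 1) ED'.E z := by
    intro t z
    have := neZero_mul_succ M t
    have := neZero_mul_succ L t
    refine mul_eq_mul_of_qExp (gs' t) ED'.E g' (Vt L (t + 1) ED'.E) ?_ z
    rw [hqg', hqgs' t]
    ring
  have h0 : Tendsto (⇑ED'.E : ℍ → ℂ) atImInfty (𝓝 (eisConst χ')) := by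
    rw [← ED'.qCoeff_zero]
    exact tendsto_qCoeff_zero ED'.E
  obtain ⟨F, hF, hFE⟩ := exists_cuspForm_of_div hNM hLM ε' χ' hεχ' ED'.E ED'.neben
    ED'.eisConst_ne h0 ED'.cS_ne ED'.tendsto_S g' gs' hrel
  refine ⟨F, hF, fun n => ?_⟩
  -- cancel `qExp E'`
  have hfun : (⇑F : ℍ → ℂ) * ⇑ED'.E = ⇑g' := funext hFE
  have hq : qExpansion 1 F * qExpansion 1 ED'.E = B * qExpansion 1 ED'.E := by
    rw [← hqg', ← hfun]
    exact (UpperHalfPlane.qExpansion_mul
      (ModularFormClass.analyticAt_cuspFunction_zero F one_pos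
        (MulNeben22.one_mem_strictPeriods_Gamma1 M))
      (ModularFormClass.analyticAt_cuspFunction_zero ED'.E one_pos
        (MulNeben22.one_mem_strictPeriods_Gamma1 L))).symm
  have hE0 : qExpansion 1 ED'.E ≠ 0 := by
    intro h
    have h1 := ED'.qCoeff_zero
    simp only [ModularFormClass.qCoeff] at h1
    rw [h, map_zero] at h1
    exact ED'.eisConst_ne h1.symm
  have hFB : qExpansion 1 F = B := mul_right_cancel₀ hE0 hq
  show coeff n (qExpansion 1 F) = _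
  rw [hFB, hB, PowerSeries.coeff_mk]

end Fermat.Agent.ES.R48.ConjOne22
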