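/-
Programme R (S48, Deligne–Serre), chapter GEOM, sub-chapter G4, brick L1e (helper20):
**the function field `F1p-bar` of `Γ₁(M) ∩ Γ₀(p)` as a realised modular function field.**

`Ep M p = ℚbar · (F1 M ⊔ (F1 M)(q^p)) ≤ ℚbar((q))` is NOT of the form `F1bar M'`, so G2's dictionary
does not apply to it.  From an interface pair `(D : RealizeData1 M) (C : CuspData1 M D)` at level `M`
ONLY we build a `ModField20.ModData (M * p) (Ep M p)`:

* `R2 = ℚbar[α R₁, β R₁]` (`α` = inclusion, `β = (q ↦ q^p)`), `Ep = Frac R2` (`frac2`);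
* realisation: `α u ↦ Θ u`, `β u ↦ Θ u ∘ (p ·)`; expansions of `Θ u ∘ (p ·) ∘ γ` at every
  `γ ∈ SL(2,ℤ)` from main's Hermite normal form `p · γ z = γ' · ((a z + b)/e)` and the affine
  substitution lemma `isQExp_affine_level` applied to `C.spec γ' u`;
* invariance group `Γp = ±Γ₁(M) ∩ Γ₀(p)`; (dist) from the hypothesis `Dist1` (= G2's DISTINCT for
  `R₁`) and main's `CuspDistinct.mem_Gamma0_of_T_jdF_eq` at level `p` applied to `j(p z)`.
-/
import Mathlib
import Fermat.Agent.ES.R48.ModSer20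
import Fermat.Agent.ES.R48.X1Iface13
import Fermat.Agent.ES.R48.X1FracR1
import Fermat.Agent.ES.R48.X1Integrality1
import Fermat.Agent.X0.QExpAffine
import Fermat.Agent.X0.CuspGen
import Fermat.Agent.X0.CuspDistinct
import Fermat.Agent.X0.CuspExpand

set_option autoImplicit false
set_option linter.unusedSectionVars false

open ModularCurve UpperHalfPlane IntermediateField
open scoped MatrixGroups

noncomputable section

namespace Fermat.Agent.ES.R48.UpperField20

open Fermat.Agent.X0 Fermat.Agent.X0.Analytic Fermat.Agent.ES.R48.FF1Defs13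
  Fermat.Agent.ES.R48.X1Iface13 Fermat.Agent.ES.R48.ModField20 Fermat.Agent.ES.R48.ModSer20

variable (M p : ℕ) [NeZero M] [NeZero p]

/-! ### The field and its generating subalgebra -/

/-- `F1p-bar = ℚbar · F1p M p ≤ ℚbar((q))`. -/
abbrev Ep : IntermediateField Kbar (LaurentSeries Kbar) := laurentBaseChange Kbar (F1p M p)

/-- the degeneracy map `α` (inclusion). -/
abbrev alpha : FF1 M →ₐ[Kbar] Ep M p := heckeOneAlphaBar M p Kbar

/-- the degeneracy map `β` (`q ↦ q^p`). -/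
abbrev beta : FF1 M →ₐ[Kbar] Ep M p := heckeOneBetaBar M p Kbar

/-- the generators `α u`, `β u` (`u ∈ R₁`). -/
def gen2 : Set (Ep M p) :=
  {x | ∃ u : Rsub1 M, x = alpha M p (u : FF1 M)} ∪ {x | ∃ u : Rsub1 M, x = beta M p (u : FF1 M)}

/-- `R2 = ℚbar[α R₁, β R₁]`. -/
def R2 : Subalgebra Kbar (Ep M p) := Algebra.adjoin Kbar (gen2 M p)

theorem alpha_mem_R2 (u : Rsub1 M) : alpha M p (u : FF1 M) ∈ R2 M p :=
  Algebra.subset_adjoin (Or.inl ⟨u, rfl⟩)

theorem beta_mem_R2 (u : Rsub1 M) : beta M p (u : FF1 M) ∈ R2 M p :=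
  Algebra.subset_adjoin (Or.inr ⟨u, rfl⟩)

/-- `α u` as an element of `R2`. -/
def alphaR (u : Rsub1 M) : R2 M p := ⟨alpha M p (u : FF1 M), alpha_mem_R2 M p u⟩

/-- `β u` as an element of `R2`. -/
def betaR (u : Rsub1 M) : R2 M p := ⟨beta M p (u : FF1 M), beta_mem_R2 M p u⟩

@[simp] theorem coe_alphaR (u : Rsub1 M) :
    (((alphaR M p u : R2 M p) : Ep M p) : LaurentSeries Kbar) = ((u : FF1 M) : LaurentSeries Kbar) :=
  coe_heckeOneAlphaBar M p _

@[simp] theorem coe_betaR (u : Rsub1 M) :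
    (((betaR M p u : R2 M p) : Ep M p) : LaurentSeries Kbar)
      = qExpand Kbar p ((u : FF1 M) : LaurentSeries Kbar) :=
  coe_heckeOneBetaBar M p _

/-- the subfield generated by the generators contains `α F₁` and `β F₁`. -/
theorem alpha_mem_adjoin (a : FF1 M) :
    alpha M p a ∈ IntermediateField.adjoin Kbar (gen2 M p) := by
  obtain ⟨r, s, rfl⟩ := X1FracR1.exists_div M a
  rw [map_div₀]
  exact div_mem (subset_adjoin _ _ (Or.inl ⟨r, rfl⟩)) (subset_adjoin _ _ (Or.inl ⟨s, rfl⟩))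

theorem beta_mem_adjoin (a : FF1 M) :
    beta M p a ∈ IntermediateField.adjoin Kbar (gen2 M p) := by
  obtain ⟨r, s, rfl⟩ := X1FracR1.exists_div M a
  rw [map_div₀]
  exact div_mem (subset_adjoin _ _ (Or.inr ⟨r, rfl⟩)) (subset_adjoin _ _ (Or.inr ⟨s, rfl⟩))

/-- Every element of `F1 M` lands, after extending the coefficients, in `ℚbar(α R₁, β R₁)`. -/
theorem coeffEmb_mem_of_F1 {y : LaurentSeries ℚ} (hy : y ∈ F1 M) :
    coeffEmb Kbar y ∈ (IntermediateField.adjoin Kbar (gen2 M p)).map (Ep M p).val := by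
  rw [IntermediateField.mem_map]
  refine ⟨alpha M p ⟨coeffEmb Kbar y, coeffEmb_mem_laurentBaseChange Kbar hy⟩,
    alpha_mem_adjoin M p _, ?_⟩
  rw [IntermediateField.coe_val]
  exact coe_heckeOneAlphaBar M p _

theorem coeffEmb_mem_of_map {y : LaurentSeries ℚ} (hy : y ∈ F1 M) :
    coeffEmb Kbar (qExpand ℚ p y)
      ∈ (IntermediateField.adjoin Kbar (gen2 M p)).map (Ep M p).val := by
  rw [IntermediateField.mem_map]
  refine ⟨beta M p ⟨coeffEmb Kbar y, coeffEmb_mem_laurentBaseChange Kbar hy⟩,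
    beta_mem_adjoin M p _, ?_⟩
  rw [IntermediateField.coe_val, coeffEmb_qExpand13]
  exact coe_heckeOneBetaBar M p _

/-- Every element of `F1p M p` lands, after extending the coefficients, in `ℚbar(α R₁, β R₁)`. -/
theorem coeffEmb_mem_map2 {x : LaurentSeries ℚ} (hx : x ∈ F1p M p) :
    coeffEmb Kbar x ∈ (IntermediateField.adjoin Kbar (gen2 M p)).map (Ep M p).val := by
  unfold F1p at hx
  rw [IntermediateField.sup_def] at hx
  induction hx using IntermediateField.adjoin_induction with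
  | mem y hy =>
      rcases hy with hy | hy
      · exact coeffEmb_mem_of_F1 M p hy
      · obtain ⟨y', hy', rfl⟩ := hy
        exact coeffEmb_mem_of_map M p hy'
  | algebraMap r =>
      rw [Fermat.Agent.X0.FracR.coeffEmb_algebraMap]
      exact IntermediateField.algebraMap_mem _ _
  | add x y _ _ hx hy => rw [map_add]; exact add_mem hx hy
  | inv x _ hx => rw [map_inv₀]; exact inv_mem hx
  | mul x y _ _ hx hy => rw [map_mul]; exact mul_mem hx hy

theorem mem_adjoin_gen2 (y : Ep M p) : y ∈ IntermediateField.adjoin Kbar (gen2 M p) := by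
  have hle : Ep M p ≤ (IntermediateField.adjoin Kbar (gen2 M p)).map (Ep M p).val := by
    unfold Ep ModularCurve.laurentBaseChange
    rw [IntermediateField.adjoin_le_iff]
    rintro _ ⟨x, hx, rfl⟩
    exact coeffEmb_mem_map2 M p hx
  have hy := hle y.2
  rw [IntermediateField.mem_map] at hy
  obtain ⟨a, ha, hay⟩ := hy
  rw [IntermediateField.coe_val] at hay
  have : a = y := Subtype.ext hay
  rw [← this]
  exact ha

/-- **`F1p-bar = Frac R2`.** -/
theorem frac2 (y : Ep M p) : ∃ r s : R2 M p, y = (r : Ep M p) / (s : Ep M p) := by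
  obtain ⟨r, hr, s, hs, h⟩ := IntermediateField.mem_adjoin_iff_div.mp (mem_adjoin_gen2 M p y)
  exact ⟨⟨r, hr⟩, ⟨s, hs⟩, h⟩

/-- Induction principle for `R2`. -/
theorem R2_induction {P : R2 M p → Prop}
    (halpha : ∀ u : Rsub1 M, P (alphaR M p u))
    (hbeta : ∀ u : Rsub1 M, P (betaR M p u))
    (hconst : ∀ c : Kbar, P (algebraMap Kbar (R2 M p) c))
    (hadd : ∀ u v, P u → P v → P (u + v))
    (hmul : ∀ u v, P u → P v → P (u * v)) (u : R2 M p) : P u := by
  obtain ⟨x, hx⟩ := u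
  induction hx using Algebra.adjoin_induction with
  | mem y hy =>
      rcases hy with ⟨u, rfl⟩ | ⟨u, rfl⟩
      · exact halpha u
      · exact hbeta u
  | algebraMap c => exact hconst c
  | add x y hx hy ihx ihy => exact hadd ⟨x, hx⟩ ⟨y, hy⟩ ihx ihy
  | mul x y hx hy ihx ihy => exact hmul ⟨x, hx⟩ ⟨y, hy⟩ ihx ihy

/-! ### The affine substitution at an arbitrary level -/

section Affine

open Fermat.Agent.X0.Hermite Fermat.Agent.X0.QExpAffine

/-- **Affine substitution in `q_L`-expansions**: if `f` has the `q_L`-expansion `q_L^{-m} P`, then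
`z ↦ f ((a z + b)/e)` (`e L ∣ N`) has a `q_N`-expansion (generalises main's `isQExp_affine`, which
is the case `L = 1`). -/
theorem isQExp_affine_level {L : ℕ} [NeZero L] {f : ℍ → ℂ} {m : ℕ} {P : PowerSeries ℂ}
    (hf : IsQExp L f m P) {N a e : ℕ} [NeZero N] (b : ℤ) (ha : 0 < a) (he : 0 < e)
    (heN : e * L ∣ N) :
    IsQExp N (fun z => f (affH a e b ha he z)) (m * (a * (N / (e * L))))
      (affQ P m (a * (N / (e * L))) b (zetaC (e * L))) := by
  have hL : 0 < L := Nat.pos_of_ne_zero (NeZero.ne L)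
  have heL : 0 < e * L := Nat.mul_pos he hL
  have h1 : IsQExp 1 (fun z => f (scaleH L z)) m P := by
    intro z
    have := hf (scaleH L z)
    rw [intg_qh_scaleH] at this
    have hq1 : qh 1 z = qH z := by unfold qh qH; rw [Nat.cast_one]
    rw [hq1]
    exact this
  have h2 := isQExp_affine (N := N) h1 b ha heL heN
  have hfun : (fun z => f (scaleH L (affH a (e * L) b ha heL z)))
      = fun z => f (affH a e b ha he z) := by
    funext z
    congr 1
    apply UpperHalfPlane.ext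
    rw [coe_scaleH, coe_affH, coe_affH]
    have hLC : (L : ℂ) ≠ 0 := by exact_mod_cast hL.ne'
    have heC : (e : ℂ) ≠ 0 := by exact_mod_cast he.ne'
    push_cast
    field_simp
  rw [← hfun]
  exact h2

/-- the same over `ℚbar`, in existence form. -/
theorem exists_isQExp_affine_K {L : ℕ} [NeZero L] {f : ℍ → ℂ} {m : ℕ} {P : PowerSeries Kbar}
    (hf : IsQExp L f m (P.map iotaK)) {N a e : ℕ} [NeZero N] (b : ℤ) (ha : 0 < a) (he : 0 < e)
    (heN : e * L ∣ N) :
    ∃ (m' : ℕ) (P' : PowerSeries Kbar),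
      IsQExp N (fun z => f (affH a e b ha he z)) m' (P'.map iotaK) := by
  have hL : 0 < L := Nat.pos_of_ne_zero (NeZero.ne L)
  obtain ⟨ζ, hζ⟩ := CuspGen.exists_iotaK_eq_zetaC (Nat.mul_pos he hL)
  refine ⟨m * (a * (N / (e * L))), affQ P m (a * (N / (e * L))) b ζ, ?_⟩
  rw [affQ_map, hζ]
  exact isQExp_affine_level hf b ha he heN

theorem affH_one_one_zero (z : ℍ) : affH 1 1 0 one_pos one_pos z = z := by
  apply UpperHalfPlane.ext
  rw [coe_affH]
  simp

end Affine

/-- from an `IsQExp` datum over `ℚbar` to `IntgQN`. -/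
theorem intgQN_of_isQExp_K {N : ℕ} [NeZero N] {g : ℍ → ℂ} {m : ℕ} {P : PowerSeries Kbar}
    (h : IsQExp N g m (P.map iotaK)) : IntgQN N g (toC (laurentOf m P)) := by
  rw [toC, lor_coeffMap_laurentOf]
  exact intg_qn_of_isQExp N h

/-! ### The generators are modular series of level `M * p` -/

section Realise

variable (D : RealizeData1 M) (C : CuspData1 M D)

/-- the `q`-expansion of `Θ u` is `u`. -/
theorem hasQExp_Θ (u : Rsub1 M) :
    HasQExp (toC ((u : FF1 M) : LaurentSeries Kbar)) (D.Θ u) := by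
  obtain ⟨m, P, hP, hu⟩ := D.isQExp u
  rw [hu, toC, lor_coeffMap_laurentOf]
  exact intg_hasQExp_of_isQExp hP

include C in
theorem isMod_alpha (u : Rsub1 M) :
    IsMod (M * p) (((alphaR M p u : R2 M p) : Ep M p) : LaurentSeries Kbar) (D.Θ u) where
  hol := D.mem_HolH u
  qexp := by
    rw [coe_alphaR]
    exact hasQExp_Θ M D u
  cusp γ := by
    obtain ⟨m, P, hP, -⟩ := C.spec γ u
    obtain ⟨m', P', h'⟩ := exists_isQExp_affine_K hP (N := M * p) (a := 1) (e := 1) 0 one_pos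
      one_pos (by rw [one_mul]; exact dvd_mul_right M p)
    refine ⟨laurentOf m' P', ?_⟩
    have hfun : (fun z => compSL (D.Θ u) γ (Hermite.affH 1 1 0 one_pos one_pos z))
        = compSL (D.Θ u) γ := by
      funext z
      rw [affH_one_one_zero]
    rw [hfun] at h'
    exact intgQN_of_isQExp_K h'

include C in
theorem isMod_beta (u : Rsub1 M) :
    IsMod (M * p) (((betaR M p u : R2 M p) : Ep M p) : LaurentSeries Kbar)
      (fun z => D.Θ u (scaleH p z)) := by
  have hq : HasQExp (toC (((betaR M p u : R2 M p) : Ep M p) : LaurentSeries Kbar))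
      (fun z => D.Θ u (scaleH p z)) := by
    rw [coe_betaR, toC, Analytic.coeffMap_qExpand]
    exact (hasQExp_Θ M D u).qExpand p
  refine ⟨hq.mdifferentiable, hq, fun γ => ?_⟩
  obtain ⟨γ', a, e, b, ha, he, hae, -, -, -, hsm⟩ := Hermite.exists_scaleH_smul γ p
  obtain ⟨m, P, hP, -⟩ := C.spec γ' u
  have heN : e * M ∣ M * p := by
    rw [← hae]
    exact ⟨a, by ring⟩
  obtain ⟨m', P', h'⟩ := exists_isQExp_affine_K hP (N := M * p) b ha he heN
  refine ⟨laurentOf m' P', ?_⟩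
  have hfun : (fun z => compSL (D.Θ u) γ' (Hermite.affH a e b ha he z))
      = compSL (fun z => D.Θ u (scaleH p z)) γ := by
    funext z
    show D.Θ u (γ' • Hermite.affH a e b ha he z) = D.Θ u (scaleH p (γ • z))
    rw [hsm]
  rw [hfun] at h'
  exact intgQN_of_isQExp_K h'

include D C in
/-- every element of `R2` is a modular series of level `M * p`. -/
theorem hmod2 (u : R2 M p) :
    ∃ g : ℍ → ℂ, IsMod (M * p) ((u : Ep M p) : LaurentSeries Kbar) g := by
  induction u using R2_induction with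
  | halpha u => exact ⟨_, isMod_alpha M p D C u⟩
  | hbeta u => exact ⟨_, isMod_beta M p D C u⟩
  | hconst c => exact ⟨_, isMod_const c⟩
  | hadd u v hu hv =>
      obtain ⟨g, hg⟩ := hu
      obtain ⟨g', hg'⟩ := hv
      exact ⟨_, hg.add hg'⟩
  | hmul u v hu hv =>
      obtain ⟨g, hg⟩ := hu
      obtain ⟨g', hg'⟩ := hv
      exact ⟨_, hg.mul hg'⟩

/-- the realisation of `R2`. -/
def fn2 (u : R2 M p) : ℍ → ℂ := fn (R2 M p) (hmod2 M p D C) u

theorem fn2_alpha (u : Rsub1 M) : fn2 M p D C (alphaR M p u) = D.Θ u :=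
  fn_eq _ _ _ (isMod_alpha M p D C u)

theorem fn2_beta (u : Rsub1 M) :
    fn2 M p D C (betaR M p u) = fun z => D.Θ u (scaleH p z) :=
  fn_eq _ _ _ (isMod_beta M p D C u)

theorem fn2_add (u v : R2 M p) : fn2 M p D C (u + v) = fn2 M p D C u + fn2 M p D C v :=
  fn_add _ _ u v

theorem fn2_mul (u v : R2 M p) : fn2 M p D C (u * v) = fn2 M p D C u * fn2 M p D C v :=
  fn_mul _ _ u v

theorem fn2_algebraMap (c : Kbar) :
    fn2 M p D C (algebraMap Kbar (R2 M p) c) = fun _ => iotaK c :=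
  fn_algebraMap _ _ c

end Realise

/-! ### The invariance group `±Γ₁(M) ∩ Γ₀(p)` -/

theorem neg_apply' (γ : SL(2, ℤ)) (i j : Fin 2) : (-γ) i j = -(γ i j) := by
  rw [Matrix.SpecialLinearGroup.coe_neg, Matrix.neg_apply]

/-- entrywise description of `±Γ₁(M)`. -/
theorem mem_PG1_iff_entries {γ : SL(2, ℤ)} :
    γ ∈ PG1 M ↔ ∃ ε : ℤ, (ε = 1 ∨ ε = -1) ∧ ((ε * γ 0 0 : ℤ) : ZMod M) = 1 ∧
      ((ε * γ 1 1 : ℤ) : ZMod M) = 1 ∧ ((γ 1 0 : ℤ) : ZMod M) = 0 := by
  rw [mem_PG1_iff, CongruenceSubgroup.Gamma1_mem, CongruenceSubgroup.Gamma1_mem]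
  constructor
  · rintro (⟨h1, h2, h3⟩ | ⟨h1, h2, h3⟩)
    · exact ⟨1, Or.inl rfl, by rw [one_mul]; exact h1, by rw [one_mul]; exact h2, h3⟩
    · rw [neg_apply'] at h1 h2 h3
      refine ⟨-1, Or.inr rfl, by rw [neg_one_mul]; exact h1, by rw [neg_one_mul]; exact h2, ?_⟩
      rw [Int.cast_neg, neg_eq_zero] at h3
      exact h3
  · rintro ⟨ε, (rfl | rfl), h1, h2, h3⟩
    · left
      rw [one_mul] at h1 h2
      exact ⟨h1, h2, h3⟩
    · right
      rw [neg_apply', neg_apply', neg_apply']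
      rw [neg_one_mul] at h1 h2
      refine ⟨h1, h2, ?_⟩
      rw [Int.cast_neg, h3, neg_zero]

theorem conjMat_apply_00 (γ : SL(2, ℤ)) (d : ℕ) (hd : (d : ℤ) ∣ γ 1 0) :
    conjMat γ d hd 0 0 = γ 0 0 := rfl

theorem conjMat_apply_11 (γ : SL(2, ℤ)) (d : ℕ) (hd : (d : ℤ) ∣ γ 1 0) :
    conjMat γ d hd 1 1 = γ 1 1 := rfl

theorem conjMat_apply_10 (γ : SL(2, ℤ)) (d : ℕ) (hd : (d : ℤ) ∣ γ 1 0) :
    conjMat γ d hd 1 0 = γ 1 0 / d := rfl

/-- conjugation by `diag(p, 1)` preserves `±Γ₁(M)` (`p` prime to `M`). -/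
theorem conjMat_mem_PG1 (hpM : Nat.Coprime p M) {γ : SL(2, ℤ)} (hγ : γ ∈ PG1 M)
    (hd : (p : ℤ) ∣ γ 1 0) : conjMat γ p hd ∈ PG1 M := by
  rw [mem_PG1_iff_entries] at hγ ⊢
  obtain ⟨ε, hε, h1, h2, h3⟩ := hγ
  refine ⟨ε, hε, ?_, ?_, ?_⟩
  · rw [conjMat_apply_00]; exact h1
  · rw [conjMat_apply_11]; exact h2
  · rw [conjMat_apply_10]
    have h4 : ((p : ℤ) : ZMod M) * ((γ 1 0 / (p : ℤ) : ℤ) : ZMod M) = 0 := by
      rw [← Int.cast_mul, Int.mul_ediv_cancel' hd, h3]
    have hu : IsUnit ((p : ℤ) : ZMod M) := by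
      rw [Int.cast_natCast]
      exact (ZMod.isUnit_iff_coprime p M).mpr hpM
    exact (hu.mul_right_eq_zero).mp h4

/-- **`±Γ₁(M) ∩ Γ₀(p)`**, the invariance group of `F1p-bar`. -/
def Gp : Subgroup SL(2, ℤ) := PG1 M ⊓ CongruenceSubgroup.Gamma0 p

theorem mem_Gp_iff {γ : SL(2, ℤ)} :
    γ ∈ Gp M p ↔ γ ∈ PG1 M ∧ γ ∈ CongruenceSubgroup.Gamma0 p := Iff.rfl

theorem dvd_of_mem_Gamma0 {γ : SL(2, ℤ)} (hγ : γ ∈ CongruenceSubgroup.Gamma0 p) :
    (p : ℤ) ∣ γ 1 0 := by
  rw [CongruenceSubgroup.Gamma0_mem] at hγ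
  exact (ZMod.intCast_zmod_eq_zero_iff_dvd _ _).mp hγ

section Inv

variable (D : RealizeData1 M) (C : CuspData1 M D)

/-- (inv): the realisation of `R2` is invariant under `±Γ₁(M) ∩ Γ₀(p)`. -/
theorem inv2 (hpM : Nat.Coprime p M) (u : R2 M p) (γ : SL(2, ℤ)) (hγ : γ ∈ Gp M p) :
    compSL (fn2 M p D C u) γ = fn2 M p D C u := by
  induction u using R2_induction with
  | halpha u =>
      rw [fn2_alpha]
      exact X1Integrality1.invariant_PG1 M D u γ hγ.1
  | hbeta u =>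
      rw [fn2_beta]
      have hd : (p : ℤ) ∣ γ 1 0 := dvd_of_mem_Gamma0 p hγ.2
      funext z
      show D.Θ u (scaleH p (γ • z)) = D.Θ u (scaleH p z)
      rw [Analytic.scaleH_smul γ p hd z]
      exact congrFun (X1Integrality1.invariant_PG1 M D u _
        (conjMat_mem_PG1 M p hpM hγ.1 hd)) (scaleH p z)
  | hconst c =>
      rw [fn2_algebraMap]
      rfl
  | hadd u v hu hv => rw [fn2_add, compSL_add_fun, hu, hv]
  | hmul u v hu hv => rw [fn2_mul, compSL_mul_fun, hu, hv]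

/-- DISTINCT for `R₁` (G2's `CuspDistinct` twin, in analytic form): if all `Θ u ∘ γ = Θ u ∘ γ'`
then `γ' γ⁻¹ ∈ ±Γ₁(M)`. -/
def Dist1 : Prop :=
  ∀ γ γ' : SL(2, ℤ), (∀ u : Rsub1 M, compSL (D.Θ u) γ = compSL (D.Θ u) γ') → γ' * γ⁻¹ ∈ PG1 M

theorem scaleH_one (z : ℍ) : scaleH 1 z = z := by
  apply UpperHalfPlane.ext
  rw [coe_scaleH]
  simp

/-- (dist) for `R2`. -/
theorem dist2 (hdist : Dist1 M D) (γ γ' : SL(2, ℤ))
    (h : ∀ u : R2 M p, compSL (fn2 M p D C u) γ = compSL (fn2 M p D C u) γ') :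
    γ' * γ⁻¹ ∈ Gp M p := by
  refine ⟨hdist γ γ' fun u => ?_, ?_⟩
  · have := h (alphaR M p u)
    rwa [fn2_alpha] at this
  · have hj := h (betaR M p (jdR1 M 1 (one_dvd M)))
    rw [fn2_beta, D.jd_eq 1 (one_dvd M)] at hj
    have hfun : (fun z => jdFun 1 (scaleH p z)) = jdFun p := by
      funext z
      show jFun (scaleH 1 (scaleH p z)) = jFun (scaleH p z)
      rw [scaleH_one]
    rw [hfun] at hj
    apply CuspDistinct.mem_Gamma0_of_T_jdF_eq (realizeData p) (cuspData p) γ γ'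
    have h1 : ((jdR p p (dvd_refl p) : Rsub p) : FF p) = jdF p p (dvd_refl p) := rfl
    rw [← h1]
    apply intg_T_eq_of_qn
    rw [(realizeData p).jd_eq p (dvd_refl p), hj, ← (realizeData p).jd_eq p (dvd_refl p)]
    exact intg_T_spec p (realizeData p) (cuspData p) γ' _

/-- the formal `j` in `R2`. -/
def jR2 : R2 M p := alphaR M p (jdR1 M 1 (one_dvd M))

theorem coe_jR2 : (((jR2 M p : R2 M p) : Ep M p) : LaurentSeries Kbar) = jqK := by
  rw [jR2, coe_alphaR]
  show coeffEmb Kbar (qExpand ℚ 1 jq) = coeffEmb Kbar jq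
  rw [qExpand_one_apply]

/-- **`F1p-bar` as a realised modular function field** of level `M * p` with group
`±Γ₁(M) ∩ Γ₀(p)`. -/
def modDataP (hpM : Nat.Coprime p M) (hdist : Dist1 M D) : ModData (M * p) (Ep M p) :=
  modData (R2 M p) (hmod2 M p D C) (frac2 M p) (Gp M p)
    (fun u γ hγ => inv2 M p D C hpM u γ hγ)
    (fun γ γ' h => dist2 M p D C hdist γ γ' h)
    (jR2 M p) (coe_jR2 M p)

end Inv

end Fermat.Agent.ES.R48.UpperField20
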