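/-
Programme R (S48, Deligne–Serre), chapter GEOM, sub-chapter G4, brick L1e (helper20):
**the degrees of the two degeneracy maps `α, β : F1bar M → F1p-bar`** (`p` prime, `p ∤ M`, `3 ≤ M`):

  `finrankAlong ℚbar (heckeOneAlphaBar M p ℚbar) = p + 1`,  `0 < finrankAlong ℚbar (heckeOneBetaBar …)`.

* group theory: `[±Γ₁(M) : ±Γ₁(M) ∩ Γ₀(p)] = p + 1` — upper bound from `[SL₂(ℤ) : Γ₀(p)] = p + 1`
  (main's `G1Index.g1_index`), lower bound from the `p + 1` explicit elements `1`,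
  `(1 + M t, t; M, 1)` (`0 ≤ t < p`) of `Γ₁(M)`, pairwise inequivalent modulo `Γ₀(p)`;
* fields: `[F1p-bar : ℚbar(j)] = (±Γ₁(M) ∩ Γ₀(p)).index` (`UpperField20.modDataP` + `ModField20`),
  `[F1bar M : ℚbar(j)] = (±Γ₁(M)).index` (`X1Degree14`), and the tower law inside `ℚbar((q))`.
-/
import Mathlib
import Fermat.Agent.ES.R48.UpperField20
import Fermat.Agent.ES.R48.X1Degree14
import Fermat.Agent.ES.R48.X1CuspFinal29
import Fermat.Agent.ES.R48.WSlash29
import Fermat.Agent.X0.G1Index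
import Fermat.Agent.X0.FFConst
import Fermat.Agent.IG.PR.Counting20
import Fermat.Agent.ES.HECKE.AlongDegree25

set_option autoImplicit false
set_option linter.unusedSectionVars false

open ModularCurve UpperHalfPlane IntermediateField AlgebraicCurve
open scoped MatrixGroups

noncomputable section

namespace Fermat.Agent.ES.R48.DegreeLOne20

open Fermat.Agent.X0 Fermat.Agent.ES.R48.FF1Defs13
  Fermat.Agent.ES.R48.X1Iface13 Fermat.Agent.ES.R48.ModField20 Fermat.Agent.ES.R48.UpperField20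

/-! ### Group theory: `[±Γ₁(M) : ±Γ₁(M) ∩ Γ₀(p)] = p + 1` -/

section Group

variable (M p : ℕ) [NeZero M] [NeZero p]

/-- the lower left entry of `g⁻¹ g'`. -/
theorem inv_mul_apply_10 (g g' : SL(2, ℤ)) :
    (g⁻¹ * g') 1 0 = g 0 0 * g' 1 0 - g 1 0 * g' 0 0 := by
  rw [Matrix.SpecialLinearGroup.SL2_inv_expl, Matrix.SpecialLinearGroup.coe_mul]
  simp [Matrix.mul_apply, Fin.sum_univ_two]
  ring

/-- the matrix `(1 + M t, t; M, 1) ∈ Γ₁(M)`. -/
def gT (t : ℤ) : SL(2, ℤ) :=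
  ⟨!![1 + (M : ℤ) * t, t; (M : ℤ), 1], by rw [Matrix.det_fin_two_of]; ring⟩

theorem gT_00 (t : ℤ) : gT M t 0 0 = 1 + (M : ℤ) * t := rfl
theorem gT_10 (t : ℤ) : gT M t 1 0 = (M : ℤ) := rfl
theorem gT_11 (t : ℤ) : gT M t 1 1 = 1 := rfl

theorem gT_mem_Gamma1 (t : ℤ) : gT M t ∈ CongruenceSubgroup.Gamma1 M := by
  rw [CongruenceSubgroup.Gamma1_mem, gT_00, gT_10, gT_11]
  refine ⟨?_, ?_, ?_⟩
  · push_cast
    rw [ZMod.natCast_self, zero_mul, add_zero]
  · exact Int.cast_one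
  · rw [Int.cast_natCast, ZMod.natCast_self]

theorem gT_mem_PG1 (t : ℤ) : gT M t ∈ PG1 M := Gamma1_le_PG1 M (gT_mem_Gamma1 M t)

/-- the `p + 1` representatives. -/
def repG : Option (Fin p) → PG1 M
  | none => 1
  | some t => ⟨gT M (t : ℕ), gT_mem_PG1 M _⟩

theorem not_dvd_of_coprime (hp1 : p ≠ 1) (hpM : Nat.Coprime p M) : ¬ p ∣ M := fun h =>
  hp1 (Nat.Coprime.eq_one_of_dvd hpM h)

theorem not_int_dvd_of_coprime (hp1 : p ≠ 1) (hpM : Nat.Coprime p M) : ¬ (p : ℤ) ∣ (M : ℤ) :=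
  fun h => not_dvd_of_coprime M p hp1 hpM (Int.natCast_dvd_natCast.mp h)

theorem dvd_of_mem_Gamma0 {γ : SL(2, ℤ)} (hγ : γ ∈ CongruenceSubgroup.Gamma0 p) :
    (p : ℤ) ∣ γ 1 0 := UpperField20.dvd_of_mem_Gamma0 p hγ

/-- the representatives are pairwise inequivalent modulo `Γ₀(p)`. -/
theorem repG_injective (hp1 : p ≠ 1) (hpM : Nat.Coprime p M) :
    Function.Injective (fun i : Option (Fin p) =>
      ((repG M p i : PG1 M) : PG1 M ⧸ (CongruenceSubgroup.Gamma0 p).subgroupOf (PG1 M))) := by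
  intro i j hij
  have hmem : (((repG M p i)⁻¹ * repG M p j : PG1 M) : SL(2, ℤ)) ∈ CongruenceSubgroup.Gamma0 p :=
    Subgroup.mem_subgroupOf.mp (QuotientGroup.eq.mp hij)
  rw [Subgroup.coe_mul, Subgroup.coe_inv] at hmem
  have hdvd := dvd_of_mem_Gamma0 p hmem
  rw [inv_mul_apply_10] at hdvd
  have hnd := not_int_dvd_of_coprime M p hp1 hpM
  rcases i with _ | t <;> rcases j with _ | t'
  · rfl
  · exfalso
    apply hnd
    have h1 : ((repG M p none : PG1 M) : SL(2, ℤ)) = 1 := rfl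
    have h2 : ((repG M p (some t') : PG1 M) : SL(2, ℤ)) = gT M ((t' : ℕ) : ℤ) := rfl
    rw [h1, h2, gT_00, gT_10, Matrix.SpecialLinearGroup.coe_one, Matrix.one_apply_eq,
      Matrix.one_apply_ne (by decide : (1 : Fin 2) ≠ 0), one_mul, zero_mul, sub_zero] at hdvd
    exact hdvd
  · exfalso
    apply hnd
    have h1 : ((repG M p none : PG1 M) : SL(2, ℤ)) = 1 := rfl
    have h2 : ((repG M p (some t) : PG1 M) : SL(2, ℤ)) = gT M ((t : ℕ) : ℤ) := rfl
    rw [h1, h2, gT_00, gT_10, Matrix.SpecialLinearGroup.coe_one, Matrix.one_apply_eq,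
      Matrix.one_apply_ne (by decide : (1 : Fin 2) ≠ 0), mul_zero, mul_one, zero_sub,
      dvd_neg] at hdvd
    exact hdvd
  · have h1 : ((repG M p (some t) : PG1 M) : SL(2, ℤ)) = gT M ((t : ℕ) : ℤ) := rfl
    have h2 : ((repG M p (some t') : PG1 M) : SL(2, ℤ)) = gT M ((t' : ℕ) : ℤ) := rfl
    rw [h1, h2, gT_00, gT_10, gT_00, gT_10] at hdvd
    have he : (1 + (M : ℤ) * ((t : ℕ) : ℤ)) * (M : ℤ) - (M : ℤ) * (1 + (M : ℤ) * ((t' : ℕ) : ℤ))
        = (((t : ℕ) : ℤ) - ((t' : ℕ) : ℤ)) * ((M : ℤ) * (M : ℤ)) := by ring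
    rw [he] at hdvd
    have hcop : IsCoprime (p : ℤ) (M : ℤ) := Nat.isCoprime_iff_coprime.mpr hpM
    have hd2 : (p : ℤ) ∣ ((t : ℕ) : ℤ) - ((t' : ℕ) : ℤ) :=
      (hcop.mul_right hcop).dvd_of_dvd_mul_right hdvd
    have hlt : |((t : ℕ) : ℤ) - ((t' : ℕ) : ℤ)| < (p : ℤ) := by
      have ht := t.2
      have ht' := t'.2
      rw [abs_lt]
      constructor <;> omega
    have h0 := Int.eq_zero_of_abs_lt_dvd hd2 hlt
    have : (t : ℕ) = (t' : ℕ) := by omega
    rw [Fin.ext this]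

/-- `p + 1 ≤ [±Γ₁(M) : ±Γ₁(M) ∩ Γ₀(p)]`. -/
theorem succ_le_relIndex (hp1 : p ≠ 1) (hpM : Nat.Coprime p M) :
    p + 1 ≤ (CongruenceSubgroup.Gamma0 p).relIndex (PG1 M) := by
  have h := Nat.card_le_card_of_injective _ (repG_injective M p hp1 hpM)
  rw [Nat.card_eq_fintype_card, Fintype.card_option, Fintype.card_fin] at h
  exact h

/-- **`[SL₂(ℤ) : ±Γ₁(M) ∩ Γ₀(p)] = (p + 1) · [SL₂(ℤ) : ±Γ₁(M)]`**, `p` prime, `p ∤ M`. -/
theorem index_Gp (hp : p.Prime) (hpM : Nat.Coprime p M) :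
    (Gp M p).index = (p + 1) * (PG1 M).index := by
  have := X1Degree14.finiteIndex_PG1 M
  have h1 : (CongruenceSubgroup.Gamma0 p).relIndex (PG1 M) * (PG1 M).index = (Gp M p).index := by
    rw [← Subgroup.inf_relIndex_left (PG1 M) (CongruenceSubgroup.Gamma0 p)]
    exact Subgroup.relIndex_mul_index inf_le_left
  have h2 : (Gp M p).index ≤ (PG1 M).index * (p + 1) := by
    have := Subgroup.index_inf_le (H := PG1 M) (K := CongruenceSubgroup.Gamma0 p)
    rwa [G1Index.g1_index p, Fermat.Agent.IG.PR.Counting20.psi_prime hp] at this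
  have h3 : 0 < (PG1 M).index := Nat.pos_of_ne_zero Subgroup.FiniteIndex.index_ne_zero
  have h4 : (CongruenceSubgroup.Gamma0 p).relIndex (PG1 M) ≤ p + 1 := by
    rw [← h1, mul_comm] at h2
    exact Nat.le_of_mul_le_mul_left h2 h3
  have h5 := succ_le_relIndex M p hp.ne_one hpM
  rw [← h1, le_antisymm h4 h5]

end Group

/-! ### Degrees inside an ambient field -/

section Generic

variable {K L : Type*} [Field K] [Field L] [Algebra K L]

/-- `[E : K(x)]` as a relative degree in the ambient field. -/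
theorem finrank_adjoin_eq_relfinrank (E : IntermediateField K L) (x : E) :
    Module.finrank (IntermediateField.adjoin K {x}) E
      = relfinrank (IntermediateField.adjoin K {(x : L)}) E := by
  rw [← relfinrank_top_right, ← relfinrank_map_map _ _ E.val, adjoin_map, Set.image_singleton,
    ← AlgHom.fieldRange_eq_map, fieldRange_val]
  rfl

end Generic

/-! ### The degree of `α` -/

section Alpha

variable (M p : ℕ) [NeZero M] [NeZero p] (D : RealizeData1 M) (C : CuspData1 M D)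

/-- `deg α = [ℚbar·F1p : ℚbar·F1]`. -/
theorem finrankAlong_alpha_eq :
    finrankAlong Kbar (heckeOneAlphaBar M p Kbar)
      = relfinrank (F1bar M) (Ep M p) := by
  rw [Fermat.Agent.ES.HECKE.AlongDegree25.finrankAlong_eq_relfinrank _ _
    (heckeOneAlphaBar M p Kbar) (AlgHom.id Kbar (LaurentSeries Kbar))
    (fun a => by rw [coe_heckeOneAlphaBar]; rfl), IntermediateField.map_id]

/-- `deg β = [ℚbar·F1p : (ℚbar·F1)(q^p)]`. -/
theorem finrankAlong_beta_eq :
    finrankAlong Kbar (heckeOneBetaBar M p Kbar)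
      = relfinrank ((F1bar M).map (qExpandAlgHomC Kbar p)) (Ep M p) :=
  Fermat.Agent.ES.HECKE.AlongDegree25.finrankAlong_eq_relfinrank _ _
    (heckeOneBetaBar M p Kbar) (qExpandAlgHomC Kbar p)
    (fun a => by rw [coe_heckeOneBetaBar, qExpandAlgHomC_apply])

theorem F1bar_le_Ep : F1bar M ≤ Ep M p := laurentBaseChange_mono13 Kbar (F1_le_F1p M p)

theorem jqK_mem_F1bar : jqK ∈ F1bar M := by
  rw [← X1Degree14.coe_jF1 M]
  exact (jF1 M).2

include C in
/-- DISTINCT for `R₁` (helper14), in the shape consumed by `UpperField20.modDataP`. -/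
theorem dist1 (hM : 3 ≤ M) (hW : WSlash M) : Dist1 M D :=
  fun γ γ' h => X1Distinct14.mem_PG1_of_compSL_eq M D C hM hW γ γ' h

/-- the realised modular function field `F1p-bar`. -/
def modP (hM : 3 ≤ M) (hW : WSlash M) (hpM : Nat.Coprime p M) : ModData (M * p) (Ep M p) :=
  modDataP M p D C hpM (dist1 M D C hM hW)

theorem finiteIndex_Gp : (Gp M p).FiniteIndex := by
  have := X1Degree14.finiteIndex_PG1 M
  unfold Gp
  infer_instance

include D C in
/-- `[F1p-bar : ℚbar(j)] = (±Γ₁(M) ∩ Γ₀(p)).index`. -/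
theorem relfinrank_Kj_Ep (hM : 3 ≤ M) (hW : WSlash M) (hpM : Nat.Coprime p M) :
    relfinrank (IntermediateField.adjoin Kbar {jqK}) (Ep M p) = (Gp M p).index := by
  have hfi : (modP M p D C hM hW hpM).Γ.FiniteIndex := finiteIndex_Gp M p
  have h1 : Module.finrank (modP M p D C hM hW hpM).Kj (Ep M p) = (Gp M p).index :=
    (modP M p D C hM hW hpM).finrank_eq_index
  rw [← h1, ← (modP M p D C hM hW hpM).coe_jR]
  exact (finrank_adjoin_eq_relfinrank (Ep M p) _).symm

include D C in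
/-- `[F1bar M : ℚbar(j)] = (±Γ₁(M)).index`. -/
theorem relfinrank_Kj_F1bar (hM : 3 ≤ M) (hW : WSlash M) :
    relfinrank (IntermediateField.adjoin Kbar {jqK}) (F1bar M) = (PG1 M).index := by
  rw [← X1Degree14.finrank_Kj1 M D C hM hW, ← X1Degree14.coe_jF1 M]
  exact (finrank_adjoin_eq_relfinrank (F1bar M) (jF1 M)).symm

include D C in
/-- **`deg α = p + 1`.** -/
theorem finrankAlong_alpha (hM : 3 ≤ M) (hW : WSlash M) (hp : p.Prime) (hpM : Nat.Coprime p M) :
    finrankAlong Kbar (heckeOneAlphaBar M p Kbar) = p + 1 := by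
  have := X1Degree14.finiteIndex_PG1 M
  have hle : IntermediateField.adjoin Kbar {jqK} ≤ F1bar M := by
    rw [IntermediateField.adjoin_le_iff, Set.singleton_subset_iff]
    exact jqK_mem_F1bar M
  have h := relfinrank_mul_relfinrank hle (F1bar_le_Ep M p)
  rw [relfinrank_Kj_Ep M p D C hM hW hpM, relfinrank_Kj_F1bar M D C hM hW, index_Gp M p hp hpM,
    mul_comm] at h
  rw [finrankAlong_alpha_eq]
  exact Nat.eq_of_mul_eq_mul_right (Nat.pos_of_ne_zero Subgroup.FiniteIndex.index_ne_zero) h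

/-! ### The degree of `β` is positive -/

theorem map_qExpand_le_Ep : (F1bar M).map (qExpandAlgHomC Kbar p) ≤ Ep M p :=
  Fermat.Agent.ES.HECKE.AlongDegree25.map_le_of_restrict _ _ (heckeOneBetaBar M p Kbar)
    (qExpandAlgHomC Kbar p) (fun a => by rw [coe_heckeOneBetaBar, qExpandAlgHomC_apply])

theorem transcendental_beta_j :
    Transcendental Kbar (heckeOneBetaBar M p Kbar (jF1 M)) := fun h =>
  X1Degree14.transcendental_jF1 M
    ((isAlgebraic_algHom_iff (heckeOneBetaBar M p Kbar) (heckeOneBetaBar M p Kbar).injective).mp h)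

include D C in
/-- `j(q^p)` is a transcendental generator of `F1p-bar`. -/
theorem isGen_beta_j (hM : 3 ≤ M) (hW : WSlash M) (hpM : Nat.Coprime p M) :
    FF.IsGen Kbar (heckeOneBetaBar M p Kbar (jF1 M)) := by
  have hfi : (modP M p D C hM hW hpM).Γ.FiniteIndex := finiteIndex_Gp M p
  exact (modP M p D C hM hW hpM).isGen.of_transcendental (transcendental_beta_j M p)

include D C in
/-- `j` is a transcendental generator of `F1p-bar`. -/
theorem isGen_alpha_j (hM : 3 ≤ M) (hW : WSlash M) (hpM : Nat.Coprime p M) :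
    FF.IsGen Kbar (heckeOneAlphaBar M p Kbar (jF1 M)) := by
  have hfi : (modP M p D C hM hW hpM).Γ.FiniteIndex := finiteIndex_Gp M p
  have h := (modP M p D C hM hW hpM).isGen
  have he : (((modP M p D C hM hW hpM).jR : (modP M p D C hM hW hpM).R) : Ep M p)
      = heckeOneAlphaBar M p Kbar (jF1 M) := by
    apply Subtype.ext
    rw [(modP M p D C hM hW hpM).coe_jR, coe_heckeOneAlphaBar, X1Degree14.coe_jF1]
  rwa [he] at h

include D C in
/-- **`0 < deg β`.** -/
theorem finrankAlong_beta_pos (hM : 3 ≤ M) (hW : WSlash M) (hpM : Nat.Coprime p M) :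
    0 < finrankAlong Kbar (heckeOneBetaBar M p Kbar) := by
  have hgen := isGen_beta_j M p D C hM hW hpM
  have hfd := hgen.finite
  have hpos : 0 < Module.finrank
      (IntermediateField.adjoin Kbar {heckeOneBetaBar M p Kbar (jF1 M)}) (Ep M p) :=
    Module.finrank_pos
  rw [finrank_adjoin_eq_relfinrank] at hpos
  have hle : IntermediateField.adjoin Kbar
      {((heckeOneBetaBar M p Kbar (jF1 M) : Ep M p) : LaurentSeries Kbar)}
        ≤ (F1bar M).map (qExpandAlgHomC Kbar p) := by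
    rw [IntermediateField.adjoin_le_iff, Set.singleton_subset_iff]
    exact ⟨(jF1 M : LaurentSeries Kbar), (jF1 M).2, by
      rw [coe_heckeOneBetaBar]; rfl⟩
  have h := relfinrank_mul_relfinrank hle (map_qExpand_le_Ep M p)
  rw [finrankAlong_beta_eq]
  rw [← h] at hpos
  exact Nat.pos_of_mul_pos_left hpos

include D C in
theorem finrankAlong_alpha_pos (hM : 3 ≤ M) (hW : WSlash M) (hp : p.Prime)
    (hpM : Nat.Coprime p M) : 0 < finrankAlong Kbar (heckeOneAlphaBar M p Kbar) := by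
  rw [finrankAlong_alpha M p D C hM hW hp hpM]
  exact Nat.succ_pos p

include D C in
/-- `α` is finite. -/
theorem finiteAlong_alpha (hM : 3 ≤ M) (hW : WSlash M) (hp : p.Prime) (hpM : Nat.Coprime p M) :
    FiniteAlong Kbar (heckeOneAlphaBar M p Kbar) :=
  Fermat.Agent.ES.HECKE.AlongDegree25.finiteAlong_of_finrankAlong_pos _
    (finrankAlong_alpha_pos M p D C hM hW hp hpM)

include D C in
/-- `β` is finite. -/
theorem finiteAlong_beta (hM : 3 ≤ M) (hW : WSlash M) (hpM : Nat.Coprime p M) :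
    FiniteAlong Kbar (heckeOneBetaBar M p Kbar) :=
  Fermat.Agent.ES.HECKE.AlongDegree25.finiteAlong_of_finrankAlong_pos _
    (finrankAlong_beta_pos M p D C hM hW hpM)

end Alpha

/-! ### Unconditional forms (G2's interface pair plugged in) -/

section Final

variable (M p : ℕ) [NeZero M] [NeZero p]

omit [NeZero M] in
theorem ne_one_of_three_le (hM : 3 ≤ M) : M ≠ 1 := by omega

omit [NeZero M] [NeZero p] in
theorem coprime_of_prime_not_dvd (hp : p.Prime) (hpM : ¬ p ∣ M) : Nat.Coprime p M :=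
  (Nat.Prime.coprime_iff_not_dvd hp).mpr hpM

/-- **`deg α = p + 1`** for `3 ≤ M`, `p` prime, `p ∤ M`. -/
theorem finrankAlong_alphaOne (hM : 3 ≤ M) (hp : p.Prime) (hpM : ¬ p ∣ M) :
    finrankAlong Kbar (heckeOneAlphaBar M p Kbar) = p + 1 :=
  finrankAlong_alpha M p (X1RealizeFinal29.realizeData1 M (ne_one_of_three_le M hM))
    (X1CuspFinal29.cuspData1 M (ne_one_of_three_le M hM)) hM (WSlash29.wSlash M) hp
    (coprime_of_prime_not_dvd M p hp hpM)

theorem finrankAlong_alphaOne_pos (hM : 3 ≤ M) (hp : p.Prime) (hpM : ¬ p ∣ M) :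
    0 < finrankAlong Kbar (heckeOneAlphaBar M p Kbar) := by
  rw [finrankAlong_alphaOne M p hM hp hpM]
  exact Nat.succ_pos p

/-- **`0 < deg β`** for `3 ≤ M`, `p` prime, `p ∤ M`. -/
theorem finrankAlong_betaOne_pos (hM : 3 ≤ M) (hp : p.Prime) (hpM : ¬ p ∣ M) :
    0 < finrankAlong Kbar (heckeOneBetaBar M p Kbar) :=
  finrankAlong_beta_pos M p (X1RealizeFinal29.realizeData1 M (ne_one_of_three_le M hM))
    (X1CuspFinal29.cuspData1 M (ne_one_of_three_le M hM)) hM (WSlash29.wSlash M)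
    (coprime_of_prime_not_dvd M p hp hpM)

theorem finiteAlong_alphaOne (hM : 3 ≤ M) (hp : p.Prime) (hpM : ¬ p ∣ M) :
    FiniteAlong Kbar (heckeOneAlphaBar M p Kbar) :=
  Fermat.Agent.ES.HECKE.AlongDegree25.finiteAlong_of_finrankAlong_pos _
    (finrankAlong_alphaOne_pos M p hM hp hpM)

theorem finiteAlong_betaOne (hM : 3 ≤ M) (hp : p.Prime) (hpM : ¬ p ∣ M) :
    FiniteAlong Kbar (heckeOneBetaBar M p Kbar) :=
  Fermat.Agent.ES.HECKE.AlongDegree25.finiteAlong_of_finrankAlong_pos _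
    (finrankAlong_betaOne_pos M p hM hp hpM)

/-- `j` is a transcendental generator of `F1p-bar`. -/
theorem isGen_alphaOne_j (hM : 3 ≤ M) (hp : p.Prime) (hpM : ¬ p ∣ M) :
    FF.IsGen Kbar (heckeOneAlphaBar M p Kbar (jF1 M)) :=
  isGen_alpha_j M p (X1RealizeFinal29.realizeData1 M (ne_one_of_three_le M hM))
    (X1CuspFinal29.cuspData1 M (ne_one_of_three_le M hM)) hM (WSlash29.wSlash M)
    (coprime_of_prime_not_dvd M p hp hpM)

end Final

end Fermat.Agent.ES.R48.DegreeLOne20
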