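/-
Programme R (S48, Deligne–Serre), chapter GEOM, sub-chapter G4, brick L1e (helper20):
**the compressed expansion `W` of `F1p-bar` at the cusp `1/M`** and hence (NORM-α₁).

For `p ∤ M` choose `b₀, d₁ ∈ ℤ` with `p d₁ - M b₀ = 1` and put
`γ₀ = (1, b₀; M, p d₁) ∈ Γ₁(M)`, `γ' = (p, b₀; M, d₁) ∈ Γ₀(M)`; then `p · γ₀ z = γ' (z / p)`.  Let
`A = DegreeLOne20.modP : ModData (M p) (Ep M p)`.  The expansion map `A.T γ₀` takes its values in
the series in `q_{Mp}^M = q_p`: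

* `A.T γ₀ (α u) = u(q_{Mp}^{Mp})` (`γ₀ ∈ Γ₁(M)`),
* `A.T γ₀ (β u) = (⟨p⟩ u)(q_{Mp}^M)` (`Θ u (p γ₀ z) = (Θ u ∘ γ')(z/p) = Θ (⟨p⟩ u)(z/p)`,
  `X1Diamond11.Θ_diaR`),

so `W := (q ↦ q^M)⁻¹ ∘ A.T γ₀ : Ep M p →+* ℚbar((q))` satisfies
`W (α a) = a(q^p)`, `W (β f) = ⟨p⟩ f`, the hypotheses of `ConjAlphaOne24.normConj1_of_W`.
-/
import Mathlib
import Fermat.Agent.ES.R48.DegreeLOne20
import Fermat.Agent.ES.R48.X1DiamondFinal11
import Fermat.Agent.ES.R48.ConjAlphaOne24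
import Fermat.Agent.ES.R48.GeomIface13
import Fermat.Agent.X0.HermiteFull

set_option autoImplicit false
set_option linter.unusedSectionVars false

open ModularCurve UpperHalfPlane IntermediateField AlgebraicCurve
open scoped MatrixGroups

noncomputable section

namespace Fermat.Agent.ES.R48.ConjugatesOne20

open Fermat.Agent.X0 Fermat.Agent.X0.Analytic Fermat.Agent.ES.R48.FF1Defs13
  Fermat.Agent.ES.R48.X1Iface13 Fermat.Agent.ES.R48.ModField20 Fermat.Agent.ES.R48.UpperField20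
  Fermat.Agent.ES.R48.DegreeLOne20 Fermat.Agent.ES.R48.JOneOps13

/-! ### The two matrices -/

section Matrices

variable (M p : ℕ) (b₀ d₁ : ℤ) (h : (p : ℤ) * d₁ - (M : ℤ) * b₀ = 1)

/-- `γ₀ = (1, b₀; M, p d₁)`. -/
def gam0 : SL(2, ℤ) :=
  ⟨!![1, b₀; (M : ℤ), (p : ℤ) * d₁], by rw [Matrix.det_fin_two_of]; linear_combination h⟩

/-- `γ' = (p, b₀; M, d₁)`. -/
def gam1 : SL(2, ℤ) :=
  ⟨!![(p : ℤ), b₀; (M : ℤ), d₁], by rw [Matrix.det_fin_two_of]; linear_combination h⟩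

theorem gam0_00 : gam0 M p b₀ d₁ h 0 0 = 1 := rfl
theorem gam0_01 : gam0 M p b₀ d₁ h 0 1 = b₀ := rfl
theorem gam0_10 : gam0 M p b₀ d₁ h 1 0 = (M : ℤ) := rfl
theorem gam0_11 : gam0 M p b₀ d₁ h 1 1 = (p : ℤ) * d₁ := rfl
theorem gam1_00 : gam1 M p b₀ d₁ h 0 0 = (p : ℤ) := rfl
theorem gam1_01 : gam1 M p b₀ d₁ h 0 1 = b₀ := rfl
theorem gam1_10 : gam1 M p b₀ d₁ h 1 0 = (M : ℤ) := rfl
theorem gam1_11 : gam1 M p b₀ d₁ h 1 1 = d₁ := rfl

theorem gam0_mem_Gamma1 : gam0 M p b₀ d₁ h ∈ CongruenceSubgroup.Gamma1 M := by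
  rw [CongruenceSubgroup.Gamma1_mem, gam0_00, gam0_10, gam0_11]
  refine ⟨Int.cast_one, ?_, ?_⟩
  · have h1 : (p : ℤ) * d₁ = 1 + (M : ℤ) * b₀ := by linear_combination h
    rw [h1]
    push_cast
    rw [ZMod.natCast_self, zero_mul, add_zero]
  · rw [Int.cast_natCast, ZMod.natCast_self]

theorem gam1_mem_Gamma0 : gam1 M p b₀ d₁ h ∈ CongruenceSubgroup.Gamma0 M := by
  rw [CongruenceSubgroup.Gamma0_mem, gam1_10, Int.cast_natCast, ZMod.natCast_self]

/-- **`p · γ₀ z = γ' (z / p)`.** -/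
theorem scaleH_gam0 [NeZero p] (hp0 : 0 < p) (z : ℍ) :
    scaleH p (gam0 M p b₀ d₁ h • z) = gam1 M p b₀ d₁ h • Hermite.affH 1 p 0 one_pos hp0 z := by
  refine HermiteFull.scaleH_smul_of_hermite _ _ p one_pos hp0 ?_ ?_ ?_ ?_ z
  · rw [gam0_00, gam1_00, Nat.cast_one]
  · rw [gam0_01, gam1_00, gam1_01]; ring
  · rw [gam0_10, gam1_10, Nat.cast_one, mul_one]
  · rw [gam0_11, gam1_10, gam1_11]; ring

/-- `(M p z) / p = M z`. -/
theorem affH_scaleH [NeZero M] [NeZero p] (hp0 : 0 < p) (w : ℍ) :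
    Hermite.affH 1 p 0 one_pos hp0 (scaleH (M * p) w) = scaleH M w := by
  apply UpperHalfPlane.ext
  rw [Hermite.coe_affH, coe_scaleH, coe_scaleH]
  have hpC : (p : ℂ) ≠ 0 := by exact_mod_cast hp0.ne'
  push_cast
  field_simp
  ring

end Matrices

/-! ### The expansion map at `γ₀` -/

section Expansion

variable (M p : ℕ) [NeZero M] [NeZero p] (D : RealizeData1 M) (C : CuspData1 M D)
  (hM : 3 ≤ M) (hW : WSlash M) (hpM : Nat.Coprime p M)
  (b₀ d₁ : ℤ) (h : (p : ℤ) * d₁ - (M : ℤ) * b₀ = 1)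

theorem Θ_modP (u : R2 M p) : (modP M p D C hM hW hpM).Θ u = fn2 M p D C u := rfl

/-- `A.T γ₀ (α u) = u(q^{M p})`. -/
theorem T_alpha (u : Rsub1 M) :
    (modP M p D C hM hW hpM).T (gam0 M p b₀ d₁ h) (alpha M p (u : FF1 M))
      = qExpand Kbar (M * p) ((u : FF1 M) : LaurentSeries Kbar) := by
  have h1 : ((alphaR M p u : R2 M p) : Ep M p) = alpha M p (u : FF1 M) := rfl
  rw [← h1]
  refine (modP M p D C hM hW hpM).T_eq_of_qn (gam0 M p b₀ d₁ h) (alphaR M p u) _ ?_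
  rw [Θ_modP, fn2_alpha, D.invariant u _ (gam0_mem_Gamma1 M p b₀ d₁ h), toC,
    Analytic.coeffMap_qExpand]
  exact (hasQExp_Θ M D u).qExpand (M * p)

/-- `A.T γ₀ (β u) = (⟨p⟩ u)(q^M)`. -/
theorem T_beta (hp0 : 0 < p) (u : Rsub1 M) :
    (modP M p D C hM hW hpM).T (gam0 M p b₀ d₁ h) (beta M p (u : FF1 M))
      = qExpand Kbar M
        (((X1Diamond11.diaR D hW (GeomIface13.unitNat M p) u : Rsub1 M) : FF1 M) :
          LaurentSeries Kbar) := by
  have h1 : ((betaR M p u : R2 M p) : Ep M p) = beta M p (u : FF1 M) := rfl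
  rw [← h1]
  refine (modP M p D C hM hW hpM).T_eq_of_qn (gam0 M p b₀ d₁ h) (betaR M p u) _ ?_
  rw [Θ_modP, fn2_beta]
  have he : (((gam1 M p b₀ d₁ h) 0 0 : ℤ) : ZMod M)
      = ((GeomIface13.unitNat M p : (ZMod M)ˣ) : ZMod M) := by
    rw [gam1_00, GeomIface13.coe_unitNat hpM, Int.cast_natCast]
  have hfun : (fun w => compSL (fun z => D.Θ u (scaleH p z)) (gam0 M p b₀ d₁ h)
        (scaleH (M * p) w))
      = fun w => D.Θ (X1Diamond11.diaR D hW (GeomIface13.unitNat M p) u) (scaleH M w) := by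
    funext w
    show D.Θ u (scaleH p (gam0 M p b₀ d₁ h • scaleH (M * p) w)) = _
    rw [scaleH_gam0 M p b₀ d₁ h hp0, affH_scaleH M p hp0,
      X1Diamond11.Θ_diaR D hW (GeomIface13.unitNat M p) (gam1_mem_Gamma0 M p b₀ d₁ h) he u]
    rfl
  show HasQExp _ (fun w => compSL (fun z => D.Θ u (scaleH p z)) (gam0 M p b₀ d₁ h)
    (scaleH (M * p) w))
  rw [hfun, toC, Analytic.coeffMap_qExpand]
  exact (hasQExp_Θ M D _).qExpand M

/-- the values of `A.T γ₀` on `R2` are series in `q^M`. -/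
theorem T_mem_range_R2 (hp0 : 0 < p) (r : R2 M p) :
    (modP M p D C hM hW hpM).T (gam0 M p b₀ d₁ h) (r : Ep M p)
      ∈ (qExpand Kbar M).fieldRange := by
  induction r using R2_induction with
  | halpha u =>
      have h1 : ((alphaR M p u : R2 M p) : Ep M p) = alpha M p (u : FF1 M) := rfl
      rw [h1, T_alpha, ← qExpand_qExpand]
      exact ⟨_, rfl⟩
  | hbeta u =>
      have h1 : ((betaR M p u : R2 M p) : Ep M p) = beta M p (u : FF1 M) := rfl
      rw [h1, T_beta M p D C hM hW hpM b₀ d₁ h hp0]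
      exact ⟨_, rfl⟩
  | hconst c =>
      have h1 : ((algebraMap Kbar (R2 M p) c : R2 M p) : Ep M p) = algebraMap Kbar (Ep M p) c := rfl
      rw [h1, (modP M p D C hM hW hpM).T_algebraMap]
      refine ⟨algebraMap Kbar (LaurentSeries Kbar) c, ?_⟩
      rw [algebraMap_laurentSeries_eq_single, qExpand_single, mul_zero]
  | hadd u v hu hv =>
      have h1 : ((u + v : R2 M p) : Ep M p) = (u : Ep M p) + (v : Ep M p) := rfl
      rw [h1, map_add]
      exact add_mem hu hv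
  | hmul u v hu hv =>
      have h1 : ((u * v : R2 M p) : Ep M p) = (u : Ep M p) * (v : Ep M p) := rfl
      rw [h1, map_mul]
      exact mul_mem hu hv

/-- the values of `A.T γ₀` are series in `q^M`. -/
theorem T_mem_range (hp0 : 0 < p) (x : Ep M p) :
    ∃ y : LaurentSeries Kbar,
      qExpand Kbar M y = (modP M p D C hM hW hpM).T (gam0 M p b₀ d₁ h) x := by
  obtain ⟨r, s, rfl⟩ := frac2 M p x
  rw [map_div₀]
  exact div_mem (T_mem_range_R2 M p D C hM hW hpM b₀ d₁ h hp0 r)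
    (T_mem_range_R2 M p D C hM hW hpM b₀ d₁ h hp0 s)

/-- the compressed expansion, as a function. -/
def Wfun (hp0 : 0 < p) (x : Ep M p) : LaurentSeries Kbar :=
  Classical.choose (T_mem_range M p D C hM hW hpM b₀ d₁ h hp0 x)

theorem Wfun_spec (hp0 : 0 < p) (x : Ep M p) :
    qExpand Kbar M (Wfun M p D C hM hW hpM b₀ d₁ h hp0 x)
      = (modP M p D C hM hW hpM).T (gam0 M p b₀ d₁ h) x :=
  Classical.choose_spec (T_mem_range M p D C hM hW hpM b₀ d₁ h hp0 x)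

/-- **the compressed expansion `W : F1p-bar →+* ℚbar((q))`.** -/
def Whom (hp0 : 0 < p) : Ep M p →+* LaurentSeries Kbar where
  toFun := Wfun M p D C hM hW hpM b₀ d₁ h hp0
  map_one' := qExpand_injective (R := Kbar) M (by rw [Wfun_spec, map_one, map_one])
  map_mul' x y := qExpand_injective (R := Kbar) M (by
    rw [Wfun_spec, map_mul, map_mul, Wfun_spec, Wfun_spec])
  map_zero' := qExpand_injective (R := Kbar) M (by rw [Wfun_spec, map_zero, map_zero])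
  map_add' x y := qExpand_injective (R := Kbar) M (by
    rw [Wfun_spec, map_add, map_add, Wfun_spec, Wfun_spec])

theorem Whom_spec (hp0 : 0 < p) (x : Ep M p) :
    qExpand Kbar M (Whom M p D C hM hW hpM b₀ d₁ h hp0 x)
      = (modP M p D C hM hW hpM).T (gam0 M p b₀ d₁ h) x :=
  Wfun_spec M p D C hM hW hpM b₀ d₁ h hp0 x

/-- `W (α u) = u(q^p)` on `R₁`. -/
theorem Whom_alpha_R (hp0 : 0 < p) (u : Rsub1 M) :
    Whom M p D C hM hW hpM b₀ d₁ h hp0 (alpha M p (u : FF1 M))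
      = qExpand Kbar p ((u : FF1 M) : LaurentSeries Kbar) := by
  apply qExpand_injective (R := Kbar) M
  rw [Whom_spec, T_alpha, qExpand_qExpand]

/-- `W (β u) = ⟨p⟩ u` on `R₁`. -/
theorem Whom_beta_R (hp0 : 0 < p) (u : Rsub1 M) :
    Whom M p D C hM hW hpM b₀ d₁ h hp0 (beta M p (u : FF1 M))
      = ((X1Diamond11.diaF D hW (GeomIface13.unitNat M p) (u : FF1 M) : FF1 M) :
          LaurentSeries Kbar) := by
  apply qExpand_injective (R := Kbar) M
  rw [Whom_spec, T_beta M p D C hM hW hpM b₀ d₁ h hp0, X1Diamond11.diaF_coe]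

/-- **`W (α a) = a(q^p)`.** -/
theorem Whom_alpha (hp0 : 0 < p) (a : FF1 M) :
    Whom M p D C hM hW hpM b₀ d₁ h hp0 (heckeOneAlphaBar M p Kbar a)
      = qExpand Kbar p (a : LaurentSeries Kbar) := by
  obtain ⟨r, s, rfl⟩ := X1FracR1.exists_div M a
  have hc : (((r : FF1 M) / (s : FF1 M) : FF1 M) : LaurentSeries Kbar)
      = ((r : FF1 M) : LaurentSeries Kbar) / ((s : FF1 M) : LaurentSeries Kbar) := rfl
  rw [map_div₀, map_div₀, hc, map_div₀]
  exact congrArg₂ (· / ·) (Whom_alpha_R M p D C hM hW hpM b₀ d₁ h hp0 r)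
    (Whom_alpha_R M p D C hM hW hpM b₀ d₁ h hp0 s)

/-- **`W (β f) = ⟨p⟩ f`.** -/
theorem Whom_beta (hp0 : 0 < p) (f : FF1 M) :
    Whom M p D C hM hW hpM b₀ d₁ h hp0 (heckeOneBetaBar M p Kbar f)
      = ((X1Diamond11.diaF D hW (GeomIface13.unitNat M p) f : FF1 M) : LaurentSeries Kbar) := by
  obtain ⟨r, s, rfl⟩ := X1FracR1.exists_div M f
  have hc : ∀ x y : FF1 M, ((x / y : FF1 M) : LaurentSeries Kbar)
      = (x : LaurentSeries Kbar) / (y : LaurentSeries Kbar) := fun _ _ => rfl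
  rw [map_div₀, map_div₀, map_div₀, hc]
  exact congrArg₂ (· / ·) (Whom_beta_R M p D C hM hW hpM b₀ d₁ h hp0 r)
    (Whom_beta_R M p D C hM hW hpM b₀ d₁ h hp0 s)

end Expansion

/-! ### Exports -/

section Final

variable (M p : ℕ) [NeZero M] [NeZero p]

omit [NeZero M] [NeZero p] in
theorem exists_bezout (hpM : Nat.Coprime p M) :
    ∃ b₀ d₁ : ℤ, (p : ℤ) * d₁ - (M : ℤ) * b₀ = 1 := by
  obtain ⟨a, b, hab⟩ := Nat.isCoprime_iff_coprime.mpr hpM
  exact ⟨-b, a, by linear_combination hab⟩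

/-- **the compressed expansion `W`, generic interface pair**: `W (α a) = a(q^p)`,
`W (β f) = ⟨p⟩ f` with `⟨p⟩ = X1Diamond11.diaF D hW (unitNat M p)`. -/
theorem exists_W_of (D : RealizeData1 M) (C : CuspData1 M D) (hM : 3 ≤ M) (hW : WSlash M)
    (hpM : Nat.Coprime p M) :
    ∃ W : ↥(laurentBaseChange Kbar (F1p M p)) →+* LaurentSeries Kbar,
      (∀ a : FF1 M, W (heckeOneAlphaBar M p Kbar a) = qExpand Kbar p (a : LaurentSeries Kbar)) ∧
      (∀ f : FF1 M, W (heckeOneBetaBar M p Kbar f)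
        = ((X1Diamond11.diaF D hW (GeomIface13.unitNat M p) f : FF1 M) : LaurentSeries Kbar)) := by
  obtain ⟨b₀, d₁, h⟩ := exists_bezout M p hpM
  have hp0 : 0 < p := Nat.pos_of_ne_zero (NeZero.ne p)
  exact ⟨Whom M p D C hM hW hpM b₀ d₁ h hp0, Whom_alpha M p D C hM hW hpM b₀ d₁ h hp0,
    Whom_beta M p D C hM hW hpM b₀ d₁ h hp0⟩

/-- **the compressed expansion `W`, unconditional** (`3 ≤ M`, `p` prime, `p ∤ M`):
`W (α a) = a(q^p)`, `W (β f) = ⟨p⟩ f` with `⟨p⟩ = diamondBar ℚbar M (unitNat M p)`. -/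
theorem exists_W (hM : 3 ≤ M) (hp : p.Prime) (hpM : ¬ p ∣ M) :
    ∃ W : ↥(laurentBaseChange Kbar (F1p M p)) →+* LaurentSeries Kbar,
      (∀ a : FF1 M, W (heckeOneAlphaBar M p Kbar a) = qExpand Kbar p (a : LaurentSeries Kbar)) ∧
      (∀ f : FF1 M, W (heckeOneBetaBar M p Kbar f)
        = ((diamondBar Kbar M (GeomIface13.unitNat M p) f : FF1 M) : LaurentSeries Kbar)) := by
  have hM1 : M ≠ 1 := DegreeLOne20.ne_one_of_three_le M hM
  rw [X1DiamondFinal11.diamondBar_eq_dia M hM1]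
  exact exists_W_of M p (X1RealizeFinal29.realizeData1 M hM1) (X1CuspFinal29.cuspData1 M hM1) hM
    (WSlash29.wSlash M) (DegreeLOne20.coprime_of_prime_not_dvd M p hp hpM)

/-- `⟨p⟩ j = j`, and the coefficient of `q⁻¹` is `1`. -/
theorem coeff_diamondBar_j (hM : 3 ≤ M) (e : (ZMod M)ˣ) :
    ((diamondBar Kbar M e (jF1 M) : FF1 M) : LaurentSeries Kbar).coeff (-1) ≠ 0 := by
  have hM1 : M ≠ 1 := DegreeLOne20.ne_one_of_three_le M hM
  have hj : diamondBar Kbar M e (jF1 M) = jF1 M := by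
    rw [X1DiamondFinal11.diamondBar_eq_dia M hM1]
    exact X1DiamondFinal11.dia_jdF1 M hM1 e 1 (one_dvd M)
  rw [hj, X1Degree14.coe_jF1, Fermat.Agent.X0.coeff_jqK_neg_one]
  exact one_ne_zero

/-- **(NORM-α₁) for `X₁(M)`**, unconditional: `N_α (β f)(q^p) = ∏_b (⟨p⟩ f)(ζ^b q) · f(q^{p²})`
with `⟨p⟩ = diamondBar ℚbar M (unitNat M p)` (`W_c ↦ W_{p c}`). -/
theorem normConj1 (hM : 3 ≤ M) (hp : p.Prime) (hpM : ¬ p ∣ M) :
    KronMainOne24.NormConj1 M p (fun f => diamondBar Kbar M (GeomIface13.unitNat M p) f) := by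
  obtain ⟨W, hWα, hWβ⟩ := exists_W M p hM hp hpM
  exact ConjAlphaOne24.normConj1_of_W M p hp
    (fun f => diamondBar Kbar M (GeomIface13.unitNat M p) f) W hWα hWβ (jF1 M)
    (coeff_diamondBar_j M hM _) (DegreeLOne20.finiteAlong_alphaOne M p hM hp hpM)
    (DegreeLOne20.finrankAlong_alphaOne M p hM hp hpM)

/-- the same with `δ` written as the semilinear automorphism `diamondAut` (the shape consumed by
`KronDgen24` / `GaussUnitOne24`). -/
theorem normConj1_diamondAut (hM : 3 ≤ M) (hp : p.Prime) (hpM : ¬ p ∣ M) :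
    KronMainOne24.NormConj1 M p (fun f => diamondAut Kbar M (GeomIface13.unitNat M p) • f) :=
  normConj1 M p hM hp hpM

end Final

end Fermat.Agent.ES.R48.ConjugatesOne20
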