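/-
Programme R (S48, Deligne–Serre), chapter GEOM, sub-chapter G4 "CONG₁" (helper15), TOP₁ part 1:
**GENERIC twin of `RED/TOP/ConstViaR20.exists_const_of_ord_eq`** (helper20's constant lemma) for an
arbitrary pair of function fields `F₀ ⊆ ℚ((q))`, `Fk ⊆ k((q))` and the generic reduction notion
`RedDefsG15.IsPlaceReductionAlongG`.  The sections `General` and `Laurent` of `ConstViaR20` are
generic already and are used AS-IS; only the last section is copied, with
`laurentBaseChange L (modularFunctionFieldFull N) ↦ laurentBaseChange L F₀`,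
`modularFunctionFieldFullC k N ↦ Fk`, `IsPlaceReductionAlong A π N r ↦ IsPlaceReductionAlongG A π F₀ Fk r`;
every declaration `X` is `XG` here.
-/
import Mathlib
import Fermat.Agent.RED.TOP.ConstViaR20
import Fermat.Agent.ES.R48.RedDefsG15

set_option autoImplicit false

noncomputable section

open HahnSeries IntermediateField AlgebraicCurve ModularCurve

namespace Fermat.Agent.ES.R48.ConstViaRG15

open Fermat.Agent.X0.FF Fermat.Agent.RED.TOP.ConstViaR20 Fermat.Agent.ES.R48.RedDefsG15

/-! ### The lemma -/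

variable {L : Type*} [Field L] [Algebra ℚ L] {A : ValuationSubring L}
variable {k : Type*} [Field k] {π : A →+* k}
variable {F₀ : IntermediateField ℚ (LaurentSeries ℚ)} {Fk : IntermediateField k (LaurentSeries k)}
variable {r : Place L (laurentBaseChange L F₀) →
  Place k (Fk)}

theorem C_mem_barG (c : L) :
    (HahnSeries.C c : LaurentSeries L) ∈ laurentBaseChange L F₀ := by
  have h := (laurentBaseChange L F₀).algebraMap_mem c
  rwa [algebraMap_laurentSeries_eq_single] at h

theorem C_mem_fullCG (c : k) :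
    (HahnSeries.C c : LaurentSeries k) ∈ Fk := by
  have h := (Fk).algebraMap_mem c
  rwa [algebraMap_laurentSeries_eq_single] at h

theorem coe_algebraMap_fullCG (c : k) :
    ((algebraMap k (Fk) c : Fk) :
      LaurentSeries k) = HahnSeries.C c := by
  show algebraMap k (LaurentSeries k) c = _
  rw [algebraMap_laurentSeries_eq_single, HahnSeries.C_apply]

/-- **Step (0), constant lemma.**  -/
theorem exists_const_of_ord_eqG
    (hπ : Function.Surjective π)
    (hdiv : HasPrincipalDivisors L ↥(laurentBaseChange L F₀))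
    (hdeg1 : ∀ P : Place L (laurentBaseChange L F₀), P.deg = 1)
    (hne : Nonempty (Place L (laurentBaseChange L F₀)))
    (hr : IsPlaceReductionAlongG A π F₀ Fk r)
    (P Q : LaurentSeries A)
    (hP : coeffMap A.subtype P ∈ laurentBaseChange L F₀)
    (hQ : coeffMap A.subtype Q ∈ laurentBaseChange L F₀)
    (hPk : coeffMap π P ∈ Fk)
    (hQk : coeffMap π Q ∈ Fk)
    (hQ0 : coeffMap π Q ≠ 0)
    (hord : ∀ Q' : Place k (Fk),
      Q'.ord (⟨coeffMap π P, hPk⟩ : Fk) =
        Q'.ord (⟨coeffMap π Q, hQk⟩ : Fk)) :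
    ∃ c : A, coeffMap π P = coeffMap π (HahnSeries.C c * Q) := by
  classical
  obtain ⟨p', hp'⟩ : ∃ p' : Fk, p' = ⟨coeffMap π P, hPk⟩ := ⟨_, rfl⟩
  obtain ⟨q', hq'⟩ : ∃ q' : Fk, q' = ⟨coeffMap π Q, hQk⟩ := ⟨_, rfl⟩
  rw [← hp', ← hq'] at hord
  have hp'v : (p' : LaurentSeries k) = coeffMap π P := by rw [hp']
  have hq'v : (q' : LaurentSeries k) = coeffMap π Q := by rw [hq']
  have hq'0 : q' ≠ 0 := by
    intro h
    apply hQ0
    rw [← hq'v, h]
    rfl
  -- `u = p'/q'` lies in every valuation ring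
  have hu_mem : ∀ Q' : Place k (Fk),
      p' / q' ∈ Q'.toValuationSubring := by
    intro Q'
    rw [ffp_mem_iff_ord_nonneg]
    rcases eq_or_ne p' 0 with h0 | h0
    · rw [h0, zero_div]; simp
    · rw [div_eq_mul_inv, Q'.ord_mul h0 (inv_ne_zero hq'0), Q'.ord_inv, hord Q']
      simp
  have hQL0 : (⟨coeffMap A.subtype Q, hQ⟩ :
      laurentBaseChange L F₀) ≠ 0 := by
    intro h0
    exact coeffMap_ne_zero_of_injective A.subtype_injective
      (ne_zero_of_coeffMap_ne_zero hQ0) (congrArg Subtype.val h0)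
  obtain ⟨DQ, hDQ, hDQ0⟩ := hdiv.exists_divisor _ hQL0
  have hEQ : ∀ Q' : Place k (Fk),
      Finsupp.mapDomain r DQ Q' = Q'.ord q' := by
    intro Q'
    rw [hq']
    exact hr.2 Q hQ hQk hQ0 DQ hDQ Q'
  obtain ⟨c', hc'⟩ := exists_const_abstract r hr.1 hdeg1 hne q' (p' / q') hq'0 hu_mem (by
    intro c' hu_ne
    obtain ⟨c, rfl⟩ := hπ c'
    -- the auxiliary function `y = P - c Q`
    have hyL : coeffMap A.subtype (P - HahnSeries.C c * Q) ∈
        laurentBaseChange L F₀ := by
      rw [map_sub, map_mul, coeffMap_C]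
      exact sub_mem hP (mul_mem (C_mem_barG _) hQ)
    have hyk : coeffMap π (P - HahnSeries.C c * Q) ∈ Fk := by
      rw [map_sub, map_mul, coeffMap_C]
      exact sub_mem hPk (mul_mem (C_mem_fullCG _) hQk)
    have hyk_eq : (⟨coeffMap π (P - HahnSeries.C c * Q), hyk⟩ : Fk) =
        q' * (p' / q' - algebraMap k (Fk) (π c)) := by
      apply Subtype.ext
      have h1 : q' * (p' / q' - algebraMap k (Fk) (π c)) =
          p' - algebraMap k (Fk) (π c) * q' := by
        field_simp
      rw [h1]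
      show coeffMap π (P - HahnSeries.C c * Q) = (p' : LaurentSeries k) -
        ((algebraMap k (Fk) (π c) :
          Fk) : LaurentSeries k) * (q' : LaurentSeries k)
      rw [coe_algebraMap_fullCG, hp'v, hq'v, map_sub, map_mul, coeffMap_C]
    have hyk0 : coeffMap π (P - HahnSeries.C c * Q) ≠ 0 := by
      intro h0
      have : (⟨coeffMap π (P - HahnSeries.C c * Q), hyk⟩ : Fk) = 0 :=
        Subtype.ext h0
      rw [hyk_eq] at this
      rcases mul_eq_zero.mp this with h | h
      · exact hq'0 h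
      · exact hu_ne (sub_eq_zero.mp h)
    have hyL0 : (⟨coeffMap A.subtype (P - HahnSeries.C c * Q), hyL⟩ :
        laurentBaseChange L F₀) ≠ 0 := by
      intro h0
      exact coeffMap_ne_zero_of_injective A.subtype_injective
        (ne_zero_of_coeffMap_ne_zero hyk0) (congrArg Subtype.val h0)
    obtain ⟨Dy, hDy, hDy0⟩ := hdiv.exists_divisor _ hyL0
    refine ⟨Dy, DQ, hDy0, hDQ0, ?_, hEQ⟩
    intro Q'
    rw [← hyk_eq]
    exact hr.2 _ hyL hyk hyk0 Dy hDy Q')
  obtain ⟨c, rfl⟩ := hπ c'
  refine ⟨c, ?_⟩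
  rw [map_mul, coeffMap_C, ← hp'v, ← hq'v, ← coe_algebraMap_fullCG (Fk := Fk) (π c)]
  have h2 : p' = algebraMap k (Fk) (π c) * q' := by
    rw [← hc', div_mul_cancel₀ _ hq'0]
  exact congrArg Subtype.val h2

end Fermat.Agent.ES.R48.ConstViaRG15
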