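/-
Programme R (S48), chapter B4 (EIS), file 3 (helper24): elementary facts on `π cot(π w)`.

* `pcot w = π cot(π w)`; odd, `pcot 0 = 0`, `1`-periodic;
* `gq u = u/(1-u)`; `pcot_eq_gq : pcot w = -πi - 2πi·gq(e^{2πiw})` when `e^{2πiw} ≠ 1`;
* `hasSum_pcot_nat` : `∑_{n ≥ 1} (1/(x-n) + 1/(x+n)) = pcot x - 1/x` for `x ∉ ℤ` or `x = 0`;
* `tsum_int_pair` : `∑_{n ∈ ℤ} (1/(w-n) + 1/(μ+n)) = pcot w + pcot μ` (given summability);
* `sum_Icc_symm` : `∑_{|m| ≤ M} f m = f 0 + ∑_{m < M} (f (m+1) + f (-(m+1)))`;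
* `summable_gq_geometric`, `tendsto_gq_geometric`.
-/
import Mathlib

set_option autoImplicit false

noncomputable section

namespace Fermat.Agent.ES.R48.CotAux24

open Complex Filter Topology
open scoped Real

/-- `π cot(π w)`. -/
def pcot (w : ℂ) : ℂ := π * Complex.cot (π * w)

theorem pcot_neg (w : ℂ) : pcot (-w) = -pcot w := by
  unfold pcot
  rw [mul_neg, Complex.cot_eq_cos_div_sin, Complex.cot_eq_cos_div_sin, Complex.cos_neg,
    Complex.sin_neg, div_neg, mul_neg]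

theorem pcot_zero : pcot 0 = 0 := by
  unfold pcot
  rw [mul_zero, Complex.cot_eq_cos_div_sin, Complex.sin_zero, div_zero, mul_zero]

theorem pcot_add_one (w : ℂ) : pcot (w + 1) = pcot w := by
  unfold pcot
  rw [mul_add, mul_one, Complex.cot_eq_cos_div_sin, Complex.cot_eq_cos_div_sin,
    Complex.cos_add_pi, Complex.sin_add_pi, neg_div_neg_eq]

theorem pcot_add_int (w : ℂ) (n : ℤ) : pcot (w + n) = pcot w := by
  induction n using Int.induction_on with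
  | zero => simp
  | succ n ih =>
    rw [← ih]
    push_cast
    rw [← add_assoc, pcot_add_one]
  | pred n ih =>
    rw [← ih, ← pcot_add_one (w + ((-(n : ℤ) - 1 : ℤ) : ℂ))]
    push_cast
    congr 1
    ring

/-- `g(u) = u/(1-u)`. -/
def gq (u : ℂ) : ℂ := u / (1 - u)

theorem pcot_eq_gq {w : ℂ} (h : Complex.exp (2 * π * I * w) ≠ 1) :
    pcot w = -(π * I) - 2 * π * I * gq (Complex.exp (2 * π * I * w)) := by
  unfold pcot gq
  rw [Complex.cot_pi_eq_exp_ratio]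
  generalize Complex.exp (2 * π * I * w) = e at h
  have h1 : (1 : ℂ) - e ≠ 0 := sub_ne_zero.mpr (Ne.symm h)
  have hI : (I : ℂ) ≠ 0 := Complex.I_ne_zero
  have h2 : (e + 1) / (I * (1 - e)) = -I * ((e + 1) / (1 - e)) := by
    rw [mul_comm I (1 - e), ← div_div, Complex.div_I]
    ring
  rw [h2]
  have h3 : (e + 1) / (1 - e) = 1 + 2 * (e / (1 - e)) := by
    field_simp
    ring
  rw [h3]
  ring

theorem gq_add_gq_inv {x : ℂ} (hx : x ≠ 0) (hx1 : x ≠ 1) : gq x + gq x⁻¹ = -1 := by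
  unfold gq
  have h1 : (1 : ℂ) - x ≠ 0 := sub_ne_zero.mpr (Ne.symm hx1)
  have h2 : (1 : ℂ) - x⁻¹ ≠ 0 := by
    intro h
    apply hx1
    have : x⁻¹ = 1 := (sub_eq_zero.mp h).symm
    rw [inv_eq_one] at this
    exact this
  field_simp
  ring

theorem norm_gq_le {u : ℂ} (hu : ‖u‖ ≤ 1 / 2) : ‖gq u‖ ≤ 2 * ‖u‖ := by
  unfold gq
  have h1 : (1 : ℝ) / 2 ≤ ‖1 - u‖ := by
    have := norm_sub_norm_le (1 : ℂ) u
    rw [norm_one] at this
    linarith
  rw [norm_div, div_le_iff₀ (by linarith)]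
  nlinarith [norm_nonneg u]

theorem summable_gq_geometric (a : ℂ) {q : ℂ} (hq : ‖q‖ < 1) :
    Summable fun m : ℕ ↦ gq (a * q ^ m) := by
  have hgeo : Summable fun m : ℕ ↦ 2 * (‖a‖ * ‖q‖ ^ m) :=
    ((summable_geometric_of_lt_one (norm_nonneg q) hq).mul_left ‖a‖).mul_left 2
  have htend : Tendsto (fun m : ℕ ↦ ‖a‖ * ‖q‖ ^ m) atTop (𝓝 0) := by
    simpa using (tendsto_pow_atTop_nhds_zero_of_lt_one (norm_nonneg q) hq).const_mul ‖a‖
  have hev : ∀ᶠ m : ℕ in atTop, ‖a‖ * ‖q‖ ^ m ≤ 1 / 2 :=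
    htend.eventually (eventually_le_nhds (by norm_num))
  refine Summable.of_norm_bounded_eventually_nat hgeo ?_
  filter_upwards [hev] with m hm
  have : ‖a * q ^ m‖ = ‖a‖ * ‖q‖ ^ m := by rw [norm_mul, norm_pow]
  rw [← this] at hm
  calc ‖gq (a * q ^ m)‖ ≤ 2 * ‖a * q ^ m‖ := norm_gq_le hm
    _ = 2 * (‖a‖ * ‖q‖ ^ m) := by rw [this]

theorem tendsto_gq_zero : Tendsto gq (𝓝 0) (𝓝 0) := by
  have : ContinuousAt gq 0 := by
    unfold gq
    exact ContinuousAt.div continuousAt_id (continuousAt_const.sub continuousAt_id) (by simp)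
  simpa [gq] using this.tendsto

theorem tendsto_gq_geometric (a : ℂ) {q : ℂ} (hq : ‖q‖ < 1) :
    Tendsto (fun m : ℕ ↦ gq (a * q ^ m)) atTop (𝓝 0) := by
  have h1 : Tendsto (fun m : ℕ ↦ a * q ^ m) atTop (𝓝 0) := by
    simpa using (tendsto_pow_atTop_nhds_zero_of_norm_lt_one hq).const_mul a
  exact tendsto_gq_zero.comp h1

/-- `∑_{n ≥ 1} (1/(x-n) + 1/(x+n)) = π cot(πx) - 1/x`, for `x ∉ ℤ` or `x = 0`. -/
theorem hasSum_pcot_nat {x : ℂ} (hx : x ∈ Complex.integerComplement ∨ x = 0) :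
    HasSum (fun n : ℕ ↦ 1 / (x - (n + 1)) + 1 / (x + (n + 1))) (pcot x - 1 / x) := by
  rcases hx with hx | rfl
  · have h1 := cot_series_rep' hx
    have h2 := (summable_cotTerm hx).hasSum
    unfold cotTerm at h2
    unfold pcot
    rw [h1]
    exact h2
  · rw [pcot_zero]
    have : (fun n : ℕ ↦ 1 / ((0 : ℂ) - (n + 1)) + 1 / (0 + ((n : ℂ) + 1))) = fun _ ↦ 0 := by
      funext n
      rw [zero_sub, zero_add, one_div, one_div, inv_neg, neg_add_cancel]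
    rw [this]
    simp [hasSum_zero]

/-- `∑_{n ∈ ℤ} (1/(w-n) + 1/(μ+n)) = π cot(πw) + π cot(πμ)` (given summability). -/
theorem tsum_int_pair {w μ : ℂ} (hw : w ∈ Complex.integerComplement ∨ w = 0)
    (hμ : μ ∈ Complex.integerComplement ∨ μ = 0)
    (hs : Summable fun n : ℤ ↦ 1 / (w - n) + 1 / (μ + n)) :
    ∑' n : ℤ, (1 / (w - n) + 1 / (μ + n)) = pcot w + pcot μ := by
  have h1 := hs.hasSum.nat_add_neg
  have h2 := (hasSum_nat_add_iff' 1).mpr h1
  simp only [Finset.range_one, Finset.sum_singleton, Nat.cast_zero, Int.cast_zero, sub_zero,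
    add_zero, neg_zero] at h2
  have h3 := (hasSum_pcot_nat hw).add (hasSum_pcot_nat hμ)
  have h4 : (fun n : ℕ ↦ (1 / (w - (n + 1)) + 1 / (w + (n + 1))) +
      (1 / (μ - (n + 1)) + 1 / (μ + (n + 1)))) =
      fun n : ℕ ↦ (1 / (w - ((n + 1 : ℕ) : ℤ)) + 1 / (μ + ((n + 1 : ℕ) : ℤ))) +
        (1 / (w - ((-((n + 1 : ℕ) : ℤ) : ℤ) : ℂ)) + 1 / (μ + ((-((n + 1 : ℕ) : ℤ) : ℤ) : ℂ))) := by
    funext n
    push_cast
    ring
  rw [h4] at h3
  have h5 := h3.unique h2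
  linear_combination -h5

/-- Symmetric finite sums over `ℤ`. -/
theorem sum_Icc_symm {M : Type*} [AddCommMonoid M] (f : ℤ → M) (K : ℕ) :
    ∑ m ∈ Finset.Icc (-(K : ℤ)) K, f m =
      f 0 + ∑ m ∈ Finset.range K, (f ((m : ℤ) + 1) + f (-((m : ℤ) + 1))) := by
  induction K with
  | zero => simp
  | succ K ih =>
    have h1 : Finset.Icc (-((K + 1 : ℕ) : ℤ)) ((K + 1 : ℕ) : ℤ) =
        insert (-((K : ℤ) + 1)) (insert ((K : ℤ) + 1) (Finset.Icc (-(K : ℤ)) K)) := by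
      ext x
      simp only [Finset.mem_Icc, Finset.mem_insert, Nat.cast_add, Nat.cast_one]
      omega
    rw [h1, Finset.sum_insert, Finset.sum_insert, ih, Finset.sum_range_succ]
    · abel
    · simp only [Finset.mem_Icc, not_and]
      omega
    · simp only [Finset.mem_insert, Finset.mem_Icc, not_or, not_and]
      omega

theorem sum_Icc_odd_eq_zero (f : ℤ → ℂ) (hf : ∀ m, f (-m) = -f m)
    (K : ℕ) : ∑ m ∈ Finset.Icc (-(K : ℤ)) K, f m = 0 := by
  rw [sum_Icc_symm]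
  have h0 : f 0 = 0 := by
    have h := hf 0
    rw [neg_zero] at h
    exact self_eq_neg.mp h
  rw [h0, zero_add]
  refine Finset.sum_eq_zero fun m _ ↦ ?_
  rw [hf, add_neg_cancel]

end Fermat.Agent.ES.R48.CotAux24
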