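/-
Programme R (S48), chapter GEOM / G3 MODEL₁, brick G′(b) — helper26.
**Purity at the vertical prime with a REDUCED target** (a finite product of fields in the
application): the generalisation of `DiscAbstract21.discr_notMem_of_separable` and of
`PurityMain26.not_dvd_discr_of_separable` (C) from `L` a field to `L` a nontrivial reduced
commutative ring.

Before the special fibre of the model of `X₁(M)` is known to be irreducible, the reduction of a chart
`B` modulo `π` only embeds into a PRODUCT `∏ L_i` of fields (one factor for each extension of the Gauss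
valuation).  The discriminant criterion `DiscrEtale21.isUnit_discr_iff_reduced_and_separable` on main
is already stated for reduced fibres, so only the last step of `DiscAbstract21`'s proof changes:
`C = S_𝔮 / 𝔮 S_𝔮 ↪ L` is reduced, and every residue field of `C` is generated by elements killed by a
separable polynomial.

* `discr_notMem_of_separable_red` : the `(R, S, b, 𝔮)` form (`hsep` in the weak "up to a denominator
  outside `𝔮`" form, so that no separability arithmetic in `L` is needed);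
* `not_dvd_discr_of_separable_red` : the `(R0, B, P, π)` form, VERBATIM the signature of
  `PurityMain26.not_dvd_discr_of_separable` with `[Field L]` replaced by
  `[CommRing L] [IsReduced L] [Nontrivial L]`.
-/
import Mathlib
import Fermat.Agent.RED.PUR.PurityMain26

set_option autoImplicit false
set_option linter.style.haveILetI false
set_option linter.unusedSectionVars false

open Module IsLocalRing Polynomial

namespace Fermat.Agent.ES.R48.PurSepProd26

open Fermat.Agent.RED.PUR Fermat.Agent.RED.PUR.DiscrEtale21 Fermat.Agent.RED.PUR.DiscAbstract21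
open Fermat.Agent.RED.PUR.LocalFree26

section Generic

variable {R S : Type*} [CommRing R] [CommRing S] [Algebra R S]
  {ι : Type*} [Fintype ι] [DecidableEq ι] (b : Basis ι R S) (𝔮 : Ideal R) [h𝔮 : 𝔮.IsPrime]
  (Rq Sq : Type*) [CommRing Rq] [CommRing Sq] [Algebra R Rq] [IsLocalization.AtPrime Rq 𝔮]
  [Algebra S Sq] [Algebra Rq Sq] [Algebra R Sq] [IsScalarTower R Rq Sq] [IsScalarTower R S Sq]
  [IsLocalization (Algebra.algebraMapSubmonoid S 𝔮.primeCompl) Sq]

variable {k₀ L : Type*} [Field k₀] [CommRing L] [IsReduced L] [Nontrivial L] [Algebra k₀ L]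
  (ρ₀ : R →+* k₀) (ρ : S →+* L)

attribute [local instance] Ideal.Quotient.field

include Rq Sq in
/-- (DA2) with a reduced target, generic form. -/
theorem discr_notMem_of_separable_red_aux
    (hcomp : ∀ r : R, ρ (algebraMap R S r) = algebraMap k₀ L (ρ₀ r))
    (hker : ∀ z : S, ρ z = 0 ↔ z ∈ 𝔮.map (algebraMap R S))
    (hgen : ∀ c : k₀, ∃ r r' : R, ρ₀ r' ≠ 0 ∧ c * ρ₀ r' = ρ₀ r)
    (hsep : ∀ z : S, ∃ (r : R) (z₁ : S), r ∉ 𝔮 ∧ algebraMap R S r * z = z₁ ∧
      IsSeparable k₀ (ρ z₁)) : Algebra.discr R b ∉ 𝔮 := by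
  classical
  have hloc : IsLocalRing Rq := IsLocalization.AtPrime.isLocalRing Rq 𝔮
  let bq := b.localizationLocalization Rq 𝔮.primeCompl Sq
  have hfree : Module.Free Rq Sq := Module.Free.of_basis bq
  have hfin : Module.Finite Rq Sq := Module.Finite.of_basis bq
  have hfreeS : Module.Free R S := Module.Free.of_basis b
  have hinjL : Function.Injective (algebraMap k₀ L) := (algebraMap k₀ L).injective
  have hSnt : Nontrivial S := ρ.domain_nontrivial
  -- `ρ₀ r = 0 ↔ r ∈ 𝔮`
  have hρ₀ : ∀ r, ρ₀ r = 0 ↔ r ∈ 𝔮 := by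
    intro r
    rw [← hinjL.eq_iff, ← hcomp, map_zero, hker]
    conv_rhs => rw [← Ideal.comap_map_eq_self_of_faithfullyFlat (B := S) 𝔮]
    rfl
  set M := Algebra.algebraMapSubmonoid S 𝔮.primeCompl with hM
  -- extend `ρ₀` and `ρ` to the localisations
  have hu₀ : ∀ y : 𝔮.primeCompl, IsUnit (ρ₀ y) := fun y =>
    isUnit_iff_ne_zero.mpr fun h => y.2 ((hρ₀ _).mp h)
  let ρ₀q : Rq →+* k₀ := IsLocalization.lift hu₀
  have hu : ∀ y : M, IsUnit (ρ y) := by
    rintro ⟨_, r, hr, rfl⟩
    rw [hcomp]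
    exact (isUnit_iff_ne_zero.mpr fun h => hr ((hρ₀ _).mp h)).map _
  let ρq : Sq →+* L := IsLocalization.lift hu
  have hρq : ∀ z : S, ρq (algebraMap S Sq z) = ρ z := fun z => IsLocalization.lift_eq hu z
  have hρ₀q : ∀ r : R, ρ₀q (algebraMap R Rq r) = ρ₀ r := fun r => IsLocalization.lift_eq hu₀ r
  -- compatibility
  have hcompq : ∀ a : Rq, ρq (algebraMap Rq Sq a) = algebraMap k₀ L (ρ₀q a) := by
    intro a
    have : (ρq.comp (algebraMap Rq Sq)) = (algebraMap k₀ L).comp ρ₀q := by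
      apply IsLocalization.ringHom_ext 𝔮.primeCompl
      ext r
      simp only [RingHom.comp_apply]
      rw [← IsScalarTower.algebraMap_apply, IsScalarTower.algebraMap_apply R S Sq, hρq, hρ₀q,
        hcomp]
    exact congrArg (fun f => f a) this
  set pSq := (maximalIdeal Rq).map (algebraMap Rq Sq) with hpSq
  have hpSq' : pSq = (𝔮.map (algebraMap R S)).map (algebraMap S Sq) :=
    map_maximalIdeal_eq (S := S) 𝔮 Rq Sq
  -- kernel of `ρq`
  have hkerq : ∀ z : Sq, ρq z = 0 ↔ z ∈ pSq := by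
    intro z
    obtain ⟨z₀, m, rfl⟩ := IsLocalization.exists_mk'_eq M z
    rw [hpSq', IsLocalization.mk'_mem_iff]
    constructor
    · intro h
      have h' : ρ z₀ = 0 := by
        have h2 : ρq (IsLocalization.mk' Sq z₀ m) * ρq (algebraMap S Sq m) =
            ρq (algebraMap S Sq z₀) := by
          rw [← map_mul, IsLocalization.mk'_spec]
        rw [h, zero_mul, hρq] at h2
        exact h2.symm
      exact Ideal.mem_map_of_mem _ ((hker _).mp h')
    · intro h
      rw [IsLocalization.algebraMap_mem_map_algebraMap_iff M] at h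
      obtain ⟨m₁, hm₁, h1⟩ := h
      have h2 := (hker _).mpr h1
      rw [map_mul] at h2
      have h3 : ρ z₀ = 0 := by
        have := (hu ⟨m₁, hm₁⟩).mul_right_eq_zero.mp h2
        exact this
      have h4 : ρq (IsLocalization.mk' Sq z₀ m) * ρq (algebraMap S Sq m) =
          ρq (algebraMap S Sq z₀) := by
        rw [← map_mul, IsLocalization.mk'_spec]
      rw [hρq, hρq, h3] at h4
      exact (hu m).mul_left_eq_zero.mp h4
  -- the quotient maps
  let κ := Rq ⧸ maximalIdeal Rq
  let C := Sq ⧸ pSq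
  let ρbar : C →+* L := Ideal.Quotient.lift pSq ρq fun z hz => (hkerq z).mpr hz
  have hρbar_mk : ∀ z : Sq, ρbar (Ideal.Quotient.mk pSq z) = ρq z := fun z =>
    Ideal.Quotient.lift_mk _ _ _
  have hρbar_inj : Function.Injective ρbar := by
    rw [injective_iff_map_eq_zero]
    intro c hc
    obtain ⟨z, rfl⟩ := Ideal.Quotient.mk_surjective c
    rw [Ideal.Quotient.eq_zero_iff_mem, ← hkerq, ← hρbar_mk]
    exact hc
  have hker₀q : ∀ a ∈ maximalIdeal Rq, ρ₀q a = 0 := by
    intro a ha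
    apply hinjL
    rw [← hcompq, map_zero, hkerq]
    exact Ideal.mem_map_of_mem _ ha
  let ρ₀bar : κ →+* k₀ := Ideal.Quotient.lift (maximalIdeal Rq) ρ₀q hker₀q
  have hρ₀bar_surj : Function.Surjective ρ₀bar := by
    intro c
    obtain ⟨r, r', hr', hc⟩ := hgen c
    have hr'q : r' ∈ 𝔮.primeCompl := fun h => hr' ((hρ₀ _).mpr h)
    refine ⟨Ideal.Quotient.mk _ (IsLocalization.mk' Rq r ⟨r', hr'q⟩), ?_⟩
    show ρ₀q (IsLocalization.mk' Rq r ⟨r', hr'q⟩) = c
    rw [IsLocalization.lift_mk'_spec]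
    simp only [hc, mul_comm]
  have hcompbar : ∀ a : κ, ρbar (algebraMap κ C a) = algebraMap k₀ L (ρ₀bar a) := by
    intro a
    obtain ⟨a, rfl⟩ := Ideal.Quotient.mk_surjective a
    show ρbar (Ideal.Quotient.mk pSq (algebraMap Rq Sq a)) = _
    rw [hρbar_mk, hcompq]
    rfl
  have hfinC : Module.Finite κ C := Module.Finite.of_restrictScalars_finite Rq _ _
  -- `C` is reduced
  have hredC : IsReduced C := isReduced_of_injective ρbar hρbar_inj
  let e : κ ≃+* k₀ := RingEquiv.ofBijective ρ₀bar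
    ⟨(injective_iff_map_eq_zero ρ₀bar).mpr fun a ha => by
      by_contra hne
      have := (isUnit_iff_ne_zero.mpr hne).map ρ₀bar
      rw [ha] at this
      exact not_isUnit_zero this, hρ₀bar_surj⟩
  have hcompose : (ρbar.comp (algebraMap κ C)).comp e.symm.toRingHom = algebraMap k₀ L := by
    ext a
    simp only [RingHom.comp_apply]
    rw [hcompbar]
    congr 1
    exact e.apply_symm_apply a
  -- every `z₁` with `ρ z₁` separable is killed by a separable polynomial over `κ`
  have hkill : ∀ z₁ : S, IsSeparable k₀ (ρ z₁) → ∃ Q : κ[X], Q.Separable ∧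
      aeval (Ideal.Quotient.mk pSq (algebraMap S Sq z₁)) Q = 0 := by
    intro z₁ h1
    refine ⟨(minpoly k₀ (ρ z₁)).map e.symm.toRingHom,
      Polynomial.Separable.map (f := e.symm.toRingHom) h1, ?_⟩
    apply hρbar_inj
    rw [map_zero, aeval_def, hom_eval₂, eval₂_map, hcompose, hρbar_mk, hρq, ← aeval_def,
      minpoly.aeval]
  rw [discr_notMem_iff_isUnit_of_isLocalization b 𝔮 Rq Sq,
    isUnit_discr_iff_reduced_and_separable]
  refine ⟨hredC, fun 𝔪 => ?_⟩
  -- the residue field `D = C / 𝔪`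
  haveI : 𝔪.asIdeal.IsMaximal := 𝔪.isMaximal
  let D := C ⧸ 𝔪.asIdeal
  let q : C →ₐ[κ] D := Ideal.Quotient.mkₐ κ 𝔪.asIdeal
  have hq_surj : Function.Surjective q := Ideal.Quotient.mkₐ_surjective κ 𝔪.asIdeal
  -- images of `S` are separable
  have hS : ∀ z₁ : S, IsSeparable k₀ (ρ z₁) →
      IsSeparable κ (q (Ideal.Quotient.mk pSq (algebraMap S Sq z₁))) := by
    intro z₁ h1
    obtain ⟨Q, hQsep, hQroot⟩ := hkill z₁ h1
    have hroot : aeval (q (Ideal.Quotient.mk pSq (algebraMap S Sq z₁))) Q = 0 := by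
      rw [aeval_algHom_apply, hQroot, map_zero]
    exact hQsep.of_dvd (minpoly.dvd _ _ hroot)
  -- images of `R` are separable (they lie in `κ`)
  have hRimg : ∀ r : R, q (Ideal.Quotient.mk pSq (algebraMap S Sq (algebraMap R S r))) =
      algebraMap κ D (Ideal.Quotient.mk _ (algebraMap R Rq r)) := by
    intro r
    have h1 : (Ideal.Quotient.mk pSq (algebraMap S Sq (algebraMap R S r)) : C) =
        algebraMap κ C (Ideal.Quotient.mk _ (algebraMap R Rq r)) := by
      show _ = Ideal.Quotient.mk pSq (algebraMap Rq Sq (algebraMap R Rq r))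
      rw [← IsScalarTower.algebraMap_apply R S Sq, ← IsScalarTower.algebraMap_apply R Rq Sq]
    rw [h1, AlgHom.commutes]
  have hRne : ∀ r : R, r ∉ 𝔮 → (Ideal.Quotient.mk (maximalIdeal Rq) (algebraMap R Rq r) : κ) ≠ 0 := by
    intro r hr h0
    rw [Ideal.Quotient.eq_zero_iff_mem] at h0
    have hunit : IsUnit (algebraMap R Rq r) :=
      IsLocalization.map_units Rq (⟨r, hr⟩ : 𝔮.primeCompl)
    exact (IsLocalRing.mem_maximalIdeal _).mp h0 hunit
  refine ⟨fun d => ?_⟩
  obtain ⟨c, rfl⟩ := hq_surj d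
  obtain ⟨z, rfl⟩ := Ideal.Quotient.mk_surjective c
  obtain ⟨z₀, m, rfl⟩ := IsLocalization.exists_mk'_eq M z
  obtain ⟨m0, hm0, hm⟩ : ∃ m0 ∈ 𝔮.primeCompl, algebraMap R S m0 = (m : S) := m.2
  obtain ⟨r, z₁, hr, hrz, hz₁⟩ := hsep z₀
  -- `d * m̂ = ẑ₀`, `r̂ * ẑ₀ = ẑ₁`
  set d := q (Ideal.Quotient.mk pSq (IsLocalization.mk' Sq z₀ m)) with hd
  set mh : κ := Ideal.Quotient.mk _ (algebraMap R Rq m0) with hmh
  set rh : κ := Ideal.Quotient.mk _ (algebraMap R Rq r) with hrh
  have hmh0 : mh ≠ 0 := hRne m0 hm0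
  have hrh0 : rh ≠ 0 := hRne r hr
  have e1 : d * algebraMap κ D mh = q (Ideal.Quotient.mk pSq (algebraMap S Sq z₀)) := by
    rw [hd, ← hRimg, hm, ← map_mul, ← map_mul, IsLocalization.mk'_spec]
  have e2 : algebraMap κ D rh * q (Ideal.Quotient.mk pSq (algebraMap S Sq z₀)) =
      q (Ideal.Quotient.mk pSq (algebraMap S Sq z₁)) := by
    rw [← hRimg, ← map_mul, ← map_mul, ← map_mul, hrz]
  have hmD : algebraMap κ D mh ≠ 0 := by
    rw [Ne, map_eq_zero_iff _ (algebraMap κ D).injective]; exact hmh0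
  have hrD : algebraMap κ D rh ≠ 0 := by
    rw [Ne, map_eq_zero_iff _ (algebraMap κ D).injective]; exact hrh0
  have e3 : d = q (Ideal.Quotient.mk pSq (algebraMap S Sq z₁)) *
      ((algebraMap κ D rh)⁻¹ * (algebraMap κ D mh)⁻¹) := by
    rw [← e2, ← e1]
    rw [mul_comm (algebraMap κ D rh) (d * algebraMap κ D mh), mul_assoc, mul_assoc,
      ← mul_assoc (algebraMap κ D rh), mul_inv_cancel₀ hrD, one_mul, mul_inv_cancel₀ hmD, mul_one]
  rw [e3]
  exact Field.isSeparable_mul (hS z₁ hz₁)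
    (Field.isSeparable_mul (Field.isSeparable_inv (isSeparable_algebraMap _))
      (Field.isSeparable_inv (isSeparable_algebraMap _)))

end Generic

section Main

variable {R S : Type*} [CommRing R] [CommRing S] [Algebra R S]
  {ι : Type*} [Fintype ι] [DecidableEq ι] (b : Basis ι R S) (𝔮 : Ideal R) [h𝔮 : 𝔮.IsPrime]

/-- **(DA2) VERTICAL prime, reduced target.**  `ρ : S → L` a ring hom into a nontrivial reduced
ring with kernel `𝔮 S`, compatible with `ρ₀ : R → k₀` (`k₀` a field generated by `ρ₀ R`, `L` a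
`k₀`-algebra); if every `z : S` becomes, after multiplication by some `r ∉ 𝔮`, an element with
separable image, then the discriminant is not in `𝔮`. -/
theorem discr_notMem_of_separable_red {k₀ L : Type*} [Field k₀] [CommRing L] [IsReduced L]
    [Nontrivial L] [Algebra k₀ L] (ρ₀ : R →+* k₀) (ρ : S →+* L)
    (hcomp : ∀ r : R, ρ (algebraMap R S r) = algebraMap k₀ L (ρ₀ r))
    (hker : ∀ z : S, ρ z = 0 ↔ z ∈ 𝔮.map (algebraMap R S))
    (hgen : ∀ c : k₀, ∃ r r' : R, ρ₀ r' ≠ 0 ∧ c * ρ₀ r' = ρ₀ r)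
    (hsep : ∀ z : S, ∃ (r : R) (z₁ : S), r ∉ 𝔮 ∧ algebraMap R S r * z = z₁ ∧
      IsSeparable k₀ (ρ z₁)) : Algebra.discr R b ∉ 𝔮 := by
  let Rq := Localization.AtPrime 𝔮
  let Sq := Localization (Algebra.algebraMapSubmonoid S 𝔮.primeCompl)
  let _ : Algebra Rq Sq := localizationAlgebra 𝔮.primeCompl S
  have : IsScalarTower R Rq Sq := IsScalarTower.of_algebraMap_eq'
    (by rw [RingHom.algebraMap_toAlgebra, IsLocalization.map_comp, ← IsScalarTower.algebraMap_eq])
  exact discr_notMem_of_separable_red_aux b 𝔮 Rq Sq ρ₀ ρ hcomp hker hgen hsep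

end Main

section C

variable {R0 : Type*} [CommRing R0] [IsDomain R0]
  (B : Type*) [CommRing B] [IsDomain B] [Algebra R0 B] [FaithfulSMul R0 B]

/-- **Theorem C (the vertical prime), reduced target.**  Verbatim
`PurityMain26.not_dvd_discr_of_separable`, with `L` a nontrivial reduced commutative ring (a finite
product of fields in the application) instead of a field. -/
theorem not_dvd_discr_of_separable_red (P : Ideal R0) [P.IsPrime] (π : R0) (hπP : π ∈ P)
    {k₀ L : Type*} [Field k₀] [CommRing L] [IsReduced L] [Nontrivial L] [Algebra k₀ L]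
    (ρ₀ : R0 →+* k₀) (ρ : B →+* L)
    (hcomp : ∀ r : R0, ρ (algebraMap R0 B r) = algebraMap k₀ L (ρ₀ r))
    (hker₀ : ∀ r : R0, ρ₀ r = 0 ↔ π ∣ r)
    (hker : ∀ z : B, ρ z = 0 ↔ algebraMap R0 B π ∣ z)
    (hgen : ∀ c : k₀, ∃ r r' : R0, ρ₀ r' ≠ 0 ∧ c * ρ₀ r' = ρ₀ r)
    (hsep : ∀ z : B, IsSeparable k₀ (ρ z))
    {ι : Type*} [Fintype ι] [DecidableEq ι] (b : Module.Basis ι (RP P) (SP B P))
    (hprime : (Ideal.span {algebraMap R0 (RP P) π}).IsPrime) :
    ¬ algebraMap R0 (RP P) π ∣ Algebra.discr (RP P) b := by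
  classical
  have hunit₀ : ∀ m : P.primeCompl, IsUnit (ρ₀ (m : R0)) := by
    intro m
    refine IsUnit.mk0 _ fun h0 => m.2 ?_
    obtain ⟨c, hc⟩ := (hker₀ _).mp h0
    rw [hc]
    exact P.mul_mem_right c hπP
  have hunit : ∀ m : Algebra.algebraMapSubmonoid B P.primeCompl, IsUnit (ρ (m : B)) := by
    rintro ⟨_, m0, hm0, rfl⟩
    rw [hcomp]
    exact (hunit₀ ⟨m0, hm0⟩).map _
  set ρ₀' : RP P →+* k₀ := IsLocalization.lift (M := P.primeCompl) (g := ρ₀) hunit₀ with hρ₀'
  set ρ' : SP B P →+* L :=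
    IsLocalization.lift (M := Algebra.algebraMapSubmonoid B P.primeCompl) (g := ρ) hunit with hρ'
  have hρ₀'_eq : ∀ r : R0, ρ₀' (algebraMap R0 (RP P) r) = ρ₀ r := fun r => IsLocalization.lift_eq _ r
  have hρ'_eq : ∀ z : B, ρ' (algebraMap B (SP B P) z) = ρ z := fun z => IsLocalization.lift_eq _ z
  have hcomp' : ∀ r : RP P, ρ' (algebraMap (RP P) (SP B P) r) = algebraMap k₀ L (ρ₀' r) := by
    have : ρ'.comp (algebraMap (RP P) (SP B P)) = (algebraMap k₀ L).comp ρ₀' := by
      apply IsLocalization.ringHom_ext P.primeCompl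
      ext r
      simp only [RingHom.comp_apply]
      rw [← IsScalarTower.algebraMap_apply R0 (RP P) (SP B P),
        IsScalarTower.algebraMap_apply R0 B (SP B P), hρ'_eq, hρ₀'_eq, hcomp]
    intro r
    exact RingHom.congr_fun this r
  have hπS : algebraMap (RP P) (SP B P) (algebraMap R0 (RP P) π) =
      algebraMap B (SP B P) (algebraMap R0 B π) := by
    rw [← IsScalarTower.algebraMap_apply, ← IsScalarTower.algebraMap_apply]
  have hρπ : ρ (algebraMap R0 B π) = 0 := (hker _).mpr (dvd_refl _)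
  have hker' : ∀ z : SP B P, ρ' z = 0 ↔
      z ∈ (Ideal.span {algebraMap R0 (RP P) π}).map (algebraMap (RP P) (SP B P)) := by
    intro z
    rw [Ideal.map_span, Set.image_singleton, Ideal.mem_span_singleton, hπS]
    constructor
    · intro hz
      obtain ⟨e, m, rfl⟩ := IsLocalization.exists_mk'_eq (Algebra.algebraMapSubmonoid B P.primeCompl) z
      have h1 : ρ e = 0 := by
        have h2 : ρ' (IsLocalization.mk' (SP B P) e m) * ρ' (algebraMap B (SP B P) m) =
            ρ' (algebraMap B (SP B P) e) := by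
          rw [← map_mul, IsLocalization.mk'_spec]
        rw [hz, zero_mul, hρ'_eq] at h2
        exact h2.symm
      obtain ⟨c, hc⟩ := (hker e).mp h1
      refine ⟨IsLocalization.mk' (SP B P) c m, ?_⟩
      rw [hc, ← IsLocalization.mul_mk'_eq_mk'_of_mul]
    · rintro ⟨c, rfl⟩
      rw [map_mul, hρ'_eq, hρπ, zero_mul]
  have hgen' : ∀ c : k₀, ∃ r r' : RP P, ρ₀' r' ≠ 0 ∧ c * ρ₀' r' = ρ₀' r := by
    intro c
    obtain ⟨r, r', hr', e⟩ := hgen c
    exact ⟨algebraMap R0 (RP P) r, algebraMap R0 (RP P) r', by rwa [hρ₀'_eq], by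
      rw [hρ₀'_eq, hρ₀'_eq, e]⟩
  -- the weak separability hypothesis on `S_P`
  haveI := hprime
  have hsep' : ∀ z : SP B P, ∃ (r : RP P) (z₁ : SP B P),
      r ∉ Ideal.span {algebraMap R0 (RP P) π} ∧
      algebraMap (RP P) (SP B P) r * z = z₁ ∧ IsSeparable k₀ (ρ' z₁) := by
    intro z
    obtain ⟨e, m, rfl⟩ :=
      IsLocalization.exists_mk'_eq (Algebra.algebraMapSubmonoid B P.primeCompl) z
    obtain ⟨m0, hm0, hm⟩ : ∃ m0 ∈ P.primeCompl, algebraMap R0 B m0 = (m : B) := m.2
    refine ⟨algebraMap R0 (RP P) m0, algebraMap B (SP B P) e, ?_, ?_, ?_⟩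
    · intro hmem
      have hu : IsUnit (algebraMap R0 (RP P) m0) :=
        IsLocalization.map_units (RP P) (⟨m0, hm0⟩ : P.primeCompl)
      exact hprime.ne_top (Ideal.eq_top_of_isUnit_mem _ hmem hu)
    · rw [← IsScalarTower.algebraMap_apply R0 (RP P) (SP B P),
        IsScalarTower.algebraMap_apply R0 B (SP B P), hm, mul_comm, IsLocalization.mk'_spec]
    · rw [hρ'_eq]
      exact hsep e
  have := discr_notMem_of_separable_red b (Ideal.span {algebraMap R0 (RP P) π})
    ρ₀' ρ' hcomp' hker' hgen' hsep'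
  intro hdvd
  exact this (Ideal.mem_span_singleton.mpr hdvd)

end C

end Fermat.Agent.ES.R48.PurSepProd26
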