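/-
Programme R (S48, Deligne–Serre), chapter GEOM, sub-chapter G3 MODEL₁ / BASE (helper7):
the `Γ₁(M)`-twin of the point-place clauses of `RED/BASE/MainCusp12.CuspExports`
(`FiniteAvoids14`, `FiniteAvoidsM14`), by RESTRICTION OF PLACES along `Fbar_M ⊆ F₁ = F1bar M`.

`F₁` is algebraic over `Fbar_M` as soon as it is finite over `ℚbar(j)` (`hj : FF.IsGen Kbar (jF1 M)`,
a G2 export), so every place `v` of `F₁` restricts to a place `w` of `Fbar_M` with
`ord_v (x) = k · ord_w (x)` on `Fbar_M`, `k > 0` (`RED/LVL/PlaceRestrict2`, generic).  Since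
`t, j ∈ Fbar_M`, the statements "`t - c` has order `0` at the places not over `j = ∞`" and "the zeros
of `t - c` lie over `j = ∞`" (`c` a finite cusp value) for `F₁` follow from the same statements on
main for `Fbar_M`:

* `isAlgebraic_F1bar`, `exists_base_place₁`;
* `avoids₁`, `cuspPlaces₁` : from any `MainCusp12.CuspExports n e M cv`.

The finiteness of the set of cusp values (`CuspFinite12`) speaks about `cv` only: AS-IS.
-/
import Mathlib
import Fermat.Agent.RED.BASE.MainCusp12
import Fermat.Agent.RED.LVL.PlaceRestrict2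
import Fermat.Agent.ES.R48.TGenOne7

set_option autoImplicit false
set_option linter.unusedSectionVars false
set_option linter.style.haveILetI false

open ModularCurve AlgebraicCurve IntermediateField
open scoped MatrixGroups

noncomputable section

namespace Fermat.Agent.ES.R48.FiniteAvoidsOne7

open Fermat.Agent.X0
open Fermat.Agent.RED.BASE.QExpMem19 Fermat.Agent.RED.BASE.Interface12
open Fermat.Agent.RED.BASE.MainCusp12
open Fermat.Agent.ES.R48.FF1Defs13 Fermat.Agent.ES.R48.X1Iface13 Fermat.Agent.ES.R48.TGenOne7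

variable (M : ℕ) [NeZero M]

/-! ### `F₁` is algebraic over `Fbar_M` -/

/-- The elements of `ℚbar(j) ⊆ F₁`, seen in `Fbar_M`. -/
def jToFbar : (Kbar⟮jF1 M⟯ : IntermediateField Kbar (FF1 M)) →+* ↥(modularFunctionFieldBar M) where
  toFun y := ⟨((y : FF1 M) : LaurentSeries Kbar), K0_le M (by
    have h : (y : FF1 M) ∈ K0.comap (F1bar M).val := (adjoin_jF1_eq_comap M) ▸ y.2
    exact h)⟩
  map_one' := rfl
  map_mul' _ _ := rfl
  map_zero' := rfl
  map_add' _ _ := rfl

/-- `F₁` is algebraic over `Fbar_M`, when it is finite over `ℚbar(j)`. -/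
theorem isAlgebraic_F1bar (hj : FF.IsGen Kbar (jF1 M)) (x : F1bar M) :
    IsAlgebraic (modularFunctionFieldBar M) (x : LaurentSeries Kbar) := by
  haveI := hj.finite
  have h1 : IsIntegral (Kbar⟮jF1 M⟯ : IntermediateField Kbar (FF1 M)) (x : FF1 M) :=
    IsIntegral.of_finite _ x
  have h2 := IsIntegral.map_of_comp_eq (jToFbar M) ((F1bar M).val : FF1 M →+* LaurentSeries Kbar)
    (by ext y; rfl) h1
  exact h2.isAlgebraic

/-- Restriction of a place of `F₁` to `Fbar_M`. -/
theorem exists_base_place₁ (hj : FF.IsGen Kbar (jF1 M)) (v : Place Kbar (FF1 M)) :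
    ∃ (w : Place Kbar (FF M)) (k : ℕ), 0 < k ∧
      ∀ f : FF M, v.ord (ffIncl M f) = (k : ℤ) * w.ord f := by
  obtain ⟨w, k, hk, h, -⟩ := Fermat.Agent.RED.LVL.PlaceRestrict2.exists_restrict_le
    (fullBar_le_F1bar M) (isAlgebraic_F1bar M hj) v
  exact ⟨w, k, hk, h⟩

/-! ### The point-place clauses of `CuspExports` for `F₁` -/

variable {M}

theorem ffIncl_jF : ffIncl M (jF M) = jF1 M := rfl

theorem ffIncl_sub_const (x : FF M) (c : Kbar) :
    ffIncl M (x - algebraMap Kbar (FF M) c) = ffIncl M x - algebraMap Kbar (FF1 M) c := by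
  rw [map_sub, AlgHom.commutes]

/-- **avoids₁**: at the places of `F₁` not over `j = ∞`, `t` does not take a finite cusp value. -/
theorem avoids₁ {n e : ℕ} [NeZero n] {cv : SL(2, ℤ) → Option Kbar} (hE : CuspExports n e M cv)
    (hj : FF.IsGen Kbar (jF1 M)) :
    ∃ h : TMem n e M, ∀ v : Place Kbar (FF1 M), 0 ≤ v.ord (jF1 M) →
      ∀ (γ : SL(2, ℤ)) (c : Kbar), cv γ = some c →
        v.ord (ffIncl M (tF M h) - algebraMap Kbar (FF1 M) c) = 0 := by
  obtain ⟨h, H⟩ := hE.avoids
  refine ⟨h, fun v hv γ c hγ => ?_⟩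
  obtain ⟨w, k, hk, hres⟩ := exists_base_place₁ M hj v
  have hk' : (0 : ℤ) < k := by exact_mod_cast hk
  have hwj : 0 ≤ w.ord (jF M) := by
    have h1 := hres (jF M)
    rw [ffIncl_jF] at h1
    by_contra hneg
    rw [not_le] at hneg
    nlinarith
  rw [← ffIncl_sub_const, hres, H w hwj γ c hγ, mul_zero]

/-- **cuspPlaces₁**: the places of `F₁` over a finite cusp value of `t` are places over `j = ∞`. -/
theorem cuspPlaces₁ {n e : ℕ} [NeZero n] {cv : SL(2, ℤ) → Option Kbar}
    (hE : CuspExports n e M cv) (hj : FF.IsGen Kbar (jF1 M)) :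
    ∃ h : TMem n e M, ∀ v : Place Kbar (FF1 M), ∀ (γ : SL(2, ℤ)) (c : Kbar), cv γ = some c →
      0 < v.ord (ffIncl M (tF M h) - algebraMap Kbar (FF1 M) c) → v.ord (jF1 M) < 0 := by
  obtain ⟨h, H⟩ := hE.cuspPlaces
  refine ⟨h, fun v γ c hγ hpos => ?_⟩
  obtain ⟨w, k, hk, hres⟩ := exists_base_place₁ M hj v
  have hk' : (0 : ℤ) < k := by exact_mod_cast hk
  rw [← ffIncl_sub_const, hres] at hpos
  have hw : 0 < w.ord (tF M h - algebraMap Kbar (FF M) c) := by
    by_contra hneg
    rw [not_lt] at hneg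
    nlinarith
  have hwj := H w γ c hγ hw
  rw [← ffIncl_jF, hres]
  nlinarith

end Fermat.Agent.ES.R48.FiniteAvoidsOne7
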