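/-
Programme R (S48) / chapter GEOM, G3 MODEL₁ / C. CUSP₁ (helper23): twin of
`Fermat/Agent/RED/CUSP/CuspFibre14.lean` for `X₁(M)`: the fibre of the Hauptmodul `t` (level
`n ∈ {4, 9}`, `n ∣ M`; seen in `F₁ = FF1 M` as `ffIncl M (tF M h)`) over a finite cusp value `c` and
over `∞`, over `ℚbar`, at the cusp places `placeOf C γ` of helper26's `CuspExactOne26`
(`C : CuspData1 M D` arbitrary).  Same statements as the spare `CuspFibreOne23` (written on the spare
`CuspExactOne23`), on the API of record.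

* `ord_sub_pos_of_shape_some`, `ord_neg_of_shape_none` : the shape of `C.T γ f` decides the value of
  `f` at `placeOf C γ` (no exactness needed);
* `ord_jF1_neg_of_zero`, `ord_jF1_neg_of_pole` : zeros of `t - c` (`c` a finite cusp value) and poles
  of `t` lie over `j = ∞` (by restriction of places to `Fbar_M`, helper7's `exists_base_place₁`, and
  main's `FiniteAvoidsM14` / `CuspFibre14`);
* `exists_placeOf_of_neg` : a place over `j = ∞` is some `placeOf C γ` (from the surjectivity `hsurj`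
  of the cusp places, in the literal shape of `CuspExactClose23.exists_cuspPlaceX_eq`);
* `exists_placeOf_of_zero`, `exists_placeOf_of_pole`, `placeOf_ord_sub_pos`, `placeOf_ord_neg`;
* `isGen_tF`, `sum_ord_cusp_fibre`, `sum_toNat_zero_fibre`, `sum_toNat_pole_fibre`,
  `psi_mul_finrank` : `t` generates, and the degree counts over `c` and over `∞`.

The generic lemmas `eq_of_ord_sub_pos`, `sum_toNat_fibre`, `sum_toNat_poles`, `fintypeFibre`,
`fintypePoles` are imported AS-IS from main's `CuspFibre14`.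
Inputs taken as hypotheses: `hsurj` (surjectivity of `cuspPlaceX`, closer
`CuspExactClose23.exists_cuspPlaceX_eq C hM hW`; NO exactness is needed in this file),
`hj : FF.IsGen Kbar (jF1 M)` (`X1Degree14.isGen_jF1`), and main's `hb : BaseHyp n e`, `hnM : n ∣ M`,
`hcv : CuspExp n e M cv`.
-/
import Mathlib
import Fermat.Agent.RED.CUSP.CuspFibre14
import Fermat.Agent.ES.R48.X1CuspT26
import Fermat.Agent.ES.R48.FiniteAvoidsOne7
import Fermat.Agent.ES.R48.CuspExactOne26

set_option autoImplicit false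
set_option linter.unusedSectionVars false

open UpperHalfPlane hiding I
open scoped MatrixGroups IntermediateField

noncomputable section

namespace Fermat.Agent.ES.R48.CuspFibreOneB23

open Fermat.Agent.X0 Fermat.Agent.X0.FF AlgebraicCurve ModularCurve
open Fermat.Agent.RED.BASE.FiniteAvoids14 Fermat.Agent.RED.BASE.Interface12
open Fermat.Agent.RED.BASE.Hauptmodul12
open Fermat.Agent.RED.CUSP.CuspFibre14 (eq_of_ord_sub_pos sum_toNat_fibre sum_toNat_poles)
open Fermat.Agent.ES.R48.X1Iface13 Fermat.Agent.ES.R48.CuspExactOne26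

variable {M : ℕ} [NeZero M] {D : RealizeData1 M} (C : CuspData1 M D)

/-- a cusp expansion with a pole gives a pole at the cusp place; generic form:
`m · ord_v f = order (T g⁻¹ f)`. -/
theorem cuspPlace_ord_eq (g : SL(2, ℤ)) :
    ∃ m : ℕ, 0 < m ∧ ∀ f : FF1 M, f ≠ 0 →
      (C.T g⁻¹ f).order = (m : ℤ) * (X1CuspPlaces23.cuspPlace (hGood C) g).ord f := by
  obtain ⟨m, hm, h, -⟩ := X1CuspPlaces23.cuspPlace_spec (hGood C) g
  exact ⟨m, hm, h⟩

/-- The shape of the cusp expansion at `γ` decides the value of `t` at the cusp place of `γ`. -/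
theorem ord_sub_pos_of_shape_some (m : ℕ) (γ : SL(2, ℤ)) (t : FF1 M) (c : Kbar)
    (hs : CuspShape m (C.T γ t) (some c)) :
    0 < (placeOf C γ).ord (t - algebraMap Kbar (FF1 M) c) := by
  obtain ⟨k, lam, V, hk, hlam, hV, -, -, hE⟩ := hs
  have hgood := hGood C
  have hexp : C.T γ (t - algebraMap Kbar (FF1 M) c) =
      HahnSeries.C lam * HahnSeries.single (k : ℤ) 1 * HahnSeries.ofPowerSeries ℤ Kbar V := by
    rw [map_sub, hgood.map_const, hE]
    ring
  have hord : (C.T γ (t - algebraMap Kbar (FF1 M) c)).order = (k : ℤ) := by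
    rw [hexp, order_cuspTail k lam hlam.1 V hV]
  have hne : t - algebraMap Kbar (FF1 M) c ≠ 0 := by
    intro h0
    rw [h0, map_zero, HahnSeries.order_zero] at hord
    have : (0 : ℤ) < k := by exact_mod_cast hk
    omega
  obtain ⟨μ, hμ, hspec⟩ := cuspPlace_ord_eq C γ⁻¹
  have h := hspec _ hne
  rw [inv_inv, hord] at h
  have hμ' : (0 : ℤ) < μ := by exact_mod_cast hμ
  have hk' : (0 : ℤ) < k := by exact_mod_cast hk
  by_contra hneg
  rw [not_lt] at hneg
  have hneg' : (X1CuspPlaces23.cuspPlace (hGood C) γ⁻¹).ord (t - algebraMap Kbar (FF1 M) c) ≤ 0 :=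
    hneg
  nlinarith

theorem ord_neg_of_shape_none (m : ℕ) (γ : SL(2, ℤ)) (t : FF1 M)
    (hs : CuspShape m (C.T γ t) none) : (placeOf C γ).ord t < 0 := by
  obtain ⟨k, lam, V, hk, hlam, hV, -, hE⟩ := hs
  have hE' : (C.T γ t)⁻¹ =
      HahnSeries.C lam * HahnSeries.single (k : ℤ) 1 * HahnSeries.ofPowerSeries ℤ Kbar V := hE
  have hord : ((C.T γ t)⁻¹).order = (k : ℤ) := by
    rw [hE', order_cuspTail k lam hlam.1 V hV]
  have hk' : (0 : ℤ) < k := by exact_mod_cast hk
  have hne : t ≠ 0 := by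
    intro h0
    rw [h0, map_zero, inv_zero, HahnSeries.order_zero] at hord
    omega
  have hTne : C.T γ t ≠ 0 := LaurentPlace.emb_ne_zero (C.T γ) hne
  have hordT : (C.T γ t).order = -(k : ℤ) := by
    have h1 : (C.T γ t * (C.T γ t)⁻¹).order = 0 := by
      rw [mul_inv_cancel₀ hTne, HahnSeries.order_one]
    rw [HahnSeries.order_mul hTne (inv_ne_zero hTne), hord] at h1
    omega
  obtain ⟨μ, hμ, hspec⟩ := cuspPlace_ord_eq C γ⁻¹
  have h := hspec _ hne
  rw [inv_inv, hordT] at h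
  have hμ' : (0 : ℤ) < μ := by exact_mod_cast hμ
  by_contra hneg
  rw [not_lt] at hneg
  have hneg' : 0 ≤ (X1CuspPlaces23.cuspPlace (hGood C) γ⁻¹).ord t := hneg
  nlinarith

variable {C}

/-- A place of `F₁` over `j = ∞` is a cusp place `placeOf C γ` (`hsurj` = the literal conclusion of
`CuspExactClose23.exists_cuspPlaceX_eq C hM hW`). -/
theorem exists_placeOf_of_neg
    (hsurj : ∀ v : Place Kbar (FF1 M), v.ord (jF1 M) < 0 →
      ∃ a : SL(2, ℤ) ⧸ PG1 M, X1CuspPlaces23.cuspPlaceX (hGood C) a = v)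
    (v : Place Kbar (FF1 M)) (hv : v.ord (jF1 M) < 0) : ∃ γ : SL(2, ℤ), placeOf C γ = v := by
  obtain ⟨a, ha⟩ := hsurj v hv
  induction a using QuotientGroup.induction_on with
  | H g =>
    rw [X1CuspPlaces23.cuspPlaceX_mk] at ha
    exact ⟨g⁻¹, by rw [placeOf, inv_inv]; exact ha⟩

/-! ### The literal (L5) package, from `BaseHyp` -/

section Package

variable {n e : ℕ} [NeZero n] (hj : FF.IsGen Kbar (jF1 M)) (hb : BaseHyp n e) (hnM : n ∣ M)
  (cv : SL(2, ℤ) → Option Kbar) (hcv : CuspExp n e M cv)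

include hj hb hnM hcv

/-- zeros of `t - c`, `c` a finite cusp value, lie over `j = ∞`. -/
theorem ord_jF1_neg_of_zero (h : TMem n e M) (v : Place Kbar (FF1 M)) (γ₀ : SL(2, ℤ)) (c : Kbar)
    (hγ₀ : cv γ₀ = some c)
    (hpos : 0 < v.ord (ffIncl M (tF M h) - algebraMap Kbar (FF1 M) c)) : v.ord (jF1 M) < 0 := by
  obtain ⟨h', H⟩ := Fermat.Agent.RED.BASE.FiniteAvoidsM14.ord_jF_neg_of_cusp_value n e M
    hb.four_or_nine hnM (Fermat.Agent.RED.BASE.TGen19.tRealize_of_tMem n e n (tMem hb))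
    (Fermat.Agent.RED.BASE.TGen19.tRealize_of_tMem n e M h) (tGenBase' hb) cv hcv
  obtain ⟨w, k, hk, hres⟩ := FiniteAvoidsOne7.exists_base_place₁ M hj v
  have hk' : (0 : ℤ) < k := by exact_mod_cast hk
  rw [← FiniteAvoidsOne7.ffIncl_sub_const, hres] at hpos
  have hw : 0 < w.ord (tF M h - algebraMap Kbar (FF M) c) := by
    by_contra hneg
    rw [not_lt] at hneg
    nlinarith
  have hwj := H w γ₀ c hγ₀ hw
  rw [← FiniteAvoidsOne7.ffIncl_jF, hres]
  nlinarith

/-- poles of `t` lie over `j = ∞`. -/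
theorem ord_jF1_neg_of_pole (h : TMem n e M) (v : Place Kbar (FF1 M))
    (hneg : v.ord (ffIncl M (tF M h)) < 0) : v.ord (jF1 M) < 0 := by
  obtain ⟨w, k, hk, hres⟩ := FiniteAvoidsOne7.exists_base_place₁ M hj v
  have hk' : (0 : ℤ) < k := by exact_mod_cast hk
  rw [hres] at hneg
  have hw : w.ord (tF M h) < 0 := by
    by_contra hcon
    rw [not_lt] at hcon
    nlinarith
  obtain ⟨γ, hγ, -⟩ :=
    Fermat.Agent.RED.CUSP.CuspFibre14.exists_placeOf_of_pole hb hnM cv hcv h w hw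
  have hwj : w.ord (jF M) < 0 := by
    rw [← hγ]
    have h1 := Fermat.Agent.RED.CUSP.CuspExact16.neg_ord_jF_eq M γ
    have h2 : (0 : ℤ) < Fermat.Agent.RED.CUSP.CuspExact16.cuspW M γ := by
      exact_mod_cast Fermat.Agent.RED.CUSP.CuspExact16.cuspW_pos M γ
    omega
  rw [← FiniteAvoidsOne7.ffIncl_jF, hres]
  nlinarith

omit hj hb hnM in
/-- `placeOf C γ` is a zero of `t - c` when `cv γ = some c`. -/
theorem placeOf_ord_sub_pos (h : TMem n e M) (γ : SL(2, ℤ)) (c : Kbar) (hγ : cv γ = some c) :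
    0 < (placeOf C γ).ord (ffIncl M (tF M h) - algebraMap Kbar (FF1 M) c) := by
  have hs := X1CuspT26.cuspShape_T1' C hcv h γ
  rw [hγ] at hs
  exact ord_sub_pos_of_shape_some C n γ (ffIncl M (tF M h)) c hs

omit hj hb hnM in
/-- `placeOf C γ` is a pole of `t` when `cv γ = none`. -/
theorem placeOf_ord_neg (h : TMem n e M) (γ : SL(2, ℤ)) (hγ : cv γ = none) :
    (placeOf C γ).ord (ffIncl M (tF M h)) < 0 := by
  have hs := X1CuspT26.cuspShape_T1' C hcv h γ
  rw [hγ] at hs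
  exact ord_neg_of_shape_none C n γ (ffIncl M (tF M h)) hs

/-- zeros of `t - c`, `c` a finite cusp value, are the cusp places `placeOf C γ`, `cv γ = some c`. -/
theorem exists_placeOf_of_zero
    (hsurj : ∀ v : Place Kbar (FF1 M), v.ord (jF1 M) < 0 →
      ∃ a : SL(2, ℤ) ⧸ PG1 M, X1CuspPlaces23.cuspPlaceX (hGood C) a = v)
    (h : TMem n e M) (v : Place Kbar (FF1 M))
    (γ₀ : SL(2, ℤ)) (c : Kbar) (hγ₀ : cv γ₀ = some c)
    (hpos : 0 < v.ord (ffIncl M (tF M h) - algebraMap Kbar (FF1 M) c)) :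
    ∃ γ : SL(2, ℤ), placeOf C γ = v ∧ cv γ = some c := by
  have hvj := ord_jF1_neg_of_zero hj hb hnM cv hcv h v γ₀ c hγ₀ hpos
  obtain ⟨γ, hγ⟩ := exists_placeOf_of_neg hsurj v hvj
  refine ⟨γ, hγ, ?_⟩
  rcases hcg : cv γ with _ | c'
  · exfalso
    have hneg := placeOf_ord_neg (C := C) cv hcv h γ hcg
    rw [hγ] at hneg
    -- `t - c` integral at `v` forces `t` integral at `v`
    have h1 : ffIncl M (tF M h) - algebraMap Kbar (FF1 M) c ∈ v.toValuationSubring :=
      (ffp_mem_iff_ord_nonneg v).mpr (le_of_lt hpos)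
    have h2 : algebraMap Kbar (FF1 M) c ∈ v.toValuationSubring :=
      (ffp_mem_iff_ord_nonneg v).mpr (le_of_eq (ffp_ord_algebraMap v c).symm)
    have h3 := v.toValuationSubring.add_mem _ _ h1 h2
    rw [sub_add_cancel] at h3
    have := (ffp_mem_iff_ord_nonneg v).mp h3
    omega
  · have hpos' := placeOf_ord_sub_pos (C := C) cv hcv h γ c' hcg
    rw [hγ] at hpos'
    rw [eq_of_ord_sub_pos v (ffIncl M (tF M h)) c c' hpos hpos']

/-- poles of `t` are the cusp places `placeOf C γ` with `cv γ = none`. -/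
theorem exists_placeOf_of_pole
    (hsurj : ∀ v : Place Kbar (FF1 M), v.ord (jF1 M) < 0 →
      ∃ a : SL(2, ℤ) ⧸ PG1 M, X1CuspPlaces23.cuspPlaceX (hGood C) a = v)
    (h : TMem n e M) (v : Place Kbar (FF1 M))
    (hneg : v.ord (ffIncl M (tF M h)) < 0) : ∃ γ : SL(2, ℤ), placeOf C γ = v ∧ cv γ = none := by
  have hvj := ord_jF1_neg_of_pole hj hb hnM cv hcv h v hneg
  obtain ⟨γ, hγ⟩ := exists_placeOf_of_neg hsurj v hvj
  refine ⟨γ, hγ, ?_⟩
  rcases hcg : cv γ with _ | c'
  · rfl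
  · exfalso
    have hpos := placeOf_ord_sub_pos (C := C) cv hcv h γ c' hcg
    rw [hγ] at hpos
    have h1 : ffIncl M (tF M h) - algebraMap Kbar (FF1 M) c' ∈ v.toValuationSubring :=
      (ffp_mem_iff_ord_nonneg v).mpr (le_of_lt hpos)
    have h2 : algebraMap Kbar (FF1 M) c' ∈ v.toValuationSubring :=
      (ffp_mem_iff_ord_nonneg v).mpr (le_of_eq (ffp_ord_algebraMap v c').symm)
    have h3 := v.toValuationSubring.add_mem _ _ h1 h2
    rw [sub_add_cancel] at h3
    have := (ffp_mem_iff_ord_nonneg v).mp h3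
    omega

omit hb hnM hcv in
/-- `t` is a transcendental generator of `F₁`. -/
theorem isGen_tF (h : TMem n e M) : IsGen Kbar (ffIncl M (tF M h)) := by
  have : FiniteDimensional (Kbar⟮jF1 M⟯ : IntermediateField Kbar (FF1 M)) (FF1 M) := hj.finite
  exact TGenOne7.isGen_tF1 n e M h

omit hb hnM hcv in
/-- the degree count over a cusp value: `∑_{v | t = c} ord_v (t - c) = [F₁ : ℚbar(t)]`. -/
theorem sum_ord_cusp_fibre (h : TMem n e M) (c : Kbar) :
    ∑ᶠ (v : Place Kbar (FF1 M))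
        (_ : 0 < v.ord (ffIncl M (tF M h) - algebraMap Kbar (FF1 M) c)),
      v.ord (ffIncl M (tF M h) - algebraMap Kbar (FF1 M) c) =
        (Module.finrank Kbar⟮ffIncl M (tF M h)⟯ (FF1 M) : ℤ) :=
  sum_ord_fibre (isGen_tF hj h) c

omit hb hnM hcv in
/-- **rank count, zeros**: `∑_{v | t = c} (ord_v (t - c)).toNat = [F₁ : ℚbar(t)]`. -/
theorem sum_toNat_zero_fibre (h : TMem n e M) (c : Kbar)
    [Fintype {v : Place Kbar (FF1 M) //
      0 < v.ord (ffIncl M (tF M h) - algebraMap Kbar (FF1 M) c)}] :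
    ∑ v : {v : Place Kbar (FF1 M) //
        0 < v.ord (ffIncl M (tF M h) - algebraMap Kbar (FF1 M) c)},
      (v.1.ord (ffIncl M (tF M h) - algebraMap Kbar (FF1 M) c)).toNat
      = Module.finrank Kbar⟮ffIncl M (tF M h)⟯ (FF1 M) :=
  sum_toNat_fibre (isGen_tF hj h) c

omit hb hnM hcv in
/-- **rank count, poles**: `∑_{v | t = ∞} (-ord_v t).toNat = [F₁ : ℚbar(t)]`. -/
theorem sum_toNat_pole_fibre (h : TMem n e M)
    [Fintype {v : Place Kbar (FF1 M) // v.ord (ffIncl M (tF M h)) < 0}] :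
    ∑ v : {v : Place Kbar (FF1 M) // v.ord (ffIncl M (tF M h)) < 0},
      (-v.1.ord (ffIncl M (tF M h))).toNat
      = Module.finrank Kbar⟮ffIncl M (tF M h)⟯ (FF1 M) :=
  sum_toNat_poles (isGen_tF hj h)

omit hj hcv in
/-- the degree `ψ(n) · [F₁ : ℚbar(t)] = [F₁ : ℚbar(j)]`. -/
theorem psi_mul_finrank (h : TMem n e M) :
    dedekindPsi n * Module.finrank Kbar⟮ffIncl M (tF M h)⟯ (FF1 M) =
      Module.finrank Kbar⟮jF1 M⟯ (FF1 M) :=
  TGenOne7.finrank_adjoin_tF1_mul n e M (tGenBase' hb) hnM h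

end Package

end Fermat.Agent.ES.R48.CuspFibreOneB23
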