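/-
Programme R (S48), chapter GEOM / G3 MODEL₁, brick C4 (cusp chain, file 2) — helper26.
**`RED/CUSP/CuspGeneric23.smoothOver_generic` and `SmoothOverGen23.smoothOver_of_frac` with a REDUCED
vertical target** (see `CuspDiscProd26`): VERBATIM the statements on main, with `[Field L]` replaced
by `[CommRing L] [IsReduced L] [Nontrivial L]`.
-/
import Fermat.Agent.RED.CUSP.SmoothOverGen23
import Fermat.Agent.ES.R48.CuspDiscProd26

set_option autoImplicit false
set_option linter.unusedSectionVars false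
set_option linter.unusedVariables false
set_option linter.style.haveILetI false

noncomputable section

namespace Fermat.Agent.ES.R48.CuspGenericProd26

open Polynomial IntermediateField
open Fermat.Agent.RED.CUSP Fermat.Agent.RED.PUR
open Fermat.Agent.RED.PUR.LocalFree26 Fermat.Agent.RED.PUR.Interface26
open Fermat.Agent.RED.CUSP.PolyToPS16 Fermat.Agent.RED.CUSP.PSRadical6
open Fermat.Agent.RED.CUSP.IntClosedPS16 Fermat.Agent.RED.CUSP.CuspSemi23
open Fermat.Agent.RED.PUR.IntClosBase13 Fermat.Agent.RED.PUR.ChartsGeneric13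
open Fermat.Agent.RED.ChartTransfer3 Fermat.Agent.RED.CUSP.CuspGeneric23

variable {A K F : Type*} [CommRing A] [IsDomain A] [IsDiscreteValuationRing A]
  [Field K] [Algebra A K] [IsFractionRing A K] [CharZero K]
  [Field F] [Algebra K F] [Algebra A F] [IsScalarTower A K F]
  [Algebra A[X] F] [IsScalarTower A A[X] F] {t : F}

/-- **The generic cusp theorem**, reduced vertical target (`CuspGeneric23.smoothOver_generic`). -/
theorem smoothOver_generic_red (hX : algebraMap A[X] F X = t) (ht : Transcendental K t)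
    [FiniteDimensional ↥K⟮t⟯ F] (π c : A) (hπ : Irreducible π)
    {Cκ : Type*} [Fintype Cκ] [DecidableEq Cκ]
    (ι : Cκ → F →+* LaurentSeries K)
    (ιPS : Cκ → ↥(integralClosure A[X] F) →+* PowerSeries A)
    (hcompat : ∀ k (b : ↥(integralClosure A[X] F)), toLS A K (ιPS k b) = ι k (b : F))
    (hconst : ∀ k (a : A), ι k (algebraMap A F a) = HahnSeries.C (algebraMap A K a))
    (e : Cκ → ℕ) (he : ∀ k, 0 < e k) (heA : ∀ k, IsUnit ((e k : ℕ) : A))
    (u : Cκ → PowerSeries A) (u₀ : Cκ → Aˣ)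
    (hu : ∀ k, PowerSeries.constantCoeff (u k) = u₀ k)
    (hshape : ∀ k, ι k t = HahnSeries.C (algebraMap A K c) +
      toLS A K (u k * PowerSeries.X ^ e k))
    (hplaces : ∀ w : AlgebraicCurve.Place K F, 0 < w.ord (t - algebraMap A F c) →
      ∃ k, ∀ z : F, z ≠ 0 → 0 ≤ (ι k z).order → z ∈ w.toValuationSubring)
    (hrank : ∑ k, e k = Module.finrank ↥K⟮t⟯ F)
    {k₀ L : Type*} [Field k₀] [CommRing L] [IsReduced L] [Nontrivial L] [Algebra k₀ L]
    (ρ₀ : A[X] →+* k₀) (ρ : ↥(integralClosure A[X] F) →+* L)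
    (hcomp : ∀ r : A[X], ρ (algebraMap A[X] ↥(integralClosure A[X] F) r) = algebraMap k₀ L (ρ₀ r))
    (hker₀ : ∀ r : A[X], ρ₀ r = 0 ↔ C π ∣ r)
    (hker : ∀ z : ↥(integralClosure A[X] F), ρ z = 0 ↔
      algebraMap A[X] ↥(integralClosure A[X] F) (C π) ∣ z)
    (hgen : ∀ c' : k₀, ∃ r r' : A[X], ρ₀ r' ≠ 0 ∧ c' * ρ₀ r' = ρ₀ r)
    (hsep : ∀ z : ↥(integralClosure A[X] F), IsSeparable k₀ (ρ z))
    (hUNR : ∀ O : ValuationSubring F, (∀ s : ↥(integralClosure A[X] F), (s : F) ∈ O) →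
      IsDiscreteValuationRing O →
      (algebraMap A[X] F (C π))⁻¹ ∈ O →
      (algebraMap A[X] F (X - C c))⁻¹ ∈ O →
      (∀ r : A[X], r ∉ cuspIdeal π c → (algebraMap A[X] F r)⁻¹ ∈ O) →
      ∃ g0 : A[X], (algebraMap A[X] F g0)⁻¹ ∉ O ∧
        ∀ y ∈ O, y⁻¹ ∉ O → y / algebraMap A[X] F g0 ∈ O)
    (x : Ideal ↥(chart A t)) (hx : x.IsMaximal) (hπx : algebraMap A ↥(chart A t) π ∈ x)
    (τ : ↥(chart A t)) (hτ : (τ : F) = t - algebraMap A F c) (hτx : τ ∈ x) :
    SmoothAt π (chart A t) x := by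
  classical
  -- the instances on `B`
  haveI := finite_integralClosure (A := A) (K := K) hX ht
  haveI := isIntegrallyClosed_integralClosure (A := A) (K := K) hX ht
  haveI := faithfulSMul_integralClosure (A := A) (K := K) hX ht
  haveI := isFractionRing_integralClosure (A := A) (K := K) hX ht
  haveI := isPrincipalIdealRing_quot hπ
  have hmaxA : (Ideal.span {π}).IsMaximal := by
    rw [← Irreducible.maximalIdeal_eq hπ]; exact IsLocalRing.maximalIdeal.isMaximal A
  haveI hP : (cuspIdeal π c).IsPrime := (cuspIdeal_isMaximal π c hmaxA).isPrime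
  apply smoothAt_of_locPrin hX π x
  set ee := chartEquiv (A := A) hX with hee
  have hemax : (x.comap (ee : ↥(integralClosure A[X] F) →+* ↥(chart A t))).IsMaximal :=
    Ideal.comap_isMaximal_of_surjective _ ee.surjective
  have hπ' : algebraMap A[X] ↥(integralClosure A[X] F) (C π) ∈
      x.comap (ee : ↥(integralClosure A[X] F) →+* ↥(chart A t)) := by
    rw [Ideal.mem_comap]
    show ee _ ∈ x
    rw [hee, chartEquiv_algebraMap]
    exact hπx
  have hτ' : algebraMap A[X] ↥(integralClosure A[X] F) (X - C c) ∈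
      x.comap (ee : ↥(integralClosure A[X] F) →+* ↥(chart A t)) := by
    rw [Ideal.mem_comap]
    have : (ee : ↥(integralClosure A[X] F) →+* ↥(chart A t))
        (algebraMap A[X] ↥(integralClosure A[X] F) (X - C c)) = τ := by
      apply Subtype.ext
      show algebraMap A[X] F (X - C c) = (τ : F)
      rw [hτ, algebraMap_eq_aeval hX, map_sub, aeval_X, aeval_C]
    rw [this]
    exact hτx
  -- orders of `t - c`
  have hord : ∀ k, (ι k (t - algebraMap A F c)).order = e k := by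
    intro k
    rw [map_sub, hshape, hconst, add_sub_cancel_left]
    exact order_toLS_mul_X_pow A K (u k) (by rw [hu]; exact (u₀ k).ne_zero) (e k)
  have hRF : ∀ r : A[X], algebraMap ↥(integralClosure A[X] F) F
      (algebraMap A[X] ↥(integralClosure A[X] F) r) = algebraMap A[X] F r := fun r => rfl
  exact CuspDiscProd26.cusp_semi_of_purity_red π c ↥(integralClosure A[X] F) F e he heA u u₀ hu ιPS
    (fun k p => hι_of_shape hX c (ι k) (ιPS k) (hcompat k) (hconst k) (e k) (he k) (u k)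
      (hshape k) p)
    hπ
    (CharZeroB9.hiv_of_places hX ht c ι ιPS hcompat e hord hplaces)
    (by rw [hrank, finrank_localization, RankBridge13.finrank_integralClosure (K := K) hX ht])
    (hchar_of_dvr (K := K) π hπ) ρ₀ ρ hcomp hker₀ hker hgen hsep
    (fun O hBO hdvr h1 h2 h3 => hUNR O hBO hdvr h1 h2 h3)
    _ hemax hπ' hτ'

/-- `smoothOver_generic_red` with the maps `ιPS` built from `hfrac` (`CuspPS6`); reduced vertical
target (`SmoothOverGen23.smoothOver_of_frac`). -/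
theorem smoothOver_of_frac_red (hX : algebraMap A[X] F X = t) (ht : Transcendental K t)
    [FiniteDimensional ↥K⟮t⟯ F] (π c : A) (hπ : Irreducible π)
    {Cκ : Type*} [Fintype Cκ] [DecidableEq Cκ]
    (ι : Cκ → F →+* LaurentSeries K)
    (hconst : ∀ k (a : A), ι k (algebraMap A F a) = HahnSeries.C (algebraMap A K a))
    (hfrac : ∀ k f, ι k f ∈ psFrac A K)
    (e : Cκ → ℕ) (he : ∀ k, 0 < e k) (heA : ∀ k, IsUnit ((e k : ℕ) : A))
    (u : Cκ → PowerSeries A) (hu : ∀ k, IsUnit (PowerSeries.constantCoeff (u k)))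
    (hshape : ∀ k, ι k t = HahnSeries.C (algebraMap A K c) +
      toLS A K (u k * PowerSeries.X ^ e k))
    (hplaces : ∀ w : AlgebraicCurve.Place K F, 0 < w.ord (t - algebraMap A F c) →
      ∃ k, ∀ z : F, z ≠ 0 → 0 ≤ (ι k z).order → z ∈ w.toValuationSubring)
    (hrank : ∑ k, e k = Module.finrank ↥K⟮t⟯ F)
    {k₀ L : Type*} [Field k₀] [CommRing L] [IsReduced L] [Nontrivial L] [Algebra k₀ L]
    (ρ₀ : A[X] →+* k₀) (ρ : ↥(integralClosure A[X] F) →+* L)
    (hcomp : ∀ r : A[X], ρ (algebraMap A[X] ↥(integralClosure A[X] F) r) = algebraMap k₀ L (ρ₀ r))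
    (hker₀ : ∀ r : A[X], ρ₀ r = 0 ↔ C π ∣ r)
    (hker : ∀ z : ↥(integralClosure A[X] F), ρ z = 0 ↔
      algebraMap A[X] ↥(integralClosure A[X] F) (C π) ∣ z)
    (hgen : ∀ c' : k₀, ∃ r r' : A[X], ρ₀ r' ≠ 0 ∧ c' * ρ₀ r' = ρ₀ r)
    (hsep : ∀ z : ↥(integralClosure A[X] F), IsSeparable k₀ (ρ z))
    (hUNR : ∀ O : ValuationSubring F, (∀ s : ↥(integralClosure A[X] F), (s : F) ∈ O) →
      IsDiscreteValuationRing O →
      (algebraMap A[X] F (C π))⁻¹ ∈ O →
      (algebraMap A[X] F (X - C c))⁻¹ ∈ O →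
      (∀ r : A[X], r ∉ cuspIdeal π c → (algebraMap A[X] F r)⁻¹ ∈ O) →
      ∃ g0 : A[X], (algebraMap A[X] F g0)⁻¹ ∉ O ∧
        ∀ y ∈ O, y⁻¹ ∉ O → y / algebraMap A[X] F g0 ∈ O)
    (x : Ideal ↥(chart A t)) (hx : x.IsMaximal) (hπx : algebraMap A ↥(chart A t) π ∈ x)
    (τ : ↥(chart A t)) (hτ : (τ : F) = t - algebraMap A F c) (hτx : τ ∈ x) :
    SmoothAt π (chart A t) x := by
  classical
  choose ιPS hcompat _ using fun k =>
    CuspPS6.exists_iotaPS hX (ι k) (hconst k) (hfrac k) c (u k) (e k) (he k) (hshape k)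
  exact smoothOver_generic_red hX ht π c hπ ι ιPS hcompat hconst e he heA u
    (fun k => (hu k).unit) (fun k => (hu k).unit_spec.symm) hshape hplaces hrank ρ₀ ρ hcomp hker₀ hker
    hgen hsep hUNR x hx hπx τ hτ hτx

end Fermat.Agent.ES.R48.CuspGenericProd26
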