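/-
Programme R (S48), chapter GEOM / G3 MODEL₁, brick C4 (cusp chain, file 3) — helper26.
**The cusp theorem in the generic `(O, E)` setting WITHOUT `(DEG)+(IRR)`**: variants of
`SmoothOverGen23.smoothOver_gen` and `CuspIface23.smoothOver_of_family` that TAKE the vertical data
(with a reduced target `L`, e.g. a finite product of fields) instead of deriving them from
`G1Package8.Irr` through `VertPurity22.vertical_data`.

* `VertRed O E π t` : instance-free Prop wrapper for the vertical data of the contract chart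
  `chart O t` (`ρ₀ : O[X] → k₀`, `ρ : chart O t → L`, `L` nontrivial reduced, `ker ρ = π · chart`,
  `k₀ = Frac (ρ₀ O[X])`, every `ρ z` separable over `k₀`) — the SAME wrapper serves the off-cusp chain;
* `smoothOver_gen_red` : `(O, E)` form with the `O[X]`-algebra instance as a variable
  (the shape of `SmoothOverGen23.smoothOver_gen`);
* `smoothOver_of_family_red` : `HasCuspFamily → HUNRCusp → VertRed → SmoothOver O E π t c`
  (the shape of `CuspIface23.smoothOver_of_family`; no `hE ht htr hdeg hirr ℓ hord`).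
-/
import Fermat.Agent.RED.CUSP.CuspIface23
import Fermat.Agent.ES.R48.CuspGenericProd26

set_option autoImplicit false
set_option linter.unusedSectionVars false
set_option linter.unusedVariables false
set_option linter.style.haveILetI false

noncomputable section

namespace Fermat.Agent.ES.R48.CuspIfaceProd26

open Polynomial IntermediateField ModularCurve
open Fermat.Agent.RED.CUSP.PolyToPS16 Fermat.Agent.RED.CUSP.IntClosedPS16
open Fermat.Agent.RED.PUR.IntClosBase13 Fermat.Agent.RED.PUR.ChartsGeneric13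
open Fermat.Agent.RED.ChartTransfer3
open Fermat.Agent.RED.ModelIface4 Fermat.Agent.RED.NumInst4
open Fermat.Agent.RED.CUSP.CuspIface23

universe u

variable {K : Type u} [Field K] (O : ValuationSubring K) (E : IntermediateField K (LaurentSeries K))

/-- **Vertical data with a reduced target**, on the contract chart `chart O t`, instance-free. -/
def VertRed (π : ↥O) (t : ↥E) : Prop :=
  ∃ (k₀ L : Type u) (_ : Field k₀) (_ : CommRing L) (_ : IsReduced L) (_ : Nontrivial L)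
    (_ : Algebra k₀ L) (ρ₀ : (↥O)[X] →+* k₀) (ρ : ↥(chart ↥O t) →+* L),
    (∀ (r : (↥O)[X]) (z : ↥(chart ↥O t)), (z : ↥E) = aeval t r → ρ z = algebraMap k₀ L (ρ₀ r)) ∧
    (∀ r : (↥O)[X], ρ₀ r = 0 ↔ C π ∣ r) ∧
    (∀ z : ↥(chart ↥O t), ρ z = 0 ↔ algebraMap ↥O ↥(chart ↥O t) π ∣ z) ∧
    (∀ c : k₀, ∃ r r' : (↥O)[X], ρ₀ r' ≠ 0 ∧ c * ρ₀ r' = ρ₀ r) ∧
    ∀ z : ↥(chart ↥O t), IsSeparable k₀ (ρ z)

variable {O E}

/-- **The cusp theorem in the generic `(O, E)` setting, vertical data as hypotheses**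
(`SmoothOverGen23.smoothOver_gen` without `(DEG)+(IRR)`). -/
theorem smoothOver_gen_red [CharZero K] [IsDiscreteValuationRing ↥O] {π : ↥O} (hπ : Irreducible π)
    (t : ↥E) [Algebra (↥O)[X] ↥E] [IsScalarTower ↥O (↥O)[X] ↥E]
    (hX : algebraMap (↥O)[X] ↥E X = t)
    (htrK : Transcendental K t) [FiniteDimensional ↥K⟮t⟯ ↥E] (c : ↥O)
    {Cκ : Type*} [Fintype Cκ] [DecidableEq Cκ]
    (ι : Cκ → ↥E →+* LaurentSeries K)
    (hconst : ∀ k (a : ↥O), ι k (algebraMap ↥O ↥E a) = HahnSeries.C (algebraMap ↥O K a))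
    (hfrac : ∀ k f, ι k f ∈ psFrac ↥O K)
    (e : Cκ → ℕ) (he : ∀ k, 0 < e k) (heA : ∀ k, IsUnit ((e k : ℕ) : ↥O))
    (u : Cκ → PowerSeries ↥O) (hu : ∀ k, IsUnit (PowerSeries.constantCoeff (u k)))
    (hshape : ∀ k, ι k t = HahnSeries.C (algebraMap ↥O K c) +
      toLS ↥O K (u k * PowerSeries.X ^ e k))
    (hplaces : ∀ w : AlgebraicCurve.Place K ↥E, 0 < w.ord (t - algebraMap ↥O ↥E c) →
      ∃ k, ∀ z : ↥E, z ≠ 0 → 0 ≤ (ι k z).order → z ∈ w.toValuationSubring)
    (hrank : ∑ k, e k = Module.finrank ↥K⟮t⟯ ↥E)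
    {k₀ L : Type*} [Field k₀] [CommRing L] [IsReduced L] [Nontrivial L] [Algebra k₀ L]
    (ρ₀ : (↥O)[X] →+* k₀) (ρ : ↥(integralClosure (↥O)[X] ↥E) →+* L)
    (hcomp : ∀ r : (↥O)[X],
      ρ (algebraMap (↥O)[X] ↥(integralClosure (↥O)[X] ↥E) r) = algebraMap k₀ L (ρ₀ r))
    (hker₀ : ∀ r : (↥O)[X], ρ₀ r = 0 ↔ C π ∣ r)
    (hker : ∀ z : ↥(integralClosure (↥O)[X] ↥E), ρ z = 0 ↔
      algebraMap (↥O)[X] ↥(integralClosure (↥O)[X] ↥E) (C π) ∣ z)
    (hgen : ∀ c' : k₀, ∃ r r' : (↥O)[X], ρ₀ r' ≠ 0 ∧ c' * ρ₀ r' = ρ₀ r)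
    (hsep : ∀ z : ↥(integralClosure (↥O)[X] ↥E), IsSeparable k₀ (ρ z))
    (hUNR : ∀ O' : ValuationSubring ↥E,
      (∀ s : ↥(integralClosure (↥O)[X] ↥E), (s : ↥E) ∈ O') →
      IsDiscreteValuationRing O' →
      (algebraMap (↥O)[X] ↥E (C π))⁻¹ ∈ O' →
      (algebraMap (↥O)[X] ↥E (X - C c))⁻¹ ∈ O' →
      (∀ r : (↥O)[X], r ∉ cuspIdeal π c → (algebraMap (↥O)[X] ↥E r)⁻¹ ∈ O') →
      ∃ g0 : (↥O)[X], (algebraMap (↥O)[X] ↥E g0)⁻¹ ∉ O' ∧
        ∀ y ∈ O', y⁻¹ ∉ O' → y / algebraMap (↥O)[X] ↥E g0 ∈ O') :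
    SmoothOver O E π t c := by
  haveI : IsScalarTower ↥O K ↥E := isScalarTower_OE O E
  intro x hx hπx hτx
  exact CuspGenericProd26.smoothOver_of_frac_red (A := ↥O) (K := K) (F := ↥E) hX htrK π c hπ ι
    hconst hfrac e he heA u hu hshape hplaces hrank ρ₀ ρ hcomp hker₀ hker hgen hsep hUNR x hx hπx
    (subConst O E t c)
    (by
      show ((subConst O E t c : ↥(chart ↥O t)) : ↥E) = _
      rfl) hτx

/-- **The cusp theorem, wrapped, WITHOUT `(DEG)+(IRR)`**: a cusp family over `t = c`, the horizontal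
hypothesis at the cusp point, and vertical data with a reduced target give (LOC) at every closed
point of the chart over `π, t - c`. -/
theorem smoothOver_of_family_red [CharZero K] [IsDiscreteValuationRing ↥O] {π : ↥O}
    (hπ : Irreducible π) (t : ↥E)
    (htrK : Transcendental K t) [FiniteDimensional ↥K⟮t⟯ ↥E] (c : ↥O)
    (hfam : HasCuspFamily O E t c (Module.finrank ↥K⟮t⟯ ↥E))
    (hunr : HUNRCusp O E π t c) (hvert : VertRed O E π t) : SmoothOver O E π t c := by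
  haveI : IsScalarTower ↥O K ↥E := Fermat.Agent.RED.NumInst4.isScalarTower_OE O E
  letI : Algebra (↥O)[X] ↥E := polyAlgebra (A := ↥O) t
  haveI : IsScalarTower ↥O (↥O)[X] ↥E := polyAlgebra_isScalarTower (A := ↥O) t
  have hX : algebraMap (↥O)[X] ↥E X = t := polyAlgebra_algebraMap_X (A := ↥O) t
  obtain ⟨Cκ, hfin, hdec, ι, e, u, hconst, hfrac, he, heA, hu, hshape, hplaces, hrank⟩ := hfam
  obtain ⟨k₀, L, _, _, _, _, _, ρ₀, ρ, hcomp, hker₀, hker, hgen, hsep⟩ := hvert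
  have haev : ∀ r : (↥O)[X], algebraMap (↥O)[X] ↥E r = aeval t r := fun r =>
    algebraMap_eq_aeval hX r
  set ee := chartEquiv (A := ↥O) (F := ↥E) hX with hee
  refine smoothOver_gen_red hπ t hX htrK c ι hconst hfrac e he heA u hu hshape hplaces hrank ρ₀
    (ρ.comp (ee : ↥(integralClosure (↥O)[X] ↥E) →+* ↥(chart ↥O t))) ?_ hker₀ ?_ hgen ?_ ?_
  · intro r
    rw [RingHom.comp_apply]
    refine hcomp r _ ?_
    show algebraMap (↥O)[X] ↥E r = aeval t r
    exact haev r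
  · intro z
    rw [RingHom.comp_apply, hker]
    have h1 : algebraMap ↥O ↥(chart ↥O t) π =
        ee (algebraMap (↥O)[X] ↥(integralClosure (↥O)[X] ↥E) (C π)) := by
      rw [hee, chartEquiv_algebraMap]
    rw [h1]
    exact map_dvd_iff ee
  · intro z
    rw [RingHom.comp_apply]
    exact hsep _
  · intro O' hB hdvr h1 h2 h3
    refine (fun ⟨g0, hg1, hg2⟩ => ⟨g0, by rw [haev]; exact hg1, fun y hy hy' => by
      rw [haev]; exact hg2 y hy hy'⟩) (hunr O' ?_ hdvr ?_ ?_ ?_)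
    · intro s hs
      exact hB ⟨s, (isIntegral_iff hX s).mpr hs⟩
    · have := h1
      rwa [haev, aeval_C] at this
    · have := h2
      rwa [haev, map_sub, aeval_X, aeval_C] at this
    · intro r hr
      have := h3 r hr
      rwa [haev] at this

end Fermat.Agent.ES.R48.CuspIfaceProd26
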