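/-
Programme R (S48) / chapter GEOM, G3 MODEL₁ / C. CUSP₁ (helper11): twin of
`Fermat/Agent/RED/CUSP/CuspRamDvd3.lean` for `X₁(M)`: the ramification index of the Hauptmodul `t`
(level `n ∈ {4, 9}`, `n ∣ M`; seen in `F₁ = FF1 M` as `ffIncl M (tF M h)`) at a cusp place of `F₁`
divides the level `M`.

`t ∈ Fbar_n ⊂ Fbar_M ⊂ F₁` generates `Fbar_n`.  For a place `v` of `F₁` over `j = ∞` with restriction
`w` to `Fbar_M` (helper7's `FiniteAvoidsOne7.exists_base_place₁`) and `w₀` to `Fbar_n` (main's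
`FiniteAvoidsM14.exists_base_place`), `ord_v = k₁ · k₀ · ord_{w₀}` on `Fbar_n`; `t` is unramified at
`w₀` (main's `CuspRamDvd3.ord_base_eq_one` / `ord_base_eq_neg_one`, level `n` only, imported AS-IS),
so `ord_v (t - c) = k₁ k₀` (resp. `-ord_v t = k₁ k₀`), and `k₁ k₀ ∣ -ord_v j ∣ M` (the width of a
cusp of `X₁(M)` divides the level: `X1CuspPlaces23.cuspPlaceX_neg_ord_jF_dvd` and
`X1CuspPlaces23.card_orbit_T_dvd`).

Same names and statements as main's file under `FF M ↦ FF1 M`, `jF M ↦ jF1 M`,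
`tF M h ↦ ffIncl M (tF M h)` (main's `neg_ord_jF_dvd` is `neg_ord_jF1_dvd` here).
Inputs taken as hypotheses (exactly where main used closed facts):
* `hsurj` : surjectivity of `cuspPlaceX`, in the literal shape of the conclusion of
  `CuspExactClose23.exists_cuspPlaceX_eq C hM hW` (as in `CuspFibreOneB23`); used ONLY for
  `neg_ord_jF1_dvd`, hence in everything after it;
* `hj : FF.IsGen Kbar (jF1 M)` (`X1Degree14.isGen_jF1`), for the restriction of places to `Fbar_M`;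
* main's `hb : BaseHyp n e`, `hnM : n ∣ M`, `hcv : CuspExp n e M cv`.
-/
import Mathlib
import Fermat.Agent.RED.CUSP.CuspRamDvd3
import Fermat.Agent.ES.R48.CuspFibreOneB23

set_option autoImplicit false
set_option linter.unusedSectionVars false

noncomputable section

open UpperHalfPlane hiding I
open scoped MatrixGroups IntermediateField

namespace Fermat.Agent.ES.R48.CuspRamDvdOne11

open Fermat.Agent.X0 Fermat.Agent.X0.FF AlgebraicCurve ModularCurve
open Fermat.Agent.RED.BASE.Interface12 Fermat.Agent.RED.BASE.EtaQuot12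
open Fermat.Agent.RED.BASE Fermat.Agent.RED.BASE.Hauptmodul12
open Fermat.Agent.RED.CUSP.CuspRamDvd3 (ord_base_eq_one ord_base_eq_neg_one)
open Fermat.Agent.ES.R48.X1Iface13 Fermat.Agent.ES.R48.CuspExactOne26

variable {M : ℕ} [NeZero M] {D : RealizeData1 M} {C : CuspData1 M D}

/-- **Width divides level**: at a place over `j = ∞` of `F₁`, `-ord_v j ∣ M`. -/
theorem neg_ord_jF1_dvd
    (hsurj : ∀ v : Place Kbar (FF1 M), v.ord (jF1 M) < 0 →
      ∃ a : SL(2, ℤ) ⧸ PG1 M, X1CuspPlaces23.cuspPlaceX (hGood C) a = v)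
    (v : Place Kbar (FF1 M)) (hvj : v.ord (jF1 M) < 0) : -v.ord (jF1 M) ∣ (M : ℤ) := by
  obtain ⟨a, ha⟩ := hsurj v hvj
  have h1 := X1CuspPlaces23.cuspPlaceX_neg_ord_jF_dvd (hGood C) a
  rw [ha] at h1
  have h2 : ((Nat.card (MulAction.orbit (Subgroup.zpowers ModularGroup.T) a) : ℕ) : ℤ) ∣
      (M : ℤ) := by
    exact_mod_cast X1CuspPlaces23.card_orbit_T_dvd M a
  exact h1.trans h2

section Level

variable {n e : ℕ} [NeZero n] (hj : FF.IsGen Kbar (jF1 M)) (hb : BaseHyp n e) (hnM : n ∣ M)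
  (hsurj : ∀ v : Place Kbar (FF1 M), v.ord (jF1 M) < 0 →
    ∃ a : SL(2, ℤ) ⧸ PG1 M, X1CuspPlaces23.cuspPlaceX (hGood C) a = v)

include hj hb hnM

omit hb in
/-- Restriction of a place of `F₁` to `Fbar_n`, through `Fbar_M`:
`ord_v = k · ord_{w₀}` on `Fbar_n`. -/
theorem exists_base_place₂ (v : Place Kbar (FF1 M)) :
    ∃ (w₀ : Place Kbar (FF n)) (k : ℕ), 0 < k ∧
      ∀ f : FF n, v.ord (ffIncl M (IntermediateField.inclusion (fbar_mono hnM) f)) =
        (k : ℤ) * w₀.ord f := by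
  obtain ⟨w, k₁, hk₁, h₁⟩ := FiniteAvoidsOne7.exists_base_place₁ M hj v
  obtain ⟨w₀, k₀, hk₀, h₀⟩ := FiniteAvoidsM14.exists_base_place hnM w
  refine ⟨w₀, k₁ * k₀, Nat.mul_pos hk₁ hk₀, fun f => ?_⟩
  rw [h₁, h₀]
  push_cast
  ring

include hsurj

/-- **Ramification of `t` over a finite value at a place over `j = ∞` divides the level.** -/
theorem ord_sub_dvd (h : TMem n e M) (v : Place Kbar (FF1 M)) (hvj : v.ord (jF1 M) < 0) (c : Kbar)
    (hpos : 0 < v.ord (ffIncl M (tF M h) - algebraMap Kbar (FF1 M) c)) :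
    v.ord (ffIncl M (tF M h) - algebraMap Kbar (FF1 M) c) ∣ (M : ℤ) := by
  obtain ⟨w₀, k, hk, hord⟩ := exists_base_place₂ hj hnM v
  have h₀ : TMem n e n := tMem hb
  have e1 : ffIncl M (IntermediateField.inclusion (fbar_mono hnM)
      (tF n h₀ - algebraMap Kbar (FF n) c)) =
      ffIncl M (tF M h) - algebraMap Kbar (FF1 M) c := by
    rw [← FiniteAvoidsOne7.ffIncl_sub_const, map_sub]
    rfl
  have e2 : ffIncl M (IntermediateField.inclusion (fbar_mono hnM) (jF n)) = jF1 M := rfl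
  have h1 := hord (tF n h₀ - algebraMap Kbar (FF n) c)
  rw [e1] at h1
  have h2 := hord (jF n)
  rw [e2] at h2
  have hk' : (0 : ℤ) < k := by exact_mod_cast hk
  have hpos₀ : 0 < w₀.ord (tF n h₀ - algebraMap Kbar (FF n) c) := by
    rw [h1] at hpos
    exact (mul_pos_iff_of_pos_left hk').mp hpos
  rw [ord_base_eq_one hb h₀ w₀ c hpos₀, mul_one] at h1
  rw [h1]
  have hdvd : (k : ℤ) ∣ -v.ord (jF1 M) := by
    rw [h2]
    exact ⟨-w₀.ord (jF n), by ring⟩
  exact hdvd.trans (neg_ord_jF1_dvd hsurj v hvj)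

/-- **Pole order of `t` at a place over `j = ∞` divides the level.** -/
theorem neg_ord_dvd (h : TMem n e M) (v : Place Kbar (FF1 M)) (hvj : v.ord (jF1 M) < 0)
    (hneg : v.ord (ffIncl M (tF M h)) < 0) : -v.ord (ffIncl M (tF M h)) ∣ (M : ℤ) := by
  obtain ⟨w₀, k, hk, hord⟩ := exists_base_place₂ hj hnM v
  have h₀ : TMem n e n := tMem hb
  have e1 : ffIncl M (IntermediateField.inclusion (fbar_mono hnM) (tF n h₀)) =
      ffIncl M (tF M h) := rfl
  have e2 : ffIncl M (IntermediateField.inclusion (fbar_mono hnM) (jF n)) = jF1 M := rfl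
  have h1 := hord (tF n h₀)
  rw [e1] at h1
  have h2 := hord (jF n)
  rw [e2] at h2
  have hk' : (0 : ℤ) < k := by exact_mod_cast hk
  have hneg₀ : w₀.ord (tF n h₀) < 0 := by
    rw [h1] at hneg
    by_contra hcon
    rw [not_lt] at hcon
    have := mul_nonneg hk'.le hcon
    omega
  rw [ord_base_eq_neg_one hb h₀ w₀ hneg₀] at h1
  have h3 : -v.ord (ffIncl M (tF M h)) = k := by rw [h1]; ring
  rw [h3]
  have hdvd : (k : ℤ) ∣ -v.ord (jF1 M) := by
    rw [h2]
    exact ⟨-w₀.ord (jF n), by ring⟩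
  exact hdvd.trans (neg_ord_jF1_dvd hsurj v hvj)

variable (cv : SL(2, ℤ) → Option Kbar) (hcv : CuspExp n e M cv)

include hcv

/-- The ramification index of `t` over a finite cusp value divides the level. -/
theorem ord_sub_dvd_of_cv (h : TMem n e M) (v : Place Kbar (FF1 M)) (γ₀ : SL(2, ℤ)) (c : Kbar)
    (hγ₀ : cv γ₀ = some c)
    (hpos : 0 < v.ord (ffIncl M (tF M h) - algebraMap Kbar (FF1 M) c)) :
    v.ord (ffIncl M (tF M h) - algebraMap Kbar (FF1 M) c) ∣ (M : ℤ) := by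
  have hvj : v.ord (jF1 M) < 0 :=
    CuspFibreOneB23.ord_jF1_neg_of_zero hj hb hnM cv hcv h v γ₀ c hγ₀ hpos
  exact ord_sub_dvd hj hb hnM hsurj h v hvj c hpos

/-- The pole order of `t` at any pole divides the level. -/
theorem neg_ord_dvd_of_pole (h : TMem n e M) (v : Place Kbar (FF1 M))
    (hneg : v.ord (ffIncl M (tF M h)) < 0) : -v.ord (ffIncl M (tF M h)) ∣ (M : ℤ) := by
  have hvj : v.ord (jF1 M) < 0 :=
    CuspFibreOneB23.ord_jF1_neg_of_pole hj hb hnM cv hcv h v hneg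
  exact neg_ord_dvd hj hb hnM hsurj h v hvj hneg

/-- `ℕ`-form for the exponents `e κ := (ord_v (t - c)).toNat` of `CuspFibreOneB23`. -/
theorem toNat_ord_sub_dvd_of_cv (h : TMem n e M) (v : Place Kbar (FF1 M)) (γ₀ : SL(2, ℤ))
    (c : Kbar) (hγ₀ : cv γ₀ = some c)
    (hpos : 0 < v.ord (ffIncl M (tF M h) - algebraMap Kbar (FF1 M) c)) :
    (v.ord (ffIncl M (tF M h) - algebraMap Kbar (FF1 M) c)).toNat ∣ M := by
  have h1 := ord_sub_dvd_of_cv hj hb hnM hsurj cv hcv h v γ₀ c hγ₀ hpos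
  rw [← Int.toNat_of_nonneg hpos.le] at h1
  exact_mod_cast h1

theorem toNat_neg_ord_dvd_of_pole (h : TMem n e M) (v : Place Kbar (FF1 M))
    (hneg : v.ord (ffIncl M (tF M h)) < 0) : (-v.ord (ffIncl M (tF M h))).toNat ∣ M := by
  have h1 := neg_ord_dvd_of_pole hj hb hnM hsurj cv hcv h v hneg
  rw [← Int.toNat_of_nonneg (by omega : 0 ≤ -v.ord (ffIncl M (tF M h)))] at h1
  exact_mod_cast h1

/-- The exponents are prime to every prime `ℓ ∤ M`. -/
theorem not_dvd_toNat_ord_sub {ℓ : ℕ} (hℓM : ¬ ℓ ∣ M) (h : TMem n e M)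
    (v : Place Kbar (FF1 M)) (γ₀ : SL(2, ℤ)) (c : Kbar) (hγ₀ : cv γ₀ = some c)
    (hpos : 0 < v.ord (ffIncl M (tF M h) - algebraMap Kbar (FF1 M) c)) :
    ¬ ℓ ∣ (v.ord (ffIncl M (tF M h) - algebraMap Kbar (FF1 M) c)).toNat :=
  fun hd => hℓM (hd.trans (toNat_ord_sub_dvd_of_cv hj hb hnM hsurj cv hcv h v γ₀ c hγ₀ hpos))

theorem not_dvd_toNat_neg_ord {ℓ : ℕ} (hℓM : ¬ ℓ ∣ M) (h : TMem n e M)
    (v : Place Kbar (FF1 M)) (hneg : v.ord (ffIncl M (tF M h)) < 0) :
    ¬ ℓ ∣ (-v.ord (ffIncl M (tF M h))).toNat :=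
  fun hd => hℓM (hd.trans (toNat_neg_ord_dvd_of_pole hj hb hnM hsurj cv hcv h v hneg))

end Level

end Fermat.Agent.ES.R48.CuspRamDvdOne11
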