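/-
Programme R (S48) / chapter GEOM, G3 MODEL₁ / C. CUSP₁ (helper23): twin of
`Fermat/Agent/RED/CUSP/CuspTame11.lean` for `X₁(M)`: TAMENESS of the cusp ramification of the
Hauptmodul `t` (level `n ∈ {4, 9}`, `n ∣ M`), seen in `F₁ = FF1 M` as `ffIncl M (tF M h)`, at the
cusp places `placeOf C γ` of an arbitrary `C : CuspData1 M D` (helper26's `CuspExactOne26`).

* `ord_of_cuspShape_some`, `ord_of_cuspShape_none` : sign of `ord_v` from the cusp shape of `C.T γ f`;
* `tame_some` : `cv γ = some c → 0 < ord_v (t - c) ∧ ord_v (t - c) ∣ M`;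
* `tame_none` : `cv γ = none → ord_v t < 0 ∧ ord_v t ∣ M`;
* `cuspShape_Tc` : `CuspShape n (Tc C γ t) (cv γ)` for the compressed expansion;
* `shape_Tc_some`, `shape_Tc_none` : the compressed shapes with exponent `a = ± ord_v`, `a ∣ M`.

Inputs taken as hypotheses, in the literal shape of the G2/G3 files that supply them:
`hex : CuspExactOne26.Exact C` (closer: `CuspExactClose23.exact`), `hj : FF.IsGen Kbar (jF1 M)`
(`X1Degree14.isGen_jF1`; only used through helper7's `FiniteAvoidsOne7.exists_base_place₁`), and main's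
`hcv : CuspExp n e M cv` (transferred to `C.T γ` by helper26's `X1CuspT26.cuspShape_T1'`).
The pure-series lemmas `cuspTail_ne_zero`, `compress_core`, `cuspShape_compress` are imported AS-IS
from main's `CuspTame11`.
-/
import Mathlib
import Fermat.Agent.RED.BASE.MainCusp12
import Fermat.Agent.RED.CUSP.CuspTame11
import Fermat.Agent.ES.R48.X1CuspT26
import Fermat.Agent.ES.R48.FiniteAvoidsOne7
import Fermat.Agent.ES.R48.CuspExactOne26

set_option autoImplicit false
set_option linter.unusedSectionVars false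

open ModularCurve AlgebraicCurve
open scoped MatrixGroups IntermediateField

noncomputable section

namespace Fermat.Agent.ES.R48.CuspTameOne23

open Fermat.Agent.X0 Fermat.Agent.X0.FF
open Fermat.Agent.RED.BASE.Interface12 Fermat.Agent.RED.BASE.Hauptmodul12
open Fermat.Agent.RED.BASE.CuspExpMain11 Fermat.Agent.RED.BASE.FiniteAvoids14
open Fermat.Agent.RED.BASE.FiniteAvoidsM14 Fermat.Agent.RED.BASE.Unbranched14
open Fermat.Agent.RED.BASE.UnbranchedMain14
open Fermat.Agent.RED.CUSP.CuspTame11 (cuspTail_ne_zero cuspShape_compress inclusion_jF)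
open Fermat.Agent.ES.R48.X1Iface13 Fermat.Agent.ES.R48.CuspExactOne26

variable {M : ℕ} [NeZero M] {D : RealizeData1 M} {C : CuspData1 M D}

/-! ### Signs of the orders from the cusp shape -/

section Sign

/-- A finite cusp value `c` of `f` at `γ`: `f - c` vanishes at the cusp place, to the order
`a / r` (`a` the exponent of the shape, `r = cuspR`). -/
theorem ord_of_cuspShape_some (hex : Exact C) {m : ℕ} (γ : SL(2, ℤ)) (f : FF1 M) (c : Kbar)
    (h : CuspShape m (C.T γ f) (some c)) :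
    0 < (placeOf C γ).ord (f - algebraMap Kbar (FF1 M) c) := by
  obtain ⟨a, lam, V, ha, hlam, hV, -, -, hE⟩ := h
  have hT : C.T γ (f - algebraMap Kbar (FF1 M) c) =
      HahnSeries.C lam * HahnSeries.single (a : ℤ) 1 * HahnSeries.ofPowerSeries ℤ Kbar V := by
    rw [map_sub, (hGood C).map_const, hE]
    ring
  have hne : f - algebraMap Kbar (FF1 M) c ≠ 0 := by
    intro h0
    rw [h0, map_zero] at hT
    exact cuspTail_ne_zero a hlam.1 V hV hT.symm
  have hord := order_T_eq hex γ _ hne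
  rw [hT, order_cuspTail a lam hlam.1 V hV] at hord
  have hr : (0 : ℤ) < cuspR (M := M) γ := by exact_mod_cast cuspR_pos (M := M) γ
  have ha' : (0 : ℤ) < a := by exact_mod_cast ha
  by_contra hcon
  rw [not_lt] at hcon
  nlinarith

/-- A pole of `f` at `γ`. -/
theorem ord_of_cuspShape_none (hex : Exact C) {m : ℕ} (γ : SL(2, ℤ)) (f : FF1 M)
    (h : CuspShape m (C.T γ f) none) : (placeOf C γ).ord f < 0 := by
  obtain ⟨a, lam, V, ha, hlam, hV, -, hE⟩ := h
  have hE' : (C.T γ f)⁻¹ =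
      HahnSeries.C lam * HahnSeries.single (a : ℤ) 1 * HahnSeries.ofPowerSeries ℤ Kbar V := hE
  have hT : C.T γ f⁻¹ =
      HahnSeries.C lam * HahnSeries.single (a : ℤ) 1 * HahnSeries.ofPowerSeries ℤ Kbar V := by
    rw [map_inv₀, hE']
  have hne : f⁻¹ ≠ 0 := by
    intro h0
    rw [h0, map_zero] at hT
    exact cuspTail_ne_zero a hlam.1 V hV hT.symm
  have hord := order_T_eq hex γ _ hne
  rw [hT, order_cuspTail a lam hlam.1 V hV, Place.ord_inv] at hord
  have hr : (0 : ℤ) < cuspR (M := M) γ := by exact_mod_cast cuspR_pos (M := M) γ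
  have ha' : (0 : ℤ) < a := by exact_mod_cast ha
  by_contra hcon
  rw [not_lt] at hcon
  nlinarith

end Sign

/-! ### Tameness -/

section Tame

variable {n e : ℕ} [NeZero n]

/-- Restriction of a place of `F₁` to `Fbar_n`, `n ∣ M` (helper7's `exists_base_place₁` composed with
main's `exists_base_place`). -/
theorem exists_base_place_n (hnM : n ∣ M) (hj : FF.IsGen Kbar (jF1 M)) (v : Place Kbar (FF1 M)) :
    ∃ (w₀ : Place Kbar (FF n)) (k : ℕ), 0 < k ∧
      ∀ f : FF n, v.ord (ffIncl M (IntermediateField.inclusion (fbar_mono hnM) f)) =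
        (k : ℤ) * w₀.ord f := by
  obtain ⟨w, k₁, hk₁, hres₁⟩ := FiniteAvoidsOne7.exists_base_place₁ M hj v
  obtain ⟨w₀, k₀, hk₀, hres₀⟩ := exists_base_place hnM w
  refine ⟨w₀, k₁ * k₀, Nat.mul_pos hk₁ hk₀, fun f => ?_⟩
  rw [hres₁, hres₀]
  push_cast
  ring

/-- **Tameness at a finite cusp value**: the order of `t - c` at the cusp place of `γ` is positive
and divides the level `M`. -/
theorem tame_some (hex : Exact C) (hj : FF.IsGen Kbar (jF1 M)) (hb : BaseHyp n e) (hnM : n ∣ M)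
    (h : TMem n e M) {cv : SL(2, ℤ) → Option Kbar} (hcv : CuspExp n e M cv) (γ : SL(2, ℤ))
    (c : Kbar) (hγ : cv γ = some c) :
    0 < (placeOf C γ).ord (ffIncl M (tF M h) - algebraMap Kbar (FF1 M) c) ∧
      ((placeOf C γ).ord (ffIncl M (tF M h) - algebraMap Kbar (FF1 M) c)).natAbs ∣ M := by
  have hs := X1CuspT26.cuspShape_T1' C hcv h γ
  rw [hγ] at hs
  have hpos : 0 < (placeOf C γ).ord (ffIncl M (tF M h) - algebraMap Kbar (FF1 M) c) :=
    ord_of_cuspShape_some hex γ (ffIncl M (tF M h)) c hs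
  refine ⟨hpos, ?_⟩
  obtain ⟨h₀, htop⟩ := tGenBase' hb
  obtain ⟨hgen, hdeg⟩ := isGen_of_adjoin_eq_top (transcendental_jF n) htop
  obtain ⟨w₀, k, hk, hres⟩ := exists_base_place_n hnM hj (placeOf C γ)
  have hk' : (0 : ℤ) < k := by exact_mod_cast hk
  have ht : ffIncl M (IntermediateField.inclusion (fbar_mono hnM)
      (tF n h₀ - algebraMap Kbar (FF n) c)) =
        ffIncl M (tF M h) - algebraMap Kbar (FF1 M) c := by
    rw [map_sub, AlgHom.commutes, map_sub, AlgHom.commutes]
    rfl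
  have h1 := hres (tF n h₀ - algebraMap Kbar (FF n) c)
  rw [ht] at h1
  have hw₀ : 0 < w₀.ord (tF n h₀ - algebraMap Kbar (FF n) c) := by
    by_contra hneg
    rw [not_lt] at hneg
    nlinarith
  have hone := ord_eq_one_of_finrank_eq_one hgen hdeg c w₀ hw₀
  rw [hone, mul_one] at h1
  have h2 := hres (jF n)
  rw [inclusion_jF hnM] at h2
  have h3 := neg_ord_jF_eq hex γ
  have hdvd : (k : ℤ) ∣ (cuspW (M := M) γ : ℤ) := by
    rw [← h3]
    have h2' : (placeOf C γ).ord (jF1 M) = (k : ℤ) * w₀.ord (jF n) := h2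
    rw [h2']
    exact (Dvd.intro _ rfl).neg_right
  rw [h1, Int.natAbs_natCast]
  exact (Int.natCast_dvd_natCast.mp hdvd).trans (cuspW_dvd (M := M) γ)

/-- **Tameness at a pole**: the order of `t` at the cusp place of `γ` is negative and divides the
level `M` (it is minus the width). -/
theorem tame_none (hex : Exact C) (hj : FF.IsGen Kbar (jF1 M)) (hb : BaseHyp n e) (hnM : n ∣ M)
    (h : TMem n e M) {cv : SL(2, ℤ) → Option Kbar} (hcv : CuspExp n e M cv) (γ : SL(2, ℤ))
    (hγ : cv γ = none) :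
    (placeOf C γ).ord (ffIncl M (tF M h)) < 0 ∧
      ((placeOf C γ).ord (ffIncl M (tF M h))).natAbs ∣ M := by
  have hs := X1CuspT26.cuspShape_T1' C hcv h γ
  rw [hγ] at hs
  have hneg : (placeOf C γ).ord (ffIncl M (tF M h)) < 0 :=
    ord_of_cuspShape_none hex γ (ffIncl M (tF M h)) hs
  refine ⟨hneg, ?_⟩
  have h₀ : TMem n e n := tMem hb
  obtain ⟨w₀, k, hk, hres⟩ := exists_base_place_n hnM hj (placeOf C γ)
  have hk' : (0 : ℤ) < k := by exact_mod_cast hk
  have ht : ffIncl M (IntermediateField.inclusion (fbar_mono hnM) (tF n h₀)) =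
      ffIncl M (tF M h) := rfl
  have h1 := hres (tF n h₀)
  rw [ht] at h1
  have hw₀ : w₀.ord (tF n h₀) < 0 := by
    by_contra hcon
    rw [not_lt] at hcon
    nlinarith
  have h2 := hres (jF n)
  rw [inclusion_jF hnM] at h2
  have h2' : (placeOf C γ).ord (jF1 M) = (k : ℤ) * w₀.ord (jF n) := h2
  have h3 := neg_ord_jF_eq hex γ
  rcases ord_tF_cases hb.two_le hb.exp hb.nuTwo hb.nuThree hb.sq h₀ w₀ with h0 | ⟨h0, -⟩ | ⟨h0, -⟩
  · omega
  · omega
  · have : (placeOf C γ).ord (ffIncl M (tF M h)) = -(cuspW (M := M) γ : ℤ) := by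
      rw [h1, h0, ← h2', ← h3, neg_neg]
    rw [this, Int.natAbs_neg, Int.natAbs_natCast]
    exact cuspW_dvd (M := M) γ

end Tame

/-! ### The compressed expansions of `t` -/

section Compressed

/-- In a compressed shape with finite value, the exponent is the order at the cusp place. -/
theorem exponent_eq_ord_some (hex : Exact C) (γ : SL(2, ℤ)) (f : FF1 M) (c lam : Kbar)
    (hlam : lam ≠ 0) (a : ℕ) (V : PowerSeries Kbar) (hV : PowerSeries.constantCoeff V = 1)
    (hE : Tc C γ f = HahnSeries.C c + HahnSeries.C lam * HahnSeries.single (a : ℤ) 1 *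
      HahnSeries.ofPowerSeries ℤ Kbar V) :
    (a : ℤ) = (placeOf C γ).ord (f - algebraMap Kbar (FF1 M) c) := by
  have hT : Tc C γ (f - algebraMap Kbar (FF1 M) c) =
      HahnSeries.C lam * HahnSeries.single (a : ℤ) 1 * HahnSeries.ofPowerSeries ℤ Kbar V := by
    rw [map_sub, Tc_const, hE]
    ring
  have hne : f - algebraMap Kbar (FF1 M) c ≠ 0 := by
    intro h0
    rw [h0, map_zero] at hT
    exact cuspTail_ne_zero a hlam V hV hT.symm
  rw [← order_Tc hex γ _ hne, hT, order_cuspTail a lam hlam V hV]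

/-- In a compressed pole shape, the exponent is minus the order at the cusp place. -/
theorem exponent_eq_ord_none (hex : Exact C) (γ : SL(2, ℤ)) (f : FF1 M) (lam : Kbar)
    (hlam : lam ≠ 0) (a : ℕ) (V : PowerSeries Kbar) (hV : PowerSeries.constantCoeff V = 1)
    (hE : (Tc C γ f)⁻¹ = HahnSeries.C lam * HahnSeries.single (a : ℤ) 1 *
      HahnSeries.ofPowerSeries ℤ Kbar V) :
    (a : ℤ) = -(placeOf C γ).ord f := by
  have hT : Tc C γ f⁻¹ =
      HahnSeries.C lam * HahnSeries.single (a : ℤ) 1 * HahnSeries.ofPowerSeries ℤ Kbar V := by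
    rw [map_inv₀, hE]
  have hne : f⁻¹ ≠ 0 := by
    intro h0
    rw [h0, map_zero] at hT
    exact cuspTail_ne_zero a hlam V hV hT.symm
  rw [← Place.ord_inv, ← order_Tc hex γ _ hne, hT, order_cuspTail a lam hlam V hV]

variable {n e : ℕ} [NeZero n]

variable (C) in
/-- The compressed expansion `Tc C γ t ∈ ℚbar((s))`, `s = q^{1/w}`, has the cusp shape. -/
theorem cuspShape_Tc {cv : SL(2, ℤ) → Option Kbar} (hcv : CuspExp n e M cv) (h : TMem n e M)
    (γ : SL(2, ℤ)) : CuspShape n (Tc C γ (ffIncl M (tF M h))) (cv γ) := by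
  apply cuspShape_compress (cuspR (M := M) γ)
  rw [qExpand_Tc]
  exact X1CuspT26.cuspShape_T1' C hcv h γ

/-- **(L7), finite values**: the compressed expansion of `t` at a cusp with finite value `c` is
`c + λ s^a V(s)` with `a = ord_v (t - c) > 0`, `a ∣ M`, `λ` a unit away from `n`, `V(0) = 1`, and
all coefficients integral away from `n`. -/
theorem shape_Tc_some (hex : Exact C) (hj : FF.IsGen Kbar (jF1 M)) (hb : BaseHyp n e)
    (hnM : n ∣ M) (h : TMem n e M) {cv : SL(2, ℤ) → Option Kbar} (hcv : CuspExp n e M cv)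
    (γ : SL(2, ℤ)) (c : Kbar) (hγ : cv γ = some c) :
    ∃ (a : ℕ) (lam : Kbar) (V : PowerSeries Kbar), 0 < a ∧ a ∣ M ∧
      (a : ℤ) = (placeOf C γ).ord (ffIncl M (tF M h) - algebraMap Kbar (FF1 M) c) ∧
      IsUnitAway n lam ∧
      PowerSeries.constantCoeff V = 1 ∧ (∀ i, IsIntAway n (PowerSeries.coeff i V)) ∧
      IsIntAway n c ∧
      Tc C γ (ffIncl M (tF M h)) = HahnSeries.C c + HahnSeries.C lam *
        HahnSeries.single (a : ℤ) 1 * HahnSeries.ofPowerSeries ℤ Kbar V := by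
  have hs := cuspShape_Tc C hcv h γ
  rw [hγ] at hs
  obtain ⟨a, lam, V, ha, hlam, hV, hVint, hc, hE⟩ := hs
  have hord := exponent_eq_ord_some hex γ (ffIncl M (tF M h)) c lam hlam.1 a V hV hE
  obtain ⟨-, hdvd⟩ := tame_some hex hj hb hnM h hcv γ c hγ
  rw [← hord, Int.natAbs_natCast] at hdvd
  exact ⟨a, lam, V, ha, hdvd, hord, hlam, hV, hVint, hc, hE⟩

/-- **(L7), poles**: the compressed expansion of `t⁻¹` at a cusp where `t` has a pole is
`λ s^a V(s)` with `a = -ord_v t > 0`, `a ∣ M`. -/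
theorem shape_Tc_none (hex : Exact C) (hj : FF.IsGen Kbar (jF1 M)) (hb : BaseHyp n e)
    (hnM : n ∣ M) (h : TMem n e M) {cv : SL(2, ℤ) → Option Kbar} (hcv : CuspExp n e M cv)
    (γ : SL(2, ℤ)) (hγ : cv γ = none) :
    ∃ (a : ℕ) (lam : Kbar) (V : PowerSeries Kbar), 0 < a ∧ a ∣ M ∧
      (a : ℤ) = -(placeOf C γ).ord (ffIncl M (tF M h)) ∧ IsUnitAway n lam ∧
      PowerSeries.constantCoeff V = 1 ∧ (∀ i, IsIntAway n (PowerSeries.coeff i V)) ∧
      (Tc C γ (ffIncl M (tF M h)))⁻¹ = HahnSeries.C lam * HahnSeries.single (a : ℤ) 1 *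
        HahnSeries.ofPowerSeries ℤ Kbar V := by
  have hs := cuspShape_Tc C hcv h γ
  rw [hγ] at hs
  obtain ⟨a, lam, V, ha, hlam, hV, hVint, hE⟩ := hs
  have hE' : (Tc C γ (ffIncl M (tF M h)))⁻¹ = HahnSeries.C lam * HahnSeries.single (a : ℤ) 1 *
      HahnSeries.ofPowerSeries ℤ Kbar V := hE
  have hord := exponent_eq_ord_none hex γ (ffIncl M (tF M h)) lam hlam.1 a V hV hE'
  obtain ⟨-, hdvd⟩ := tame_none hex hj hb hnM h hcv γ hγ
  have h2 : ((placeOf C γ).ord (ffIncl M (tF M h))).natAbs = a := by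
    have : (placeOf C γ).ord (ffIncl M (tF M h)) = -(a : ℤ) := by rw [hord, neg_neg]
    rw [this, Int.natAbs_neg, Int.natAbs_natCast]
  rw [h2] at hdvd
  exact ⟨a, lam, V, ha, hdvd, hord, hlam, hV, hVint, hE'⟩

end Compressed

end Fermat.Agent.ES.R48.CuspTameOne23
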