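/-
Programme R (S48) / chapter A4 CHEB, brick CY2 (helper23): Frobenius elements and characters in
a cyclotomic-type abelian extension.

`Ω/F` is a finite abelian extension of number fields, `ζ ∈ Ω` a primitive `q`-th root of unity,
`κ := hζ.autToPow F : Gal(Ω/F) →* (ZMod q)ˣ` the cyclotomic character.

* `autToPow_frobOf`: at a good prime `𝔮` of `F` (prime norm not dividing `M * disc Ω`, `q ∣ M`),
  `κ (Frob 𝔮) = N 𝔮 mod q`;
* `exists_dirichletCharacter`: a character `χ` of a group `A` extends along an injective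
  `κ : A →* (ZMod q)ˣ` to a Dirichlet character `ψ` mod `q` with `ψ (κ b) = χ b`;
* `exists_good_apply_frobOf_ne_one`: a non-trivial character of `Gal(Ω/F)` is non-trivial on the
  Frobenius of some good prime (Frobenius elements generate);
* `exists_even_dirichlet` (the export used by CY3): if `κ` is injective, `κ c₀ = -1` and
  `χ c₀ = 1`, there is an EVEN Dirichlet character `ψ` mod `q` with
  `ψ (N 𝔮) = χ (Frob 𝔮)` at all good primes, and if `χ ≠ 1` some ideal `𝔞` has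
  `ψ (N 𝔞) ∉ {0, 1}`.
-/
import Mathlib
import Fermat.Agent.CFT.ArtinSymbol
import Fermat.Agent.CFT.CycloArtin
import Fermat.Agent.CFT.CharOrtho
import Fermat.Agent.PT.GLOB.FrobGenerate19
import Fermat.Agent.ES.GAL.ChebDensity23

set_option autoImplicit false

open IsDedekindDomain Ideal NumberField
open Fermat.Agent.CFT.ArtinSymbol Fermat.Agent.CFT.NotAllSplit
open Fermat.Agent.ES.GAL.ChebDensity23 Fermat.Agent.PT.GLOB.FrobGenerate19

namespace Fermat.Agent.ES.R48.CycloFrobChar23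

/-! ### Extension of characters along an injective map into `(ZMod q)ˣ` -/

section Ext

/-- Extension of a character along an injective homomorphism into `(ZMod q)ˣ`. -/
theorem exists_dirichletCharacter {q : ℕ} [NeZero q] {A : Type*} [Group A]
    (κ : A →* (ZMod q)ˣ) (hκ : Function.Injective κ) (χ : A →* ℂˣ) :
    ∃ ψ : DirichletCharacter ℂ q, ∀ b : A, ψ ((κ b : (ZMod q)ˣ) : ZMod q) = (χ b : ℂ) := by
  have hroots : HasEnoughRootsOfUnity ℂ (Monoid.exponent (ZMod q)ˣ) :=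
    Fermat.Agent.CFT.CharOrtho.hasEnoughRootsOfUnity_complex (ZMod q)ˣ
  let e : A ≃* κ.range := MonoidHom.ofInjective hκ
  let χ' : κ.range →* ℂˣ := χ.comp e.symm.toMonoidHom
  obtain ⟨ψ₀, hψ₀⟩ := MonoidHom.domRestrict_surjective ℂ κ.range χ'
  refine ⟨MulChar.ofUnitHom ψ₀, fun b => ?_⟩
  rw [MulChar.ofUnitHom_coe]
  have h1 : ψ₀ (κ b) = χ' ⟨κ b, ⟨b, rfl⟩⟩ := by
    rw [← hψ₀]
    rfl
  rw [h1]
  change ((χ (e.symm ⟨κ b, ⟨b, rfl⟩⟩) : ℂˣ) : ℂ) = _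
  have h2 : e.symm ⟨κ b, ⟨b, rfl⟩⟩ = b := by
    apply e.injective
    rw [MulEquiv.apply_symm_apply]
    rfl
  rw [h2]

end Ext

/-! ### Frobenius elements at good primes -/

section Frob

variable {F Ω : Type} [Field F] [Field Ω] [NumberField F] [NumberField Ω] [Algebra F Ω]
  [IsGalois F Ω] [IsMulCommutative (Ω ≃ₐ[F] Ω)]

omit [Field Ω] [NumberField Ω] [Algebra F Ω] [IsGalois F Ω] [IsMulCommutative (Ω ≃ₐ[F] Ω)] in
/-- A natural number lying in an ideal of prime norm `ℓ` is divisible by `ℓ`. -/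
theorem absNorm_dvd_of_natCast_mem {𝔮 : Ideal (𝓞 F)} (hℓ : (absNorm 𝔮).Prime) {n : ℕ}
    (hn : (n : 𝓞 F) ∈ 𝔮) : absNorm 𝔮 ∣ n := by
  have h1 : Ideal.span {(n : 𝓞 F)} ≤ 𝔮 := (Ideal.span_singleton_le_iff_mem _).mpr hn
  have h2 : absNorm 𝔮 ∣ absNorm (Ideal.span {(n : 𝓞 F)}) := Ideal.absNorm_dvd_absNorm_of_le h1
  rw [Ideal.absNorm_span_singleton] at h2
  have h3 : (Algebra.norm ℤ (n : 𝓞 F)) = (n : ℤ) ^ Module.finrank ℚ F := by
    have : (n : 𝓞 F) = algebraMap ℤ (𝓞 F) (n : ℤ) := by simp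
    rw [this, Algebra.norm_algebraMap, RingOfIntegers.rank]
  rw [h3, Int.natAbs_pow, Int.natAbs_natCast] at h2
  exact hℓ.dvd_of_dvd_pow h2

/-- **Frobenius and the cyclotomic character**: at a good prime (norm prime to `q`),
`κ (Frob 𝔮) = N 𝔮 mod q`. -/
theorem autToPow_frobOf {q : ℕ} [NeZero q] {ζ : Ω} (hζ : IsPrimitiveRoot ζ q) {M : ℕ}
    (hqM : q ∣ M) {𝔮 : HeightOneSpectrum (𝓞 F)} (h𝔮 : 𝔮 ∈ good F Ω M) :
    ((hζ.autToPow F (frobOf F Ω 𝔮.asIdeal) : (ZMod q)ˣ) : ZMod q) =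
      ((absNorm 𝔮.asIdeal : ℕ) : ZMod q) := by
  obtain ⟨P, hP, hPq⟩ := exists_prime_over F Ω 𝔮.asIdeal
  have hfr : IsArithFrobAt (𝓞 F) (frobOf F Ω 𝔮.asIdeal) P :=
    isArithFrobAt_frobOf 𝔮.isPrime 𝔮.ne_bot P hPq
  have hqP : (q : 𝓞 Ω) ∉ P := by
    intro hmem
    have h1 : (q : 𝓞 F) ∈ 𝔮.asIdeal := by
      rw [← hPq, Ideal.under_def, Ideal.mem_comap, map_natCast]
      exact hmem
    have h2 : absNorm 𝔮.asIdeal ∣ q := absNorm_dvd_of_natCast_mem h𝔮.1 h1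
    exact h𝔮.2 ((h2.trans hqM).mul_right _)
  have h2 := Fermat.Agent.CFT.CycloArtin.apply_root_of_isArithFrobAt' hfr hζ.pow_eq_one hqP
  rw [hPq] at h2
  rw [Fermat.Agent.CFT.CycloRecip.autToPow_eq_of_apply_eq hζ _ _ h2,
    Fermat.Agent.CFT.CycloRecip.absNorm_eq_natCard]

/-- (C3) A non-trivial character of `Gal(Ω/F)` is non-trivial on the Frobenius of some good
prime. -/
theorem exists_good_apply_frobOf_ne_one {X : Type*} [Group X] (M : ℕ) (hM : M ≠ 0)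
    (χ : (Ω ≃ₐ[F] Ω) →* X) (hχ : χ ≠ 1) :
    ∃ 𝔮 ∈ good F Ω M, χ (frobOf F Ω 𝔮.asIdeal) ≠ 1 := by
  classical
  by_contra hcon
  apply hχ
  have hdL : (discr Ω).natAbs ≠ 0 := Int.natAbs_ne_zero.mpr (discr_ne_zero Ω)
  have hm' : M * (discr Ω).natAbs ≠ 0 := Nat.mul_ne_zero hM hdL
  have hcl := closure_frobSet_eq_top F Ω (fun σ τ => mul_comm' σ τ) (M * (discr Ω).natAbs) hm'
  have hker : frobSet F Ω (M * (discr Ω).natAbs) ⊆ (χ.ker : Set (Ω ≃ₐ[F] Ω)) := by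
    rintro σ ⟨𝔮, P, h𝔮, h𝔮n, h𝔮m, hP, hP𝔮, hin, hσ⟩
    have h0 : 𝔮 ≠ ⊥ := by
      rintro rfl
      rw [Ideal.absNorm_bot] at h𝔮n
      exact Nat.not_prime_zero h𝔮n
    have heq : σ = frobOf F Ω 𝔮 := eq_frobOf_of_isArithFrobAt h𝔮 h0 hP𝔮 hin hσ
    rw [SetLike.mem_coe, MonoidHom.mem_ker, heq]
    by_contra hne
    exact hcon ⟨⟨𝔮, h𝔮, h0⟩, ⟨h𝔮n, h𝔮m⟩, hne⟩
  have hle : Subgroup.closure (frobSet F Ω (M * (discr Ω).natAbs)) ≤ χ.ker :=
    (Subgroup.closure_le _).mpr hker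
  rw [hcl] at hle
  ext σ
  have : σ ∈ χ.ker := hle (Subgroup.mem_top σ)
  rw [MonoidHom.mem_ker] at this
  rw [this]
  rfl

/-- **Export for CY3.**  An even character `χ` of `Gal(Ω/F)` (`χ c₀ = 1`, where `κ c₀ = -1`)
is computed at the good primes by an EVEN Dirichlet character `ψ` mod `q` through the absolute
norm; if `χ ≠ 1` then `ψ ∘ N` takes a value outside `{0, 1}`. -/
theorem exists_even_dirichlet {q : ℕ} [NeZero q] {ζ : Ω} (hζ : IsPrimitiveRoot ζ q)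
    (hinj : Function.Injective (hζ.autToPow F)) (c₀ : Ω ≃ₐ[F] Ω)
    (hc₀ : hζ.autToPow F c₀ = -1) (M : ℕ) (hM : M ≠ 0) (hqM : q ∣ M)
    (χ : (Ω ≃ₐ[F] Ω) →* ℂˣ) (hev : χ c₀ = 1) :
    ∃ ψ : DirichletCharacter ℂ q, ψ.Even ∧
      (∀ 𝔮 ∈ good F Ω M,
        ψ ((absNorm 𝔮.asIdeal : ℕ) : ZMod q) = (χ (frobOf F Ω 𝔮.asIdeal) : ℂ)) ∧
      (χ ≠ 1 → ∃ 𝔞 : Ideal (𝓞 F),
        ψ ((absNorm 𝔞 : ℕ) : ZMod q) ≠ 0 ∧ ψ ((absNorm 𝔞 : ℕ) : ZMod q) ≠ 1) := by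
  obtain ⟨ψ, hψ⟩ := exists_dirichletCharacter (hζ.autToPow F) hinj χ
  have hgood : ∀ 𝔮 ∈ good F Ω M,
      ψ ((absNorm 𝔮.asIdeal : ℕ) : ZMod q) = (χ (frobOf F Ω 𝔮.asIdeal) : ℂ) := by
    intro 𝔮 h𝔮
    rw [← autToPow_frobOf hζ hqM h𝔮]
    exact hψ _
  refine ⟨ψ, ?_, hgood, fun hχ => ?_⟩
  · have h1 := hψ c₀
    rw [hc₀, hev, Units.val_neg, Units.val_one, Units.val_one] at h1
    exact h1
  · obtain ⟨𝔮, h𝔮, hne⟩ := exists_good_apply_frobOf_ne_one M hM χ hχ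
    refine ⟨𝔮.asIdeal, ?_, ?_⟩
    · rw [hgood 𝔮 h𝔮]
      exact Units.ne_zero _
    · rw [hgood 𝔮 h𝔮]
      intro h
      exact hne (Units.ext h)

end Frob

end Fermat.Agent.ES.R48.CycloFrobChar23
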