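/-
Programme R (S48, Deligne–Serre), chapter A4 CHEB (owner helper7), brick CY1 (helper1).

(C2) of `R48_A4_CHEB7.md`: Euler product and logarithm of the norm-residue `L`-series
`normL F χ s = ∑_𝔞 χ(N𝔞) N𝔞^(-s)` of a number field `F` (`χ` a Dirichlet character, `s` real):
* `hasProd_normL` : `normL F χ s = ∏_𝔮 (1 - χ(N𝔮) N𝔮^(-s))⁻¹` for `s > 1`;
* `normL_ne_zero` : `normL F χ s ≠ 0` for `s > 1`;
* `abs_log_norm_normL_sub_re_le` : `|log ‖normL F χ s‖ - Re (normP F χ s)| ≤ C` on `(1, 2]`, with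
  `C = ∑_𝔮 N𝔮^(-2)` (`normP` = the sum over the prime ideals).
-/
import Mathlib
import Fermat.Agent.CFT.PrimeZetaLog
import Fermat.Agent.ES.R48.NormLDefs7

set_option autoImplicit false

open NumberField Ideal IsDedekindDomain
open Fermat.Agent.ES.R48.NormLDefs7

namespace Fermat.Agent.ES.R48.NormLEuler1

variable (F : Type*) [Field F] [NumberField F] {m : ℕ}

/-- The Euler product of `normL`. -/
theorem hasProd_normL (χ : DirichletCharacter ℂ m) {s : ℝ} (hs : 1 < s) :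
    HasProd (fun 𝔮 : HeightOneSpectrum (𝓞 F) => (1 - nterm F χ s 𝔮.asIdeal)⁻¹)
      (normL F χ s) := by
  have hs0 : s ≠ 0 := by linarith
  exact Fermat.Agent.CFT.IdealEuler.hasProd_inv_one_sub (ntermHom F χ hs0)
    (summable_norm_nterm F χ hs)

/-- `normL F χ s ≠ 0` for real `s > 1`. -/
theorem normL_ne_zero (χ : DirichletCharacter ℂ m) {s : ℝ} (hs : 1 < s) : normL F χ s ≠ 0 := by
  have hs0 : s ≠ 0 := by linarith
  exact Fermat.Agent.CFT.IdealEuler.tsum_ne_zero (ntermHom F χ hs0)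
    (summable_norm_nterm F χ hs)

variable {F}

theorem norm_nterm_prime_le (χ : DirichletCharacter ℂ m) {s : ℝ} (hs : 1 ≤ s)
    (𝔮 : HeightOneSpectrum (𝓞 F)) :
    ‖nterm F χ s 𝔮.asIdeal‖ ≤ (absNorm 𝔮.asIdeal : ℝ) ^ (-(1 : ℝ)) := by
  refine (norm_nterm_le χ s _).trans ?_
  have h2 := Fermat.Agent.CFT.PrimeZetaLog.absNorm_prime_two_le 𝔮
  exact Real.rpow_le_rpow_of_exponent_le (by linarith) (by linarith)

theorem norm_nterm_prime_le_half (χ : DirichletCharacter ℂ m) {s : ℝ} (hs : 1 ≤ s)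
    (𝔮 : HeightOneSpectrum (𝓞 F)) : ‖nterm F χ s 𝔮.asIdeal‖ ≤ 1 / 2 :=
  (norm_nterm_le χ s _).trans (Fermat.Agent.CFT.PrimeZetaLog.prime_rpow_le_half 𝔮 hs)

theorem summable_norm_nterm_prime (χ : DirichletCharacter ℂ m) {s : ℝ} (hs : 1 < s) :
    Summable fun 𝔮 : HeightOneSpectrum (𝓞 F) => ‖nterm F χ s 𝔮.asIdeal‖ :=
  Summable.of_nonneg_of_le (fun _ => norm_nonneg _) (fun 𝔮 => norm_nterm_le χ s 𝔮.asIdeal)
    (Fermat.Agent.CFT.ClassLEuler.summable_prime_rpow hs)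

/-- The remainder `log (1 - z)⁻¹ - z` at a prime is at most `N𝔮^(-2)`. -/
theorem norm_log_sub_le (χ : DirichletCharacter ℂ m) {s : ℝ} (hs : 1 ≤ s)
    (𝔮 : HeightOneSpectrum (𝓞 F)) :
    ‖Complex.log (1 - nterm F χ s 𝔮.asIdeal)⁻¹ - nterm F χ s 𝔮.asIdeal‖ ≤
      (absNorm 𝔮.asIdeal : ℝ) ^ (-(2 : ℝ)) := by
  set z := nterm F χ s 𝔮.asIdeal with hz
  have hhalf : ‖z‖ ≤ 1 / 2 := norm_nterm_prime_le_half χ hs 𝔮
  have hlt : ‖z‖ < 1 := by linarith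
  have h1 := Complex.norm_log_one_sub_inv_sub_self_le hlt
  have hinv : (1 - ‖z‖)⁻¹ ≤ 2 := by
    rw [inv_le_comm₀ (by linarith) (by norm_num)]
    linarith
  have h2 : ‖z‖ ^ 2 * (1 - ‖z‖)⁻¹ / 2 ≤ ‖z‖ ^ 2 := by
    have h0 : 0 ≤ ‖z‖ ^ 2 := sq_nonneg _
    nlinarith
  have hN : ‖z‖ ≤ (absNorm 𝔮.asIdeal : ℝ) ^ (-(1 : ℝ)) := norm_nterm_prime_le χ hs 𝔮
  have hpos : (0 : ℝ) < absNorm 𝔮.asIdeal := by
    have := Fermat.Agent.CFT.PrimeZetaLog.absNorm_prime_two_le 𝔮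
    linarith
  have h3 : ‖z‖ ^ 2 ≤ (absNorm 𝔮.asIdeal : ℝ) ^ (-(2 : ℝ)) := by
    have h4 : ((absNorm 𝔮.asIdeal : ℝ) ^ (-(1 : ℝ))) ^ 2 = (absNorm 𝔮.asIdeal : ℝ) ^ (-(2 : ℝ)) := by
      rw [← Real.rpow_natCast, ← Real.rpow_mul hpos.le]
      norm_num
    rw [← h4]
    exact pow_le_pow_left₀ (norm_nonneg _) hN 2
  exact h1.trans (h2.trans h3)

variable (F)

/-- The constant `∑_𝔮 N𝔮^(-2)`. -/
noncomputable def primeSqSum : ℝ :=
  ∑' 𝔮 : HeightOneSpectrum (𝓞 F), (absNorm 𝔮.asIdeal : ℝ) ^ (-(2 : ℝ))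

/-- `log ‖normL F χ s‖` and `Re (normP F χ s)` differ by at most `∑_𝔮 N𝔮^(-2)` for `s > 1`. -/
theorem abs_log_norm_normL_sub_re_le_primeSqSum (χ : DirichletCharacter ℂ m) {s : ℝ}
    (hs : 1 < s) : |Real.log ‖normL F χ s‖ - (normP F χ s).re| ≤ primeSqSum F := by
  set z : HeightOneSpectrum (𝓞 F) → ℂ := fun 𝔮 => nterm F χ s 𝔮.asIdeal with hz
  set r : HeightOneSpectrum (𝓞 F) → ℂ := fun 𝔮 => Complex.log (1 - z 𝔮)⁻¹ - z 𝔮 with hr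
  have h2sum : Summable fun 𝔮 : HeightOneSpectrum (𝓞 F) =>
      (absNorm 𝔮.asIdeal : ℝ) ^ (-(2 : ℝ)) :=
    Fermat.Agent.CFT.ClassLEuler.summable_prime_rpow (by norm_num)
  have hzs : Summable z := (summable_norm_nterm_prime χ hs).of_norm
  have hrle : ∀ 𝔮, ‖r 𝔮‖ ≤ (absNorm 𝔮.asIdeal : ℝ) ^ (-(2 : ℝ)) :=
    fun 𝔮 => norm_log_sub_le χ hs.le 𝔮
  have hrn : Summable fun 𝔮 => ‖r 𝔮‖ :=
    Summable.of_nonneg_of_le (fun _ => norm_nonneg _) hrle h2sum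
  have hrs : Summable r := hrn.of_norm
  -- the logarithms of the Euler factors
  have hadd : HasSum (fun 𝔮 => Complex.log (1 - z 𝔮)⁻¹) (normP F χ s + ∑' 𝔮, r 𝔮) := by
    have h := hzs.hasSum.add hrs.hasSum
    refine h.congr_fun fun 𝔮 => ?_
    simp only [hr]
    ring
  have hprod := hadd.cexp
  have hfac : (Complex.exp ∘ fun 𝔮 => Complex.log (1 - z 𝔮)⁻¹) =
      fun 𝔮 : HeightOneSpectrum (𝓞 F) => (1 - nterm F χ s 𝔮.asIdeal)⁻¹ := by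
    funext 𝔮
    have hne : (1 - z 𝔮) ≠ 0 := by
      intro h0
      have h1 : z 𝔮 = 1 := (sub_eq_zero.mp h0).symm
      have h2 := norm_nterm_prime_le_half χ hs.le 𝔮
      rw [show nterm F χ s 𝔮.asIdeal = z 𝔮 from rfl, h1, norm_one] at h2
      norm_num at h2
    simp only [Function.comp_apply]
    rw [Complex.exp_log (inv_ne_zero hne)]
  rw [hfac] at hprod
  have heq : normL F χ s = Complex.exp (normP F χ s + ∑' 𝔮, r 𝔮) :=
    (hasProd_normL F χ hs).unique hprod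
  rw [heq, Complex.norm_exp, Real.log_exp, Complex.add_re, add_sub_cancel_left]
  calc |(∑' 𝔮, r 𝔮).re| ≤ ‖∑' 𝔮, r 𝔮‖ := Complex.abs_re_le_norm _
    _ ≤ ∑' 𝔮, ‖r 𝔮‖ := norm_tsum_le_tsum_norm hrn
    _ ≤ primeSqSum F := hrn.tsum_le_tsum hrle h2sum

/-- (C2), export: `log ‖L_F(s, χ)‖ = Re P_F(s, χ) + O(1)` on `(1, 2]`. -/
theorem abs_log_norm_normL_sub_re_le (χ : DirichletCharacter ℂ m) :
    ∃ C : ℝ, ∀ s ∈ Set.Ioc (1 : ℝ) 2, |Real.log ‖normL F χ s‖ - (normP F χ s).re| ≤ C :=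
  ⟨primeSqSum F, fun _ hs => abs_log_norm_normL_sub_re_le_primeSqSum F χ hs.1⟩

end Fermat.Agent.ES.R48.NormLEuler1
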