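/-
Programme R (S48) / chapter A4 CHEB, brick CY3a (helper23): real Fourier analysis on a finite
abelian group, and a bookkeeping lemma for families of functions `ℓ + O(1)`.

For a finite abelian group `G`, characters `χ : G →* ℂˣ` and `w : G → ℝ`:

* `coeff w χ = |G|⁻¹ ∑_b w b · Re χ(b)` (the real Fourier coefficient);
* `eq_sum_coeff_mul_re`: if `w g⁻¹ = w g` then `w a = ∑_χ coeff w χ · Re χ(a)`;
* `coeff_one`: `coeff w 1` is the mean of `w`;
* `coeff_eq_zero_of_odd`: if `w (c₀ g) = w g` and `χ c₀ = -1` then `coeff w χ = 0`;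
* `coeff_indicator_of_trivial`: for a subgroup `H` and `χ` trivial on `H`,
  `coeff 1_H χ = |H| / |G|`;
* `exists_abs_le_of_sum`: if `∑_{x ∈ X} R x = ℓ + O(1)`, `R x₁ = ℓ + O(1)` and every other
  `R x` is bounded above on `S`, then every other `R x` is bounded on `S`.
-/
import Mathlib
import Fermat.Agent.CFT.CharOrtho

set_option autoImplicit false
set_option linter.unusedSectionVars false
set_option linter.style.haveILetI false

open Finset ComplexConjugate

namespace Fermat.Agent.ES.R48.RealFourier23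

variable {G : Type*} [CommGroup G] [Finite G]

/-- Values of characters of a finite group have norm one. -/
theorem norm_char (χ : G →* ℂˣ) (g : G) : ‖((χ g : ℂˣ) : ℂ)‖ = 1 := by
  have h : ((χ g : ℂˣ) : ℂ) ^ Nat.card G = 1 := by
    rw [← Units.val_pow_eq_pow_val, ← map_pow, pow_card_eq_one', map_one, Units.val_one]
  exact Complex.norm_eq_one_of_pow_eq_one h Nat.card_pos.ne'

theorem char_inv (χ : G →* ℂˣ) (g : G) :
    ((χ g⁻¹ : ℂˣ) : ℂ) = conj ((χ g : ℂˣ) : ℂ) := by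
  rw [map_inv, Units.val_inv_eq_inv_val, Complex.inv_eq_conj (norm_char χ g)]

theorem re_char_inv (χ : G →* ℂˣ) (g : G) :
    ((χ g⁻¹ : ℂˣ) : ℂ).re = ((χ g : ℂˣ) : ℂ).re := by
  rw [char_inv, Complex.conj_re]

theorem abs_re_char_le (χ : G →* ℂˣ) (g : G) : |((χ g : ℂˣ) : ℂ).re| ≤ 1 :=
  (Complex.abs_re_le_norm _).trans (norm_char χ g).le

/-- `Re χ(a) · Re χ(b) = (Re χ(ab) + Re χ(ab⁻¹)) / 2`. -/
theorem re_mul_re (χ : G →* ℂˣ) (a b : G) :
    ((χ a : ℂˣ) : ℂ).re * ((χ b : ℂˣ) : ℂ).re =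
      (((χ (a * b) : ℂˣ) : ℂ).re + ((χ (a * b⁻¹) : ℂˣ) : ℂ).re) / 2 := by
  rw [map_mul, map_mul, Units.val_mul, Units.val_mul, char_inv, Complex.mul_re, Complex.mul_re,
    Complex.conj_re, Complex.conj_im]
  ring

open scoped Classical in
/-- Real orthogonality: `∑_χ Re χ(g) = |G|` if `g = 1`, and `0` otherwise. -/
theorem sum_re_char [Fintype (G →* ℂˣ)] (g : G) :
    ∑ χ : G →* ℂˣ, ((χ g : ℂˣ) : ℂ).re = if g = 1 then (Nat.card G : ℝ) else 0 := by
  have h := congrArg Complex.re (Fermat.Agent.CFT.CharOrtho.sum_apply g)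
  rw [Complex.re_sum] at h
  rw [h]
  split_ifs <;> simp

/-- The real Fourier coefficient of `w` at `χ`. -/
noncomputable def coeff (w : G → ℝ) (χ : G →* ℂˣ) : ℝ :=
  (Nat.card G : ℝ)⁻¹ * ∑ᶠ b : G, w b * ((χ b : ℂˣ) : ℂ).re

theorem coeff_eq_sum [Fintype G] (w : G → ℝ) (χ : G →* ℂˣ) :
    coeff w χ = (Nat.card G : ℝ)⁻¹ * ∑ b : G, w b * ((χ b : ℂˣ) : ℂ).re := by
  unfold coeff
  rw [finsum_eq_sum_of_fintype]

open scoped Classical in
/-- **Real Fourier inversion** for a function invariant under inversion. -/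
theorem eq_sum_coeff_mul_re [Fintype (G →* ℂˣ)] (w : G → ℝ) (hinv : ∀ g, w g⁻¹ = w g) (a : G) :
    w a = ∑ χ : G →* ℂˣ, coeff w χ * ((χ a : ℂˣ) : ℂ).re := by
  haveI : Fintype G := Fintype.ofFinite G
  have hcard : (Nat.card G : ℝ) ≠ 0 := Nat.cast_ne_zero.mpr Nat.card_pos.ne'
  have h1 : ∀ b : G, ∑ χ : G →* ℂˣ, ((χ b : ℂˣ) : ℂ).re * ((χ a : ℂˣ) : ℂ).re =
      ((if b * a = 1 then (Nat.card G : ℝ) else 0) +
        (if b * a⁻¹ = 1 then (Nat.card G : ℝ) else 0)) / 2 := by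
    intro b
    rw [← sum_re_char (b * a), ← sum_re_char (b * a⁻¹), ← Finset.sum_add_distrib,
      Finset.sum_div]
    exact Finset.sum_congr rfl (fun χ _ => re_mul_re χ b a)
  calc w a = (Nat.card G : ℝ)⁻¹ * ∑ b : G, w b *
        (((if b * a = 1 then (Nat.card G : ℝ) else 0) +
          (if b * a⁻¹ = 1 then (Nat.card G : ℝ) else 0)) / 2) := by
        have h2 : ∀ b : G, w b * (((if b * a = 1 then (Nat.card G : ℝ) else 0) +
            (if b * a⁻¹ = 1 then (Nat.card G : ℝ) else 0)) / 2) =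
            (if b = a⁻¹ then w a⁻¹ * (Nat.card G : ℝ) / 2 else 0) +
              (if b = a then w a * (Nat.card G : ℝ) / 2 else 0) := by
          intro b
          have e1 : b * a = 1 ↔ b = a⁻¹ := mul_eq_one_iff_eq_inv
          have e2 : b * a⁻¹ = 1 ↔ b = a := by rw [mul_inv_eq_one]
          by_cases hb1 : b = a⁻¹ <;> by_cases hb2 : b = a
          · rw [if_pos (e1.mpr hb1), if_pos (e2.mpr hb2), if_pos hb1, if_pos hb2]
            rw [← hb2, hinv b]
            ring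
          · rw [if_pos (e1.mpr hb1), if_neg (fun h => hb2 (e2.mp h)), if_pos hb1, if_neg hb2,
              hb1]
            ring
          · rw [if_neg (fun h => hb1 (e1.mp h)), if_pos (e2.mpr hb2), if_neg hb1, if_pos hb2,
              hb2]
            ring
          · rw [if_neg (fun h => hb1 (e1.mp h)), if_neg (fun h => hb2 (e2.mp h)), if_neg hb1,
              if_neg hb2]
            ring
        rw [Finset.sum_congr rfl (fun b _ => h2 b), Finset.sum_add_distrib,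
          Finset.sum_ite_eq' Finset.univ a⁻¹, Finset.sum_ite_eq' Finset.univ a,
          if_pos (Finset.mem_univ _), if_pos (Finset.mem_univ _), hinv a]
        field_simp
        ring
    _ = (Nat.card G : ℝ)⁻¹ * ∑ b : G, w b *
          ∑ χ : G →* ℂˣ, ((χ b : ℂˣ) : ℂ).re * ((χ a : ℂˣ) : ℂ).re := by
        congr 1
        exact Finset.sum_congr rfl (fun b _ => by rw [h1 b])
    _ = ∑ χ : G →* ℂˣ, coeff w χ * ((χ a : ℂˣ) : ℂ).re := by
        simp_rw [coeff_eq_sum, Finset.mul_sum, Finset.sum_mul]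
        rw [Finset.sum_comm]
        refine Finset.sum_congr rfl (fun χ _ => Finset.sum_congr rfl (fun b _ => ?_))
        ring

/-- The coefficient at the trivial character is the mean of `w`. -/
theorem coeff_one (w : G → ℝ) : coeff w (1 : G →* ℂˣ) = (∑ᶠ b : G, w b) / (Nat.card G : ℝ) := by
  unfold coeff
  rw [div_eq_inv_mul]
  congr 1
  refine finsum_congr (fun b => ?_)
  rw [MonoidHom.one_apply, Units.val_one, Complex.one_re, mul_one]

/-- A `c₀`-invariant function has no odd Fourier coefficients. -/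
theorem coeff_eq_zero_of_odd (w : G → ℝ) (c₀ : G) (hc : ∀ g, w (c₀ * g) = w g)
    (χ : G →* ℂˣ) (hχ : χ c₀ = -1) : coeff w χ = 0 := by
  haveI : Fintype G := Fintype.ofFinite G
  unfold coeff
  rw [finsum_eq_sum_of_fintype]
  have h1 : ∑ b : G, w b * ((χ b : ℂˣ) : ℂ).re = ∑ b : G, w (c₀ * b) * ((χ (c₀ * b) : ℂˣ) : ℂ).re :=
    (Fintype.sum_equiv (Equiv.mulLeft c₀) _ _ (fun b => rfl)).symm
  have h2 : ∑ b : G, w (c₀ * b) * ((χ (c₀ * b) : ℂˣ) : ℂ).re =
      - ∑ b : G, w b * ((χ b : ℂˣ) : ℂ).re := by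
    rw [← Finset.sum_neg_distrib]
    refine Finset.sum_congr rfl (fun b _ => ?_)
    rw [hc, map_mul, hχ, Units.val_mul, Units.val_neg, Units.val_one, neg_one_mul, Complex.neg_re]
    ring
  have h3 : ∑ b : G, w b * ((χ b : ℂˣ) : ℂ).re = 0 := by linarith
  rw [h3, mul_zero]

open scoped Classical in
/-- The coefficients of the indicator of a subgroup `H` at the characters trivial on `H`. -/
theorem coeff_indicator_of_trivial (H : Subgroup G) (χ : G →* ℂˣ) (hχ : ∀ h ∈ H, χ h = 1) :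
    coeff ((H : Set G).indicator 1) χ = (Nat.card H : ℝ) / (Nat.card G : ℝ) := by
  haveI : Fintype G := Fintype.ofFinite G
  unfold coeff
  rw [finsum_eq_sum_of_fintype, div_eq_inv_mul]
  congr 1
  have h1 : ∀ b : G, (H : Set G).indicator (1 : G → ℝ) b * ((χ b : ℂˣ) : ℂ).re =
      if b ∈ H then 1 else 0 := by
    intro b
    by_cases hb : b ∈ H
    · rw [Set.indicator_of_mem (SetLike.mem_coe.mpr hb), if_pos hb, hχ b hb, Units.val_one,
        Complex.one_re, Pi.one_apply, mul_one]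
    · rw [Set.indicator_of_notMem (fun h => hb (SetLike.mem_coe.mp h)), if_neg hb, zero_mul]
  rw [Finset.sum_congr rfl (fun b _ => h1 b), Finset.sum_boole, Nat.card_eq_fintype_card,
    Fintype.card_subtype]

/-- In a finite family of functions whose sum and whose distinguished member are both
`ℓ + O(1)` on `S`, upper bounds for the other members imply two-sided bounds. -/
theorem exists_abs_le_of_sum {ι : Type*} [DecidableEq ι] (X : Finset ι) (x₁ : ι) (hx₁ : x₁ ∈ X)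
    (R : ι → ℝ → ℝ) (ℓ : ℝ → ℝ) (S : Set ℝ)
    (h0 : ∃ B : ℝ, ∀ s ∈ S, |∑ x ∈ X, R x s - ℓ s| ≤ B)
    (h1 : ∃ B : ℝ, ∀ s ∈ S, |R x₁ s - ℓ s| ≤ B)
    (hup : ∀ x ∈ X, x ≠ x₁ → ∃ B : ℝ, ∀ s ∈ S, R x s ≤ B) :
    ∀ x ∈ X, x ≠ x₁ → ∃ B : ℝ, ∀ s ∈ S, |R x s| ≤ B := by
  obtain ⟨B0, hB0⟩ := h0
  obtain ⟨B1, hB1⟩ := h1
  have hup' : ∀ x : ι, ∃ B : ℝ, x ∈ X → x ≠ x₁ → ∀ s ∈ S, R x s ≤ B := by
    intro x
    by_cases hx : x ∈ X ∧ x ≠ x₁
    · obtain ⟨B, hB⟩ := hup x hx.1 hx.2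
      exact ⟨B, fun _ _ => hB⟩
    · exact ⟨0, fun h1 h2 => absurd ⟨h1, h2⟩ hx⟩
  choose Bu hBu using hup'
  intro x hx hxne
  refine ⟨|Bu x| + (B0 + B1 + ∑ y ∈ (X.erase x₁).erase x, |Bu y|), fun s hs => ?_⟩
  have hxe : x ∈ X.erase x₁ := Finset.mem_erase.mpr ⟨hxne, hx⟩
  have hsplit : ∑ y ∈ X, R y s = R x₁ s + (R x s + ∑ y ∈ (X.erase x₁).erase x, R y s) := by
    rw [← Finset.add_sum_erase X (fun y => R y s) hx₁,
      ← Finset.add_sum_erase (X.erase x₁) (fun y => R y s) hxe]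
  have hrest : ∑ y ∈ (X.erase x₁).erase x, R y s ≤ ∑ y ∈ (X.erase x₁).erase x, |Bu y| := by
    refine Finset.sum_le_sum (fun y hy => ?_)
    have hy1 : y ∈ X.erase x₁ := Finset.mem_of_mem_erase hy
    exact (hBu y (Finset.mem_of_mem_erase hy1) (Finset.ne_of_mem_erase hy1) s hs).trans
      (le_abs_self _)
  have ha := abs_le.mp (hB0 s hs)
  have hb := abs_le.mp (hB1 s hs)
  have hu := hBu x hx hxne s hs
  have hnn : 0 ≤ ∑ y ∈ (X.erase x₁).erase x, |Bu y| := Finset.sum_nonneg (fun _ _ => abs_nonneg _)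
  rw [abs_le]
  constructor
  · rw [hsplit] at ha
    linarith [ha.1, hb.2, abs_nonneg (Bu x)]
  · linarith [le_abs_self (Bu x), abs_nonneg (Bu x), hb.1, ha.2]

end Fermat.Agent.ES.R48.RealFourier23
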