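/-
Programme R (S48) / chapter A4 CHEB, brick CY3 core (helper23): density up to
`{inversion, c₀}` in a cyclotomic-type abelian extension, in HYPOTHESIS FORM (the boundedness of
the norm-residue `L`-series of even characters, `NormLBound7.normL_bounded`, enters as `hNR`).

`Ω/F` finite abelian, `ζ ∈ Ω` a primitive `q`-th root of unity with injective cyclotomic
character `κ = hζ.autToPow F`, `κ c₀ = -1`, `q ∣ M`.  Everything is done with REAL series: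

* `charSum F Ω M χ s = ∑_{𝔮 good} Re χ(Frob 𝔮) · N𝔮^(-s)`, `wSum F Ω M w s` likewise with `w`;
* `wSum_eq_sum_coeff` (♦): for `w g⁻¹ = w g`, `wSum w = ∑_χ coeff w χ · charSum χ`
  (`RealFourier23.eq_sum_coeff_mul_re`);
* `charSum_one_bound` (C5a): `charSum 1 = ℓ(s) + O(1)` (`ChebDensity23.key_bound`, `H = ⊤`);
* `sum_even_charSum_bound` (C5b, the second pole): `∑_{χ c₀ = 1} charSum χ = ℓ(s) + O(1)`
  (`key_bound` for `H = ⟨c₀⟩` and (♦) for the indicator of `H`);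
* `charSum_le_of_even` (C1)–(C3): for `χ c₀ = 1`, `χ ≠ 1`: `charSum χ ≤ B`
  (`CycloFrobChar23.exists_even_dirichlet`, `NormLEuler1.abs_log_norm_normL_sub_re_le`, `hNR`);
* `cyclo_density_pm_of_bounded` (CY): for `w g⁻¹ = w g = w (c₀ g)`,
  `∑_{𝔮 good} w(Frob 𝔮) N𝔮^(-s) = (mean of w) · ℓ(s) + O(1)` on `(1, 2]`.
-/
import Mathlib
import Fermat.Agent.CFT.NotAllSplit
import Fermat.Agent.CFT.ArtinSymbol
import Fermat.Agent.ES.GAL.ChebDensity23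
import Fermat.Agent.ES.R48.NormLDefs7
import Fermat.Agent.ES.R48.NormLEuler1
import Fermat.Agent.ES.R48.CycloFrobChar23
import Fermat.Agent.ES.R48.RealFourier23

set_option autoImplicit false
set_option linter.unusedSectionVars false
set_option linter.style.haveILetI false

open IsDedekindDomain Ideal NumberField
open scoped IsMulCommutative
open Fermat.Agent.CFT.ArtinSymbol Fermat.Agent.CFT.NotAllSplit Fermat.Agent.CFT.SplitPrimes
open Fermat.Agent.ES.GAL.ChebDensity23 Fermat.Agent.ES.GAL.ChebAbstract23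
open Fermat.Agent.ES.R48.NormLDefs7 Fermat.Agent.ES.R48.RealFourier23
open Fermat.Agent.ES.R48.CycloFrobChar23

namespace Fermat.Agent.ES.R48.CycloDensityCore23

/-! ### Bounded multiples of `N𝔮^(-s)` -/

section Basic

variable (F : Type) [Field F] [NumberField F]

/-- Summability of a bounded multiple of `xP` restricted to a set of primes. -/
theorem summable_indicator_mul_xP (T : Set (HeightOneSpectrum (𝓞 F)))
    (u : HeightOneSpectrum (𝓞 F) → ℝ) {C : ℝ} (hu : ∀ 𝔮, |u 𝔮| ≤ C) {s : ℝ} (hs : 1 < s) :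
    Summable (T.indicator (fun 𝔮 => u 𝔮 * xP F s 𝔮)) := by
  refine Summable.of_norm_bounded ((summable_xP F hs).mul_left C) (fun 𝔮 => ?_)
  by_cases h𝔮 : 𝔮 ∈ T
  · rw [Set.indicator_of_mem h𝔮, Real.norm_eq_abs, abs_mul, abs_of_pos (xP_pos F s 𝔮)]
    exact mul_le_mul_of_nonneg_right (hu 𝔮) (xP_pos F s 𝔮).le
  · rw [Set.indicator_of_notMem h𝔮, norm_zero]
    exact mul_nonneg ((abs_nonneg _).trans (hu 𝔮)) (xP_pos F s 𝔮).le

/-- The sum of a multiple of `xP` by a function bounded by `1` over `T` is at most `wsum xP T`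
in absolute value. -/
theorem abs_tsum_indicator_mul_xP_le (T : Set (HeightOneSpectrum (𝓞 F)))
    (u : HeightOneSpectrum (𝓞 F) → ℝ) (hu : ∀ 𝔮, |u 𝔮| ≤ 1) {s : ℝ} (hs : 1 < s) :
    |∑' 𝔮, T.indicator (fun 𝔮 => u 𝔮 * xP F s 𝔮) 𝔮| ≤ wsum (xP F s) T := by
  have h1 := summable_indicator_mul_xP F T u hu hs
  have h2 : Summable (T.indicator (xP F s)) := (summable_xP F hs).indicator T
  rw [← Real.norm_eq_abs]
  refine (norm_tsum_le_tsum_norm h1.norm).trans ?_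
  unfold wsum
  refine h1.norm.tsum_le_tsum (fun 𝔮 => ?_) h2
  by_cases h𝔮 : 𝔮 ∈ T
  · rw [Set.indicator_of_mem h𝔮, Set.indicator_of_mem h𝔮, Real.norm_eq_abs, abs_mul,
      abs_of_pos (xP_pos F s 𝔮)]
    calc |u 𝔮| * xP F s 𝔮 ≤ 1 * xP F s 𝔮 :=
          mul_le_mul_of_nonneg_right (hu 𝔮) (xP_pos F s 𝔮).le
      _ = xP F s 𝔮 := one_mul _
  · rw [Set.indicator_of_notMem h𝔮, Set.indicator_of_notMem h𝔮, norm_zero]

end Basic

/-! ### Character sums over the good primes -/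

section Main

variable (F Ω : Type) [Field F] [Field Ω] [NumberField F] [NumberField Ω] [Algebra F Ω]
  [IsGalois F Ω] [IsMulCommutative (Ω ≃ₐ[F] Ω)]

/-- The real character sum `∑_{𝔮 good} Re χ(Frob 𝔮) · N𝔮^(-s)`. -/
noncomputable def charSum (M : ℕ) (χ : (Ω ≃ₐ[F] Ω) →* ℂˣ) (s : ℝ) : ℝ :=
  ∑' 𝔮 : HeightOneSpectrum (𝓞 F), (good F Ω M).indicator
    (fun 𝔮 => ((χ (frobOf F Ω 𝔮.asIdeal) : ℂˣ) : ℂ).re * xP F s 𝔮) 𝔮

/-- The weighted sum `∑_{𝔮 good} w(Frob 𝔮) · N𝔮^(-s)`. -/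
noncomputable def wSum (M : ℕ) (w : (Ω ≃ₐ[F] Ω) → ℝ) (s : ℝ) : ℝ :=
  ∑' 𝔮 : HeightOneSpectrum (𝓞 F), (good F Ω M).indicator
    (fun 𝔮 => w (frobOf F Ω 𝔮.asIdeal) * xP F s 𝔮) 𝔮

variable {F Ω}

theorem summable_charSum (M : ℕ) (χ : (Ω ≃ₐ[F] Ω) →* ℂˣ) {s : ℝ} (hs : 1 < s) :
    Summable ((good F Ω M).indicator
      (fun 𝔮 => ((χ (frobOf F Ω 𝔮.asIdeal) : ℂˣ) : ℂ).re * xP F s 𝔮)) :=
  summable_indicator_mul_xP F _ _ (fun _ => abs_re_char_le χ _) hs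

/-- (♦) The weighted sum of an inversion-invariant `w` in terms of the character sums. -/
theorem wSum_eq_sum_coeff [Fintype ((Ω ≃ₐ[F] Ω) →* ℂˣ)] (M : ℕ) (w : (Ω ≃ₐ[F] Ω) → ℝ)
    (hinv : ∀ g, w g⁻¹ = w g) {s : ℝ} (hs : 1 < s) :
    wSum F Ω M w s = ∑ χ : (Ω ≃ₐ[F] Ω) →* ℂˣ, coeff w χ * charSum F Ω M χ s := by
  unfold wSum charSum
  simp_rw [← tsum_mul_left]
  rw [← Summable.tsum_finsetSum (fun χ _ => (summable_charSum M χ hs).mul_left _)]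
  refine tsum_congr (fun 𝔮 => ?_)
  by_cases h𝔮 : 𝔮 ∈ good F Ω M
  · simp_rw [Set.indicator_of_mem h𝔮]
    rw [eq_sum_coeff_mul_re w hinv (frobOf F Ω 𝔮.asIdeal), Finset.sum_mul]
    exact Finset.sum_congr rfl (fun χ _ => by ring)
  · simp_rw [Set.indicator_of_notMem h𝔮]
    simp

open scoped Classical in
/-- The weighted sum of the indicator of a subgroup is the sum over `frobIn`. -/
theorem wSum_indicator (M : ℕ) (H : Subgroup (Ω ≃ₐ[F] Ω)) (s : ℝ) :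
    wSum F Ω M ((H : Set (Ω ≃ₐ[F] Ω)).indicator 1) s = wsum (xP F s) (frobIn F Ω M H) := by
  unfold wSum wsum
  refine tsum_congr (fun 𝔮 => ?_)
  by_cases h𝔮 : 𝔮 ∈ good F Ω M
  · by_cases hH : frobOf F Ω 𝔮.asIdeal ∈ H
    · have hmem : 𝔮 ∈ frobIn F Ω M H := ⟨h𝔮, hH⟩
      rw [Set.indicator_of_mem h𝔮, Set.indicator_of_mem hmem,
        Set.indicator_of_mem (SetLike.mem_coe.mpr hH), Pi.one_apply, one_mul]
    · have hmem : 𝔮 ∉ frobIn F Ω M H := fun h => hH h.2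
      rw [Set.indicator_of_mem h𝔮, Set.indicator_of_notMem hmem,
        Set.indicator_of_notMem (fun h => hH (SetLike.mem_coe.mp h)), zero_mul]
  · have hmem : 𝔮 ∉ frobIn F Ω M H := fun h => h𝔮 h.1
    rw [Set.indicator_of_notMem h𝔮, Set.indicator_of_notMem hmem]

/-- The character sum of the trivial character is the sum over all good primes. -/
theorem charSum_one (M : ℕ) (s : ℝ) :
    charSum F Ω M (1 : (Ω ≃ₐ[F] Ω) →* ℂˣ) s = wsum (xP F s) (frobIn F Ω M ⊤) := by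
  unfold charSum wsum
  refine tsum_congr (fun 𝔮 => ?_)
  by_cases h𝔮 : 𝔮 ∈ good F Ω M
  · have hmem : 𝔮 ∈ frobIn F Ω M ⊤ := ⟨h𝔮, Subgroup.mem_top _⟩
    rw [Set.indicator_of_mem h𝔮, Set.indicator_of_mem hmem, MonoidHom.one_apply, Units.val_one,
      Complex.one_re, one_mul]
  · have hmem : 𝔮 ∉ frobIn F Ω M ⊤ := fun h => h𝔮 h.1
    rw [Set.indicator_of_notMem h𝔮, Set.indicator_of_notMem hmem]

/-- (C5a) The trivial character carries `log (1 / (s - 1)) + O(1)`. -/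
theorem charSum_one_bound (M : ℕ) (hM : M ≠ 0) :
    ∃ B : ℝ, ∀ s ∈ Set.Ioc (1 : ℝ) 2,
      |charSum F Ω M (1 : (Ω ≃ₐ[F] Ω) →* ℂˣ) s - Real.log (1 / (s - 1))| ≤ B := by
  obtain ⟨B, hB⟩ := key_bound F Ω M hM ⊤
  refine ⟨B, fun s hs => ?_⟩
  have := hB s hs
  rw [Subgroup.index_top, Nat.cast_one, one_mul] at this
  rw [charSum_one]
  exact this

/-- A character takes the value `±1` at an involution. -/
theorem apply_eq_one_or_neg_one {A : Type*} [Group A] (χ : A →* ℂˣ) {c₀ : A}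
    (hc₀ : c₀ * c₀ = 1) : χ c₀ = 1 ∨ χ c₀ = -1 := by
  have h1 : χ c₀ * χ c₀ = 1 := by rw [← map_mul, hc₀, map_one]
  have h2 : ((χ c₀ : ℂˣ) : ℂ) * ((χ c₀ : ℂˣ) : ℂ) = 1 := by
    rw [← Units.val_mul, h1, Units.val_one]
  rcases mul_self_eq_one_iff.mp h2 with h | h
  · exact Or.inl (Units.ext h)
  · exact Or.inr (Units.ext (by rw [h, Units.val_neg, Units.val_one]))

open scoped Classical in
/-- (C5b) The even characters together carry `log (1 / (s - 1)) + O(1)` (the second pole). -/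
theorem sum_even_charSum_bound [Fintype ((Ω ≃ₐ[F] Ω) →* ℂˣ)]
    (M : ℕ) (hM : M ≠ 0) (c₀ : Ω ≃ₐ[F] Ω) (hc₀ : c₀ * c₀ = 1) :
    ∃ B : ℝ, ∀ s ∈ Set.Ioc (1 : ℝ) 2,
      |∑ χ ∈ Finset.univ.filter (fun χ : (Ω ≃ₐ[F] Ω) →* ℂˣ => χ c₀ = 1), charSum F Ω M χ s
        - Real.log (1 / (s - 1))| ≤ B := by
  set H : Subgroup (Ω ≃ₐ[F] Ω) := Subgroup.zpowers c₀ with hH
  obtain ⟨B, hB⟩ := key_bound F Ω M hM H
  refine ⟨B, fun s hs => ?_⟩
  have hc₀H : c₀ ∈ H := Subgroup.mem_zpowers c₀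
  set w₀ : (Ω ≃ₐ[F] Ω) → ℝ := (H : Set (Ω ≃ₐ[F] Ω)).indicator 1 with hw₀
  have hinv : ∀ g, w₀ g⁻¹ = w₀ g := by
    intro g
    by_cases hg : g ∈ H
    · rw [hw₀, Set.indicator_of_mem (SetLike.mem_coe.mpr (H.inv_mem hg)),
        Set.indicator_of_mem (SetLike.mem_coe.mpr hg), Pi.one_apply, Pi.one_apply]
    · rw [hw₀, Set.indicator_of_notMem (fun h => hg (by simpa using H.inv_mem (SetLike.mem_coe.mp h))),
        Set.indicator_of_notMem (fun h => hg (SetLike.mem_coe.mp h))]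
  have hc : ∀ g, w₀ (c₀ * g) = w₀ g := by
    intro g
    by_cases hg : g ∈ H
    · rw [hw₀, Set.indicator_of_mem (SetLike.mem_coe.mpr (H.mul_mem hc₀H hg)),
        Set.indicator_of_mem (SetLike.mem_coe.mpr hg), Pi.one_apply, Pi.one_apply]
    · rw [hw₀, Set.indicator_of_notMem
          (fun h => hg ((Subgroup.mul_mem_cancel_left H hc₀H).mp (SetLike.mem_coe.mp h))),
        Set.indicator_of_notMem (fun h => hg (SetLike.mem_coe.mp h))]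
  have hcoef : ∀ χ : (Ω ≃ₐ[F] Ω) →* ℂˣ, coeff w₀ χ * charSum F Ω M χ s =
      if χ c₀ = 1 then
        ((Nat.card H : ℝ) / (Nat.card (Ω ≃ₐ[F] Ω) : ℝ)) * charSum F Ω M χ s else 0 := by
    intro χ
    by_cases hχ : χ c₀ = 1
    · rw [if_pos hχ, hw₀, coeff_indicator_of_trivial H χ]
      intro h hh
      obtain ⟨k, rfl⟩ := Subgroup.mem_zpowers_iff.mp hh
      rw [map_zpow, hχ, one_zpow]
    · rw [if_neg hχ]
      have hodd : χ c₀ = -1 := (apply_eq_one_or_neg_one χ hc₀).resolve_left hχ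
      rw [coeff_eq_zero_of_odd w₀ c₀ hc χ hodd, zero_mul]
  have h1 : wsum (xP F s) (frobIn F Ω M H) =
      ((Nat.card H : ℝ) / (Nat.card (Ω ≃ₐ[F] Ω) : ℝ)) *
        ∑ χ ∈ Finset.univ.filter (fun χ : (Ω ≃ₐ[F] Ω) →* ℂˣ => χ c₀ = 1), charSum F Ω M χ s := by
    rw [← wSum_indicator, wSum_eq_sum_coeff M w₀ hinv hs.1,
      Finset.sum_congr rfl (fun χ _ => hcoef χ), ← Finset.sum_filter, Finset.mul_sum]
  have h2 : (H.index : ℝ) * ((Nat.card H : ℝ) / (Nat.card (Ω ≃ₐ[F] Ω) : ℝ)) = 1 := by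
    have hcard : (Nat.card (Ω ≃ₐ[F] Ω) : ℝ) ≠ 0 := Nat.cast_ne_zero.mpr Nat.card_pos.ne'
    rw [← mul_div_assoc, ← Nat.cast_mul, Subgroup.index_mul_card, div_self hcard]
  have h3 := hB s hs
  rw [h1, ← mul_assoc, h2, one_mul] at h3
  exact h3

/-! ### Upper bounds from the norm-residue `L`-series -/

/-- The primes that are not good carry a bounded part of the prime zeta function. -/
theorem wsum_compl_good_le (M : ℕ) (hM : M ≠ 0) :
    ∃ C : ℝ, ∀ s ∈ Set.Ioc (1 : ℝ) 2, wsum (xP F s) (good F Ω M)ᶜ ≤ C := by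
  have hdL : (discr Ω).natAbs ≠ 0 := Int.natAbs_ne_zero.mpr (discr_ne_zero Ω)
  have hm' : M * (discr Ω).natAbs ≠ 0 := Nat.mul_ne_zero hM hdL
  refine ⟨Module.finrank ℚ F * primeZeta ℚ 2 +
    (smallPrimes F (M * (discr Ω).natAbs)).ncard, fun s hs => ?_⟩
  have := primeZeta_le_goodPrimes F hm' hs.1
  rw [primeIdealZetaSum_eq_wsum, primeZeta_eq_wsum_add F (good F Ω M) hs.1] at this
  linarith

/-- The real part of the prime sum `normP` as a real series. -/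
theorem re_normP {m : ℕ} (ψ : DirichletCharacter ℂ m) {s : ℝ} (hs : 1 < s) :
    (normP F ψ s).re = ∑' 𝔮 : HeightOneSpectrum (𝓞 F),
      (ψ ((absNorm 𝔮.asIdeal : ℕ) : ZMod m)).re * xP F s 𝔮 := by
  unfold normP
  rw [Complex.re_tsum (Fermat.Agent.ES.R48.NormLEuler1.summable_norm_nterm_prime ψ hs).of_norm]
  refine tsum_congr (fun 𝔮 => ?_)
  unfold nterm xP
  rw [Complex.re_mul_ofReal]

/-- (C1)–(C3) The character sum of an even non-trivial character is bounded above, given the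
boundedness of the norm-residue `L`-series. -/
theorem charSum_le_of_even {q : ℕ} [NeZero q] {ζ : Ω} (hζ : IsPrimitiveRoot ζ q)
    (hinj : Function.Injective (hζ.autToPow F)) (c₀ : Ω ≃ₐ[F] Ω)
    (hc₀ : hζ.autToPow F c₀ = -1) (M : ℕ) (hM : M ≠ 0) (hqM : q ∣ M)
    (hNR : ∀ ψ : DirichletCharacter ℂ q, ψ.Even →
      (∃ 𝔞 : Ideal (𝓞 F),
        ψ ((absNorm 𝔞 : ℕ) : ZMod q) ≠ 0 ∧ ψ ((absNorm 𝔞 : ℕ) : ZMod q) ≠ 1) →
      ∃ B : ℝ, ∀ s ∈ Set.Ioc (1 : ℝ) 2, ‖normL F ψ s‖ ≤ B)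
    (χ : (Ω ≃ₐ[F] Ω) →* ℂˣ) (hev : χ c₀ = 1) (hne : χ ≠ 1) :
    ∃ B : ℝ, ∀ s ∈ Set.Ioc (1 : ℝ) 2, charSum F Ω M χ s ≤ B := by
  obtain ⟨ψ, hψev, hψgood, hψne⟩ := exists_even_dirichlet hζ hinj c₀ hc₀ M hM hqM χ hev
  obtain ⟨B1, hB1⟩ := hNR ψ hψev (hψne hne)
  obtain ⟨C, hC⟩ := Fermat.Agent.ES.R48.NormLEuler1.abs_log_norm_normL_sub_re_le F ψ
  obtain ⟨C', hC'⟩ := wsum_compl_good_le (F := F) (Ω := Ω) M hM
  refine ⟨Real.log B1 + C + C', fun s hs => ?_⟩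
  set f : HeightOneSpectrum (𝓞 F) → ℝ :=
    fun 𝔮 => (ψ ((absNorm 𝔮.asIdeal : ℕ) : ZMod q)).re * xP F s 𝔮 with hf
  have hu : ∀ 𝔮 : HeightOneSpectrum (𝓞 F), |(ψ ((absNorm 𝔮.asIdeal : ℕ) : ZMod q)).re| ≤ 1 :=
    fun 𝔮 => (Complex.abs_re_le_norm _).trans (DirichletCharacter.norm_le_one ψ _)
  have hs1 := summable_indicator_mul_xP F (good F Ω M) _ hu hs.1
  have hs2 := summable_indicator_mul_xP F (good F Ω M)ᶜ _ hu hs.1
  have hsplit : (normP F ψ s).re =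
      ∑' 𝔮, (good F Ω M).indicator f 𝔮 + ∑' 𝔮, (good F Ω M)ᶜ.indicator f 𝔮 := by
    rw [re_normP ψ hs.1, ← hs1.tsum_add hs2]
    refine tsum_congr (fun 𝔮 => ?_)
    exact (congrFun (Set.indicator_self_add_compl (good F Ω M) f) 𝔮).symm
  have hgood : ∑' 𝔮, (good F Ω M).indicator f 𝔮 = charSum F Ω M χ s := by
    unfold charSum
    refine tsum_congr (fun 𝔮 => ?_)
    by_cases h𝔮 : 𝔮 ∈ good F Ω M
    · rw [Set.indicator_of_mem h𝔮, Set.indicator_of_mem h𝔮, hf]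
      simp only
      rw [hψgood 𝔮 h𝔮]
    · rw [Set.indicator_of_notMem h𝔮, Set.indicator_of_notMem h𝔮]
  have hbad : |∑' 𝔮, (good F Ω M)ᶜ.indicator f 𝔮| ≤ C' :=
    (abs_tsum_indicator_mul_xP_le F _ _ hu hs.1).trans (hC' s hs)
  have hpos : 0 < ‖normL F ψ s‖ :=
    norm_pos_iff.mpr (Fermat.Agent.ES.R48.NormLEuler1.normL_ne_zero F ψ hs.1)
  have hlog : Real.log ‖normL F ψ s‖ ≤ Real.log B1 := Real.log_le_log hpos (hB1 s hs)
  have h1 := (abs_le.mp (hC s hs)).1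
  have h2 := (abs_le.mp hbad).1
  rw [← hgood]
  linarith

/-! ### Assembly -/

open scoped Classical in
/-- **(CY), hypothesis form.**  Density up to `{inversion, c₀}` in a cyclotomic-type abelian
extension, assuming the boundedness of the norm-residue `L`-series of even characters. -/
theorem cyclo_density_pm_of_bounded {q : ℕ} [NeZero q] {ζ : Ω} (hζ : IsPrimitiveRoot ζ q)
    (hinj : Function.Injective (hζ.autToPow F)) (c₀ : Ω ≃ₐ[F] Ω)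
    (hc₀ : hζ.autToPow F c₀ = -1) (M : ℕ) (hM : M ≠ 0) (hqM : q ∣ M)
    (hNR : ∀ ψ : DirichletCharacter ℂ q, ψ.Even →
      (∃ 𝔞 : Ideal (𝓞 F),
        ψ ((absNorm 𝔞 : ℕ) : ZMod q) ≠ 0 ∧ ψ ((absNorm 𝔞 : ℕ) : ZMod q) ≠ 1) →
      ∃ B : ℝ, ∀ s ∈ Set.Ioc (1 : ℝ) 2, ‖normL F ψ s‖ ≤ B)
    (w : (Ω ≃ₐ[F] Ω) → ℝ) (hinv : ∀ g, w g⁻¹ = w g) (hc : ∀ g, w (c₀ * g) = w g) :
    ∃ B : ℝ, ∀ s ∈ Set.Ioc (1 : ℝ) 2,
      |∑' 𝔮 : HeightOneSpectrum (𝓞 F), (good F Ω M).indicator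
            (fun 𝔮 => w (frobOf F Ω 𝔮.asIdeal) * xP F s 𝔮) 𝔮
        - (∑ᶠ g, w g) / Nat.card (Ω ≃ₐ[F] Ω) * Real.log (1 / (s - 1))| ≤ B := by
  haveI : Fintype ((Ω ≃ₐ[F] Ω) →* ℂˣ) := Fintype.ofFinite _
  -- `c₀` is an involution
  have hc₀2 : c₀ * c₀ = 1 := by
    apply hinj
    rw [map_mul, hc₀, map_one, neg_mul_neg, one_mul]
  -- two-sided bounds for the even non-trivial characters
  obtain ⟨B1, hB1⟩ := charSum_one_bound (F := F) (Ω := Ω) M hM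
  have hall := exists_abs_le_of_sum
    (Finset.univ.filter (fun χ : (Ω ≃ₐ[F] Ω) →* ℂˣ => χ c₀ = 1)) 1
    (Finset.mem_filter.mpr ⟨Finset.mem_univ _, by rw [MonoidHom.one_apply]⟩)
    (fun χ s => charSum F Ω M χ s) (fun s => Real.log (1 / (s - 1))) (Set.Ioc (1 : ℝ) 2)
    (sum_even_charSum_bound M hM c₀ hc₀2) ⟨B1, hB1⟩
    (fun χ hχ hne => charSum_le_of_even hζ hinj c₀ hc₀ M hM hqM hNR χ
      (Finset.mem_filter.mp hχ).2 hne)
  have hall' : ∀ χ : (Ω ≃ₐ[F] Ω) →* ℂˣ, ∃ B : ℝ, χ c₀ = 1 → χ ≠ 1 →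
      ∀ s ∈ Set.Ioc (1 : ℝ) 2, |charSum F Ω M χ s| ≤ B := by
    intro χ
    by_cases hχ : χ c₀ = 1 ∧ χ ≠ 1
    · obtain ⟨B, hB⟩ := hall χ (Finset.mem_filter.mpr ⟨Finset.mem_univ _, hχ.1⟩) hχ.2
      exact ⟨B, fun _ _ => hB⟩
    · exact ⟨0, fun h1 h2 => absurd ⟨h1, h2⟩ hχ⟩
  choose Bc hBc using hall'
  refine ⟨|coeff w 1| * B1 +
    ∑ χ ∈ (Finset.univ : Finset ((Ω ≃ₐ[F] Ω) →* ℂˣ)).erase 1, |coeff w χ| * Bc χ, fun s hs => ?_⟩
  have hdec := wSum_eq_sum_coeff M w hinv hs.1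
  unfold wSum at hdec
  rw [hdec, ← coeff_one w, ← Finset.add_sum_erase Finset.univ _ (Finset.mem_univ
    (1 : (Ω ≃ₐ[F] Ω) →* ℂˣ))]
  have h1 : |coeff w 1 * charSum F Ω M 1 s - coeff w 1 * Real.log (1 / (s - 1))| ≤
      |coeff w 1| * B1 := by
    rw [← mul_sub, abs_mul]
    exact mul_le_mul_of_nonneg_left (hB1 s hs) (abs_nonneg _)
  have h2 : |∑ χ ∈ (Finset.univ : Finset ((Ω ≃ₐ[F] Ω) →* ℂˣ)).erase 1,
      coeff w χ * charSum F Ω M χ s| ≤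
      ∑ χ ∈ (Finset.univ : Finset ((Ω ≃ₐ[F] Ω) →* ℂˣ)).erase 1, |coeff w χ| * Bc χ := by
    refine (Finset.abs_sum_le_sum_abs _ _).trans (Finset.sum_le_sum (fun χ hχ => ?_))
    have hne : χ ≠ 1 := Finset.ne_of_mem_erase hχ
    rw [abs_mul]
    rcases apply_eq_one_or_neg_one χ hc₀2 with hev | hodd
    · exact mul_le_mul_of_nonneg_left (hBc χ hev hne s hs) (abs_nonneg _)
    · rw [coeff_eq_zero_of_odd w c₀ hc χ hodd, abs_zero, zero_mul, zero_mul]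
  have h3 : coeff w 1 * charSum F Ω M 1 s +
      ∑ χ ∈ (Finset.univ : Finset ((Ω ≃ₐ[F] Ω) →* ℂˣ)).erase 1, coeff w χ * charSum F Ω M χ s -
      coeff w 1 * Real.log (1 / (s - 1)) =
      (coeff w 1 * charSum F Ω M 1 s - coeff w 1 * Real.log (1 / (s - 1))) +
      ∑ χ ∈ (Finset.univ : Finset ((Ω ≃ₐ[F] Ω) →* ℂˣ)).erase 1,
        coeff w χ * charSum F Ω M χ s := by ring
  rw [h3]
  exact (abs_add_le _ _).trans (add_le_add h1 h2)

end Main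

end Fermat.Agent.ES.R48.CycloDensityCore23
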