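/-
Programme R (S48, Deligne–Serre), chapter G6 PER₁ (helper9), shared leaf `DC1`: the double-coset
operators `T_p` (`p` prime, `p ∤ M`) and `⟨d⟩` (`d : (ZMod M)ˣ`) on homomorphisms `Γ₁(M) → A`
(`A` any abelian group) — the `Γ₁`-twin of main's `ES/HEQ/DoubleCoset27` (+ `DoubleCosetPar27`).

With `β_i` (`i : Option (ZMod p)`), `coc`, `perm` of `DoubleCoset27` (`β_i γ = coc γ i · β_{perm γ i}`)
and `σ_p = diamondRep M (primeUnit hp hpM) ∈ Γ₀(M)` (lower-right entry `≡ p`; the SAME element as in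
`TpForm9.Tp`), put `r_j = 1` (`j : ZMod p`), `r_∞ = σ_p`.  Then for `γ ∈ Γ₁(M)`

  `(r_i β_i) γ = cocG1 γ i · (r_k β_k)`,  `k = perm γ i`,  `cocG1 γ i = r_i · coc γ i · r_k⁻¹ ∈ Γ₁(M)`,

and

  `dcT hp hpM φ γ = ∑ i, φ (cocG1 γ i)`,      `dcD d φ γ = φ (σ_d γ σ_d⁻¹)`  (`σ_d = diamondRep M d`).

Both are additive in `φ`, natural in `A`, preserve parabolic homomorphisms, and do not depend on the
choice of `σ_p`, `σ_d` (`dcT_apply_of_rep`, `dcD_apply_of_rep`).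
-/
import Mathlib
import Fermat.Agent.ES.HEQ.DoubleCoset27
import Fermat.Agent.ES.HEQ.DoubleCosetPar27
import Fermat.Agent.ES.R48.TpForm9

set_option autoImplicit false

open Matrix CongruenceSubgroup ModularCurve.Period UpperHalfPlane
open scoped MatrixGroups

noncomputable section

namespace Fermat.Agent.ES.R48.DcGamma1_9

open Fermat.Agent.ES.HEQ.DoubleCoset27 Fermat.Agent.ES.HEQ.DoubleCosetPar27
open Fermat.Agent.ES.R48.Gamma1Slash9 Fermat.Agent.ES.R48.TpForm9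

/-! ### The twisted cocycle on `SL(2, ℤ)` -/

section General

variable {p : ℕ}

/-- the `Γ₀(M)`-twist of the representatives: `1` at the finite places, `δ` at `∞`. -/
def rep (δ : SL(2, ℤ)) : Option (ZMod p) → SL(2, ℤ)
  | some _ => 1
  | none => δ

@[simp] theorem rep_some (δ : SL(2, ℤ)) (j : ZMod p) : rep δ (some j) = 1 := rfl

@[simp] theorem rep_none (δ : SL(2, ℤ)) : rep (p := p) δ none = δ := rfl

theorem rep_mem {M : ℕ} {δ : SL(2, ℤ)} (hδ : δ ∈ Gamma0 M) (i : Option (ZMod p)) :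
    rep δ i ∈ Gamma0 M := by
  cases i with
  | none => exact hδ
  | some j => exact Subgroup.one_mem _

/-- `(r_i)₁₁ · (β_i)₁₁ ≡ p (mod M)`. -/
theorem rep_mul_beta {M : ℕ} {δ : SL(2, ℤ)} (hδp : ((δ 1 1 : ℤ) : ZMod M) = (p : ZMod M))
    (i : Option (ZMod p)) :
    ((rep δ i 1 1 : ℤ) : ZMod M) * ((beta p i 1 1 : ℤ) : ZMod M) = (p : ZMod M) := by
  cases i with
  | none => simp [hδp]
  | some j => simp

variable [hp : Fact p.Prime]

/-- the twisted cocycle `r_i · coc γ i · r_{perm γ i}⁻¹`. -/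
def cocR (δ γ : SL(2, ℤ)) (i : Option (ZMod p)) : SL(2, ℤ) :=
  rep δ i * coc γ i * (rep δ (perm γ i))⁻¹

theorem cocR_def (δ γ : SL(2, ℤ)) (i : Option (ZMod p)) :
    cocR δ γ i = rep δ i * coc γ i * (rep δ (perm γ i))⁻¹ := rfl

@[simp] theorem cocR_one (δ : SL(2, ℤ)) (i : Option (ZMod p)) : cocR δ 1 i = 1 := by
  simp [cocR]

theorem cocR_mul (δ γ γ' : SL(2, ℤ)) (i : Option (ZMod p)) :
    cocR δ (γ * γ') i = cocR δ γ i * cocR δ γ' (perm γ i) := by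
  simp only [cocR, coc_mul, perm_mul]
  group

/-- the defining identity, in `M₂(ℤ)`: `(r_i β_i) γ = cocR γ i · (r_k β_k)`. -/
theorem rep_beta_mul (δ γ : SL(2, ℤ)) (i : Option (ZMod p)) :
    (rep δ i : Matrix (Fin 2) (Fin 2) ℤ) * beta p i * (γ : Matrix (Fin 2) (Fin 2) ℤ)
      = (cocR δ γ i : Matrix (Fin 2) (Fin 2) ℤ)
        * ((rep δ (perm γ i) : Matrix (Fin 2) (Fin 2) ℤ) * beta p (perm γ i)) := by
  have h : cocR δ γ i * rep δ (perm γ i) = rep δ i * coc γ i := by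
    rw [cocR]; group
  rw [← Matrix.mul_assoc, ← Matrix.SpecialLinearGroup.coe_mul, h,
    Matrix.SpecialLinearGroup.coe_mul, Matrix.mul_assoc, Matrix.mul_assoc, beta_mul]

/-- the defining identity on `ℍ`. -/
theorem rep_glBeta_smul (δ γ : SL(2, ℤ)) (i : Option (ZMod p)) (z : ℍ) :
    rep δ i • glBeta p i • (γ • z)
      = cocR δ γ i • rep δ (perm γ i) • glBeta p (perm γ i) • z := by
  rw [glBeta_smul_smul, cocR, mul_smul, mul_smul, inv_smul_smul]

/-- uniqueness: `cocR` and `perm` are determined by the identity in `M₂(ℤ)`. -/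
theorem eq_of_rep_beta_mul {δ γ : SL(2, ℤ)} {i k : Option (ZMod p)} {g : SL(2, ℤ)}
    (h : (rep δ i : Matrix (Fin 2) (Fin 2) ℤ) * beta p i * (γ : Matrix (Fin 2) (Fin 2) ℤ)
      = (g : Matrix (Fin 2) (Fin 2) ℤ) * ((rep δ k : Matrix (Fin 2) (Fin 2) ℤ) * beta p k)) :
    perm γ i = k ∧ cocR δ γ i = g := by
  have h1 : beta p i * (γ : Matrix (Fin 2) (Fin 2) ℤ)
      = (((rep δ i)⁻¹ * g * rep δ k : SL(2, ℤ)) : Matrix (Fin 2) (Fin 2) ℤ) * beta p k := by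
    have hu : IsUnit (rep δ i : Matrix (Fin 2) (Fin 2) ℤ) := by
      rw [Matrix.isUnit_iff_isUnit_det, (rep δ i).2]; exact isUnit_one
    have hX : rep δ i * ((rep δ i)⁻¹ * g * rep δ k) = g * rep δ k := by group
    refine hu.mul_left_cancel ?_
    rw [← Matrix.mul_assoc, h, ← Matrix.mul_assoc (rep δ i : Matrix (Fin 2) (Fin 2) ℤ),
      ← Matrix.SpecialLinearGroup.coe_mul, hX, Matrix.SpecialLinearGroup.coe_mul,
      Matrix.mul_assoc]
  obtain ⟨hk, hc⟩ := eq_of_beta_mul h1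
  refine ⟨hk, ?_⟩
  rw [cocR, hk, hc]
  group

/-- `Γ₁(M)` is stable: `cocR δ γ i ∈ Γ₁(M)` for `γ ∈ Γ₁(M)`, `δ ∈ Γ₀(M)` with `δ₁₁ ≡ p`. -/
theorem cocR_mem_Gamma1 {M : ℕ} (hpM : ¬ p ∣ M) {δ : SL(2, ℤ)} (hδ : δ ∈ Gamma0 M)
    (hδp : ((δ 1 1 : ℤ) : ZMod M) = (p : ZMod M)) {γ : SL(2, ℤ)} (hγ : γ ∈ Gamma1 M)
    (i : Option (ZMod p)) : cocR δ γ i ∈ Gamma1 M := by
  have hc0 : coc γ i ∈ Gamma0 M := coc_mem_Gamma0 hpM (Gamma1_in_Gamma0 M hγ) i
  have hcop : Nat.Coprime p M := (Nat.Prime.coprime_iff_not_dvd hp.out).mpr hpM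
  -- the `(1,1)` entry of `β_i γ = coc γ i · β_k`
  have e11 := congrFun (congrFun (beta_mul γ i) 1) 1
  simp only [Matrix.mul_apply, Fin.sum_univ_two, beta_one_zero, zero_mul, zero_add] at e11
  have hc := congrArg (Int.cast : ℤ → ZMod M) e11
  push_cast at hc
  rw [((Gamma1_mem M γ).mp hγ).2.1, Gamma0_mem.mp hc0, zero_mul, zero_add, mul_one] at hc
  -- `(β_k)₁₁` is a unit mod `M`
  have hunit : IsUnit (((beta p (perm γ i)) 1 1 : ℤ) : ZMod M) := by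
    cases perm γ i with
    | none => simp
    | some j =>
      simp only [beta_some, Matrix.of_apply, Matrix.cons_val', Matrix.cons_val_one,
        Matrix.cons_val_fin_one, Int.cast_natCast]
      exact (ZMod.unitOfCoprime p hcop).isUnit
  refine mul_inv_mem_Gamma1 (rep_mem hδ _) ((Gamma0 M).mul_mem (rep_mem hδ i) hc0) ?_
  rw [mul_apply_one_one (rep_mem hδ i)]
  refine hunit.mul_right_cancel ?_
  rw [mul_assoc, ← hc, rep_mul_beta hδp, rep_mul_beta hδp]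

/-- A fixed index: `cocR δ γ i` is conjugate to `coc γ i`, hence has the trace of `γ`. -/
theorem trace_cocR_of_fixed (δ : SL(2, ℤ)) {γ : SL(2, ℤ)} {i : Option (ZMod p)}
    (h : perm γ i = i) :
    ((cocR δ γ i : SL(2, ℤ)) : Matrix (Fin 2) (Fin 2) ℤ).trace
      = (γ : Matrix (Fin 2) (Fin 2) ℤ).trace := by
  rw [cocR, h, Matrix.SpecialLinearGroup.coe_mul, Matrix.trace_mul_comm,
    ← Matrix.SpecialLinearGroup.coe_mul, ← mul_assoc, inv_mul_cancel, one_mul,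
    trace_coc_of_fixed h]

end General

/-! ### `Γ₁(M)`: the cocycle -/

section Gamma1

variable {M : ℕ} [NeZero M] {p : ℕ} (hp : p.Prime) (hpM : ¬ p ∣ M)

/-- `σ_p ∈ Γ₀(M)`, lower-right entry `≡ p`: the element used by `TpForm9.Tp`. -/
def sigmaP : SL(2, ℤ) := diamondRep M (primeUnit hp hpM)

theorem sigmaP_mem : sigmaP hp hpM ∈ Gamma0 M := diamondRep_mem _

theorem sigmaP_apply : ((sigmaP hp hpM 1 1 : ℤ) : ZMod M) = (p : ZMod M) :=
  (diamondRep_apply _).trans (coe_primeUnit hp hpM)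

/-- the permutation of `P¹(F_p) = Option (ZMod p)` attached to `γ`. -/
def permG1 (γ : Gamma1 M) : Equiv.Perm (Option (ZMod p)) :=
  haveI : Fact p.Prime := ⟨hp⟩
  permEquiv (γ : SL(2, ℤ))

/-- the `Γ₁(M)`-valued cocycle `r_i · coc γ i · r_{perm γ i}⁻¹`. -/
def cocG1 (γ : Gamma1 M) (i : Option (ZMod p)) : Gamma1 M :=
  haveI : Fact p.Prime := ⟨hp⟩
  ⟨cocR (sigmaP hp hpM) (γ : SL(2, ℤ)) i,
    cocR_mem_Gamma1 hpM (sigmaP_mem hp hpM) (sigmaP_apply hp hpM) γ.2 i⟩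

/-- the representatives `r_i β_i` of the `Γ₁(M)`-double coset, in `M₂(ℤ)`. -/
def repBeta (i : Option (ZMod p)) : Matrix (Fin 2) (Fin 2) ℤ :=
  (rep (sigmaP hp hpM) i : Matrix (Fin 2) (Fin 2) ℤ) * beta p i

theorem repBeta_some (j : ZMod p) :
    repBeta hp hpM (some j) = !![1, (j.val : ℤ); 0, (p : ℤ)] := by
  rw [repBeta, rep_some, Matrix.SpecialLinearGroup.coe_one, Matrix.one_mul, beta_some]

theorem repBeta_none :
    repBeta hp hpM (none : Option (ZMod p))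
      = (sigmaP hp hpM : Matrix (Fin 2) (Fin 2) ℤ) * !![(p : ℤ), 0; 0, 1] := by
  rw [repBeta, rep_none, beta_none]

/-- **the coset identity** `(r_i β_i) γ = cocG1 γ i · (r_k β_k)`, `k = permG1 γ i`. -/
theorem repBeta_mul (γ : Gamma1 M) (i : Option (ZMod p)) :
    repBeta hp hpM i * ((γ : SL(2, ℤ)) : Matrix (Fin 2) (Fin 2) ℤ)
      = ((cocG1 hp hpM γ i : Gamma1 M) : SL(2, ℤ)).1 * repBeta hp hpM (permG1 hp γ i) :=
  haveI : Fact p.Prime := ⟨hp⟩
  rep_beta_mul (sigmaP hp hpM) (γ : SL(2, ℤ)) i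

/-- uniqueness in the coset identity. -/
theorem eq_of_repBeta_mul {γ : Gamma1 M} {i k : Option (ZMod p)} {g : SL(2, ℤ)}
    (h : repBeta hp hpM i * ((γ : SL(2, ℤ)) : Matrix (Fin 2) (Fin 2) ℤ)
      = (g : Matrix (Fin 2) (Fin 2) ℤ) * repBeta hp hpM k) :
    permG1 hp γ i = k ∧ ((cocG1 hp hpM γ i : Gamma1 M) : SL(2, ℤ)) = g :=
  haveI : Fact p.Prime := ⟨hp⟩
  eq_of_rep_beta_mul h

/-- **the coset identity on `ℍ`**. -/
theorem rep_glBeta_smul_G1 (γ : Gamma1 M) (i : Option (ZMod p)) (z : ℍ) :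
    rep (sigmaP hp hpM) i • glBeta p i • ((γ : SL(2, ℤ)) • z)
      = ((cocG1 hp hpM γ i : Gamma1 M) : SL(2, ℤ)) •
        rep (sigmaP hp hpM) (permG1 hp γ i) • glBeta p (permG1 hp γ i) • z :=
  haveI : Fact p.Prime := ⟨hp⟩
  rep_glBeta_smul (sigmaP hp hpM) (γ : SL(2, ℤ)) i z

omit [NeZero M] in
@[simp] theorem permG1_one (i : Option (ZMod p)) : permG1 hp (1 : Gamma1 M) i = i := by
  have : Fact p.Prime := ⟨hp⟩
  show perm ((1 : Gamma1 M) : SL(2, ℤ)) i = i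
  rw [Subgroup.coe_one, perm_one]

omit [NeZero M] in
theorem permG1_mul (γ γ' : Gamma1 M) (i : Option (ZMod p)) :
    permG1 hp (γ * γ') i = permG1 hp γ' (permG1 hp γ i) := by
  have : Fact p.Prime := ⟨hp⟩
  show perm ((γ * γ' : Gamma1 M) : SL(2, ℤ)) i = perm (γ' : SL(2, ℤ)) (perm (γ : SL(2, ℤ)) i)
  rw [Subgroup.coe_mul, perm_mul]

omit [NeZero M] in
theorem permG1_pow (γ : Gamma1 M) (m : ℕ) (i : Option (ZMod p)) :
    permG1 hp (γ ^ m) i = ((permG1 hp γ) ^ m) i := by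
  induction m generalizing i with
  | zero => simp
  | succ m ih => rw [pow_succ', permG1_mul, ih, pow_succ, Equiv.Perm.mul_apply]

@[simp] theorem cocG1_one (i : Option (ZMod p)) : cocG1 hp hpM (1 : Gamma1 M) i = 1 := by
  have : Fact p.Prime := ⟨hp⟩
  apply Subtype.ext
  show cocR (sigmaP hp hpM) ((1 : Gamma1 M) : SL(2, ℤ)) i = 1
  rw [Subgroup.coe_one, cocR_one]

/-- the cocycle property. -/
theorem cocG1_mul (γ γ' : Gamma1 M) (i : Option (ZMod p)) :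
    cocG1 hp hpM (γ * γ') i = cocG1 hp hpM γ i * cocG1 hp hpM γ' (permG1 hp γ i) := by
  have : Fact p.Prime := ⟨hp⟩
  apply Subtype.ext
  show cocR (sigmaP hp hpM) ((γ * γ' : Gamma1 M) : SL(2, ℤ)) i
    = cocR (sigmaP hp hpM) (γ : SL(2, ℤ)) i
      * cocR (sigmaP hp hpM) (γ' : SL(2, ℤ)) (perm (γ : SL(2, ℤ)) i)
  rw [Subgroup.coe_mul, cocR_mul]

/-- a fixed index: same trace. -/
theorem trace_cocG1_of_fixed {γ : Gamma1 M} {i : Option (ZMod p)} (h : permG1 hp γ i = i) :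
    (((cocG1 hp hpM γ i : Gamma1 M) : SL(2, ℤ)) : Matrix (Fin 2) (Fin 2) ℤ).trace
      = ((γ : SL(2, ℤ)) : Matrix (Fin 2) (Fin 2) ℤ).trace :=
  haveI : Fact p.Prime := ⟨hp⟩
  trace_cocR_of_fixed (sigmaP hp hpM) h

/-! ### `Γ₁(M)`: the operator `T_p` -/

/-- **The double-coset operator `T_p`** on additive homomorphisms `Γ₁(M) → A`. -/
def dcT {A : Type*} [AddCommGroup A] (φ : Additive (Gamma1 M) →+ A) :
    Additive (Gamma1 M) →+ A :=
  haveI : Fact p.Prime := ⟨hp⟩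
  { toFun := fun γ => ∑ i : Option (ZMod p),
      φ (Additive.ofMul (cocG1 hp hpM (Additive.toMul γ) i))
    map_zero' := by simp
    map_add' := fun γ γ' => by
      have h1 : ∀ i : Option (ZMod p),
          φ (Additive.ofMul (cocG1 hp hpM (Additive.toMul (γ + γ')) i))
            = φ (Additive.ofMul (cocG1 hp hpM (Additive.toMul γ) i))
              + φ (Additive.ofMul
                  (cocG1 hp hpM (Additive.toMul γ') (permG1 hp (Additive.toMul γ) i))) := by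
        intro i
        rw [toMul_add, cocG1_mul, ofMul_mul, map_add]
      simp only [h1, Finset.sum_add_distrib]
      congr 1
      exact Equiv.sum_comp (permG1 hp (Additive.toMul γ))
        (fun i => φ (Additive.ofMul (cocG1 hp hpM (Additive.toMul γ') i))) }

theorem dcT_apply {A : Type*} [AddCommGroup A] (φ : Additive (Gamma1 M) →+ A) (γ : Gamma1 M) :
    haveI : Fact p.Prime := ⟨hp⟩
    dcT hp hpM φ (Additive.ofMul γ)
      = ∑ i : Option (ZMod p), φ (Additive.ofMul (cocG1 hp hpM γ i)) := rfl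

theorem dcT_add {A : Type*} [AddCommGroup A] (φ ψ : Additive (Gamma1 M) →+ A) :
    dcT hp hpM (φ + ψ) = dcT hp hpM φ + dcT hp hpM ψ := by
  have : Fact p.Prime := ⟨hp⟩
  ext γ
  simp [dcT, Finset.sum_add_distrib]

@[simp] theorem dcT_zero {A : Type*} [AddCommGroup A] :
    dcT hp hpM (0 : Additive (Gamma1 M) →+ A) = 0 := by
  have : Fact p.Prime := ⟨hp⟩
  ext γ
  simp [dcT]

theorem dcT_neg {A : Type*} [AddCommGroup A] (φ : Additive (Gamma1 M) →+ A) :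
    dcT hp hpM (-φ) = -dcT hp hpM φ := by
  rw [eq_neg_iff_add_eq_zero, ← dcT_add, neg_add_cancel, dcT_zero]

theorem dcT_sub {A : Type*} [AddCommGroup A] (φ ψ : Additive (Gamma1 M) →+ A) :
    dcT hp hpM (φ - ψ) = dcT hp hpM φ - dcT hp hpM ψ := by
  rw [eq_sub_iff_add_eq, ← dcT_add, sub_add_cancel]

/-- naturality in the coefficient group. -/
theorem dcT_comp {A B : Type*} [AddCommGroup A] [AddCommGroup B] (f : A →+ B)
    (φ : Additive (Gamma1 M) →+ A) : dcT hp hpM (f.comp φ) = f.comp (dcT hp hpM φ) := by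
  have : Fact p.Prime := ⟨hp⟩
  ext γ
  simp [dcT]

theorem dcT_smul {R A : Type*} [Monoid R] [AddCommGroup A] [DistribMulAction R A] (c : R)
    (φ : Additive (Gamma1 M) →+ A) : dcT hp hpM (c • φ) = c • dcT hp hpM φ := by
  have : Fact p.Prime := ⟨hp⟩
  ext γ
  simp [dcT, Finset.smul_sum]

/-- The cocycle of a power is the sum along the path. -/
theorem map_cocG1_pow {A : Type*} [AddCommGroup A] (φ : Additive (Gamma1 M) →+ A)
    (γ : Gamma1 M) (m : ℕ) (i : Option (ZMod p)) :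
    φ (Additive.ofMul (cocG1 hp hpM (γ ^ m) i))
      = ∑ s ∈ Finset.range m, φ (Additive.ofMul (cocG1 hp hpM γ (((permG1 hp γ) ^ s) i))) := by
  induction m with
  | zero => simp
  | succ m ih =>
    rw [pow_succ, cocG1_mul, ofMul_mul, map_add, ih, Finset.sum_range_succ, permG1_pow]

/-- `dcT φ γ = 0` as soon as `φ` kills all `cocG1 (γ^m) i` with `i` fixed by `permG1 (γ^m)`. -/
theorem dcT_apply_eq_zero {A : Type*} [AddCommGroup A] (φ : Additive (Gamma1 M) →+ A)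
    (γ : Gamma1 M)
    (h : ∀ (m : ℕ) (i : Option (ZMod p)), 0 < m → permG1 hp (γ ^ m) i = i →
      φ (Additive.ofMul (cocG1 hp hpM (γ ^ m) i)) = 0) :
    dcT hp hpM φ (Additive.ofMul γ) = 0 := by
  classical
  have : Fact p.Prime := ⟨hp⟩
  rw [dcT_apply]
  refine sum_eq_zero_of_cycle_sums (permG1 hp γ)
    (fun i => φ (Additive.ofMul (cocG1 hp hpM γ i))) ?_ Finset.univ (fun i _ => Finset.mem_univ _)
  intro i m hm hfix
  rw [← map_cocG1_pow]
  exact h m i hm (by rw [permG1_pow]; exact hfix)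

/-- **`dcT` preserves parabolic homomorphisms.** -/
theorem isParabolicHom_dcT {A : Type*} [AddCommGroup A] {φ : Additive (Gamma1 M) →+ A}
    (hφ : IsParabolicHom (Gamma1 M) φ) : IsParabolicHom (Gamma1 M) (dcT hp hpM φ) := by
  intro γ hγ
  refine dcT_apply_eq_zero hp hpM φ γ ?_
  intro m i _ hfix
  refine hφ _ ?_
  rw [trace_cocG1_of_fixed hp hpM hfix, Subgroup.coe_pow]
  exact trace_pow_sq_eq_four _ hγ m

/-- `T_p` on `parabolicHoms R Γ₁(M) A`. -/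
def dcTPar (R : Type*) [Semiring R] (A : Type*) [AddCommGroup A] [Module R A] :
    parabolicHoms R (Gamma1 M) A →ₗ[R] parabolicHoms R (Gamma1 M) A where
  toFun φ := ⟨dcT hp hpM φ.1, isParabolicHom_dcT hp hpM φ.2⟩
  map_add' φ ψ := Subtype.ext (dcT_add hp hpM φ.1 ψ.1)
  map_smul' c φ := Subtype.ext (dcT_smul hp hpM c φ.1)

@[simp] theorem coe_dcTPar (R : Type*) [Semiring R] (A : Type*) [AddCommGroup A] [Module R A]
    (φ : parabolicHoms R (Gamma1 M) A) :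
    ((dcTPar hp hpM R A φ : parabolicHoms R (Gamma1 M) A) : Additive (Gamma1 M) →+ A)
      = dcT hp hpM φ.1 := rfl

/-- **Independence of `σ_p`**: `dcT` may be computed with ANY `δ ∈ Γ₀(M)` of lower-right entry
`≡ p`. -/
theorem dcT_apply_of_rep {A : Type*} [AddCommGroup A] (φ : Additive (Gamma1 M) →+ A)
    {δ : SL(2, ℤ)} (hδ : δ ∈ Gamma0 M) (hδp : ((δ 1 1 : ℤ) : ZMod M) = (p : ZMod M))
    (γ : Gamma1 M) :
    haveI : Fact p.Prime := ⟨hp⟩
    dcT hp hpM φ (Additive.ofMul γ)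
      = ∑ i : Option (ZMod p), φ (Additive.ofMul
          (⟨cocR δ (γ : SL(2, ℤ)) i, cocR_mem_Gamma1 hpM hδ hδp γ.2 i⟩ : Gamma1 M)) := by
  have : Fact p.Prime := ⟨hp⟩
  -- `δ = τ σ_p` with `τ ∈ Γ₁(M)`
  have hτ : δ * (sigmaP hp hpM)⁻¹ ∈ Gamma1 M :=
    mul_inv_mem_Gamma1 (sigmaP_mem hp hpM) hδ (hδp.trans (sigmaP_apply hp hpM).symm)
  let T : Option (ZMod p) → Gamma1 M := fun i => Option.casesOn i ⟨_, hτ⟩ (fun _ => 1)
  have hT : ∀ i : Option (ZMod p),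
      rep δ i = (T i).1 * rep (sigmaP hp hpM) i := by
    intro i
    cases i with
    | none => show δ = δ * (sigmaP hp hpM)⁻¹ * sigmaP hp hpM; group
    | some j => show (1 : SL(2, ℤ)) = 1 * 1; rw [one_mul]
  have hterm : ∀ i : Option (ZMod p),
      (⟨cocR δ (γ : SL(2, ℤ)) i, cocR_mem_Gamma1 hpM hδ hδp γ.2 i⟩ : Gamma1 M)
        = T i * cocG1 hp hpM γ i * (T (permG1 hp γ i))⁻¹ := by
    intro i
    apply Subtype.ext
    show cocR δ (γ : SL(2, ℤ)) i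
      = (T i).1 * cocR (sigmaP hp hpM) (γ : SL(2, ℤ)) i
        * (T (perm (γ : SL(2, ℤ)) i)).1⁻¹
    rw [cocR, cocR, hT i, hT (perm (γ : SL(2, ℤ)) i)]
    group
  rw [dcT_apply]
  simp only [hterm, ofMul_mul, ofMul_inv, map_add, map_neg, Finset.sum_add_distrib,
    Finset.sum_neg_distrib]
  rw [Equiv.sum_comp (permG1 hp γ) (fun i => φ (Additive.ofMul (T i)))]
  abel

/-! ### `Γ₁(M)`: the diamond operators -/

omit [NeZero M] in
/-- `Γ₁(M)` is normal in `Γ₀(M)`. -/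
theorem conj_mem_Gamma1 {g : SL(2, ℤ)} (hg : g ∈ Gamma0 M) {γ : SL(2, ℤ)} (hγ : γ ∈ Gamma1 M) :
    g * γ * g⁻¹ ∈ Gamma1 M := by
  refine mul_inv_mem_Gamma1 hg ((Gamma0 M).mul_mem hg (Gamma1_in_Gamma0 M hγ)) ?_
  rw [mul_apply_one_one hg, ((Gamma1_mem M γ).mp hγ).2.1, mul_one]

/-- conjugation by `g ∈ Γ₀(M)` on `Γ₁(M)`. -/
def conjG1 (g : SL(2, ℤ)) (hg : g ∈ Gamma0 M) : Gamma1 M →* Gamma1 M where
  toFun γ := ⟨g * (γ : SL(2, ℤ)) * g⁻¹, conj_mem_Gamma1 hg γ.2⟩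
  map_one' := Subtype.ext (by simp)
  map_mul' γ γ' := Subtype.ext (by
    show g * ((γ * γ' : Gamma1 M) : SL(2, ℤ)) * g⁻¹
      = g * (γ : SL(2, ℤ)) * g⁻¹ * (g * (γ' : SL(2, ℤ)) * g⁻¹)
    rw [Subgroup.coe_mul]; group)

omit [NeZero M] in
@[simp] theorem coe_conjG1 (g : SL(2, ℤ)) (hg : g ∈ Gamma0 M) (γ : Gamma1 M) :
    ((conjG1 g hg γ : Gamma1 M) : SL(2, ℤ)) = g * (γ : SL(2, ℤ)) * g⁻¹ := rfl

/-- **The diamond operator `⟨d⟩`** on additive homomorphisms `Γ₁(M) → A`: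
`(dcD d φ) γ = φ (σ_d γ σ_d⁻¹)`, `σ_d = diamondRep M d`. -/
def dcD {A : Type*} [AddCommGroup A] (d : (ZMod M)ˣ) (φ : Additive (Gamma1 M) →+ A) :
    Additive (Gamma1 M) →+ A :=
  φ.comp (MonoidHom.toAdditive (conjG1 (diamondRep M d) (diamondRep_mem d)))

theorem dcD_apply {A : Type*} [AddCommGroup A] (d : (ZMod M)ˣ) (φ : Additive (Gamma1 M) →+ A)
    (γ : Gamma1 M) :
    dcD d φ (Additive.ofMul γ)
      = φ (Additive.ofMul (conjG1 (diamondRep M d) (diamondRep_mem d) γ)) := rfl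

/-- **Independence of `σ_d`**: `dcD d` may be computed with ANY `g ∈ Γ₀(M)` of lower-right entry
`≡ d`. -/
theorem dcD_apply_of_rep {A : Type*} [AddCommGroup A] (d : (ZMod M)ˣ)
    (φ : Additive (Gamma1 M) →+ A) {g : SL(2, ℤ)} (hg : g ∈ Gamma0 M)
    (hgd : ((g 1 1 : ℤ) : ZMod M) = (d : ZMod M)) (γ : Gamma1 M) :
    dcD d φ (Additive.ofMul γ) = φ (Additive.ofMul (conjG1 g hg γ)) := by
  have hτ : g * (diamondRep M d)⁻¹ ∈ Gamma1 M :=
    mul_inv_mem_Gamma1 (diamondRep_mem d) hg (hgd.trans (diamondRep_apply d).symm)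
  have h : conjG1 g hg γ
      = (⟨_, hτ⟩ : Gamma1 M) * conjG1 (diamondRep M d) (diamondRep_mem d) γ
        * (⟨_, hτ⟩ : Gamma1 M)⁻¹ := by
    apply Subtype.ext
    show g * (γ : SL(2, ℤ)) * g⁻¹
      = g * (diamondRep M d)⁻¹ * (diamondRep M d * (γ : SL(2, ℤ)) * (diamondRep M d)⁻¹)
        * (g * (diamondRep M d)⁻¹)⁻¹
    group
  rw [dcD_apply, h, ofMul_mul, ofMul_mul, ofMul_inv, map_add, map_add, map_neg]
  abel

theorem dcD_add {A : Type*} [AddCommGroup A] (d : (ZMod M)ˣ) (φ ψ : Additive (Gamma1 M) →+ A) :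
    dcD d (φ + ψ) = dcD d φ + dcD d ψ := rfl

@[simp] theorem dcD_zero {A : Type*} [AddCommGroup A] (d : (ZMod M)ˣ) :
    dcD d (0 : Additive (Gamma1 M) →+ A) = 0 := rfl

theorem dcD_neg {A : Type*} [AddCommGroup A] (d : (ZMod M)ˣ) (φ : Additive (Gamma1 M) →+ A) :
    dcD d (-φ) = -dcD d φ := rfl

theorem dcD_sub {A : Type*} [AddCommGroup A] (d : (ZMod M)ˣ) (φ ψ : Additive (Gamma1 M) →+ A) :
    dcD d (φ - ψ) = dcD d φ - dcD d ψ := rfl

/-- naturality in the coefficient group. -/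
theorem dcD_comp {A B : Type*} [AddCommGroup A] [AddCommGroup B] (f : A →+ B) (d : (ZMod M)ˣ)
    (φ : Additive (Gamma1 M) →+ A) : dcD d (f.comp φ) = f.comp (dcD d φ) := rfl

theorem dcD_smul {R A : Type*} [Monoid R] [AddCommGroup A] [DistribMulAction R A] (c : R)
    (d : (ZMod M)ˣ) (φ : Additive (Gamma1 M) →+ A) : dcD d (c • φ) = c • dcD d φ := rfl

@[simp] theorem dcD_one {A : Type*} [AddCommGroup A] (φ : Additive (Gamma1 M) →+ A) :
    dcD (1 : (ZMod M)ˣ) φ = φ := by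
  refine AddMonoidHom.ext fun γ' => ?_
  obtain ⟨γ, rfl⟩ := Additive.ofMul.surjective γ'
  rw [dcD_apply_of_rep 1 φ (Subgroup.one_mem _) (by simp) γ]
  congr 2
  exact Subtype.ext (by simp)

/-- `⟨d⟩ ⟨d'⟩ = ⟨d d'⟩`. -/
theorem dcD_dcD {A : Type*} [AddCommGroup A] (d d' : (ZMod M)ˣ)
    (φ : Additive (Gamma1 M) →+ A) : dcD d (dcD d' φ) = dcD (d * d') φ := by
  refine AddMonoidHom.ext fun γ' => ?_
  obtain ⟨γ, rfl⟩ := Additive.ofMul.surjective γ'
  have hmem : diamondRep M d' * diamondRep M d ∈ Gamma0 M :=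
    (Gamma0 M).mul_mem (diamondRep_mem d') (diamondRep_mem d)
  have hval : (((diamondRep M d' * diamondRep M d) 1 1 : ℤ) : ZMod M)
      = ((d * d' : (ZMod M)ˣ) : ZMod M) := by
    rw [mul_apply_one_one (diamondRep_mem d'), diamondRep_apply, diamondRep_apply, Units.val_mul,
      mul_comm]
  rw [dcD_apply_of_rep (d * d') φ hmem hval γ, dcD_apply, dcD_apply]
  congr 2
  apply Subtype.ext
  show diamondRep M d' * (diamondRep M d * (γ : SL(2, ℤ)) * (diamondRep M d)⁻¹)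
      * (diamondRep M d')⁻¹
    = diamondRep M d' * diamondRep M d * (γ : SL(2, ℤ)) * (diamondRep M d' * diamondRep M d)⁻¹
  group

theorem dcD_comm {A : Type*} [AddCommGroup A] (d d' : (ZMod M)ˣ)
    (φ : Additive (Gamma1 M) →+ A) : dcD d (dcD d' φ) = dcD d' (dcD d φ) := by
  rw [dcD_dcD, dcD_dcD, mul_comm]

/-- **`dcD` preserves parabolic homomorphisms.** -/
theorem isParabolicHom_dcD {A : Type*} [AddCommGroup A] (d : (ZMod M)ˣ)
    {φ : Additive (Gamma1 M) →+ A} (hφ : IsParabolicHom (Gamma1 M) φ) :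
    IsParabolicHom (Gamma1 M) (dcD d φ) := by
  intro γ hγ
  rw [dcD_apply]
  refine hφ _ ?_
  rw [coe_conjG1, Matrix.SpecialLinearGroup.coe_mul, Matrix.trace_mul_comm,
    ← Matrix.SpecialLinearGroup.coe_mul, ← mul_assoc, inv_mul_cancel, one_mul]
  exact hγ

/-- `⟨d⟩` on `parabolicHoms R Γ₁(M) A`. -/
def dcDPar (R : Type*) [Semiring R] (A : Type*) [AddCommGroup A] [Module R A] (d : (ZMod M)ˣ) :
    parabolicHoms R (Gamma1 M) A →ₗ[R] parabolicHoms R (Gamma1 M) A where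
  toFun φ := ⟨dcD d φ.1, isParabolicHom_dcD d φ.2⟩
  map_add' φ ψ := Subtype.ext (dcD_add d φ.1 ψ.1)
  map_smul' c φ := Subtype.ext (dcD_smul c d φ.1)

@[simp] theorem coe_dcDPar (R : Type*) [Semiring R] (A : Type*) [AddCommGroup A] [Module R A]
    (d : (ZMod M)ˣ) (φ : parabolicHoms R (Gamma1 M) A) :
    ((dcDPar R A d φ : parabolicHoms R (Gamma1 M) A) : Additive (Gamma1 M) →+ A)
      = dcD d φ.1 := rfl

end Gamma1

end Fermat.Agent.ES.R48.DcGamma1_9
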