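/-
Programme R (S48, Deligne–Serre), chapter G6 PER₁ (helper9): **the export interface of G6.**

`EigenOccurs M ℓ θT θD`: the system of eigenvalues `(θT p)_{p ∤ M}`, `(θD d)_{d ∈ (ℤ/M)ˣ}` (values in
`ZMod ℓ`) occurs in the reduction mod `ℓ` of the INTEGRAL parabolic cohomology of `Γ₁(M)`: there is
a parabolic homomorphism `v : Γ₁(M) → ℤ` whose reduction `v̄ = redMod ℓ v : Γ₁(M) → ZMod ℓ` is
non-zero and is a simultaneous eigenvector of the double-coset operators `DcGamma1_9.dcT`,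
`DcGamma1_9.dcD` with these eigenvalues.

For `ℓ` prime, `θD` is then (the restriction of) a character `(ZMod M)ˣ →* (ZMod ℓ)ˣ`
(`EigenOccurs.exists_char`).
-/
import Mathlib
import Fermat.Agent.ES.R48.DcGamma1_9

set_option autoImplicit false

open CongruenceSubgroup ModularCurve.Period
open scoped MatrixGroups

noncomputable section

namespace Fermat.Agent.ES.R48.PerIface9

open Fermat.Agent.ES.R48.DcGamma1_9

/-- reduction mod `ℓ` of an integral homomorphism. -/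
def redMod (ℓ : ℕ) {M : ℕ} (v : Additive (Gamma1 M) →+ ℤ) : Additive (Gamma1 M) →+ ZMod ℓ :=
  (Int.castAddHom (ZMod ℓ)).comp v

@[simp] theorem redMod_apply (ℓ : ℕ) {M : ℕ} (v : Additive (Gamma1 M) →+ ℤ)
    (γ : Additive (Gamma1 M)) : redMod ℓ v γ = ((v γ : ℤ) : ZMod ℓ) := rfl

/-- **The G6 export.** -/
def EigenOccurs (M ℓ : ℕ) [NeZero M] (θT : ℕ → ZMod ℓ) (θD : (ZMod M)ˣ → ZMod ℓ) : Prop :=
  ∃ v : Additive (Gamma1 M) →+ ℤ, IsParabolicHom (Gamma1 M) v ∧ redMod ℓ v ≠ 0 ∧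
    (∀ (p : ℕ) (hp : p.Prime) (hpM : ¬ p ∣ M),
      dcT hp hpM (redMod ℓ v) = θT p • redMod ℓ v) ∧
    ∀ d : (ZMod M)ˣ, dcD d (redMod ℓ v) = θD d • redMod ℓ v

variable {M ℓ : ℕ} [NeZero M]

omit [NeZero M] in
/-- the reduction of a parabolic homomorphism is parabolic. -/
theorem isParabolicHom_redMod {v : Additive (Gamma1 M) →+ ℤ} (hv : IsParabolicHom (Gamma1 M) v) :
    IsParabolicHom (Gamma1 M) (redMod ℓ v) := fun γ hγ => by
  rw [redMod_apply, hv γ hγ, Int.cast_zero]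

omit [NeZero M] in
/-- a scalar killing a non-zero homomorphism into the field `ZMod ℓ` is zero. -/
theorem eq_zero_of_smul_eq_zero [Fact ℓ.Prime] {w : Additive (Gamma1 M) →+ ZMod ℓ} (hw : w ≠ 0)
    {c : ZMod ℓ} (h : c • w = 0) : c = 0 := by
  by_contra hc
  apply hw
  refine AddMonoidHom.ext fun γ => ?_
  have := DFunLike.congr_fun h γ
  rw [AddMonoidHom.smul_apply, smul_eq_mul, AddMonoidHom.zero_apply] at this
  exact (mul_eq_zero.mp this).resolve_left hc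

omit [NeZero M] in
theorem eq_of_smul_eq_smul [Fact ℓ.Prime] {w : Additive (Gamma1 M) →+ ZMod ℓ} (hw : w ≠ 0)
    {c c' : ZMod ℓ} (h : c • w = c' • w) : c = c' := by
  refine sub_eq_zero.mp (eq_zero_of_smul_eq_zero hw ?_)
  rw [sub_smul, h, sub_self]

namespace EigenOccurs

variable {θT : ℕ → ZMod ℓ} {θD : (ZMod M)ˣ → ZMod ℓ}

theorem thetaD_one [Fact ℓ.Prime] (h : EigenOccurs M ℓ θT θD) : θD 1 = 1 := by
  obtain ⟨v, -, hv0, -, hD⟩ := h
  refine eq_of_smul_eq_smul hv0 ?_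
  rw [← hD 1, dcD_one, one_smul]

theorem thetaD_mul [Fact ℓ.Prime] (h : EigenOccurs M ℓ θT θD) (d d' : (ZMod M)ˣ) :
    θD (d * d') = θD d * θD d' := by
  obtain ⟨v, -, hv0, -, hD⟩ := h
  refine eq_of_smul_eq_smul hv0 ?_
  rw [← hD (d * d'), ← dcD_dcD, hD d', dcD_smul, hD d, smul_smul, mul_comm]

/-- **`θD` is a character.** -/
theorem exists_char [Fact ℓ.Prime] (h : EigenOccurs M ℓ θT θD) :
    ∃ χ : (ZMod M)ˣ →* (ZMod ℓ)ˣ, ∀ d : (ZMod M)ˣ, ((χ d : (ZMod ℓ)ˣ) : ZMod ℓ) = θD d := by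
  let χ₀ : (ZMod M)ˣ →* ZMod ℓ :=
    { toFun := θD
      map_one' := h.thetaD_one
      map_mul' := h.thetaD_mul }
  refine ⟨χ₀.toHomUnits, fun d => ?_⟩
  rfl

/-- the eigenvalue systems may be changed along pointwise equalities. -/
theorem congr {θT' : ℕ → ZMod ℓ} {θD' : (ZMod M)ˣ → ZMod ℓ} (h : EigenOccurs M ℓ θT θD)
    (hT : ∀ p : ℕ, p.Prime → ¬ p ∣ M → θT p = θT' p) (hD : ∀ d, θD d = θD' d) :
    EigenOccurs M ℓ θT' θD' := by
  obtain ⟨v, hv, hv0, hTv, hDv⟩ := h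
  exact ⟨v, hv, hv0, fun p hp hpM => by rw [hTv p hp hpM, hT p hp hpM],
    fun d => by rw [hDv d, hD d]⟩

end EigenOccurs

end Fermat.Agent.ES.R48.PerIface9
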