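/-
Programme R (S48, Deligne–Serre), chapter G5 KUM₁, leaf of K4 (helper9): **the dual double-coset
operator** `T_p^* = T_p ∘ ⟨p⟩⁻¹` on homomorphisms `Γ₁(M) → A`, i.e. the operator of the
representatives `r′_i β_i`, `r′_∞ = 1`, `r′_j = δ′ ∈ Γ₀(M)` of lower-right entry `≡ p⁻¹`
(the decomposition `Γ₁ diag(p,1) Γ₁ = Γ₁ diag(p,1) ⊔ ⊔_j Γ₁ δ′ (1 j; 0 p)`).  This is the operator
realised by the algebraic Hecke correspondence (`α` = inclusion, `β = (q ↦ q^p)`) on Kummer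
characters; `DcGamma1_9.dcT` is the transport of the TRUE `T_p`.

* `coc_one_one_mul` : `(β_i)₁₁ ≡ (coc γ i)₁₁ (β_k)₁₁ (mod M)` for `γ ∈ Γ₁(M)`;
* `repS δ′`, `cocS δ′ γ i = r′_i · coc γ i · r′_k⁻¹ ∈ Γ₁(M)`, cocycle, coset identities;
* `dcTs hp hpM φ := dcT hp hpM (dcD (primeUnit hp hpM)⁻¹ φ)`, `dcTs_apply_of_rep`
  (`= ∑ i, φ (cocS δ′ γ i)` for ANY admissible `δ′`), `dcT_eq_dcTs_dcD`;
* on an `EigenOccurs` vector: `dcTs v̄ = (θT p * (θD p)⁻¹) • v̄`;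
* the multiplicative reading of `dcT`, `dcTs`, `dcD` on characters `Γ₁(M) →* A`.
-/
import Mathlib
import Fermat.Agent.ES.R48.DcGamma1_9
import Fermat.Agent.ES.R48.PerIface9

set_option autoImplicit false

open Matrix CongruenceSubgroup ModularCurve.Period UpperHalfPlane
open scoped MatrixGroups

noncomputable section

namespace Fermat.Agent.ES.R48.DcDual9

open Fermat.Agent.ES.HEQ.DoubleCoset27 Fermat.Agent.ES.HEQ.DoubleCosetPar27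
open Fermat.Agent.ES.R48.Gamma1Slash9 Fermat.Agent.ES.R48.TpForm9
open Fermat.Agent.ES.R48.DcGamma1_9 Fermat.Agent.ES.R48.PerIface9

/-! ### `SL(2, ℤ)` level -/

section General

variable {p : ℕ}

/-- the dual twist of the representatives: `δ′` at the finite places, `1` at `∞`. -/
def repS (δ' : SL(2, ℤ)) : Option (ZMod p) → SL(2, ℤ)
  | some _ => δ'
  | none => 1

@[simp] theorem repS_some (δ' : SL(2, ℤ)) (j : ZMod p) : repS δ' (some j) = δ' := rfl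

@[simp] theorem repS_none (δ' : SL(2, ℤ)) : repS (p := p) δ' none = 1 := rfl

theorem repS_mem {M : ℕ} {δ' : SL(2, ℤ)} (hδ' : δ' ∈ Gamma0 M) (i : Option (ZMod p)) :
    repS δ' i ∈ Gamma0 M := by
  cases i with
  | none => exact Subgroup.one_mem _
  | some j => exact hδ'

/-- `r′_i = δ⁻¹ r_i` for `δ′ = δ⁻¹`. -/
theorem repS_inv_eq (δ : SL(2, ℤ)) (i : Option (ZMod p)) : repS δ⁻¹ i = δ⁻¹ * rep δ i := by
  cases i with
  | none => simp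
  | some j => simp

/-- `(r′_i)₁₁ · (β_i)₁₁ ≡ 1 (mod M)`. -/
theorem repS_mul_beta {M : ℕ} {δ' : SL(2, ℤ)}
    (hδ'p : ((δ' 1 1 : ℤ) : ZMod M) * (p : ZMod M) = 1) (i : Option (ZMod p)) :
    ((repS δ' i 1 1 : ℤ) : ZMod M) * ((beta p i 1 1 : ℤ) : ZMod M) = 1 := by
  cases i with
  | none => simp
  | some j => simpa using hδ'p

/-- the lower-right entry of `δ⁻¹`, `δ ∈ Γ₀(M)` with `δ₁₁ ≡ p`. -/
theorem inv_apply_mul {M : ℕ} {δ : SL(2, ℤ)} (hδ : δ ∈ Gamma0 M)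
    (hδp : ((δ 1 1 : ℤ) : ZMod M) = (p : ZMod M)) :
    (((δ⁻¹ : SL(2, ℤ)) 1 1 : ℤ) : ZMod M) * (p : ZMod M) = 1 := by
  have h := Gamma0_diag hδ
  rw [hδp] at h
  rw [Matrix.SpecialLinearGroup.SL2_inv_expl]
  simpa using h

/-- the lower-right entry of `δ′⁻¹`, `δ′ ∈ Γ₀(M)` with `δ′₁₁ · p ≡ 1`. -/
theorem inv_apply_of_mul {M : ℕ} {δ' : SL(2, ℤ)} (hδ' : δ' ∈ Gamma0 M)
    (hδ'p : ((δ' 1 1 : ℤ) : ZMod M) * (p : ZMod M) = 1) :
    (((δ'⁻¹ : SL(2, ℤ)) 1 1 : ℤ) : ZMod M) = (p : ZMod M) := by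
  have h := Gamma0_diag hδ'
  have e : (((δ'⁻¹ : SL(2, ℤ)) 1 1 : ℤ) : ZMod M) = ((δ' 0 0 : ℤ) : ZMod M) := by
    rw [Matrix.SpecialLinearGroup.SL2_inv_expl]
    simp
  rw [e]
  calc ((δ' 0 0 : ℤ) : ZMod M)
      = ((δ' 0 0 : ℤ) : ZMod M) * (((δ' 1 1 : ℤ) : ZMod M) * (p : ZMod M)) := by
        rw [hδ'p, mul_one]
    _ = (p : ZMod M) := by rw [← mul_assoc, h, one_mul]

variable [hp : Fact p.Prime]

/-- `(β_i)₁₁ ≡ (coc γ i)₁₁ · (β_k)₁₁ (mod M)`, `k = perm γ i`, for `γ ∈ Γ₁(M)`. -/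
theorem coc_one_one_mul {M : ℕ} (hpM : ¬ p ∣ M) {γ : SL(2, ℤ)} (hγ : γ ∈ Gamma1 M)
    (i : Option (ZMod p)) :
    ((beta p i 1 1 : ℤ) : ZMod M)
      = ((coc γ i 1 1 : ℤ) : ZMod M) * ((beta p (perm γ i) 1 1 : ℤ) : ZMod M) := by
  have hc0 : coc γ i ∈ Gamma0 M := coc_mem_Gamma0 hpM (Gamma1_in_Gamma0 M hγ) i
  have e11 := congrFun (congrFun (beta_mul γ i) 1) 1
  simp only [Matrix.mul_apply, Fin.sum_univ_two, beta_one_zero, zero_mul, zero_add] at e11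
  have hc := congrArg (Int.cast : ℤ → ZMod M) e11
  push_cast at hc
  rw [((Gamma1_mem M γ).mp hγ).2.1, Gamma0_mem.mp hc0, zero_mul, zero_add, mul_one] at hc
  exact hc

/-- `(β_k)₁₁` is a unit mod `M`. -/
theorem isUnit_beta_one_one {M : ℕ} (hpM : ¬ p ∣ M) (k : Option (ZMod p)) :
    IsUnit (((beta p k) 1 1 : ℤ) : ZMod M) := by
  have hcop : Nat.Coprime p M := (Nat.Prime.coprime_iff_not_dvd hp.out).mpr hpM
  cases k with
  | none => simp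
  | some j =>
    simp only [beta_some, Matrix.of_apply, Matrix.cons_val', Matrix.cons_val_one,
      Matrix.cons_val_fin_one, Int.cast_natCast]
    exact (ZMod.unitOfCoprime p hcop).isUnit

/-- the dual twisted cocycle `r′_i · coc γ i · r′_{perm γ i}⁻¹`. -/
def cocS (δ' γ : SL(2, ℤ)) (i : Option (ZMod p)) : SL(2, ℤ) :=
  repS δ' i * coc γ i * (repS δ' (perm γ i))⁻¹

theorem cocS_def (δ' γ : SL(2, ℤ)) (i : Option (ZMod p)) :
    cocS δ' γ i = repS δ' i * coc γ i * (repS δ' (perm γ i))⁻¹ := rfl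

@[simp] theorem cocS_one (δ' : SL(2, ℤ)) (i : Option (ZMod p)) : cocS δ' 1 i = 1 := by
  simp [cocS]

theorem cocS_mul (δ' γ γ' : SL(2, ℤ)) (i : Option (ZMod p)) :
    cocS δ' (γ * γ') i = cocS δ' γ i * cocS δ' γ' (perm γ i) := by
  simp only [cocS, coc_mul, perm_mul]
  group

/-- `cocS δ⁻¹ γ i = δ⁻¹ · cocR δ γ i · δ`. -/
theorem cocS_inv_eq (δ γ : SL(2, ℤ)) (i : Option (ZMod p)) :
    cocS δ⁻¹ γ i = δ⁻¹ * cocR δ γ i * δ := by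
  rw [cocS, cocR, repS_inv_eq, repS_inv_eq]
  group

/-- the coset identity in `M₂(ℤ)`: `(r′_i β_i) γ = cocS γ i · (r′_k β_k)`. -/
theorem repS_beta_mul (δ' γ : SL(2, ℤ)) (i : Option (ZMod p)) :
    (repS δ' i : Matrix (Fin 2) (Fin 2) ℤ) * beta p i * (γ : Matrix (Fin 2) (Fin 2) ℤ)
      = (cocS δ' γ i : Matrix (Fin 2) (Fin 2) ℤ)
        * ((repS δ' (perm γ i) : Matrix (Fin 2) (Fin 2) ℤ) * beta p (perm γ i)) := by
  have h : cocS δ' γ i * repS δ' (perm γ i) = repS δ' i * coc γ i := by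
    rw [cocS]; group
  rw [← Matrix.mul_assoc, ← Matrix.SpecialLinearGroup.coe_mul, h,
    Matrix.SpecialLinearGroup.coe_mul, Matrix.mul_assoc, Matrix.mul_assoc, beta_mul]

/-- the coset identity on `ℍ`. -/
theorem repS_glBeta_smul (δ' γ : SL(2, ℤ)) (i : Option (ZMod p)) (z : ℍ) :
    repS δ' i • glBeta p i • (γ • z)
      = cocS δ' γ i • repS δ' (perm γ i) • glBeta p (perm γ i) • z := by
  rw [glBeta_smul_smul, cocS, mul_smul, mul_smul, inv_smul_smul]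

/-- `Γ₁(M)` is stable: `cocS δ′ γ i ∈ Γ₁(M)` for `γ ∈ Γ₁(M)`, `δ′ ∈ Γ₀(M)`, `δ′₁₁ · p ≡ 1`. -/
theorem cocS_mem_Gamma1 {M : ℕ} (hpM : ¬ p ∣ M) {δ' : SL(2, ℤ)} (hδ' : δ' ∈ Gamma0 M)
    (hδ'p : ((δ' 1 1 : ℤ) : ZMod M) * (p : ZMod M) = 1) {γ : SL(2, ℤ)} (hγ : γ ∈ Gamma1 M)
    (i : Option (ZMod p)) : cocS δ' γ i ∈ Gamma1 M := by
  have hc0 : coc γ i ∈ Gamma0 M := coc_mem_Gamma0 hpM (Gamma1_in_Gamma0 M hγ) i
  refine mul_inv_mem_Gamma1 (repS_mem hδ' _) ((Gamma0 M).mul_mem (repS_mem hδ' i) hc0) ?_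
  rw [mul_apply_one_one (repS_mem hδ' i)]
  refine (isUnit_beta_one_one hpM (perm γ i)).mul_right_cancel ?_
  rw [mul_assoc, ← coc_one_one_mul hpM hγ i, repS_mul_beta hδ'p, repS_mul_beta hδ'p]

/-- at `∞` the cocycle `coc γ ∞` itself is congruent to the dual representative:
`r′_k · (coc γ ∞)⁻¹ ∈ Γ₁(M)`, `k = perm γ ∞`. -/
theorem repS_mul_coc_inv_mem {M : ℕ} (hpM : ¬ p ∣ M) {δ' : SL(2, ℤ)} (hδ' : δ' ∈ Gamma0 M)
    (hδ'p : ((δ' 1 1 : ℤ) : ZMod M) * (p : ZMod M) = 1) {γ : SL(2, ℤ)} (hγ : γ ∈ Gamma1 M) :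
    repS δ' (perm γ (none : Option (ZMod p))) * (coc γ (none : Option (ZMod p)))⁻¹ ∈ Gamma1 M := by
  have h := cocS_mem_Gamma1 hpM hδ' hδ'p hγ (none : Option (ZMod p))
  rw [cocS, repS_none, one_mul] at h
  have h2 := (Gamma1 M).inv_mem h
  rwa [_root_.mul_inv_rev, inv_inv] at h2

end General

/-! ### `Γ₁(M)` level -/

section Gamma1

variable {M : ℕ} [NeZero M] {p : ℕ} (hp : p.Prime) (hpM : ¬ p ∣ M)

/-- **The dual double-coset operator** `T_p^* = T_p ∘ ⟨p⟩⁻¹` on `Hom(Γ₁(M), A)`. -/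
def dcTs {A : Type*} [AddCommGroup A] (φ : Additive (Gamma1 M) →+ A) :
    Additive (Gamma1 M) →+ A :=
  dcT hp hpM (dcD (primeUnit hp hpM)⁻¹ φ)

theorem dcTs_def {A : Type*} [AddCommGroup A] (φ : Additive (Gamma1 M) →+ A) :
    dcTs hp hpM φ = dcT hp hpM (dcD (primeUnit hp hpM)⁻¹ φ) := rfl

/-- `T_p = T_p^* ∘ ⟨p⟩`. -/
theorem dcT_eq_dcTs_dcD {A : Type*} [AddCommGroup A] (φ : Additive (Gamma1 M) →+ A) :
    dcT hp hpM φ = dcTs hp hpM (dcD (primeUnit hp hpM) φ) := by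
  rw [dcTs, dcD_dcD, inv_mul_cancel, dcD_one]

/-- **`dcTs` is the operator of the representatives `r′_i β_i`**, for ANY `δ′ ∈ Γ₀(M)` with
`δ′₁₁ · p ≡ 1`. -/
theorem dcTs_apply_of_rep {A : Type*} [AddCommGroup A] (φ : Additive (Gamma1 M) →+ A)
    {δ' : SL(2, ℤ)} (hδ' : δ' ∈ Gamma0 M)
    (hδ'p : ((δ' 1 1 : ℤ) : ZMod M) * (p : ZMod M) = 1) (γ : Gamma1 M) :
    haveI : Fact p.Prime := ⟨hp⟩
    dcTs hp hpM φ (Additive.ofMul γ)
      = ∑ i : Option (ZMod p), φ (Additive.ofMul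
          (⟨cocS δ' (γ : SL(2, ℤ)) i, cocS_mem_Gamma1 hpM hδ' hδ'p γ.2 i⟩ : Gamma1 M)) := by
  have : Fact p.Prime := ⟨hp⟩
  have hinv : δ'⁻¹ ∈ Gamma0 M := (Gamma0 M).inv_mem hδ'
  have hinvp : (((δ'⁻¹ : SL(2, ℤ)) 1 1 : ℤ) : ZMod M) = (p : ZMod M) :=
    inv_apply_of_mul hδ' hδ'p
  have hu : ((δ' 1 1 : ℤ) : ZMod M) = (((primeUnit hp hpM)⁻¹ : (ZMod M)ˣ) : ZMod M) := by
    have h1 : (((primeUnit hp hpM)⁻¹ : (ZMod M)ˣ) : ZMod M) * (p : ZMod M) = 1 := by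
      rw [← coe_primeUnit hp hpM, ← Units.val_mul, inv_mul_cancel, Units.val_one]
    have hpu : IsUnit (p : ZMod M) := by
      rw [← coe_primeUnit hp hpM]; exact Units.isUnit _
    exact hpu.mul_right_cancel (hδ'p.trans h1.symm)
  rw [dcTs, dcT_apply_of_rep hp hpM _ hinv hinvp γ]
  refine Finset.sum_congr rfl fun i _ => ?_
  rw [dcD_apply_of_rep _ φ hδ' hu]
  congr 2
  apply Subtype.ext
  show δ' * cocR δ'⁻¹ (γ : SL(2, ℤ)) i * δ'⁻¹ = cocS δ' (γ : SL(2, ℤ)) i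
  have h := cocS_inv_eq δ'⁻¹ (γ : SL(2, ℤ)) i
  rw [inv_inv] at h
  exact h.symm

theorem dcTs_add {A : Type*} [AddCommGroup A] (φ ψ : Additive (Gamma1 M) →+ A) :
    dcTs hp hpM (φ + ψ) = dcTs hp hpM φ + dcTs hp hpM ψ := by
  rw [dcTs, dcD_add, dcT_add]; rfl

theorem dcTs_comp {A B : Type*} [AddCommGroup A] [AddCommGroup B] (f : A →+ B)
    (φ : Additive (Gamma1 M) →+ A) : dcTs hp hpM (f.comp φ) = f.comp (dcTs hp hpM φ) := by
  rw [dcTs, dcD_comp, dcT_comp]; rfl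

theorem dcTs_smul {R A : Type*} [Monoid R] [AddCommGroup A] [DistribMulAction R A] (c : R)
    (φ : Additive (Gamma1 M) →+ A) : dcTs hp hpM (c • φ) = c • dcTs hp hpM φ := by
  rw [dcTs, dcD_smul, dcT_smul]; rfl

theorem isParabolicHom_dcTs {A : Type*} [AddCommGroup A] {φ : Additive (Gamma1 M) →+ A}
    (hφ : IsParabolicHom (Gamma1 M) φ) : IsParabolicHom (Gamma1 M) (dcTs hp hpM φ) :=
  isParabolicHom_dcT hp hpM (isParabolicHom_dcD _ hφ)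

/-- **On an `EigenOccurs` vector** the dual operator has the eigenvalue `θT p · (θD p)⁻¹`:
for `ℓ` prime, `θD` a character, `dcT v̄ = θT p • v̄`, `dcD d v̄ = θD d • v̄`. -/
theorem dcTs_eigen {ℓ : ℕ} {w : Additive (Gamma1 M) →+ ZMod ℓ} {t : ZMod ℓ}
    {θD : (ZMod M)ˣ → ZMod ℓ} (hT : dcT hp hpM w = t • w)
    (hD : ∀ d : (ZMod M)ˣ, dcD d w = θD d • w) :
    dcTs hp hpM w = (t * θD (primeUnit hp hpM)⁻¹) • w := by
  rw [dcTs, hD, dcT_smul, hT, smul_smul, mul_comm]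

/-! ### Multiplicative reading (characters `Γ₁(M) →* A`) -/

theorem dcT_toAdditive_apply {A : Type*} [CommGroup A] (χ : Gamma1 M →* A) (γ : Gamma1 M) :
    haveI : Fact p.Prime := ⟨hp⟩
    dcT hp hpM (MonoidHom.toAdditive χ) (Additive.ofMul γ)
      = Additive.ofMul (∏ i : Option (ZMod p), χ (cocG1 hp hpM γ i)) := by
  have : Fact p.Prime := ⟨hp⟩
  rw [dcT_apply, ofMul_prod]
  rfl

theorem dcD_toAdditive_apply {A : Type*} [CommGroup A] (d : (ZMod M)ˣ) (χ : Gamma1 M →* A)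
    (γ : Gamma1 M) :
    dcD d (MonoidHom.toAdditive χ) (Additive.ofMul γ)
      = Additive.ofMul (χ (conjG1 (diamondRep M d) (diamondRep_mem d) γ)) := rfl

theorem dcTs_toAdditive_apply {A : Type*} [CommGroup A] (χ : Gamma1 M →* A)
    {δ' : SL(2, ℤ)} (hδ' : δ' ∈ Gamma0 M)
    (hδ'p : ((δ' 1 1 : ℤ) : ZMod M) * (p : ZMod M) = 1) (γ : Gamma1 M) :
    haveI : Fact p.Prime := ⟨hp⟩
    dcTs hp hpM (MonoidHom.toAdditive χ) (Additive.ofMul γ)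
      = Additive.ofMul (∏ i : Option (ZMod p),
          χ (⟨cocS δ' (γ : SL(2, ℤ)) i, cocS_mem_Gamma1 hpM hδ' hδ'p γ.2 i⟩ : Gamma1 M)) := by
  have : Fact p.Prime := ⟨hp⟩
  rw [dcTs_apply_of_rep hp hpM _ hδ' hδ'p γ, ofMul_prod]
  rfl

end Gamma1

end Fermat.Agent.ES.R48.DcDual9
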