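/-
Programme R (S48, Deligne–Serre), chapter B-HK / B0 NEB (helper2): ONE-SHOT DEPLETION AT LEVEL `N²`.

For a cusp form `f ∈ S_k(Γ₁(N))` with nebentypus `ε` (in the `RatIface22.HasNeben` sense), the function
`f♭(z) = ∑_{u mod N} c(u) f(z + u/N)`, `c(u) = (1/N) ∑_{n ∈ (ℤ/N)ˣ} e(-un/N)`, is a cusp form of level
`Γ₁(N²)`, has nebentypus `ε` on `Γ₀(N²)`, and its `q`-coefficients are those of `f` at the indices prime to
`N` and `0` elsewhere.  Main export: `exists_depletion`.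
-/
import Mathlib
import Fermat.Prelude.Def_ModularForm_HeckeOperator
import Fermat.Prelude.Def_FLTPrelim_Modularity
import Fermat.Prelude.Sol.S_CuspFormClass_isZeroAt_heckeT
import Fermat.Prelude.Sol.S_UpperHalfPlane_qCoeff_heckeT
import Fermat.Agent.ES.R48.RatIface22

set_option autoImplicit false

open CongruenceSubgroup ModularForm Filter Topology Complex
open UpperHalfPlane hiding I
open scoped MatrixGroups ModularForm Manifold Real

noncomputable section

namespace Fermat.Agent.ES.R48.Deplete2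

/-! ### translation matrices `α_j = [1, j/N; 0, 1]` -/

/-- the rational translation matrix `[1, j/N; 0, 1]` -/
def transQ (N j : ℕ) : GL (Fin 2) ℚ :=
  Matrix.GeneralLinearGroup.mkOfDetNeZero !![1, (j : ℚ) / N; 0, 1]
    (by rw [Matrix.det_fin_two_of]; norm_num)

/-- the real translation matrix `[1, j/N; 0, 1]` -/
def trans (N j : ℕ) : GL (Fin 2) ℝ := Matrix.GeneralLinearGroup.map (Rat.castHom ℝ) (transQ N j)

theorem val_trans (N j : ℕ) :
    ((trans N j : GL (Fin 2) ℝ) : Matrix (Fin 2) (Fin 2) ℝ) = !![1, (j : ℝ) / N; 0, 1] := by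
  ext a b
  fin_cases a <;> fin_cases b <;>
    simp [trans, transQ, Matrix.GeneralLinearGroup.mkOfDetNeZero]

theorem det_trans (N j : ℕ) : ((trans N j).det : ℝ) = 1 := by
  rw [Matrix.GeneralLinearGroup.val_det_apply, val_trans, Matrix.det_fin_two_of]
  ring

theorem det_trans_pos (N j : ℕ) : 0 < ((trans N j).det : ℝ) := by
  rw [det_trans]; exact one_pos

theorem σ_trans (N j : ℕ) : UpperHalfPlane.σ (trans N j) = .refl ℝ ℂ := by
  rw [UpperHalfPlane.σ, if_pos (det_trans_pos N j)]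

theorem denom_trans (N j : ℕ) (τ : ℍ) : UpperHalfPlane.denom (trans N j) τ = 1 := by
  simp [UpperHalfPlane.denom, val_trans]

theorem coe_trans_smul (N j : ℕ) (τ : ℍ) :
    ((trans N j • τ : ℍ) : ℂ) = (τ : ℂ) + (j : ℂ) / N := by
  rw [UpperHalfPlane.coe_smul_of_det_pos (det_trans_pos N j)]
  simp [UpperHalfPlane.num, UpperHalfPlane.denom, val_trans]

theorem slash_trans_apply (k : ℤ) (N j : ℕ) (f : ℍ → ℂ) (τ : ℍ) :
    (f ∣[k] trans N j) τ = f (trans N j • τ) := by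
  rw [ModularForm.slash_apply, σ_trans, det_trans, denom_trans]
  simp

theorem qParam_trans_smul (N j : ℕ) (τ : ℍ) :
    Function.Periodic.qParam 1 (trans N j • τ : ℍ) =
      exp (2 * π * I * ((j : ℂ) / N)) * Function.Periodic.qParam 1 τ := by
  rw [Function.Periodic.qParam, Function.Periodic.qParam, coe_trans_smul, ← Complex.exp_add]
  congr 1
  simp only [ofReal_one, div_one]
  ring


/-! ### the conjugation identity `α_j γ = γ' α_{j'}` -/

theorem exists_conj (N : ℕ) [NeZero N] (γ : SL(2, ℤ)) (hγ : γ ∈ Gamma0 (N * N)) (j j' : ℕ)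
    (hj' : (j' : ZMod N) = ((γ 1 1 : ℤ) : ZMod N) ^ 2 * (j : ZMod N)) :
    ∃ γ' : SL(2, ℤ), γ' ∈ Gamma0 N ∧ ((γ' 1 1 : ℤ) : ZMod N) = ((γ 1 1 : ℤ) : ZMod N) ∧
      trans N j * (γ : GL (Fin 2) ℝ) = (γ' : GL (Fin 2) ℝ) * trans N j' := by
  set a : ℤ := γ 0 0 with ha
  set b : ℤ := γ 0 1 with hb
  set c : ℤ := γ 1 0 with hc
  set d : ℤ := γ 1 1 with hd
  have hdet : a * d - b * c = 1 := by
    have := γ.det_coe
    rw [Matrix.det_fin_two] at this
    exact this
  rw [Gamma0_mem] at hγ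
  have hcN : ((N * N : ℕ) : ℤ) ∣ c := (ZMod.intCast_zmod_eq_zero_iff_dvd c (N * N)).mp hγ
  obtain ⟨c₀, hc₀⟩ := hcN
  have hNN : ((N * N : ℕ) : ℤ) = (N : ℤ) * N := by push_cast; ring
  rw [hNN] at hc₀
  set c₁ : ℤ := N * c₀ with hc₁
  have hcc₁ : c = N * c₁ := by rw [hc₀, hc₁]; ring
  -- ad ≡ 1 mod N
  have had : ((a : ℤ) : ZMod N) * (d : ZMod N) = 1 := by
    have : ((a * d - b * c : ℤ) : ZMod N) = 1 := by rw [hdet]; simp
    rw [hcc₁] at this
    push_cast at this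
    simpa using this
  -- the integrality of the new `b`
  have hdiv : (N : ℤ) ∣ (j : ℤ) * d - (a + j * c₁) * j' := by
    rw [← ZMod.intCast_zmod_eq_zero_iff_dvd]
    push_cast
    rw [hj', hc₁]
    push_cast
    simp only [ZMod.natCast_self, zero_mul, mul_zero, add_zero]
    have : (j : ZMod N) * (d : ZMod N) - (a : ZMod N) * ((d : ZMod N) ^ 2 * (j : ZMod N)) =
        (j : ZMod N) * (d : ZMod N) * (1 - (a : ZMod N) * (d : ZMod N)) := by ring
    rw [this, had, sub_self, mul_zero]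
  obtain ⟨t, ht⟩ := hdiv
  refine ⟨⟨!![a + j * c₁, b + t; c, d - c₁ * j'], ?_⟩, ?_, ?_, ?_⟩
  · rw [Matrix.det_fin_two_of]
    have : t * c = ((j : ℤ) * d - (a + j * c₁) * j') * c₁ := by rw [ht, hcc₁]; ring
    linear_combination hdet - this
  · rw [Gamma0_mem]
    show (((c : ℤ)) : ZMod N) = 0
    rw [hcc₁]; push_cast; simp
  · show ((d - c₁ * j' : ℤ) : ZMod N) = (d : ZMod N)
    rw [hc₁]; push_cast; simp
  · apply Matrix.GeneralLinearGroup.ext
    intro i i'
    have hN : (N : ℝ) ≠ 0 := Nat.cast_ne_zero.mpr (NeZero.ne N)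
    have ht' : ((j : ℝ) * d - (a + j * c₁) * j') = N * t := by exact_mod_cast ht
    have hcc' : (c : ℝ) = N * c₁ := by exact_mod_cast hcc₁
    simp only [Matrix.GeneralLinearGroup.coe_mul, val_trans, Matrix.mul_apply, Fin.sum_univ_two]
    fin_cases i <;> fin_cases i' <;>
      simp [← ha, ← hb, ← hc, ← hd] <;> (try field_simp) <;>
      first
      | linear_combination (j : ℝ) * hcc'
      | linear_combination ht'
      | linear_combination (-(j' : ℝ)) * hcc'

/-! ### the depletion coefficients -/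

/-- `c(u) = (1/N) ∑_{n ∈ (ℤ/N)ˣ} e(-un/N)` -/
def cf (N : ℕ) [NeZero N] (u : ZMod N) : ℂ :=
  (N : ℂ)⁻¹ * ∑ n : (ZMod N)ˣ, ZMod.stdAddChar (N := N) (-(u * (n : ZMod N)))

theorem cf_sq_mul (N : ℕ) [NeZero N] (v : (ZMod N)ˣ) (u : ZMod N) :
    cf N ((v : ZMod N) ^ 2 * u) = cf N u := by
  unfold cf
  congr 1
  refine Fintype.sum_equiv (Equiv.mulLeft (v ^ 2)) _ _ fun n => ?_
  congr 2
  simp only [Equiv.coe_mulLeft, Units.val_mul, Units.val_pow_eq_pow_val]
  ring

/-- the character sum `∑_u c(u) e(um/N) = 1_{(m,N)=1}` -/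
theorem sum_cf_mul (N : ℕ) [NeZero N] (m : ZMod N) :
    ∑ u : ZMod N, cf N u * ZMod.stdAddChar (N := N) (u * m) = if IsUnit m then 1 else 0 := by
  classical
  have hN : (N : ℂ) ≠ 0 := Nat.cast_ne_zero.mpr (NeZero.ne N)
  have h1 : ∀ u : ZMod N, cf N u * ZMod.stdAddChar (N := N) (u * m) =
      (N : ℂ)⁻¹ * ∑ n : (ZMod N)ˣ, ZMod.stdAddChar (N := N) (u * (m - (n : ZMod N))) := by
    intro u
    unfold cf
    rw [mul_assoc, Finset.sum_mul]
    congr 1
    refine Finset.sum_congr rfl fun n _ => ?_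
    rw [← AddChar.map_add_eq_mul]
    congr 1
    ring
  simp only [h1]
  rw [← Finset.mul_sum, Finset.sum_comm]
  have h2 : ∀ n : (ZMod N)ˣ, ∑ u : ZMod N, ZMod.stdAddChar (N := N) (u * (m - (n : ZMod N))) =
      if m = (n : ZMod N) then (N : ℂ) else 0 := by
    intro n
    have := AddChar.sum_mulShift (m - (n : ZMod N)) (ZMod.isPrimitive_stdAddChar N)
    simp only [sub_eq_zero, ZMod.card] at this
    rw [this]
    split_ifs <;> simp
  simp only [h2]
  split_ifs with hm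
  · obtain ⟨v, rfl⟩ := hm
    rw [Finset.sum_eq_single v]
    · simp [hN]
    · intro n _ hn
      rw [if_neg]
      exact fun h => hn (Units.ext h.symm)
    · intro h; exact absurd (Finset.mem_univ v) h
  · rw [Finset.sum_eq_zero, mul_zero]
    intro n _
    rw [if_neg]
    rintro rfl
    exact hm n.isUnit

/-! ### the depleted function -/

/-- `f♭ = ∑_{u mod N} c(u) • f ∣ α_u` -/
def fdFun (N : ℕ) [NeZero N] (k : ℤ) (f : ℍ → ℂ) : ℍ → ℂ :=
  ∑ u : ZMod N, cf N u • (f ∣[k] trans N u.val)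

theorem isUnit_of_mem_Gamma0 (N M : ℕ) (hNM : N ∣ M) (γ : SL(2, ℤ)) (hγ : γ ∈ Gamma0 M) :
    IsUnit (((γ 1 1 : ℤ)) : ZMod N) := by
  have hdet : (γ 0 0 : ℤ) * γ 1 1 - γ 0 1 * γ 1 0 = 1 := by
    have := γ.det_coe
    rw [Matrix.det_fin_two] at this
    exact this
  rw [Gamma0_mem] at hγ
  have hc : ((γ 1 0 : ℤ) : ZMod N) = 0 := by
    rw [ZMod.intCast_zmod_eq_zero_iff_dvd] at hγ ⊢
    exact (Int.natCast_dvd_natCast.mpr hNM).trans hγ
  have : ((γ 0 0 : ℤ) : ZMod N) * ((γ 1 1 : ℤ) : ZMod N) = 1 := by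
    have h := congrArg (Int.cast : ℤ → ZMod N) hdet
    push_cast at h
    rw [hc, mul_zero, sub_zero] at h
    exact h
  exact IsUnit.of_mul_eq_one _ (by rw [mul_comm]; exact this)

theorem slash_trans_slash (N : ℕ) [NeZero N] (k : ℤ) (ε : DirichletCharacter ℂ N) (f : ℍ → ℂ)
    (hε : RatIface22.HasNeben N ε k f) (γ : SL(2, ℤ)) (hγ : γ ∈ Gamma0 (N * N)) (u : ZMod N) :
    (f ∣[k] trans N u.val) ∣[k] γ =
      ε ((γ 1 1 : ℤ) : ZMod N) • (f ∣[k] trans N ((((γ 1 1 : ℤ) : ZMod N) ^ 2 * u).val)) := by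
  obtain ⟨γ', hγ', hd, hmat⟩ := exists_conj N γ hγ u.val ((((γ 1 1 : ℤ) : ZMod N) ^ 2 * u).val)
    (by simp)
  rw [ModularForm.SL_slash, ← SlashAction.slash_mul, hmat, SlashAction.slash_mul,
    ← ModularForm.SL_slash, hε γ' hγ', hd, ModularForm.smul_slash, σ_trans]
  rfl

theorem hasNeben_fdFun (N : ℕ) [NeZero N] (k : ℤ) (ε : DirichletCharacter ℂ N) (f : ℍ → ℂ)
    (hε : RatIface22.HasNeben N ε k f) : RatIface22.HasNeben (N * N) ε k (fdFun N k f) := by
  intro γ hγ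
  obtain ⟨v, hv⟩ := isUnit_of_mem_Gamma0 N (N * N) (dvd_mul_right N N) γ hγ
  unfold fdFun
  rw [SlashAction.sum_slash, Finset.smul_sum]
  simp only [ModularForm.SL_smul_slash, slash_trans_slash N k ε f hε γ hγ]
  rw [← hv]
  refine Fintype.sum_equiv (Units.mulLeft (v ^ 2)) _ _ fun u => ?_
  simp only [Units.mulLeft_apply, Units.val_pow_eq_pow_val]
  rw [cf_sq_mul, smul_comm]

/-! ### regularity and bundling -/

theorem mdiff_fdFun (N : ℕ) [NeZero N] (k : ℤ) {f : ℍ → ℂ} (hf : MDiff f) :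
    MDiff (fdFun N k f) :=
  Finset.sum_induction _ (fun g : ℍ → ℂ => MDiff g) (fun _ _ ha hb => ha.add hb)
    mdifferentiable_const (fun _ _ => (hf.slash k _).const_smul _)

theorem isZeroAt_smul {c : OnePoint ℝ} {F : ℍ → ℂ} {k : ℤ} (a : ℂ) (h : c.IsZeroAt F k) :
    c.IsZeroAt (a • F) k := by
  intro g hg
  rw [ModularForm.smul_slash]
  exact (h g hg).smul _

theorem isZeroAt_fdFun (N : ℕ) [NeZero N] (k : ℤ) (f : CuspForm (Gamma1 N) k) {c : OnePoint ℝ}
    (hc : IsCusp c (Gamma1 (N * N) : Subgroup (GL (Fin 2) ℝ))) :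
    c.IsZeroAt (fdFun N k f) k := by
  have hc' : IsCusp c (Gamma1 N : Subgroup (GL (Fin 2) ℝ)) := by
    rw [Subgroup.IsArithmetic.isCusp_iff_isCusp_SL2Z] at hc ⊢
    exact hc
  refine P2MW.S_CuspFormClass_isZeroAt_heckeT.ModularForm.S06W2.isZeroAt_sum _
    fun u _ => isZeroAt_smul _ ?_
  exact P2MW.S_CuspFormClass_isZeroAt_heckeT.ModularForm.S06W2.isZeroAt_slash_ratCast f
    (transQ N u.val) hc'

theorem slash_fdFun_of_mem_Gamma1 (N : ℕ) [NeZero N] (k : ℤ) (ε : DirichletCharacter ℂ N)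
    (f : ℍ → ℂ) (hε : RatIface22.HasNeben N ε k f) (γ : SL(2, ℤ)) (hγ : γ ∈ Gamma1 (N * N)) :
    fdFun N k f ∣[k] γ = fdFun N k f := by
  have h0 : γ ∈ Gamma0 (N * N) := Gamma1_in_Gamma0 _ hγ
  rw [hasNeben_fdFun N k ε f hε γ h0]
  have h1 : ((γ 1 1 : ℤ) : ZMod N) = 1 := by
    rw [Gamma1_mem] at hγ
    have := congrArg (ZMod.castHom (dvd_mul_right N N) (ZMod N)) hγ.2.1
    simpa using this
  rw [h1, map_one, one_smul]

/-- the depleted cusp form of level `Γ₁(N²)` -/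
def fd (N : ℕ) [NeZero N] (k : ℤ) (ε : DirichletCharacter ℂ N) (f : CuspForm (Gamma1 N) k)
    (hε : RatIface22.HasNeben N ε k f) : CuspForm (Gamma1 (N * N)) k where
  toFun := fdFun N k f
  slash_action_eq' := by
    rintro _ ⟨γ, hγ, rfl⟩
    exact slash_fdFun_of_mem_Gamma1 N k ε f hε γ hγ
  holo' := mdiff_fdFun N k (CuspFormClass.holo f)
  zero_at_cusps' hc := isZeroAt_fdFun N k f hc

theorem coe_fd (N : ℕ) [NeZero N] (k : ℤ) (ε : DirichletCharacter ℂ N) (f : CuspForm (Gamma1 N) k)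
    (hε : RatIface22.HasNeben N ε k f) : ⇑(fd N k ε f hε) = fdFun N k f := rfl

/-! ### the `q`-expansion -/

theorem fdFun_apply (N : ℕ) [NeZero N] (k : ℤ) (f : ℍ → ℂ) (τ : ℍ) :
    fdFun N k f τ = ∑ u : ZMod N, cf N u * f (trans N u.val • τ) := by
  simp [fdFun, Finset.sum_apply, slash_trans_apply]

theorem exp_pow_eq_stdAddChar (N : ℕ) [NeZero N] (u : ZMod N) (m : ℕ) :
    exp (2 * π * I * ((u.val : ℂ) / N)) ^ m = ZMod.stdAddChar (N := N) (u * (m : ZMod N)) := by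
  have h : u * (m : ZMod N) = (((u.val * m : ℕ) : ℤ) : ZMod N) := by
    push_cast
    rw [ZMod.natCast_zmod_val]
  rw [h, ZMod.stdAddChar_coe, ← Complex.exp_nat_mul]
  congr 1
  push_cast
  ring

theorem one_mem_strictPeriods_Gamma1 (M : ℕ) :
    (1 : ℝ) ∈ (Gamma1 M : Subgroup (GL (Fin 2) ℝ)).strictPeriods := by
  rw [strictPeriods_Gamma1]
  exact AddSubgroup.mem_zmultiples 1

theorem hasSum_fdFun (N : ℕ) [NeZero N] (k : ℤ) (f : CuspForm (Gamma1 N) k) (τ : ℍ) :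
    HasSum (fun m : ℕ ↦ (if m.Coprime N then ModularFormClass.qCoeff f m else 0) •
      Function.Periodic.qParam 1 τ ^ m) (fdFun N k f τ) := by
  have hF : ∀ τ' : ℍ, HasSum (fun m ↦ ModularFormClass.qCoeff f m •
      Function.Periodic.qParam 1 τ' ^ m) (f τ') :=
    P2MW.S_UpperHalfPlane_qCoeff_heckeT.M4cP1W2.hasSum_qCoeff f (one_mem_strictPeriods_Gamma1 N)
  rw [fdFun_apply]
  have h1 : HasSum (fun m ↦ ∑ u : ZMod N, cf N u * (ModularFormClass.qCoeff f m •
      (exp (2 * π * I * ((u.val : ℂ) / N)) * Function.Periodic.qParam 1 τ) ^ m))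
      (∑ u : ZMod N, cf N u * f (trans N u.val • τ)) := by
    refine hasSum_sum fun u _ => HasSum.mul_left _ ?_
    have := hF (trans N u.val • τ)
    rwa [qParam_trans_smul] at this
  convert h1 using 1
  funext m
  have h2 : ∀ u : ZMod N, cf N u * (ModularFormClass.qCoeff f m •
      (exp (2 * π * I * ((u.val : ℂ) / N)) * Function.Periodic.qParam 1 τ) ^ m) =
      (cf N u * ZMod.stdAddChar (N := N) (u * (m : ZMod N))) *
        (ModularFormClass.qCoeff f m * Function.Periodic.qParam 1 τ ^ m) := by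
    intro u
    rw [mul_pow, exp_pow_eq_stdAddChar, smul_eq_mul]
    ring
  simp only [h2]
  rw [← Finset.sum_mul, sum_cf_mul]
  by_cases hm : m.Coprime N
  · rw [if_pos hm, if_pos ((ZMod.isUnit_iff_coprime m N).mpr hm), one_mul, smul_eq_mul]
  · rw [if_neg hm, if_neg (fun h => hm ((ZMod.isUnit_iff_coprime m N).mp h)), zero_mul, zero_smul]

/-- **One-shot depletion at level `N²`.** -/
theorem exists_depletion (N : ℕ) [NeZero N] (k : ℤ) (ε : DirichletCharacter ℂ N)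
    (f : CuspForm (Gamma1 N) k) (hε : RatIface22.HasNeben N ε k f) :
    ∃ fd : CuspForm (Gamma1 (N * N)) k, RatIface22.HasNeben (N * N) ε k fd ∧
      ∀ n, ModularFormClass.qCoeff fd n =
        if n.Coprime N then ModularFormClass.qCoeff f n else 0 := by
  refine ⟨fd N k ε f hε, hasNeben_fdFun N k ε f hε, fun n => ?_⟩
  exact (ModularFormClass.qExpansion_coeff_unique one_pos (one_mem_strictPeriods_Gamma1 (N * N))
    (f := fd N k ε f hε) (fun τ => hasSum_fdFun N k f τ) n).symm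

end Fermat.Agent.ES.R48.Deplete2
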