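/-
Programme R (S48, Deligne–Serre), chapter G6 PER₁, file P7a (helper21): **reduction mod `ℓ` of a
simultaneous eigenvector of integer matrices** (no valuation rings, no commutativity).

`A α ∈ M_r(ℤ)` (`α : ι`, any index type), `R ⊆ ℂ` a subring, `χ α ∈ R`, `φ : R →+* ZMod ℓ`.  If the
`A α` have a common eigenvector `x ≠ 0` in `ℂ^r` with eigenvalues `χ α`, then the reductions
`A α mod ℓ` have a common eigenvector `v ≠ 0` in `(ZMod ℓ)^r` with eigenvalues `φ (χ α)`.

Proof (helper9's determinant trick): otherwise finitely many of the maps `Ā_α - φ(χ_α)` have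
trivial common kernel on the FINITE space `(ZMod ℓ)^r`, so `∑_u C̄_u (Ā_{α_u} - φ χ_{α_u}) = 1` for
suitable matrices `C̄_u`; lift the `C̄_u` to integer matrices; `Q := ∑_u C_u (A_{α_u} - χ_{α_u})`
over `R` has `φ(Q) = 1`, hence `φ(det Q) = 1`, while `Q x = 0` over `ℂ` with `x ≠ 0` forces
`det Q = 0`.
-/
import Mathlib

set_option autoImplicit false

namespace Fermat.Agent.ES.R48.EigenModMat21

open Matrix

variable {ℓ : ℕ} [Fact ℓ.Prime] {r : ℕ} {ι : Type*}

/-- an integer lift of a matrix over `ZMod ℓ`. -/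
def liftMat (C : Matrix (Fin r) (Fin r) (ZMod ℓ)) : Matrix (Fin r) (Fin r) ℤ :=
  C.map fun c => (c.val : ℤ)

theorem liftMat_map (C : Matrix (Fin r) (Fin r) (ZMod ℓ)) :
    (liftMat C).map (Int.cast : ℤ → ZMod ℓ) = C := by
  have : NeZero ℓ := ⟨(Fact.out : ℓ.Prime).ne_zero⟩
  ext i j
  simp [liftMat]

/-- **The matrix lemma.** -/
theorem exists_eigen_mod (A : ι → Matrix (Fin r) (Fin r) ℤ) (R : Subring ℂ) (χ : ι → R)
    (φ : R →+* ZMod ℓ) (x : Fin r → ℂ) (hx : x ≠ 0)
    (hA : ∀ α, ((A α).map (Int.cast : ℤ → ℂ)).mulVec x = (χ α : ℂ) • x) :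
    ∃ v : Fin r → ZMod ℓ, v ≠ 0 ∧
      ∀ α, ((A α).map (Int.cast : ℤ → ZMod ℓ)).mulVec v = φ (χ α) • v := by
  classical
  rcases isEmpty_or_nonempty ι with hι | hι
  · -- no operators: any non-zero vector will do
    obtain ⟨i, hi⟩ := Function.ne_iff.mp hx
    refine ⟨Pi.single i 1, fun h => ?_, fun α => isEmptyElim α⟩
    have := congrFun h i
    simp at this
  by_contra hcon
  push Not at hcon
  choose! a ha using hcon
  -- the matrices `B u = Ā_{a u} - φ χ_{a u}` over `ZMod ℓ`, indexed by the vectors `u`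
  set B : (Fin r → ZMod ℓ) → Matrix (Fin r) (Fin r) (ZMod ℓ) := fun u =>
    (A (a u)).map (Int.cast : ℤ → ZMod ℓ) - φ (χ (a u)) • (1 : Matrix (Fin r) (Fin r) (ZMod ℓ))
    with hBdef
  have hBv : ∀ (u v : Fin r → ZMod ℓ), (B u).mulVec v =
      ((A (a u)).map (Int.cast : ℤ → ZMod ℓ)).mulVec v - φ (χ (a u)) • v := by
    intro u v
    rw [hBdef]
    simp only [Matrix.sub_mulVec, Matrix.smul_mulVec, Matrix.one_mulVec]
  -- the injective linear map `v ↦ (B u v)_u`
  set T : (Fin r → ZMod ℓ) →ₗ[ZMod ℓ] ((Fin r → ZMod ℓ) → (Fin r → ZMod ℓ)) :=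
    LinearMap.pi fun u => Matrix.mulVecLin (B u) with hTdef
  have hTapp : ∀ v u, T v u = (B u).mulVec v := fun v u => rfl
  have hT : LinearMap.ker T = ⊥ := by
    rw [LinearMap.ker_eq_bot']
    intro v hv
    by_contra hv0
    have h1 : T v v = 0 := by rw [hv]; rfl
    rw [hTapp, hBv, sub_eq_zero] at h1
    exact ha v hv0 h1
  obtain ⟨G, hG⟩ := T.exists_leftInverse_of_injective hT
  -- the matrices of `G` on the components
  set Cb : (Fin r → ZMod ℓ) → Matrix (Fin r) (Fin r) (ZMod ℓ) := fun u =>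
    LinearMap.toMatrix' (G.comp (LinearMap.single (ZMod ℓ) (fun _ => Fin r → ZMod ℓ) u))
    with hCbdef
  have hCb : ∀ (u w : Fin r → ZMod ℓ), (Cb u).mulVec w = G (Pi.single u w) := by
    intro u w
    rw [hCbdef, ← Matrix.toLin'_apply, Matrix.toLin'_toMatrix']
    rfl
  have hsum : ∑ u : Fin r → ZMod ℓ, Cb u * B u = 1 := by
    apply Matrix.toLin'.injective
    refine LinearMap.ext fun w => ?_
    rw [Matrix.toLin'_apply, Matrix.sum_mulVec, Matrix.toLin'_one, LinearMap.id_apply]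
    have h1 : ∀ u : Fin r → ZMod ℓ, (Cb u * B u).mulVec w = G (Pi.single u (T w u)) := by
      intro u
      rw [← Matrix.mulVec_mulVec, hCb, hTapp]
    rw [Finset.sum_congr rfl fun u _ => h1 u, ← map_sum, Finset.univ_sum_single]
    have := LinearMap.congr_fun hG w
    simpa using this
  -- the lift to `R`
  set Q : Matrix (Fin r) (Fin r) R := ∑ u : Fin r → ZMod ℓ,
    (liftMat (Cb u)).map (Int.cast : ℤ → R) *
      ((A (a u)).map (Int.cast : ℤ → R) - χ (a u) • (1 : Matrix (Fin r) (Fin r) R)) with hQdef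
  -- its image under `φ` is `1`
  have hφQ : φ.mapMatrix Q = 1 := by
    rw [hQdef, map_sum, ← hsum]
    refine Finset.sum_congr rfl fun u _ => ?_
    rw [map_mul, map_sub, hBdef]
    simp only [RingHom.mapMatrix_apply, Matrix.map_map]
    have e1 : ∀ M : Matrix (Fin r) (Fin r) ℤ,
        M.map ((φ : R → ZMod ℓ) ∘ (Int.cast : ℤ → R)) = M.map (Int.cast : ℤ → ZMod ℓ) := by
      intro M
      ext i j
      simp
    have e2 : (χ (a u) • (1 : Matrix (Fin r) (Fin r) R)).map φ =
        φ (χ (a u)) • (1 : Matrix (Fin r) (Fin r) (ZMod ℓ)) := by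
      rw [Matrix.map_smul' _ _ _ (map_mul φ), Matrix.map_one _ (map_zero φ) (map_one φ)]
    rw [e1, e1, liftMat_map, e2]
  -- its image in `ℂ` kills `x`
  have hjQ : (R.subtype.mapMatrix Q).mulVec x = 0 := by
    rw [hQdef, map_sum, Matrix.sum_mulVec]
    refine Finset.sum_eq_zero fun u _ => ?_
    rw [map_mul, map_sub, ← Matrix.mulVec_mulVec]
    simp only [RingHom.mapMatrix_apply, Matrix.map_map]
    have e1 : ∀ M : Matrix (Fin r) (Fin r) ℤ,
        M.map ((R.subtype : R → ℂ) ∘ (Int.cast : ℤ → R)) = M.map (Int.cast : ℤ → ℂ) := by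
      intro M
      ext i j
      simp
    have e2 : (χ (a u) • (1 : Matrix (Fin r) (Fin r) R)).map R.subtype =
        (χ (a u) : ℂ) • (1 : Matrix (Fin r) (Fin r) ℂ) := by
      rw [Matrix.map_smul' _ _ _ (map_mul R.subtype),
        Matrix.map_one _ (map_zero R.subtype) (map_one R.subtype)]
      rfl
    rw [e1, e1, e2, Matrix.sub_mulVec, hA (a u), Matrix.smul_mulVec, Matrix.one_mulVec, sub_self,
      Matrix.mulVec_zero]
  -- determinants
  have hdetC : (R.subtype.mapMatrix Q).det = 0 :=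
    Matrix.exists_mulVec_eq_zero_iff.mp ⟨x, hx, hjQ⟩
  have hdetR : Q.det = 0 := by
    rw [← RingHom.map_det] at hdetC
    exact Subtype.ext hdetC
  have h1 : φ Q.det = 1 := by
    rw [RingHom.map_det, hφQ, Matrix.det_one]
  rw [hdetR, map_zero] at h1
  exact zero_ne_one h1

end Fermat.Agent.ES.R48.EigenModMat21
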