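/-
Programme R (S48, Deligne–Serre), chapter G6 PER₁, file P7b (helper21): **from a simultaneous
eigenvector in `Hom_par(Γ, ℂ)` to one in the image of `Hom_par(Γ, ℤ)` in `Hom(Γ, ZMod ℓ)`**.

`Γ ≤ SL(2, ℤ)` finitely generated; abstract operators `tZ α`, `tC α`, `tF α` (`α : ι`) on
`Hom(Γ, ℤ)`, `Hom(Γ, ℂ)`, `Hom(Γ, ZMod ℓ)`, compatible with the coefficient maps `ℤ → ℂ`,
`ℤ → ZMod ℓ`; `tZ α` additive and parabolic-preserving, `tC α` `ℂ`-linear.  If `x ≠ 0` is a
parabolic `ℂ`-valued character with `tC α x = χ α • x`, `χ α ∈ R ⊆ ℂ`, and `φ : R →+* ZMod ℓ`, then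
there is a parabolic `v : Γ → ℤ` whose reduction `v̄ ≠ 0` satisfies `tF α v̄ = φ (χ α) • v̄`.

Coordinates via main's `ES/HEQ/ParLattice11` (`lamHom`, `gen`, `expand`) and the matrix lemma
`EigenModMat21.exists_eigen_mod`.
-/
import Mathlib
import Fermat.Prelude.Def_ModularCurve_PeriodMap
import Fermat.Agent.ES.HEQ.ParLattice11
import Fermat.Agent.ES.R48.EigenModMat21

set_option autoImplicit false

namespace Fermat.Agent.ES.R48.EigenModPar21

open ModularCurve.Period Fermat.Agent.ES.HEQ.ParLattice11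
open scoped MatrixGroups

variable {ℓ : ℕ} [Fact ℓ.Prime] {Γ : Subgroup SL(2, ℤ)} {ι : Type*}

/-- an additive self-map of `Hom(Γ, ℤ)` commutes with finite `ℤ`-linear combinations. -/
theorem map_sum_zsmul (t : (Additive Γ →+ ℤ) → (Additive Γ →+ ℤ))
    (hadd : ∀ u v, t (u + v) = t u + t v) {κ : Type*} (s : Finset κ) (c : κ → ℤ)
    (u : κ → (Additive Γ →+ ℤ)) :
    t (∑ i ∈ s, c i • u i) = ∑ i ∈ s, c i • t (u i) := by
  set T : (Additive Γ →+ ℤ) →+ (Additive Γ →+ ℤ) := AddMonoidHom.mk' t hadd with hT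
  have h : ∀ w, t w = T w := fun _ => rfl
  rw [h, map_sum]
  refine Finset.sum_congr rfl fun i _ => ?_
  rw [map_zsmul, h]

/-- **The lattice wrapper.** -/
theorem exists_eigen_par (hΓ : Γ.FG)
    (tZ : ι → (Additive Γ →+ ℤ) → (Additive Γ →+ ℤ))
    (tC : ι → (Additive Γ →+ ℂ) → (Additive Γ →+ ℂ))
    (tF : ι → (Additive Γ →+ ZMod ℓ) → (Additive Γ →+ ZMod ℓ))
    (hZadd : ∀ α u v, tZ α (u + v) = tZ α u + tZ α v)
    (hZpar : ∀ α u, IsParabolicHom Γ u → IsParabolicHom Γ (tZ α u))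
    (hCadd : ∀ α u v, tC α (u + v) = tC α u + tC α v)
    (hCsmul : ∀ α (c : ℂ) u, tC α (c • u) = c • tC α u)
    (hZC : ∀ α u, tC α ((Int.castAddHom ℂ).comp u) = (Int.castAddHom ℂ).comp (tZ α u))
    (hZF : ∀ α u, tF α ((Int.castAddHom (ZMod ℓ)).comp u) =
      (Int.castAddHom (ZMod ℓ)).comp (tZ α u))
    (R : Subring ℂ) (χ : ι → R) (φ : R →+* ZMod ℓ)
    (x : Additive Γ →+ ℂ) (hxpar : IsParabolicHom Γ x) (hx : x ≠ 0)
    (hev : ∀ α, tC α x = (χ α : ℂ) • x) :
    ∃ v : Additive Γ →+ ℤ, IsParabolicHom Γ v ∧ (Int.castAddHom (ZMod ℓ)).comp v ≠ 0 ∧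
      ∀ α, tF α ((Int.castAddHom (ZMod ℓ)).comp v) =
        φ (χ α) • (Int.castAddHom (ZMod ℓ)).comp v := by
  classical
  have hℓ : NeZero ℓ := ⟨(Fact.out : ℓ.Prime).ne_zero⟩
  -- the integer matrices of the operators in the basis `lamHom`
  set A : ι → Matrix (Fin (rk Γ)) (Fin (rk Γ)) ℤ := fun α =>
    Matrix.of fun j i => (tZ α (lamHom hΓ i)) (Additive.ofMul (gen hΓ j)) with hAdef
  -- the coordinates of `x`
  set xv : Fin (rk Γ) → ℂ := fun i => x (Additive.ofMul (gen hΓ i)) with hxv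
  have hxexp : x = ∑ i, xv i • (Int.castAddHom ℂ).comp (lamHom hΓ i) := by
    refine AddMonoidHom.ext fun g => ?_
    rw [expand hΓ x hxpar g, AddMonoidHom.finsetSum_apply]
    refine Finset.sum_congr rfl fun i _ => ?_
    simp only [AddMonoidHom.smul_apply, AddMonoidHom.comp_apply, Int.coe_castAddHom, hxv,
      zsmul_eq_mul, smul_eq_mul]
    ring
  have hxv0 : xv ≠ 0 := by
    intro h
    apply hx
    rw [hxexp]
    refine Finset.sum_eq_zero fun i _ => ?_
    rw [h, Pi.zero_apply, zero_smul]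
  -- `tC α` as a linear map
  have hClin : ∀ α (s : Finset (Fin (rk Γ))) (c : Fin (rk Γ) → ℂ)
      (u : Fin (rk Γ) → (Additive Γ →+ ℂ)),
      tC α (∑ i ∈ s, c i • u i) = ∑ i ∈ s, c i • tC α (u i) := by
    intro α s c u
    set T : (Additive Γ →+ ℂ) →ₗ[ℂ] (Additive Γ →+ ℂ) :=
      { toFun := tC α, map_add' := hCadd α, map_smul' := fun c u => hCsmul α c u } with hT
    have h : ∀ w, tC α w = T w := fun _ => rfl
    rw [h, map_sum]
    refine Finset.sum_congr rfl fun i _ => ?_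
    rw [map_smul, h]
  -- the eigen-equation in coordinates
  have hmat : ∀ α, ((A α).map (Int.cast : ℤ → ℂ)).mulVec xv = (χ α : ℂ) • xv := by
    intro α
    funext j
    have h1 : (tC α x) (Additive.ofMul (gen hΓ j)) = (χ α : ℂ) * xv j := by
      rw [hev α]
      rfl
    rw [Pi.smul_apply, smul_eq_mul, ← h1]
    conv_rhs => rw [hxexp, hClin]
    rw [AddMonoidHom.finsetSum_apply, Matrix.mulVec, dotProduct]
    refine Finset.sum_congr rfl fun i _ => ?_
    rw [hZC α (lamHom hΓ i)]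
    simp only [AddMonoidHom.smul_apply, AddMonoidHom.comp_apply, Int.coe_castAddHom, smul_eq_mul,
      Matrix.map_apply, hAdef, Matrix.of_apply]
    ring
  obtain ⟨vb, hvb0, hvb⟩ := EigenModMat21.exists_eigen_mod A R χ φ xv hxv0 hmat
  -- the integral lift
  set vz : Fin (rk Γ) → ℤ := fun i => ((vb i).val : ℤ) with hvz
  have hvzcast : ∀ i, ((vz i : ℤ) : ZMod ℓ) = vb i := by
    intro i
    simp [hvz]
  set v : Additive Γ →+ ℤ := ∑ i, vz i • lamHom hΓ i with hv
  have hvpar : IsParabolicHom Γ v := by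
    have : v ∈ parabolicHoms ℤ Γ ℤ :=
      Submodule.sum_mem _ fun i _ => Submodule.smul_mem _ _ (lamHom_isParabolic hΓ i)
    exact this
  have hvgen : ∀ j, v (Additive.ofMul (gen hΓ j)) = vz j := by
    intro j
    rw [hv, AddMonoidHom.finsetSum_apply]
    simp only [AddMonoidHom.smul_apply, lamHom_gen, smul_eq_mul]
    rw [Finset.sum_eq_single j]
    · rw [if_pos rfl, mul_one]
    · intro i _ hij
      rw [if_neg hij, mul_zero]
    · intro h
      exact absurd (Finset.mem_univ j) h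
  refine ⟨v, hvpar, ?_, fun α => ?_⟩
  · intro h0
    apply hvb0
    funext j
    have := congrArg (fun ψ : Additive Γ →+ ZMod ℓ => ψ (Additive.ofMul (gen hΓ j))) h0
    simp only [AddMonoidHom.comp_apply, Int.coe_castAddHom, hvgen, hvzcast,
      AddMonoidHom.zero_apply] at this
    rw [this, Pi.zero_apply]
  · rw [hZF α v]
    set w : Additive Γ →+ ℤ := tZ α v with hw
    have hwpar : IsParabolicHom Γ w := hZpar α v hvpar
    -- the values of `w` at the generators
    have hwgen : ∀ j, w (Additive.ofMul (gen hΓ j)) = ((A α).mulVec vz) j := by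
      intro j
      rw [hw, hv, map_sum_zsmul (tZ α) (hZadd α), AddMonoidHom.finsetSum_apply, Matrix.mulVec,
        dotProduct]
      refine Finset.sum_congr rfl fun i _ => ?_
      simp only [AddMonoidHom.smul_apply, smul_eq_mul, hAdef, Matrix.of_apply]
      ring
    have hwcast : ∀ j, ((w (Additive.ofMul (gen hΓ j)) : ℤ) : ZMod ℓ) = φ (χ α) * vb j := by
      intro j
      have h1 := congrFun (hvb α) j
      rw [Pi.smul_apply, smul_eq_mul] at h1
      rw [← h1, hwgen, Matrix.mulVec, dotProduct, Matrix.mulVec, dotProduct, Int.cast_sum]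
      refine Finset.sum_congr rfl fun i _ => ?_
      rw [Int.cast_mul, hvzcast, Matrix.map_apply]
    refine AddMonoidHom.ext fun g => ?_
    simp only [AddMonoidHom.comp_apply, Int.coe_castAddHom, AddMonoidHom.smul_apply, smul_eq_mul]
    rw [expand hΓ w hwpar g, expand hΓ v hvpar g, Int.cast_sum, Int.cast_sum, Finset.mul_sum]
    refine Finset.sum_congr rfl fun j _ => ?_
    rw [smul_eq_mul, smul_eq_mul, Int.cast_mul, Int.cast_mul, hwcast, hvgen, hvzcast]
    ring

end Fermat.Agent.ES.R48.EigenModPar21
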