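/-
Programme R (S48), chapter B4 EIS, algebraic leaf (helper3): the finite Gauss-sum / cotangent algebra
behind Hecke's weight-one Eisenstein series (R48_EIS24 (Z6) ⇒ (Z7)).

For `N ≥ 1`, `e := ZMod.stdAddChar`, `s : ZMod N`, the *division-value coefficients*
`zCoeff s 0 = π cot (π s / N)`, `zCoeff s n = -2πi Σ_{k ∣ n} (e (s k) - e (-(s k)))` (`n ≥ 1`)
are the `q`-coefficients of the weight-one division value `Z_{(0,s)}` (helper24's analytic spine).
For an odd primitive Dirichlet character `χ` mod `N` we prove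

  `Σ_s χ⁻¹ s * zCoeff s n = 2πi * gaussSum χ⁻¹ e * eCoeff χ n`,

`eCoeff χ 0 = B₁(χ) = (1/N) Σ_{a<N} a χ a`, `eCoeff χ n = -2 Σ_{k ∣ n} χ k`, and `gaussSum χ⁻¹ e ≠ 0`
(`gaussSum χ e * gaussSum χ⁻¹ e = χ (-1) * N` for primitive `χ`, any modulus).
-/
import Mathlib

set_option autoImplicit false

open Complex Finset ZMod
open scoped Real

noncomputable section

namespace Fermat.Agent.ES.R48.GaussCot3

/-! ### Two polynomial identities -/

/-- `(x - 1)² Σ_{k<n} k x^k = (n - 1) x^(n+1) - n x^n + x`. -/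
theorem sq_mul_sum_id_mul_pow (x : ℂ) (n : ℕ) :
    (x - 1) ^ 2 * ∑ k ∈ range n, (k : ℂ) * x ^ k =
      ((n : ℂ) - 1) * x ^ (n + 1) - n * x ^ n + x := by
  induction n with
  | zero => simp
  | succ n ih =>
    rw [sum_range_succ, mul_add, ih]
    push_cast
    ring

/-- For an `N`-th root of unity `w ≠ 1`: `Σ_{k<N} k w^k = N / (w - 1)`. -/
theorem sum_id_mul_pow_of_pow_eq_one {w : ℂ} {N : ℕ} (hN : w ^ N = 1) (hw : w ≠ 1) :
    ∑ k ∈ range N, (k : ℂ) * w ^ k = N / (w - 1) := by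
  have h1 : w - 1 ≠ 0 := sub_ne_zero.mpr hw
  have h := sq_mul_sum_id_mul_pow w N
  rw [pow_succ w N, hN] at h
  rw [eq_div_iff h1]
  have h2 : (w - 1) * ((∑ k ∈ range N, (k : ℂ) * w ^ k) * (w - 1)) = (w - 1) * N := by
    calc (w - 1) * ((∑ k ∈ range N, (k : ℂ) * w ^ k) * (w - 1))
        = (w - 1) ^ 2 * ∑ k ∈ range N, (k : ℂ) * w ^ k := by ring
      _ = (w - 1) * N := by rw [h]; ring
  exact mul_left_cancel₀ h1 h2

variable {N : ℕ} [NeZero N]

/-! ### The standard additive character -/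

theorem stdAddChar_mul_natCast (s : ZMod N) (k : ℕ) :
    stdAddChar (s * (k : ZMod N)) = stdAddChar s ^ k := by
  rw [mul_comm, ← nsmul_eq_mul, AddChar.map_nsmul_eq_pow]

theorem stdAddChar_pow_card (s : ZMod N) : stdAddChar s ^ N = 1 := by
  rw [← AddChar.map_nsmul_eq_pow, nsmul_eq_mul, ZMod.natCast_self, zero_mul,
    AddChar.map_zero_eq_one]

theorem stdAddChar_ne_one {s : ZMod N} (hs : s ≠ 0) : stdAddChar s ≠ 1 := by
  intro h
  apply hs
  apply injective_stdAddChar (N := N)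
  rw [h, AddChar.map_zero_eq_one]

theorem stdAddChar_eq_exp (s : ZMod N) :
    stdAddChar s = Complex.exp (2 * π * I * ((s.val : ℂ) / N)) := by
  rw [stdAddChar_apply, toCircle_apply]
  congr 1
  ring

/-- `π cot (π s / N) = π i (1 + (2/N) Σ_{k<N} k e(s k))` for `s ≠ 0`. -/
theorem pi_mul_cot_eq {s : ZMod N} (hs : s ≠ 0) :
    (π : ℂ) * Complex.cot (π * ((s.val : ℂ) / N)) =
      π * I * (1 + 2 / N * ∑ k ∈ range N, (k : ℂ) * stdAddChar (s * (k : ZMod N))) := by
  have hw := stdAddChar_ne_one hs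
  have h1 : stdAddChar s - 1 ≠ 0 := sub_ne_zero.mpr hw
  have h1' : 1 - stdAddChar s ≠ 0 := sub_ne_zero.mpr (Ne.symm hw)
  have hN0 : (N : ℂ) ≠ 0 := Nat.cast_ne_zero.mpr (NeZero.ne N)
  simp_rw [stdAddChar_mul_natCast]
  rw [sum_id_mul_pow_of_pow_eq_one (stdAddChar_pow_card s) hw, Complex.cot_pi_eq_exp_ratio,
    ← stdAddChar_eq_exp]
  field_simp
  ring_nf
  rw [Complex.I_sq]
  ring

/-! ### Gauss sums of primitive characters -/

variable (χ : DirichletCharacter ℂ N)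

/-- `Σ_s χ s e(s k) = χ⁻¹ k · G(χ)` for primitive `χ`. -/
theorem sum_mul_stdAddChar (hχ : χ.IsPrimitive) (k : ZMod N) :
    ∑ s : ZMod N, χ s * stdAddChar (s * k) = χ⁻¹ k * gaussSum χ stdAddChar := by
  rw [← gaussSum_mulShift_of_isPrimitive stdAddChar hχ k, gaussSum]
  refine sum_congr rfl fun s _ => ?_
  rw [AddChar.mulShift_apply, mul_comm s k]

/-- `G(χ) G(χ⁻¹) = χ(-1) N` for a primitive character of ANY modulus. -/
theorem gaussSum_mul_gaussSum_inv (hχ : χ.IsPrimitive) :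
    gaussSum χ stdAddChar * gaussSum χ⁻¹ stdAddChar = χ (-1) * N := by
  classical
  have hχ' : χ⁻¹.IsPrimitive := by
    rwa [DirichletCharacter.isPrimitive_def, DirichletCharacter.conductor_inv] at *
  -- double count `Σ_k (Σ_s χ s e(sk)) (Σ_t χ⁻¹ t e(-tk))`
  have hunits : (∑ k : ZMod N, χ⁻¹ k * χ k) = ((univ : Finset (ZMod N)ˣ).card : ℂ) := by
    have : ∀ k : ZMod N, χ⁻¹ k * χ k = if IsUnit k then 1 else 0 := by
      intro k
      by_cases hk : IsUnit k
      · rw [if_pos hk, MulChar.inv_apply_eq_inv' χ, inv_mul_cancel₀]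
        intro h
        have := hk.map χ
        rw [h] at this
        exact not_isUnit_zero this
      · rw [if_neg hk, MulChar.map_nonunit _ hk, zero_mul]
    simp_rw [this]
    rw [sum_ite, sum_const_zero, add_zero, sum_const, nsmul_eq_mul, mul_one]
    congr 1
    refine card_bij' (fun k hk => (mem_filter.mp hk).2.unit) (fun u _ => (u : ZMod N))
      (fun _ _ => mem_univ _) (fun u _ => mem_filter.mpr ⟨mem_univ _, u.isUnit⟩)
      (fun k hk => (mem_filter.mp hk).2.unit_spec) (fun u _ => Units.ext u.isUnit.unit_spec)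
  have hcard0 : ((univ : Finset (ZMod N)ˣ).card : ℂ) ≠ 0 := by
    rw [Nat.cast_ne_zero]
    exact card_ne_zero.mpr ⟨1, mem_univ _⟩
  have hA : ∑ k : ZMod N, (∑ s : ZMod N, χ s * stdAddChar (s * k)) *
      (∑ t : ZMod N, χ⁻¹ t * stdAddChar (t * (-k))) =
      ((univ : Finset (ZMod N)ˣ).card : ℂ) * (χ (-1) * (gaussSum χ stdAddChar *
        gaussSum χ⁻¹ stdAddChar)) := by
    simp_rw [sum_mul_stdAddChar χ hχ, sum_mul_stdAddChar χ⁻¹ hχ', inv_inv]
    have : ∀ k : ZMod N, χ⁻¹ k * gaussSum χ stdAddChar * (χ (-k) * gaussSum χ⁻¹ stdAddChar) =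
        (χ⁻¹ k * χ k) * (χ (-1) * (gaussSum χ stdAddChar * gaussSum χ⁻¹ stdAddChar)) := by
      intro k
      rw [show (-k : ZMod N) = -1 * k by ring, map_mul]
      ring
    simp_rw [this]
    rw [← sum_mul, hunits]
  have hB : ∑ k : ZMod N, (∑ s : ZMod N, χ s * stdAddChar (s * k)) *
      (∑ t : ZMod N, χ⁻¹ t * stdAddChar (t * (-k))) =
      (N : ℂ) * ((univ : Finset (ZMod N)ˣ).card : ℂ) := by
    simp_rw [sum_mul_sum]
    rw [sum_comm]
    have h1 : ∀ s : ZMod N, ∑ k : ZMod N, ∑ t : ZMod N,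
        χ s * stdAddChar (s * k) * (χ⁻¹ t * stdAddChar (t * (-k))) =
        (N : ℂ) * (χ⁻¹ s * χ s) := by
      intro s
      rw [sum_comm]
      have h2 : ∀ t : ZMod N, ∑ k : ZMod N,
          χ s * stdAddChar (s * k) * (χ⁻¹ t * stdAddChar (t * (-k))) =
          χ s * χ⁻¹ t * if s = t then (N : ℂ) else 0 := by
        intro t
        have h3 : ∀ k : ZMod N, χ s * stdAddChar (s * k) * (χ⁻¹ t * stdAddChar (t * (-k))) =
            χ s * χ⁻¹ t * (stdAddChar (N := N)).mulShift (s - t) k := by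
          intro k
          rw [AddChar.mulShift_apply, show (s - t) * k = s * k + t * (-k) by ring,
            AddChar.map_add_eq_mul]
          ring
        simp_rw [h3]
        rw [← mul_sum]
        congr 1
        by_cases hst : s = t
        · rw [if_pos hst, hst, sub_self]
          simp [AddChar.mulShift_zero]
        · rw [if_neg hst]
          apply AddChar.sum_eq_zero_of_ne_one
          intro h
          have := (isPrimitive_stdAddChar N) (sub_ne_zero.mpr hst)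
          exact this h
      simp_rw [h2]
      rw [sum_eq_single s (fun t _ hts => by rw [if_neg (Ne.symm hts), mul_zero])
        (fun h => absurd (mem_univ s) h), if_pos rfl]
      ring
    simp_rw [h1]
    rw [← mul_sum, hunits]
  have hm1 : χ (-1) * χ (-1) = 1 := by
    rw [← map_mul]; simp
  have := hA.symm.trans hB
  have h5 : χ (-1) * (gaussSum χ stdAddChar * gaussSum χ⁻¹ stdAddChar) = N := by
    apply mul_left_cancel₀ hcard0
    rw [this]; ring
  calc gaussSum χ stdAddChar * gaussSum χ⁻¹ stdAddChar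
      = (χ (-1) * χ (-1)) * (gaussSum χ stdAddChar * gaussSum χ⁻¹ stdAddChar) := by
        rw [hm1, one_mul]
    _ = χ (-1) * (χ (-1) * (gaussSum χ stdAddChar * gaussSum χ⁻¹ stdAddChar)) := by ring
    _ = χ (-1) * N := by rw [h5]

theorem gaussSum_ne_zero_of_isPrimitive (hχ : χ.IsPrimitive) : gaussSum χ stdAddChar ≠ 0 := by
  intro h
  have h1 := gaussSum_mul_gaussSum_inv χ hχ
  rw [h, zero_mul] at h1
  have h2 : χ (-1) ≠ 0 := by
    intro h0
    have : χ (-1) * χ (-1) = 1 := by rw [← map_mul]; simp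
    rw [h0, mul_zero] at this
    exact zero_ne_one this
  have hN0 : (N : ℂ) ≠ 0 := Nat.cast_ne_zero.mpr (NeZero.ne N)
  exact mul_ne_zero h2 hN0 h1.symm

/-! ### The character combination (Z7) -/

/-- The generalised Bernoulli number `B_{1,χ} = (1/N) Σ_{a<N} a χ(a)`. -/
def B1 : ℂ := (1 / (N : ℂ)) * ∑ a ∈ range N, (a : ℂ) * χ (a : ZMod N)

/-- `σ^χ(n) = Σ_{k ∣ n} χ(k)`. -/
def sigmaChi (n : ℕ) : ℂ := ∑ k ∈ n.divisors, χ (k : ZMod N)

/-- The `q`-coefficients of `Ẽ_χ = B_{1,χ} - 2 Σ_n σ^χ(n) qⁿ`. -/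
def eCoeff (n : ℕ) : ℂ := if n = 0 then B1 χ else -2 * sigmaChi χ n

/-- The `q`-coefficients of the weight-one division value `Z_{(0,s)}` (R48_EIS24 (Z6)). -/
def zCoeff (s : ZMod N) (n : ℕ) : ℂ :=
  if n = 0 then (π : ℂ) * Complex.cot (π * ((s.val : ℂ) / N))
  else -2 * π * I * ∑ k ∈ n.divisors,
    (stdAddChar (s * (k : ZMod N)) - stdAddChar (-(s * (k : ZMod N))))

variable {χ}

omit [NeZero N] in
theorem inv_ne_one_of_odd (hodd : χ.Odd) : χ⁻¹ ≠ 1 := by
  intro h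
  have h1 : χ = 1 := by rw [← inv_inv χ, h, inv_one]
  have h2 : χ (-1) = -1 := hodd
  rw [h1, MulChar.one_apply (isUnit_one.neg)] at h2
  norm_num at h2

omit [NeZero N] in
theorem inv_isPrimitive (hχ : χ.IsPrimitive) : χ⁻¹.IsPrimitive := by
  rwa [DirichletCharacter.isPrimitive_def, DirichletCharacter.conductor_inv] at *

/-- `Σ_s χ⁻¹ s (e(sk) - e(-sk)) = 2 χ(k) G(χ⁻¹)` for odd primitive `χ`. -/
theorem sum_inv_mul_stdAddChar_sub (hχ : χ.IsPrimitive) (hodd : χ.Odd) (k : ZMod N) :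
    ∑ s : ZMod N, χ⁻¹ s * (stdAddChar (s * k) - stdAddChar (-(s * k))) =
      2 * χ k * gaussSum χ⁻¹ stdAddChar := by
  have h1 := sum_mul_stdAddChar χ⁻¹ (inv_isPrimitive hχ) k
  have h2 := sum_mul_stdAddChar χ⁻¹ (inv_isPrimitive hχ) (-k)
  rw [inv_inv] at h1 h2
  simp_rw [mul_sub, sum_sub_distrib, ← mul_neg]
  rw [h1, h2, hodd.eval_neg]
  ring

/-- `Σ_s χ⁻¹ s · π cot(π s/N) = 2πi G(χ⁻¹) B_{1,χ}` for odd primitive `χ`. -/
theorem sum_inv_mul_cot (hχ : χ.IsPrimitive) (hodd : χ.Odd) :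
    ∑ s : ZMod N, χ⁻¹ s * ((π : ℂ) * Complex.cot (π * ((s.val : ℂ) / N))) =
      2 * π * I * gaussSum χ⁻¹ stdAddChar * B1 χ := by
  have hN1 : N ≠ 1 := by
    rintro rfl
    have h2 : χ (-1) = -1 := hodd
    have : (-1 : ZMod 1) = 1 := Subsingleton.elim _ _
    rw [this, map_one] at h2
    norm_num at h2
  have h0 : ¬ IsUnit (0 : ZMod N) := by
    have : Nontrivial (ZMod N) := ZMod.nontrivial_iff.mpr hN1
    exact not_isUnit_zero
  have hterm : ∀ s : ZMod N, χ⁻¹ s * ((π : ℂ) * Complex.cot (π * ((s.val : ℂ) / N))) =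
      χ⁻¹ s * (π * I * (1 + 2 / N * ∑ k ∈ range N, (k : ℂ) * stdAddChar (s * (k : ZMod N)))) := by
    intro s
    by_cases hs : s = 0
    · rw [hs, MulChar.map_nonunit _ h0, zero_mul, zero_mul]
    · rw [pi_mul_cot_eq hs]
  simp_rw [hterm]
  have hsplit : ∀ s : ZMod N,
      χ⁻¹ s * (π * I * (1 + 2 / N * ∑ k ∈ range N, (k : ℂ) * stdAddChar (s * (k : ZMod N)))) =
      π * I * χ⁻¹ s + π * I * (2 / N) *
        ∑ k ∈ range N, (k : ℂ) * (χ⁻¹ s * stdAddChar (s * (k : ZMod N))) := by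
    intro s
    rw [mul_sum (range N), mul_sum (range N), mul_add, mul_add, mul_sum, mul_sum]
    congr 1
    · ring
    · refine sum_congr rfl fun k _ => ?_
      ring
  simp_rw [hsplit]
  rw [sum_add_distrib, ← mul_sum, MulChar.sum_eq_zero_of_ne_one (inv_ne_one_of_odd hodd),
    mul_zero, zero_add, ← mul_sum, sum_comm]
  simp_rw [← mul_sum]
  have h1 : ∀ k : ℕ, ∑ s : ZMod N, χ⁻¹ s * stdAddChar (s * (k : ZMod N)) =
      χ (k : ZMod N) * gaussSum χ⁻¹ stdAddChar := by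
    intro k
    have := sum_mul_stdAddChar χ⁻¹ (inv_isPrimitive hχ) (k : ZMod N)
    rwa [inv_inv] at this
  simp_rw [h1]
  rw [B1, mul_sum, mul_sum, mul_sum]
  refine sum_congr rfl fun k _ => ?_
  ring

/-- **(Z7), coefficientwise**: `Σ_s χ⁻¹ s · zCoeff s n = 2πi G(χ⁻¹) · eCoeff χ n`. -/
theorem sum_inv_mul_zCoeff (hχ : χ.IsPrimitive) (hodd : χ.Odd) (n : ℕ) :
    ∑ s : ZMod N, χ⁻¹ s * zCoeff s n = 2 * π * I * gaussSum χ⁻¹ stdAddChar * eCoeff χ n := by
  by_cases hn : n = 0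
  · simp only [zCoeff, eCoeff, if_pos hn]
    exact sum_inv_mul_cot hχ hodd
  · simp only [zCoeff, eCoeff, if_neg hn]
    have h1 : ∀ s : ZMod N, χ⁻¹ s * (-2 * π * I * ∑ k ∈ n.divisors,
        (stdAddChar (s * (k : ZMod N)) - stdAddChar (-(s * (k : ZMod N))))) =
        -2 * π * I * ∑ k ∈ n.divisors,
          χ⁻¹ s * (stdAddChar (s * (k : ZMod N)) - stdAddChar (-(s * (k : ZMod N)))) := by
      intro s
      rw [mul_sum, mul_sum, mul_sum]
      refine sum_congr rfl fun k _ => ?_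
      ring
    simp_rw [h1]
    rw [← mul_sum, sum_comm]
    simp_rw [sum_inv_mul_stdAddChar_sub hχ hodd]
    rw [sigmaChi, mul_sum, mul_sum, mul_sum]
    refine sum_congr rfl fun k _ => ?_
    ring

/-- The normalisation constant `2πi G(χ⁻¹)` is nonzero. -/
theorem two_pi_I_mul_gaussSum_ne_zero (hχ : χ.IsPrimitive) :
    2 * π * I * gaussSum χ⁻¹ stdAddChar ≠ 0 := by
  refine mul_ne_zero (mul_ne_zero (mul_ne_zero two_ne_zero ?_) Complex.I_ne_zero)
    (gaussSum_ne_zero_of_isPrimitive χ⁻¹ (inv_isPrimitive hχ))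
  exact_mod_cast Real.pi_ne_zero

end Fermat.Agent.ES.R48.GaussCot3
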