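/-
Programme R (S48), chapter B4 EIS (helper3): bridge between `GaussCot3` (the finite algebra of
(Z6) ⇒ (Z7)) and the constants of the RAT interface `RatIface22` (`eisConst`, `sigmaChi`),
in the classical normalisation `E_χ = κ · Σ_s χ⁻¹(s) F_s`, `κ = 1 / (-4πi · G(χ⁻¹))`:

* `kappa_mul_sum_zCoeff`: `κ · Σ_s χ⁻¹ s · zCoeff s n = if n = 0 then eisConst χ else sigmaChi χ n`;
* `kappa_mul_sum_cusp`: `κ · Σ_{r < L} χ⁻¹ r · (-πi + 2πi r / L) = eisConst χ⁻¹ / G(χ⁻¹)`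
  (the value of `E_χ ∣ S` at `i∞`).
-/
import Mathlib
import Fermat.Agent.ES.R48.GaussCot3
import Fermat.Agent.ES.R48.RatIface22

set_option autoImplicit false

open Complex Finset ZMod
open scoped Real

noncomputable section

namespace Fermat.Agent.ES.R48.EisConstIface3

open Fermat.Agent.ES.R48.GaussCot3 Fermat.Agent.ES.R48

variable {L : ℕ} [NeZero L] (χ : DirichletCharacter ℂ L)

/-- the normalising constant `κ = 1 / (-4πi · G(χ⁻¹))`. -/
def kappa : ℂ := 1 / (-4 * π * I * gaussSum χ⁻¹ stdAddChar)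

omit [NeZero L] in
theorem sigmaChi_eq (n : ℕ) : RatIface22.sigmaChi χ n = GaussCot3.sigmaChi χ n := rfl

theorem eisConst_eq : RatIface22.eisConst χ = -(B1 χ) / 2 := by
  rw [RatIface22.eisConst, B1]
  have hL : (L : ℂ) ≠ 0 := Nat.cast_ne_zero.mpr (NeZero.ne L)
  field_simp

variable {χ}

theorem kappa_mul_two_pi (hχ : χ.IsPrimitive) :
    kappa χ * (2 * π * I * gaussSum χ⁻¹ stdAddChar) = -1 / 2 := by
  have h := two_pi_I_mul_gaussSum_ne_zero hχ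
  rw [kappa]
  have h4 : -4 * (π : ℂ) * I * gaussSum χ⁻¹ stdAddChar =
      -2 * (2 * π * I * gaussSum χ⁻¹ stdAddChar) := by ring
  rw [h4, one_div, mul_inv, mul_assoc, inv_mul_cancel₀ h]
  norm_num

/-- the `q`-coefficients of `E_χ = κ Σ_s χ⁻¹(s) F_s` are `eisConst χ`, `σ_χ(n)`. -/
theorem kappa_mul_sum_zCoeff (hχ : χ.IsPrimitive) (hodd : χ.Odd) (n : ℕ) :
    kappa χ * ∑ s : ZMod L, χ⁻¹ s * zCoeff s n =
      if n = 0 then RatIface22.eisConst χ else RatIface22.sigmaChi χ n := by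
  rw [sum_inv_mul_zCoeff hχ hodd, ← mul_assoc, kappa_mul_two_pi hχ, eCoeff]
  by_cases hn : n = 0
  · rw [if_pos hn, if_pos hn, eisConst_eq]; ring
  · rw [if_neg hn, if_neg hn, sigmaChi_eq]; ring

/-- the limit of `E_χ ∣ S` at `i∞`:
`κ Σ_{r<L} χ⁻¹(r) (-πi + 2πi r/L) = eisConst χ⁻¹ / G(χ⁻¹)`. -/
theorem kappa_mul_sum_cusp (hχ : χ.IsPrimitive) (hodd : χ.Odd) :
    kappa χ * ∑ r ∈ range L, χ⁻¹ (r : ZMod L) * (-(π : ℂ) * I + 2 * π * I * r / L) =
      RatIface22.eisConst χ⁻¹ / gaussSum χ⁻¹ stdAddChar := by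
  have hG := gaussSum_ne_zero_of_isPrimitive χ⁻¹ (inv_isPrimitive hχ)
  have hL : (L : ℂ) ≠ 0 := Nat.cast_ne_zero.mpr (NeZero.ne L)
  have hpi : (π : ℂ) ≠ 0 := by exact_mod_cast Real.pi_ne_zero
  -- `Σ_{r<L} χ⁻¹ r = 0`
  have h0 : ∑ r ∈ range L, χ⁻¹ (r : ZMod L) = 0 := by
    have h1 := MulChar.sum_eq_zero_of_ne_one (inv_ne_one_of_odd hodd)
    rw [← h1]
    exact (Finset.sum_bij' (fun r _ => (r : ZMod L)) (fun s _ => s.val)
      (fun _ _ => mem_univ _) (fun s _ => mem_range.mpr (ZMod.val_lt s))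
      (fun r hr => ZMod.val_cast_of_lt (mem_range.mp hr)) (fun s _ => ZMod.natCast_zmod_val s)
      (fun _ _ => rfl))
  have hsplit : ∑ r ∈ range L, χ⁻¹ (r : ZMod L) * (-(π : ℂ) * I + 2 * π * I * r / L) =
      -(π : ℂ) * I * ∑ r ∈ range L, χ⁻¹ (r : ZMod L) +
        2 * π * I / L * ∑ r ∈ range L, (r : ℂ) * χ⁻¹ (r : ZMod L) := by
    rw [mul_sum, mul_sum, ← sum_add_distrib]
    refine sum_congr rfl fun r _ => ?_
    ring
  rw [hsplit, h0, mul_zero, zero_add, RatIface22.eisConst, kappa]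
  field_simp
  ring

end Fermat.Agent.ES.R48.EisConstIface3
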