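/-
Programme R (S48), chapter B4 EIS (helper3), leaf (d): the constant term of the weight-one
Eisenstein series of an odd primitive character does not vanish.

* `hurwitzZetaOdd_one`: `hurwitzZetaOdd a 1 = (π / 2) cot (π a)` for `0 < a < 1`
  (Mathlib has the Dirichlet series of `hurwitzZetaOdd a` only for `1 < re s`; we let `s → 1⁺`
  by dominated convergence, the paired terms `(n+a)^{-s} - (n+1-a)^{-s}` being `O(n^{-2})`
  uniformly for `s ∈ [1, 2]`, and identify the limit with the Mittag-Leffler series of `cot`);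
* `LFunction_inv_one`: `L(1, χ⁻¹) = (π i / N) · G(χ⁻¹) · B_{1,χ}` for `χ` odd and primitive
  (`ZMod.LFunction_def_odd` + `GaussCot3.sum_inv_mul_cot`);
* `B1_ne_zero`, `eisConst_ne_zero`, `eisConst_inv_ne_zero`, `cusp_value_ne_zero`: by
  `DirichletCharacter.LFunction_apply_one_ne_zero`.
-/
import Mathlib
import Fermat.Agent.ES.R48.GaussCot3
import Fermat.Agent.ES.R48.RatIface22
import Fermat.Agent.ES.R48.EisConstIface3

set_option autoImplicit false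

open Complex Filter Topology Set HurwitzZeta ZMod
open scoped Real

noncomputable section

namespace Fermat.Agent.ES.R48.EisConstNe3

open Fermat.Agent.ES.R48.GaussCot3 Fermat.Agent.ES.R48

/-! ### The real estimate -/

/-- `n^{-σ} - (n+1)^{-σ} ≤ 2 / n²` for `1 ≤ σ ≤ 2`, `n ≥ 1`. -/
lemma rpow_neg_sub_le {t : ℝ} (ht : 1 ≤ t) {σ : ℝ} (h1 : 1 ≤ σ) (h2 : σ ≤ 2) :
    (t ^ σ)⁻¹ - ((t + 1) ^ σ)⁻¹ ≤ 2 / t ^ 2 := by
  have ht0 : 0 < t := by linarith
  have ht1 : 0 < t + 1 := by linarith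
  have hB := one_add_mul_self_le_rpow_one_add (s := -1 / (t + 1)) (by
    rw [neg_div, neg_le_neg_iff, div_le_one ht1]; linarith) h1
  have h3 : 1 + -1 / (t + 1) = t / (t + 1) := by field_simp; ring
  rw [h3, Real.div_rpow ht0.le ht1.le] at hB
  have hts : 0 < t ^ σ := Real.rpow_pos_of_pos ht0 σ
  have ht1s : 0 < (t + 1) ^ σ := Real.rpow_pos_of_pos ht1 σ
  have h4 : (t ^ σ)⁻¹ * (1 + σ * (-1 / (t + 1))) ≤ ((t + 1) ^ σ)⁻¹ := by
    have := mul_le_mul_of_nonneg_left hB (inv_nonneg.mpr hts.le)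
    calc (t ^ σ)⁻¹ * (1 + σ * (-1 / (t + 1))) ≤ (t ^ σ)⁻¹ * (t ^ σ / (t + 1) ^ σ) := this
      _ = ((t + 1) ^ σ)⁻¹ := by field_simp
  have h5 : (t ^ σ)⁻¹ ≤ t⁻¹ := by
    rw [← Real.rpow_neg ht0.le, ← Real.rpow_neg_one t]
    exact Real.rpow_le_rpow_of_exponent_le ht (by linarith)
  have h6 : (t ^ σ)⁻¹ - ((t + 1) ^ σ)⁻¹ ≤ (t ^ σ)⁻¹ * (σ / (t + 1)) := by
    have : (t ^ σ)⁻¹ * (1 + σ * (-1 / (t + 1))) = (t ^ σ)⁻¹ - (t ^ σ)⁻¹ * (σ / (t + 1)) := by ring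
    linarith
  have h7 : (t ^ σ)⁻¹ * (σ / (t + 1)) ≤ t⁻¹ * (2 / t) := by
    apply mul_le_mul h5 _ (by positivity) (by positivity)
    rw [div_le_div_iff₀ ht1 ht0]; nlinarith
  have h8 : t⁻¹ * (2 / t) = 2 / t ^ 2 := by field_simp
  linarith

/-- the dominating sequence. -/
def bnd (a : ℝ) (n : ℕ) : ℝ :=
  (if n = 0 then (a ^ 2)⁻¹ + ((1 - a) ^ 2)⁻¹ else 0) + 2 / (n : ℝ) ^ 2

lemma summable_bnd (a : ℝ) : Summable (bnd a) := by
  refine Summable.add ?_ ?_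
  · exact (hasSum_ite_eq 0 _).summable
  · have := (Real.summable_one_div_nat_pow (p := 2)).mpr (by norm_num)
    simpa [div_eq_mul_inv] using this.mul_left 2

/-- the real term. -/
def rterm (a σ : ℝ) (n : ℕ) : ℝ := ((((n : ℝ) + a) ^ σ)⁻¹ - (((n : ℝ) + 1 - a) ^ σ)⁻¹) / 2

lemma abs_rterm_le {a : ℝ} (ha0 : 0 < a) (ha1 : a < 1) {σ : ℝ} (h1 : 1 ≤ σ) (h2 : σ ≤ 2)
    (n : ℕ) : |rterm a σ n| ≤ bnd a n := by
  have hσ0 : 0 ≤ σ := by linarith
  rcases Nat.eq_zero_or_pos n with rfl | hn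
  · simp only [rterm, bnd, Nat.cast_zero, zero_add, if_true]
    have hb : 0 < 1 - a := by linarith
    have e1 : (a ^ σ)⁻¹ ≤ (a ^ 2)⁻¹ := by
      have := Real.rpow_le_rpow_of_exponent_ge ha0 ha1.le h2
      rw [Real.rpow_two] at this
      exact inv_anti₀ (by positivity) this
    have e2 : ((1 - a) ^ σ)⁻¹ ≤ ((1 - a) ^ 2)⁻¹ := by
      have := Real.rpow_le_rpow_of_exponent_ge hb (by linarith : 1 - a ≤ 1) h2
      rw [Real.rpow_two] at this
      exact inv_anti₀ (by positivity) this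
    have p1 : 0 < (a ^ σ)⁻¹ := inv_pos.mpr (Real.rpow_pos_of_pos ha0 σ)
    have p2 : 0 < ((1 - a) ^ σ)⁻¹ := inv_pos.mpr (Real.rpow_pos_of_pos hb σ)
    have : (0:ℝ) ^ 2 = 0 := by norm_num
    rw [this, div_zero, add_zero, abs_le]
    constructor <;> linarith
  · have hn1 : (1 : ℝ) ≤ n := by exact_mod_cast hn
    have hn0 : (0 : ℝ) < n := by linarith
    simp only [rterm, bnd, if_neg hn.ne', zero_add]
    have hu0 : (0:ℝ) < n + a := by linarith
    have hv0 : (0:ℝ) < n + 1 - a := by linarith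
    have key := rpow_neg_sub_le hn1 h1 h2
    -- monotonicity
    have mu1 : ((n : ℝ) + a) ^ σ ≤ ((n : ℝ) + 1) ^ σ :=
      Real.rpow_le_rpow hu0.le (by linarith) hσ0
    have mu2 : (n : ℝ) ^ σ ≤ ((n : ℝ) + a) ^ σ :=
      Real.rpow_le_rpow hn0.le (by linarith) hσ0
    have mv1 : ((n : ℝ) + 1 - a) ^ σ ≤ ((n : ℝ) + 1) ^ σ :=
      Real.rpow_le_rpow hv0.le (by linarith) hσ0
    have mv2 : (n : ℝ) ^ σ ≤ ((n : ℝ) + 1 - a) ^ σ :=
      Real.rpow_le_rpow hn0.le (by linarith) hσ0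
    have pn : 0 < (n : ℝ) ^ σ := Real.rpow_pos_of_pos hn0 σ
    have pu : 0 < ((n : ℝ) + a) ^ σ := Real.rpow_pos_of_pos hu0 σ
    have pv : 0 < ((n : ℝ) + 1 - a) ^ σ := Real.rpow_pos_of_pos hv0 σ
    have iu1 := inv_anti₀ pu mu1
    have iu2 := inv_anti₀ pn mu2
    have iv1 := inv_anti₀ pv mv1
    have iv2 := inv_anti₀ pn mv2
    rw [abs_le]
    constructor <;> linarith

/-! ### Dominated convergence `s → 1⁺` -/

/-- the complex term of the Dirichlet series of `hurwitzZetaOdd a`. -/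
def cterm (a : ℝ) (s : ℂ) (n : ℕ) : ℂ :=
  (1 / ((n : ℂ) + a) ^ s - 1 / ((n : ℂ) + 1 - a) ^ s) / 2

lemma cterm_ofReal {a : ℝ} (ha0 : 0 < a) (ha1 : a < 1) (σ : ℝ) (n : ℕ) :
    cterm a (σ : ℂ) n = ((rterm a σ n : ℝ) : ℂ) := by
  have hu0 : (0:ℝ) ≤ n + a := by positivity
  have hv0 : (0:ℝ) ≤ n + 1 - a := by
    have : (0:ℝ) ≤ n := Nat.cast_nonneg n
    linarith
  have e1 : ((n : ℂ) + a) = (((n : ℝ) + a : ℝ) : ℂ) := by push_cast; rfl
  have e2 : ((n : ℂ) + 1 - a) = (((n : ℝ) + 1 - a : ℝ) : ℂ) := by push_cast; rfl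
  rw [cterm, rterm, e1, e2, ← Complex.ofReal_cpow hu0, ← Complex.ofReal_cpow hv0]
  push_cast
  ring

lemma norm_cterm_le {a : ℝ} (ha0 : 0 < a) (ha1 : a < 1) {σ : ℝ} (h1 : 1 ≤ σ) (h2 : σ ≤ 2)
    (n : ℕ) : ‖cterm a (σ : ℂ) n‖ ≤ bnd a n := by
  rw [cterm_ofReal ha0 ha1, Complex.norm_real, Real.norm_eq_abs]
  exact abs_rterm_le ha0 ha1 h1 h2 n

lemma tendsto_cterm {a : ℝ} (ha0 : 0 < a) (ha1 : a < 1) (n : ℕ) :
    Tendsto (fun σ : ℝ => cterm a (σ : ℂ) n) (𝓝[>] 1) (𝓝 (cterm a 1 n)) := by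
  have hu : ((n : ℂ) + a) ≠ 0 := by
    have : (0:ℝ) < n + a := by positivity
    have e1 : ((n : ℂ) + a) = (((n : ℝ) + a : ℝ) : ℂ) := by push_cast; rfl
    rw [e1]; exact_mod_cast this.ne'
  have hv : ((n : ℂ) + 1 - a) ≠ 0 := by
    have : (0:ℝ) < n + 1 - a := by
      have : (0:ℝ) ≤ n := Nat.cast_nonneg n
      linarith
    have e2 : ((n : ℂ) + 1 - a) = (((n : ℝ) + 1 - a : ℝ) : ℂ) := by push_cast; rfl
    rw [e2]; exact_mod_cast this.ne'
  have hc : Continuous (fun σ : ℝ => cterm a (σ : ℂ) n) := by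
    unfold cterm
    have c1 : Continuous fun σ : ℝ => ((n : ℂ) + a) ^ (σ : ℂ) :=
      continuous_ofReal.const_cpow (Or.inl hu)
    have c2 : Continuous fun σ : ℝ => ((n : ℂ) + 1 - a) ^ (σ : ℂ) :=
      continuous_ofReal.const_cpow (Or.inl hv)
    have n1 : ∀ σ : ℝ, ((n : ℂ) + a) ^ (σ : ℂ) ≠ 0 := fun σ => by
      rw [Ne, cpow_eq_zero_iff]; tauto
    have n2 : ∀ σ : ℝ, ((n : ℂ) + 1 - a) ^ (σ : ℂ) ≠ 0 := fun σ => by
      rw [Ne, cpow_eq_zero_iff]; tauto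
    exact ((continuous_const.div c1 n1).sub (continuous_const.div c2 n2)).div_const 2
  have := hc.tendsto 1
  simp only [ofReal_one] at this
  exact tendsto_nhdsWithin_of_tendsto_nhds this

/-- `hurwitzZetaOdd a 1` as the (conditionally arranged) series. -/
lemma hurwitzZetaOdd_one_eq_tsum {a : ℝ} (ha0 : 0 < a) (ha1 : a < 1) :
    hurwitzZetaOdd (a : UnitAddCircle) 1 = ∑' n : ℕ, cterm a 1 n := by
  have hdc : Tendsto (fun σ : ℝ => ∑' n : ℕ, cterm a (σ : ℂ) n) (𝓝[>] 1)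
      (𝓝 (∑' n : ℕ, cterm a 1 n)) := by
    refine tendsto_tsum_of_dominated_convergence (summable_bnd a) (tendsto_cterm ha0 ha1) ?_
    have hmem : Ioc (1:ℝ) 2 ∈ 𝓝[>] (1:ℝ) := Ioc_mem_nhdsGT (by norm_num)
    filter_upwards [hmem] with σ hσ n
    exact norm_cterm_le ha0 ha1 hσ.1.le hσ.2 n
  have hcont : Tendsto (fun σ : ℝ => hurwitzZetaOdd (a : UnitAddCircle) (σ : ℂ)) (𝓝[>] 1)
      (𝓝 (hurwitzZetaOdd (a : UnitAddCircle) 1)) := by
    have hc : Continuous (fun σ : ℝ => hurwitzZetaOdd (a : UnitAddCircle) (σ : ℂ)) :=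
      (differentiable_hurwitzZetaOdd _).continuous.comp continuous_ofReal
    have := hc.tendsto 1
    simp only [ofReal_one] at this
    exact tendsto_nhdsWithin_of_tendsto_nhds this
  have heq : (fun σ : ℝ => ∑' n : ℕ, cterm a (σ : ℂ) n) =ᶠ[𝓝[>] 1]
      (fun σ : ℝ => hurwitzZetaOdd (a : UnitAddCircle) (σ : ℂ)) := by
    filter_upwards [self_mem_nhdsWithin] with σ hσ
    have hs : 1 < ((σ : ℂ)).re := by simpa using hσ
    exact (hasSum_nat_hurwitzZetaOdd_of_mem_Icc ⟨ha0.le, ha1.le⟩ hs).tsum_eq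
  exact tendsto_nhds_unique hcont (hdc.congr' heq)

/-! ### The limit series is the cotangent -/

lemma ofReal_mem_integerComplement {a : ℝ} (ha0 : 0 < a) (ha1 : a < 1) :
    (a : ℂ) ∈ Complex.integerComplement := by
  rw [Complex.mem_integerComplement_iff]
  rintro ⟨m, hm⟩
  have hm' : (m : ℝ) = a := by exact_mod_cast hm
  have h0 : (0 : ℝ) < m := by rw [hm']; exact ha0
  have h1 : (m : ℝ) < 1 := by rw [hm']; exact ha1
  have h0' : (0 : ℤ) < m := by exact_mod_cast h0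
  have h1' : m < (1 : ℤ) := by exact_mod_cast h1
  omega

lemma sum_cterm_one {a : ℝ} (ha0 : 0 < a) (ha1 : a < 1) (M : ℕ) :
    ∑ n ∈ Finset.range M, cterm a 1 n =
      (∑ j ∈ Finset.range M, cotTerm (a : ℂ) j + 1 / (a : ℂ) - 1 / ((M : ℂ) + a)) / 2 := by
  have ha : (a : ℂ) ≠ 0 := by exact_mod_cast ha0.ne'
  induction M with
  | zero => simp
  | succ M ih =>
    rw [Finset.sum_range_succ, Finset.sum_range_succ, ih, cterm, cotTerm, cpow_one, cpow_one]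
    have h1 : ((M : ℂ) + a) ≠ 0 := by
      have : (0:ℝ) < M + a := by positivity
      have e1 : ((M : ℂ) + a) = (((M : ℝ) + a : ℝ) : ℂ) := by push_cast; rfl
      rw [e1]; exact_mod_cast this.ne'
    have h2 : ((M : ℂ) + 1 - a) ≠ 0 := by
      have : (0:ℝ) < M + 1 - a := by
        have : (0:ℝ) ≤ M := Nat.cast_nonneg M
        linarith
      have e2 : ((M : ℂ) + 1 - a) = (((M : ℝ) + 1 - a : ℝ) : ℂ) := by push_cast; rfl
      rw [e2]; exact_mod_cast this.ne'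
    have h3 : ((a : ℂ) - ((M : ℂ) + 1)) ≠ 0 := by
      intro h; apply h2; linear_combination -h
    have h4 : ((a : ℂ) + ((M : ℂ) + 1)) ≠ 0 := by
      have : (0:ℝ) < a + (M + 1) := by positivity
      have e1 : ((a : ℂ) + ((M : ℂ) + 1)) = ((a + ((M : ℝ) + 1) : ℝ) : ℂ) := by push_cast; rfl
      rw [e1]; exact_mod_cast this.ne'
    have h5 : (((M + 1 : ℕ) : ℂ) + a) ≠ 0 := by
      intro h; apply h4; rw [← h]; push_cast; ring
    push_cast at h5 ⊢
    field_simp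
    ring

lemma tsum_cterm_one {a : ℝ} (ha0 : 0 < a) (ha1 : a < 1) :
    ∑' n : ℕ, cterm a 1 n = π / 2 * Complex.cot (π * a) := by
  have hsum : Summable (fun n : ℕ => cterm a 1 n) := by
    refine Summable.of_norm_bounded (summable_bnd a) fun n => ?_
    have := norm_cterm_le ha0 ha1 (σ := 1) le_rfl (by norm_num) n
    simpa using this
  have h1 := hsum.hasSum.tendsto_sum_nat
  have hcot := tendsto_logDeriv_euler_cot_sub (ofReal_mem_integerComplement ha0 ha1)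
  have hinv : Tendsto (fun M : ℕ => 1 / ((M : ℂ) + a)) atTop (𝓝 0) := by
    have hr : Tendsto (fun M : ℕ => ((M : ℝ) + a)⁻¹) atTop (𝓝 0) :=
      (tendsto_atTop_add_const_right _ a tendsto_natCast_atTop_atTop).inv_tendsto_atTop
    have := (Complex.continuous_ofReal.tendsto 0).comp hr
    simp only [ofReal_zero] at this
    refine this.congr fun M => ?_
    simp [Function.comp]
  have h2 : Tendsto (fun M : ℕ => (∑ j ∈ Finset.range M, cotTerm (a : ℂ) j + 1 / (a : ℂ)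
      - 1 / ((M : ℂ) + a)) / 2) atTop
      (𝓝 (((π * Complex.cot (π * a) - 1 / (a : ℂ)) + 1 / (a : ℂ) - 0) / 2)) :=
    (((hcot.add_const _).sub hinv).div_const 2)
  have h3 := tendsto_nhds_unique h1 (h2.congr fun M => (sum_cterm_one ha0 ha1 M).symm)
  rw [h3]
  ring

theorem hurwitzZetaOdd_one {a : ℝ} (ha0 : 0 < a) (ha1 : a < 1) :
    hurwitzZetaOdd (a : UnitAddCircle) 1 = π / 2 * Complex.cot (π * a) := by
  rw [hurwitzZetaOdd_one_eq_tsum ha0 ha1, tsum_cterm_one ha0 ha1]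

/-! ### The `L`-value and the non-vanishing -/

variable {N : ℕ} [NeZero N]

lemma hurwitzZetaOdd_toAddCircle_one (j : ZMod N) :
    hurwitzZetaOdd (ZMod.toAddCircle j) 1 = π / 2 * Complex.cot (π * ((j.val : ℂ) / N)) := by
  by_cases hj : j = 0
  · subst hj
    have h0 : hurwitzZetaOdd (0 : UnitAddCircle) 1 = 0 := by
      have := hurwitzZetaOdd_neg (0 : UnitAddCircle) 1
      rw [neg_zero] at this
      exact self_eq_neg.mp this
    rw [map_zero, ZMod.val_zero, h0]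
    simp [Complex.cot]
  · have hN : (0 : ℝ) < N := Nat.cast_pos.mpr (NeZero.pos N)
    have h0 : (0 : ℝ) < (j.val : ℝ) / N :=
      div_pos (Nat.cast_pos.mpr ((ZMod.val_pos).mpr hj)) hN
    have h1 : (j.val : ℝ) / N < 1 := by
      rw [div_lt_one hN]
      exact_mod_cast ZMod.val_lt j
    rw [ZMod.toAddCircle_apply, hurwitzZetaOdd_one h0 h1]
    push_cast
    rfl

variable {χ : DirichletCharacter ℂ N}

omit [NeZero N] in
lemma inv_odd (hodd : χ.Odd) : χ⁻¹.Odd := by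
  have h : χ (-1) = -1 := hodd
  show χ⁻¹ (-1) = -1
  rw [MulChar.inv_apply_eq_inv', h]
  norm_num

/-- `L(1, χ⁻¹) = (π i / N) · G(χ⁻¹) · B_{1,χ}` for odd primitive `χ`. -/
theorem LFunction_inv_one (hχ : χ.IsPrimitive) (hodd : χ.Odd) :
    DirichletCharacter.LFunction χ⁻¹ 1 = π * I / N * gaussSum χ⁻¹ stdAddChar * B1 χ := by
  have hN0 : (N : ℂ) ≠ 0 := Nat.cast_ne_zero.mpr (NeZero.ne N)
  rw [DirichletCharacter.LFunction, ZMod.LFunction_def_odd (inv_odd hodd).to_fun, cpow_neg_one]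
  have h1 : ∑ j : ZMod N, χ⁻¹ j * hurwitzZetaOdd (ZMod.toAddCircle j) 1 =
      1 / 2 * ∑ j : ZMod N, χ⁻¹ j * ((π : ℂ) * Complex.cot (π * ((j.val : ℂ) / N))) := by
    rw [Finset.mul_sum]
    refine Finset.sum_congr rfl fun j _ => ?_
    rw [hurwitzZetaOdd_toAddCircle_one]
    ring
  rw [h1, sum_inv_mul_cot hχ hodd]
  field_simp

theorem B1_ne_zero (hχ : χ.IsPrimitive) (hodd : χ.Odd) : B1 χ ≠ 0 := by
  intro h
  have h1 := LFunction_inv_one hχ hodd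
  rw [h, mul_zero] at h1
  exact DirichletCharacter.LFunction_apply_one_ne_zero (inv_ne_one_of_odd hodd) h1

theorem eisConst_ne_zero (hodd : χ.Odd) (hχ : χ.IsPrimitive) : RatIface22.eisConst χ ≠ 0 := by
  rw [EisConstIface3.eisConst_eq]
  exact div_ne_zero (neg_ne_zero.mpr (B1_ne_zero hχ hodd)) two_ne_zero

theorem eisConst_inv_ne_zero (hodd : χ.Odd) (hχ : χ.IsPrimitive) :
    RatIface22.eisConst χ⁻¹ ≠ 0 :=
  eisConst_ne_zero (inv_odd hodd) (inv_isPrimitive hχ)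

/-- the value of `E_χ ∣ S` at `i∞` (see `EisConstIface3.kappa_mul_sum_cusp`) is non-zero. -/
theorem cusp_value_ne_zero (hodd : χ.Odd) (hχ : χ.IsPrimitive) :
    RatIface22.eisConst χ⁻¹ / gaussSum χ⁻¹ stdAddChar ≠ 0 :=
  div_ne_zero (eisConst_inv_ne_zero hodd hχ)
    (gaussSum_ne_zero_of_isPrimitive χ⁻¹ (inv_isPrimitive hχ))

end Fermat.Agent.ES.R48.EisConstNe3
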