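/-
Programme R (S48), chapter B4 (EIS), file 5 (helper24): generalized power series in `t = 𝕢 h τ`.

* `hasSum_fiberwise_pow` : a summable family `a i * t ^ e i` regroups into a power series
  `∑ n, (∑' i : e ⁻¹' {n}, a i) * t ^ n`;
* `mdifferentiable_of_hasSum_qParam` : a function on `ℍ` given everywhere by a convergent power
  series in `𝕢 h τ` is holomorphic;
* `hasSum_gq` : `gq u = ∑_{d ≥ 1} u^d` for `‖u‖ < 1`;
* `lam a j N t = ∑_k gq(a t^(j+Nk))` and its power series `hasSum_lam_pow` (coefficients `lamCoeff`).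
-/
import Mathlib
import Fermat.Agent.ES.R48.CotAux24

set_option autoImplicit false

noncomputable section

namespace Fermat.Agent.ES.R48.QSeriesAux24

open Complex Filter Topology Function
open Fermat.Agent.ES.R48.CotAux24
open UpperHalfPlane hiding I
open scoped Real Manifold

/-- Regrouping a summable "generalized power series" by exponents. -/
theorem hasSum_fiberwise_pow {ι : Type*} (a : ι → ℂ) (e : ι → ℕ) (t : ℂ)
    (hs : Summable fun i ↦ a i * t ^ e i) :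
    HasSum (fun n : ℕ ↦ (∑' i : e ⁻¹' {n}, a i) * t ^ n) (∑' i, a i * t ^ e i) := by
  have h := hs.hasSum.tsum_fiberwise e
  refine h.congr_fun fun n ↦ ?_
  rw [← tsum_mul_right]
  refine tsum_congr fun i ↦ ?_
  have : e i = n := i.2
  rw [this]

/-- A function given by a convergent power series in `𝕢 h τ` factors through a holomorphic
function on the unit disc. -/
theorem exists_differentiableOn_of_hasSum_qParam {h : ℝ} (hh : 0 < h) {f : ℍ → ℂ} {c : ℕ → ℂ}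
    (hf : ∀ τ : ℍ, HasSum (fun m ↦ c m * Function.Periodic.qParam h τ ^ m) (f τ)) :
    ∃ g : ℂ → ℂ, DifferentiableOn ℂ g (Metric.ball 0 1) ∧ g 0 = c 0 ∧
      ∀ τ : ℍ, f τ = g (Function.Periodic.qParam h τ) := by
  refine ⟨fun q ↦ ∑' m, c m * q ^ m, ?_, ?_, fun τ ↦ ((hf τ).tsum_eq).symm⟩
  · have hsumm : ∀ ρ : ℝ, 0 < ρ → ρ < 1 → Summable fun m ↦ ‖c m‖ * ρ ^ m := by
      intro ρ h0 h1
      have hq : (ρ : ℂ) ≠ 0 := by exact_mod_cast h0.ne'
      have hq1 : ‖(ρ : ℂ)‖ < 1 := by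
        rw [Complex.norm_real, Real.norm_eq_abs, abs_of_pos h0]; exact h1
      have him := Function.Periodic.im_invQParam_pos_of_norm_lt_one hh hq1 hq
      have := (hf ⟨_, him⟩).summable.norm
      rw [UpperHalfPlane.coe_mk, Function.Periodic.qParam_right_inv hh.ne' hq] at this
      refine this.congr fun m ↦ ?_
      rw [norm_mul, norm_pow, Complex.norm_real, Real.norm_eq_abs, abs_of_pos h0]
    intro q hq
    rw [mem_ball_zero_iff] at hq
    obtain ⟨ρ, hρ1, hρ2⟩ := exists_between hq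
    have hρ0 : 0 < ρ := lt_of_le_of_lt (norm_nonneg q) hρ1
    have hd : DifferentiableOn ℂ (fun q ↦ ∑' m, c m * q ^ m) (Metric.ball 0 ρ) := by
      refine differentiableOn_tsum_of_summable_norm (hsumm ρ hρ0 hρ2)
        (fun m ↦ (by fun_prop)) Metric.isOpen_ball fun m w hw ↦ ?_
      rw [mem_ball_zero_iff] at hw
      rw [norm_mul, norm_pow]
      gcongr
    exact ((hd q (by rwa [mem_ball_zero_iff])).differentiableAt
      (Metric.isOpen_ball.mem_nhds (by rwa [mem_ball_zero_iff]))).differentiableWithinAt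
  · show ∑' m, c m * (0 : ℂ) ^ m = c 0
    rw [tsum_eq_single 0 (fun m hm ↦ by rw [zero_pow hm, mul_zero])]
    simp

/-- A function given by a convergent power series in `𝕢 h τ` is holomorphic on `ℍ`. -/
theorem mdifferentiable_of_hasSum_qParam {h : ℝ} (hh : 0 < h) {f : ℍ → ℂ} {c : ℕ → ℂ}
    (hf : ∀ τ : ℍ, HasSum (fun m ↦ c m * Function.Periodic.qParam h τ ^ m) (f τ)) :
    MDifferentiable 𝓘(ℂ) 𝓘(ℂ) f := by
  obtain ⟨g, hgdiff, -, hfg⟩ := exists_differentiableOn_of_hasSum_qParam hh hf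
  rw [UpperHalfPlane.mdifferentiable_iff]
  have hcomp : DifferentiableOn ℂ (g ∘ Function.Periodic.qParam h) {z : ℂ | 0 < z.im} := by
    refine hgdiff.comp (Function.Periodic.differentiable_qParam.differentiableOn) fun z hz ↦ ?_
    rw [mem_ball_zero_iff]
    exact Function.Periodic.norm_qParam_lt_one hh hz
  refine hcomp.congr fun z hz ↦ ?_
  simp only [Function.comp_apply]
  rw [UpperHalfPlane.ofComplex_apply_of_im_pos hz]
  exact hfg ⟨z, hz⟩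

/-- ... and tends to its constant coefficient at `i∞`. -/
theorem tendsto_of_hasSum_qParam {h : ℝ} (hh : 0 < h) {f : ℍ → ℂ} {c : ℕ → ℂ}
    (hf : ∀ τ : ℍ, HasSum (fun m ↦ c m * Function.Periodic.qParam h τ ^ m) (f τ)) :
    Tendsto f atImInfty (𝓝 (c 0)) := by
  obtain ⟨g, hgdiff, hg0, hfg⟩ := exists_differentiableOn_of_hasSum_qParam hh hf
  have hcont : ContinuousAt g 0 :=
    (hgdiff.differentiableAt (Metric.isOpen_ball.mem_nhds (by simp))).continuousAt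
  have h1 : Tendsto (fun τ : ℍ ↦ Function.Periodic.qParam h τ) atImInfty (𝓝 0) :=
    UpperHalfPlane.qParam_tendsto_atImInfty hh
  have h2 := hcont.tendsto.comp h1
  rw [hg0] at h2
  exact h2.congr fun τ ↦ (hfg τ).symm

theorem hasSum_gq {u : ℂ} (hu : ‖u‖ < 1) : HasSum (fun d : ℕ ↦ u ^ (d + 1)) (gq u) := by
  have h := (hasSum_geometric_of_norm_lt_one hu).mul_left u
  unfold gq
  rw [div_eq_mul_inv]
  refine h.congr_fun fun d ↦ ?_
  rw [pow_succ']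

/-- `∑_{k,d ≥ 0} ρ^((k+1)(d+1))` converges for `0 ≤ ρ < 1`. -/
theorem summable_pow_mul (ρ : ℝ) (h0 : 0 ≤ ρ) (h1 : ρ < 1) :
    Summable fun x : ℕ × ℕ ↦ ρ ^ ((x.1 + 1) * (x.2 + 1)) := by
  have h := summable_prod_mul_pow (𝕜 := ℝ) 0 (r := ρ)
    (by rw [Real.norm_eq_abs, abs_of_nonneg h0]; exact h1)
  have h' := (Equiv.prodCongr Equiv.pnatEquivNat Equiv.pnatEquivNat).symm.summable_iff.mpr h
  refine h'.congr fun x ↦ ?_
  simp [Equiv.pnatEquivNat]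

/-- `λ(a; j, N; t) = ∑_{k ≥ 0} gq(a t^(j + N k))`. -/
def lam (a : ℂ) (j N : ℕ) (t : ℂ) : ℂ := ∑' k : ℕ, gq (a * t ^ (j + N * k))

/-- the coefficients of the power series of `lam`. -/
def lamCoeff (a : ℂ) (j N : ℕ) (n : ℕ) : ℂ :=
  ∑' i : (fun x : ℕ × ℕ ↦ (x.2 + 1) * (j + N * x.1)) ⁻¹' {n}, a ^ ((i : ℕ × ℕ).2 + 1)

theorem summable_lam_terms {a : ℂ} (ha : ‖a‖ ≤ 1) {j : ℕ} (hj : 1 ≤ j) {N : ℕ} (hN : 1 ≤ N)
    {t : ℂ} (ht : ‖t‖ < 1) :
    Summable fun x : ℕ × ℕ ↦ a ^ (x.2 + 1) * t ^ ((x.2 + 1) * (j + N * x.1)) := by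
  refine Summable.of_norm_bounded (summable_pow_mul ‖t‖ (norm_nonneg t) ht) fun x ↦ ?_
  rw [norm_mul, norm_pow, norm_pow]
  have h1 : ‖a‖ ^ (x.2 + 1) ≤ 1 := pow_le_one₀ (norm_nonneg a) ha
  have h2 : ‖t‖ ^ ((x.2 + 1) * (j + N * x.1)) ≤ ‖t‖ ^ ((x.1 + 1) * (x.2 + 1)) := by
    refine pow_le_pow_of_le_one (norm_nonneg t) ht.le ?_
    rw [mul_comm (x.1 + 1)]
    refine Nat.mul_le_mul_left _ ?_
    nlinarith
  calc ‖a‖ ^ (x.2 + 1) * ‖t‖ ^ ((x.2 + 1) * (j + N * x.1))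
      ≤ 1 * ‖t‖ ^ ((x.1 + 1) * (x.2 + 1)) := by gcongr
    _ = ‖t‖ ^ ((x.1 + 1) * (x.2 + 1)) := one_mul _

theorem norm_mul_pow_lt_one {a : ℂ} (ha : ‖a‖ ≤ 1) {t : ℂ} (ht : ‖t‖ < 1) {n : ℕ} (hn : 1 ≤ n) :
    ‖a * t ^ n‖ < 1 := by
  rw [norm_mul, norm_pow]
  have h1 : ‖t‖ ^ n ≤ ‖t‖ ^ 1 := pow_le_pow_of_le_one (norm_nonneg t) ht.le hn
  rw [pow_one] at h1
  calc ‖a‖ * ‖t‖ ^ n ≤ 1 * ‖t‖ := by gcongr
    _ < 1 := by rw [one_mul]; exact ht

/-- `lam` as a double series. -/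
theorem hasSum_lam_prod {a : ℂ} (ha : ‖a‖ ≤ 1) {j : ℕ} (hj : 1 ≤ j) {N : ℕ} (hN : 1 ≤ N)
    {t : ℂ} (ht : ‖t‖ < 1) :
    HasSum (fun x : ℕ × ℕ ↦ a ^ (x.2 + 1) * t ^ ((x.2 + 1) * (j + N * x.1))) (lam a j N t) := by
  have hs := summable_lam_terms ha hj hN ht
  have hrow : ∀ k : ℕ, HasSum (fun d : ℕ ↦ a ^ (d + 1) * t ^ ((d + 1) * (j + N * k)))
      (gq (a * t ^ (j + N * k))) := by
    intro k
    have := hasSum_gq (norm_mul_pow_lt_one ha ht (n := j + N * k) (by omega))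
    refine this.congr_fun fun d ↦ ?_
    rw [mul_pow, ← pow_mul, mul_comm (j + N * k)]
  have h1 := hs.hasSum.prod_fiberwise hrow
  unfold lam
  rw [h1.tsum_eq]
  exact hs.hasSum

/-- The power series of `lam`. -/
theorem hasSum_lam_pow {a : ℂ} (ha : ‖a‖ ≤ 1) {j : ℕ} (hj : 1 ≤ j) {N : ℕ} (hN : 1 ≤ N)
    {t : ℂ} (ht : ‖t‖ < 1) :
    HasSum (fun n : ℕ ↦ lamCoeff a j N n * t ^ n) (lam a j N t) := by
  have h := hasSum_fiberwise_pow (fun x : ℕ × ℕ ↦ a ^ (x.2 + 1))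
    (fun x : ℕ × ℕ ↦ (x.2 + 1) * (j + N * x.1)) t (summable_lam_terms ha hj hN ht)
  rw [(hasSum_lam_prod ha hj hN ht).tsum_eq] at h
  exact h

theorem lamCoeff_zero {a : ℂ} {j : ℕ} (hj : 1 ≤ j) (N : ℕ) : lamCoeff a j N 0 = 0 := by
  unfold lamCoeff
  have : IsEmpty ((fun x : ℕ × ℕ ↦ (x.2 + 1) * (j + N * x.1)) ⁻¹' {0}) := by
    refine ⟨fun ⟨x, hx⟩ ↦ ?_⟩
    simp only [Set.mem_preimage, Set.mem_singleton_iff, mul_eq_zero] at hx
    omega
  exact tsum_empty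

end Fermat.Agent.ES.R48.QSeriesAux24
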