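/-
Programme R (S48), chapter B4 (EIS), file 1 (helper24): the Weierstrass ζ-function of a lattice.

`wzeta L z = ∑_{l ∈ L} (1/(z-l) + 1/l + z/l²)` (the `l = 0` term is `1/z` by the junk value
`1/0 = 0`), absolutely and locally uniformly convergent.

* `hasDerivAt_wzeta` : `ζ' = -℘` off the lattice;
* `wzeta_neg` : `ζ` is odd;
* `weta`, `wzeta_add_lattice` : `ζ(z + l) = ζ(z) + η(l)` for `l ∈ L`, `z ∉ L`; `η` is additive;
* `wzeta_homog`, `weta_homog` : homogeneity `ζ_{L'}(z) = c ζ_L(c z)` when `L' = c⁻¹ L`;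
* `zdiv L N z = ζ(z) - η(N z)/N` : the `N`-division value; periodic, homogeneous, odd.
-/
import Mathlib

set_option autoImplicit false

noncomputable section

namespace Fermat.Agent.ES.R48.ZetaLattice24

open PeriodPair Filter Topology

variable (L : PeriodPair)

/-- The summand of the Weierstrass ζ-function. -/
def zsummand (l z : ℂ) : ℂ := 1 / (z - l) + 1 / l + z / l ^ 2

theorem zsummand_zero (z : ℂ) : zsummand 0 z = 1 / z := by simp [zsummand]

theorem zsummand_eq {l z : ℂ} (hl : l ≠ 0) (hz : z ≠ l) :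
    zsummand l z = z ^ 2 / (l ^ 2 * (z - l)) := by
  have : z - l ≠ 0 := sub_ne_zero.mpr hz
  unfold zsummand
  field_simp
  ring

theorem zsummand_bound (r : ℝ) (hr : 0 < r) (s : ℂ) (hs : ‖s‖ < r) (l : ℂ) (h : 2 * r ≤ ‖l‖) :
    ‖zsummand l s‖ ≤ 2 * r ^ 2 * ‖l‖ ^ (-3 : ℝ) := by
  have hl0 : 0 < ‖l‖ := by linarith
  have hl : l ≠ 0 := norm_pos_iff.mp hl0
  have hsl : s ≠ l := by rintro rfl; linarith
  have h1 : ‖l‖ / 2 ≤ ‖s - l‖ := by
    have := norm_sub_norm_le l s
    rw [norm_sub_rev]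
    linarith
  rw [zsummand_eq hl hsl, norm_div, norm_mul, norm_pow, norm_pow]
  have h2 : ‖l‖ ^ (-3 : ℝ) = (‖l‖ ^ 3)⁻¹ := by
    rw [Real.rpow_neg hl0.le]; norm_cast
  have h4 : 0 < ‖s - l‖ := lt_of_lt_of_le (by positivity) h1
  rw [h2, div_le_iff₀ (by positivity)]
  have h3 : ‖s‖ ^ 2 ≤ r ^ 2 := by gcongr
  calc ‖s‖ ^ 2 ≤ r ^ 2 := h3
    _ = 2 * r ^ 2 * (‖l‖ ^ 3)⁻¹ * (‖l‖ ^ 2 * (‖l‖ / 2)) := by field_simp
    _ ≤ 2 * r ^ 2 * (‖l‖ ^ 3)⁻¹ * (‖l‖ ^ 2 * ‖s - l‖) := by gcongr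

/-- The Weierstrass ζ-function of the lattice of `L`. -/
def wzeta (z : ℂ) : ℂ := ∑' l : L.lattice, zsummand l z

theorem hasSumLocallyUniformly_wzeta :
    HasSumLocallyUniformly (fun (l : L.lattice) (z : ℂ) ↦ zsummand l z) (wzeta L) := by
  refine L.hasSumLocallyUniformly_aux (u := fun r l ↦ 2 * r ^ 2 * ‖l‖ ^ (-3 : ℝ)) _
    (fun _ _ ↦ (ZLattice.summable_norm_rpow _ _ (by simp; norm_num)).mul_left _) fun r hr ↦
    Filter.eventually_atTop.mpr ⟨2 * r, ?_⟩
  rintro _ h s hs l rfl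
  exact zsummand_bound r hr s hs l h

theorem hasSum_wzeta (z : ℂ) : HasSum (fun l : L.lattice ↦ zsummand l z) (wzeta L z) :=
  (hasSumLocallyUniformly_wzeta L).hasSum

theorem summable_zsummand (z : ℂ) : Summable (fun l : L.lattice ↦ zsummand l z) :=
  (hasSum_wzeta L z).summable

theorem hasDerivAt_zsummand (l : L.lattice) {z : ℂ} (hz : z ∉ L.lattice) :
    HasDerivAt (fun w ↦ zsummand l w) (-(1 / (z - l) ^ 2 - 1 / (l : ℂ) ^ 2)) z := by
  have hzl : z - l ≠ 0 := by
    intro h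
    exact hz (by rw [sub_eq_zero.mp h]; exact l.2)
  unfold zsummand
  have h0 : HasDerivAt (fun w : ℂ ↦ w - l) 1 z := (hasDerivAt_id' z).sub_const (l : ℂ)
  have h1 := h0.fun_inv hzl
  have h2 := (hasDerivAt_id' z).div_const ((l : ℂ) ^ 2)
  have h3 := (h1.add_const ((l : ℂ)⁻¹)).fun_add h2
  simp only [one_div]
  refine h3.congr_deriv ?_
  ring

theorem differentiableOn_wzeta : DifferentiableOn ℂ (wzeta L) (L.lattice : Set ℂ)ᶜ := by
  refine (hasSumLocallyUniformly_wzeta L).hasSumLocallyUniformlyOn.differentiableOn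
    (.of_forall fun s ↦ .fun_sum fun i _ ↦ ?_) L.isClosed_lattice.isOpen_compl
  intro z hz
  exact (hasDerivAt_zsummand L i hz).differentiableAt.differentiableWithinAt

theorem deriv_wzeta {z : ℂ} (hz : z ∉ L.lattice) : deriv (wzeta L) z = -℘[L] z := by
  have hopen : IsOpen (L.lattice : Set ℂ)ᶜ := L.isClosed_lattice.isOpen_compl
  have h1 := ((hasSumLocallyUniformly_wzeta L).tendstoLocallyUniformlyOn
    (s := (L.lattice : Set ℂ)ᶜ)).deriv (.of_forall fun s ↦ ?_) hopen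
  · have h2 := h1.tendsto_at hz
    have h3 : HasSum (fun l : L.lattice ↦ -(1 / (z - l) ^ 2 - 1 / (l : ℂ) ^ 2)) (-℘[L] z) :=
      (L.hasSum_weierstrassP z).neg
    refine tendsto_nhds_unique h2 (Tendsto.congr (fun s ↦ ?_) h3)
    simp only [Function.comp_apply]
    rw [deriv_fun_sum]
    · exact Finset.sum_congr rfl fun i _ ↦ (hasDerivAt_zsummand L i hz).deriv.symm
    · exact fun i _ ↦ (hasDerivAt_zsummand L i hz).differentiableAt
  · refine .fun_sum fun i _ ↦ ?_
    intro z hz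
    exact (hasDerivAt_zsummand L i hz).differentiableAt.differentiableWithinAt

theorem hasDerivAt_wzeta {z : ℂ} (hz : z ∉ L.lattice) : HasDerivAt (wzeta L) (-℘[L] z) z := by
  rw [← deriv_wzeta L hz]
  exact ((differentiableOn_wzeta L).differentiableAt
    (L.isClosed_lattice.isOpen_compl.mem_nhds hz)).hasDerivAt

theorem wzeta_neg (z : ℂ) : wzeta L (-z) = -wzeta L z := by
  simp only [wzeta]
  rw [← (Equiv.neg L.lattice).tsum_eq, ← tsum_neg]
  congr with l
  simp only [zsummand, Equiv.neg_apply, NegMemClass.coe_neg]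
  by_cases hl : (l : ℂ) = 0
  · simp [hl]
  by_cases hz : z = l
  · simp [hz]; ring
  have : z - l ≠ 0 := sub_ne_zero.mpr hz
  have h' : -z - -(l : ℂ) ≠ 0 := by
    intro h; apply this; linear_combination -h
  field_simp
  ring

theorem isPreconnected_compl_lattice : IsPreconnected (L.lattice : Set ℂ)ᶜ := by
  refine (Set.Countable.isConnected_compl_of_one_lt_rank (by simp) ?_).2
  exact countable_of_Lindelof_of_discrete (X := L.lattice)

theorem add_mem_compl_lattice {l : ℂ} (hl : l ∈ L.lattice) {z : ℂ} (hz : z ∉ L.lattice) :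
    z + l ∉ L.lattice := fun h ↦ hz (by simpa using sub_mem h hl)

theorem half_add_notMem_lattice {l : ℂ} (hl : l ∈ L.lattice) : L.ω₁ / 2 + l ∉ L.lattice :=
  add_mem_compl_lattice L hl L.ω₁_div_two_notMem_lattice

/-- The quasi-period `η(w) = ζ(ω₁/2 + w) - ζ(ω₁/2)` (meaningful for `w ∈ L`). -/
def weta (w : ℂ) : ℂ := wzeta L (L.ω₁ / 2 + w) - wzeta L (L.ω₁ / 2)

/-- Quasi-periodicity of `ζ`. -/
theorem wzeta_add_lattice {l : ℂ} (hl : l ∈ L.lattice) {z : ℂ} (hz : z ∉ L.lattice) :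
    wzeta L (z + l) = wzeta L z + weta L l := by
  have hopen : IsOpen (L.lattice : Set ℂ)ᶜ := L.isClosed_lattice.isOpen_compl
  have hd : ∀ w, w ∉ L.lattice →
      HasDerivAt (fun w ↦ wzeta L (w + l) - wzeta L w) 0 w := by
    intro w hw
    have h1 : HasDerivAt (fun w ↦ wzeta L (w + l)) (-℘[L] (w + l)) w := by
      have := (hasDerivAt_wzeta L (add_mem_compl_lattice L hl hw)).comp_add_const w l
      simpa using this
    have h2 := h1.fun_sub (hasDerivAt_wzeta L hw)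
    refine h2.congr_deriv ?_
    rw [L.weierstrassP_add_coe w ⟨l, hl⟩]
    ring
  have key := hopen.is_const_of_deriv_eq_zero (isPreconnected_compl_lattice L)
    (f := fun w ↦ wzeta L (w + l) - wzeta L w)
    (fun w hw ↦ (hd w hw).differentiableAt.differentiableWithinAt)
    (fun w hw ↦ (hd w hw).deriv) hz L.ω₁_div_two_notMem_lattice
  unfold weta
  linear_combination key

theorem weta_add {l l' : ℂ} (hl : l ∈ L.lattice) (hl' : l' ∈ L.lattice) :
    weta L (l + l') = weta L l + weta L l' := by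
  have h1 := wzeta_add_lattice L hl' (half_add_notMem_lattice L hl)
  unfold weta at h1 ⊢
  rw [← add_assoc, h1]
  ring

theorem weta_zero : weta L 0 = 0 := by simp [weta]

theorem weta_neg {l : ℂ} (hl : l ∈ L.lattice) : weta L (-l) = -weta L l := by
  have := weta_add L hl (neg_mem hl)
  rw [add_neg_cancel, weta_zero] at this
  linear_combination -this

theorem weta_nsmul (n : ℕ) {l : ℂ} (hl : l ∈ L.lattice) : weta L (n * l) = n * weta L l := by
  induction n with
  | zero => simp [weta_zero]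
  | succ n ih =>
    have hnl : (n : ℂ) * l ∈ L.lattice := by
      simpa using L.lattice.smul_mem (n : ℤ) hl
    push_cast
    rw [add_mul, one_mul, weta_add L hnl hl, ih]
    ring

theorem weta_zsmul (n : ℤ) {l : ℂ} (hl : l ∈ L.lattice) : weta L (n * l) = n * weta L l := by
  obtain ⟨m, rfl | rfl⟩ := n.eq_nat_or_neg
  · simpa using weta_nsmul L m hl
  · have hml : (m : ℂ) * l ∈ L.lattice := by
      simpa using L.lattice.smul_mem (m : ℤ) hl
    push_cast
    rw [neg_mul, weta_neg L hml, weta_nsmul L m hl]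
    ring

theorem zsummand_mul (c : ℂ) (hc : c ≠ 0) (l z : ℂ) :
    zsummand (c * l) (c * z) = c⁻¹ * zsummand l z := by
  unfold zsummand
  have h1 : 1 / (c * z - c * l) = c⁻¹ * (1 / (z - l)) := by
    rw [← mul_sub, one_div, mul_inv, one_div]
  have h2 : 1 / (c * l) = c⁻¹ * (1 / l) := by
    rw [one_div, mul_inv, one_div]
  have h3 : c * z / (c * l) ^ 2 = c⁻¹ * (z / l ^ 2) := by
    rw [mul_pow, div_eq_mul_inv, mul_inv, div_eq_mul_inv]
    field_simp
  rw [h1, h2, h3]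
  ring

variable {L} in
/-- the bijection `L' ≃ L`, `x ↦ c x`, when `L' = c⁻¹ L`. -/
def scaleEquiv {L' : PeriodPair} {c : ℂ} (hc : c ≠ 0)
    (h : ∀ x, x ∈ L'.lattice ↔ c * x ∈ L.lattice) : L'.lattice ≃ L.lattice where
  toFun x := ⟨c * x, (h x).mp x.2⟩
  invFun y := ⟨c⁻¹ * y, (h _).mpr (by rw [mul_inv_cancel_left₀ hc]; exact y.2)⟩
  left_inv x := by ext; simp [hc]
  right_inv y := by ext; simp [hc]

variable {L} in
/-- Homogeneity of `ζ`: if `L' = c⁻¹ L` then `ζ_{L'}(z) = c ζ_L(c z)`. -/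
theorem wzeta_homog {L' : PeriodPair} {c : ℂ} (hc : c ≠ 0)
    (h : ∀ x, x ∈ L'.lattice ↔ c * x ∈ L.lattice) (z : ℂ) :
    wzeta L' z = c * wzeta L (c * z) := by
  unfold wzeta
  rw [← (scaleEquiv hc h).tsum_eq, ← tsum_mul_left]
  refine tsum_congr fun x ↦ ?_
  simp only [scaleEquiv, Equiv.coe_fn_mk]
  rw [zsummand_mul c hc, mul_inv_cancel_left₀ hc]

variable {L} in
theorem weta_homog {L' : PeriodPair} {c : ℂ} (hc : c ≠ 0)
    (h : ∀ x, x ∈ L'.lattice ↔ c * x ∈ L.lattice) {l : ℂ} (hl : l ∈ L'.lattice) :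
    weta L' l = c * weta L (c * l) := by
  have hz : c * (L'.ω₁ / 2) ∉ L.lattice := fun hh ↦
    L'.ω₁_div_two_notMem_lattice ((h _).mpr hh)
  have h1 := wzeta_add_lattice L ((h l).mp hl) hz
  have h2 : weta L' l = wzeta L' (L'.ω₁ / 2 + l) - wzeta L' (L'.ω₁ / 2) := rfl
  rw [h2, wzeta_homog hc h, wzeta_homog hc h, mul_add, h1]
  ring

/-- The `N`-division value `Z(z) = ζ(z) - η(N z)/N` (meaningful when `N z ∈ L`, `z ∉ L`). -/
def zdiv (N : ℕ) (z : ℂ) : ℂ := wzeta L z - weta L (N * z) / N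

theorem zdiv_add_lattice (N : ℕ) [NeZero N] {z l : ℂ} (hNz : (N : ℂ) * z ∈ L.lattice)
    (hz : z ∉ L.lattice) (hl : l ∈ L.lattice) : zdiv L N (z + l) = zdiv L N z := by
  have hN : (N : ℂ) ≠ 0 := Nat.cast_ne_zero.mpr (NeZero.ne N)
  unfold zdiv
  have hNl : (N : ℂ) * l ∈ L.lattice := by
    simpa using L.lattice.smul_mem (N : ℤ) hl
  rw [wzeta_add_lattice L hl hz, mul_add, weta_add L hNz hNl, weta_nsmul L N hl]
  field_simp
  ring

variable {L} in
theorem zdiv_homog {L' : PeriodPair} {c : ℂ} (hc : c ≠ 0)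
    (h : ∀ x, x ∈ L'.lattice ↔ c * x ∈ L.lattice) (N : ℕ) {z : ℂ}
    (hNz : (N : ℂ) * z ∈ L'.lattice) : zdiv L' N z = c * zdiv L N (c * z) := by
  unfold zdiv
  rw [wzeta_homog hc h, weta_homog hc h hNz, mul_left_comm c (N : ℂ) z]
  ring

theorem zdiv_neg (N : ℕ) {z : ℂ} (hNz : (N : ℂ) * z ∈ L.lattice) :
    zdiv L N (-z) = -zdiv L N z := by
  unfold zdiv
  rw [wzeta_neg, mul_neg, weta_neg L hNz]
  ring

/-- `ζ` only depends on the lattice, not on the chosen periods. -/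
theorem wzeta_congr {L L' : PeriodPair} (h : L.lattice = L'.lattice) : wzeta L = wzeta L' := by
  funext z
  have := wzeta_homog (L := L') (L' := L) (c := 1) one_ne_zero (by intro x; rw [h, one_mul]) z
  simpa using this

/-- `η` only depends on the lattice, not on the chosen periods. -/
theorem weta_congr {L L' : PeriodPair} (h : L.lattice = L'.lattice) {l : ℂ} (hl : l ∈ L.lattice) :
    weta L l = weta L' l := by
  have := weta_homog (L := L') (L' := L) (c := 1) one_ne_zero (by intro x; rw [h, one_mul]) hl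
  simpa using this

end Fermat.Agent.ES.R48.ZetaLattice24
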