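/-
Programme R (S48), chapter B4 (EIS), file 2 (helper24): the lattices `Λ_τ = ℤτ + ℤ`, `τ ∈ ℍ`, and
the `N`-division values `Zv N r s τ = Z_{Λ_τ}((rτ+s)/N)` of the Weierstrass ζ-function.

* `tauPair τ` : the `PeriodPair` `(τ, 1)`; `mem_tauLattice`;
* `mem_tauLattice_smul` : `Λ_{γτ} = (cτ+d)⁻¹ Λ_τ` for `γ ∈ SL(2,ℤ)`;
* `Zv_smul` : **`Z_v(γτ) = (cτ+d) Z_{vγ}(τ)`** (purely formal: homogeneity + periodicity);
* `Zv_add_left`, `Zv_add_right`, `Zv_neg` : `Z_v` only depends on `v mod N`, and is odd in `v`;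
* `Zv_slash` : `Z_v ∣[1] γ = Z_{vγ}`.
-/
import Mathlib
import Fermat.Agent.ES.R48.ZetaLattice24

set_option autoImplicit false

noncomputable section

namespace Fermat.Agent.ES.R48.ZetaTau24

open PeriodPair UpperHalfPlane Fermat.Agent.ES.R48.ZetaLattice24
open scoped MatrixGroups ModularForm

/-- The period pair `(τ, 1)`. -/
def tauPair (τ : ℍ) : PeriodPair where
  ω₁ := τ
  ω₂ := 1
  indep := by
    rw [LinearIndependent.pair_iff]
    intro a b h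
    have him := congrArg Complex.im h
    have hre := congrArg Complex.re h
    simp only [Complex.real_smul, Complex.add_im, Complex.mul_im, Complex.ofReal_re,
      Complex.ofReal_im, zero_mul, add_zero, Complex.one_im, mul_zero, Complex.zero_im,
      UpperHalfPlane.coe_im] at him
    have ha : a = 0 := by
      rcases mul_eq_zero.mp him with h' | h'
      · exact h'
      · exact absurd h' τ.im_ne_zero
    subst ha
    simp at hre
    exact ⟨rfl, hre⟩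

@[simp] theorem tauPair_ω₁ (τ : ℍ) : (tauPair τ).ω₁ = τ := rfl
@[simp] theorem tauPair_ω₂ (τ : ℍ) : (tauPair τ).ω₂ = 1 := rfl

theorem mem_tauLattice {τ : ℍ} {x : ℂ} :
    x ∈ (tauPair τ).lattice ↔ ∃ m n : ℤ, (m : ℂ) * τ + n = x := by
  rw [PeriodPair.mem_lattice]
  simp

theorem mem_tauLattice_smul (γ : SL(2, ℤ)) (τ : ℍ) (x : ℂ) :
    x ∈ (tauPair (γ • τ)).lattice ↔ denom γ τ * x ∈ (tauPair τ).lattice := by
  have hj : denom γ τ ≠ 0 := denom_ne_zero γ τ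
  have hdet : ((γ 0 0 : ℤ) : ℂ) * (γ 1 1 : ℤ) - ((γ 0 1 : ℤ) : ℂ) * (γ 1 0 : ℤ) = 1 := by
    have := γ.det_coe
    rw [Matrix.det_fin_two] at this
    exact_mod_cast this
  have hsm : ((γ • τ : ℍ) : ℂ) * denom γ τ = (γ 0 0 : ℤ) * τ + (γ 0 1 : ℤ) := by
    rw [UpperHalfPlane.coe_specialLinearGroup_apply, ModularGroup.denom_apply]
    simp only [algebraMap_int_eq, eq_intCast, Complex.ofReal_intCast]
    rw [div_mul_cancel₀]
    rw [ModularGroup.denom_apply] at hj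
    exact hj
  rw [mem_tauLattice, mem_tauLattice]
  constructor
  · rintro ⟨m, n, rfl⟩
    refine ⟨m * γ 0 0 + n * γ 1 0, m * γ 0 1 + n * γ 1 1, ?_⟩
    rw [mul_add, mul_left_comm, mul_comm (denom γ τ) ((γ • τ : ℍ) : ℂ), hsm,
      ModularGroup.denom_apply]
    push_cast
    ring
  · rintro ⟨m, n, h⟩
    refine ⟨m * γ 1 1 - n * γ 1 0, -m * γ 0 1 + n * γ 0 0, ?_⟩
    apply mul_left_cancel₀ hj
    rw [← h, mul_add, mul_left_comm, mul_comm (denom γ τ) ((γ • τ : ℍ) : ℂ), hsm,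
      ModularGroup.denom_apply]
    push_cast
    linear_combination ((m : ℂ) * τ + n) * hdet

/-- `(rτ+s)/N ∈ Λ_τ` iff `N ∣ r` and `N ∣ s`. -/
theorem div_mem_tauLattice_iff (N : ℕ) [NeZero N] (r s : ℤ) (τ : ℍ) :
    ((r : ℂ) * τ + s) / N ∈ (tauPair τ).lattice ↔ (N : ℤ) ∣ r ∧ (N : ℤ) ∣ s := by
  have hN : (N : ℂ) ≠ 0 := Nat.cast_ne_zero.mpr (NeZero.ne N)
  have hNQ : (N : ℚ) ≠ 0 := Nat.cast_ne_zero.mpr (NeZero.ne N)
  have key := PeriodPair.mul_ω₁_add_mul_ω₂_mem_lattice (L := tauPair τ)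
    (α := (r : ℚ) / N) (β := (s : ℚ) / N)
  have h1 : ((r : ℂ) * τ + s) / N =
      (((r : ℚ) / N : ℚ) : ℂ) * (tauPair τ).ω₁ + (((s : ℚ) / N : ℚ) : ℂ) * (tauPair τ).ω₂ := by
    simp only [tauPair_ω₁, tauPair_ω₂]
    push_cast
    field_simp
  rw [h1, key]
  have hden : ∀ t : ℤ, ((t : ℚ) / N).den = 1 ↔ (N : ℤ) ∣ t := by
    intro t
    constructor
    · intro h
      obtain ⟨k, hk⟩ : ∃ k : ℤ, ((t : ℚ) / N) = k := ⟨_, ((Rat.den_eq_one_iff _).mp h).symm⟩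
      refine ⟨k, ?_⟩
      have : (t : ℚ) = N * k := by
        rw [← hk]; field_simp
      exact_mod_cast this
    · rintro ⟨k, rfl⟩
      have : (((N : ℤ) * k : ℤ) : ℚ) / N = k := by
        push_cast; field_simp
      rw [this]
      exact Rat.den_intCast k
  rw [hden r, hden s]

/-- The `N`-division value of `ζ` at `(rτ+s)/N` for the lattice `Λ_τ`. -/
def Zv (N : ℕ) (r s : ℤ) (τ : ℍ) : ℂ := zdiv (tauPair τ) N (((r : ℂ) * τ + s) / N)

theorem mul_div_mem_tauLattice (N : ℕ) [NeZero N] (r s : ℤ) (τ : ℍ) :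
    (N : ℂ) * (((r : ℂ) * τ + s) / N) ∈ (tauPair τ).lattice := by
  have hN : (N : ℂ) ≠ 0 := Nat.cast_ne_zero.mpr (NeZero.ne N)
  rw [mul_div_cancel₀ _ hN]
  exact mem_tauLattice.mpr ⟨r, s, rfl⟩

/-- **Covariance** `Z_v(γτ) = (cτ+d) · Z_{vγ}(τ)`. -/
theorem Zv_smul (N : ℕ) [NeZero N] (r s : ℤ) (γ : SL(2, ℤ)) (τ : ℍ) :
    Zv N r s (γ • τ) =
      denom γ τ * Zv N (r * γ 0 0 + s * γ 1 0) (r * γ 0 1 + s * γ 1 1) τ := by
  have hN : (N : ℂ) ≠ 0 := Nat.cast_ne_zero.mpr (NeZero.ne N)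
  have hj : denom γ τ ≠ 0 := denom_ne_zero γ τ
  have hsm : ((γ • τ : ℍ) : ℂ) * denom γ τ = (γ 0 0 : ℤ) * τ + (γ 0 1 : ℤ) := by
    rw [UpperHalfPlane.coe_specialLinearGroup_apply, ModularGroup.denom_apply]
    simp only [algebraMap_int_eq, eq_intCast, Complex.ofReal_intCast]
    rw [div_mul_cancel₀]
    rw [ModularGroup.denom_apply] at hj
    exact hj
  unfold Zv
  rw [zdiv_homog hj (mem_tauLattice_smul γ τ) N (mul_div_mem_tauLattice N r s (γ • τ))]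
  congr 2
  rw [mul_div_assoc', mul_add, mul_left_comm, mul_comm (denom γ τ) ((γ • τ : ℍ) : ℂ), hsm,
    ModularGroup.denom_apply]
  push_cast
  ring

theorem Zv_add_left (N : ℕ) [NeZero N] (r s k : ℤ) (τ : ℍ)
    (h : ¬ ((N : ℤ) ∣ r ∧ (N : ℤ) ∣ s)) : Zv N (r + N * k) s τ = Zv N r s τ := by
  have hN : (N : ℂ) ≠ 0 := Nat.cast_ne_zero.mpr (NeZero.ne N)
  unfold Zv
  have h1 : ((((r + N * k : ℤ) : ℂ)) * τ + s) / N = ((r : ℂ) * τ + s) / N + (k : ℂ) * τ := by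
    push_cast; field_simp; ring
  rw [h1]
  refine zdiv_add_lattice _ N (mul_div_mem_tauLattice N r s τ) ?_
    (mem_tauLattice.mpr ⟨k, 0, by simp⟩)
  rwa [div_mem_tauLattice_iff]

theorem Zv_add_right (N : ℕ) [NeZero N] (r s k : ℤ) (τ : ℍ)
    (h : ¬ ((N : ℤ) ∣ r ∧ (N : ℤ) ∣ s)) : Zv N r (s + N * k) τ = Zv N r s τ := by
  have hN : (N : ℂ) ≠ 0 := Nat.cast_ne_zero.mpr (NeZero.ne N)
  unfold Zv
  have h1 : ((r : ℂ) * τ + ((s + N * k : ℤ) : ℂ)) / N = ((r : ℂ) * τ + s) / N + (k : ℂ) := by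
    push_cast; field_simp; ring
  rw [h1]
  refine zdiv_add_lattice _ N (mul_div_mem_tauLattice N r s τ) ?_
    (mem_tauLattice.mpr ⟨0, k, by simp⟩)
  rwa [div_mem_tauLattice_iff]

theorem Zv_neg (N : ℕ) [NeZero N] (r s : ℤ) (τ : ℍ) : Zv N (-r) (-s) τ = -Zv N r s τ := by
  unfold Zv
  have h1 : (((-r : ℤ) : ℂ) * τ + ((-s : ℤ) : ℂ)) / N = -(((r : ℂ) * τ + s) / N) := by
    push_cast; ring
  rw [h1]
  exact zdiv_neg _ N (mul_div_mem_tauLattice N r s τ)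

/-- `Z_v ∣[1] γ = Z_{vγ}`. -/
theorem Zv_slash (N : ℕ) [NeZero N] (r s : ℤ) (γ : SL(2, ℤ)) :
    (Zv N r s) ∣[(1 : ℤ)] γ = Zv N (r * γ 0 0 + s * γ 1 0) (r * γ 0 1 + s * γ 1 1) := by
  funext τ
  rw [ModularForm.SL_slash_apply, Zv_smul]
  have hj : denom γ τ ≠ 0 := denom_ne_zero γ τ
  rw [zpow_neg, zpow_one]
  field_simp

end Fermat.Agent.ES.R48.ZetaTau24
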