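/-
Programme R (S48), chapter B4 (EIS), file 4 (helper24): row summation of the Weierstrass ζ-function
of `Λ_τ = ℤτ + ℤ` and the quasi-periods.

With `pcot w = π cot(π w)` and Mathlib's `G2` (weight-2 Eisenstein series, symmetric summation):

* `tendsto_sum_pcot` : `∑_{|m| ≤ K} pcot(z - mτ) → ζ(z; Λ_τ) - z·G2(τ)` for `z ∉ Λ_τ`;
* `weta_one : η(1) = G2 τ`, `weta_tau : η(τ) = τ·G2 τ - 2πi` (Legendre);
* `tendsto_sum_pcot_Zv` : `∑_{|m| ≤ K} pcot((rτ+s)/N - mτ) → Zv N r s τ - 2πi r/N`;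
* `Zv_eq_tsum` : for `0 ≤ r < N`:
  `Zv N r s τ = 2πi r/N + pcot z - 2πi ∑_{m ≥ 1} (gq(x q^m) - gq(x⁻¹ q^m))`,
  `z = (rτ+s)/N`, `x = e^{2πiz}`, `q = e^{2πiτ}`, `gq u = u/(1-u)`.
-/
import Mathlib
import Fermat.Agent.ES.R48.ZetaTau24
import Fermat.Agent.ES.R48.CotAux24

set_option autoImplicit false

noncomputable section

namespace Fermat.Agent.ES.R48.ZetaCot24

open PeriodPair Filter Topology Complex EisensteinSeries SummationFilter
open UpperHalfPlane hiding I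
open Fermat.Agent.ES.R48.ZetaLattice24 Fermat.Agent.ES.R48.ZetaTau24 Fermat.Agent.ES.R48.CotAux24
open scoped Real

variable (τ : ℍ)

/-- `ζ(z; Λ_τ)` as a sum over `ℤ × ℤ`. -/
theorem hasSum_wzeta_prod (z : ℂ) :
    HasSum (fun x : ℤ × ℤ ↦ zsummand ((x.1 : ℂ) * τ + x.2) z) (wzeta (tauPair τ) z) := by
  have h := hasSum_wzeta (tauPair τ) z
  rw [← (tauPair τ).latticeEquivProd.symm.toEquiv.hasSum_iff] at h
  refine h.congr_fun fun x ↦ ?_
  simp only [Function.comp_apply, LinearEquiv.coe_toEquiv]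
  rw [latticeEquiv_symm_apply]
  simp

/-- The `m`-th row of the lattice sum. -/
def rowSum (m : ℤ) (z : ℂ) : ℂ := ∑' n : ℤ, zsummand ((m : ℂ) * τ + n) z

theorem summable_row (m : ℤ) (z : ℂ) :
    Summable fun n : ℤ ↦ zsummand ((m : ℂ) * τ + n) z :=
  (hasSum_wzeta_prod τ z).summable.prod_factor m

theorem hasSum_rowSum (z : ℂ) : HasSum (fun m : ℤ ↦ rowSum τ m z) (wzeta (tauPair τ) z) :=
  (hasSum_wzeta_prod τ z).prod_fiberwise fun m ↦ (summable_row τ m z).hasSum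

theorem sub_mul_mem_integerComplement {z : ℂ} (hz : z ∉ (tauPair τ).lattice) (m : ℤ) :
    z - (m : ℂ) * τ ∈ Complex.integerComplement := by
  rw [Complex.mem_integerComplement_iff]
  rintro ⟨n, hn⟩
  apply hz
  rw [mem_tauLattice]
  exact ⟨m, n, by rw [hn]; ring⟩

theorem mul_tau_mem_integerComplement (m : ℤ) :
    (m : ℂ) * τ ∈ Complex.integerComplement ∨ (m : ℂ) * τ = 0 := by
  by_cases hm : m = 0
  · right; simp [hm]
  · left
    rw [Complex.mem_integerComplement_iff]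
    rintro ⟨n, hn⟩
    have him := congrArg Complex.im hn
    simp only [Complex.intCast_im, Complex.mul_im, Complex.intCast_re, UpperHalfPlane.coe_im,
      zero_mul, add_zero] at him
    rcases mul_eq_zero.mp him.symm with h | h
    · exact hm (by exact_mod_cast h)
    · exact τ.im_ne_zero h

theorem zsummand_decomp (m n : ℤ) (z : ℂ) :
    zsummand ((m : ℂ) * τ + n) z =
      (1 / ((z - (m : ℂ) * τ) - n) + 1 / ((m : ℂ) * τ + n)) + z * eisSummand 2 ![m, n] τ := by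
  unfold zsummand eisSummand
  simp only [Fin.isValue, Matrix.cons_val_zero, Matrix.cons_val_one, Matrix.cons_val_fin_one]
  rw [zpow_neg, zpow_ofNat, sub_sub, div_eq_mul_inv z]

/-- The row sums in closed form. -/
theorem rowSum_eq {z : ℂ} (hz : z ∉ (tauPair τ).lattice) (m : ℤ) :
    rowSum τ m z = pcot (z - (m : ℂ) * τ) + pcot ((m : ℂ) * τ) + z * e2Summand m τ := by
  have hb : Summable fun n : ℤ ↦ z * eisSummand 2 ![m, n] τ :=
    (e2Summand_summable m τ).mul_left z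
  have hab := summable_row τ m z
  have ha : Summable fun n : ℤ ↦ 1 / ((z - (m : ℂ) * τ) - n) + 1 / ((m : ℂ) * τ + n) := by
    refine (hab.sub hb).congr fun n ↦ ?_
    rw [zsummand_decomp]
    ring
  unfold rowSum
  rw [tsum_congr (zsummand_decomp τ m · z), ha.tsum_add hb, tsum_mul_left,
    tsum_int_pair (Or.inl (sub_mul_mem_integerComplement τ hz m))
      (mul_tau_mem_integerComplement τ m) ha]
  rfl

/-- **Row summation**: `∑_{|m| ≤ K} π cot π(z - mτ) → ζ(z; Λ_τ) - z·G2(τ)`. -/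
theorem tendsto_sum_pcot {z : ℂ} (hz : z ∉ (tauPair τ).lattice) :
    Tendsto (fun K : ℕ ↦ ∑ m ∈ Finset.Icc (-(K : ℤ)) K, pcot (z - (m : ℂ) * τ)) atTop
      (𝓝 (wzeta (tauPair τ) z - z * G2 τ)) := by
  have h1 : Tendsto (fun K : ℕ ↦ ∑ m ∈ Finset.Icc (-(K : ℤ)) K, rowSum τ m z) atTop
      (𝓝 (wzeta (tauPair τ) z)) :=
    hasSum_symmetricIcc_iff.mp ((hasSum_rowSum τ z).mono_left (symmetricIcc ℤ).le_atTop)
  have h2 : Tendsto (fun K : ℕ ↦ ∑ m ∈ Finset.Icc (-(K : ℤ)) K, e2Summand m τ) atTop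
      (𝓝 (G2 τ)) :=
    hasSum_symmetricIcc_iff.mp (summable_e2Summand_symmetricIcc τ).hasSum
  have h3 := h1.sub (h2.const_mul z)
  refine h3.congr fun K ↦ ?_
  have h4 : ∑ m ∈ Finset.Icc (-(K : ℤ)) K, pcot ((m : ℂ) * τ) = 0 := by
    refine sum_Icc_odd_eq_zero (fun m : ℤ ↦ pcot ((m : ℂ) * τ)) (fun m ↦ ?_) K
    rw [← pcot_neg]
    congr 1
    push_cast
    ring
  rw [Finset.sum_congr rfl fun m _ ↦ rowSum_eq τ hz m, Finset.sum_add_distrib,
    Finset.sum_add_distrib, h4, ← Finset.mul_sum]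
  ring

theorem one_mem_tauLattice : (1 : ℂ) ∈ (tauPair τ).lattice :=
  mem_tauLattice.mpr ⟨0, 1, by simp⟩

theorem tau_mem_tauLattice : (τ : ℂ) ∈ (tauPair τ).lattice :=
  mem_tauLattice.mpr ⟨1, 0, by simp⟩

theorem wzeta_add_one {z : ℂ} (hz : z ∉ (tauPair τ).lattice) :
    wzeta (tauPair τ) (z + 1) = wzeta (tauPair τ) z + G2 τ := by
  have hz1 : z + 1 ∉ (tauPair τ).lattice :=
    add_mem_compl_lattice _ (one_mem_tauLattice τ) hz
  have T1 := tendsto_sum_pcot τ hz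
  have T2 := tendsto_sum_pcot τ hz1
  have h : (fun K : ℕ ↦ ∑ m ∈ Finset.Icc (-(K : ℤ)) K, pcot (z + 1 - (m : ℂ) * τ)) =
      fun K : ℕ ↦ ∑ m ∈ Finset.Icc (-(K : ℤ)) K, pcot (z - (m : ℂ) * τ) := by
    funext K
    refine Finset.sum_congr rfl fun m _ ↦ ?_
    rw [← pcot_add_one (z - (m : ℂ) * τ)]
    congr 1
    ring
  rw [h] at T2
  have := tendsto_nhds_unique T1 T2
  linear_combination -this

/-- `η(1) = G2(τ)`. -/
theorem weta_one : weta (tauPair τ) 1 = G2 τ := by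
  have hz := (tauPair τ).ω₁_div_two_notMem_lattice
  have h1 := wzeta_add_lattice (tauPair τ) (one_mem_tauLattice τ) hz
  have h2 := wzeta_add_one τ hz
  rw [h1] at h2
  exact add_left_cancel h2

theorem exp_add_nat_mul (z : ℂ) (K : ℕ) :
    Complex.exp (2 * π * I * (z + (K : ℂ) * τ)) =
      Complex.exp (2 * π * I * z) * Complex.exp (2 * π * I * τ) ^ K := by
  rw [mul_add, Complex.exp_add, ← Complex.exp_nat_mul]
  congr 2
  ring

theorem tendsto_pcot_add_nat_mul (z : ℂ) :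
    Tendsto (fun K : ℕ ↦ pcot (z + (K : ℂ) * τ)) atTop (𝓝 (-(π * I))) := by
  have hq : ‖Complex.exp (2 * π * I * τ)‖ < 1 := UpperHalfPlane.norm_exp_two_pi_I_lt_one τ
  have h0 : Tendsto (fun K : ℕ ↦ Complex.exp (2 * π * I * z) * Complex.exp (2 * π * I * τ) ^ K)
      atTop (𝓝 0) := by
    simpa using (tendsto_pow_atTop_nhds_zero_of_norm_lt_one hq).const_mul
      (Complex.exp (2 * π * I * z))
  have hne : ∀ᶠ K : ℕ in atTop,
      Complex.exp (2 * π * I * z) * Complex.exp (2 * π * I * τ) ^ K ≠ 1 :=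
    h0.eventually (isOpen_ne.mem_nhds (by norm_num : (0 : ℂ) ≠ 1))
  have h1 : Tendsto (fun K : ℕ ↦ -(π * I) - 2 * π * I *
      gq (Complex.exp (2 * π * I * z) * Complex.exp (2 * π * I * τ) ^ K)) atTop
      (𝓝 (-(π * I) - 2 * π * I * 0)) :=
    ((tendsto_gq_geometric _ hq).const_mul _).const_sub _
  rw [mul_zero, sub_zero] at h1
  refine h1.congr' ?_
  filter_upwards [hne] with K hK
  rw [pcot_eq_gq (by rw [exp_add_nat_mul]; exact hK), exp_add_nat_mul]

theorem tendsto_pcot_sub_nat_mul (z : ℂ) :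
    Tendsto (fun K : ℕ ↦ pcot (z - (K : ℂ) * τ)) atTop (𝓝 (π * I)) := by
  have h := (tendsto_pcot_add_nat_mul τ (-z)).neg
  rw [neg_neg] at h
  refine h.congr fun K ↦ ?_
  rw [← pcot_neg]
  congr 1
  ring

theorem sum_Icc_shift (f : ℤ → ℂ) (K : ℕ) :
    ∑ m ∈ Finset.Icc (-(K : ℤ)) K, f (m - 1) =
      ∑ m ∈ Finset.Icc (-(K : ℤ)) K, f m + f (-(K : ℤ) - 1) - f K := by
  induction K with
  | zero => simp
  | succ K ih =>
    have h1 : Finset.Icc (-((K + 1 : ℕ) : ℤ)) ((K + 1 : ℕ) : ℤ) =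
        insert (-((K : ℤ) + 1)) (insert ((K : ℤ) + 1) (Finset.Icc (-(K : ℤ)) K)) := by
      ext x
      simp only [Finset.mem_Icc, Finset.mem_insert, Nat.cast_add, Nat.cast_one]
      omega
    have hn1 : (K : ℤ) + 1 ∉ Finset.Icc (-(K : ℤ)) K := by
      simp only [Finset.mem_Icc, not_and]; omega
    have hn2 : -((K : ℤ) + 1) ∉ insert ((K : ℤ) + 1) (Finset.Icc (-(K : ℤ)) K) := by
      simp only [Finset.mem_insert, Finset.mem_Icc, not_or, not_and]; omega
    rw [h1, Finset.sum_insert hn2, Finset.sum_insert hn1, Finset.sum_insert hn2,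
      Finset.sum_insert hn1, ih]
    push_cast
    have e1 : (K : ℤ) + 1 - 1 = K := by ring
    have e2 : -((K : ℤ) + 1) - 1 = -(K : ℤ) - 1 - 1 := by ring
    rw [e1, e2]
    have e3 : -((K : ℤ) + 1) = -(K : ℤ) - 1 := by ring
    rw [e3]
    ring

theorem wzeta_add_tau {z : ℂ} (hz : z ∉ (tauPair τ).lattice) :
    wzeta (tauPair τ) (z + τ) = wzeta (tauPair τ) z + (τ * G2 τ - 2 * π * I) := by
  have hz1 : z + τ ∉ (tauPair τ).lattice :=
    add_mem_compl_lattice _ (tau_mem_tauLattice τ) hz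
  have T1 := tendsto_sum_pcot τ hz
  have T2 := tendsto_sum_pcot τ hz1
  have h : (fun K : ℕ ↦ ∑ m ∈ Finset.Icc (-(K : ℤ)) K, pcot (z + τ - (m : ℂ) * τ)) =
      fun K : ℕ ↦ ∑ m ∈ Finset.Icc (-(K : ℤ)) K, pcot (z - (m : ℂ) * τ) +
        pcot (z + ((K + 1 : ℕ) : ℂ) * τ) - pcot (z - (K : ℂ) * τ) := by
    funext K
    have := sum_Icc_shift (fun m : ℤ ↦ pcot (z - (m : ℂ) * τ)) K
    have e1 : ∑ m ∈ Finset.Icc (-(K : ℤ)) K, pcot (z + τ - (m : ℂ) * τ) =
        ∑ m ∈ Finset.Icc (-(K : ℤ)) K, pcot (z - ((m - 1 : ℤ) : ℂ) * τ) := by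
      refine Finset.sum_congr rfl fun m _ ↦ ?_
      congr 1
      push_cast
      ring
    have e2 : pcot (z - ((-(K : ℤ) - 1 : ℤ) : ℂ) * τ) = pcot (z + ((K + 1 : ℕ) : ℂ) * τ) := by
      congr 1
      push_cast
      ring
    have e3 : pcot (z - (((K : ℤ) : ℤ) : ℂ) * τ) = pcot (z - (K : ℂ) * τ) := by
      congr 1
    rw [e1, this, e2, e3]
  rw [h] at T2
  have L1 := (tendsto_pcot_add_nat_mul τ z).comp (tendsto_add_atTop_nat 1)
  have L2 := tendsto_pcot_sub_nat_mul τ z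
  have T3 := (T1.add L1).sub L2
  have := tendsto_nhds_unique T2 T3
  linear_combination this

/-- **Legendre's relation** `η(τ) = τ·G2(τ) - 2πi`. -/
theorem weta_tau : weta (tauPair τ) τ = τ * G2 τ - 2 * π * I := by
  have hz := (tauPair τ).ω₁_div_two_notMem_lattice
  have h1 := wzeta_add_lattice (tauPair τ) (tau_mem_tauLattice τ) hz
  have h2 := wzeta_add_tau τ hz
  rw [h1] at h2
  exact add_left_cancel h2

/-- `η(rτ + s) = (rτ+s)·G2(τ) - 2πi r`. -/
theorem weta_lattice (r s : ℤ) :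
    weta (tauPair τ) ((r : ℂ) * τ + s) = ((r : ℂ) * τ + s) * G2 τ - 2 * π * I * r := by
  have h1 : ((r : ℂ) * τ) ∈ (tauPair τ).lattice := mem_tauLattice.mpr ⟨r, 0, by simp⟩
  have h2 : ((s : ℂ)) ∈ (tauPair τ).lattice := mem_tauLattice.mpr ⟨0, s, by simp⟩
  rw [weta_add _ h1 h2, weta_zsmul _ r (tau_mem_tauLattice τ), weta_tau]
  have h3 := weta_zsmul _ s (one_mem_tauLattice τ)
  rw [mul_one] at h3
  rw [h3, weta_one]
  ring

/-- `∑_{|m| ≤ K} π cot π((rτ+s)/N - mτ) → Z_{(r,s)}(τ) - 2πi r/N`. -/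
theorem tendsto_sum_pcot_Zv (N : ℕ) [NeZero N] (r s : ℤ) (h : ¬ ((N : ℤ) ∣ r ∧ (N : ℤ) ∣ s)) :
    Tendsto (fun K : ℕ ↦ ∑ m ∈ Finset.Icc (-(K : ℤ)) K,
      pcot (((r : ℂ) * τ + s) / N - (m : ℂ) * τ)) atTop
      (𝓝 (Zv N r s τ - 2 * π * I * r / N)) := by
  have hN : (N : ℂ) ≠ 0 := Nat.cast_ne_zero.mpr (NeZero.ne N)
  have hz : ((r : ℂ) * τ + s) / N ∉ (tauPair τ).lattice := by
    rwa [div_mem_tauLattice_iff]
  have T := tendsto_sum_pcot τ hz
  have e : wzeta (tauPair τ) (((r : ℂ) * τ + s) / N) - ((r : ℂ) * τ + s) / N * G2 τ =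
      Zv N r s τ - 2 * π * I * r / N := by
    unfold Zv zdiv
    rw [mul_div_cancel₀ _ hN, weta_lattice]
    field_simp
    ring
  rwa [e] at T

theorem norm_exp_two_pi_I_mul (w : ℂ) :
    ‖Complex.exp (2 * π * I * w)‖ = Real.exp (-(2 * π * w.im)) := by
  rw [Complex.norm_exp]
  congr 1
  simp only [Complex.mul_re, Complex.re_ofNat, Complex.ofReal_re, Complex.im_ofNat,
    Complex.ofReal_im, mul_zero, sub_zero, Complex.I_re, Complex.mul_im, zero_mul, add_zero,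
    Complex.I_im, mul_one, zero_sub]

theorem pcot_of_im_pos {w : ℂ} (hw : 0 < w.im) :
    pcot w = -(π * I) - 2 * π * I * gq (Complex.exp (2 * π * I * w)) := by
  refine pcot_eq_gq fun h ↦ ?_
  have h1 := norm_exp_two_pi_I_mul w
  rw [h, norm_one] at h1
  have h2 : Real.exp (-(2 * π * w.im)) < 1 := by
    rw [Real.exp_lt_one_iff]
    have := Real.pi_pos
    nlinarith
  linarith

/-- In the strip `|Im z| < Im τ` the symmetric cotangent sums converge absolutely. -/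
theorem tendsto_sum_pcot_strip {z : ℂ} (h1 : -τ.im < z.im) (h2 : z.im < τ.im) :
    Tendsto (fun K : ℕ ↦ ∑ m ∈ Finset.Icc (-(K : ℤ)) K, pcot (z - (m : ℂ) * τ)) atTop
      (𝓝 (pcot z + 2 * π * I * ∑' k : ℕ,
        (gq (Complex.exp (2 * π * I * (-z)) * Complex.exp (2 * π * I * τ) ^ (k + 1)) -
          gq (Complex.exp (2 * π * I * z) * Complex.exp (2 * π * I * τ) ^ (k + 1))))) := by
  have hq : ‖Complex.exp (2 * π * I * τ)‖ < 1 := UpperHalfPlane.norm_exp_two_pi_I_lt_one τ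
  set q := Complex.exp (2 * π * I * τ) with hqdef
  set x := Complex.exp (2 * π * I * z) with hxdef
  set y := Complex.exp (2 * π * I * (-z)) with hydef
  have hsum : Summable fun k : ℕ ↦ gq (y * q ^ (k + 1)) - gq (x * q ^ (k + 1)) := by
    have e1 : ∀ a : ℂ, (fun k : ℕ ↦ gq (a * q ^ (k + 1))) = fun k : ℕ ↦ gq (a * q * q ^ k) := by
      intro a; funext k; rw [pow_succ']; congr 1; ring
    have s1 := summable_gq_geometric (y * q) hq
    have s2 := summable_gq_geometric (x * q) hq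
    rw [← e1] at s1 s2
    exact s1.sub s2
  have hterm : ∀ k : ℕ, pcot (z - (((k : ℤ) + 1 : ℤ) : ℂ) * τ) +
      pcot (z - ((-((k : ℤ) + 1) : ℤ) : ℂ) * τ) =
      2 * π * I * (gq (y * q ^ (k + 1)) - gq (x * q ^ (k + 1))) := by
    intro k
    have hk : (0 : ℝ) ≤ k := Nat.cast_nonneg k
    have him := τ.im_pos
    have a1 : pcot (z - (((k : ℤ) + 1 : ℤ) : ℂ) * τ) = -pcot (-z + ((k + 1 : ℕ) : ℂ) * τ) := by
      rw [← pcot_neg]; congr 1; push_cast; ring
    have a2 : pcot (z - ((-((k : ℤ) + 1) : ℤ) : ℂ) * τ) = pcot (z + ((k + 1 : ℕ) : ℂ) * τ) := by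
      congr 1; push_cast; ring
    have p1 : 0 < (-z + ((k + 1 : ℕ) : ℂ) * τ).im := by
      simp only [Complex.add_im, Complex.neg_im, Complex.mul_im, Complex.natCast_re,
        Complex.natCast_im, UpperHalfPlane.coe_im, zero_mul, add_zero]
      push_cast
      nlinarith
    have p2 : 0 < (z + ((k + 1 : ℕ) : ℂ) * τ).im := by
      simp only [Complex.add_im, Complex.mul_im, Complex.natCast_re,
        Complex.natCast_im, UpperHalfPlane.coe_im, zero_mul, add_zero]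
      push_cast
      nlinarith
    rw [a1, a2, pcot_of_im_pos p1, pcot_of_im_pos p2, exp_add_nat_mul, exp_add_nat_mul]
    ring
  have hfin : ∀ K : ℕ, ∑ m ∈ Finset.Icc (-(K : ℤ)) K, pcot (z - (m : ℂ) * τ) =
      pcot z + 2 * π * I * ∑ k ∈ Finset.range K, (gq (y * q ^ (k + 1)) - gq (x * q ^ (k + 1))) := by
    intro K
    rw [sum_Icc_symm (fun m : ℤ ↦ pcot (z - (m : ℂ) * τ)) K, Finset.mul_sum]
    congr 1
    · simp
    · exact Finset.sum_congr rfl fun k _ ↦ hterm k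
  have := (hsum.hasSum.tendsto_sum_nat.const_mul (2 * π * I)).const_add (pcot z)
  exact this.congr fun K ↦ (hfin K).symm

/-- **(Z5)**: the absolutely convergent formula for `Z_{(r,s)}`, `0 ≤ r < N`. -/
theorem Zv_eq_tsum (N : ℕ) [NeZero N] (r s : ℤ) (h : ¬ ((N : ℤ) ∣ r ∧ (N : ℤ) ∣ s))
    (hr0 : 0 ≤ r) (hrN : r < N) :
    Zv N r s τ = 2 * π * I * r / N + pcot (((r : ℂ) * τ + s) / N) +
      2 * π * I * ∑' k : ℕ,
        (gq (Complex.exp (2 * π * I * (-(((r : ℂ) * τ + s) / N))) *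
            Complex.exp (2 * π * I * τ) ^ (k + 1)) -
          gq (Complex.exp (2 * π * I * (((r : ℂ) * τ + s) / N)) *
            Complex.exp (2 * π * I * τ) ^ (k + 1))) := by
  have hN : (0 : ℝ) < N := Nat.cast_pos.mpr (Nat.pos_of_ne_zero (NeZero.ne N))
  have him := τ.im_pos
  have hzim : (((r : ℂ) * τ + s) / N).im = (r : ℝ) / N * τ.im := by
    have : ((r : ℂ) * τ + s) / N = (((r : ℝ) / N : ℝ) : ℂ) * τ + (((s : ℝ) / N : ℝ) : ℂ) := by
      push_cast
      field_simp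
    rw [this]
    simp
  have hr0' : (0 : ℝ) ≤ (r : ℝ) / N := div_nonneg (by exact_mod_cast hr0) hN.le
  have hr1' : (r : ℝ) / N < 1 := by
    rw [div_lt_one hN]
    exact_mod_cast hrN
  have T1 := tendsto_sum_pcot_Zv τ N r s h
  have T2 := tendsto_sum_pcot_strip τ (z := ((r : ℂ) * τ + s) / N)
    (by rw [hzim]; nlinarith) (by rw [hzim]; nlinarith)
  have := tendsto_nhds_unique T1 T2
  linear_combination this

end Fermat.Agent.ES.R48.ZetaCot24
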