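/-
Programme R (S48), chapter B4 (EIS), file 6 (helper24): the division values `Z_v` are holomorphic
on `ℍ` and bounded at `i∞`; `Z_{(0,s)}` is a modular form of weight one on `Γ₁(N)`.

* `hasSum_Zv_pow` : for `0 ≤ r < N`, `Zv N r s τ = ∑ n, zvCoeff N r s n * t^n`, `t = 𝕢 N τ`;
* `mdifferentiable_Zv`, `isBoundedAtImInfty_Zv` (every `(r,s) ≢ 0 mod N`);
* `ZForm N s hs : ModularForm (Gamma1 N) 1` with `⇑(ZForm N s hs) = Zv N 0 s`.
-/
import Mathlib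
import Fermat.Agent.ES.R48.ZetaCot24
import Fermat.Agent.ES.R48.QSeriesAux24

set_option autoImplicit false

noncomputable section

namespace Fermat.Agent.ES.R48.ZDiv24

open Complex Filter Topology Function CongruenceSubgroup
open Fermat.Agent.ES.R48.ZetaLattice24 Fermat.Agent.ES.R48.ZetaTau24 Fermat.Agent.ES.R48.CotAux24
  Fermat.Agent.ES.R48.ZetaCot24 Fermat.Agent.ES.R48.QSeriesAux24
open UpperHalfPlane hiding I
open scoped Real Manifold MatrixGroups ModularForm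

/-- `ζ_N^s = e^{2πi s/N}`. -/
def zetaPow (N : ℕ) (s : ℤ) : ℂ := Complex.exp (2 * π * I * s / N)

theorem norm_zetaPow (N : ℕ) (s : ℤ) : ‖zetaPow N s‖ = 1 := by
  unfold zetaPow
  rw [Complex.norm_exp]
  have : (2 * π * I * s / N : ℂ).re = 0 := by
    have : (2 * π * I * s / N : ℂ) = ((2 * π * s / N : ℝ) : ℂ) * I := by
      push_cast; ring
    rw [this]
    simp
  rw [this, Real.exp_zero]

/-- `x q^(k+1) = ζ^s t^((r+N) + N k)`. -/
theorem exp_mul_pow_eq (N : ℕ) [NeZero N] (r : ℕ) (s : ℤ) (τ : ℍ) (k : ℕ) :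
    Complex.exp (2 * π * I * (((r : ℂ) * τ + s) / N)) * Complex.exp (2 * π * I * τ) ^ (k + 1) =
      zetaPow N s * Function.Periodic.qParam N τ ^ ((r + N) + N * k) := by
  have hN : (N : ℂ) ≠ 0 := Nat.cast_ne_zero.mpr (NeZero.ne N)
  unfold zetaPow Function.Periodic.qParam
  rw [← Complex.exp_nat_mul, ← Complex.exp_nat_mul, ← Complex.exp_add, ← Complex.exp_add]
  congr 1
  push_cast
  field_simp
  ring

/-- `x⁻¹ q^(k+1) = ζ^(-s) t^((N-r) + N k)`. -/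
theorem exp_neg_mul_pow_eq (N : ℕ) [NeZero N] (r : ℕ) (hr : r < N) (s : ℤ) (τ : ℍ) (k : ℕ) :
    Complex.exp (2 * π * I * (-(((r : ℂ) * τ + s) / N))) * Complex.exp (2 * π * I * τ) ^ (k + 1) =
      zetaPow N (-s) * Function.Periodic.qParam N τ ^ ((N - r) + N * k) := by
  have hN : (N : ℂ) ≠ 0 := Nat.cast_ne_zero.mpr (NeZero.ne N)
  unfold zetaPow Function.Periodic.qParam
  rw [← Complex.exp_nat_mul, ← Complex.exp_nat_mul, ← Complex.exp_add, ← Complex.exp_add]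
  congr 1
  have e : ((N - r + N * k : ℕ) : ℂ) = (N : ℂ) - r + N * k := by
    rw [Nat.cast_add, Nat.cast_sub hr.le]
    push_cast
    ring
  rw [e]
  push_cast
  field_simp
  ring

theorem norm_qParam_lt_one (N : ℕ) [NeZero N] (τ : ℍ) : ‖Function.Periodic.qParam N τ‖ < 1 :=
  Function.Periodic.norm_qParam_lt_one (Nat.cast_pos.mpr (Nat.pos_of_ne_zero (NeZero.ne N)))
    τ.im_pos

theorem summable_lam {a : ℂ} (ha : ‖a‖ ≤ 1) {j : ℕ} (hj : 1 ≤ j) {N : ℕ} (hN : 1 ≤ N)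
    {t : ℂ} (ht : ‖t‖ < 1) : Summable fun k : ℕ ↦ gq (a * t ^ (j + N * k)) := by
  have hs := summable_lam_terms ha hj hN ht
  have hrow : ∀ k : ℕ, HasSum (fun d : ℕ ↦ a ^ (d + 1) * t ^ ((d + 1) * (j + N * k)))
      (gq (a * t ^ (j + N * k))) := by
    intro k
    have := hasSum_gq (norm_mul_pow_lt_one ha ht (n := j + N * k) (by omega))
    refine this.congr_fun fun d ↦ ?_
    rw [mul_pow, ← pow_mul, mul_comm (j + N * k)]
  exact (hs.hasSum.prod_fiberwise hrow).summable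

theorem lam_succ {a : ℂ} (ha : ‖a‖ ≤ 1) {j : ℕ} (hj : 1 ≤ j) {N : ℕ} (hN : 1 ≤ N)
    {t : ℂ} (ht : ‖t‖ < 1) : lam a j N t = gq (a * t ^ j) + lam a (j + N) N t := by
  unfold lam
  rw [(summable_lam ha hj hN ht).tsum_eq_zero_add]
  simp only [mul_zero, add_zero]
  congr 1
  refine tsum_congr fun k ↦ ?_
  congr 3
  ring

/-- the constant term of `Z_{(r,s)}` at `i∞`. -/
def zvConst (N : ℕ) (r : ℕ) (s : ℤ) : ℂ :=
  if r = 0 then pcot ((s : ℂ) / N) else 2 * π * I * r / N - π * I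

/-- `Z_{(r,s)}` in terms of `lam`, `0 ≤ r < N`, `t = e^{2πiτ/N}`. -/
theorem Zv_eq_lam (N : ℕ) [NeZero N] (r : ℕ) (hr : r < N) (s : ℤ)
    (h : ¬ ((N : ℤ) ∣ (r : ℤ) ∧ (N : ℤ) ∣ s)) (τ : ℍ) :
    Zv N r s τ = zvConst N r s + 2 * π * I *
      (lam (zetaPow N (-s)) (N - r) N (Function.Periodic.qParam N τ) -
        lam (zetaPow N s) (if r = 0 then N else r) N (Function.Periodic.qParam N τ)) := by
  have hN1 : 1 ≤ N := Nat.pos_of_ne_zero (NeZero.ne N)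
  have hNpos : (0 : ℝ) < N := Nat.cast_pos.mpr hN1
  have ht := norm_qParam_lt_one N τ
  set t := Function.Periodic.qParam N τ with htdef
  have key := Zv_eq_tsum τ N (r : ℤ) s h (by positivity) (by exact_mod_cast hr)
  simp only [Int.cast_natCast] at key
  have hA := summable_lam (a := zetaPow N (-s)) (norm_zetaPow N (-s)).le
    (j := N - r) (by omega) hN1 ht
  have hB := summable_lam (a := zetaPow N s) (norm_zetaPow N s).le
    (j := r + N) (by omega) hN1 ht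
  have hsub : ∑' k : ℕ,
      (gq (Complex.exp (2 * π * I * (-(((r : ℂ) * τ + s) / N))) *
          Complex.exp (2 * π * I * τ) ^ (k + 1)) -
        gq (Complex.exp (2 * π * I * (((r : ℂ) * τ + s) / N)) *
          Complex.exp (2 * π * I * τ) ^ (k + 1))) =
      lam (zetaPow N (-s)) (N - r) N t - lam (zetaPow N s) (r + N) N t := by
    unfold lam
    rw [← hA.tsum_sub hB]
    refine tsum_congr fun k ↦ ?_
    rw [exp_neg_mul_pow_eq N r hr s τ k, exp_mul_pow_eq N r s τ k]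
  rw [hsub] at key
  rw [key]
  unfold zvConst
  by_cases hr0 : r = 0
  · subst hr0
    simp only [Nat.cast_zero, zero_mul, zero_add, mul_zero, zero_div, if_true, Nat.sub_zero]
  · simp only [if_neg hr0]
    have hrpos : (0 : ℝ) < r := Nat.cast_pos.mpr (Nat.pos_of_ne_zero hr0)
    have him : 0 < (((r : ℂ) * τ + s) / N).im := by
      have : ((r : ℂ) * τ + s) / N =
          (((r : ℝ) / N : ℝ) : ℂ) * τ + (((s : ℝ) / N : ℝ) : ℂ) := by
        push_cast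
        field_simp
      rw [this]
      simp only [add_im, mul_im, ofReal_re, coe_im, ofReal_im, coe_re, zero_mul, add_zero]
      exact mul_pos (div_pos hrpos hNpos) τ.im_pos
    have hx : Complex.exp (2 * π * I * (((r : ℂ) * τ + s) / N)) = zetaPow N s * t ^ r := by
      have hNc : (N : ℂ) ≠ 0 := Nat.cast_ne_zero.mpr (NeZero.ne N)
      rw [htdef]
      unfold zetaPow Function.Periodic.qParam
      rw [← Complex.exp_nat_mul, ← Complex.exp_add]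
      congr 1
      push_cast
      field_simp
      ring
    rw [pcot_of_im_pos him, hx,
      lam_succ (a := zetaPow N s) (norm_zetaPow N s).le (j := r) (by omega) hN1 ht]
    ring

/-- The coefficients of `Z_{(r,s)}` as a power series in `t = e^{2πiτ/N}`. -/
def zvCoeff (N r : ℕ) (s : ℤ) (n : ℕ) : ℂ :=
  (if n = 0 then zvConst N r s else 0) + 2 * π * I *
    (lamCoeff (zetaPow N (-s)) (N - r) N n - lamCoeff (zetaPow N s) (if r = 0 then N else r) N n)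

theorem hasSum_Zv_pow (N : ℕ) [NeZero N] (r : ℕ) (hr : r < N) (s : ℤ)
    (h : ¬ ((N : ℤ) ∣ (r : ℤ) ∧ (N : ℤ) ∣ s)) (τ : ℍ) :
    HasSum (fun n : ℕ ↦ zvCoeff N r s n * Function.Periodic.qParam N τ ^ n) (Zv N r s τ) := by
  have hN1 : 1 ≤ N := Nat.pos_of_ne_zero (NeZero.ne N)
  have ht := norm_qParam_lt_one N τ
  rw [Zv_eq_lam N r hr s h τ]
  set t := Function.Periodic.qParam N τ with htdef
  have h0 : HasSum (fun n : ℕ ↦ (if n = 0 then zvConst N r s else 0) * t ^ n) (zvConst N r s) := by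
    have := hasSum_ite_eq (0 : ℕ) (zvConst N r s)
    refine this.congr_fun fun n ↦ ?_
    by_cases hn : n = 0
    · subst hn; simp
    · simp [hn]
  have hA := hasSum_lam_pow (a := zetaPow N (-s)) (norm_zetaPow N (-s)).le
    (j := N - r) (by omega) hN1 ht
  have hB := hasSum_lam_pow (a := zetaPow N s) (norm_zetaPow N s).le
    (j := if r = 0 then N else r) (by split_ifs <;> omega) hN1 ht
  refine (h0.add ((hA.sub hB).mul_left (2 * π * I))).congr_fun fun n ↦ ?_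
  unfold zvCoeff
  ring

theorem mdifferentiable_Zv_nat (N : ℕ) [NeZero N] (r : ℕ) (hr : r < N) (s : ℤ)
    (h : ¬ ((N : ℤ) ∣ (r : ℤ) ∧ (N : ℤ) ∣ s)) : MDifferentiable 𝓘(ℂ) 𝓘(ℂ) (Zv N r s) :=
  mdifferentiable_of_hasSum_qParam (h := N)
    (Nat.cast_pos.mpr (Nat.pos_of_ne_zero (NeZero.ne N))) (hasSum_Zv_pow N r hr s h)

theorem isBoundedAtImInfty_Zv_nat (N : ℕ) [NeZero N] (r : ℕ) (hr : r < N) (s : ℤ)
    (h : ¬ ((N : ℤ) ∣ (r : ℤ) ∧ (N : ℤ) ∣ s)) : IsBoundedAtImInfty (Zv N r s) :=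
  UpperHalfPlane.isBoundedAtImInfty_of_hasSum_qExpansion (h := N) (c := zvCoeff N r s)
    (Nat.cast_pos.mpr (Nat.pos_of_ne_zero (NeZero.ne N)))
    (fun τ ↦ by simpa [smul_eq_mul] using hasSum_Zv_pow N r hr s h τ)

theorem tendsto_Zv_nat (N : ℕ) [NeZero N] (r : ℕ) (hr : r < N) (s : ℤ)
    (h : ¬ ((N : ℤ) ∣ (r : ℤ) ∧ (N : ℤ) ∣ s)) :
    Tendsto (Zv N r s) atImInfty (𝓝 (zvConst N r s)) := by
  have hN1 : 1 ≤ N := Nat.pos_of_ne_zero (NeZero.ne N)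
  have := tendsto_of_hasSum_qParam (h := N)
    (Nat.cast_pos.mpr hN1) (hasSum_Zv_pow N r hr s h)
  have e : zvCoeff N r s 0 = zvConst N r s := by
    unfold zvCoeff
    rw [lamCoeff_zero (by omega), lamCoeff_zero (by split_ifs <;> omega)]
    simp
  rwa [e] at this

/-- reduction of the first index mod `N`. -/
theorem Zv_emod (N : ℕ) [NeZero N] (r s : ℤ) (h : ¬ ((N : ℤ) ∣ r ∧ (N : ℤ) ∣ s)) :
    Zv N r s = Zv N ((r % (N : ℤ)).toNat : ℤ) s := by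
  have hN : (N : ℤ) ≠ 0 := by exact_mod_cast NeZero.ne N
  have h0 : 0 ≤ r % (N : ℤ) := Int.emod_nonneg r hN
  rw [Int.toNat_of_nonneg h0]
  funext τ
  have h' : ¬ ((N : ℤ) ∣ r % (N : ℤ) ∧ (N : ℤ) ∣ s) := by
    have : (N : ℤ) ∣ r % (N : ℤ) ↔ (N : ℤ) ∣ r := by
      rw [Int.dvd_iff_emod_eq_zero, Int.emod_emod, ← Int.dvd_iff_emod_eq_zero]
    rwa [this]
  have := Zv_add_left N (r % (N : ℤ)) s (r / (N : ℤ)) τ h'
  rw [Int.emod_add_mul_ediv] at this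
  exact this

theorem emod_toNat_lt (N : ℕ) [NeZero N] (r : ℤ) : (r % (N : ℤ)).toNat < N := by
  have hN : (N : ℤ) ≠ 0 := by exact_mod_cast NeZero.ne N
  have hNpos : (0 : ℤ) < N := by
    have := NeZero.ne N
    omega
  have h0 : 0 ≤ r % (N : ℤ) := Int.emod_nonneg r hN
  have h1 : r % (N : ℤ) < N := Int.emod_lt_of_pos r hNpos
  omega

theorem not_dvd_emod (N : ℕ) [NeZero N] {r s : ℤ} (h : ¬ ((N : ℤ) ∣ r ∧ (N : ℤ) ∣ s)) :
    ¬ ((N : ℤ) ∣ ((r % (N : ℤ)).toNat : ℤ) ∧ (N : ℤ) ∣ s) := by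
  have hN : (N : ℤ) ≠ 0 := by exact_mod_cast NeZero.ne N
  have h0 : 0 ≤ r % (N : ℤ) := Int.emod_nonneg r hN
  rw [Int.toNat_of_nonneg h0]
  have : (N : ℤ) ∣ r % (N : ℤ) ↔ (N : ℤ) ∣ r := by
    rw [Int.dvd_iff_emod_eq_zero, Int.emod_emod, ← Int.dvd_iff_emod_eq_zero]
  rwa [this]

/-- `Z_v` is holomorphic on `ℍ` for every `v ≢ 0 mod N`. -/
theorem mdifferentiable_Zv (N : ℕ) [NeZero N] (r s : ℤ) (h : ¬ ((N : ℤ) ∣ r ∧ (N : ℤ) ∣ s)) :
    MDifferentiable 𝓘(ℂ) 𝓘(ℂ) (Zv N r s) := by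
  rw [Zv_emod N r s h]
  exact mdifferentiable_Zv_nat N _ (emod_toNat_lt N r) s (not_dvd_emod N h)

/-- `Z_v` is bounded at `i∞` for every `v ≢ 0 mod N`. -/
theorem isBoundedAtImInfty_Zv (N : ℕ) [NeZero N] (r s : ℤ) (h : ¬ ((N : ℤ) ∣ r ∧ (N : ℤ) ∣ s)) :
    IsBoundedAtImInfty (Zv N r s) := by
  rw [Zv_emod N r s h]
  exact isBoundedAtImInfty_Zv_nat N _ (emod_toNat_lt N r) s (not_dvd_emod N h)

/-- The vector `(0,s)γ` is non-zero mod `N`. -/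
theorem not_dvd_mul_row (N : ℕ) {s : ℤ} (hs : ¬ (N : ℤ) ∣ s) (γ : SL(2, ℤ)) :
    ¬ ((N : ℤ) ∣ (0 * γ 0 0 + s * γ 1 0) ∧ (N : ℤ) ∣ (0 * γ 0 1 + s * γ 1 1)) := by
  rintro ⟨h1, h2⟩
  apply hs
  have hdet : γ 0 0 * γ 1 1 - γ 0 1 * γ 1 0 = 1 := by
    have := γ.det_coe
    rwa [Matrix.det_fin_two] at this
  have : s = γ 0 0 * (0 * γ 0 1 + s * γ 1 1) - γ 0 1 * (0 * γ 0 0 + s * γ 1 0) := by
    linear_combination (-s) * hdet
  rw [this]
  exact dvd_sub (Dvd.dvd.mul_left h2 _) (Dvd.dvd.mul_left h1 _)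

/-- `Z_{(0,s)} ∣[1] γ = Z_{(0, s·d)}` for `γ ∈ Γ₀(N)`. -/
theorem Zv_zero_slash_Gamma0 (N : ℕ) [NeZero N] {s : ℤ} (hs : ¬ (N : ℤ) ∣ s) {γ : SL(2, ℤ)}
    (hγ : γ ∈ Gamma0 N) : (Zv N 0 s) ∣[(1 : ℤ)] γ = Zv N 0 (s * γ 1 1) := by
  rw [Zv_slash]
  have hc : (N : ℤ) ∣ γ 1 0 := by
    rw [Gamma0_mem] at hγ
    exact (ZMod.intCast_zmod_eq_zero_iff_dvd _ _).mp hγ
  obtain ⟨k, hk⟩ := hc
  have hnd := not_dvd_mul_row N hs γ
  funext τ
  have h1 : (0 : ℤ) * γ 0 0 + s * γ 1 0 = 0 * γ 0 0 + 0 + N * (s * k) := by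
    rw [hk]; ring
  have h2 : ¬ ((N : ℤ) ∣ (0 * γ 0 0 + 0) ∧ (N : ℤ) ∣ (0 * γ 0 1 + s * γ 1 1)) := by
    rintro ⟨-, h⟩
    exact hnd ⟨by rw [hk]; exact ⟨s * k, by ring⟩, h⟩
  rw [h1, Zv_add_left N _ _ _ τ h2]
  congr 1 <;> ring

/-- `Z_{(0,s)}` is `Γ₁(N)`-invariant. -/
theorem Zv_zero_slash_Gamma1 (N : ℕ) [NeZero N] {s : ℤ} (hs : ¬ (N : ℤ) ∣ s) {γ : SL(2, ℤ)}
    (hγ : γ ∈ Gamma1 N) : (Zv N 0 s) ∣[(1 : ℤ)] γ = Zv N 0 s := by
  rw [Zv_zero_slash_Gamma0 N hs (Gamma1_in_Gamma0 N hγ)]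
  have hd : (N : ℤ) ∣ γ 1 1 - 1 := by
    have := ((Gamma1_mem N γ).mp hγ).2.1
    rw [← (ZMod.intCast_zmod_eq_zero_iff_dvd _ _)]
    push_cast
    rw [this, sub_self]
  obtain ⟨k, hk⟩ := hd
  funext τ
  have h1 : s * γ 1 1 = s + N * (s * k) := by
    have : γ 1 1 = 1 + N * k := by linarith
    rw [this]; ring
  rw [h1]
  refine Zv_add_right N 0 s (s * k) τ ?_
  rintro ⟨-, h⟩
  exact hs h

/-- **`Z_{(0,s)}` as a modular form of weight one on `Γ₁(N)`.** -/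
def ZForm (N : ℕ) [NeZero N] (s : ℤ) (hs : ¬ (N : ℤ) ∣ s) : ModularForm (Gamma1 N) 1 where
  toFun := Zv N 0 s
  slash_action_eq' A hA := by
    obtain ⟨A, (hA : A ∈ Gamma1 N), rfl⟩ := hA
    exact Zv_zero_slash_Gamma1 N hs hA
  holo' := mdifferentiable_Zv N 0 s (by rintro ⟨-, h⟩; exact hs h)
  bdd_at_cusps' {c} hc := by
    rw [Subgroup.IsArithmetic.isCusp_iff_isCusp_SL2Z] at hc
    rw [OnePoint.isBoundedAt_iff_forall_SL2Z hc]
    intro γ _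
    show IsBoundedAtImInfty ((Zv N 0 s) ∣[(1 : ℤ)] γ)
    rw [Zv_slash]
    exact isBoundedAtImInfty_Zv N _ _ (not_dvd_mul_row N hs γ)

@[simp] theorem coe_ZForm (N : ℕ) [NeZero N] (s : ℤ) (hs : ¬ (N : ℤ) ∣ s) :
    ⇑(ZForm N s hs) = Zv N 0 s := rfl

end Fermat.Agent.ES.R48.ZDiv24
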