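/-
Programme R (S48), chapter B4 (EIS), file 7 (helper24): the `q`-expansion of `Z_{(0,s)}`.

* `lamCoeff_one_one : lamCoeff a 1 1 n = ∑ d ∈ n.divisors, a ^ d`;
* `hasSum_ZForm` : `Z_{(0,s)}(τ) = ∑ n, zCoeff24 N s n * q^n`, `q = e^{2πiτ}`;
* `qExpansion_ZForm` : **(Z6)** `(qExpansion 1 (ZForm N s hs)).coeff n = zCoeff24 N s n`, where
  `zCoeff24 N s 0 = π cot(π s/N)`, `zCoeff24 N s n = 2πi ∑_{d ∣ n} (ζ^(-sd) - ζ^(sd))` (`n ≥ 1`);
* `ZForm_slash_S`, `tendsto_ZForm_slash_S` : the expansion at the cusp `0`.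
-/
import Mathlib
import Fermat.Agent.ES.R48.ZDiv24

set_option autoImplicit false

noncomputable section

namespace Fermat.Agent.ES.R48.ZDivQExp24

open Complex Filter Topology Function CongruenceSubgroup
open Fermat.Agent.ES.R48.ZetaLattice24 Fermat.Agent.ES.R48.ZetaTau24 Fermat.Agent.ES.R48.CotAux24
  Fermat.Agent.ES.R48.ZetaCot24 Fermat.Agent.ES.R48.QSeriesAux24 Fermat.Agent.ES.R48.ZDiv24
open UpperHalfPlane hiding I
open scoped Real Manifold MatrixGroups ModularForm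

theorem lamCoeff_one_one (a : ℂ) (n : ℕ) : lamCoeff a 1 1 n = ∑ d ∈ n.divisors, a ^ d := by
  unfold lamCoeff
  have hS : ((fun x : ℕ × ℕ ↦ (x.2 + 1) * (1 + 1 * x.1)) ⁻¹' {n}) =
      ↑(n.divisorsAntidiagonal.image (fun p : ℕ × ℕ ↦ (p.2 - 1, p.1 - 1))) := by
    ext ⟨k, d⟩
    simp only [Set.mem_preimage, Set.mem_singleton_iff, Finset.coe_image, Set.mem_image,
      Finset.mem_coe, Nat.mem_divisorsAntidiagonal, Prod.mk.injEq, Prod.exists]
    constructor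
    · intro h
      refine ⟨d + 1, k + 1, ⟨by rw [← h]; ring, ?_⟩, by simp, by simp⟩
      rw [← h]
      positivity
    · rintro ⟨x, y, ⟨hxy, hn⟩, hk, hd⟩
      have hx : x ≠ 0 := by rintro rfl; simp at hxy; exact hn hxy.symm
      have hy : y ≠ 0 := by rintro rfl; simp at hxy; exact hn hxy.symm
      rw [← hxy, ← hk, ← hd]
      have e1 : x - 1 + 1 = x := by omega
      have e2 : 1 + 1 * (y - 1) = y := by omega
      rw [e1, e2]
  rw [tsum_congr_set_coe (fun x : ℕ × ℕ ↦ a ^ (x.2 + 1)) hS,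
    Finset.tsum_subtype' _ (fun x : ℕ × ℕ ↦ a ^ (x.2 + 1)), Finset.sum_image]
  · rw [Nat.sum_divisorsAntidiagonal (fun i _ ↦ a ^ (i - 1 + 1))]
    refine Finset.sum_congr rfl fun d hd ↦ ?_
    have : d ≠ 0 := Nat.pos_iff_ne_zero.mp (Nat.pos_of_mem_divisors hd)
    congr 1
    omega
  · intro p hp p' hp' h
    simp only [Finset.mem_coe, Nat.mem_divisorsAntidiagonal] at hp hp'
    have h1 : p.1 ≠ 0 := by rintro h0; rw [h0] at hp; simp at hp; exact hp.2 hp.1.symm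
    have h2 : p.2 ≠ 0 := by rintro h0; rw [h0] at hp; simp at hp; exact hp.2 hp.1.symm
    have h1' : p'.1 ≠ 0 := by rintro h0; rw [h0] at hp'; simp at hp'; exact hp'.2 hp'.1.symm
    have h2' : p'.2 ≠ 0 := by rintro h0; rw [h0] at hp'; simp at hp'; exact hp'.2 hp'.1.symm
    simp only [Prod.mk.injEq] at h
    ext <;> omega

/-- The `q`-expansion coefficients of `Z_{(0,s)}`. -/
def zCoeff24 (N : ℕ) (s : ℤ) (n : ℕ) : ℂ :=
  if n = 0 then pcot ((s : ℂ) / N)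
  else 2 * π * I * ∑ d ∈ n.divisors, (zetaPow N (-s) ^ d - zetaPow N s ^ d)

theorem qParam_one (τ : ℍ) : Function.Periodic.qParam 1 τ = Complex.exp (2 * π * I * τ) := by
  unfold Function.Periodic.qParam
  simp

theorem hasSum_Zv_zero (N : ℕ) [NeZero N] (s : ℤ) (hs : ¬ (N : ℤ) ∣ s) (τ : ℍ) :
    HasSum (fun n : ℕ ↦ zCoeff24 N s n * Function.Periodic.qParam 1 τ ^ n) (Zv N 0 s τ) := by
  have hN1 : 1 ≤ N := Nat.pos_of_ne_zero (NeZero.ne N)
  have hq : ‖Function.Periodic.qParam 1 τ‖ < 1 := by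
    rw [qParam_one]; exact UpperHalfPlane.norm_exp_two_pi_I_lt_one τ
  have key := Zv_eq_tsum τ N 0 s (by rintro ⟨-, h⟩; exact hs h) le_rfl (by exact_mod_cast hN1)
  simp only [Int.cast_zero, zero_mul, zero_add, mul_zero, zero_div] at key
  rw [← qParam_one] at key
  set q := Function.Periodic.qParam 1 τ with hqdef
  have e1 : Complex.exp (2 * π * I * (-((s : ℂ) / N))) = zetaPow N (-s) := by
    unfold zetaPow; congr 1; push_cast; ring
  have e2 : Complex.exp (2 * π * I * ((s : ℂ) / N)) = zetaPow N s := by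
    unfold zetaPow; congr 1; ring
  rw [e1, e2] at key
  have hA := summable_lam (a := zetaPow N (-s)) (norm_zetaPow N (-s)).le
    (j := 1) le_rfl (N := 1) le_rfl hq
  have hB := summable_lam (a := zetaPow N s) (norm_zetaPow N s).le
    (j := 1) le_rfl (N := 1) le_rfl hq
  have hsub : ∑' k : ℕ, (gq (zetaPow N (-s) * q ^ (k + 1)) - gq (zetaPow N s * q ^ (k + 1))) =
      lam (zetaPow N (-s)) 1 1 q - lam (zetaPow N s) 1 1 q := by
    unfold lam
    rw [← hA.tsum_sub hB]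
    refine tsum_congr fun k ↦ ?_
    have : 1 + 1 * k = k + 1 := by ring
    rw [this]
  rw [hsub] at key
  rw [key]
  have h0 : HasSum (fun n : ℕ ↦ (if n = 0 then pcot ((s : ℂ) / N) else 0) * q ^ n)
      (pcot ((s : ℂ) / N)) := by
    have := hasSum_ite_eq (0 : ℕ) (pcot ((s : ℂ) / N))
    refine this.congr_fun fun n ↦ ?_
    by_cases hn : n = 0
    · subst hn; simp
    · simp [hn]
  have hA' := hasSum_lam_pow (a := zetaPow N (-s)) (norm_zetaPow N (-s)).le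
    (j := 1) le_rfl (N := 1) le_rfl hq
  have hB' := hasSum_lam_pow (a := zetaPow N s) (norm_zetaPow N s).le
    (j := 1) le_rfl (N := 1) le_rfl hq
  refine (h0.add ((hA'.sub hB').mul_left (2 * π * I))).congr_fun fun n ↦ ?_
  unfold zCoeff24
  rw [lamCoeff_one_one, lamCoeff_one_one, Finset.sum_sub_distrib]
  by_cases hn : n = 0
  · subst hn; simp
  · simp only [if_neg hn]; ring

theorem one_mem_strictPeriods_Gamma1 (N : ℕ) :
    (1 : ℝ) ∈ (Subgroup.map (Matrix.SpecialLinearGroup.mapGL ℝ) (Gamma1 N)).strictPeriods := by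
  have hT : ModularGroup.T ∈ Gamma1 N := by
    rw [Gamma1_mem]
    simp [ModularGroup.T]
  rw [Subgroup.strictPeriods_eq_zmultiples_one_of_T_mem hT]
  exact AddSubgroup.mem_zmultiples (1 : ℝ)

/-- **(Z6)**: the `q`-expansion of `Z_{(0,s)} ∈ M₁(Γ₁(N))`. -/
theorem qExpansion_ZForm (N : ℕ) [NeZero N] (s : ℤ) (hs : ¬ (N : ℤ) ∣ s) (n : ℕ) :
    (qExpansion 1 (ZForm N s hs)).coeff n = zCoeff24 N s n := by
  refine (ModularFormClass.qExpansion_coeff_unique (c := zCoeff24 N s) one_pos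
    (one_mem_strictPeriods_Gamma1 N) (f := ZForm N s hs) (fun τ ↦ ?_) n).symm
  simpa [smul_eq_mul] using hasSum_Zv_zero N s hs τ

/-- The expansion at the cusp `0`: `Z_{(0,s)} ∣[1] S = Z_{(s,0)}`. -/
theorem ZForm_slash_S (N : ℕ) [NeZero N] (s : ℤ) (hs : ¬ (N : ℤ) ∣ s) :
    (⇑(ZForm N s hs) : ℍ → ℂ) ∣[(1 : ℤ)] ModularGroup.S = Zv N s 0 := by
  rw [coe_ZForm, Zv_slash]
  congr 1 <;> simp [ModularGroup.S]

/-- The value of `Z_{(s,0)}` at `i∞`: `2πi (s mod N)/N - πi`. -/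
theorem tendsto_Zv_S (N : ℕ) [NeZero N] (s : ℤ) (hs : ¬ (N : ℤ) ∣ s) :
    Tendsto (Zv N s 0) atImInfty
      (𝓝 (2 * π * I * ((s % (N : ℤ) : ℤ) : ℂ) / N - π * I)) := by
  have hN : (N : ℤ) ≠ 0 := by exact_mod_cast NeZero.ne N
  have h : ¬ ((N : ℤ) ∣ s ∧ (N : ℤ) ∣ (0 : ℤ)) := fun h ↦ hs h.1
  rw [Zv_emod N s 0 h]
  have h0 : 0 ≤ s % (N : ℤ) := Int.emod_nonneg s hN
  have hne : (s % (N : ℤ)).toNat ≠ 0 := by
    intro h0'
    apply hs
    have : s % (N : ℤ) = 0 := by omega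
    exact Int.dvd_of_emod_eq_zero this
  have T := tendsto_Zv_nat N _ (emod_toNat_lt N s) 0 (not_dvd_emod N h)
  unfold zvConst at T
  rw [if_neg hne] at T
  have e : (((s % (N : ℤ)).toNat : ℕ) : ℂ) = ((s % (N : ℤ) : ℤ) : ℂ) := by
    rw [← Int.cast_natCast, Int.toNat_of_nonneg h0]
  rwa [e] at T

end Fermat.Agent.ES.R48.ZDivQExp24
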