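/-
Programme R (S48), chapter B4 (EIS), file 8 (helper24): assembly of `RatIface22.EisData L χ` for
every odd primitive Dirichlet character `χ` mod `L`:

  `E_χ = κ · ∑_{s mod L} χ⁻¹(s) · Z_{(0,s)}`,  `κ = 1/(-4πi · G(χ⁻¹))`,

a modular form of weight one on `Γ₁(L)` with nebentypus `χ`, `q`-expansion
`-B_{1,χ}/2 + ∑_{n ≥ 1} (∑_{d ∣ n} χ(d)) qⁿ` and non-zero values at the cusps `∞` and `0`.
-/
import Mathlib
import Fermat.Agent.ES.R48.ZDivQExp24
import Fermat.Agent.ES.R48.RatIface22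
import Fermat.Agent.ES.R48.GaussCot3
import Fermat.Agent.ES.R48.EisConstIface3
import Fermat.Agent.ES.R48.EisConstNe3

set_option autoImplicit false

noncomputable section

namespace Fermat.Agent.ES.R48.EisData24

open Complex Filter Topology Function CongruenceSubgroup ZMod
open Fermat.Agent.ES.R48.ZetaTau24 Fermat.Agent.ES.R48.CotAux24 Fermat.Agent.ES.R48.ZDiv24
  Fermat.Agent.ES.R48.ZDivQExp24 Fermat.Agent.ES.R48.GaussCot3 Fermat.Agent.ES.R48.EisConstIface3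
  Fermat.Agent.ES.R48
open UpperHalfPlane hiding I
open scoped Real Manifold MatrixGroups ModularForm

variable {L : ℕ} [NeZero L]

theorem not_dvd_val {s : ZMod L} (hs : s ≠ 0) : ¬ (L : ℤ) ∣ ((s.val : ℕ) : ℤ) := by
  intro h
  apply hs
  have h1 : L ∣ s.val := by exact_mod_cast h
  have h2 : s.val = 0 := Nat.eq_zero_of_dvd_of_lt h1 (ZMod.val_lt s)
  exact (ZMod.val_eq_zero s).mp h2

/-- `Z_{(0,s)}` indexed by `s : ZMod L` (zero for `s = 0`). -/
def ZvZ (s : ZMod L) : ℍ → ℂ := if s = 0 then 0 else Zv L 0 (s.val : ℤ)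

/-- `Z_{(0,s)}` as a modular form, indexed by `s : ZMod L` (zero for `s = 0`). -/
def ZFormZ (s : ZMod L) : ModularForm (Gamma1 L) 1 :=
  if hs : s = 0 then 0 else ZForm L (s.val : ℤ) (not_dvd_val hs)

theorem coe_ZFormZ (s : ZMod L) : (⇑(ZFormZ s) : ℍ → ℂ) = ZvZ s := by
  unfold ZFormZ ZvZ
  split_ifs with hs
  · rfl
  · rfl

/-- `Z_{(0,t)}` only depends on `t mod L`. -/
theorem Zv_zero_eq_ZvZ (t : ℤ) {s : ZMod L} (hs : s ≠ 0) (h : (t : ZMod L) = s) :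
    Zv L 0 t = ZvZ s := by
  unfold ZvZ
  rw [if_neg hs]
  have hd : (L : ℤ) ∣ t - (s.val : ℤ) := by
    rw [← ZMod.intCast_zmod_eq_zero_iff_dvd]
    push_cast
    rw [h, ZMod.natCast_zmod_val, sub_self]
  obtain ⟨k, hk⟩ := hd
  have : t = (s.val : ℤ) + L * k := by linarith
  rw [this]
  funext τ
  refine Zv_add_right L 0 _ k τ ?_
  rintro ⟨-, h'⟩
  exact not_dvd_val hs h'

variable (χ : DirichletCharacter ℂ L)

/-- **The weight-one Eisenstein series `E_χ`.** -/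
def eisForm : ModularForm (Gamma1 L) 1 := kappa χ • ∑ s : ZMod L, χ⁻¹ s • ZFormZ s

omit [NeZero L] in
theorem coe_finset_sum {ι : Type*} (t : Finset ι) (F : ι → ModularForm (Gamma1 L) 1) :
    (⇑(∑ i ∈ t, F i) : ℍ → ℂ) = ∑ i ∈ t, (⇑(F i) : ℍ → ℂ) := by
  classical
  induction t using Finset.induction_on with
  | empty => simp
  | insert a t ha ih => rw [Finset.sum_insert ha, Finset.sum_insert ha, FunLike.coe_add, ih]

theorem eisForm_apply (τ : ℍ) :
    eisForm χ τ = kappa χ * ∑ s : ZMod L, χ⁻¹ s * ZvZ s τ := by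
  unfold eisForm
  rw [FunLike.coe_smul, Pi.smul_apply, coe_finset_sum, Finset.sum_apply, smul_eq_mul]
  congr 1
  refine Finset.sum_congr rfl fun s _ ↦ ?_
  rw [FunLike.coe_smul, Pi.smul_apply, coe_ZFormZ, smul_eq_mul]

/-- the lower right entry of `γ ∈ Γ₀(L)` as a unit mod `L`. -/
theorem isUnit_lowerRight {γ : SL(2, ℤ)} (hγ : γ ∈ Gamma0 L) : IsUnit ((γ 1 1 : ℤ) : ZMod L) := by
  have hdet : γ 0 0 * γ 1 1 - γ 0 1 * γ 1 0 = 1 := by
    have := γ.det_coe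
    rwa [Matrix.det_fin_two] at this
  have hc : ((γ 1 0 : ℤ) : ZMod L) = 0 := Gamma0_mem.mp hγ
  have : ((γ 0 0 : ℤ) : ZMod L) * ((γ 1 1 : ℤ) : ZMod L) = 1 := by
    have h := congrArg (Int.cast : ℤ → ZMod L) hdet
    push_cast at h
    rw [hc, mul_zero, sub_zero] at h
    exact h
  exact IsUnit.of_mul_eq_one_right _ this

theorem ZvZ_slash {γ : SL(2, ℤ)} (hγ : γ ∈ Gamma0 L) (s : ZMod L) :
    (ZvZ s) ∣[(1 : ℤ)] γ = ZvZ (s * ((γ 1 1 : ℤ) : ZMod L)) := by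
  by_cases hs : s = 0
  · subst hs
    rw [zero_mul]
    unfold ZvZ
    rw [if_pos rfl]
    exact SlashAction.zero_slash _ _
  · have hu := isUnit_lowerRight hγ
    have hsd : s * ((γ 1 1 : ℤ) : ZMod L) ≠ 0 := by
      intro h
      exact hs ((hu.mul_left_eq_zero).mp h)
    have h1 : ZvZ s = Zv L 0 (s.val : ℤ) := by unfold ZvZ; rw [if_neg hs]
    rw [h1, Zv_zero_slash_Gamma0 L (not_dvd_val hs) hγ]
    refine Zv_zero_eq_ZvZ _ hsd ?_
    push_cast
    rw [ZMod.natCast_zmod_val]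

/-- `E_χ` has nebentypus `χ`. -/
theorem hasNeben_eisForm : RatIface22.HasNeben L χ 1 (eisForm χ) := by
  intro γ hγ
  have hu := isUnit_lowerRight hγ
  funext τ
  rw [ModularForm.SL_slash_apply, eisForm_apply, Pi.smul_apply, eisForm_apply, smul_eq_mul]
  have h1 : ∀ s : ZMod L, ZvZ s (γ • τ) * denom γ τ ^ (-(1 : ℤ)) =
      ZvZ (s * ((γ 1 1 : ℤ) : ZMod L)) τ := by
    intro s
    rw [← ModularForm.SL_slash_apply, ZvZ_slash hγ]
  have h2 : (∑ s : ZMod L, χ⁻¹ s * ZvZ s (γ • τ)) * denom γ τ ^ (-(1 : ℤ)) =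
      ∑ s : ZMod L, χ⁻¹ s * ZvZ (s * ((γ 1 1 : ℤ) : ZMod L)) τ := by
    rw [Finset.sum_mul]
    refine Finset.sum_congr rfl fun s _ ↦ ?_
    rw [mul_assoc, h1]
  rw [mul_assoc, h2]
  set u : (ZMod L)ˣ := hu.unit with hudef
  have hud : ((γ 1 1 : ℤ) : ZMod L) = (u : ZMod L) := (IsUnit.unit_spec hu).symm
  rw [hud]
  have h3 : ∑ s : ZMod L, χ⁻¹ s * ZvZ (s * (u : ZMod L)) τ =
      ∑ s : ZMod L, χ⁻¹ (s * ((u⁻¹ : (ZMod L)ˣ) : ZMod L)) * ZvZ s τ := by
    rw [← Equiv.sum_comp (Units.mulRight u)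
      (fun s ↦ χ⁻¹ (s * ((u⁻¹ : (ZMod L)ˣ) : ZMod L)) * ZvZ s τ)]
    refine Finset.sum_congr rfl fun s _ ↦ ?_
    simp only [Units.mulRight_apply]
    rw [mul_assoc, Units.mul_inv, mul_one]
  have h4 : ∀ s : ZMod L, χ⁻¹ (s * ((u⁻¹ : (ZMod L)ˣ) : ZMod L)) = χ (u : ZMod L) * χ⁻¹ s := by
    intro s
    rw [map_mul, mul_comm]
    congr 1
    rw [MulChar.inv_apply, Ring.inverse_unit, inv_inv]
  rw [h3, Finset.sum_congr rfl fun s _ ↦ by rw [h4 s, mul_assoc], ← Finset.mul_sum]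
  ring

theorem zetaPow_val (s : ZMod L) : zetaPow L ((s.val : ℕ) : ℤ) = stdAddChar s := by
  rw [stdAddChar_eq_exp]
  unfold zetaPow
  congr 1
  push_cast
  ring

theorem zetaPow_neg_val (s : ZMod L) : zetaPow L (-((s.val : ℕ) : ℤ)) = (stdAddChar s)⁻¹ := by
  rw [← zetaPow_val]
  unfold zetaPow
  rw [← Complex.exp_neg]
  congr 1
  push_cast
  ring

/-- bridge to helper3's normal form of (Z6). -/
theorem zCoeff24_eq (s : ZMod L) (n : ℕ) :
    zCoeff24 L ((s.val : ℕ) : ℤ) n = GaussCot3.zCoeff s n := by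
  unfold zCoeff24 GaussCot3.zCoeff
  by_cases hn : n = 0
  · rw [if_pos hn, if_pos hn]
    unfold pcot
    push_cast
    rfl
  · rw [if_neg hn, if_neg hn, zetaPow_val, zetaPow_neg_val]
    have : ∀ k : ℕ, stdAddChar (s * (k : ZMod L)) - stdAddChar (-(s * (k : ZMod L))) =
        (stdAddChar s) ^ k - (stdAddChar s)⁻¹ ^ k := by
      intro k
      rw [AddChar.map_neg_eq_inv, stdAddChar_mul_natCast, inv_pow]
    rw [Finset.sum_congr rfl fun k _ ↦ this k, Finset.mul_sum, Finset.mul_sum]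
    refine Finset.sum_congr rfl fun k _ ↦ ?_
    ring

variable {χ}

theorem ne_one_of_odd (hodd : χ.Odd) : L ≠ 1 := by
  rintro rfl
  have h : χ (-1) = -1 := hodd
  have h1 : (-1 : ZMod 1) = 1 := Subsingleton.elim _ _
  rw [h1, map_one] at h
  norm_num at h

theorem hasSum_eisForm (hχ : χ.IsPrimitive) (hodd : χ.Odd) (τ : ℍ) :
    HasSum (fun n : ℕ ↦ (if n = 0 then RatIface22.eisConst χ else RatIface22.sigmaChi χ n) *
      Function.Periodic.qParam 1 τ ^ n) (eisForm χ τ) := by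
  have : Fact (1 < L) := ⟨by
    have := ne_one_of_odd hodd
    have := NeZero.ne L
    omega⟩
  rw [eisForm_apply]
  have hterm : ∀ s : ZMod L, HasSum (fun n : ℕ ↦ (χ⁻¹ s * GaussCot3.zCoeff s n) *
      Function.Periodic.qParam 1 τ ^ n) (χ⁻¹ s * ZvZ s τ) := by
    intro s
    by_cases hs : s = 0
    · subst hs
      have h0 : χ⁻¹ (0 : ZMod L) = 0 := MulChar.map_zero _
      simp only [h0, zero_mul]
      exact hasSum_zero
    · have h1 : ZvZ s = Zv L 0 (s.val : ℤ) := by unfold ZvZ; rw [if_neg hs]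
      rw [h1]
      have := (hasSum_Zv_zero L (s.val : ℤ) (not_dvd_val hs) τ).mul_left (χ⁻¹ s)
      refine this.congr_fun fun n ↦ ?_
      rw [zCoeff24_eq, mul_assoc]
  have hsum := (hasSum_sum (fun s _ ↦ hterm s) (s := Finset.univ)).mul_left (kappa χ)
  refine hsum.congr_fun fun n ↦ ?_
  rw [← kappa_mul_sum_zCoeff hχ hodd n, Finset.mul_sum, Finset.mul_sum, Finset.sum_mul]
  refine Finset.sum_congr rfl fun s _ ↦ ?_
  ring

theorem qCoeff_eisForm (hχ : χ.IsPrimitive) (hodd : χ.Odd) (n : ℕ) :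
    ModularFormClass.qCoeff (eisForm χ) n =
      if n = 0 then RatIface22.eisConst χ else RatIface22.sigmaChi χ n := by
  unfold ModularFormClass.qCoeff
  refine (ModularFormClass.qExpansion_coeff_unique
    (c := fun n ↦ if n = 0 then RatIface22.eisConst χ else RatIface22.sigmaChi χ n) one_pos
    (one_mem_strictPeriods_Gamma1 L) (f := eisForm χ) (fun τ ↦ ?_) n).symm
  simpa [smul_eq_mul] using hasSum_eisForm hχ hodd τ

theorem ZvZ_slash_S {s : ZMod L} (hs : s ≠ 0) :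
    (ZvZ s) ∣[(1 : ℤ)] ModularGroup.S = Zv L (s.val : ℤ) 0 := by
  have h1 : ZvZ s = Zv L 0 (s.val : ℤ) := by unfold ZvZ; rw [if_neg hs]
  rw [h1, Zv_slash]
  congr 1
  simp [ModularGroup.S]

theorem tendsto_ZvZ_slash_S (s : ZMod L) (hs : s ≠ 0) :
    Tendsto ((ZvZ s) ∣[(1 : ℤ)] ModularGroup.S) atImInfty
      (𝓝 (-(π : ℂ) * I + 2 * π * I * (s.val : ℂ) / L)) := by
  rw [ZvZ_slash_S hs]
  have T := tendsto_Zv_S L (s.val : ℤ) (not_dvd_val hs)
  have hmod : ((s.val : ℕ) : ℤ) % (L : ℤ) = (s.val : ℤ) :=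
    Int.emod_eq_of_lt (by positivity) (by exact_mod_cast ZMod.val_lt s)
  rw [hmod] at T
  have e : 2 * (π : ℂ) * I * (((s.val : ℕ) : ℤ) : ℂ) / L - π * I =
      -(π : ℂ) * I + 2 * π * I * (s.val : ℂ) / L := by
    push_cast; ring
  rwa [e] at T

theorem tendsto_eisForm_slash_S (hχ : χ.IsPrimitive) (hodd : χ.Odd) :
    Tendsto ((⇑(eisForm χ) : ℍ → ℂ) ∣[(1 : ℤ)] ModularGroup.S) atImInfty
      (𝓝 (RatIface22.eisConst χ⁻¹ / gaussSum χ⁻¹ stdAddChar)) := by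
  have : Fact (1 < L) := ⟨by
    have := ne_one_of_odd hodd
    have := NeZero.ne L
    omega⟩
  have h0 : χ⁻¹ (0 : ZMod L) = 0 := MulChar.map_zero _
  -- the slashed function as a finite sum
  have hfun : (⇑(eisForm χ) : ℍ → ℂ) ∣[(1 : ℤ)] ModularGroup.S =
      fun τ ↦ kappa χ * ∑ s : ZMod L, χ⁻¹ s * ((ZvZ s) ∣[(1 : ℤ)] ModularGroup.S) τ := by
    funext τ
    rw [ModularForm.SL_slash_apply, eisForm_apply, mul_assoc, Finset.sum_mul]
    congr 1
    refine Finset.sum_congr rfl fun s _ ↦ ?_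
    rw [ModularForm.SL_slash_apply, mul_assoc]
  rw [hfun, ← kappa_mul_sum_cusp hχ hodd]
  refine Tendsto.const_mul _ ?_
  have hsum : ∑ r ∈ Finset.range L, χ⁻¹ (r : ZMod L) * (-(π : ℂ) * I + 2 * π * I * r / L) =
      ∑ s : ZMod L, χ⁻¹ s * (-(π : ℂ) * I + 2 * π * I * (s.val : ℂ) / L) := by
    refine Finset.sum_bij' (fun r _ ↦ (r : ZMod L)) (fun s _ ↦ s.val)
      (fun _ _ ↦ Finset.mem_univ _) (fun s _ ↦ Finset.mem_range.mpr (ZMod.val_lt s))
      (fun r hr ↦ ZMod.val_cast_of_lt (Finset.mem_range.mp hr))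
      (fun s _ ↦ ZMod.natCast_zmod_val s) (fun r hr ↦ ?_)
    rw [ZMod.val_cast_of_lt (Finset.mem_range.mp hr)]
  rw [hsum]
  refine tendsto_finsetSum _ fun s _ ↦ ?_
  by_cases hs : s = 0
  · subst hs
    simp only [h0, zero_mul]
    exact tendsto_const_nhds
  · exact (tendsto_ZvZ_slash_S s hs).const_mul _

/-- **B4 export**: the weight-one Eisenstein series of every odd primitive character. -/
def eisData (hodd : χ.Odd) (hχ : χ.IsPrimitive) : RatIface22.EisData L χ where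
  E := eisForm χ
  neben := hasNeben_eisForm χ
  qCoeff_zero := by rw [qCoeff_eisForm hχ hodd, if_pos rfl]
  qCoeff_pos n hn := by rw [qCoeff_eisForm hχ hodd, if_neg hn.ne']
  eisConst_ne := EisConstNe3.eisConst_ne_zero hodd hχ
  cS := RatIface22.eisConst χ⁻¹ / gaussSum χ⁻¹ stdAddChar
  cS_ne := EisConstNe3.cusp_value_ne_zero hodd hχ
  tendsto_S := tendsto_eisForm_slash_S hχ hodd

theorem nonempty_eisData (hodd : χ.Odd) (hχ : χ.IsPrimitive) :
    Nonempty (RatIface22.EisData L χ) := ⟨eisData hodd hχ⟩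

end Fermat.Agent.ES.R48.EisData24
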