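/-
Programme R (S48), chapter GEOM, sub-chapter G0 (helper13): **leading terms of `W_c` over an arbitrary
coefficient ring** — the characteristic-free form of `EisLead13`, for the series
`F1CDefs15.wqC R M c` (`R` any commutative ring, e.g. a residue field of characteristic `ℓ`).

With `lead M c = min c.val (-c).val` (`EisLead13`):
* `coeff_wqC_natCast` : the coefficients of `wqC R M c` are the images of those of `wNum M c`;
* `coeff_wqC_of_lt`  : `(wqC R M c).coeff k = 0` for `k + 1 < lead M c`;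
* `coeff_wqC_lead`   : `c + c ≠ 0 → (wqC R M c).coeff (lead M c - 1) = 1` (the coefficient is `1`, NOT
  `2`, so nothing is lost in characteristic `2`);
* **`eq_or_eq_neg_of_wqC_eq`** : `R` nontrivial, `c + c ≠ 0`, `c' + c' ≠ 0`,
  `wqC R M c = wqC R M c' → c' = c ∨ c' = -c`;
* `wqC_injective_units` : for `3 ≤ M` and units `c, c'`: `wqC R M c = wqC R M c' → c' = c ∨ c' = -c`
  (the reductions `W̃_c`, `c ∈ (ZMod M)ˣ/±1`, of the conjugates of `W_1` stay pairwise distinct);
* `coeff_wqC_sub_lead` : for `lead M c < lead M c'` the difference `W_c - W_{c'}` has the leading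
  coefficient `1` at the exponent `lead M c - 1`.
-/
import Mathlib
import Fermat.Agent.ES.R48.EisLead13
import Fermat.Agent.ES.R48.F1CDefs15

set_option autoImplicit false
set_option linter.unusedSectionVars false

noncomputable section

open ModularCurve

namespace Fermat.Agent.ES.R48.EisLeadC13

open Fermat.Agent.ES.R48.FF1Defs13 Fermat.Agent.ES.R48.F1CDefs15 Fermat.Agent.ES.R48.EisLead13

variable (R : Type*) [CommRing R] {M : ℕ} [NeZero M]

/-- coefficients of `W_d` over `R`: those of the numerator, shifted by one. -/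
theorem coeff_wqC (d : ZMod M) (k : ℤ) :
    (wqC R M d).coeff k =
      (HahnSeries.ofPowerSeries ℤ R ((wNum M d).map (Int.castRingHom R))).coeff (k + 1) := by
  rw [wqC, HahnSeries.coeff_single_mul, one_mul, sub_neg_eq_add]

theorem coeff_wqC_natCast (d : ZMod M) (n : ℕ) :
    (wqC R M d).coeff (n : ℤ) = ((PowerSeries.coeff (n + 1) (wNum M d) : ℤ) : R) := by
  rw [coeff_wqC, show ((n : ℤ) + 1) = ((n + 1 : ℕ) : ℤ) by push_cast; ring,
    HahnSeries.ofPowerSeries_apply_coeff, PowerSeries.coeff_map]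
  rfl

/-- the coefficients of `W_c` below the exponent `lead M c - 1` vanish. -/
theorem coeff_wqC_of_lt {c : ZMod M} {n : ℕ} (hn : n + 1 < lead M c) :
    (wqC R M c).coeff (n : ℤ) = 0 := by
  rw [coeff_wqC_natCast, coeff_wNum_of_lt hn, Int.cast_zero]

/-- the leading coefficient of `W_c` is `1` (at the exponent `lead M c - 1`). -/
theorem coeff_wqC_lead {c : ZMod M} (hc : c + c ≠ 0) {n : ℕ} (hn : n + 1 = lead M c) :
    (wqC R M c).coeff (n : ℤ) = 1 := by
  rw [coeff_wqC_natCast, hn, coeff_wNum_lead hc, Int.cast_one]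

/-- `lead M c` is positive when `c + c ≠ 0`. -/
theorem lead_pos_of_add_self_ne_zero {c : ZMod M} (hc : c + c ≠ 0) : 0 < lead M c := by
  apply lead_pos
  rintro rfl
  exact hc (add_zero 0)

/-- **the leading coefficient of `W_c - W_{c'}`** when `lead M c < lead M c'`: it is `1`, at the
exponent `lead M c - 1`, and everything below vanishes. -/
theorem coeff_wqC_sub_lead {c c' : ZMod M} (hc : c + c ≠ 0) (hlt : lead M c < lead M c')
    {n : ℕ} (hn : n + 1 = lead M c) :
    (wqC R M c - wqC R M c').coeff (n : ℤ) = 1 ∧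
      ∀ m : ℕ, m < n → (wqC R M c - wqC R M c').coeff (m : ℤ) = 0 := by
  refine ⟨?_, fun m hm => ?_⟩
  · rw [HahnSeries.coeff_sub, coeff_wqC_lead R hc hn, coeff_wqC_of_lt R (by omega), sub_zero]
  · rw [HahnSeries.coeff_sub, coeff_wqC_of_lt R (by omega), coeff_wqC_of_lt R (by omega), sub_zero]

variable [Nontrivial R]

/-- **`W_c = W_{c'}` over a nontrivial ring only if `c' = ±c`.** -/
theorem eq_or_eq_neg_of_wqC_eq {c c' : ZMod M} (hc : c + c ≠ 0) (hc' : c' + c' ≠ 0)
    (h : wqC R M c = wqC R M c') : c' = c ∨ c' = -c := by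
  apply eq_or_eq_neg_of_lead_eq
  have hp := lead_pos_of_add_self_ne_zero hc
  have hp' := lead_pos_of_add_self_ne_zero hc'
  rcases lt_trichotomy (lead M c) (lead M c') with hlt | heq | hgt
  · exfalso
    obtain ⟨n, hn⟩ : ∃ n : ℕ, n + 1 = lead M c := ⟨lead M c - 1, by omega⟩
    have h1 := coeff_wqC_lead R hc hn
    rw [h, coeff_wqC_of_lt R (by omega)] at h1
    exact zero_ne_one h1
  · exact heq
  · exfalso
    obtain ⟨n, hn⟩ : ∃ n : ℕ, n + 1 = lead M c' := ⟨lead M c' - 1, by omega⟩
    have h1 := coeff_wqC_lead R hc' hn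
    rw [← h, coeff_wqC_of_lt R (by omega)] at h1
    exact zero_ne_one h1

/-- the same for units modulo `M ≥ 3`: the `W_c`, `c ∈ (ZMod M)ˣ / ±1`, stay pairwise distinct
over every nontrivial coefficient ring. -/
theorem wqC_injective_units (hM : 3 ≤ M) {c c' : (ZMod M)ˣ}
    (h : wqC R M (c : ZMod M) = wqC R M (c' : ZMod M)) : c' = c ∨ c' = -c := by
  rcases eq_or_eq_neg_of_wqC_eq R (add_self_ne_zero_of_isUnit hM c.isUnit)
    (add_self_ne_zero_of_isUnit hM c'.isUnit) h with h1 | h1
  · exact Or.inl (Units.ext h1)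
  · exact Or.inr (Units.ext (by rw [h1, Units.val_neg]))

end Fermat.Agent.ES.R48.EisLeadC13
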