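/-
Programme R (S48, Deligne–Serre), chapter G4 CONG₁, brick r1a (helper21): (ES-div), ABSTRACT form,
with TWO bijections — generalised twin of main's `ES/KRON/EsDivAbs24` (helper24).

`P` = places of the characteristic-zero function field, `Q` = places of its reduction,
`r : P → Q` the reduction of places, `Fr : Q ≃ Q` the Frobenius, `V : Q ≃ Q` a second bijection
(for `X₁(M)`: `V = δ ∘ Fr⁻¹`, `δ` the diamond operator on the places of the reduction; for `X₀(N)`:
`V = Fr⁻¹`, which gives back `EsDivAbs24`), `L := r_* ∘ T_l` an additive map on divisors with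
`L [p] ≥ 0` of degree `l + 1`.  `princ D D'` = "`D = div f`, `D' = div f~`".
Hypotheses: (R2) `r_* D = D'`; (3) `L D = Fr_* D' + l V_* D'` (the norm/Kronecker identity), i.e.
`L D y = D' (Fr⁻¹ y) + l D' (V⁻¹ y)`; a cover by charts (polar loci stable under `Fr` AND `V`) with
their coordinate functions and liftable functions.
Conclusion: `L [p] = [Fr (r p)] + l [V (r p)]` for every `p`.
-/
import Mathlib

set_option autoImplicit false

open Finsupp

noncomputable section

namespace Fermat.Agent.ES.R48.EsDivAbsV21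

variable {P Q : Type*}

/-- The multiplicity of `y` in `L [p]`. -/
def mult (L : (P →₀ ℤ) →+ (Q →₀ ℤ)) (p : P) (y : Q) : ℤ := L (single p 1) y

theorem L_single (L : (P →₀ ℤ) →+ (Q →₀ ℤ)) (p : P) (n : ℤ) (y : Q) :
    L (single p n) y = n * mult L p y := by
  rw [← smul_single_one, map_zsmul, Finsupp.smul_apply, smul_eq_mul, mult]

theorem L_apply (L : (P →₀ ℤ) →+ (Q →₀ ℤ)) (D : P →₀ ℤ) (y : Q) :
    L D y = ∑ p ∈ D.support, D p * mult L p y := by
  conv_lhs => rw [← Finsupp.sum_single D]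
  rw [Finsupp.sum, map_sum, Finsupp.finsetSum_apply]
  exact Finset.sum_congr rfl fun p _ => L_single L p _ y

theorem L_apply_of_subset (L : (P →₀ ℤ) →+ (Q →₀ ℤ)) (D : P →₀ ℤ) (s : Finset P)
    (hs : D.support ⊆ s) (y : Q) : L D y = ∑ p ∈ s, D p * mult L p y := by
  rw [L_apply]
  refine Finset.sum_subset hs fun p _ hp => ?_
  rw [Finsupp.notMem_support_iff.mp hp, zero_mul]

theorem mapDomain_apply_sum [DecidableEq Q] (r : P → Q) (D : P →₀ ℤ) (x : Q) :
    mapDomain r D x = ∑ p ∈ D.support, if r p = x then D p else 0 := by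
  rw [mapDomain, Finsupp.sum, Finsupp.finsetSum_apply]
  exact Finset.sum_congr rfl fun p _ => Finsupp.single_apply

/-- Global hypotheses: positivity and degree of `L [p]`, (R2), and the Kronecker identity (3). -/
structure Setup (r : P → Q) (Fr V : Q ≃ Q) (l : ℕ) (L : (P →₀ ℤ) →+ (Q →₀ ℤ))
    (princ : (P →₀ ℤ) → (Q →₀ ℤ) → Prop) : Prop where
  pos : ∀ p y, 0 ≤ mult L p y
  deg : ∀ p, (L (single p 1)).sum (fun _ n => n) = (l : ℤ) + 1
  red : ∀ D D', princ D D' → mapDomain r D = D'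
  kron : ∀ D D', princ D D' → ∀ y, L D y = D' (Fr.symm y) + (l : ℤ) * D' (V.symm y)

/-- One chart: `C` = places of the chart, `Dinf` = polar divisor of the coordinate upstairs,
`Dinf'` = polar divisor of its reduction; `coord` = the functions `t - a`; `lift` = liftable functions
with a simple zero at `r p` downstairs and prescribed non-vanishing. -/
structure Chart (r : P → Q) (Fr V : Q ≃ Q) (princ : (P →₀ ℤ) → (Q →₀ ℤ) → Prop)
    (C : Set P) (Dinf : P →₀ ℤ) (Dinf' : Q →₀ ℤ) : Prop where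
  dinf_pos : ∀ p, 0 ≤ Dinf p
  dinf'_pos : ∀ y, 0 ≤ Dinf' y
  deg_eq : Dinf.sum (fun _ n => n) = Dinf'.sum (fun _ n => n)
  stable : ∀ y, y ∈ Dinf'.support ↔ Fr y ∈ Dinf'.support
  stableV : ∀ y, y ∈ Dinf'.support ↔ V y ∈ Dinf'.support
  r_bad : ∀ p ∈ Dinf.support, r p ∈ Dinf'.support
  r_good : ∀ p ∈ C, r p ∉ Dinf'.support
  coord : ∀ p ∈ C, ∃ (Z : P →₀ ℤ) (Z' : Q →₀ ℤ), (∀ p', 0 ≤ Z p') ∧ 0 < Z p ∧
    (∀ y ∈ Dinf'.support, Z' y = 0) ∧ princ (Z - Dinf) (Z' - Dinf')
  lift : ∀ p ∈ C, ∀ S : Finset Q, (∀ s ∈ S, s ∉ Dinf'.support) → r p ∉ S →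
    ∃ (Z E : P →₀ ℤ) (D' : Q →₀ ℤ), (∀ p', 0 ≤ Z p') ∧ (∀ p', 0 ≤ E p') ∧ 0 < Z p ∧
      E.support ⊆ Dinf.support ∧ princ (Z - E) D' ∧ D' (r p) = 1 ∧ ∀ s ∈ S, D' s = 0

section Basic

variable {r : P → Q} {Fr V : Q ≃ Q} {l : ℕ} {L : (P →₀ ℤ) →+ (Q →₀ ℤ)}
  {princ : (P →₀ ℤ) → (Q →₀ ℤ) → Prop}

/-- The part of `L [p]` inside a finite set `Y` has degree at most `l + 1`. -/
theorem sum_mult_le (hS : Setup r Fr V l L princ) (p : P) (Y : Finset Q) :
    ∑ y ∈ Y, mult L p y ≤ (l : ℤ) + 1 := by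
  classical
  rw [← hS.deg p, Finsupp.sum]
  have h1 : ∑ y ∈ Y, mult L p y = ∑ y ∈ Y ∩ (L (single p 1)).support, mult L p y := by
    symm
    refine Finset.sum_subset Finset.inter_subset_left fun y hy hy' => ?_
    have : y ∉ (L (single p 1)).support := fun h => hy' (Finset.mem_inter.mpr ⟨hy, h⟩)
    exact Finsupp.notMem_support_iff.mp this
  rw [h1]
  exact Finset.sum_le_sum_of_subset_of_nonneg Finset.inter_subset_right
    fun y _ _ => hS.pos p y

/-- If the part of `L [p]` inside `Y` has full degree, `L [p]` is supported in `Y`. -/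
theorem mult_eq_zero_of_sum_eq (hS : Setup r Fr V l L princ) (p : P) (Y : Finset Q)
    (h : ∑ y ∈ Y, mult L p y = (l : ℤ) + 1) (y : Q) (hy : y ∉ Y) : mult L p y = 0 := by
  classical
  by_contra hne
  have hpos : 0 < mult L p y := lt_of_le_of_ne (hS.pos p y) (Ne.symm hne)
  have h2 := sum_mult_le hS p (insert y Y)
  rw [Finset.sum_insert hy, h] at h2
  linarith

end Basic


section ChartLemmas

variable {r : P → Q} {Fr V : Q ≃ Q} {l : ℕ} {L : (P →₀ ℤ) →+ (Q →₀ ℤ)}
  {princ : (P →₀ ℤ) → (Q →₀ ℤ) → Prop} {C : Set P} {Dinf : P →₀ ℤ} {Dinf' : Q →₀ ℤ}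

/-- The degree of the part of `L [p]` inside `Y`. -/
def mY (L : (P →₀ ℤ) →+ (Q →₀ ℤ)) (Y : Finset Q) (p : P) : ℤ := ∑ y ∈ Y, mult L p y

theorem mY_nonneg (hS : Setup r Fr V l L princ) (Y : Finset Q) (p : P) : 0 ≤ mY L Y p :=
  Finset.sum_nonneg fun y _ => hS.pos p y

theorem mY_le (hS : Setup r Fr V l L princ) (Y : Finset Q) (p : P) : mY L Y p ≤ (l : ℤ) + 1 :=
  sum_mult_le hS p Y

theorem sum_L_apply (D : P →₀ ℤ) (T : Finset P) (hT : D.support ⊆ T) (Y : Finset Q) :
    ∑ y ∈ Y, L D y = ∑ p ∈ T, D p * mY L Y p := by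
  simp_rw [L_apply_of_subset L D T hT, mY, Finset.mul_sum]
  exact Finset.sum_comm

theorem stable_symm (hC : Chart r Fr V princ C Dinf Dinf') (y : Q) :
    y ∈ Dinf'.support ↔ Fr.symm y ∈ Dinf'.support := by
  have := hC.stable (Fr.symm y)
  rw [Equiv.apply_symm_apply] at this
  exact this.symm

theorem stableV_symm (hC : Chart r Fr V princ C Dinf Dinf') (y : Q) :
    y ∈ Dinf'.support ↔ V.symm y ∈ Dinf'.support := by
  have := hC.stableV (V.symm y)
  rw [Equiv.apply_symm_apply] at this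
  exact this.symm

/-- The degree count: summing the Kronecker identity for a coordinate function over the polar
locus downstairs. -/
theorem chart_key (hS : Setup r Fr V l L princ) (hC : Chart r Fr V princ C Dinf Dinf')
    {Z : P →₀ ℤ} {Z' : Q →₀ ℤ} (hZ : ∀ p', 0 ≤ Z p') (hZ' : ∀ y ∈ Dinf'.support, Z' y = 0)
    (hp : princ (Z - Dinf) (Z' - Dinf')) (p : P) :
    Z p * mY L Dinf'.support p = 0 ∧ Dinf p * ((l : ℤ) + 1 - mY L Dinf'.support p) = 0 := by
  classical
  set Y := Dinf'.support with hY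
  set T := Z.support ∪ Dinf.support with hT
  have hZT : Z.support ⊆ T := Finset.subset_union_left
  have hDT : Dinf.support ⊆ T := Finset.subset_union_right
  -- right-hand side
  have hR : ∑ y ∈ Y, ((Z' - Dinf') (Fr.symm y) + (l : ℤ) * (Z' - Dinf') (V.symm y))
      = -(((l : ℤ) + 1) * ∑ y ∈ Y, Dinf' y) := by
    have h1 : ∑ y ∈ Y, Dinf' (Fr.symm y) = ∑ y ∈ Y, Dinf' y :=
      Finset.sum_equiv Fr.symm (fun y => stable_symm hC y) (fun _ _ => rfl)
    have h2 : ∑ y ∈ Y, Dinf' (V.symm y) = ∑ y ∈ Y, Dinf' y :=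
      Finset.sum_equiv V.symm (fun y => stableV_symm hC y) (fun _ _ => rfl)
    have h3 : ∀ y ∈ Y, (Z' - Dinf') (Fr.symm y) + (l : ℤ) * (Z' - Dinf') (V.symm y)
        = -Dinf' (Fr.symm y) - (l : ℤ) * Dinf' (V.symm y) := by
      intro y hy
      rw [Finsupp.sub_apply, Finsupp.sub_apply, hZ' _ ((stable_symm hC y).mp hy),
        hZ' _ ((stableV_symm hC y).mp hy)]
      ring
    rw [Finset.sum_congr rfl h3, Finset.sum_sub_distrib, Finset.sum_neg_distrib,
      ← Finset.mul_sum, h1, h2]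
    ring
  -- left-hand side
  have hL : ∑ y ∈ Y, L (Z - Dinf) y
      = ∑ p ∈ T, Z p * mY L Y p - ∑ p ∈ T, Dinf p * mY L Y p := by
    have : ∀ y, L (Z - Dinf) y = L Z y - L Dinf y := fun y => by
      rw [map_sub, Finsupp.sub_apply]
    simp_rw [this]
    rw [Finset.sum_sub_distrib, sum_L_apply Z T hZT, sum_L_apply Dinf T hDT]
  have hdeg : ∑ y ∈ Y, Dinf' y = ∑ p ∈ T, Dinf p := by
    have h1 : ∑ y ∈ Y, Dinf' y = Dinf'.sum fun _ n => n := rfl
    rw [h1, ← hC.deg_eq, Finsupp.sum]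
    refine Finset.sum_subset hDT fun p _ hp => Finsupp.notMem_support_iff.mp hp
  have hk : ∑ y ∈ Y, L (Z - Dinf) y
      = ∑ y ∈ Y, ((Z' - Dinf') (Fr.symm y) + (l : ℤ) * (Z' - Dinf') (V.symm y)) :=
    Finset.sum_congr rfl fun y _ => hS.kron _ _ hp y
  rw [hL, hR, hdeg, Finset.mul_sum] at hk
  have hsum : ∑ p ∈ T, (Z p * mY L Y p + Dinf p * ((l : ℤ) + 1 - mY L Y p)) = 0 := by
    rw [Finset.sum_add_distrib]
    have : ∑ p ∈ T, Dinf p * ((l : ℤ) + 1 - mY L Y p)
        = ∑ p ∈ T, ((l : ℤ) + 1) * Dinf p - ∑ p ∈ T, Dinf p * mY L Y p := by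
      rw [← Finset.sum_sub_distrib]
      exact Finset.sum_congr rfl fun p _ => by ring
    rw [this]
    linarith
  have hnn : ∀ p ∈ T, 0 ≤ Z p * mY L Y p + Dinf p * ((l : ℤ) + 1 - mY L Y p) := fun p _ =>
    add_nonneg (mul_nonneg (hZ p) (mY_nonneg hS Y p))
      (mul_nonneg (hC.dinf_pos p) (sub_nonneg.mpr (mY_le hS Y p)))
  by_cases hpT : p ∈ T
  · have h0 := (Finset.sum_eq_zero_iff_of_nonneg hnn).mp hsum p hpT
    have ha : 0 ≤ Z p * mY L Y p := mul_nonneg (hZ p) (mY_nonneg hS Y p)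
    have hb : 0 ≤ Dinf p * ((l : ℤ) + 1 - mY L Y p) :=
      mul_nonneg (hC.dinf_pos p) (sub_nonneg.mpr (mY_le hS Y p))
    constructor <;> linarith
  · have hz : Z p = 0 := Finsupp.notMem_support_iff.mp fun h => hpT (hZT h)
    have hd : Dinf p = 0 := Finsupp.notMem_support_iff.mp fun h => hpT (hDT h)
    rw [hz, hd, zero_mul, zero_mul]
    exact ⟨rfl, rfl⟩

/-- For a chart point `p`, `L [p]` misses the polar locus downstairs. -/
theorem chart_good (hS : Setup r Fr V l L princ) (hC : Chart r Fr V princ C Dinf Dinf')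
    {p : P} (hp : p ∈ C) {y : Q} (hy : y ∈ Dinf'.support) : mult L p y = 0 := by
  obtain ⟨Z, Z', hZ, hZp, hZ', hpr⟩ := hC.coord p hp
  have h := (chart_key hS hC hZ hZ' hpr p).1
  have h0 : mY L Dinf'.support p = 0 := by
    rcases mul_eq_zero.mp h with h | h
    · exact absurd h hZp.ne'
    · exact h
  exact (Finset.sum_eq_zero_iff_of_nonneg fun y _ => hS.pos p y).mp h0 y hy

/-- For a pole `p` of the coordinate, `L [p]` is supported in the polar locus downstairs. -/
theorem chart_bad (hS : Setup r Fr V l L princ) (hC : Chart r Fr V princ C Dinf Dinf')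
    (hne : C.Nonempty) {p : P} (hp : p ∈ Dinf.support) {y : Q} (hy : y ∉ Dinf'.support) :
    mult L p y = 0 := by
  obtain ⟨p₀, hp₀⟩ := hne
  obtain ⟨Z, Z', hZ, _, hZ', hpr⟩ := hC.coord p₀ hp₀
  have h := (chart_key hS hC hZ hZ' hpr p).2
  have h0 : mY L Dinf'.support p = (l : ℤ) + 1 := by
    rcases mul_eq_zero.mp h with h | h
    · exact absurd h (Finsupp.mem_support_iff.mp hp)
    · linarith
  exact mult_eq_zero_of_sum_eq hS p _ h0 y hy

/-- `L E y = 0` if `L [p] y = 0` on the support of `E`. -/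
theorem L_apply_eq_zero (E : P →₀ ℤ) (y : Q) (h : ∀ p ∈ E.support, mult L p y = 0) :
    L E y = 0 := by
  rw [L_apply]
  exact Finset.sum_eq_zero fun p hp => by rw [h p hp, mul_zero]

/-- If `Z ≥ 0` and `L Z y = 0` then `L [p] y = 0` on the support of `Z`. -/
theorem mult_eq_zero_of_L_apply (hS : Setup r Fr V l L princ) (Z : P →₀ ℤ) (hZ : ∀ p, 0 ≤ Z p)
    (y : Q) (h : L Z y = 0) (p : P) (hp : 0 < Z p) : mult L p y = 0 := by
  rw [L_apply] at h
  have h1 := (Finset.sum_eq_zero_iff_of_nonneg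
    fun p' _ => mul_nonneg (hZ p') (hS.pos p' y)).mp h p (Finsupp.mem_support_iff.mpr hp.ne')
  rcases mul_eq_zero.mp h1 with h2 | h2
  · exact absurd h2 hp.ne'
  · exact h2

/-- For a chart point `p`, `L [p]` is supported in `{Fr (r p), V (r p)}`. -/
theorem chart_supp (hS : Setup r Fr V l L princ) (hC : Chart r Fr V princ C Dinf Dinf')
    {p : P} (hp : p ∈ C) {y : Q} (hy : mult L p y ≠ 0) : y = Fr (r p) ∨ y = V (r p) := by
  classical
  by_contra hcon
  rw [not_or] at hcon
  obtain ⟨hy1, hy2⟩ := hcon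
  have hyY : y ∉ Dinf'.support := fun h' => hy (chart_good hS hC hp h')
  have hS1 : ∀ s ∈ ({Fr.symm y, V.symm y} : Finset Q), s ∉ Dinf'.support := by
    intro s hs
    rw [Finset.mem_insert, Finset.mem_singleton] at hs
    rcases hs with rfl | rfl
    · exact fun h' => hyY ((stable_symm hC y).mpr h')
    · exact fun h' => hyY ((stableV_symm hC y).mpr h')
  have hS2 : r p ∉ ({Fr.symm y, V.symm y} : Finset Q) := by
    intro hs
    rw [Finset.mem_insert, Finset.mem_singleton] at hs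
    rcases hs with h' | h'
    · exact hy1 (by rw [h', Equiv.apply_symm_apply])
    · exact hy2 (by rw [h', Equiv.apply_symm_apply])
  obtain ⟨Z, E, D', hZ, _, hZp, hEs, hpr, _, hD'S⟩ := hC.lift p hp _ hS1 hS2
  have hk := hS.kron _ _ hpr y
  rw [hD'S _ (Finset.mem_insert_self _ _),
    hD'S _ (Finset.mem_insert_of_mem (Finset.mem_singleton_self _)), mul_zero, add_zero,
    map_sub, Finsupp.sub_apply,
    L_apply_eq_zero E y fun p' hp' => chart_bad hS hC ⟨p, hp⟩ (hEs hp') hyY, sub_zero] at hk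
  exact hy (mult_eq_zero_of_L_apply hS Z hZ y hk p hZp)

end ChartLemmas

section Main

variable {r : P → Q} {Fr V : Q ≃ Q} {l : ℕ} {L : (P →₀ ℤ) →+ (Q →₀ ℤ)}
  {princ : (P →₀ ℤ) → (Q →₀ ℤ) → Prop} {ι : Type*} {C : ι → Set P} {Dinf : ι → P →₀ ℤ}
  {Dinf' : ι → Q →₀ ℤ}

/-- With a cover by charts, `L [p]` is supported in `{Fr (r p), V (r p)}` for every `p`. -/
theorem supp_of_cover (hS : Setup r Fr V l L princ)
    (hC : ∀ i, Chart r Fr V princ (C i) (Dinf i) (Dinf' i)) (hcov : ∀ p, ∃ i, p ∈ C i)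
    {p : P} {y : Q} (hy : mult L p y ≠ 0) : y = Fr (r p) ∨ y = V (r p) := by
  obtain ⟨i, hi⟩ := hcov p
  exact chart_supp hS (hC i) hi hy

/-- **(ES-div), abstract form**: `r_* T_l [p] = [Fr (r p)] + l [V (r p)]`. -/
theorem es_div (hS : Setup r Fr V l L princ)
    (hC : ∀ i, Chart r Fr V princ (C i) (Dinf i) (Dinf' i)) (hcov : ∀ p, ∃ i, p ∈ C i) (p : P) :
    L (single p 1) = single (Fr (r p)) 1 + single (V (r p)) (l : ℤ) := by
  classical
  obtain ⟨i, hpi⟩ := hcov p
  have hCi := hC i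
  set x := r p with hx
  have hxY : x ∉ (Dinf' i).support := hCi.r_good p hpi
  have hFx : Fr x ∉ (Dinf' i).support := fun h' => hxY ((hCi.stable x).mpr h')
  have hVx : V x ∉ (Dinf' i).support := fun h' => hxY ((hCi.stableV x).mpr h')
  -- the two auxiliary points `a = V⁻¹ (Fr x)` and `b = Fr⁻¹ (V x)`
  have haY : V.symm (Fr x) ∉ (Dinf' i).support := fun h' =>
    hFx ((stableV_symm hCi (Fr x)).mpr h')
  have hbY : Fr.symm (V x) ∉ (Dinf' i).support := fun h' =>
    hVx ((stable_symm hCi (V x)).mpr h')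
  set S : Finset Q := ({V.symm (Fr x), Fr.symm (V x)} : Finset Q).erase x with hSdef
  have hS1 : ∀ s ∈ S, s ∉ (Dinf' i).support := by
    intro s hs
    have hs' := Finset.mem_of_mem_erase hs
    rw [Finset.mem_insert, Finset.mem_singleton] at hs'
    rcases hs' with rfl | rfl
    · exact haY
    · exact hbY
  have hS2 : r p ∉ S := Finset.notMem_erase _ _
  obtain ⟨Z, E, D', hZ, hE, hZp, hEs, hpr, hD'x, hD'S⟩ := hCi.lift p hpi S hS1 hS2
  -- (a) `D'` away from the polar locus is computed by `Z`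
  have hred := hS.red _ _ hpr
  have ha : ∀ z, z ∉ (Dinf' i).support →
      D' z = ∑ p' ∈ Z.support, if r p' = z then Z p' else 0 := by
    intro z hz
    rw [← hred, mapDomain_sub, Finsupp.sub_apply, mapDomain_apply_sum r E,
      mapDomain_apply_sum r Z]
    have : ∑ p' ∈ E.support, (if r p' = z then E p' else 0) = 0 := by
      refine Finset.sum_eq_zero fun p' hp' => ?_
      rw [if_neg]
      intro h'
      exact hz (h' ▸ hCi.r_bad p' (hEs hp'))
    rw [this, sub_zero]
  have hnn : ∀ z, ∀ p' ∈ Z.support, 0 ≤ (if r p' = z then Z p' else 0) := by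
    intro z p' _
    split_ifs
    · exact hZ p'
    · exact le_rfl
  have hpZ : p ∈ Z.support := Finsupp.mem_support_iff.mpr hZp.ne'
  -- (b) over `x`, `Z` is exactly `[p]`
  have hb0 : ∑ p' ∈ Z.support, (if r p' = x then Z p' else 0) = 1 := by
    rw [← ha x hxY, hD'x]
  have hb1 : Z p + ∑ p' ∈ Z.support.erase p, (if r p' = x then Z p' else 0) = 1 := by
    rw [← hb0, ← Finset.add_sum_erase _ _ hpZ, if_pos rfl]
  have hb2 : 0 ≤ ∑ p' ∈ Z.support.erase p, (if r p' = x then Z p' else 0) :=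
    Finset.sum_nonneg fun p' hp' => hnn x p' (Finset.mem_of_mem_erase hp')
  have hZp1 : Z p = 1 := by linarith
  have hb3 : ∑ p' ∈ Z.support.erase p, (if r p' = x then Z p' else 0) = 0 := by linarith
  have hb : ∀ p', p' ≠ p → r p' = x → Z p' = 0 := by
    intro p' hne hr
    by_cases hp'Z : p' ∈ Z.support
    · have := (Finset.sum_eq_zero_iff_of_nonneg
        fun p'' hp'' => hnn x p'' (Finset.mem_of_mem_erase hp'')).mp hb3 p'
        (Finset.mem_erase.mpr ⟨hne, hp'Z⟩)
      rwa [if_pos hr] at this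
    · exact Finsupp.notMem_support_iff.mp hp'Z
  -- (c) over `S`, `Z` vanishes
  have hc : ∀ z ∈ S, ∀ p', r p' = z → Z p' = 0 := by
    intro z hz p' hr
    by_cases hp'Z : p' ∈ Z.support
    · have h0 : ∑ p'' ∈ Z.support, (if r p'' = z then Z p'' else 0) = 0 := by
        rw [← ha z (hS1 z hz), hD'S z hz]
      have := (Finset.sum_eq_zero_iff_of_nonneg fun p'' hp'' => hnn z p'' hp'').mp h0 p' hp'Z
      rwa [if_pos hr] at this
    · exact Finsupp.notMem_support_iff.mp hp'Z
  -- `Z` vanishes at `p' ≠ p` over `W = {x, V⁻¹ (Fr x), Fr⁻¹ (V x)}`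
  have hW : ∀ p', p' ≠ p → (r p' = x ∨ r p' = V.symm (Fr x) ∨ r p' = Fr.symm (V x)) →
      Z p' = 0 := by
    intro p' hne hr
    rcases hr with hr | hr | hr
    · exact hb p' hne hr
    · by_cases hxx : V.symm (Fr x) = x
      · exact hb p' hne (hr.trans hxx)
      · refine hc _ (Finset.mem_erase.mpr ⟨hxx, ?_⟩) p' hr
        exact Finset.mem_insert_self _ _
    · by_cases hxx : Fr.symm (V x) = x
      · exact hb p' hne (hr.trans hxx)
      · refine hc _ (Finset.mem_erase.mpr ⟨hxx, ?_⟩) p' hr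
        exact Finset.mem_insert_of_mem (Finset.mem_singleton_self _)
  -- (d) `L (Z - E) y = L [p] y` for `y = Fr x, V x`
  have hd : ∀ y, y ∉ (Dinf' i).support →
      (∀ p', (y = Fr (r p') ∨ y = V (r p')) →
        (r p' = x ∨ r p' = V.symm (Fr x) ∨ r p' = Fr.symm (V x))) →
      L (Z - E) y = mult L p y := by
    intro y hy hyW
    rw [map_sub, Finsupp.sub_apply,
      L_apply_eq_zero E y fun p' hp' => chart_bad hS hCi ⟨p, hpi⟩ (hEs hp') hy, sub_zero,
      L_apply, ← Finset.add_sum_erase _ _ hpZ, hZp1, one_mul]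
    have : ∑ p' ∈ Z.support.erase p, Z p' * mult L p' y = 0 := by
      refine Finset.sum_eq_zero fun p' hp' => ?_
      by_cases hm : mult L p' y = 0
      · rw [hm, mul_zero]
      · rw [hW p' (Finset.ne_of_mem_erase hp') (hyW p' (supp_of_cover hS hC hcov hm)), zero_mul]
    rw [this, add_zero]
  -- (e) the two values
  have he1 : mult L p (Fr x) = 1 + (l : ℤ) * (if V.symm (Fr x) = x then 1 else 0) := by
    rw [← hd (Fr x) hFx, hS.kron _ _ hpr, Equiv.symm_apply_apply, hD'x]
    · congr 2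
      split_ifs with hxx
      · rw [hxx, hD'x]
      · exact hD'S _ (Finset.mem_erase.mpr ⟨hxx, Finset.mem_insert_self _ _⟩)
    · intro p' hp'
      rcases hp' with h' | h'
      · exact Or.inl (Fr.injective h').symm
      · right; left
        rw [h', Equiv.symm_apply_apply]
  have he2 : mult L p (V x) = (if Fr.symm (V x) = x then 1 else 0) + (l : ℤ) := by
    rw [← hd (V x) hVx, hS.kron _ _ hpr, Equiv.symm_apply_apply, hD'x, mul_one]
    · congr 1
      split_ifs with hxx
      · rw [hxx, hD'x]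
      · exact hD'S _ (Finset.mem_erase.mpr
          ⟨hxx, Finset.mem_insert_of_mem (Finset.mem_singleton_self _)⟩)
    · intro p' hp'
      rcases hp' with h' | h'
      · right; right
        rw [h', Equiv.symm_apply_apply]
      · exact Or.inl (V.injective h').symm
  -- (f) conclusion
  ext y
  change mult L p y = _
  rw [Finsupp.add_apply, Finsupp.single_apply, Finsupp.single_apply]
  by_cases h1 : Fr x = y
  · subst h1
    rw [he1, if_pos rfl]
    by_cases h2 : V x = Fr x
    · have : V.symm (Fr x) = x := by rw [← h2, Equiv.symm_apply_apply]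
      rw [if_pos this, if_pos h2, mul_one]
    · have : ¬ V.symm (Fr x) = x := fun h' => h2 (by rw [Equiv.symm_apply_eq] at h'; exact h'.symm)
      rw [if_neg this, if_neg h2, mul_zero]
  · rw [if_neg h1, zero_add]
    by_cases h2 : V x = y
    · subst h2
      have : ¬ Fr.symm (V x) = x := fun h' => h1 (by
        rw [Equiv.symm_apply_eq] at h'
        exact h'.symm)
      rw [he2, if_neg this, if_pos rfl, zero_add]
    · rw [if_neg h2]
      by_contra hm
      rcases supp_of_cover hS hC hcov hm with h' | h'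
      · exact h1 h'.symm
      · exact h2 h'.symm

/-- **(ES-div), abstract form, on all divisors**: `r_* T_l = (Fr_* + l V_*) r_*`. -/
theorem es_div_all (hS : Setup r Fr V l L princ)
    (hC : ∀ i, Chart r Fr V princ (C i) (Dinf i) (Dinf' i)) (hcov : ∀ p, ∃ i, p ∈ C i)
    (D : P →₀ ℤ) :
    L D = mapDomain Fr (mapDomain r D) + (l : ℤ) • mapDomain V (mapDomain r D) := by
  induction D using Finsupp.induction_linear with
  | zero => simp
  | add D₁ D₂ h₁ h₂ =>
    rw [map_add, h₁, h₂, mapDomain_add, mapDomain_add, mapDomain_add, smul_add]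
    abel
  | single p n =>
    have h := es_div hS hC hcov p
    have h1 : L (single p n) = n • L (single p 1) := by
      rw [← map_zsmul, smul_single_one]
    rw [h1, h, mapDomain_single, mapDomain_single, mapDomain_single, smul_add, smul_single,
      smul_single, smul_single, smul_eq_mul, smul_eq_mul, smul_eq_mul, mul_one, mul_comm]

end Main

end Fermat.Agent.ES.R48.EsDivAbsV21
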