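/-
Programme R (S48, Deligne–Serre), chapter G4 CONG₁, brick r1a' (helper21): bridges between main's
`ES/KRON/EsDivAbs24` (one bijection `Fr`, `V = Fr⁻¹`) and its two-bijection twin `EsDivAbsV21`.

* `chart_of_main` : a chart of `EsDivAbs24` whose polar locus downstairs is also `V`-stable is a chart
  of `EsDivAbsV21` — so main's `ChartBridge24` (`Contract8.ChartSpec ⟹ EsDivAbs24.Chart`) can be used
  AS-IS, only the `V`-stability has to be added;
* `setup_symm_iff` : for `V = Fr⁻¹` the two `Setup`s coincide (shape check).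
-/
import Mathlib
import Fermat.Agent.ES.KRON.EsDivAbs24
import Fermat.Agent.ES.R48.EsDivAbsV21

set_option autoImplicit false

open Finsupp

namespace Fermat.Agent.ES.R48.EsDivBridgeV21

open Fermat.Agent.ES.KRON

variable {P Q : Type*} {r : P → Q} {Fr V : Q ≃ Q} {l : ℕ} {L : (P →₀ ℤ) →+ (Q →₀ ℤ)}
  {princ : (P →₀ ℤ) → (Q →₀ ℤ) → Prop} {C : Set P} {Dinf : P →₀ ℤ} {Dinf' : Q →₀ ℤ}

theorem mult_eq (L : (P →₀ ℤ) →+ (Q →₀ ℤ)) (p : P) (y : Q) :
    EsDivAbsV21.mult L p y = EsDivAbs24.mult L p y := rfl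

/-- a chart of main's `EsDivAbs24` with `V`-stable polar locus is a chart of `EsDivAbsV21`. -/
theorem chart_of_main (h : EsDivAbs24.Chart r Fr princ C Dinf Dinf')
    (hV : ∀ y, y ∈ Dinf'.support ↔ V y ∈ Dinf'.support) :
    EsDivAbsV21.Chart r Fr V princ C Dinf Dinf' where
  dinf_pos := h.dinf_pos
  dinf'_pos := h.dinf'_pos
  deg_eq := h.deg_eq
  stable := h.stable
  stableV := hV
  r_bad := h.r_bad
  r_good := h.r_good
  coord := h.coord
  lift := h.lift

/-- conversely. -/
theorem chart_to_main (h : EsDivAbsV21.Chart r Fr V princ C Dinf Dinf') :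
    EsDivAbs24.Chart r Fr princ C Dinf Dinf' where
  dinf_pos := h.dinf_pos
  dinf'_pos := h.dinf'_pos
  deg_eq := h.deg_eq
  stable := h.stable
  r_bad := h.r_bad
  r_good := h.r_good
  coord := h.coord
  lift := h.lift

/-- the global hypotheses from the fields of main's `Setup` that do not involve `V`, plus the
two-bijection Kronecker identity. -/
theorem setup_of_fields
    (pos : ∀ p y, 0 ≤ EsDivAbs24.mult L p y)
    (deg : ∀ p, (L (single p 1)).sum (fun _ n => n) = (l : ℤ) + 1)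
    (red : ∀ D D', princ D D' → mapDomain r D = D')
    (kron : ∀ D D', princ D D' → ∀ y, L D y = D' (Fr.symm y) + (l : ℤ) * D' (V.symm y)) :
    EsDivAbsV21.Setup r Fr V l L princ :=
  ⟨pos, deg, red, kron⟩

/-- for `V = Fr⁻¹` the two `Setup`s coincide. -/
theorem setup_symm_iff :
    EsDivAbsV21.Setup r Fr Fr.symm l L princ ↔ EsDivAbs24.Setup r Fr l L princ :=
  ⟨fun h => ⟨h.pos, h.deg, h.red, h.kron⟩, fun h => ⟨h.pos, h.deg, h.red, h.kron⟩⟩

end Fermat.Agent.ES.R48.EsDivBridgeV21
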