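/-
Programme R (S48, Deligne–Serre), chapter B5 (LIFTLEM), brick `FinDim` (helper8).

Finite-dimensionality of spaces of modular forms from the Prelude's Sturm bound
`ModularForm.sturm_bound_of_isArithmetic`:

* for every arithmetic subgroup `𝒢` with `1 ∈ 𝒢.strictPeriods` and every weight `k`, the first
  `sturmNat 𝒢 k + 1` `q`-coefficients define an injective `ℂ`-linear map
  `ModularForm 𝒢 k →ₗ[ℂ] (Fin (sturmNat 𝒢 k + 1) → ℂ)`; hence `ModularForm 𝒢 k` and `CuspForm 𝒢 k`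
  are finite-dimensional;
* the full coefficient map `f ↦ (n ↦ qCoeff f n)` is `ℂ`-linear and injective;
* specialisation to `Γ₁(N)` (`1 ∈ strictPeriods` because `T ∈ Γ₁(N)`).

Imports: Mathlib, the Prelude definition of `qCoeff`, the Prelude Sturm bound.
-/
import Mathlib
import Fermat.Prelude.Def_FLTPrelim_Modularity
import Fermat.Prelude.Thm_ModularForm_sturm_bound_of_isArithmetic

set_option autoImplicit false

open CongruenceSubgroup ModularFormClass UpperHalfPlane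
open scoped MatrixGroups

namespace Fermat.Agent.ES.R48.FinDim8

/-! ### The general statement -/

section General

variable {𝒢 : Subgroup (GL (Fin 2) ℝ)} [𝒢.HasDetOne] {k : ℤ}

/-- The Sturm number of the Prelude's bound. -/
noncomputable def sturmNat (𝒢 : Subgroup (GL (Fin 2) ℝ)) (k : ℤ) : ℕ :=
  (k * 𝒢.relIndex 𝒮ℒ).toNat / 12

omit [𝒢.HasDetOne] in
theorem mf_qCoeff_add (h1 : (1 : ℝ) ∈ 𝒢.strictPeriods) (f g : ModularForm 𝒢 k) (n : ℕ) :
    qCoeff ⇑(f + g) n = qCoeff ⇑f n + qCoeff ⇑g n := by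
  unfold qCoeff
  rw [show (⇑(f + g) : ℍ → ℂ) = ⇑f + ⇑g from rfl,
    ModularForm.qExpansion_add one_pos h1 f g]
  simp

theorem mf_qCoeff_smul (h1 : (1 : ℝ) ∈ 𝒢.strictPeriods) (c : ℂ) (f : ModularForm 𝒢 k) (n : ℕ) :
    qCoeff ⇑(c • f) n = c * qCoeff ⇑f n := by
  unfold qCoeff
  rw [show (⇑(c • f) : ℍ → ℂ) = c • ⇑f from rfl,
    ModularForm.qExpansion_smul one_pos h1 c f]
  simp

/-- The full coefficient map on modular forms, as a `ℂ`-linear map to sequences. -/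
noncomputable def mfCoeffLin (h1 : (1 : ℝ) ∈ 𝒢.strictPeriods) (k : ℤ) :
    ModularForm 𝒢 k →ₗ[ℂ] (ℕ → ℂ) where
  toFun f n := qCoeff ⇑f n
  map_add' f g := funext fun n => mf_qCoeff_add h1 f g n
  map_smul' c f := funext fun n => mf_qCoeff_smul h1 c f n

@[simp] theorem mfCoeffLin_apply (h1 : (1 : ℝ) ∈ 𝒢.strictPeriods) (f : ModularForm 𝒢 k) (n : ℕ) :
    mfCoeffLin h1 k f n = qCoeff ⇑f n := rfl

omit [𝒢.HasDetOne] in
/-- **Sturm, coefficient form**: a modular form whose first `sturmNat 𝒢 k + 1` coefficients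
vanish is zero. -/
theorem mf_eq_zero_of_qCoeff_eq_zero [𝒢.IsArithmetic] (h1 : (1 : ℝ) ∈ 𝒢.strictPeriods)
    (f : ModularForm 𝒢 k) (h : ∀ n, n ≤ sturmNat 𝒢 k → qCoeff ⇑f n = 0) : f = 0 := by
  refine ModularForm.sturm_bound_of_isArithmetic h1 ?_
  have hle : ((sturmNat 𝒢 k + 1 : ℕ) : ℕ∞) ≤ (qExpansion 1 ⇑f).order := by
    refine PowerSeries.le_order _ _ fun i hi => ?_
    have hi' : i < sturmNat 𝒢 k + 1 := by exact_mod_cast hi
    exact h i (by omega)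
  refine lt_of_lt_of_le ?_ hle
  show ((sturmNat 𝒢 k : ℕ) : ℕ∞) < ((sturmNat 𝒢 k + 1 : ℕ) : ℕ∞)
  exact_mod_cast Nat.lt_succ_self _

/-- The truncated coefficient map. -/
noncomputable def mfTruncLin (h1 : (1 : ℝ) ∈ 𝒢.strictPeriods) (k : ℤ) :
    ModularForm 𝒢 k →ₗ[ℂ] (Fin (sturmNat 𝒢 k + 1) → ℂ) where
  toFun f i := qCoeff ⇑f i
  map_add' f g := funext fun i => mf_qCoeff_add h1 f g i
  map_smul' c f := funext fun i => mf_qCoeff_smul h1 c f i

theorem mfTruncLin_injective [𝒢.IsArithmetic] (h1 : (1 : ℝ) ∈ 𝒢.strictPeriods) (k : ℤ) :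
    Function.Injective (mfTruncLin (𝒢 := 𝒢) h1 k) := by
  rw [injective_iff_map_eq_zero]
  intro f hf
  refine mf_eq_zero_of_qCoeff_eq_zero h1 f fun n hn => ?_
  exact congrFun hf ⟨n, by omega⟩

theorem mfCoeffLin_injective [𝒢.IsArithmetic] (h1 : (1 : ℝ) ∈ 𝒢.strictPeriods) (k : ℤ) :
    Function.Injective (mfCoeffLin (𝒢 := 𝒢) h1 k) := by
  rw [injective_iff_map_eq_zero]
  intro f hf
  exact mf_eq_zero_of_qCoeff_eq_zero h1 f fun n _ => congrFun hf n

/-- **FinDim (modular forms)**. -/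
theorem finiteDimensional_modularForm [𝒢.IsArithmetic] (h1 : (1 : ℝ) ∈ 𝒢.strictPeriods) (k : ℤ) :
    FiniteDimensional ℂ (ModularForm 𝒢 k) :=
  FiniteDimensional.of_injective (mfTruncLin h1 k) (mfTruncLin_injective h1 k)

/-- **FinDim (cusp forms)**. -/
theorem finiteDimensional_cuspForm [𝒢.IsArithmetic] (h1 : (1 : ℝ) ∈ 𝒢.strictPeriods)
    (k : ℤ) : FiniteDimensional ℂ (CuspForm 𝒢 k) :=
  have := finiteDimensional_modularForm (𝒢 := 𝒢) h1 k
  FiniteDimensional.of_injective CuspForm.toModularFormₗ CuspForm.toModularFormₗ_injective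

/-- The full coefficient map on cusp forms. -/
noncomputable def cfCoeffLin (h1 : (1 : ℝ) ∈ 𝒢.strictPeriods) (k : ℤ) :
    CuspForm 𝒢 k →ₗ[ℂ] (ℕ → ℂ) :=
  (mfCoeffLin h1 k).comp CuspForm.toModularFormₗ

@[simp] theorem cfCoeffLin_apply (h1 : (1 : ℝ) ∈ 𝒢.strictPeriods)
    (f : CuspForm 𝒢 k) (n : ℕ) : cfCoeffLin h1 k f n = qCoeff ⇑f n := rfl

theorem cfCoeffLin_injective [𝒢.IsArithmetic] (h1 : (1 : ℝ) ∈ 𝒢.strictPeriods)
    (k : ℤ) : Function.Injective (cfCoeffLin (𝒢 := 𝒢) h1 k) :=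
  (mfCoeffLin_injective h1 k).comp CuspForm.toModularFormₗ_injective

/-- **Sturm, coefficient form, cusp forms**. -/
theorem cf_eq_zero_of_qCoeff_eq_zero [𝒢.IsArithmetic]
    (h1 : (1 : ℝ) ∈ 𝒢.strictPeriods) (f : CuspForm 𝒢 k)
    (h : ∀ n, n ≤ sturmNat 𝒢 k → qCoeff ⇑f n = 0) : f = 0 := by
  apply CuspForm.toModularFormₗ_injective
  rw [map_zero]
  exact mf_eq_zero_of_qCoeff_eq_zero h1 (CuspForm.toModularFormₗ f) h

end General

/-! ### `Γ₁(N)` -/

section GammaOne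

/-- `1` is a strict period of `Γ₁(N)`. -/
theorem one_mem_strictPeriods_Gamma1 (N : ℕ) :
    (1 : ℝ) ∈ (Subgroup.map (Matrix.SpecialLinearGroup.mapGL ℝ) (Gamma1 N)).strictPeriods := by
  have hT : ModularGroup.T ∈ Gamma1 N := by
    rw [Gamma1_mem]
    simp [ModularGroup.T]
  have h := Subgroup.strictPeriods_eq_zmultiples_one_of_T_mem hT
  rw [h]
  exact AddSubgroup.mem_zmultiples (1 : ℝ)

variable (N : ℕ) (k : ℤ)

/-- **FinDim for `M_k(Γ₁(N))`**. -/
theorem finiteDimensional_modularForm_Gamma1 [NeZero N] : FiniteDimensional ℂ (ModularForm (Gamma1 N) k) :=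
  finiteDimensional_modularForm (one_mem_strictPeriods_Gamma1 N) k

/-- **FinDim for `S_k(Γ₁(N))`**. -/
theorem finiteDimensional_cuspForm_Gamma1 [NeZero N] : FiniteDimensional ℂ (CuspForm (Gamma1 N) k) :=
  finiteDimensional_cuspForm (one_mem_strictPeriods_Gamma1 N) k

/-- The coefficient map of `S_k(Γ₁(N))`. -/
noncomputable def coeffLinGamma1 : CuspForm (Gamma1 N) k →ₗ[ℂ] (ℕ → ℂ) :=
  cfCoeffLin (one_mem_strictPeriods_Gamma1 N) k

@[simp] theorem coeffLinGamma1_apply (f : CuspForm (Gamma1 N) k) (n : ℕ) :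
    coeffLinGamma1 N k f n = qCoeff ⇑f n := rfl

theorem coeffLinGamma1_injective [NeZero N] : Function.Injective (coeffLinGamma1 N k) :=
  cfCoeffLin_injective (one_mem_strictPeriods_Gamma1 N) k

theorem qCoeff_add_Gamma1 (f g : CuspForm (Gamma1 N) k) (n : ℕ) :
    qCoeff ⇑(f + g) n = qCoeff ⇑f n + qCoeff ⇑g n :=
  congrFun (map_add (coeffLinGamma1 N k) f g) n

theorem qCoeff_smul_Gamma1 (c : ℂ) (f : CuspForm (Gamma1 N) k) (n : ℕ) :
    qCoeff ⇑(c • f) n = c * qCoeff ⇑f n :=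
  congrFun (map_smul (coeffLinGamma1 N k) c f) n

theorem qCoeff_sub_Gamma1 (f g : CuspForm (Gamma1 N) k) (n : ℕ) :
    qCoeff ⇑(f - g) n = qCoeff ⇑f n - qCoeff ⇑g n :=
  congrFun (map_sub (coeffLinGamma1 N k) f g) n

theorem qCoeff_zero_Gamma1 (n : ℕ) : qCoeff ⇑(0 : CuspForm (Gamma1 N) k) n = 0 :=
  congrFun (map_zero (coeffLinGamma1 N k)) n

/-- a cusp form on `Γ₁(N)` has vanishing constant coefficient. -/
theorem qCoeff_zero_index_Gamma1 (f : CuspForm (Gamma1 N) k) : qCoeff ⇑f 0 = 0 :=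
  CuspFormClass.qExpansion_coeff_zero f one_pos (one_mem_strictPeriods_Gamma1 N)

/-- a cusp form on `Γ₁(N)` is determined by its `q`-coefficients. -/
theorem eq_of_forall_qCoeff_eq_Gamma1 [NeZero N] (f g : CuspForm (Gamma1 N) k)
    (h : ∀ n, qCoeff ⇑f n = qCoeff ⇑g n) : f = g :=
  coeffLinGamma1_injective N k (funext h)

/-- **Sturm for `S_k(Γ₁(N))`, coefficient form**. -/
theorem eq_zero_of_qCoeff_eq_zero_Gamma1 [NeZero N] (f : CuspForm (Gamma1 N) k)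
    (h : ∀ n, n ≤ sturmNat (Gamma1 N : Subgroup (GL (Fin 2) ℝ)) k → qCoeff ⇑f n = 0) : f = 0 :=
  cf_eq_zero_of_qCoeff_eq_zero (one_mem_strictPeriods_Gamma1 N) f h

end GammaOne

end Fermat.Agent.ES.R48.FinDim8
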