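/-
Programme R (S48, Deligne–Serre), chapter A6 LIFT, brick `FinOrdInt10` (helper10).

A square matrix of finite order over an algebraically closed field has trace and determinant
integral over `ℤ` (its eigenvalues are roots of unity).  Mathlib only.
-/
import Mathlib

set_option autoImplicit false

open Polynomial

namespace Fermat.Agent.ES.R48.FinOrdInt10

variable {n : Type*} [Fintype n] [DecidableEq n] {K : Type*} [Field K]

/-- A root of the characteristic polynomial of a matrix `A` with `A ^ m = 1` is an `m`-th root of
unity. -/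
theorem pow_eq_one_of_isRoot_charpoly [Nonempty n] (A : Matrix n n K) {m : ℕ} (hA : A ^ m = 1)
    {μ : K} (hμ : IsRoot A.charpoly μ) : μ ^ m = 1 := by
  have h1 : μ ∈ spectrum K A := Matrix.mem_spectrum_iff_isRoot_charpoly.2 hμ
  have h2 : μ ^ m ∈ spectrum K (A ^ m) := spectrum.pow_mem_pow A m h1
  rw [hA, spectrum.one_eq] at h2
  exact h2

/-- A root of the characteristic polynomial of a matrix of finite order is integral over `ℤ`. -/
theorem isIntegral_of_isRoot_charpoly [Nonempty n] (A : Matrix n n K) {m : ℕ} (hm : 0 < m)
    (hA : A ^ m = 1) {μ : K} (hμ : IsRoot A.charpoly μ) : IsIntegral ℤ μ := by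
  apply IsIntegral.of_pow hm
  rw [pow_eq_one_of_isRoot_charpoly A hA hμ]
  exact isIntegral_one

/-- **Export.** Trace and determinant of a matrix of finite order over an algebraically closed
field are integral over `ℤ`. -/
theorem isIntegral_trace_det_of_pow_eq_one [IsAlgClosed K] (A : Matrix n n K) {m : ℕ}
    (hm : 0 < m) (hA : A ^ m = 1) : IsIntegral ℤ A.trace ∧ IsIntegral ℤ A.det := by
  rcases isEmpty_or_nonempty n with h | h
  · refine ⟨?_, ?_⟩
    · rw [Matrix.trace, Finset.univ_eq_empty, Finset.sum_empty]
      exact isIntegral_zero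
    · rw [Matrix.det_isEmpty]
      exact isIntegral_one
  · have hroots : ∀ μ ∈ A.charpoly.roots, IsIntegral ℤ μ := fun μ hμ =>
      isIntegral_of_isRoot_charpoly A hm hA ((mem_roots A.charpoly_monic.ne_zero).1 hμ)
    refine ⟨?_, ?_⟩
    · rw [Matrix.trace_eq_sum_roots_charpoly]
      exact IsIntegral.multiset_sum hroots
    · rw [Matrix.det_eq_prod_roots_charpoly]
      exact IsIntegral.multiset_prod hroots

/-- The same for an element of finite order of `GL n K`. -/
theorem isIntegral_trace_det_of_GL_pow_eq_one [IsAlgClosed K] (g : GL n K) {m : ℕ}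
    (hm : 0 < m) (hg : g ^ m = 1) :
    IsIntegral ℤ (g : Matrix n n K).trace ∧ IsIntegral ℤ (g : Matrix n n K).det := by
  apply isIntegral_trace_det_of_pow_eq_one _ hm
  have h := congrArg (fun u : GL n K => (u : Matrix n n K)) hg
  simpa using h

end Fermat.Agent.ES.R48.FinOrdInt10
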