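/-
Programme R (S48, Deligne–Serre), chapter GEOM, sub-chapter G4 "CONG₁", Layer 2 — helper21.
**Twin of `ES/RED/FracRed16`** (helper16; leaf (L4)) for `X₁(M)`: the reductions of the chart rings
over `A` fill the special-fibre function field `F1C k M`, as FRACTIONS.

`A ≤ ℚ̄` over `p`, `k = ResidueField A`, `t = TGenOne7.tF1 n e M hmem` the Hauptmodul of `X₀(n)`
(`n ∣ M`) in `F1bar M`.  For every `y ∈ F1C k M` there are Laurent series `Ya, Yb ∈ A((q))` whose
images in `ℚ̄((q))` lie in the chart ring `chart A t` (integral closure of `A[t]` in `F1bar M`), with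
`red Yb ≠ 0` and `y · red Yb = red Ya`: `exists_frac_red1` (chart `t`), `exists_frac_red_inv1`
(chart `t⁻¹`).

Literal copy of §Concrete of the original with `FK M K ↦ FK1 M K`, `Fbar M ↦ F1bar M`,
`modularFunctionFieldFullC κ M ↦ F1C κ M`, `baseChangeHom M K ↦ baseChangeHomG (F1 M) K`,
`tF M hmem ↦ tF1 n e M hmem`; §LevelK (`exists_frac_chartRed`, generic in `E`) and
`exists_tq_mul_eq_one` are used AS-IS from main.  Two differences:
* main's `GaussUnit25.resField_FK_eq` was used only in the EASY direction (RES)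
  `F1C κ_K M ≤ resField (AK A K) (FK1 M K)`, which is `GaussBridgeOne15.F1C_le_resField_FK1`:
  no hypothesis `p ∤ M` and no (R0a)₁ (`ResFieldStep1`) is needed here;
* main's `GaussInst25.exists_degLe_irr_FK` (Igusa) has no `X₁` twin: the Gauss package
  `DegLe ∧ Irr` for the Hauptmodul at all large number fields is the HYPOTHESIS
  `PackageStep1 A M n e` = helper15's contract (I2) (G4 Layer-2 split v2), LITERALLY the conclusion
  of main's `LevelSat16.exists_package` with `FK M K ↦ FK1 M K` (deliverable of G3 through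
  `CLBarOne4.explicitModelStep1`: `πB0` prime ⇒ `Irr`); it also provides `t ∈ K·F1 M`, so that
  `TMem`/`TBridge15` and `TGenBase n e` (used on main only to feed `exists_degLe_irr_FK`) are not
  needed in `exists_level1`.
-/
import Mathlib
import Fermat.Agent.ES.RED.FracRed16
import Fermat.Agent.ES.R48.ChartIntegralAOne15
import Fermat.Agent.ES.R48.TGenOne7

set_option autoImplicit false
set_option linter.unusedSectionVars false
set_option linter.style.haveILetI false

noncomputable section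

namespace Fermat.Agent.ES.R48.FracRedOne21

open Polynomial HahnSeries ModularCurve

open Fermat.Agent.RED.Interface4 Fermat.Agent.RED.DESC Fermat.Agent.RED.DESC.NumberFieldDVR27
open Fermat.Agent.RED.DESC.PlaceExtend27
open Fermat.Agent.RED.PUR.GaussGen8 Fermat.Agent.RED.PUR.KtGauss8 Fermat.Agent.RED.PUR.G1Package8
  Fermat.Agent.RED.PUR.GaussBridge10 Fermat.Agent.RED.PUR.ChartGeneric22
  Fermat.Agent.ES.RED.FibreSurj17
open Fermat.Agent.RED.BASE.EtaQuot12 Fermat.Agent.RED.BASE.Interface12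
open Fermat.Agent.X0
open Fermat.Agent.ES.RED.FracRed16
open Fermat.Agent.ES.R48.FF1Defs13 Fermat.Agent.ES.R48.F1CDefs15 Fermat.Agent.ES.R48.G3Defs4
  Fermat.Agent.ES.R48.PlaceExtendG7 Fermat.Agent.ES.R48.ChartUnionG15
  Fermat.Agent.ES.R48.ResidueUnionOne15 Fermat.Agent.ES.R48.GaussBridgeOne15
  Fermat.Agent.ES.R48.TGenOne7

/-! ### The Gauss package as a hypothesis -/

/-- **Contract (I2) of G4 Layer 2 (deliverable of G3)**: the Gauss package at every large number
field `K`, for the Hauptmodul — LITERALLY the conclusion of main's `LevelSat16.exists_package` with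
`FK M K ↦ FK1 M K` (the twin of `GaussInst25.exists_degLe_irr_FK` as a contract). -/
def PackageStep1 (A : ValuationSubring Qbar) (M n e : ℕ) [NeZero n] : Prop :=
  ∃ K₀ : IntermediateField ℚ Qbar, FiniteDimensional ℚ K₀ ∧
    ∀ K : IntermediateField ℚ Qbar, FiniteDimensional ℚ K → K₀ ≤ K →
      ∀ (ϖ : ↥(AK A K)) (_ : Irreducible ϖ),
      ∃ (_ : IsDiscreteValuationRing ↥(AK A K))
        (t : ↥(FK1 M K)) (_ : (t : LaurentSeries K) = tq K n e)
        (ht : (t : LaurentSeries K) ∈ gaussRing (AK A K))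
        (_ : Transcendental (Res (AK A K)) (gaussRed (AK A K) ⟨(t : LaurentSeries K), ht⟩))
        (m : ℕ) (_ : DegLe (AK A K) (FK1 M K) ⟨(t : LaurentSeries K), ht⟩ m),
        Irr (AK A K) (FK1 M K) ⟨(t : LaurentSeries K), ht⟩ m

section Concrete

variable (A : ValuationSubring Qbar) {M : ℕ} [NeZero M] (K : IntermediateField ℚ Qbar)

/-- The Hauptmodul over `K` maps to the Hauptmodul over `ℚ̄` (twin of
`RankConcrete16.baseChangeHom_eq_tF`). -/
theorem baseChangeHomG_eq_tF1 {n e : ℕ} [NeZero n] (h : TMem n e M) (t : ↥(FK1 M K))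
    (ht : (t : LaurentSeries K) = tq K n e) :
    baseChangeHomG (F1 M) K t = tF1 n e M h := by
  apply Subtype.ext
  rw [coe_baseChangeHomG, ht, coe_tF1]
  exact coeffMap_tq ↥K (algebraMap K Qbar) n e

/-- **From level `K` to `A`.**  For a coordinate `s ∈ K·F1 M` with integral `q`-expansion and the
Gauss package at level `K`: every `y₀ ∈ F1C κ_K M` is, after base change to `k`, a quotient of
reductions of `A`-integral series lying in the chart `chart A (emb s)`. -/
theorem exists_frac_of_level1 [FiniteDimensional ℚ K]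
    [IsDiscreteValuationRing ↥(AK A K)] {π : ↥(AK A K)} (hπ : Irreducible π)
    (s : ↥(FK1 M K)) (hs : (s : LaurentSeries K) ∈ gaussRing (AK A K))
    (htr : Transcendental (Res (AK A K)) (gaussRed (AK A K) ⟨(s : LaurentSeries K), hs⟩))
    {n : ℕ} (hdeg : DegLe (AK A K) (FK1 M K) ⟨(s : LaurentSeries K), hs⟩ n)
    (hirr : Irr (AK A K) (FK1 M K) ⟨(s : LaurentSeries K), hs⟩ n)
    (hsT : ∃ T : LaurentSeries ↥(AK A K), embK (AK A K) T = (s : LaurentSeries K))
    {y₀ : LaurentSeries (Res (AK A K))}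
    (hy₀ : y₀ ∈ F1C (Res (AK A K)) M) :
    ∃ (Ya Yb : LaurentSeries ↥A) (ha : coeffMap A.subtype Ya ∈ F1bar M)
      (hb : coeffMap A.subtype Yb ∈ F1bar M),
      (⟨_, ha⟩ : ↥(F1bar M)) ∈ chart ↥A (baseChangeHomG (F1 M) K s) ∧
      (⟨_, hb⟩ : ↥(F1bar M)) ∈ chart ↥A (baseChangeHomG (F1 M) K s) ∧
      coeffMap (IsLocalRing.residue ↥A) Yb ≠ 0 ∧
      coeffMap (resMap A K) y₀ * coeffMap (IsLocalRing.residue ↥A) Yb =
        coeffMap (IsLocalRing.residue ↥A) Ya := by
  have hE : FK1 M K ≤ fracField (AK A K) := FK1_le_fracField A K M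
  have hres : y₀ ∈ resField (AK A K) (FK1 M K) := F1C_le_resField_FK1 A K M hy₀
  obtain ⟨a, b, hb0, hab⟩ := exists_frac_chartRed hπ hE s hs htr hdeg hirr hres
  -- integral series of the elements of the chart
  have key : ∀ x : ↥(chart ↥(AK A K) s), ∃ (Y : LaurentSeries ↥A)
      (hY : coeffMap A.subtype Y ∈ F1bar M),
      (⟨_, hY⟩ : ↥(F1bar M)) ∈ chart ↥A (baseChangeHomG (F1 M) K s) ∧
      coeffMap (IsLocalRing.residue ↥A) Y = coeffMap (resMap A K) (chartRed hπ hE s hs x) := by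
    intro x
    obtain ⟨Y₀, hY₀⟩ :=
      Fermat.Agent.ES.RED.IntegralQExp1.exists_embK_of_mem_chart (AK A K) (FK1 M K) hE hsT x.2
    have h1 : coeffMap A.subtype (coeffMap (incl A K) Y₀) =
        ((baseChangeHomG (F1 M) K (x : ↥(FK1 M K)) : ↥(F1bar M)) : LaurentSeries Qbar) := by
      rw [Fermat.Agent.ES.RED.GaussUnit25.coeffMap_subtype_incl, hY₀, coe_baseChangeHomG]
    refine ⟨coeffMap (incl A K) Y₀,
      by rw [h1]; exact (baseChangeHomG (F1 M) K (x : ↥(FK1 M K))).2, ?_, ?_⟩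
    · have h2 : (⟨coeffMap A.subtype (coeffMap (incl A K) Y₀),
          by rw [h1]; exact (baseChangeHomG (F1 M) K (x : ↥(FK1 M K))).2⟩ : ↥(F1bar M)) =
          baseChangeHomG (F1 M) K (x : ↥(FK1 M K)) := Subtype.ext h1
      rw [h2]
      exact baseChangeHom_mem_chartG A (F1 M) K s x x.2
    · rw [Fermat.Agent.ES.RED.GaussUnit25.coeffMap_residue_incl]
      congr 1
      have h3 : chartRed hπ hE s hs x =
          gaussRed (AK A K) ⟨embK (AK A K) Y₀, embK_mem (AK A K) Y₀⟩ := by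
        rw [chartRed_apply]
        congr 1
        exact Subtype.ext hY₀.symm
      rw [h3, gaussRed_embK]
  obtain ⟨Ya, ha, hac, hared⟩ := key a
  obtain ⟨Yb, hb, hbc, hbred⟩ := key b
  refine ⟨Ya, Yb, ha, hb, hac, hbc, ?_, ?_⟩
  · rw [hbred]
    intro h0
    apply hb0
    exact CoeffDescent1.coeffMap_injective_of_injective (resMap A K) (resMap_injective A K)
      (h0.trans (map_zero _).symm)
  · rw [hbred, hared, ← map_mul, hab]

/-- The Gauss package at a large number field `K`, for the Hauptmodul, plus a prescribed descent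
of `y`. -/
theorem exists_level1 (n e : ℕ) [NeZero n] (p : ℕ) [Fact p.Prime]
    (hpkg : PackageStep1 A M n e) (hA : A.LiesOverPrime p)
    {y : LaurentSeries (IsLocalRing.ResidueField ↥A)}
    (hy : y ∈ F1C (IsLocalRing.ResidueField ↥A) M) :
    ∃ (K : IntermediateField ℚ Qbar) (_ : FiniteDimensional ℚ K)
      (_ : IsDiscreteValuationRing ↥(AK A K)) (π : ↥(AK A K)) (_ : Irreducible π)
      (t : ↥(FK1 M K)) (_ : (t : LaurentSeries K) = tq K n e)
      (ht : (t : LaurentSeries K) ∈ gaussRing (AK A K))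
      (_ : Transcendental (Res (AK A K)) (gaussRed (AK A K) ⟨(t : LaurentSeries K), ht⟩))
      (m : ℕ) (_ : DegLe (AK A K) (FK1 M K) ⟨(t : LaurentSeries K), ht⟩ m)
      (_ : Irr (AK A K) (FK1 M K) ⟨(t : LaurentSeries K), ht⟩ m),
      ∃ y₀ ∈ F1C (Res (AK A K)) M, coeffMap (resMap A K) y₀ = y := by
  have hp : p.Prime := Fact.out
  obtain ⟨K₂, hK₂, hP⟩ := hpkg
  haveI := hK₂
  obtain ⟨K, hKfd, hle, hdesc⟩ := exists_F1C_descent A M K₂ hy
  haveI := hKfd
  have hdvr : IsDiscreteValuationRing ↥(AK A K) := isDiscreteValuationRing_AK A K hp.ne_zero hA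
  obtain ⟨ϖ, hϖ⟩ := IsDiscreteValuationRing.exists_irreducible ↥(AK A K)
  obtain ⟨-, t, htq, ht, htr, m, hdeg, hirr⟩ := hP K hKfd hle ϖ hϖ
  exact ⟨K, hKfd, hdvr, ϖ, hϖ, t, htq, ht, htr, m, hdeg, hirr, hdesc K le_rfl⟩

/-- **(L4)₁, chart `t`.**  Every element of `F1C k M` is a quotient of reductions of `A`-integral
series lying in the chart `chart A t` (`t` the Hauptmodul). -/
theorem exists_frac_red1 (n e : ℕ) [NeZero n] (p : ℕ) [Fact p.Prime]
    (hpkg : PackageStep1 A M n e) (hmem : TMem n e M) (hA : A.LiesOverPrime p)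
    {y : LaurentSeries (IsLocalRing.ResidueField ↥A)}
    (hy : y ∈ F1C (IsLocalRing.ResidueField ↥A) M) :
    ∃ (Ya Yb : LaurentSeries ↥A) (ha : coeffMap A.subtype Ya ∈ F1bar M)
      (hb : coeffMap A.subtype Yb ∈ F1bar M),
      (⟨_, ha⟩ : ↥(F1bar M)) ∈ chart ↥A (tF1 n e M hmem) ∧
      (⟨_, hb⟩ : ↥(F1bar M)) ∈ chart ↥A (tF1 n e M hmem) ∧
      coeffMap (IsLocalRing.residue ↥A) Yb ≠ 0 ∧
      y * coeffMap (IsLocalRing.residue ↥A) Yb = coeffMap (IsLocalRing.residue ↥A) Ya := by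
  obtain ⟨K, hKfd, hdvr, ϖ, hϖ, t, htq, ht, htr, m, hdeg, hirr, y₀, hy₀, rfl⟩ :=
    exists_level1 A n e p hpkg hA hy
  haveI := hKfd
  haveI := hdvr
  have hsT : ∃ T : LaurentSeries ↥(AK A K), embK (AK A K) T = (t : LaurentSeries K) :=
    ⟨tq ↥(AK A K) n e, by rw [htq]; exact coeffMap_tq ↥(AK A K) (AK A K).subtype n e⟩
  have hbc : baseChangeHomG (F1 M) K t = tF1 n e M hmem := baseChangeHomG_eq_tF1 K hmem t htq
  have := exists_frac_of_level1 A K hϖ t ht htr hdeg hirr hsT hy₀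
  rwa [hbc] at this

/-- **(L4)₁, chart `t⁻¹`.** -/
theorem exists_frac_red_inv1 (n e : ℕ) [NeZero n] (p : ℕ) [Fact p.Prime]
    (hpkg : PackageStep1 A M n e) (hmem : TMem n e M) (hA : A.LiesOverPrime p)
    {y : LaurentSeries (IsLocalRing.ResidueField ↥A)}
    (hy : y ∈ F1C (IsLocalRing.ResidueField ↥A) M) :
    ∃ (Ya Yb : LaurentSeries ↥A) (ha : coeffMap A.subtype Ya ∈ F1bar M)
      (hb : coeffMap A.subtype Yb ∈ F1bar M),
      (⟨_, ha⟩ : ↥(F1bar M)) ∈ chart ↥A (tF1 n e M hmem)⁻¹ ∧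
      (⟨_, hb⟩ : ↥(F1bar M)) ∈ chart ↥A (tF1 n e M hmem)⁻¹ ∧
      coeffMap (IsLocalRing.residue ↥A) Yb ≠ 0 ∧
      y * coeffMap (IsLocalRing.residue ↥A) Yb = coeffMap (IsLocalRing.residue ↥A) Ya := by
  obtain ⟨K, hKfd, hdvr, ϖ, hϖ, t, htq, ht, htr, m, hdeg, hirr, y₀, hy₀, rfl⟩ :=
    exists_level1 A n e p hpkg hA hy
  haveI := hKfd
  haveI := hdvr
  have hsT : ∃ T : LaurentSeries ↥(AK A K),
      embK (AK A K) T = ((t⁻¹ : ↥(FK1 M K)) : LaurentSeries K) := by
    obtain ⟨T, hT⟩ := exists_tq_mul_eq_one ↥(AK A K) n e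
    refine ⟨T, ?_⟩
    have h1 : tq K n e * embK (AK A K) T = 1 := by
      have := congrArg (embK (AK A K)) hT
      rw [map_mul, map_one] at this
      rw [← this]
      congr 1
      exact (coeffMap_tq ↥(AK A K) (AK A K).subtype n e).symm
    show embK (AK A K) T = ((t : LaurentSeries K))⁻¹
    rw [htq]
    exact eq_inv_of_mul_eq_one_right h1
  have hbc : baseChangeHomG (F1 M) K t⁻¹ = (tF1 n e M hmem)⁻¹ := by
    rw [map_inv₀, baseChangeHomG_eq_tF1 K hmem t htq]
  have := exists_frac_of_level1 A K hϖ t⁻¹ (tinv_mem_gaussRing t ht htr)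
    (transcendental_inv t ht htr) (degLe_inv t ht htr hdeg) (irr_inv t ht htr hirr) hsT hy₀
  rwa [hbc] at this

end Concrete

end Fermat.Agent.ES.R48.FracRedOne21
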