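/-
Programme R (S48), chapter GEOM, sub-chapter G4 CONG₁, brick L1f (helper22):
Γ₁-twin of main's `ES/RED/FrobPoles13` (literal substitution `modularFunctionFieldFullC k M ↦ F1C k M`,
`coeffSemi/frobSemi/frobPlace ↦ coeffSemi1/frobSemi1/frobPlace1` of `F1CDefs15`), plus the same
statements for an ARBITRARY semilinear automorphism fixing `t~` (section `Fixed`: for the reduced
diamond `δ~`, which fixes the Hauptmodul `t~ ∈ modularFunctionFieldFullC k M`).

Stability of the zeros/poles of the Hauptmodul `t~ = tq k n e` on the special fibre of `X₁(M)` under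
the coefficientwise automorphisms (in particular the Frobenius `Fr`, and `Fr⁻¹`): `t~` has prime-field
coefficients, so `cψ t~ = t~`, hence `ord_{g_ψ • Q} t~ = ord_Q t~` for every place `Q` of `F1C k M`.
Feeds `EsDivAbsV21.Chart.stable/stableV`.
-/
import Mathlib
import Fermat.Agent.ES.R48.F1CDefs15
import Fermat.Agent.RED.BASE.EtaQuot12

set_option autoImplicit false
set_option linter.unusedSectionVars false

noncomputable section

namespace Fermat.Agent.ES.R48.FrobPolesOne22

open ModularCurve AlgebraicCurve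
open Fermat.Agent.ES.R48.F1CDefs15 Fermat.Agent.RED.BASE.EtaQuot12

section Generic

variable (k : Type*) [Field k] (M : ℕ)

/-- an element of `F~` whose Laurent series is fixed by `coeffMap ψ` is fixed by `g_ψ`. -/
theorem coeffSemi1_smul_eq_self (ψ : k ≃+* k) {t : ↥(F1C k M)}
    (ht : coeffMap (ψ : k →+* k) (t : LaurentSeries k) = (t : LaurentSeries k)) :
    coeffSemi1 k M ψ • t = t :=
  Subtype.ext (by rw [coe_coeffSemi1_smul, ht])

/-- orders of a `g_ψ`-fixed element are `g_ψ`-invariant. -/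
theorem ord_coeffSemi1_smul_of_fixed (ψ : k ≃+* k) {t : ↥(F1C k M)}
    (ht : coeffSemi1 k M ψ • t = t) (Q : Place k ↥(F1C k M)) :
    (coeffSemi1 k M ψ • Q).ord t = Q.ord t := by
  conv_lhs => rw [← ht]
  exact SemilinearAut.ord_smul (coeffSemi1 k M ψ) Q t

/-- the same for `t - c` with `c` a `ψ`-fixed constant. -/
theorem ord_coeffSemi1_smul_sub_of_fixed (ψ : k ≃+* k) {t : ↥(F1C k M)}
    (ht : coeffSemi1 k M ψ • t = t) (c : k) (Q : Place k ↥(F1C k M)) :
    (coeffSemi1 k M ψ • Q).ord (t - algebraMap k _ (ψ c)) = Q.ord (t - algebraMap k _ c) := by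
  have h := SemilinearAut.ord_smul (coeffSemi1 k M ψ) Q (t - algebraMap k _ c)
  rw [smul_sub, ht, coeffSemi1_smul_algebraMap] at h
  exact h

variable (n e : ℕ) [NeZero n]

/-- **`cψ t~ = t~`** for the Hauptmodul `t~ = tq k n e`. -/
theorem coeffSemi1_smul_tq (ψ : k ≃+* k) {t : ↥(F1C k M)}
    (ht : (t : LaurentSeries k) = tq k n e) : coeffSemi1 k M ψ • t = t :=
  coeffSemi1_smul_eq_self k M ψ (by rw [ht, coeffMap_tq])

/-- **`ord_{g_ψ • Q} t~ = ord_Q t~`**. -/
theorem ord_coeffSemi1_smul_tq (ψ : k ≃+* k) {t : ↥(F1C k M)}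
    (ht : (t : LaurentSeries k) = tq k n e) (Q : Place k ↥(F1C k M)) :
    (coeffSemi1 k M ψ • Q).ord t = Q.ord t :=
  ord_coeffSemi1_smul_of_fixed k M ψ (coeffSemi1_smul_tq k M n e ψ ht) Q

theorem ord_coeffSemi1_smul_tq_inv (ψ : k ≃+* k) {t : ↥(F1C k M)}
    (ht : (t : LaurentSeries k) = tq k n e) (Q : Place k ↥(F1C k M)) :
    (coeffSemi1 k M ψ • Q).ord t⁻¹ = Q.ord t⁻¹ := by
  rw [Place.ord_inv, Place.ord_inv, ord_coeffSemi1_smul_tq k M n e ψ ht Q]

end Generic

section Frobenius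

variable (k : Type*) [Field k] (l : ℕ) [ExpChar k l] [PerfectField k] (M : ℕ)
  (n e : ℕ) [NeZero n]

/-- `cφ t~ = t~`. -/
theorem frobSemi1_smul_tq {t : ↥(F1C k M)}
    (ht : (t : LaurentSeries k) = tq k n e) : frobSemi1 k l M • t = t :=
  coeffSemi1_smul_tq k M n e (frobeniusEquiv k l) ht

/-- **`ord_{Fr Q} t~ = ord_Q t~`.** -/
theorem ord_frobPlace1_tq {t : ↥(F1C k M)}
    (ht : (t : LaurentSeries k) = tq k n e) (Q : Place k ↥(F1C k M)) :
    (frobPlace1 k l M Q).ord t = Q.ord t :=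
  ord_coeffSemi1_smul_tq k M n e (frobeniusEquiv k l) ht Q

theorem ord_frobPlace1_symm_tq {t : ↥(F1C k M)}
    (ht : (t : LaurentSeries k) = tq k n e) (Q : Place k ↥(F1C k M)) :
    ((frobPlace1 k l M).symm Q).ord t = Q.ord t := by
  have h := ord_frobPlace1_tq k l M n e ht ((frobPlace1 k l M).symm Q)
  rw [Equiv.apply_symm_apply] at h
  exact h.symm

/-- **the poles of `t~` are `Fr`-stable.** -/
theorem pole_frobPlace1_iff {t : ↥(F1C k M)}
    (ht : (t : LaurentSeries k) = tq k n e) (Q : Place k ↥(F1C k M)) :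
    (frobPlace1 k l M Q).ord t < 0 ↔ Q.ord t < 0 := by
  rw [ord_frobPlace1_tq k l M n e ht Q]

/-- the chart `t~ ∈ O_Q` is `Fr`-stable. -/
theorem mem_frobPlace1_iff_tq {t : ↥(F1C k M)}
    (ht : (t : LaurentSeries k) = tq k n e) (Q : Place k ↥(F1C k M)) :
    t ∈ (frobPlace1 k l M Q).toValuationSubring ↔ t ∈ Q.toValuationSubring := by
  have h := mem_frobPlace1_iff k l M Q t
  rwa [frobSemi1_smul_tq k l M n e ht] at h

/-- **`Fr`-stability of a pole divisor**: a divisor `D` with `D Q = max (-ord_Q t~) 0`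
(the pole divisor of `t~`) satisfies `D (Fr Q) = D Q`; in particular its support is
`Fr`-stable. -/
theorem poleDivisor_frobPlace1 {t : ↥(F1C k M)}
    (ht : (t : LaurentSeries k) = tq k n e)
    (D : Place k ↥(F1C k M) →₀ ℤ)
    (hD : ∀ Q, D Q = max (-(Q.ord t)) 0) (Q : Place k ↥(F1C k M)) :
    D (frobPlace1 k l M Q) = D Q := by
  rw [hD, hD, ord_frobPlace1_tq k l M n e ht Q]

theorem mem_support_poleDivisor_frobPlace1_iff {t : ↥(F1C k M)}
    (ht : (t : LaurentSeries k) = tq k n e)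
    (D : Place k ↥(F1C k M) →₀ ℤ)
    (hD : ∀ Q, D Q = max (-(Q.ord t)) 0) (Q : Place k ↥(F1C k M)) :
    Q ∈ D.support ↔ frobPlace1 k l M Q ∈ D.support := by
  rw [Finsupp.mem_support_iff, Finsupp.mem_support_iff,
    poleDivisor_frobPlace1 k l M n e ht D hD Q]

/-- value form of the stability of zeros: `ord_{Fr Q} (t~ - c ^ l) = ord_Q (t~ - c)`. -/
theorem ord_frobPlace1_tq_sub (c : k) {t : ↥(F1C k M)}
    (ht : (t : LaurentSeries k) = tq k n e) (Q : Place k ↥(F1C k M)) :
    (frobPlace1 k l M Q).ord (t - algebraMap k _ (c ^ l)) = Q.ord (t - algebraMap k _ c) := by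
  have h := ord_sub_const_frobPlace1 k l M Q t c
  rwa [frobSemi1_smul_tq k l M n e ht] at h

end Frobenius

section Fixed

variable {k : Type*} [Field k] {F : Type*} [Field F] [Algebra k F]

/-- orders of a `g`-fixed element are `g`-invariant (any semilinear automorphism `g`). -/
theorem ord_smul_of_fixed (g : SemilinearAut k F) {t : F} (ht : g • t = t) (Q : Place k F) :
    (g • Q).ord t = Q.ord t := by
  conv_lhs => rw [← ht]
  exact SemilinearAut.ord_smul g Q t

theorem ord_inv_smul_of_fixed (g : SemilinearAut k F) {t : F} (ht : g • t = t) (Q : Place k F) :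
    (g⁻¹ • Q).ord t = Q.ord t := by
  have h := ord_smul_of_fixed g ht (g⁻¹ • Q)
  rw [smul_inv_smul] at h
  exact h.symm

/-- a pole divisor of a `g`-fixed element is `g`-stable. -/
theorem poleDivisor_smul_of_fixed (g : SemilinearAut k F) {t : F} (ht : g • t = t)
    (D : Place k F →₀ ℤ) (hD : ∀ Q, D Q = max (-(Q.ord t)) 0) (Q : Place k F) :
    D (g • Q) = D Q := by
  rw [hD, hD, ord_smul_of_fixed g ht Q]

theorem mem_support_poleDivisor_smul_iff (g : SemilinearAut k F) {t : F} (ht : g • t = t)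
    (D : Place k F →₀ ℤ) (hD : ∀ Q, D Q = max (-(Q.ord t)) 0) (Q : Place k F) :
    Q ∈ D.support ↔ g • Q ∈ D.support := by
  rw [Finsupp.mem_support_iff, Finsupp.mem_support_iff, poleDivisor_smul_of_fixed g ht D hD Q]

theorem mem_support_poleDivisor_inv_smul_iff (g : SemilinearAut k F) {t : F} (ht : g • t = t)
    (D : Place k F →₀ ℤ) (hD : ∀ Q, D Q = max (-(Q.ord t)) 0) (Q : Place k F) :
    Q ∈ D.support ↔ g⁻¹ • Q ∈ D.support := by
  have h := mem_support_poleDivisor_smul_iff g ht D hD (g⁻¹ • Q)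
  rw [smul_inv_smul] at h
  exact h.symm

end Fixed

end Fermat.Agent.ES.R48.FrobPolesOne22
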