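/-
Programme R (S48, Deligne–Serre), chapter GEOM, brick G7 (helper13):
**the mod-`n` cyclotomic character of `G_ℚ`**, `chiMod n : G_ℚ →* (ZMod n)ˣ`
(Mathlib's `modularCyclotomicCharacter` on `ℚbar`), with the four properties used by the
two-dimensional wrapper:

* `chiMod_complexConjugation` : `χ_n(c) = -1`;
* `chiMod_of_isFrobeniusAt`    : `χ_n(σ) = p` for an arithmetic Frobenius `σ` at `A | p`, `p ∤ n`;
* `chiMod_of_mem_inertia`      : `χ_n(τ) = 1` on the inertia group at `A | p`, `p ∤ n`;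
* `chiMod_finiteLevel`         : `χ_n` factors through a finite level.

All four are the mod-`n` twins of main's `ES/J/CycloChar8` (`p`-adic character), whose generic
lemmas on roots of unity modulo `𝔪_A` are reused AS-IS.
-/
import Mathlib
import Fermat.Prelude.Def_GaloisRep_Residual
import Fermat.Agent.ES.J.CycloChar8

set_option autoImplicit false

noncomputable section

namespace Fermat.Agent.ES.R48.ModCyclo13

open Fermat.Agent.ES.J.CycloChar8

local notation "Qb" => AlgebraicClosure ℚ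

variable (n : ℕ) [NeZero n]

theorem exists_primitiveRoot13 : ∃ ζ : Qb, IsPrimitiveRoot ζ n :=
  HasEnoughRootsOfUnity.exists_primitiveRoot Qb n

theorem card_rootsOfUnity13 : Nat.card (rootsOfUnity n Qb) = n := by
  obtain ⟨ζ, hζ⟩ := exists_primitiveRoot13 n
  exact hζ.card_rootsOfUnity

/-- **the mod-`n` cyclotomic character** of `G_ℚ`. -/
def chiMod : (Qb ≃ₐ[ℚ] Qb) →* (ZMod n)ˣ :=
  (modularCyclotomicCharacter Qb (card_rootsOfUnity13 n)).comp
    (MulSemiringAction.toRingAut (Qb ≃ₐ[ℚ] Qb) Qb)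

theorem chiMod_spec (σ : Qb ≃ₐ[ℚ] Qb) {ζ : Qb} (hζ : ζ ^ n = 1) :
    σ ζ = ζ ^ ((chiMod n σ : (ZMod n)ˣ) : ZMod n).val := by
  have hζ0 : ζ ≠ 0 := fun h0 => by
    rw [h0, zero_pow (NeZero.ne n)] at hζ
    exact zero_ne_one hζ
  have hmem : Units.mk0 ζ hζ0 ∈ rootsOfUnity n Qb := by
    rw [mem_rootsOfUnity]
    exact Units.ext (by rw [Units.val_pow_eq_pow_val, Units.val_mk0, hζ, Units.val_one])
  have h := modularCyclotomicCharacter.spec Qb (card_rootsOfUnity13 n)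
    (MulSemiringAction.toRingAut (Qb ≃ₐ[ℚ] Qb) Qb σ) hmem
  exact h

variable {n}

/-- the character is determined on one primitive root. -/
theorem chiMod_eq_of_apply {σ : Qb ≃ₐ[ℚ] Qb} {ζ : Qb} (hζ : IsPrimitiveRoot ζ n) {m : ℕ}
    (h : σ ζ = ζ ^ m) : ((chiMod n σ : (ZMod n)ˣ) : ZMod n) = (m : ZMod n) := by
  have h1 := chiMod_spec n σ hζ.pow_eq_one
  rw [h] at h1
  have h2 : m ≡ ((chiMod n σ : (ZMod n)ˣ) : ZMod n).val [MOD n] :=
    modEq_of_pow_eq_pow hζ (NeZero.ne n) h1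
  have h3 := (ZMod.natCast_eq_natCast_iff _ _ _).mpr h2
  rw [h3, ZMod.natCast_zmod_val]

variable (n)

/-- **`χ_n(c) = -1`.** -/
theorem chiMod_complexConjugation : ((chiMod n complexConjugation : (ZMod n)ˣ) : ZMod n) = -1 := by
  obtain ⟨ζ, hζ⟩ := exists_primitiveRoot13 n
  have hn : n ≠ 0 := NeZero.ne n
  have h1 : complexConjugation ζ = ζ ^ (n - 1) := by
    rw [complexConjugation_rootOfUnity hn hζ.pow_eq_one]
    have hζ0 : ζ ≠ 0 := hζ.ne_zero hn
    rw [eq_comm, ← mul_right_inj' hζ0, mul_inv_cancel₀ hζ0, ← pow_succ',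
      Nat.sub_add_cancel (Nat.one_le_iff_ne_zero.mpr hn), hζ.pow_eq_one]
  rw [chiMod_eq_of_apply hζ h1, Nat.cast_sub (Nat.one_le_iff_ne_zero.mpr hn), Nat.cast_one,
    ZMod.natCast_self, zero_sub]

/-- `χ_n(c) = -1`, as units. -/
theorem chiMod_complexConjugation' : chiMod n complexConjugation = -1 :=
  Units.ext (by rw [chiMod_complexConjugation, Units.val_neg, Units.val_one])

variable {n}

/-- **`χ_n(σ) = p`** for an arithmetic Frobenius at `A | p`, `p ∤ n`. -/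
theorem chiMod_of_isFrobeniusAt {p : ℕ} (hp : p.Prime) (hpn : ¬ p ∣ n) (A : ValuationSubring Qb)
    (hA : A.LiesOverPrime p) {σ : Qb ≃ₐ[ℚ] Qb} (hσ : A.IsFrobeniusAt σ p) :
    ((chiMod n σ : (ZMod n)ˣ) : ZMod n) = (p : ZMod n) := by
  obtain ⟨ζ, hζ⟩ := exists_primitiveRoot13 n
  have hn : n ≠ 0 := NeZero.ne n
  have hζ0 : ζ ≠ 0 := hζ.ne_zero hn
  have hζA : ζ ∈ A := mem_of_pow_eq_one hn hζ.pow_eq_one
  have h1 := frob_apply_sub_pow_mem_nonunits hσ hζA
  have hσζ : (σ ζ) ^ n = 1 := by rw [← map_pow, hζ.pow_eq_one, map_one]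
  have hη : (σ ζ * (ζ ^ p)⁻¹) ^ n = 1 := by
    rw [mul_pow, hσζ, inv_pow, ← pow_mul, mul_comm p, pow_mul, hζ.pow_eq_one, one_pow, inv_one,
      mul_one]
  have hvinv : A.valuation ((ζ ^ p)⁻¹) = 1 := by
    rw [map_inv₀, map_pow, valuation_eq_one_of_pow_eq_one hn hζ.pow_eq_one, one_pow, inv_one]
  have hη1 : σ ζ * (ζ ^ p)⁻¹ - 1 ∈ A.nonunits := by
    have e : σ ζ * (ζ ^ p)⁻¹ - 1 = (σ ζ - ζ ^ p) * (ζ ^ p)⁻¹ := by
      rw [sub_mul, mul_inv_cancel₀ (pow_ne_zero _ hζ0)]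
    rw [e, ValuationSubring.mem_nonunits_iff, map_mul, hvinv, mul_one]
    exact (ValuationSubring.mem_nonunits_iff (A := A)).mp h1
  have h2 := eq_one_of_sub_one_mem_nonunits hp hA hpn hη hη1
  have h3 : σ ζ = ζ ^ p := by
    have := congrArg (· * ζ ^ p) h2
    simpa [mul_assoc, inv_mul_cancel₀ (pow_ne_zero p hζ0)] using this
  exact chiMod_eq_of_apply hζ h3

/-- **`χ_n(τ) = 1`** on the inertia group at `A | p`, `p ∤ n`. -/
theorem chiMod_of_mem_inertia {p : ℕ} (hp : p.Prime) (hpn : ¬ p ∣ n) (A : ValuationSubring Qb)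
    (hA : A.LiesOverPrime p) {τ : Qb ≃ₐ[ℚ] Qb} (hτ : τ ∈ A.inertiaSubgroupIn ℚ) :
    chiMod n τ = 1 := by
  apply Units.ext
  rw [Units.val_one]
  obtain ⟨ζ, hζ⟩ := exists_primitiveRoot13 n
  have hn : n ≠ 0 := NeZero.ne n
  have hζ0 : ζ ≠ 0 := hζ.ne_zero hn
  have hζA : ζ ∈ A := mem_of_pow_eq_one hn hζ.pow_eq_one
  have h1 := Fermat.Agent.S05.Inertia.apply_sub_mem_nonunits hτ hζA
  have hτζ : (τ ζ) ^ n = 1 := by rw [← map_pow, hζ.pow_eq_one, map_one]
  have hη : (τ ζ * ζ⁻¹) ^ n = 1 := by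
    rw [mul_pow, hτζ, inv_pow, hζ.pow_eq_one, inv_one, mul_one]
  have hvinv : A.valuation (ζ⁻¹) = 1 := by
    rw [map_inv₀, valuation_eq_one_of_pow_eq_one hn hζ.pow_eq_one, inv_one]
  have hη1 : τ ζ * ζ⁻¹ - 1 ∈ A.nonunits := by
    have e : τ ζ * ζ⁻¹ - 1 = (τ ζ - ζ) * ζ⁻¹ := by
      rw [sub_mul, mul_inv_cancel₀ hζ0]
    rw [e, ValuationSubring.mem_nonunits_iff, map_mul, hvinv, mul_one]
    exact (ValuationSubring.mem_nonunits_iff (A := A)).mp h1
  have h2 := eq_one_of_sub_one_mem_nonunits hp hA hpn hη hη1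
  have h3 : τ ζ = ζ ^ 1 := by
    have := congrArg (· * ζ) h2
    simpa [mul_assoc, inv_mul_cancel₀ hζ0] using this
  rw [chiMod_eq_of_apply hζ h3, Nat.cast_one]

variable (n)

/-- **`χ_n` factors through the finite level `ℚ(ζ_n)`.** -/
theorem chiMod_finiteLevel : GaloisFactorsThroughFiniteLevel (chiMod n) := by
  obtain ⟨ζ, hζ⟩ := exists_primitiveRoot13 n
  have hint : IsIntegral ℚ ζ := (AlgebraicClosure.isAlgebraic ℚ).isIntegral.isIntegral ζ
  refine ⟨IntermediateField.adjoin ℚ {ζ}, IntermediateField.adjoin.finiteDimensional hint,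
    fun σ hσ => ?_⟩
  have h1 : σ ζ = ζ ^ 1 := by
    rw [pow_one]
    exact hσ ζ (IntermediateField.mem_adjoin_simple_self ℚ ζ)
  apply Units.ext
  rw [chiMod_eq_of_apply hζ h1, Nat.cast_one, Units.val_one]

end Fermat.Agent.ES.R48.ModCyclo13
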