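/-
Programme R (S48, Deligne–Serre), GEOM brick G7 (helper20): the abstract two-dimensional core.

`k` a field with `2 ≠ 0`, `ρ : G →* End k V` a non-zero finite-dimensional representation, `a : G → k`,
`d : G →* kˣ` with the Eichler–Shimura type relation `ρ g ² − a g • ρ g + d g = 0` for every `g`, and an
"odd" element `c` (`c² = 1`, `d c = −1`).  Then there is a semisimple `r : G →* GL₂(k)` with
`tr r g = a g`, `det r g = d g` for every `g`, trivial on every `g` with `ρ g = 1` and `d g = 1`
(the latter stated in `k`).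

Proof: a minimal non-zero stable subspace `W ≤ V` is irreducible, so `dim W ≤ 2` by main's
`InvOdd9.finrank_le_two_of_irred`; if `dim W = 2` then `r := ρ|_W` in a basis (`InvOdd9.trace_eq'`,
`det_eq'`); if `dim W = 1` then `ρ|_W = ψ` is a character with `ψ + d ψ⁻¹ = a`, and `r := ψ ⊕ d ψ⁻¹`.
-/
import Mathlib
import Fermat.Agent.ES.ALG.InvLemma9
import Fermat.Agent.ES.ALG.InvOdd9

set_option autoImplicit false

open scoped MatrixGroups

namespace Fermat.Agent.ES.R48.TwoDimCore20

open Module Fermat.Agent.ES.ALG.InvLemma9 Fermat.Agent.ES.ALG.InvOdd9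

variable {k : Type*} [Field k] {G : Type*} [Group G] {V : Type*} [AddCommGroup V] [Module k V]

/-- `W` is stable under `ρ`. -/
def Stable (ρ : G →* End k V) (W : Submodule k V) : Prop := ∀ g : G, ∀ w ∈ W, ρ g w ∈ W

/-- restriction of `ρ` to a stable subspace. -/
def restr (ρ : G →* End k V) (W : Submodule k V) (hW : Stable ρ W) : G →* End k W where
  toFun g := (ρ g).restrict (fun w hw => hW g w hw)
  map_one' := by
    ext w
    simp [LinearMap.restrict_apply]
  map_mul' g h := by
    ext w
    simp [LinearMap.restrict_apply]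

theorem coe_restr_apply (ρ : G →* End k V) (W : Submodule k V) (hW : Stable ρ W) (g : G)
    (w : W) : ((restr ρ W hW g w : W) : V) = ρ g (w : V) := rfl

/-- the relation in the form used by `InvOdd9`. -/
theorem rel_inv (ρ : G →* End k V) (a : G → k) (d : G →* kˣ)
    (hrel : ∀ g, ρ g * ρ g - a g • ρ g + ((d g : kˣ) : k) • (1 : End k V) = 0) (g : G) :
    ρ g + ((d g : kˣ) : k) • ρ g⁻¹ = a g • (1 : End k V) := by
  have hmul : ρ g * ρ g⁻¹ = 1 := by rw [← map_mul, mul_inv_cancel, map_one]
  have h := congrArg (fun x => x * ρ g⁻¹) (hrel g)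
  simp only [add_mul, sub_mul, zero_mul, smul_mul_assoc, one_mul, mul_assoc, hmul, mul_one] at h
  have : ρ g + ((d g : kˣ) : k) • ρ g⁻¹ - a g • (1 : End k V) = 0 := by rw [← h]; abel
  exact sub_eq_zero.mp this

section Minimal

variable [FiniteDimensional k V]

/-- a minimal non-zero stable subspace. -/
theorem exists_minimal_stable [Nontrivial V] (ρ : G →* End k V) :
    ∃ W : Submodule k V, W ≠ ⊥ ∧ Stable ρ W ∧
      ∀ W' : Submodule k V, Stable ρ W' → W' ≤ W → W' = ⊥ ∨ W' = W := by
  classical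
  have hex : ∃ n : ℕ, ∃ W : Submodule k V, W ≠ ⊥ ∧ Stable ρ W ∧ finrank k W = n :=
    ⟨finrank k (⊤ : Submodule k V), ⊤, top_ne_bot, fun _ _ _ => Submodule.mem_top, rfl⟩
  obtain ⟨W, hW0, hWs, hWn⟩ := Nat.find_spec hex
  refine ⟨W, hW0, hWs, ?_⟩
  intro W' hW's hle
  by_cases h0 : W' = ⊥
  · exact Or.inl h0
  · right
    have hmin : Nat.find hex ≤ finrank k W' := Nat.find_min' hex ⟨W', h0, hW's, rfl⟩
    rw [← hWn] at hmin
    exact Submodule.eq_of_le_of_finrank_le hle hmin

end Minimal

/-- the restriction to a minimal stable subspace is irreducible. -/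
theorem irred_restr (ρ : G →* End k V) (W : Submodule k V) (hWs : Stable ρ W)
    (hmin : ∀ W' : Submodule k V, Stable ρ W' → W' ≤ W → W' = ⊥ ∨ W' = W) :
    Irred (restr ρ W hWs) := by
  intro U hU
  have hstab : Stable ρ (U.map W.subtype) := by
    intro g v hv
    obtain ⟨u, hu, rfl⟩ := hv
    exact ⟨restr ρ W hWs g u, hU g u hu, rfl⟩
  rcases hmin _ hstab (Submodule.map_subtype_le W U) with h | h
  · left
    have h' : U.map W.subtype = (⊥ : Submodule k W).map W.subtype := by
      rw [h, Submodule.map_bot]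
    exact Submodule.map_injective_of_injective W.injective_subtype h'
  · right
    rw [eq_top_iff]
    intro w _
    have hw : (w : V) ∈ U.map W.subtype := by rw [h]; exact w.2
    obtain ⟨u, hu, hu'⟩ := hw
    have : u = w := Subtype.ext hu'
    rwa [this] at hu

section DimTwo

variable {W : Type*} [AddCommGroup W] [Module k W]

/-- the matrix representation attached to a representation on a space with a basis `Fin 2`. -/
noncomputable def matRep (σ : G →* End k W) (b : Basis (Fin 2) k W) : G →* GL (Fin 2) k :=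
  (Units.map ((LinearMap.toMatrixAlgEquiv b : End k W ≃ₐ[k] Matrix (Fin 2) (Fin 2) k) :
    End k W →* Matrix (Fin 2) (Fin 2) k)).comp σ.toHomUnits

theorem coe_matRep (σ : G →* End k W) (b : Basis (Fin 2) k W) (g : G) :
    ((matRep σ b g : GL (Fin 2) k) : Matrix (Fin 2) (Fin 2) k) = LinearMap.toMatrix b b (σ g) :=
  rfl

theorem matRep_eq_one (σ : G →* End k W) (b : Basis (Fin 2) k W) {g : G} (hg : σ g = 1) :
    matRep σ b g = 1 := by
  apply Units.ext
  rw [coe_matRep, hg, LinearMap.toMatrix_one, Units.val_one]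

theorem trace_matRep (σ : G →* End k W) (b : Basis (Fin 2) k W) (g : G) :
    ((matRep σ b g : GL (Fin 2) k) : Matrix (Fin 2) (Fin 2) k).trace =
      LinearMap.trace k W (σ g) := by
  rw [coe_matRep, LinearMap.trace_eq_matrix_trace k b]

theorem det_matRep (σ : G →* End k W) (b : Basis (Fin 2) k W) (g : G) :
    ((matRep σ b g : GL (Fin 2) k) : Matrix (Fin 2) (Fin 2) k).det = LinearMap.det (σ g) := by
  rw [coe_matRep, LinearMap.det_toMatrix b]

/-- an irreducible two-dimensional representation has no stable line (matrix form). -/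
theorem no_stable_line (σ : G →* End k W) (b : Basis (Fin 2) k W) (hirr : Irred σ)
    (v : Fin 2 → k) (hv : v ≠ 0)
    (hst : ∀ g, ∃ x : k,
      ((matRep σ b g : GL (Fin 2) k) : Matrix (Fin 2) (Fin 2) k).mulVec v = x • v) : False := by
  set u : W := b.equivFun.symm v with hu
  have hrepr : ⇑(b.repr u) = v := by
    rw [← Basis.equivFun_apply, hu, LinearEquiv.apply_symm_apply]
  have hu0 : u ≠ 0 := by
    intro h0
    apply hv
    rw [← hrepr, h0]
    ext i
    simp
  have hstab : ∀ g : G, ∀ w ∈ Submodule.span k {u}, σ g w ∈ Submodule.span k {u} := by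
    intro g w hw
    obtain ⟨t, rfl⟩ := Submodule.mem_span_singleton.mp hw
    obtain ⟨x, hx⟩ := hst g
    have h1 : σ g u = x • u := by
      apply b.repr.injective
      apply DFunLike.coe_injective
      have := LinearMap.toMatrix_mulVec_repr b b (σ g) u
      rw [map_smul, Finsupp.coe_smul, hrepr, ← this, hrepr, ← coe_matRep, hx]
    rw [map_smul, h1]
    exact Submodule.smul_mem _ _ (Submodule.smul_mem _ _ (Submodule.mem_span_singleton_self u))
  have hfr : finrank k W = 2 := by
    rw [finrank_eq_card_basis b]; simp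
  rcases hirr _ hstab with h | h
  · exact hu0 (Submodule.span_singleton_eq_bot.mp h)
  · have h1 := finrank_span_singleton (K := k) hu0
    rw [h, finrank_top] at h1
    omega

end DimTwo

section DimOne

/-- the diagonal representation `ψ ⊕ χ`. -/
noncomputable def diagRep (ψ χ : G →* kˣ) : G →* GL (Fin 2) k where
  toFun g := ⟨!![((ψ g : kˣ) : k), 0; 0, ((χ g : kˣ) : k)],
    !![(((ψ g)⁻¹ : kˣ) : k), 0; 0, (((χ g)⁻¹ : kˣ) : k)],
    by simp [Matrix.one_fin_two], by simp [Matrix.one_fin_two]⟩
  map_one' := by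
    apply Units.ext
    simp [Matrix.one_fin_two]
  map_mul' g h := by
    apply Units.ext
    simp

theorem coe_diagRep (ψ χ : G →* kˣ) (g : G) :
    ((diagRep ψ χ g : GL (Fin 2) k) : Matrix (Fin 2) (Fin 2) k) =
      !![((ψ g : kˣ) : k), 0; 0, ((χ g : kˣ) : k)] := rfl

theorem trace_diagRep (ψ χ : G →* kˣ) (g : G) :
    ((diagRep ψ χ g : GL (Fin 2) k) : Matrix (Fin 2) (Fin 2) k).trace =
      ((ψ g : kˣ) : k) + ((χ g : kˣ) : k) := by
  rw [coe_diagRep, Matrix.trace_fin_two_of]

theorem det_diagRep (ψ χ : G →* kˣ) (g : G) :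
    ((diagRep ψ χ g : GL (Fin 2) k) : Matrix (Fin 2) (Fin 2) k).det =
      ((ψ g : kˣ) : k) * ((χ g : kˣ) : k) := by
  rw [coe_diagRep, Matrix.det_fin_two_of]; ring

theorem diagRep_eq_one (ψ χ : G →* kˣ) {g : G} (h1 : ψ g = 1) (h2 : χ g = 1) :
    diagRep ψ χ g = 1 := by
  apply Units.ext
  rw [coe_diagRep, h1, h2]
  simp [Matrix.one_fin_two]

/-- a diagonal representation is semisimple: every line has a stable complementary line. -/
theorem diagRep_semisimple (ψ χ : G →* kˣ) (v : Fin 2 → k) :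
    ∃ w : Fin 2 → k, (∀ x : k, w ≠ x • v) ∧ ∀ g, ∃ x : k,
      ((diagRep ψ χ g : GL (Fin 2) k) : Matrix (Fin 2) (Fin 2) k).mulVec w = x • w := by
  by_cases h1 : v 1 = 0
  · refine ⟨![0, 1], ?_, ?_⟩
    · intro x hx
      have := congrFun hx 1
      simp [h1] at this
    · intro g
      refine ⟨((χ g : kˣ) : k), ?_⟩
      rw [coe_diagRep]
      ext i
      fin_cases i <;> simp [Matrix.mulVec, dotProduct, Fin.sum_univ_two]
  · refine ⟨![1, 0], ?_, ?_⟩
    · intro x hx
      have h := congrFun hx 1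
      simp only [Matrix.cons_val_one, Matrix.cons_val_fin_one, Pi.smul_apply, smul_eq_mul] at h
      have hx0 : x = 0 := by
        rcases mul_eq_zero.mp h.symm with h' | h'
        · exact h'
        · exact absurd h' h1
      have h0 := congrFun hx 0
      rw [hx0] at h0
      simp at h0
    · intro g
      refine ⟨((ψ g : kˣ) : k), ?_⟩
      rw [coe_diagRep]
      ext i
      fin_cases i <;> simp [Matrix.mulVec, dotProduct, Fin.sum_univ_two]

end DimOne

/-- **The abstract two-dimensional core.** -/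
theorem exists_rep2 (h2 : (2 : k) ≠ 0) [FiniteDimensional k V] [Nontrivial V]
    (ρ : G →* End k V) (a : G → k) (d : G →* kˣ)
    (hrel : ∀ g, ρ g * ρ g - a g • ρ g + ((d g : kˣ) : k) • (1 : End k V) = 0)
    (c : G) (hc2 : c * c = 1) (hdc : ((d c : kˣ) : k) = -1) :
    ∃ r : G →* GL (Fin 2) k,
      (∀ v : Fin 2 → k, v ≠ 0 →
        (∀ g, ∃ x : k, ((r g : GL (Fin 2) k) : Matrix (Fin 2) (Fin 2) k).mulVec v = x • v) →
        ∃ w : Fin 2 → k, (∀ x : k, w ≠ x • v) ∧
          ∀ g, ∃ x : k, ((r g : GL (Fin 2) k) : Matrix (Fin 2) (Fin 2) k).mulVec w = x • w) ∧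
      (∀ g, ((r g : GL (Fin 2) k) : Matrix (Fin 2) (Fin 2) k).trace = a g ∧
        ((r g : GL (Fin 2) k) : Matrix (Fin 2) (Fin 2) k).det = ((d g : kˣ) : k)) ∧
      (∀ g, ρ g = 1 → ((d g : kˣ) : k) = 1 → r g = 1) := by
  obtain ⟨W, hW0, hWs, hmin⟩ := exists_minimal_stable ρ
  have hirr := irred_restr ρ W hWs hmin
  have hσ : ∀ g, restr ρ W hWs g + ((d g : kˣ) : k) • restr ρ W hWs g⁻¹ =
      a g • (1 : End k W) := by
    intro g
    ext w
    have := congrArg (fun f : End k V => f (w : V)) (rel_inv ρ a d hrel g)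
    simpa [coe_restr_apply] using this
  have hle := finrank_le_two_of_irred h2 hσ hc2 hdc hirr
  have hWnt : Nontrivial W := (Submodule.nontrivial_iff_ne_bot).mpr hW0
  have hpos : 0 < finrank k W := Module.finrank_pos
  have hσ1 : ∀ g, ρ g = 1 → restr ρ W hWs g = 1 := by
    intro g hg
    ext w
    simp [coe_restr_apply, hg]
  have h1ne : (1 : End k W) ≠ 0 := one_ne_zero
  rcases (by omega : finrank k W = 1 ∨ finrank k W = 2) with h1 | h2'
  · -- dimension one: `r = ψ ⊕ d ψ⁻¹`
    obtain ⟨ψ, hψ, hψa⟩ := exists_char_of_finrank_one hσ h1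
    refine ⟨diagRep ψ (d * ψ⁻¹), fun v _ _ => diagRep_semisimple ψ (d * ψ⁻¹) v, ?_, ?_⟩
    · intro g
      have hψ0 : ((ψ g : kˣ) : k) ≠ 0 := Units.ne_zero _
      rw [trace_diagRep, det_diagRep]
      simp only [MonoidHom.mul_apply, MonoidHom.inv_apply, Units.val_mul, Units.val_inv_eq_inv_val]
      refine ⟨hψa g, ?_⟩
      field_simp
    · intro g hg hdg'
      have hdg : d g = 1 := Units.ext (by rw [hdg', Units.val_one])
      have hs : restr ρ W hWs g = 1 := hσ1 g hg
      have hψ1 : ψ g = 1 := by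
        apply Units.ext
        have h := hψ g
        rw [hs] at h
        have h' : ((ψ g : kˣ) : k) • (1 : End k W) = (1 : k) • (1 : End k W) := by
          rw [one_smul, ← h]
        rw [Units.val_one]
        exact smul_left_injective k h1ne h'
      apply diagRep_eq_one ψ (d * ψ⁻¹) hψ1
      rw [MonoidHom.mul_apply, MonoidHom.inv_apply, hψ1, hdg, inv_one, mul_one]
  · -- dimension two: `r = ρ|_W` in a basis
    have hns : ¬ IsScal (restr ρ W hWs c) := fun hsc =>
      not_forall_isScal_of_irred hirr h2'.ge (isScal_of_isScal_c h2 hσ hc2 hdc hsc)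
    let b : Basis (Fin 2) k W := Module.finBasisOfFinrankEq k W h2'
    refine ⟨matRep (restr ρ W hWs) b, ?_, ?_, ?_⟩
    · intro v hv hst
      exact (no_stable_line (restr ρ W hWs) b hirr v hv hst).elim
    · intro g
      rw [trace_matRep, det_matRep]
      exact ⟨trace_eq' h2 hσ h2' (gamma_mem_pairs hc2 hdc) hns g,
        det_eq' h2 hσ h2' (gamma_mem_pairs hc2 hdc) hns g⟩
    · intro g hg _
      exact matRep_eq_one (restr ρ W hWs) b (hσ1 g hg)

end Fermat.Agent.ES.R48.TwoDimCore20
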