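/-
Programme R (S48, Deligne–Serre), chapter GEOM, brick G7 (helper13): **the Galois wrapper**
`geomJ : GeomIface13.GeomJ`.

Inputs (all literal `Prop`s of `GeomIface13`): `GeomInputs M ℓ` (diamonds, open stabilisers,
finiteness of `J₁(M)[ℓ]`, unramifiedness, the Eichler–Shimura relation `⟨p⟩₁ σ² - T₁ σ + p = 0`,
`T₁` defined over `ℚ`) and `EigenOccursJ M ℓ tJ dJ` (a joint eigenvector in `J₁(M)[ℓ]`).

Construction.
* `V := eigenSub` : the joint eigenspace of all `heckeOne M p` (`p ∤ M`) and `diamondOne M e` in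
  `J₁(M)[ℓ]`, a finite non-zero `𝔽_ℓ`-vector space stable under `G_ℚ`;  `rho : G_ℚ →* End V`;
* `dChar := ψ ∘ χ_M`, `ψ(u) = (u mod ℓ) · dJ(u)⁻¹` (`χ_M` the mod-`M` cyclotomic character of
  `ModCyclo13`): `dChar(Frob_p) = p / dJ(p)`, `dChar(c) = -1` (as `dJ(-1) = 1`, because `⟨-1⟩₁ = 1`);
* at a Frobenius `σ` over `p ∤ M` : `ρ(σ)² - (tJ p / dJ p) ρ(σ) + dChar(σ) = 0`;
* Chebotarev in the generator form (`ChebQbar23.exists_frobenius_inv_mul_pow_fixes`) + Lucas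
  (`RelDense9.exists_trace_fun_of_dense` with the zero ideal) : the relation for EVERY `g ∈ G_ℚ`;
* helper20's abstract core `TwoDimCore20.exists_rep2`.
-/
import Mathlib
import Fermat.Prelude.Def_GaloisRep_ComplexConjugation
import Fermat.Agent.ES.ALG.RelDense9
import Fermat.Agent.ES.GAL.ChebQbar23
import Fermat.Agent.ES.GAL.OpenStab12
import Fermat.Agent.ES.R48.TwoDimCore20
import Fermat.Agent.ES.R48.ModCyclo13
import Fermat.Agent.ES.R48.GeomIface13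

set_option autoImplicit false
set_option linter.unusedSectionVars false

noncomputable section

open ModularCurve AlgebraicCurve

namespace Fermat.Agent.ES.R48.GeomTwoDim13

open FF1Defs13 JOneOps13 GeomIface13 ModCyclo13
open DSIface27 (IsSemisimple2 FrobData)

local notation "Qb" => AlgebraicClosure ℚ

/-! ### The joint eigenspace -/

section Eigen

variable (M ℓ : ℕ) (tJ : ℕ → ZMod ℓ) (dJ : (ZMod M)ˣ →* (ZMod ℓ)ˣ)

/-- the joint eigenspace of the `J`-operators in `J₁(M)[ℓ]`. -/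
def eigenSub : AddSubgroup (JOne M) where
  carrier := {x | ℓ • x = 0 ∧
    (∀ p : ℕ, p.Prime → ¬ p ∣ M → heckeOne M p x = (tJ p).val • x) ∧
    ∀ e : (ZMod M)ˣ, diamondOne M e x = ((dJ e : (ZMod ℓ)ˣ) : ZMod ℓ).val • x}
  zero_mem' := ⟨nsmul_zero _, fun _ _ _ => by rw [map_zero, nsmul_zero],
    fun _ => by rw [map_zero, nsmul_zero]⟩
  add_mem' := by
    rintro x y ⟨hx1, hx2, hx3⟩ ⟨hy1, hy2, hy3⟩
    refine ⟨by rw [nsmul_add, hx1, hy1, add_zero], fun p hp hpM => ?_, fun e => ?_⟩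
    · rw [map_add, hx2 p hp hpM, hy2 p hp hpM, nsmul_add]
    · rw [map_add, hx3 e, hy3 e, nsmul_add]
  neg_mem' := by
    rintro x ⟨hx1, hx2, hx3⟩
    refine ⟨by rw [neg_nsmul, hx1, neg_zero], fun p hp hpM => ?_, fun e => ?_⟩
    · rw [map_neg, hx2 p hp hpM, neg_nsmul]
    · rw [map_neg, hx3 e, neg_nsmul]

variable {M ℓ tJ dJ}

theorem mem_eigenSub {x : JOne M} : x ∈ eigenSub M ℓ tJ dJ ↔ ℓ • x = 0 ∧
    (∀ p : ℕ, p.Prime → ¬ p ∣ M → heckeOne M p x = (tJ p).val • x) ∧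
    ∀ e : (ZMod M)ˣ, diamondOne M e x = ((dJ e : (ZMod ℓ)ˣ) : ZMod ℓ).val • x :=
  Iff.rfl

/-- the `𝔽_ℓ`-module structure of the eigenspace. -/
instance instModuleEigen : Module (ZMod ℓ) (eigenSub M ℓ tJ dJ) :=
  AddCommGroup.zmodModule fun x => Subtype.ext (by
    rw [AddSubgroup.coe_nsmul, AddSubgroup.coe_zero]
    exact x.2.1)

theorem coe_zmod_smul (c : ZMod ℓ) (x : eigenSub M ℓ tJ dJ) [NeZero ℓ] :
    ((c • x : eigenSub M ℓ tJ dJ) : JOne M) = c.val • (x : JOne M) := by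
  conv_lhs => rw [← ZMod.natCast_zmod_val c, Nat.cast_smul_eq_nsmul]
  rfl

/-- the eigenspace is stable under `G_ℚ`. -/
theorem smul_mem_eigenSub (hcomm : ∀ p : ℕ, p.Prime → ¬ p ∣ M → HeckeGaloisComm M p) (σ : GQ)
    {x : JOne M} (hx : x ∈ eigenSub M ℓ tJ dJ) : σ • x ∈ eigenSub M ℓ tJ dJ := by
  obtain ⟨hx1, hx2, hx3⟩ := hx
  have hn : ∀ (n : ℕ) (y : JOne M), σ • (n • y) = n • (σ • y) := fun n y =>
    map_nsmul (DistribSMul.toAddMonoidHom (JOne M) σ) n y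
  refine ⟨by rw [← hn, hx1]; exact smul_zero (A := JOne M) σ, fun p hp hpM => ?_, fun e => ?_⟩
  · rw [hcomm p hp hpM σ x, hx2 p hp hpM, hn]
  · rw [diamondOne_galois, hx3 e, hn]

variable (M ℓ tJ dJ)

/-- the action of `σ ∈ G_ℚ` on the eigenspace, as an additive map. -/
def galAdd (hcomm : ∀ p : ℕ, p.Prime → ¬ p ∣ M → HeckeGaloisComm M p) (σ : GQ) :
    eigenSub M ℓ tJ dJ →+ eigenSub M ℓ tJ dJ where
  toFun x := ⟨σ • (x : JOne M), smul_mem_eigenSub hcomm σ x.2⟩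
  map_zero' := Subtype.ext (smul_zero (A := JOne M) σ)
  map_add' x y := Subtype.ext (smul_add σ (x : JOne M) (y : JOne M))

/-- **the Galois representation on the eigenspace.** -/
def rho (hcomm : ∀ p : ℕ, p.Prime → ¬ p ∣ M → HeckeGaloisComm M p) :
    GQ →* Module.End (ZMod ℓ) (eigenSub M ℓ tJ dJ) where
  toFun σ := (galAdd M ℓ tJ dJ hcomm σ).toZModLinearMap ℓ
  map_one' := LinearMap.ext fun x => Subtype.ext (one_smul GQ (x : JOne M))
  map_mul' σ τ := LinearMap.ext fun x => Subtype.ext (mul_smul σ τ (x : JOne M))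

variable {M ℓ tJ dJ}

@[simp]
theorem coe_rho_apply (hcomm : ∀ p : ℕ, p.Prime → ¬ p ∣ M → HeckeGaloisComm M p) (σ : GQ)
    (x : eigenSub M ℓ tJ dJ) :
    ((rho M ℓ tJ dJ hcomm σ x : eigenSub M ℓ tJ dJ) : JOne M) = σ • (x : JOne M) :=
  rfl

end Eigen

/-! ### The determinant character -/

section Character

variable {M ℓ : ℕ} [NeZero M] (hℓM : ℓ ∣ M) (dJ : (ZMod M)ˣ →* (ZMod ℓ)ˣ)

/-- `ψ(u) = (u mod ℓ) · dJ(u)⁻¹`. -/
def psi : (ZMod M)ˣ →* (ZMod ℓ)ˣ := ZMod.unitsMap hℓM * dJ⁻¹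

theorem coe_psi (u : (ZMod M)ˣ) : ((psi hℓM dJ u : (ZMod ℓ)ˣ) : ZMod ℓ)
    = ZMod.castHom hℓM (ZMod ℓ) (u : ZMod M) * (((dJ u)⁻¹ : (ZMod ℓ)ˣ) : ZMod ℓ) := by
  rw [psi, MonoidHom.mul_apply, MonoidHom.inv_apply, Units.val_mul, ZMod.unitsMap_def,
    Units.coe_map]
  rfl

/-- **the determinant character** `χ_ℓ · (dJ ∘ χ_M)⁻¹`. -/
def dChar : GQ →* (ZMod ℓ)ˣ := (psi hℓM dJ).comp (chiMod M)

theorem dChar_apply (σ : GQ) : dChar hℓM dJ σ = psi hℓM dJ (chiMod M σ) := rfl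

/-- `dChar(Frob_p) = p / dJ(p)`. -/
theorem dChar_frob {p : ℕ} (hp : p.Prime) (hpM : ¬ p ∣ M) (A : ValuationSubring Qb)
    (hA : A.LiesOverPrime p) {σ : GQ} (hσ : A.IsFrobeniusAt σ p) :
    ((dChar hℓM dJ σ : (ZMod ℓ)ˣ) : ZMod ℓ)
      = (p : ZMod ℓ) * (((dJ (unitNat M p))⁻¹ : (ZMod ℓ)ˣ) : ZMod ℓ) := by
  have h1 : chiMod M σ = unitNat M p :=
    Units.ext ((chiMod_of_isFrobeniusAt hp hpM A hA hσ).trans (unitNat_of_prime hp hpM).symm)
  rw [dChar_apply, h1, coe_psi, unitNat_of_prime hp hpM, map_natCast]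

/-- `dChar = 1` on inertia at `p ∤ M`. -/
theorem dChar_inertia {p : ℕ} (hp : p.Prime) (hpM : ¬ p ∣ M) (A : ValuationSubring Qb)
    (hA : A.LiesOverPrime p) {τ : GQ} (hτ : τ ∈ A.inertiaSubgroupIn ℚ) :
    dChar hℓM dJ τ = 1 := by
  rw [dChar_apply, chiMod_of_mem_inertia hp hpM A hA hτ, map_one]

/-- `dChar(c) = -1` as soon as `dJ(-1) = 1`. -/
theorem dChar_complexConjugation (hd : dJ (-1) = 1) :
    ((dChar hℓM dJ complexConjugation : (ZMod ℓ)ˣ) : ZMod ℓ) = -1 := by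
  rw [dChar_apply, chiMod_complexConjugation', coe_psi, hd, inv_one, Units.val_one, mul_one,
    Units.val_neg, Units.val_one, map_neg, map_one]

end Character

/-! ### The Eichler–Shimura relation on the eigenspace -/

section Relation

variable {M ℓ : ℕ} [NeZero M] [hℓ : Fact ℓ.Prime] (hℓM : ℓ ∣ M) (tJ : ℕ → ZMod ℓ)
  (dJ : (ZMod M)ˣ →* (ZMod ℓ)ˣ)

/-- the trace of Frobenius at `p`: `tJ p / dJ p`. -/
def aFrob (p : ℕ) : ZMod ℓ := tJ p * (((dJ (unitNat M p))⁻¹ : (ZMod ℓ)ˣ) : ZMod ℓ)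

/-- **`ρ(σ)² - (tJ p / dJ p) ρ(σ) + dChar(σ) = 0`** for an arithmetic Frobenius `σ` at `p ∤ M`. -/
theorem frob_rel (hin : GeomInputs M ℓ) {p : ℕ} (hp : p.Prime) (hpM : ¬ p ∣ M)
    (A : ValuationSubring Qb) (hA : A.LiesOverPrime p) {σ : GQ} (hσ : A.IsFrobeniusAt σ p) :
    rho M ℓ tJ dJ hin.comm σ * rho M ℓ tJ dJ hin.comm σ
      - aFrob tJ dJ p • rho M ℓ tJ dJ hin.comm σ
      + ((dChar hℓM dJ σ : (ZMod ℓ)ˣ) : ZMod ℓ) • (1 : Module.End (ZMod ℓ) (eigenSub M ℓ tJ dJ))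
      = 0 := by
  have : NeZero ℓ := ⟨hℓ.out.ne_zero⟩
  set R := rho M ℓ tJ dJ hin.comm σ with hR
  set u : (ZMod ℓ)ˣ := dJ (unitNat M p) with hu
  have hδ : ((u : (ZMod ℓ)ˣ) : ZMod ℓ) ≠ 0 := Units.ne_zero u
  refine LinearMap.ext fun x => ?_
  -- the relation of `FrobRelAt`, inside the eigenspace
  have key : ((u : (ZMod ℓ)ˣ) : ZMod ℓ) • R (R x) - tJ p • R x + (p : ZMod ℓ) • x = 0 := by
    apply Subtype.ext
    rw [AddSubgroup.coe_add, AddSubgroup.coe_sub, coe_zmod_smul, coe_zmod_smul,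
      Nat.cast_smul_eq_nsmul, AddSubgroup.coe_nsmul, AddSubgroup.coe_zero, hR]
    simp only [coe_rho_apply]
    have h1 := hin.frob p hp hpM A hA σ hσ (x : JOne M) x.2.1
    have hx1 : σ • (x : JOne M) ∈ eigenSub M ℓ tJ dJ := smul_mem_eigenSub hin.comm σ x.2
    have hx2 : σ • σ • (x : JOne M) ∈ eigenSub M ℓ tJ dJ := smul_mem_eigenSub hin.comm σ hx1
    rw [hx2.2.2 (unitNat M p), hx1.2.1 p hp hpM] at h1
    exact h1
  -- divide by `dJ p`
  have e1 : ((u : (ZMod ℓ)ˣ) : ZMod ℓ) * aFrob tJ dJ p = tJ p := by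
    rw [aFrob, ← hu, mul_comm, mul_assoc, ← Units.val_mul, inv_mul_cancel, Units.val_one, mul_one]
  have e2 : ((u : (ZMod ℓ)ˣ) : ZMod ℓ) * ((dChar hℓM dJ σ : (ZMod ℓ)ˣ) : ZMod ℓ) = (p : ZMod ℓ) := by
    rw [dChar_frob hℓM dJ hp hpM A hA hσ, ← hu, mul_comm, mul_assoc, ← Units.val_mul,
      inv_mul_cancel, Units.val_one, mul_one]
  have h2 : ((u : (ZMod ℓ)ˣ) : ZMod ℓ) •
      (R (R x) - aFrob tJ dJ p • R x + ((dChar hℓM dJ σ : (ZMod ℓ)ˣ) : ZMod ℓ) • x) = 0 := by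
    rw [smul_add, smul_sub, smul_smul, smul_smul, e1, e2]
    exact key
  have h3 := (smul_eq_zero.mp h2).resolve_left hδ
  simpa using h3

end Relation

/-! ### The level field, density of Frobenius powers -/

section Main

open Fermat.Agent.ES.GAL.OpenStab12 Fermat.Agent.ES.ALG.RelDense9

variable {M ℓ : ℕ} [NeZero M] [hℓ : Fact ℓ.Prime] (hℓM : ℓ ∣ M) (tJ : ℕ → ZMod ℓ)
  (dJ : (ZMod M)ˣ →* (ZMod ℓ)ˣ)

/-- a number field over which `J₁(M)[ℓ]` and `μ_M` are rational. -/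
theorem exists_level (hin : GeomInputs M ℓ) :
    HasLevel (fun σ => (∀ y : JOne M, ℓ • y = 0 → σ • y = y) ∧ chiMod M σ = 1) := by
  have h1 : HasLevel (fun σ => ∀ y ∈ hin.finite.toFinset, σ • y = y) :=
    hasLevel_forall_finset hin.finite.toFinset (fun y σ => σ • y = y)
      (fun y _ => hin.level y)
  have h2 : HasLevel (fun σ => chiMod M σ = 1) := chiMod_finiteLevel M
  refine (h1.and h2).mono ?_
  rintro σ ⟨hσ1, hσ2⟩
  exact ⟨fun y hy => hσ1 y (hin.finite.mem_toFinset.mpr hy), hσ2⟩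

/-- the set of arithmetic Frobenius elements at the primes `p ∤ M`. -/
def frobSet (M : ℕ) : Set GQ :=
  {σ | ∃ (p : ℕ) (A : ValuationSubring Qb), p.Prime ∧ ¬ p ∣ M ∧ A.LiesOverPrime p ∧
    A.IsFrobeniusAt σ p}

open Classical in
/-- a choice of `tJ p / dJ p` for `σ` a Frobenius at `p`. -/
def aPhi (σ : GQ) : ZMod ℓ :=
  if h : σ ∈ frobSet M then aFrob tJ dJ h.choose else 0

theorem rel_aPhi (hin : GeomInputs M ℓ) {σ : GQ} (hσ : σ ∈ frobSet M) :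
    rho M ℓ tJ dJ hin.comm σ * rho M ℓ tJ dJ hin.comm σ
      - aPhi tJ dJ σ • rho M ℓ tJ dJ hin.comm σ
      + ((dChar hℓM dJ σ : (ZMod ℓ)ˣ) : ZMod ℓ) • (1 : Module.End (ZMod ℓ) (eigenSub M ℓ tJ dJ))
      = 0 := by
  rw [aPhi, dif_pos hσ]
  obtain ⟨A, hp, hpM, hA, hfr⟩ := hσ.choose_spec
  exact frob_rel hℓM tJ dJ hin hp hpM A hA hfr

/-- `ρ` and `dChar` are trivial on `g` as soon as `g` fixes the level field. -/
theorem rho_eq_one_of_fixes (hin : GeomInputs M ℓ) {τ : GQ}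
    (h : ∀ y : JOne M, ℓ • y = 0 → τ • y = y) : rho M ℓ tJ dJ hin.comm τ = 1 :=
  LinearMap.ext fun x => Subtype.ext (h (x : JOne M) x.2.1)

/-- **density of the powers of Frobenius elements** (Chebotarev, generator form). -/
theorem dense (hin : GeomInputs M ℓ) (g : GQ) :
    ∃ σ ∈ frobSet M, ∃ j : ℕ, rho M ℓ tJ dJ hin.comm g = rho M ℓ tJ dJ hin.comm σ ^ j ∧
      dChar hℓM dJ g = dChar hℓM dJ σ ^ j := by
  obtain ⟨L, hL, H⟩ := exists_level hin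
  have := hL
  obtain ⟨p, A, φ, j, hp, hpT, hA, hφ, hfix⟩ :=
    Fermat.Agent.ES.GAL.ChebQbar23.exists_frobenius_inv_mul_pow_fixes L g M.primeFactors
  have hpM : ¬ p ∣ M := fun hdvd =>
    hpT (Nat.mem_primeFactors.mpr ⟨hp, hdvd, NeZero.ne M⟩)
  obtain ⟨h1, h2⟩ := H (g⁻¹ * φ ^ j) fun a ha => hfix a ha
  refine ⟨φ, ⟨p, A, hp, hpM, hA, hφ⟩, j, ?_, ?_⟩
  · have e : rho M ℓ tJ dJ hin.comm (g⁻¹ * φ ^ j) = 1 := rho_eq_one_of_fixes tJ dJ hin h1
    have e2 := map_mul (rho M ℓ tJ dJ hin.comm) g (g⁻¹ * φ ^ j)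
    rw [e, mul_one, mul_inv_cancel_left, map_pow] at e2
    exact e2.symm
  · have e : dChar hℓM dJ (g⁻¹ * φ ^ j) = 1 := by rw [dChar_apply, h2, map_one]
    rw [map_mul, map_inv, map_pow] at e
    exact (inv_mul_eq_one.mp e)

end Main

/-! ### The main theorem of G7 -/

section Final

open Fermat.Agent.ES.GAL.OpenStab12 Fermat.Agent.ES.ALG.RelDense9

/-- **G7**: from the geometric inputs and a joint eigenvector in `J₁(M)[ℓ]` to the semisimple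
two-dimensional mod-`ℓ` representation with the prescribed Frobenius data. -/
theorem geomJ : GeomJ := by
  intro M ℓ _ hℓ hℓ2 hℓM hin tJ dJ hocc
  have : Fact ℓ.Prime := ⟨hℓ⟩
  have : NeZero ℓ := ⟨hℓ.ne_zero⟩
  obtain ⟨x, hx0, hx1, hx2, hx3⟩ := hocc
  have hxV : x ∈ eigenSub M ℓ tJ dJ := ⟨hx1, hx2, hx3⟩
  set xV : eigenSub M ℓ tJ dJ := ⟨x, hxV⟩ with hxVdef
  have hxV0 : xV ≠ 0 := fun h => hx0 (congrArg Subtype.val h)
  have : Nontrivial (eigenSub M ℓ tJ dJ) := ⟨⟨xV, 0, hxV0⟩⟩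
  have : Finite {y : JOne M // ℓ • y = 0} := hin.finite.to_subtype
  have : Finite (eigenSub M ℓ tJ dJ) :=
    Finite.of_injective (fun v : eigenSub M ℓ tJ dJ => (⟨v.1, v.2.1⟩ : {y : JOne M // ℓ • y = 0}))
      (fun v w h => Subtype.ext (by simpa using congrArg Subtype.val h))
  -- `dJ(-1) = 1`
  have hd : dJ (-1) = 1 := by
    have h := hx3 (-1)
    rw [diamondOne_neg_one] at h
    have h' : (((dJ (-1) : (ZMod ℓ)ˣ) : ZMod ℓ) - 1) • xV = 0 := by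
      rw [sub_smul, one_smul, sub_eq_zero]
      exact Subtype.ext (by rw [coe_zmod_smul]; exact h.symm)
    rcases smul_eq_zero.mp h' with h0 | h0
    · exact Units.ext (by rw [Units.val_one]; exact sub_eq_zero.mp h0)
    · exact absurd h0 hxV0
  have h2 : (2 : ZMod ℓ) ≠ 0 := by
    intro h
    have h' : ((2 : ℕ) : ZMod ℓ) = 0 := by exact_mod_cast h
    rw [ZMod.natCast_eq_zero_iff] at h'
    exact hℓ2 ((Nat.prime_dvd_prime_iff_eq hℓ Nat.prime_two).mp h')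
  set ρ := rho M ℓ tJ dJ hin.comm with hρ
  -- the trace function
  obtain ⟨a, ha, -⟩ := exists_trace_fun_of_dense ρ (dChar hℓM dJ) (fun _ => (⊥ : Ideal (ZMod ℓ)))
    (fun y hy => Ideal.mem_bot.mp (hy 0)) (frobSet M) (aPhi tJ dJ)
    (fun σ hσ => rel_aPhi hℓM tJ dJ hin hσ) (fun n g => by
      obtain ⟨σ, hσ, j, h1, h2⟩ := dense hℓM tJ dJ hin g
      refine ⟨σ, hσ, j, ?_, ?_⟩
      · rw [h1]
        exact EndCongr.refl _ _
      · rw [h2, Units.val_pow_eq_pow_val, sub_self]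
        exact Submodule.zero_mem _)
  have hrel : ∀ g, ρ g * ρ g - a g • ρ g
      + ((dChar hℓM dJ g : (ZMod ℓ)ˣ) : ZMod ℓ) • (1 : Module.End (ZMod ℓ) (eigenSub M ℓ tJ dJ))
      = 0 := by
    intro g
    have h := congrArg (· * ρ g) (ha g)
    simp only [add_mul, smul_mul_assoc, rho_inv_mul ρ g, one_mul] at h
    have e : ρ g * ρ g - a g • ρ g
        + ((dChar hℓM dJ g : (ZMod ℓ)ˣ) : ZMod ℓ) • (1 : Module.End (ZMod ℓ) (eigenSub M ℓ tJ dJ))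
        = (ρ g * ρ g + ((dChar hℓM dJ g : (ZMod ℓ)ˣ) : ZMod ℓ) •
            (1 : Module.End (ZMod ℓ) (eigenSub M ℓ tJ dJ))) - a g • ρ g := by abel
    rw [e, h, sub_self]
  obtain ⟨r, hss, htd, hfl⟩ := TwoDimCore20.exists_rep2 h2 ρ a (dChar hℓM dJ) hrel
    complexConjugation complexConjugation_mul_self (dChar_complexConjugation hℓM dJ hd)
  refine ⟨r, ?_, hss, ?_⟩
  · -- finite level
    obtain ⟨L, hL, H⟩ := exists_level hin
    exact ⟨L, hL, fun σ hσ => hfl σ (rho_eq_one_of_fixes tJ dJ hin (H σ hσ).1)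
      (by rw [dChar_apply, (H σ hσ).2, map_one, Units.val_one])⟩
  · -- Frobenius data
    intro p hp hpM A hA
    refine ⟨fun σ hσ => hfl σ
      (rho_eq_one_of_fixes tJ dJ hin fun y hy => hin.unram p hp hpM A hA σ hσ y hy)
      (by rw [dChar_inertia hℓM dJ hp hpM A hA hσ, Units.val_one]), fun σ hσ => ?_⟩
    obtain ⟨ht, hd'⟩ := htd σ
    refine ⟨ht.trans ?_, hd'.trans (dChar_frob hℓM dJ hp hpM A hA hσ)⟩
    -- `a σ = tJ p / dJ p` by uniqueness of the scalar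
    have h1 := frob_rel hℓM tJ dJ hin hp hpM A hA hσ
    have h2' := hrel σ
    have h3 : (a σ - aFrob tJ dJ p) • ρ σ = 0 := by
      have e : (a σ - aFrob tJ dJ p) • ρ σ
          = (ρ σ * ρ σ - aFrob tJ dJ p • ρ σ + ((dChar hℓM dJ σ : (ZMod ℓ)ˣ) : ZMod ℓ) •
              (1 : Module.End (ZMod ℓ) (eigenSub M ℓ tJ dJ)))
            - (ρ σ * ρ σ - a σ • ρ σ + ((dChar hℓM dJ σ : (ZMod ℓ)ˣ) : ZMod ℓ) •
              (1 : Module.End (ZMod ℓ) (eigenSub M ℓ tJ dJ))) := by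
        rw [sub_smul]
        abel
      rw [e, h1, h2', sub_self]
    have h4 := congrArg (· * ρ σ⁻¹) h3
    simp only [smul_mul_assoc, rho_mul_inv ρ σ, zero_mul] at h4
    have h5 := LinearMap.congr_fun h4 xV
    rw [LinearMap.smul_apply, Module.End.one_apply, LinearMap.zero_apply] at h5
    rcases smul_eq_zero.mp h5 with h0 | h0
    · exact sub_eq_zero.mp h0
    · exact absurd h0 hxV0

end Final

end Fermat.Agent.ES.R48.GeomTwoDim13
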