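/-
Programme R (S48, Deligne–Serre), chapter RAT, brick (19e) (helper19).

Packaging: from the coefficient field `K = ratField N ε a ⊆ ℂ` of a depleted sequence `a`
(finite over `ℚ`, all `a p`, `ε x` algebraic integers) and, for every ring homomorphism
`τ : K →+* ℂ`, a weight-one cusp form `f_τ` with `q`-coefficients `τ (a n)`, to the literal
clauses (RAT-1) and (conj) of the contract `DSIface27.DSContract`, for the CONCRETE data
`K`, `ι = K.val`, `aO`, `eO` defined here (so that the (modlam) half can be stated for them).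
-/
import Mathlib
import Fermat.Agent.ES.R48.DSIface27
import Fermat.Agent.ES.R48.IntegralAp19

set_option autoImplicit false

open CongruenceSubgroup NumberField ModularFormClass
open Fermat.Agent.ES.R48.DSIface27 Fermat.Agent.ES.R48.IntegralAp19

noncomputable section

namespace Fermat.Agent.ES.R48.NumFieldPack19

variable {N : ℕ} (ε : DirichletCharacter ℂ N) (a : ℕ → ℂ)

/-- the coefficient field, as an intermediate field of `ℂ/ℚ`. -/
abbrev KF : IntermediateField ℚ ℂ := ratField N (fun x => ε x) a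

/-- the embedding `K → ℂ`. -/
abbrev iota : KF ε a →+* ℂ := algebraMap (KF ε a) ℂ

theorem isIntegral_mk {K : IntermediateField ℚ ℂ} {z : ℂ} (hz : z ∈ K) (hi : IsIntegral ℤ z) :
    IsIntegral ℤ (⟨z, hz⟩ : K) :=
  (isIntegral_algebraMap_iff (algebraMap K ℂ).injective).mp hi

/-- an algebraic integer of `ℂ` lying in `K`, as an element of `𝓞 K`. -/
def mkO {K : IntermediateField ℚ ℂ} (z : ℂ) (hz : z ∈ K) (hi : IsIntegral ℤ z) : 𝓞 K :=
  ⟨⟨z, hz⟩, isIntegral_mk hz hi⟩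

theorem coe_mkO {K : IntermediateField ℚ ℂ} (z : ℂ) (hz : z ∈ K) (hi : IsIntegral ℤ z) :
    ((mkO z hz hi : 𝓞 K) : K) = ⟨z, hz⟩ := rfl

open scoped Classical in
/-- the algebraic integer `a p` of `K` (`0` if `p` is not a prime `∤ N` or `a p` not integral). -/
def aO (p : ℕ) : 𝓞 (KF ε a) :=
  if h : (p.Prime ∧ ¬ p ∣ N) ∧ IsIntegral ℤ (a p) then
    mkO (a p) (ap_mem_ratField h.1.1 h.1.2) h.2
  else 0

open scoped Classical in
/-- the algebraic integer `ε x` of `K` (`0` if not integral). -/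
def eO (x : ZMod N) : 𝓞 (KF ε a) :=
  if h : IsIntegral ℤ (ε x) then
    mkO (ε x) (eps_mem_ratField (ε := fun x => ε x) x) h
  else 0

theorem coe_aO {p : ℕ} (hp : p.Prime) (hpN : ¬ p ∣ N) (hi : IsIntegral ℤ (a p)) :
    (aO ε a p : KF ε a) = ⟨a p, ap_mem_ratField hp hpN⟩ := by
  unfold aO
  rw [dif_pos ⟨⟨hp, hpN⟩, hi⟩, coe_mkO]

theorem coe_eO (x : ZMod N) (hi : IsIntegral ℤ (ε x)) :
    (eO ε a x : KF ε a) = ⟨ε x, eps_mem_ratField (ε := fun x => ε x) x⟩ := by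
  unfold eO
  rw [dif_pos hi, coe_mkO]

theorem iota_aO {p : ℕ} (hp : p.Prime) (hpN : ¬ p ∣ N) (hi : IsIntegral ℤ (a p)) :
    iota ε a (aO ε a p : KF ε a) = a p := by
  rw [coe_aO ε a hp hpN hi]
  rfl

theorem iota_eO (x : ZMod N) (hi : IsIntegral ℤ (ε x)) :
    iota ε a (eO ε a x : KF ε a) = ε x := by
  rw [coe_eO ε a x hi]
  rfl

/-- the character `ε` with values in `K`. -/
def epsK : DirichletCharacter (KF ε a) N where
  toFun x := ⟨ε x, eps_mem_ratField (ε := fun x => ε x) x⟩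
  map_one' := Subtype.ext (by simp)
  map_mul' x y := Subtype.ext (by simp)
  map_nonunit' x hx := Subtype.ext (by simpa using ε.map_nonunit hx)

theorem epsK_apply (x : ZMod N) :
    epsK ε a x = ⟨ε x, eps_mem_ratField (ε := fun x => ε x) x⟩ := rfl

/-- **(19e)** the clause (conj) of the contract for the concrete data `K`, `aO`, `eO`. -/
theorem conj_clause (ha0 : a 0 = 0) (ha1 : a 1 = 1)
    (hT : SeqHeckeRel N (fun x => ε x) a)
    (hdep : ∀ n : ℕ, ¬ n.Coprime N → a n = 0)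
    (hinta : ∀ p : ℕ, p.Prime → ¬ p ∣ N → IsIntegral ℤ (a p))
    (hinte : ∀ x : ZMod N, IsIntegral ℤ (ε x))
    (hconj : ∀ τ : KF ε a →+* ℂ, ∃ (N' : ℕ) (_ : NeZero N') (fτ : CuspForm (Gamma1 N') 1),
      ∀ n : ℕ, qCoeff fτ n = τ ⟨a n, a_mem_ratField ha0 ha1 hT hdep n⟩)
    (τ : KF ε a →+* ℂ) :
    ∃ (N' : ℕ) (_ : NeZero N') (ε' : DirichletCharacter ℂ N) (f' : CuspForm (Gamma1 N') 1),
      qCoeff f' 1 = 1 ∧ HeckeRel N ε' f' ∧
      (∀ p : ℕ, p.Prime → ¬ p ∣ N → qCoeff f' p = τ (aO ε a p : KF ε a)) ∧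
      ∀ x : ZMod N, ε' x = τ (eO ε a x : KF ε a) := by
  obtain ⟨N', hN', fτ, hfτ⟩ := hconj τ
  refine ⟨N', hN', (epsK ε a).ringHomComp τ, fτ, ?_, ?_, ?_, ?_⟩
  · rw [hfτ 1]
    have : (⟨a 1, a_mem_ratField ha0 ha1 hT hdep 1⟩ : KF ε a) = 1 := Subtype.ext ha1
    rw [this, map_one]
  · intro p hp hpN n
    rw [hfτ (p * n), hfτ p, hfτ n, MulChar.ringHomComp_apply, epsK_apply]
    have hK : (⟨a (p * n), a_mem_ratField ha0 ha1 hT hdep (p * n)⟩ : KF ε a) +
        ⟨ε (p : ZMod N), eps_mem_ratField (ε := fun x => ε x) _⟩ *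
          (if p ∣ n then ⟨a (n / p), a_mem_ratField ha0 ha1 hT hdep (n / p)⟩ else 0) =
        ⟨a p, a_mem_ratField ha0 ha1 hT hdep p⟩ * ⟨a n, a_mem_ratField ha0 ha1 hT hdep n⟩ := by
      apply Subtype.ext
      have h := hT p hp hpN n
      split_ifs with hd
      · rw [if_pos hd] at h
        simpa using h
      · rw [if_neg hd] at h
        simpa using h
    have h2 := congrArg τ hK
    rw [map_add, map_mul, map_mul] at h2
    rw [← h2]
    congr 2
    split_ifs with hd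
    · rw [hfτ (n / p)]
    · rw [map_zero]
  · intro p hp hpN
    rw [hfτ p, coe_aO ε a hp hpN (hinta p hp hpN)]
  · intro x
    rw [MulChar.ringHomComp_apply, epsK_apply, coe_eO ε a x (hinte x)]

/-- **(19e)** the clauses (RAT-1) + (conj) of `DSContract`, with the (modlam) clause for the
concrete `K`, `aO`, `eO` as a hypothesis: the contract for every `a'` agreeing with the depleted
sequence `a` at the primes `p ∤ N`. -/
theorem dsContract_of [NeZero N] (a' : ℕ → ℂ)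
    (haa' : ∀ p : ℕ, p.Prime → ¬ p ∣ N → a p = a' p)
    (ha0 : a 0 = 0) (ha1 : a 1 = 1)
    (hT : SeqHeckeRel N (fun x => ε x) a)
    (hdep : ∀ n : ℕ, ¬ n.Coprime N → a n = 0)
    (hinta : ∀ p : ℕ, p.Prime → ¬ p ∣ N → IsIntegral ℤ (a p))
    (hinte : ∀ x : ZMod N, IsIntegral ℤ (ε x))
    (hfd : FiniteDimensional ℚ (KF ε a))
    (hconj : ∀ τ : KF ε a →+* ℂ, ∃ (N' : ℕ) (_ : NeZero N') (fτ : CuspForm (Gamma1 N') 1),
      ∀ n : ℕ, qCoeff fτ n = τ ⟨a n, a_mem_ratField ha0 ha1 hT hdep n⟩)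
    (hmodlam : ∃ S₀ : Finset ℕ, ∀ ℓ : ℕ, ℓ.Prime → ℓ ∉ S₀ → ∀ φ : 𝓞 (KF ε a) →+* ZMod ℓ,
      ∃ ρb : GQ →* GL (Fin 2) (ZMod ℓ),
        GaloisFactorsThroughFiniteLevel ρb ∧ IsSemisimple2 ρb ∧
        FrobData (N * ℓ) ρb (fun p => φ (aO ε a p)) (fun p => φ (eO ε a (p : ZMod N)))) :
    DSContract N ε a' := by
  have : NumberField (KF ε a) := { to_finiteDimensional := hfd }
  refine ⟨KF ε a, inferInstance, inferInstance, iota ε a, aO ε a, eO ε a, ?_, ?_, ?_, hmodlam⟩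
  · intro p hp hpN
    rw [iota_aO ε a hp hpN (hinta p hp hpN), haa' p hp hpN]
  · intro x
    exact iota_eO ε a x (hinte x)
  · intro τ
    exact conj_clause ε a ha0 ha1 hT hdep hinta hinte hconj τ

end Fermat.Agent.ES.R48.NumFieldPack19
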