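/-
Programme R (S48, Deligne–Serre), HALF B, INTERFACE FILE (helper12, half-B integrator).

Definitions only: the literal `Prop`s exchanged between the chapters of half B
(`DSIface27.HalfB` : frozen hypotheses ⟹ `DSContract`).

* `EisExport`      (B4 EIS, helper24/helper3)  : `RatIface22.EisData L χ` for every odd primitive `χ`;
* `RatExport`      (RAT, helper22/helper19)     : integrality, finiteness of the coefficient field and
                                                  the conjugate forms, for the `N`-depleted sequence;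
* `EigenLift`      (B5 → GEOM)                  : a mod-`ℓ` eigensystem `(θT, θD)` at level `M` is the
                                                  reduction of the eigensystem of a weight-two cusp
                                                  eigenform on `Γ₁(M)` (helper9's `Tp`, `diamond`);
* `LiftInstExport` (B5, helper25)               : the depleted form times the Eisenstein series, lifted;
* `GeomExport`     (GEOM, helper13)             : `EigenLift M ℓ θT θD` ⟹ a semisimple mod-`ℓ`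
                                                  representation with `FrobData M`;
  `PerExport EO`, `GeomCoreExport EO`           : its two halves (G6 and G0–G5+G7), for ANY intermediate
                                                  predicate `EO` (= helper13's `EigenOccurs`);
* `GlueExport`     (G7, helper20)               : gluing the levels `M₁` (`4 ∣ M₁`) and `M₂` (`9 ∣ M₂`).

The assembly `HalfBFinal12.halfB_of_open_exports :
  RatExport → LiftInstExport → GeomExport → GlueExport → DSIface27.HalfB` is in `HalfBFinal12`.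
-/
import Mathlib
import Fermat.Agent.ES.R48.DSIface27
import Fermat.Agent.ES.R48.RatIface22
import Fermat.Agent.ES.R48.NumFieldPack19
import Fermat.Agent.ES.R48.TpForm9

set_option autoImplicit false

open CongruenceSubgroup NumberField
open scoped MatrixGroups
open ModularFormClass (qCoeff)
open Fermat.Agent.ES.R48.DSIface27

noncomputable section

namespace Fermat.Agent.ES.R48.HalfBIface12

/-- The `N`-depleted coefficient sequence of `f`: `a_n` for `(n, N) = 1`, `0` otherwise. -/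
def dep (N : ℕ) (f : CuspForm (Gamma1 N) 1) (n : ℕ) : ℂ :=
  if n.Coprime N then qCoeff f n else 0

/-- **B4 EIS** (helper24, helper3): the weight-one Eisenstein series of every odd primitive
Dirichlet character. -/
def EisExport : Prop :=
  ∀ (L : ℕ) [NeZero L] (χ : DirichletCharacter ℂ L), χ.Odd → χ.IsPrimitive →
    Nonempty (RatIface22.EisData L χ)

/-- **RAT** (helper22, helper19): for the frozen form, the `a p` (`p ∤ N`) and the `ε x` are
algebraic integers, the coefficient field `K = ℚ(ε x, a p)` of the depleted sequence is finite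
over `ℚ`, and for every `τ : K →+* ℂ` the `τ`-conjugate of the depleted sequence is the
`q`-expansion of a weight-one cusp form (of some level). -/
def RatExport : Prop :=
  ∀ (N : ℕ) [NeZero N] (ε : DirichletCharacter ℂ N) (f : CuspForm (Gamma1 N) 1),
    qCoeff f 1 = 1 → HeckeRel N ε f →
    (∀ p : ℕ, p.Prime → ¬ p ∣ N → IsIntegral ℤ (qCoeff f p)) ∧
    (∀ x : ZMod N, IsIntegral ℤ (ε x)) ∧
    FiniteDimensional ℚ (NumFieldPack19.KF ε (dep N f)) ∧
    ∀ τ : NumFieldPack19.KF ε (dep N f) →+* ℂ,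
      ∃ (N' : ℕ) (_ : NeZero N') (fτ : CuspForm (Gamma1 N') 1),
        ∀ (n : ℕ) (z : NumFieldPack19.KF ε (dep N f)), (z : ℂ) = dep N f n → qCoeff fτ n = τ z

/-- **The B5 → GEOM interface.**  The mod-`ℓ` eigensystem `(θT, θD)` at level `M` lifts to
characteristic zero: there are a non-zero weight-two cusp form `g` on `Γ₁(M)`, a subring `R ⊆ ℂ`
and a ring homomorphism `φ' : R → 𝔽_ℓ` such that `g` is an eigenvector of helper9's TRUE Hecke
operators `T_p` (`p ∤ M`) and diamond operators `⟨d⟩` (`⟨d⟩ g = g ∣₂ γ`, `γ ∈ Γ₀(M)` with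
lower-right entry `≡ d`), with eigenvalues in `R` reducing to `θT p`, `θD d`. -/
def EigenLift (M ℓ : ℕ) [NeZero M] (θT : ℕ → ZMod ℓ) (θD : (ZMod M)ˣ →* (ZMod ℓ)ˣ) : Prop :=
  ∃ (R : Subring ℂ) (φ' : R →+* ZMod ℓ) (g : CuspForm (Gamma1 M) 2), g ≠ 0 ∧
    (∀ (p : ℕ) (hp : p.Prime) (hpM : ¬ p ∣ M), ∃ b : R,
      TpForm9.Tp 2 hp hpM g = (b : ℂ) • g ∧ φ' b = θT p) ∧
    (∀ d : (ZMod M)ˣ, ∃ c : R,
      Gamma1Slash9.diamond 2 d g = (c : ℂ) • g ∧ φ' c = ((θD d : (ZMod ℓ)ˣ) : ZMod ℓ))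

/-- The determinant function attached to `θD`: `p ↦ p · θD(p)` (junk value `0` at `p ∣ M`). -/
def detOf (M ℓ : ℕ) (θD : (ZMod M)ˣ →* (ZMod ℓ)ˣ) (p : ℕ) : ZMod ℓ :=
  if h : p.Coprime M then (p : ZMod ℓ) * ((θD (ZMod.unitOfCoprime p h) : (ZMod ℓ)ˣ) : ZMod ℓ) else 0

/-- **B5 LIFT-INST** (helper25): a weight-one cusp form `fd` on `Γ₁(M)` with nebentypus `ε` mod `N`
(`N ∣ M`), `a₁ = 1`, satisfying the formal Hecke relations at the primes `p ∤ N`, with coefficients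
and character values in a subring `𝒪₀ ⊆ ℂ`, and a reduction `φ₀ : 𝒪₀ → 𝔽_ℓ` (`ℓ ≥ 5`, `ℓ ∤ M`).
Then at EVERY level `M'` divisible by `M` and `ℓ` the mod-`ℓ` eigensystem
`θT p = φ₀ (a_p)`, `θD d = φ₀ (ε d) · d⁻¹` (nebentypus `ε ω⁻¹`) lifts to characteristic zero. -/
def LiftInstExport : Prop :=
  ∀ (N : ℕ) [NeZero N] (ε : DirichletCharacter ℂ N) (M : ℕ) [NeZero M]
    (fd : CuspForm (Gamma1 M) 1),
    N ∣ M → RatIface22.HasNeben M ε 1 fd → qCoeff fd 1 = 1 →
    IntegralAp19.SeqHeckeRel N (fun x => ε x) (fun n => qCoeff fd n) →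
    ∀ (ℓ : ℕ), ℓ.Prime → 5 ≤ ℓ → ¬ ℓ ∣ M →
    ∀ (𝒪₀ : Subring ℂ) (φ₀ : 𝒪₀ →+* ZMod ℓ),
      (∀ n : ℕ, qCoeff fd n ∈ 𝒪₀) → (∀ x : ZMod N, ε x ∈ 𝒪₀) →
    ∀ (M' : ℕ) [NeZero M'], M ∣ M' → ℓ ∣ M' →
    ∃ (θT : ℕ → ZMod ℓ) (θD : (ZMod M')ˣ →* (ZMod ℓ)ˣ),
      (∀ p : ℕ, p.Prime → ¬ p ∣ M' → ∀ h : qCoeff fd p ∈ 𝒪₀, θT p = φ₀ ⟨qCoeff fd p, h⟩) ∧
      (∀ (d : (ZMod M')ˣ) (h : ε (ZMod.cast (d : ZMod M') : ZMod N) ∈ 𝒪₀),
        ((θD d : (ZMod ℓ)ˣ) : ZMod ℓ) * (ZMod.cast (d : ZMod M') : ZMod ℓ) =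
          φ₀ ⟨ε (ZMod.cast (d : ZMod M') : ZMod N), h⟩) ∧
      EigenLift M' ℓ θT θD

/-- **GEOM** (helper13; G0–G7 without the gluing): at a level `M` with `ℓ ∣ M` and
`4 ∣ M ∨ 9 ∣ M`, an eigensystem which lifts to characteristic zero carries a semisimple mod-`ℓ`
representation of finite level, unramified outside `M`, with `tr Frob_p = θT p` and
`det Frob_p = p · θD p`. -/
def GeomExport : Prop :=
  ∀ (M ℓ : ℕ) [NeZero M], ℓ.Prime → 5 ≤ ℓ → ℓ ∣ M → (4 ∣ M ∨ 9 ∣ M) →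
    ∀ (θT : ℕ → ZMod ℓ) (θD : (ZMod M)ˣ →* (ZMod ℓ)ˣ), EigenLift M ℓ θT θD →
      ∃ ρb : GQ →* GL (Fin 2) (ZMod ℓ),
        GaloisFactorsThroughFiniteLevel ρb ∧ IsSemisimple2 ρb ∧ FrobData M ρb θT (detOf M ℓ θD)

/-- **G6 PER₁** (helper9): an eigensystem which lifts to characteristic zero occurs in `Λ/ℓΛ`
(`EO` = helper13's `EigenOccurs`). -/
def PerExport (EO : ∀ M ℓ : ℕ, (ℕ → ZMod ℓ) → ((ZMod M)ˣ →* (ZMod ℓ)ˣ) → Prop) : Prop :=
  ∀ (M ℓ : ℕ) [NeZero M], ℓ.Prime → 5 ≤ ℓ → ℓ ∣ M →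
    ∀ (θT : ℕ → ZMod ℓ) (θD : (ZMod M)ˣ →* (ZMod ℓ)ˣ), EigenLift M ℓ θT θD → EO M ℓ θT θD

/-- **GEOM core** (helper13's `exists_rhobar`): an eigensystem occurring in `Λ/ℓΛ` carries the
representation. -/
def GeomCoreExport (EO : ∀ M ℓ : ℕ, (ℕ → ZMod ℓ) → ((ZMod M)ˣ →* (ZMod ℓ)ˣ) → Prop) : Prop :=
  ∀ (M ℓ : ℕ) [NeZero M], ℓ.Prime → 5 ≤ ℓ → ℓ ∣ M → (4 ∣ M ∨ 9 ∣ M) →
    ∀ (θT : ℕ → ZMod ℓ) (θD : (ZMod M)ˣ →* (ZMod ℓ)ˣ), EO M ℓ θT θD →
      ∃ ρb : GQ →* GL (Fin 2) (ZMod ℓ),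
        GaloisFactorsThroughFiniteLevel ρb ∧ IsSemisimple2 ρb ∧ FrobData M ρb θT (detOf M ℓ θD)

/-- **G7 GLUE** (helper20): two semisimple mod-`ℓ` representations of finite level with the same
Frobenius data `(t, d)` outside `M₁` resp. `M₂`: the first one also has the Frobenius data
outside `M₂` (Chebotarev + Brauer–Nesbitt in dimension two). -/
def GlueExport : Prop :=
  ∀ (ℓ : ℕ), ℓ.Prime → ℓ ≠ 2 → ∀ (M₁ M₂ : ℕ), M₁ ≠ 0 → M₂ ≠ 0 →
    ∀ (ρ₁ ρ₂ : GQ →* GL (Fin 2) (ZMod ℓ)) (t d : ℕ → ZMod ℓ),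
      GaloisFactorsThroughFiniteLevel ρ₁ → IsSemisimple2 ρ₁ → FrobData M₁ ρ₁ t d →
      GaloisFactorsThroughFiniteLevel ρ₂ → IsSemisimple2 ρ₂ → FrobData M₂ ρ₂ t d →
      FrobData M₂ ρ₁ t d

end Fermat.Agent.ES.R48.HalfBIface12
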