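/-
Programme R (S48, Deligne–Serre), chapter G6 PER₁, file 1 (helper21): the period map of weight-2
cusp forms on a finite index subgroup `Γ ≤ SL(2, ℤ)` (in particular `Γ = Γ₁(M)`).

Twin of `S21/PeriodPrim`, `S21/Parabolic`, `S21/PeriodInj` (one-form case) with `Γ₀(N)` replaced by
`Γ`.  Reused AS-IS from main: `S21.PeriodPrim.Fp` (the primitive vanishing at `i∞`, level-free),
`S22.expDecay_slash_SL` (arithmetic subgroups), `S21.Parabolic.exists_conj_c_eq_zero`,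
`S21.MaxPrinciple7.eq_const_of_norm_invariant` (generic finite index form).

* `Fp_isEquivariantPrimitive`, `Fp_cusp_limit`, `Fp_periodic`;
* `per Γ f : Additive Γ →+ ℂ`, `per_apply : per Γ f γ = Fp f (γ • z) - Fp f z`;
* `perLin Γ : CuspForm Γ 2 →ₗ[ℂ] (Additive Γ →+ ℂ)`, `per_mem_parabolicHoms`,
  `perPar Γ : CuspForm Γ 2 →ₗ[ℂ] parabolicHoms ℂ Γ ℂ`;
* `perLin_injective`, `perPar_injective`;
* `eq_Fp_add_const` : any primitive of `f` on `ℍ` is `Fp f + c`.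
-/
import Mathlib
import Fermat.Prelude.Def_ModularCurve_PeriodMap
import Fermat.Agent.S21.PeriodPrim
import Fermat.Agent.S21.Parabolic
import Fermat.Agent.S21.MaxPrinciple7

set_option autoImplicit false

namespace Fermat.Agent.ES.R48.Per1Prim21

open UpperHalfPlane hiding I
open Complex Filter Topology CongruenceSubgroup Asymptotics
open scoped Manifold ModularForm MatrixGroups
open Fermat.Agent.S22 Fermat.Agent.S21.PeriodPrim Matrix.SpecialLinearGroup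
open ModularCurve.Period

variable (Γ : Subgroup SL(2, ℤ)) [Γ.FiniteIndex]

/-! ### Cusp forms of weight 2 on `Γ` -/

section cusp

variable {Γ}

omit [Γ.FiniteIndex] in
theorem cusp_mdiff (f : CuspForm (Γ.map (mapGL ℝ)) 2) : MDiff (f : ℍ → ℂ) := CuspFormClass.holo f

theorem cusp_decay (f : CuspForm (Γ.map (mapGL ℝ)) 2) :
    ∃ a > 0, (f : ℍ → ℂ) =O[atImInfty] fun τ => Real.exp (-a * τ.im) :=
  CuspFormClass.exp_decay_atImInfty' f

theorem cusp_slash_decay (f : CuspForm (Γ.map (mapGL ℝ)) 2) (δ : SL(2, ℤ)) :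
    ∃ a > 0, ((f : ℍ → ℂ) ∣[(2 : ℤ)] (mapGL ℝ δ)) =O[atImInfty] fun τ => Real.exp (-a * τ.im) := by
  obtain ⟨a, ha, h⟩ := expDecay_slash_SL f δ
  exact ⟨a, ha, h⟩

omit [Γ.FiniteIndex] in
theorem cusp_slash_eq (f : CuspForm (Γ.map (mapGL ℝ)) 2) (γ : Γ) :
    (f : ℍ → ℂ) ∣[(2 : ℤ)] (mapGL ℝ (γ : SL(2, ℤ))) = f :=
  SlashInvariantForm.slash_action_eqn f _ (Subgroup.mem_map_of_mem _ γ.2)

/-- `Fp f` transforms under `γ ∈ Γ` by an additive constant. -/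
theorem Fp_isEquivariantPrimitive (f : CuspForm (Γ.map (mapGL ℝ)) 2) :
    IsEquivariantPrimitive Γ (Fp f) := by
  intro γ
  obtain ⟨a, ha, hfd⟩ := cusp_decay f
  obtain ⟨c, hc⟩ := Fp_smul_sub_const ha ha (cusp_mdiff f) hfd (mapGL ℝ (γ : SL(2, ℤ)))
    (det_mapGL_pos _) (by rw [cusp_slash_eq]; exact hfd)
  refine ⟨c, fun z => ?_⟩
  have := hc z
  rw [cusp_slash_eq] at this
  exact this

/-- Limits at all cusps. -/
theorem Fp_cusp_limit (f : CuspForm (Γ.map (mapGL ℝ)) 2) (δ : SL(2, ℤ)) :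
    ∃ L : ℂ, Tendsto (fun w : ℍ => Fp f (δ • w)) atImInfty (𝓝 L) := by
  obtain ⟨a, ha, hfd⟩ := cusp_decay f
  obtain ⟨b, hb, hgd⟩ := cusp_slash_decay f δ
  obtain ⟨c, hc⟩ := Fp_smul_sub_const ha hb (cusp_mdiff f) hfd (mapGL ℝ δ)
    (det_mapGL_pos _) hgd
  refine ⟨c, ?_⟩
  have h0 := tendsto_Fp hb ((cusp_mdiff f).slash _ _) hgd
  have h1 : Tendsto (fun w : ℍ => c + Fp ((f : ℍ → ℂ) ∣[(2 : ℤ)] (mapGL ℝ δ)) w) atImInfty
      (𝓝 (c + 0)) := tendsto_const_nhds.add h0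
  rw [add_zero] at h1
  refine h1.congr fun w => ?_
  have := hc w
  have e : (mapGL ℝ δ : GL (Fin 2) ℝ) • w = δ • w := rfl
  rw [e] at this
  rw [← this]; ring

theorem hasDerivAt_Fp_cusp (f : CuspForm (Γ.map (mapGL ℝ)) 2) (z : ℍ) :
    HasDerivAt (Fp f ∘ ofComplex) (f z) (z : ℂ) := by
  obtain ⟨a, ha, hfd⟩ := cusp_decay f
  exact hasDerivAt_Fp ha (cusp_mdiff f) hfd z

theorem tendsto_Fp_cusp (f : CuspForm (Γ.map (mapGL ℝ)) 2) :
    Tendsto (Fp f) atImInfty (𝓝 0) := by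
  obtain ⟨a, ha, hfd⟩ := cusp_decay f
  exact tendsto_Fp ha (cusp_mdiff f) hfd

theorem mdiff_Fp_cusp (f : CuspForm (Γ.map (mapGL ℝ)) 2) : MDiff (Fp f) := by
  rw [UpperHalfPlane.mdifferentiable_iff]
  intro w hw
  exact (hasDerivAt_Fp_cusp f ⟨w, hw⟩).differentiableAt.differentiableWithinAt

/-- Any primitive of `f` on `ℍ` is `Fp f` up to an additive constant. -/
theorem eq_Fp_add_const (f : CuspForm (Γ.map (mapGL ℝ)) 2) {F : ℍ → ℂ}
    (hF : ∀ z : ℍ, HasDerivAt (F ∘ ofComplex) (f z) (z : ℂ)) :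
    ∃ c : ℂ, ∀ z : ℍ, F z = Fp f z + c := by
  set H : ℂ → ℂ := fun w => F (ofComplex w) - Fp f (ofComplex w) with hH
  have hder : ∀ w ∈ upperHalfPlaneSet, HasDerivAt H 0 w := by
    intro w hw
    have h1 := hF ⟨w, hw⟩
    have h2 := hasDerivAt_Fp_cusp f ⟨w, hw⟩
    have := h1.sub h2
    rw [sub_self] at this
    exact this
  obtain ⟨c, hc⟩ := isOpen_upperHalfPlaneSet.exists_is_const_of_deriv_eq_zero
    (convex_halfSpace_im_gt 0).isPreconnected
    (fun w hw => (hder w hw).differentiableAt.differentiableWithinAt)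
    (fun w hw => (hder w hw).deriv)
  refine ⟨c, fun z => ?_⟩
  have := hc (z : ℂ) z.im_pos
  simp only [hH, ofComplex_apply] at this
  linear_combination this

end cusp

/-! ### The period homomorphism -/

/-- The period homomorphism `γ ↦ Fp f (γ z) - Fp f z` of a weight-2 cusp form on `Γ`. -/
noncomputable def per (f : CuspForm (Γ.map (mapGL ℝ)) 2) : Additive Γ →+ ℂ :=
  (Fp_isEquivariantPrimitive f).periodHom

variable {Γ}

theorem per_apply (f : CuspForm (Γ.map (mapGL ℝ)) 2) (γ : Γ) (z : ℍ) :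
    per Γ f (Additive.ofMul γ) = Fp f ((γ : SL(2, ℤ)) • z) - Fp f z := by
  rw [per, IsEquivariantPrimitive.periodHom_apply,
    ← IsEquivariantPrimitive.sub_eq_period _ γ z]

theorem per_add (f g : CuspForm (Γ.map (mapGL ℝ)) 2) : per Γ (f + g) = per Γ f + per Γ g := by
  obtain ⟨a, ha, hfd⟩ := cusp_decay f
  obtain ⟨b, hb, hgd⟩ := cusp_decay g
  refine AddMonoidHom.ext fun γ => ?_
  obtain ⟨γ, rfl⟩ := Additive.ofMul.surjective γ
  rw [AddMonoidHom.add_apply, per_apply _ γ UpperHalfPlane.I, per_apply _ γ UpperHalfPlane.I,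
    per_apply _ γ UpperHalfPlane.I]
  have e : ((f + g : CuspForm (Γ.map (mapGL ℝ)) 2) : ℍ → ℂ) = (f : ℍ → ℂ) + (g : ℍ → ℂ) := rfl
  rw [e, Fp_add ha hb (cusp_mdiff f) (cusp_mdiff g) hfd hgd,
    Fp_add ha hb (cusp_mdiff f) (cusp_mdiff g) hfd hgd]
  ring

theorem per_smul (c : ℂ) (f : CuspForm (Γ.map (mapGL ℝ)) 2) : per Γ (c • f) = c • per Γ f := by
  refine AddMonoidHom.ext fun γ => ?_
  obtain ⟨γ, rfl⟩ := Additive.ofMul.surjective γ
  rw [AddMonoidHom.smul_apply, per_apply _ γ UpperHalfPlane.I, per_apply _ γ UpperHalfPlane.I]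
  have e : ((c • f : CuspForm (Γ.map (mapGL ℝ)) 2) : ℍ → ℂ) = c • (f : ℍ → ℂ) := rfl
  rw [e, Fp_smul, Fp_smul, smul_eq_mul]
  ring

variable (Γ)

/-- The period map as a linear map. -/
noncomputable def perLin : CuspForm (Γ.map (mapGL ℝ)) 2 →ₗ[ℂ] (Additive Γ →+ ℂ) where
  toFun f := per Γ f
  map_add' := per_add
  map_smul' c f := by simpa using per_smul c f

variable {Γ}

@[simp] theorem perLin_apply (f : CuspForm (Γ.map (mapGL ℝ)) 2) : perLin Γ f = per Γ f := rfl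

/-! ### Periods of parabolic elements vanish -/

theorem per_eq_zero_of_trace (f : CuspForm (Γ.map (mapGL ℝ)) 2) (γ : Γ)
    (h : ((γ : SL(2, ℤ)) : Matrix (Fin 2) (Fin 2) ℤ).trace ^ 2 = 4) :
    per Γ f (Additive.ofMul γ) = 0 := by
  obtain ⟨δ, hδ⟩ := Fermat.Agent.S21.Parabolic.exists_conj_c_eq_zero (γ : SL(2, ℤ)) h
  obtain ⟨L, hL⟩ := Fp_cusp_limit f δ
  have hg := Fermat.Agent.S21.Parabolic.tendsto_SL_smul_atImInfty hδ
  have h1 : Tendsto (fun w : ℍ => Fp f (δ • ((δ⁻¹ * (γ : SL(2, ℤ)) * δ) • w))) atImInfty (𝓝 L) :=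
    hL.comp hg
  have h2 : ∀ w : ℍ, Fp f (δ • ((δ⁻¹ * (γ : SL(2, ℤ)) * δ) • w)) - Fp f (δ • w)
      = per Γ f (Additive.ofMul γ) := by
    intro w
    rw [per_apply f γ (δ • w)]
    congr 2
    rw [← mul_smul, ← mul_smul]
    congr 1
    group
  have h3 : Tendsto (fun w : ℍ => Fp f (δ • ((δ⁻¹ * (γ : SL(2, ℤ)) * δ) • w)) - Fp f (δ • w))
      atImInfty (𝓝 (L - L)) := h1.sub hL
  simp only [h2, sub_self] at h3
  exact tendsto_nhds_unique tendsto_const_nhds h3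

/-- The period homomorphism of a cusp form kills all elements of trace `±2`. -/
theorem per_mem_parabolicHoms (f : CuspForm (Γ.map (mapGL ℝ)) 2) :
    per Γ f ∈ parabolicHoms ℂ Γ ℂ := by
  rw [mem_parabolicHoms_iff]
  intro γ hγ
  exact per_eq_zero_of_trace f γ hγ

variable (Γ)

/-- The period map into the parabolic homomorphisms. -/
noncomputable def perPar : CuspForm (Γ.map (mapGL ℝ)) 2 →ₗ[ℂ] parabolicHoms ℂ Γ ℂ :=
  (perLin Γ).codRestrict (parabolicHoms ℂ Γ ℂ) per_mem_parabolicHoms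

variable {Γ}

@[simp] theorem coe_perPar (f : CuspForm (Γ.map (mapGL ℝ)) 2) :
    ((perPar Γ f : parabolicHoms ℂ Γ ℂ) : Additive Γ →+ ℂ) = per Γ f := rfl

/-! ### Periodicity at the cusps -/

theorem conj_T_pow_trace (n : ℤ) (δ : SL(2, ℤ)) :
    ((δ * ModularGroup.T ^ n * δ⁻¹ : SL(2, ℤ)) : Matrix (Fin 2) (Fin 2) ℤ).trace ^ 2 = 4 := by
  have : ((δ * ModularGroup.T ^ n * δ⁻¹ : SL(2, ℤ)) : Matrix (Fin 2) (Fin 2) ℤ).trace = 2 := by
    rw [Matrix.SpecialLinearGroup.coe_mul, Matrix.SpecialLinearGroup.coe_mul,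
      Matrix.trace_mul_cycle, ← Matrix.SpecialLinearGroup.coe_mul, inv_mul_cancel,
      Matrix.SpecialLinearGroup.coe_one, one_mul, ModularGroup.coe_T_zpow, Matrix.trace_fin_two_of]
    norm_num
  rw [this]; norm_num

variable (Γ)

/-- A common width: `δ T^h δ⁻¹ ∈ Γ` for all `δ`. -/
theorem exists_width : ∃ h : ℕ, 0 < h ∧ ∀ δ : SL(2, ℤ),
    δ * ModularGroup.T ^ (h : ℤ) * δ⁻¹ ∈ Γ := by
  have hfi : Γ.normalCore.FiniteIndex := Subgroup.finiteIndex_normalCore Γ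
  refine ⟨Γ.normalCore.index, Nat.pos_of_ne_zero hfi.index_ne_zero, fun δ => ?_⟩
  have h1 : ModularGroup.T ^ (Γ.normalCore.index : ℤ) ∈ Γ.normalCore := by
    rw [zpow_natCast]
    exact Subgroup.pow_index_mem _ _
  exact Subgroup.normalCore_le Γ (Γ.normalCore_normal.conj_mem _ h1 δ)

variable {Γ}

theorem Fp_periodic (f : CuspForm (Γ.map (mapGL ℝ)) 2) {h : ℕ}
    (hh : ∀ δ : SL(2, ℤ), δ * ModularGroup.T ^ (h : ℤ) * δ⁻¹ ∈ Γ) (δ : SL(2, ℤ)) (w : ℍ) :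
    Fp f (δ • ((h : ℝ) +ᵥ w)) = Fp f (δ • w) := by
  set γ : Γ := ⟨δ * ModularGroup.T ^ (h : ℤ) * δ⁻¹, hh δ⟩ with hγ
  have h1 := per_apply f γ (δ • w)
  have h2 : per Γ f (Additive.ofMul γ) = 0 := per_eq_zero_of_trace f γ (conj_T_pow_trace _ δ)
  have h3 : ((γ : Γ) : SL(2, ℤ)) • (δ • w) = δ • ((h : ℝ) +ᵥ w) := by
    show (δ * ModularGroup.T ^ (h : ℤ) * δ⁻¹) • (δ • w) = _
    rw [mul_smul, inv_smul_smul, mul_smul, modular_T_zpow_smul]
    simp
  rw [h2, h3] at h1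
  exact (sub_eq_zero.mp h1.symm)

/-! ### Injectivity -/

theorem perLin_injective : Function.Injective (perLin Γ) := by
  rw [injective_iff_map_eq_zero]
  intro f h0
  have hinv : ∀ γ ∈ Γ, ∀ z : ℍ, Fp f (γ • z) = Fp f z := by
    intro γ hγ z
    have h1 := per_apply f ⟨γ, hγ⟩ z
    have h2 : per Γ f (Additive.ofMul (⟨γ, hγ⟩ : Γ)) = 0 := by
      have := congrArg (fun φ : Additive Γ →+ ℂ => φ (Additive.ofMul (⟨γ, hγ⟩ : Γ))) h0
      simpa using this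
    rw [h2] at h1
    exact sub_eq_zero.mp h1.symm
  obtain ⟨h, hpos, hh⟩ := exists_width Γ
  obtain ⟨c, hc⟩ := Fermat.Agent.S21.MaxPrinciple7.eq_const_of_norm_invariant Γ (mdiff_Fp_cusp f)
    (fun γ hγ z => by rw [hinv γ hγ z])
    (fun δ => ⟨h, hpos, fun w => Fp_periodic f hh δ w⟩)
    (fun δ => by
      obtain ⟨L, hL⟩ := Fp_cusp_limit f δ
      exact hL.isBigO_one ℝ)
  have hzero : ∀ z : ℍ, f z = 0 := by
    intro z
    have h1 := hasDerivAt_Fp_cusp f z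
    have h2 : (Fp f ∘ ofComplex) =ᶠ[𝓝 (z : ℂ)] fun _ => c := by
      filter_upwards [isOpen_upperHalfPlaneSet.mem_nhds z.im_pos] with w _
      exact hc _
    exact (h1.congr_of_eventuallyEq h2.symm).unique (hasDerivAt_const (z : ℂ) c)
  exact DFunLike.ext _ _ hzero

theorem perPar_injective : Function.Injective (perPar Γ) := by
  intro f g h
  apply perLin_injective (Γ := Γ)
  have := congrArg (fun x : parabolicHoms ℂ Γ ℂ => (x : Additive Γ →+ ℂ)) h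
  simpa using this

end Fermat.Agent.ES.R48.Per1Prim21
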