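/-
Programme R (S48, Deligne–Serre), chapter G6 PER₁ (helper9), P6: **the period map of `Γ₁(M)`
intertwines the true Hecke operators with the double-coset operators**:

  `per (T_p f) = dcT hp hpM (per f)`   (`p ∤ M` prime),      `per (⟨d⟩ f) = dcD d (per f)`.

(`per = Per1Prim21.per (Gamma1 M)`, `T_p = TpForm9.Tp 2 hp hpM`, `⟨d⟩ = Gamma1Slash9.diamond 2 d`,
`dcT`, `dcD` of `DcGamma1_9`.)  Twin of main's `ES/HEQ/PeriodHecke1` + `PeriodHeckeDC1`:
with `F = Fp f`, `r_j = 1`, `r_∞ = σ_p`, the function `G z = ∑ᵢ F (rᵢ βᵢ z)` is a primitive of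
`T_p f` (weight 2), and `(rᵢ βᵢ) γ = cocG1 γ i · (r_k β_k)` makes its periods telescope.
-/
import Mathlib
import Fermat.Agent.ES.HEQ.PeriodHecke1
import Fermat.Agent.ES.HEQ.PeriodHeckeDC1
import Fermat.Agent.ES.R48.Per1Prim21
import Fermat.Agent.ES.R48.DcGamma1_9

set_option autoImplicit false

open UpperHalfPlane hiding I
open Complex Filter Topology CongruenceSubgroup ModularCurve.Period ModularForm
open Matrix.SpecialLinearGroup
open scoped MatrixGroups ModularForm Manifold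

noncomputable section

namespace Fermat.Agent.ES.R48.PerHecke9

open Fermat.Agent.S21.PeriodPrim
open Fermat.Agent.ES.HEQ.DoubleCoset27 Fermat.Agent.ES.HEQ.PeriodHecke1
open Fermat.Agent.ES.HEQ.PeriodHeckeDC1
open Fermat.Agent.ES.R48.Gamma1Slash9 Fermat.Agent.ES.R48.TpForm9
open Fermat.Agent.ES.R48.Per1Prim21 Fermat.Agent.ES.R48.DcGamma1_9

variable {M : ℕ} [NeZero M]

/-- `Fp f (g • w) = Fp (f ∣₂ g) w + c` for `g ∈ Γ₀(M)`. -/
theorem Fp_slashG0 (f : CuspForm (Gamma1 M) 2) (g : SL(2, ℤ)) (hg : g ∈ Gamma0 M) :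
    ∃ c : ℂ, ∀ w : ℍ, Fp f (g • w) = Fp (slashG0 g hg f) w + c := by
  obtain ⟨a, ha, hfd⟩ := Per1Prim21.cusp_decay (Γ := Gamma1 M) f
  obtain ⟨b, hb, hgd⟩ := Per1Prim21.cusp_decay (Γ := Gamma1 M) (slashG0 g hg f)
  have e : (⇑f ∣[(2 : ℤ)] (mapGL ℝ g)) = ⇑(slashG0 g hg f) := by
    rw [coe_slashG0]; rfl
  obtain ⟨c, hc⟩ := Fp_smul_sub_const ha hb (Per1Prim21.cusp_mdiff (Γ := Gamma1 M) f) hfd
    (mapGL ℝ g) (det_mapGL_pos _) (by rw [e]; exact hgd)
  refine ⟨c, fun w => ?_⟩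
  have h := hc w
  rw [e] at h
  have e2 : (mapGL ℝ g : GL (Fin 2) ℝ) • w = g • w := rfl
  rw [e2] at h
  linear_combination h

/-- **The period map intertwines `⟨d⟩` with `dcD d`.** -/
theorem per_diamond (d : (ZMod M)ˣ) (f : CuspForm (Gamma1 M) 2) :
    per (Gamma1 M) (diamond 2 d f) = dcD d (per (Gamma1 M) f) := by
  refine AddMonoidHom.ext fun γ' => ?_
  obtain ⟨γ, rfl⟩ := Additive.ofMul.surjective γ'
  obtain ⟨c, hc⟩ := Fp_slashG0 f (diamondRep M d) (diamondRep_mem d)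
  rw [dcD_apply, per_apply _ γ UpperHalfPlane.I,
    per_apply f (conjG1 (diamondRep M d) (diamondRep_mem d) γ) (diamondRep M d • UpperHalfPlane.I)]
  have e : ((conjG1 (diamondRep M d) (diamondRep_mem d) γ : Gamma1 M) : SL(2, ℤ))
      • (diamondRep M d • UpperHalfPlane.I) = diamondRep M d • ((γ : SL(2, ℤ)) • UpperHalfPlane.I) := by
    rw [coe_conjG1, mul_smul, mul_smul, inv_smul_smul]
  rw [e, hc, hc]
  show Fp (slashG0 (diamondRep M d) (diamondRep_mem d) f) _ - Fp (slashG0 _ _ f) _ = _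
  ring

variable {p : ℕ} (hp : p.Prime) (hpM : ¬ p ∣ M)

/-- the forms `f ∣₂ r_i`: `f` at the finite places, `⟨p⟩ f` at `∞`. -/
def twist (f : CuspForm (Gamma1 M) 2) (i : Option (ZMod p)) : CuspForm (Gamma1 M) 2 :=
  slashG0 (rep (sigmaP hp hpM) i) (rep_mem (sigmaP_mem hp hpM) i) f

theorem twist_some (f : CuspForm (Gamma1 M) 2) (j : ZMod p) : twist hp hpM f (some j) = f :=
  DFunLike.coe_injective <| by
    rw [twist, coe_slashG0, rep_some, SlashAction.slash_one]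

theorem twist_none (f : CuspForm (Gamma1 M) 2) :
    twist hp hpM f (none : Option (ZMod p)) = diamond 2 (primeUnit hp hpM) f := rfl

/-- weight-two slash by the representatives, pointwise. -/
theorem slash_glBeta_apply [Fact p.Prime] (g : ℍ → ℂ) (i : Option (ZMod p)) (τ : ℍ) :
    (g ∣[(2 : ℤ)] glBeta p i) τ = aC p i / dC p i * g (glBeta p i • τ) := by
  have hp0 : p ≠ 0 := (Fact.out : p.Prime).ne_zero
  cases i with
  | none =>
    rw [glBeta_none, ModularForm.slash_heckeDiagMatrix_apply 2 hp0]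
    simp [aC, dC]
  | some j =>
    rw [glBeta_some, ModularForm.slash_heckeMatrix_apply 2 hp0]
    simp [aC, dC]

/-- `T_p f` as a sum over the representatives. -/
theorem Tp_apply_eq_sum (f : CuspForm (Gamma1 M) 2) (τ : ℍ) :
    haveI : Fact p.Prime := ⟨hp⟩
    (Tp 2 hp hpM f) τ
      = ∑ i : Option (ZMod p), aC p i / dC p i * (twist hp hpM f i) (glBeta p i • τ) := by
  have : Fact p.Prime := ⟨hp⟩
  have h1 : ⇑(Tp 2 hp hpM f)
      = ∑ i : Option (ZMod p), ⇑(twist hp hpM f i) ∣[(2 : ℤ)] glBeta p i := by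
    rw [coe_Tp, Fintype.sum_option, add_comm, twist_none, glBeta_none]
    congr 1
    rw [P2MW.S_ModularForm_heckeT_slash_eq_self_of_mem_Gamma0.ModularForm.HeckeSlashInvariance.heckeU_eq_sum_zmod]
    refine Finset.sum_congr rfl fun j _ => ?_
    rw [twist_some, glBeta_some]
  rw [h1, Finset.sum_apply]
  exact Finset.sum_congr rfl fun i _ => slash_glBeta_apply _ i τ

/-- **The period map intertwines `T_p` with `dcT`.** -/
theorem per_Tp (f : CuspForm (Gamma1 M) 2) :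
    per (Gamma1 M) (Tp 2 hp hpM f) = dcT hp hpM (per (Gamma1 M) f) := by
  classical
  have : Fact p.Prime := ⟨hp⟩
  refine AddMonoidHom.ext fun γ' => ?_
  obtain ⟨γ, rfl⟩ := Additive.ofMul.surjective γ'
  -- the constants `Fp f (r_i w) = Fp (f ∣ r_i) w + c i`
  have hc : ∀ i : Option (ZMod p), ∃ c : ℂ, ∀ w : ℍ,
      Fp f (rep (sigmaP hp hpM) i • w) = Fp (twist hp hpM f i) w + c := fun i =>
    Fp_slashG0 f _ _
  choose c hc using hc
  -- `G₁` is a primitive of `T_p f`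
  set G : ℍ → ℂ := fun z => ∑ i : Option (ZMod p), Fp (twist hp hpM f i) (glBeta p i • z) with hG
  have hGder : ∀ τ : ℍ, HasDerivAt (G ∘ ofComplex) ((Tp 2 hp hpM f) τ) (τ : ℂ) := by
    intro τ
    rw [Tp_apply_eq_sum hp hpM f τ]
    have h2 : G ∘ ofComplex = fun w : ℂ => ∑ i : Option (ZMod p),
        ((fun z : ℍ => Fp (twist hp hpM f i) (glBeta p i • z)) ∘ ofComplex) w := by
      funext w
      rfl
    rw [h2]
    exact HasDerivAt.fun_sum fun i _ =>
      hasDerivAt_comp_affine (hasDerivAt_Fp_cusp (Γ := Gamma1 M) (twist hp hpM f i))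
        (fun z => glBeta p i • z) (aC p i) (bC p i) (dC p i) (fun z => coe_glBeta_smul i z) τ
  obtain ⟨c₀, hc₀⟩ := eq_Fp_add_const (Γ := Gamma1 M) (Tp 2 hp hpM f) hGder
  -- `G` in terms of `Fp f`
  have hGF : ∀ z : ℍ, G z = ∑ i : Option (ZMod p),
      (Fp f (rep (sigmaP hp hpM) i • glBeta p i • z) - c i) := by
    intro z
    refine Finset.sum_congr rfl fun i _ => ?_
    rw [hc i]; ring
  -- the telescoping
  have hstep : ∀ i : Option (ZMod p),
      Fp f (rep (sigmaP hp hpM) i • glBeta p i • ((γ : SL(2, ℤ)) • UpperHalfPlane.I))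
        = Fp f (rep (sigmaP hp hpM) (permG1 hp γ i) • glBeta p (permG1 hp γ i) • UpperHalfPlane.I)
          + per (Gamma1 M) f (Additive.ofMul (cocG1 hp hpM γ i)) := by
    intro i
    rw [rep_glBeta_smul_G1 hp hpM γ i UpperHalfPlane.I,
      per_apply f (cocG1 hp hpM γ i)
        (rep (sigmaP hp hpM) (permG1 hp γ i) • glBeta p (permG1 hp γ i) • UpperHalfPlane.I)]
    ring
  rw [dcT_apply, per_apply _ γ UpperHalfPlane.I]
  have e1 := hc₀ ((γ : SL(2, ℤ)) • UpperHalfPlane.I)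
  have e2 := hc₀ UpperHalfPlane.I
  rw [hGF] at e1 e2
  have e3 : Fp (Tp 2 hp hpM f) ((γ : SL(2, ℤ)) • UpperHalfPlane.I) - Fp (Tp 2 hp hpM f) UpperHalfPlane.I
      = ∑ i : Option (ZMod p),
          (Fp f (rep (sigmaP hp hpM) i • glBeta p i • ((γ : SL(2, ℤ)) • UpperHalfPlane.I)) - c i)
        - ∑ i : Option (ZMod p),
          (Fp f (rep (sigmaP hp hpM) i • glBeta p i • UpperHalfPlane.I) - c i) := by
    rw [e1, e2]; ring
  rw [e3]
  simp only [hstep, Finset.sum_sub_distrib, Finset.sum_add_distrib]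
  rw [Equiv.sum_comp (permG1 hp γ)
    (fun i => Fp f (rep (sigmaP hp hpM) i • glBeta p i • UpperHalfPlane.I))]
  ring

end Fermat.Agent.ES.R48.PerHecke9
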