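/-
Programme R (S48, Deligne–Serre), chapter G6 PER₁ (helper9), P8b: **the chapter closer.**

A mod-`ℓ` eigensystem `(θT, θD)` at level `M` which lifts to characteristic zero
(`HalfBIface12.EigenLift`: a non-zero weight-two cusp form `g` on `Γ₁(M)`, eigenvector of all `T_p`
(`p ∤ M`) and `⟨d⟩` with eigenvalues in a subring `R ⊆ ℂ` reducing to `θT p`, `θD d` under
`φ' : R →+* ZMod ℓ`) OCCURS in the reduction mod `ℓ` of the integral parabolic cohomology of
`Γ₁(M)` (`PerIface9.EigenOccurs`):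

  `perExport : HalfBIface12.PerExport EO`,
  `EO M ℓ θT θD := ∀ [NeZero M], PerIface9.EigenOccurs M ℓ θT (fun d => (θD d : ZMod ℓ))`.

Proof: `x = per g ≠ 0` (`Per1Prim21.perLin_injective`) is parabolic and a simultaneous eigenvector of
`dcT`, `dcD` over `ℂ` (`PerHecke9.per_Tp`, `per_diamond`); `EigenModPar21.exists_eigen_par` produces
the integral parabolic `v` with `v̄ ≠ 0` and the reduced eigenvalues.
-/
import Mathlib
import Fermat.Agent.S22.CocycleFG
import Fermat.Agent.ES.R48.HalfBIface12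
import Fermat.Agent.ES.R48.EigenModPar21
import Fermat.Agent.ES.R48.PerIface9
import Fermat.Agent.ES.R48.PerHecke9

set_option autoImplicit false

open CongruenceSubgroup ModularCurve.Period
open scoped MatrixGroups

noncomputable section

namespace Fermat.Agent.ES.R48.PerExport9

open Fermat.Agent.ES.R48.Gamma1Slash9 Fermat.Agent.ES.R48.TpForm9
open Fermat.Agent.ES.R48.Per1Prim21 Fermat.Agent.ES.R48.DcGamma1_9
open Fermat.Agent.ES.R48.PerIface9 Fermat.Agent.ES.R48.PerHecke9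

/-- the intermediate predicate of `HalfBIface12.PerExport` / `GeomCoreExport`. -/
def EO (M ℓ : ℕ) (θT : ℕ → ZMod ℓ) (θD : (ZMod M)ˣ →* (ZMod ℓ)ˣ) : Prop :=
  ∀ [NeZero M], EigenOccurs M ℓ θT (fun d => ((θD d : (ZMod ℓ)ˣ) : ZMod ℓ))

variable {M : ℕ} [NeZero M] {ℓ : ℕ} [Fact ℓ.Prime]

/-- **G6, function form**: a non-zero weight-two cusp form on `Γ₁(M)`, eigenvector of all `T_p`
(`p ∤ M`) and all `⟨d⟩` with eigenvalues `b p`, `c d` in a subring `R ⊆ ℂ`, and `φ' : R →+* ZMod ℓ`: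
the eigensystem `(φ' ∘ b, φ' ∘ c)` occurs in `Λ/ℓΛ`. -/
theorem eigenOccurs_of_eigenform (R : Subring ℂ) (φ' : R →+* ZMod ℓ)
    (g : CuspForm (Gamma1 M) 2) (hg : g ≠ 0)
    (b : ∀ p : ℕ, p.Prime → ¬ p ∣ M → R) (c : (ZMod M)ˣ → R)
    (hb : ∀ (p : ℕ) (hp : p.Prime) (hpM : ¬ p ∣ M), Tp 2 hp hpM g = ((b p hp hpM : R) : ℂ) • g)
    (hc : ∀ d : (ZMod M)ˣ, diamond 2 d g = ((c d : R) : ℂ) • g)
    (θT : ℕ → ZMod ℓ) (θD : (ZMod M)ˣ → ZMod ℓ)
    (hθT : ∀ (p : ℕ) (hp : p.Prime) (hpM : ¬ p ∣ M), φ' (b p hp hpM) = θT p)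
    (hθD : ∀ d : (ZMod M)ˣ, φ' (c d) = θD d) :
    EigenOccurs M ℓ θT θD := by
  classical
  -- the index type: the primes `p ∤ M` and the units `d`
  let ι : Type := {p : ℕ // p.Prime ∧ ¬ p ∣ M} ⊕ (ZMod M)ˣ
  let tZ : ι → (Additive (Gamma1 M) →+ ℤ) → (Additive (Gamma1 M) →+ ℤ) := fun α =>
    Sum.casesOn α (fun p => dcT p.2.1 p.2.2) (fun d => dcD d)
  let tC : ι → (Additive (Gamma1 M) →+ ℂ) → (Additive (Gamma1 M) →+ ℂ) := fun α =>
    Sum.casesOn α (fun p => dcT p.2.1 p.2.2) (fun d => dcD d)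
  let tF : ι → (Additive (Gamma1 M) →+ ZMod ℓ) → (Additive (Gamma1 M) →+ ZMod ℓ) := fun α =>
    Sum.casesOn α (fun p => dcT p.2.1 p.2.2) (fun d => dcD d)
  let χ : ι → R := fun α => Sum.casesOn α (fun p => b p.1 p.2.1 p.2.2) (fun d => c d)
  have hx0 : per (Gamma1 M) g ≠ 0 := by
    intro h
    apply hg
    apply perLin_injective (Γ := Gamma1 M)
    rw [perLin_apply, h, map_zero]
  obtain ⟨v, hvpar, hv0, hev⟩ := EigenModPar21.exists_eigen_par (ℓ := ℓ) (Γ := Gamma1 M) (ι := ι)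
    (Fermat.Agent.S22.fg_of_finiteIndex (Gamma1 M)) tZ tC tF
    (by rintro (p | d) u w
        · exact dcT_add p.2.1 p.2.2 u w
        · exact dcD_add d u w)
    (by rintro (p | d) u hu
        · exact isParabolicHom_dcT p.2.1 p.2.2 hu
        · exact isParabolicHom_dcD d hu)
    (by rintro (p | d) u w
        · exact dcT_add p.2.1 p.2.2 u w
        · exact dcD_add d u w)
    (by rintro (p | d) a u
        · exact dcT_smul p.2.1 p.2.2 a u
        · exact dcD_smul a d u)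
    (by rintro (p | d) u
        · exact dcT_comp p.2.1 p.2.2 (Int.castAddHom ℂ) u
        · exact dcD_comp (Int.castAddHom ℂ) d u)
    (by rintro (p | d) u
        · exact dcT_comp p.2.1 p.2.2 (Int.castAddHom (ZMod ℓ)) u
        · exact dcD_comp (Int.castAddHom (ZMod ℓ)) d u)
    R χ φ' (per (Gamma1 M) g) (per_mem_parabolicHoms g) hx0
    (by rintro (p | d)
        · show dcT p.2.1 p.2.2 (per (Gamma1 M) g) = ((b p.1 p.2.1 p.2.2 : R) : ℂ) • per (Gamma1 M) g
          rw [← per_Tp, hb, per_smul]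
        · show dcD d (per (Gamma1 M) g) = ((c d : R) : ℂ) • per (Gamma1 M) g
          rw [← per_diamond, hc, per_smul])
  refine ⟨v, hvpar, hv0, fun p hp hpM => ?_, fun d => ?_⟩
  · have h := hev (Sum.inl ⟨p, hp, hpM⟩)
    rw [← hθT p hp hpM]
    exact h
  · have h := hev (Sum.inr d)
    rw [← hθD d]
    exact h

/-- **G6 PER₁, the export**: `HalfBIface12.PerExport EO`. -/
theorem perExport : HalfBIface12.PerExport EO := by
  intro M ℓ _ hℓ _ _ θT θD hlift
  have : Fact ℓ.Prime := ⟨hℓ⟩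
  obtain ⟨R, φ', g, hg, hT, hD⟩ := hlift
  choose b hb hbθ using hT
  choose c hc hcθ using hD
  intro _
  exact eigenOccurs_of_eigenform R φ' g hg b c hb hc θT _ hbθ hcθ

end Fermat.Agent.ES.R48.PerExport9
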