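/-
Programme R (S48, Deligne–Serre), chapter GEOM (helper13): **the top of the chapter.**

`geomCoreExport : KappaExport → InputsExport → HalfBIface12.GeomCoreExport PerExport9.EO` and
`geomExport : KappaExport → InputsExport → HalfBIface12.GeomExport`,

where the two remaining obligations of GEOM are the literal `Prop`s

* `InputsExport` (G2 + G3 + G4 + G5(A)): `GeomIface13.GeomInputs M ℓ` at every level `M` with
  `ℓ ∣ M`, `4 ∣ M ∨ 9 ∣ M` (six fields: diamonds, open stabilisers, finiteness of `J₁(M)[ℓ]`,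
  unramifiedness, the Eichler–Shimura relation, `T_p` defined over `ℚ`);
* `KappaExport` (G5, KUM₁): the Kummer map transports a joint eigenvector of
  `DcGamma1_9.dcT`, `dcD` in `Λ/ℓΛ` (helper9's `PerIface9.EigenOccurs M ℓ θT θD`) to a joint
  eigenvector of `heckeOne M p`, `diamondOne M e` in `J₁(M)[ℓ]` with the eigensystem
  `(θT/θD, θD⁻¹)` — the orientation is explained in the headers of `JOneOps13`, `GeomIface13`:
  a pull-back compatible `κ` satisfies `κ ∘ dcT p ∘ dcD p⁻¹ = heckeOne M p ∘ κ`,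
  `κ ∘ dcD e⁻¹ = diamondOne M e ∘ κ`.

Everything else is proved: G6 (`PerExport9.perExport`), G7 (`GeomTwoDim13.geomJ`).
-/
import Mathlib
import Fermat.Agent.ES.R48.HalfBIface12
import Fermat.Agent.ES.R48.PerExport9
import Fermat.Agent.ES.R48.GeomTwoDim13

set_option autoImplicit false

noncomputable section

namespace Fermat.Agent.ES.R48.GeomTop13

open GeomIface13 DSIface27

/-- **G2 + G3 + G4 + G5(A)**: the geometric inputs at every admissible level. -/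
def InputsExport : Prop :=
  ∀ (M ℓ : ℕ) [NeZero M], ℓ.Prime → 5 ≤ ℓ → ℓ ∣ M → (4 ∣ M ∨ 9 ∣ M) → GeomInputs M ℓ

/-- **G5 (KUM₁)**: an eigensystem `(θT, θD)` of `(dcT, dcD)` occurring in `Λ/ℓΛ` gives the
eigensystem `(θT/θD, θD⁻¹)` of `(heckeOne, diamondOne)` in `J₁(M)[ℓ]`.  (The hypothesis
`4 ∣ M ∨ 9 ∣ M` is there because `heckeOne M p` is the genuine correspondence only when
`JOneOps13.HeckeOneInputsAlong` holds, which G4 provides at these levels.) -/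
def KappaExport : Prop :=
  ∀ (M ℓ : ℕ) [NeZero M], ℓ.Prime → 5 ≤ ℓ → ℓ ∣ M → (4 ∣ M ∨ 9 ∣ M) →
    ∀ (θT : ℕ → ZMod ℓ) (θD : (ZMod M)ˣ →* (ZMod ℓ)ˣ),
      PerIface9.EigenOccurs M ℓ θT (fun d => ((θD d : (ZMod ℓ)ˣ) : ZMod ℓ)) →
      EigenOccursJ M ℓ (tJOf θT θD) (fun e => (((θD⁻¹) e : (ZMod ℓ)ˣ) : ZMod ℓ))

/-- `HalfBIface12.detOf` and the determinant function of `RhobarTheta` agree at the primes
`p ∤ M`. -/
theorem detOf_eq {M ℓ : ℕ} (θD : (ZMod M)ˣ →* (ZMod ℓ)ˣ) {p : ℕ} (hp : p.Prime) (hpM : ¬ p ∣ M) :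
    HalfBIface12.detOf M ℓ θD p
      = (p : ZMod ℓ) * ((θD (unitNat M p) : (ZMod ℓ)ˣ) : ZMod ℓ) := by
  have h : p.Coprime M := (Nat.Prime.coprime_iff_not_dvd hp).mpr hpM
  rw [HalfBIface12.detOf, dif_pos h, unitNat, dif_pos h]

/-- **GEOM core**: `HalfBIface12.GeomCoreExport` for helper9's predicate `PerExport9.EO`. -/
theorem geomCoreExport (hK : KappaExport) (hI : InputsExport) :
    HalfBIface12.GeomCoreExport PerExport9.EO := by
  intro M ℓ _ hℓ h5 hℓM hbase θT θD hEO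
  have hℓ2 : ℓ ≠ 2 := by omega
  have hocc := hK M ℓ hℓ h5 hℓM hbase θT θD hEO
  have hJ : RhobarJ M ℓ (tJOf θT θD) θD⁻¹ :=
    GeomTwoDim13.geomJ M ℓ hℓ hℓ2 hℓM (hI M ℓ hℓ h5 hℓM hbase) (tJOf θT θD) θD⁻¹ hocc
  obtain ⟨ρb, h1, h2, h3⟩ := rhobarTheta_of_rhobarJ hJ
  refine ⟨ρb, h1, h2, fun p hp hpM A hA => ?_⟩
  obtain ⟨hin, hfr⟩ := h3 p hp hpM A hA
  refine ⟨hin, fun σ hσ => ?_⟩
  obtain ⟨ht, hd⟩ := hfr σ hσ
  exact ⟨ht, hd.trans (detOf_eq θD hp hpM).symm⟩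

/-- **GEOM**: `HalfBIface12.GeomExport`. -/
theorem geomExport (hK : KappaExport) (hI : InputsExport) : HalfBIface12.GeomExport :=
  fun M ℓ _ hℓ h5 hℓM hbase θT θD hlift =>
    geomCoreExport hK hI M ℓ hℓ h5 hℓM hbase θT θD
      (PerExport9.perExport M ℓ hℓ h5 hℓM θT θD hlift)

end Fermat.Agent.ES.R48.GeomTop13
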