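/-
Programme R (S48, Deligne–Serre), chapter GEOM (helper13): **closing `InputsExport`.**

Three of the six fields of `GeomIface13.GeomInputs` are closed here from ONE G2 fact
(`G2GenExport`: `j` is a transcendental generator of `F1bar M`, `3 ≤ M`):

* `diamonds` : helper11's `X1DiamondFinal11.hasDiamonds`;
* `level`    : `OpenStabOne13.hasLevelOne`;
* `comm`     : `HeckeGalOne13.heckeGaloisComm`.

The other three are the literal exports `FiniteExport` (G5(A)) and `G4Export` (G3 → G4):

* `inputsExport : G2GenExport → FiniteExport → G4Export → GeomTop13.InputsExport`;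
* `geomExport   : G2GenExport → FiniteExport → G4Export → GeomTop13.KappaExport →
    HalfBIface12.GeomExport`.
-/
import Mathlib
import Fermat.Agent.ES.R48.X1DiamondFinal11
import Fermat.Agent.ES.R48.OpenStabOne13
import Fermat.Agent.ES.R48.HeckeGalOne13
import Fermat.Agent.ES.R48.GeomTop13

set_option autoImplicit false

noncomputable section

namespace Fermat.Agent.ES.R48.GeomClose13

open GeomIface13 GeomTop13

/-- **G2 (closer)**: `j` is a transcendental generator of `F1bar M / ℚbar`. -/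
def G2GenExport : Prop :=
  ∀ (M : ℕ) [NeZero M], 3 ≤ M →
    Fermat.Agent.X0.FF.IsGen (AlgebraicClosure ℚ) (X1Iface13.jF1 M)

/-- **G5 (A)**: `J₁(M)[ℓ]` is finite. -/
def FiniteExport : Prop :=
  ∀ (M ℓ : ℕ) [NeZero M], ℓ.Prime → 5 ≤ ℓ → ℓ ∣ M → TorsionFinite M ℓ

/-- **G4**: unramifiedness and the Eichler–Shimura relation at the primes `p ∤ M`. -/
def G4Export : Prop :=
  ∀ (M ℓ : ℕ) [NeZero M], ℓ.Prime → 5 ≤ ℓ → ℓ ∣ M → (4 ∣ M ∨ 9 ∣ M) →
    ∀ p : ℕ, p.Prime → ¬ p ∣ M → UnramifiedAt M ℓ p ∧ FrobRelAt M ℓ p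

theorem inputsExport (hG2 : G2GenExport) (hfin : FiniteExport) (hG4 : G4Export) :
    InputsExport := by
  intro M ℓ _ hℓ h5 hℓM hbase
  have hM5 : 5 ≤ M := h5.trans (Nat.le_of_dvd (Nat.pos_of_ne_zero (NeZero.ne M)) hℓM)
  have hj := hG2 M (by omega)
  exact
    { diamonds := X1DiamondFinal11.hasDiamonds M (by omega)
      level := OpenStabOne13.hasLevelOne M hj
      finite := hfin M ℓ hℓ h5 hℓM
      unram := fun p hp hpM => (hG4 M ℓ hℓ h5 hℓM hbase p hp hpM).1
      frob := fun p hp hpM => (hG4 M ℓ hℓ h5 hℓM hbase p hp hpM).2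
      comm := fun p _ _ => HeckeGalOne13.heckeGaloisComm M hj p }

/-- **GEOM**, from the four remaining literal exports. -/
theorem geomExport (hG2 : G2GenExport) (hfin : FiniteExport) (hG4 : G4Export)
    (hK : KappaExport) : HalfBIface12.GeomExport :=
  GeomTop13.geomExport hK (inputsExport hG2 hfin hG4)

end Fermat.Agent.ES.R48.GeomClose13
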