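/-
Programme R (S48, Deligne–Serre), chapter GEOM (helper13): **the top of G4** — the literal export
`GeomClose13.G4Export` from the torsion form of the specialisation contract.

Abstract part (`J` an abelian group with an action of `L ≃ₐ[K] L`, `T D : J →+ J`):

* `SPTors A p m T D` : there is `Φ : J →+ G`, invariant under the inertia group at `A`, killing the
  Eichler–Shimura expressions `σ • σ • D x - T (σ • x) + p • x` of the `m`-torsion points `x`
  (`σ` a Frobenius at `A`), and injective on `J[m]`.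
  (Twin of `SkeletonOne28.SPOne` in the orientation of G4 DECISIONS v2: the diamond sits on the
  `σ²`-term, and (Φ2), (Φ3) are only asked on `J[m]`.)
* `spTors_of_red` : `SPTors` for `Φ := red` from
    `red (τ • x) = red x` (inertia), `red (σ • x) = Fr • red x` (Frobenius),
    `red (T z) = Fr • red (D z) + p • Fr⁻¹ • red z` for `m • z = 0` (Eichler–Shimura on the special
    fibre), `D (σ • x) = σ • D x`, and injectivity of `red` on `J[m]`.
* `inertia_smul_eq_of_spTors`, `frobenius_relation_of_spTors` : `J[m]` is unramified at `A`, and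
  `D (σ • σ • x) - T (σ • x) + p • x = 0` on `J[m]` (needs `D (σ • x) = σ • D x`).

Concrete part: `J = JOne M`, `T = heckeOne M p`, `D = diamondOne M (unitNat M p)`, `m = ℓ`:

* `SPTorsExport` : the literal `Prop` G4 has to deliver;
* **`g4Export : SPTorsExport → GeomClose13.G4Export`**.
-/
import Mathlib
import Fermat.Agent.ES.R48.GeomClose13

set_option autoImplicit false

noncomputable section

namespace Fermat.Agent.ES.R48.G4Close13

/-! ### The abstract contract -/

section Abstract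

variable {K L : Type*} [Field K] [Field L] [Algebra K L]
variable {J : Type*} [AddCommGroup J] [DistribMulAction (L ≃ₐ[K] L) J]

/-- **Contract (SP₁), torsion form**: a homomorphism `Φ : J →+ G` which is invariant under the
inertia group at `A`, kills the Eichler–Shimura expressions `σ • σ • D x - T (σ • x) + p • x` of the
`m`-torsion points (`σ` a Frobenius at `A`), and is injective on `J[m]`. -/
def SPTors (A : ValuationSubring L) (p m : ℕ) (T D : J →+ J) : Prop :=
  ∃ (G : Type) (_ : AddCommGroup G) (Φ : J →+ G),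
    (∀ τ ∈ A.inertiaSubgroupIn K, ∀ x : J, Φ (τ • x) = Φ x) ∧
    (∀ σ : L ≃ₐ[K] L, A.IsFrobeniusAt σ p → ∀ x : J, m • x = 0 →
      Φ (σ • σ • D x - T (σ • x) + p • x) = 0) ∧
    (∀ x : J, m • x = 0 → Φ x = 0 → x = 0)

theorem smul_nsmul_comm (σ : L ≃ₐ[K] L) (m : ℕ) (x : J) : σ • (m • x) = m • (σ • x) :=
  map_nsmul (DistribSMul.toAddMonoidHom J σ) m x

theorem nsmul_smul_eq_zero (σ : L ≃ₐ[K] L) {m : ℕ} {x : J} (hx : m • x = 0) : m • (σ • x) = 0 := by
  rw [← smul_nsmul_comm, hx, smul_zero]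

/-- **(SP₁), torsion form, from a reduction map**: `Fr` an element of a group `S` acting on the
target `G` (`S = SemilinearAut k F̃`, `Fr` the Frobenius of the special fibre). -/
theorem spTors_of_red {G : Type} [AddCommGroup G] {S : Type*} [Group S] [DistribMulAction S G]
    {A : ValuationSubring L} {p m : ℕ} {T D : J →+ J} (red : J →+ G) (Fr : S)
    (hI : ∀ τ ∈ A.inertiaSubgroupIn K, ∀ x : J, red (τ • x) = red x)
    (hFr : ∀ σ : L ≃ₐ[K] L, A.IsFrobeniusAt σ p → ∀ x : J, red (σ • x) = Fr • red x)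
    (hES : ∀ z : J, m • z = 0 → red (T z) = Fr • red (D z) + p • (Fr⁻¹ • red z))
    (hD : ∀ (σ : L ≃ₐ[K] L) (x : J), D (σ • x) = σ • D x)
    (h3 : ∀ x : J, m • x = 0 → red x = 0 → x = 0) :
    SPTors (K := K) A p m T D := by
  refine ⟨G, inferInstance, red, hI, fun σ hσ x hx => ?_, h3⟩
  rw [map_add, map_sub, map_nsmul, hES (σ • x) (nsmul_smul_eq_zero σ hx), hD σ x,
    hFr σ hσ (σ • D x), hFr σ hσ (D x), hFr σ hσ x, inv_smul_smul]
  abel

/-- **`J[m]` is unramified at `A`.** -/
theorem inertia_smul_eq_of_spTors {A : ValuationSubring L} {p m : ℕ} {T D : J →+ J}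
    (h : SPTors (K := K) A p m T D) {x : J} (hx : m • x = 0)
    {τ : L ≃ₐ[K] L} (hτ : τ ∈ A.inertiaSubgroupIn K) : τ • x = x := by
  obtain ⟨G, _, Φ, h1, -, h3⟩ := h
  rw [← sub_eq_zero]
  refine h3 (τ • x - x) ?_ ?_
  · rw [nsmul_sub, nsmul_smul_eq_zero τ hx, hx, sub_self]
  · rw [map_sub, h1 τ hτ x, sub_self]

/-- **The Eichler–Shimura relation with diamond on `J[m]`**:
`D (σ • σ • x) - T (σ • x) + p • x = 0` for a Frobenius `σ` at `A`. -/
theorem frobenius_relation_of_spTors {A : ValuationSubring L} {p m : ℕ} {T D : J →+ J}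
    (h : SPTors (K := K) A p m T D)
    (hD : ∀ (σ : L ≃ₐ[K] L) (x : J), D (σ • x) = σ • D x) {x : J} (hx : m • x = 0)
    {σ : L ≃ₐ[K] L} (hσ : A.IsFrobeniusAt σ p) :
    D (σ • σ • x) - T (σ • x) + p • x = 0 := by
  obtain ⟨G, _, Φ, -, h2, h3⟩ := h
  rw [hD σ (σ • x), hD σ x]
  refine h3 _ ?_ (h2 σ hσ x hx)
  have e0 : m • D x = 0 := by rw [← map_nsmul, hx, map_zero]
  have e1 : m • (σ • x) = 0 := nsmul_smul_eq_zero σ hx
  have e2 : m • (σ • σ • D x) = 0 := nsmul_smul_eq_zero σ (nsmul_smul_eq_zero σ e0)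
  have e3 : m • T (σ • x) = 0 := by rw [← map_nsmul, e1, map_zero]
  have e4 : m • (p • x) = 0 := by rw [smul_comm m p x, hx, smul_zero]
  rw [nsmul_add, nsmul_sub, e2, e3, e4, sub_zero, add_zero]

end Abstract

/-! ### The export of G4 -/

open GeomIface13 GeomClose13 JOneOps13 FF1Defs13 DSIface27

/-- **what G4 delivers**: the torsion contract at every admissible level `M` (`ℓ ∣ M`,
`4 ∣ M ∨ 9 ∣ M`), every prime `p ∤ M` and every valuation ring of `ℚbar` over `p`, for
`T = heckeOne M p`, `D = diamondOne M (unitNat M p)` and `m = ℓ`. -/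
def SPTorsExport : Prop :=
  ∀ (M ℓ : ℕ) [NeZero M], ℓ.Prime → 5 ≤ ℓ → ℓ ∣ M → (4 ∣ M ∨ 9 ∣ M) →
    ∀ p : ℕ, p.Prime → ¬ p ∣ M →
      ∀ A : ValuationSubring (AlgebraicClosure ℚ), A.LiesOverPrime p →
        SPTors (K := ℚ) A p ℓ (heckeOne M p) (diamondOne M (unitNat M p))

theorem unramifiedAt_of_spTors {M ℓ p : ℕ}
    (h : ∀ A : ValuationSubring (AlgebraicClosure ℚ), A.LiesOverPrime p →
      SPTors (K := ℚ) A p ℓ (heckeOne M p) (diamondOne M (unitNat M p))) :
    UnramifiedAt M ℓ p :=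
  fun A hA _ hσ _ hx => inertia_smul_eq_of_spTors (h A hA) hx hσ

theorem frobRelAt_of_spTors {M ℓ p : ℕ}
    (h : ∀ A : ValuationSubring (AlgebraicClosure ℚ), A.LiesOverPrime p →
      SPTors (K := ℚ) A p ℓ (heckeOne M p) (diamondOne M (unitNat M p))) :
    FrobRelAt M ℓ p :=
  fun A hA _ hσ _ hx =>
    frobenius_relation_of_spTors (h A hA) (fun σ x => diamondOne_galois (unitNat M p) σ x) hx hσ

/-- **G4**: `GeomClose13.G4Export` from the torsion contract. -/
theorem g4Export (h : SPTorsExport) : G4Export :=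
  fun M ℓ _ hℓ h5 hℓM hbase p hp hpM =>
    ⟨unramifiedAt_of_spTors (h M ℓ hℓ h5 hℓM hbase p hp hpM),
      frobRelAt_of_spTors (h M ℓ hℓ h5 hℓM hbase p hp hpM)⟩

end Fermat.Agent.ES.R48.G4Close13
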