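/-
Programme R (S48, Deligne–Serre), chapter GEOM, sub-chapter G4 "CONG₁", layer 2 (helper24):
the `X₁(M)`-twins of main's `ES/RED/SpecialDegree25` (§Gauss, §Concrete), `SpecialGen25`,
`SpecialInv25`, `SpecialGen16`, `Tr0Inst18`, `PIRInst13`:
**the special fibre field `F1C k M`, `k = ResidueField A`, over `k(t̃)`**, `t = tq · n e` the Hauptmodul
of `X₀(n)`, `n ∣ M` (all facts about `t` itself are main's, AS-IS).

* `gauss_degrees₁` (generic DVR `O ⊂ K`): `[F1C κ M : κ(t̃)] = [F1C K M : K(t)]` from **(GB2)₁**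
  `resField O (F1C K M) = F1C (Res O) M` (helper10 `ResFieldOne10`) + (DEG) + (IRR) (G3);
* `SpecialHyp1 n e M A hmem` : the two inputs — `isGen` : `t` generates `ℚbar · F1 M` (helper7
  `TGenOne7.isGen_tF1`), `gauss` : the conclusion of `gauss_degrees₁` for all large number fields;
* **`relfinrank_tq_residueField₁`** : `t̃ ∈ F1C k M` and `[F1C k M : k(t̃)] = [ℚbar · F1 M : ℚbar(t)]`
  (the two extensions of constants are helper22's `CoeffIndepInst22`);
* `tRes₁`, `isGen_tRes₁`, `finrank_tRes₁`, `isSeparable_tRes₁`, and the same for `t̃⁻¹`; the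
  fundamental identities `sum_ord_fibre_*` with the common degree `degT₁`; `pirHyp_F1C`;
  `tr0_of_coe₁`.
-/
import Mathlib
import Fermat.Agent.ES.R48.F1CDefs15
import Fermat.Agent.ES.R48.CoeffIndepInst22
import Fermat.Agent.ES.RED.SpecialInv25
import Fermat.Agent.ES.RED.SpecialGen16
import Fermat.Agent.ES.RED.PIRInst13
import Fermat.Agent.ES.RED.Tr0Inst18

set_option autoImplicit false
set_option linter.unusedSectionVars false
set_option linter.style.haveILetI false

noncomputable section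

open HahnSeries ModularCurve IntermediateField AlgebraicCurve

namespace Fermat.Agent.ES.R48.SpecialOne24

open Fermat.Agent.RED.PUR.GaussGen8 Fermat.Agent.RED.PUR.KtGauss8 Fermat.Agent.RED.PUR.G1Package8
open Fermat.Agent.RED.PUR.GaussBridge10
open Fermat.Agent.RED.PUR Fermat.Agent.IG.PR
open Fermat.Agent.ES.R48.FF1Defs13 Fermat.Agent.ES.R48.F1CDefs15

/-! ### Base change of the generators -/

section Images

variable {k κ : Type*} [Field k] [Field κ] (φ : k →+* κ) (M : ℕ)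

theorem image_wExpansionsC : (coeffMap φ) '' (wExpansionsC k M) = wExpansionsC κ M := by
  ext y
  constructor
  · rintro ⟨x, ⟨c, rfl⟩, rfl⟩
    exact ⟨c, (coeffMap_wqC M (c : ZMod M) φ).symm⟩
  · rintro ⟨c, rfl⟩
    exact ⟨wqC k M (c : ZMod M), ⟨c, rfl⟩, coeffMap_wqC M (c : ZMod M) φ⟩

theorem image_gens :
    (coeffMap φ) '' (divisorExpansionsC k M ∪ wExpansionsC k M) =
      divisorExpansionsC κ M ∪ wExpansionsC κ M := by
  rw [Set.image_union, image_wExpansionsC, DegBaseChange25.image_divisorExpansionsC]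

/-- `coeffMap φ` maps `F1C k M` into `F1C κ M`. -/
theorem coeffMap_mem_F1C' {x : LaurentSeries k} (hx : x ∈ F1C k M) : coeffMap φ x ∈ F1C κ M := by
  have := DegBaseChange25.map_mem_adjoin φ (coeffMap φ) (DegBaseChange25.coeffMap_algebraMap' φ)
    (divisorExpansionsC k M ∪ wExpansionsC k M) hx
  rwa [image_gens] at this

end Images

section BaseChangeEq

variable (L : Type*) [Field L] [Algebra ℚ L] (M : ℕ)

/-- `L · F1 M = F1C L M`. -/
theorem laurentBaseChange_F1_eq' : laurentBaseChange L (F1 M) = F1C L M := by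
  have himg : (coeffEmb L) '' (divisorExpansions M ∪ wExpansions M) =
      divisorExpansionsC L M ∪ wExpansionsC L M :=
    image_gens (k := ℚ) (algebraMap ℚ L) M
  apply le_antisymm
  · rw [laurentBaseChange, adjoin_le_iff]
    rintro _ ⟨x, hx, rfl⟩
    have := DegBaseChange25.map_mem_adjoin (algebraMap ℚ L) (coeffEmb L)
      (DegBaseChange25.coeffMap_algebraMap' (algebraMap ℚ L)) (divisorExpansions M ∪ wExpansions M) hx
    rw [himg] at this
    exact this
  · rw [F1C, ← himg, laurentBaseChange]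
    exact adjoin.mono L _ _ (Set.image_mono (subset_adjoin ℚ _))

end BaseChangeEq

/-! ### The Gauss step -/

section Gauss

variable {K : Type} [Field K] [CharZero K] (O : ValuationSubring K) [IsDiscreteValuationRing ↥O]
  {π : ↥O}

/-- **Degrees under the Gauss reduction** for `X₁(M)`: `[F1C κ M : κ(t̃)] = [F1C K M : K(t)]`, from
(GB2)₁, (DEG), (IRR). -/
theorem gauss_degrees₁ (hπ : Irreducible π) (M : ℕ) (tG : ↥(gaussRing O))
    (htE : (tG : LaurentSeries K) ∈ F1C K M)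
    (htr : Transcendental (Res O) (gaussRed O tG))
    (hGB2 : resField O (F1C K M) = F1C (Res O) M)
    (n : ℕ) (hn : relfinrank (Kt O tG) (F1C K M) = n)
    (hdeg : DegLe O (F1C K M) tG n) (hirr : Irr O (F1C K M) tG n) :
    gaussRed O tG ∈ F1C (Res O) M ∧
      relfinrank (kt O tG) (F1C (Res O) M) = relfinrank (Kt O tG) (F1C K M) := by
  have ht'E : gaussRed O tG ∈ F1C (Res O) M := by
    rw [← hGB2]
    exact ⟨tG, tG.2, htE, rfl⟩
  refine ⟨ht'E, ?_⟩
  have hTF' : kt O tG ≤ F1C (Res O) M := adjoin_simple_le_iff.mpr ht'E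
  -- the family-form upper bound downstairs
  have hub : ∀ (m : ℕ) (c : Fin m → LaurentSeries (Res O)), (∀ i, c i ∈ F1C (Res O) M) →
      LinearIndependent ↥(kt O tG) c → m ≤ n := by
    intro m c hc hli
    have hres : ∀ i, ∃ x : ↥(gaussRing O),
        (x : LaurentSeries K) ∈ F1C K M ∧ gaussRed O x = c i := by
      intro i
      have hi := hc i
      rw [← hGB2] at hi
      obtain ⟨f, hf, hfE, hfy⟩ := hi
      exact ⟨⟨f, hf⟩, hfE, hfy⟩
    choose x hxE hx using hres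
    have hliK := GaussDeg25.linearIndependent_of_gaussRed hπ htr x
      (by
        have : (fun i => gaussRed O (x i)) = c := funext hx
        rw [this]; exact hli)
    exact hdeg _ _ hxE hliK
  have hne0 : relfinrank (kt O tG) (F1C (Res O) M) ≠ 0 :=
    Fermat.Agent.ES.R48.CoeffIndep22.relfinrank_ne_zero_of_bound hTF' n hub
  rw [hn]
  apply le_antisymm
  · exact FamilyForm20.relfinrank_le_of_family_bound hTF' n hub
  · obtain ⟨b, hbE, hbli⟩ := hirr
    refine FamilyForm20.le_relfinrank_of_family hTF' _ hne0 (fun i => gaussRed O (b i)) ?_ hbli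
    intro i
    rw [← hGB2]
    exact ⟨b i, (b i).2, hbE i, rfl⟩

end Gauss

/-! ### The concrete degree statement -/

section Concrete

open Fermat.Agent.RED.Interface4 Fermat.Agent.RED.DESC.NumberFieldDVR27
open Fermat.Agent.RED.BASE Fermat.Agent.RED.BASE.EtaQuot12
open Fermat.Agent.ES.R48.CoeffIndep22 Fermat.Agent.ES.R48.CoeffIndepInst22

/-- `t ∈ ℚbar · F1 M`. -/
theorem tq_mem_F1bar (n e M : ℕ) [NeZero n] [NeZero M] (hmem : Interface12.TMem n e M) :
    tq Qbar n e ∈ laurentBaseChange Qbar (F1 M) :=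
  laurentBaseChange_mono13 Qbar (full_le_F1 M) hmem

/-- `t` as an element of `ℚbar · F1 M` (`= TGenOne7.tF1`, by `Subtype.ext`). -/
def t1 (n e M : ℕ) [NeZero n] [NeZero M] (hmem : Interface12.TMem n e M) :
    ↥(laurentBaseChange Qbar (F1 M)) :=
  ⟨tq Qbar n e, tq_mem_F1bar n e M hmem⟩

@[simp] theorem coe_t1 (n e M : ℕ) [NeZero n] [NeZero M] (hmem : Interface12.TMem n e M) :
    ((t1 n e M hmem : ↥(laurentBaseChange Qbar (F1 M))) : LaurentSeries Qbar) = tq Qbar n e := rfl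

/-- **The inputs from G2/G3.** -/
structure SpecialHyp1 (n e M : ℕ) [NeZero n] [NeZero M] (A : ValuationSubring Qbar)
    (hmem : Interface12.TMem n e M) : Prop where
  /-- `t` is a transcendental generator of `ℚbar · F1 M` (`TGenOne7.isGen_tF1`). -/
  isGen : Fermat.Agent.X0.FF.IsGen Qbar (t1 n e M hmem)
  /-- the Gauss step (`gauss_degrees₁`) for all large number fields. -/
  gauss : ∃ K₀ : IntermediateField ℚ Qbar, FiniteDimensional ℚ K₀ ∧
    ∀ K : IntermediateField ℚ Qbar, K₀ ≤ K → FiniteDimensional ℚ K →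
      tq (Res (AK A K)) n e ∈ F1C (Res (AK A K)) M ∧
      relfinrank (Res (AK A K))⟮tq (Res (AK A K)) n e⟯ (F1C (Res (AK A K)) M) =
        relfinrank (↥K)⟮tq ↥K n e⟯ (F1C ↥K M)

variable (n e M : ℕ) [NeZero n] [NeZero M] (ℓ : ℕ) [Fact ℓ.Prime]
  (hmem : Interface12.TMem n e M) (A : ValuationSubring Qbar) (hA : A.LiesOverPrime ℓ)
  (H : SpecialHyp1 n e M A hmem)

include H in
/-- `[ℚbar · F1 M : ℚbar(t)] ≠ 0`. -/
theorem relfinrank_tq_bar_ne_zero₁ :
    relfinrank Qbar⟮tq Qbar n e⟯ (laurentBaseChange Qbar (F1 M)) ≠ 0 := by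
  have h := Fermat.Agent.ES.RED.SpecialGen25.finrank_adjoin_simple_eq_relfinrank
    (laurentBaseChange Qbar (F1 M)) (t1 n e M hmem)
  rw [coe_t1] at h
  rw [← h]
  haveI := H.isGen.finite
  exact Module.finrank_pos.ne'

include hA H in
/-- **(MA4)₁, degree half.** `t̃ ∈ F1C k M` and `[F1C k M : k(t̃)] = [ℚbar · F1 M : ℚbar(t)]`,
`k = ResidueField A`. -/
theorem relfinrank_tq_residueField₁ :
    tq (IsLocalRing.ResidueField ↥A) n e ∈ F1C (IsLocalRing.ResidueField ↥A) M ∧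
    relfinrank (IsLocalRing.ResidueField ↥A)⟮tq (IsLocalRing.ResidueField ↥A) n e⟯
        (F1C (IsLocalRing.ResidueField ↥A) M) =
      relfinrank Qbar⟮tq Qbar n e⟯ (laurentBaseChange Qbar (F1 M)) := by
  have hℓ : ℓ.Prime := Fact.out
  obtain ⟨K₁, hfin₁, hK₁⟩ := TBridge15.exists_tq_mem n e M hmem
  obtain ⟨K₀, hfin₀, hK₀⟩ := H.gauss
  haveI := hfin₁
  haveI := hfin₀
  set K : IntermediateField ℚ Qbar := K₀ ⊔ K₁ with hK
  haveI : FiniteDimensional ℚ K := by rw [hK]; infer_instance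
  obtain ⟨g1, g3⟩ := hK₀ K le_sup_left inferInstance
  have htK : tq ↥K n e ∈ F1C ↥K M := by
    apply fullC_le_F1C ↥K M
    rw [← DegBaseChange25.laurentBaseChange_full_eq]
    exact hK₁ K le_sup_right
  haveI : CharP (IsLocalRing.ResidueField ↥A) ℓ :=
    Fermat.Agent.ES.KRON.KronInst10.charP_residueField A hℓ hA
  -- the tower inclusions
  have hTS : adjoin ↥K ({tq ↥K n e} : Set (LaurentSeries ↥K)) ≤
      adjoin ↥K (divisorExpansionsC ↥K M ∪ wExpansionsC ↥K M) := adjoin_simple_le_iff.mpr htK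
  have hTSκ : adjoin (Res (AK A K)) ({tq (Res (AK A K)) n e} : Set (LaurentSeries (Res (AK A K)))) ≤
      adjoin (Res (AK A K)) (divisorExpansionsC (Res (AK A K)) M ∪ wExpansionsC (Res (AK A K)) M) :=
    adjoin_simple_le_iff.mpr g1
  have htQ : tq Qbar n e ∈ F1C Qbar M := by
    rw [← laurentBaseChange_F1_eq']
    exact tq_mem_F1bar n e M hmem
  have hTSQ : Qbar⟮tq Qbar n e⟯ ≤ F1C Qbar M := adjoin_simple_le_iff.mpr htQ
  -- finiteness over `ℚbar`, hence over `K`
  have hfinQ : relfinrank Qbar⟮tq Qbar n e⟯ (F1C Qbar M) ≠ 0 := by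
    rw [← laurentBaseChange_F1_eq']
    exact relfinrank_tq_bar_ne_zero₁ n e M hmem A H
  have hfinK : relfinrank (adjoin ↥K ({tq ↥K n e} : Set (LaurentSeries ↥K)))
      (adjoin ↥K (divisorExpansionsC ↥K M ∪ wExpansionsC ↥K M)) ≠ 0 := by
    refine relfinrank_ne_zero_of_bound hTS (relfinrank Qbar⟮tq Qbar n e⟯ (F1C Qbar M)) ?_
    intro m c hc hli
    have hli' := linearIndependent_coeffMap' (algebraMap ↥K Qbar) (algebraic_Qbar_over K)
      ({tq ↥K n e} : Set (LaurentSeries ↥K)) c hli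
    rw [Set.image_singleton, coeffMap_tq] at hli'
    exact FamilyForm20.le_relfinrank_of_family hTSQ m hfinQ _
      (fun i => coeffMap_mem_F1C' (algebraMap ↥K Qbar) M (hc i)) hli'
  -- `K → ℚbar`
  have b3 := relfinrank_coeffMap_Qbar K ({tq ↥K n e} : Set (LaurentSeries ↥K))
    (divisorExpansionsC ↥K M ∪ wExpansionsC ↥K M) hTS hfinK
  rw [Set.image_singleton, coeffMap_tq, image_gens] at b3
  -- `κ → k`
  have hfinκ : relfinrank
      (adjoin (Res (AK A K)) ({tq (Res (AK A K)) n e} : Set (LaurentSeries (Res (AK A K)))))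
      (adjoin (Res (AK A K))
        (divisorExpansionsC (Res (AK A K)) M ∪ wExpansionsC (Res (AK A K)) M)) ≠ 0 := by
    have : relfinrank (Res (AK A K))⟮tq (Res (AK A K)) n e⟯ (F1C (Res (AK A K)) M) ≠ 0 := by
      rw [g3]; exact hfinK
    exact this
  have c3 := relfinrank_coeffMap_resMap A K hℓ
    ({tq (Res (AK A K)) n e} : Set (LaurentSeries (Res (AK A K))))
    (divisorExpansionsC (Res (AK A K)) M ∪ wExpansionsC (Res (AK A K)) M) hTSκ hfinκ
  rw [Set.image_singleton, coeffMap_tq, image_gens] at c3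
  refine ⟨?_, ?_⟩
  · have := coeffMap_mem_F1C' (resMap A K) M g1
    rwa [coeffMap_tq] at this
  · rw [laurentBaseChange_F1_eq']
    exact c3.trans (g3.trans b3.symm)

end Concrete

/-! ### The Gauss input from (GB2)₁ + (DEG) + (IRR) -/

section GaussInput

open Fermat.Agent.RED.Interface4 Fermat.Agent.RED.DESC.NumberFieldDVR27
open Fermat.Agent.RED.BASE Fermat.Agent.RED.BASE.EtaQuot12

/-- the field `gauss` of `SpecialHyp1` from (GB2)₁, (DEG), (IRR) for the number-field DVRs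
`A ∩ K`, `K` large. -/
theorem gauss_of_resField (n e M : ℕ) [NeZero n] [NeZero M] (ℓ : ℕ) [Fact ℓ.Prime]
    (hmem : Interface12.TMem n e M) (A : ValuationSubring Qbar) (hA : A.LiesOverPrime ℓ)
    (hK : ∃ K₀ : IntermediateField ℚ Qbar, FiniteDimensional ℚ K₀ ∧
      ∀ K : IntermediateField ℚ Qbar, K₀ ≤ K → FiniteDimensional ℚ K →
        ∀ [IsDiscreteValuationRing ↥(AK A K)],
          resField (AK A K) (F1C ↥K M) = F1C (Res (AK A K)) M ∧
          ∃ d : ℕ, relfinrank (Kt (AK A K) (TBridge15.tG (AK A K) n e)) (F1C ↥K M) = d ∧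
            DegLe (AK A K) (F1C ↥K M) (TBridge15.tG (AK A K) n e) d ∧
            Irr (AK A K) (F1C ↥K M) (TBridge15.tG (AK A K) n e) d) :
    ∃ K₀ : IntermediateField ℚ Qbar, FiniteDimensional ℚ K₀ ∧
      ∀ K : IntermediateField ℚ Qbar, K₀ ≤ K → FiniteDimensional ℚ K →
        tq (Res (AK A K)) n e ∈ F1C (Res (AK A K)) M ∧
        relfinrank (Res (AK A K))⟮tq (Res (AK A K)) n e⟯ (F1C (Res (AK A K)) M) =
          relfinrank (↥K)⟮tq ↥K n e⟯ (F1C ↥K M) := by
  obtain ⟨K₁, hfin₁, hK₁⟩ := TBridge15.exists_tq_mem n e M hmem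
  obtain ⟨K₀, hfin₀, hK₀⟩ := hK
  haveI := hfin₁
  haveI := hfin₀
  refine ⟨K₀ ⊔ K₁, inferInstance, fun K hle hfin => ?_⟩
  haveI := hfin
  haveI : IsDiscreteValuationRing ↥(AK A K) :=
    isDiscreteValuationRing_AK A K (Fact.out : ℓ.Prime).ne_zero hA
  obtain ⟨π, hπ⟩ := IsDiscreteValuationRing.exists_irreducible ↥(AK A K)
  have htK : tq ↥K n e ∈ F1C ↥K M := by
    apply fullC_le_F1C ↥K M
    rw [← DegBaseChange25.laurentBaseChange_full_eq]
    exact hK₁ K (le_sup_right.trans hle)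
  obtain ⟨hGB2, d, hd, hdeg, hirr⟩ := hK₀ K (le_sup_left.trans hle) hfin
  obtain ⟨g1, g3⟩ := gauss_degrees₁ (AK A K) hπ M (TBridge15.tG (AK A K) n e) htK
    (TBridge15.transcendental_gaussRed_tG (AK A K) n e) hGB2 d hd hdeg hirr
  rw [TBridge15.gaussRed_tG] at g1
  refine ⟨g1, ?_⟩
  have := g3
  rwa [show kt (AK A K) (TBridge15.tG (AK A K) n e) =
    (Res (AK A K))⟮gaussRed (AK A K) (TBridge15.tG (AK A K) n e)⟯ from rfl,
    TBridge15.gaussRed_tG] at this

end GaussInput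

/-! ### The generator `t̃` of the special fibre field (twin of `SpecialGen25` §Concrete) -/

set_option synthInstance.maxHeartbeats 400000

section Gen

open Fermat.Agent.X0
open Fermat.Agent.RED.Interface4 Fermat.Agent.RED.BASE Fermat.Agent.RED.BASE.EtaQuot12
open Fermat.Agent.ES.RED.SpecialGen25 Fermat.Agent.ES.RED.SpecialDegree25

variable (n e M : ℕ) [NeZero n] [NeZero M] (ℓ : ℕ) [Fact ℓ.Prime]
  (hmem : Interface12.TMem n e M) (A : ValuationSubring Qbar) (hA : A.LiesOverPrime ℓ)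
  (H : SpecialHyp1 n e M A hmem)

/-- The Hauptmodul `t̃ = tq k n e` as an element of the special fibre field `F1C k M`,
`k = ResidueField A`. -/
def tRes₁ : ↥(F1C (IsLocalRing.ResidueField ↥A) M) :=
  ⟨tq (IsLocalRing.ResidueField ↥A) n e, (relfinrank_tq_residueField₁ n e M ℓ hmem A hA H).1⟩

@[simp] theorem coe_tRes₁ :
    ((tRes₁ n e M ℓ hmem A hA H : ↥(F1C (IsLocalRing.ResidueField ↥A) M)) :
      LaurentSeries (IsLocalRing.ResidueField ↥A)) = tq (IsLocalRing.ResidueField ↥A) n e := rfl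

/-- `[ℚbar · F1 M : ℚbar(t)]`, computed inside `ℚbar · F1 M`. -/
theorem finrank_t1_eq_relfinrank :
    Module.finrank ↥(Qbar⟮t1 n e M hmem⟯ :
        IntermediateField Qbar ↥(laurentBaseChange Qbar (F1 M))) ↥(laurentBaseChange Qbar (F1 M)) =
      relfinrank Qbar⟮tq Qbar n e⟯ (laurentBaseChange Qbar (F1 M)) :=
  finrank_adjoin_simple_eq_relfinrank (laurentBaseChange Qbar (F1 M)) (t1 n e M hmem)

include hA H in
theorem relfinrank_tRes₁_ne_zero :
    relfinrank (IsLocalRing.ResidueField ↥A)⟮tq (IsLocalRing.ResidueField ↥A) n e⟯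
      (F1C (IsLocalRing.ResidueField ↥A) M) ≠ 0 := by
  rw [(relfinrank_tq_residueField₁ n e M ℓ hmem A hA H).2]
  exact relfinrank_tq_bar_ne_zero₁ n e M hmem A H

/-- **`t̃` is a transcendental generator of the special fibre field.** -/
theorem isGen_tRes₁ :
    FF.IsGen (IsLocalRing.ResidueField ↥A) (tRes₁ n e M ℓ hmem A hA H) :=
  isGen_of_relfinrank_ne_zero _ _ (TBridge15.transcendental_tq (IsLocalRing.ResidueField ↥A) n e)
    (relfinrank_tRes₁_ne_zero n e M ℓ hmem A hA H)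

/-- **`deg t̃ = deg t`**: `[F1C k M : k(t̃)] = [ℚbar · F1 M : ℚbar(t)]`, both computed inside the
fields. -/
theorem finrank_tRes₁ :
    Module.finrank
        ↥((IsLocalRing.ResidueField ↥A)⟮tRes₁ n e M ℓ hmem A hA H⟯ :
          IntermediateField (IsLocalRing.ResidueField ↥A) ↥(F1C (IsLocalRing.ResidueField ↥A) M))
        ↥(F1C (IsLocalRing.ResidueField ↥A) M) =
      Module.finrank ↥(Qbar⟮t1 n e M hmem⟯ :
        IntermediateField Qbar ↥(laurentBaseChange Qbar (F1 M)))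
        ↥(laurentBaseChange Qbar (F1 M)) := by
  rw [finrank_adjoin_simple_eq_relfinrank, finrank_t1_eq_relfinrank]
  exact (relfinrank_tq_residueField₁ n e M ℓ hmem A hA H).2

/-- **`F1C k M / k(t̃)` is separable.** -/
theorem isSeparable_tRes₁ :
    Algebra.IsSeparable
      ↥((IsLocalRing.ResidueField ↥A)⟮tRes₁ n e M ℓ hmem A hA H⟯ :
        IntermediateField (IsLocalRing.ResidueField ↥A) ↥(F1C (IsLocalRing.ResidueField ↥A) M))
      ↥(F1C (IsLocalRing.ResidueField ↥A) M) := by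
  haveI : IsAlgClosed (IsLocalRing.ResidueField ↥A) :=
    Fermat.Agent.ES.KRON.KronInst10.isAlgClosed_residueField A
  haveI : CharP (IsLocalRing.ResidueField ↥A) ℓ :=
    Fermat.Agent.ES.KRON.KronInst10.charP_residueField A Fact.out hA
  have hsep := (finite_and_separable_of_order (k := IsLocalRing.ResidueField ↥A) ℓ
    (Fermat.Agent.RED.PUR.TqOrder26.order_tq (IsLocalRing.ResidueField ↥A) n e)
    (F1C (IsLocalRing.ResidueField ↥A) M)
    (adjoin_simple_le _ (tRes₁ n e M ℓ hmem A hA H))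
    (relfinrank_tRes₁_ne_zero n e M ℓ hmem A hA H)).2
  exact isSeparable_adjoin_simple_of_extendScalars (h := hsep) _ (tRes₁ n e M ℓ hmem A hA H)

include hA H in
/-- **(MA4)₁, final shape** (twin of `SpecialGen16.special_gen`). -/
theorem special_gen₁ :
    ∃ hx : tq (IsLocalRing.ResidueField ↥A) n e ∈ F1C (IsLocalRing.ResidueField ↥A) M,
      FF.IsGen (IsLocalRing.ResidueField ↥A)
        (⟨tq (IsLocalRing.ResidueField ↥A) n e, hx⟩ : ↥(F1C (IsLocalRing.ResidueField ↥A) M)) ∧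
      Algebra.IsSeparable
        ↥((IsLocalRing.ResidueField ↥A)⟮(⟨tq (IsLocalRing.ResidueField ↥A) n e, hx⟩ :
          ↥(F1C (IsLocalRing.ResidueField ↥A) M))⟯)
        ↥(F1C (IsLocalRing.ResidueField ↥A) M) ∧
      Module.finrank
        ↥((IsLocalRing.ResidueField ↥A)⟮(⟨tq (IsLocalRing.ResidueField ↥A) n e, hx⟩ :
          ↥(F1C (IsLocalRing.ResidueField ↥A) M))⟯)
        ↥(F1C (IsLocalRing.ResidueField ↥A) M) =
      Module.finrank ↥(Qbar⟮t1 n e M hmem⟯ :
        IntermediateField Qbar ↥(laurentBaseChange Qbar (F1 M)))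
        ↥(laurentBaseChange Qbar (F1 M)) :=
  ⟨(relfinrank_tq_residueField₁ n e M ℓ hmem A hA H).1, isGen_tRes₁ n e M ℓ hmem A hA H,
    isSeparable_tRes₁ n e M ℓ hmem A hA H, finrank_tRes₁ n e M ℓ hmem A hA H⟩

end Gen

/-! ### Both coordinates `t`, `t⁻¹` (twin of `SpecialInv25`) -/

section Upstairs

open Fermat.Agent.X0 Fermat.Agent.RED.Interface4 Fermat.Agent.RED.BASE
  Fermat.Agent.RED.BASE.EtaQuot12 Fermat.Agent.ES.RED.SpecialInv25

variable (n e M : ℕ) [NeZero n] [NeZero M] (hmem : Interface12.TMem n e M)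

/-- the common degree `[ℚbar · F1 M : ℚbar(t)]`. -/
def degT₁ : ℕ :=
  Module.finrank ↥(Qbar⟮t1 n e M hmem⟯ :
    IntermediateField Qbar ↥(laurentBaseChange Qbar (F1 M))) ↥(laurentBaseChange Qbar (F1 M))

variable {n e M hmem}

theorem isGen_t1_inv (h : FF.IsGen Qbar (t1 n e M hmem)) : FF.IsGen Qbar (t1 n e M hmem)⁻¹ :=
  h.inv

variable (n e M hmem)

theorem finrank_t1_inv :
    Module.finrank ↥(Qbar⟮(t1 n e M hmem)⁻¹⟯ :
      IntermediateField Qbar ↥(laurentBaseChange Qbar (F1 M))) ↥(laurentBaseChange Qbar (F1 M))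
      = degT₁ n e M hmem := by
  rw [FF.adjoin_inv]
  rfl

variable {n e M hmem}

/-- `fi` for the coordinate `t`. -/
theorem sum_ord_fibre_t1 (h : FF.IsGen Qbar (t1 n e M hmem)) (a : Qbar) :
    ∑ᶠ (P : Place Qbar ↥(laurentBaseChange Qbar (F1 M)))
        (_ : 0 < P.ord (t1 n e M hmem - algebraMap Qbar ↥(laurentBaseChange Qbar (F1 M)) a)),
      P.ord (t1 n e M hmem - algebraMap Qbar ↥(laurentBaseChange Qbar (F1 M)) a) =
        (degT₁ n e M hmem : ℤ) :=
  FF.sum_ord_fibre h a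

/-- `fi` for the coordinate `t⁻¹`. -/
theorem sum_ord_fibre_t1_inv (h : FF.IsGen Qbar (t1 n e M hmem)) (a : Qbar) :
    ∑ᶠ (P : Place Qbar ↥(laurentBaseChange Qbar (F1 M)))
        (_ : 0 < P.ord ((t1 n e M hmem)⁻¹ - algebraMap Qbar ↥(laurentBaseChange Qbar (F1 M)) a)),
      P.ord ((t1 n e M hmem)⁻¹ - algebraMap Qbar ↥(laurentBaseChange Qbar (F1 M)) a) =
        (degT₁ n e M hmem : ℤ) := by
  rw [FF.sum_ord_fibre (isGen_t1_inv h) a, finrank_t1_inv]

variable (n e M hmem)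

/-- the `q`-expansion of `t` is `A`-integral: it is `coeffMap A.subtype (tq ↥A n e)`. -/
theorem coe_t1_eq (A : ValuationSubring Qbar) :
    ((t1 n e M hmem : ↥(laurentBaseChange Qbar (F1 M))) : LaurentSeries Qbar) =
      coeffMap A.subtype (tq ↥A n e) := by
  rw [coeffMap_tq]
  rfl

/-- the `q`-expansion of `t⁻¹` is `A`-integral: it is `coeffMap A.subtype (tqInv ↥A n e)`. -/
theorem coe_t1_inv (A : ValuationSubring Qbar) :
    (((t1 n e M hmem)⁻¹ : ↥(laurentBaseChange Qbar (F1 M))) : LaurentSeries Qbar)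
      = coeffMap A.subtype (tqInv ↥A n e) := by
  rw [coeffMap_tqInv, tqInv_eq_inv]
  rfl

end Upstairs

section Special

open Fermat.Agent.X0 Fermat.Agent.RED.Interface4 Fermat.Agent.RED.BASE
  Fermat.Agent.RED.BASE.EtaQuot12 Fermat.Agent.ES.RED.SpecialInv25
  Fermat.Agent.ES.RED.SumOrdSep15

variable (n e M : ℕ) [NeZero n] [NeZero M] (ℓ : ℕ) [Fact ℓ.Prime]
  (hmem : Interface12.TMem n e M) (A : ValuationSubring Qbar) (hA : A.LiesOverPrime ℓ)
  (H : SpecialHyp1 n e M A hmem)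

/-- `tr0`: `t̃` is transcendental over `k`. -/
theorem transcendental_tRes₁ :
    Transcendental (IsLocalRing.ResidueField ↥A) (tRes₁ n e M ℓ hmem A hA H) :=
  (isGen_tRes₁ n e M ℓ hmem A hA H).transcendental

/-- `red_x_ne`: `t̃` is not a constant. -/
theorem tRes₁_ne_algebraMap (c : IsLocalRing.ResidueField ↥A) :
    tRes₁ n e M ℓ hmem A hA H ≠
      algebraMap (IsLocalRing.ResidueField ↥A) ↥(F1C (IsLocalRing.ResidueField ↥A) M) c := by
  intro h
  exact (isGen_tRes₁ n e M ℓ hmem A hA H).sub_algebraMap_ne_zero c (by rw [h, sub_self])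

theorem isGen_tRes₁_inv :
    FF.IsGen (IsLocalRing.ResidueField ↥A) (tRes₁ n e M ℓ hmem A hA H)⁻¹ :=
  (isGen_tRes₁ n e M ℓ hmem A hA H).inv

theorem tRes₁_inv_ne_algebraMap (c : IsLocalRing.ResidueField ↥A) :
    (tRes₁ n e M ℓ hmem A hA H)⁻¹ ≠
      algebraMap (IsLocalRing.ResidueField ↥A) ↥(F1C (IsLocalRing.ResidueField ↥A) M) c := by
  intro h
  exact (isGen_tRes₁_inv n e M ℓ hmem A hA H).sub_algebraMap_ne_zero c (by rw [h, sub_self])

theorem isSeparable_tRes₁_inv :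
    Algebra.IsSeparable
      ↥((IsLocalRing.ResidueField ↥A)⟮(tRes₁ n e M ℓ hmem A hA H)⁻¹⟯ :
        IntermediateField (IsLocalRing.ResidueField ↥A) ↥(F1C (IsLocalRing.ResidueField ↥A) M))
      ↥(F1C (IsLocalRing.ResidueField ↥A) M) := by
  haveI := isSeparable_tRes₁ n e M ℓ hmem A hA H
  exact isSeparable_inv (K := IsLocalRing.ResidueField ↥A) (tRes₁ n e M ℓ hmem A hA H)

/-- `[F1C k M : k(t̃)] = degT₁`. -/
theorem finrank_tRes₁_eq_degT :
    Module.finrank
      ↥((IsLocalRing.ResidueField ↥A)⟮tRes₁ n e M ℓ hmem A hA H⟯ :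
        IntermediateField (IsLocalRing.ResidueField ↥A) ↥(F1C (IsLocalRing.ResidueField ↥A) M))
      ↥(F1C (IsLocalRing.ResidueField ↥A) M) = degT₁ n e M hmem :=
  finrank_tRes₁ n e M ℓ hmem A hA H

/-- `[F1C k M : k(t̃⁻¹)] = degT₁`. -/
theorem finrank_tRes₁_inv :
    Module.finrank
      ↥((IsLocalRing.ResidueField ↥A)⟮(tRes₁ n e M ℓ hmem A hA H)⁻¹⟯ :
        IntermediateField (IsLocalRing.ResidueField ↥A) ↥(F1C (IsLocalRing.ResidueField ↥A) M))
      ↥(F1C (IsLocalRing.ResidueField ↥A) M) = degT₁ n e M hmem := by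
  rw [FF.adjoin_inv]
  exact finrank_tRes₁ n e M ℓ hmem A hA H

/-- `[F1C k M : k(t̃⁻¹)] = [ℚbar · F1 M : ℚbar(t⁻¹)]`. -/
theorem finrank_tRes₁_inv_eq :
    Module.finrank
      ↥((IsLocalRing.ResidueField ↥A)⟮(tRes₁ n e M ℓ hmem A hA H)⁻¹⟯ :
        IntermediateField (IsLocalRing.ResidueField ↥A) ↥(F1C (IsLocalRing.ResidueField ↥A) M))
      ↥(F1C (IsLocalRing.ResidueField ↥A) M) =
      Module.finrank ↥(Qbar⟮(t1 n e M hmem)⁻¹⟯ :
        IntermediateField Qbar ↥(laurentBaseChange Qbar (F1 M)))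
        ↥(laurentBaseChange Qbar (F1 M)) := by
  rw [finrank_tRes₁_inv, finrank_t1_inv]

/-- `fit` for the coordinate `t̃`. -/
theorem sum_ord_fibre_tRes₁ (c : IsLocalRing.ResidueField ↥A) :
    ∑ᶠ (Q : Place (IsLocalRing.ResidueField ↥A) ↥(F1C (IsLocalRing.ResidueField ↥A) M))
        (_ : 0 < Q.ord (tRes₁ n e M ℓ hmem A hA H -
          algebraMap (IsLocalRing.ResidueField ↥A) ↥(F1C (IsLocalRing.ResidueField ↥A) M) c)),
      Q.ord (tRes₁ n e M ℓ hmem A hA H -
        algebraMap (IsLocalRing.ResidueField ↥A) ↥(F1C (IsLocalRing.ResidueField ↥A) M) c) =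
      (degT₁ n e M hmem : ℤ) := by
  haveI := isAlgClosed_kk A
  haveI := isSeparable_tRes₁ n e M ℓ hmem A hA H
  rw [sum_ord_fibre_sep (isGen_tRes₁ n e M ℓ hmem A hA H) c, finrank_tRes₁_eq_degT]

/-- `fit` for the coordinate `t̃⁻¹`. -/
theorem sum_ord_fibre_tRes₁_inv (c : IsLocalRing.ResidueField ↥A) :
    ∑ᶠ (Q : Place (IsLocalRing.ResidueField ↥A) ↥(F1C (IsLocalRing.ResidueField ↥A) M))
        (_ : 0 < Q.ord ((tRes₁ n e M ℓ hmem A hA H)⁻¹ -
          algebraMap (IsLocalRing.ResidueField ↥A) ↥(F1C (IsLocalRing.ResidueField ↥A) M) c)),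
      Q.ord ((tRes₁ n e M ℓ hmem A hA H)⁻¹ -
        algebraMap (IsLocalRing.ResidueField ↥A) ↥(F1C (IsLocalRing.ResidueField ↥A) M) c) =
      (degT₁ n e M hmem : ℤ) := by
  haveI := isAlgClosed_kk A
  haveI := isSeparable_tRes₁_inv n e M ℓ hmem A hA H
  rw [sum_ord_fibre_sep (isGen_tRes₁_inv n e M ℓ hmem A hA H) c, finrank_tRes₁_inv]

/-- `fint` for `t̃`. -/
theorem finite_fibre_tRes₁ (c : IsLocalRing.ResidueField ↥A) :
    {Q : Place (IsLocalRing.ResidueField ↥A) ↥(F1C (IsLocalRing.ResidueField ↥A) M) |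
      0 < Q.ord (tRes₁ n e M ℓ hmem A hA H -
        algebraMap (IsLocalRing.ResidueField ↥A) ↥(F1C (IsLocalRing.ResidueField ↥A) M) c)}.Finite := by
  haveI := isAlgClosed_kk A
  haveI := isSeparable_tRes₁ n e M ℓ hmem A hA H
  exact finite_fibre_sep (isGen_tRes₁ n e M ℓ hmem A hA H) c

/-- `fint` for `t̃⁻¹`. -/
theorem finite_fibre_tRes₁_inv (c : IsLocalRing.ResidueField ↥A) :
    {Q : Place (IsLocalRing.ResidueField ↥A) ↥(F1C (IsLocalRing.ResidueField ↥A) M) |
      0 < Q.ord ((tRes₁ n e M ℓ hmem A hA H)⁻¹ -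
        algebraMap (IsLocalRing.ResidueField ↥A) ↥(F1C (IsLocalRing.ResidueField ↥A) M) c)}.Finite := by
  haveI := isAlgClosed_kk A
  haveI := isSeparable_tRes₁_inv n e M ℓ hmem A hA H
  exact finite_fibre_sep (isGen_tRes₁_inv n e M ℓ hmem A hA H) c

/-- the reduction of the `A`-expansion `tq ↥A n e` of `t` is `t̃`. -/
theorem coe_tRes₁_eq :
    ((tRes₁ n e M ℓ hmem A hA H : ↥(F1C (IsLocalRing.ResidueField ↥A) M)) :
      LaurentSeries (IsLocalRing.ResidueField ↥A)) =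
      coeffMap (IsLocalRing.residue ↥A) (tq ↥A n e) := by
  rw [coeffMap_tq]
  rfl

/-- the reduction of the `A`-expansion `tqInv ↥A n e` of `t⁻¹` is `t̃⁻¹`. -/
theorem coe_tRes₁_inv :
    (((tRes₁ n e M ℓ hmem A hA H)⁻¹ : ↥(F1C (IsLocalRing.ResidueField ↥A) M)) :
      LaurentSeries (IsLocalRing.ResidueField ↥A)) =
      coeffMap (IsLocalRing.residue ↥A) (tqInv ↥A n e) := by
  rw [coeffMap_tqInv, tqInv_eq_inv]
  rfl

end Special

/-! ### (PIR) and `tr0` (twins of `PIRInst13`, `Tr0Inst18`) -/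

section PIR

open Fermat.Agent.X0.FF Fermat.Agent.ES.RED.Contract8 Fermat.Agent.ES.RED.ModelInstGen4
open Fermat.Agent.RED.Interface4 Fermat.Agent.RED.BASE

variable (n e M : ℕ) [NeZero n] [NeZero M] (ℓ : ℕ) [Fact ℓ.Prime]
  (hmem : Interface12.TMem n e M) (A : ValuationSubring Qbar) (hA : A.LiesOverPrime ℓ)
  (H : SpecialHyp1 n e M A hmem)

include hA H in
/-- **(PIR) for the special fibre** `F1C k M`, `k = A / 𝔪_A`. -/
theorem pirHyp_F1C : PIRHyp A ↥(F1C (kA A) M) := by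
  have := isSeparable_tRes₁ n e M ℓ hmem A hA H
  exact Fermat.Agent.ES.RED.PIRInst13.pirHyp_of_isGen (isGen_tRes₁ n e M ℓ hmem A hA H)

/-- **`tr0`** for a chart into `F1C k M` whose reduced coordinate has the Hauptmodul expansion. -/
theorem tr0_of_coe₁ {L : Type*} [Field L] [IsAlgClosed L] {A : ValuationSubring L}
    {F : Type*} [Field F] [Algebra L F] {x : F} {hx : Fermat.Agent.X0.FF.IsGen L x}
    (M n e : ℕ) [NeZero n]
    (S0 : ChartSpec A hx ↥(F1C (kA A) M))
    (h : ((S0.red S0.sB : ↥(F1C (kA A) M)) : LaurentSeries (kA A)) =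
      Fermat.Agent.RED.BASE.EtaQuot12.tq (kA A) n e) :
    Transcendental (kA A) (S0.red S0.sB) :=
  Fermat.Agent.ES.RED.Tr0Inst18.transcendental_of_coe_eq_tq n e _ _ h

/-- `tr0` when the reduced coordinate is `tRes₁`. -/
theorem tr0_of_eq_tRes₁ {F : Type*} [Field F] [Algebra Qbar F] {x : F}
    {hx : Fermat.Agent.X0.FF.IsGen Qbar x}
    (S0 : ChartSpec A hx ↥(F1C (kA A) M))
    (h : S0.red S0.sB = tRes₁ n e M ℓ hmem A hA H) :
    Transcendental (kA A) (S0.red S0.sB) := by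
  rw [h]
  exact (isGen_tRes₁ n e M ℓ hmem A hA H).transcendental

end PIR

end Fermat.Agent.ES.R48.SpecialOne24
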