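/-
Programme R (S48, Deligne–Serre), chapter GEOM, sub-chapter G4 "CONG₁", layer 2 (helper7, for
helper15): **the concrete `ChartInputsG` for `X₁(M)`** — twin of main's `ES/RED/RedInst15` on top of
helper24's `SpecialOne24` (`t1`, `tRes₁`, `SpecialHyp1`), helper15's
`ChartInputsOfG15.chartInputs_of_coeffChartG` and `RedMainG15`.

For any `T : TwoCharts A hx ↥(F1C (kA A) M)` whose two charts are coefficientwise (`CoeffChartG`)
with coordinates `T.S0.s = t` (hence `T.S1.s = t⁻¹`) and satisfy (PEEL-a):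

  `ChartInputsG A (F1 M) (F1C (kA A) M) T.S0 ∧ ChartInputsG … T.S1`,
  `IsPlaceReductionAlong1 A (residue ↥A) M T.r`.

Generators, separability and degrees for `t^{±1}`, `t̃^{±1}` come from `SpecialOne24`
(`H : SpecialHyp1 n e M A hmem`).  The coordinate is `SpecialOne24.t1 n e M hmem`
(`= TGenOne7.tF1 n e M hmem`, `t1_eq_tF1`); every statement has a `…_tF1` form for charts given
with `S.s = tF1 n e M hmem` (`ModelInstOne15.S0_s`).
-/
import Mathlib
import Fermat.Agent.ES.R48.ChartInputsOfG15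
import Fermat.Agent.ES.R48.SpecialOne24
import Fermat.Agent.ES.R48.TGenOne7

set_option autoImplicit false
set_option linter.unusedSectionVars false

open AlgebraicCurve ModularCurve HahnSeries Polynomial IntermediateField

noncomputable section

namespace Fermat.Agent.ES.R48.RedInstOne7

open Fermat.Agent.ES.RED.Contract8 Fermat.Agent.ES.RED.TwoCharts8
open Fermat.Agent.ES.R48.RedChartsG15 Fermat.Agent.ES.R48.RedMainG15
open Fermat.Agent.ES.R48.ChartInputsOfG15 Fermat.Agent.ES.R48.RedDefsG15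
open Fermat.Agent.ES.R48.SpecialOne24 Fermat.Agent.ES.R48.FF1Defs13
open Fermat.Agent.ES.R48.F1CDefs15
open Fermat.Agent.X0 Fermat.Agent.X0.FF Fermat.Agent.RED.Interface4 Fermat.Agent.RED.BASE

variable (n e M : ℕ) [NeZero n] [NeZero M] (ℓ : ℕ) [Fact ℓ.Prime]
  (hmem : Interface12.TMem n e M)
  (A : ValuationSubring Qbar) (hA : A.LiesOverPrime ℓ) (H : SpecialHyp1 n e M A hmem)
variable {x : ↥(laurentBaseChange Qbar (F1 M))} {hx : IsGen Qbar x}

/-- helper24's `t1` is the Hauptmodul `TGenOne7.tF1`. -/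
theorem t1_eq_tF1 : t1 n e M hmem = Fermat.Agent.ES.R48.TGenOne7.tF1 n e M hmem :=
  Subtype.ext (Fermat.Agent.ES.R48.TGenOne7.coe_tF1 n e M hmem).symm

include hA H

/-- In a coefficientwise chart with coordinate `t`, the reduced coordinate is `t̃`. -/
theorem red_sB_eq_tRes₁ (S : ChartSpec A hx ↥(F1C (kA A) M))
    (hS : CoeffChartG (F₀ := F1 M) (Fk := F1C (kA A) M) S) (hs : S.s = t1 n e M hmem) :
    S.red S.sB = tRes₁ n e M ℓ hmem A hA H := by
  apply Subtype.ext
  have hY : coeffMap A.subtype (EtaQuot12.tq ↥A n e) =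
      (((S.sB : ↥S.B) : ↥(laurentBaseChange Qbar (F1 M))) : LaurentSeries Qbar) := by
    rw [← coe_t1_eq n e M hmem A, ← hs]
    rfl
  rw [hS.red_eq S.sB _ hY, coe_tRes₁_eq]

/-- In a coefficientwise chart with coordinate `t⁻¹`, the reduced coordinate is `t̃⁻¹`. -/
theorem red_sB_eq_tRes₁_inv (S : ChartSpec A hx ↥(F1C (kA A) M))
    (hS : CoeffChartG (F₀ := F1 M) (Fk := F1C (kA A) M) S) (hs : S.s = (t1 n e M hmem)⁻¹) :
    S.red S.sB = (tRes₁ n e M ℓ hmem A hA H)⁻¹ := by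
  apply Subtype.ext
  have hY : coeffMap A.subtype (Fermat.Agent.ES.RED.SpecialInv25.tqInv ↥A n e) =
      (((S.sB : ↥S.B) : ↥(laurentBaseChange Qbar (F1 M))) : LaurentSeries Qbar) := by
    rw [← coe_t1_inv n e M hmem A, ← hs]
    rfl
  rw [hS.red_eq S.sB _ hY, coe_tRes₁_inv]

/-- **`ChartInputsG` for the chart with coordinate `t`.** -/
theorem chartInputs_t (S : ChartSpec A hx ↥(F1C (kA A) M))
    (hS : CoeffChartG (F₀ := F1 M) (Fk := F1C (kA A) M) S) (hs : S.s = t1 n e M hmem)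
    (peel : ∀ (P : Place Qbar ↥(laurentBaseChange Qbar (F1 M))) (hP : S.InChart P),
      S.PeelA P hP) :
    ChartInputsG A (F1 M) (F1C (kA A) M) S := by
  have hred := red_sB_eq_tRes₁ n e M ℓ hmem A hA H S hS hs
  refine chartInputs_of_coeffChartG hS ?_ ?_ ?_ peel ?_
  · rw [hs]; exact H.isGen
  · rw [hred]; exact isGen_tRes₁ n e M ℓ hmem A hA H
  · rw [hred]; exact isSeparable_tRes₁ n e M ℓ hmem A hA H
  · rw [hred, hs, finrank_tRes₁_eq_degT]
    rfl

/-- **`ChartInputsG` for the chart with coordinate `t⁻¹`.** -/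
theorem chartInputs_t_inv (S : ChartSpec A hx ↥(F1C (kA A) M))
    (hS : CoeffChartG (F₀ := F1 M) (Fk := F1C (kA A) M) S) (hs : S.s = (t1 n e M hmem)⁻¹)
    (peel : ∀ (P : Place Qbar ↥(laurentBaseChange Qbar (F1 M))) (hP : S.InChart P),
      S.PeelA P hP) :
    ChartInputsG A (F1 M) (F1C (kA A) M) S := by
  have hred := red_sB_eq_tRes₁_inv n e M ℓ hmem A hA H S hS hs
  refine chartInputs_of_coeffChartG hS ?_ ?_ ?_ peel ?_
  · rw [hs]; exact isGen_t1_inv H.isGen
  · rw [hred]; exact isGen_tRes₁_inv n e M ℓ hmem A hA H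
  · rw [hred]; exact isSeparable_tRes₁_inv n e M ℓ hmem A hA H
  · rw [hred, hs, finrank_tRes₁_inv, finrank_t1_inv]

variable (T : TwoCharts A hx ↥(F1C (kA A) M))

/-- Both `ChartInputsG` for a concrete `TwoCharts`. -/
theorem chartInputs_both
    (hS0 : CoeffChartG (F₀ := F1 M) (Fk := F1C (kA A) M) T.S0)
    (hS1 : CoeffChartG (F₀ := F1 M) (Fk := F1C (kA A) M) T.S1)
    (hs0 : T.S0.s = t1 n e M hmem)
    (peel0 : ∀ (P : Place Qbar ↥(laurentBaseChange Qbar (F1 M))) (hP : T.S0.InChart P),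
      T.S0.PeelA P hP)
    (peel1 : ∀ (P : Place Qbar ↥(laurentBaseChange Qbar (F1 M))) (hP : T.S1.InChart P),
      T.S1.PeelA P hP) :
    ChartInputsG A (F1 M) (F1C (kA A) M) T.S0 ∧ ChartInputsG A (F1 M) (F1C (kA A) M) T.S1 :=
  ⟨chartInputs_t n e M ℓ hmem A hA H T.S0 hS0 hs0 peel0,
    chartInputs_t_inv n e M ℓ hmem A hA H T.S1 hS1 (by rw [T.s_inv, hs0]) peel1⟩

/-- The same with the coordinate given as `TGenOne7.tF1` (`ModelInstOne15.S0_s`). -/
theorem chartInputs_both_tF1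
    (hS0 : CoeffChartG (F₀ := F1 M) (Fk := F1C (kA A) M) T.S0)
    (hS1 : CoeffChartG (F₀ := F1 M) (Fk := F1C (kA A) M) T.S1)
    (hs0 : T.S0.s = Fermat.Agent.ES.R48.TGenOne7.tF1 n e M hmem)
    (peel0 : ∀ (P : Place Qbar ↥(laurentBaseChange Qbar (F1 M))) (hP : T.S0.InChart P),
      T.S0.PeelA P hP)
    (peel1 : ∀ (P : Place Qbar ↥(laurentBaseChange Qbar (F1 M))) (hP : T.S1.InChart P),
      T.S1.PeelA P hP) :
    ChartInputsG A (F1 M) (F1C (kA A) M) T.S0 ∧ ChartInputsG A (F1 M) (F1C (kA A) M) T.S1 :=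
  chartInputs_both n e M ℓ hmem A hA H T hS0 hS1 (hs0.trans (t1_eq_tF1 n e M hmem).symm)
    peel0 peel1

omit hA in
/-- `ℚ̄ · F1 M` has principal divisors (from the generator `t`). -/
theorem hasPrincipalDivisors_F1bar :
    HasPrincipalDivisors Qbar ↥(laurentBaseChange Qbar (F1 M)) :=
  Fermat.Agent.X0.FFGenus.hasPrincipalDivisors H.isGen

omit hA in
/-- all places of `ℚ̄ · F1 M` have degree one. -/
theorem deg_eq_one_F1bar (P : Place Qbar ↥(laurentBaseChange Qbar (F1 M))) : P.deg = 1 :=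
  FF.deg_eq_one H.isGen P

/-- **RED-Z₁, concrete**: the global reduction map of the two-chart model of `X₁(M)` is a place
reduction (`RedDefsG15.IsPlaceReductionAlong1`). -/
theorem isPlaceReduction_main
    (hS0 : CoeffChartG (F₀ := F1 M) (Fk := F1C (kA A) M) T.S0)
    (hS1 : CoeffChartG (F₀ := F1 M) (Fk := F1C (kA A) M) T.S1)
    (hs0 : T.S0.s = t1 n e M hmem)
    (peel0 : ∀ (P : Place Qbar ↥(laurentBaseChange Qbar (F1 M))) (hP : T.S0.InChart P),
      T.S0.PeelA P hP)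
    (peel1 : ∀ (P : Place Qbar ↥(laurentBaseChange Qbar (F1 M))) (hP : T.S1.InChart P),
      T.S1.PeelA P hP) :
    IsPlaceReductionAlong1 A (IsLocalRing.residue ↥A) M T.r := by
  have := hasPrincipalDivisors_F1bar n e M hmem A H
  exact isPlaceReductionModL_twoCharts T
    (chartInputs_both n e M ℓ hmem A hA H T hS0 hS1 hs0 peel0 peel1).1
    (chartInputs_both n e M ℓ hmem A hA H T hS0 hS1 hs0 peel0 peel1).2
    (deg_eq_one_F1bar n e M hmem A H)

/-- The same with the coordinate given as `TGenOne7.tF1`. -/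
theorem isPlaceReduction_main_tF1
    (hS0 : CoeffChartG (F₀ := F1 M) (Fk := F1C (kA A) M) T.S0)
    (hS1 : CoeffChartG (F₀ := F1 M) (Fk := F1C (kA A) M) T.S1)
    (hs0 : T.S0.s = Fermat.Agent.ES.R48.TGenOne7.tF1 n e M hmem)
    (peel0 : ∀ (P : Place Qbar ↥(laurentBaseChange Qbar (F1 M))) (hP : T.S0.InChart P),
      T.S0.PeelA P hP)
    (peel1 : ∀ (P : Place Qbar ↥(laurentBaseChange Qbar (F1 M))) (hP : T.S1.InChart P),
      T.S1.PeelA P hP) :
    IsPlaceReductionAlong1 A (IsLocalRing.residue ↥A) M T.r :=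
  isPlaceReduction_main n e M ℓ hmem A hA H T hS0 hS1 (hs0.trans (t1_eq_tF1 n e M hmem).symm)
    peel0 peel1

end Fermat.Agent.ES.R48.RedInstOne7
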