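/-
Programme R (S48, Deligne–Serre), chapter GEOM, sub-chapter G4 "CONG₁", layer L1b — helper21.
**(R3), generic Galois side, for `X₁(M)`**: the twin of `ES/RED/GaloisRed21` from `mapDomain_smul`
on (the sections `Decomposition` and `Chart` of the original are generic and imported AS-IS).

* `mapDomain_smulG`, `reductionPic0Along_smulG`, `reductionPic0Along_smul_of_fixedG`: equivariance
  of the reduction of divisors / divisor classes, for an ARBITRARY pair of function fields
  `F₀ ⊆ ℚ((q))`, `Fk ⊆ k((q))` (reduction maps of `RedDefsG15`);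
* `coeffSemi1_psiRes_of_mem_inertia`, `coeffSemi1_psiRes_of_isFrobeniusAt`: the semilinear
  automorphism of `F1C κ_A M` induced by an inertia element is trivial, the one induced by a
  Frobenius element is the coefficientwise Frobenius `frobSemi1`.

The section `R3` (`RedAt`, `redAt_smul`, `r_smul_eq`) of the original has no consumer and no twin.
-/
import Mathlib
import Fermat.Agent.ES.RED.GaloisRed21
import Fermat.Agent.ES.R48.RedDefsG15

set_option autoImplicit false
set_option linter.unusedSectionVars false

noncomputable section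

open HahnSeries IntermediateField AlgebraicCurve ModularCurve

namespace Fermat.Agent.ES.R48.GaloisRedOne21

open Fermat.Agent.ES.RED.GaloisRed21 Fermat.Agent.ES.R48.RedDefsG15
  Fermat.Agent.ES.R48.F1CDefs15

/-! ### Equivariance of the reduction of divisors and divisor classes -/

section Equivariance

variable {L : Type*} [Field L] [Algebra ℚ L] {A : ValuationSubring L}
variable {k : Type*} [Field k] {π : ↥A →+* k}
variable {F₀ : IntermediateField ℚ (LaurentSeries ℚ)} {Fk : IntermediateField k (LaurentSeries k)}
variable (r : Place L (laurentBaseChange L F₀) → Place k Fk)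

/-- if `r (g • P) = h • r P` for all places `P`, then `r_* (g • D) = h • r_* D` on divisors. -/
theorem mapDomain_smulG
    (g : SemilinearAut L (laurentBaseChange L F₀)) (h : SemilinearAut k Fk)
    (hgh : ∀ P, r (g • P) = h • r P)
    (D : Divisor L (laurentBaseChange L F₀)) :
    Finsupp.mapDomain r (g • D) = h • Finsupp.mapDomain r D := by
  rw [SemilinearAut.divisor_smul_def, SemilinearAut.divisor_smul_def, ← Finsupp.mapDomain_comp,
    ← Finsupp.mapDomain_comp]
  congr 1
  funext P
  exact hgh P

/-- if `r (g • P) = h • r P` for all places `P`, then the reduction map on `Pic⁰` intertwines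
`g` and `h`. -/
theorem reductionPic0Along_smulG (hr : IsPlaceReductionAlongG A π F₀ Fk r)
    (hgen : PrincipalGeneratedByIntegralG A π F₀ Fk)
    (g : SemilinearAut L (laurentBaseChange L F₀)) (h : SemilinearAut k Fk)
    (hgh : ∀ P, r (g • P) = h • r P)
    (x : Pic0 L (laurentBaseChange L F₀)) :
    reductionPic0AlongG r hr hgen (g • x) = h • reductionPic0AlongG r hr hgen x := by
  obtain ⟨D, rfl⟩ := Pic0.mk_surjective x
  rw [SemilinearAut.pic0_smul_mk, reductionPic0Along_mkG, reductionPic0Along_mkG,
    SemilinearAut.pic0_smul_mk]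
  congr 1
  apply Subtype.ext
  rw [coe_reductionDegZeroAlongG, SemilinearAut.coe_degZeroSMulHom,
    SemilinearAut.coe_degZeroSMulHom, coe_reductionDegZeroAlongG]
  exact mapDomain_smulG r g h hgh _

/-- the case `h = 1`: `r (g • P) = r P` for all `P` implies `red (g • x) = red x`. -/
theorem reductionPic0Along_smul_of_fixedG (hr : IsPlaceReductionAlongG A π F₀ Fk r)
    (hgen : PrincipalGeneratedByIntegralG A π F₀ Fk)
    (g : SemilinearAut L (laurentBaseChange L F₀))
    (hg : ∀ P, r (g • P) = r P)
    (x : Pic0 L (laurentBaseChange L F₀)) :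
    reductionPic0AlongG r hr hgen (g • x) = reductionPic0AlongG r hr hgen x := by
  have := reductionPic0Along_smulG r hr hgen g 1 (fun P => by rw [hg P, one_smul]) x
  rwa [one_smul] at this

end Equivariance

/-! ### The semilinear automorphisms of `F1C κ_A M` induced by the decomposition group -/

section One

variable {L : Type*} [Field L] [Algebra ℚ L] {A : ValuationSubring L} {M : ℕ}

set_option quotPrecheck false in
local notation "κ" => IsLocalRing.ResidueField (Subtype (Membership.mem A))

/-- inertia elements induce the trivial semilinear automorphism of the special fibre. -/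
theorem coeffSemi1_psiRes_of_mem_inertia {τ : L ≃ₐ[ℚ] L} (hτ : τ ∈ A.inertiaSubgroupIn ℚ) :
    ∃ h : τ ∈ A.decompositionSubgroup ℚ, coeffSemi1 κ M (psiRes A ⟨τ, h⟩) = 1 := by
  obtain ⟨h, hψ⟩ := psiRes_eq_one_of_mem_inertia A hτ
  refine ⟨h, ?_⟩
  rw [hψ]
  exact (coeffSemiHom1 κ M).map_one

/-- Frobenius elements induce the coefficientwise Frobenius of the special fibre. -/
theorem coeffSemi1_psiRes_of_isFrobeniusAt {σ : L ≃ₐ[ℚ] L} {ℓ : ℕ} [ExpChar κ ℓ] [PerfectField κ]
    (h : A.IsFrobeniusAt σ ℓ) :
    coeffSemi1 κ M (psiRes A ⟨σ, h.mem_decompositionSubgroup⟩) = frobSemi1 κ ℓ M := by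
  have : psiRes A ⟨σ, h.mem_decompositionSubgroup⟩ = frobeniusEquiv κ ℓ := by
    ext x
    rw [psiRes_of_isFrobeniusAt A h x, frobeniusEquiv_apply, frobenius_def]
  rw [this]
  rfl

end One

end Fermat.Agent.ES.R48.GaloisRedOne21
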