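/-
Programme R (S48, Deligne–Serre), chapter GEOM, sub-chapter G4 "CONG₁", layer L1b — helper21.
**(R3) for the global reduction map of `X₁(M)`** and its consequences on `Pic⁰`: the twin of the
sections `Modular` of `ES/RED/GaloisContract21` and `ES/RED/GaloisGlobal21` (the abstract parts —
`ChartSym`, `ChartSym.rPlace_smul`, `GaloisGlobal21.r_smul` — are generic and imported AS-IS), with
`modularFunctionFieldFullC κ_A M ↦ F1C κ_A M`, `coeffSemi ↦ coeffSemi1`, `frobSemi ↦ frobSemi1`,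
`reductionPic0Along ↦ reductionPic0AlongG`.

* `ofDecomposition1`: the chart symmetry induced by `g ∈ D_A` from elementary hypotheses;
* `rPlace_smul_of_mem_inertia1`, `rPlace_smul_of_isFrobeniusAt1` (one chart);
* `r_smul_decomposition1`, `r_smul_of_mem_inertia1` (`r (τ P) = r P`), `r_smul_of_isFrobeniusAt1`
  (`r (σ P) = Fr (r P)`) for `T : TwoCharts A hx (F1C κ_A M)`;
* on `Pic⁰`: `red_smul_of_mem_inertia1`, `red_smul_of_isFrobeniusAt1`;
* **(R3-δ)** `red_smul_of_chartSym`: for ANY pair `(g, h)` of semilinear automorphisms (e.g. the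
  diamond `δ` of `F1bar M`, `L`-linear, and its reduction `δ̃` on `F1C κ_A M`) which is a symmetry of
  both charts, `red (g • y) = h • red y` (`T.r (g • P) = h • T.r P` is `GaloisGlobal21.r_smul`).
-/
import Mathlib
import Fermat.Agent.ES.RED.GaloisGlobal21
import Fermat.Agent.ES.R48.GaloisRedOne21

set_option autoImplicit false
set_option linter.unusedSectionVars false

noncomputable section

open AlgebraicCurve

namespace Fermat.Agent.ES.R48.GaloisGlobalOne21

open Fermat.Agent.X0.FF Fermat.Agent.ES.RED.PlaceValue13 Fermat.Agent.ES.RED.Contract8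
  Fermat.Agent.ES.RED.TwoCharts8 Fermat.Agent.ES.RED.GaloisContract21
  Fermat.Agent.ES.RED.GaloisGlobal21
open ModularCurve HahnSeries Fermat.Agent.ES.RED.GaloisRed21
  Fermat.Agent.ES.R48.FF1Defs13 Fermat.Agent.ES.R48.F1CDefs15 Fermat.Agent.ES.R48.RedDefsG15
  Fermat.Agent.ES.R48.GaloisRedOne21

/-! ### One chart: the decomposition group of `A` -/

section Contract

variable {L : Type*} [Field L] [Algebra ℚ L] [IsAlgClosed L] {A : ValuationSubring L}
  {F₀ : IntermediateField ℚ (LaurentSeries ℚ)} {x : ↥(laurentBaseChange L F₀)} {hx : IsGen L x}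
  {M : ℕ}

/-- **the chart symmetry induced by `g ∈ D_A`**, from elementary hypotheses: `B` is stable under
the coefficientwise action of `g^{±1}`, the coordinate has `g`-invariant coefficients, and the
reduction commutes with the coefficientwise actions. -/
def ofDecomposition1
    (S : ChartSpec A hx ↥(F1C (kA A) M)) (g : A.decompositionSubgroup ℚ)
    (hB : ∀ b : ↥(laurentBaseChange L F₀), b ∈ S.B →
      arithmeticGalois F₀ (g : L ≃ₐ[ℚ] L) • b ∈ S.B)
    (hB' : ∀ b : ↥(laurentBaseChange L F₀), b ∈ S.B →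
      (arithmeticGalois F₀ (g : L ≃ₐ[ℚ] L))⁻¹ • b ∈ S.B)
    (hs : arithmeticGalois F₀ (g : L ≃ₐ[ℚ] L) • S.s = S.s)
    (hred : ∀ b : ↥S.B,
      ((S.red ⟨arithmeticGalois F₀ (g : L ≃ₐ[ℚ] L) • (b : ↥(laurentBaseChange L F₀)),
          hB b b.2⟩ : ↥(F1C (kA A) M)) : LaurentSeries (kA A)) =
        coeffMap ((psiRes A g : kA A ≃+* kA A) : kA A →+* kA A)
          ((S.red b : ↥(F1C (kA A) M)) : LaurentSeries (kA A))) :
    ChartSym S (arithmeticGalois F₀ (g : L ≃ₐ[ℚ] L)) (coeffSemi1 (kA A) M (psiRes A g)) where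
  τB :=
    { toFun := fun b => ⟨arithmeticGalois F₀ (g : L ≃ₐ[ℚ] L) • (b : ↥(laurentBaseChange L F₀)),
        hB b b.2⟩
      invFun := fun b => ⟨(arithmeticGalois F₀ (g : L ≃ₐ[ℚ] L))⁻¹ •
        (b : ↥(laurentBaseChange L F₀)), hB' b b.2⟩
      left_inv := fun b => Subtype.ext (inv_smul_smul _ _)
      right_inv := fun b => Subtype.ext (smul_inv_smul _ _) }
  coe_τB _ := rfl
  red_τB b := Subtype.ext (hred b)
  smul_s := hs
  base_mem a := (sigmaA A g a).2
  res_base _ := rfl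

variable (S : ChartSpec A hx ↥(F1C (kA A) M))

/-- **(R3) for inertia, one chart.** -/
theorem rPlace_smul_of_mem_inertia1 {τ : L ≃ₐ[ℚ] L} (hτ : τ ∈ A.inertiaSubgroupIn ℚ)
    (T : ∀ h : τ ∈ A.decompositionSubgroup ℚ,
      ChartSym S (arithmeticGalois F₀ τ) (coeffSemi1 (kA A) M (psiRes A ⟨τ, h⟩)))
    (P : Place L ↥(laurentBaseChange L F₀)) (hP : S.InChart P) (hval : S.Val P hP)
    (hne : S.rVS P hP hval ≠ ⊤) (hpir : IsPrincipalIdealRing ↥(S.rVS P hP hval))
    (hP' : S.InChart (arithmeticGalois F₀ τ • P)) (hval' : S.Val (arithmeticGalois F₀ τ • P) hP')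
    (hne' : S.rVS (arithmeticGalois F₀ τ • P) hP' hval' ≠ ⊤)
    (hpir' : IsPrincipalIdealRing ↥(S.rVS (arithmeticGalois F₀ τ • P) hP' hval')) :
    S.rPlace (arithmeticGalois F₀ τ • P) hP' hval' hne' hpir' = S.rPlace P hP hval hne hpir := by
  obtain ⟨h, h1⟩ := coeffSemi1_psiRes_of_mem_inertia (M := M) hτ
  have := (T h).rPlace_smul P hP hval hne hpir hP' hval' hne' hpir'
  rw [h1, one_smul] at this
  exact this

/-- **(R3) for Frobenius elements, one chart.** -/
theorem rPlace_smul_of_isFrobeniusAt1 {σ : L ≃ₐ[ℚ] L} {ℓ : ℕ} [ExpChar (kA A) ℓ]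
    [PerfectField (kA A)] (hσ : A.IsFrobeniusAt σ ℓ)
    (T : ChartSym S (arithmeticGalois F₀ σ)
      (coeffSemi1 (kA A) M (psiRes A ⟨σ, hσ.mem_decompositionSubgroup⟩)))
    (P : Place L ↥(laurentBaseChange L F₀)) (hP : S.InChart P) (hval : S.Val P hP)
    (hne : S.rVS P hP hval ≠ ⊤) (hpir : IsPrincipalIdealRing ↥(S.rVS P hP hval))
    (hP' : S.InChart (arithmeticGalois F₀ σ • P)) (hval' : S.Val (arithmeticGalois F₀ σ • P) hP')
    (hne' : S.rVS (arithmeticGalois F₀ σ • P) hP' hval' ≠ ⊤)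
    (hpir' : IsPrincipalIdealRing ↥(S.rVS (arithmeticGalois F₀ σ • P) hP' hval')) :
    S.rPlace (arithmeticGalois F₀ σ • P) hP' hval' hne' hpir' =
      frobSemi1 (kA A) ℓ M • S.rPlace P hP hval hne hpir := by
  have := T.rPlace_smul P hP hval hne hpir hP' hval' hne' hpir'
  rw [coeffSemi1_psiRes_of_isFrobeniusAt (M := M) hσ] at this
  exact this

end Contract

/-! ### The global reduction map -/

section Global

variable {L : Type*} [Field L] [Algebra ℚ L] [IsAlgClosed L] {A : ValuationSubring L}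
  {M : ℕ}
  {x : ↥(laurentBaseChange L (F1 M))} {hx : IsGen L x}
  (T : TwoCharts A hx ↥(F1C (kA A) M))
  [IsAlgClosed (kA A)] {xt : ↥(F1C (kA A) M)} (hxt : IsGen (kA A) xt)

include hxt in
/-- (R3) for `g ∈ D_A`. -/
theorem r_smul_decomposition1 (g : A.decompositionSubgroup ℚ)
    (T0 : ChartSym T.S0 (arithmeticGalois (F1 M) (g : L ≃ₐ[ℚ] L))
      (coeffSemi1 (kA A) M (psiRes A g)))
    (T1 : ChartSym T.S1 (arithmeticGalois (F1 M) (g : L ≃ₐ[ℚ] L))
      (coeffSemi1 (kA A) M (psiRes A g)))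
    (P : Place L ↥(laurentBaseChange L (F1 M))) :
    T.r (arithmeticGalois (F1 M) (g : L ≃ₐ[ℚ] L) • P) =
      coeffSemi1 (kA A) M (psiRes A g) • T.r P :=
  r_smul T hxt T0 T1 P

include hxt in
/-- **(R3) for inertia**: `r (τ P) = r P`. -/
theorem r_smul_of_mem_inertia1 {τ : L ≃ₐ[ℚ] L} (hτ : τ ∈ A.inertiaSubgroupIn ℚ)
    (T0 : ∀ h : τ ∈ A.decompositionSubgroup ℚ,
      ChartSym T.S0 (arithmeticGalois (F1 M) τ)
        (coeffSemi1 (kA A) M (psiRes A ⟨τ, h⟩)))
    (T1 : ∀ h : τ ∈ A.decompositionSubgroup ℚ,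
      ChartSym T.S1 (arithmeticGalois (F1 M) τ)
        (coeffSemi1 (kA A) M (psiRes A ⟨τ, h⟩)))
    (P : Place L ↥(laurentBaseChange L (F1 M))) :
    T.r (arithmeticGalois (F1 M) τ • P) = T.r P := by
  obtain ⟨h, h1⟩ := coeffSemi1_psiRes_of_mem_inertia (M := M) hτ
  have := r_smul T hxt (T0 h) (T1 h) P
  rw [h1, one_smul] at this
  exact this

include hxt in
/-- **(R3) for Frobenius elements**: `r (σ P) = Fr (r P)`. -/
theorem r_smul_of_isFrobeniusAt1 {σ : L ≃ₐ[ℚ] L} {ℓ : ℕ} [ExpChar (kA A) ℓ] [PerfectField (kA A)]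
    (hσ : A.IsFrobeniusAt σ ℓ)
    (T0 : ChartSym T.S0 (arithmeticGalois (F1 M) σ)
      (coeffSemi1 (kA A) M (psiRes A ⟨σ, hσ.mem_decompositionSubgroup⟩)))
    (T1 : ChartSym T.S1 (arithmeticGalois (F1 M) σ)
      (coeffSemi1 (kA A) M (psiRes A ⟨σ, hσ.mem_decompositionSubgroup⟩)))
    (P : Place L ↥(laurentBaseChange L (F1 M))) :
    T.r (arithmeticGalois (F1 M) σ • P) =
      frobSemi1 (kA A) ℓ M • T.r P := by
  have := r_smul T hxt T0 T1 P
  rw [coeffSemi1_psiRes_of_isFrobeniusAt (M := M) hσ] at this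
  exact this

/-! ### consequences on `Pic⁰` -/

include hxt in
/-- **(R3-δ)**: the reduction of divisor classes intertwines ANY pair `(g, h)` of semilinear
automorphisms which is a symmetry of both charts — e.g. a diamond automorphism of `F1bar M`
(`L`-linear) and its reduction on `F1C κ_A M`. -/
theorem red_smul_of_chartSym
    (hr : IsPlaceReductionAlong1 A (IsLocalRing.residue ↥A) M T.r)
    (hgen : PrincipalGeneratedByIntegral1 A (IsLocalRing.residue ↥A) M)
    {g : SemilinearAut L ↥(laurentBaseChange L (F1 M))}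
    {h : SemilinearAut (kA A) ↥(F1C (kA A) M)}
    (T0 : ChartSym T.S0 g h) (T1 : ChartSym T.S1 g h)
    (y : Pic0 L ↥(laurentBaseChange L (F1 M))) :
    reductionPic0AlongG T.r hr hgen (g • y) = h • reductionPic0AlongG T.r hr hgen y :=
  reductionPic0Along_smulG T.r hr hgen g h (fun P => r_smul T hxt T0 T1 P) y

include hxt in
/-- **(Φ1)-shape**: the reduction of divisor classes is inertia-invariant. -/
theorem red_smul_of_mem_inertia1
    (hr : IsPlaceReductionAlong1 A (IsLocalRing.residue ↥A) M T.r)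
    (hgen : PrincipalGeneratedByIntegral1 A (IsLocalRing.residue ↥A) M)
    {τ : L ≃ₐ[ℚ] L} (hτ : τ ∈ A.inertiaSubgroupIn ℚ)
    (T0 : ∀ h : τ ∈ A.decompositionSubgroup ℚ,
      ChartSym T.S0 (arithmeticGalois (F1 M) τ)
        (coeffSemi1 (kA A) M (psiRes A ⟨τ, h⟩)))
    (T1 : ∀ h : τ ∈ A.decompositionSubgroup ℚ,
      ChartSym T.S1 (arithmeticGalois (F1 M) τ)
        (coeffSemi1 (kA A) M (psiRes A ⟨τ, h⟩)))
    (y : Pic0 L ↥(laurentBaseChange L (F1 M))) :
    reductionPic0AlongG T.r hr hgen (τ • y) = reductionPic0AlongG T.r hr hgen y := by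
  rw [galois_smul_pic0_def]
  exact reductionPic0Along_smul_of_fixedG T.r hr hgen _
    (fun P => r_smul_of_mem_inertia1 T hxt hτ T0 T1 P) y

include hxt in
/-- the reduction of divisor classes intertwines a Frobenius element with the coefficientwise
Frobenius of the special fibre. -/
theorem red_smul_of_isFrobeniusAt1
    (hr : IsPlaceReductionAlong1 A (IsLocalRing.residue ↥A) M T.r)
    (hgen : PrincipalGeneratedByIntegral1 A (IsLocalRing.residue ↥A) M)
    {σ : L ≃ₐ[ℚ] L} {ℓ : ℕ} [ExpChar (kA A) ℓ] [PerfectField (kA A)]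
    (hσ : A.IsFrobeniusAt σ ℓ)
    (T0 : ChartSym T.S0 (arithmeticGalois (F1 M) σ)
      (coeffSemi1 (kA A) M (psiRes A ⟨σ, hσ.mem_decompositionSubgroup⟩)))
    (T1 : ChartSym T.S1 (arithmeticGalois (F1 M) σ)
      (coeffSemi1 (kA A) M (psiRes A ⟨σ, hσ.mem_decompositionSubgroup⟩)))
    (y : Pic0 L ↥(laurentBaseChange L (F1 M))) :
    reductionPic0AlongG T.r hr hgen (σ • y) =
      frobSemi1 (kA A) ℓ M • reductionPic0AlongG T.r hr hgen y := by
  rw [galois_smul_pic0_def]
  exact reductionPic0Along_smulG T.r hr hgen _ _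
    (fun P => r_smul_of_isFrobeniusAt1 T hxt hσ T0 T1 P) y

end Global

end Fermat.Agent.ES.R48.GaloisGlobalOne21
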