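/-
Programme R (S48, Deligne–Serre), chapter GEOM, sub-chapter G4 "CONG₁", layer L1b — helper21.
**(R3) for `X₁(M)`: the chart symmetries of the decomposition group for coefficientwise charts**
= the twin of `ES/RED/GaloisInst21` with `modularFunctionFieldFull M ↦ F1 M`,
`modularFunctionFieldFullC κ_A M ↦ F1C κ_A M`, `coeffSemi ↦ coeffSemi1`, `frobSemi ↦ frobSemi1`,
`reductionPic0Along ↦ reductionPic0AlongG` (`smul_mem_chart` and `arithmeticGalois_inv_coe` of the
original are generic and used AS-IS).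

`S : ChartSpec A hx Ft` at `F = L · F₀`, `Ft = F1C κ_A M`, such that
* the chart ring is the integral closure of `A[s]` (`hB : b ∈ S.B ↔ b ∈ chart ↥A S.s`),
* the coordinate `s` has rational (`g`-invariant) coefficients,
* every element of the chart ring has an `A`-integral `q`-expansion `Y`, and `red b` is the
  coefficientwise reduction of `Y`.
Then every `g ∈ D_A` gives a `ChartSym S (arithmeticGalois F₀ g) (coeffSemi1 κ_A M (psiRes A g))`
(`chartSymOfCoeff1`; `coeffChartSym1` from helper15's structure `ChartInputsOfG15.CoeffChartG` at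
`Fk := F1C κ_A M`, which replaces `GaloisInst21.CoeffChart`); consequently (R3) holds for the
global reduction map of two such charts
(`r_smul_of_mem_inertia1'`, `r_smul_of_isFrobeniusAt1'`, `red_smul_of_mem_inertia1'`,
`red_smul_of_isFrobeniusAt1'`).
-/
import Mathlib
import Fermat.Agent.ES.RED.GaloisInst21
import Fermat.Agent.ES.R48.GaloisGlobalOne21
import Fermat.Agent.ES.R48.ChartInputsOfG15

set_option autoImplicit false
set_option linter.unusedSectionVars false

noncomputable section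

open AlgebraicCurve ModularCurve HahnSeries

namespace Fermat.Agent.ES.R48.GaloisInstOne21

open Fermat.Agent.X0.FF Fermat.Agent.ES.RED.PlaceValue13 Fermat.Agent.ES.RED.Contract8
  Fermat.Agent.ES.RED.TwoCharts8 Fermat.Agent.ES.RED.GaloisContract21
  Fermat.Agent.ES.RED.GaloisRed21 Fermat.Agent.ES.RED.GaloisInst21
  Fermat.Agent.RED.PUR.ChartGeneric22
  Fermat.Agent.ES.R48.FF1Defs13 Fermat.Agent.ES.R48.F1CDefs15 Fermat.Agent.ES.R48.RedDefsG15
  Fermat.Agent.ES.R48.GaloisRedOne21 Fermat.Agent.ES.R48.GaloisGlobalOne21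
  Fermat.Agent.ES.R48.ChartInputsOfG15

variable {L : Type*} [Field L] [Algebra ℚ L] [IsAlgClosed L] {A : ValuationSubring L}
  {F₀ : IntermediateField ℚ (LaurentSeries ℚ)} {x : ↥(laurentBaseChange L F₀)} {hx : IsGen L x}
  {M : ℕ}

/-- **the chart symmetry of `g ∈ D_A` for a coefficientwise chart.** -/
def chartSymOfCoeff1 (S : ChartSpec A hx ↥(F1C (kA A) M))
    (hB : ∀ b : ↥(laurentBaseChange L F₀), b ∈ S.B ↔ b ∈ chart ↥A S.s)
    (hs : ∀ σ : L ≃ₐ[ℚ] L, arithmeticGalois F₀ σ • S.s = S.s)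
    (hint : ∀ b : ↥S.B, ∃ Y : LaurentSeries ↥A,
      coeffMap A.subtype Y = ((b : ↥(laurentBaseChange L F₀)) : LaurentSeries L))
    (hredY : ∀ (b : ↥S.B) (Y : LaurentSeries ↥A),
      coeffMap A.subtype Y = ((b : ↥(laurentBaseChange L F₀)) : LaurentSeries L) →
      ((S.red b : ↥(F1C (kA A) M)) : LaurentSeries (kA A)) =
        coeffMap (resA A) Y)
    (g : A.decompositionSubgroup ℚ) :
    ChartSym S (arithmeticGalois F₀ (g : L ≃ₐ[ℚ] L)) (coeffSemi1 (kA A) M (psiRes A g)) :=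
  ofDecomposition1 S g
    (fun b hb => (hB _).mpr (smul_mem_chart g (hs _) ((hB b).mp hb)))
    (fun b hb => by
      rw [arithmeticGalois_inv_coe]
      exact (hB _).mpr (smul_mem_chart g⁻¹ (hs _) ((hB b).mp hb)))
    (hs _)
    (fun b => by
      obtain ⟨Y, hY⟩ := hint b
      rw [hredY b Y hY, ← coeffMap_residue_sigmaA A g Y]
      refine hredY _ (coeffMap (sigmaA A g) Y) ?_
      rw [coeffMap_subtype_sigmaA, hY]
      rfl)

section Global

/-- the chart symmetry from a `ChartInputsOfG15.CoeffChartG` (helper15's generic structure: the four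
elementary facts about a chart needed for (R3)) at `Fk := F1C κ_A M`. -/
def coeffChartSym1 {S : ChartSpec A hx ↥(F1C (kA A) M)}
    (hS : CoeffChartG (F₀ := F₀) (Fk := F1C (kA A) M) S) (g : A.decompositionSubgroup ℚ) :
    ChartSym S (arithmeticGalois F₀ (g : L ≃ₐ[ℚ] L)) (coeffSemi1 (kA A) M (psiRes A g)) :=
  chartSymOfCoeff1 S hS.mem_iff hS.smul_s hS.exists_series hS.red_eq g

end Global

section Final

variable {L : Type*} [Field L] [Algebra ℚ L] [IsAlgClosed L] {A : ValuationSubring L}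
  {M : ℕ}
  {x : ↥(laurentBaseChange L (F1 M))} {hx : IsGen L x}
  (T : TwoCharts A hx ↥(F1C (kA A) M))
  [IsAlgClosed (kA A)] {xt : ↥(F1C (kA A) M)} (hxt : IsGen (kA A) xt)
  (h0 : CoeffChartG (F₀ := F1 M) (Fk := F1C (kA A) M) T.S0)
  (h1 : CoeffChartG (F₀ := F1 M) (Fk := F1C (kA A) M) T.S1)

include hxt h0 h1 in
/-- **(R3), inertia**: `r (τ P) = r P` for the global reduction map of two coefficientwise
charts. -/
theorem r_smul_of_mem_inertia1' {τ : L ≃ₐ[ℚ] L} (hτ : τ ∈ A.inertiaSubgroupIn ℚ)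
    (P : Place L ↥(laurentBaseChange L (F1 M))) :
    T.r (arithmeticGalois (F1 M) τ • P) = T.r P :=
  r_smul_of_mem_inertia1 T hxt hτ (fun h => coeffChartSym1 h0 ⟨τ, h⟩)
    (fun h => coeffChartSym1 h1 ⟨τ, h⟩) P

include hxt h0 h1 in
/-- **(R3), Frobenius**: `r (σ P) = Fr (r P)`. -/
theorem r_smul_of_isFrobeniusAt1' {σ : L ≃ₐ[ℚ] L} {ℓ : ℕ} [ExpChar (kA A) ℓ]
    [PerfectField (kA A)] (hσ : A.IsFrobeniusAt σ ℓ)
    (P : Place L ↥(laurentBaseChange L (F1 M))) :
    T.r (arithmeticGalois (F1 M) σ • P) =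
      frobSemi1 (kA A) ℓ M • T.r P :=
  r_smul_of_isFrobeniusAt1 T hxt hσ (coeffChartSym1 h0 ⟨σ, hσ.mem_decompositionSubgroup⟩)
    (coeffChartSym1 h1 ⟨σ, hσ.mem_decompositionSubgroup⟩) P

include hxt h0 h1 in
/-- **(R3), decomposition group**: `r (g P) = g̃ (r P)`. -/
theorem r_smul_decomposition1' (g : A.decompositionSubgroup ℚ)
    (P : Place L ↥(laurentBaseChange L (F1 M))) :
    T.r (arithmeticGalois (F1 M) (g : L ≃ₐ[ℚ] L) • P) =
      coeffSemi1 (kA A) M (psiRes A g) • T.r P :=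
  r_smul_decomposition1 T hxt g (coeffChartSym1 h0 g) (coeffChartSym1 h1 g) P

include hxt h0 h1 in
/-- **(Φ1)-shape**: inertia-invariance of the reduction of divisor classes. -/
theorem red_smul_of_mem_inertia1'
    (hr : IsPlaceReductionAlong1 A (IsLocalRing.residue ↥A) M T.r)
    (hgen : PrincipalGeneratedByIntegral1 A (IsLocalRing.residue ↥A) M)
    {τ : L ≃ₐ[ℚ] L} (hτ : τ ∈ A.inertiaSubgroupIn ℚ)
    (y : Pic0 L ↥(laurentBaseChange L (F1 M))) :
    reductionPic0AlongG T.r hr hgen (τ • y) = reductionPic0AlongG T.r hr hgen y :=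
  red_smul_of_mem_inertia1 T hxt hr hgen hτ (fun h => coeffChartSym1 h0 ⟨τ, h⟩)
    (fun h => coeffChartSym1 h1 ⟨τ, h⟩) y

include hxt h0 h1 in
/-- Frobenius-equivariance of the reduction of divisor classes. -/
theorem red_smul_of_isFrobeniusAt1'
    (hr : IsPlaceReductionAlong1 A (IsLocalRing.residue ↥A) M T.r)
    (hgen : PrincipalGeneratedByIntegral1 A (IsLocalRing.residue ↥A) M)
    {σ : L ≃ₐ[ℚ] L} {ℓ : ℕ} [ExpChar (kA A) ℓ] [PerfectField (kA A)]
    (hσ : A.IsFrobeniusAt σ ℓ)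
    (y : Pic0 L ↥(laurentBaseChange L (F1 M))) :
    reductionPic0AlongG T.r hr hgen (σ • y) =
      frobSemi1 (kA A) ℓ M • reductionPic0AlongG T.r hr hgen y :=
  red_smul_of_isFrobeniusAt1 T hxt hr hgen hσ (coeffChartSym1 h0 ⟨σ, hσ.mem_decompositionSubgroup⟩)
    (coeffChartSym1 h1 ⟨σ, hσ.mem_decompositionSubgroup⟩) y

end Final

end Fermat.Agent.ES.R48.GaloisInstOne21
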