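/-
Programme R (S48, Deligne–Serre), chapter GEOM, sub-chapter G4 "CONG₁" (helper24): the Kronecker
DIVISOR identity for `X₁(M)` on ALL principal divisors, torsion route.

`δ : SemilinearAut ℚbar (F1bar M)` is the (characteristic zero) diamond `⟨p⟩`.  The generators:

* `IPδ A π M δ` : divisors `D = div y` of an `A`-integral `y ∈ F1bar M` with non-zero reduction in
  `F1C k M` such that a scalar multiple `y' = c · (δ • y)` is again `A`-integral with non-zero
  reduction in `F1C k M`;
* `PrincipalGeneratedByIntegralδ A π M δ` **(Dgen)**: the principal divisors of `F1bar M` lie in the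
  subgroup generated by `IPδ`.  (NOT every integral `y` qualifies: `δ • y` may have unbounded
  denominators; but the bounded-denominator elements whose `δ`-translate is bounded too form a
  subring containing the generators `j(q^d)`, `W_c`, which is enough — see `GaussUnitOne24`.)

Results (`Fr = frobPlace1 k p M`, `r` a place reduction (R2), `NormConj1 M p (δ • ·)`):

* `map_hecke_of_mem_IPδ`, `map_hecke_of_mem_closure`, **`map_hecke_of_principal`** :
  `r_* (T_p D) = Fr_* (r_* (δ • D)) + p • Fr⁻¹_* (r_* D)` for `D ∈ IPδ`, its closure, every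
  principal `D` (under (Dgen));
* `map_hecke_of_smul_principal` : the same for every `D` with `m • D` principal, `m ≠ 0`
  (divisor groups are torsion-free) — the form used on torsion classes.
-/
import Mathlib
import Fermat.Agent.ES.R48.KronMainOne24

set_option autoImplicit false
set_option linter.unusedSectionVars false

open ModularCurve AlgebraicCurve HahnSeries IntermediateField

noncomputable section

namespace Fermat.Agent.ES.R48.KronDgen24

open Fermat.Agent.X0
open Fermat.Agent.ES.R48.FF1Defs13
open Fermat.Agent.ES.R48.F1CDefs15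
open Fermat.Agent.ES.R48.RedDefsG15
open Fermat.Agent.ES.R48.KronMainOne24

section Defs

variable (A : ValuationSubring Kbar) {k : Type*} [Field k] (π : A →+* k) (M : ℕ)
  (δ : SemilinearAut Kbar ↥(laurentBaseChange Kbar (F1 M)))

/-- the integral principal divisors whose `δ`-translate is integral too (up to a constant). -/
def IPδ : Set (Divisor Kbar ↥(laurentBaseChange Kbar (F1 M))) :=
  {D | ∃ (y y' : LaurentSeries A) (hy : coeffMap A.subtype y ∈ laurentBaseChange Kbar (F1 M))
      (c : Kbar), c ≠ 0 ∧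
      coeffMap π y ∈ F1C k M ∧ coeffMap π y ≠ 0 ∧ coeffMap π y' ∈ F1C k M ∧ coeffMap π y' ≠ 0 ∧
      coeffMap A.subtype y' = HahnSeries.C c *
        ((δ • (⟨coeffMap A.subtype y, hy⟩ : ↥(laurentBaseChange Kbar (F1 M))) :
          ↥(laurentBaseChange Kbar (F1 M))) : LaurentSeries Kbar) ∧
      ∀ P, D P = P.ord (⟨coeffMap A.subtype y, hy⟩ : ↥(laurentBaseChange Kbar (F1 M)))}

/-- **(Dgen)**: the principal divisors are generated by `IPδ`. -/
def PrincipalGeneratedByIntegralδ : Prop :=
  Divisor.principal (K := Kbar) (F := ↥(laurentBaseChange Kbar (F1 M))) ≤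
    AddSubgroup.closure (IPδ A π M δ)

end Defs

section Finsupp

variable {α β : Type*}

theorem mapDomain_neg' (g : α → β) (x : α →₀ ℤ) :
    Finsupp.mapDomain g (-x) = -Finsupp.mapDomain g x := by
  rw [← Finsupp.mapDomain.addMonoidHom_apply, map_neg, Finsupp.mapDomain.addMonoidHom_apply]

theorem mapDomain_zsmul' (g : α → β) (m : ℤ) (x : α →₀ ℤ) :
    Finsupp.mapDomain g (m • x) = m • Finsupp.mapDomain g x := by
  rw [← Finsupp.mapDomain.addMonoidHom_apply, map_zsmul, Finsupp.mapDomain.addMonoidHom_apply]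

end Finsupp

section Main

variable (M p : ℕ) [NeZero M] [NeZero p] [hp : Fact p.Prime]
variable (A : ValuationSubring Kbar) {k : Type*} [Field k] [CharP k p] [PerfectField k]
  (π : A →+* k) (δ : SemilinearAut Kbar ↥(laurentBaseChange Kbar (F1 M)))

/-- `div (c · (δ • f)) = δ • div f`. -/
theorem ord_C_mul_smul (f : ↥(laurentBaseChange Kbar (F1 M))) {c : Kbar} (hc : c ≠ 0)
    (D : Divisor Kbar ↥(laurentBaseChange Kbar (F1 M))) (hD : ∀ P, D P = P.ord f)
    (P : Place Kbar ↥(laurentBaseChange Kbar (F1 M))) :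
    (δ • D) P = P.ord (algebraMap Kbar ↥(laurentBaseChange Kbar (F1 M)) c * (δ • f)) := by
  rw [SemilinearAut.divisor_smul_apply, hD]
  have h := SemilinearAut.ord_smul δ (δ⁻¹ • P) f
  rw [smul_inv_smul] at h
  by_cases hf : f = 0
  · rw [hf, smul_zero, mul_zero]
    simp [Place.ord]
  · have hδf : δ • f ≠ 0 := by
      intro h0
      apply hf
      have := congrArg (fun x => δ⁻¹ • x) h0
      simpa using this
    rw [P.ord_mul ((_root_.map_ne_zero _).mpr hc) hδf, Fermat.Agent.X0.FF.ord_algebraMap, zero_add,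
      h]

/-- **The Kronecker divisor identity on the generators.** -/
theorem map_hecke_of_mem_IPδ (hδ : NormConj1 M p (fun f => δ • f))
    (hα : HeckeOneAlphaBarIntegral M p Kbar) (hβ : HeckeOneBetaBarIntegral M p Kbar)
    [HasPrincipalDivisors Kbar (laurentBaseChange Kbar (F1p M p))]
    (hfin : FiniteAlong Kbar (heckeOneAlphaBar M p Kbar))
    (hN : NormFormulaAlong Kbar (heckeOneAlphaBar M p Kbar) hfin)
    {r : Place Kbar (laurentBaseChange Kbar (F1 M)) → Place k (F1C k M)}
    (hr : IsPlaceReductionAlong1 A π M r)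
    {D : Divisor Kbar ↥(laurentBaseChange Kbar (F1 M))} (hD : D ∈ IPδ A π M δ) :
    Finsupp.mapDomain r (heckeOneDivBar hα hβ D) =
      Finsupp.mapDomain (frobPlace1 k p M) (Finsupp.mapDomain r (δ • D)) +
        (p : ℤ) • Finsupp.mapDomain (frobPlace1 k p M).symm (Finsupp.mapDomain r D) := by
  obtain ⟨y, y', hy, c, hc, hyk, hne, hyk', hne', hy', hDy⟩ := hD
  set f : ↥(laurentBaseChange Kbar (F1 M)) := ⟨coeffMap A.subtype y, hy⟩ with hf
  have hcoe : ((algebraMap Kbar ↥(laurentBaseChange Kbar (F1 M)) c * (δ • f) :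
      ↥(laurentBaseChange Kbar (F1 M))) : LaurentSeries Kbar) =
      HahnSeries.C c * ((δ • f : ↥(laurentBaseChange Kbar (F1 M))) : LaurentSeries Kbar) := by
    push_cast
    congr 1
    exact algebraMap_laurentSeries_eq_single (L := Kbar) c
  have hy'mem : coeffMap A.subtype y' ∈ laurentBaseChange Kbar (F1 M) := by
    rw [hy', ← hcoe]
    exact Subtype.property _
  have hy'elt : (⟨coeffMap A.subtype y', hy'mem⟩ : ↥(laurentBaseChange Kbar (F1 M))) =
      algebraMap Kbar ↥(laurentBaseChange Kbar (F1 M)) c * (δ • f) :=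
    Subtype.ext (hy'.trans hcoe.symm)
  ext Q
  rw [map_hecke_principal_of_normConj_smul M p A π hδ hα hβ hfin hN hr y y' hy hyk hne hyk' hne'
    c hc hy' D hDy Q, Finsupp.add_apply, Finsupp.smul_apply, Finsupp.mapDomain_equiv_apply,
    Finsupp.mapDomain_equiv_apply, Equiv.symm_symm, smul_eq_mul]
  congr 1
  · refine (hr.2 y' hy'mem hyk' hne' (δ • D) (fun P => ?_) _).symm
    rw [hy'elt]
    exact ord_C_mul_smul M δ f hc D hDy P
  · rw [hr.2 y hy hyk hne D hDy]

/-- both sides of the identity are additive: it holds on the subgroup generated by `IPδ`. -/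
theorem map_hecke_of_mem_closure (hδ : NormConj1 M p (fun f => δ • f))
    (hα : HeckeOneAlphaBarIntegral M p Kbar) (hβ : HeckeOneBetaBarIntegral M p Kbar)
    [HasPrincipalDivisors Kbar (laurentBaseChange Kbar (F1p M p))]
    (hfin : FiniteAlong Kbar (heckeOneAlphaBar M p Kbar))
    (hN : NormFormulaAlong Kbar (heckeOneAlphaBar M p Kbar) hfin)
    {r : Place Kbar (laurentBaseChange Kbar (F1 M)) → Place k (F1C k M)}
    (hr : IsPlaceReductionAlong1 A π M r)
    {D : Divisor Kbar ↥(laurentBaseChange Kbar (F1 M))}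
    (hD : D ∈ AddSubgroup.closure (IPδ A π M δ)) :
    Finsupp.mapDomain r (heckeOneDivBar hα hβ D) =
      Finsupp.mapDomain (frobPlace1 k p M) (Finsupp.mapDomain r (δ • D)) +
        (p : ℤ) • Finsupp.mapDomain (frobPlace1 k p M).symm (Finsupp.mapDomain r D) := by
  induction hD using AddSubgroup.closure_induction with
  | mem E hE => exact map_hecke_of_mem_IPδ M p A π δ hδ hα hβ hfin hN hr hE
  | zero => simp
  | add E E' _ _ hE hE' =>
    rw [map_add, smul_add, Finsupp.mapDomain_add, Finsupp.mapDomain_add, Finsupp.mapDomain_add,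
      Finsupp.mapDomain_add, Finsupp.mapDomain_add, hE, hE', smul_add]
    abel
  | neg E _ hE =>
    rw [map_neg, smul_neg, mapDomain_neg', mapDomain_neg', mapDomain_neg', mapDomain_neg',
      mapDomain_neg', hE, smul_neg, neg_add]

/-- **The Kronecker divisor identity on all principal divisors**, under (Dgen). -/
theorem map_hecke_of_principal (hgen : PrincipalGeneratedByIntegralδ A π M δ)
    (hδ : NormConj1 M p (fun f => δ • f))
    (hα : HeckeOneAlphaBarIntegral M p Kbar) (hβ : HeckeOneBetaBarIntegral M p Kbar)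
    [HasPrincipalDivisors Kbar (laurentBaseChange Kbar (F1p M p))]
    (hfin : FiniteAlong Kbar (heckeOneAlphaBar M p Kbar))
    (hN : NormFormulaAlong Kbar (heckeOneAlphaBar M p Kbar) hfin)
    {r : Place Kbar (laurentBaseChange Kbar (F1 M)) → Place k (F1C k M)}
    (hr : IsPlaceReductionAlong1 A π M r)
    {D : Divisor Kbar ↥(laurentBaseChange Kbar (F1 M))}
    (hD : D ∈ Divisor.principal (K := Kbar) (F := ↥(laurentBaseChange Kbar (F1 M)))) :
    Finsupp.mapDomain r (heckeOneDivBar hα hβ D) =
      Finsupp.mapDomain (frobPlace1 k p M) (Finsupp.mapDomain r (δ • D)) +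
        (p : ℤ) • Finsupp.mapDomain (frobPlace1 k p M).symm (Finsupp.mapDomain r D) :=
  map_hecke_of_mem_closure M p A π δ hδ hα hβ hfin hN hr (hgen hD)

/-- **The Kronecker divisor identity for divisors with torsion class**: if `m • D` is principal,
`m ≠ 0`, the identity holds at `D` (divisor groups are torsion-free). -/
theorem map_hecke_of_smul_principal (hgen : PrincipalGeneratedByIntegralδ A π M δ)
    (hδ : NormConj1 M p (fun f => δ • f))
    (hα : HeckeOneAlphaBarIntegral M p Kbar) (hβ : HeckeOneBetaBarIntegral M p Kbar)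
    [HasPrincipalDivisors Kbar (laurentBaseChange Kbar (F1p M p))]
    (hfin : FiniteAlong Kbar (heckeOneAlphaBar M p Kbar))
    (hN : NormFormulaAlong Kbar (heckeOneAlphaBar M p Kbar) hfin)
    {r : Place Kbar (laurentBaseChange Kbar (F1 M)) → Place k (F1C k M)}
    (hr : IsPlaceReductionAlong1 A π M r)
    {D : Divisor Kbar ↥(laurentBaseChange Kbar (F1 M))} {m : ℤ} (hm : m ≠ 0)
    (hD : m • D ∈ Divisor.principal (K := Kbar) (F := ↥(laurentBaseChange Kbar (F1 M)))) :
    Finsupp.mapDomain r (heckeOneDivBar hα hβ D) =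
      Finsupp.mapDomain (frobPlace1 k p M) (Finsupp.mapDomain r (δ • D)) +
        (p : ℤ) • Finsupp.mapDomain (frobPlace1 k p M).symm (Finsupp.mapDomain r D) := by
  have h := map_hecke_of_principal M p A π δ hgen hδ hα hβ hfin hN hr hD
  rw [map_zsmul, smul_comm δ m D, mapDomain_zsmul', mapDomain_zsmul', mapDomain_zsmul',
    mapDomain_zsmul', mapDomain_zsmul', smul_comm (p : ℤ) m, ← smul_add] at h
  ext Q
  have hQ := congrArg (fun E : Divisor k ↥(F1C k M) => E Q) h
  simp only [Finsupp.smul_apply, smul_eq_mul] at hQ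
  exact mul_left_cancel₀ hm hQ

end Main

end Fermat.Agent.ES.R48.KronDgen24
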