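/-
Programme R (S48, Deligne–Serre), chapter GEOM, sub-chapter G4 "CONG₁" (helper24):
**(Dgen)** and **(Rgen)₁** for `X₁(M)`.

`A ⊂ ℚbar` a valuation ring over `ℓ`, `E = ℚbar · F1 M`, `τ` the diamond automorphism `⟨e⟩` of `E`
(`JOneOps13.IsDiamondBar`), and the hypothesis

* **(Rmem)** `∀ Y : A((q)), Y ∈ E → (Y mod 𝔪_A) ∈ F1C (Res A) M`  (Layer 2: (GB2)₁ at the `ℚbar`
  level, twin of `RedMem16.coeffMap_residue_mem_fullC`).

Then

* `isIntFracτ_all` : every `f ∈ E` is a quotient `x / y` of elements `x, y ∈ E ∩ A((q))` whose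
  `τ`-translates are in `A((q))` too (the `A`-integral elements with `A`-integral translate form a
  subring containing `A`, the `j(q^d)` (fixed by `τ`) and the `W_c` (`τ W_c = W_{ec}`));
* `exists_content` : a nonzero `a ∈ A((q))` lying in `E` is `u · a₀`, `u ∈ A \ {0}`, `a₀ ∈ A((q))`
  with NONZERO reduction (finite descent: the coefficients of `a` lie in a number field `K`, and
  `A ∩ K` is a DVR);
* **`principalGeneratedByIntegralδ`** : `KronDgen24.PrincipalGeneratedByIntegralδ A (residue A) M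
  (SemilinearAut.ofAlgAut τ)` (Dgen);
* **`principalGeneratedByIntegral1`** : `RedDefsG15.PrincipalGeneratedByIntegral1 A (residue A) M`
  (Rgen)₁ (no diamond needed).
-/
import Mathlib
import Fermat.Agent.ES.R48.KronDgen24
import Fermat.Agent.ES.R48.JOneOps13
import Fermat.Agent.ES.RED.GaussUnit25
import Fermat.Agent.RED.DESC.UnifDescent14
import Fermat.Agent.RED.PUR.GaussBridge10

set_option autoImplicit false
set_option linter.unusedSectionVars false
set_option linter.style.haveILetI false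

open ModularCurve AlgebraicCurve HahnSeries IntermediateField

noncomputable section

namespace Fermat.Agent.ES.R48.GaussUnitOne24

open Fermat.Agent.X0
open Fermat.Agent.ES.R48.FF1Defs13
open Fermat.Agent.ES.R48.F1CDefs15
open Fermat.Agent.ES.R48.RedDefsG15
open Fermat.Agent.ES.R48.JOneOps13
open Fermat.Agent.ES.R48.KronDgen24
open Fermat.Agent.RED.PUR.GaussGen8
open Fermat.Agent.RED.PUR
open Fermat.Agent.RED.Interface4 Fermat.Agent.RED.DESC Fermat.Agent.RED.DESC.NumberFieldDVR27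

/-! ### Base change of constants for `F1 M` -/

section BaseChange

variable (L : Type*) [Field L] [Algebra ℚ L] (M : ℕ)

theorem image_wExpansions :
    (coeffEmb L) '' (wExpansions M) = wExpansionsC L M := by
  ext y
  constructor
  · rintro ⟨x, ⟨c, rfl⟩, rfl⟩
    exact ⟨c, (coeffMap_wqC (R := ℚ) M (c : ZMod M) (algebraMap ℚ L)).symm⟩
  · rintro ⟨c, rfl⟩
    exact ⟨wq M (c : ZMod M), ⟨c, rfl⟩, coeffMap_wqC (R := ℚ) M (c : ZMod M) (algebraMap ℚ L)⟩

/-- `L · F1 M = L(j(q^d), W_c)` inside `L((q))`. -/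
theorem laurentBaseChange_F1_eq : laurentBaseChange L (F1 M) = F1C L M := by
  have himg : (coeffEmb L) '' (divisorExpansions M ∪ wExpansions M) =
      divisorExpansionsC L M ∪ wExpansionsC L M := by
    rw [Set.image_union, image_wExpansions]
    congr 1
    exact DegBaseChange25.image_divisorExpansionsC (k := ℚ) (algebraMap ℚ L) M
  apply le_antisymm
  · rw [laurentBaseChange, adjoin_le_iff]
    rintro _ ⟨x, hx, rfl⟩
    have := DegBaseChange25.map_mem_adjoin (algebraMap ℚ L) (coeffEmb L)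
      (DegBaseChange25.coeffMap_algebraMap' (algebraMap ℚ L)) (divisorExpansions M ∪ wExpansions M) hx
    rw [himg] at this
    exact this
  · rw [F1C, ← himg, laurentBaseChange]
    exact adjoin.mono L _ _ (Set.image_mono (subset_adjoin ℚ _))

end BaseChange

/-! ### Integral elements with integral translate -/

section IntTau

variable (A : ValuationSubring Kbar) {M : ℕ}
  (τ : ↥(laurentBaseChange Kbar (F1 M)) ≃ₐ[Kbar] ↥(laurentBaseChange Kbar (F1 M)))

/-- `x ∈ A((q))` and `τ x ∈ A((q))`. -/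
def IsIntτ (x : ↥(laurentBaseChange Kbar (F1 M))) : Prop :=
  ∃ a a' : LaurentSeries ↥A, coeffMap A.subtype a = (x : LaurentSeries Kbar) ∧
    coeffMap A.subtype a' = ((τ x : ↥(laurentBaseChange Kbar (F1 M))) : LaurentSeries Kbar)

theorem isIntτ_zero : IsIntτ A τ 0 :=
  ⟨0, 0, by rw [map_zero]; rfl, by rw [map_zero, map_zero]; rfl⟩

theorem isIntτ_one : IsIntτ A τ 1 :=
  ⟨1, 1, by rw [map_one]; rfl, by rw [map_one, map_one]; rfl⟩

theorem isIntτ_algebraMap (c : ↥A) :
    IsIntτ A τ (algebraMap Kbar ↥(laurentBaseChange Kbar (F1 M)) (c : Kbar)) := by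
  refine ⟨HahnSeries.C c, HahnSeries.C c, ?_, ?_⟩
  · rw [GaussGen8.coeffMap_C]
    show _ = algebraMap Kbar (LaurentSeries Kbar) (c : Kbar)
    rw [algebraMap_eq_C (K := Kbar)]
    rfl
  · rw [τ.commutes, GaussGen8.coeffMap_C]
    show _ = algebraMap Kbar (LaurentSeries Kbar) (c : Kbar)
    rw [algebraMap_eq_C (K := Kbar)]
    rfl

variable {A τ}

theorem IsIntτ.add {x y : ↥(laurentBaseChange Kbar (F1 M))} (hx : IsIntτ A τ x)
    (hy : IsIntτ A τ y) : IsIntτ A τ (x + y) := by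
  obtain ⟨a, a', h, h'⟩ := hx
  obtain ⟨b, b', g, g'⟩ := hy
  refine ⟨a + b, a' + b', ?_, ?_⟩
  · rw [map_add, h, g]; rfl
  · rw [map_add, map_add, h', g']; rfl

theorem IsIntτ.mul {x y : ↥(laurentBaseChange Kbar (F1 M))} (hx : IsIntτ A τ x)
    (hy : IsIntτ A τ y) : IsIntτ A τ (x * y) := by
  obtain ⟨a, a', h, h'⟩ := hx
  obtain ⟨b, b', g, g'⟩ := hy
  refine ⟨a * b, a' * b', ?_, ?_⟩
  · rw [map_mul, h, g]; rfl
  · rw [map_mul, map_mul, h', g']; rfl

variable (A τ)

/-- `f = x / y` with `x, y` integral with integral translates. -/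
def IsIntFracτ (f : ↥(laurentBaseChange Kbar (F1 M))) : Prop :=
  ∃ x y : ↥(laurentBaseChange Kbar (F1 M)), y ≠ 0 ∧ IsIntτ A τ x ∧ IsIntτ A τ y ∧ f * y = x

variable {A τ}

theorem isIntFracτ_of_isIntτ {x : ↥(laurentBaseChange Kbar (F1 M))} (hx : IsIntτ A τ x) :
    IsIntFracτ A τ x :=
  ⟨x, 1, one_ne_zero, hx, isIntτ_one A τ, mul_one x⟩

variable (A τ) in
theorem isIntFracτ_algebraMap (c : Kbar) :
    IsIntFracτ A τ (algebraMap Kbar ↥(laurentBaseChange Kbar (F1 M)) c) := by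
  rcases A.mem_or_inv_mem c with hc | hc
  · exact isIntFracτ_of_isIntτ (isIntτ_algebraMap A τ ⟨c, hc⟩)
  · by_cases hc0 : c = 0
    · rw [hc0, map_zero]
      exact isIntFracτ_of_isIntτ (isIntτ_zero A τ)
    · refine ⟨1, algebraMap Kbar _ c⁻¹, ?_, isIntτ_one A τ, isIntτ_algebraMap A τ ⟨c⁻¹, hc⟩, ?_⟩
      · rw [Ne, map_eq_zero]
        exact inv_ne_zero hc0
      · rw [← map_mul, mul_inv_cancel₀ hc0, map_one]

theorem IsIntFracτ.add {f g : ↥(laurentBaseChange Kbar (F1 M))} (hf : IsIntFracτ A τ f)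
    (hg : IsIntFracτ A τ g) : IsIntFracτ A τ (f + g) := by
  obtain ⟨x, y, hy, hx, hyi, h⟩ := hf
  obtain ⟨x', y', hy', hx', hyi', h'⟩ := hg
  refine ⟨x * y' + x' * y, y * y', mul_ne_zero hy hy', (hx.mul hyi').add (hx'.mul hyi),
    hyi.mul hyi', ?_⟩
  rw [← h, ← h']; ring

theorem IsIntFracτ.mul {f g : ↥(laurentBaseChange Kbar (F1 M))} (hf : IsIntFracτ A τ f)
    (hg : IsIntFracτ A τ g) : IsIntFracτ A τ (f * g) := by
  obtain ⟨x, y, hy, hx, hyi, h⟩ := hf
  obtain ⟨x', y', hy', hx', hyi', h'⟩ := hg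
  refine ⟨x * x', y * y', mul_ne_zero hy hy', hx.mul hx', hyi.mul hyi', ?_⟩
  rw [← h, ← h']; ring

theorem IsIntFracτ.inv {f : ↥(laurentBaseChange Kbar (F1 M))} (hf : IsIntFracτ A τ f) :
    IsIntFracτ A τ f⁻¹ := by
  obtain ⟨x, y, hy, hx, hyi, h⟩ := hf
  by_cases hx0 : x = 0
  · rw [hx0] at h
    have hf0 : f = 0 := (mul_eq_zero.mp h).resolve_right hy
    rw [hf0, inv_zero]
    exact isIntFracτ_of_isIntτ (isIntτ_zero A τ)
  · have hf0 : f ≠ 0 := by
      rintro rfl
      rw [zero_mul] at h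
      exact hx0 h.symm
    refine ⟨y, x, hx0, hyi, hx, ?_⟩
    rw [← h]
    field_simp

end IntTau

/-! ### The generators -/

section Generators

variable (A : ValuationSubring Kbar) {M : ℕ} {e : (ZMod M)ˣ}
  {τ : ↥(laurentBaseChange Kbar (F1 M)) ≃ₐ[Kbar] ↥(laurentBaseChange Kbar (F1 M))}

theorem isIntτ_jd (hτ : IsDiamondBar Kbar M e τ) {d : ℕ} [NeZero d] (hd : d ∣ M)
    (x : ↥(laurentBaseChange Kbar (F1 M)))
    (hx : (x : LaurentSeries Kbar) = qExpand Kbar d (jqModC Kbar)) : IsIntτ A τ x := by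
  have hx' : x = emb1 Kbar (qExpand ℚ d jq) (full_le_F1 M (jqd_mem_full M hd)) := by
    apply Subtype.ext
    rw [hx, coe_emb1, coeffEmb, coeffMap_qExpand13, ← jqModC_rat, coeffMap_jqModC]
  have hfix : τ x = x := by
    rw [hx']
    exact hτ.1 _ (jqd_mem_full M hd)
  refine ⟨GaussBridge10.jdO A d, GaussBridge10.jdO A d, ?_, ?_⟩
  · rw [hx]; exact GaussBridge10.embK_jdO A d
  · rw [hfix, hx]; exact GaussBridge10.embK_jdO A d

theorem isIntτ_w (hτ : IsDiamondBar Kbar M e τ) (c : (ZMod M)ˣ)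
    (x : ↥(laurentBaseChange Kbar (F1 M)))
    (hx : (x : LaurentSeries Kbar) = wqC Kbar M (c : ZMod M)) : IsIntτ A τ x := by
  have hx' : x = emb1 Kbar (wq M (c : ZMod M)) (wq_mem_F1 M c) := by
    apply Subtype.ext
    rw [hx, coe_emb1, coeffEmb, ← wqC_rat, coeffMap_wqC]
  have hmove : ((τ x : ↥(laurentBaseChange Kbar (F1 M))) : LaurentSeries Kbar) =
      wqC Kbar M ((e * c : (ZMod M)ˣ) : ZMod M) := by
    rw [hx', hτ.2 c, coe_emb1, coeffEmb, ← wqC_rat, coeffMap_wqC]
  refine ⟨wqC ↥A M (c : ZMod M), wqC ↥A M ((e * c : (ZMod M)ˣ) : ZMod M), ?_, ?_⟩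
  · rw [hx, coeffMap_wqC]
  · rw [hmove, coeffMap_wqC]

/-- **every element of `ℚbar · F1 M` is a quotient of integral elements with integral
translates.** -/
theorem isIntFracτ_all (hτ : IsDiamondBar Kbar M e τ) (f : ↥(laurentBaseChange Kbar (F1 M))) :
    IsIntFracτ A τ f := by
  have hle : ∀ x : LaurentSeries Kbar,
      x ∈ adjoin Kbar (divisorExpansionsC Kbar M ∪ wExpansionsC Kbar M) →
        x ∈ laurentBaseChange Kbar (F1 M) := by
    intro x hx
    rw [laurentBaseChange_F1_eq]; exact hx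
  have key : ∀ (x : LaurentSeries Kbar)
      (_ : x ∈ adjoin Kbar (divisorExpansionsC Kbar M ∪ wExpansionsC Kbar M))
      (g : ↥(laurentBaseChange Kbar (F1 M))), (g : LaurentSeries Kbar) = x →
        IsIntFracτ A τ g := by
    intro x hx
    induction hx using IntermediateField.adjoin_induction with
    | mem x hx =>
      intro g hg
      rcases hx with ⟨d, hne, hd, rfl⟩ | ⟨c, rfl⟩
      · exact isIntFracτ_of_isIntτ (isIntτ_jd A hτ hd g hg)
      · exact isIntFracτ_of_isIntτ (isIntτ_w A hτ c g hg)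
    | algebraMap c =>
      intro g hg
      have : g = algebraMap Kbar ↥(laurentBaseChange Kbar (F1 M)) c := Subtype.ext hg
      rw [this]
      exact isIntFracτ_algebraMap A τ c
    | add x y hx hy ihx ihy =>
      intro g hg
      have h1 := ihx ⟨x, hle x hx⟩ rfl
      have h2 := ihy ⟨y, hle y hy⟩ rfl
      have : g = (⟨x, hle x hx⟩ : ↥(laurentBaseChange Kbar (F1 M))) + ⟨y, hle y hy⟩ := by
        apply Subtype.ext
        rw [IntermediateField.coe_add, hg]
      rw [this]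
      exact h1.add h2
    | inv x hx ihx =>
      intro g hg
      have h1 := ihx ⟨x, hle x hx⟩ rfl
      have : g = (⟨x, hle x hx⟩ : ↥(laurentBaseChange Kbar (F1 M)))⁻¹ := by
        apply Subtype.ext
        rw [IntermediateField.coe_inv, hg]
      rw [this]
      exact h1.inv
    | mul x y hx hy ihx ihy =>
      intro g hg
      have h1 := ihx ⟨x, hle x hx⟩ rfl
      have h2 := ihy ⟨y, hle y hy⟩ rfl
      have : g = (⟨x, hle x hx⟩ : ↥(laurentBaseChange Kbar (F1 M))) * ⟨y, hle y hy⟩ := by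
        apply Subtype.ext
        rw [IntermediateField.coe_mul, hg]
      rw [this]
      exact h1.mul h2
  have hf : (f : LaurentSeries Kbar) ∈
      adjoin Kbar (divisorExpansionsC Kbar M ∪ wExpansionsC Kbar M) := by
    have h1 : ∀ x : LaurentSeries Kbar, x ∈ laurentBaseChange Kbar (F1 M) →
        x ∈ adjoin Kbar (divisorExpansionsC Kbar M ∪ wExpansionsC Kbar M) := by
      intro x hx
      rw [laurentBaseChange_F1_eq] at hx
      exact hx
    exact h1 _ f.2
  exact key f hf f rfl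

end Generators

/-! ### Contents -/

section Content

variable (A : ValuationSubring Kbar) (ℓ : ℕ) [Fact ℓ.Prime] (M : ℕ)

theorem coeffMap_subtype_injective' : Function.Injective (coeffMap A.subtype) := by
  intro x y hxy
  ext n
  have := congrArg (fun z => z.coeff n) hxy
  simp only [coeffMap_coeff] at this
  exact this

/-- **Content**: a nonzero `A`-integral series lying in `ℚbar · F1 M` is a nonzero constant of `A`
times an `A`-integral series of nonzero reduction. -/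
theorem exists_content (hA : A.LiesOverPrime ℓ) (a : LaurentSeries ↥A) (ha : a ≠ 0)
    (haE : coeffMap A.subtype a ∈ laurentBaseChange Kbar (F1 M)) :
    ∃ (u : ↥A) (a₀ : LaurentSeries ↥A), u ≠ 0 ∧ a = HahnSeries.C u * a₀ ∧
      coeffMap (IsLocalRing.residue ↥A) a₀ ≠ 0 := by
  haveI := isAlgebraic_Qbar
  obtain ⟨K, -, hfin, x', -, hx'a⟩ :=
    CoeffDescent1.exists_finite_descent (L := Kbar) (F₀ := F1 M) ⊥ haE
  haveI := hfin
  haveI : IsDiscreteValuationRing ↥(AK A K) :=
    isDiscreteValuationRing_AK A K (Fact.out : ℓ.Prime).ne_zero hA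
  obtain ⟨π, hπ⟩ := IsDiscreteValuationRing.exists_irreducible ↥(AK A K)
  have hu := isUnif_of_irreducible (AK A K) hπ
  have hrange : ∀ n, x'.coeff n ∈ Set.range (AK A K).subtype := by
    intro n
    have h1 : algebraMap K Kbar (x'.coeff n) = ((a.coeff n : ↥A) : Kbar) := by
      have := congrArg (fun z : LaurentSeries Kbar => z.coeff n) hx'a
      simp only [coeffMap_coeff] at this
      exact this
    have h2 : x'.coeff n ∈ AK A K := by
      rw [mem_AK_iff]
      show algebraMap K Kbar (x'.coeff n) ∈ A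
      rw [h1]
      exact (a.coeff n).2
    exact ⟨⟨_, h2⟩, rfl⟩
  obtain ⟨Y₀, hY₀⟩ := UnifDescent14.exists_coeffMap_eq (AK A K).subtype
    Subtype.val_injective x' hrange
  have hYa : coeffMap (incl A K) Y₀ = a := by
    apply coeffMap_subtype_injective' A
    rw [Fermat.Agent.ES.RED.GaussUnit25.coeffMap_subtype_incl]
    show coeffMap (algebraMap K Kbar) (coeffMap (AK A K).subtype Y₀) = _
    rw [hY₀, hx'a]
  have hY0 : Y₀ ≠ 0 := by
    rintro rfl
    rw [map_zero] at hYa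
    exact ha hYa.symm
  obtain ⟨i, a₀, rfl, ha₀⟩ := exists_eq_pow_mul hu Y₀ hY0
  refine ⟨incl A K π ^ i, coeffMap (incl A K) a₀, ?_, ?_, ?_⟩
  · apply pow_ne_zero
    intro h0
    apply hπ.ne_zero
    apply Subtype.ext
    apply Subtype.ext
    exact congrArg (A.subtype) h0
  · rw [← hYa, map_mul, map_pow, GaussGen8.coeffMap_C, map_pow]
  · rw [Fermat.Agent.ES.RED.GaussUnit25.coeffMap_residue_incl]
    intro h
    apply ha₀
    exact CoeffDescent1.coeffMap_injective_of_injective (resMap A K) (resMap_injective A K)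
      (h.trans (map_zero _).symm)

end Content

/-! ### (Dgen) and (Rgen)₁ -/

section Main

variable (A : ValuationSubring Kbar) (ℓ : ℕ) [Fact ℓ.Prime] {M : ℕ} {e : (ZMod M)ˣ}
  {τ : ↥(laurentBaseChange Kbar (F1 M)) ≃ₐ[Kbar] ↥(laurentBaseChange Kbar (F1 M))}

theorem C_ne_zero' {c : Kbar} (hc : c ≠ 0) : (HahnSeries.C c : LaurentSeries Kbar) ≠ 0 := by
  intro h0
  have := congrArg (fun z : LaurentSeries Kbar => z.coeff 0) h0
  simp only [HahnSeries.C_apply, HahnSeries.coeff_single_same, HahnSeries.coeff_zero] at this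
  exact hc this

/-- a nonzero integral element with integral translate is a constant times a generator of `IPδ`. -/
theorem exists_mem_IPδ_of_isIntτ (hA : A.LiesOverPrime ℓ)
    (hR : ∀ Y : LaurentSeries ↥A, coeffMap A.subtype Y ∈ laurentBaseChange Kbar (F1 M) →
      coeffMap (IsLocalRing.residue ↥A) Y ∈ F1C (IsLocalRing.ResidueField ↥A) M)
    (x : ↥(laurentBaseChange Kbar (F1 M))) (hx0 : x ≠ 0) (hx : IsIntτ A τ x) :
    ∃ (x₀ : ↥(laurentBaseChange Kbar (F1 M))) (c : Kbar), c ≠ 0 ∧ x₀ ≠ 0 ∧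
      x = algebraMap Kbar ↥(laurentBaseChange Kbar (F1 M)) c * x₀ ∧
      ∀ D : Divisor Kbar ↥(laurentBaseChange Kbar (F1 M)), (∀ P, D P = P.ord x₀) →
        D ∈ IPδ A (IsLocalRing.residue ↥A) M (SemilinearAut.ofAlgAut τ) := by
  obtain ⟨a, a', ha, ha'⟩ := hx
  have hτx0 : τ x ≠ 0 := by
    rw [Ne, map_eq_zero_iff τ τ.injective]; exact hx0
  have ha0 : a ≠ 0 := by
    rintro rfl
    rw [map_zero] at ha
    exact hx0 (Subtype.ext ha.symm)
  have ha'0 : a' ≠ 0 := by
    rintro rfl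
    rw [map_zero] at ha'
    exact hτx0 (Subtype.ext ha'.symm)
  obtain ⟨u, a₀, hu, rfl, hred⟩ := exists_content A ℓ M hA a ha0 (by rw [ha]; exact x.2)
  obtain ⟨u', a₀', hu', rfl, hred'⟩ := exists_content A ℓ M hA a' ha'0 (by rw [ha']; exact (τ x).2)
  have huK : ((u : ↥A) : Kbar) ≠ 0 := fun h => hu (Subtype.ext h)
  have hu'K : ((u' : ↥A) : Kbar) ≠ 0 := fun h => hu' (Subtype.ext h)
  rw [map_mul, GaussGen8.coeffMap_C] at ha ha'
  replace ha : HahnSeries.C ((u : ↥A) : Kbar) * coeffMap A.subtype a₀ =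
    (x : LaurentSeries Kbar) := ha
  replace ha' : HahnSeries.C ((u' : ↥A) : Kbar) * coeffMap A.subtype a₀' =
    ((τ x : ↥(laurentBaseChange Kbar (F1 M))) : LaurentSeries Kbar) := ha'
  -- `a₀` as an element of the field
  have hCmem : ∀ c : Kbar, (HahnSeries.C c : LaurentSeries Kbar) ∈ laurentBaseChange Kbar (F1 M) := by
    intro c
    rw [← algebraMap_eq_C (K := Kbar)]
    exact (laurentBaseChange Kbar (F1 M)).algebraMap_mem c
  have hy₀eq : coeffMap A.subtype a₀ = HahnSeries.C ((u : Kbar))⁻¹ * (x : LaurentSeries Kbar) := by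
    rw [← ha, ← mul_assoc, ← map_mul, inv_mul_cancel₀ huK, map_one, one_mul]
  have hy₀ : coeffMap A.subtype a₀ ∈ laurentBaseChange Kbar (F1 M) := by
    rw [hy₀eq]
    exact mul_mem (hCmem _) x.2
  set x₀ : ↥(laurentBaseChange Kbar (F1 M)) := ⟨coeffMap A.subtype a₀, hy₀⟩ with hx₀
  have hxx₀ : x = algebraMap Kbar ↥(laurentBaseChange Kbar (F1 M)) (u : Kbar) * x₀ := by
    apply Subtype.ext
    rw [IntermediateField.coe_mul]
    show (x : LaurentSeries Kbar) = algebraMap Kbar (LaurentSeries Kbar) (u : Kbar) *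
      coeffMap A.subtype a₀
    rw [algebraMap_eq_C (K := Kbar)]
    exact ha.symm
  have hx₀0 : x₀ ≠ 0 := by
    rintro h0
    rw [h0, mul_zero] at hxx₀
    exact hx0 hxx₀
  have hτ : ((τ x : ↥(laurentBaseChange Kbar (F1 M))) : LaurentSeries Kbar) =
      HahnSeries.C (u : Kbar) * ((τ x₀ : ↥(laurentBaseChange Kbar (F1 M))) : LaurentSeries Kbar) := by
    conv_lhs => rw [hxx₀, map_mul, τ.commutes]
    rw [IntermediateField.coe_mul]
    show algebraMap Kbar (LaurentSeries Kbar) (u : Kbar) * _ = _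
    rw [algebraMap_eq_C (K := Kbar)]
  have hy₀'eq : coeffMap A.subtype a₀' = HahnSeries.C (((u' : Kbar))⁻¹ * (u : Kbar)) *
      ((τ x₀ : ↥(laurentBaseChange Kbar (F1 M))) : LaurentSeries Kbar) := by
    rw [map_mul, mul_assoc, ← hτ, ← ha', ← mul_assoc, ← map_mul, inv_mul_cancel₀ hu'K, map_one,
      one_mul]
  have hy₀' : coeffMap A.subtype a₀' ∈ laurentBaseChange Kbar (F1 M) := by
    rw [hy₀'eq]
    exact mul_mem (hCmem _) (τ x₀).2
  refine ⟨x₀, (u : Kbar), huK, hx₀0, hxx₀, fun D hD => ?_⟩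
  exact ⟨a₀, a₀', hy₀, ((u' : Kbar))⁻¹ * (u : Kbar), mul_ne_zero (inv_ne_zero hu'K) huK,
    hR a₀ hy₀, hred, hR a₀' hy₀', hred', hy₀'eq, hD⟩

/-- **(Dgen)**: the principal divisors of `ℚbar · F1 M` are generated by the divisors of the
integral functions with non-zero reduction whose diamond translate is (up to a constant) integral
with non-zero reduction. -/
theorem principalGeneratedByIntegralδ (hA : A.LiesOverPrime ℓ)
    [HasPrincipalDivisors Kbar ↥(laurentBaseChange Kbar (F1 M))]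
    (hτ : IsDiamondBar Kbar M e τ)
    (hR : ∀ Y : LaurentSeries ↥A, coeffMap A.subtype Y ∈ laurentBaseChange Kbar (F1 M) →
      coeffMap (IsLocalRing.residue ↥A) Y ∈ F1C (IsLocalRing.ResidueField ↥A) M) :
    PrincipalGeneratedByIntegralδ A (IsLocalRing.residue ↥A) M (SemilinearAut.ofAlgAut τ) := by
  intro D hD
  obtain ⟨f, hf0, hDf⟩ := hD
  obtain ⟨x, y, hy0, hx, hy, hfy⟩ := isIntFracτ_all A hτ f
  have hx0 : x ≠ 0 := by
    rw [← hfy]; exact mul_ne_zero hf0 hy0
  obtain ⟨x₀, cx, hcx, hx₀0, hxx₀, Hx⟩ := exists_mem_IPδ_of_isIntτ A ℓ hA hR x hx0 hx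
  obtain ⟨y₀, cy, hcy, hy₀0, hyy₀, Hy⟩ := exists_mem_IPδ_of_isIntτ A ℓ hA hR y hy0 hy
  obtain ⟨Dx, hDx, -⟩ :=
    (inferInstance : HasPrincipalDivisors Kbar ↥(laurentBaseChange Kbar (F1 M))).exists_divisor
      x₀ hx₀0
  obtain ⟨Dy, hDy, -⟩ :=
    (inferInstance : HasPrincipalDivisors Kbar ↥(laurentBaseChange Kbar (F1 M))).exists_divisor
      y₀ hy₀0
  have hDeq : D = Dx - Dy := by
    ext P
    rw [Finsupp.sub_apply, hDf P, hDx P, hDy P]
    have h1 := congrArg P.ord hfy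
    rw [P.ord_mul hf0 hy0, hxx₀, hyy₀,
      P.ord_mul (by rw [Ne, map_eq_zero]; exact hcx) hx₀0,
      P.ord_mul (by rw [Ne, map_eq_zero]; exact hcy) hy₀0,
      Fermat.Agent.X0.FF.ord_algebraMap, Fermat.Agent.X0.FF.ord_algebraMap] at h1
    omega
  rw [hDeq]
  exact AddSubgroup.sub_mem _ (AddSubgroup.subset_closure (Hx Dx hDx))
    (AddSubgroup.subset_closure (Hy Dy hDy))

variable (M) in
theorem IPδ_subset (δ : SemilinearAut Kbar ↥(laurentBaseChange Kbar (F1 M))) :
    IPδ A (IsLocalRing.residue ↥A) M δ ⊆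
      integralPrincipalDivisorsG A (IsLocalRing.residue ↥A) (F1 M)
        (F1C (IsLocalRing.ResidueField ↥A) M) := by
  rintro D ⟨y, y', hy, c, hc, hyk, hne, hyk', hne', hy', hDy⟩
  exact ⟨y, hy, hyk, hne, hDy⟩

/-- **(Rgen)₁**: the principal divisors of `ℚbar · F1 M` are generated by the divisors of the
integral functions with non-zero reduction. -/
theorem principalGeneratedByIntegral1 (hA : A.LiesOverPrime ℓ)
    [HasPrincipalDivisors Kbar ↥(laurentBaseChange Kbar (F1 M))]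
    (hR : ∀ Y : LaurentSeries ↥A, coeffMap A.subtype Y ∈ laurentBaseChange Kbar (F1 M) →
      coeffMap (IsLocalRing.residue ↥A) Y ∈ F1C (IsLocalRing.ResidueField ↥A) M) :
    PrincipalGeneratedByIntegral1 A (IsLocalRing.residue ↥A) M := by
  have h := principalGeneratedByIntegralδ A ℓ hA (IsDiamondBar.one (L := Kbar) (M := M)) hR
  exact h.trans (AddSubgroup.closure_mono (IPδ_subset A M _))

end Main

end Fermat.Agent.ES.R48.GaussUnitOne24
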