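/-
Programme R (S48), chapter GEOM, sub-chapter G4 CONG₁, brick L1f (helper22):
**the geometric inputs of the Hecke correspondence `T_p` on `J₁(M)`** — Γ₁-twin of main's
`ES/HECKE/AlongDegree25` (the `Along` part), `ES/HECKE/InputsMain19`, `ES/HECKE/InputsFinal15`,
merged into one file; the generic tools of main (`AlongDegree25.finrankAlong_eq_relfinrank`,
`FundId12`, `FundIdentity19`, `NormFormula15`, `FFGenus`) are imported AS-IS.

The two facts that are NOT formal are taken as hypotheses, in the weakest usable shape: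

* `hx : IsGen ℚbar x` for some `x : F1bar M` (a transcendental generator over which `F1bar M` is
  finite: export of G2 — e.g. `x = j`);
* the two degeneracy maps `α` (inclusion) and `β` (`q ↦ q^p`) of `FF1Defs13` have POSITIVE degree
  `0 < finrankAlong ℚbar α`, `0 < finrankAlong ℚbar β` (export of `DegreeLOne20`: both are `p + 1`).

Then

* `finrankAlong_alphaOne`, `finrankAlong_betaOne` : the two `Along`-degrees as `relfinrank`s inside
  `L((q))` (so that `DegreeLOne20` may state its result in either form);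
* `finiteAlong_of_pos`, `integral_of_pos` : finiteness and integrality of a map of positive degree;
* `hasPrincipalDivisors_F1p`, `fundamentalIdentityAlong_betaOne`, `normFormulaAlong_alphaOne`;
* **`heckeOneInputsAlong`** : `JOneOps13.HeckeOneInputsAlong ℚbar M p`, hence
  `heckeOne_eq_pic0Bar` : the total operator `heckeOne M p` IS the correspondence `α_* β^*`.
-/
import Mathlib
import Fermat.Agent.ES.HECKE.AlongDegree25
import Fermat.Agent.ES.HECKE.FundId12
import Fermat.Agent.ES.HECKE.FundIdentity19
import Fermat.Agent.ES.HECKE.NormFormula15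
import Fermat.Agent.X0.FFGenus
import Fermat.Agent.ES.R48.JOneOps13

set_option autoImplicit false
set_option synthInstance.maxHeartbeats 400000
set_option linter.style.haveILetI false

noncomputable section

open AlgebraicCurve ModularCurve IntermediateField

namespace Fermat.Agent.ES.R48.InputsOne22

open Fermat.Agent.ES.R48.FF1Defs13 Fermat.Agent.ES.R48.JOneOps13
open Fermat.Agent.ES.HECKE

/-! ### The two degrees as relative degrees inside `L((q))` -/

section Degree

variable (L : Type*) [Field L] [Algebra ℚ L] (M p : ℕ) [NeZero p]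

/-- `deg α = [L·F1p : L·F1]`. -/
theorem finrankAlong_alphaOne :
    finrankAlong L (heckeOneAlphaBar M p L) =
      relfinrank (laurentBaseChange L (F1 M)) (laurentBaseChange L (F1p M p)) := by
  rw [AlongDegree25.finrankAlong_eq_relfinrank _ _ (heckeOneAlphaBar M p L)
    (AlgHom.id L (LaurentSeries L)) (fun a => by rw [coe_heckeOneAlphaBar]; rfl),
    IntermediateField.map_id]

/-- `deg β = [L·F1p : (L·F1)(q^p)]`. -/
theorem finrankAlong_betaOne :
    finrankAlong L (heckeOneBetaBar M p L) =
      relfinrank ((laurentBaseChange L (F1 M)).map (qExpandAlgHomC L p))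
        (laurentBaseChange L (F1p M p)) :=
  AlongDegree25.finrankAlong_eq_relfinrank _ _ (heckeOneBetaBar M p L) (qExpandAlgHomC L p)
    (fun a => by rw [coe_heckeOneBetaBar, qExpandAlgHomC_apply])

end Degree

/-! ### Finiteness and integrality from positivity of the degree -/

section Finite

variable {K F F' : Type*} [Field K] [Field F] [Field F'] [Algebra K F] [Algebra K F']

theorem finiteAlong_of_pos (φ : F →ₐ[K] F') (h : 0 < finrankAlong K φ) : FiniteAlong K φ :=
  AlongDegree25.finiteAlong_of_finrankAlong_pos φ h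

theorem integral_of_pos (φ : F →ₐ[K] F') (h : 0 < finrankAlong K φ) : φ.toRingHom.IsIntegral :=
  AlongDegree25.isIntegral_of_finiteAlong φ (finiteAlong_of_pos φ h)

end Finite

/-! ### The inputs over `ℚbar` -/

section Inputs

/-- `ℚbar`. -/
local notation "Qb" => AlgebraicClosure ℚ

variable {M p : ℕ} [NeZero p]

theorem heckeOneAlphaBarIntegral (hdα : 0 < finrankAlong Qb (heckeOneAlphaBar M p Qb)) :
    HeckeOneAlphaBarIntegral M p Qb :=
  integral_of_pos _ hdα

theorem heckeOneBetaBarIntegral (hdβ : 0 < finrankAlong Qb (heckeOneBetaBar M p Qb)) :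
    HeckeOneBetaBarIntegral M p Qb :=
  integral_of_pos _ hdβ

/-- the image under `α` of a generator of `F1bar M` generates `ℚbar · F1p M p`. -/
theorem isGen_alphaOne {x : F1bar M} (hx : Fermat.Agent.X0.FF.IsGen Qb x)
    (hdα : 0 < finrankAlong Qb (heckeOneAlphaBar M p Qb)) :
    Fermat.Agent.X0.FF.IsGen Qb (heckeOneAlphaBar M p Qb x) :=
  FundId12.isGen_along (heckeOneAlphaBar M p Qb) (finiteAlong_of_pos _ hdα) hx

/-- (H1b) principal divisors of `ℚbar · F1p M p`. -/
theorem hasPrincipalDivisors_F1p {x : F1bar M} (hx : Fermat.Agent.X0.FF.IsGen Qb x)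
    (hdα : 0 < finrankAlong Qb (heckeOneAlphaBar M p Qb)) :
    HasPrincipalDivisors Qb (laurentBaseChange Qb (F1p M p)) :=
  Fermat.Agent.X0.FFGenus.hasPrincipalDivisors (isGen_alphaOne hx hdα)

/-- (H1c) the fundamental identity along `β`. -/
theorem fundamentalIdentityAlong_betaOne {x : F1bar M} (hx : Fermat.Agent.X0.FF.IsGen Qb x)
    (hdα : 0 < finrankAlong Qb (heckeOneAlphaBar M p Qb))
    (hdβ : 0 < finrankAlong Qb (heckeOneBetaBar M p Qb)) :
    haveI := hasPrincipalDivisors_F1p hx hdα
    FundamentalIdentityAlong Qb (heckeOneBetaBar M p Qb) (heckeOneBetaBarIntegral hdβ) := by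
  haveI := hasPrincipalDivisors_F1p hx hdα
  exact FundIdentity19.fundamentalIdentityAlong (heckeOneBetaBar M p Qb)
    (heckeOneBetaBarIntegral hdβ) (finiteAlong_of_pos _ hdβ) hx (isGen_alphaOne hx hdα)

/-- (H1c') the fundamental identity along `α`. -/
theorem fundamentalIdentityAlong_alphaOne {x : F1bar M} (hx : Fermat.Agent.X0.FF.IsGen Qb x)
    (hdα : 0 < finrankAlong Qb (heckeOneAlphaBar M p Qb)) :
    haveI := hasPrincipalDivisors_F1p hx hdα
    FundamentalIdentityAlong Qb (heckeOneAlphaBar M p Qb) (heckeOneAlphaBarIntegral hdα) := by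
  haveI := hasPrincipalDivisors_F1p hx hdα
  exact FundIdentity19.fundamentalIdentityAlong (heckeOneAlphaBar M p Qb)
    (heckeOneAlphaBarIntegral hdα) (finiteAlong_of_pos _ hdα) hx (isGen_alphaOne hx hdα)

/-- (H1d) the norm formula along `α`. -/
theorem normFormulaAlong_alphaOne {x : F1bar M} (hx : Fermat.Agent.X0.FF.IsGen Qb x)
    (hdα : 0 < finrankAlong Qb (heckeOneAlphaBar M p Qb)) :
    NormFormulaAlong Qb (heckeOneAlphaBar M p Qb) (finiteAlong_of_pos _ hdα) :=
  NormFormula15.normFormulaAlong_of_isGen (heckeOneAlphaBar M p Qb) (finiteAlong_of_pos _ hdα)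
    (isGen_alphaOne hx hdα)

/-- (H1d') the norm formula along `β`. -/
theorem normFormulaAlong_betaOne {x : F1bar M} (hx : Fermat.Agent.X0.FF.IsGen Qb x)
    (hdα : 0 < finrankAlong Qb (heckeOneAlphaBar M p Qb))
    (hdβ : 0 < finrankAlong Qb (heckeOneBetaBar M p Qb)) :
    NormFormulaAlong Qb (heckeOneBetaBar M p Qb) (finiteAlong_of_pos _ hdβ) :=
  NormFormula15.normFormulaAlong_of_isGen (heckeOneBetaBar M p Qb) (finiteAlong_of_pos _ hdβ)
    (isGen_alphaOne hx hdα)

/-- **(H1)**: the inputs of the Hecke correspondence `T_p = α_* β^*` on `J₁(M)`. -/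
theorem heckeOneInputsAlong {x : F1bar M} (hx : Fermat.Agent.X0.FF.IsGen Qb x)
    (hdα : 0 < finrankAlong Qb (heckeOneAlphaBar M p Qb))
    (hdβ : 0 < finrankAlong Qb (heckeOneBetaBar M p Qb)) :
    HeckeOneInputsAlong Qb M p :=
  ⟨heckeOneAlphaBarIntegral hdα, heckeOneBetaBarIntegral hdβ, hasPrincipalDivisors_F1p hx hdα,
    finiteAlong_of_pos _ hdα, fundamentalIdentityAlong_betaOne hx hdα hdβ,
    normFormulaAlong_alphaOne hx hdα⟩

/-- under (H1) the total operator `heckeOne M p` is the genuine correspondence. -/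
theorem heckeOne_eq_pic0Bar {x : F1bar M} (hx : Fermat.Agent.X0.FF.IsGen Qb x)
    (hdα : 0 < finrankAlong Qb (heckeOneAlphaBar M p Qb))
    (hdβ : 0 < finrankAlong Qb (heckeOneBetaBar M p Qb)) :
    haveI := hasPrincipalDivisors_F1p hx hdα
    heckeOne M p = heckeOnePic0Bar (heckeOneAlphaBarIntegral hdα) (heckeOneBetaBarIntegral hdβ)
      (fundamentalIdentityAlong_betaOne hx hdα hdβ) (finiteAlong_of_pos _ hdα)
      (normFormulaAlong_alphaOne hx hdα) := by
  haveI := hasPrincipalDivisors_F1p hx hdα
  rw [heckeOne_eq]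
  exact heckeOneAlong_eq _ _ _ _ _

end Inputs

end Fermat.Agent.ES.R48.InputsOne22
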