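/-
Programme R (S48, Deligne–Serre), chapter GEOM, sub-chapter G4 "CONG₁" (helper15), Layer 2:
**the interface between G3 (two-chart models of `K·F1 M` over `A ∩ K`) and the model→contract chain
of G4**, as literal propositions.

* `ExplicitModelStep1 A M n e` : the conclusion of G3's `explicitModelStep1` (explicit two-chart
  models at all large number fields, with the Gauss package `DegLe ∧ Irr`);
* `PackageStep1 A M n e` : the conclusion of main's `LevelSat16.exists_package` with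
  `FK M K ↦ FK1 M K`; `packageStep1_of_explicit`;
* `ModelsStep1 A M s` : the hypothesis of main's `LevelsMain22.eventuallyGood_of_models` with
  `FK ↦ FK1`; `modelsStep1_of_explicit`;
* `levelSat_t1`, `levelSat_inv1` : `ChartIntegralAOne15.LevelSat` for the Hauptmodul `t` and for
  `t⁻¹` (twin of main's `LevelSat16`, directly from the fields `sat0`, `sat1` of the models);
* `rmem_of_resFieldStep1` : (Rmem) in the shape consumed by `GaussUnitOne24`.
-/
import Mathlib
import Fermat.Agent.ES.R48.ChartIntegralAOne15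
import Fermat.Agent.ES.R48.GaussBridgeOne10
import Fermat.Agent.ES.R48.TGenOne7
import Fermat.Agent.RED.BASE.TBridge15
import Fermat.Agent.RED.CORE.CoreIface24
import Fermat.Agent.RED.ModelTargets4

set_option autoImplicit false
set_option linter.unusedSectionVars false
set_option linter.style.haveILetI false

noncomputable section

open HahnSeries ModularCurve IntermediateField

namespace Fermat.Agent.ES.R48.ModelIfaceOne15

open Fermat.Agent.RED.Interface4 Fermat.Agent.RED.DESC Fermat.Agent.RED.DESC.NumberFieldDVR27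
open Fermat.Agent.RED.PUR.GaussGen8 Fermat.Agent.RED.PUR.KtGauss8 Fermat.Agent.RED.PUR.G1Package8
  Fermat.Agent.RED.PUR.GaussBridge10 Fermat.Agent.RED.PUR.ChartGeneric22
open Fermat.Agent.RED.CORE.CoreIface24 Fermat.Agent.RED.NumInst4
open Fermat.Agent.RED.BASE.EtaQuot12 Fermat.Agent.RED.BASE.Interface12
open Fermat.Agent.ES.R48.FF1Defs13 Fermat.Agent.ES.R48.F1CDefs15 Fermat.Agent.ES.R48.G3Defs4
open Fermat.Agent.ES.R48.PlaceExtendG7 Fermat.Agent.ES.R48.TGenOne7
open Fermat.Agent.ES.R48.ChartIntegralAOne15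

variable (A : ValuationSubring Qbar) (M n e : ℕ) [NeZero n] [NeZero M]

/-- the two Gauss valuation rings of `K·F1 M` (helper10's and helper15's) are the same. -/
theorem OvK1_eq (K : IntermediateField ℚ Qbar) {π : ↥(AK A K)} (hπ : IsUnif (AK A K) π) :
    GaussBridgeOne15.OvK1 A K M hπ = GaussBridgeOne10.OvK1 A K M hπ := rfl

/-- **The deliverable of G3 consumed by G4**: explicit two-chart models of `K·F1 M` over `A ∩ K`
with the Gauss package, for all large number fields `K` (the conclusion of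
`ModelStepOne7.explicitModelStep1`, literally). -/
def ExplicitModelStep1 : Prop :=
  ∃ K₀ : IntermediateField ℚ Qbar, FiniteDimensional ℚ K₀ ∧
    ∀ K : IntermediateField ℚ Qbar, FiniteDimensional ℚ K → K₀ ≤ K →
      IsDiscreteValuationRing ↥(AK A K) ∧
      ∀ (ϖ : ↥(AK A K)) (_ : Irreducible ϖ) (hu : IsUnif (AK A K) ϖ) (t : ↥(FK1 M K)),
        (t : LaurentSeries K) = tq K n e →
        TwoChartModel ↥(AK A K) K ↥(FK1 M K) ϖ t (chart ↥(AK A K) t) (chart ↥(AK A K) t⁻¹)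
          (GaussBridgeOne10.OvK1 A K M hu) ∧
        ∃ (ht : (t : LaurentSeries K) ∈ gaussRing (AK A K)) (nn : ℕ), nn ≠ 0 ∧
          DegLe (AK A K) (FK1 M K) ⟨(t : LaurentSeries K), ht⟩ nn ∧
          Irr (AK A K) (FK1 M K) ⟨(t : LaurentSeries K), ht⟩ nn

/-- **The Gauss package at every large number field**, for the Hauptmodul (the conclusion of main's
`LevelSat16.exists_package` with `FK M K ↦ FK1 M K`). -/
def PackageStep1 : Prop :=
  ∃ K₀ : IntermediateField ℚ Qbar, FiniteDimensional ℚ K₀ ∧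
    ∀ K : IntermediateField ℚ Qbar, FiniteDimensional ℚ K → K₀ ≤ K →
      ∀ (ϖ : ↥(AK A K)) (_ : Irreducible ϖ),
      ∃ (_ : IsDiscreteValuationRing ↥(AK A K))
        (t : ↥(FK1 M K)) (_ : (t : LaurentSeries K) = tq K n e)
        (ht : (t : LaurentSeries K) ∈ gaussRing (AK A K))
        (_ : Transcendental (Res (AK A K)) (gaussRed (AK A K) ⟨(t : LaurentSeries K), ht⟩))
        (m : ℕ) (_ : DegLe (AK A K) (FK1 M K) ⟨(t : LaurentSeries K), ht⟩ m),
        Irr (AK A K) (FK1 M K) ⟨(t : LaurentSeries K), ht⟩ m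

/-- **The two-chart models in the shape of `LevelsMain22.eventuallyGood_of_models`.** -/
def ModelsStep1 (s : ↥(F1bar M)) : Prop :=
  ∃ K₀ : IntermediateField ℚ Qbar, FiniteDimensional ℚ K₀ ∧
    ∀ K : IntermediateField ℚ Qbar, FiniteDimensional ℚ K → K₀ ≤ K →
      ∃ (ϖ : ↥(AK A K)) (hu : IsUnif (AK A K) ϖ) (t : ↥(FK1 M K)),
        baseChangeHomG (F1 M) K t = s ∧
        TwoChartModel ↥(AK A K) K ↥(FK1 M K) ϖ t (chart ↥(AK A K) t) (chart ↥(AK A K) t⁻¹)
          (GaussBridgeOne10.OvK1 A K M hu)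

variable {A M n e}

/-- the Hauptmodul lies in `K·F1 M` for all large `K`. -/
theorem exists_tq_mem_FK1 (hmem : TMem n e M) :
    ∃ K₁ : IntermediateField ℚ Qbar, FiniteDimensional ℚ K₁ ∧
      ∀ K : IntermediateField ℚ Qbar, K₁ ≤ K → tq ↥K n e ∈ FK1 M K := by
  obtain ⟨K₁, hfd, h⟩ := Fermat.Agent.RED.BASE.TBridge15.exists_tq_mem n e M hmem
  exact ⟨K₁, hfd, fun K hK => FK_le_FK1 M K (h K hK)⟩

/-- The Hauptmodul over `K` maps to the Hauptmodul over `ℚ̄` (twin of
`RankConcrete16.baseChangeHom_eq_tF`). -/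
theorem baseChangeHomG_eq_tF1 (K : IntermediateField ℚ Qbar) (hmem : TMem n e M)
    (t : ↥(FK1 M K)) (ht : (t : LaurentSeries K) = tq K n e) :
    baseChangeHomG (F1 M) K t = tF1 n e M hmem := by
  apply Subtype.ext
  rw [coe_baseChangeHomG, ht, coe_tF1]
  exact coeffMap_tq ↥K (algebraMap K Qbar) n e

/-- `PackageStep1` from the deliverable of G3. -/
theorem packageStep1_of_explicit (hmem : TMem n e M) (h : ExplicitModelStep1 A M n e) :
    PackageStep1 A M n e := by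
  obtain ⟨K₀, hfd₀, H⟩ := h
  obtain ⟨K₁, hfd₁, hT⟩ := exists_tq_mem_FK1 (M := M) hmem
  haveI := hfd₀
  haveI := hfd₁
  refine ⟨K₀ ⊔ K₁, inferInstance, fun K hK hle ϖ hϖ => ?_⟩
  obtain ⟨hdvr, Hm⟩ := H K hK (le_sup_left.trans hle)
  haveI := hdvr
  have hu : IsUnif (AK A K) ϖ := isUnif_of_irreducible (AK A K) hϖ
  obtain ⟨-, ht, nn, -, hdeg, hirr⟩ :=
    Hm ϖ hϖ hu ⟨tq K n e, hT K (le_sup_right.trans hle)⟩ rfl
  refine ⟨hdvr, ⟨tq K n e, hT K (le_sup_right.trans hle)⟩, rfl, ht, ?_, nn, hdeg, hirr⟩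
  exact Fermat.Agent.RED.ModelTargets4.transcendental_gaussRed_tq (AK A K) n e

/-- `ModelsStep1` for the Hauptmodul from the deliverable of G3. -/
theorem modelsStep1_of_explicit (hmem : TMem n e M) (h : ExplicitModelStep1 A M n e) :
    ModelsStep1 A M (tF1 n e M hmem) := by
  obtain ⟨K₀, hfd₀, H⟩ := h
  obtain ⟨K₁, hfd₁, hT⟩ := exists_tq_mem_FK1 (M := M) hmem
  haveI := hfd₀
  haveI := hfd₁
  refine ⟨K₀ ⊔ K₁, inferInstance, fun K hK hle => ?_⟩
  obtain ⟨hdvr, Hm⟩ := H K hK (le_sup_left.trans hle)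
  haveI := hdvr
  obtain ⟨ϖ, hϖ⟩ := IsDiscreteValuationRing.exists_irreducible ↥(AK A K)
  have hu : IsUnif (AK A K) ϖ := isUnif_of_irreducible (AK A K) hϖ
  refine ⟨ϖ, hu, ⟨tq K n e, hT K (le_sup_right.trans hle)⟩, ?_, ?_⟩
  · exact baseChangeHomG_eq_tF1 K hmem _ rfl
  · exact (Hm ϖ hϖ hu _ rfl).1

/-- **`LevelSat` for the Hauptmodul chart**, from the field `sat0` of the models. -/
theorem levelSat_t1 (hmem : TMem n e M) (h : ExplicitModelStep1 A M n e) :
    LevelSat A M (tF1 n e M hmem) := by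
  obtain ⟨K₀, hfd₀, H⟩ := h
  obtain ⟨K₁, hfd₁, hT⟩ := exists_tq_mem_FK1 (M := M) hmem
  haveI := hfd₀
  haveI := hfd₁
  refine ⟨K₀ ⊔ K₁, inferInstance, fun K hK hle ϖ hϖ hu tK htK b hb c hc hbc => ?_⟩
  obtain ⟨hdvr, Hm⟩ := H K hK (le_sup_left.trans hle)
  have htt : tK = ⟨tq K n e, hT K (le_sup_right.trans hle)⟩ := by
    apply baseChangeHomG_injective (F1 M) K
    rw [htK, baseChangeHomG_eq_tF1 K hmem _ rfl]
  subst htt
  exact (Hm ϖ hϖ hu _ rfl).1.sat0 b hb c hc hbc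

/-- **`LevelSat` for the chart at infinity**, from the field `sat1` of the models. -/
theorem levelSat_inv1 (hmem : TMem n e M) (h : ExplicitModelStep1 A M n e) :
    LevelSat A M (tF1 n e M hmem)⁻¹ := by
  obtain ⟨K₀, hfd₀, H⟩ := h
  obtain ⟨K₁, hfd₁, hT⟩ := exists_tq_mem_FK1 (M := M) hmem
  haveI := hfd₀
  haveI := hfd₁
  refine ⟨K₀ ⊔ K₁, inferInstance, fun K hK hle ϖ hϖ hu tK htK b hb c hc hbc => ?_⟩
  obtain ⟨hdvr, Hm⟩ := H K hK (le_sup_left.trans hle)
  have htt : tK = (⟨tq K n e, hT K (le_sup_right.trans hle)⟩ : ↥(FK1 M K))⁻¹ := by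
    apply baseChangeHomG_injective (F1 M) K
    rw [htK, map_inv₀, baseChangeHomG_eq_tF1 K hmem _ rfl]
  subst htt
  exact (Hm ϖ hϖ hu _ rfl).1.sat1 b hb c hc hbc

/-- **(Rmem)** in the shape consumed by `GaussUnitOne24`: the reduction of an `A`-integral
expansion of an element of `ℚ̄·F1 M` lies in `k(j̃(q^d), W̃_c)`. -/
theorem rmem_of_resFieldStep1 (ℓ : ℕ) [Fact ℓ.Prime] (hA : A.LiesOverPrime ℓ)
    (hres : GaussBridgeOne15.ResFieldStep1 A M) (Y : LaurentSeries ↥A)
    (hY : coeffMap A.subtype Y ∈ F1bar M) :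
    coeffMap (IsLocalRing.residue ↥A) Y ∈ F1C (IsLocalRing.ResidueField ↥A) M := by
  have hmem : (⟨coeffMap A.subtype Y, hY⟩ : ↥(F1bar M)) ∈ intF A M :=
    (mem_intF_iff A M).mpr ⟨Y, rfl⟩
  have h := redSeries_mem_F1C A M ℓ hA hres ⟨⟨coeffMap A.subtype Y, hY⟩, hmem⟩
  rwa [redSeries_eq_of (y := ⟨⟨coeffMap A.subtype Y, hY⟩, hmem⟩) (Y := Y) rfl] at h

end Fermat.Agent.ES.R48.ModelIfaceOne15
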