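/-
Programme R (S48, Deligne–Serre), chapter GEOM, sub-chapter G4 "CONG₁" (helper15), TOP₁ part 2:
**lifting functions of the special fibre** — twin of `RED/TOP/LiftRatio2` (helper2).

* `exists_lift_ratioG` (GENERIC): if `Fk = k(S)` and every generator `s ∈ S` is the reduction of a
  series `G ∈ A((q))` whose generic fibre lies in `laurentBaseChange L F₀`, then every nonzero
  `g ∈ Fk` is a ratio `G̃₁ / G̃₂` of reductions of two such series with nonzero reductions in `Fk`.
* `exists_lift_ratio_one` : the instance `F₀ := F1 M`, `Fk := F1C k M = k(j(q^d), W_c)`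
  (generators `j(q^d)`, `d ∣ M`, lift `qExpand A d (jqModC A)`; `W_c`, lift `wqC A M c`);
* `exists_lift_ratio_one_modL` : `A ⊆ ℚbar`, `k` its residue field.
-/
import Mathlib
import Fermat.Prelude.Def_ModularCurve_ReductionModL
import Fermat.Agent.ES.R48.F1CDefs15

set_option autoImplicit false

noncomputable section

open HahnSeries IntermediateField

namespace Fermat.Agent.ES.R48.LiftRatioOne15

open ModularCurve Fermat.Agent.ES.R48.FF1Defs13 Fermat.Agent.ES.R48.F1CDefs15

section General

variable {L : Type*} [Field L] [Algebra ℚ L] (A : ValuationSubring L)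
variable {k : Type*} [Field k] (π : A →+* k)
variable (F₀ : IntermediateField ℚ (LaurentSeries ℚ)) (S : Set (LaurentSeries k))

/-- the generators of `Fk` lift to integral series with generic fibre in `L·F₀`. -/
def GenLifts : Prop :=
  ∀ s ∈ S, ∃ G : LaurentSeries A,
    coeffMap π G = s ∧ coeffMap A.subtype G ∈ laurentBaseChange L F₀

variable {A π F₀ S}

/-- a chosen lift of a generator. -/
def genLift (h : GenLifts A π F₀ S) (s : S) : LaurentSeries A := (h s.1 s.2).choose

theorem coeffMap_genLift (h : GenLifts A π F₀ S) (s : S) :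
    coeffMap π (genLift h s) = (s : LaurentSeries k) := (h s.1 s.2).choose_spec.1

theorem genLift_mem (h : GenLifts A π F₀ S) (s : S) :
    coeffMap A.subtype (genLift h s) ∈ laurentBaseChange L F₀ := (h s.1 s.2).choose_spec.2

/-- the evaluation `A[X_s] → A((q))`, `X_s ↦` the chosen lift of `s`. -/
def PhiG (h : GenLifts A π F₀ S) : MvPolynomial S A →+* LaurentSeries A :=
  MvPolynomial.eval₂Hom (HahnSeries.C : A →+* LaurentSeries A) (genLift h)

theorem coeffMap_CG {R R' : Type*} [CommRing R] [CommRing R'] (f : R →+* R') (a : R) :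
    coeffMap f (HahnSeries.C a : LaurentSeries R) = HahnSeries.C (f a) := by
  exact coeffMap_single f 0 a

theorem C_eq_algebraMapG {K : Type*} [Field K] (c : K) :
    (HahnSeries.C c : LaurentSeries K) = algebraMap K (LaurentSeries K) c := by
  rw [algebraMap_laurentSeries_eq_single]
  rfl

/-- reduction of `PhiG` is evaluation of the reduced polynomial at the generators. -/
theorem coeffMap_PhiG (h : GenLifts A π F₀ S) (R : MvPolynomial S A) :
    coeffMap π (PhiG h R) =
      MvPolynomial.aeval (Subtype.val : S → LaurentSeries k) (MvPolynomial.map π R) := by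
  induction R using MvPolynomial.induction_on with
  | C a =>
    rw [PhiG, MvPolynomial.coe_eval₂Hom, MvPolynomial.eval₂_C, MvPolynomial.map_C,
      MvPolynomial.aeval_C, coeffMap_CG, C_eq_algebraMapG]
  | add p q hp hq => rw [map_add, map_add, hp, hq, map_add, map_add]
  | mul_X p s hp =>
    rw [map_mul, map_mul, hp, map_mul, map_mul, MvPolynomial.map_X, MvPolynomial.aeval_X]
    congr 1
    rw [PhiG, MvPolynomial.coe_eval₂Hom, MvPolynomial.eval₂_X, coeffMap_genLift]

theorem coeffMap_PhiG_mem (h : GenLifts A π F₀ S) (R : MvPolynomial S A) :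
    coeffMap π (PhiG h R) ∈ IntermediateField.adjoin k S := by
  rw [coeffMap_PhiG]
  have h' : MvPolynomial.aeval (Subtype.val : S → LaurentSeries k)
      (MvPolynomial.map π R) ∈ Algebra.adjoin k S := by
    have := Algebra.adjoin_range_eq_range_aeval k (Subtype.val : S → LaurentSeries k)
    rw [Subtype.range_coe] at this
    rw [this]
    exact ⟨_, rfl⟩
  exact IntermediateField.algebra_adjoin_le_adjoin k _ h'

/-- the generic fibre of `PhiG R` lies in the base-changed field. -/
theorem coeffMap_subtype_PhiG_mem (h : GenLifts A π F₀ S) (R : MvPolynomial S A) :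
    coeffMap A.subtype (PhiG h R) ∈ laurentBaseChange L F₀ := by
  induction R using MvPolynomial.induction_on with
  | C a =>
    rw [PhiG, MvPolynomial.coe_eval₂Hom, MvPolynomial.eval₂_C, coeffMap_CG, C_eq_algebraMapG]
    exact (laurentBaseChange L F₀).algebraMap_mem _
  | add p q hp hq => rw [map_add, map_add]; exact add_mem hp hq
  | mul_X p s hp =>
    rw [map_mul, map_mul]
    refine mul_mem hp ?_
    rw [PhiG, MvPolynomial.coe_eval₂Hom, MvPolynomial.eval₂_X]
    exact genLift_mem h s

/-- **(T3 = AUX-lift), generic**: every nonzero element of `k(S)` is the ratio of the reductions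
of two elements of `A[lifts of S]`. -/
theorem exists_lift_ratioG (h : GenLifts A π F₀ S) (hπ : Function.Surjective π)
    (g : LaurentSeries k) (hg : g ∈ IntermediateField.adjoin k S) (hg0 : g ≠ 0) :
    ∃ G₁ G₂ : LaurentSeries A,
      coeffMap A.subtype G₁ ∈ laurentBaseChange L F₀ ∧
      coeffMap A.subtype G₂ ∈ laurentBaseChange L F₀ ∧
      coeffMap π G₁ ∈ IntermediateField.adjoin k S ∧
      coeffMap π G₂ ∈ IntermediateField.adjoin k S ∧
      coeffMap π G₁ ≠ 0 ∧ coeffMap π G₂ ≠ 0 ∧
      g = coeffMap π G₁ / coeffMap π G₂ := by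
  rw [IntermediateField.mem_adjoin_iff] at hg
  obtain ⟨r, s, hrs⟩ := hg
  obtain ⟨R, rfl⟩ := MvPolynomial.map_surjective π hπ r
  obtain ⟨S', rfl⟩ := MvPolynomial.map_surjective π hπ s
  rw [← coeffMap_PhiG h R, ← coeffMap_PhiG h S'] at hrs
  refine ⟨PhiG h R, PhiG h S', coeffMap_subtype_PhiG_mem h R, coeffMap_subtype_PhiG_mem h S',
    coeffMap_PhiG_mem h R, coeffMap_PhiG_mem h S', ?_, ?_, hrs⟩
  · intro h0
    rw [h0, zero_div] at hrs
    exact hg0 hrs
  · intro h0
    rw [h0, div_zero] at hrs
    exact hg0 hrs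

end General

section One

variable {L : Type*} [Field L] [Algebra ℚ L] (A : ValuationSubring L)
variable {k : Type*} [Field k] (π : A →+* k) (M : ℕ)

/-- `W_c` over `L` is the base change of `W_c` over `ℚ`. -/
theorem wqC_eq_coeffEmb (c : ZMod M) : wqC L M c = coeffEmb L (wq M c) := by
  rw [coeffEmb, ← wqC_rat, coeffMap_wqC]

/-- the generators of `F1C k M` lift. -/
theorem genLifts_one :
    GenLifts A π (F1 M) (divisorExpansionsC k M ∪ wExpansionsC k M) := by
  rintro s (⟨d, hd, hdM, rfl⟩ | ⟨c, rfl⟩)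
  · refine ⟨qExpand A d (jqModC A), ?_, ?_⟩
    · rw [coeffMap_qExpand, coeffMap_jqModC]
    · rw [coeffMap_qExpand, coeffMap_jqModC]
      have h1 : qExpand L d (jqModC L) = coeffEmb L (qExpand ℚ d jq) := by
        rw [coeffEmb, coeffMap_qExpand, ← jqModC_rat, coeffMap_jqModC]
      rw [h1]
      exact coeffEmb_mem_laurentBaseChange L (jqd_mem_F1 M hdM)
  · refine ⟨wqC A M (c : ZMod M), coeffMap_wqC M _ π, ?_⟩
    rw [coeffMap_wqC, wqC_eq_coeffEmb]
    exact coeffEmb_mem_laurentBaseChange L (wq_mem_F1 M c)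

/-- **(T3) for `X₁(M)`**: every nonzero element of `F1C k M` is the ratio of the reductions of two
elements of `A[j(q^d), W_c] ⊂ A((q))`. -/
theorem exists_lift_ratio_one (hπ : Function.Surjective π) (g : LaurentSeries k)
    (hg : g ∈ F1C k M) (hg0 : g ≠ 0) :
    ∃ G₁ G₂ : LaurentSeries A,
      coeffMap A.subtype G₁ ∈ laurentBaseChange L (F1 M) ∧
      coeffMap A.subtype G₂ ∈ laurentBaseChange L (F1 M) ∧
      coeffMap π G₁ ∈ F1C k M ∧
      coeffMap π G₂ ∈ F1C k M ∧
      coeffMap π G₁ ≠ 0 ∧ coeffMap π G₂ ≠ 0 ∧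
      g = coeffMap π G₁ / coeffMap π G₂ :=
  exists_lift_ratioG (genLifts_one A π M) hπ g hg hg0

end One

section ModL

/-- the form used for (Φ3): `A` a valuation subring of `ℚbar`, `k` its residue field. -/
theorem exists_lift_ratio_one_modL (A : ValuationSubring (AlgebraicClosure ℚ)) (M : ℕ)
    (g : LaurentSeries (IsLocalRing.ResidueField A))
    (hg : g ∈ F1C (IsLocalRing.ResidueField A) M) (hg0 : g ≠ 0) :
    ∃ G₁ G₂ : LaurentSeries A,
      coeffMap A.subtype G₁ ∈ F1bar M ∧
      coeffMap A.subtype G₂ ∈ F1bar M ∧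
      coeffMap (IsLocalRing.residue A) G₁ ∈ F1C (IsLocalRing.ResidueField A) M ∧
      coeffMap (IsLocalRing.residue A) G₂ ∈ F1C (IsLocalRing.ResidueField A) M ∧
      coeffMap (IsLocalRing.residue A) G₁ ≠ 0 ∧ coeffMap (IsLocalRing.residue A) G₂ ≠ 0 ∧
      g = coeffMap (IsLocalRing.residue A) G₁ / coeffMap (IsLocalRing.residue A) G₂ :=
  exists_lift_ratio_one A (IsLocalRing.residue A) M IsLocalRing.residue_surjective g hg hg0

end ModL

end Fermat.Agent.ES.R48.LiftRatioOne15

end
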