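/-
Programme R (S48, Deligne–Serre), chapter GEOM, sub-chapter G4 "CONG₁" (helper15), TOP₁ part 3:
**(Φ3), reduction half, GENERIC**: the reduction map on `Pic⁰` is injective on prime-to-`ℓ` torsion,
for an arbitrary pair of function fields `F₀ ⊆ ℚ((q))`, `Fk ⊆ k((q))` (`k` the residue field of
`A ⊆ ℚbar`), given the core lemma `CLBarG ℓ F₀ A` (literal `RED/Interface4.CLBar` with
`Fbar N ↦ laurentBaseChange ℚbar F₀`).

Literal twin of `RED/TOP/S18Top20` §Along (`GoodRep`, `goodRep_of_mem_closure`, helper20),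
`RED/TOP/S18TopAt20` (`CLAt`, `CLFieldAt`, `clAt_of_clFieldAt`) and `ES/RED/RedInj12`
(`red_injective_of_CLAt`, helper12), with `modularFunctionFieldBar N ↦ laurentBaseChange ℚbar F₀`,
`modularFunctionFieldFullC k N ↦ Fk`, the Prelude reduction notions ↦ `RedDefsG15.…G`; the three
facts of `FbarFacts20` (`hdiv`, `hdeg1`, `hne`) and the lifting property of `LiftRatio2` (`hlift`)
are HYPOTHESES; every declaration `X` is `XG` here.  `red_injective_one` is the instance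
`F₀ = F1 M`, `Fk = F1C k M` (lifting property from `LiftRatioOne15`).
-/
import Mathlib
import Fermat.Agent.RED.Interface4
import Fermat.Agent.ES.R48.ConstViaRG15
import Fermat.Agent.ES.R48.LiftRatioOne15

set_option autoImplicit false
set_option synthInstance.maxHeartbeats 400000
set_option linter.unusedSectionVars false

noncomputable section

open HahnSeries IntermediateField AlgebraicCurve ModularCurve

namespace Fermat.Agent.ES.R48.RedInjG15

open Fermat.Agent.X0.FF Fermat.Agent.RED.TOP.ConstViaR20 Fermat.Agent.ES.R48.RedDefsG15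
  Fermat.Agent.ES.R48.ConstViaRG15

/-! ### Representing principal divisors by integral functions -/

section Along

variable {L : Type*} [Field L] [Algebra ℚ L] (A : ValuationSubring L)
variable {k : Type*} [Field k] (π : A →+* k)
variable (F₀ : IntermediateField ℚ (LaurentSeries ℚ)) (Fk : IntermediateField k (LaurentSeries k))

/-- `E = div Y₁ - div Y₂` with `Y₁, Y₂` integral with nonzero reductions in `F~_N`. -/
def GoodRepG (E : Divisor L (laurentBaseChange L F₀)) : Prop :=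
  ∃ (Y₁ Y₂ : LaurentSeries A)
    (h₁ : coeffMap A.subtype Y₁ ∈ laurentBaseChange L F₀)
    (h₂ : coeffMap A.subtype Y₂ ∈ laurentBaseChange L F₀),
    coeffMap π Y₁ ∈ Fk ∧ coeffMap π Y₂ ∈ Fk ∧
    coeffMap π Y₁ ≠ 0 ∧ coeffMap π Y₂ ≠ 0 ∧
    ∀ P : Place L (laurentBaseChange L F₀),
      E P = P.ord (⟨_, h₁⟩ : laurentBaseChange L F₀) -
        P.ord (⟨_, h₂⟩ : laurentBaseChange L F₀)

variable {A π F₀ Fk}

theorem bar_ne_zeroG {y : LaurentSeries A}
    (hy : coeffMap A.subtype y ∈ laurentBaseChange L F₀)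
    (hy0 : coeffMap π y ≠ 0) :
    (⟨_, hy⟩ : laurentBaseChange L F₀) ≠ 0 := by
  intro h0
  exact coeffMap_ne_zero_of_injective A.subtype_injective
    (ne_zero_of_coeffMap_ne_zero hy0) (congrArg Subtype.val h0)

theorem ord_bar_mulG (P : Place L (laurentBaseChange L F₀))
    {y z : LaurentSeries A}
    (hy : coeffMap A.subtype y ∈ laurentBaseChange L F₀)
    (hz : coeffMap A.subtype z ∈ laurentBaseChange L F₀)
    (hyz : coeffMap A.subtype (y * z) ∈ laurentBaseChange L F₀)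
    (hy0 : coeffMap π y ≠ 0) (hz0 : coeffMap π z ≠ 0) :
    P.ord (⟨_, hyz⟩ : laurentBaseChange L F₀) =
      P.ord (⟨_, hy⟩ : laurentBaseChange L F₀) +
        P.ord (⟨_, hz⟩ : laurentBaseChange L F₀) := by
  rw [← P.ord_mul (bar_ne_zeroG hy hy0) (bar_ne_zeroG hz hz0)]
  congr 1
  exact Subtype.ext (map_mul _ _ _)

theorem one_mem_barG :
    coeffMap A.subtype (1 : LaurentSeries A) ∈
      laurentBaseChange L F₀ := by
  rw [map_one]; exact one_mem _

theorem goodRep_of_mem_closureG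
    {E : Divisor L (laurentBaseChange L F₀)}
    (hE : E ∈ AddSubgroup.closure (integralPrincipalDivisorsG A π F₀ Fk)) : GoodRepG A π F₀ Fk E := by
  induction hE using AddSubgroup.closure_induction with
  | mem E hE =>
    obtain ⟨y, hy, hyk, hy0, hEy⟩ := hE
    refine ⟨y, 1, hy, one_mem_barG, hyk, ?_, hy0, ?_, ?_⟩
    · rw [map_one]; exact one_mem _
    · rw [map_one]; exact one_ne_zero
    · intro P
      rw [hEy P]
      have h1 : (⟨_, one_mem_barG⟩ : laurentBaseChange L F₀) = 1 :=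
        Subtype.ext (map_one (coeffMap A.subtype))
      rw [h1, P.ord_one, sub_zero]
  | zero =>
    refine ⟨1, 1, one_mem_barG, one_mem_barG, ?_, ?_, ?_, ?_, ?_⟩
    · rw [map_one]; exact one_mem _
    · rw [map_one]; exact one_mem _
    · rw [map_one]; exact one_ne_zero
    · rw [map_one]; exact one_ne_zero
    · intro P; simp
  | add E E' _ _ hE hE' =>
    obtain ⟨Y₁, Y₂, h₁, h₂, hk₁, hk₂, h0₁, h0₂, hord⟩ := hE
    obtain ⟨Z₁, Z₂, g₁, g₂, gk₁, gk₂, g0₁, g0₂, gord⟩ := hE'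
    have m₁ : coeffMap A.subtype (Y₁ * Z₁) ∈ laurentBaseChange L F₀ := by
      rw [map_mul]; exact mul_mem h₁ g₁
    have m₂ : coeffMap A.subtype (Y₂ * Z₂) ∈ laurentBaseChange L F₀ := by
      rw [map_mul]; exact mul_mem h₂ g₂
    refine ⟨Y₁ * Z₁, Y₂ * Z₂, m₁, m₂, ?_, ?_, ?_, ?_, ?_⟩
    · rw [map_mul]; exact mul_mem hk₁ gk₁
    · rw [map_mul]; exact mul_mem hk₂ gk₂
    · rw [map_mul]; exact mul_ne_zero h0₁ g0₁
    · rw [map_mul]; exact mul_ne_zero h0₂ g0₂
    · intro P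
      rw [Finsupp.add_apply, hord P, gord P, ord_bar_mulG P h₁ g₁ m₁ h0₁ g0₁,
        ord_bar_mulG P h₂ g₂ m₂ h0₂ g0₂]
      ring
  | neg E _ hE =>
    obtain ⟨Y₁, Y₂, h₁, h₂, hk₁, hk₂, h0₁, h0₂, hord⟩ := hE
    refine ⟨Y₂, Y₁, h₂, h₁, hk₂, hk₁, h0₂, h0₁, ?_⟩
    intro P
    rw [Finsupp.neg_apply, hord P]
    ring

end Along

/-! ### The core lemma, per valuation ring -/

/-- The core lemma for ONE valuation subring `A`, divisor form. -/
def CLAtG (ℓ : ℕ) (F₀ : IntermediateField ℚ (LaurentSeries ℚ)) (A : ValuationSubring (AlgebraicClosure ℚ))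
    (Fk : IntermediateField (IsLocalRing.ResidueField A) (LaurentSeries (IsLocalRing.ResidueField A))) : Prop :=
  ∀ (P Q : LaurentSeries A) (hP : coeffMap A.subtype P ∈ laurentBaseChange (AlgebraicClosure ℚ) F₀)
    (hQ : coeffMap A.subtype Q ∈ laurentBaseChange (AlgebraicClosure ℚ) F₀),
    coeffMap (IsLocalRing.residue A) P = coeffMap (IsLocalRing.residue A) Q →
    coeffMap (IsLocalRing.residue A) Q ≠ 0 →
    coeffMap (IsLocalRing.residue A) Q ∈ Fk →
  ∀ (m : ℕ), ¬ ℓ ∣ m → ∀ D : Divisor (AlgebraicClosure ℚ) (laurentBaseChange (AlgebraicClosure ℚ) F₀),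
    (∀ w : Place (AlgebraicClosure ℚ) (laurentBaseChange (AlgebraicClosure ℚ) F₀),
      (m : ℤ) * D w = w.ord ((⟨_, hP⟩ : laurentBaseChange (AlgebraicClosure ℚ) F₀) / ⟨_, hQ⟩)) →
    D ∈ Divisor.principal (K := AlgebraicClosure ℚ) (F := laurentBaseChange (AlgebraicClosure ℚ) F₀)

/-- The core lemma for ONE valuation subring `A`, FIELD form (no divisors). -/
def CLFieldAtG (ℓ : ℕ) (F₀ : IntermediateField ℚ (LaurentSeries ℚ)) (A : ValuationSubring (AlgebraicClosure ℚ))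
    (Fk : IntermediateField (IsLocalRing.ResidueField A) (LaurentSeries (IsLocalRing.ResidueField A))) : Prop :=
  ∀ (P Q : LaurentSeries A) (hP : coeffMap A.subtype P ∈ laurentBaseChange (AlgebraicClosure ℚ) F₀)
    (hQ : coeffMap A.subtype Q ∈ laurentBaseChange (AlgebraicClosure ℚ) F₀),
    coeffMap (IsLocalRing.residue A) P = coeffMap (IsLocalRing.residue A) Q →
    coeffMap (IsLocalRing.residue A) Q ≠ 0 →
    coeffMap (IsLocalRing.residue A) Q ∈ Fk →
  ∀ (m : ℕ), ¬ ℓ ∣ m →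
    (∀ v : Place (AlgebraicClosure ℚ) (laurentBaseChange (AlgebraicClosure ℚ) F₀),
      (m : ℤ) ∣ v.ord (⟨_, hP⟩ : laurentBaseChange (AlgebraicClosure ℚ) F₀) -
        v.ord (⟨_, hQ⟩ : laurentBaseChange (AlgebraicClosure ℚ) F₀)) →
    ∃ s : laurentBaseChange (AlgebraicClosure ℚ) F₀,
      s ^ m * (⟨_, hQ⟩ : laurentBaseChange (AlgebraicClosure ℚ) F₀) = (⟨_, hP⟩ : laurentBaseChange (AlgebraicClosure ℚ) F₀)

theorem clAt_of_clFieldAtG {ℓ : ℕ} {F₀ : IntermediateField ℚ (LaurentSeries ℚ)}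
    {A : ValuationSubring (AlgebraicClosure ℚ)}
    {Fk : IntermediateField (IsLocalRing.ResidueField A) (LaurentSeries (IsLocalRing.ResidueField A))}
    (h : CLFieldAtG ℓ F₀ A Fk) : CLAtG ℓ F₀ A Fk := by
  intro P Q hP hQ hPQ hQ0 hQk m hm D hD
  have hm0 : m ≠ 0 := fun h0 => hm (h0 ▸ dvd_zero ℓ)
  have hP0 : coeffMap (IsLocalRing.residue A) P ≠ 0 := hPQ ▸ hQ0
  have hPne := bar_ne_zeroG hP hP0
  have hQne := bar_ne_zeroG hQ hQ0
  have hsub : ∀ w : Place (AlgebraicClosure ℚ) (laurentBaseChange (AlgebraicClosure ℚ) F₀),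
      w.ord ((⟨_, hP⟩ : laurentBaseChange (AlgebraicClosure ℚ) F₀) / ⟨_, hQ⟩) =
        w.ord (⟨_, hP⟩ : laurentBaseChange (AlgebraicClosure ℚ) F₀) -
          w.ord (⟨_, hQ⟩ : laurentBaseChange (AlgebraicClosure ℚ) F₀) := by
    intro w
    rw [div_eq_mul_inv, w.ord_mul hPne (inv_ne_zero hQne), w.ord_inv]
    ring
  obtain ⟨s, hs⟩ := h P Q hP hQ hPQ hQ0 hQk m hm (fun v => ⟨D v, by rw [← hsub v, hD v]⟩)
  have hs0 : s ≠ 0 := by
    rintro rfl
    rw [zero_pow hm0, zero_mul] at hs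
    exact hPne hs.symm
  refine ⟨s, hs0, fun w => ?_⟩
  have h1 : (m : ℤ) * D w = (m : ℤ) * w.ord s := by
    rw [hD w, hsub w, ← hs, w.ord_mul (pow_ne_zero m hs0) hQne]
    have : w.ord (s ^ m) = (m : ℤ) * w.ord s := by
      rw [← zpow_natCast, w.ord_zpow]
    rw [this]
    ring
  exact mul_left_cancel₀ (by exact_mod_cast hm0) h1


/-! ### The main theorem -/

section Main

variable (F₀ : IntermediateField ℚ (LaurentSeries ℚ))

local notation "Qbar" => AlgebraicClosure ℚ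
local notation "Fbar" => laurentBaseChange (AlgebraicClosure ℚ) F₀

/-- powers of integral elements -/
theorem pow_mem_barG {A : ValuationSubring Qbar} {y : LaurentSeries A}
    (hy : coeffMap A.subtype y ∈ Fbar) (n : ℕ) : coeffMap A.subtype (y ^ n) ∈ Fbar := by
  rw [map_pow]; exact pow_mem hy n

theorem ord_bar_powG {A : ValuationSubring Qbar}
    (P : Place Qbar Fbar) {y : LaurentSeries A}
    (hy : coeffMap A.subtype y ∈ Fbar) (n : ℕ) :
    P.ord (⟨_, pow_mem_barG F₀ hy n⟩ : Fbar) = n * P.ord (⟨_, hy⟩ : Fbar) := by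
  have h : (⟨_, pow_mem_barG F₀ hy n⟩ : Fbar) = (⟨_, hy⟩ : Fbar) ^ (n : ℤ) := by
    rw [zpow_natCast]
    exact Subtype.ext (map_pow _ _ _)
  rw [h, P.ord_zpow]


/-- the lifting property of the special fibre (`LiftRatioOne15.exists_lift_ratio_one_modL` for
`X₁(M)`, `RED/TOP/LiftRatio2.exists_lift_ratio_modL` for `X₀(N)`). -/
def LiftRatioG (A : ValuationSubring (AlgebraicClosure ℚ))
    (Fk : IntermediateField (IsLocalRing.ResidueField A)
      (LaurentSeries (IsLocalRing.ResidueField A))) : Prop :=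
  ∀ (g : LaurentSeries (IsLocalRing.ResidueField A)), g ∈ Fk → g ≠ 0 →
    ∃ G₁ G₂ : LaurentSeries A,
      coeffMap A.subtype G₁ ∈ Fbar ∧
      coeffMap A.subtype G₂ ∈ Fbar ∧
      coeffMap (IsLocalRing.residue A) G₁ ∈ Fk ∧
      coeffMap (IsLocalRing.residue A) G₂ ∈ Fk ∧
      coeffMap (IsLocalRing.residue A) G₁ ≠ 0 ∧ coeffMap (IsLocalRing.residue A) G₂ ≠ 0 ∧
      g = coeffMap (IsLocalRing.residue A) G₁ / coeffMap (IsLocalRing.residue A) G₂

/-- **(Φ3), reduction half, generic**: for an EXPLICIT place reduction map `r`,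
`reductionPic0AlongG r hr hgen` is injective on the `m`-torsion of `Pic⁰(ℚbar·F₀)`, `ℓ ∤ m`, given
the core lemma at `A`, the characteristic-zero facts `hdiv`, `hdeg1`, `hne` and the lifting
property of `Fk`. -/
theorem red_injective_of_CLAtG {ℓ : ℕ} [Fact ℓ.Prime]
    (A : ValuationSubring (AlgebraicClosure ℚ))
    {Fk : IntermediateField (IsLocalRing.ResidueField A)
      (LaurentSeries (IsLocalRing.ResidueField A))}
    (hCL : CLAtG ℓ F₀ A Fk)
    (hdiv : HasPrincipalDivisors Qbar ↥Fbar)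
    (hdeg1 : ∀ P : Place Qbar Fbar, P.deg = 1)
    (hne : Nonempty (Place Qbar Fbar))
    (hlift : LiftRatioG F₀ A Fk)
    (r : Place (AlgebraicClosure ℚ) (laurentBaseChange (AlgebraicClosure ℚ) F₀) →
      Place (IsLocalRing.ResidueField A) Fk)
    (hr : IsPlaceReductionAlongG A (IsLocalRing.residue A) F₀ Fk r)
    (hgen : PrincipalGeneratedByIntegralG A (IsLocalRing.residue A) F₀ Fk)
    (m : ℕ) (hm : ¬ ℓ ∣ m) (z : Pic0 Qbar Fbar)
    (hmz : m • z = 0) (hz : reductionPic0AlongG r hr hgen z = 0) :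
    z = 0 := by
  classical
  -- `z = [D₀]`
  obtain ⟨⟨D₀, hD₀⟩, rfl⟩ := Pic0.mk_surjective z
  -- `m • D₀` is principal
  have hmD₀ : m • D₀ ∈ Divisor.principal (K := Qbar) (F := Fbar) := by
    have h1 : Pic0.mk (m • (⟨D₀, hD₀⟩ : Divisor.degZero (K := Qbar) (F := Fbar))) = 0 := by
      rw [← hmz]; rfl
    have h2 := (QuotientAddGroup.eq_zero_iff _).mp h1
    rw [AddSubgroup.mem_addSubgroupOf] at h2
    simpa using h2
  -- `r_* D₀` is principal
  have hrD₀ : Finsupp.mapDomain r D₀ ∈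
      Divisor.principal (K := IsLocalRing.ResidueField A)
        (F := Fk) := by
    rw [reductionPic0Along_mkG] at hz
    have h2 := (QuotientAddGroup.eq_zero_iff _).mp hz
    rw [AddSubgroup.mem_addSubgroupOf] at h2
    exact h2
  -- integral representation of `m • D₀`
  obtain ⟨Y₁, Y₂, hY₁, hY₂, hYk₁, hYk₂, hY0₁, hY0₂, hYord⟩ :=
    goodRep_of_mem_closureG (hgen hmD₀)
  -- `g~` with `div g~ = r_* D₀`, and its lift
  obtain ⟨g, hg0, hgord⟩ := hrD₀
  obtain ⟨G₁, G₂, hG₁, hG₂, hGk₁, hGk₂, hG0₁, hG0₂, hgG⟩ :=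
    hlift (g : LaurentSeries (IsLocalRing.ResidueField A)) g.2 (fun h0 => hg0 (Subtype.ext h0))
  obtain ⟨DG₁, hDG₁, -⟩ := hdiv.exists_divisor _ (bar_ne_zeroG hG₁ hG0₁)
  obtain ⟨DG₂, hDG₂, -⟩ := hdiv.exists_divisor _ (bar_ne_zeroG hG₂ hG0₂)
  -- the new divisor and functions
  set D : Divisor Qbar Fbar := D₀ - (DG₁ - DG₂) with hD
  have hP : coeffMap A.subtype (Y₁ * G₂ ^ m) ∈ Fbar := by
    rw [map_mul]; exact mul_mem hY₁ (pow_mem_barG F₀ hG₂ m)
  have hQ : coeffMap A.subtype (Y₂ * G₁ ^ m) ∈ Fbar := by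
    rw [map_mul]; exact mul_mem hY₂ (pow_mem_barG F₀ hG₁ m)
  have hPk : coeffMap (IsLocalRing.residue A) (Y₁ * G₂ ^ m) ∈
      Fk := by
    rw [map_mul, map_pow]; exact mul_mem hYk₁ (pow_mem hGk₂ m)
  have hQk : coeffMap (IsLocalRing.residue A) (Y₂ * G₁ ^ m) ∈
      Fk := by
    rw [map_mul, map_pow]; exact mul_mem hYk₂ (pow_mem hGk₁ m)
  have hP0 : coeffMap (IsLocalRing.residue A) (Y₁ * G₂ ^ m) ≠ 0 := by
    rw [map_mul, map_pow]; exact mul_ne_zero hY0₁ (pow_ne_zero m hG0₂)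
  have hQ0 : coeffMap (IsLocalRing.residue A) (Y₂ * G₁ ^ m) ≠ 0 := by
    rw [map_mul, map_pow]; exact mul_ne_zero hY0₂ (pow_ne_zero m hG0₁)
  have hGm0₁ : coeffMap (IsLocalRing.residue A) (G₁ ^ m) ≠ 0 := by
    rw [map_pow]; exact pow_ne_zero m hG0₁
  have hGm0₂ : coeffMap (IsLocalRing.residue A) (G₂ ^ m) ≠ 0 := by
    rw [map_pow]; exact pow_ne_zero m hG0₂
  -- orders upstairs: `m·D = div P - div Q`
  have hDord : ∀ w : Place Qbar Fbar, (m : ℤ) * D w =
      w.ord (⟨_, hP⟩ : Fbar) - w.ord (⟨_, hQ⟩ : Fbar) := by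
    intro w
    rw [ord_bar_mulG w hY₁ (pow_mem_barG F₀ hG₂ m) hP hY0₁ hGm0₂,
      ord_bar_mulG w hY₂ (pow_mem_barG F₀ hG₁ m) hQ hY0₂ hGm0₁,
      ord_bar_powG F₀ w hG₂ m, ord_bar_powG F₀ w hG₁ m, hD, Finsupp.sub_apply, Finsupp.sub_apply,
      hDG₁ w, hDG₂ w]
    have := hYord w
    rw [Finsupp.smul_apply, nsmul_eq_mul] at this
    linarith
  -- divisors of `P`, `Q` upstairs and their push-forwards
  obtain ⟨DP, hDP, -⟩ := hdiv.exists_divisor _ (bar_ne_zeroG hP hP0)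
  obtain ⟨DQ, hDQ, -⟩ := hdiv.exists_divisor _ (bar_ne_zeroG hQ hQ0)
  have hDPQ : DP - DQ = m • D := by
    ext w
    rw [Finsupp.sub_apply, Finsupp.smul_apply, nsmul_eq_mul, hDP w, hDQ w, hDord w]
  have hrP := hr.2 _ hP hPk hP0 DP hDP
  have hrQ := hr.2 _ hQ hQk hQ0 DQ hDQ
  have hrG₁ := hr.2 _ hG₁ hGk₁ hG0₁ DG₁ hDG₁
  have hrG₂ := hr.2 _ hG₂ hGk₂ hG0₂ DG₂ hDG₂
  -- `g = G₁~/G₂~` in `F~`
  have hgF : g = (⟨_, hGk₁⟩ : Fk) /
      ⟨_, hGk₂⟩ := Subtype.ext hgG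
  have hGk0₁ : (⟨_, hGk₁⟩ : Fk) ≠ 0 :=
    fun h0 => hG0₁ (congrArg Subtype.val h0)
  have hGk0₂ : (⟨_, hGk₂⟩ : Fk) ≠ 0 :=
    fun h0 => hG0₂ (congrArg Subtype.val h0)
  -- `r_* D = 0`
  have hrD : ∀ Q' : Place (IsLocalRing.ResidueField A)
      (Fk),
      Finsupp.mapDomain r D Q' = 0 := by
    intro Q'
    rw [hD, Finsupp.mapDomain_sub, Finsupp.mapDomain_sub, Finsupp.sub_apply, Finsupp.sub_apply,
      hgord Q', hrG₁ Q', hrG₂ Q', hgF, div_eq_mul_inv, Q'.ord_mul hGk0₁ (inv_ne_zero hGk0₂),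
      Q'.ord_inv]
    ring
  -- hence `P~`, `Q~` have the same orders everywhere
  have hordPQ : ∀ Q' : Place (IsLocalRing.ResidueField A)
      (Fk),
      Q'.ord (⟨_, hPk⟩ : Fk) =
        Q'.ord (⟨_, hQk⟩ : Fk) := by
    intro Q'
    have h1 : Finsupp.mapDomain r (DP - DQ) Q' = 0 := by
      rw [hDPQ, Finsupp.mapDomain_smul, Finsupp.smul_apply, hrD Q', smul_zero]
    rw [Finsupp.mapDomain_sub, Finsupp.sub_apply, hrP Q', hrQ Q'] at h1
    linarith
  -- constant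
  obtain ⟨c, hc⟩ := exists_const_of_ord_eqG IsLocalRing.residue_surjective hdiv hdeg1 hne hr
    (Y₁ * G₂ ^ m) (Y₂ * G₁ ^ m) hP hQ hPk hQk hQ0 hordPQ
  -- `c ≠ 0`
  have hc0 : (c : Qbar) ≠ 0 := by
    intro h0
    have : c = 0 := Subtype.ext h0
    rw [this, map_zero, zero_mul, map_zero] at hc
    exact hP0 hc
  -- apply (CL) to `P` and `c Q`
  have hQ' : coeffMap A.subtype (HahnSeries.C c * (Y₂ * G₁ ^ m)) ∈ Fbar := by
    rw [map_mul, coeffMap_C]; exact mul_mem (C_mem_barG _) hQ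
  have hQ'k : coeffMap (IsLocalRing.residue A) (HahnSeries.C c * (Y₂ * G₁ ^ m)) ∈
      Fk := by
    rw [← hc]; exact hPk
  have hQ'0 : coeffMap (IsLocalRing.residue A) (HahnSeries.C c * (Y₂ * G₁ ^ m)) ≠ 0 := by
    rw [← hc]; exact hP0
  have hDprin : D ∈ Divisor.principal (K := Qbar) (F := Fbar) := by
    refine hCL (Y₁ * G₂ ^ m) (HahnSeries.C c * (Y₂ * G₁ ^ m)) hP hQ' hc hQ'0 hQ'k m hm D ?_
    intro w
    have hQ'eq : (⟨_, hQ'⟩ : Fbar) = algebraMap Qbar Fbar (c : Qbar) * (⟨_, hQ⟩ : Fbar) := by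
      apply Subtype.ext
      show coeffMap A.subtype (HahnSeries.C c * (Y₂ * G₁ ^ m)) =
        algebraMap Qbar (LaurentSeries Qbar) (c : Qbar) * coeffMap A.subtype (Y₂ * G₁ ^ m)
      rw [map_mul, coeffMap_C, algebraMap_laurentSeries_eq_single, HahnSeries.C_apply]
      rfl
    have hcF : algebraMap Qbar Fbar (c : Qbar) ≠ 0 := by
      rw [Ne, map_eq_zero_iff _ (algebraMap Qbar Fbar).injective]
      exact hc0
    rw [hDord w, div_eq_mul_inv, w.ord_mul (bar_ne_zeroG hP hP0)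
      (inv_ne_zero (hQ'eq ▸ mul_ne_zero hcF (bar_ne_zeroG hQ hQ0))), w.ord_inv, hQ'eq,
      w.ord_mul hcF (bar_ne_zeroG hQ hQ0), ffp_ord_algebraMap]
    ring
  -- conclude
  have hD₀prin : D₀ ∈ Divisor.principal (K := Qbar) (F := Fbar) := by
    have h1 : D₀ = D + (DG₁ - DG₂) := by rw [hD]; abel
    rw [h1]
    refine AddSubgroup.add_mem _ hDprin (AddSubgroup.sub_mem _ ?_ ?_)
    · exact ⟨_, bar_ne_zeroG hG₁ hG0₁, hDG₁⟩
    · exact ⟨_, bar_ne_zeroG hG₂ hG0₂, hDG₂⟩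
  show Pic0.mk (⟨D₀, hD₀⟩ : Divisor.degZero (K := Qbar) (F := Fbar)) = 0
  rw [Pic0.mk, QuotientAddGroup.eq_zero_iff, AddSubgroup.mem_addSubgroupOf]
  exact hD₀prin


end Main

/-- **The core lemma over `ℚbar` for `F₀`, field form**: LITERAL `RED/Interface4.CLBar` with
`Fbar N ↦ laurentBaseChange ℚbar F₀` (no membership hypothesis on the reduction). -/
def CLBarG (ℓ : ℕ) (F₀ : IntermediateField ℚ (LaurentSeries ℚ))
    (A : ValuationSubring (AlgebraicClosure ℚ)) : Prop :=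
  ∀ (P Q : LaurentSeries A)
    (hP : coeffMap A.subtype P ∈ laurentBaseChange (AlgebraicClosure ℚ) F₀)
    (hQ : coeffMap A.subtype Q ∈ laurentBaseChange (AlgebraicClosure ℚ) F₀),
    coeffMap (IsLocalRing.residue A) P = coeffMap (IsLocalRing.residue A) Q →
    coeffMap (IsLocalRing.residue A) P ≠ 0 →
    ∀ m : ℕ, ¬ ℓ ∣ m →
      (∀ v : Place (AlgebraicClosure ℚ) (laurentBaseChange (AlgebraicClosure ℚ) F₀),
        (m : ℤ) ∣ v.ord (⟨coeffMap A.subtype P, hP⟩ : laurentBaseChange (AlgebraicClosure ℚ) F₀) -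
          v.ord (⟨coeffMap A.subtype Q, hQ⟩ : laurentBaseChange (AlgebraicClosure ℚ) F₀)) →
      ∃ s : laurentBaseChange (AlgebraicClosure ℚ) F₀,
        s ^ m * (⟨coeffMap A.subtype Q, hQ⟩ : laurentBaseChange (AlgebraicClosure ℚ) F₀) =
          ⟨coeffMap A.subtype P, hP⟩

/-- main's contract is the case `F₀ = modularFunctionFieldFull N`. -/
theorem clBarG_full_iff (ℓ N : ℕ) (A : ValuationSubring (AlgebraicClosure ℚ)) :
    CLBarG ℓ (modularFunctionFieldFull N) A ↔ Fermat.Agent.RED.Interface4.CLBar ℓ N A :=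
  Iff.rfl

theorem clFieldAt_of_clBarG {ℓ : ℕ} {F₀ : IntermediateField ℚ (LaurentSeries ℚ)}
    {A : ValuationSubring (AlgebraicClosure ℚ)}
    {Fk : IntermediateField (IsLocalRing.ResidueField A)
      (LaurentSeries (IsLocalRing.ResidueField A))}
    (h : CLBarG ℓ F₀ A) : CLFieldAtG ℓ F₀ A Fk :=
  fun P Q hP hQ hPQ hQ0 _ m hm hdvd => h P Q hP hQ hPQ (hPQ ▸ hQ0) m hm hdvd

/-- **(Φ3), reduction half, from the field-form contract `CLBarG ℓ F₀ A`.** -/
theorem red_injective_of_CLBarG {ℓ : ℕ} [Fact ℓ.Prime]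
    (F₀ : IntermediateField ℚ (LaurentSeries ℚ))
    (A : ValuationSubring (AlgebraicClosure ℚ))
    {Fk : IntermediateField (IsLocalRing.ResidueField A)
      (LaurentSeries (IsLocalRing.ResidueField A))}
    (hCL : CLBarG ℓ F₀ A)
    (hdiv : HasPrincipalDivisors (AlgebraicClosure ℚ) ↥(laurentBaseChange (AlgebraicClosure ℚ) F₀))
    (hdeg1 : ∀ P : Place (AlgebraicClosure ℚ) (laurentBaseChange (AlgebraicClosure ℚ) F₀),
      P.deg = 1)
    (hne : Nonempty (Place (AlgebraicClosure ℚ) (laurentBaseChange (AlgebraicClosure ℚ) F₀)))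
    (hlift : LiftRatioG F₀ A Fk)
    (r : Place (AlgebraicClosure ℚ) (laurentBaseChange (AlgebraicClosure ℚ) F₀) →
      Place (IsLocalRing.ResidueField A) Fk)
    (hr : IsPlaceReductionAlongG A (IsLocalRing.residue A) F₀ Fk r)
    (hgen : PrincipalGeneratedByIntegralG A (IsLocalRing.residue A) F₀ Fk)
    (m : ℕ) (hm : ¬ ℓ ∣ m) (z : Pic0 (AlgebraicClosure ℚ) (laurentBaseChange (AlgebraicClosure ℚ) F₀))
    (hmz : m • z = 0) (hz : reductionPic0AlongG r hr hgen z = 0) :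
    z = 0 :=
  red_injective_of_CLAtG F₀ A (clAt_of_clFieldAtG (clFieldAt_of_clBarG hCL)) hdiv hdeg1 hne hlift
    r hr hgen m hm z hmz hz

/-! ### The case of `X₁(M)` -/

section One

open Fermat.Agent.ES.R48.FF1Defs13 Fermat.Agent.ES.R48.F1CDefs15

/-- **(Φ3) for `X₁(M)`, reduction half**: `reductionPic0AlongG r hr hgen` is injective on the
prime-to-`ℓ` torsion of `JOne M`, from G3's core lemma `CLBarG ℓ (F1 M) A` (`= CLBar1 ℓ M A`) and
the characteristic-zero facts of `F1bar M` (all three follow from `isGen_jF1`). -/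
theorem red_injective_one {ℓ : ℕ} [Fact ℓ.Prime] (M : ℕ)
    (A : ValuationSubring (AlgebraicClosure ℚ))
    (hCL : CLBarG ℓ (F1 M) A)
    (hdiv : HasPrincipalDivisors (AlgebraicClosure ℚ) ↥(F1bar M))
    (hdeg1 : ∀ P : Place (AlgebraicClosure ℚ) (F1bar M), P.deg = 1)
    (hne : Nonempty (Place (AlgebraicClosure ℚ) (F1bar M)))
    (r : Place (AlgebraicClosure ℚ) (F1bar M) →
      Place (IsLocalRing.ResidueField A) (F1C (IsLocalRing.ResidueField A) M))
    (hr : IsPlaceReductionAlong1 A (IsLocalRing.residue A) M r)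
    (hgen : PrincipalGeneratedByIntegral1 A (IsLocalRing.residue A) M)
    (m : ℕ) (hm : ¬ ℓ ∣ m) (z : JOne M)
    (hmz : m • z = 0) (hz : reductionPic0AlongG r hr hgen z = 0) :
    z = 0 :=
  red_injective_of_CLBarG (F1 M) A hCL hdiv hdeg1 hne
    (Fermat.Agent.ES.R48.LiftRatioOne15.exists_lift_ratio_one_modL A M) r hr hgen m hm z hmz hz

end One

end Fermat.Agent.ES.R48.RedInjG15

end
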