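/-
Programme R (S48, Deligne–Serre), chapter GEOM, sub-chapter G4 "CONG₁" (helper13): **the `Pic⁰`
passage of the Eichler–Shimura divisor identity in TORSION form, and the torsion contract
`G4Close13.SPTors` for `X₁(M)`** (G4 DECISIONS v2: the diamond `δ = ⟨p⟩` acts in characteristic
zero only; the divisor identity is only known on divisors with torsion class, helper24's
`KronDgen24.map_hecke_of_smul_principal`).

GENERIC part (any pair `F₀ ⊆ ℚ((q))`, `Fk ⊆ k((q))`, any correspondence `ψ_* φ^*` on `L · F₀`, any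
`δ : SemilinearAut L (L · F₀)`, `g h : SemilinearAut k Fk`):

* `zsmul_mem_principal_of_nsmul_mk` : `m • [D] = 0` in `Pic⁰` gives `m • D` principal;
* `red_correspondence_tors` : from the divisor identity on the divisors `D` with `m • D` principal
    `r_* (ψ_* φ^* D) = g_* (r_* (δ • D)) + n • h_* (r_* D)`
  to `red (C z) = g • red (δ • z) + n • (h • red z)` for `m • z = 0`
  (twin of `PhiOneTwoOne28.red_correspondenceG`, with `δ` upstairs and only on `m`-torsion).

`X₁(M)` part (`L = ℚbar`):

* `red_heckeOnePic0Bar_tors` : the same for `T_p = heckeOnePic0Bar`;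
* `red_heckeOnePic0Bar_kron` : from helper24's hypotheses (Dgen) and (NORM-α₁) for `δ`:
  `red (T_p z) = Fr • red (δ • z) + p • (Fr⁻¹ • red z)` for `m • z = 0`, `m ≠ 0`;
* **`spTors_of_kron`** : `G4Close13.SPTors A p m (heckeOne M p) (diamondOne M e)` from (R3)
  (`hI`, `hFr`: inertia and Frobenius on places), (Dgen) and (NORM-α₁) for `δ = diamondAut ℚbar M e`,
  the geometric inputs of `T_p`, and the injectivity of `red` on `J₁(M)[m]`.
-/
import Mathlib
import Fermat.Agent.ES.R48.PhiOneTwoOne28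
import Fermat.Agent.ES.R48.KronDgen24
import Fermat.Agent.ES.R48.G4Close13

set_option autoImplicit false
set_option synthInstance.maxHeartbeats 400000

noncomputable section

open AlgebraicCurve ModularCurve IntermediateField

namespace Fermat.Agent.ES.R48.TorsEsOne13

open Fermat.Agent.ES.R48.FF1Defs13 Fermat.Agent.ES.R48.F1CDefs15 Fermat.Agent.ES.R48.RedDefsG15
open Fermat.Agent.ES.R48.JOneOps13

/-! ### The `Pic⁰` passage of a divisor identity known on torsion classes, generic form -/

section Passage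

variable {L : Type*} [Field L] [Algebra ℚ L] {A : ValuationSubring L}
variable {k : Type*} [Field k] {π : ↥A →+* k}
variable {F₀ : IntermediateField ℚ (LaurentSeries ℚ)} {Fk : IntermediateField k (LaurentSeries k)}
variable (r : Place L (laurentBaseChange L F₀) → Place k Fk)
variable {F' : Type*} [Field F'] [Algebra L F'] [HasPrincipalDivisors L F']

omit [Algebra ℚ L] in
/-- if `m • [D] = 0` in `Pic⁰` then `m • D` is principal. -/
theorem zsmul_mem_principal_of_nsmul_mk {F : Type*} [Field F] [Algebra L F] {m : ℕ}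
    (D : Divisor.degZero (K := L) (F := F)) (h : m • Pic0.mk D = 0) :
    (m : ℤ) • (D : Divisor L F) ∈ Divisor.principal (K := L) (F := F) := by
  have h1 : Pic0.mk (m • D) = 0 := by
    rw [← h]; rfl
  have h2 := (QuotientAddGroup.eq_zero_iff _).mp h1
  rw [AddSubgroup.mem_addSubgroupOf] at h2
  simpa using h2

/-- **The `Pic⁰` passage, torsion form**: a divisor identity
`r_* (ψ_* φ^* D) = g_* (r_* (δ • D)) + n • h_* (r_* D)` on the divisors `D` with `m • D` principal
gives `red (C z) = g • red (δ • z) + n • (h • red z)` on the `m`-torsion of `Pic⁰`, for the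
correspondence `C = ψ_* φ^*`. -/
theorem red_correspondence_tors (hr : IsPlaceReductionAlongG A π F₀ Fk r)
    (hgen : PrincipalGeneratedByIntegralG A π F₀ Fk)
    (φ ψ : ↥(laurentBaseChange L F₀) →ₐ[L] F') (hφ : φ.toRingHom.IsIntegral)
    (hψ : ψ.toRingHom.IsIntegral) (hFI : FundamentalIdentityAlong L φ hφ)
    (hfin : FiniteAlong L ψ) (hN : NormFormulaAlong L ψ hfin)
    (δ : SemilinearAut L ↥(laurentBaseChange L F₀)) (g h : SemilinearAut k Fk) (n m : ℕ)
    (hES : ∀ D : Divisor L (laurentBaseChange L F₀),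
      (m : ℤ) • D ∈ Divisor.principal (K := L) (F := ↥(laurentBaseChange L F₀)) →
      Finsupp.mapDomain r (Divisor.correspondence φ ψ hφ hψ D) =
        Finsupp.mapDomain (fun Q => g • Q) (Finsupp.mapDomain r (δ • D)) +
          (n : ℤ) • Finsupp.mapDomain (fun Q => h • Q) (Finsupp.mapDomain r D))
    (z : Pic0 L (laurentBaseChange L F₀)) (hz : m • z = 0) :
    reductionPic0AlongG r hr hgen (Pic0.correspondence φ ψ hφ hψ hFI hfin hN z) =
      g • reductionPic0AlongG r hr hgen (δ • z) + n • (h • reductionPic0AlongG r hr hgen z) := by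
  obtain ⟨D, rfl⟩ := Pic0.mk_surjective z
  have hD := zsmul_mem_principal_of_nsmul_mk D hz
  rw [Pic0.correspondence_mk, SemilinearAut.pic0_smul_mk, reductionPic0Along_mkG,
    reductionPic0Along_mkG, reductionPic0Along_mkG, SemilinearAut.pic0_smul_mk,
    SemilinearAut.pic0_smul_mk]
  have key : reductionDegZeroAlongG r hr.1 (Pic0.degZeroCorrespondence φ ψ hφ hψ hFI D) =
      SemilinearAut.degZeroSMulHom g
          (reductionDegZeroAlongG r hr.1 (SemilinearAut.degZeroSMulHom δ D)) +
        n • SemilinearAut.degZeroSMulHom h (reductionDegZeroAlongG r hr.1 D) := by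
    apply Subtype.ext
    rw [coe_reductionDegZeroAlongG, Pic0.coe_degZeroCorrespondence, AddSubgroup.coe_add,
      AddSubgroup.coe_nsmul, SemilinearAut.coe_degZeroSMulHom, SemilinearAut.coe_degZeroSMulHom,
      coe_reductionDegZeroAlongG, coe_reductionDegZeroAlongG, SemilinearAut.coe_degZeroSMulHom,
      SemilinearAut.divisor_smul_def g, SemilinearAut.divisor_smul_def h,
      ← Nat.cast_smul_eq_nsmul ℤ]
    exact hES D hD
  rw [key]
  show QuotientAddGroup.mk' _ _ = QuotientAddGroup.mk' _ _ + n • QuotientAddGroup.mk' _ _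
  rw [map_add, map_nsmul]

end Passage

/-! ### `X₁(M)`: the `Pic⁰` passage for `T_p` -/

section One

variable {L : Type*} [Field L] [Algebra ℚ L] {A : ValuationSubring L}
variable {k : Type*} [Field k] {π : ↥A →+* k} {M p : ℕ} [NeZero p]
variable (r : Place L (laurentBaseChange L (F1 M)) → Place k (F1C k M))
variable (hα : HeckeOneAlphaBarIntegral M p L) (hβ : HeckeOneBetaBarIntegral M p L)
variable [HasPrincipalDivisors L (laurentBaseChange L (F1p M p))]

/-- **(ES) on the `m`-torsion of `Pic⁰` of `X₁(M)`, general form**: from the divisor identity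
`r_* (T_p D) = g_* (r_* (δ • D)) + n • h_* (r_* D)` on the divisors `D` with `m • D` principal. -/
theorem red_heckeOnePic0Bar_tors (hr : IsPlaceReductionAlong1 A π M r)
    (hgen : PrincipalGeneratedByIntegral1 A π M)
    (hFI : FundamentalIdentityAlong L (heckeOneBetaBar M p L) hβ)
    (hfin : FiniteAlong L (heckeOneAlphaBar M p L))
    (hN : NormFormulaAlong L (heckeOneAlphaBar M p L) hfin)
    (δ : SemilinearAut L ↥(laurentBaseChange L (F1 M))) (g h : SemilinearAut k (F1C k M))
    (n m : ℕ)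
    (hES : ∀ D : Divisor L (laurentBaseChange L (F1 M)),
      (m : ℤ) • D ∈ Divisor.principal (K := L) (F := ↥(laurentBaseChange L (F1 M))) →
      Finsupp.mapDomain r (heckeOneDivBar hα hβ D) =
        Finsupp.mapDomain (fun Q => g • Q) (Finsupp.mapDomain r (δ • D)) +
          (n : ℤ) • Finsupp.mapDomain (fun Q => h • Q) (Finsupp.mapDomain r D))
    (z : Pic0 L (laurentBaseChange L (F1 M))) (hz : m • z = 0) :
    reductionPic0AlongG r hr hgen (heckeOnePic0Bar hα hβ hFI hfin hN z) =
      g • reductionPic0AlongG r hr hgen (δ • z) + n • (h • reductionPic0AlongG r hr hgen z) :=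
  red_correspondence_tors r hr hgen (heckeOneBetaBar M p L) (heckeOneAlphaBar M p L) hβ hα hFI hfin
    hN δ g h n m hES z hz

end One

/-! ### From helper24's Kronecker divisor identity to the torsion contract -/

section Kron

open Fermat.Agent.X0 Fermat.Agent.ES.R48.KronMainOne24 Fermat.Agent.ES.R48.KronDgen24

variable {M p : ℕ} [NeZero M] [NeZero p] [Fact p.Prime]
variable {A : ValuationSubring Kbar} {k : Type*} [Field k] [CharP k p] [PerfectField k]
  {π : ↥A →+* k}
variable (r : Place Kbar (laurentBaseChange Kbar (F1 M)) → Place k (F1C k M))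
variable (hα : HeckeOneAlphaBarIntegral M p Kbar) (hβ : HeckeOneBetaBarIntegral M p Kbar)
variable [HasPrincipalDivisors Kbar (laurentBaseChange Kbar (F1p M p))]

/-- **(ES) on the `m`-torsion of `J₁(M)`, `m ≠ 0`, from (Dgen) and (NORM-α₁) for `δ`**:
`red (T_p z) = Fr • red (δ • z) + p • (Fr⁻¹ • red z)`. -/
theorem red_heckeOnePic0Bar_kron (hr : IsPlaceReductionAlong1 A π M r)
    (hgen : PrincipalGeneratedByIntegral1 A π M)
    (hFI : FundamentalIdentityAlong Kbar (heckeOneBetaBar M p Kbar) hβ)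
    (hfin : FiniteAlong Kbar (heckeOneAlphaBar M p Kbar))
    (hN : NormFormulaAlong Kbar (heckeOneAlphaBar M p Kbar) hfin)
    (δ : SemilinearAut Kbar ↥(laurentBaseChange Kbar (F1 M)))
    (hgenδ : PrincipalGeneratedByIntegralδ A π M δ) (hδ : NormConj1 M p (fun f => δ • f))
    {m : ℕ} (hm : m ≠ 0) (z : Pic0 Kbar (laurentBaseChange Kbar (F1 M))) (hz : m • z = 0) :
    reductionPic0AlongG r hr hgen (heckeOnePic0Bar hα hβ hFI hfin hN z) =
      frobSemi1 k p M • reductionPic0AlongG r hr hgen (δ • z) +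
        p • ((frobSemi1 k p M)⁻¹ • reductionPic0AlongG r hr hgen z) :=
  red_heckeOnePic0Bar_tors r hα hβ hr hgen hFI hfin hN δ (frobSemi1 k p M) (frobSemi1 k p M)⁻¹ p m
    (fun _ hD => map_hecke_of_smul_principal M p A π δ hgenδ hδ hα hβ hfin hN hr
      (Int.natCast_ne_zero.mpr hm) hD) z hz

end Kron

/-! ### The torsion contract `SPTors` for `X₁(M)` -/

section Contract

open Fermat.Agent.X0 Fermat.Agent.ES.R48.KronMainOne24 Fermat.Agent.ES.R48.KronDgen24
open Fermat.Agent.ES.R48.PhiOneTwoOne28 Fermat.Agent.ES.R48.G4Close13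

local notation "Qb" => AlgebraicClosure ℚ

variable {M p : ℕ} [NeZero M] [NeZero p] [Fact p.Prime]
variable {A : ValuationSubring Qb} [CharP (IsLocalRing.ResidueField A) p]
  [PerfectField (IsLocalRing.ResidueField A)]
variable (r : Place Qb (F1bar M) →
  Place (IsLocalRing.ResidueField A) (F1C (IsLocalRing.ResidueField A) M))
variable (hr : IsPlaceReductionAlong1 A (IsLocalRing.residue A) M r)
  (hgen : PrincipalGeneratedByIntegral1 A (IsLocalRing.residue A) M)
variable [HasPrincipalDivisors Qb (laurentBaseChange Qb (F1p M p))]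

/-- **The torsion contract (SP₁), for `heckeOnePic0Bar`**: from (R3) (inertia and Frobenius on
places), (Dgen) and (NORM-α₁) for the diamond `δ = diamondAut ℚbar M e`, and the injectivity of
`red` on `J₁(M)[m]`. -/
theorem spTors_pic0Bar_of_kron (hα : HeckeOneAlphaBarIntegral M p Qb)
    (hβ : HeckeOneBetaBarIntegral M p Qb)
    (hFI : FundamentalIdentityAlong Qb (heckeOneBetaBar M p Qb) hβ)
    (hfin : FiniteAlong Qb (heckeOneAlphaBar M p Qb))
    (hN : NormFormulaAlong Qb (heckeOneAlphaBar M p Qb) hfin)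
    (hI : ∀ τ ∈ A.inertiaSubgroupIn ℚ, ∀ P : Place Qb (F1bar M),
      r (arithmeticGalois (F1 M) τ • P) = r P)
    (hFr : ∀ σ : Qb ≃ₐ[ℚ] Qb, A.IsFrobeniusAt σ p → ∀ P : Place Qb (F1bar M),
      r (arithmeticGalois (F1 M) σ • P) = frobSemi1 (IsLocalRing.ResidueField A) p M • r P)
    (e : (ZMod M)ˣ)
    (hgenδ : PrincipalGeneratedByIntegralδ A (IsLocalRing.residue A) M (diamondAut Qb M e))
    (hδ : NormConj1 M p (fun f => diamondAut Qb M e • f))
    {m : ℕ} (hm : m ≠ 0)
    (h3 : ∀ x : JOne M, m • x = 0 → reductionPic0AlongG r hr hgen x = 0 → x = 0) :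
    SPTors (K := ℚ) A p m (heckeOnePic0Bar hα hβ hFI hfin hN) (diamondOne M e) :=
  spTors_of_red (reductionPic0AlongG r hr hgen) (frobSemi1 (IsLocalRing.ResidueField A) p M)
    (phi_one₁ r hr hgen hI) (phi_frob₁ r hr hgen hFr)
    (fun z hz => red_heckeOnePic0Bar_kron r hα hβ hr hgen hFI hfin hN (diamondAut Qb M e) hgenδ hδ
      hm z hz)
    (fun σ x => diamondOne_galois e σ x) h3

/-- **The torsion contract (SP₁) for `heckeOne M p` and `diamondOne M e`** (the shape of
`G4Close13.SPTorsExport`, at `e = unitNat M p`, `m = ℓ`). -/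
theorem spTors_of_kron (hα : HeckeOneAlphaBarIntegral M p Qb) (hβ : HeckeOneBetaBarIntegral M p Qb)
    (hFI : FundamentalIdentityAlong Qb (heckeOneBetaBar M p Qb) hβ)
    (hfin : FiniteAlong Qb (heckeOneAlphaBar M p Qb))
    (hN : NormFormulaAlong Qb (heckeOneAlphaBar M p Qb) hfin)
    (hI : ∀ τ ∈ A.inertiaSubgroupIn ℚ, ∀ P : Place Qb (F1bar M),
      r (arithmeticGalois (F1 M) τ • P) = r P)
    (hFr : ∀ σ : Qb ≃ₐ[ℚ] Qb, A.IsFrobeniusAt σ p → ∀ P : Place Qb (F1bar M),
      r (arithmeticGalois (F1 M) σ • P) = frobSemi1 (IsLocalRing.ResidueField A) p M • r P)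
    (e : (ZMod M)ˣ)
    (hgenδ : PrincipalGeneratedByIntegralδ A (IsLocalRing.residue A) M (diamondAut Qb M e))
    (hδ : NormConj1 M p (fun f => diamondAut Qb M e • f))
    {m : ℕ} (hm : m ≠ 0)
    (h3 : ∀ x : JOne M, m • x = 0 → reductionPic0AlongG r hr hgen x = 0 → x = 0) :
    SPTors (K := ℚ) A p m (heckeOne M p) (diamondOne M e) := by
  rw [heckeOne_eq, heckeOneAlong_eq hα hβ hFI hfin hN]
  exact spTors_pic0Bar_of_kron r hr hgen hα hβ hFI hfin hN hI hFr e hgenδ hδ hm h3

end Contract

end Fermat.Agent.ES.R48.TorsEsOne13
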