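/-
Programme R (S48, Deligne–Serre), chapter GEOM, sub-chapter G4 "CONG₁" (helper15), TOP:
**the torsion contract `G4Close13.SPTors` for `X₁(M)` at a prime `p ∤ M` from the CONCRETE inputs**
(twin of main's `ES/TOP/SPInputs12.sp_of_inputs_level`; no level change).

`spTors_of_inputs` : from a two-chart structure `T : TwoCharts A hx ↥(F1C (kA A) M)` over `A ≤ ℚ̄`
(`A` over `p`), its `RedMainG15.ChartInputsG` and `ChartInputsOfG15.CoeffChartG` (both charts),
(GB2)₁ `GaussBridgeOne15.ResFieldStep1 A M` and (CL)₁ `G3Defs4.CLBar1 p M A`: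

  `G4Close13.SPTors (K := ℚ) A p ℓ (heckeOne M p) (diamondOne M (unitNat M p))`   (`p ∤ ℓ`, `ℓ ≠ 0`).

All other inputs are plugged here:
* (R2)  `RedMainG15.isPlaceReductionModL_twoCharts`;
* (Rmem) `ModelIfaceOne15.rmem_of_resFieldStep1` ⇒ (Rgen)₁, (Dgen) `GaussUnitOne24`;
* (R3)  `GaloisInstOne21.r_smul_of_mem_inertia1'`, `r_smul_of_isFrobeniusAt1'`;
* Hecke inputs `InputsOne22` + `DegreeLOne20` (degrees `p + 1 > 0`);
* (NORM-α₁) `ConjugatesOne20.normConj1_diamondAut`;
* (Φ3)  `RedInjG15.red_injective_one`;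
* the torsion Eichler–Shimura passage `TorsEsOne13.spTors_of_kron`.
-/
import Mathlib
import Fermat.Agent.ES.R48.TorsEsOne13
import Fermat.Agent.ES.R48.GaussUnitOne24
import Fermat.Agent.ES.R48.GaloisInstOne21
import Fermat.Agent.ES.R48.RedInjG15
import Fermat.Agent.ES.R48.InputsOne22
import Fermat.Agent.ES.R48.ConjugatesOne20
import Fermat.Agent.ES.R48.ModelIfaceOne15
import Fermat.Agent.ES.R48.ChartInputsOfG15
import Fermat.Agent.ES.KRON.KronInst10

set_option autoImplicit false
set_option synthInstance.maxHeartbeats 400000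
set_option linter.unusedSectionVars false
set_option linter.style.haveILetI false

noncomputable section

open AlgebraicCurve ModularCurve IntermediateField HahnSeries

namespace Fermat.Agent.ES.R48.SPOneOfInputs15

open Fermat.Agent.ES.RED.Contract8 Fermat.Agent.ES.RED.TwoCharts8
open Fermat.Agent.X0 Fermat.Agent.X0.FF
open Fermat.Agent.ES.R48.FF1Defs13 Fermat.Agent.ES.R48.F1CDefs15 Fermat.Agent.ES.R48.RedDefsG15
open Fermat.Agent.ES.R48.RedMainG15 Fermat.Agent.ES.R48.ChartInputsOfG15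
open Fermat.Agent.ES.R48.JOneOps13 Fermat.Agent.ES.R48.GeomIface13 Fermat.Agent.ES.R48.G4Close13

/-- `ℚbar`. -/
local notation "Qb" => AlgebraicClosure ℚ

variable {M p : ℕ} [NeZero M] [NeZero p] [Fact p.Prime] {A : ValuationSubring Qb}
  {x : ↥(F1bar M)} {hx : IsGen Qb x}

/-- a function field with a generator has a place (a pole of the generator). -/
theorem nonempty_place_of_isGen {K F : Type*} [Field K] [IsAlgClosed K] [CharZero K] [Field F]
    [Algebra K F] {y : F} (hy : IsGen K y) : Nonempty (Place K F) := by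
  by_contra hempty
  rw [not_nonempty_iff] at hempty
  have h := FF.sum_ord_poles hy
  have h0 : (∑ᶠ (v : Place K F) (_ : v.ord y < 0), -v.ord y) = 0 := by
    apply finsum_eq_zero_of_forall_eq_zero
    intro v
    exact (hempty.false v).elim
  rw [h0] at h
  have := hy.finite
  have hpos : 0 < Module.finrank (IntermediateField.adjoin K {y}) F := Module.finrank_pos
  omega

/-- **`SPTors` from the concrete inputs at level `M`**, `p ∤ M` prime, `A` over `p`. -/
theorem spTors_of_inputs (hM3 : 3 ≤ M) (hpM : ¬ p ∣ M) (hA : A.LiesOverPrime p)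
    (T : TwoCharts A hx ↥(F1C (kA A) M))
    (h0 : ChartInputsG A (F1 M) (F1C (kA A) M) T.S0)
    (h1 : ChartInputsG A (F1 M) (F1C (kA A) M) T.S1)
    (c0 : CoeffChartG (F₀ := F1 M) (Fk := F1C (kA A) M) T.S0)
    (c1 : CoeffChartG (F₀ := F1 M) (Fk := F1C (kA A) M) T.S1)
    (hres : GaussBridgeOne15.ResFieldStep1 A M) (hcl : G3Defs4.CLBar1 p M A)
    {ℓ : ℕ} (hℓ0 : ℓ ≠ 0) (hpℓ : ¬ p ∣ ℓ) :
    SPTors (K := ℚ) A p ℓ (heckeOne M p) (diamondOne M (unitNat M p)) := by
  have hp : p.Prime := Fact.out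
  haveI : IsAlgClosed (kA A) := Fermat.Agent.ES.KRON.KronInst10.isAlgClosed_residueField A
  haveI : CharP (kA A) p := Fermat.Agent.ES.KRON.KronInst10.charP_residueField A hp hA
  haveI : ExpChar (kA A) p := ExpChar.prime hp
  haveI : PerfectField (kA A) := inferInstance
  haveI hdiv : HasPrincipalDivisors Qb ↥(F1bar M) := Fermat.Agent.X0.FFGenus.hasPrincipalDivisors hx
  have hdeg1 : ∀ P : Place Qb ↥(F1bar M), P.deg = 1 := fun P => FF.deg_eq_one hx P
  have hne : Nonempty (Place Qb ↥(F1bar M)) := nonempty_place_of_isGen hx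
  have hdα := DegreeLOne20.finrankAlong_alphaOne_pos M p hM3 hp hpM
  have hdβ := DegreeLOne20.finrankAlong_betaOne_pos M p hM3 hp hpM
  haveI := InputsOne22.hasPrincipalDivisors_F1p hx hdα
  have hr : IsPlaceReductionAlong1 A (IsLocalRing.residue ↥A) M T.r :=
    isPlaceReductionModL_twoCharts T h0 h1 hdeg1
  have hR := ModelIfaceOne15.rmem_of_resFieldStep1 p hA hres
  have hgen : PrincipalGeneratedByIntegral1 A (IsLocalRing.residue ↥A) M :=
    GaussUnitOne24.principalGeneratedByIntegral1 A p hA hR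
  have hM1 : M ≠ 1 := by omega
  have hτ : IsDiamondBar Qb M (unitNat M p) (diamondBar Qb M (unitNat M p)) :=
    diamondBar_spec (X1DiamondFinal11.hasDiamonds M hM1 (unitNat M p))
  have hgenδ : KronDgen24.PrincipalGeneratedByIntegralδ A (IsLocalRing.residue ↥A) M
      (diamondAut Qb M (unitNat M p)) :=
    GaussUnitOne24.principalGeneratedByIntegralδ A p hA hτ hR
  exact TorsEsOne13.spTors_of_kron T.r hr hgen (InputsOne22.heckeOneAlphaBarIntegral hdα)
    (InputsOne22.heckeOneBetaBarIntegral hdβ)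
    (InputsOne22.fundamentalIdentityAlong_betaOne hx hdα hdβ)
    (InputsOne22.finiteAlong_of_pos _ hdα) (InputsOne22.normFormulaAlong_alphaOne hx hdα)
    (fun τ hτ P => GaloisInstOne21.r_smul_of_mem_inertia1' T h0.gent c0 c1 hτ P)
    (fun σ hσ P => GaloisInstOne21.r_smul_of_isFrobeniusAt1' T h0.gent c0 c1 hσ P)
    (unitNat M p) hgenδ (ConjugatesOne20.normConj1_diamondAut M p hM3 hp hpM) hℓ0
    (fun z hz hred =>
      RedInjG15.red_injective_one M A hcl hdiv hdeg1 hne T.r hr hgen ℓ hpℓ z hz hred)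

end Fermat.Agent.ES.R48.SPOneOfInputs15
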