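/-
Programme R (S48, Deligne–Serre), chapter GEOM, sub-chapter G4 "CONG₁", brick (GB2)₁ (helper10):
the ABSTRACT core of "the residue field of the Gauss valuation on the function field of `X₁(M)`".

Setting (`RED/PUR/GaussGen8`, `KtGauss8`, `G1Package8`): a DVR `O ⊂ K` (uniformiser `π`, residue
field `κ`), fields `K(t) ≤ E₀ ≤ E ⊂ Frac O((q))` with `t ∈ gaussRing O`, `t̃` transcendental, and the
`(DEG)+(IRR)` package `DegLe O E tG n`, `Irr O E tG n` (`n = [E : K(t)]`).

* field theory: `finite_of_family_bound`, `relfinrank_eq_of_family`, `linearIndependent_mul_pow`,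
  `eq_zero_of_sum_pow`, **`relfinrank_le_card_range`** (Artin's bound, family form);
* **(P2) `stable`**: a ring endomorphism of `E` fixing `K(t)` preserves the Gauss valuation ring of
  `E` (`= ` integral closure of `K(t) ∩ gaussRing`, `G1Package8.span`); `redComp`;
* **(P3) `pow_indep`**: distinct residues of the conjugates of `w` ⇒ `1, w̃, …, w̃^{r-1}` independent
  over `resField O E₀`;
* `resField_le_of_family`, `resField_family_bound`;
* **`resField_eq_of_auts`**: `resField O E = F'` and `[F' : κ(t̃)] = n` for every field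
  `resField O E₀ ≤ F' ≤ resField O E` containing `w̃`, given a finite group of `K`-automorphisms of
  `E` fixing `E₀`, with fixed field in `E₀`, acting faithfully on the residues of the conjugates
  of `w`, and `[E₀ : K(t)] ≤ [resField O E₀ : κ(t̃)]`.
-/
import Mathlib
import Fermat.Agent.RED.PUR.G1Package8
import Fermat.Agent.RED.PUR.GaussDeg25
import Fermat.Agent.RED.PUR.GaussBridge10
import Fermat.Agent.IG.PR.FamilyForm20

set_option autoImplicit false
set_option linter.unusedSectionVars false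
set_option linter.style.haveILetI false

noncomputable section

open HahnSeries ModularCurve IntermediateField Module

namespace Fermat.Agent.ES.R48.ResFieldAbs10

open Fermat.Agent.RED.PUR.GaussGen8 Fermat.Agent.RED.PUR.KtGauss8 Fermat.Agent.RED.PUR.G1Package8
open Fermat.Agent.RED.PUR.GaussBridge10 Fermat.Agent.RED.PUR Fermat.Agent.IG.PR

section FieldTheory

variable {F L : Type*} [Field F] [Field L] [Algebra F L] {A B : IntermediateField F L}

/-- a family bound gives finiteness. -/
theorem finite_of_family_bound (h : A ≤ B) (m : ℕ)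
    (hub : ∀ (n : ℕ) (c : Fin n → L), (∀ i, c i ∈ B) → LinearIndependent ↥A c → n ≤ m) :
    Module.Finite ↥A ↥(extendScalars h) := by
  have hrank : Module.rank ↥A ↥(extendScalars h) ≤ m := by
    refine rank_le fun s hs => ?_
    have h1 : LinearIndependent ↥A (fun i : s => (((i : ↥(extendScalars h)) : L))) :=
      hs.map' (extendScalars h).val.toLinearMap
        (LinearMap.ker_eq_bot.mpr (extendScalars h).val.injective)
    have h2 := h1.comp s.equivFin.symm s.equivFin.symm.injective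
    exact hub s.card _ (fun i => (mem_extendScalars h).mp (s.equivFin.symm i : ↥(extendScalars h)).2) h2
  exact Module.rank_lt_aleph0_iff.mp (lt_of_le_of_lt hrank Cardinal.natCast_lt_aleph0)

/-- upper family bound `n` + an independent family with `n` members ⇒ `relfinrank = n`. -/
theorem relfinrank_eq_of_family (h : A ≤ B) (n : ℕ)
    (hub : ∀ (m : ℕ) (c : Fin m → L), (∀ i, c i ∈ B) → LinearIndependent ↥A c → m ≤ n)
    (c : Fin n → L) (hc : ∀ i, c i ∈ B) (hli : LinearIndependent ↥A c) :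
    relfinrank A B = n := by
  apply le_antisymm (FamilyForm20.relfinrank_le_of_family_bound h n hub)
  rw [relfinrank_eq_finrank_of_le h]
  haveI := finite_of_family_bound h n hub
  let c' : Fin n → ↥(extendScalars h) := fun i => ⟨c i, (mem_extendScalars h).mpr (hc i)⟩
  have hli' : LinearIndependent ↥A c' :=
    LinearIndependent.of_comp (extendScalars h).val.toLinearMap hli
  simpa using hli'.fintype_card_le_finrank

end FieldTheory


section FieldTheory

variable {F L : Type*} [Field F] [Field L] [Algebra F L] {A B : IntermediateField F L}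

/-- products `c_j · w^i` of an `A`-independent family in `B` with the first `r` powers of an
element `w` whose first `r` powers are "`B`-independent" are `A`-independent. -/
theorem linearIndependent_mul_pow (hAB : A ≤ B) {n₀ r : ℕ} (c : Fin n₀ → L)
    (hc : ∀ j, c j ∈ B) (hcli : LinearIndependent ↥A c) (w : L)
    (hw : ∀ b : Fin r → L, (∀ i, b i ∈ B) → ∑ i, b i * w ^ (i : ℕ) = 0 → ∀ i, b i = 0) :
    LinearIndependent ↥A (fun p : Fin n₀ × Fin r => c p.1 * w ^ (p.2 : ℕ)) := by
  rw [Fintype.linearIndependent_iff]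
  intro g hg
  have hb : ∀ i, (∑ j, ((g (j, i) : ↥A) : L) * c j) ∈ B := fun i =>
    sum_mem fun j _ => mul_mem (hAB (g (j, i)).2) (hc j)
  have hsum : ∑ i, (∑ j, ((g (j, i) : ↥A) : L) * c j) * w ^ (i : ℕ) = 0 := by
    rw [← hg, Fintype.sum_prod_type, Finset.sum_comm]
    refine Finset.sum_congr rfl fun i _ => ?_
    rw [Finset.sum_mul]
    refine Finset.sum_congr rfl fun j _ => ?_
    rw [Algebra.smul_def, IntermediateField.algebraMap_apply, mul_assoc]
  have h0 := hw _ hb hsum
  rintro ⟨j, i⟩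
  have h1 : ∑ j, g (j, i) • c j = 0 := by
    rw [← h0 i]
    refine Finset.sum_congr rfl fun j _ => ?_
    rw [Algebra.smul_def, IntermediateField.algebraMap_apply]
  exact Fintype.linearIndependent_iff.mp hcli (fun j => g (j, i)) h1 j

end FieldTheory

section Poly

/-- a polynomial expression of degree `< r` with `r` distinct roots vanishes. -/
theorem eq_zero_of_sum_pow {R : Type*} [CommRing R] [IsDomain R] {r : ℕ} (b : Fin r → R)
    (T : Finset R) (hT : r ≤ T.card) (h : ∀ z ∈ T, ∑ i, b i * z ^ (i : ℕ) = 0) :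
    ∀ i, b i = 0 := by
  classical
  set P : Polynomial R := ∑ i : Fin r, Polynomial.C (b i) * Polynomial.X ^ (i : ℕ) with hP
  have hdeg : P.degree < r := Polynomial.degree_sum_fin_lt b
  have heval : ∀ z ∈ T, P.eval z = 0 := by
    intro z hz
    rw [hP, Polynomial.eval_finsetSum, ← h z hz]
    refine Finset.sum_congr rfl fun i _ => ?_
    rw [Polynomial.eval_mul, Polynomial.eval_C, Polynomial.eval_pow, Polynomial.eval_X]
  have hP0 : P = 0 := by
    by_contra hne
    have hnat : P.natDegree < r := (Polynomial.natDegree_lt_iff_degree_lt hne).mpr hdeg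
    exact hne (Polynomial.eq_zero_of_natDegree_lt_card_of_eval_eq_zero' P T heval
      (lt_of_lt_of_le hnat hT))
  intro i
  have h1 := congrArg (fun p : Polynomial R => p.coeff (i : ℕ)) hP0
  simp only [hP, Polynomial.finsetSum_coeff, Polynomial.coeff_C_mul, Polynomial.coeff_X_pow,
    Polynomial.coeff_zero] at h1
  rw [Finset.sum_eq_single i] at h1
  · simpa using h1
  · intro j _ hji
    rw [if_neg (fun h' => hji (Fin.ext h'.symm)), mul_zero]
  · intro hi
    exact absurd (Finset.mem_univ i) hi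

end Poly


section Artin

variable {F L : Type*} [Field F] [Field L] [Algebra F L]

/-- **Artin's bound** in family form: if the fixed points of a finite group of `F`-automorphisms of
`E` lie in `E₀ ≤ E`, then `[E : E₀] ≤` the order of the group. -/
theorem relfinrank_le_card_range (E₀ E : IntermediateField F L) (h₀ : E₀ ≤ E)
    {G : Type*} [Group G] [Finite G] (ρ : G →* (↥E ≃ₐ[F] ↥E))
    (hfix : ∀ x : ↥E, (∀ g, ρ g x = x) → (x : L) ∈ E₀) :
    relfinrank E₀ E ≤ Nat.card ρ.range := by
  classical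
  haveI : Finite ↥ρ.range := Finite.of_surjective ρ.rangeRestrict ρ.rangeRestrict_surjective
  letI : Fintype ↥ρ.range := Fintype.ofFinite _
  letI act : MulSemiringAction ↥ρ.range ↥E := MulSemiringAction.compHom ↥E ρ.range.subtype
  refine FamilyForm20.relfinrank_le_of_family_bound h₀ _ fun m c hc hli => ?_
  let c' : Fin m → ↥E := fun i => ⟨c i, hc i⟩
  have hmem : ∀ z : ↥(FixedPoints.subfield ↥ρ.range ↥E), ((z : ↥E) : L) ∈ E₀ := by
    intro z
    refine hfix z fun g => ?_
    exact z.2 ⟨ρ g, g, rfl⟩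
  have hli' : LinearIndependent ↥(FixedPoints.subfield ↥ρ.range ↥E) c' := by
    rw [Fintype.linearIndependent_iff]
    intro g hg i
    have h1 : ∑ i, (⟨((g i : ↥E) : L), hmem (g i)⟩ : ↥E₀) • c i = 0 := by
      have h2 := congrArg (fun y : ↥E => (y : L)) hg
      simp only [AddSubmonoidClass.coe_finsetSum, ZeroMemClass.coe_zero] at h2
      rw [← h2]
      refine Finset.sum_congr rfl fun i _ => ?_
      rw [Algebra.smul_def]
      rfl
    have h3 := Fintype.linearIndependent_iff.mp hli _ h1 i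
    have h4 : ((g i : ↥E) : L) = 0 := congrArg Subtype.val h3
    exact Subtype.ext (Subtype.ext h4)
  have h5 := hli'.fintype_card_le_finrank
  have h6 := FixedPoints.finrank_le_card ↥ρ.range ↥E
  rw [Fintype.card_fin] at h5
  rw [Nat.card_eq_fintype_card]
  exact h5.trans h6

end Artin

section Gauss

variable {K : Type*} [Field K] {O : ValuationSubring K} [IsDiscreteValuationRing ↥O]
  {π : ↥O} (hπ : Irreducible π)
  {E : IntermediateField K (LaurentSeries K)} (hE : E ≤ fracField O)
  {tG : ↥(gaussRing O)}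

include hπ in
/-- **(P2) stability**: a ring endomorphism of `E` fixing `K(t)` pointwise preserves the Gauss
valuation ring of `E` (which is the integral closure of `K(t) ∩ gaussRing`). -/
theorem stable (htr : Transcendental (Res O) (gaussRed O tG))
    (htE : (tG : LaurentSeries K) ∈ E) {n : ℕ} (hdeg : DegLe O E tG n) (hirr : Irr O E tG n)
    (ψ : ↥E →+* ↥E) (hψ : ∀ x : ↥E, (x : LaurentSeries K) ∈ Kt O tG → ψ x = x)
    (x : ↥E) (hx : x ∈ OvE O hπ E hE) : ψ x ∈ OvE O hπ E hE := by
  have hint := span hπ hE htr htE hdeg hirr x hx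
  let φ : ↥(Ov0 O E tG) →+* ↥(OvE O hπ E hE) :=
    { toFun := fun y => ⟨(y : ↥E), Ov0_le_OvE O hπ E hE tG y.2⟩
      map_one' := rfl
      map_mul' := fun _ _ => rfl
      map_zero' := rfl
      map_add' := fun _ _ => rfl }
  have h2 : IsIntegral ↥(OvE O hπ E hE) (ψ x) := by
    refine hint.map_of_comp_eq φ ψ (RingHom.ext fun y => ?_)
    exact (hψ (y : ↥E) y.2.1).symm
  obtain ⟨y, hy⟩ := (IsIntegrallyClosed.isIntegral_iff (R := ↥(OvE O hπ E hE)) (K := ↥E)).mp h2
  rw [← hy]
  exact y.2

/-- the residue map composed with a stable endomorphism. -/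
def redComp (ψ : ↥E →+* ↥E) (hst : ∀ x ∈ OvE O hπ E hE, ψ x ∈ OvE O hπ E hE) :
    ↥(OvE O hπ E hE) →+* LaurentSeries (Res O) :=
  (gaussVSRed (isUnif_of_irreducible O hπ) E hE).comp
    { toFun := fun x => ⟨ψ (x : ↥E), hst x x.2⟩
      map_one' := Subtype.ext (map_one ψ)
      map_mul' := fun a b => Subtype.ext (map_mul ψ (a : ↥E) (b : ↥E))
      map_zero' := Subtype.ext (map_zero ψ)
      map_add' := fun a b => Subtype.ext (map_add ψ (a : ↥E) (b : ↥E)) }

theorem redComp_apply (ψ : ↥E →+* ↥E) (hst : ∀ x ∈ OvE O hπ E hE, ψ x ∈ OvE O hπ E hE)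
    (x : ↥(OvE O hπ E hE)) :
    redComp hπ hE ψ hst x =
      gaussRed O ⟨((ψ (x : ↥E) : ↥E) : LaurentSeries K),
        (mem_OvE_iff O hπ E hE _).mp (hst x x.2)⟩ := rfl

theorem redComp_of_fixed (ψ : ↥E →+* ↥E) (hst : ∀ x ∈ OvE O hπ E hE, ψ x ∈ OvE O hπ E hE)
    (x : ↥(OvE O hπ E hE)) (hx : ψ (x : ↥E) = x) :
    redComp hπ hE ψ hst x = gaussVSRed (isUnif_of_irreducible O hπ) E hE x := by
  rw [redComp_apply, gaussVSRed_apply]
  congr 2
  rw [hx]

/-- the kernel of the residue map (`= π · Ov`) is stable. -/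
theorem redComp_eq_zero (ψ : ↥E →+* ↥E) (hst : ∀ x ∈ OvE O hπ E hE, ψ x ∈ OvE O hπ E hE)
    (hψπ : ψ (algebraMap ↥O ↥E π) = algebraMap ↥O ↥E π)
    (x : ↥(OvE O hπ E hE)) (hx : gaussVSRed (isUnif_of_irreducible O hπ) E hE x = 0) :
    redComp hπ hE ψ hst x = 0 := by
  have hu := isUnif_of_irreducible O hπ
  rw [gaussVSRed_apply] at hx
  obtain ⟨g, hg⟩ := (gaussRed_eq_zero_iff hu _).mp hx
  have hg' : ((x : ↥E) : LaurentSeries K) = piK π * (g : LaurentSeries K) :=
    congrArg (fun y : ↥(gaussRing O) => (y : LaurentSeries K)) hg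
  have hpi := algebraMap_pi_ne_zero hπ (E := E)
  -- `g ∈ E`
  have hgE : (g : LaurentSeries K) ∈ E := by
    have h1 : (g : LaurentSeries K) = (piK π)⁻¹ * ((x : ↥E) : LaurentSeries K) := by
      rw [hg', ← mul_assoc, inv_mul_cancel₀ (piK_ne_zero hu), one_mul]
    rw [h1, ← coe_algebraMap_pi (E := E)]
    exact mul_mem (inv_mem (algebraMap ↥O ↥E π).2) (x : ↥E).2
  have hgOv : (⟨(g : LaurentSeries K), hgE⟩ : ↥E) ∈ OvE O hπ E hE :=
    (mem_OvE_iff O hπ E hE _).mpr g.2
  have hpiOv : algebraMap ↥O ↥E π ∈ OvE O hπ E hE :=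
    (mem_OvE_iff O hπ E hE _).mpr (algebraMap_O_mem π)
  have hx' : x = (⟨algebraMap ↥O ↥E π, hpiOv⟩ : ↥(OvE O hπ E hE)) * ⟨⟨(g : LaurentSeries K), hgE⟩, hgOv⟩ := by
    apply Subtype.ext
    apply Subtype.ext
    show ((x : ↥E) : LaurentSeries K) = ((algebraMap ↥O ↥E π : ↥E) : LaurentSeries K) * (g : LaurentSeries K)
    rw [coe_algebraMap_pi, hg']
  rw [hx', map_mul]
  have h0 : redComp hπ hE ψ hst ⟨algebraMap ↥O ↥E π, hpiOv⟩ = 0 := by
    rw [redComp_apply]
    have : (⟨((ψ ((⟨algebraMap ↥O ↥E π, hpiOv⟩ : ↥(OvE O hπ E hE)) : ↥E) : ↥E) : LaurentSeries K),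
        (mem_OvE_iff O hπ E hE _).mp (hst _ hpiOv)⟩ : ↥(gaussRing O)) = constG O π := by
      apply Subtype.ext
      show ((ψ (algebraMap ↥O ↥E π) : ↥E) : LaurentSeries K) = _
      rw [hψπ, coe_algebraMap_pi]
      rfl
    rw [this, gaussRed_unif hu]
  rw [h0, zero_mul]


theorem algebraMap_pi_mem (E₀ : IntermediateField K (LaurentSeries K)) :
    ((algebraMap ↥O ↥E π : ↥E) : LaurentSeries K) ∈ E₀ := by
  show algebraMap K (LaurentSeries K) (π : K) ∈ E₀
  exact E₀.algebraMap_mem _

/-- **(P3)** if the conjugates `ψ_e w` (`e ∈ s`) of `w ∈ Ov` under stable endomorphisms fixing `E₀`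
have pairwise distinct residues, then `1, w̃, …, w̃^{r-1}` (`r ≤ |s|`) are linearly independent
over `resField O E₀`. -/
theorem pow_indep (E₀ : IntermediateField K (LaurentSeries K)) (h₀ : E₀ ≤ E)
    {ι : Type*} (ψ : ι → (↥E →+* ↥E))
    (hst : ∀ e, ∀ x ∈ OvE O hπ E hE, ψ e x ∈ OvE O hπ E hE)
    (hψ₀ : ∀ e (x : ↥E), (x : LaurentSeries K) ∈ E₀ → ψ e x = x)
    (w : ↥(OvE O hπ E hE)) (s : Finset ι)
    (hs : Set.InjOn (fun e => redComp hπ hE (ψ e) (hst e) w) s)
    {r : ℕ} (hr : r ≤ s.card)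
    (b : Fin r → LaurentSeries (Res O)) (hb : ∀ i, b i ∈ resField O E₀)
    (h0 : ∑ i, b i * (gaussVSRed (isUnif_of_irreducible O hπ) E hE w) ^ (i : ℕ) = 0) :
    ∀ i, b i = 0 := by
  classical
  have hu := isUnif_of_irreducible O hπ
  choose f hf hfE₀ hfb using fun i => (mem_resField_iff O E₀ (b i)).mp (hb i)
  let fOv : Fin r → ↥(OvE O hπ E hE) := fun i =>
    ⟨⟨f i, h₀ (hfE₀ i)⟩, (mem_OvE_iff O hπ E hE _).mpr (hf i)⟩
  have hρf : ∀ i, gaussVSRed hu E hE (fOv i) = b i := fun i => hfb i
  have hfix : ∀ e i, ψ e (fOv i : ↥E) = (fOv i : ↥E) := fun e i => hψ₀ e _ (hfE₀ i)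
  have hg0 : gaussVSRed hu E hE (∑ i, fOv i * w ^ (i : ℕ)) = 0 := by
    rw [map_sum, ← h0]
    refine Finset.sum_congr rfl fun i _ => ?_
    rw [map_mul, map_pow, hρf]
  have hall : ∀ e, ∑ i, b i * (redComp hπ hE (ψ e) (hst e) w) ^ (i : ℕ) = 0 := by
    intro e
    have h1 := redComp_eq_zero hπ hE (ψ e) (hst e) (hψ₀ e _ (algebraMap_pi_mem E₀)) _ hg0
    rw [map_sum] at h1
    rw [← h1]
    refine Finset.sum_congr rfl fun i _ => ?_
    rw [map_mul, map_pow, redComp_of_fixed hπ hE (ψ e) (hst e) (fOv i) (hfix e i), hρf]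
  refine eq_zero_of_sum_pow b (s.image fun e => redComp hπ hE (ψ e) (hst e) w) ?_ ?_
  · rw [Finset.card_image_of_injOn hs]
    exact hr
  · intro z hz
    obtain ⟨e, -, rfl⟩ := Finset.mem_image.mp hz
    exact hall e

include hπ in
/-- a field `F' ≤ resField O E` containing `n` elements independent over `κ(t̃)`, where every
`K(t)`-independent family in `E` has at most `n` members, is all of `resField O E`. -/
theorem resField_le_of_family (htr : Transcendental (Res O) (gaussRed O tG)) {n : ℕ}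
    (hdeg : DegLe O E tG n) (F' : IntermediateField (Res O) (LaurentSeries (Res O)))
    (hkt : kt O tG ≤ F') (hF' : F' ≤ resField O E) (m : ℕ) (hm : n ≤ m)
    (d : Fin m → LaurentSeries (Res O)) (hd : ∀ i, d i ∈ F')
    (hdli : LinearIndependent ↥(kt O tG) d) : resField O E ≤ F' := by
  classical
  intro y hy
  by_contra hny
  have hspan : ∀ z ∈ Submodule.span ↥(kt O tG) (Set.range d), z ∈ F' := by
    intro z hz
    induction hz using Submodule.span_induction with
    | mem z hz =>
      obtain ⟨i, rfl⟩ := hz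
      exact hd i
    | zero => exact zero_mem _
    | add z w _ _ hz hw => exact add_mem hz hw
    | smul a z _ hz =>
      rw [Algebra.smul_def]
      exact mul_mem (hkt a.2) hz
  have hli' : LinearIndependent ↥(kt O tG) (Fin.cons y d : Fin (m + 1) → _) := by
    rw [linearIndependent_finCons]
    exact ⟨hdli, fun h => hny (hspan y h)⟩
  have hres : ∀ i, ∃ b : ↥(gaussRing O), (b : LaurentSeries K) ∈ E ∧
      gaussRed O b = (Fin.cons y d : Fin (m + 1) → _) i := by
    intro i
    have hi : (Fin.cons y d : Fin (m + 1) → _) i ∈ resField O E := by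
      refine Fin.cases ?_ (fun j => ?_) i
      · simpa using hy
      · simpa using hF' (hd j)
    obtain ⟨f, hf, hfE, hfy⟩ := hi
    exact ⟨⟨f, hf⟩, hfE, hfy⟩
  choose b hbE hb using hres
  have hliK := GaussDeg25.linearIndependent_of_gaussRed hπ htr b
    (by
      have : (fun i => gaussRed O (b i)) = (Fin.cons y d : Fin (m + 1) → _) := funext hb
      rw [this]
      exact hli')
  have := hdeg (m + 1) _ hbE hliK
  omega

include hπ in
/-- family-form upper bound for the residue field: every `κ(t̃)`-independent family in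
`resField O E` has at most `n` members. -/
theorem resField_family_bound (htr : Transcendental (Res O) (gaussRed O tG)) {n : ℕ}
    (hdeg : DegLe O E tG n) (m : ℕ) (d : Fin m → LaurentSeries (Res O))
    (hd : ∀ i, d i ∈ resField O E) (hdli : LinearIndependent ↥(kt O tG) d) : m ≤ n := by
  choose f hf hfE hfd using fun i => (mem_resField_iff O E (d i)).mp (hd i)
  have hliK := GaussDeg25.linearIndependent_of_gaussRed hπ htr (fun i => (⟨f i, hf i⟩ : ↥(gaussRing O)))
    (by
      have : (fun i => gaussRed O (⟨f i, hf i⟩ : ↥(gaussRing O))) = d := funext hfd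
      rw [this]
      exact hdli)
  exact hdeg m _ hfE hliK


include hπ hE in
/-- **(GB2), abstract form**: the residue field of the Gauss valuation on a finite extension
`E / E₀` which is "Galois with a group of automorphisms whose action on one integral element `w`
stays faithful modulo `π`" is generated over `resField O E₀` by the residue of `w`; more precisely
every field `F'` with `resField O E₀ ≤ F' ≤ resField O E` containing `w̃` is all of it, and its
degree over `κ(t̃)` is `n = [E : K(t)]`. -/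
theorem resField_eq_of_auts (E₀ : IntermediateField K (LaurentSeries K)) (h₀ : E₀ ≤ E)
    (htE₀ : (tG : LaurentSeries K) ∈ E₀)
    (htr : Transcendental (Res O) (gaussRed O tG)) {n : ℕ}
    (hn : relfinrank (Kt O tG) E = n)
    (hdeg : DegLe O E tG n) (hirr : Irr O E tG n)
    (hdeg₀ : relfinrank (Kt O tG) E₀ ≤ relfinrank (kt O tG) (resField O E₀))
    {G : Type*} [Group G] [Finite G] (ρ : G →* (↥E ≃ₐ[K] ↥E))
    (hρ₀ : ∀ g (x : ↥E), (x : LaurentSeries K) ∈ E₀ → ρ g x = x)
    (hfix : ∀ x : ↥E, (∀ g, ρ g x = x) → (x : LaurentSeries K) ∈ E₀)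
    (w : ↥E) (hw : (w : LaurentSeries K) ∈ gaussRing O)
    (hinj : ∀ g g' (h : ((ρ g w : ↥E) : LaurentSeries K) ∈ gaussRing O)
      (h' : ((ρ g' w : ↥E) : LaurentSeries K) ∈ gaussRing O),
      gaussRed O ⟨_, h⟩ = gaussRed O ⟨_, h'⟩ → ρ g = ρ g')
    (F' : IntermediateField (Res O) (LaurentSeries (Res O)))
    (hF'le : F' ≤ resField O E) (hF'₀ : resField O E₀ ≤ F')
    (hwF' : gaussRed O ⟨(w : LaurentSeries K), hw⟩ ∈ F') :
    resField O E = F' ∧ relfinrank (kt O tG) F' = n := by
  classical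
  have hu := isUnif_of_irreducible O hπ
  have htE : (tG : LaurentSeries K) ∈ E := h₀ htE₀
  have hKt₀ : Kt O tG ≤ E₀ := adjoin_simple_le_iff.mpr htE₀
  have hkt₀ : kt O tG ≤ resField O E₀ :=
    adjoin_simple_le_iff.mpr ⟨tG, tG.2, htE₀, rfl⟩
  have hkt : kt O tG ≤ F' := hkt₀.trans hF'₀
  haveI : Finite ↥ρ.range := Finite.of_surjective ρ.rangeRestrict ρ.rangeRestrict_surjective
  letI : Fintype ↥ρ.range := Fintype.ofFinite _
  -- the stable endomorphisms
  let ψ : ↥ρ.range → (↥E →+* ↥E) := fun τ => ((τ : ↥E ≃ₐ[K] ↥E) : ↥E →+* ↥E)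
  have hψ₀ : ∀ (τ : ↥ρ.range) (x : ↥E), (x : LaurentSeries K) ∈ E₀ → ψ τ x = x := by
    rintro ⟨_, g, rfl⟩ x hx
    exact hρ₀ g x hx
  have hst : ∀ τ, ∀ x ∈ OvE O hπ E hE, ψ τ x ∈ OvE O hπ E hE := fun τ =>
    stable hπ hE htr htE hdeg hirr (ψ τ) fun x hx => hψ₀ τ x (hKt₀ hx)
  let wOv : ↥(OvE O hπ E hE) := ⟨w, (mem_OvE_iff O hπ E hE w).mpr hw⟩
  have hs : Set.InjOn (fun τ => redComp hπ hE (ψ τ) (hst τ) wOv)
      ((Finset.univ : Finset ↥ρ.range) : Set ↥ρ.range) := by
    rintro ⟨_, g, rfl⟩ - ⟨_, g', rfl⟩ - h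
    exact Subtype.ext (hinj g g' _ _ h)
  -- `(P3)`
  have hP3 := pow_indep hπ hE E₀ h₀ ψ hst hψ₀ wOv Finset.univ hs (r := Nat.card ρ.range)
    (by rw [Finset.card_univ, Nat.card_eq_fintype_card])
  -- the family
  obtain ⟨c, hc, hcli⟩ := FamilyForm20.exists_family_of_le_relfinrank hkt₀ _ hdeg₀
  have hli := linearIndependent_mul_pow hkt₀ c hc hcli
    (gaussVSRed hu E hE wOv) hP3
  have hli' := hli.comp finProdFinEquiv.symm finProdFinEquiv.symm.injective
  have hmem : ∀ i, ((fun p : Fin (relfinrank (Kt O tG) E₀) × Fin (Nat.card ρ.range) =>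
      c p.1 * (gaussVSRed hu E hE wOv) ^ (p.2 : ℕ)) ∘ finProdFinEquiv.symm) i ∈ F' := fun i =>
    mul_mem (hF'₀ (hc _)) (pow_mem hwF' _)
  have hnle : n ≤ relfinrank (Kt O tG) E₀ * Nat.card ρ.range := by
    rw [← hn, ← relfinrank_mul_relfinrank hKt₀ h₀]
    exact Nat.mul_le_mul_left _ (relfinrank_le_card_range E₀ E h₀ ρ hfix)
  have heq : resField O E = F' :=
    le_antisymm (resField_le_of_family hπ htr hdeg F' hkt hF'le _ hnle _ hmem hli') hF'le
  refine ⟨heq, ?_⟩
  refine relfinrank_eq_of_family hkt n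
    (fun m d hd hdli => resField_family_bound hπ htr hdeg m d (fun i => hF'le (hd i)) hdli)
    _ (fun i => hmem (Fin.castLE hnle i)) (hli'.comp _ (Fin.castLE_injective hnle))

end Gauss

end Fermat.Agent.ES.R48.ResFieldAbs10
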