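/-
Programme R (S48, Deligne–Serre), chapter GEOM, sub-chapter G4 "CONG₁", brick (GB2)₁ (helper10):
**the residue field of the Gauss valuation on the function field of `X₁(M)`** — the twin of
`ES/RED/GaussUnit25.resField_fullC_eq` for `F1C K M = K(j(q^d), W_c)`.

For a DVR `O ⊂ K` (char `K = 0`) of residue characteristic `ℓ ∤ M`, `M ≥ 3`, a parameter `t` with the
`(DEG)+(IRR)` package for `F1C K M / K(t)` and the diamond automorphisms `σ_e` of `F1C K M` (family
form: identity on `K(j(q^d))`, `W_c ↦ W_{ec}`, fixed field `K(j(q^d))`):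

* **`resField_F1C_eq`** : `resField O (F1C K M) = F1C (Res O) M`;
* **`relfinrank_kt_F1C`** : `[F1C (Res O) M : κ(t̃)] = n = [F1C K M : K(t)]`.

Ingredients: `ResFieldAbs10.resField_eq_of_auts` (abstract core), `SpecialDegree25.gauss_degrees` and
`GaussUnit25.resField_fullC_eq` (the level of `X₀`), `GaussBridgeOne10` (`W_c ∈ gaussRing`,
`red W_c = W̃_c`, `F1C κ M ≤ resField`), `EisLead13` (the leading coefficient of `W_c` is `1` at
the exponent `min(c, M - c)`: `wqC_eq_imp`, over every nontrivial coefficient ring).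
-/
import Mathlib
import Fermat.Agent.ES.R48.ResFieldAbs10
import Fermat.Agent.ES.RED.SpecialDegree25
import Fermat.Agent.ES.R48.EisLead13
import Fermat.Agent.ES.R48.GaussBridgeOne10

set_option autoImplicit false
set_option linter.unusedSectionVars false
set_option linter.style.haveILetI false

noncomputable section

open HahnSeries ModularCurve IntermediateField

namespace Fermat.Agent.ES.R48.ResFieldOne10

open Fermat.Agent.RED.PUR.GaussGen8 Fermat.Agent.RED.PUR.KtGauss8 Fermat.Agent.RED.PUR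
open Fermat.Agent.RED.PUR.GaussBridge10
open Fermat.Agent.ES.R48.FF1Defs13 Fermat.Agent.ES.R48.F1CDefs15 Fermat.Agent.ES.R48.EisLead13
open Fermat.Agent.ES.R48.GaussBridgeOne10 Fermat.Agent.ES.R48.ResFieldAbs10

/-! ### `W_c` determines `c` up to sign, over every nontrivial coefficient ring -/

section Distinct

variable (R : Type*) [CommRing R] (M : ℕ)

/-- coefficients of `W_c` over `R`: those of the numerator, shifted by one. -/
theorem coeff_wqC_natCast (c : ZMod M) (k : ℕ) :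
    (wqC R M c).coeff (k : ℤ) = ((PowerSeries.coeff (k + 1) (wNum M c) : ℤ) : R) := by
  rw [wqC, HahnSeries.coeff_single_mul, one_mul, sub_neg_eq_add,
    show ((k : ℤ) + 1) = ((k + 1 : ℕ) : ℤ) by push_cast; ring,
    HahnSeries.ofPowerSeries_apply_coeff, PowerSeries.coeff_map]
  rfl

variable {M} [NeZero M] [Nontrivial R]

/-- **`W_c = W_{c'}` over `R ≠ 0` only if `c' = ±c`.** -/
theorem wqC_eq_imp {c c' : ZMod M} (hc : c + c ≠ 0) (hc' : c' + c' ≠ 0)
    (h : wqC R M c = wqC R M c') : c' = c ∨ c' = -c := by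
  have hc0 : c ≠ 0 := by
    rintro rfl
    exact hc (add_zero 0)
  have hc0' : c' ≠ 0 := by
    rintro rfl
    exact hc' (add_zero 0)
  apply eq_or_eq_neg_of_lead_eq
  have key : ∀ {a b : ZMod M}, a + a ≠ 0 → a ≠ 0 → wqC R M a = wqC R M b →
      ¬ lead M a < lead M b := by
    intro a b ha ha0 hab hlt
    obtain ⟨k, hk⟩ : ∃ k, lead M a = k + 1 := ⟨lead M a - 1, by have := lead_pos ha0; omega⟩
    have h1 := congrArg (fun x : LaurentSeries R => x.coeff (k : ℤ)) hab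
    simp only [coeff_wqC_natCast] at h1
    rw [← hk, coeff_wNum_lead ha, coeff_wNum_of_lt hlt, Int.cast_one, Int.cast_zero] at h1
    exact one_ne_zero h1
  rcases lt_trichotomy (lead M c) (lead M c') with hlt | heq | hgt
  · exact absurd hlt (key hc hc0 h)
  · exact heq
  · exact absurd hgt (key hc' hc0' h.symm)

end Distinct

/-! ### Automorphisms of `F1C K M` are determined on the generators -/

section Ext

variable {K : Type*} [Field K] {M : ℕ}

/-- two `K`-automorphisms of `K(j(q^d), W_c)` agreeing on `K(j(q^d))` and on the `W_c` are equal. -/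
theorem algEquiv_ext1 {σ τ : ↥(F1C K M) ≃ₐ[K] ↥(F1C K M)}
    (hfull : ∀ x : ↥(F1C K M), (x : LaurentSeries K) ∈ modularFunctionFieldFullC K M → σ x = τ x)
    (hw : ∀ c : (ZMod M)ˣ, σ ⟨wqC K M (c : ZMod M), wqC_mem_F1C K M c⟩ =
      τ ⟨wqC K M (c : ZMod M), wqC_mem_F1C K M c⟩) : σ = τ := by
  have h : (σ : ↥(F1C K M) →ₐ[K] ↥(F1C K M)) = (τ : ↥(F1C K M) →ₐ[K] ↥(F1C K M)) := by
    refine IntermediateField.algHom_ext_of_eq_adjoin K
      (show F1C K M = adjoin K (divisorExpansionsC K M ∪ wExpansionsC K M) from rfl) ?_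
    intro y hy
    rcases hy with hy | ⟨c, rfl⟩
    · exact hfull ⟨y, _⟩ (subset_adjoin K _ hy)
    · exact hw c
  exact AlgEquiv.coe_toAlgHom_injective h

variable (σ : (ZMod M)ˣ → (↥(F1C K M) ≃ₐ[K] ↥(F1C K M)))
  (hfull : ∀ e (x : ↥(F1C K M)),
    (x : LaurentSeries K) ∈ modularFunctionFieldFullC K M → σ e x = x)
  (hw : ∀ e c : (ZMod M)ˣ,
    ((σ e ⟨wqC K M (c : ZMod M), wqC_mem_F1C K M c⟩ : ↥(F1C K M)) : LaurentSeries K) =
      wqC K M ((e * c : (ZMod M)ˣ) : ZMod M))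

include hfull hw in
theorem diamond_mul (e e' : (ZMod M)ˣ) : σ (e * e') = σ e * σ e' := by
  refine algEquiv_ext1 (fun x hx => ?_) (fun c => ?_)
  · show σ (e * e') x = σ e (σ e' x)
    rw [hfull _ x hx, hfull _ x hx, hfull _ x hx]
  · show σ (e * e') _ = σ e (σ e' _)
    have h1 : σ e' ⟨wqC K M (c : ZMod M), wqC_mem_F1C K M c⟩ =
        ⟨wqC K M ((e' * c : (ZMod M)ˣ) : ZMod M), wqC_mem_F1C K M (e' * c)⟩ :=
      Subtype.ext (hw e' c)
    rw [h1]
    apply Subtype.ext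
    rw [hw, hw, mul_assoc]

/-- the diamond family as a group homomorphism. -/
def diamondHom : (ZMod M)ˣ →* (↥(F1C K M) ≃ₐ[K] ↥(F1C K M)) :=
  MonoidHom.mk' σ (diamond_mul σ hfull hw)

theorem diamondHom_apply (e : (ZMod M)ˣ) : diamondHom σ hfull hw e = σ e := rfl

include hfull hw in
/-- `σ_e = σ_{e'}` as soon as `e' = ±e`. -/
theorem diamond_eq_of_eq_or_neg {e e' : (ZMod M)ˣ}
    (h : (e' : ZMod M) = (e : ZMod M) ∨ (e' : ZMod M) = -(e : ZMod M)) : σ e = σ e' := by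
  refine algEquiv_ext1 (fun x hx => ?_) (fun c => ?_)
  · rw [hfull _ x hx, hfull _ x hx]
  · apply Subtype.ext
    rw [hw, hw, Units.val_mul, Units.val_mul]
    rcases h with h | h
    · rw [h]
    · rw [h, neg_mul, wqC_neg]

end Ext

/-! ### The theorem -/

section Main

variable {K : Type} [Field K] [CharZero K] (O : ValuationSubring K) [IsDiscreteValuationRing ↥O]
  {π : ↥O}

set_option linter.unusedVariables false in
/-- **(GB2)₁** The residue field of the Gauss valuation on `K(j(q^d), W_c)`, and its degree. -/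
theorem resField_F1C_eq_and_relfinrank (hπ : Irreducible π) (ℓ : ℕ) [Fact ℓ.Prime]
    [CharP (Res O) ℓ] (M : ℕ) [NeZero M] (hM : 3 ≤ M) (hℓM : ¬ ℓ ∣ M) (tG : ↥(gaussRing O))
    (htE : (tG : LaurentSeries K) ∈ modularFunctionFieldFullC K M)
    (hjt : jqModC K ∈ Kt O tG) (htr : Transcendental (Res O) (gaussRed O tG))
    (n : ℕ) (hn : (Kt O tG).relfinrank (F1C K M) = n) (hn0 : n ≠ 0)
    (hdeg : G1Package8.DegLe O (F1C K M) tG n) (hirr : G1Package8.Irr O (F1C K M) tG n)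
    (σ : (ZMod M)ˣ → (↥(F1C K M) ≃ₐ[K] ↥(F1C K M)))
    (hfull : ∀ e (x : ↥(F1C K M)),
      (x : LaurentSeries K) ∈ modularFunctionFieldFullC K M → σ e x = x)
    (hw : ∀ e c : (ZMod M)ˣ,
      ((σ e ⟨wqC K M (c : ZMod M), wqC_mem_F1C K M c⟩ : ↥(F1C K M)) : LaurentSeries K) =
        wqC K M ((e * c : (ZMod M)ˣ) : ZMod M))
    (hfix : ∀ x : ↥(F1C K M), (∀ e, σ e x = x) →
      (x : LaurentSeries K) ∈ modularFunctionFieldFullC K M) :
    resField O (F1C K M) = F1C (Res O) M ∧ (kt O tG).relfinrank (F1C (Res O) M) = n := by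
  have hGB2 := Fermat.Agent.ES.RED.GaussUnit25.resField_fullC_eq O hπ ℓ M hℓM
  obtain ⟨-, -, hdeg0⟩ :=
    Fermat.Agent.ES.RED.SpecialDegree25.gauss_degrees O hπ ℓ M hℓM tG htE hjt htr
  refine resField_eq_of_auts hπ (F1C_le_fracField O M) (modularFunctionFieldFullC K M)
    (fullC_le_F1C K M) htE htr hn hdeg hirr (by rw [hGB2, hdeg0]) (diamondHom σ hfull hw)
    hfull hfix ⟨wqC K M ((1 : (ZMod M)ˣ) : ZMod M), wqC_mem_F1C K M 1⟩
    (wqC_mem_gaussRing O M _) ?_ (F1C (Res O) M) (F1C_le_resField O M)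
    (by rw [hGB2]; exact fullC_le_F1C (Res O) M)
    (by rw [gaussRed_wqC]; exact wqC_mem_F1C (Res O) M 1)
  intro e e' h h' hee'
  rw [diamondHom_apply, diamondHom_apply]
  have h1 : ∀ (u : (ZMod M)ˣ)
      (hu : ((diamondHom σ hfull hw u ⟨wqC K M ((1 : (ZMod M)ˣ) : ZMod M), wqC_mem_F1C K M 1⟩ :
        ↥(F1C K M)) : LaurentSeries K) ∈ gaussRing O),
      gaussRed O ⟨_, hu⟩ = wqC (Res O) M (u : ZMod M) := by
    intro u hu
    have h2 : (⟨_, hu⟩ : ↥(gaussRing O)) =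
        ⟨wqC K M (u : ZMod M), wqC_mem_gaussRing O M (u : ZMod M)⟩ := by
      apply Subtype.ext
      show ((σ u ⟨wqC K M ((1 : (ZMod M)ˣ) : ZMod M), wqC_mem_F1C K M 1⟩ : ↥(F1C K M)) :
        LaurentSeries K) = wqC K M (u : ZMod M)
      rw [hw, mul_one]
    rw [h2, gaussRed_wqC]
  rw [h1 e h, h1 e' h'] at hee'
  exact diamond_eq_of_eq_or_neg σ hfull hw
    (wqC_eq_imp (Res O) (add_self_ne_zero_of_isUnit hM e.isUnit)
      (add_self_ne_zero_of_isUnit hM e'.isUnit) hee')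

set_option linter.unusedVariables false in
/-- **(GB2)₁** `resField O (F1C K M) = F1C (Res O) M`. -/
theorem resField_F1C_eq (hπ : Irreducible π) (ℓ : ℕ) [Fact ℓ.Prime]
    [CharP (Res O) ℓ] (M : ℕ) [NeZero M] (hM : 3 ≤ M) (hℓM : ¬ ℓ ∣ M) (tG : ↥(gaussRing O))
    (htE : (tG : LaurentSeries K) ∈ modularFunctionFieldFullC K M)
    (hjt : jqModC K ∈ Kt O tG) (htr : Transcendental (Res O) (gaussRed O tG))
    (n : ℕ) (hn : (Kt O tG).relfinrank (F1C K M) = n) (hn0 : n ≠ 0)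
    (hdeg : G1Package8.DegLe O (F1C K M) tG n) (hirr : G1Package8.Irr O (F1C K M) tG n)
    (σ : (ZMod M)ˣ → (↥(F1C K M) ≃ₐ[K] ↥(F1C K M)))
    (hfull : ∀ e (x : ↥(F1C K M)),
      (x : LaurentSeries K) ∈ modularFunctionFieldFullC K M → σ e x = x)
    (hw : ∀ e c : (ZMod M)ˣ,
      ((σ e ⟨wqC K M (c : ZMod M), wqC_mem_F1C K M c⟩ : ↥(F1C K M)) : LaurentSeries K) =
        wqC K M ((e * c : (ZMod M)ˣ) : ZMod M))
    (hfix : ∀ x : ↥(F1C K M), (∀ e, σ e x = x) →
      (x : LaurentSeries K) ∈ modularFunctionFieldFullC K M) :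
    resField O (F1C K M) = F1C (Res O) M :=
  (resField_F1C_eq_and_relfinrank O hπ ℓ M hM hℓM tG htE hjt htr n hn hn0 hdeg hirr σ hfull hw
    hfix).1

set_option linter.unusedVariables false in
/-- **(GB2)₁, degree form**: `[F1C (Res O) M : κ(t̃)] = [F1C K M : K(t)]`. -/
theorem relfinrank_kt_F1C (hπ : Irreducible π) (ℓ : ℕ) [Fact ℓ.Prime]
    [CharP (Res O) ℓ] (M : ℕ) [NeZero M] (hM : 3 ≤ M) (hℓM : ¬ ℓ ∣ M) (tG : ↥(gaussRing O))
    (htE : (tG : LaurentSeries K) ∈ modularFunctionFieldFullC K M)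
    (hjt : jqModC K ∈ Kt O tG) (htr : Transcendental (Res O) (gaussRed O tG))
    (n : ℕ) (hn : (Kt O tG).relfinrank (F1C K M) = n) (hn0 : n ≠ 0)
    (hdeg : G1Package8.DegLe O (F1C K M) tG n) (hirr : G1Package8.Irr O (F1C K M) tG n)
    (σ : (ZMod M)ˣ → (↥(F1C K M) ≃ₐ[K] ↥(F1C K M)))
    (hfull : ∀ e (x : ↥(F1C K M)),
      (x : LaurentSeries K) ∈ modularFunctionFieldFullC K M → σ e x = x)
    (hw : ∀ e c : (ZMod M)ˣ,
      ((σ e ⟨wqC K M (c : ZMod M), wqC_mem_F1C K M c⟩ : ↥(F1C K M)) : LaurentSeries K) =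
        wqC K M ((e * c : (ZMod M)ˣ) : ZMod M))
    (hfix : ∀ x : ↥(F1C K M), (∀ e, σ e x = x) →
      (x : LaurentSeries K) ∈ modularFunctionFieldFullC K M) :
    (kt O tG).relfinrank (F1C (Res O) M) = n :=
  (resField_F1C_eq_and_relfinrank O hπ ℓ M hM hℓM tG htE hjt htr n hn hn0 hdeg hirr σ hfull hw
    hfix).2

end Main

end Fermat.Agent.ES.R48.ResFieldOne10
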