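/-
Programme R (S48, Deligne–Serre), chapter GEOM, G3 → G4 (helper4): **(GB2)₁ for the contract objects**,
`resFieldStep1 : GaussBridgeOne15.ResFieldStep1 A M` — for all large number fields `K ⊂ ℚ̄`, the
residue field of the Gauss valuation of `K · F1 M` over `A ∩ K` is `κ(j̃(q^d), W̃_c)`.

Plugging of:
* `ResFieldOne10.resField_F1C_eq` (helper10: (GB2)₁ for `F1C K M`, abstract DVR form);
* `CLBarOne4.explicitModelStep1` (G3: `(DEG) + (IRR)` of `K · F1 M`, `nn ≠ 0`);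
* `DiamondKFinal11.diaK` (helper11: the diamond automorphisms of `K · F1 M`, fixed field
  `K · F_full(M)`);
* `GaussBridgeOne15.FK1_eq_F1C` (helper15: `K · F1 M = F1C K M`), main's `tTarget`, `jTarget`.
-/
import Fermat.Agent.ES.R48.CLBarOne4
import Fermat.Agent.ES.R48.ResFieldOne10
import Fermat.Agent.ES.R48.GaussBridgeOne15

set_option autoImplicit false
set_option linter.unusedSectionVars false
set_option linter.unusedVariables false

open HahnSeries AlgebraicCurve ModularCurve IntermediateField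
open scoped MatrixGroups

noncomputable section

namespace Fermat.Agent.ES.R48.ResFieldStepOne4

open Fermat.Agent.RED.Interface4 Fermat.Agent.RED.ModelTargets4
  Fermat.Agent.RED.PUR.GaussGen8 Fermat.Agent.RED.PUR.KtGauss8 Fermat.Agent.RED.PUR.G1Package8
  Fermat.Agent.RED.BASE.EtaQuot12 Fermat.Agent.X0 Fermat.Agent.RED.BASE.Interface12
  Fermat.Agent.RED.BASE Fermat.Agent.RED.BASE.Hauptmodul12
  Fermat.Agent.RED.DESC.NumberFieldDVR27
  Fermat.Agent.ES.R48.FF1Defs13 Fermat.Agent.ES.R48.F1CDefs15 Fermat.Agent.ES.R48.X1Iface13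
  Fermat.Agent.ES.R48.G3Defs4 Fermat.Agent.ES.R48.JOneOps13
  Fermat.Agent.RED.PUR Fermat.Agent.RED.PUR.GaussBridge10

section Generic

variable {K : Type} [Field K] [CharZero K] (O : ValuationSubring K) [IsDiscreteValuationRing ↥O]
  {π : ↥O}

/-- `(DEG) + (IRR)` with the same `n` determine `n = [E : K(t)]`. -/
theorem relfinrank_eq_of_degLe_irr (hπ : Irreducible π)
    (E : IntermediateField K (LaurentSeries K)) (tG : ↥(gaussRing O))
    (htE : (tG : LaurentSeries K) ∈ E) (htr : Transcendental (Res O) (gaussRed O tG)) {n : ℕ}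
    (hdeg : DegLe O E tG n) (hirr : Irr O E tG n) : relfinrank (Kt O tG) E = n := by
  obtain ⟨e, heE, hli⟩ := hirr
  exact Fermat.Agent.ES.R48.ResFieldAbs10.relfinrank_eq_of_family (Kt_le (tG := tG) htE) n
    (fun m c hc hl => hdeg m c hc hl) _ heE
    (Fermat.Agent.RED.PUR.GaussDeg25.linearIndependent_of_gaussRed hπ htr e hli)

/-- **(GB2)₁ for a field `E` equal to `F1C K M`** (`ResFieldOne10.resField_F1C_eq` transported along
the equality; the diamond family is stated on `E`). -/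
theorem resField_eq_of_eq (hπ : Irreducible π) (ℓ : ℕ) [Fact ℓ.Prime] [CharP (Res O) ℓ]
    (M : ℕ) [NeZero M] (hM : 3 ≤ M) (hℓM : ¬ ℓ ∣ M)
    (E : IntermediateField K (LaurentSeries K)) (hE : E = F1C K M) (tG : ↥(gaussRing O))
    (htE : (tG : LaurentSeries K) ∈ modularFunctionFieldFullC K M)
    (hjt : jqModC K ∈ Kt O tG) (htr : Transcendental (Res O) (gaussRed O tG))
    (n : ℕ) (hn0 : n ≠ 0) (hdeg : DegLe O E tG n) (hirr : Irr O E tG n)
    (σ : (ZMod M)ˣ → (↥E ≃ₐ[K] ↥E))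
    (hfull : ∀ e (x : ↥E), (x : LaurentSeries K) ∈ modularFunctionFieldFullC K M → σ e x = x)
    (hw : ∀ (e c : (ZMod M)ˣ) (hc : wqC K M (c : ZMod M) ∈ E),
      ((σ e ⟨wqC K M (c : ZMod M), hc⟩ : ↥E) : LaurentSeries K) =
        wqC K M ((e * c : (ZMod M)ˣ) : ZMod M))
    (hfix : ∀ x : ↥E, (∀ e, σ e x = x) →
      (x : LaurentSeries K) ∈ modularFunctionFieldFullC K M) :
    resField O E = F1C (Res O) M := by
  subst hE
  have hn : relfinrank (Kt O tG) (F1C K M) = n :=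
    relfinrank_eq_of_degLe_irr O hπ (F1C K M) tG (fullC_le_F1C K M htE) htr hdeg hirr
  exact Fermat.Agent.ES.R48.ResFieldOne10.resField_F1C_eq O hπ ℓ M hM hℓM tG htE hjt htr n hn hn0
    hdeg hirr σ hfull (fun e c => hw e c _) hfix

end Generic

variable {n e : ℕ} [NeZero n] {M : ℕ} [NeZero M] {A : ValuationSubring Qbar}

/-- **(GB2)₁ for the contract objects, from a base level `(n, e)`, `n ∣ M`.** -/
theorem resFieldStep1_of_base (hb : BaseHyp n e) (hnM : n ∣ M) (cv : SL(2, ℤ) → Option Kbar)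
    (hcv : MainCusp12.CuspExports n e M cv) {p : ℕ} [Fact p.Prime] (hpM : ¬ p ∣ M)
    (hA : A.LiesOverPrime p) :
    Fermat.Agent.ES.R48.GaussBridgeOne15.ResFieldStep1 A M := by
  have hp : p.Prime := Fact.out
  have hM3 : 3 ≤ M := Fermat.Agent.ES.R48.DictHypFinal16.three_le_of_four_or_nine
    (hb.four_or_nine.imp (fun h => h.trans hnM) (fun h => h.trans hnM))
  have hM1 : M ≠ 1 := by omega
  have hB := Main12.baseExports hb M hnM
  obtain ⟨K₁, hK₁, hT⟩ := Fermat.Agent.RED.ModelFinal4.tTarget (n := n) (e := e) M hB.mem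
  obtain ⟨K₂, hK₂, hJ⟩ := Fermat.Agent.RED.ModelFinal4.jTarget (n := n) (e := e) hB.genBase
  obtain ⟨K₀, hK₀, hmod⟩ :=
    Fermat.Agent.ES.R48.CLBarOne4.explicitModelStep1 hb hnM cv hcv hpM hA
  refine ⟨K₀ ⊔ K₁ ⊔ K₂, inferInstance, fun K hKfd hle => ?_⟩
  have hle0 : K₀ ≤ K := le_trans (le_trans le_sup_left le_sup_left) hle
  have hle1 : K₁ ≤ K := le_trans (le_trans le_sup_right le_sup_left) hle
  have hle2 : K₂ ≤ K := le_trans le_sup_right hle
  obtain ⟨hdvr, hm⟩ := hmod K hKfd hle0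
  obtain ⟨ϖ, hϖ⟩ := IsDiscreteValuationRing.exists_irreducible ↥(AK A K)
  have hchar : CharP (Res (AK A K)) p := charP_residueField_AK A K hp hA
  have htE : tq K n e ∈ FK M K := hT K hKfd hle1
  obtain ⟨-, ht, nn, hnn0, hdeg, hirr⟩ :=
    hm ϖ hϖ (isUnif_of_irreducible (AK A K) hϖ) ⟨tq K n e, FK_le_FK1 M K htE⟩ rfl
  have htE' : tq K n e ∈ modularFunctionFieldFullC ↥K M := by
    rw [← Fermat.Agent.RED.PUR.DegBaseChange25.laurentBaseChange_full_eq ↥K M]
    exact htE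
  have htr : Transcendental (Res (AK A K)) (gaussRed (AK A K) ⟨tq K n e, ht⟩) :=
    transcendental_gaussRed_tq (AK A K) n e
  have hjt : jqModC K ∈ Kt (AK A K) ⟨tq K n e, ht⟩ := hJ K hKfd hle2
  have hfullEq : FK M K = modularFunctionFieldFullC ↥K M :=
    Fermat.Agent.RED.PUR.DegBaseChange25.laurentBaseChange_full_eq ↥K M
  show resField (AK A K) (FK1 M K) ≤ F1C (Res (AK A K)) M
  refine le_of_eq (resField_eq_of_eq (AK A K) hϖ p M hM3 hpM (FK1 M K)
    (Fermat.Agent.ES.R48.GaussBridgeOne15.FK1_eq_F1C K M) ⟨tq K n e, ht⟩ htE' hjt htr nn hnn0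
    hdeg hirr (Fermat.Agent.ES.R48.DiamondKFinal11.diaK M hM1 K) ?_ ?_ ?_)
  · intro e' x hx
    exact Fermat.Agent.ES.R48.DiamondKFinal11.diaK_of_mem_FK M hM1 K e' x (hfullEq ▸ hx)
  · intro e' c hc
    have h1 : (⟨wqC ↥K M (c : ZMod M), hc⟩ : ↥(FK1 M K)) =
        emb1 ↥K (wq M (c : ZMod M)) (wq_mem_F1 M c) :=
      Subtype.ext (Fermat.Agent.ES.R48.GaussBridgeOne10.coeffEmb_wq (K := ↥K) M (c : ZMod M)).symm
    rw [h1]
    have h2 := Fermat.Agent.ES.R48.DiamondK11.diaK_emb1_w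
      (Fermat.Agent.ES.R48.X1DiamondFinal11.hasDiamonds M hM1) K e' c
    have h3 := congrArg (fun y : ↥(FK1 M K) => (y : LaurentSeries K)) h2
    refine h3.trans ?_
    exact Fermat.Agent.ES.R48.GaussBridgeOne10.coeffEmb_wq (K := ↥K) M _
  · intro x hx
    have := Fermat.Agent.ES.R48.DiamondKFinal11.mem_FK_of_fixed M hM1 K x hx
    exact hfullEq ▸ this

/-- **(GB2)₁ for the contract objects** (`4 ∣ M ∨ 9 ∣ M`, `p ∤ M`, `A` over `p`). -/
theorem resFieldStep1 (hM : 4 ∣ M ∨ 9 ∣ M) {p : ℕ} [Fact p.Prime] (hpM : ¬ p ∣ M)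
    (hA : A.LiesOverPrime p) : Fermat.Agent.ES.R48.GaussBridgeOne15.ResFieldStep1 A M := by
  rcases hM with h4 | h9
  · exact resFieldStep1_of_base baseHyp_four h4 _ (MainCusp12.cuspExports_four M h4) hpM hA
  · exact resFieldStep1_of_base baseHyp_nine h9 _ (MainCusp12.cuspExports_nine M h9) hpM hA

end Fermat.Agent.ES.R48.ResFieldStepOne4
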