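/-
Programme R (S48, Deligne–Serre), chapter GEOM, G3 → G4 (helper4): **the two inputs of helper24's
`SpecialOne24`**, `specialHyp1 : SpecialOne24.SpecialHyp1 n e M A (tMem_of_dvd hb hnM)`.

* field `isGen` : `TGenOne7.isGen_tF1` (helper7) with the finiteness of `F1bar M` over `ℚbar(j)`
  from `X1GenFinal12.finiteDimensional` (G2);
* field `gauss` : `SpecialOne24.gauss_of_resField` fed with (GB2)₁ `ResFieldStepOne4.resFieldStep1`
  (equality through `GaussBridgeOne15.ResFieldLe.eq`) and `(DEG) + (IRR)` of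
  `CLBarOne4.explicitModelStep1`, transported along `GaussBridgeOne15.FK1_eq_F1C`;
  `nn = relfinrank` is `ResFieldStepOne4.relfinrank_eq_of_degLe_irr`.
-/
import Fermat.Agent.ES.R48.ResFieldStepOne4
import Fermat.Agent.ES.R48.SpecialOne24
import Fermat.Agent.ES.R48.TGenOne7

set_option autoImplicit false
set_option linter.unusedSectionVars false
set_option linter.unusedVariables false

open HahnSeries AlgebraicCurve ModularCurve IntermediateField
open scoped MatrixGroups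

noncomputable section

namespace Fermat.Agent.ES.R48.SpecialHypOne4

open Fermat.Agent.RED.Interface4 Fermat.Agent.RED.ModelTargets4
  Fermat.Agent.RED.PUR.GaussGen8 Fermat.Agent.RED.PUR.KtGauss8 Fermat.Agent.RED.PUR.G1Package8
  Fermat.Agent.RED.BASE.EtaQuot12 Fermat.Agent.X0 Fermat.Agent.RED.BASE.Interface12
  Fermat.Agent.RED.BASE Fermat.Agent.RED.BASE.Hauptmodul12
  Fermat.Agent.RED.DESC.NumberFieldDVR27
  Fermat.Agent.ES.R48.FF1Defs13 Fermat.Agent.ES.R48.F1CDefs15 Fermat.Agent.ES.R48.X1Iface13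
  Fermat.Agent.ES.R48.G3Defs4 Fermat.Agent.ES.R48.JOneOps13
  Fermat.Agent.RED.PUR Fermat.Agent.RED.PUR.GaussBridge10

variable {n e : ℕ} [NeZero n] {M : ℕ} [NeZero M] {A : ValuationSubring Qbar}

/-- `SpecialOne24.t1` is `TGenOne7.tF1`. -/
theorem t1_eq_tF1 (hmem : TMem n e M) :
    Fermat.Agent.ES.R48.SpecialOne24.t1 n e M hmem =
      Fermat.Agent.ES.R48.TGenOne7.tF1 n e M hmem := by
  rw [Fermat.Agent.ES.R48.TGenOne7.tF1_eq]
  rfl

/-- **field `isGen`** : `t` is a transcendental generator of `ℚbar · F1 M`, `3 ≤ M`. -/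
theorem isGen_t1 (hM3 : 3 ≤ M) (hmem : TMem n e M) :
    FF.IsGen Qbar (Fermat.Agent.ES.R48.SpecialOne24.t1 n e M hmem) := by
  rw [t1_eq_tF1]
  have hfin : FiniteDimensional (Kbar⟮jF1 M⟯ : IntermediateField Kbar (FF1 M)) (FF1 M) :=
    Fermat.Agent.ES.R48.X1GenFinal12.finiteDimensional M hM3
  exact Fermat.Agent.ES.R48.TGenOne7.isGen_tF1 n e M hmem

/-- **the hypothesis of `SpecialOne24.gauss_of_resField`** : (GB2)₁ + (DEG) + (IRR) over `A ∩ K` for
all large number fields `K`, in the `F1C ↥K M` form. -/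
theorem gaussInput_of_base (hb : BaseHyp n e) (hnM : n ∣ M) (cv : SL(2, ℤ) → Option Kbar)
    (hcv : MainCusp12.CuspExports n e M cv) {p : ℕ} [Fact p.Prime] (hpM : ¬ p ∣ M)
    (hA : A.LiesOverPrime p) :
    ∃ K₀ : IntermediateField ℚ Qbar, FiniteDimensional ℚ K₀ ∧
      ∀ K : IntermediateField ℚ Qbar, K₀ ≤ K → FiniteDimensional ℚ K →
        ∀ [IsDiscreteValuationRing ↥(AK A K)],
          resField (AK A K) (F1C ↥K M) = F1C (Res (AK A K)) M ∧
          ∃ d : ℕ, relfinrank (Kt (AK A K) (TBridge15.tG (AK A K) n e)) (F1C ↥K M) = d ∧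
            DegLe (AK A K) (F1C ↥K M) (TBridge15.tG (AK A K) n e) d ∧
            Irr (AK A K) (F1C ↥K M) (TBridge15.tG (AK A K) n e) d := by
  have hB := Main12.baseExports hb M hnM
  obtain ⟨K₁, hK₁, hT⟩ := Fermat.Agent.RED.ModelFinal4.tTarget (n := n) (e := e) M hB.mem
  obtain ⟨K₂, hK₂, hR⟩ :=
    Fermat.Agent.ES.R48.ResFieldStepOne4.resFieldStep1_of_base hb hnM cv hcv hpM hA
  obtain ⟨K₀, hK₀, hmod⟩ :=
    Fermat.Agent.ES.R48.CLBarOne4.explicitModelStep1 hb hnM cv hcv hpM hA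
  refine ⟨K₀ ⊔ K₁ ⊔ K₂, inferInstance, fun K hle hKfd hdvr' => ?_⟩
  have hle0 : K₀ ≤ K := le_trans (le_trans le_sup_left le_sup_left) hle
  have hle1 : K₁ ≤ K := le_trans (le_trans le_sup_right le_sup_left) hle
  have hle2 : K₂ ≤ K := le_trans le_sup_right hle
  obtain ⟨hdvr, hm⟩ := hmod K hKfd hle0
  obtain ⟨ϖ, hϖ⟩ := IsDiscreteValuationRing.exists_irreducible ↥(AK A K)
  have htE : tq K n e ∈ FK M K := hT K hKfd hle1
  obtain ⟨-, ht', nn, hnn0, hdeg', hirr'⟩ :=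
    hm ϖ hϖ (isUnif_of_irreducible (AK A K) hϖ) ⟨tq K n e, FK_le_FK1 M K htE⟩ rfl
  have ht : tq K n e ∈ gaussRing (AK A K) := ht'
  have hdeg : DegLe (AK A K) (FK1 M K) ⟨tq K n e, ht⟩ nn := hdeg'
  have hirr : Irr (AK A K) (FK1 M K) ⟨tq K n e, ht⟩ nn := hirr'
  have hEq : FK1 M K = F1C ↥K M := Fermat.Agent.ES.R48.GaussBridgeOne15.FK1_eq_F1C K M
  have hres : resField (AK A K) (FK1 M K) = F1C (Res (AK A K)) M := (hR K hKfd hle2).eq
  have htF : tq K n e ∈ F1C ↥K M := hEq ▸ FK_le_FK1 M K htE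
  rw [hEq] at hres hdeg hirr
  have htr : Transcendental (Res (AK A K)) (gaussRed (AK A K) ⟨tq K n e, ht⟩) :=
    transcendental_gaussRed_tq (AK A K) n e
  have hrank : relfinrank (Kt (AK A K) ⟨tq K n e, ht⟩) (F1C ↥K M) = nn :=
    Fermat.Agent.ES.R48.ResFieldStepOne4.relfinrank_eq_of_degLe_irr (AK A K) hϖ (F1C ↥K M)
      ⟨tq K n e, ht⟩ htF htr hdeg hirr
  exact ⟨hres, nn, hrank, hdeg, hirr⟩

/-- **`SpecialHyp1` from a base level `(n, e)`, `n ∣ M`.** -/
theorem specialHyp1_of_base (hb : BaseHyp n e) (hnM : n ∣ M) (cv : SL(2, ℤ) → Option Kbar)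
    (hcv : MainCusp12.CuspExports n e M cv) {p : ℕ} [Fact p.Prime] (hpM : ¬ p ∣ M)
    (hA : A.LiesOverPrime p) :
    Fermat.Agent.ES.R48.SpecialOne24.SpecialHyp1 n e M A (tMem_of_dvd hb hnM) := by
  have hM3 : 3 ≤ M := Fermat.Agent.ES.R48.DictHypFinal16.three_le_of_four_or_nine
    (hb.four_or_nine.imp (fun h => h.trans hnM) (fun h => h.trans hnM))
  exact ⟨isGen_t1 hM3 _,
    Fermat.Agent.ES.R48.SpecialOne24.gauss_of_resField n e M p (tMem_of_dvd hb hnM) A hA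
      (gaussInput_of_base hb hnM cv hcv hpM hA)⟩

/-- **`SpecialHyp1` at the base level `4`** (`4 ∣ M`, `p ∤ M`, `A` over `p`). -/
theorem specialHyp1_four (h4 : 4 ∣ M) {p : ℕ} [Fact p.Prime] (hpM : ¬ p ∣ M)
    (hA : A.LiesOverPrime p) :
    Fermat.Agent.ES.R48.SpecialOne24.SpecialHyp1 4 8 M A (tMem_of_dvd baseHyp_four h4) :=
  specialHyp1_of_base baseHyp_four h4 _ (MainCusp12.cuspExports_four M h4) hpM hA

/-- **`SpecialHyp1` at the base level `9`** (`9 ∣ M`, `p ∤ M`, `A` over `p`). -/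
theorem specialHyp1_nine (h9 : 9 ∣ M) {p : ℕ} [Fact p.Prime] (hpM : ¬ p ∣ M)
    (hA : A.LiesOverPrime p) :
    Fermat.Agent.ES.R48.SpecialOne24.SpecialHyp1 9 3 M A (tMem_of_dvd baseHyp_nine h9) :=
  specialHyp1_of_base baseHyp_nine h9 _ (MainCusp12.cuspExports_nine M h9) hpM hA

end Fermat.Agent.ES.R48.SpecialHypOne4
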