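/-
Programme R (S48, Deligne–Serre), chapter GEOM, sub-chapter G4 "CONG₁" (helper15), TOP:
**the torsion contract `G4Close13.SPTors` from the two-chart model alone** (twin of main's
`ES/TOP/SPInputs12.sp_of_model` + `ES/TOP/ModelOfInst12.model_of_levels`), and the reduction of
`G4Close13.SPTorsExport` to ONE remaining input: the level systems `ModelInstGen4.HasLevels` of the
two charts.

For a Hauptmodul base `(n, e)` (`BaseHyp n e`, `n ∣ M`), `p ∤ M` prime, `A ≤ ℚ̄` over `p`: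

* `LevelsHyp1 n e M A hmem` : every coefficientwise chart (`ChartInputsOfG15.CoeffChartG`) with
  coordinate `t^{±1}` has level systems (deliverable of `LevelsHypOne`);
* `spTors_of_base` : `SPTors (K := ℚ) A p ℓ (heckeOne M p) (diamondOne M (unitNat M p))` from
  `LevelsHyp1` (`p ∤ ℓ`, `ℓ ≠ 0`); all other inputs are plugged: G3 (`CLBarOne4.explicitModelStep1`,
  `clBar1`), (GB2)₁ (`ResFieldStepOne4`), `SpecialHypOne4`, `ModelIfaceOne15` (`LevelSat`),
  `ModelInstOne15` (the two charts), `RedInstOne7` (`ChartInputsG`), `SPOneOfInputs15`;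
* `spTorsExport_of_levels` : `G4Close13.SPTorsExport` from `LevelsHyp1` at the bases `(4, 8)`, `(9, 3)`.
-/
import Mathlib
import Fermat.Agent.ES.R48.SPOneOfInputs15
import Fermat.Agent.ES.R48.ModelInstOne15
import Fermat.Agent.ES.R48.RedInstOne7
import Fermat.Agent.ES.R48.SpecialHypOne4
import Fermat.Agent.ES.R48.CLBarOne4

set_option autoImplicit false
set_option synthInstance.maxHeartbeats 400000
set_option linter.unusedSectionVars false
set_option linter.style.haveILetI false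

noncomputable section

open AlgebraicCurve ModularCurve IntermediateField HahnSeries
open scoped MatrixGroups

namespace Fermat.Agent.ES.R48.G4Model15

open Fermat.Agent.ES.RED.Contract8 Fermat.Agent.ES.RED.TwoCharts8 Fermat.Agent.ES.RED.ModelInstGen4
open Fermat.Agent.X0 Fermat.Agent.X0.FF Fermat.Agent.RED.Interface4
open Fermat.Agent.RED.BASE Fermat.Agent.RED.BASE.Hauptmodul12 Fermat.Agent.RED.BASE.Interface12
open Fermat.Agent.ES.R48.FF1Defs13 Fermat.Agent.ES.R48.F1CDefs15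
open Fermat.Agent.ES.R48.ChartInputsOfG15 Fermat.Agent.ES.R48.TGenOne7
open Fermat.Agent.ES.R48.JOneOps13 Fermat.Agent.ES.R48.GeomIface13 Fermat.Agent.ES.R48.G4Close13

/-- **The remaining hypothesis**: level systems (`ModelInstGen4.HasLevels`) for every coefficientwise
chart over `A` with coordinate `t` or `t⁻¹`. -/
def LevelsHyp1 (n e M : ℕ) [NeZero n] [NeZero M] (A : ValuationSubring Qbar)
    (hmem : TMem n e M) : Prop :=
  ∀ {x : ↥(F1bar M)} {hx : IsGen Qbar x} (S : ChartSpec A hx ↥(F1C (kA A) M)),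
    CoeffChartG (F₀ := F1 M) (Fk := F1C (kA A) M) S →
    (S.s = tF1 n e M hmem ∨ S.s = (tF1 n e M hmem)⁻¹) → HasLevels S

variable {n e : ℕ} [NeZero n] {M : ℕ} [NeZero M] {A : ValuationSubring Qbar}

/-- **`SPTors` from the two-chart model at level `M`** over a Hauptmodul base `(n, e)`, `n ∣ M`. -/
theorem spTors_of_base (hb : BaseHyp n e) (hnM : n ∣ M) (cv : SL(2, ℤ) → Option Kbar)
    (hcv : MainCusp12.CuspExports n e M cv) {p : ℕ} [Fact p.Prime] (hpM : ¬ p ∣ M)
    (hA : A.LiesOverPrime p) (hlevels : LevelsHyp1 n e M A (tMem_of_dvd hb hnM))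
    {ℓ : ℕ} (hℓ0 : ℓ ≠ 0) (hpℓ : ¬ p ∣ ℓ) :
    SPTors (K := ℚ) A p ℓ (heckeOne M p) (diamondOne M (unitNat M p)) := by
  have h49 : 4 ∣ M ∨ 9 ∣ M := hb.four_or_nine.imp (fun h => h.trans hnM) (fun h => h.trans hnM)
  have hM3 : 3 ≤ M := Fermat.Agent.ES.R48.DictHypFinal16.three_le_of_four_or_nine h49
  haveI : NeZero p := ⟨(Fact.out : p.Prime).ne_zero⟩
  have hexp : ModelIfaceOne15.ExplicitModelStep1 A M n e :=
    CLBarOne4.explicitModelStep1 hb hnM cv hcv hpM hA
  have hres : GaussBridgeOne15.ResFieldStep1 A M :=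
    ResFieldStepOne4.resFieldStep1_of_base hb hnM cv hcv hpM hA
  have H : SpecialOne24.SpecialHyp1 n e M A (tMem_of_dvd hb hnM) :=
    SpecialHypOne4.specialHyp1_of_base hb hnM cv hcv hpM hA
  have hg : IsGen Qbar (tF1 n e M (tMem_of_dvd hb hnM)) := by
    rw [← SpecialHypOne4.t1_eq_tF1]
    exact H.isGen
  have hpir := SpecialOne24.pirHyp_F1C n e M p (tMem_of_dvd hb hnM) A hA H
  have hsat0 := ModelIfaceOne15.levelSat_t1 (tMem_of_dvd hb hnM) hexp
  have hsat1 := ModelIfaceOne15.levelSat_inv1 (tMem_of_dvd hb hnM) hexp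
  have c0 := ModelInstOne15.coeffChart0 n e M p (tMem_of_dvd hb hnM) A hA hres hg hsat0
  have c1 := ModelInstOne15.coeffChart1 n e M p (tMem_of_dvd hb hnM) A hA hres hg hsat1
  have hlev0 := hlevels _ c0 (Or.inl rfl)
  have hlev1 := hlevels _ c1 (Or.inr rfl)
  have peel0 := ModelInstOne15.peelA0 n e M p (tMem_of_dvd hb hnM) A hA hres hg hpir hsat0 hlev0
  have peel1 :=
    ModelInstOne15.peelA1 n e M p (tMem_of_dvd hb hnM) A hA hres hg hpir hsat0 hsat1 hlev1
  obtain ⟨h0, h1⟩ := RedInstOne7.chartInputs_both_tF1 n e M p (tMem_of_dvd hb hnM) A hA H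
    (ModelInstOne15.twoCharts n e M p (tMem_of_dvd hb hnM) A hA hres hg hpir hsat0 hsat1
      hlev0 hlev1) c0 c1 rfl peel0 peel1
  exact SPOneOfInputs15.spTors_of_inputs hM3 hpM hA
    (ModelInstOne15.twoCharts n e M p (tMem_of_dvd hb hnM) A hA hres hg hpir hsat0 hsat1
      hlev0 hlev1) h0 h1 c0 c1 hres (CLBarOne4.clBar1 h49 hpM hA) hℓ0 hpℓ

/-- **`G4Close13.SPTorsExport` from the level systems** at the two Hauptmodul bases. -/
theorem spTorsExport_of_levels
    (h4 : ∀ (M : ℕ) [NeZero M] (h : 4 ∣ M) (p : ℕ) [Fact p.Prime], ¬ p ∣ M →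
      ∀ A : ValuationSubring Qbar, A.LiesOverPrime p →
        LevelsHyp1 4 8 M A (tMem_of_dvd baseHyp_four h))
    (h9 : ∀ (M : ℕ) [NeZero M] (h : 9 ∣ M) (p : ℕ) [Fact p.Prime], ¬ p ∣ M →
      ∀ A : ValuationSubring Qbar, A.LiesOverPrime p →
        LevelsHyp1 9 3 M A (tMem_of_dvd baseHyp_nine h)) :
    SPTorsExport := by
  intro M ℓ _ hℓ _ hℓM h49 p hp hpM A hA
  haveI : Fact p.Prime := ⟨hp⟩
  have hpℓ : ¬ p ∣ ℓ := by
    intro h
    rcases (Nat.dvd_prime hℓ).mp h with h1 | h1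
    · exact hp.one_lt.ne' h1
    · exact hpM (h1 ▸ hℓM)
  rcases h49 with h | h
  · exact spTors_of_base baseHyp_four h _ (MainCusp12.cuspExports_four M h) hpM hA
      (h4 M h p hpM A hA) hℓ.ne_zero hpℓ
  · exact spTors_of_base baseHyp_nine h _ (MainCusp12.cuspExports_nine M h) hpM hA
      (h9 M h p hpM A hA) hℓ.ne_zero hpℓ

end Fermat.Agent.ES.R48.G4Model15
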