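/-
Programme R (S48, Deligne–Serre), chapter GEOM, sub-chapter G4 "CONG₁", Layer 2 — helper21.
**Twin of `ES/RED/L4Inst16`** (helper16; B1.3) for `X₁(M)`: the field `L4` of
`LevelContract22.ChartLevels`, literally, for any chart `S : Contract8.ChartSpec A hx Ft` at
`F = ↥(F1bar M)`, `Ft = ↥(F1C k M)` whose ring contains the integral closure of `A[s]` (`s = t` or
`t⁻¹`, `t = TGenOne7.tF1 n e M hmem` the Hauptmodul) and whose `red` is the coefficientwise reduction
of `A`-integral `q`-expansions (helper15's `ChartInputsOfG15.CoeffChartG` at `Fk := F1C κ_A M`).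

Literal copy with `Fbar M ↦ F1bar M`, `modularFunctionFieldFullC (kA A) M ↦ F1C (kA A) M`,
`tF M hmem ↦ tF1 n e M hmem`, `FracRed16.exists_frac_red(_inv) ↦ FracRedOne21.exists_frac_red(_inv)1`
(hypotheses `ℓ ∤ M`, `TGenBase n e` ↦ the contract `FracRedOne21.PackageStep1 A M n e`),
`GaloisInst21.CoeffChart ↦ ChartInputsOfG15.CoeffChartG`.  The deliverable
`chartLevels_L4_of_coeffChartG` has LITERALLY the binder list fixed by helper15's Layer-2 split v2;
its hypothesis `hres : ResFieldStep1 A M` is not used (main's `resField_FK_eq` entered only through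
the easy inclusion (RES)₁ `GaussBridgeOne15.F1C_le_resField_FK1`) — the primed form
`chartLevels_L4_of_coeffChartG'` omits it.
-/
import Mathlib
import Fermat.Agent.ES.R48.FracRedOne21
import Fermat.Agent.ES.RED.Contract8
import Fermat.Agent.ES.R48.ChartInputsOfG15

set_option autoImplicit false
set_option linter.unusedSectionVars false
set_option linter.style.haveILetI false

noncomputable section

namespace Fermat.Agent.ES.R48.L4InstOne21

open HahnSeries ModularCurve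
open Fermat.Agent.X0.FF Fermat.Agent.ES.RED.Contract8
open Fermat.Agent.RED.Interface4 Fermat.Agent.RED.PUR.ChartGeneric22
open Fermat.Agent.RED.BASE.Interface12
open Fermat.Agent.ES.R48.FF1Defs13 Fermat.Agent.ES.R48.F1CDefs15 Fermat.Agent.ES.R48.TGenOne7
  Fermat.Agent.ES.R48.FracRedOne21 Fermat.Agent.ES.R48.ChartInputsOfG15
  Fermat.Agent.ES.R48.GaussBridgeOne15

variable {A : ValuationSubring Qbar} {M : ℕ} [NeZero M]
  {x : ↥(F1bar M)} {hx : IsGen Qbar x}

/-- **`L4`**: every element of `F1C k M` is a quotient of reductions of elements of the chart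
ring. -/
theorem chartLevels_L4_1 (S : ChartSpec A hx ↥(F1C (kA A) M))
    (hmemB : ∀ b : ↥(F1bar M), b ∈ chart ↥A S.s → b ∈ S.B)
    (hred : ∀ (b : ↥S.B) (Y : LaurentSeries ↥A),
      coeffMap A.subtype Y = ((b : ↥(F1bar M)) : LaurentSeries Qbar) →
      ((S.red b : ↥(F1C (kA A) M)) : LaurentSeries (kA A)) =
        coeffMap (resA A) Y)
    (n e : ℕ) [NeZero n] (p : ℕ) [Fact p.Prime]
    (hpkg : PackageStep1 A M n e) (hmem : TMem n e M) (hA : A.LiesOverPrime p)
    (hs : S.s = tF1 n e M hmem ∨ S.s = (tF1 n e M hmem)⁻¹) :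
    ∀ y : ↥(F1C (kA A) M),
      ∃ a b : ↥S.B, S.red b ≠ 0 ∧ y * S.red b = S.red a := by
  intro y
  have key : ∃ (Ya Yb : LaurentSeries ↥A) (ha : coeffMap A.subtype Ya ∈ F1bar M)
      (hb : coeffMap A.subtype Yb ∈ F1bar M),
      (⟨_, ha⟩ : ↥(F1bar M)) ∈ chart ↥A S.s ∧ (⟨_, hb⟩ : ↥(F1bar M)) ∈ chart ↥A S.s ∧
      coeffMap (IsLocalRing.residue ↥A) Yb ≠ 0 ∧
      (y : LaurentSeries (kA A)) * coeffMap (IsLocalRing.residue ↥A) Yb =
        coeffMap (IsLocalRing.residue ↥A) Ya := by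
    rcases hs with hs | hs
    · rw [hs]
      exact exists_frac_red1 A n e p hpkg hmem hA y.2
    · rw [hs]
      exact exists_frac_red_inv1 A n e p hpkg hmem hA y.2
  obtain ⟨Ya, Yb, ha, hb, hac, hbc, hb0, hab⟩ := key
  refine ⟨⟨⟨_, ha⟩, hmemB _ hac⟩, ⟨⟨_, hb⟩, hmemB _ hbc⟩, ?_, ?_⟩
  · intro h0
    apply hb0
    have := hred ⟨⟨_, hb⟩, hmemB _ hbc⟩ Yb rfl
    rw [h0] at this
    exact this.symm
  · apply Subtype.ext
    rw [MulMemClass.coe_mul, hred ⟨⟨_, hb⟩, hmemB _ hbc⟩ Yb rfl,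
      hred ⟨⟨_, ha⟩, hmemB _ hac⟩ Ya rfl]
    exact hab

/-- `L4` from `ChartInputsOfG15.CoeffChartG`. -/
theorem chartLevels_L4_of_coeffChartG' (S : ChartSpec A hx ↥(F1C (kA A) M))
    (hS : CoeffChartG (F₀ := F1 M) (Fk := F1C (kA A) M) S)
    (n e : ℕ) [NeZero n] (p : ℕ) [Fact p.Prime]
    (hpkg : PackageStep1 A M n e) (hmem : TMem n e M) (hA : A.LiesOverPrime p)
    (hs : S.s = tF1 n e M hmem ∨ S.s = (tF1 n e M hmem)⁻¹) :
    ∀ y : ↥(F1C (kA A) M),
      ∃ a b : ↥S.B, S.red b ≠ 0 ∧ y * S.red b = S.red a :=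
  chartLevels_L4_1 S (fun b hb => (hS.mem_iff b).mpr hb) hS.red_eq n e p hpkg hmem hA hs

/-- **`L4` from `ChartInputsOfG15.CoeffChartG`, in the literal shape of helper15's Layer-2 split v2**
(`hres` is not used). -/
theorem chartLevels_L4_of_coeffChartG (S : ChartSpec A hx ↥(F1C (kA A) M))
    (hS : CoeffChartG (F₀ := F1 M) (Fk := F1C (kA A) M) S)
    (n e : ℕ) [NeZero n] (p : ℕ) [Fact p.Prime]
    (hpkg : PackageStep1 A M n e) (_hres : ResFieldStep1 A M)
    (hmem : TMem n e M) (hA : A.LiesOverPrime p)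
    (hs : S.s = tF1 n e M hmem ∨ S.s = (tF1 n e M hmem)⁻¹) :
    ∀ y : ↥(F1C (kA A) M),
      ∃ a b : ↥S.B, S.red b ≠ 0 ∧ y * S.red b = S.red a :=
  chartLevels_L4_of_coeffChartG' S hS n e p hpkg hmem hA hs

end Fermat.Agent.ES.R48.L4InstOne21
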