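/-
Programme R (S48, Deligne–Serre), chapter GEOM, sub-chapter G4 "CONG₁", layer 2 (helper7; parallel
copy, "first green pair wins"): **twin of main's `ES/RED/LevelsInst22`** (helper22; §"one level"
onward) for `X₁(M)`: the concrete level system (`LevelContract22.ChartLevels`) of a chart
`S : ChartSpec A hx ↥(F1C (kA A) M)` at `L = ℚ̄`, `F = F1bar M`, from the two-chart models of
`K · F1 M` over the number fields.

Scripted substitution `Fbar M ↦ F1bar M`, `FK M K ↦ FK1 M K`,
`modularFunctionFieldFullC (kA A) M ↦ F1C (kA A) M`, `baseChangeHom M K ↦ baseChangeHomG (F1 M) K`,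
`OvK / mem_OvK_iff ↦ GaussBridgeOne10.OvK1 / mem_OvK1_iff`,
`ChartUnion1.{baseChangeHom_mem_chart, baseChangeHom_algebraMap_AK} ↦ ChartUnionG15.{…G}`; the generic
lemmas `isMaximal_ker`, `exists_pow_eq_self`, `coeffMap_res_eq` are used AS-IS from main.  Same
declaration names as the original: `algebraAKFK`, `LevelIdx`, `LevelRing`, `levelPi`, `GoodLevel`,
`goodLevel_of_model0/1`, `Levels`, `Bk`, `pik`, `levelHom`, `coe_levelHom`, `levelHom_injective`,
`levelHom_pik`, `resA_incl_pi`, `RedCompat`, `red_levelHom_eq_zero_iff`.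
-/
import Mathlib
import Fermat.Agent.ES.RED.LevelsInst22
import Fermat.Agent.ES.R48.ChartUnionG15
import Fermat.Agent.ES.R48.GaussBridgeOne10
import Fermat.Agent.ES.R48.G3Defs4
import Fermat.Agent.ES.R48.F1CDefs15

set_option autoImplicit false
set_option linter.unusedSectionVars false
set_option linter.style.haveILetI false

open HahnSeries ModularCurve AlgebraicCurve

noncomputable section

namespace Fermat.Agent.ES.R48.LevelsInstOne7

open Fermat.Agent.X0.FF Fermat.Agent.ES.RED.PlaceValue13 Fermat.Agent.ES.RED.Contract8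
open Fermat.Agent.ES.RED.LevelContract22
open Fermat.Agent.RED.Interface4 Fermat.Agent.RED.DESC.PlaceExtend27 Fermat.Agent.RED.DESC
  Fermat.Agent.RED.DESC.NumberFieldDVR27
  Fermat.Agent.RED.PUR.ChartGeneric22 Fermat.Agent.RED.NumInst4 Fermat.Agent.RED.PUR.GaussGen8
  Fermat.Agent.RED.PUR.GaussBridge10 Fermat.Agent.RED.CORE.CoreIface24
open Fermat.Agent.ES.RED.LevelsInst22 (isMaximal_ker exists_pow_eq_self coeffMap_res_eq)
open Fermat.Agent.ES.R48.FF1Defs13 Fermat.Agent.ES.R48.F1CDefs15 Fermat.Agent.ES.R48.G3Defs4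
  Fermat.Agent.ES.R48.PlaceExtendG7

variable (A : ValuationSubring Qbar)

/-! ### one level -/

variable (M : ℕ) [NeZero M]

/-- Shortcut for the (slow) instance search `Algebra ↥(A ∩ K) ↥(K·F_M)`; it is the instance found by
`inferInstance`. -/
@[reducible] def algebraAKFK (K : IntermediateField ℚ Qbar) : Algebra ↥(AK A K) ↥(FK1 M K) :=
  Algebra.ofSubsemiring (AK A K)

attribute [local instance] algebraAKFK

/-- An index of the level system: a subfield `K ⊆ ℚ̄`, a coordinate `t_K ∈ K·F_M` and an element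
`ϖ ∈ A ∩ K`. -/
abbrev LevelIdx : Type := Σ K : IntermediateField ℚ Qbar, ↥(FK1 M K) × ↥(AK A K)

/-- The ring of level `i = (K, t_K, ϖ)`: the integral closure of `(A ∩ K)[t_K]` in `K·F_M`. -/
abbrev LevelRing (i : LevelIdx A M) : Type := ↥(chart ↥(AK A i.1) i.2.1)

/-- The element `π_i = ϖ` of the ring of level `i`. -/
abbrev levelPi (i : LevelIdx A M) : LevelRing A M i :=
  algebraMap ↥(AK A i.1) (LevelRing A M i) i.2.2

/-- What is needed of the level `i = (K, t_K, ϖ)` for the chart with coordinate `s`. -/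
structure GoodLevel (s : ↥(F1bar M)) (i : LevelIdx A M) : Prop where
  unif : IsUnif (AK A i.1) i.2.2
  hts : baseChangeHomG (F1 M) i.1 i.2.1 = s
  noeth : IsNoetherianRing (LevelRing A M i)
  le_gauss : ∀ b ∈ chart ↥(AK A i.1) i.2.1, (b : LaurentSeries i.1) ∈ gaussRing (AK A i.1)
  sat : ∀ b ∈ chart ↥(AK A i.1) i.2.1, ∀ c : ↥(FK1 M i.1),
    (c : LaurentSeries i.1) ∈ gaussRing (AK A i.1) →
      b = algebraMap ↥(AK A i.1) ↥(FK1 M i.1) i.2.2 * c → c ∈ chart ↥(AK A i.1) i.2.1
  smooth : ∀ x : Ideal (LevelRing A M i), x.IsMaximal → levelPi A M i ∈ x →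
    ∃ s ∈ x, ∀ y ∈ x, ∃ d : LevelRing A M i, d ∉ x ∧ d * y ∈ Ideal.span {levelPi A M i, s}

/-- A good level for the chart `t` from the two-chart model over `A ∩ K`. -/
theorem goodLevel_of_model0 {K : IntermediateField ℚ Qbar} {ϖ : ↥(AK A K)}
    (hu : IsUnif (AK A K) ϖ) {t : ↥(FK1 M K)}
    (hmodel : TwoChartModel ↥(AK A K) K ↥(FK1 M K) ϖ t (chart ↥(AK A K) t) (chart ↥(AK A K) t⁻¹)
      (Fermat.Agent.ES.R48.GaussBridgeOne10.OvK1 A K M hu)) :
    GoodLevel A M (baseChangeHomG (F1 M) K t) ⟨K, t, ϖ⟩ where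
  unif := hu
  hts := rfl
  noeth := hmodel.noeth0
  le_gauss b hb := (Fermat.Agent.ES.R48.GaussBridgeOne10.mem_OvK1_iff A K M hu b).1 (hmodel.le_Ov0 b hb)
  sat b hb c hc hbc := hmodel.sat0 b hb c ((Fermat.Agent.ES.R48.GaussBridgeOne10.mem_OvK1_iff A K M hu c).2 hc) hbc
  smooth := hmodel.smooth0

/-- A good level for the chart `t⁻¹` from the two-chart model over `A ∩ K`. -/
theorem goodLevel_of_model1 {K : IntermediateField ℚ Qbar} {ϖ : ↥(AK A K)}
    (hu : IsUnif (AK A K) ϖ) {t : ↥(FK1 M K)}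
    (hmodel : TwoChartModel ↥(AK A K) K ↥(FK1 M K) ϖ t (chart ↥(AK A K) t) (chart ↥(AK A K) t⁻¹)
      (Fermat.Agent.ES.R48.GaussBridgeOne10.OvK1 A K M hu)) :
    GoodLevel A M (baseChangeHomG (F1 M) K t)⁻¹ ⟨K, t⁻¹, ϖ⟩ where
  unif := hu
  hts := map_inv₀ _ _
  noeth := hmodel.noeth1
  le_gauss b hb := (Fermat.Agent.ES.R48.GaussBridgeOne10.mem_OvK1_iff A K M hu b).1 (hmodel.le_Ov1 b hb)
  sat b hb c hc hbc := hmodel.sat1 b hb c ((Fermat.Agent.ES.R48.GaussBridgeOne10.mem_OvK1_iff A K M hu c).2 hc) hbc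
  smooth := hmodel.smooth1

/-! ### the level system of a chart -/

variable {A M}
variable {x : ↥(F1bar M)} {hx : IsGen Qbar x}
variable (S : ChartSpec A hx ↥(F1C (kA A) M))

/-- The index set of the level system of the chart `S`: the good levels for the coordinate `S.s`. -/
abbrev Levels : Type := {i : LevelIdx A M // GoodLevel A M S.s i}

/-- The ring of level `i`. -/
abbrev Bk (i : Levels S) : Type := LevelRing A M i.1

/-- The element `π_i`. -/
abbrev pik (i : Levels S) : Bk S i := levelPi A M i.1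

variable (hB : ∀ b : ↥(F1bar M), b ∈ chart ↥A S.s → b ∈ S.B)

include hB in
theorem baseChangeHom_mem (i : Levels S) (b : Bk S i) :
    baseChangeHomG (F1 M) i.1.1 ((b : Bk S i) : ↥(FK1 M i.1.1)) ∈ S.B := by
  apply hB
  have h := Fermat.Agent.ES.R48.ChartUnionG15.baseChangeHom_mem_chartG A (F1 M) i.1.1 i.1.2.1 _ b.2
  rwa [i.2.hts] at h

/-- The level homomorphism `ι_i : B_i →+* B` (coefficientwise base change). -/
def levelHom (i : Levels S) : Bk S i →+* ↥S.B :=
  ((baseChangeHomG (F1 M) i.1.1).comp (chart ↥(AK A i.1.1) i.1.2.1).val.toRingHom).codRestrict S.B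
    (baseChangeHom_mem S hB i)

theorem coe_levelHom (i : Levels S) (b : Bk S i) :
    ((levelHom S hB i b : ↥S.B) : ↥(F1bar M)) = baseChangeHomG (F1 M) i.1.1 (b : ↥(FK1 M i.1.1)) := rfl

theorem levelHom_injective (i : Levels S) : Function.Injective (levelHom S hB i) := by
  intro b b' h
  have h1 := congrArg (Subtype.val) h
  rw [coe_levelHom, coe_levelHom] at h1
  exact Subtype.ext (baseChangeHomG_injective (F1 M) i.1.1 h1)

/-- `ι_i π_i` is the constant `ϖ`. -/
theorem levelHom_pik (i : Levels S) :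
    levelHom S hB i (pik S i) = S.const (incl A i.1.1 i.1.2.2) := by
  apply Subtype.ext
  rw [coe_levelHom]
  exact Fermat.Agent.ES.R48.ChartUnionG15.baseChangeHom_algebraMap_AKG A (F1 M) i.1.1 i.1.2.2

theorem resA_incl_pi (i : Levels S) : resA A (incl A i.1.1 i.1.2.2) = 0 := by
  show IsLocalRing.residue ↥A (incl A i.1.1 i.1.2.2) = 0
  rw [← resMap_residue]
  have : IsLocalRing.residue ↥(AK A i.1.1) i.1.2.2 = 0 := res0_unif i.2.unif
  rw [this, map_zero]

/-- the compatibility hypothesis on `S.red`: it is the coefficientwise reduction of `A`-expansions. -/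
def RedCompat : Prop :=
  ∀ b : ↥S.B, ∃ Y : LaurentSeries ↥A,
    coeffMap A.subtype Y = (((b : ↥S.B) : ↥(F1bar M)) : LaurentSeries Qbar) ∧
      ((S.red b : ↥(F1C (kA A) M)) : LaurentSeries (kA A)) =
        coeffMap (resA A) Y

variable {S}

/-- **(L3)** at level `i`. -/
theorem red_levelHom_eq_zero_iff (hcompat : RedCompat S) (i : Levels S) (b : Bk S i) :
    S.red (levelHom S hB i b) = 0 ↔ pik S i ∣ b := by
  constructor
  · intro h0
    obtain ⟨Y, hY, hredY⟩ := hcompat (levelHom S hB i b)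
    have hbG : ((b : ↥(FK1 M i.1.1)) : LaurentSeries i.1.1) ∈ gaussRing (AK A i.1.1) :=
      i.2.le_gauss _ b.2
    have h1 := coeffMap_res_eq A i.1.1 hbG (Y := Y) (by rw [hY, coe_levelHom]; rfl)
    have h2 : coeffMap (resA A) Y = 0 := by
      rw [← hredY, h0]; rfl
    have h3 : gaussRed (AK A i.1.1) ⟨_, hbG⟩ = 0 := by
      apply CoeffDescent1.coeffMap_injective_of_injective (resMap A i.1.1) (resMap_injective A i.1.1)
      rw [map_zero, ← h1]
      exact h2
    obtain ⟨g, hg⟩ := (gaussRed_eq_zero_iff i.2.unif _).1 h3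
    -- `g = b / ϖ` lies in `K·F_M`
    have hg' : ((b : ↥(FK1 M i.1.1)) : LaurentSeries i.1.1) =
        HahnSeries.C ((i.1.2.2 : ↥(AK A i.1.1)) : i.1.1) * (g : LaurentSeries i.1.1) := by
      have := congrArg Subtype.val hg
      exact this
    have hπ0 : (algebraMap ↥(AK A i.1.1) ↥(FK1 M i.1.1) i.1.2.2) ≠ 0 := by
      intro h
      have h' := congrArg (Subtype.val) h
      rw [coe_algebraMap_OE] at h'
      have : ((i.1.2.2 : ↥(AK A i.1.1)) : i.1.1) = 0 := by
        have := congrArg (fun z : LaurentSeries i.1.1 => z.coeff 0) h'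
        simpa using this
      exact i.2.unif.ne_zero (Subtype.ext this)
    set c : ↥(FK1 M i.1.1) := (b : ↥(FK1 M i.1.1)) / algebraMap ↥(AK A i.1.1) ↥(FK1 M i.1.1) i.1.2.2
      with hc
    have hbc : (b : ↥(FK1 M i.1.1)) = algebraMap ↥(AK A i.1.1) ↥(FK1 M i.1.1) i.1.2.2 * c := by
      rw [hc, mul_div_cancel₀ _ hπ0]
    have hcg : (c : LaurentSeries i.1.1) = (g : LaurentSeries i.1.1) := by
      have hC0 : (HahnSeries.C ((i.1.2.2 : ↥(AK A i.1.1)) : i.1.1) : LaurentSeries i.1.1) ≠ 0 := by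
        rw [← coe_algebraMap_OE (AK A i.1.1) (FK1 M i.1.1)]
        intro h
        exact hπ0 (Subtype.ext h)
      apply mul_left_cancel₀ hC0
      rw [← hg', ← coe_algebraMap_OE (AK A i.1.1) (FK1 M i.1.1)]
      have := congrArg (Subtype.val) hbc
      exact this.symm
    have hcG : (c : LaurentSeries i.1.1) ∈ gaussRing (AK A i.1.1) := by rw [hcg]; exact g.2
    have hcmem := i.2.sat _ b.2 c hcG hbc
    exact ⟨⟨c, hcmem⟩, Subtype.ext hbc⟩
  · rintro ⟨c, rfl⟩
    rw [map_mul, map_mul, levelHom_pik, S.red_const', resA_incl_pi, map_zero, zero_mul]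

end Fermat.Agent.ES.R48.LevelsInstOne7
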