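/-
Programme R (S48, Deligne–Serre), chapter GEOM, sub-chapter G4 "CONG₁", layer 2 (helper7, for
helper15): **the level systems of the charts of `X₁(M)`** — twin of main's `ES/TOP/LevelsHyp12`
§Chart, on top of helper22's `LevelsInstOne7`/`LevelsMainOne7` (`chartLevels`) and helper21's
`L4InstOne21` (`chartLevels_L4_of_coeffChartG`):

* `redCompat_of_coeffChartG` : `LevelsInstOne7.RedCompat S` from `ChartInputsOfG15.CoeffChartG S`;
* `hasLevels_of_coeffChartG` : `ModelInstGen4.HasLevels S` for a coefficientwise chart with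
  coordinate `t^{±1}`, `t = TGenOne7.tF1 n e M hmem`, given the Gauss package
  (`ModelIfaceOne15.PackageStep1`) and good levels at all large number fields
  (`LevelsMainOne7.EventuallyGood`);
* `hasLevels_both_of_models` : both charts at once, from the two-chart models over the number fields
  (`ModelIfaceOne15.ModelsStep1`, through `LevelsMainOne7.eventuallyGood_of_models`).
-/
import Mathlib
import Fermat.Agent.ES.R48.LevelsMainOne7
import Fermat.Agent.ES.R48.L4InstOne21
import Fermat.Agent.ES.R48.ModelIfaceOne15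
import Fermat.Agent.ES.RED.ModelInstGen4

set_option autoImplicit false
set_option synthInstance.maxHeartbeats 400000
set_option linter.unusedSectionVars false
set_option linter.style.haveILetI false

noncomputable section

open AlgebraicCurve ModularCurve HahnSeries

namespace Fermat.Agent.ES.R48.LevelsHypOne7

open Fermat.Agent.RED.Interface4 Fermat.Agent.RED.BASE.Interface12
  Fermat.Agent.ES.RED.ModelInstGen4 Fermat.Agent.ES.RED.Contract8
  Fermat.Agent.ES.RED.LevelContract22
  Fermat.Agent.ES.R48.LevelsInstOne7 Fermat.Agent.ES.R48.LevelsMainOne7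
  Fermat.Agent.X0 Fermat.Agent.X0.FF Fermat.Agent.RED.PUR.ChartGeneric22
  Fermat.Agent.ES.R48.FF1Defs13 Fermat.Agent.ES.R48.F1CDefs15 Fermat.Agent.ES.R48.TGenOne7
  Fermat.Agent.ES.R48.ChartInputsOfG15 Fermat.Agent.ES.R48.GaussBridgeOne15
  Fermat.Agent.ES.R48.ModelIfaceOne15

attribute [local instance] Fermat.Agent.ES.R48.LevelsInstOne7.algebraAKFK

variable {A : ValuationSubring Qbar} {M : ℕ} [NeZero M] {x : ↥(F1bar M)} {hx : IsGen Qbar x}
  (S : ChartSpec A hx ↥(F1C (kA A) M))

/-- `RedCompat` from `CoeffChartG`. -/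
theorem redCompat_of_coeffChartG
    (hS : CoeffChartG (F₀ := F1 M) (Fk := F1C (kA A) M) S) :
    RedCompat S := fun b => by
  obtain ⟨Y, hY⟩ := hS.exists_series b
  exact ⟨Y, hY, hS.red_eq b Y hY⟩

/-- **`HasLevels S`** for a coefficientwise chart of `X₁(M)` with coordinate `t^{±1}`, given the
Gauss package and good levels at all large number fields. -/
theorem hasLevels_of_coeffChartG
    (hS : CoeffChartG (F₀ := F1 M) (Fk := F1C (kA A) M) S)
    (n e : ℕ) [NeZero n] (p : ℕ) [Fact p.Prime]
    (hpkg : PackageStep1 A M n e) (hmem : TMem n e M) (hA : A.LiesOverPrime p)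
    (hs : S.s = tF1 n e M hmem ∨ S.s = (tF1 n e M hmem)⁻¹) (hgood : EventuallyGood A M S.s) :
    HasLevels S := by
  intro P hP
  have hp : p ≠ 0 := (Fact.out : p.Prime).ne_zero
  exact ⟨Levels S, Bk S, fun i => inferInstance, levelHom S (fun b h => (hS.mem_iff b).2 h), pik S,
    chartLevels hp hA hS.mem_iff (redCompat_of_coeffChartG S hS)
      (Fermat.Agent.ES.R48.L4InstOne21.chartLevels_L4_of_coeffChartG' S hS n e p hpkg hmem hA hs)
      hgood P hP⟩

/-- **`HasLevels` for both charts** (`S0.s = t`, `S1.s = t⁻¹`) from the two-chart models over the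
number fields. -/
theorem hasLevels_both_of_models
    (S0 S1 : ChartSpec A hx ↥(F1C (kA A) M))
    (hS0 : CoeffChartG (F₀ := F1 M) (Fk := F1C (kA A) M) S0)
    (hS1 : CoeffChartG (F₀ := F1 M) (Fk := F1C (kA A) M) S1)
    (n e : ℕ) [NeZero n] (p : ℕ) [Fact p.Prime]
    (hpkg : PackageStep1 A M n e) (hmem : TMem n e M) (hA : A.LiesOverPrime p)
    (hs0 : S0.s = tF1 n e M hmem) (hs1 : S1.s = (tF1 n e M hmem)⁻¹)
    (hmodels : ModelsStep1 A M (tF1 n e M hmem)) :
    HasLevels S0 ∧ HasLevels S1 := by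
  obtain ⟨hg0, hg1⟩ := eventuallyGood_of_models A M (tF1 n e M hmem) hmodels
  exact ⟨hasLevels_of_coeffChartG S0 hS0 n e p hpkg hmem hA (Or.inl hs0) (hs0 ▸ hg0),
    hasLevels_of_coeffChartG S1 hS1 n e p hpkg hmem hA (Or.inr hs1) (hs1 ▸ hg1)⟩

end Fermat.Agent.ES.R48.LevelsHypOne7
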