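/-
Programme R (S48, Deligne–Serre), chapter GEOM, sub-chapter G4 "CONG₁", TOP (helper7, hedge for
helper15's `G4Final15`): **the last input of `G4Model15.spTorsExport_of_levels`**,
`G4Model15.LevelsHyp1 n e M A hmem`, from G3's explicit models (`CLBarOne4.explicitModelStep1`)
through `LevelsHypOne7.hasLevels_of_coeffChartG`; hence **`spTorsExport : G4Close13.SPTorsExport`**.
-/
import Mathlib
import Fermat.Agent.ES.R48.G4Model15
import Fermat.Agent.ES.R48.LevelsHypOne7

set_option autoImplicit false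
set_option synthInstance.maxHeartbeats 400000
set_option linter.unusedSectionVars false

noncomputable section

open AlgebraicCurve ModularCurve IntermediateField HahnSeries
open scoped MatrixGroups

namespace Fermat.Agent.ES.R48.G4LevelsClose7

open Fermat.Agent.ES.RED.Contract8 Fermat.Agent.ES.RED.ModelInstGen4
open Fermat.Agent.X0 Fermat.Agent.X0.FF Fermat.Agent.RED.Interface4
open Fermat.Agent.RED.BASE Fermat.Agent.RED.BASE.Hauptmodul12 Fermat.Agent.RED.BASE.Interface12
open Fermat.Agent.ES.R48.FF1Defs13 Fermat.Agent.ES.R48.F1CDefs15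
open Fermat.Agent.ES.R48.ChartInputsOfG15 Fermat.Agent.ES.R48.TGenOne7
open Fermat.Agent.ES.R48.G4Close13 Fermat.Agent.ES.R48.G4Model15

variable {n e : ℕ} [NeZero n] {M : ℕ} [NeZero M] {A : ValuationSubring Qbar}

/-- **`LevelsHyp1`** at a Hauptmodul base `(n, e)`, `n ∣ M`, `p ∤ M`, `A` over `p`. -/
theorem levelsHyp1_of_base (hb : BaseHyp n e) (hnM : n ∣ M) (cv : SL(2, ℤ) → Option Kbar)
    (hcv : MainCusp12.CuspExports n e M cv) {p : ℕ} [Fact p.Prime] (hpM : ¬ p ∣ M)
    (hA : A.LiesOverPrime p) : LevelsHyp1 n e M A (tMem_of_dvd hb hnM) := by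
  intro x hx S hS hs
  have hexp : ModelIfaceOne15.ExplicitModelStep1 A M n e :=
    CLBarOne4.explicitModelStep1 hb hnM cv hcv hpM hA
  have hpkg := ModelIfaceOne15.packageStep1_of_explicit (tMem_of_dvd hb hnM) hexp
  obtain ⟨hg0, hg1⟩ := LevelsMainOne7.eventuallyGood_of_models A M
    (tF1 n e M (tMem_of_dvd hb hnM))
    (ModelIfaceOne15.modelsStep1_of_explicit (tMem_of_dvd hb hnM) hexp)
  refine LevelsHypOne7.hasLevels_of_coeffChartG S hS n e p hpkg (tMem_of_dvd hb hnM) hA hs ?_
  rcases hs with hs | hs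
  · rw [hs]; exact hg0
  · rw [hs]; exact hg1

/-- **`G4Close13.SPTorsExport`**, unconditional. -/
theorem spTorsExport : SPTorsExport :=
  spTorsExport_of_levels
    (fun M _ h _ _ hpM _ hA =>
      levelsHyp1_of_base baseHyp_four h _ (MainCusp12.cuspExports_four M h) hpM hA)
    (fun M _ h _ _ hpM _ hA =>
      levelsHyp1_of_base baseHyp_nine h _ (MainCusp12.cuspExports_nine M h) hpM hA)

end Fermat.Agent.ES.R48.G4LevelsClose7
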