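/-
Programme R (S48, Deligne–Serre), chapter GEOM, sub-chapter G4 "CONG₁" (helper15), Layer 2:
**(Rgen)₁** — twin of `ES/RED/GaussUnit25` §Concrete (helper25) for `X₁(M)`:
`principalGeneratedByIntegral1 : RedDefsG15.PrincipalGeneratedByIntegral1 A (residue A) M`, i.e. the
principal divisors of `F1bar M` are generated by the divisors of `A`-integral series with nonzero
reduction in `F1C k M`.

Inputs (hypotheses): `GaussBridgeOne15.ResFieldStep1 A M` = (R0a)₁ for all large number fields `K`
(the inclusion `resField (AK A K) (FK1 M K) ≤ F1C κ M` of (GB2)₁, deliverable of `ResFieldOne10` +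
G3), and
`HasPrincipalDivisors` for `F1bar M` (from `isGen_jF1`, G2).  `exists_integral_fraction1` is in
`F1CBase15`; `CoeffDescent1` is generic in `F₀` and used AS-IS.
-/
import Mathlib
import Fermat.Agent.ES.R48.GaussBridgeOne15
import Fermat.Agent.ES.R48.RedDefsG15

set_option autoImplicit false
set_option linter.style.haveILetI false
set_option linter.unusedSectionVars false

noncomputable section

open HahnSeries ModularCurve IntermediateField

namespace Fermat.Agent.ES.R48.GaussUnitOne15

open Fermat.Agent.RED.PUR.GaussGen8 Fermat.Agent.RED.PUR.KtGauss8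
open Fermat.Agent.RED.PUR.GaussBridge10 Fermat.Agent.RED.PUR
open Fermat.Agent.ES.RED.GaussUnit25
open Fermat.Agent.ES.R48.FF1Defs13 Fermat.Agent.ES.R48.F1CDefs15 Fermat.Agent.ES.R48.F1CBase15
open Fermat.Agent.ES.R48.RedDefsG15 Fermat.Agent.ES.R48.GaussBridgeOne15

section Concrete

open Fermat.Agent.RED.Interface4 Fermat.Agent.RED.DESC Fermat.Agent.RED.DESC.NumberFieldDVR27
open AlgebraicCurve

variable (A : ValuationSubring Qbar) (K : IntermediateField ℚ Qbar)

/-- An integral series over `A ∩ K` lying in `K·F1 M` with nonzero reduction gives an element of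
`RedDefsG15.integralPrincipalDivisorsG` for `(F1 M, F1C k M)`. -/
theorem mem_integralPrincipalDivisors1 [FiniteDimensional ℚ K] (ℓ : ℕ) [Fact ℓ.Prime]
    (hA : A.LiesOverPrime ℓ) (M : ℕ) (hres : ResFieldLe A K M)
    (a : LaurentSeries ↥(AK A K)) (haE : embK (AK A K) a ∈ F1C ↥K M)
    (hared : redL (AK A K) a ≠ 0)
    (hy : coeffMap A.subtype (coeffMap (incl A K) a) ∈
      laurentBaseChange Qbar (F1 M))
    (D : Divisor Qbar ↥(laurentBaseChange Qbar (F1 M)))
    (hD : ∀ P, D P = P.ord (⟨coeffMap A.subtype (coeffMap (incl A K) a), hy⟩ :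
      ↥(laurentBaseChange Qbar (F1 M)))) :
    D ∈ integralPrincipalDivisorsG A (IsLocalRing.residue ↥A) (F1 M) (F1C (IsLocalRing.ResidueField ↥A) M) := by
  refine ⟨coeffMap (incl A K) a, hy, ?_, ?_, hD⟩
  · rw [coeffMap_residue_incl]
    refine coeffMap_mem_F1C' (resMap A K) M ?_
    exact hres.toF1C ⟨embK (AK A K) a, embK_mem _ a, haE, gaussRed_embK _ a⟩
  · rw [coeffMap_residue_incl]
    intro h
    apply hared
    exact CoeffDescent1.coeffMap_injective_of_injective (resMap A K) (resMap_injective A K)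
      (h.trans (map_zero _).symm)

/-- **(Rgen)₁** Principal divisors of `F1bar M` are generated by the divisors of integral functions
with nonzero reduction in `F1C k M`: `RedDefsG15.PrincipalGeneratedByIntegral1`, for `A` over a
prime `ℓ`, given (R0a)₁ and the existence of principal divisors on `F1bar M`. -/
theorem principalGeneratedByIntegral1 (ℓ : ℕ) [Fact ℓ.Prime] (hA : A.LiesOverPrime ℓ)
    (M : ℕ) (hres : ResFieldStep1 A M)
    (hdiv : HasPrincipalDivisors Qbar ↥(laurentBaseChange Qbar (F1 M))) :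
    PrincipalGeneratedByIntegral1 A (IsLocalRing.residue ↥A) M := by
  intro D hD
  obtain ⟨f, hf0, hDf⟩ := hD
  haveI := isAlgebraic_Qbar
  obtain ⟨K₀, hfin₀, hresK⟩ := hres
  haveI := hfin₀
  obtain ⟨K, hK₀K, hfin, x', hx', hx'f⟩ :=
    CoeffDescent1.exists_finite_descent (L := Qbar) (F₀ := F1 M) K₀ f.2
  haveI := hfin
  haveI : IsDiscreteValuationRing ↥(AK A K) :=
    isDiscreteValuationRing_AK A K (Fact.out : ℓ.Prime).ne_zero hA
  obtain ⟨π, hπ⟩ := IsDiscreteValuationRing.exists_irreducible ↥(AK A K)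
  have hu := isUnif_of_irreducible (AK A K) hπ
  have hx'C : x' ∈ F1C ↥K M := by
    rw [← laurentBaseChange_F1_eq]; exact hx'
  have hx'0 : x' ≠ 0 := by
    rintro rfl
    rw [map_zero] at hx'f
    exact hf0 (Subtype.ext hx'f.symm)
  obtain ⟨c, a, b, hc0, haE, hbE, hared, hbred, hrel⟩ := exists_integral_fraction1 hu M hx'C hx'0
  -- the two integral functions over `Qbar`
  have hmemQ : ∀ z : LaurentSeries ↥(AK A K), embK (AK A K) z ∈ F1C ↥K M →
      coeffMap A.subtype (coeffMap (incl A K) z) ∈
        laurentBaseChange Qbar (F1 M) := by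
    intro z hz
    rw [coeffMap_subtype_incl]
    refine CoeffDescent1.coeffMap_mem_laurentBaseChange_of_algHom (algebraMap K Qbar)
      (F1 M) ?_
    rw [laurentBaseChange_F1_eq]; exact hz
  have hya := hmemQ a haE
  have hyb := hmemQ b hbE
  set ya : ↥(laurentBaseChange Qbar (F1 M)) :=
    ⟨coeffMap A.subtype (coeffMap (incl A K) a), hya⟩ with hyadef
  set yb : ↥(laurentBaseChange Qbar (F1 M)) :=
    ⟨coeffMap A.subtype (coeffMap (incl A K) b), hyb⟩ with hybdef
  have hne : ∀ z : LaurentSeries ↥(AK A K), redL (AK A K) z ≠ 0 →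
      coeffMap A.subtype (coeffMap (incl A K) z) ≠ 0 := by
    intro z hz h0
    apply hz
    rw [coeffMap_subtype_incl] at h0
    have h1 : embK (AK A K) z = 0 :=
      CoeffDescent1.coeffMap_injective_of_injective (algebraMap K Qbar)
        (algebraMap K Qbar).injective (h0.trans (map_zero _).symm)
    rw [(embK_eq_zero_iff (AK A K) z).mp h1, map_zero]
  have hya0 : ya ≠ 0 := fun h => hne a hared (congrArg Subtype.val h)
  have hyb0 : yb ≠ 0 := fun h => hne b hbred (congrArg Subtype.val h)
  -- the relation `f * yb = c * ya`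
  have hrelQ : f * yb = algebraMap Qbar _ (algebraMap K Qbar c) * ya := by
    apply Subtype.ext
    show (f : LaurentSeries Qbar) * coeffMap A.subtype (coeffMap (incl A K) b) =
      algebraMap Qbar (LaurentSeries Qbar) (algebraMap K Qbar c) *
        coeffMap A.subtype (coeffMap (incl A K) a)
    rw [coeffMap_subtype_incl, coeffMap_subtype_incl, ← hx'f, ← map_mul, hrel, map_mul,
      GaussGen8.coeffMap_C, algebraMap_eq_C (K := Qbar)]
  have hcQ : algebraMap K Qbar c ≠ 0 := by
    rw [Ne, map_eq_zero]; exact hc0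
  -- divisors
  obtain ⟨Da, hDa, -⟩ := hdiv.exists_divisor
    ya hya0
  obtain ⟨Db, hDb, -⟩ := hdiv.exists_divisor
    yb hyb0
  have hDeq : D = Da - Db := by
    ext P
    rw [Finsupp.sub_apply, hDf P, hDa P, hDb P]
    have h1 := congrArg P.ord hrelQ
    rw [P.ord_mul hf0 hyb0,
      P.ord_mul (by rw [Ne, map_eq_zero]; exact hcQ) hya0,
      Fermat.Agent.X0.FF.ord_algebraMap] at h1
    omega
  rw [hDeq]
  refine AddSubgroup.sub_mem _ (AddSubgroup.subset_closure ?_) (AddSubgroup.subset_closure ?_)
  · exact mem_integralPrincipalDivisors1 A K ℓ hA M (hresK K hfin hK₀K) a haE hared hya Da hDa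
  · exact mem_integralPrincipalDivisors1 A K ℓ hA M (hresK K hfin hK₀K) b hbE hbred hyb Db hDb

end Concrete

end Fermat.Agent.ES.R48.GaussUnitOne15
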