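/-
Programme R (S48, Deligne–Serre), half A, chapter A9 "IRRED" (helper28).

`irredExport : RankinHyp → ChebHyp → HalfAIface12.IrredExport`: a finite-level representation
`ρ : Gal(ℚ̄/ℚ) → GL₂(ℂ)` carrying the Frobenius data of a weight-one cusp form (with the formal
Hecke relations) is irreducible.  The two hypotheses are the LITERAL exports of chapter A2
(Rankin: `Σ_{p ∤ N} ‖a_p‖² p^{-s} ≤ log 1/(s-1) + O(1)`) and of chapter A4 (Chebotarev up to
inversion, in the `ℚ̄` vocabulary).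

Proof.  If `ρ` is not irreducible there is a common eigenvector `v`; on the finite group
`Γ = ρ.range` the eigenvalue is a character `χ₁`, and `tr g = χ₁ g + χ₂ g` with `χ₂ = det / χ₁`
(Cayley–Hamilton on `v`).  Orthogonality gives `Σ_g ‖tr g‖² ≥ 2 |Γ|`.  The level sets
`C_r = {g : ‖tr g‖² = r}` are stable under conjugation and inversion (`tr g⁻¹` is the complex
conjugate of `tr g`), so by A4 the primes with Frobenius in `C_r` have lower density `|C_r| / |Γ|`;
at such a prime `p ∤ N` one has `‖a_p‖² = r` by the Frobenius data.  Summing,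
`Σ_{p ∤ N} ‖a_p‖² p^{-s} ≥ 2 log 1/(s-1) - O(1)`, against A2.  No transitivity of the Galois
action on the places over `p` is needed.
-/
import Mathlib
import Fermat.Agent.ES.R48.DSIface27
import Fermat.Agent.ES.R48.HalfAIface12
import Fermat.Agent.ES.R48.DensDefs16

set_option autoImplicit false

open CongruenceSubgroup
open scoped MatrixGroups

namespace Fermat.Agent.ES.R48.Irred28

open Fermat.Agent.ES.R48.DSIface27 Fermat.Agent.ES.R48.DensDefs16

/-! ### no common eigenvector ⇒ irreducible -/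

/-- no common eigenvector ⇒ irreducible (dimension two). -/
theorem isIrreducible_of_no_eigenvector (ρ : GQ →* GL (Fin 2) ℂ)
    (h : ∀ v : Fin 2 → ℂ, v ≠ 0 →
      ¬ ∀ σ : GQ, ∃ c : ℂ, (ρ σ : Matrix (Fin 2) (Fin 2) ℂ).mulVec v = c • v) :
    (Deformation.matrixRepresentation ρ).IsIrreducible := by
  set R := Deformation.matrixRepresentation ρ with hR
  have hbt : (⊥ : Subrepresentation R) ≠ ⊤ := by
    intro hEq
    have h1 : (⊥ : Subrepresentation R).toSubmodule = (⊤ : Subrepresentation R).toSubmodule :=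
      congrArg Subrepresentation.toSubmodule hEq
    have h2 : (⊥ : Submodule ℂ (Fin 2 → ℂ)) = ⊤ := h1
    have h3 : (fun _ : Fin 2 => (1 : ℂ)) ∈ (⊥ : Submodule ℂ (Fin 2 → ℂ)) := by
      rw [h2]; exact Submodule.mem_top
    rw [Submodule.mem_bot] at h3
    have := congrFun h3 0
    simp at this
  refine { exists_pair_ne := ⟨⊥, ⊤, hbt⟩, eq_bot_or_eq_top := fun W => ?_ }
  -- finrank of `W`
  have hle : Module.finrank ℂ W.toSubmodule ≤ 2 := by
    have := Submodule.finrank_le W.toSubmodule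
    simpa using this
  rcases Nat.lt_or_ge (Module.finrank ℂ W.toSubmodule) 1 with h0 | h1
  · left
    have h0' : Module.finrank ℂ W.toSubmodule = 0 := by omega
    have hb : W.toSubmodule = ⊥ := Submodule.finrank_eq_zero.mp h0'
    exact Subrepresentation.toSubmodule_injective hb
  rcases Nat.lt_or_ge (Module.finrank ℂ W.toSubmodule) 2 with h2 | h2
  · exfalso
    have h1' : Module.finrank ℂ W.toSubmodule = 1 := by omega
    obtain ⟨⟨v, hvW⟩, hv0, hspan⟩ := finrank_eq_one_iff'.mp h1'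
    have hv0' : v ≠ 0 := fun hv => hv0 (Subtype.ext hv)
    refine h v hv0' fun σ => ?_
    have hmem : R σ v ∈ W.toSubmodule := W.apply_mem_toSubmodule σ hvW
    obtain ⟨c, hc⟩ := hspan ⟨R σ v, hmem⟩
    refine ⟨c, ?_⟩
    have hc' : c • v = R σ v := congrArg Subtype.val hc
    rw [hc', hR, Deformation.matrixRepresentation_apply]
    rfl
  · right
    have h2' : Module.finrank ℂ W.toSubmodule = Module.finrank ℂ (Fin 2 → ℂ) := by
      have : Module.finrank ℂ (Fin 2 → ℂ) = 2 := by simp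
      omega
    have ht : W.toSubmodule = ⊤ := Submodule.eq_top_of_finrank_eq h2'
    exact Subrepresentation.toSubmodule_injective ht

/-! ### finite level ⇒ finite range -/

theorem finite_range_of_finiteLevel {M : Type} [Group M] (ρ : GQ →* M)
    (h : GaloisFactorsThroughFiniteLevel ρ) : Finite ρ.range := by
  obtain ⟨L, hL, hρ⟩ := h
  have := hL
  let j : ρ.range → (L →ₐ[ℚ] AlgebraicClosure ℚ) := fun y =>
    ((Classical.choose (MonoidHom.mem_range.mp y.2) : GQ) :
      AlgebraicClosure ℚ →ₐ[ℚ] AlgebraicClosure ℚ).comp L.val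
  refine Finite.of_injective j fun y y' hyy' => ?_
  have hy := Classical.choose_spec (MonoidHom.mem_range.mp y.2)
  have hy' := Classical.choose_spec (MonoidHom.mem_range.mp y'.2)
  set σ := Classical.choose (MonoidHom.mem_range.mp y.2) with hσ
  set σ' := Classical.choose (MonoidHom.mem_range.mp y'.2) with hσ'
  have h1 : ρ (σ⁻¹ * σ') = 1 := by
    apply hρ
    intro x hx
    have h2 : σ x = σ' x := DFunLike.congr_fun hyy' ⟨x, hx⟩
    rw [AlgEquiv.mul_apply, ← h2]
    exact σ.symm_apply_apply x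
  rw [map_mul, map_inv, inv_mul_eq_one] at h1
  exact Subtype.ext (hy.symm.trans (h1.trans hy'))

theorem rangeRestrict_finiteLevel {M : Type} [Group M] (ρ : GQ →* M)
    (h : GaloisFactorsThroughFiniteLevel ρ) : GaloisFactorsThroughFiniteLevel ρ.rangeRestrict := by
  obtain ⟨L, hL, hρ⟩ := h
  exact ⟨L, hL, fun σ hσ => Subtype.ext (hρ σ hσ)⟩

/-! ### `2 × 2` matrices with an eigenvector -/

theorem mul_self_eq28 (A : Matrix (Fin 2) (Fin 2) ℂ) :
    A * A = A.trace • A - A.det • (1 : Matrix (Fin 2) (Fin 2) ℂ) := by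
  ext i j
  fin_cases i <;> fin_cases j <;>
    simp [Matrix.mul_apply, Fin.sum_univ_two, Matrix.trace_fin_two, Matrix.det_fin_two] <;> ring

/-- an eigenvalue of a `2 × 2` matrix is a root of the characteristic polynomial. -/
theorem eigen_quadratic {A : Matrix (Fin 2) (Fin 2) ℂ} {v : Fin 2 → ℂ} (hv : v ≠ 0) {c : ℂ}
    (h : A.mulVec v = c • v) : c * c - A.trace * c + A.det = 0 := by
  have h2 : (A * A).mulVec v = (c * c) • v := by
    rw [← Matrix.mulVec_mulVec, h, Matrix.mulVec_smul, h, smul_smul]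
  rw [mul_self_eq28, Matrix.sub_mulVec, Matrix.smul_mulVec, Matrix.smul_mulVec, h,
    Matrix.one_mulVec, smul_smul] at h2
  have h3 : (c * c - A.trace * c + A.det) • v = 0 := by
    rw [add_smul, sub_smul, ← h2]
    abel
  rcases smul_eq_zero.mp h3 with h4 | h4
  · exact h4
  · exact absurd h4 hv

theorem eigen_ne_zero {A : Matrix (Fin 2) (Fin 2) ℂ} (hA : A.det ≠ 0) {v : Fin 2 → ℂ}
    (hv : v ≠ 0) {c : ℂ} (h : A.mulVec v = c • v) : c ≠ 0 := by
  intro hc
  have := eigen_quadratic hv h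
  rw [hc] at this
  simp at this
  exact hA this

theorem trace_eq_of_eigen {A : Matrix (Fin 2) (Fin 2) ℂ} (hA : A.det ≠ 0) {v : Fin 2 → ℂ}
    (hv : v ≠ 0) {c : ℂ} (h : A.mulVec v = c • v) : A.trace = c + A.det * c⁻¹ := by
  have hc := eigen_ne_zero hA hv h
  have hq := eigen_quadratic hv h
  field_simp
  linear_combination (-1 : ℂ) * hq

/-! ### characters of a finite group -/

section Chars

variable {Γ : Type} [Group Γ] [Fintype Γ]

theorem norm_char_eq_one (χ : Γ →* ℂˣ) (g : Γ) : ‖(χ g : ℂ)‖ = 1 := by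
  have h1 : (χ g : ℂ) ^ Fintype.card Γ = 1 := by
    rw [← Units.val_pow_eq_pow_val, ← map_pow, pow_card_eq_one, map_one, Units.val_one]
  exact Complex.norm_eq_one_of_pow_eq_one h1 Fintype.card_ne_zero

theorem conj_eq_inv_of_norm_one {z : ℂ} (hz : ‖z‖ = 1) : (starRingEnd ℂ) z = z⁻¹ := by
  rw [Complex.inv_def, Complex.normSq_eq_norm_sq, hz]
  simp

/-- the sum of the values of a character of a finite group has nonnegative real part. -/
theorem re_sum_char_nonneg (ψ : Γ →* ℂˣ) : 0 ≤ (∑ g : Γ, (ψ g : ℂ)).re := by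
  let φ : Γ →* ℂ := (Units.coeHom ℂ).comp ψ
  have hφ : ∀ g, φ g = (ψ g : ℂ) := fun g => rfl
  by_cases h : φ = 1
  · have h1 : ∀ g : Γ, (ψ g : ℂ) = 1 := fun g => by rw [← hφ, h]; rfl
    simp only [h1, Finset.sum_const, Finset.card_univ, nsmul_eq_mul, mul_one]
    simp
  · have h0 : ∑ g : Γ, φ g = 0 := sum_hom_units_eq_zero φ h
    have h0' : ∑ g : Γ, (ψ g : ℂ) = 0 := h0
    rw [h0']
    simp

/-- **orthogonality**: for two characters of a finite group, `Σ ‖χ₁ + χ₂‖² ≥ 2 |Γ|`. -/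
theorem two_card_le_sum_norm_sq (χ₁ χ₂ : Γ →* ℂˣ) :
    2 * (Fintype.card Γ : ℝ) ≤ ∑ g : Γ, ‖(χ₁ g : ℂ) + (χ₂ g : ℂ)‖ ^ 2 := by
  have hterm : ∀ g : Γ, ‖(χ₁ g : ℂ) + (χ₂ g : ℂ)‖ ^ 2 = 2 + 2 * (((χ₁ / χ₂) g : ℂˣ) : ℂ).re := by
    intro g
    rw [Complex.sq_norm, Complex.normSq_add, Complex.normSq_eq_norm_sq, Complex.normSq_eq_norm_sq,
      norm_char_eq_one, norm_char_eq_one, conj_eq_inv_of_norm_one (norm_char_eq_one χ₂ g),
      MonoidHom.div_apply, Units.val_div_eq_div_val, div_eq_mul_inv]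
    ring
  simp only [hterm]
  rw [Finset.sum_add_distrib, ← Finset.mul_sum]
  have h1 : ∑ g : Γ, (((χ₁ / χ₂) g : ℂˣ) : ℂ).re = (∑ g : Γ, (((χ₁ / χ₂) g : ℂˣ) : ℂ)).re := by
    rw [Complex.re_sum]
  rw [h1]
  have h2 := re_sum_char_nonneg (χ₁ / χ₂)
  simp only [Finset.sum_const, Finset.card_univ, nsmul_eq_mul]
  linarith

end Chars

/-! ### the density argument -/

theorem card_fiber_eq {Γ : Type} [Fintype Γ] (v : Γ → ℝ) (r : ℝ) :
    Nat.card ↥({g : Γ | v g = r} : Set Γ) = (Finset.univ.filter (fun g => v g = r)).card := by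
  classical
  rw [Nat.card_coe_set_eq, Set.ncard_eq_toFinset_card', Set.toFinset_ofPred]

theorem summable_term_mul_ind (r : ℝ) (X : Set ℕ) {s : ℝ} (hs : 1 < s) :
    Summable (term (fun n => r * ind X n) s) := by
  have h : term (fun n => r * ind X n) s = fun n => r * term (ind X) s n :=
    funext (term_const_mul r (ind X) s)
  rw [h]
  exact (summable_term_ind X hs).mul_left r

/-- **the density contradiction**: class sets of lower density `|C_r| / |Γ|`, a weight `w` with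
`WUpperLe w 1` which equals `r` on the primes of `X r` (off a finite set), and
`Σ_g v g ≥ 2 |Γ|` are incompatible. -/
theorem density_contradiction {Γ : Type} [Fintype Γ] [Nonempty Γ] (v : Γ → ℝ)
    (hv : ∀ g, 0 ≤ v g) (hsum : 2 * (Fintype.card Γ : ℝ) ≤ ∑ g, v g)
    (X : ℝ → Set ℕ) (D : Set ℕ) (hD : D.Finite)
    (hlow : ∀ r, LowerGe (X r)
      ((Nat.card ↥({g : Γ | v g = r} : Set Γ) : ℝ) / (Nat.card Γ : ℝ)))
    (w : ℕ → ℝ) (hw : ∀ n, 0 ≤ w n) (hW : WUpperLe w 1)
    (hpt : ∀ p, p.Prime → p ∉ D → ∀ r, p ∈ X r → r = w p) : False := by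
  classical
  set R : Finset ℝ := Finset.univ.image v with hR
  have hRnn : ∀ r ∈ R, 0 ≤ r := by
    intro r hr
    obtain ⟨g, -, rfl⟩ := Finset.mem_image.mp hr
    exact hv g
  set dens : ℝ → ℝ := fun r =>
    (Nat.card ↥({g : Γ | v g = r} : Set Γ) : ℝ) / (Nat.card Γ : ℝ) with hdens
  -- remove the finite set `D`
  have hlow' : ∀ r, LowerGe (X r \ D) (dens r) := fun r =>
    (hlow r).of_subset_union_finite hD (fun p hp => by
      by_cases hpD : p ∈ D
      · exact Or.inr hpD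
      · exact Or.inl ⟨hp, hpD⟩)
  choose K hK using hlow'
  obtain ⟨hWs, C, hC⟩ := hW
  -- the comparison weight
  set u : ℕ → ℝ := fun n => ∑ r ∈ R, r * ind (X r \ D) n with hu
  have hupt : ∀ p, p.Prime → u p ≤ w p := by
    intro p hp
    by_cases hpD : p ∈ D
    · have : u p = 0 := by
        rw [hu]
        refine Finset.sum_eq_zero fun r _ => ?_
        rw [ind_of_notMem (fun h => h.2 hpD), mul_zero]
      rw [this]; exact hw p
    · have h1 : u p ≤ ∑ r ∈ R, (if r = w p then r else 0) := by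
        rw [hu]
        refine Finset.sum_le_sum fun r hr => ?_
        by_cases hpX : p ∈ X r \ D
        · rw [ind_of_mem hpX, mul_one, if_pos (hpt p hp hpD r hpX.1)]
        · rw [ind_of_notMem hpX, mul_zero]
          split_ifs
          · exact hRnn r hr
          · exact le_rfl
      refine h1.trans ?_
      rw [Finset.sum_ite_eq' R (w p) (fun r => r)]
      split_ifs
      · exact le_rfl
      · exact hw p
  -- the total mass
  have hmass : ∑ r ∈ R, r * dens r = (∑ g, v g) / (Fintype.card Γ : ℝ) := by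
    have h1 : ∑ g, v g = ∑ r ∈ R, ((Finset.univ.filter (fun g => v g = r)).card : ℝ) * r := by
      have := Finset.sum_comp (s := (Finset.univ : Finset Γ)) (f := fun r : ℝ => r) (g := v)
      rw [this]
      refine Finset.sum_congr rfl fun r _ => ?_
      rw [nsmul_eq_mul]
    rw [h1, Finset.sum_div]
    refine Finset.sum_congr rfl fun r _ => ?_
    rw [hdens]
    simp only
    rw [card_fiber_eq, Nat.card_eq_fintype_card]
    ring
  have hcard : (0 : ℝ) < Fintype.card Γ := by exact_mod_cast Fintype.card_pos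
  have hmass2 : 2 ≤ ∑ r ∈ R, r * dens r := by
    rw [hmass, le_div_iff₀ hcard]
    exact hsum
  -- the witness
  obtain ⟨s, hs, hB⟩ := exists_log_gt (C + ∑ r ∈ R, r * K r)
  have hs1 : 1 < s := hs.1
  set Ls := Real.log (1 / (s - 1)) with hLs
  have hL0 : 0 ≤ Ls := log_nonneg_of_mem hs
  have hsumm : ∀ r ∈ R, Summable (term (fun n => r * ind (X r \ D) n) s) :=
    fun r _ => summable_term_mul_ind r _ hs1
  have hWu : WPS u s = ∑ r ∈ R, r * PS (X r \ D) s := by
    rw [hu, WPS_finset_sum R (fun r n => r * ind (X r \ D) n) hsumm]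
    refine Finset.sum_congr rfl fun r _ => ?_
    rw [WPS_const_mul]
    rfl
  have hle1 : WPS u s ≤ WPS w s :=
    WPS_le_WPS hupt (summable_term_finset_sum R (fun r n => r * ind (X r \ D) n) hsumm) (hWs s hs)
  have hlow2 : ∑ r ∈ R, r * (dens r * Ls - K r) ≤ ∑ r ∈ R, r * PS (X r \ D) s :=
    Finset.sum_le_sum fun r hr => mul_le_mul_of_nonneg_left (hK r s hs) (hRnn r hr)
  have hexp : ∑ r ∈ R, r * (dens r * Ls - K r) = (∑ r ∈ R, r * dens r) * Ls - ∑ r ∈ R, r * K r := by
    rw [Finset.sum_mul, ← Finset.sum_sub_distrib]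
    refine Finset.sum_congr rfl fun r _ => ?_
    ring
  have h2L : 2 * Ls ≤ (∑ r ∈ R, r * dens r) * Ls := mul_le_mul_of_nonneg_right hmass2 hL0
  have hup := hC s hs
  rw [one_mul] at hup
  rw [← hWu] at hlow2
  linarith

/-! ### assembly -/

/-- the export of chapter A2 (Rankin), as a hypothesis. -/
def RankinHyp : Prop :=
  ∀ (N : ℕ) [NeZero N] (ε : DirichletCharacter ℂ N) (N' : ℕ) [NeZero N']
    (f' : CuspForm (Gamma1 N') 1),
    ModularFormClass.qCoeff f' 1 = 1 → HeckeRel N ε f' →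
    WUpperLe (fun p => if p ∣ N then 0 else ‖ModularFormClass.qCoeff f' p‖ ^ 2) 1

/-- the export of chapter A4 (Chebotarev up to inversion), as a hypothesis. -/
def ChebHyp : Prop :=
  ∀ (Γ : Type) [Group Γ] [Finite Γ] (ρ : GQ →* Γ), GaloisFactorsThroughFiniteLevel ρ →
    Function.Surjective ρ → ∀ C : Set Γ, (∀ g ∈ C, ∀ h : Γ, h * g * h⁻¹ ∈ C) →
    (∀ g ∈ C, g⁻¹ ∈ C) →
    LowerGe {p | p.Prime ∧ ∃ (A : ValuationSubring (AlgebraicClosure ℚ)) (σ : GQ),
        A.LiesOverPrime p ∧ A.IsFrobeniusAt σ p ∧ ρ σ ∈ C}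
      ((Nat.card C : ℝ) / (Nat.card Γ : ℝ))

theorem char_conj_eq {Γ : Type} [Group Γ] (χ : Γ →* ℂˣ) (g h : Γ) : χ (h * g * h⁻¹) = χ g := by
  rw [map_mul, map_mul, map_inv, mul_right_comm, mul_inv_cancel, one_mul]

/-- a finite-level representation with the Frobenius data of a weight-one form has no common
eigenvector. -/
theorem no_eigenvector (hR : RankinHyp) (hC : ChebHyp) (N : ℕ) [NeZero N]
    (ε' : DirichletCharacter ℂ N) (N' : ℕ) [NeZero N'] (f' : CuspForm (Gamma1 N') 1)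
    (h1 : ModularFormClass.qCoeff f' 1 = 1) (hT : HeckeRel N ε' f')
    (ρ : GQ →* GL (Fin 2) ℂ) (hfin : GaloisFactorsThroughFiniteLevel ρ)
    (hF : FrobData N ρ (fun p => ModularFormClass.qCoeff f' p) (fun p => ε' (p : ZMod N)))
    (v : Fin 2 → ℂ) (hv : v ≠ 0)
    (hev : ∀ σ : GQ, ∃ c : ℂ, (ρ σ : Matrix (Fin 2) (Fin 2) ℂ).mulVec v = c • v) : False := by
  classical
  have : Finite ρ.range := finite_range_of_finiteLevel ρ hfin
  let _ : Fintype ρ.range := Fintype.ofFinite _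
  -- the eigenvalue function on `Γ = ρ.range`
  have hex : ∀ g : ρ.range, ∃ c : ℂ,
      ((g : GL (Fin 2) ℂ) : Matrix (Fin 2) (Fin 2) ℂ).mulVec v = c • v := by
    rintro ⟨g, hg⟩
    obtain ⟨σ, rfl⟩ := MonoidHom.mem_range.mp hg
    exact hev σ
  choose c hc using hex
  have hdet : ∀ g : ρ.range, ((g : GL (Fin 2) ℂ) : Matrix (Fin 2) (Fin 2) ℂ).det ≠ 0 := fun g =>
    (Matrix.isUnits_det_units (g : GL (Fin 2) ℂ)).ne_zero
  have hc0 : ∀ g : ρ.range, c g ≠ 0 := fun g => eigen_ne_zero (hdet g) hv (hc g)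
  have hinj : Function.Injective (fun a : ℂ => a • v) := smul_left_injective ℂ hv
  have hc1 : c 1 = 1 := by
    apply hinj
    show c 1 • v = (1 : ℂ) • v
    rw [← hc 1, one_smul]
    simp
  have hcmul : ∀ g h : ρ.range, c (g * h) = c g * c h := by
    intro g h
    apply hinj
    show c (g * h) • v = (c g * c h) • v
    rw [← hc (g * h)]
    have : (((g * h : ρ.range) : GL (Fin 2) ℂ) : Matrix (Fin 2) (Fin 2) ℂ)
        = ((g : GL (Fin 2) ℂ) : Matrix (Fin 2) (Fin 2) ℂ) *
          ((h : GL (Fin 2) ℂ) : Matrix (Fin 2) (Fin 2) ℂ) := by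
      simp
    rw [this, ← Matrix.mulVec_mulVec, hc h, Matrix.mulVec_smul, hc g, smul_smul, mul_comm]
  let χ₁ : ρ.range →* ℂˣ :=
    { toFun := fun g => Units.mk0 (c g) (hc0 g)
      map_one' := Units.ext hc1
      map_mul' := fun g h => Units.ext (hcmul g h) }
  let δ : ρ.range →* ℂˣ := Matrix.GeneralLinearGroup.det.comp ρ.range.subtype
  let χ₂ : ρ.range →* ℂˣ := δ / χ₁
  have hδ : ∀ g : ρ.range, ((δ g : ℂˣ) : ℂ)
      = ((g : GL (Fin 2) ℂ) : Matrix (Fin 2) (Fin 2) ℂ).det := fun g => rfl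
  have htr : ∀ g : ρ.range, ((g : GL (Fin 2) ℂ) : Matrix (Fin 2) (Fin 2) ℂ).trace
      = (χ₁ g : ℂ) + (χ₂ g : ℂ) := by
    intro g
    rw [trace_eq_of_eigen (hdet g) hv (hc g)]
    show c g + _ = c g + ((δ g / χ₁ g : ℂˣ) : ℂ)
    rw [Units.val_div_eq_div_val, hδ, div_eq_mul_inv]
    rfl
  -- the class function
  set vv : ρ.range → ℝ := fun g =>
    ‖((g : GL (Fin 2) ℂ) : Matrix (Fin 2) (Fin 2) ℂ).trace‖ ^ 2 with hvv
  have hvv' : ∀ g, vv g = ‖(χ₁ g : ℂ) + (χ₂ g : ℂ)‖ ^ 2 := fun g => by rw [hvv]; simp only; rw [htr]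
  have hsum : 2 * (Fintype.card ρ.range : ℝ) ≤ ∑ g, vv g := by
    simp only [hvv']
    exact two_card_le_sum_norm_sq χ₁ χ₂
  have hconj : ∀ g h : ρ.range, vv (h * g * h⁻¹) = vv g := by
    intro g h
    rw [hvv', hvv', char_conj_eq, char_conj_eq]
  have hinv : ∀ g : ρ.range, vv g⁻¹ = vv g := by
    intro g
    rw [hvv', hvv', map_inv, map_inv, Units.val_inv_eq_inv_val, Units.val_inv_eq_inv_val,
      ← conj_eq_inv_of_norm_one (norm_char_eq_one χ₁ g),
      ← conj_eq_inv_of_norm_one (norm_char_eq_one χ₂ g), ← map_add, RCLike.norm_conj]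
  -- Chebotarev
  have hfin' := rangeRestrict_finiteLevel ρ hfin
  have hsurj : Function.Surjective ρ.rangeRestrict := ρ.rangeRestrict_surjective
  set X : ℝ → Set ℕ := fun r => {p | p.Prime ∧ ∃ (A : ValuationSubring (AlgebraicClosure ℚ))
      (σ : GQ), A.LiesOverPrime p ∧ A.IsFrobeniusAt σ p ∧
        ρ.rangeRestrict σ ∈ ({g : ρ.range | vv g = r} : Set ρ.range)} with hX
  have hlow : ∀ r, LowerGe (X r)
      ((Nat.card ↥({g : ρ.range | vv g = r} : Set ρ.range) : ℝ) / (Nat.card ρ.range : ℝ)) := by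
    intro r
    refine hC ρ.range ρ.rangeRestrict hfin' hsurj _ ?_ ?_
    · intro g hg h
      show vv (h * g * h⁻¹) = r
      rw [hconj]; exact hg
    · intro g hg
      show vv g⁻¹ = r
      rw [hinv]; exact hg
  -- the weight of the form
  have hD : ({p : ℕ | p ∣ N} : Set ℕ).Finite :=
    (Nat.divisors N).finite_toSet.subset fun p hp =>
      Finset.mem_coe.mpr (Nat.mem_divisors.mpr ⟨hp, NeZero.ne N⟩)
  refine density_contradiction vv (fun g => by positivity) hsum X {p : ℕ | p ∣ N} hD hlow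
    (fun p => if p ∣ N then 0 else ‖ModularFormClass.qCoeff f' p‖ ^ 2)
    (fun n => by split_ifs <;> positivity) (hR N ε' N' f' h1 hT) ?_
  intro p hp hpN r hpr
  have hpN' : ¬ p ∣ N := hpN
  obtain ⟨-, A, σ, hA, hσ, hmem⟩ := hpr
  have hmem' : vv (ρ.rangeRestrict σ) = r := hmem
  have htrace := ((hF p hp hpN' A hA).2 σ hσ).1
  rw [if_neg hpN', ← hmem', hvv]
  simp only
  rw [MonoidHom.coe_rangeRestrict, htrace]

/-- **A9.** -/
theorem irredExport (hR : RankinHyp) (hC : ChebHyp) : HalfAIface12.IrredExport := by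
  intro N _ ε' N' _ f' h1 hT ρ hfin hF
  exact isIrreducible_of_no_eigenvector ρ fun v hv hev =>
    no_eigenvector hR hC N ε' N' f' h1 hT ρ hfin hF v hv hev

end Fermat.Agent.ES.R48.Irred28
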