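/-
Programme R (S48, Deligne–Serre), half A, chapter A9 "IRRED", closing file (helper14).

`Irred28.irredExport` proves `HalfAIface12.IrredExport` from two hypotheses `RankinHyp`, `ChebHyp`
whose literal shapes are NOT the exports of the chapters A2 and A4:

* A4 delivers `ImageBound12.ChebExport`: the lower density `η` for EVERY `η < |C| / |Γ|` (the loss is
  inherent in the cyclotomic crossing), whereas `Irred28.ChebHyp` asks for the exact density;
* A2 delivers `DensExc16.RankinExport` (uniform bound for the finite prime sums), whereas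
  `Irred28.RankinHyp` is the `WUpperLe` form.

This file redoes the density argument with the `η`-form (`density_contradiction_eta`: apply the
hypothesis at `η_r = dens r - δ`, `δ = 1 / (2 (1 + Σ_r r))`, so that `Σ_r r η_r ≥ 3/2 > 1`) and
converts the Rankin export, reusing every other lemma of `Irred28` unchanged:

  `irredExport_of_exports : DensExc16.RankinExport → ImageBound12.ChebExport →
      HalfAIface12.IrredExport`

i.e. the fifth argument of `HalfAFinal12.halfA_of_open_exports` from its first two.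
-/
import Mathlib
import Fermat.Agent.ES.R48.DSIface27
import Fermat.Agent.ES.R48.HalfAIface12
import Fermat.Agent.ES.R48.DensDefs16
import Fermat.Agent.ES.R48.DensCalc16
import Fermat.Agent.ES.R48.DensExc16
import Fermat.Agent.ES.R48.ImageBound12
import Fermat.Agent.ES.R48.Irred28

set_option autoImplicit false

open CongruenceSubgroup
open scoped MatrixGroups

namespace Fermat.Agent.ES.R48.IrredEta14

open Fermat.Agent.ES.R48.DSIface27 Fermat.Agent.ES.R48.DensDefs16
open Fermat.Agent.ES.R48.Irred28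

/-! ### the density argument with the `η`-loss -/

/-- **the density contradiction, `η`-form**: class sets `X r` of lower density `η` for every
`η < |C_r| / |Γ|`, a weight `w` with `WUpperLe w 1` which equals `r` on the primes of `X r` (off a
finite set), and `Σ_g v g ≥ 2 |Γ|` are incompatible. -/
theorem density_contradiction_eta {Γ : Type} [Fintype Γ] [Nonempty Γ] (v : Γ → ℝ)
    (hv : ∀ g, 0 ≤ v g) (hsum : 2 * (Fintype.card Γ : ℝ) ≤ ∑ g, v g)
    (X : ℝ → Set ℕ) (D : Set ℕ) (hD : D.Finite)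
    (hlow : ∀ r, ∀ η : ℝ,
      η < (Nat.card ↥({g : Γ | v g = r} : Set Γ) : ℝ) / (Nat.card Γ : ℝ) → LowerGe (X r) η)
    (w : ℕ → ℝ) (hw : ∀ n, 0 ≤ w n) (hW : WUpperLe w 1)
    (hpt : ∀ p, p.Prime → p ∉ D → ∀ r, p ∈ X r → r = w p) : False := by
  classical
  set R : Finset ℝ := Finset.univ.image v with hR
  have hRnn : ∀ r ∈ R, 0 ≤ r := by
    intro r hr
    obtain ⟨g, -, rfl⟩ := Finset.mem_image.mp hr
    exact hv g
  set dens : ℝ → ℝ := fun r =>
    (Nat.card ↥({g : Γ | v g = r} : Set Γ) : ℝ) / (Nat.card Γ : ℝ) with hdens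
  -- the loss
  set T : ℝ := ∑ r ∈ R, r with hT
  have hT0 : 0 ≤ T := Finset.sum_nonneg hRnn
  set δ : ℝ := 1 / (2 * (1 + T)) with hδ
  have hδ0 : 0 < δ := by
    rw [hδ]
    apply one_div_pos.mpr
    linarith
  have hδT : δ * T ≤ 1 / 2 := by
    rw [hδ, div_mul_eq_mul_div, one_mul, div_le_div_iff₀ (by linarith) (by norm_num)]
    linarith
  -- remove the finite set `D`
  have hlow' : ∀ r, LowerGe (X r \ D) (dens r - δ) := fun r =>
    (hlow r (dens r - δ) (by linarith)).of_subset_union_finite hD (fun p hp => by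
      by_cases hpD : p ∈ D
      · exact Or.inr hpD
      · exact Or.inl ⟨hp, hpD⟩)
  choose K hK using hlow'
  obtain ⟨hWs, C, hC⟩ := hW
  -- the comparison weight
  set u : ℕ → ℝ := fun n => ∑ r ∈ R, r * ind (X r \ D) n with hu
  have hupt : ∀ p, p.Prime → u p ≤ w p := by
    intro p hp
    by_cases hpD : p ∈ D
    · have : u p = 0 := by
        rw [hu]
        refine Finset.sum_eq_zero fun r _ => ?_
        rw [ind_of_notMem (fun h => h.2 hpD), mul_zero]
      rw [this]; exact hw p
    · have h1 : u p ≤ ∑ r ∈ R, (if r = w p then r else 0) := by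
        rw [hu]
        refine Finset.sum_le_sum fun r hr => ?_
        by_cases hpX : p ∈ X r \ D
        · rw [ind_of_mem hpX, mul_one, if_pos (hpt p hp hpD r hpX.1)]
        · rw [ind_of_notMem hpX, mul_zero]
          split_ifs
          · exact hRnn r hr
          · exact le_rfl
      refine h1.trans ?_
      rw [Finset.sum_ite_eq' R (w p) (fun r => r)]
      split_ifs
      · exact le_rfl
      · exact hw p
  -- the total mass
  have hmass : ∑ r ∈ R, r * dens r = (∑ g, v g) / (Fintype.card Γ : ℝ) := by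
    have h1 : ∑ g, v g = ∑ r ∈ R, ((Finset.univ.filter (fun g => v g = r)).card : ℝ) * r := by
      have := Finset.sum_comp (s := (Finset.univ : Finset Γ)) (f := fun r : ℝ => r) (g := v)
      rw [this]
      refine Finset.sum_congr rfl fun r _ => ?_
      rw [nsmul_eq_mul]
    rw [h1, Finset.sum_div]
    refine Finset.sum_congr rfl fun r _ => ?_
    rw [hdens]
    simp only
    rw [card_fiber_eq, Nat.card_eq_fintype_card]
    ring
  have hcard : (0 : ℝ) < Fintype.card Γ := by exact_mod_cast Fintype.card_pos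
  have hmass2 : 2 ≤ ∑ r ∈ R, r * dens r := by
    rw [hmass, le_div_iff₀ hcard]
    exact hsum
  have hmass3 : 3 / 2 ≤ ∑ r ∈ R, r * (dens r - δ) := by
    have h1 : ∑ r ∈ R, r * (dens r - δ) = ∑ r ∈ R, r * dens r - δ * T := by
      rw [hT, Finset.mul_sum, ← Finset.sum_sub_distrib]
      refine Finset.sum_congr rfl fun r _ => ?_
      ring
    rw [h1]
    linarith
  -- the witness
  obtain ⟨s, hs, hB⟩ := exists_log_gt (2 * (C + ∑ r ∈ R, r * K r))
  have hs1 : 1 < s := hs.1
  set Ls := Real.log (1 / (s - 1)) with hLs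
  have hL0 : 0 ≤ Ls := log_nonneg_of_mem hs
  have hsumm : ∀ r ∈ R, Summable (term (fun n => r * ind (X r \ D) n) s) :=
    fun r _ => summable_term_mul_ind r _ hs1
  have hWu : WPS u s = ∑ r ∈ R, r * PS (X r \ D) s := by
    rw [hu, WPS_finset_sum R (fun r n => r * ind (X r \ D) n) hsumm]
    refine Finset.sum_congr rfl fun r _ => ?_
    rw [WPS_const_mul]
    rfl
  have hle1 : WPS u s ≤ WPS w s :=
    WPS_le_WPS hupt (summable_term_finset_sum R (fun r n => r * ind (X r \ D) n) hsumm) (hWs s hs)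
  have hlow2 : ∑ r ∈ R, r * ((dens r - δ) * Ls - K r) ≤ ∑ r ∈ R, r * PS (X r \ D) s :=
    Finset.sum_le_sum fun r hr => mul_le_mul_of_nonneg_left (hK r s hs) (hRnn r hr)
  have hexp : ∑ r ∈ R, r * ((dens r - δ) * Ls - K r)
      = (∑ r ∈ R, r * (dens r - δ)) * Ls - ∑ r ∈ R, r * K r := by
    rw [Finset.sum_mul, ← Finset.sum_sub_distrib]
    refine Finset.sum_congr rfl fun r _ => ?_
    ring
  have h2L : 3 / 2 * Ls ≤ (∑ r ∈ R, r * (dens r - δ)) * Ls :=
    mul_le_mul_of_nonneg_right hmass3 hL0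
  have hup := hC s hs
  rw [one_mul] at hup
  rw [← hWu] at hlow2
  linarith

/-! ### the Rankin export in the `WUpperLe` form -/

/-- A2's export (`DensExc16.RankinExport`, finite prime sums) gives the `WUpperLe` form used by
`Irred28`. -/
theorem rankinHyp_of_rankinExport (hR : DensExc16.RankinExport) : RankinHyp := by
  intro N _ ε N' _ f' h1 hT
  classical
  obtain ⟨C, hC⟩ := hR ε f' h1 hT
  refine DensCalc16.wUpperLe_of_finset_bound (fun n => by split_ifs <;> positivity)
    ⟨C, fun s hs1 hs2 P hP => ?_⟩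
  rw [one_mul]
  have h1' : ∑ p ∈ P, (if p ∣ N then 0 else ‖ModularFormClass.qCoeff f' p‖ ^ 2) * (p : ℝ) ^ (-s) =
      ∑ p ∈ P.filter (fun p => ¬ p ∣ N),
        ‖ModularFormClass.qCoeff f' p‖ ^ 2 * (p : ℝ) ^ (-s) := by
    rw [Finset.sum_filter]
    refine Finset.sum_congr rfl fun p _ => ?_
    by_cases hpN : p ∣ N
    · rw [if_pos hpN, zero_mul, if_neg (not_not.mpr hpN)]
    · rw [if_neg hpN, if_pos hpN]
  rw [h1']
  exact hC s hs1 hs2 _ fun p hp =>
    ⟨hP p (Finset.mem_filter.mp hp).1, (Finset.mem_filter.mp hp).2⟩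

/-! ### assembly -/

/-- a finite-level representation with the Frobenius data of a weight-one form has no common
eigenvector (`Irred28.no_eigenvector` with the literal A4 export). -/
theorem no_eigenvector_eta (hR : RankinHyp) (hC : ImageBound12.ChebExport) (N : ℕ) [NeZero N]
    (ε' : DirichletCharacter ℂ N) (N' : ℕ) [NeZero N'] (f' : CuspForm (Gamma1 N') 1)
    (h1 : ModularFormClass.qCoeff f' 1 = 1) (hT : HeckeRel N ε' f')
    (ρ : GQ →* GL (Fin 2) ℂ) (hfin : GaloisFactorsThroughFiniteLevel ρ)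
    (hF : FrobData N ρ (fun p => ModularFormClass.qCoeff f' p) (fun p => ε' (p : ZMod N)))
    (v : Fin 2 → ℂ) (hv : v ≠ 0)
    (hev : ∀ σ : GQ, ∃ c : ℂ, (ρ σ : Matrix (Fin 2) (Fin 2) ℂ).mulVec v = c • v) : False := by
  classical
  have : Finite ρ.range := finite_range_of_finiteLevel ρ hfin
  let _ : Fintype ρ.range := Fintype.ofFinite _
  -- the eigenvalue function on `Γ = ρ.range`
  have hex : ∀ g : ρ.range, ∃ c : ℂ,
      ((g : GL (Fin 2) ℂ) : Matrix (Fin 2) (Fin 2) ℂ).mulVec v = c • v := by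
    rintro ⟨g, hg⟩
    obtain ⟨σ, rfl⟩ := MonoidHom.mem_range.mp hg
    exact hev σ
  choose c hc using hex
  have hdet : ∀ g : ρ.range, ((g : GL (Fin 2) ℂ) : Matrix (Fin 2) (Fin 2) ℂ).det ≠ 0 := fun g =>
    (Matrix.isUnits_det_units (g : GL (Fin 2) ℂ)).ne_zero
  have hc0 : ∀ g : ρ.range, c g ≠ 0 := fun g => eigen_ne_zero (hdet g) hv (hc g)
  have hinj : Function.Injective (fun a : ℂ => a • v) := smul_left_injective ℂ hv
  have hc1 : c 1 = 1 := by
    apply hinj
    show c 1 • v = (1 : ℂ) • v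
    rw [← hc 1, one_smul]
    simp
  have hcmul : ∀ g h : ρ.range, c (g * h) = c g * c h := by
    intro g h
    apply hinj
    show c (g * h) • v = (c g * c h) • v
    rw [← hc (g * h)]
    have : (((g * h : ρ.range) : GL (Fin 2) ℂ) : Matrix (Fin 2) (Fin 2) ℂ)
        = ((g : GL (Fin 2) ℂ) : Matrix (Fin 2) (Fin 2) ℂ) *
          ((h : GL (Fin 2) ℂ) : Matrix (Fin 2) (Fin 2) ℂ) := by
      simp
    rw [this, ← Matrix.mulVec_mulVec, hc h, Matrix.mulVec_smul, hc g, smul_smul, mul_comm]
  let χ₁ : ρ.range →* ℂˣ :=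
    { toFun := fun g => Units.mk0 (c g) (hc0 g)
      map_one' := Units.ext hc1
      map_mul' := fun g h => Units.ext (hcmul g h) }
  let δ : ρ.range →* ℂˣ := Matrix.GeneralLinearGroup.det.comp ρ.range.subtype
  let χ₂ : ρ.range →* ℂˣ := δ / χ₁
  have hδ : ∀ g : ρ.range, ((δ g : ℂˣ) : ℂ)
      = ((g : GL (Fin 2) ℂ) : Matrix (Fin 2) (Fin 2) ℂ).det := fun g => rfl
  have htr : ∀ g : ρ.range, ((g : GL (Fin 2) ℂ) : Matrix (Fin 2) (Fin 2) ℂ).trace
      = (χ₁ g : ℂ) + (χ₂ g : ℂ) := by
    intro g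
    rw [trace_eq_of_eigen (hdet g) hv (hc g)]
    show c g + _ = c g + ((δ g / χ₁ g : ℂˣ) : ℂ)
    rw [Units.val_div_eq_div_val, hδ, div_eq_mul_inv]
    rfl
  -- the class function
  set vv : ρ.range → ℝ := fun g =>
    ‖((g : GL (Fin 2) ℂ) : Matrix (Fin 2) (Fin 2) ℂ).trace‖ ^ 2 with hvv
  have hvv' : ∀ g, vv g = ‖(χ₁ g : ℂ) + (χ₂ g : ℂ)‖ ^ 2 := fun g => by rw [hvv]; simp only; rw [htr]
  have hsum : 2 * (Fintype.card ρ.range : ℝ) ≤ ∑ g, vv g := by
    simp only [hvv']
    exact two_card_le_sum_norm_sq χ₁ χ₂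
  have hconj : ∀ g h : ρ.range, vv (h * g * h⁻¹) = vv g := by
    intro g h
    rw [hvv', hvv', char_conj_eq, char_conj_eq]
  have hinv : ∀ g : ρ.range, vv g⁻¹ = vv g := by
    intro g
    rw [hvv', hvv', map_inv, map_inv, Units.val_inv_eq_inv_val, Units.val_inv_eq_inv_val,
      ← conj_eq_inv_of_norm_one (norm_char_eq_one χ₁ g),
      ← conj_eq_inv_of_norm_one (norm_char_eq_one χ₂ g), ← map_add, RCLike.norm_conj]
  -- Chebotarev, with the loss
  have hfin' := rangeRestrict_finiteLevel ρ hfin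
  have hsurj : Function.Surjective ρ.rangeRestrict := ρ.rangeRestrict_surjective
  set X : ℝ → Set ℕ := fun r => {p | p.Prime ∧ ∃ (A : ValuationSubring (AlgebraicClosure ℚ))
      (σ : GQ), A.LiesOverPrime p ∧ A.IsFrobeniusAt σ p ∧
        ρ.rangeRestrict σ ∈ ({g : ρ.range | vv g = r} : Set ρ.range)} with hX
  have hlow : ∀ r, ∀ η : ℝ,
      η < (Nat.card ↥({g : ρ.range | vv g = r} : Set ρ.range) : ℝ) / (Nat.card ρ.range : ℝ) →
      LowerGe (X r) η := by
    intro r η hη
    refine hC ρ.range ρ.rangeRestrict hfin' hsurj _ ?_ ?_ η hη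
    · intro g hg h
      show vv (h * g * h⁻¹) = r
      rw [hconj]; exact hg
    · intro g hg
      show vv g⁻¹ = r
      rw [hinv]; exact hg
  -- the weight of the form
  have hD : ({p : ℕ | p ∣ N} : Set ℕ).Finite :=
    (Nat.divisors N).finite_toSet.subset fun p hp =>
      Finset.mem_coe.mpr (Nat.mem_divisors.mpr ⟨hp, NeZero.ne N⟩)
  refine density_contradiction_eta vv (fun g => by positivity) hsum X {p : ℕ | p ∣ N} hD hlow
    (fun p => if p ∣ N then 0 else ‖ModularFormClass.qCoeff f' p‖ ^ 2)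
    (fun n => by split_ifs <;> positivity) (hR N ε' N' f' h1 hT) ?_
  intro p hp hpN r hpr
  have hpN' : ¬ p ∣ N := hpN
  obtain ⟨-, A, σ, hA, hσ, hmem⟩ := hpr
  have hmem' : vv (ρ.rangeRestrict σ) = r := hmem
  have htrace := ((hF p hp hpN' A hA).2 σ hσ).1
  rw [if_neg hpN', ← hmem', hvv]
  simp only
  rw [MonoidHom.coe_rangeRestrict, htrace]

/-- **A9 from the literal exports of A2 and A4.** -/
theorem irredExport_of_exports (hR : DensExc16.RankinExport) (hC : ImageBound12.ChebExport) :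
    HalfAIface12.IrredExport := by
  intro N _ ε' N' _ f' h1 hT ρ hfin hF
  exact isIrreducible_of_no_eigenvector ρ fun v hv hev =>
    no_eigenvector_eta (rankinHyp_of_rankinExport hR) hC N ε' N' f' h1 hT ρ hfin hF v hv hev

end Fermat.Agent.ES.R48.IrredEta14
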