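/-
Programme R (S48, Deligne–Serre), chapter A6 LIFT (helper4), leaf (L1):
**lifting a homomorphism from a finite group across a square-zero two-sided ideal**, when the
order of the group is invertible (averaging the obstruction 2-cocycle).

`A` any ring, `J` a two-sided ideal with `J · J = 0`, `s : G → Aˣ` multiplicative modulo `J`.
Then there is a genuine homomorphism `t : G →* Aˣ` with `t g ≡ s g` modulo `J`.
-/
import Mathlib

set_option autoImplicit false
set_option linter.unusedSectionVars false

namespace Fermat.Agent.ES.R48.LiftSq4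

open Finset

section Abstract

variable {A : Type*} [Ring A] (J : Ideal A) [J.IsTwoSided]
  (hJ : ∀ x ∈ J, ∀ y ∈ J, x * y = 0)
  {G : Type*} [Group G] [Fintype G]
  (ninv : A) (hninv : (Fintype.card G : A) * ninv = 1)
  (s : G → Aˣ) (hs : ∀ g h : G, (s g : A) * s h - s (g * h) ∈ J)

/-- the obstruction cochain `a(g,h) = s(g) s(h) s(gh)⁻¹ − 1`. -/
def obs (g h : G) : A := (s g : A) * s h * ((s (g * h))⁻¹ : Aˣ) - 1

/-- the conjugation action of `s g`. -/
def act (g : G) (m : A) : A := (s g : A) * m * ((s g)⁻¹ : Aˣ)

include hs in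
theorem obs_mem (g h : G) : obs s g h ∈ J := by
  have h1 := J.mul_mem_right (((s (g * h))⁻¹ : Aˣ) : A) (hs g h)
  have h2 : ((s g : A) * s h - s (g * h)) * ((s (g * h))⁻¹ : Aˣ) = obs s g h := by
    unfold obs
    rw [sub_mul, Units.mul_inv]
  rwa [h2] at h1

theorem act_mem (g : G) {m : A} (hm : m ∈ J) : act s g m ∈ J :=
  J.mul_mem_right _ (J.mul_mem_left _ hm)

theorem mul_eq (g h : G) : (s g : A) * s h = (1 + obs s g h) * s (g * h) := by
  unfold obs
  rw [add_sub_cancel, mul_assoc, Units.inv_mul, mul_one]

theorem act_add (g : G) (m m' : A) : act s g (m + m') = act s g m + act s g m' := by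
  unfold act
  rw [mul_add, add_mul]

theorem act_sum (g : G) (f : G → A) : act s g (∑ k, f k) = ∑ k, act s g (f k) := by
  unfold act
  rw [Finset.mul_sum, Finset.sum_mul]

theorem mul_one_add (g : G) (m : A) : (s g : A) * (1 + m) = (1 + act s g m) * s g := by
  unfold act
  rw [add_mul, one_mul, mul_assoc, Units.inv_mul, mul_one, mul_add, mul_one]

include hJ hs in
/-- the 2-cocycle identity. -/
theorem cocycle (g h k : G) :
    obs s g h + obs s (g * h) k = act s g (obs s h k) + obs s g (h * k) := by
  have hL : ((s g : A) * s h) * s k =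
      ((1 + obs s g h) * (1 + obs s (g * h) k)) * s (g * (h * k)) := by
    rw [mul_eq s g h, mul_assoc, mul_eq s (g * h) k, ← mul_assoc, mul_assoc g h k]
  have hR : (s g : A) * ((s h : A) * s k) =
      ((1 + act s g (obs s h k)) * (1 + obs s g (h * k))) * s (g * (h * k)) := by
    rw [mul_eq s h k, ← mul_assoc, mul_one_add s g, mul_assoc, mul_eq s g (h * k), ← mul_assoc]
  have hassoc : ((1 + obs s g h) * (1 + obs s (g * h) k)) * (s (g * (h * k)) : A) =
      ((1 + act s g (obs s h k)) * (1 + obs s g (h * k))) * s (g * (h * k)) := by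
    rw [← hL, ← hR, mul_assoc]
  have hc : (1 + obs s g h) * (1 + obs s (g * h) k) =
      (1 + act s g (obs s h k)) * (1 + obs s g (h * k)) := by
    have := congrArg (fun x => x * (((s (g * (h * k)))⁻¹ : Aˣ) : A)) hassoc
    simpa only [mul_assoc, Units.mul_inv, mul_one] using this
  have e1 : obs s g h * obs s (g * h) k = 0 :=
    hJ _ (obs_mem J s hs g h) _ (obs_mem J s hs (g * h) k)
  have e2 : act s g (obs s h k) * obs s g (h * k) = 0 :=
    hJ _ (act_mem J s g (obs_mem J s hs h k)) _ (obs_mem J s hs g (h * k))
  have e3 : (1 + obs s g h) * (1 + obs s (g * h) k) =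
      1 + (obs s g h + obs s (g * h) k) := by
    rw [add_mul, one_mul, mul_add, mul_one, e1, add_zero]
    abel
  have e4 : (1 + act s g (obs s h k)) * (1 + obs s g (h * k)) =
      1 + (act s g (obs s h k) + obs s g (h * k)) := by
    rw [add_mul, one_mul, mul_add, mul_one, e2, add_zero]
    abel
  rw [e3, e4] at hc
  exact add_left_cancel hc

/-- the sum of the obstruction over the second variable. -/
def asum (g : G) : A := ∑ k, obs s g k

include hs in
theorem asum_mem (g : G) : asum s g ∈ J :=
  J.sum_mem fun k _ => obs_mem J s hs g k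

include hJ hs in
/-- the summed cocycle identity. -/
theorem card_mul_obs (g h : G) :
    (Fintype.card G : A) * obs s g h + asum s (g * h) = act s g (asum s h) + asum s g := by
  have h1 : ∑ k : G, (obs s g h + obs s (g * h) k) =
      ∑ k : G, (act s g (obs s h k) + obs s g (h * k)) :=
    Finset.sum_congr rfl fun k _ => cocycle J hJ s hs g h k
  rw [Finset.sum_add_distrib, Finset.sum_add_distrib, Finset.sum_const, Finset.card_univ,
    nsmul_eq_mul, ← act_sum] at h1
  have h2 : ∑ k : G, obs s g (h * k) = asum s g :=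
    Equiv.sum_comp (Equiv.mulLeft h) (fun k => obs s g k)
  rw [h2] at h1
  exact h1

include hninv in
theorem ninv_comm (x : A) : ninv * x = x * ninv := by
  have hc : (Fintype.card G : A) * x = x * (Fintype.card G : A) := (Nat.cast_commute _ x).eq
  have hn' : ninv * (Fintype.card G : A) = 1 := by
    rw [← (Nat.cast_commute (Fintype.card G) ninv).eq, hninv]
  calc ninv * x = ninv * x * ((Fintype.card G : A) * ninv) := by rw [hninv, mul_one]
    _ = ninv * (x * (Fintype.card G : A)) * ninv := by simp only [mul_assoc]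
    _ = ninv * ((Fintype.card G : A) * x) * ninv := by rw [hc]
    _ = (ninv * (Fintype.card G : A)) * x * ninv := by simp only [mul_assoc]
    _ = x * ninv := by rw [hn', one_mul]

/-- the correcting cochain. -/
def bco (g : G) : A := -(ninv * asum s g)

include hs in
theorem bco_mem (g : G) : bco ninv s g ∈ J :=
  J.neg_mem (J.mul_mem_left _ (asum_mem J s hs g))

include hJ hninv hs in
/-- `a = δ b`: the obstruction is a coboundary. -/
theorem obs_eq (g h : G) :
    obs s g h = bco ninv s (g * h) - bco ninv s g - act s g (bco ninv s h) := by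
  have h1 := card_mul_obs J hJ s hs g h
  have hn' : ninv * (Fintype.card G : A) = 1 := by
    rw [← (Nat.cast_commute (Fintype.card G) ninv).eq, hninv]
  have h2 : obs s g h = ninv * ((Fintype.card G : A) * obs s g h) := by
    rw [← mul_assoc, hn', one_mul]
  have h3 : (Fintype.card G : A) * obs s g h = act s g (asum s h) + asum s g - asum s (g * h) :=
    eq_sub_of_add_eq h1
  have h4 : ninv * act s g (asum s h) = act s g (ninv * asum s h) := by
    unfold act
    rw [← mul_assoc, ← mul_assoc, ninv_comm ninv hninv (s g : A), mul_assoc (s g : A) ninv]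
  rw [h2, h3, mul_sub, mul_add, h4]
  unfold bco act
  simp only [mul_neg, neg_mul, sub_neg_eq_add]
  abel

include hJ hs in
theorem bco_sq (g : G) : bco ninv s g * bco ninv s g = 0 :=
  hJ _ (bco_mem J ninv s hs g) _ (bco_mem J ninv s hs g)

/-- the corrected lift, as a unit. -/
def tlift (g : G) (hb : bco ninv s g * bco ninv s g = 0) : Aˣ where
  val := (1 + bco ninv s g) * s g
  inv := ((s g)⁻¹ : Aˣ) * (1 - bco ninv s g)
  val_inv := by
    have : (1 + bco ninv s g) * (1 - bco ninv s g) = 1 := by
      rw [add_mul, one_mul, mul_sub, mul_one, hb]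
      abel
    calc (1 + bco ninv s g) * ↑(s g) * (↑(s g)⁻¹ * (1 - bco ninv s g))
        = (1 + bco ninv s g) * ((s g : A) * ((s g)⁻¹ : Aˣ)) * (1 - bco ninv s g) := by
          simp only [mul_assoc]
      _ = 1 := by rw [Units.mul_inv, mul_one, this]
  inv_val := by
    have : (1 - bco ninv s g) * (1 + bco ninv s g) = 1 := by
      rw [sub_mul, one_mul, mul_add, mul_one, hb]
      abel
    calc ↑(s g)⁻¹ * (1 - bco ninv s g) * ((1 + bco ninv s g) * ↑(s g))
        = ((s g)⁻¹ : Aˣ) * ((1 - bco ninv s g) * (1 + bco ninv s g)) * (s g : A) := by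
          simp only [mul_assoc]
      _ = 1 := by rw [this, mul_one, Units.inv_mul]

include hJ hninv hs in
/-- **the lifting lemma** over a square-zero two-sided ideal. -/
theorem exists_lift_sq_zero : ∃ t : G →* Aˣ, ∀ g, (t g : A) - s g ∈ J := by
  have hb := bco_sq J hJ ninv s hs
  refine ⟨MonoidHom.mk' (fun g => tlift ninv s g (hb g)) ?_, ?_⟩
  · intro g h
    apply Units.ext
    show (1 + bco ninv s (g * h)) * (s (g * h) : A) =
      (1 + bco ninv s g) * s g * ((1 + bco ninv s h) * s h)
    have hbg := bco_mem J ninv s hs g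
    have hbh := act_mem J s g (bco_mem J ninv s hs h)
    have hob := obs_mem J s hs g h
    have e1 : bco ninv s g * act s g (bco ninv s h) = 0 := hJ _ hbg _ hbh
    have e2 : bco ninv s g * obs s g h = 0 := hJ _ hbg _ hob
    have e3 : act s g (bco ninv s h) * obs s g h = 0 := hJ _ hbh _ hob
    calc (1 + bco ninv s (g * h)) * (s (g * h) : A)
        = ((1 + bco ninv s g) * (1 + act s g (bco ninv s h)) * (1 + obs s g h)) * s (g * h) := by
          congr 1
          rw [obs_eq J hJ ninv hninv s hs g h]
          set x := bco ninv s g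
          set y := act s g (bco ninv s h)
          set z := bco ninv s (g * h)
          have e2' : x * (z - x - y) = 0 := by
            rw [← obs_eq J hJ ninv hninv s hs g h]; exact e2
          have e3' : y * (z - x - y) = 0 := by
            rw [← obs_eq J hJ ninv hninv s hs g h]; exact e3
          have : (1 + x) * (1 + y) * (1 + (z - x - y)) =
              1 + z + x * y + x * (z - x - y) + y * (z - x - y) + x * y * (z - x - y) := by
            noncomm_ring
          rw [this, e1, e2', e3', zero_mul]
          abel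
      _ = (1 + bco ninv s g) * ((1 + act s g (bco ninv s h)) * ((1 + obs s g h) * s (g * h))) := by
          simp only [mul_assoc]
      _ = (1 + bco ninv s g) * ((1 + act s g (bco ninv s h)) * ((s g : A) * s h)) := by
          rw [mul_eq s g h]
      _ = (1 + bco ninv s g) * (((1 + act s g (bco ninv s h)) * (s g : A)) * s h) := by
          simp only [mul_assoc]
      _ = (1 + bco ninv s g) * (((s g : A) * (1 + bco ninv s h)) * s h) := by
          rw [mul_one_add s g]
      _ = (1 + bco ninv s g) * s g * ((1 + bco ninv s h) * s h) := by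
          simp only [mul_assoc]
  · intro g
    show (1 + bco ninv s g) * (s g : A) - s g ∈ J
    have : (1 + bco ninv s g) * (s g : A) - s g = bco ninv s g * s g := by
      rw [add_mul, one_mul, add_sub_cancel_left]
    rw [this]
    exact J.mul_mem_right _ (bco_mem J ninv s hs g)

end Abstract

section Matrix

variable {R R₀ : Type*} [CommRing R] [CommRing R₀] (π : R →+* R₀)

/-- a matrix lifting a unit across a square-zero kernel is a unit. -/
theorem exists_unit_lift (hπ : Function.Surjective π)
    (hker : ∀ x y, π x = 0 → π y = 0 → x * y = 0) {d : ℕ} (M₀ : GL (Fin d) R₀) :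
    ∃ M : GL (Fin d) R, π.mapMatrix (M : Matrix (Fin d) (Fin d) R) = M₀ := by
  have hsurj : Function.Surjective (π.mapMatrix : Matrix (Fin d) (Fin d) R →+* _) := by
    intro N
    refine ⟨fun i j => (hπ (N i j)).choose, ?_⟩
    ext i j
    exact (hπ (N i j)).choose_spec
  obtain ⟨M, hM⟩ := hsurj (M₀ : Matrix (Fin d) (Fin d) R₀)
  obtain ⟨M', hM'⟩ := hsurj ((M₀⁻¹ : GL (Fin d) R₀) : Matrix (Fin d) (Fin d) R₀)
  set j := M * M' - 1 with hj
  have hj0 : π.mapMatrix j = 0 := by
    rw [hj, map_sub, map_mul, hM, hM', map_one, Units.mul_inv, sub_self]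
  have hjj : j * j = 0 := by
    ext a b
    rw [Matrix.mul_apply, Matrix.zero_apply]
    refine Finset.sum_eq_zero fun c _ => hker _ _ ?_ ?_
    · have := congrFun (congrFun hj0 a) c
      simpa using this
    · have := congrFun (congrFun hj0 c) b
      simpa using this
  have h1 : M * (M' * (1 - j)) = 1 := by
    rw [← mul_assoc, show M * M' = 1 + j by rw [hj]; abel, add_mul, one_mul, mul_sub, mul_one, hjj]
    abel
  have h2 : (M' * (1 - j)) * M = 1 := mul_eq_one_comm.mp h1
  exact ⟨⟨M, M' * (1 - j), h1, h2⟩, hM⟩

/-- **lifting a matrix representation of a finite group across a square-zero kernel**, when the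
order of the group is invertible. -/
theorem exists_lift_GL (hπ : Function.Surjective π)
    (hker : ∀ x y, π x = 0 → π y = 0 → x * y = 0)
    {G : Type*} [Group G] [Fintype G] (hn : IsUnit (Fintype.card G : R)) {d : ℕ}
    (ρ₀ : G →* GL (Fin d) R₀) :
    ∃ ρ : G →* GL (Fin d) R, ∀ g, Matrix.GeneralLinearGroup.map π (ρ g) = ρ₀ g := by
  classical
  set Pm : Matrix (Fin d) (Fin d) R →+* Matrix (Fin d) (Fin d) R₀ := π.mapMatrix with hPm
  have hJ : ∀ x ∈ RingHom.ker Pm, ∀ y ∈ RingHom.ker Pm, x * y = 0 := by
    intro x hx y hy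
    rw [RingHom.mem_ker] at hx hy
    ext a b
    rw [Matrix.mul_apply, Matrix.zero_apply]
    refine Finset.sum_eq_zero fun c _ => hker _ _ ?_ ?_
    · have := congrFun (congrFun hx a) c
      simpa [hPm] using this
    · have := congrFun (congrFun hy c) b
      simpa [hPm] using this
  choose s hs using fun g => exists_unit_lift π hπ hker (ρ₀ g)
  have hs' : ∀ g h : G, ((s g : GL (Fin d) R) : Matrix (Fin d) (Fin d) R) * (s h) -
      (s (g * h)) ∈ RingHom.ker Pm := by
    intro g h
    rw [RingHom.mem_ker, map_sub, map_mul, hs, hs, hs, map_mul, Units.val_mul, sub_self]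
  obtain ⟨u, hu⟩ := hn
  have hninv : (Fintype.card G : Matrix (Fin d) (Fin d) R) *
      algebraMap R (Matrix (Fin d) (Fin d) R) ((u⁻¹ : Rˣ) : R) = 1 := by
    rw [← map_natCast (algebraMap R (Matrix (Fin d) (Fin d) R)), ← map_mul, ← hu, Units.mul_inv,
      map_one]
  obtain ⟨t, ht⟩ := exists_lift_sq_zero (RingHom.ker Pm) hJ _ hninv s hs'
  refine ⟨t, fun g => ?_⟩
  apply Units.ext
  have h1 : Pm ((t g : GL (Fin d) R) : Matrix (Fin d) (Fin d) R) = Pm (s g) := by
    have := ht g
    rw [RingHom.mem_ker, map_sub, sub_eq_zero] at this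
    exact this
  rw [hs] at h1
  rw [← h1]
  ext a b
  rw [Matrix.GeneralLinearGroup.map_apply]
  rfl

end Matrix

end Fermat.Agent.ES.R48.LiftSq4
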