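/-
Programme R (S48, Deligne–Serre), chapter A6 LIFT (helper4), leaf (L2):
**a subgroup `G ≤ GL₂(𝔽_ℓ)` of order prime to `ℓ` lifts to `GL₂(ℤ_[ℓ])`.**

Successive lifts `G → GL₂(ZMod ℓ^k)` by `LiftSq4.exists_lift_GL` (square-zero kernels), assembled
into `ℤ_[ℓ]` through `PadicInt.lift` on the ring of compatible sequences.
-/
import Mathlib
import Fermat.Agent.ES.R48.LiftSq4

set_option autoImplicit false

namespace Fermat.Agent.ES.R48.LiftPadic4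

open Fermat.Agent.ES.R48.LiftSq4

variable (ℓ : ℕ)

/-- the transition maps `ZMod (ℓ^k₂) → ZMod (ℓ^k₁)`, `k₁ ≤ k₂`. -/
abbrev trans (k₁ k₂ : ℕ) (h : k₁ ≤ k₂) : ZMod (ℓ ^ k₂) →+* ZMod (ℓ ^ k₁) :=
  ZMod.castHom (pow_dvd_pow ℓ h) (ZMod (ℓ ^ k₁))

theorem trans_self (k : ℕ) (x : ZMod (ℓ ^ k)) : trans ℓ k k le_rfl x = x := by
  unfold trans
  rw [ZMod.castHom_self]
  rfl

theorem trans_trans (k₁ k₂ k₃ : ℕ) (h₁ : k₁ ≤ k₂) (h₂ : k₂ ≤ k₃) (x : ZMod (ℓ ^ k₃)) :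
    trans ℓ k₁ k₂ h₁ (trans ℓ k₂ k₃ h₂ x) = trans ℓ k₁ k₃ (h₁.trans h₂) x := by
  have := ZMod.castHom_comp (pow_dvd_pow ℓ h₁) (pow_dvd_pow ℓ h₂)
  exact RingHom.congr_fun this x

/-- the kernel of `ZMod (ℓ^(k+2)) → ZMod (ℓ^(k+1))` has square zero. -/
theorem trans_ker_sq [Fact ℓ.Prime] (k : ℕ) (x y : ZMod (ℓ ^ (k + 2)))
    (hx : trans ℓ (k + 1) (k + 2) (Nat.le_succ _) x = 0)
    (hy : trans ℓ (k + 1) (k + 2) (Nat.le_succ _) y = 0) : x * y = 0 := by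
  have : NeZero (ℓ ^ (k + 2)) := ⟨pow_ne_zero _ (Fact.out : ℓ.Prime).ne_zero⟩
  have key : ∀ z : ZMod (ℓ ^ (k + 2)), trans ℓ (k + 1) (k + 2) (Nat.le_succ _) z = 0 →
      ∃ m : ℕ, z = ((ℓ ^ (k + 1) * m : ℕ) : ZMod (ℓ ^ (k + 2))) := by
    intro z hz
    unfold trans at hz
    rw [ZMod.castHom_apply, ← ZMod.natCast_val, ZMod.natCast_eq_zero_iff] at hz
    obtain ⟨m, hm⟩ := hz
    exact ⟨m, by rw [← hm, ZMod.natCast_zmod_val]⟩
  obtain ⟨m, rfl⟩ := key x hx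
  obtain ⟨n, rfl⟩ := key y hy
  rw [← Nat.cast_mul, ZMod.natCast_eq_zero_iff]
  refine ⟨ℓ ^ k * m * n, ?_⟩
  ring


theorem trans_surjective (k₁ k₂ : ℕ) (h : k₁ ≤ k₂) : Function.Surjective (trans ℓ k₁ k₂ h) :=
  ZMod.castHom_surjective (pow_dvd_pow ℓ h)

/-! ### The ring of compatible sequences and its map to `ℤ_[ℓ]` -/

/-- the ring of compatible sequences in `∏ₖ ZMod (ℓ^k)`. -/
def Compat : Subring (∀ k : ℕ, ZMod (ℓ ^ k)) where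
  carrier := {x | ∀ (k₁ k₂ : ℕ) (h : k₁ ≤ k₂), trans ℓ k₁ k₂ h (x k₂) = x k₁}
  mul_mem' := by
    intro x y hx hy k₁ k₂ h
    rw [Pi.mul_apply, map_mul, hx k₁ k₂ h, hy k₁ k₂ h, Pi.mul_apply]
  one_mem' := by
    intro k₁ k₂ h
    rw [Pi.one_apply, map_one, Pi.one_apply]
  add_mem' := by
    intro x y hx hy k₁ k₂ h
    rw [Pi.add_apply, map_add, hx k₁ k₂ h, hy k₁ k₂ h, Pi.add_apply]
  zero_mem' := by
    intro k₁ k₂ h
    rw [Pi.zero_apply, map_zero, Pi.zero_apply]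
  neg_mem' := by
    intro x hx k₁ k₂ h
    rw [Pi.neg_apply, map_neg, hx k₁ k₂ h, Pi.neg_apply]

theorem mem_Compat (x : ∀ k : ℕ, ZMod (ℓ ^ k)) :
    x ∈ Compat ℓ ↔ ∀ (k₁ k₂ : ℕ) (h : k₁ ≤ k₂), trans ℓ k₁ k₂ h (x k₂) = x k₁ :=
  Iff.rfl

/-- compatibility need only be checked on consecutive levels. -/
theorem mem_Compat_of_succ (x : ∀ k : ℕ, ZMod (ℓ ^ k))
    (hx : ∀ k : ℕ, trans ℓ k (k + 1) (Nat.le_succ k) (x (k + 1)) = x k) : x ∈ Compat ℓ := by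
  rw [mem_Compat]
  intro k₁ k₂ h
  induction k₂, h using Nat.le_induction with
  | base => exact trans_self ℓ k₁ (x k₁)
  | succ k₂ h ih =>
    rw [← trans_trans ℓ k₁ k₂ (k₂ + 1) h (Nat.le_succ k₂), hx k₂, ih]

/-- the projections of the ring of compatible sequences. -/
def proj (k : ℕ) : Compat ℓ →+* ZMod (ℓ ^ k) :=
  (Pi.evalRingHom (fun k : ℕ => ZMod (ℓ ^ k)) k).comp (Compat ℓ).subtype

theorem proj_apply (k : ℕ) (x : Compat ℓ) : proj ℓ k x = x.1 k := rfl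

theorem proj_compat (k₁ k₂ : ℕ) (hk : k₁ ≤ k₂) :
    (ZMod.castHom (pow_dvd_pow ℓ hk) (ZMod (ℓ ^ k₁))).comp (proj ℓ k₂) = proj ℓ k₁ :=
  RingHom.ext fun x => x.2 k₁ k₂ hk

variable [Fact ℓ.Prime]

/-- the limit map from compatible sequences to `ℤ_[ℓ]`. -/
noncomputable def lim : Compat ℓ →+* ℤ_[ℓ] := PadicInt.lift (proj_compat ℓ)

theorem toZModPow_lim (n : ℕ) (x : Compat ℓ) : PadicInt.toZModPow n (lim ℓ x) = x.1 n :=
  RingHom.congr_fun (PadicInt.lift_spec (proj_compat ℓ) n) x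

/-! ### `toZMod` through `toZModPow 1` -/

theorem toZMod_eq (x : ℤ_[ℓ]) :
    PadicInt.toZMod x =
      ZMod.castHom (dvd_of_eq (pow_one ℓ).symm) (ZMod ℓ) (PadicInt.toZModPow 1 x) := by
  obtain ⟨n, -, hn⟩ := PadicInt.exists_mem_range (p := ℓ) (x := x)
  have h1 : PadicInt.toZMod x = (n : ZMod ℓ) := by
    rw [← PadicInt.ker_toZMod, RingHom.mem_ker, map_sub, map_natCast, sub_eq_zero] at hn
    exact hn
  have h2 : PadicInt.toZModPow 1 x = (n : ZMod (ℓ ^ 1)) := by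
    rw [PadicInt.maximalIdeal_eq_span_p, ← pow_one (ℓ : ℤ_[ℓ]), ← PadicInt.ker_toZModPow,
      RingHom.mem_ker, map_sub, map_natCast, sub_eq_zero] at hn
    exact hn
  rw [h1, h2, map_natCast]

/-! ### The tower of lifts -/

section Tower

variable {G : Type*} [Fintype G] (hG : ¬ ℓ ∣ Fintype.card G) {d : ℕ}

include hG in
theorem isUnit_card (k : ℕ) : IsUnit ((Fintype.card G : ℕ) : ZMod (ℓ ^ k)) := by
  rw [ZMod.isUnit_iff_coprime]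
  exact Nat.Coprime.pow_right _ ((Nat.Prime.coprime_iff_not_dvd Fact.out).mpr hG).symm

variable [Group G]

/-- one lifting step `ZMod (ℓ^(k+1)) ⇝ ZMod (ℓ^(k+2))`. -/
noncomputable def step (k : ℕ) (ρ : G →* GL (Fin d) (ZMod (ℓ ^ (k + 1)))) :
    G →* GL (Fin d) (ZMod (ℓ ^ (k + 2))) :=
  Classical.choose (exists_lift_GL (trans ℓ (k + 1) (k + 2) (Nat.le_succ _))
    (trans_surjective ℓ _ _ _) (trans_ker_sq ℓ k) (isUnit_card ℓ hG (k + 2)) ρ)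

theorem step_spec (k : ℕ) (ρ : G →* GL (Fin d) (ZMod (ℓ ^ (k + 1)))) (g : G) :
    Matrix.GeneralLinearGroup.map (trans ℓ (k + 1) (k + 2) (Nat.le_succ _)) (step ℓ hG k ρ g) =
      ρ g :=
  Classical.choose_spec (exists_lift_GL (trans ℓ (k + 1) (k + 2) (Nat.le_succ _))
    (trans_surjective ℓ _ _ _) (trans_ker_sq ℓ k) (isUnit_card ℓ hG (k + 2)) ρ) g

variable (ρ₀ : G →* GL (Fin d) (ZMod ℓ))

/-- the given representation, seen over `ZMod (ℓ^1)`. -/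
noncomputable def base : G →* GL (Fin d) (ZMod (ℓ ^ (0 + 1))) :=
  (Matrix.GeneralLinearGroup.map
    (ZMod.castHom (dvd_of_eq (pow_one ℓ)) (ZMod (ℓ ^ (0 + 1))))).comp ρ₀

/-- the tower of lifts, level `k + 1`. -/
noncomputable def levS : ∀ k : ℕ, G →* GL (Fin d) (ZMod (ℓ ^ (k + 1)))
  | 0 => base ℓ ρ₀
  | (k + 1) => step ℓ hG k (levS k)

theorem levS_succ (k : ℕ) : levS ℓ hG ρ₀ (k + 1) = step ℓ hG k (levS ℓ hG ρ₀ k) := rfl

/-- the tower of lifts, all levels. -/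
noncomputable def lev : ∀ k : ℕ, G →* GL (Fin d) (ZMod (ℓ ^ k))
  | 0 => 1
  | (k + 1) => levS ℓ hG ρ₀ k

theorem lev_succ (k : ℕ) : lev ℓ hG ρ₀ (k + 1) = levS ℓ hG ρ₀ k := rfl

theorem lev_compat (k : ℕ) (g : G) (i j : Fin d) :
    trans ℓ k (k + 1) (Nat.le_succ k)
      (((lev ℓ hG ρ₀ (k + 1) g : GL (Fin d) (ZMod (ℓ ^ (k + 1)))) :
        Matrix (Fin d) (Fin d) (ZMod (ℓ ^ (k + 1)))) i j) =
      ((lev ℓ hG ρ₀ k g : GL (Fin d) (ZMod (ℓ ^ k))) : Matrix (Fin d) (Fin d) (ZMod (ℓ ^ k))) i j := by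
  cases k with
  | zero =>
    have : Subsingleton (ZMod (ℓ ^ 0)) := by
      rw [pow_zero]
      infer_instance
    exact Subsingleton.elim _ _
  | succ k =>
    rw [lev_succ, lev_succ, levS_succ, ← step_spec ℓ hG k (levS ℓ hG ρ₀ k) g,
      Matrix.GeneralLinearGroup.map_apply]

/-- the compatible sequence of the `(i, j)` entries. -/
noncomputable def seq (g : G) (i j : Fin d) : ∀ k : ℕ, ZMod (ℓ ^ k) := fun k =>
  ((lev ℓ hG ρ₀ k g : GL (Fin d) (ZMod (ℓ ^ k))) : Matrix (Fin d) (Fin d) (ZMod (ℓ ^ k))) i j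

theorem seq_mem (g : G) (i j : Fin d) : seq ℓ hG ρ₀ g i j ∈ Compat ℓ :=
  mem_Compat_of_succ ℓ _ fun k => lev_compat ℓ hG ρ₀ k g i j

/-- the limit matrix. -/
noncomputable def Mx (g : G) : Matrix (Fin d) (Fin d) ℤ_[ℓ] :=
  Matrix.of fun i j => lim ℓ ⟨seq ℓ hG ρ₀ g i j, seq_mem ℓ hG ρ₀ g i j⟩

theorem toZModPow_Mx (n : ℕ) (g : G) (i j : Fin d) :
    PadicInt.toZModPow n (Mx ℓ hG ρ₀ g i j) =
      ((lev ℓ hG ρ₀ n g : GL (Fin d) (ZMod (ℓ ^ n))) : Matrix (Fin d) (Fin d) (ZMod (ℓ ^ n))) i j :=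
  toZModPow_lim ℓ n _

theorem Mx_one : Mx ℓ hG ρ₀ 1 = 1 := by
  ext i j
  rw [← PadicInt.ext_of_toZModPow]
  intro n
  rw [toZModPow_Mx, map_one, Units.val_one, Matrix.one_apply, Matrix.one_apply]
  split_ifs
  · rw [map_one]
  · rw [map_zero]

theorem Mx_mul (g h : G) : Mx ℓ hG ρ₀ (g * h) = Mx ℓ hG ρ₀ g * Mx ℓ hG ρ₀ h := by
  ext i j
  rw [← PadicInt.ext_of_toZModPow]
  intro n
  rw [toZModPow_Mx, map_mul, Units.val_mul, Matrix.mul_apply, Matrix.mul_apply, map_sum]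
  refine Finset.sum_congr rfl fun c _ => ?_
  rw [map_mul, toZModPow_Mx, toZModPow_Mx]

/-- the limit representation, as a monoid hom into matrices. -/
noncomputable def MxHom : G →* Matrix (Fin d) (Fin d) ℤ_[ℓ] where
  toFun := Mx ℓ hG ρ₀
  map_one' := Mx_one ℓ hG ρ₀
  map_mul' := Mx_mul ℓ hG ρ₀

/-- **Lifting to `ℤ_[ℓ]`**: a representation over `𝔽_ℓ` of a finite group of order prime to `ℓ`
lifts to `ℤ_[ℓ]`. -/
theorem exists_padic_lift_hom (hG : ¬ ℓ ∣ Fintype.card G) (ρ₀ : G →* GL (Fin d) (ZMod ℓ)) :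
    ∃ ρ : G →* GL (Fin d) ℤ_[ℓ],
      ∀ g, Matrix.GeneralLinearGroup.map PadicInt.toZMod (ρ g) = ρ₀ g := by
  refine ⟨(MxHom ℓ hG ρ₀).toHomUnits, fun g => ?_⟩
  apply Units.ext
  ext i j
  rw [Matrix.GeneralLinearGroup.map_apply]
  have h1 : (((MxHom ℓ hG ρ₀).toHomUnits g : GL (Fin d) ℤ_[ℓ]) :
      Matrix (Fin d) (Fin d) ℤ_[ℓ]) i j = Mx ℓ hG ρ₀ g i j := rfl
  rw [h1, toZMod_eq, toZModPow_Mx]
  have h2 : ((lev ℓ hG ρ₀ 1 g : GL (Fin d) (ZMod (ℓ ^ 1))) :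
      Matrix (Fin d) (Fin d) (ZMod (ℓ ^ 1))) i j =
      ZMod.castHom (dvd_of_eq (pow_one ℓ)) (ZMod (ℓ ^ 1))
        (((ρ₀ g : GL (Fin d) (ZMod ℓ)) : Matrix (Fin d) (Fin d) (ZMod ℓ)) i j) := rfl
  rw [h2]
  have h3 := ZMod.castHom_comp (dvd_of_eq (pow_one ℓ).symm) (dvd_of_eq (pow_one ℓ))
  have h4 := RingHom.congr_fun h3
    (((ρ₀ g : GL (Fin d) (ZMod ℓ)) : Matrix (Fin d) (Fin d) (ZMod ℓ)) i j)
  rw [RingHom.comp_apply] at h4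
  rw [h4, ZMod.castHom_self]
  rfl

end Tower

/-- **(L2)**: a subgroup of `GL₂(𝔽_ℓ)` of order prime to `ℓ` lifts to `GL₂(ℤ_[ℓ])`. -/
theorem exists_padic_lift (G : Subgroup (GL (Fin 2) (ZMod ℓ))) (h : ¬ ℓ ∣ Nat.card G) :
    ∃ r : G →* GL (Fin 2) ℤ_[ℓ],
      ∀ g : G, Matrix.GeneralLinearGroup.map PadicInt.toZMod (r g) = (g : GL (Fin 2) (ZMod ℓ)) := by
  classical
  have : Fintype G := Fintype.ofFinite G
  rw [Nat.card_eq_fintype_card] at h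
  exact exists_padic_lift_hom ℓ h G.subtype

end Fermat.Agent.ES.R48.LiftPadic4
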