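/-
Programme R (S48, Deligne–Serre), chapter A6 LIFT, brick `PadicCard10` (helper10).

`#ℚ_[p] = 𝔠`, hence `#(AlgebraicClosure ℚ_[p]) = 𝔠`, hence (Mathlib's classification of
algebraically closed fields) there is a ring isomorphism `AlgebraicClosure ℚ_[p] ≃+* ℂ`.
Mathlib only.
-/
import Mathlib

set_option autoImplicit false

open Cardinal

namespace Fermat.Agent.ES.R48.PadicCard10

variable (p : ℕ) [Fact p.Prime]

/-- A `p`-adic number is a class of Cauchy sequences of rationals: at most `𝔠` of them. -/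
theorem mk_padic_le : #ℚ_[p] ≤ 𝔠 := by
  have h1 : #ℚ_[p] ≤ #(CauSeq ℚ (padicNorm p)) := Cardinal.mk_quotient_le
  have h2 : #(CauSeq ℚ (padicNorm p)) ≤ #(ℕ → ℚ) := Cardinal.mk_subtype_le _
  have h3 : #(ℕ → ℚ) = 𝔠 := by
    rw [Cardinal.mk_arrow, Cardinal.mkRat, Cardinal.mk_nat, Cardinal.lift_aleph0,
      Cardinal.aleph0_power_aleph0]
  exact (h1.trans h2).trans h3.le

/-- `ℚ_[p]` has the cardinality of the continuum. -/
theorem mk_padic : #ℚ_[p] = 𝔠 :=
  le_antisymm (mk_padic_le p) (continuum_le_cardinal_of_nontriviallyNormedField ℚ_[p])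

/-- The algebraic closure of `ℚ_[p]` has the cardinality of the continuum. -/
theorem mk_algebraicClosure_padic : #(AlgebraicClosure ℚ_[p]) = 𝔠 := by
  apply le_antisymm
  · have h := Algebra.IsAlgebraic.cardinalMk_le_max ℚ_[p] (AlgebraicClosure ℚ_[p])
    rw [mk_padic p] at h
    exact h.trans (max_le le_rfl Cardinal.aleph0_le_continuum)
  · rw [← mk_padic p]
    exact Cardinal.mk_le_of_injective (algebraMap ℚ_[p] (AlgebraicClosure ℚ_[p])).injective

/-- **Export.** An (abstract, chosen once and for all by `Classical.choice` downstream) ring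
isomorphism between the algebraic closure of `ℚ_[p]` and `ℂ`. -/
theorem nonempty_ringEquiv_complex : Nonempty (AlgebraicClosure ℚ_[p] ≃+* ℂ) := by
  apply IsAlgClosed.ringEquiv_of_equiv_of_charZero
  · rw [mk_algebraicClosure_padic p]
    exact Cardinal.aleph0_lt_continuum
  · exact Cardinal.eq.1 ((mk_algebraicClosure_padic p).trans Cardinal.mk_complex.symm)

end Fermat.Agent.ES.R48.PadicCard10
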