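/-
Programme R (S48, Deligne–Serre), chapter A6 LIFT, brick `LiftMax10` (helper10).

For a prime `ℓ`: a ring homomorphism `θ : ℤ_[ℓ] →+* ℂ` (through a chosen isomorphism
`AlgebraicClosure ℚ_[ℓ] ≃+* ℂ`, `PadicCard10`) and a maximal ideal `𝔪` of `Z̄ = integralClosure ℤ ℂ`
over `ℓ` such that reduction mod `𝔪` on the integral values of `θ` is reduction mod `ℓ` on `ℤ_[ℓ]`.
-/
import Mathlib
import Fermat.Agent.ES.R48.PadicCard10

set_option autoImplicit false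

namespace Fermat.Agent.ES.R48.LiftMax10

open Fermat.Agent.ES.R48

variable (ℓ : ℕ) [Fact ℓ.Prime]

/-- the chosen isomorphism `AlgebraicClosure ℚ_[ℓ] ≃+* ℂ`. -/
noncomputable def jEquiv : AlgebraicClosure ℚ_[ℓ] ≃+* ℂ :=
  Classical.choice (PadicCard10.nonempty_ringEquiv_complex ℓ)

/-- the induced embedding of the `ℓ`-adic integers into `ℂ`. -/
noncomputable def theta : ℤ_[ℓ] →+* ℂ :=
  ((jEquiv ℓ : AlgebraicClosure ℚ_[ℓ] →+* ℂ)).comp (algebraMap ℤ_[ℓ] (AlgebraicClosure ℚ_[ℓ]))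

theorem theta_apply (x : ℤ_[ℓ]) :
    theta ℓ x = jEquiv ℓ (algebraMap ℤ_[ℓ] (AlgebraicClosure ℚ_[ℓ]) x) := rfl

theorem theta_injective : Function.Injective (theta ℓ) := by
  intro x y h
  have h1 : algebraMap ℤ_[ℓ] (AlgebraicClosure ℚ_[ℓ]) x
      = algebraMap ℤ_[ℓ] (AlgebraicClosure ℚ_[ℓ]) y := (jEquiv ℓ).injective h
  rw [IsScalarTower.algebraMap_apply ℤ_[ℓ] ℚ_[ℓ] (AlgebraicClosure ℚ_[ℓ]),
    IsScalarTower.algebraMap_apply ℤ_[ℓ] ℚ_[ℓ] (AlgebraicClosure ℚ_[ℓ])] at h1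
  have h2 := (algebraMap ℚ_[ℓ] (AlgebraicClosure ℚ_[ℓ])).injective h1
  exact Subtype.ext h2

/-- the image under `jEquiv⁻¹` of an algebraic integer of `ℂ` is integral over `ℤ_[ℓ]`. -/
theorem isIntegral_symm (z : integralClosure ℤ ℂ) :
    IsIntegral ℤ_[ℓ] ((jEquiv ℓ).symm (z : ℂ)) := by
  have h1 : IsIntegral ℤ ((jEquiv ℓ).symm (z : ℂ)) :=
    z.2.map ((jEquiv ℓ).symm : ℂ →+* AlgebraicClosure ℚ_[ℓ]).toIntAlgHom
  exact h1.tower_top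

/-- `Z̄ → ` the integral closure of `ℤ_[ℓ]` in `AlgebraicClosure ℚ_[ℓ]`. -/
noncomputable def psi :
    integralClosure ℤ ℂ →+* integralClosure ℤ_[ℓ] (AlgebraicClosure ℚ_[ℓ]) :=
  (((jEquiv ℓ).symm : ℂ →+* AlgebraicClosure ℚ_[ℓ]).comp
    ((integralClosure ℤ ℂ).val : integralClosure ℤ ℂ →+* ℂ)).codRestrict
      (integralClosure ℤ_[ℓ] (AlgebraicClosure ℚ_[ℓ])) (fun z => isIntegral_symm ℓ z)

theorem coe_psi (z : integralClosure ℤ ℂ) :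
    ((psi ℓ z : integralClosure ℤ_[ℓ] (AlgebraicClosure ℚ_[ℓ])) : AlgebraicClosure ℚ_[ℓ])
      = (jEquiv ℓ).symm (z : ℂ) := rfl

/-- `ψ` of an integral value of `θ` is the original `ℓ`-adic integer. -/
theorem psi_theta (x : ℤ_[ℓ]) (hx : IsIntegral ℤ (theta ℓ x)) :
    psi ℓ ⟨theta ℓ x, hx⟩
      = algebraMap ℤ_[ℓ] (integralClosure ℤ_[ℓ] (AlgebraicClosure ℚ_[ℓ])) x := by
  apply Subtype.ext
  rw [coe_psi]
  show (jEquiv ℓ).symm (theta ℓ x) = _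
  rw [theta_apply, RingEquiv.symm_apply_apply]
  rfl

/-- **Export.** -/
theorem exists_theta_maxIdeal :
    ∃ (θ : ℤ_[ℓ] →+* ℂ) (𝔪 : Ideal (integralClosure ℤ ℂ)), Function.Injective θ ∧
      𝔪.IsMaximal ∧ ((ℓ : ℕ) : integralClosure ℤ ℂ) ∈ 𝔪 ∧
      ∀ (x : ℤ_[ℓ]) (n : ℕ) (hx : IsIntegral ℤ (θ x)), PadicInt.toZMod x = (n : ZMod ℓ) →
        (⟨θ x, hx⟩ : integralClosure ℤ ℂ) - ((n : ℕ) : integralClosure ℤ ℂ) ∈ 𝔪 := by
  -- a maximal ideal of the integral closure of `ℤ_[ℓ]` over the maximal ideal of `ℤ_[ℓ]`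
  have hker : RingHom.ker (algebraMap ℤ_[ℓ] (integralClosure ℤ_[ℓ] (AlgebraicClosure ℚ_[ℓ])))
      ≤ IsLocalRing.maximalIdeal ℤ_[ℓ] := by
    intro x hx
    rw [RingHom.mem_ker] at hx
    have h1 : algebraMap ℤ_[ℓ] (AlgebraicClosure ℚ_[ℓ]) x = 0 := by
      have := congrArg (fun y : integralClosure ℤ_[ℓ] (AlgebraicClosure ℚ_[ℓ]) =>
        (y : AlgebraicClosure ℚ_[ℓ])) hx
      simpa using this
    have h2 : x = 0 := by
      rw [IsScalarTower.algebraMap_apply ℤ_[ℓ] ℚ_[ℓ] (AlgebraicClosure ℚ_[ℓ])] at h1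
      have h3 := (map_eq_zero_iff _ (algebraMap ℚ_[ℓ] (AlgebraicClosure ℚ_[ℓ])).injective).1 h1
      exact Subtype.ext h3
    rw [h2]
    exact Ideal.zero_mem _
  obtain ⟨𝔐, h𝔐max, h𝔐over⟩ := Ideal.exists_ideal_over_maximal_of_isIntegral
    (S := integralClosure ℤ_[ℓ] (AlgebraicClosure ℚ_[ℓ])) (IsLocalRing.maximalIdeal ℤ_[ℓ]) hker
  have hmem : ∀ y : ℤ_[ℓ], y ∈ IsLocalRing.maximalIdeal ℤ_[ℓ] →
      algebraMap ℤ_[ℓ] (integralClosure ℤ_[ℓ] (AlgebraicClosure ℚ_[ℓ])) y ∈ 𝔐 := by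
    intro y hy
    rw [← h𝔐over] at hy
    exact hy
  have hℓ𝔐 : ((ℓ : ℕ) : integralClosure ℤ_[ℓ] (AlgebraicClosure ℚ_[ℓ])) ∈ 𝔐 := by
    have h1 : ((ℓ : ℕ) : ℤ_[ℓ]) ∈ IsLocalRing.maximalIdeal ℤ_[ℓ] := by
      rw [PadicInt.maximalIdeal_eq_span_p]
      exact Ideal.mem_span_singleton_self _
    have h2 := hmem _ h1
    rwa [map_natCast] at h2
  refine ⟨theta ℓ, Ideal.comap (psi ℓ) 𝔐, theta_injective ℓ, ?_, ?_, ?_⟩
  · -- maximality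
    have : 𝔐.IsPrime := h𝔐max.isPrime
    have hprime : (Ideal.comap (psi ℓ) 𝔐).IsPrime := Ideal.comap_isPrime (psi ℓ) 𝔐
    apply Ideal.isMaximal_of_isIntegral_of_isMaximal_comap (R := ℤ)
    have hP : ((Ideal.comap (psi ℓ) 𝔐).comap (algebraMap ℤ (integralClosure ℤ ℂ))).IsPrime :=
      Ideal.comap_isPrime _ _
    apply hP.isMaximal
    intro hbot
    have h1 : ((ℓ : ℕ) : ℤ) ∈ (Ideal.comap (psi ℓ) 𝔐).comap (algebraMap ℤ (integralClosure ℤ ℂ)) := by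
      rw [Ideal.mem_comap, Ideal.mem_comap, map_natCast, map_natCast]
      exact hℓ𝔐
    rw [hbot, Ideal.mem_bot] at h1
    exact (Fact.out : ℓ.Prime).ne_zero (by exact_mod_cast h1)
  · rw [Ideal.mem_comap, map_natCast]
    exact hℓ𝔐
  · intro x n hx hxn
    rw [Ideal.mem_comap, map_sub, map_natCast, psi_theta]
    have h1 : x - (n : ℤ_[ℓ]) ∈ IsLocalRing.maximalIdeal ℤ_[ℓ] := by
      rw [← PadicInt.ker_toZMod, RingHom.mem_ker, map_sub, map_natCast, hxn, sub_self]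
    have h2 := hmem _ h1
    rwa [map_sub, map_natCast] at h2

end Fermat.Agent.ES.R48.LiftMax10
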