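/-
Programme R (S48, Deligne–Serre), chapter A6 LIFT, brick `LiftTransport10` (helper10).

TRANSPORT half of A6.  For a prime `ℓ` there are an injective ring homomorphism
`θ : ℤ_[ℓ] →+* ℂ` and a maximal ideal `𝔪 ∋ ℓ` of `Z̄ = integralClosure ℤ ℂ` such that for every
element `A` of finite order of `GL₂(ℤ_[ℓ])` the trace and determinant of `θ(A) ∈ GL₂(ℂ)` are
algebraic integers congruent mod `𝔪` to the (natural-number representatives of the) trace and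
determinant of `A mod ℓ ∈ GL₂(𝔽_ℓ)`.  Consequently (`export_of_lift`) the A6 export follows
from the pure lifting statement `LiftStatement` (`ℓ ∤ |G| ⇒ G ≤ GL₂(𝔽_ℓ)` lifts to `GL₂(ℤ_[ℓ])`).
-/
import Mathlib
import Fermat.Agent.ES.R48.FinOrdInt10
import Fermat.Agent.ES.R48.LiftMax10

set_option autoImplicit false

open scoped MatrixGroups

namespace Fermat.Agent.ES.R48.LiftTransport10

open Fermat.Agent.ES.R48 Matrix

/-- `Z̄`, the ring of all algebraic integers in `ℂ`. -/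
abbrev Zbar : Subalgebra ℤ ℂ := integralClosure ℤ ℂ

theorem coe_map_GL {R S : Type*} [CommRing R] [CommRing S] (f : R →+* S) (A : GL (Fin 2) R) :
    ((Matrix.GeneralLinearGroup.map f A : GL (Fin 2) S) : Matrix (Fin 2) (Fin 2) S)
      = f.mapMatrix (A : Matrix (Fin 2) (Fin 2) R) := rfl

theorem trace_map_GL {R S : Type*} [CommRing R] [CommRing S] (f : R →+* S) (A : GL (Fin 2) R) :
    ((Matrix.GeneralLinearGroup.map f A : GL (Fin 2) S) : Matrix (Fin 2) (Fin 2) S).trace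
      = f (A : Matrix (Fin 2) (Fin 2) R).trace := by
  rw [coe_map_GL]
  exact (AddMonoidHom.map_trace f.toAddMonoidHom _).symm

theorem det_map_GL {R S : Type*} [CommRing R] [CommRing S] (f : R →+* S) (A : GL (Fin 2) R) :
    ((Matrix.GeneralLinearGroup.map f A : GL (Fin 2) S) : Matrix (Fin 2) (Fin 2) S).det
      = f (A : Matrix (Fin 2) (Fin 2) R).det := by
  rw [coe_map_GL]
  exact (RingHom.map_det f _).symm

/-- **Elementwise transport.** -/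
theorem exists_theta_maxIdeal_GL (ℓ : ℕ) [Fact ℓ.Prime] :
    ∃ (θ : ℤ_[ℓ] →+* ℂ) (𝔪 : Ideal Zbar), Function.Injective θ ∧ 𝔪.IsMaximal ∧
      ((ℓ : ℕ) : Zbar) ∈ 𝔪 ∧
      ∀ (A : GL (Fin 2) ℤ_[ℓ]) (m : ℕ), 0 < m → A ^ m = 1 →
        ∃ t d : Zbar,
          (t : ℂ) = ((Matrix.GeneralLinearGroup.map θ A : GL (Fin 2) ℂ) :
            Matrix (Fin 2) (Fin 2) ℂ).trace ∧
          (d : ℂ) = ((Matrix.GeneralLinearGroup.map θ A : GL (Fin 2) ℂ) :
            Matrix (Fin 2) (Fin 2) ℂ).det ∧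
          t - (((((Matrix.GeneralLinearGroup.map (PadicInt.toZMod (p := ℓ)) A :
            GL (Fin 2) (ZMod ℓ)) : Matrix (Fin 2) (Fin 2) (ZMod ℓ)).trace).val : ℕ) : Zbar) ∈ 𝔪 ∧
          d - (((((Matrix.GeneralLinearGroup.map (PadicInt.toZMod (p := ℓ)) A :
            GL (Fin 2) (ZMod ℓ)) : Matrix (Fin 2) (Fin 2) (ZMod ℓ)).det).val : ℕ) : Zbar) ∈ 𝔪 := by
  obtain ⟨θ, 𝔪, hθ, hmax, hℓ, htr⟩ := LiftMax10.exists_theta_maxIdeal ℓ
  refine ⟨θ, 𝔪, hθ, hmax, hℓ, ?_⟩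
  intro A m hm hA
  have hA' : (Matrix.GeneralLinearGroup.map θ A : GL (Fin 2) ℂ) ^ m = 1 := by
    rw [← map_pow, hA, map_one]
  obtain ⟨hint_t, hint_d⟩ := FinOrdInt10.isIntegral_trace_det_of_GL_pow_eq_one _ hm hA'
  rw [trace_map_GL] at hint_t
  rw [det_map_GL] at hint_d
  refine ⟨⟨θ (A : Matrix (Fin 2) (Fin 2) ℤ_[ℓ]).trace, hint_t⟩,
    ⟨θ (A : Matrix (Fin 2) (Fin 2) ℤ_[ℓ]).det, hint_d⟩, ?_, ?_, ?_, ?_⟩
  · rw [trace_map_GL]
  · rw [det_map_GL]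
  · apply htr
    rw [trace_map_GL, ZMod.natCast_zmod_val]
  · apply htr
    rw [det_map_GL, ZMod.natCast_zmod_val]

/-- The pure lifting statement (LIFTING half of A6): a subgroup of `GL₂(𝔽_ℓ)` of order prime to
`ℓ` lifts to `GL₂(ℤ_[ℓ])`. -/
def LiftStatement : Prop :=
  ∀ (ℓ : ℕ) [Fact ℓ.Prime] (G : Subgroup (GL (Fin 2) (ZMod ℓ))), ¬ ℓ ∣ Nat.card G →
    ∃ r₀ : G →* GL (Fin 2) ℤ_[ℓ],
      ∀ g : G, Matrix.GeneralLinearGroup.map (PadicInt.toZMod (p := ℓ)) (r₀ g)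
        = (g : GL (Fin 2) (ZMod ℓ))

/-- **A6 export from the lifting statement.**  For every prime `ℓ` there is a maximal ideal
`𝔪 ∋ ℓ` of `Z̄` such that every subgroup `G ≤ GL₂(𝔽_ℓ)` of order prime to `ℓ` has a faithful
complex representation `r : G →* GL₂(ℂ)` whose traces and determinants are algebraic integers
reducing mod `𝔪` to the traces and determinants of the elements of `G`. -/
theorem export_of_lift (hlift : LiftStatement) (ℓ : ℕ) [Fact ℓ.Prime] :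
    ∃ 𝔪 : Ideal Zbar, 𝔪.IsMaximal ∧ ((ℓ : ℕ) : Zbar) ∈ 𝔪 ∧
      ∀ G : Subgroup (GL (Fin 2) (ZMod ℓ)), ¬ ℓ ∣ Nat.card G →
        ∃ r : G →* GL (Fin 2) ℂ, Function.Injective r ∧
          ∀ g : G, ∃ t d : Zbar,
            (t : ℂ) = ((r g : GL (Fin 2) ℂ) : Matrix (Fin 2) (Fin 2) ℂ).trace ∧
            (d : ℂ) = ((r g : GL (Fin 2) ℂ) : Matrix (Fin 2) (Fin 2) ℂ).det ∧
            t - (((((g : GL (Fin 2) (ZMod ℓ)) : Matrix (Fin 2) (Fin 2) (ZMod ℓ)).trace).val : ℕ) :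
              Zbar) ∈ 𝔪 ∧
            d - (((((g : GL (Fin 2) (ZMod ℓ)) : Matrix (Fin 2) (Fin 2) (ZMod ℓ)).det).val : ℕ) :
              Zbar) ∈ 𝔪 := by
  obtain ⟨θ, 𝔪, hθ, hmax, hℓ, hGL⟩ := exists_theta_maxIdeal_GL ℓ
  refine ⟨𝔪, hmax, hℓ, ?_⟩
  intro G hG
  obtain ⟨r₀, hr₀⟩ := hlift ℓ G hG
  have hr₀inj : Function.Injective r₀ := by
    intro g h hgh
    apply Subtype.ext
    rw [← hr₀ g, ← hr₀ h, hgh]
  have hθinj : Function.Injective (Matrix.GeneralLinearGroup.map (n := Fin 2) θ) := by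
    intro A B hAB
    apply Matrix.GeneralLinearGroup.ext
    intro i j
    have h := congrArg (fun u : GL (Fin 2) ℂ => (u : Matrix (Fin 2) (Fin 2) ℂ) i j) hAB
    exact hθ (by simpa [Matrix.GeneralLinearGroup.map_apply] using h)
  refine ⟨(Matrix.GeneralLinearGroup.map θ).comp r₀, hθinj.comp hr₀inj, ?_⟩
  intro g
  have hcard : 0 < Nat.card G := Nat.card_pos
  have hpow : (r₀ g) ^ Nat.card G = 1 := by
    rw [← map_pow, pow_card_eq_one', map_one]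
  obtain ⟨t, d, ht, hd, htm, hdm⟩ := hGL (r₀ g) (Nat.card G) hcard hpow
  rw [hr₀ g] at htm hdm
  exact ⟨t, d, ht, hd, htm, hdm⟩

end Fermat.Agent.ES.R48.LiftTransport10
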