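/-
Programme R (S48, Deligne–Serre), chapter A6 LIFT, closing file (helper4):
**`liftExport : HalfAIface12.LiftExport`**, from the LIFTING half (`LiftPadic4.exists_padic_lift`,
helper4) and the TRANSPORT half (`LiftTransport10.export_of_lift`, helper10).
-/
import Mathlib
import Fermat.Agent.ES.R48.HalfAIface12
import Fermat.Agent.ES.R48.LiftPadic4
import Fermat.Agent.ES.R48.LiftTransport10

set_option autoImplicit false

namespace Fermat.Agent.ES.R48.LiftFinal4

/-- the LIFTING half, in helper10's shape. -/
theorem liftStatement : LiftTransport10.LiftStatement :=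
  fun ℓ _ G h => LiftPadic4.exists_padic_lift ℓ G h

/-- **A6 LIFT, chapter export.** -/
theorem liftExport : HalfAIface12.LiftExport := by
  intro ℓ _
  obtain ⟨𝔪, h1, h2, h3⟩ := LiftTransport10.export_of_lift liftStatement ℓ
  refine ⟨𝔪, h1, h2, fun G hG => ?_⟩
  obtain ⟨r, -, hr⟩ := h3 G hG
  exact ⟨r, hr⟩

end Fermat.Agent.ES.R48.LiftFinal4
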