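/-
Programme R (S48, Deligne–Serre), chapter A2 RANKIN, file 2 (helper21): from a linear bound on the
partial sums of a nonnegative sequence to a bound `≤ 4C/(s-1)` for its Dirichlet series on `(1, 2]`.

`b n ≥ 0`, `Σ_{n < X+1} b n ≤ C·X` for all `X ≥ 1`  ⟹  for `1 < s ≤ 2` the series
`Σ b n · n^{-s}` is summable and `≤ 4C/(s-1)` (dyadic blocks; no Abel summation).
-/
import Mathlib

set_option autoImplicit false

open Finset

namespace Fermat.Agent.ES.R48.RankinDir21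

variable {b : ℕ → ℝ} {C : ℝ}

/-- Bernoulli: `2^{-x} ≤ 1 - x/2` on `[0, 1]`. -/
theorem two_rpow_neg_le {x : ℝ} (h0 : 0 ≤ x) (h1 : x ≤ 1) : (2 : ℝ) ^ (-x) ≤ 1 - x / 2 := by
  have h := rpow_one_add_le_one_add_mul_self (s := -1 / 2) (by norm_num) h0 h1
  have e : (2 : ℝ) ^ (-x) = (1 + -1 / 2 : ℝ) ^ x := by
    rw [Real.rpow_neg (by norm_num), ← Real.inv_rpow (by norm_num)]
    norm_num
  rw [e]
  linarith

/-- One dyadic block. -/
theorem block_le (hb : ∀ n, 0 ≤ b n)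
    (hS : ∀ X : ℕ, 1 ≤ X → ∑ n ∈ range (X + 1), b n ≤ C * X) {s : ℝ} (hs : 0 < s) (j : ℕ) :
    ∑ n ∈ Ico (2 ^ j) (2 ^ (j + 1)), b n * (n : ℝ) ^ (-s) ≤ 2 * C * ((2 : ℝ) ^ (1 - s)) ^ j := by
  have h2j : (0 : ℝ) < 2 ^ j := by positivity
  have h1 : ∑ n ∈ Ico (2 ^ j) (2 ^ (j + 1)), b n * (n : ℝ) ^ (-s)
      ≤ ∑ n ∈ Ico (2 ^ j) (2 ^ (j + 1)), b n * ((2 : ℝ) ^ j) ^ (-s) := by
    apply Finset.sum_le_sum
    intro n hn
    have hn' : (2 : ℝ) ^ j ≤ n := by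
      exact_mod_cast (Finset.mem_Ico.mp hn).1
    exact mul_le_mul_of_nonneg_left (Real.rpow_le_rpow_of_nonpos h2j hn' (by linarith)) (hb n)
  have h2 : ∑ n ∈ Ico (2 ^ j) (2 ^ (j + 1)), b n ≤ C * (2 : ℝ) ^ (j + 1) := by
    have hsub : Ico (2 ^ j) (2 ^ (j + 1)) ⊆ range (2 ^ (j + 1) + 1) := by
      intro n hn
      rw [Finset.mem_range]
      exact lt_trans (Finset.mem_Ico.mp hn).2 (Nat.lt_succ_self _)
    have h3 := Finset.sum_le_sum_of_subset_of_nonneg hsub (fun n _ _ => hb n)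
    have h4 := hS (2 ^ (j + 1)) Nat.one_le_two_pow
    push_cast at h4
    exact h3.trans h4
  rw [← Finset.sum_mul] at h1
  refine h1.trans ?_
  have h5 : ((2 : ℝ) ^ j) ^ (-s) * (2 : ℝ) ^ (j + 1) = 2 * ((2 : ℝ) ^ (1 - s)) ^ j := by
    rw [← Real.rpow_natCast (2 ^ (1 - s)), ← Real.rpow_mul (by norm_num),
      ← Real.rpow_natCast 2 j, ← Real.rpow_mul (by norm_num), pow_succ,
      ← Real.rpow_natCast 2 j]
    rw [show (1 - s) * (j : ℝ) = (j : ℝ) * (-s) + (j : ℝ) by ring,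
      Real.rpow_add (by norm_num)]
    ring
  calc (∑ n ∈ Ico (2 ^ j) (2 ^ (j + 1)), b n) * ((2 : ℝ) ^ j) ^ (-s)
      ≤ (C * (2 : ℝ) ^ (j + 1)) * ((2 : ℝ) ^ j) ^ (-s) :=
        mul_le_mul_of_nonneg_right h2 (Real.rpow_nonneg h2j.le _)
    _ = C * (((2 : ℝ) ^ j) ^ (-s) * (2 : ℝ) ^ (j + 1)) := by ring
    _ = 2 * C * ((2 : ℝ) ^ (1 - s)) ^ j := by rw [h5]; ring

/-- Partial sums up to `2^J`. -/
theorem sum_range_two_pow_le (hb : ∀ n, 0 ≤ b n)
    (hS : ∀ X : ℕ, 1 ≤ X → ∑ n ∈ range (X + 1), b n ≤ C * X) {s : ℝ} (hs : 0 < s) (J : ℕ) :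
    ∑ n ∈ range (2 ^ J), b n * (n : ℝ) ^ (-s)
      ≤ 2 * C * ∑ j ∈ range J, ((2 : ℝ) ^ (1 - s)) ^ j := by
  induction J with
  | zero =>
    simp only [pow_zero, range_one, sum_singleton, Nat.cast_zero, range_zero, sum_empty, mul_zero]
    rw [Real.zero_rpow (by linarith), mul_zero]
  | succ J ih =>
    have hsplit : range (2 ^ (J + 1)) = range (2 ^ J) ∪ Ico (2 ^ J) (2 ^ (J + 1)) := by
      ext n
      simp only [mem_range, mem_union, mem_Ico]
      constructor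
      · intro h
        by_cases h' : n < 2 ^ J
        · exact Or.inl h'
        · exact Or.inr ⟨not_lt.mp h', h⟩
      · rintro (h | h)
        · exact lt_of_lt_of_le h (Nat.pow_le_pow_right (by norm_num) (Nat.le_succ J))
        · exact h.2
    have hdisj : Disjoint (range (2 ^ J)) (Ico (2 ^ J) (2 ^ (J + 1))) := by
      rw [Finset.disjoint_left]
      intro n h1 h2
      exact absurd (Finset.mem_range.mp h1) (not_lt.mpr (Finset.mem_Ico.mp h2).1)
    rw [hsplit, Finset.sum_union hdisj, Finset.sum_range_succ, mul_add]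
    exact add_le_add ih (block_le hb hS hs J)

/-- **(R4)** The Dirichlet series of a nonnegative sequence with linearly bounded partial sums is
`≤ 4C/(s-1)` on `(1, 2]`. -/
theorem dirichlet_bound (hb : ∀ n, 0 ≤ b n) (hC : 0 ≤ C)
    (hS : ∀ X : ℕ, 1 ≤ X → ∑ n ∈ range (X + 1), b n ≤ C * X) {s : ℝ} (hs1 : 1 < s) (hs2 : s ≤ 2) :
    Summable (fun n : ℕ => b n * (n : ℝ) ^ (-s)) ∧
      ∑' n : ℕ, b n * (n : ℝ) ^ (-s) ≤ 4 * C / (s - 1) := by
  have hs0 : 0 < s := by linarith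
  set r : ℝ := (2 : ℝ) ^ (1 - s) with hr
  have hr0 : 0 ≤ r := Real.rpow_nonneg (by norm_num) _
  have hr1 : r ≤ 1 - (s - 1) / 2 := by
    have := two_rpow_neg_le (x := s - 1) (by linarith) (by linarith)
    rwa [neg_sub] at this
  have h1r : 0 < 1 - r := by linarith
  have hterm : ∀ n : ℕ, 0 ≤ b n * (n : ℝ) ^ (-s) := fun n =>
    mul_nonneg (hb n) (Real.rpow_nonneg (Nat.cast_nonneg n) _)
  have hgeom : ∀ J : ℕ, ∑ j ∈ range J, r ^ j ≤ 1 / (1 - r) := by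
    intro J
    rw [le_div_iff₀ h1r, mul_comm, mul_neg_geom_sum]
    have : 0 ≤ r ^ J := pow_nonneg hr0 J
    linarith
  have hbound : ∀ M : ℕ, ∑ n ∈ range M, b n * (n : ℝ) ^ (-s) ≤ 4 * C / (s - 1) := by
    intro M
    have hsub : range M ⊆ range (2 ^ M) := by
      intro n hn
      rw [Finset.mem_range] at hn ⊢
      exact lt_trans hn Nat.lt_two_pow_self
    have h1 := Finset.sum_le_sum_of_subset_of_nonneg hsub (fun n _ _ => hterm n)
    have h2 := sum_range_two_pow_le hb hS hs0 M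
    have h3 : 2 * C * ∑ j ∈ range M, r ^ j ≤ 2 * C * (1 / (1 - r)) :=
      mul_le_mul_of_nonneg_left (hgeom M) (by positivity)
    have h4 : 2 * C * (1 / (1 - r)) ≤ 4 * C / (s - 1) := by
      rw [mul_one_div, div_le_div_iff₀ h1r (by linarith)]
      nlinarith
    exact h1.trans (h2.trans (h3.trans h4))
  exact ⟨summable_of_sum_range_le hterm hbound, Real.tsum_le_of_sum_range_le hterm hbound⟩

end Fermat.Agent.ES.R48.RankinDir21
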