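/-
Programme R (S48, Deligne–Serre), chapter A2 RANKIN, file 3 (helper21): from the bound
`D(s) = Σ ‖a n‖² n^{-s} ≤ C₁/(s-1)` to the prime sum `Σ_{p ∤ N} ‖a p‖² p^{-s} ≤ log(1/(s-1)) + C`.

Abstract sequence `a : ℕ → ℂ`, multiplicative off `N`, with the three-term recursion along the
powers of each prime `p ∤ N`.  The local input `LocalLB` (Deligne–Serre's positivity
`Σ_k ‖a(p^k)‖² T^k ≥ (1 - T²) exp(‖a p‖² T)`) is a hypothesis here; it is proved in `RankinLocal`.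
-/
import Mathlib

set_option autoImplicit false

open Finset

namespace Fermat.Agent.ES.R48.RankinEuler21

/-- The local lower bound (proved in `RankinLocal`). -/
def LocalLB : Prop :=
  ∀ (u : ℕ → ℂ) (a e : ℂ), ‖e‖ = 1 → u 0 = 1 → u 1 = a →
    (∀ k, u (k + 2) = a * u (k + 1) - e * u k) →
    ∀ T T' : ℝ, 0 ≤ T → T < T' → T' < 1 → Summable (fun k : ℕ => ‖u k‖ ^ 2 * T' ^ k) →
      (1 - T ^ 2) * Real.exp (‖a‖ ^ 2 * T) ≤ ∑' k : ℕ, ‖u k‖ ^ 2 * T ^ k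

/-- The multiplicative function `n ↦ ‖a n‖² n^{-s}` cut off at `(n, N) = 1`. -/
noncomputable def gfun (N : ℕ) (a : ℕ → ℂ) (s : ℝ) (n : ℕ) : ℝ :=
  if n.Coprime N then ‖a n‖ ^ 2 * (n : ℝ) ^ (-s) else 0

section Basic

variable {N : ℕ} {a : ℕ → ℂ} {s : ℝ}

theorem term_nonneg (a : ℕ → ℂ) (s : ℝ) (n : ℕ) : 0 ≤ ‖a n‖ ^ 2 * (n : ℝ) ^ (-s) :=
  mul_nonneg (sq_nonneg _) (Real.rpow_nonneg (Nat.cast_nonneg n) _)

theorem gfun_nonneg (N : ℕ) (a : ℕ → ℂ) (s : ℝ) (n : ℕ) : 0 ≤ gfun N a s n := by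
  unfold gfun
  split_ifs
  · exact term_nonneg a s n
  · exact le_rfl

theorem gfun_le (N : ℕ) (a : ℕ → ℂ) (s : ℝ) (n : ℕ) :
    gfun N a s n ≤ ‖a n‖ ^ 2 * (n : ℝ) ^ (-s) := by
  unfold gfun
  split_ifs
  · exact le_rfl
  · exact term_nonneg a s n

theorem gfun_of_coprime {n : ℕ} (h : n.Coprime N) :
    gfun N a s n = ‖a n‖ ^ 2 * (n : ℝ) ^ (-s) := by
  unfold gfun
  rw [if_pos h]

theorem gfun_one (h1 : a 1 = 1) : gfun N a s 1 = 1 := by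
  rw [gfun_of_coprime (Nat.coprime_one_left N), h1]
  simp

theorem gfun_mul
    (hmul : ∀ {m n : ℕ}, m.Coprime N → n.Coprime N → m.Coprime n → a (m * n) = a m * a n)
    {m n : ℕ} (h : m.Coprime n) : gfun N a s (m * n) = gfun N a s m * gfun N a s n := by
  by_cases hm : m.Coprime N
  · by_cases hn : n.Coprime N
    · rw [gfun_of_coprime (Nat.Coprime.mul_left hm hn), gfun_of_coprime hm, gfun_of_coprime hn,
        hmul hm hn h, norm_mul, mul_pow, Nat.cast_mul,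
        Real.mul_rpow (Nat.cast_nonneg m) (Nat.cast_nonneg n)]
      ring
    · have : ¬ (m * n).Coprime N := fun hc => hn (Nat.coprime_mul_iff_left.mp hc).2
      unfold gfun
      rw [if_neg this, if_neg hn, mul_zero]
  · have : ¬ (m * n).Coprime N := fun hc => hm (Nat.coprime_mul_iff_left.mp hc).1
    unfold gfun
    rw [if_neg this, if_neg hm, zero_mul]

theorem summable_gfun (hD : Summable (fun n : ℕ => ‖a n‖ ^ 2 * (n : ℝ) ^ (-s))) :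
    Summable (gfun N a s) :=
  Summable.of_nonneg_of_le (gfun_nonneg N a s) (gfun_le N a s) hD

theorem tsum_gfun_le (hD : Summable (fun n : ℕ => ‖a n‖ ^ 2 * (n : ℝ) ^ (-s))) :
    ∑' n : ℕ, gfun N a s n ≤ ∑' n : ℕ, ‖a n‖ ^ 2 * (n : ℝ) ^ (-s) :=
  (summable_gfun hD).tsum_le_tsum (gfun_le N a s) hD

theorem gfun_prime_pow {p : ℕ} (hpN : p.Coprime N) (k : ℕ) :
    gfun N a s (p ^ k) = ‖a (p ^ k)‖ ^ 2 * ((p : ℝ) ^ (-s)) ^ k := by
  rw [gfun_of_coprime (Nat.Coprime.pow_left k hpN)]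
  congr 1
  rw [Nat.cast_pow, ← Real.rpow_natCast ((p : ℝ) ^ (-s)) k, ← Real.rpow_mul (Nat.cast_nonneg p),
    ← Real.rpow_natCast (p : ℝ) k, ← Real.rpow_mul (Nat.cast_nonneg p), mul_comm]

end Basic

section Elementary

/-- `exp(-2x) ≤ 1 - x` on `[0, 1/2]`. -/
theorem exp_neg_two_mul_le {x : ℝ} (h0 : 0 ≤ x) (h1 : x ≤ 1 / 2) : Real.exp (-(2 * x)) ≤ 1 - x := by
  have h2 : 1 + 2 * x ≤ Real.exp (2 * x) := by
    have := Real.add_one_le_exp (2 * x)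
    linarith
  have hpos : 0 < 1 + 2 * x := by linarith
  rw [Real.exp_neg]
  calc (Real.exp (2 * x))⁻¹ ≤ (1 + 2 * x)⁻¹ := inv_anti₀ hpos h2
    _ ≤ 1 - x := by
        rw [inv_le_iff_one_le_mul₀ hpos]
        nlinarith

end Elementary

section Main

variable {N : ℕ} {a : ℕ → ℂ} {e : ℕ → ℂ}

/-- The local factor at a prime `p ∤ N` dominates `(1 - p^{-2s}) exp(‖a p‖² p^{-s})`. -/
theorem local_factor_ge (hLB : LocalLB) (h1 : a 1 = 1)
    (hrec : ∀ p : ℕ, p.Prime → ¬ p ∣ N →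
      ∀ k, a (p ^ (k + 2)) = a p * a (p ^ (k + 1)) - e p * a (p ^ k))
    (he : ∀ p : ℕ, p.Prime → ¬ p ∣ N → ‖e p‖ = 1)
    (hD : ∀ s : ℝ, 1 < s → s ≤ 2 → Summable (fun n : ℕ => ‖a n‖ ^ 2 * (n : ℝ) ^ (-s)))
    {s : ℝ} (hs1 : 1 < s) (hs2 : s ≤ 2) {p : ℕ} (hp : p.Prime) (hpN : ¬ p ∣ N) :
    (1 - ((p : ℝ) ^ (-s)) ^ 2) * Real.exp (‖a p‖ ^ 2 * (p : ℝ) ^ (-s))
      ≤ ∑' k : ℕ, gfun N a s (p ^ k) := by
  have hcop : p.Coprime N := (Nat.Prime.coprime_iff_not_dvd hp).mpr hpN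
  have hp1 : (1 : ℝ) < p := by exact_mod_cast hp.one_lt
  set s' : ℝ := (1 + s) / 2 with hs'
  have hs'1 : 1 < s' := by rw [hs']; linarith
  have hs's : s' < s := by rw [hs']; linarith
  have hT0 : 0 ≤ (p : ℝ) ^ (-s) := Real.rpow_nonneg (Nat.cast_nonneg p) _
  have hTT' : (p : ℝ) ^ (-s) < (p : ℝ) ^ (-s') :=
    Real.rpow_lt_rpow_of_exponent_lt hp1 (by linarith)
  have hT'1 : (p : ℝ) ^ (-s') < 1 := Real.rpow_lt_one_of_one_lt_of_neg hp1 (by linarith)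
  have hsum' : Summable (fun k : ℕ => ‖a (p ^ k)‖ ^ 2 * ((p : ℝ) ^ (-s')) ^ k) := by
    have h2 := (summable_gfun (N := N) (hD s' hs'1 (by linarith))).comp_injective
      (Nat.pow_right_injective hp.two_le)
    refine h2.congr fun k => ?_
    simp only [Function.comp_apply]
    exact gfun_prime_pow hcop k
  have h := hLB (fun k => a (p ^ k)) (a p) (e p) (he p hp hpN) (by simpa using h1) (by simp)
    (hrec p hp hpN) ((p : ℝ) ^ (-s)) ((p : ℝ) ^ (-s')) hT0 hTT' hT'1 hsum'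
  refine h.trans (le_of_eq ?_)
  congr 1
  funext k
  exact (gfun_prime_pow hcop k).symm

/-- **(P4)** The prime sum bound, for finite sets of primes `p ∤ N`. -/
theorem prime_sum_le (hLB : LocalLB) (h1 : a 1 = 1)
    (hmul : ∀ {m n : ℕ}, m.Coprime N → n.Coprime N → m.Coprime n → a (m * n) = a m * a n)
    (hrec : ∀ p : ℕ, p.Prime → ¬ p ∣ N →
      ∀ k, a (p ^ (k + 2)) = a p * a (p ^ (k + 1)) - e p * a (p ^ k))
    (he : ∀ p : ℕ, p.Prime → ¬ p ∣ N → ‖e p‖ = 1)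
    {C₁ : ℝ} (hC₁ : 1 ≤ C₁)
    (hD : ∀ s : ℝ, 1 < s → s ≤ 2 → Summable (fun n : ℕ => ‖a n‖ ^ 2 * (n : ℝ) ^ (-s)) ∧
      ∑' n : ℕ, ‖a n‖ ^ 2 * (n : ℝ) ^ (-s) ≤ C₁ / (s - 1))
    {s : ℝ} (hs1 : 1 < s) (hs2 : s ≤ 2) (P : Finset ℕ) (hP : ∀ p ∈ P, p.Prime ∧ ¬ p ∣ N) :
    ∑ p ∈ P, ‖a p‖ ^ 2 * (p : ℝ) ^ (-s)
      ≤ Real.log (1 / (s - 1)) + (Real.log C₁ + 2 * ∑' n : ℕ, 1 / (n : ℝ) ^ 2) := by
  have hDs := hD s hs1 hs2
  have hgs : Summable (gfun N a s) := summable_gfun hDs.1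
  -- Euler product over `P`
  have hfilter : P.filter Nat.Prime = P := Finset.filter_true_of_mem fun p hp => (hP p hp).1
  have hEuler := EulerProduct.prod_filter_prime_tsum_eq_tsum_factoredNumbers
    (f := gfun N a s) (gfun_one h1) (fun h => gfun_mul hmul h)
    (by simpa [Real.norm_of_nonneg (gfun_nonneg N a s _)] using hgs) P
  rw [hfilter] at hEuler
  have hprod_le : ∏ p ∈ P, ∑' k : ℕ, gfun N a s (p ^ k) ≤ C₁ / (s - 1) := by
    rw [hEuler]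
    exact (hgs.tsum_subtype_le _ _ (gfun_nonneg N a s)).trans ((tsum_gfun_le hDs.1).trans hDs.2)
  -- local factors
  have hlocal : ∀ p ∈ P, (1 - ((p : ℝ) ^ (-s)) ^ 2) * Real.exp (‖a p‖ ^ 2 * (p : ℝ) ^ (-s))
      ≤ ∑' k : ℕ, gfun N a s (p ^ k) := fun p hp =>
    local_factor_ge hLB h1 hrec he (fun s h1 h2 => (hD s h1 h2).1) hs1 hs2 (hP p hp).1 (hP p hp).2
  -- `T_p ≤ 1/2`, `T_p² ≤ 1/p²`
  have hT : ∀ p ∈ P, 0 ≤ (p : ℝ) ^ (-s) ∧ ((p : ℝ) ^ (-s)) ^ 2 ≤ 1 / (p : ℝ) ^ 2 ∧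
      ((p : ℝ) ^ (-s)) ^ 2 ≤ 1 / 2 := by
    intro p hp
    have hp2 : (2 : ℝ) ≤ p := by exact_mod_cast (hP p hp).1.two_le
    have hp0 : (0 : ℝ) < p := by linarith
    have h0 : 0 ≤ (p : ℝ) ^ (-s) := Real.rpow_nonneg hp0.le _
    have h1 : (p : ℝ) ^ (-s) ≤ (p : ℝ) ^ (-1 : ℝ) :=
      Real.rpow_le_rpow_of_exponent_le (by linarith) (by linarith)
    have h2 : (p : ℝ) ^ (-1 : ℝ) = 1 / p := by
      rw [Real.rpow_neg hp0.le, Real.rpow_one, one_div]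
    have h3 : ((p : ℝ) ^ (-s)) ^ 2 ≤ (1 / (p : ℝ)) ^ 2 :=
      pow_le_pow_left₀ h0 (h1.trans h2.le) 2
    have h4 : (1 / (p : ℝ)) ^ 2 = 1 / (p : ℝ) ^ 2 := by rw [div_pow, one_pow]
    refine ⟨h0, h4 ▸ h3, h3.trans ?_⟩
    rw [h4, div_le_div_iff₀ (by positivity) (by norm_num)]
    nlinarith
  set Z : ℝ := ∑' n : ℕ, 1 / (n : ℝ) ^ 2 with hZ
  have hZsum : Summable (fun n : ℕ => 1 / (n : ℝ) ^ 2) :=
    Real.summable_one_div_nat_pow.mpr one_lt_two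
  have hsumT : ∑ p ∈ P, ((p : ℝ) ^ (-s)) ^ 2 ≤ Z := by
    refine (Finset.sum_le_sum fun p hp => (hT p hp).2.1).trans ?_
    exact hZsum.sum_le_tsum P fun n _ => by positivity
  -- the product of the lower bounds
  set S : ℝ := ∑ p ∈ P, ‖a p‖ ^ 2 * (p : ℝ) ^ (-s) with hS
  have hlow : Real.exp (-(2 * Z)) * Real.exp S
      ≤ ∏ p ∈ P, ((1 - ((p : ℝ) ^ (-s)) ^ 2) * Real.exp (‖a p‖ ^ 2 * (p : ℝ) ^ (-s))) := by
    rw [Finset.prod_mul_distrib, ← Real.exp_sum]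
    apply mul_le_mul_of_nonneg_right _ (Real.exp_pos _).le
    calc Real.exp (-(2 * Z)) ≤ Real.exp (∑ p ∈ P, -(2 * ((p : ℝ) ^ (-s)) ^ 2)) := by
          apply Real.exp_le_exp.mpr
          rw [Finset.sum_neg_distrib, ← Finset.mul_sum]
          linarith
      _ = ∏ p ∈ P, Real.exp (-(2 * ((p : ℝ) ^ (-s)) ^ 2)) := Real.exp_sum _ _
      _ ≤ ∏ p ∈ P, (1 - ((p : ℝ) ^ (-s)) ^ 2) := by
          apply Finset.prod_le_prod
          · intro p _; exact (Real.exp_pos _).le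
          · intro p hp
            exact exp_neg_two_mul_le (sq_nonneg _) (hT p hp).2.2
  have hmid : ∏ p ∈ P, ((1 - ((p : ℝ) ^ (-s)) ^ 2) * Real.exp (‖a p‖ ^ 2 * (p : ℝ) ^ (-s)))
      ≤ ∏ p ∈ P, ∑' k : ℕ, gfun N a s (p ^ k) := by
    apply Finset.prod_le_prod
    · intro p hp
      apply mul_nonneg _ (Real.exp_pos _).le
      have := (hT p hp).2.2
      linarith
    · exact hlocal
  have hfin : Real.exp S ≤ Real.exp (2 * Z) * (C₁ / (s - 1)) := by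
    have h := hlow.trans (hmid.trans hprod_le)
    have hexp : Real.exp (2 * Z) * Real.exp (-(2 * Z)) = 1 := by
      rw [← Real.exp_add]; simp
    calc Real.exp S = Real.exp (2 * Z) * (Real.exp (-(2 * Z)) * Real.exp S) := by
          rw [← mul_assoc, hexp, one_mul]
      _ ≤ Real.exp (2 * Z) * (C₁ / (s - 1)) :=
          mul_le_mul_of_nonneg_left h (Real.exp_pos _).le
  have hs0 : 0 < s - 1 := by linarith
  have hC0 : 0 < C₁ := by linarith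
  have hlog := Real.log_le_log (Real.exp_pos S) hfin
  rw [Real.log_exp, Real.log_mul (Real.exp_pos _).ne' (div_pos hC0 hs0).ne', Real.log_exp,
    div_eq_mul_one_div, Real.log_mul hC0.ne' (one_div_pos.mpr hs0).ne'] at hlog
  linarith

end Main

end Fermat.Agent.ES.R48.RankinEuler21
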