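/-
Programme R (S48, Deligne–Serre), chapter A2 RANKIN, file 5 (helper21): the local lower bound
`Σ_k ‖u k‖² T^k ≥ (1 - T²) exp(‖a‖² T)` for a sequence with `u 0 = 1`, `u 1 = a`,
`u (k+2) = a u (k+1) - e u k`, `‖e‖ = 1` (Deligne–Serre's positivity argument).

* `normSq_rec4` : `c k := ‖u k‖²` satisfies a four-term linear recurrence (pure algebra, no roots);
* `series_mul_Q` : `(Σ c k t^k) · Q(t) = 1 - t²` wherever the series is summable,
  `Q(t) = 1 - A t + E t² - A t³ + t⁴`, `A = ‖a‖²`, `E = 2 Re(ē a²) - 2`;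
* `Q_factor` : `Q(t) = (1 - ‖α‖² t)(1 - ‖β‖² t)(1 - 2 Re(α β̄) t + t²)` for `α + β = a`, `α β = e`;
* `localLB : RankinEuler21.LocalLB`.
-/
import Mathlib
import Fermat.Agent.ES.R48.RankinEuler21

set_option autoImplicit false

open Complex ComplexConjugate Finset

namespace Fermat.Agent.ES.R48.RankinLocal21

section Algebra

variable {u : ℕ → ℂ} {a e : ℂ}

theorem mul_conj_of_norm_one (he : ‖e‖ = 1) : e * conj e = 1 := by
  rw [Complex.mul_conj, Complex.normSq_eq_norm_sq, he]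
  norm_num

/-- the four-term recurrence, in `ℂ`. -/
theorem rec4_complex (he : e * conj e = 1) (hrec : ∀ k, u (k + 2) = a * u (k + 1) - e * u k)
    (k : ℕ) :
    u (k + 4) * conj (u (k + 4)) - (a * conj a) * (u (k + 3) * conj (u (k + 3)))
      + (a ^ 2 * conj e + (conj a) ^ 2 * e - 2) * (u (k + 2) * conj (u (k + 2)))
      - (a * conj a) * (u (k + 1) * conj (u (k + 1))) + u k * conj (u k) = 0 := by
  have h4 : u (k + 4) = a * u (k + 3) - e * u (k + 2) := hrec (k + 2)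
  have h3 : u (k + 3) = a * u (k + 2) - e * u (k + 1) := hrec (k + 1)
  have h2 : u (k + 2) = a * u (k + 1) - e * u k := hrec k
  rw [h4, h3, h2]
  simp only [map_sub, map_mul]
  linear_combination (e * conj e * u k * conj (u k) - 2 * e * conj a * u k * conj (u (k + 1))
    - 2 * conj e * a * conj (u k) * u (k + 1) + 3 * a * conj a * u (k + 1) * conj (u (k + 1))
    - u k * conj (u k)) * he

theorem mul_conj_eq (z : ℂ) : z * conj z = ((‖z‖ ^ 2 : ℝ) : ℂ) := by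
  rw [Complex.mul_conj, Complex.normSq_eq_norm_sq]

theorem cross_eq (a e : ℂ) :
    a ^ 2 * conj e + (conj a) ^ 2 * e = ((2 * (conj e * a ^ 2).re : ℝ) : ℂ) := by
  have h := Complex.add_conj (conj e * a ^ 2)
  simp only [map_mul, map_pow, Complex.conj_conj] at h
  rw [← h]
  ring

/-- **The four-term recurrence** for `‖u k‖²`. -/
theorem normSq_rec4 (he : ‖e‖ = 1) (hrec : ∀ k, u (k + 2) = a * u (k + 1) - e * u k) (k : ℕ) :
    ‖u (k + 4)‖ ^ 2 - ‖a‖ ^ 2 * ‖u (k + 3)‖ ^ 2 + (2 * (conj e * a ^ 2).re - 2) * ‖u (k + 2)‖ ^ 2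
      - ‖a‖ ^ 2 * ‖u (k + 1)‖ ^ 2 + ‖u k‖ ^ 2 = 0 := by
  apply Complex.ofReal_injective
  have h := rec4_complex (mul_conj_of_norm_one he) hrec k
  rw [cross_eq, mul_conj_eq, mul_conj_eq, mul_conj_eq, mul_conj_eq, mul_conj_eq, mul_conj_eq] at h
  push_cast at h ⊢
  linear_combination h

/-- initial values. -/
theorem normSq_init (he : ‖e‖ = 1) (u0 : u 0 = 1) (u1 : u 1 = a)
    (hrec : ∀ k, u (k + 2) = a * u (k + 1) - e * u k) :
    ‖u 0‖ ^ 2 = 1 ∧ ‖u 1‖ ^ 2 = ‖a‖ ^ 2 ∧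
      ‖u 2‖ ^ 2 - ‖a‖ ^ 2 * ‖u 1‖ ^ 2 + (2 * (conj e * a ^ 2).re - 2) * ‖u 0‖ ^ 2 = -1 ∧
      ‖u 3‖ ^ 2 - ‖a‖ ^ 2 * ‖u 2‖ ^ 2 + (2 * (conj e * a ^ 2).re - 2) * ‖u 1‖ ^ 2
        - ‖a‖ ^ 2 * ‖u 0‖ ^ 2 = 0 := by
  have he' := mul_conj_of_norm_one he
  have h2 : u 2 = a * a - e := by rw [hrec 0, u1, u0]; ring
  have h3 : u 3 = a * (a * a - e) - e * a := by rw [hrec 1, h2, u1]
  have hz : ∀ z : ℂ, ((‖z‖ : ℝ) : ℂ) ^ 2 = z * conj z := fun z => by
    rw [mul_conj_eq]; push_cast; rfl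
  have hc : ((2 : ℂ) * ((conj e * a ^ 2).re : ℂ)) = a ^ 2 * conj e + (conj a) ^ 2 * e := by
    rw [cross_eq]; push_cast; ring
  refine ⟨by rw [u0]; simp, by rw [u1], ?_, ?_⟩
  · apply Complex.ofReal_injective
    push_cast
    rw [hz (u 2), hz a, hz (u 1), hz (u 0), hc, h2, u1, u0]
    simp only [map_sub, map_mul, map_one]
    linear_combination he'
  · apply Complex.ofReal_injective
    push_cast
    rw [hz (u 3), hz (u 2), hz a, hz (u 1), hz (u 0), hc, h3, h2, u1, u0]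
    simp only [map_sub, map_mul, map_one]
    linear_combination (3 * a * conj a) * he'

end Algebra

section Series

variable {c : ℕ → ℝ} {A E : ℝ}

/-- **The generating-function identity**, numerically: a sequence with the four-term recurrence
and the right initial values has `(Σ c k t^k) · Q(t) = 1 - t²` wherever the series is summable. -/
theorem series_mul_Q (h0 : c 0 = 1) (h1 : c 1 = A) (h2 : c 2 - A * c 1 + E * c 0 = -1)
    (h3 : c 3 - A * c 2 + E * c 1 - A * c 0 = 0)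
    (hrec : ∀ k, c (k + 4) - A * c (k + 3) + E * c (k + 2) - A * c (k + 1) + c k = 0)
    {t : ℝ} (hs : Summable (fun k : ℕ => c k * t ^ k)) :
    (∑' k : ℕ, c k * t ^ k) * (1 - A * t + E * t ^ 2 - A * t ^ 3 + t ^ 4) = 1 - t ^ 2 := by
  set f : ℕ → ℝ := fun k => c k * t ^ k with hf
  set L : ℝ := ∑' k : ℕ, f k with hL
  have hsj : ∀ j : ℕ, Summable (fun i : ℕ => f (i + j)) := fun j =>
    (summable_nat_add_iff j).mpr hs
  have hLj : ∀ j : ℕ, ∑' i : ℕ, f (i + j) = L - ∑ i ∈ range j, f i := by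
    intro j
    have := hs.sum_add_tsum_nat_add j
    linarith
  have hzero : ∀ i : ℕ, f (i + 4) - A * t * f (i + 3) + E * t ^ 2 * f (i + 2)
      - A * t ^ 3 * f (i + 1) + t ^ 4 * f i = 0 := by
    intro i
    simp only [hf]
    have := hrec i
    have e : c (i + 4) * t ^ (i + 4) - A * t * (c (i + 3) * t ^ (i + 3))
        + E * t ^ 2 * (c (i + 2) * t ^ (i + 2)) - A * t ^ 3 * (c (i + 1) * t ^ (i + 1))
        + t ^ 4 * (c i * t ^ i)
        = (c (i + 4) - A * c (i + 3) + E * c (i + 2) - A * c (i + 1) + c i) * t ^ (i + 4) := by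
      ring
    rw [e, this, zero_mul]
  have hsum : HasSum (fun i : ℕ => f (i + 4) - A * t * f (i + 3) + E * t ^ 2 * f (i + 2)
      - A * t ^ 3 * f (i + 1) + t ^ 4 * f i)
      ((∑' i : ℕ, f (i + 4)) - A * t * (∑' i : ℕ, f (i + 3)) + E * t ^ 2 * (∑' i : ℕ, f (i + 2))
      - A * t ^ 3 * (∑' i : ℕ, f (i + 1)) + t ^ 4 * L) :=
    ((((hsj 4).hasSum.sub ((hsj 3).hasSum.mul_left (A * t))).add
      ((hsj 2).hasSum.mul_left (E * t ^ 2))).sub ((hsj 1).hasSum.mul_left (A * t ^ 3))).add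
      (hs.hasSum.mul_left (t ^ 4))
  have hval := hsum.unique (by simp only [hzero]; exact hasSum_zero)
  rw [hLj 4, hLj 3, hLj 2, hLj 1] at hval
  simp only [Finset.sum_range_succ, Finset.sum_range_zero, zero_add, hf, pow_zero, mul_one,
    pow_one] at hval
  have e1 : c 2 = -1 + A * c 1 - E * c 0 := by linarith
  have e2 : c 3 = A * c 2 - E * c 1 + A * c 0 := by linarith
  rw [e2, e1, h1, h0] at hval
  linear_combination hval

end Series

section Factor

variable {α β : ℂ}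

theorem rel_of_norm_one (he : ‖α * β‖ = 1) : α * β * conj α * conj β = 1 := by
  have h := mul_conj_of_norm_one he
  rw [map_mul] at h
  linear_combination h

/-- **Factorisation of `Q`** through the roots `α, β` of `X² - aX + e`. -/
theorem Q_factor (he : ‖α * β‖ = 1) (t : ℝ) :
    1 - ‖α + β‖ ^ 2 * t + (2 * (conj (α * β) * (α + β) ^ 2).re - 2) * t ^ 2
        - ‖α + β‖ ^ 2 * t ^ 3 + t ^ 4
      = (1 - ‖α‖ ^ 2 * t) * (1 - ‖β‖ ^ 2 * t) * (1 - 2 * (α * conj β).re * t + t ^ 2) := by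
  have rel := rel_of_norm_one he
  have hz : ∀ z : ℂ, ((‖z‖ : ℝ) : ℂ) ^ 2 = z * conj z := fun z => by
    rw [mul_conj_eq]; push_cast; rfl
  have hc : ((2 : ℂ) * ((conj (α * β) * (α + β) ^ 2).re : ℂ))
      = (α + β) ^ 2 * conj (α * β) + (conj (α + β)) ^ 2 * (α * β) := by
    rw [cross_eq]; push_cast; ring
  have hw : ((2 : ℂ) * ((α * conj β).re : ℂ)) = α * conj β + conj α * β := by
    have h := Complex.add_conj (α * conj β)
    simp only [map_mul, Complex.conj_conj] at h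
    rw [h]; push_cast; ring
  apply Complex.ofReal_injective
  push_cast
  rw [hz (α + β), hz α, hz β, hc, hw]
  simp only [map_add, map_mul]
  linear_combination (-(t : ℂ) ^ 4 + (t : ℂ) ^ 3 * α * conj β + (t : ℂ) ^ 3 * conj α * β
    + 3 * (t : ℂ) ^ 2) * rel

/-- **Deligne–Serre's positivity**: `exp(‖α+β‖² T) · Q(T) ≤ 1` as soon as all four
`x_i T` lie in the unit disc. -/
theorem exp_mul_Q_le_one (he : ‖α * β‖ = 1) {T : ℝ} (hT0 : 0 ≤ T) (hT1 : T < 1)
    (h1 : ‖α‖ ^ 2 * T < 1) (h4 : ‖β‖ ^ 2 * T < 1) :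
    Real.exp (‖α + β‖ ^ 2 * T) *
      ((1 - ‖α‖ ^ 2 * T) * (1 - ‖β‖ ^ 2 * T) * (1 - 2 * (α * conj β).re * T + T ^ 2)) ≤ 1 := by
  have rel := rel_of_norm_one he
  have hnorm : ‖α‖ * ‖β‖ = 1 := by rw [← norm_mul]; exact he
  -- the four points of the unit disc
  set z₁ : ℂ := α * conj α * T with hz₁
  set z₂ : ℂ := α * conj β * T with hz₂
  set z₃ : ℂ := conj α * β * T with hz₃
  set z₄ : ℂ := β * conj β * T with hz₄
  have hTn : ‖(T : ℂ)‖ = T := by rw [Complex.norm_real, Real.norm_of_nonneg hT0]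
  have n₁ : ‖z₁‖ < 1 := by
    rw [hz₁, norm_mul, norm_mul, Complex.norm_conj, hTn, ← sq]; exact h1
  have n₂ : ‖z₂‖ < 1 := by
    rw [hz₂, norm_mul, norm_mul, Complex.norm_conj, hTn, hnorm, one_mul]; exact hT1
  have n₃ : ‖z₃‖ < 1 := by
    rw [hz₃, norm_mul, norm_mul, Complex.norm_conj, hTn, hnorm, one_mul]; exact hT1
  have n₄ : ‖z₄‖ < 1 := by
    rw [hz₄, norm_mul, norm_mul, Complex.norm_conj, hTn, ← sq]; exact h4
  have H₁ := Complex.hasSum_taylorSeries_neg_log n₁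
  have H₂ := Complex.hasSum_taylorSeries_neg_log n₂
  have H₃ := Complex.hasSum_taylorSeries_neg_log n₃
  have H₄ := Complex.hasSum_taylorSeries_neg_log n₄
  have H := ((H₁.add H₂).add H₃).add H₄
  set Sc : ℂ := -Complex.log (1 - z₁) + -Complex.log (1 - z₂) + -Complex.log (1 - z₃)
    + -Complex.log (1 - z₄) with hSc
  -- the terms are nonnegative reals
  set r : ℕ → ℝ := fun n => T ^ n * ‖α ^ n + β ^ n‖ ^ 2 / n with hr
  have hterm : ∀ n : ℕ, z₁ ^ n / n + z₂ ^ n / n + z₃ ^ n / n + z₄ ^ n / n = ((r n : ℝ) : ℂ) := by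
    intro n
    simp only [hr, hz₁, hz₂, hz₃, hz₄]
    push_cast
    have hz : ((‖α ^ n + β ^ n‖ : ℝ) : ℂ) ^ 2 = (α ^ n + β ^ n) * conj (α ^ n + β ^ n) := by
      rw [mul_conj_eq]; push_cast; rfl
    rw [hz]
    simp only [map_add, map_pow, mul_pow]
    ring
  have Hr : HasSum (fun n : ℕ => ((r n : ℝ) : ℂ)) Sc := by
    refine H.congr_fun ?_ |>.mono_left le_rfl
    intro n
    exact (hterm n).symm
  have Hre : HasSum r Sc.re := by
    have := (Complex.hasSum_iff _ _).mp Hr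
    simpa using this.1
  have Him : Sc.im = 0 := by
    have := ((Complex.hasSum_iff _ _).mp Hr).2
    simp only [Complex.ofReal_im] at this
    exact (this.unique hasSum_zero)
  have hScre : Sc = ((Sc.re : ℝ) : ℂ) := by
    apply Complex.ext <;> simp [Him]
  have hr0 : ∀ n : ℕ, 0 ≤ r n := fun n => by
    simp only [hr]; positivity
  have hle : ‖α + β‖ ^ 2 * T ≤ Sc.re := by
    have h := le_hasSum Hre 1 (fun j _ => hr0 j)
    simp only [hr, pow_one, Nat.cast_one, div_one] at h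
    linarith
  -- exponentiate
  have hne : ∀ z : ℂ, ‖z‖ < 1 → (1 - z) ≠ 0 := by
    intro z hz h0
    have : z = 1 := by linear_combination -h0
    rw [this, norm_one] at hz
    exact lt_irrefl _ hz
  have hexp : Complex.exp Sc * ((1 - z₁) * (1 - z₂) * (1 - z₃) * (1 - z₄)) = 1 := by
    rw [hSc, Complex.exp_add, Complex.exp_add, Complex.exp_add, Complex.exp_neg, Complex.exp_neg,
      Complex.exp_neg, Complex.exp_neg, Complex.exp_log (hne z₁ n₁), Complex.exp_log (hne z₂ n₂),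
      Complex.exp_log (hne z₃ n₃), Complex.exp_log (hne z₄ n₄)]
    field_simp [hne z₁ n₁, hne z₂ n₂, hne z₃ n₃, hne z₄ n₄]
  have hprod : (1 - z₁) * (1 - z₂) * (1 - z₃) * (1 - z₄)
      = (((1 - ‖α‖ ^ 2 * T) * (1 - ‖β‖ ^ 2 * T) * (1 - 2 * (α * conj β).re * T + T ^ 2) : ℝ) : ℂ) := by
    have hz : ∀ z : ℂ, ((‖z‖ : ℝ) : ℂ) ^ 2 = z * conj z := fun z => by
      rw [mul_conj_eq]; push_cast; rfl
    have hw : ((2 : ℂ) * ((α * conj β).re : ℂ)) = α * conj β + conj α * β := by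
      have h := Complex.add_conj (α * conj β)
      simp only [map_mul, Complex.conj_conj] at h
      rw [h]; push_cast; ring
    push_cast
    rw [hz α, hz β, hw, hz₁, hz₂, hz₃, hz₄]
    linear_combination ((T : ℂ) ^ 2 * (1 - α * conj α * T) * (1 - β * conj β * T)) * rel
  rw [hScre, ← Complex.ofReal_exp, hprod, ← Complex.ofReal_mul] at hexp
  have hreal : Real.exp Sc.re *
      ((1 - ‖α‖ ^ 2 * T) * (1 - ‖β‖ ^ 2 * T) * (1 - 2 * (α * conj β).re * T + T ^ 2)) = 1 := by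
    exact_mod_cast hexp
  have hQpos : 0 < (1 - ‖α‖ ^ 2 * T) * (1 - ‖β‖ ^ 2 * T) * (1 - 2 * (α * conj β).re * T + T ^ 2) := by
    by_contra hcon
    push Not at hcon
    have := mul_nonpos_of_nonneg_of_nonpos (Real.exp_pos Sc.re).le hcon
    rw [hreal] at this
    linarith
  calc Real.exp (‖α + β‖ ^ 2 * T) * _ ≤ Real.exp Sc.re * _ :=
        mul_le_mul_of_nonneg_right (Real.exp_le_exp.mpr hle) hQpos.le
    _ = 1 := hreal

end Factor

section Final

/-- Roots of `X² - aX + e` in `ℂ`. -/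
theorem exists_roots (a e : ℂ) : ∃ α β : ℂ, α + β = a ∧ α * β = e := by
  obtain ⟨w, hw⟩ := IsAlgClosed.exists_eq_mul_self (a ^ 2 - 4 * e)
  refine ⟨(a + w) / 2, (a - w) / 2, by ring, ?_⟩
  linear_combination (1 / 4 : ℂ) * hw

/-- **The local lower bound** (Deligne–Serre): `RankinEuler21.LocalLB`. -/
theorem localLB : RankinEuler21.LocalLB := by
  intro u a e he u0 u1 hrec T T' hT hTT' hT'1 hsum
  obtain ⟨α, β, hab, hmul⟩ := exists_roots a e
  subst hab
  subst hmul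
  set c : ℕ → ℝ := fun k => ‖u k‖ ^ 2 with hc
  set A : ℝ := ‖α + β‖ ^ 2 with hA
  set E : ℝ := 2 * (conj (α * β) * (α + β) ^ 2).re - 2 with hE
  obtain ⟨i0, i1, i2, i3⟩ := normSq_init he u0 u1 hrec
  have hrec4 := normSq_rec4 he hrec
  have hc0 : ∀ k, 0 ≤ c k := fun k => sq_nonneg _
  have hT'0 : 0 ≤ T' := hT.trans hTT'.le
  -- summability on `[0, T']`
  have hsummable : ∀ t : ℝ, 0 ≤ t → t ≤ T' → Summable (fun k : ℕ => c k * t ^ k) := by
    intro t ht0 htT'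
    refine Summable.of_nonneg_of_le (fun k => mul_nonneg (hc0 k) (pow_nonneg ht0 k)) (fun k => ?_)
      hsum
    exact mul_le_mul_of_nonneg_left (pow_le_pow_left₀ ht0 htT' k) (hc0 k)
  have hident : ∀ t : ℝ, 0 ≤ t → t ≤ T' →
      (∑' k : ℕ, c k * t ^ k) * (1 - A * t + E * t ^ 2 - A * t ^ 3 + t ^ 4) = 1 - t ^ 2 :=
    fun t ht0 htT' => series_mul_Q i0 i1 i2 i3 hrec4 (hsummable t ht0 htT')
  -- no root of `Q` in `(0, T']`
  have hroot : ∀ x : ℝ, 0 ≤ x → (∀ t : ℝ, 1 - x * t = 0 →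
      1 - A * t + E * t ^ 2 - A * t ^ 3 + t ^ 4 = 0) → x * T' < 1 := by
    intro x hx0 hQ
    by_contra hcon
    push Not at hcon
    have hxpos : 0 < x := by
      rcases eq_or_lt_of_le hx0 with h | h
      · rw [← h, zero_mul] at hcon; linarith
      · exact h
    have ht0 : 0 < 1 / x := by positivity
    have htT' : 1 / x ≤ T' := by
      rw [div_le_iff₀ hxpos]; linarith
    have hz := hQ (1 / x) (by field_simp; ring)
    have h := hident (1 / x) ht0.le htT'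
    rw [hz, mul_zero] at h
    have hlt : 1 / x < 1 := lt_of_le_of_lt htT' hT'1
    nlinarith
  have hα : ‖α‖ ^ 2 * T' < 1 := by
    apply hroot _ (sq_nonneg _)
    intro t ht
    rw [hA, hE, Q_factor he t, ht]
    ring
  have hβ : ‖β‖ ^ 2 * T' < 1 := by
    apply hroot _ (sq_nonneg _)
    intro t ht
    rw [hA, hE, Q_factor he t, ht]
    ring
  have hαT : ‖α‖ ^ 2 * T < 1 :=
    lt_of_le_of_lt (mul_le_mul_of_nonneg_left hTT'.le (sq_nonneg _)) hα
  have hβT : ‖β‖ ^ 2 * T < 1 :=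
    lt_of_le_of_lt (mul_le_mul_of_nonneg_left hTT'.le (sq_nonneg _)) hβ
  have hT1 : T < 1 := hTT'.trans hT'1
  have hpos := exp_mul_Q_le_one he hT hT1 hαT hβT
  rw [← Q_factor he T] at hpos
  have hid := hident T hT hTT'.le
  have hL0 : 0 ≤ ∑' k : ℕ, c k * T ^ k :=
    tsum_nonneg fun k => mul_nonneg (hc0 k) (pow_nonneg hT k)
  calc (1 - T ^ 2) * Real.exp (‖α + β‖ ^ 2 * T)
      = (∑' k : ℕ, c k * T ^ k) * (Real.exp (‖α + β‖ ^ 2 * T)
          * (1 - A * T + E * T ^ 2 - A * T ^ 3 + T ^ 4)) := by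
        rw [← hid]; ring
    _ ≤ (∑' k : ℕ, c k * T ^ k) * 1 := mul_le_mul_of_nonneg_left hpos hL0
    _ = ∑' k : ℕ, ‖u k‖ ^ 2 * T ^ k := by rw [mul_one]

end Final

end Fermat.Agent.ES.R48.RankinLocal21
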