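/-
Programme R (S48, Deligne–Serre), chapter A2 RANKIN, file 1 (helper21): the mean square of the
`q`-expansion coefficients of a cusp form.

For a cusp form `f` of weight `k` for an arithmetic group `Γ` having `1` as a strict period, with
`a n := (qExpansion 1 f).coeff n`:

* `sum_sq_exp_le` : `Σ_{n ∈ s} ‖a n‖² e^{-4πny} ≤ C² / y^k` for every `y > 0` (Parseval on the
  horizontal line of height `y`, with Mathlib's bound `‖f τ‖ ≤ C / (im τ)^{k/2}`);
* `sum_sq_le` : `Σ_{n ≤ X} ‖a n‖² ≤ e^{4π} C² X^k` for `X ≥ 1`;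
* `mean_square_gamma1` : for `f : CuspForm (Gamma1 N) 1`, `Σ_{n < X+1} ‖qCoeff f n‖² ≤ C·X`.
-/
import Mathlib
import Fermat.Prelude.Def_FLTPrelim_Modularity

set_option autoImplicit false

open CongruenceSubgroup UpperHalfPlane Complex MeasureTheory
open scoped MatrixGroups Real

namespace Fermat.Agent.ES.R48.RankinMS21

/-- `1` is a strict period of `Γ₁(N)`. -/
theorem one_mem_strictPeriods_Gamma1 (N : ℕ) :
    (1 : ℝ) ∈ (Subgroup.map (Matrix.SpecialLinearGroup.mapGL ℝ) (Gamma1 N)).strictPeriods := by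
  have hT : ModularGroup.T ∈ Gamma1 N := by
    rw [Gamma1_mem]
    simp [ModularGroup.T]
  rw [Subgroup.strictPeriods_eq_zmultiples_one_of_T_mem hT]
  exact AddSubgroup.mem_zmultiples (1 : ℝ)

section General

variable {k : ℤ} {F : Type*} [FunLike F ℍ ℂ] {Γ : Subgroup (GL (Fin 2) ℝ)}

/-- The restriction of `f` to the horizontal line of height `y`. -/
noncomputable def lineFun (f : F) (y : ℝ) (x : ℝ) : ℂ :=
  f (ofComplex ((x : ℂ) + (y : ℂ) * Complex.I))

theorem lineFun_eq (f : F) {y : ℝ} (hy : 0 < y) (x : ℝ) :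
    lineFun f y x = f ⟨(x : ℂ) + (y : ℂ) * Complex.I, by simpa using hy⟩ := by
  unfold lineFun
  rw [ofComplex_apply_of_im_pos]

theorem continuous_lineFun [ModularFormClass F Γ k] (f : F) {y : ℝ} (hy : 0 < y) :
    Continuous (lineFun f y) := by
  have h1 : Continuous fun x : ℝ => (⟨(x : ℂ) + (y : ℂ) * Complex.I, by simpa using hy⟩ : ℍ) := by
    fun_prop
  have h2 : lineFun f y = fun x : ℝ => f ⟨(x : ℂ) + (y : ℂ) * Complex.I, by simpa using hy⟩ :=
    funext (lineFun_eq f hy)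
  rw [h2]
  exact (ModularFormClass.continuous f).comp h1

/-- The Fourier coefficients of the restriction to the line of height `y` are
`a n e^{-2πny}`. -/
theorem fourierCoeffOn_lineFun [ModularFormClass F Γ k] (f : F) (h1 : (1 : ℝ) ∈ Γ.strictPeriods)
    {y : ℝ} (hy : 0 < y) (n : ℕ) :
    fourierCoeffOn zero_lt_one (lineFun f y) (n : ℤ) =
      (Real.exp (-2 * π * n * y) : ℂ) * (qExpansion 1 f).coeff n := by
  rw [fourierCoeffOn_eq_integral,
    ModularFormClass.qExpansion_coeff_eq_intervalIntegral f one_pos h1 n hy]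
  simp only [sub_zero, ne_eq, one_ne_zero, not_false_eq_true, div_self, one_smul, ofReal_one,
    one_mul, smul_eq_mul]
  rw [← intervalIntegral.integral_const_mul]
  apply intervalIntegral.integral_congr
  intro x _
  simp only
  rw [lineFun_eq f hy, fourier_coe_apply, Function.Periodic.qParam]
  have hq : cexp (2 * π * Complex.I * ((x : ℂ) + (y : ℂ) * Complex.I) / ((1 : ℝ) : ℂ)) ≠ 0 :=
    Complex.exp_ne_zero _
  rw [← mul_assoc]
  congr 1
  rw [one_div, ← Complex.exp_nat_mul, ← Complex.exp_neg, ofReal_exp, ← Complex.exp_add]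
  congr 1
  push_cast
  have := Complex.I_mul_I
  ring_nf
  rw [Complex.I_sq]
  ring

/-- **Parseval on a horizontal line**: if `‖f‖ ≤ B` on the line of height `y`, then
`Σ_{n ∈ s} ‖a n‖² e^{-4πny} ≤ B²`. -/
theorem sum_sq_exp_le [ModularFormClass F Γ k] (f : F) (h1 : (1 : ℝ) ∈ Γ.strictPeriods)
    {B y : ℝ} (hy : 0 < y) (hB : ∀ x : ℝ, ‖lineFun f y x‖ ≤ B) (s : Finset ℕ) :
    ∑ n ∈ s, ‖(qExpansion 1 f).coeff n‖ ^ 2 * Real.exp (-4 * π * n * y) ≤ B ^ 2 := by
  have hcont := continuous_lineFun (Γ := Γ) (k := k) f hy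
  have hB0 : 0 ≤ B := (norm_nonneg _).trans (hB 0)
  have hL2 : MemLp (lineFun f y) 2 (volume.restrict (Set.Ioc (0 : ℝ) 1)) :=
    MemLp.of_bound hcont.aestronglyMeasurable B (ae_of_all _ hB)
  have hP := hasSum_sq_fourierCoeffOn (zero_lt_one' ℝ) hL2
  have hint : (∫ x in (0 : ℝ)..1, ‖lineFun f y x‖ ^ 2) ≤ B ^ 2 := by
    have h2 : (∫ x in (0 : ℝ)..1, ‖lineFun f y x‖ ^ 2) ≤ ∫ _x in (0 : ℝ)..1, B ^ 2 := by
      apply intervalIntegral.integral_mono_on zero_le_one
      · exact (hcont.norm.pow 2).intervalIntegrable _ _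
      · exact continuous_const.intervalIntegrable _ _
      · intro x _
        exact pow_le_pow_left₀ (norm_nonneg _) (hB x) 2
    simpa using h2
  have hle := sum_le_hasSum (s.map Nat.castEmbedding) (fun i _ => sq_nonneg _) hP
  rw [Finset.sum_map] at hle
  simp only [sub_zero, inv_one, one_smul] at hle
  refine le_trans (le_of_eq ?_) (hle.trans hint)
  apply Finset.sum_congr rfl
  intro n _
  rw [Nat.castEmbedding_apply, fourierCoeffOn_lineFun f h1 hy n, norm_mul, mul_pow,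
    Complex.norm_real, Real.norm_of_nonneg (Real.exp_pos _).le, ← Real.exp_nat_mul, mul_comm]
  congr 2
  push_cast
  ring

end General

section Gamma1

open ModularFormClass

/-- **(R3) Mean square** of the coefficients of a weight-one cusp form on `Γ₁(N)`:
`Σ_{n ≤ X} ‖a n‖² ≤ C · X`. -/
theorem mean_square_gamma1 {N : ℕ} [NeZero N] (f : CuspForm (Gamma1 N) 1) :
    ∃ C : ℝ, 0 ≤ C ∧ ∀ X : ℕ, 1 ≤ X →
      ∑ n ∈ Finset.range (X + 1), ‖qCoeff f n‖ ^ 2 ≤ C * X := by
  obtain ⟨C₀, hC₀⟩ := CuspFormClass.exists_bound f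
  refine ⟨Real.exp (4 * π) * C₀ ^ 2, by positivity, fun X hX => ?_⟩
  have hX0 : (0 : ℝ) < X := by exact_mod_cast hX
  set y : ℝ := 1 / X with hy
  have hy0 : 0 < y := by positivity
  have hsqrt : (y ^ (((1 : ℤ) : ℝ) / 2)) ^ 2 = y := by
    rw [← Real.rpow_natCast, ← Real.rpow_mul hy0.le]
    norm_num
  have hB : ∀ x : ℝ, ‖RankinMS21.lineFun f y x‖ ≤ C₀ / y ^ (((1 : ℤ) : ℝ) / 2) := by
    intro x
    rw [lineFun_eq f hy0]
    have := hC₀ ⟨(x : ℂ) + (y : ℂ) * Complex.I, by simpa using hy0⟩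
    simpa [UpperHalfPlane.im] using this
  have h1 := sum_sq_exp_le (k := 1) f (one_mem_strictPeriods_Gamma1 N) hy0 hB (Finset.range (X + 1))
  rw [div_pow, hsqrt] at h1
  have h2 : ∑ n ∈ Finset.range (X + 1), ‖qCoeff f n‖ ^ 2 * Real.exp (-(4 * π))
      ≤ ∑ n ∈ Finset.range (X + 1),
        ‖(qExpansion 1 f).coeff n‖ ^ 2 * Real.exp (-4 * π * n * y) := by
    apply Finset.sum_le_sum
    intro n hn
    have hn' : (n : ℝ) ≤ X := by
      exact_mod_cast Nat.lt_succ_iff.mp (Finset.mem_range.mp hn)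
    apply mul_le_mul_of_nonneg_left _ (sq_nonneg _)
    apply Real.exp_le_exp.mpr
    have h3 : (n : ℝ) * y ≤ 1 := by
      rw [hy, mul_one_div]
      exact (div_le_one hX0).mpr hn'
    have hpi : 0 < π := Real.pi_pos
    nlinarith
  rw [← Finset.sum_mul] at h2
  have h3 := h2.trans h1
  have hexp : Real.exp (4 * π) * Real.exp (-(4 * π)) = 1 := by
    rw [← Real.exp_add]; simp
  calc ∑ n ∈ Finset.range (X + 1), ‖qCoeff f n‖ ^ 2
      = Real.exp (4 * π) * ((∑ n ∈ Finset.range (X + 1), ‖qCoeff f n‖ ^ 2)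
          * Real.exp (-(4 * π))) := by
        rw [mul_comm, mul_assoc, mul_comm (Real.exp (-(4 * π))), hexp, mul_one]
    _ ≤ Real.exp (4 * π) * (C₀ ^ 2 / y) := by
        apply mul_le_mul_of_nonneg_left h3 (Real.exp_pos _).le
    _ = Real.exp (4 * π) * C₀ ^ 2 * X := by
        rw [hy]; field_simp

end Gamma1

end Fermat.Agent.ES.R48.RankinMS21
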