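/-
Programme R (S48, Deligne–Serre), chapter A2 RANKIN, file 4 (helper21): multiplicativity off `N`
of a sequence satisfying the formal Hecke relations of the frozen statement.

`HeckeSeq N ε a` is `DSIface27.HeckeRel N ε f` for `a := qCoeff f` (by `Iff.rfl`).  From it and
`a 1 = 1`: the three-term recursion along prime powers and `a (m n) = a m · a n` for coprime
`m, n` with `(m, N) = 1`.
-/
import Mathlib

set_option autoImplicit false

namespace Fermat.Agent.ES.R48.RankinMult21

/-- The formal Hecke relations at the primes `p ∤ N`. -/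
def HeckeSeq (N : ℕ) (ε : DirichletCharacter ℂ N) (a : ℕ → ℂ) : Prop :=
  ∀ p : ℕ, p.Prime → ¬ p ∣ N → ∀ n : ℕ,
    a (p * n) + ε (p : ZMod N) * (if p ∣ n then a (n / p) else 0) = a p * a n

variable {N : ℕ} {ε : DirichletCharacter ℂ N} {a : ℕ → ℂ}

/-- The recursion along the powers of a prime `p ∤ N`. -/
theorem pow_rec (hT : HeckeSeq N ε a) {p : ℕ} (hp : p.Prime) (hpN : ¬ p ∣ N) (k : ℕ) :
    a (p ^ (k + 2)) = a p * a (p ^ (k + 1)) - ε (p : ZMod N) * a (p ^ k) := by
  have h := hT p hp hpN (p ^ (k + 1))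
  have hdiv : p ^ (k + 1) / p = p ^ k := by rw [pow_succ, Nat.mul_div_cancel _ hp.pos]
  have hmul : p * p ^ (k + 1) = p ^ (k + 2) := by rw [← pow_succ']
  rw [if_pos (dvd_pow_self p (Nat.succ_ne_zero k)), hdiv, hmul] at h
  linear_combination h

/-- `a (p^k m) = a (p^k) a m` for `p ∤ N`, `p ∤ m`. -/
theorem mul_prime_pow (h1 : a 1 = 1) (hT : HeckeSeq N ε a) {p : ℕ} (hp : p.Prime)
    (hpN : ¬ p ∣ N) {m : ℕ} (hpm : ¬ p ∣ m) :
    ∀ k : ℕ, a (p ^ k * m) = a (p ^ k) * a m ∧ a (p ^ (k + 1) * m) = a (p ^ (k + 1)) * a m := by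
  intro k
  induction k with
  | zero =>
    refine ⟨by simp [h1], ?_⟩
    have h := hT p hp hpN m
    rw [if_neg hpm, mul_zero, add_zero] at h
    simpa using h
  | succ k ih =>
    refine ⟨ih.2, ?_⟩
    have h := hT p hp hpN (p ^ (k + 1) * m)
    have hd : p ∣ p ^ (k + 1) * m := Dvd.dvd.mul_right (dvd_pow_self p (Nat.succ_ne_zero k)) m
    have hdiv : p ^ (k + 1) * m / p = p ^ k * m := by
      rw [pow_succ, mul_assoc, mul_comm p m, ← mul_assoc, Nat.mul_div_cancel _ hp.pos]
    rw [if_pos hd, hdiv, ← mul_assoc, ← pow_succ', ih.1, ih.2] at h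
    rw [pow_rec hT hp hpN k]
    linear_combination h

/-- **(P1)** Multiplicativity off `N`. -/
theorem mul_of_coprime (h1 : a 1 = 1) (hT : HeckeSeq N ε a) :
    ∀ m : ℕ, ∀ n : ℕ, m.Coprime N → m.Coprime n → a (m * n) = a m * a n := by
  intro m
  induction m using Nat.strong_induction_on with
  | _ m ih =>
    intro n hmN hmn
    rcases Nat.lt_or_ge m 2 with hlt | hge
    · interval_cases m
      · -- `m = 0`: then `n = 1`
        have hn : n = 1 := by simpa using hmn
        subst hn
        simp [h1]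
      · simp [h1]
    · -- `m ≥ 2`: split off the least prime factor
      have hm0 : m ≠ 0 := by omega
      have hm1 : m ≠ 1 := by omega
      set p := m.minFac with hpdef
      have hp : p.Prime := Nat.minFac_prime hm1
      have hpm : p ∣ m := Nat.minFac_dvd m
      obtain ⟨k, m', hpm', hmeq⟩ := Nat.exists_eq_pow_mul_and_not_dvd hm0 p hp.ne_one
      have hk : k ≠ 0 := by
        rintro rfl
        rw [pow_zero, one_mul] at hmeq
        exact hpm' (hmeq ▸ hpm)
      have hm'pos : 0 < m' := by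
        rcases Nat.eq_zero_or_pos m' with h0 | h0
        · rw [h0, mul_zero] at hmeq; exact absurd hmeq hm0
        · exact h0
      have hm'lt : m' < m := by
        rw [hmeq]
        have : 2 ≤ p ^ k := by
          calc 2 ≤ p := hp.two_le
            _ = p ^ 1 := (pow_one p).symm
            _ ≤ p ^ k := Nat.pow_le_pow_right hp.pos (Nat.one_le_iff_ne_zero.mpr hk)
        nlinarith
      have hm'm : m' ∣ m := ⟨p ^ k, by rw [hmeq]; ring⟩
      have hpN : ¬ p ∣ N := fun h =>
        hp.one_lt.ne' (Nat.eq_one_of_dvd_coprimes hmN hpm h)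
      have hpn : ¬ p ∣ n := fun h =>
        hp.one_lt.ne' (Nat.eq_one_of_dvd_coprimes hmn hpm h)
      have hm'N : m'.Coprime N := Nat.Coprime.coprime_dvd_left hm'm hmN
      have hm'n : m'.Coprime n := Nat.Coprime.coprime_dvd_left hm'm hmn
      have hpm'n : ¬ p ∣ m' * n := fun h => (hp.dvd_mul.mp h).elim hpm' hpn
      have e1 : a (m * n) = a (p ^ k) * a (m' * n) := by
        rw [hmeq, mul_assoc]
        exact (mul_prime_pow h1 hT hp hpN hpm'n k).1
      have e2 : a m = a (p ^ k) * a m' := by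
        conv_lhs => rw [hmeq]
        exact (mul_prime_pow h1 hT hp hpN hpm' k).1
      rw [e1, e2, ih m' hm'lt n hm'N hm'n]
      ring

end Fermat.Agent.ES.R48.RankinMult21
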