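/-
Programme R (S48, Deligne–Serre), chapter A2 RANKIN, file 6 (helper21): **the chapter export**
`DensExc16.RankinExport`.

For a weight-one cusp form `f` on `Γ₁(N')` (ANY level) with `a 1 = 1` satisfying the formal Hecke
relations `DSIface27.HeckeRel N ε f` at the primes `p ∤ N`:
`Σ_{p ∈ P} ‖a p‖² p^{-s} ≤ log (1/(s-1)) + C` for `1 < s ≤ 2` and every finite set `P` of primes
`∤ N`, with `C` independent of `s` and `P`.

Assembly of: `RankinMS21.mean_square_gamma1` (mean square `Σ_{n ≤ X} ‖a n‖² ≤ C₀ X`),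
`RankinDir21.dirichlet_bound` (`D(s) ≤ 4 C₀/(s-1)`), `RankinMult21` (multiplicativity and the
recursion along prime powers from the Hecke relations), `RankinLocal21.localLB` (local positivity)
and `RankinEuler21.prime_sum_le` (Euler product and logarithm).
-/
import Mathlib
import Fermat.Agent.ES.R48.DSIface27
import Fermat.Agent.ES.R48.DensCalc16
import Fermat.Agent.ES.R48.DensExc16
import Fermat.Agent.ES.R48.RankinMS21
import Fermat.Agent.ES.R48.RankinDir21
import Fermat.Agent.ES.R48.RankinEuler21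
import Fermat.Agent.ES.R48.RankinMult21
import Fermat.Agent.ES.R48.RankinLocal21

set_option autoImplicit false

open CongruenceSubgroup

namespace Fermat.Agent.ES.R48.RankinFinal21

open Fermat.Agent.ES.R48

/-- the value of a Dirichlet character mod `N` at a prime `p ∤ N` has norm one. -/
theorem norm_char_prime {N : ℕ} [NeZero N] (ε : DirichletCharacter ℂ N) {p : ℕ} (hp : p.Prime)
    (hpN : ¬ p ∣ N) : ‖ε (p : ZMod N)‖ = 1 := by
  have hcop : p.Coprime N := (Nat.Prime.coprime_iff_not_dvd hp).mpr hpN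
  have h := DirichletCharacter.unit_norm_eq_one ε (ZMod.unitOfCoprime p hcop)
  rwa [ZMod.coe_unitOfCoprime] at h

/-- The abstract form of the export: a sequence `a : ℕ → ℂ` with `a 1 = 1`, the formal Hecke
relations off `N`, and linearly bounded mean square satisfies the Rankin bound. -/
theorem rankinBound_of_heckeSeq {N : ℕ} [NeZero N] (ε : DirichletCharacter ℂ N) (a : ℕ → ℂ)
    (h1 : a 1 = 1) (hT : RankinMult21.HeckeSeq N ε a) {C₀ : ℝ} (hC₀ : 0 ≤ C₀)
    (hMS : ∀ X : ℕ, 1 ≤ X → ∑ n ∈ Finset.range (X + 1), ‖a n‖ ^ 2 ≤ C₀ * X) :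
    DensCalc16.RankinBound N a := by
  set C₁ : ℝ := max (4 * C₀) 1 with hC₁def
  have hC₁ : 1 ≤ C₁ := le_max_right _ _
  have hD : ∀ s : ℝ, 1 < s → s ≤ 2 → Summable (fun n : ℕ => ‖a n‖ ^ 2 * (n : ℝ) ^ (-s)) ∧
      ∑' n : ℕ, ‖a n‖ ^ 2 * (n : ℝ) ^ (-s) ≤ C₁ / (s - 1) := by
    intro s hs1 hs2
    have h := RankinDir21.dirichlet_bound (b := fun n => ‖a n‖ ^ 2) (fun n => sq_nonneg _) hC₀ hMS
      hs1 hs2
    refine ⟨h.1, h.2.trans ?_⟩
    have hs0 : 0 < s - 1 := by linarith
    exact div_le_div_of_nonneg_right (le_max_left _ _) hs0.le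
  refine ⟨Real.log C₁ + 2 * ∑' n : ℕ, 1 / (n : ℝ) ^ 2, fun s hs1 hs2 P hP => ?_⟩
  exact RankinEuler21.prime_sum_le (N := N) (a := a) (e := fun p => ε (p : ZMod N))
    RankinLocal21.localLB h1
    (fun {m n} hm _ hmn => RankinMult21.mul_of_coprime h1 hT m n hm hmn)
    (fun p hp hpN k => RankinMult21.pow_rec hT hp hpN k)
    (fun p hp hpN => norm_char_prime ε hp hpN)
    hC₁ hD hs1 hs2 P hP

/-- **A2, chapter export.** -/
theorem rankinExport : DensExc16.RankinExport := by
  intro N _ ε N' _ f h1 hT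
  obtain ⟨C₀, hC₀, hMS⟩ := RankinMS21.mean_square_gamma1 f
  exact rankinBound_of_heckeSeq ε (fun n => ModularFormClass.qCoeff f n) h1 hT hC₀ hMS

end Fermat.Agent.ES.R48.RankinFinal21
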