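/-
Programme R (S48, Deligne–Serre), HALF A, TOP (helper12, half-A integrator).

`halfA : DSIface27.HalfA` — Deligne–Serre proper, from the contract alone — with every export
plugged in:
* A2 `RankinFinal21.rankinExport` (helper21), A4 `ChebExport7.chebExport` (helper7's team),
* A5 `BoundedImage20.boundedImage` (helper20), A6 `LiftFinal4.liftExport` (helper4, helper10),
* A9 `IrredEta14.irredExport_of_exports` (helper28, helper14),
* A3/A7/A8/SPLIT inside `HalfAFinal12.halfA_of_open_exports` (helper16, helper15, helper23).
-/
import Mathlib
import Fermat.Agent.ES.R48.HalfAFinal12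
import Fermat.Agent.ES.R48.RankinFinal21
import Fermat.Agent.ES.R48.ChebExport7
import Fermat.Agent.ES.R48.BoundedImage20
import Fermat.Agent.ES.R48.LiftFinal4
import Fermat.Agent.ES.R48.IrredEta14

set_option autoImplicit false

namespace Fermat.Agent.ES.R48.HalfATop12

/-- **HALF A.** -/
theorem halfA : DSIface27.HalfA :=
  HalfAFinal12.halfA_of_open_exports RankinFinal21.rankinExport ChebExport7.chebExport
    BoundedImage20.boundedImage LiftFinal4.liftExport
    (IrredEta14.irredExport_of_exports RankinFinal21.rankinExport ChebExport7.chebExport)

end Fermat.Agent.ES.R48.HalfATop12
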