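/-
Programme R (S48, Deligne–Serre), half A, chapter A8 "TWO-ℓ" (helper15).

Two complex two-dimensional representations of `Gal(ℚ̄/ℚ)` of finite level whose Frobenius data
(`DSIface27.FrobData`) agree off finite sets of primes have the same trace and determinant
EVERYWHERE (`trace_det_eq`): by the generator form of Chebotarev's theorem on main
(`ChebQbar23.exists_frobenius_inv_mul_pow_fixes`) every `g` equals a power `φ ^ j` of a Frobenius
element on the common level, and for `2 × 2` matrices the pair (trace, determinant) of a power is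
determined by the pair of the matrix (Cayley–Hamilton).  No isomorphism of representations is
needed.

Consequence (`frobData_of_two`): if `ρ` has the data `(t, d)` off `N ℓ` and `ρ'` has the same data
off `N ℓ'`, `ℓ ≠ ℓ'`, then `ρ` has the data off `N`: at `ℓ` the representation `ρ'` is trivial on
inertia, so `ρ σ` has trace `2`, determinant `1` and finite order, hence is `1`.
-/
import Mathlib
import Fermat.Agent.ES.R48.DSIface27
import Fermat.Agent.ES.GAL.ChebQbar23

set_option autoImplicit false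

open scoped MatrixGroups

namespace Fermat.Agent.ES.R48.TwoPrime15

open Fermat.Agent.ES.R48.DSIface27

/-! ### Finite level gives finite order -/

/-- A homomorphism of finite level sends every element to an element of finite order. -/
theorem exists_pow_eq_one {M : Type} [Monoid M] (ρ : GQ →* M)
    (h : GaloisFactorsThroughFiniteLevel ρ) (σ : GQ) : ∃ n : ℕ, 0 < n ∧ ρ σ ^ n = 1 := by
  obtain ⟨L, hL, hρ⟩ := h
  have := hL
  -- the restrictions of the powers of `σ` to `L`
  let r : ℕ → (L →ₐ[ℚ] AlgebraicClosure ℚ) := fun n =>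
    ((σ ^ n : GQ) : AlgebraicClosure ℚ →ₐ[ℚ] AlgebraicClosure ℚ).comp L.val
  obtain ⟨i, j, hij, hr⟩ := Finite.exists_ne_map_eq_of_infinite r
  -- w.l.o.g. `i < j`
  wlog hlt : i < j generalizing i j
  · exact this j i hij.symm hr.symm (lt_of_le_of_ne (not_lt.mp hlt) hij.symm)
  refine ⟨j - i, Nat.sub_pos_of_lt hlt, ?_⟩
  rw [← map_pow]
  apply hρ
  intro x hx
  have h1 : (σ ^ i) x = (σ ^ j) x := DFunLike.congr_fun hr ⟨x, hx⟩
  have h2 : σ ^ j = σ ^ i * σ ^ (j - i) := by
    rw [← pow_add, Nat.add_sub_cancel' hlt.le]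
  rw [h2, AlgEquiv.mul_apply] at h1
  exact ((σ ^ i).injective h1).symm

/-! ### `2 × 2` matrices: trace and determinant of powers -/

section Matrix2

variable {k : Type} [CommRing k]

/-- Cayley–Hamilton for `2 × 2` matrices. -/
theorem mul_self_eq (A : Matrix (Fin 2) (Fin 2) k) :
    A * A = A.trace • A - A.det • (1 : Matrix (Fin 2) (Fin 2) k) := by
  ext i j
  fin_cases i <;> fin_cases j <;>
    simp [Matrix.mul_apply, Fin.sum_univ_two, Matrix.trace_fin_two, Matrix.det_fin_two] <;> ring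

/-- The trace of `A ^ (n + 2)` by the Cayley–Hamilton recursion. -/
theorem trace_pow_add_two (A : Matrix (Fin 2) (Fin 2) k) (n : ℕ) :
    (A ^ (n + 2)).trace = A.trace * (A ^ (n + 1)).trace - A.det * (A ^ n).trace := by
  have h : A ^ (n + 2) = A.trace • A ^ (n + 1) - A.det • A ^ n := by
    rw [pow_add, pow_two, mul_self_eq, mul_sub, Matrix.mul_smul, Matrix.mul_smul, mul_one,
      ← pow_succ]
  rw [h, Matrix.trace_sub, Matrix.trace_smul, Matrix.trace_smul, smul_eq_mul, smul_eq_mul]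

/-- Two `2 × 2` matrices with the same trace and determinant have powers with the same trace. -/
theorem trace_pow_eq {A B : Matrix (Fin 2) (Fin 2) k} (ht : A.trace = B.trace)
    (hd : A.det = B.det) (n : ℕ) : (A ^ n).trace = (B ^ n).trace := by
  induction n using Nat.strong_induction_on with
  | _ n ih =>
    match n, ih with
    | 0, _ => simp
    | 1, _ => simpa using ht
    | (m + 2), ih =>
      rw [trace_pow_add_two, trace_pow_add_two, ih (m + 1) (by omega), ih m (by omega), ht, hd]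

theorem det_pow_eq {A B : Matrix (Fin 2) (Fin 2) k} (hd : A.det = B.det) (n : ℕ) :
    (A ^ n).det = (B ^ n).det := by
  rw [Matrix.det_pow, Matrix.det_pow, hd]

end Matrix2

/-- A complex `2 × 2` matrix of finite order with trace `2` and determinant `1` is `1`. -/
theorem eq_one_of_trace_det {A : Matrix (Fin 2) (Fin 2) ℂ} (ht : A.trace = 2) (hd : A.det = 1)
    {n : ℕ} (hn : 0 < n) (hA : A ^ n = 1) : A = 1 := by
  set B : Matrix (Fin 2) (Fin 2) ℂ := A - 1 with hB
  have hAB : A = 1 + B := by rw [hB]; abel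
  have hBB : B * B = 0 := by
    have h := mul_self_eq A
    rw [ht, hd, one_smul, two_smul] at h
    simp only [hB, sub_mul, mul_sub, mul_one, one_mul]
    rw [h]
    abel
  have hpow : ∀ m : ℕ, A ^ m = 1 + (m : ℂ) • B := by
    intro m
    induction m with
    | zero => simp
    | succ m ih =>
      rw [pow_succ, ih, hAB, add_mul, mul_add, mul_add, one_mul, mul_one, one_mul,
        Matrix.smul_mul, hBB, smul_zero, add_zero]
      push_cast
      rw [add_smul, one_smul]
      abel
  have h1 := hpow n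
  rw [hA] at h1
  have h2 : (n : ℂ) • B = 0 := by
    have := congrArg (fun X => X - 1) h1
    simpa using this.symm
  have h3 : B = 0 := by
    rcases smul_eq_zero.mp h2 with h | h
    · exact absurd (by exact_mod_cast h) hn.ne'
    · exact h
  rw [hAB, h3, add_zero]

/-! ### Equal Frobenius data give equal trace and determinant everywhere -/

section Global

variable {k : Type} [CommRing k]

/-- **Equal Frobenius data off finite sets ⇒ equal trace and determinant everywhere.** -/
theorem trace_det_eq {M M' : ℕ} (hM : M ≠ 0) (hM' : M' ≠ 0) {t d : ℕ → k}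
    {ρ ρ' : GQ →* GL (Fin 2) k} (hfin : GaloisFactorsThroughFiniteLevel ρ)
    (hfin' : GaloisFactorsThroughFiniteLevel ρ') (h : FrobData M ρ t d)
    (h' : FrobData M' ρ' t d) (g : GQ) :
    ((ρ g : GL (Fin 2) k) : Matrix (Fin 2) (Fin 2) k).trace =
        ((ρ' g : GL (Fin 2) k) : Matrix (Fin 2) (Fin 2) k).trace ∧
      ((ρ g : GL (Fin 2) k) : Matrix (Fin 2) (Fin 2) k).det =
        ((ρ' g : GL (Fin 2) k) : Matrix (Fin 2) (Fin 2) k).det := by
  obtain ⟨L, hL, hρ⟩ := hfin
  obtain ⟨L', hL', hρ'⟩ := hfin'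
  have := hL
  have := hL'
  obtain ⟨p, A, φ, j, hp, hpT, hAp, hφ, hfix⟩ :=
    Fermat.Agent.ES.GAL.ChebQbar23.exists_frobenius_inv_mul_pow_fixes (L ⊔ L') g
      (M * M').primeFactors
  have hpMM : ¬ p ∣ M * M' := fun hdvd =>
    hpT (Nat.mem_primeFactors.mpr ⟨hp, hdvd, mul_ne_zero hM hM'⟩)
  have hpM : ¬ p ∣ M := fun hdvd => hpMM (hdvd.mul_right M')
  have hpM' : ¬ p ∣ M' := fun hdvd => hpMM (hdvd.mul_left M)
  -- `ρ g = ρ φ ^ j` and likewise for `ρ'`
  have e1 : ρ g = ρ φ ^ j := by
    have h1 : ρ (g⁻¹ * φ ^ j) = 1 := hρ _ fun x hx => hfix x (le_sup_left (a := L) hx)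
    rw [map_mul, map_inv, map_pow, inv_mul_eq_one] at h1
    exact h1
  have e2 : ρ' g = ρ' φ ^ j := by
    have h1 : ρ' (g⁻¹ * φ ^ j) = 1 := hρ' _ fun x hx => hfix x (le_sup_right (b := L') hx)
    rw [map_mul, map_inv, map_pow, inv_mul_eq_one] at h1
    exact h1
  obtain ⟨ht1, hd1⟩ := (h p hp hpM A hAp).2 φ hφ
  obtain ⟨ht2, hd2⟩ := (h' p hp hpM' A hAp).2 φ hφ
  rw [e1, e2, Units.val_pow_eq_pow_val, Units.val_pow_eq_pow_val]
  exact ⟨trace_pow_eq (ht1.trans ht2.symm) (hd1.trans hd2.symm) j,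
    det_pow_eq (hd1.trans hd2.symm) j⟩

end Global

/-! ### The second prime -/

/-- **A8.**  If `ρ` has the Frobenius data `(t, d)` off `N ℓ` and `ρ'` has the same data off
`N ℓ'`, with `ℓ ≠ ℓ'` primes, then `ρ` has the data off `N`. -/
theorem frobData_of_two {N : ℕ} (hN : N ≠ 0) {t d : ℕ → ℂ} {ℓ ℓ' : ℕ} (hℓ : ℓ.Prime)
    (hℓ' : ℓ'.Prime) (hne : ℓ ≠ ℓ') {ρ ρ' : GQ →* GL (Fin 2) ℂ}
    (hfin : GaloisFactorsThroughFiniteLevel ρ) (hfin' : GaloisFactorsThroughFiniteLevel ρ')
    (h : FrobData (N * ℓ) ρ t d) (h' : FrobData (N * ℓ') ρ' t d) : FrobData N ρ t d := by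
  intro p hp hpN A hA
  by_cases hpl : p ∣ N * ℓ
  · -- then `p = ℓ`, and `p ∤ N ℓ'`
    have hpℓ : p = ℓ := by
      rcases (Nat.Prime.dvd_mul hp).mp hpl with h1 | h1
      · exact absurd h1 hpN
      · exact (Nat.prime_dvd_prime_iff_eq hp hℓ).mp h1
    have hpl' : ¬ p ∣ N * ℓ' := by
      intro h1
      rcases (Nat.Prime.dvd_mul hp).mp h1 with h2 | h2
      · exact hpN h2
      · exact hne (hpℓ.symm.trans ((Nat.prime_dvd_prime_iff_eq hp hℓ').mp h2))
    have hMM : ∀ g : GQ, _ := trace_det_eq (mul_ne_zero hN hℓ.ne_zero)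
      (mul_ne_zero hN hℓ'.ne_zero) hfin hfin' h h'
    obtain ⟨hin', hfr'⟩ := h' p hp hpl' A hA
    refine ⟨fun σ hσ => ?_, fun σ hσ => ?_⟩
    · obtain ⟨ht, hd⟩ := hMM σ
      rw [hin' σ hσ] at ht hd
      obtain ⟨n, hn, hpow⟩ := exists_pow_eq_one ρ hfin σ
      have hpow' : ((ρ σ : GL (Fin 2) ℂ) : Matrix (Fin 2) (Fin 2) ℂ) ^ n = 1 := by
        rw [← Units.val_pow_eq_pow_val, hpow, Units.val_one]
      have h1 : ((ρ σ : GL (Fin 2) ℂ) : Matrix (Fin 2) (Fin 2) ℂ) = 1 := by
        refine eq_one_of_trace_det ?_ ?_ hn hpow'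
        · rw [ht, Units.val_one, Matrix.trace_one]; simp
        · rw [hd, Units.val_one, Matrix.det_one]
      exact Units.ext h1
    · obtain ⟨ht, hd⟩ := hMM σ
      obtain ⟨ht', hd'⟩ := hfr' σ hσ
      exact ⟨ht.trans ht', hd.trans hd'⟩
  · exact h p hp hpl A hA

end Fermat.Agent.ES.R48.TwoPrime15
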