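/-
Programme R (S48, Deligne–Serre), half B, chapter GEOM, sub-chapter G7 "TWO-DIM": the GLUING of
the two auxiliary levels (helper15).

GEOM constructs the mod-`ℓ` representation at a level `M` with `4 ∣ M` (which sees every odd prime
`p ∤ N ℓ`) and at a level with `9 ∣ M` (which sees `p = 2`).  This file glues the two:

* `eq_one_of_trace_mul`: a two-dimensional representation `r` over a field in which every stable
  line has a stable complementary line, and an element `h₀` with `det r(h₀) = 1` and
  `tr (r(g) r(h₀)) = tr r(g)` for ALL `g`, satisfy `r(h₀) = 1`.  (Put `B = r(h₀) - 1`; then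
  `B r(g) B = tr(B r(g)) B - det B · adj r(g) = 0` for all `g`, so if `B ≠ 0` the line
  `im B = ker B` is stable; on a stable complement `B` is nilpotent and diagonal, hence `0`.)
* `frobData_glue`: `r'` semisimple of finite level with Frobenius data `(t, d)` off `M'`, and ANY
  `r''` of finite level with the same data off `M''`; then `r'` has the data off every `M` whose
  prime divisors cover those common to `M'` and `M''`.  No isomorphism `r' ≅ r''` (Brauer–Nesbitt)
  is needed: equal `(tr, det)` everywhere (`TwoPrime15.trace_det_eq`, by the generator form of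
  Chebotarev on main) + `eq_one_of_trace_mul` on the inertia groups where `r''` is trivial.
* `frobData_four_nine`: the case `M' = lcm(N, 4)`, `M'' = lcm(N, 9)`, `M = N`, with the data of the
  two levels only assumed to agree with `(t, d)` where they are used.
-/
import Mathlib
import Fermat.Agent.ES.R48.DSIface27
import Fermat.Agent.ES.R48.TwoPrime15

set_option autoImplicit false

open scoped MatrixGroups

namespace Fermat.Agent.ES.R48.Glue15

open Fermat.Agent.ES.R48.DSIface27

/-! ### Two identities for `2 × 2` matrices -/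

section Matrix2

variable {k : Type} [CommRing k]

/-- `det (A - 1) = det A - tr A + 1` for `2 × 2` matrices. -/
theorem det_sub_one (A : Matrix (Fin 2) (Fin 2) k) :
    (A - 1).det = A.det - A.trace + 1 := by
  rw [Matrix.det_fin_two, Matrix.det_fin_two, Matrix.trace_fin_two]
  simp only [Matrix.sub_apply, Matrix.one_apply_eq, Matrix.one_apply_ne, ne_eq, Fin.isValue,
    zero_ne_one, one_ne_zero, not_false_eq_true, sub_zero]
  ring

/-- `N X N = tr(N X) N - det N · adj X` for `2 × 2` matrices. -/
theorem mul_mul_self_eq (N X : Matrix (Fin 2) (Fin 2) k) :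
    N * X * N = (N * X).trace • N - N.det • X.adjugate := by
  ext i j
  fin_cases i <;> fin_cases j <;>
    simp [Matrix.mul_apply, Fin.sum_univ_two, Matrix.trace_fin_two, Matrix.det_fin_two,
      Matrix.adjugate_fin_two] <;> ring

end Matrix2

/-! ### The kernel of a nonzero singular `2 × 2` matrix is a line -/

/-- Two vectors killed by a nonzero `2 × 2` matrix over a field are proportional. -/
theorem exists_smul_of_mulVec_eq_zero {k : Type} [Field k] {N : Matrix (Fin 2) (Fin 2) k}
    (hN : N ≠ 0) {v y : Fin 2 → k} (hv : v ≠ 0) (hNv : N.mulVec v = 0) (hNy : N.mulVec y = 0) :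
    ∃ c : k, y = c • v := by
  have hv' : ∀ i : Fin 2, N i 0 * v 0 + N i 1 * v 1 = 0 := fun i => by
    have := congrFun hNv i
    simpa [Matrix.mulVec, dotProduct, Fin.sum_univ_two] using this
  have hy' : ∀ i : Fin 2, N i 0 * y 0 + N i 1 * y 1 = 0 := fun i => by
    have := congrFun hNy i
    simpa [Matrix.mulVec, dotProduct, Fin.sum_univ_two] using this
  by_cases hD : v 0 * y 1 - v 1 * y 0 = 0
  · -- proportional
    have hv01 : v 0 ≠ 0 ∨ v 1 ≠ 0 := by
      by_contra hcon
      rw [not_or, not_not, not_not] at hcon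
      apply hv
      ext i
      fin_cases i
      · exact hcon.1
      · exact hcon.2
    rcases hv01 with h0 | h1
    · refine ⟨y 0 / v 0, ?_⟩
      ext i
      fin_cases i
      · simp only [Fin.zero_eta, Fin.isValue, Pi.smul_apply, smul_eq_mul]
        field_simp
      · simp only [Fin.mk_one, Fin.isValue, Pi.smul_apply, smul_eq_mul]
        field_simp
        linear_combination hD
    · refine ⟨y 1 / v 1, ?_⟩
      ext i
      fin_cases i
      · simp only [Fin.zero_eta, Fin.isValue, Pi.smul_apply, smul_eq_mul]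
        field_simp
        linear_combination -hD
      · simp only [Fin.mk_one, Fin.isValue, Pi.smul_apply, smul_eq_mul]
        field_simp
  · -- independent: then `N = 0`
    exfalso
    apply hN
    ext i j
    have e0 : N i 0 * (v 0 * y 1 - v 1 * y 0) = 0 := by
      linear_combination y 1 * hv' i - v 1 * hy' i
    have e1 : N i 1 * (v 0 * y 1 - v 1 * y 0) = 0 := by
      linear_combination v 0 * hy' i - y 0 * hv' i
    fin_cases j
    · exact (mul_eq_zero.mp e0).resolve_right hD
    · exact (mul_eq_zero.mp e1).resolve_right hD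

/-! ### Trace-invisible elements of a semisimple two-dimensional representation are trivial -/

/-- **Key lemma.**  Let `r` be a two-dimensional representation of a group `G` over a field such
that every stable line has a stable complementary line.  If `det r(h₀) = 1` and
`tr (r(g) r(h₀)) = tr r(g)` for all `g`, then `r(h₀) = 1`. -/
theorem eq_one_of_trace_mul {k : Type} [Field k] {G : Type*} [Group G] (r : G →* GL (Fin 2) k)
    (hss : ∀ v : Fin 2 → k, v ≠ 0 →
      (∀ σ : G, ∃ c : k, (r σ : Matrix (Fin 2) (Fin 2) k).mulVec v = c • v) →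
      ∃ w : Fin 2 → k, (∀ c : k, w ≠ c • v) ∧
        ∀ σ : G, ∃ c : k, (r σ : Matrix (Fin 2) (Fin 2) k).mulVec w = c • w)
    (h₀ : G) (hdet : (r h₀ : Matrix (Fin 2) (Fin 2) k).det = 1)
    (htr : ∀ g : G, ((r g : Matrix (Fin 2) (Fin 2) k) * (r h₀ : Matrix (Fin 2) (Fin 2) k)).trace =
      (r g : Matrix (Fin 2) (Fin 2) k).trace) :
    r h₀ = 1 := by
  set A : Matrix (Fin 2) (Fin 2) k := (r h₀ : Matrix (Fin 2) (Fin 2) k) with hA
  set B : Matrix (Fin 2) (Fin 2) k := A - 1 with hB
  -- `tr A = 2`
  have hAtr : A.trace = 2 := by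
    have h1 := htr 1
    rw [map_one, Units.val_one, one_mul, Matrix.trace_one, Fintype.card_fin] at h1
    rw [h1]; norm_num
  have hBdet : B.det = 0 := by
    rw [hB, det_sub_one, hdet, hAtr]; norm_num
  -- `tr (r g · B) = 0`
  have hBtr : ∀ g : G, ((r g : Matrix (Fin 2) (Fin 2) k) * B).trace = 0 := by
    intro g
    rw [hB, mul_sub, mul_one, Matrix.trace_sub, htr g, sub_self]
  -- `B · r g · B = 0`
  have hBgB : ∀ g : G, B * (r g : Matrix (Fin 2) (Fin 2) k) * B = 0 := by
    intro g
    rw [mul_mul_self_eq, hBdet, zero_smul, sub_zero, Matrix.trace_mul_comm, hBtr g, zero_smul]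
  have hBB : B * B = 0 := by
    have := hBgB 1
    rwa [map_one, Units.val_one, mul_one] at this
  -- it suffices to show `B = 0`
  suffices hB0 : B = 0 by
    apply Units.ext
    rw [Units.val_one]
    have : A - 1 = 0 := hB0
    exact sub_eq_zero.mp this
  by_contra hBne
  -- a nonzero vector in the image of `B`
  obtain ⟨x, hx⟩ : ∃ x : Fin 2 → k, B.mulVec x ≠ 0 := by
    by_contra hcon
    have hcon' : ∀ x : Fin 2 → k, B.mulVec x = 0 := fun x =>
      by_contra fun h => hcon ⟨x, h⟩
    apply hBne
    ext i j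
    have := congrFun (hcon' (Pi.single j 1)) i
    simpa [Matrix.mulVec_single_one] using this
  set v : Fin 2 → k := B.mulVec x with hv
  have hBv : B.mulVec v = 0 := by
    rw [hv, Matrix.mulVec_mulVec, hBB, Matrix.zero_mulVec]
  -- the line `k v` is stable
  have hstab : ∀ σ : G, ∃ c : k, (r σ : Matrix (Fin 2) (Fin 2) k).mulVec v = c • v := by
    intro σ
    refine exists_smul_of_mulVec_eq_zero hBne hx hBv ?_
    rw [hv, Matrix.mulVec_mulVec, Matrix.mulVec_mulVec, hBgB σ, Matrix.zero_mulVec]
  obtain ⟨w, hw, hwstab⟩ := hss v hx hstab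
  have hw0 : w ≠ 0 := by
    have := hw 0
    rwa [zero_smul] at this
  obtain ⟨c, hc⟩ := hwstab h₀
  have hBw : B.mulVec w = (c - 1) • w := by
    rw [hB, Matrix.sub_mulVec, Matrix.one_mulVec, hc, sub_smul, one_smul]
  have hc1 : c = 1 := by
    have h2 : B.mulVec (B.mulVec w) = 0 := by
      rw [Matrix.mulVec_mulVec, hBB, Matrix.zero_mulVec]
    rw [hBw, Matrix.mulVec_smul, hBw, smul_smul] at h2
    rcases smul_eq_zero.mp h2 with h3 | h3
    · have : c - 1 = 0 := by
        rcases mul_eq_zero.mp h3 with h4 | h4 <;> exact h4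
      exact sub_eq_zero.mp this
    · exact absurd h3 hw0
  rw [hc1, sub_self, zero_smul] at hBw
  obtain ⟨c', hc'⟩ := exists_smul_of_mulVec_eq_zero hBne hx hBv hBw
  exact hw c' hc'

/-! ### Frobenius data: congruence and gluing -/

/-- `FrobData M ρ t d` only depends on the values of `t`, `d` at the primes not dividing `M`. -/
theorem frobData_congr {k : Type} [CommRing k] {M : ℕ} {ρ : GQ →* GL (Fin 2) k}
    {t d t' d' : ℕ → k} (h : ∀ p : ℕ, p.Prime → ¬ p ∣ M → t p = t' p ∧ d p = d' p)
    (hρ : FrobData M ρ t d) : FrobData M ρ t' d' := by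
  intro p hp hpM A hA
  obtain ⟨hin, hfr⟩ := hρ p hp hpM A hA
  refine ⟨hin, fun σ hσ => ?_⟩
  obtain ⟨h1, h2⟩ := hfr σ hσ
  exact ⟨h1.trans (h p hp hpM).1, h2.trans (h p hp hpM).2⟩

/-- **Gluing.**  `r'` semisimple of finite level with Frobenius data `(t, d)` off `M'`, `r''` of
finite level with the same data off `M''`: then `r'` has the data off `M`, for every `M` such that
each prime `p ∤ M` satisfies `p ∤ M'` or `p ∤ M''`. -/
theorem frobData_glue {k : Type} [Field k] {M M' M'' : ℕ} (hM' : M' ≠ 0) (hM'' : M'' ≠ 0)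
    (hcov : ∀ p : ℕ, p.Prime → ¬ p ∣ M → ¬ p ∣ M' ∨ ¬ p ∣ M'') {t d : ℕ → k}
    {r' r'' : GQ →* GL (Fin 2) k} (hfin' : GaloisFactorsThroughFiniteLevel r')
    (hfin'' : GaloisFactorsThroughFiniteLevel r'') (hss' : IsSemisimple2 r')
    (h' : FrobData M' r' t d) (h'' : FrobData M'' r'' t d) : FrobData M r' t d := by
  intro p hp hpM A hA
  rcases hcov p hp hpM with hp' | hp''
  · exact h' p hp hp' A hA
  · have hMM : ∀ g : GQ, _ := TwoPrime15.trace_det_eq hM' hM'' hfin' hfin'' h' h''
    obtain ⟨hin'', hfr''⟩ := h'' p hp hp'' A hA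
    refine ⟨fun σ hσ => ?_, fun σ hσ => ?_⟩
    · have h1 : r'' σ = 1 := hin'' σ hσ
      refine eq_one_of_trace_mul r' hss' σ ?_ ?_
      · rw [(hMM σ).2, h1, Units.val_one, Matrix.det_one]
      · intro g
        have h2 := (hMM (g * σ)).1
        rw [map_mul, map_mul, h1, mul_one, Units.val_mul] at h2
        rw [h2, (hMM g).1]
    · obtain ⟨ht, hd⟩ := hMM σ
      obtain ⟨ht'', hd''⟩ := hfr'' σ hσ
      exact ⟨ht.trans ht'', hd.trans hd''⟩

/-- **Gluing of the levels `lcm(N, 4)` and `lcm(N, 9)`.**  The data `(t', d')`, `(t'', d'')` of the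
two levels are only assumed to agree with `(t, d)` at the primes where they are used. -/
theorem frobData_four_nine {k : Type} [Field k] {N : ℕ} (hN : N ≠ 0)
    {t d t' d' t'' d'' : ℕ → k}
    (hagree' : ∀ p : ℕ, p.Prime → ¬ p ∣ Nat.lcm N 4 → t' p = t p ∧ d' p = d p)
    (hagree'' : ∀ p : ℕ, p.Prime → ¬ p ∣ Nat.lcm N 9 → t'' p = t p ∧ d'' p = d p)
    {r' r'' : GQ →* GL (Fin 2) k} (hfin' : GaloisFactorsThroughFiniteLevel r')
    (hfin'' : GaloisFactorsThroughFiniteLevel r'') (hss' : IsSemisimple2 r')
    (h' : FrobData (Nat.lcm N 4) r' t' d') (h'' : FrobData (Nat.lcm N 9) r'' t'' d'') :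
    FrobData N r' t d := by
  refine frobData_glue (M' := Nat.lcm N 4) (M'' := Nat.lcm N 9)
    (Nat.lcm_ne_zero hN (by norm_num)) (Nat.lcm_ne_zero hN (by norm_num)) ?_ hfin' hfin'' hss'
    (frobData_congr hagree' h') (frobData_congr hagree'' h'')
  intro p hp hpN
  by_cases hp2 : p = 2
  · right
    intro hdvd
    rcases (Nat.Prime.dvd_lcm hp).mp hdvd with h1 | h1
    · exact hpN h1
    · rw [hp2] at h1
      norm_num at h1
  · left
    intro hdvd
    rcases (Nat.Prime.dvd_lcm hp).mp hdvd with h1 | h1
    · exact hpN h1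
    · have h4 : (4 : ℕ) = 2 ^ 2 := by norm_num
      rw [h4] at h1
      exact hp2 ((Nat.prime_dvd_prime_iff_eq hp Nat.prime_two).mp (hp.dvd_of_dvd_pow h1))

end Fermat.Agent.ES.R48.Glue15
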