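/-
Programme R (S48, Deligne–Serre), chapter B-HK (helper9), brick 4: the lemma (L-V).

`g, h ∈ S_k(Γ₁(N))`, `p` prime, `p ∤ N`, `h = V_p g` (i.e. `a_n(h) = [p ∣ n] a_{n/p}(g)`) ⟹ `g = 0`.

Proof: `IsVp p g h` is stable under the diamond operators (`isVp_diamond`), and
`T_p h = g + p^{k-1} V_p ⟨p⟩ h` shows that `V_p h` is again in `S_k(Γ₁(N))` (`isVp_step`).  So all
`V_p^m g` lie in the FIXED space `S_k(Γ₁(N))`; their `q`-order is `≥ p^m`, which beats the Sturm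
bound of the Prelude (`ModularForm.sturm_bound_of_isArithmetic`) for `m` large.
-/
import Mathlib
import Fermat.Prelude.Thm_ModularForm_sturm_bound_of_isArithmetic
import Fermat.Agent.ES.R48.TpForm9

set_option autoImplicit false

open CongruenceSubgroup UpperHalfPlane ModularForm Matrix.SpecialLinearGroup
open scoped MatrixGroups ModularForm
open Fermat.Agent.ES.R48.Gamma1Slash9 Fermat.Agent.ES.R48.TpInv9 Fermat.Agent.ES.R48.TpForm9
open ModularFormClass (qCoeff)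

noncomputable section

namespace Fermat.Agent.ES.R48.LV9

variable {N : ℕ} {k : ℤ}

/-! ### More `q`-coefficient toolkit on `S_k(Γ₁(N))` -/

theorem qCoeff_zero_eq_zero (f : CuspForm (Gamma1 N) k) : qCoeff ⇑f 0 = 0 :=
  CuspFormClass.qExpansion_coeff_zero f one_pos (one_mem_strictPeriods_Gamma1 N)

theorem qCoeff_sub [NeZero N] (f g : CuspForm (Gamma1 N) k) (n : ℕ) :
    qCoeff ⇑(f - g) n = qCoeff ⇑f n - qCoeff ⇑g n := by
  have h : f - g = f + (-1 : ℂ) • g := by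
    rw [neg_one_smul, sub_eq_add_neg]
  rw [h, qCoeff_add, qCoeff_smul]
  ring

/-- **Sturm bound on `S_k(Γ₁(N))`** (from the Prelude's general statement). -/
theorem sturm [NeZero N] (k : ℤ) :
    ∃ B : ℕ, ∀ f : CuspForm (Gamma1 N) k, (∀ n ≤ B, qCoeff ⇑f n = 0) → f = 0 := by
  refine ⟨((k * (Subgroup.map (mapGL ℝ) (Gamma1 N)).relIndex 𝒮ℒ).toNat / 12), fun f hf => ?_⟩
  set B := ((k * (Subgroup.map (mapGL ℝ) (Gamma1 N)).relIndex 𝒮ℒ).toNat / 12) with hB
  have h0 : (ModularFormClass.modularForm f : ModularForm (Gamma1 N) k) = 0 := by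
    refine ModularForm.sturm_bound_of_isArithmetic (one_mem_strictPeriods_Gamma1 N) ?_
    have h1 : ((B + 1 : ℕ) : ℕ∞) ≤ (qExpansion 1 ⇑(ModularFormClass.modularForm f
        : ModularForm (Gamma1 N) k)).order :=
      PowerSeries.nat_le_order _ _ fun i hi => hf i (Nat.lt_succ_iff.mp hi)
    refine lt_of_lt_of_le ?_ h1
    exact_mod_cast Nat.lt_succ_self B
  refine DFunLike.ext _ _ fun τ => ?_
  have := congrArg (fun F : ModularForm (Gamma1 N) k => F τ) h0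
  simpa using this

/-! ### The relation `h = V_p g` -/

/-- `h = V_p g`, in `q`-coefficients. -/
def IsVp (p : ℕ) (g h : CuspForm (Gamma1 N) k) : Prop :=
  ∀ n : ℕ, qCoeff ⇑h n = if p ∣ n then qCoeff ⇑g (n / p) else 0

/-- function-level characterisation: `h(τ) = g(pτ)`. -/
theorem isVp_iff {p : ℕ} (hp : p ≠ 0) (g h : CuspForm (Gamma1 N) k) :
    IsVp p g h ↔ ∀ τ : ℍ, h τ = g (heckeDiagMatrix p • τ) := by
  have key : ∀ τ : ℍ, HasSum (fun n : ℕ ↦ (if p ∣ n then qCoeff ⇑g (n / p) else 0)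
      • Function.Periodic.qParam 1 τ ^ n) (g (heckeDiagMatrix p • τ)) := by
    intro τ
    have h2 := P2MW.S_UpperHalfPlane_qCoeff_heckeT.M4cP1W2.hasSum_diag hp (periodic_coe g)
      (CuspFormClass.holo g) (isBoundedAtImInfty_coe g) 1 τ
    simp only [sub_self, zpow_zero, one_mul] at h2
    convert h2 using 1
    funext n
    rw [smul_eq_mul]
    split_ifs <;> simp
  constructor
  · intro hV τ
    have h1 := hasSum_qCoeff h τ
    have h3 : (fun m ↦ qCoeff ⇑h m • Function.Periodic.qParam 1 τ ^ m)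
        = fun n : ℕ ↦ (if p ∣ n then qCoeff ⇑g (n / p) else 0)
          • Function.Periodic.qParam 1 τ ^ n := by
      funext n; rw [hV n]
    rw [h3] at h1
    exact h1.unique (key τ)
  · intro hfun n
    exact qCoeff_unique h (fun τ => by rw [hfun τ]; exact key τ) n

/-- function-level characterisation via the slash operator. -/
theorem isVp_iff_slash {p : ℕ} (hp : p ≠ 0) (g h : CuspForm (Gamma1 N) k) :
    IsVp p g h ↔ ⇑h = ((p : ℂ) ^ (k - 1))⁻¹ • (⇑g ∣[k] heckeDiagMatrix p) := by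
  have hp' : ((p : ℂ) ^ (k - 1)) ≠ 0 := zpow_ne_zero _ (by exact_mod_cast hp)
  rw [isVp_iff hp]
  constructor
  · intro hfun
    funext τ
    rw [Pi.smul_apply, slash_heckeDiagMatrix_apply k hp, smul_eq_mul, ← mul_assoc,
      inv_mul_cancel₀ hp', one_mul, hfun τ]
  · intro hfun τ
    rw [hfun, Pi.smul_apply, slash_heckeDiagMatrix_apply k hp, smul_eq_mul, ← mul_assoc,
      inv_mul_cancel₀ hp', one_mul]

variable [NeZero N]

/-- **`V_p` commutes with the diamond operators.** -/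
theorem isVp_diamond {p : ℕ} (hp : p ≠ 0) (u : (ZMod N)ˣ) {g h : CuspForm (Gamma1 N) k}
    (hV : IsVp p g h) : IsVp p (diamond k u g) (diamond k u h) := by
  have : NeZero (N * p) := ⟨Nat.mul_ne_zero (NeZero.ne N) hp⟩
  obtain ⟨δ, hδ, hδu⟩ := exists_Gamma0_unit (Dvd.intro p rfl : N ∣ N * p) u
  -- `δ 1 0 = p * e` with `N ∣ e`
  have hdvd : ((N * p : ℕ) : ℤ) ∣ δ 1 0 :=
    (ZMod.intCast_zmod_eq_zero_iff_dvd _ _).mp (Gamma0_mem.mp hδ)
  obtain ⟨e', he'⟩ := hdvd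
  have he : δ 1 0 = p * ((N : ℤ) * e') := by rw [he']; push_cast; ring
  obtain ⟨δ', hδ'10, hδ'11, hmul⟩ := heckeDiagMatrix_mul_of_eq₄ hp δ ((N : ℤ) * e') he
  have hδN : δ ∈ Gamma0 N := Gamma0_le_of_dvd (Dvd.intro p rfl) hδ
  have hδ'N : δ' ∈ Gamma0 N := by
    rw [Gamma0_mem, hδ'10]
    push_cast
    simp
  rw [isVp_iff_slash hp] at hV ⊢
  rw [coe_diamond u hδN hδu h, hV, SL_smul_slash, coe_diamond u hδ'N (hδ'11 ▸ hδu) g]
  congr 1
  show (⇑g ∣[k] heckeDiagMatrix p) ∣[k] (mapGL ℝ δ)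
    = (⇑g ∣[k] (mapGL ℝ δ')) ∣[k] heckeDiagMatrix p
  rw [← SlashAction.slash_mul, ← SlashAction.slash_mul, hmul]

/-- **The step**: if `h = V_p g` with `g, h ∈ S_k(Γ₁(N))`, `p ∤ N`, then `V_p h ∈ S_k(Γ₁(N))`. -/
theorem isVp_step {p : ℕ} (hp : p.Prime) (hpN : ¬ p ∣ N) {g h : CuspForm (Gamma1 N) k}
    (hV : IsVp p g h) : ∃ h' : CuspForm (Gamma1 N) k, IsVp p h h' := by
  have hp0 : p ≠ 0 := hp.ne_zero
  have hpc : ((p : ℂ) ^ (k - 1)) ≠ 0 := zpow_ne_zero _ (by exact_mod_cast hp0)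
  set u := primeUnit hp hpN with hu
  -- `(⟨p⟩h, p^{1-k}(T_p h - g))` is a `V_p`-pair
  have h1 : IsVp p (diamond k u h) (((p : ℂ) ^ (k - 1))⁻¹ • (Tp k hp hpN h - g)) := by
    intro n
    rw [qCoeff_smul, qCoeff_sub, qCoeff_Tp, hV (n * p), if_pos (Dvd.intro_left n rfl),
      Nat.mul_div_cancel _ hp.pos]
    split_ifs with hn
    · rw [add_sub_cancel_left, ← mul_assoc, inv_mul_cancel₀ hpc, one_mul]
    · rw [add_zero, sub_self, mul_zero]
  refine ⟨diamond k u⁻¹ (((p : ℂ) ^ (k - 1))⁻¹ • (Tp k hp hpN h - g)), ?_⟩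
  have h2 := isVp_diamond hp0 u⁻¹ h1
  rwa [diamond_inv_diamond] at h2

/-- the chain `V_p^m g ∈ S_k(Γ₁(N))`. -/
theorem exists_isVp_pow {p : ℕ} (hp : p.Prime) (hpN : ¬ p ∣ N) {g h : CuspForm (Gamma1 N) k}
    (hV : IsVp p g h) (m : ℕ) :
    ∃ G G' : CuspForm (Gamma1 N) k, IsVp p G G' ∧
      ∀ n : ℕ, qCoeff ⇑G n = if p ^ m ∣ n then qCoeff ⇑g (n / p ^ m) else 0 := by
  induction m with
  | zero => exact ⟨g, h, hV, fun n => by simp⟩
  | succ m ih =>
    obtain ⟨G, G', hGG', hG⟩ := ih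
    obtain ⟨G'', hG''⟩ := isVp_step hp hpN hGG'
    refine ⟨G', G'', hG'', fun n => ?_⟩
    rw [hGG' n]
    by_cases hpn : p ∣ n
    · obtain ⟨n', rfl⟩ := hpn
      rw [if_pos (Dvd.intro n' rfl), Nat.mul_div_cancel_left _ hp.pos, hG n', pow_succ']
      by_cases hd : p ^ m ∣ n'
      · rw [if_pos hd, if_pos (Nat.mul_dvd_mul_left p hd), Nat.mul_div_mul_left _ _ hp.pos]
      · rw [if_neg hd, if_neg (fun h' => hd ((Nat.mul_dvd_mul_iff_left hp.pos).mp h'))]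
    · rw [if_neg hpn, if_neg]
      exact fun hd => hpn ((dvd_pow_self p (Nat.succ_ne_zero m)).trans hd)

/-- **(L-V)**: `g, V_p g ∈ S_k(Γ₁(N))`, `p ∤ N` ⟹ `g = 0`. -/
theorem eq_zero_of_isVp {p : ℕ} (hp : p.Prime) (hpN : ¬ p ∣ N) {g h : CuspForm (Gamma1 N) k}
    (hV : IsVp p g h) : g = 0 := by
  obtain ⟨B, hB⟩ := sturm (N := N) k
  obtain ⟨G, -, -, hG⟩ := exists_isVp_pow hp hpN hV B
  have hlt : B < p ^ B := Nat.lt_pow_self hp.one_lt
  have hG0 : G = 0 := by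
    refine hB G fun n hn => ?_
    rcases Nat.eq_zero_or_pos n with rfl | hnpos
    · exact qCoeff_zero_eq_zero G
    · rw [hG n, if_neg]
      exact fun hd => absurd (Nat.le_of_dvd hnpos hd) (by omega)
  refine eq_of_forall_qCoeff_eq fun n => ?_
  rw [qCoeff_zero_form]
  have := hG (p ^ B * n)
  rw [if_pos (Dvd.intro n rfl), Nat.mul_div_cancel_left _ (pow_pos hp.pos B), hG0,
    qCoeff_zero_form] at this
  exact this.symm

end Fermat.Agent.ES.R48.LV9
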