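/-
Programme R (S48, Deligne–Serre), chapter B0 NEB (helper9): the NEBENTYPUS of the frozen form.

From the frozen hypotheses of S48 (`f ∈ S₁(Γ₁(N))`, `a₁ = 1`, the FORMAL Hecke relations
`a_{pn} + ε(p) [p ∣ n] a_{n/p} = a_p a_n` for the primes `p ∤ N`) we prove

* `diamond_eq`  : `⟨u⟩ f = ε(u) • f` for every `u : (ZMod N)ˣ`;
* `hasNeben`    : `∀ γ ∈ Γ₀(N), f ∣[1] γ = ε(γ 1 1) • f`  (literally `RatIface22.HasNeben N ε 1 f`);
* `Tp_eq`       : `T_p f = a_p • f` for the TRUE Hecke operator;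
* `eps_neg_one` : `ε(-1) = -1`.

Proof of the first: subtracting the formal relation from the true `q`-expansion of `T_p f` gives
`a_p f - T_p f = V_p(ε(p) f - ⟨p⟩ f)`; both sides lie in `S₁(Γ₁(N))`, so `ε(p) f = ⟨p⟩ f` by (L-V).
Dirichlet's theorem on primes in arithmetic progressions gives all `u`.
-/
import Mathlib
import Fermat.Agent.ES.R48.LV9

set_option autoImplicit false

open CongruenceSubgroup UpperHalfPlane ModularForm Matrix.SpecialLinearGroup
open scoped MatrixGroups ModularForm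
open Fermat.Agent.ES.R48.Gamma1Slash9 Fermat.Agent.ES.R48.TpInv9 Fermat.Agent.ES.R48.TpForm9
  Fermat.Agent.ES.R48.LV9
open ModularFormClass (qCoeff)

noncomputable section

namespace Fermat.Agent.ES.R48.Neb9

variable {N : ℕ} [NeZero N]

/-- The formal Hecke relations of the frozen statement (same as `DSIface27.HeckeRel N ε f` at
level `N`). -/
def FormalHecke (N : ℕ) (ε : DirichletCharacter ℂ N) (f : CuspForm (Gamma1 N) 1) : Prop :=
  ∀ p : ℕ, p.Prime → ¬ p ∣ N → ∀ n : ℕ,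
    qCoeff ⇑f (p * n) + ε (p : ZMod N) * (if p ∣ n then qCoeff ⇑f (n / p) else 0) =
      qCoeff ⇑f p * qCoeff ⇑f n

variable {ε : DirichletCharacter ℂ N} {f : CuspForm (Gamma1 N) 1}

/-- `⟨p⟩ f = ε(p) f` for the primes `p ∤ N`. -/
theorem diamond_prime_eq (hT : FormalHecke N ε f) {p : ℕ} (hp : p.Prime) (hpN : ¬ p ∣ N) :
    diamond 1 (primeUnit hp hpN) f = ε (p : ZMod N) • f := by
  have hV : IsVp p (ε (p : ZMod N) • f - diamond 1 (primeUnit hp hpN) f)
      (qCoeff ⇑f p • f - Tp 1 hp hpN f) := by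
    intro n
    have h := hT p hp hpN n
    rw [mul_comm p n] at h
    rw [qCoeff_sub, qCoeff_smul, qCoeff_Tp]
    simp only [sub_self, zpow_zero, one_mul]
    by_cases hn : p ∣ n
    · rw [if_pos hn, if_pos hn, qCoeff_sub, qCoeff_smul]
      rw [if_pos hn] at h
      linear_combination -h
    · rw [if_neg hn, if_neg hn, add_zero]
      rw [if_neg hn, mul_zero, add_zero] at h
      rw [h, sub_self]
  have h0 := eq_zero_of_isVp hp hpN hV
  exact (sub_eq_zero.mp h0).symm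

/-- **`⟨u⟩ f = ε(u) f` for every unit `u` mod `N`.** -/
theorem diamond_eq (hT : FormalHecke N ε f) (u : (ZMod N)ˣ) :
    diamond 1 u f = ε (u : ZMod N) • f := by
  obtain ⟨p, -, hp, hpu⟩ := Nat.forall_exists_prime_gt_and_eq_mod u.isUnit 0
  have hpN : ¬ p ∣ N := (ZMod.isUnit_prime_iff_not_dvd hp).mp (hpu ▸ u.isUnit)
  have hu : primeUnit hp hpN = u := Units.ext ((coe_primeUnit hp hpN).trans hpu)
  rw [← hu, diamond_prime_eq hT hp hpN, coe_primeUnit]

/-- **The nebentypus of `f`**: literally `RatIface22.HasNeben N ε 1 ⇑f`. -/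
theorem hasNeben (hT : FormalHecke N ε f) (γ : SL(2, ℤ)) (hγ : γ ∈ Gamma0 N) :
    ⇑f ∣[(1 : ℤ)] γ = ε ((γ 1 1 : ℤ) : ZMod N) • ⇑f := by
  rw [coe_slash_eq_diamond hγ f, diamond_eq hT, FunLike.coe_smul, coe_lowerRightUnit]

/-- **`T_p f = a_p f`** for the true Hecke operators. -/
theorem Tp_eq (hT : FormalHecke N ε f) {p : ℕ} (hp : p.Prime) (hpN : ¬ p ∣ N) :
    Tp 1 hp hpN f = qCoeff ⇑f p • f := by
  refine eq_of_forall_qCoeff_eq fun n => ?_
  have h := hT p hp hpN n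
  rw [mul_comm p n] at h
  rw [qCoeff_Tp, diamond_prime_eq hT hp hpN, qCoeff_smul, qCoeff_smul, ← h]
  simp only [sub_self, zpow_zero, one_mul]
  split_ifs <;> ring

theorem slash_neg_one_one (F : ℍ → ℂ) : F ∣[(1 : ℤ)] (-1 : SL(2, ℤ)) = -F := by
  funext τ
  rw [SL_slash_apply]
  have h1 : (-1 : SL(2, ℤ)) • τ = τ := by
    rw [ModularGroup.SL_neg_smul, one_smul]
  rw [h1]
  simp [denom]

/-- **`ε` is odd.** -/
theorem eps_neg_one (hf₁ : qCoeff ⇑f 1 = 1) (hT : FormalHecke N ε f) : ε (-1) = -1 := by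
  have hmem : (-1 : SL(2, ℤ)) ∈ Gamma0 N := by
    rw [Gamma0_mem]
    simp
  have h := hasNeben hT (-1 : SL(2, ℤ)) hmem
  rw [slash_neg_one_one] at h
  have hval : ((((-1 : SL(2, ℤ)) 1 1 : ℤ)) : ZMod N) = -1 := by simp
  rw [hval] at h
  -- compare the first `q`-coefficients of `-f` and `ε(-1) • f`
  have h2 : (-1 : ℂ) • f = ε (-1) • f := by
    refine DFunLike.coe_injective ?_
    rw [FunLike.coe_smul, FunLike.coe_smul, neg_one_smul]
    exact h
  have h3 := congrArg (fun F : CuspForm (Gamma1 N) 1 => qCoeff ⇑F 1) h2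
  simp only [qCoeff_smul, hf₁, mul_one] at h3
  exact h3.symm

end Fermat.Agent.ES.R48.Neb9
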