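/-
Programme R (S48, Deligne–Serre), chapters B-HK + B0 NEB (helper9): EXPORT.

From the frozen hypotheses of S48 (in the `DSIface27.HeckeRel` shape):

* `hasNeben`        : `RatIface22.HasNeben N ε 1 f` (the nebentypus of `f`);
* `exists_depleted` : the `N`-depleted form `f♭ = ∑_{(n,N)=1} a_n qⁿ ∈ S₁(Γ₁(N·N))` with nebentypus `ε`
                      (explicit level `N * N`, whose prime divisors are those of `N`);
* `nebData`         : `RatIface22.NebData N ε f` (what chapter RAT consumes);
* `eps_odd`         : `ε (-1) = -1`;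
* `Tp_eq`           : `T_p f = a_p • f` for the true Hecke operators.
-/
import Mathlib
import Fermat.Agent.ES.R48.DSIface27
import Fermat.Agent.ES.R48.RatIface22
import Fermat.Agent.ES.R48.Neb9
import Fermat.Agent.ES.R48.Deplete2

set_option autoImplicit false

open CongruenceSubgroup UpperHalfPlane ModularForm
open scoped MatrixGroups ModularForm
open ModularFormClass (qCoeff)

noncomputable section

namespace Fermat.Agent.ES.R48.NebData9

variable {N : ℕ} [NeZero N] {ε : DirichletCharacter ℂ N} {f : CuspForm (Gamma1 N) 1}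

omit [NeZero N] in
/-- the frozen `hT` is `Neb9.FormalHecke`. -/
theorem formalHecke (hT : DSIface27.HeckeRel N ε f) : Neb9.FormalHecke N ε f := hT

/-- **The nebentypus of the frozen form.** -/
theorem hasNeben (hT : DSIface27.HeckeRel N ε f) : RatIface22.HasNeben N ε 1 ⇑f :=
  fun γ hγ => Neb9.hasNeben (formalHecke hT) γ hγ

/-- **The `N`-depletion of the frozen form**, explicit level `N * N`. -/
theorem exists_depleted (hT : DSIface27.HeckeRel N ε f) :
    ∃ fd : CuspForm (Gamma1 (N * N)) 1, RatIface22.HasNeben (N * N) ε 1 ⇑fd ∧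
      ∀ n : ℕ, qCoeff ⇑fd n = if n.Coprime N then qCoeff ⇑f n else 0 :=
  Deplete2.exists_depletion N 1 ε f (hasNeben hT)

/-- **What RAT consumes.** -/
theorem nebData (hT : DSIface27.HeckeRel N ε f) : RatIface22.NebData N ε f := by
  obtain ⟨fd, h1, h2⟩ := exists_depleted hT
  exact ⟨N * N, ⟨Nat.mul_ne_zero (NeZero.ne N) (NeZero.ne N)⟩, fd, dvd_mul_right N N, h1, h2⟩

/-- **`ε` is odd.** -/
theorem eps_odd (hf₁ : qCoeff ⇑f 1 = 1) (hT : DSIface27.HeckeRel N ε f) : ε (-1) = -1 :=
  Neb9.eps_neg_one hf₁ (formalHecke hT)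

/-- **`f` is an eigenform of the true Hecke operators.** -/
theorem Tp_eq (hT : DSIface27.HeckeRel N ε f) {p : ℕ} (hp : p.Prime) (hpN : ¬ p ∣ N) :
    TpForm9.Tp 1 hp hpN f = qCoeff ⇑f p • f :=
  Neb9.Tp_eq (formalHecke hT) hp hpN

omit [NeZero N] in
/-- the prime divisors of the level `N * N` are those of `N`. -/
theorem prime_dvd_level {p : ℕ} (hp : p.Prime) (h : p ∣ N * N) : p ∣ N :=
  (hp.dvd_mul.mp h).elim id id

end Fermat.Agent.ES.R48.NebData9
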