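/-
Programme R (S48, Deligne–Serre), HALF B, ASSEMBLY (helper12, half-B integrator).

`halfB_of_open_exports : RatExport → LiftInstExport → GeomExport → GlueExport → DSIface27.HalfB`
(literal `Prop`s of `HalfBIface12`), via helper19's `NumFieldPack19.dsContract_of` and helper9's
`NebData9.exists_depleted` (level `N * N`).  The two levels are `M₁ = N·N·ℓ·4` and `M₂ = N·N·ℓ·9`;
the exceptional set is `S₀ = {2, 3} ∪ {p ∣ N}`.
-/
import Mathlib
import Fermat.Agent.ES.R48.HalfBIface12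
import Fermat.Agent.ES.R48.NebData9

set_option autoImplicit false

open CongruenceSubgroup NumberField
open scoped MatrixGroups
open ModularFormClass (qCoeff)
open Fermat.Agent.ES.R48.DSIface27 Fermat.Agent.ES.R48.HalfBIface12
open Fermat.Agent.ES.R48.IntegralAp19 Fermat.Agent.ES.R48.NumFieldPack19

noncomputable section

namespace Fermat.Agent.ES.R48.HalfBFinal12

/-! ### The depleted sequence -/

section Dep

variable {N : ℕ} {ε : DirichletCharacter ℂ N} {f : CuspForm (Gamma1 N) 1}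

theorem dep_of_coprime {n : ℕ} (h : n.Coprime N) : dep N f n = qCoeff f n := if_pos h

theorem dep_of_not_coprime {n : ℕ} (h : ¬ n.Coprime N) : dep N f n = 0 := if_neg h

theorem dep_prime {p : ℕ} (hp : p.Prime) (hpN : ¬ p ∣ N) : dep N f p = qCoeff f p :=
  dep_of_coprime ((Nat.Prime.coprime_iff_not_dvd hp).mpr hpN)

theorem dep_zero : dep N f 0 = 0 := by
  unfold dep
  split_ifs
  · exact CuspFormClass.qExpansion_coeff_zero f one_pos (TpForm9.one_mem_strictPeriods_Gamma1 N)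
  · rfl

theorem dep_one (hf₁ : qCoeff f 1 = 1) : dep N f 1 = 1 := by
  rw [dep_of_coprime (Nat.coprime_one_left N), hf₁]

/-- the depleted sequence satisfies the formal Hecke relations. -/
theorem dep_seqHeckeRel (hT : HeckeRel N ε f) : SeqHeckeRel N (fun x => ε x) (dep N f) := by
  intro p hp hpN n
  have hpc : p.Coprime N := (Nat.Prime.coprime_iff_not_dvd hp).mpr hpN
  by_cases hn : n.Coprime N
  · rw [dep_of_coprime (Nat.Coprime.mul_left hpc hn), dep_prime hp hpN, dep_of_coprime hn, ← hT p hp hpN n]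
    congr 2
    split_ifs with hd
    · exact dep_of_coprime (Nat.Coprime.coprime_dvd_left (Nat.div_dvd_of_dvd hd) hn)
    · rfl
  · have h1 : ¬ (p * n).Coprime N := fun h => hn (Nat.Coprime.coprime_mul_left h)
    rw [dep_of_not_coprime h1, dep_of_not_coprime hn, mul_zero, zero_add]
    split_ifs with hd
    · obtain ⟨m, rfl⟩ := hd
      rw [Nat.mul_div_cancel_left m hp.pos]
      have hm : ¬ m.Coprime N := fun h => hn (Nat.Coprime.mul_left hpc h)
      rw [dep_of_not_coprime hm, mul_zero]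
    · rw [mul_zero]

end Dep

/-! ### Every coefficient of a depleted Hecke sequence lies in any subring containing the
generators -/

theorem mem_subring_of_gens {N : ℕ} {ε : ZMod N → ℂ} {a : ℕ → ℂ} (S : Subring ℂ)
    (ha0 : a 0 = 0) (ha1 : a 1 = 1) (hT : SeqHeckeRel N ε a)
    (hdep : ∀ n : ℕ, ¬ n.Coprime N → a n = 0)
    (hε : ∀ x : ZMod N, ε x ∈ S) (hp : ∀ p : ℕ, p.Prime → ¬ p ∣ N → a p ∈ S) (n : ℕ) :
    a n ∈ S := by
  induction n using Nat.strong_induction_on with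
  | _ n ih =>
    rcases Nat.lt_or_ge n 2 with hn | hn
    · interval_cases n
      · rw [ha0]; exact zero_mem _
      · rw [ha1]; exact one_mem _
    · by_cases hc : n.Coprime N
      · have hn1 : n ≠ 1 := by omega
        have hq : n.minFac.Prime := Nat.minFac_prime hn1
        have hqn : n.minFac ∣ n := Nat.minFac_dvd n
        have hqN : ¬ n.minFac ∣ N := by
          intro h
          have h2 : n.minFac ∣ Nat.gcd n N := Nat.dvd_gcd hqn h
          rw [Nat.Coprime] at hc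
          rw [hc] at h2
          exact hq.one_lt.ne' (Nat.dvd_one.mp h2)
        obtain ⟨m, hm⟩ := hqn
        have hmpos : 0 < m := by
          rcases Nat.eq_zero_or_pos m with h | h
          · rw [h, mul_zero] at hm; omega
          · exact h
        have hmlt : m < n := by
          conv_rhs => rw [hm]
          exact lt_mul_of_one_lt_left hmpos hq.one_lt
        have h := hT n.minFac hq hqN m
        have hval : a n = a n.minFac * a m -
            ε (n.minFac : ZMod N) * (if n.minFac ∣ m then a (m / n.minFac) else 0) := by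
          conv_lhs => rw [hm]
          rw [← h]; ring
        rw [hval]
        refine sub_mem (mul_mem (hp _ hq hqN) (ih m hmlt)) (mul_mem (hε _) ?_)
        split_ifs
        · exact ih _ (lt_of_le_of_lt (Nat.div_le_self m _) hmlt)
        · exact zero_mem _
      · rw [hdep n hc]; exact zero_mem _

/-! ### `FrobData` calculus -/

section Frob

variable {k : Type} [CommRing k] {ρ : GQ →* GL (Fin 2) k}

theorem frobData_congr {M : ℕ} {t t' d d' : ℕ → k}
    (ht : ∀ p : ℕ, p.Prime → ¬ p ∣ M → t p = t' p) (hd : ∀ p : ℕ, p.Prime → ¬ p ∣ M → d p = d' p)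
    (h : FrobData M ρ t d) : FrobData M ρ t' d' := by
  intro p hp hpM A hA
  obtain ⟨h1, h2⟩ := h p hp hpM A hA
  refine ⟨h1, fun σ hσ => ?_⟩
  rw [← ht p hp hpM, ← hd p hp hpM]
  exact h2 σ hσ

theorem frobData_combine {M M₁ M₂ : ℕ} {t d : ℕ → k}
    (hM : ∀ p : ℕ, p.Prime → ¬ p ∣ M → ¬ p ∣ M₁ ∨ ¬ p ∣ M₂)
    (h1 : FrobData M₁ ρ t d) (h2 : FrobData M₂ ρ t d) : FrobData M ρ t d := by
  intro p hp hpM A hA
  rcases hM p hp hpM with h | h
  · exact h1 p hp h A hA
  · exact h2 p hp h A hA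

end Frob

/-! ### Transporting a reduction map to a subring of `ℂ` -/

theorem exists_phi0 {A : Type*} [CommRing A] (j : A →+* ℂ) (hj : Function.Injective j)
    {k : Type*} [Semiring k] (φ : A →+* k) :
    ∃ φ₀ : j.range →+* k, ∀ (x : A) (h : j x ∈ j.range), φ₀ ⟨j x, h⟩ = φ x := by
  let e : A ≃+* j.range := RingEquiv.ofBijective j.rangeRestrict
    ⟨fun x y hxy => hj (congrArg Subtype.val hxy), j.rangeRestrict_surjective⟩
  refine ⟨φ.comp e.symm.toRingHom, fun x h => ?_⟩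
  have hx : (⟨j x, h⟩ : j.range) = e x := rfl
  rw [hx]
  simp

/-! ### One level -/

/-- the casts of a natural number through `ZMod M'`. -/
theorem cast_unitOfCoprime {M' m : ℕ} (hm : m ∣ M') {p : ℕ} (h : p.Coprime M') :
    (ZMod.cast ((ZMod.unitOfCoprime p h : (ZMod M')ˣ) : ZMod M') : ZMod m) = (p : ZMod m) := by
  rw [ZMod.coe_unitOfCoprime, ZMod.cast_natCast hm]

/-- **One level.**  From `LiftInstExport` and `GeomExport`: the mod-`ℓ` representation at a level
`M'` (`N·N ∣ M'`, `ℓ ∣ M'`, `4 ∣ M'` or `9 ∣ M'`) with the reduced Frobenius data of the frozen form. -/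
theorem exists_rho_level (hLift : LiftInstExport) (hGeom : GeomExport)
    {N : ℕ} [NeZero N] (ε : DirichletCharacter ℂ N) (f : CuspForm (Gamma1 N) 1)
    (hf₁ : qCoeff f 1 = 1) (hT : HeckeRel N ε f)
    (hinta : ∀ p : ℕ, p.Prime → ¬ p ∣ N → IsIntegral ℤ (dep N f p))
    (hinte : ∀ x : ZMod N, IsIntegral ℤ (ε x))
    {ℓ : ℕ} (hℓ : ℓ.Prime) (hℓ5 : 5 ≤ ℓ) (hℓN : ¬ ℓ ∣ N)
    (φ : 𝓞 (KF ε (dep N f)) →+* ZMod ℓ)
    (M' : ℕ) [NeZero M'] (hNM : N * N ∣ M') (hℓM : ℓ ∣ M') (hB : 4 ∣ M' ∨ 9 ∣ M') :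
    ∃ ρb : GQ →* GL (Fin 2) (ZMod ℓ), GaloisFactorsThroughFiniteLevel ρb ∧ IsSemisimple2 ρb ∧
      FrobData M' ρb (fun p => φ (aO ε (dep N f) p))
        (fun p => φ (eO ε (dep N f) (p : ZMod N))) := by
  obtain ⟨fd, hfdN, hfdq⟩ := NebData9.exists_depleted hT
  have hNN : NeZero (N * N) := ⟨Nat.mul_ne_zero (NeZero.ne N) (NeZero.ne N)⟩
  have hfdq' : (fun n => qCoeff fd n) = dep N f := funext fun n => hfdq n
  have ha0 : dep N f 0 = 0 := dep_zero
  have ha1 : dep N f 1 = 1 := dep_one hf₁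
  have hSeq : SeqHeckeRel N (fun x => ε x) (dep N f) := dep_seqHeckeRel hT
  have hdep : ∀ n : ℕ, ¬ n.Coprime N → dep N f n = 0 := fun n hn => dep_of_not_coprime hn
  -- the subring `𝒪₀ = ι(𝓞 K)` of `ℂ` and the transported reduction map
  let j : 𝓞 (KF ε (dep N f)) →+* ℂ :=
    (algebraMap (KF ε (dep N f)) ℂ).comp (algebraMap (𝓞 (KF ε (dep N f))) (KF ε (dep N f)))
  have hj : Function.Injective j :=
    (algebraMap (KF ε (dep N f)) ℂ).injective.comp RingOfIntegers.coe_injective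
  obtain ⟨φ₀, hφ₀⟩ := exists_phi0 j hj φ
  have hφ₀' : ∀ (z : ℂ) (h : z ∈ j.range) (x : 𝓞 (KF ε (dep N f))), z = j x → φ₀ ⟨z, h⟩ = φ x := by
    intro z h x hzx
    subst hzx
    exact hφ₀ x h
  have hja : ∀ p : ℕ, p.Prime → ¬ p ∣ N → dep N f p = j (aO ε (dep N f) p) := fun p hp hpN =>
    (iota_aO ε (dep N f) hp hpN (hinta p hp hpN)).symm
  have hje : ∀ x : ZMod N, ε x = j (eO ε (dep N f) x) := fun x =>
    (iota_eO ε (dep N f) x (hinte x)).symm
  have hmema : ∀ n : ℕ, dep N f n ∈ j.range := by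
    intro n
    have hK : dep N f n ∈ KF ε (dep N f) := a_mem_ratField ha0 ha1 hSeq hdep n
    have hint : IsIntegral ℤ (dep N f n) :=
      mem_subring_of_gens (integralClosure ℤ ℂ).toSubring ha0 ha1 hSeq hdep hinte hinta n
    exact ⟨mkO (dep N f n) hK hint, rfl⟩
  have hmeme : ∀ x : ZMod N, ε x ∈ j.range := fun x => ⟨eO ε (dep N f) x, (hje x).symm⟩
  have hℓNN : ¬ ℓ ∣ N * N := fun h => hℓN ((hℓ.dvd_mul.mp h).elim id id)
  obtain ⟨θT, θD, hθT, hθD, hEL⟩ := hLift N ε (N * N) fd (dvd_mul_right N N) hfdN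
    (by rw [hfdq 1]; exact ha1) (by rw [hfdq']; exact hSeq) ℓ hℓ hℓ5 hℓNN j.range φ₀
    (fun n => by rw [hfdq n]; exact hmema n) hmeme M' hNM hℓM
  obtain ⟨ρb, h1, h2, h3⟩ := hGeom M' ℓ hℓ hℓ5 hℓM hB θT θD hEL
  refine ⟨ρb, h1, h2, frobData_congr ?_ ?_ h3⟩
  · intro p hp hpM
    have hpN : ¬ p ∣ N := fun h => hpM ((h.mul_right N).trans hNM)
    have hmem : qCoeff fd p ∈ j.range := by rw [hfdq p]; exact hmema p
    rw [hθT p hp hpM hmem]
    exact hφ₀' _ hmem _ ((hfdq p).trans (hja p hp hpN))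
  · intro p hp hpM
    have hc : p.Coprime M' := (Nat.Prime.coprime_iff_not_dvd hp).mpr hpM
    have hNM' : N ∣ M' := (dvd_mul_right N N).trans hNM
    have key := hθD (ZMod.unitOfCoprime p hc) (hmeme _)
    rw [cast_unitOfCoprime hℓM hc] at key
    rw [detOf, dif_pos hc, mul_comm, key]
    refine hφ₀' _ _ _ ?_
    rw [cast_unitOfCoprime hNM' hc]
    exact hje _

/-- **HALF B from the open exports.** -/
theorem halfB_of_open_exports (hRat : RatExport) (hLift : LiftInstExport) (hGeom : GeomExport)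
    (hGlue : GlueExport) : HalfB := by
  intro N _ ε f hf₁ hT
  obtain ⟨hinta, hinte, hfd, hconj⟩ := hRat N ε f hf₁ hT
  have hinta' : ∀ p : ℕ, p.Prime → ¬ p ∣ N → IsIntegral ℤ (dep N f p) := fun p hp hpN => by
    rw [dep_prime hp hpN]; exact hinta p hp hpN
  refine dsContract_of ε (dep N f) (fun p => qCoeff f p) (fun p hp hpN => dep_prime hp hpN)
    dep_zero (dep_one hf₁) (dep_seqHeckeRel hT) (fun n hn => dep_of_not_coprime hn) hinta' hinte hfd
    ?_ ?_
  · intro τ
    obtain ⟨N', hN', fτ, h⟩ := hconj τ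
    exact ⟨N', hN', fτ, fun n => h n _ rfl⟩
  · refine ⟨insert 2 (insert 3 N.primeFactors), fun ℓ hℓ hℓS φ => ?_⟩
    simp only [Finset.mem_insert, not_or] at hℓS
    obtain ⟨hℓ2, hℓ3, hℓNp⟩ := hℓS
    have hℓN : ¬ ℓ ∣ N := fun h => hℓNp (Nat.mem_primeFactors.mpr ⟨hℓ, h, NeZero.ne N⟩)
    have hℓ5 : 5 ≤ ℓ := by
      have h2 := hℓ.two_le
      by_contra hlt
      have : ℓ = 4 := by omega
      rw [this] at hℓ
      exact absurd hℓ (by decide)
    have hN0 : N ≠ 0 := NeZero.ne N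
    have hM₁ : NeZero (N * N * ℓ * 4) :=
      ⟨by have := hℓ.ne_zero; positivity⟩
    have hM₂ : NeZero (N * N * ℓ * 9) :=
      ⟨by have := hℓ.ne_zero; positivity⟩
    obtain ⟨ρ₁, h11, h12, h13⟩ := exists_rho_level hLift hGeom ε f hf₁ hT hinta' hinte hℓ hℓ5 hℓN φ
      (N * N * ℓ * 4) (Dvd.intro _ (mul_assoc _ _ _).symm) ((Dvd.intro_left _ rfl).mul_right 4)
      (Or.inl (Dvd.intro_left _ rfl))
    obtain ⟨ρ₂, h21, h22, h23⟩ := exists_rho_level hLift hGeom ε f hf₁ hT hinta' hinte hℓ hℓ5 hℓN φ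
      (N * N * ℓ * 9) (Dvd.intro _ (mul_assoc _ _ _).symm) ((Dvd.intro_left _ rfl).mul_right 9)
      (Or.inr (Dvd.intro_left _ rfl))
    have h13' := hGlue ℓ hℓ hℓ2 _ _ (NeZero.ne _) (NeZero.ne _) ρ₁ ρ₂ _ _ h11 h12 h13 h21 h22 h23
    refine ⟨ρ₁, h11, h12, frobData_combine ?_ h13 h13'⟩
    intro p hp hpM
    have hpN : ¬ p ∣ N := fun h => hpM (h.mul_right ℓ)
    have hpℓ : ¬ p ∣ ℓ := fun h => hpM (h.mul_left N)
    by_cases hp2 : p = 2
    · right
      intro h
      rcases hp.dvd_mul.mp h with h | h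
      · rcases hp.dvd_mul.mp h with h | h
        · exact hpN ((hp.dvd_mul.mp h).elim id id)
        · exact hpℓ h
      · rw [hp2] at h
        omega
    · left
      intro h
      rcases hp.dvd_mul.mp h with h | h
      · rcases hp.dvd_mul.mp h with h | h
        · exact hpN ((hp.dvd_mul.mp h).elim id id)
        · exact hpℓ h
      · have h4 : p ∣ 2 ^ 2 := by simpa using h
        exact hp2 ((Nat.prime_dvd_prime_iff_eq hp Nat.prime_two).mp (hp.dvd_of_dvd_pow h4))

end Fermat.Agent.ES.R48.HalfBFinal12
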