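/-
Programme R (S48), chapter RAT (helper22): the ONE weight-two product behind integrality.
`g_D := f♭·E_χ − f♭·V₂E_χ ∈ S₂(Γ₀(2M))` (trivial character) has `q`-expansion
`qExp f♭ · (X · u)` with `u = ∑_n (σ_χ(n+1) − [2 ∣ n+1] σ_χ((n+1)/2)) Xⁿ ∈ ℤ[ε]⟦X⟧`, `u(0) = 1`
(the constant terms of `E_χ` and `V₂E_χ` cancel).  Shape = input of `RatAlg19.exists_M0`.
-/
import Mathlib
import Fermat.Prelude.Def_FLTPrelim_Modularity
import Fermat.Agent.ES.R48.RatIface22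
import Fermat.Agent.ES.R48.VtOp22
import Fermat.Agent.ES.R48.MulNeben22
import Fermat.Agent.ES.R48.RatAlg19

set_option autoImplicit false

open CongruenceSubgroup UpperHalfPlane ModularForm Filter Topology Matrix PowerSeries
open scoped MatrixGroups ModularForm

noncomputable section

namespace Fermat.Agent.ES.R48.RatAlpha22

open Fermat.Agent.ES.R48.RatIface22 Fermat.Agent.ES.R48.VtOp22 Fermat.Agent.ES.R48.MulNeben22
open Fermat.Agent.ES.R48.RatAlg19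

/-- `qExpansion 1 F` as `PowerSeries.mk (qCoeff F)`. -/
lemma mk_qCoeff (F : ℍ → ℂ) : PowerSeries.mk (fun n => ModularFormClass.qCoeff F n) = qExpansion 1 F := by
  ext n
  simp [ModularFormClass.qCoeff]

lemma sigmaChi_mem_Zeps {N L : ℕ} (ε : DirichletCharacter ℂ N) (χ : DirichletCharacter ℂ L)
    (hχ : ∀ k : ZMod L, χ k ∈ Zeps (fun x => ε x)) (n : ℕ) :
    sigmaChi χ n ∈ Zeps (fun x => ε x) :=
  Subalgebra.sum_mem _ fun _ _ => hχ _

lemma sigmaChi_one {L : ℕ} (χ : DirichletCharacter ℂ L) : sigmaChi χ 1 = 1 := by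
  simp [sigmaChi]

/-- the series `u`. -/
def uSeries {L : ℕ} (χ : DirichletCharacter ℂ L) : PowerSeries ℂ :=
  PowerSeries.mk fun n => sigmaChi χ (n + 1) - if 2 ∣ n + 1 then sigmaChi χ ((n + 1) / 2) else 0

lemma coeff_uSeries_mem {N L : ℕ} (ε : DirichletCharacter ℂ N) (χ : DirichletCharacter ℂ L)
    (hχ : ∀ k : ZMod L, χ k ∈ Zeps (fun x => ε x)) (n : ℕ) :
    coeff n (uSeries χ) ∈ Zeps (fun x => ε x) := by
  rw [uSeries, coeff_mk]
  refine Subalgebra.sub_mem _ (sigmaChi_mem_Zeps ε χ hχ _) ?_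
  split_ifs
  · exact sigmaChi_mem_Zeps ε χ hχ _
  · exact Subalgebra.zero_mem _

lemma constantCoeff_uSeries {L : ℕ} (χ : DirichletCharacter ℂ L) :
    constantCoeff (uSeries χ) = 1 := by
  rw [← coeff_zero_eq_constantCoeff_apply, uSeries, coeff_mk]
  simp [sigmaChi_one]


/-- `qExp E_χ − qExp V₂E_χ = X · u`. -/
lemma qExp_sub_eq {L : ℕ} [NeZero L] {χ : DirichletCharacter ℂ L} (ED : EisData L χ) :
    qExpansion 1 ED.E - qExpansion 1 (Vt L 2 ED.E) = X * uSeries χ := by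
  ext n
  have hV := qCoeff_Vt L 2 ED.E
  simp only [ModularFormClass.qCoeff] at hV
  rcases n with _ | n
  · rw [map_sub, hV 0]
    simp
  · rw [map_sub, hV (n + 1), coeff_succ_X_mul, uSeries, coeff_mk]
    have h1 := ED.qCoeff_pos (n + 1) (Nat.succ_pos n)
    simp only [ModularFormClass.qCoeff] at h1
    rw [h1]
    congr 1
    split_ifs with h2
    · have hpos : 0 < (n + 1) / 2 := by
        obtain ⟨m, hm⟩ := h2
        omega
      have h3 := ED.qCoeff_pos ((n + 1) / 2) hpos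
      simp only [ModularFormClass.qCoeff] at h3
      exact h3
    · rfl

/-- **(α)**: the weight-two form `g_D` on `Γ₀(2M)` with `qExp g_D = qExp f♭ · (X · u)`. -/
theorem exists_gD {N M L : ℕ} [NeZero M] [NeZero L]
    (ε : DirichletCharacter ℂ N) (χ : DirichletCharacter ℂ L) (hLM : L ∣ M)
    (fd : CuspForm (Gamma1 M) 1) (hfd : HasNeben M ε 1 fd)
    (hεχ : ∀ γ : SL(2, ℤ), γ ∈ Gamma0 M →
      ε ((γ 1 1 : ℤ) : ZMod N) * χ ((γ 1 1 : ℤ) : ZMod L) = 1)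
    (hχ : ∀ k : ZMod L, χ k ∈ Zeps (fun x => ε x))
    (ED : EisData L χ) :
    ∃ (gD : CuspForm (Gamma0 (M * 2)) 2) (u : PowerSeries ℂ),
      (∀ n, coeff n u ∈ Zeps (fun x => ε x)) ∧ constantCoeff u = 1 ∧
      PowerSeries.mk (fun n => ModularFormClass.qCoeff fd n) * (X * u) =
        PowerSeries.mk (fun n => ModularFormClass.qCoeff gD n) := by
  have hM2 : NeZero (M * 2) := ⟨Nat.mul_ne_zero (NeZero.ne M) two_ne_zero⟩
  have hL2 : NeZero (L * 2) := ⟨Nat.mul_ne_zero (NeZero.ne L) two_ne_zero⟩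
  have h1 : Gamma0 (M * 2) ≤ Gamma0 M := Gamma0_le_of_dvd (Dvd.intro 2 rfl)
  have h2 : Gamma0 (M * 2) ≤ Gamma0 L := Gamma0_le_of_dvd (hLM.mul_right 2)
  have h3 : Gamma0 (M * 2) ≤ Gamma0 (L * 2) := Gamma0_le_of_dvd (Nat.mul_dvd_mul_right hLM 2)
  have hεχ' : ∀ γ : SL(2, ℤ), γ ∈ Gamma0 (M * 2) →
      ε ((γ 1 1 : ℤ) : ZMod N) * χ ((γ 1 1 : ℤ) : ZMod L) = 1 := fun γ hγ => hεχ γ (h1 hγ)
  set g₁ : CuspForm (Gamma0 (M * 2)) 2 := mulNeben fd hfd ED.E ED.neben h1 h2 hεχ' with hg₁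
  set g₂ : CuspForm (Gamma0 (M * 2)) 2 :=
    mulNeben fd hfd (Vt L 2 ED.E) (Vt_neben L 2 ED.E ED.neben) h1 h3 hεχ' with hg₂
  refine ⟨g₁ - g₂, uSeries χ, coeff_uSeries_mem ε χ hχ, constantCoeff_uSeries χ, ?_⟩
  rw [mk_qCoeff, mk_qCoeff]
  have hsub : qExpansion 1 (⇑(g₁ - g₂) : ℍ → ℂ) = qExpansion 1 g₁ - qExpansion 1 g₂ := by
    have : (⇑(g₁ - g₂) : ℍ → ℂ) = ⇑g₁ - ⇑g₂ := rfl
    rw [this]
    exact UpperHalfPlane.qExpansion_sub
      (ModularFormClass.analyticAt_cuspFunction_zero g₁ one_pos (by simp))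
      (ModularFormClass.analyticAt_cuspFunction_zero g₂ one_pos (by simp))
  rw [hsub, hg₁, hg₂, qExpansion_mulNeben, qExpansion_mulNeben, ← mul_sub, qExp_sub_eq]

end Fermat.Agent.ES.R48.RatAlpha22
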