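/-
Programme R (S48), chapter RAT (helper22): ASSEMBLY.
From the depleted form `f♭` with nebentypus `ε` (`NebData`, B0/B-HK), the weight-one Eisenstein
series of odd primitive characters (`EisData`, B4) and the elementary character facts, all the
hypotheses of `NumFieldPack19.dsContract_of` except (modlam):
`a_0 = 0`, `a_1 = 1`, the formal Hecke relations, depletion, integrality of `a_p`, finiteness of
`K = ℚ(ε, a_p)`, and a weight-one cusp form `f_τ` with coefficients `τ(a_n)` for every `τ : K →+* ℂ`.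
-/
import Mathlib
import Fermat.Prelude.Def_FLTPrelim_Modularity
import Fermat.Agent.ES.R48.DSIface27
import Fermat.Agent.ES.R48.RatIface22
import Fermat.Agent.ES.R48.DivForm22
import Fermat.Agent.ES.R48.RatAlpha22
import Fermat.Agent.ES.R48.ConjOne22
import Fermat.Agent.ES.R48.RatAlg19
import Fermat.Agent.ES.R48.IntegralAp19
import Fermat.Agent.ES.R48.NumFieldPack19
import Fermat.Agent.ES.R48.CharPrim19

set_option autoImplicit false

open CongruenceSubgroup UpperHalfPlane ModularForm Filter Topology Matrix PowerSeries NumberField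
open scoped MatrixGroups ModularForm

noncomputable section

namespace Fermat.Agent.ES.R48.RatMain22

open Fermat.Agent.ES.R48.RatIface22 Fermat.Agent.ES.R48.DSIface27
open Fermat.Agent.ES.R48.IntegralAp19 Fermat.Agent.ES.R48.NumFieldPack19
open Fermat.Agent.ES.R48.RatAlg19 Fermat.Agent.ES.R48.CharPrim19

/-- the `N`-depleted coefficient sequence of `f`. -/
def depl (N : ℕ) (f : CuspForm (Gamma1 N) 1) : ℕ → ℂ :=
  fun n => if n.Coprime N then ModularFormClass.qCoeff f n else 0

section seq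

variable {N : ℕ} (ε : DirichletCharacter ℂ N) (f : CuspForm (Gamma1 N) 1)

lemma depl_zero : depl N f 0 = 0 := by
  unfold depl
  split_ifs
  · exact CuspFormClass.qExpansion_coeff_zero f one_pos
      (MulNeben22.one_mem_strictPeriods_Gamma1 N)
  · rfl

lemma depl_one (hf₁ : ModularFormClass.qCoeff f 1 = 1) : depl N f 1 = 1 := by
  unfold depl
  rw [if_pos (Nat.coprime_one_left N), hf₁]

lemma depl_of_not_coprime (n : ℕ) (h : ¬ n.Coprime N) : depl N f n = 0 := by
  unfold depl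
  rw [if_neg h]

lemma depl_prime {p : ℕ} (hp : p.Prime) (hpN : ¬ p ∣ N) :
    depl N f p = ModularFormClass.qCoeff f p := by
  unfold depl
  rw [if_pos ((Nat.Prime.coprime_iff_not_dvd hp).mpr hpN)]

/-- the depleted sequence satisfies the formal Hecke relations. -/
lemma seqHeckeRel_depl (hT : HeckeRel N ε f) : SeqHeckeRel N (fun x => ε x) (depl N f) := by
  intro p hp hpN n
  have hpc : p.Coprime N := (Nat.Prime.coprime_iff_not_dvd hp).mpr hpN
  by_cases hn : n.Coprime N
  · have h1 : (p * n).Coprime N := Nat.Coprime.mul_left hpc hn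
    have h2 : p ∣ n → (n / p).Coprime N := fun hd =>
      Nat.Coprime.coprime_dvd_left (Nat.div_dvd_of_dvd hd) hn
    have := hT p hp hpN n
    unfold depl
    rw [if_pos h1, if_pos hpc, if_pos hn]
    split_ifs with hd h3
    · rw [if_pos hd] at this
      exact this
    · exact absurd (h2 hd) h3
    · rw [if_neg hd] at this
      exact this
  · have h1 : ¬ (p * n).Coprime N := fun h => hn (Nat.Coprime.coprime_mul_left h)
    have h2 : p ∣ n → ¬ (n / p).Coprime N := by
      intro hd h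
      apply hn
      obtain ⟨m, rfl⟩ := hd
      rw [Nat.mul_div_cancel_left m hp.pos] at h
      exact Nat.Coprime.mul_left hpc h
    rw [depl_of_not_coprime f _ h1, depl_of_not_coprime f _ hn]
    split_ifs with hd
    · rw [depl_of_not_coprime f _ (h2 hd)]
      simp
    · simp

end seq

/-- a non-zero weight-one function with nebentypus `ε` on `Γ₀(M)` forces `ε(-1) = -1`. -/
lemma eps_neg_one_of_hasNeben {M N : ℕ} (ε : DirichletCharacter ℂ N) (F : ℍ → ℂ)
    (hF : HasNeben M ε 1 F) (hF0 : F ≠ 0) : ε (-1) = -1 := by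
  have hmem : (-1 : SL(2, ℤ)) ∈ Gamma0 M := by
    rw [Gamma0_mem]
    simp
  have h1 := hF (-1) hmem
  rw [DivForm22.slash_neg_one F 1, SlashAction.slash_one] at h1
  have hd : (((-1 : SL(2, ℤ)) 1 1 : ℤ) : ZMod N) = -1 := by
    simp
  rw [hd] at h1
  by_contra hne
  apply hF0
  ext z
  have h2 := congrFun h1 z
  simp only [Pi.neg_apply, Pi.smul_apply, smul_eq_mul, Pi.zero_apply] at h2 ⊢
  have h3 : (ε (-1) + 1) * F z = 0 := by linear_combination -h2
  rcases mul_eq_zero.mp h3 with h | h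
  · exact absurd (eq_neg_of_add_eq_zero_left h) hne
  · exact h


section core

variable {N M L : ℕ} [NeZero N] [NeZero M] [NeZero L]
  (ε : DirichletCharacter ℂ N) (f : CuspForm (Gamma1 N) 1)

/-- **integrality and finiteness** from one Eisenstein series `E_χ`, `χ = ε̄` primitive. -/
theorem integral_finite_of_data
    (hf₁ : ModularFormClass.qCoeff f 1 = 1) (hT : HeckeRel N ε f)
    (fd : CuspForm (Gamma1 M) 1) (hfd : HasNeben M ε 1 fd)
    (hcoef : ∀ n, ModularFormClass.qCoeff fd n = depl N f n)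
    (χ : DirichletCharacter ℂ L) (hLM : L ∣ M)
    (hεχ : ∀ γ : SL(2, ℤ), γ ∈ Gamma0 M →
      ε ((γ 1 1 : ℤ) : ZMod N) * χ ((γ 1 1 : ℤ) : ZMod L) = 1)
    (hχ : ∀ k : ZMod L, χ k ∈ Zeps (fun x => ε x))
    (ED : EisData L χ) :
    (∀ p : ℕ, p.Prime → ¬ p ∣ N → IsIntegral ℤ (depl N f p)) ∧
      FiniteDimensional ℚ (KF ε (depl N f)) := by
  obtain ⟨gD, u, hu, hu0, hprod⟩ := RatAlpha22.exists_gD ε χ hLM fd hfd hεχ hχ ED
  have hM2 : NeZero (M * 2) := ⟨Nat.mul_ne_zero (NeZero.ne M) two_ne_zero⟩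
  have hseq : (fun n => ModularFormClass.qCoeff fd n) = depl N f := funext hcoef
  rw [hseq] at hprod
  exact integral_and_finite ε gD (depl N f) u hu hu0 hprod (depl_one f hf₁)
    (seqHeckeRel_depl ε f hT)

omit [NeZero N] in
/-- all depleted coefficients lie in the coefficient field. -/
theorem depl_mem_KF (hf₁ : ModularFormClass.qCoeff f 1 = 1) (hT : HeckeRel N ε f) (n : ℕ) :
    depl N f n ∈ KF ε (depl N f) :=
  a_mem_ratField (depl_zero f) (depl_one f hf₁) (seqHeckeRel_depl ε f hT)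
    (depl_of_not_coprime f) n

omit [NeZero N] in
/-- **the conjugate form** for one `τ : K →+* ℂ`, from the Eisenstein series of `χ` and of its
conjugate `χ'`. -/
theorem conj_of_data
    (hf₁ : ModularFormClass.qCoeff f 1 = 1) (hT : HeckeRel N ε f)
    (fd : CuspForm (Gamma1 M) 1) (hfd : HasNeben M ε 1 fd)
    (hcoef : ∀ n, ModularFormClass.qCoeff fd n = depl N f n)
    (hNM : N ∣ M) (hLM : L ∣ M)
    (χ : DirichletCharacter ℂ L)
    (hεχ : ∀ γ : SL(2, ℤ), γ ∈ Gamma0 M →
      ε ((γ 1 1 : ℤ) : ZMod N) * χ ((γ 1 1 : ℤ) : ZMod L) = 1)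
    (ED : EisData L χ)
    (τ : KF ε (depl N f) →+* ℂ) (χ' : DirichletCharacter ℂ L)
    (hεχ' : ∀ γ : SL(2, ℤ), γ ∈ Gamma0 M →
      ((epsK ε (depl N f)).ringHomComp τ) ((γ 1 1 : ℤ) : ZMod N) *
        χ' ((γ 1 1 : ℤ) : ZMod L) = 1)
    (ED' : EisData L χ')
    (hσK : ∀ n, sigmaChi χ n ∈ KF ε (depl N f))
    (hστ : ∀ n, sigmaChi χ' n = τ ⟨sigmaChi χ n, hσK n⟩)
    (hcK : eisConst χ ∈ KF ε (depl N f)) (hcτ : eisConst χ' = τ ⟨eisConst χ, hcK⟩) :
    ∃ fτ : CuspForm (Gamma1 M) 1, HasNeben M ((epsK ε (depl N f)).ringHomComp τ) 1 fτ ∧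
      ∀ n, ModularFormClass.qCoeff fτ n = τ ⟨depl N f n, depl_mem_KF ε f hf₁ hT n⟩ := by
  have hfK : ∀ n, ModularFormClass.qCoeff fd n ∈ KF ε (depl N f) := by
    intro n
    rw [hcoef n]
    exact depl_mem_KF ε f hf₁ hT n
  obtain ⟨fτ, h1, h2⟩ := ConjOne22.exists_conj_cuspForm hNM hLM ε
    ((epsK ε (depl N f)).ringHomComp τ) χ χ' fd hfd hεχ hεχ' ED ED' (KF ε (depl N f)) τ hfK
    hσK hστ hcK hcτ
  refine ⟨fτ, h1, fun n => ?_⟩
  rw [h2 n]
  congr 1
  exact Subtype.ext (hcoef n)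

end core


/-- **Input from B4 (EIS)**: the weight-one Eisenstein series of every odd primitive character. -/
def EisHyp : Prop :=
  ∀ (L : ℕ) [NeZero L] (χ : DirichletCharacter ℂ L), χ.IsPrimitive → χ.Odd →
    Nonempty (EisData L χ)

/-- algebraic integrality of ALL terms of a depleted Hecke sequence. -/
theorem isIntegral_seq {N : ℕ} {ε : ZMod N → ℂ} {a : ℕ → ℂ} (ha0 : a 0 = 0) (ha1 : a 1 = 1)
    (hT : SeqHeckeRel N ε a) (hdep : ∀ n : ℕ, ¬ n.Coprime N → a n = 0)
    (hinta : ∀ p : ℕ, p.Prime → ¬ p ∣ N → IsIntegral ℤ (a p))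
    (hinte : ∀ x : ZMod N, IsIntegral ℤ (ε x)) (n : ℕ) : IsIntegral ℤ (a n) := by
  induction n using Nat.strong_induction_on with
  | _ n ih =>
    rcases Nat.lt_or_ge n 2 with hn | hn
    · interval_cases n
      · rw [ha0]; exact isIntegral_zero
      · rw [ha1]; exact isIntegral_one
    · by_cases hc : n.Coprime N
      · have hn1 : n ≠ 1 := by omega
        have hp : n.minFac.Prime := Nat.minFac_prime hn1
        have hpn : n.minFac ∣ n := Nat.minFac_dvd n
        have hpN : ¬ n.minFac ∣ N := by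
          intro h
          have h1 : n.minFac ∣ Nat.gcd n N := Nat.dvd_gcd hpn h
          rw [Nat.Coprime] at hc
          rw [hc] at h1
          exact hp.one_lt.ne' (Nat.dvd_one.mp h1)
        obtain ⟨m, hm⟩ := hpn
        have hmpos : 0 < m := by
          rcases Nat.eq_zero_or_pos m with h | h
          · rw [h, mul_zero] at hm; omega
          · exact h
        have hmlt : m < n := by
          conv_rhs => rw [hm]
          exact lt_mul_of_one_lt_left hmpos hp.one_lt
        have h := hT n.minFac hp hpN m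
        have hval : a n = a n.minFac * a m -
            ε (n.minFac : ZMod N) * (if n.minFac ∣ m then a (m / n.minFac) else 0) := by
          conv_lhs => rw [hm]
          rw [← h]; ring
        rw [hval]
        refine IsIntegral.sub (IsIntegral.mul (hinta _ hp hpN) (ih m hmlt)) ?_
        refine IsIntegral.mul (hinte _) ?_
        split_ifs
        · exact ih _ (lt_of_le_of_lt (Nat.div_le_self m _) hmlt)
        · exact isIntegral_zero
      · rw [hdep n hc]; exact isIntegral_zero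

section main

variable (N : ℕ) [NeZero N] (ε : DirichletCharacter ℂ N) (f : CuspForm (Gamma1 N) 1)

/-- **CHAPTER RAT, the hypotheses of `NumFieldPack19.dsContract_of`** (all but (modlam)). -/
theorem rat_hyps (hf₁ : ModularFormClass.qCoeff f 1 = 1) (hT : HeckeRel N ε f)
    (hneb : NebData N ε f) (heis : EisHyp) :
    (∀ p : ℕ, p.Prime → ¬ p ∣ N → IsIntegral ℤ (depl N f p)) ∧
      FiniteDimensional ℚ (KF ε (depl N f)) ∧
      ∀ τ : KF ε (depl N f) →+* ℂ, ∃ (N' : ℕ) (_ : NeZero N') (fτ : CuspForm (Gamma1 N') 1),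
        ∀ n : ℕ, ModularFormClass.qCoeff fτ n = τ ⟨depl N f n, depl_mem_KF ε f hf₁ hT n⟩ := by
  obtain ⟨M, hM, fd, hNM, hfd, hcoef⟩ := hneb
  have hcoef' : ∀ n, ModularFormClass.qCoeff fd n = depl N f n := hcoef
  -- `ε` is odd
  have hfd0 : (⇑fd : ℍ → ℂ) ≠ 0 := by
    intro h0
    have h1 := hcoef' 1
    rw [depl_one f hf₁, h0] at h1
    simp only [ModularFormClass.qCoeff] at h1
    rw [UpperHalfPlane.qExpansion_zero, map_zero] at h1
    exact zero_ne_one h1
  have hodd : ε.Odd := eps_neg_one_of_hasNeben ε fd hfd hfd0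
  -- the primitive character `χ = ε̄₀` mod `L`
  have hL : NeZero ε.conductor := neZero_conductor ε
  have hLM : ε.conductor ∣ M := (conductor_dvd ε).trans hNM
  have hεχ : ∀ γ : SL(2, ℤ), γ ∈ Gamma0 M →
      ε ((γ 1 1 : ℤ) : ZMod N) * chi ε ((γ 1 1 : ℤ) : ZMod ε.conductor) = 1 :=
    fun γ hγ => eps_mul_chi ε hNM γ hγ
  obtain ⟨ED⟩ := heis ε.conductor (chi ε) (chi_isPrimitive ε) (chi_odd ε hodd)
  obtain ⟨hint, hfin⟩ := integral_finite_of_data ε f hf₁ hT fd hfd hcoef' (chi ε) hLM hεχ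
    (chi_mem_Zeps ε) ED
  refine ⟨hint, hfin, fun τ => ?_⟩
  -- the conjugates
  have hεK : ∀ x, ε x ∈ KF ε (depl N f) := fun x => eps_mem_ratField (ε := fun x => ε x) x
  obtain ⟨ED'⟩ := heis ε.conductor (chiConj (KF ε (depl N f)) ε hεK τ)
    (chiConj_isPrimitive _ ε hεK τ) (chiConj_odd _ ε hεK τ hodd)
  obtain ⟨fτ, -, hfτ⟩ := conj_of_data ε f hf₁ hT fd hfd hcoef' hNM hLM (chi ε) hεχ ED τ
    (chiConj (KF ε (depl N f)) ε hεK τ)
    (fun γ hγ => epsConj_mul_chiConj (KF ε (depl N f)) ε hεK (epsK ε (depl N f))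
      (fun _ => rfl) τ hNM γ hγ)
    ED'
    (sigmaChi_mem _ (chi ε) (chi_mem _ ε hεK)) (sigmaChi_chiConj _ ε hεK τ)
    (eisConst_mem _ (chi ε) (chi_mem _ ε hεK)) (eisConst_chiConj _ ε hεK τ)
  exact ⟨M, hM, fτ, hfτ⟩

/-- all depleted coefficients are algebraic integers (for B5). -/
theorem isIntegral_depl (hf₁ : ModularFormClass.qCoeff f 1 = 1) (hT : HeckeRel N ε f)
    (hneb : NebData N ε f) (heis : EisHyp) (n : ℕ) : IsIntegral ℤ (depl N f n) :=
  isIntegral_seq (depl_zero f) (depl_one f hf₁) (seqHeckeRel_depl ε f hT)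
    (depl_of_not_coprime f) (rat_hyps N ε f hf₁ hT hneb heis).1 (isIntegral_dirichlet ε) n

/-- **CHAPTER RAT, EXPORT**: the contract, from (modlam) for the concrete
`K = KF ε (depl N f)`, `aO`, `eO` of `NumFieldPack19`. -/
theorem dsContract_of_modlam (hf₁ : ModularFormClass.qCoeff f 1 = 1) (hT : HeckeRel N ε f)
    (hneb : NebData N ε f) (heis : EisHyp)
    (hmodlam : ∃ S₀ : Finset ℕ, ∀ ℓ : ℕ, ℓ.Prime → ℓ ∉ S₀ →
      ∀ φ : 𝓞 (KF ε (depl N f)) →+* ZMod ℓ,
      ∃ ρb : GQ →* GL (Fin 2) (ZMod ℓ),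
        GaloisFactorsThroughFiniteLevel ρb ∧ IsSemisimple2 ρb ∧
        FrobData (N * ℓ) ρb (fun p => φ (aO ε (depl N f) p))
          (fun p => φ (eO ε (depl N f) (p : ZMod N)))) :
    DSContract N ε (fun p => ModularFormClass.qCoeff f p) := by
  obtain ⟨hint, hfin, hconj⟩ := rat_hyps N ε f hf₁ hT hneb heis
  exact dsContract_of ε (depl N f) (fun p => ModularFormClass.qCoeff f p)
    (fun p hp hpN => depl_prime f hp hpN) (depl_zero f) (depl_one f hf₁)
    (seqHeckeRel_depl ε f hT) (depl_of_not_coprime f) hint (isIntegral_dirichlet ε) hfin hconj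
    hmodlam

end main

end Fermat.Agent.ES.R48.RatMain22
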