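/-
Programme R (S48, Deligne–Serre), HALF B (helper12, half-B integrator): chapter RAT plugged in.

`ratExport_of_eisExport : HalfBIface12.EisExport → HalfBIface12.RatExport`, from helper22's chapter
closer `RatMain22.rat_hyps` and helper9's `NebData9.nebData`; hence
`halfB_of_three : EisExport → LiftInstExport → GeomExport → GlueExport → HalfB` with RAT discharged.
-/
import Mathlib
import Fermat.Agent.ES.R48.HalfBFinal12
import Fermat.Agent.ES.R48.RatMain22

set_option autoImplicit false

open CongruenceSubgroup NumberField
open scoped MatrixGroups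
open ModularFormClass (qCoeff)
open Fermat.Agent.ES.R48.DSIface27 Fermat.Agent.ES.R48.HalfBIface12

noncomputable section

namespace Fermat.Agent.ES.R48.RatAdapter12

/-- helper22's depleted sequence is the interface's. -/
theorem depl_eq (N : ℕ) (f : CuspForm (Gamma1 N) 1) : RatMain22.depl N f = dep N f := rfl

/-- B4's export in helper22's argument order. -/
theorem eisHyp_of_eisExport (h : EisExport) : RatMain22.EisHyp :=
  fun L _ χ hprim hodd => h L χ hodd hprim

/-- **Chapter RAT, plugged into the half-B interface.** -/
theorem ratExport_of_eisExport (hEis : EisExport) : RatExport := by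
  intro N _ ε f hf₁ hT
  obtain ⟨hint, hfin, hconj⟩ :=
    RatMain22.rat_hyps N ε f hf₁ hT (NebData9.nebData hT) (eisHyp_of_eisExport hEis)
  refine ⟨fun p hp hpN => ?_, RatAlg19.isIntegral_dirichlet ε, hfin, fun τ => ?_⟩
  · have h := hint p hp hpN
    rwa [RatMain22.depl_prime f hp hpN] at h
  · obtain ⟨N', hN', fτ, h⟩ := hconj τ
    refine ⟨N', hN', fτ, fun n z hz => ?_⟩
    rw [h n]
    congr 1
    exact Subtype.ext hz.symm

/-- **HALF B with RAT discharged.** -/
theorem halfB_of_three (hEis : EisExport) (hLift : LiftInstExport) (hGeom : GeomExport)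
    (hGlue : GlueExport) : HalfB :=
  HalfBFinal12.halfB_of_open_exports (ratExport_of_eisExport hEis) hLift hGeom hGlue

end Fermat.Agent.ES.R48.RatAdapter12
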