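/-
Programme R (S48, Deligne–Serre), HALF B (helper12, half-B integrator): the closed exports plugged in.

* `eisExport  : HalfBIface12.EisExport`  from helper24's `EisData24.nonempty_eisData` (B4);
* `ratExport  : HalfBIface12.RatExport`  from `RatAdapter12` (RAT, helper22) and `eisExport`;
* `glueExport : HalfBIface12.GlueExport` from helper15's `Glue15.frobData_glue` (G7 glue);
* `halfB_of_lift_geom : LiftInstExport → GeomExport → DSIface27.HalfB`.
-/
import Mathlib
import Fermat.Agent.ES.R48.RatAdapter12
import Fermat.Agent.ES.R48.EisData24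
import Fermat.Agent.ES.R48.Glue15

set_option autoImplicit false

open Fermat.Agent.ES.R48.DSIface27 Fermat.Agent.ES.R48.HalfBIface12

namespace Fermat.Agent.ES.R48.HalfBPlug12

/-- **B4 closed.** -/
theorem eisExport : EisExport :=
  fun _ _ _ hodd hprim => EisData24.nonempty_eisData hodd hprim

/-- **RAT closed.** -/
theorem ratExport : RatExport := RatAdapter12.ratExport_of_eisExport eisExport

/-- **G7 glue closed.** -/
theorem glueExport : GlueExport := by
  intro ℓ hℓ _ M₁ M₂ hM₁ hM₂ ρ₁ ρ₂ t d hf1 hs1 h1 hf2 _ h2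
  have : Fact ℓ.Prime := ⟨hℓ⟩
  exact Glue15.frobData_glue (M := M₂) hM₁ hM₂ (fun p _ hp => Or.inr hp) hf1 hf2 hs1 h1 h2

/-- **HALF B from the two exports still open** (B5 adapter, GEOM). -/
theorem halfB_of_lift_geom (hLift : LiftInstExport) (hGeom : GeomExport) : HalfB :=
  HalfBFinal12.halfB_of_open_exports ratExport hLift hGeom glueExport

end Fermat.Agent.ES.R48.HalfBPlug12
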