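/-
Programme R (S48, Deligne–Serre), HALF B, TOP (helper12, half-B integrator).

`halfB_of_geom : HalfBIface12.GeomExport → DSIface27.HalfB`: half B from GEOM alone, with B4
(`HalfBPlug12.eisExport`), RAT (`ratExport`), B5 (`LiftInstFinal25.liftInstExport`, helper25) and the
G7 glue (`glueExport`) plugged in; and the final shape
`s48_of_geom : GeomExport → (the frozen statement S48)` via `HalfATop12.halfA`.
-/
import Mathlib
import Fermat.Agent.ES.R48.HalfBPlug12
import Fermat.Agent.ES.R48.LiftInstFinal25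
import Fermat.Agent.ES.R48.HalfATop12

set_option autoImplicit false

open CongruenceSubgroup
open scoped MatrixGroups
open Fermat.Agent.ES.R48.HalfBIface12

namespace Fermat.Agent.ES.R48.HalfBTop12

/-- **B5 closed.** -/
theorem liftInstExport : LiftInstExport :=
  LiftInstFinal25.liftInstExport HalfBPlug12.eisExport

/-- **HALF B from GEOM alone.** -/
theorem halfB_of_geom (hGeom : GeomExport) : DSIface27.HalfB :=
  HalfBPlug12.halfB_of_lift_geom liftInstExport hGeom

/-- HALF B from the two halves of GEOM (`EO` = `EigenOccurs`). -/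
theorem halfB_of_per_geomCore
    {EO : ∀ M ℓ : ℕ, (ℕ → ZMod ℓ) → ((ZMod M)ˣ →* (ZMod ℓ)ˣ) → Prop}
    (hPer : PerExport EO) (hCore : GeomCoreExport EO) : DSIface27.HalfB :=
  halfB_of_geom fun M ℓ _ hℓ hℓ5 hℓM hB θT θD h =>
    hCore M ℓ hℓ hℓ5 hℓM hB θT θD (hPer M ℓ hℓ hℓ5 hℓM θT θD h)

/-- **The frozen statement S48 from GEOM alone** (shape check of the final `S48.lean`: its body is
this term with `hGeom` replaced by the GEOM chapter export). -/
theorem s48_of_geom (hGeom : GeomExport)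
    (N : ℕ) [NeZero N] (ε : DirichletCharacter ℂ N) (f : CuspForm (Gamma1 N) 1)
    (hf₁ : ModularFormClass.qCoeff f 1 = 1)
    (hT : ∀ p : ℕ, p.Prime → ¬ p ∣ N → ∀ n : ℕ,
        ModularFormClass.qCoeff f (p * n) +
            ε (p : ZMod N) * (if p ∣ n then ModularFormClass.qCoeff f (n / p) else 0) =
          ModularFormClass.qCoeff f p * ModularFormClass.qCoeff f n) :
    ∃ ρ : DSIface27.GQ →* GL (Fin 2) ℂ, GaloisFactorsThroughFiniteLevel ρ ∧
      (Deformation.matrixRepresentation ρ).IsIrreducible ∧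
      ∀ p : ℕ, p.Prime → ¬ p ∣ N →
        ∀ A : ValuationSubring (AlgebraicClosure ℚ), A.LiesOverPrime p →
          (∀ σ ∈ A.inertiaSubgroupIn ℚ, ρ σ = 1) ∧
          ∀ σ : DSIface27.GQ, A.IsFrobeniusAt σ p →
            ((ρ σ : GL (Fin 2) ℂ) : Matrix (Fin 2) (Fin 2) ℂ).trace = ModularFormClass.qCoeff f p ∧
            ((ρ σ : GL (Fin 2) ℂ) : Matrix (Fin 2) (Fin 2) ℂ).det = ε (p : ZMod N) :=
  DSIface27.s48_of_halves HalfATop12.halfA (halfB_of_geom hGeom) N ε f hf₁ hT

end Fermat.Agent.ES.R48.HalfBTop12
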