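/-
Programme R (S48, Deligne–Serre), chapter GEOM (helper12): **`GeomClose13.G2GenExport` is PROVED**
(literal), so GEOM and S48 are reduced to the THREE literal Props
`GeomClose13.FiniteExport` (G5(A)), `GeomClose13.G4Export` (G3 → G4) and `GeomTop13.KappaExport` (G5).

Pure plugging of `X1GenFinal12.isGen_jF1` into helper13's `GeomClose13.geomExport` and my
`HalfBTop12.s48_of_geom`.

* `g2GenExport : GeomClose13.G2GenExport`;
* `geomExport_of_three : FiniteExport → G4Export → KappaExport → HalfBIface12.GeomExport`;
* `halfB_of_three : FiniteExport → G4Export → KappaExport → DSIface27.HalfB`;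
* `s48_of_three : FiniteExport → G4Export → KappaExport → <the frozen statement S48>`.
-/
import Fermat.Agent.ES.R48.X1GenFinal12
import Fermat.Agent.ES.R48.GeomClose13
import Fermat.Agent.ES.R48.HalfBTop12

set_option autoImplicit false

noncomputable section

namespace Fermat.Agent.ES.R48.GeomG2Plug12

open GeomClose13 GeomTop13

/-- **G2 is closed**: `j` is a transcendental generator of `F1bar M / ℚbar` for every `3 ≤ M`. -/
theorem g2GenExport : G2GenExport :=
  fun M _ hM => X1GenFinal12.isGen_jF1 M hM

/-- **GEOM from the three remaining literal exports.** -/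
theorem geomExport_of_three (hfin : FiniteExport) (hG4 : G4Export) (hK : KappaExport) :
    HalfBIface12.GeomExport :=
  GeomClose13.geomExport g2GenExport hfin hG4 hK

/-- **HALF B from the three remaining literal exports.** -/
theorem halfB_of_three (hfin : FiniteExport) (hG4 : G4Export) (hK : KappaExport) :
    DSIface27.HalfB :=
  HalfBTop12.halfB_of_geom (geomExport_of_three hfin hG4 hK)

/-- **The frozen statement S48 from the three remaining literal exports** (the final `S48.lean`
is this term with the three chapter exports plugged in). -/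
theorem s48_of_three (hfin : FiniteExport) (hG4 : G4Export) (hK : KappaExport)
    (N : ℕ) [NeZero N] (ε : DirichletCharacter ℂ N) (f : CuspForm (CongruenceSubgroup.Gamma1 N) 1)
    (hf₁ : ModularFormClass.qCoeff f 1 = 1)
    (hT : ∀ p : ℕ, p.Prime → ¬ p ∣ N → ∀ n : ℕ,
        ModularFormClass.qCoeff f (p * n) +
            ε (p : ZMod N) * (if p ∣ n then ModularFormClass.qCoeff f (n / p) else 0) =
          ModularFormClass.qCoeff f p * ModularFormClass.qCoeff f n) :
    ∃ ρ : DSIface27.GQ →* GL (Fin 2) ℂ, GaloisFactorsThroughFiniteLevel ρ ∧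
      (Deformation.matrixRepresentation ρ).IsIrreducible ∧
      ∀ p : ℕ, p.Prime → ¬ p ∣ N →
        ∀ A : ValuationSubring (AlgebraicClosure ℚ), A.LiesOverPrime p →
          (∀ σ ∈ A.inertiaSubgroupIn ℚ, ρ σ = 1) ∧
          ∀ σ : DSIface27.GQ, A.IsFrobeniusAt σ p →
            ((ρ σ : GL (Fin 2) ℂ) : Matrix (Fin 2) (Fin 2) ℂ).trace = ModularFormClass.qCoeff f p ∧
            ((ρ σ : GL (Fin 2) ℂ) : Matrix (Fin 2) (Fin 2) ℂ).det = ε (p : ZMod N) :=
  HalfBTop12.s48_of_geom (geomExport_of_three hfin hG4 hK) N ε f hf₁ hT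

end Fermat.Agent.ES.R48.GeomG2Plug12
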