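/-
Programme R (S48), half A (helper12): the reduction `φ : 𝓞 K →+* ZMod ℓ` attached to a maximal
ideal `𝔪 ∋ ℓ` of `ℤ̄ = integralClosure ℤ ℂ`, an embedding `ι : K →+* ℂ` and a prime `ℓ` all of
whose primes in `𝓞 K` have residue degree one; `φ` is compatible with `𝔪`:
`ι x - (φ x).val ∈ 𝔪`.
-/
import Mathlib
import Fermat.Agent.ES.R48.HalfAIface12

set_option autoImplicit false

open NumberField

namespace Fermat.Agent.ES.R48.PhiSplit12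

open Fermat.Agent.ES.R48.HalfAIface12

variable {K : Type} [Field K] [NumberField K]

/-- The embedding `ι : K →+* ℂ` on integers, with values in `ℤ̄`. -/
noncomputable def iotaZ (ι : K →+* ℂ) : 𝓞 K →+* Zbar :=
  (ι.comp (algebraMap (𝓞 K) K)).codRestrict (integralClosure ℤ ℂ)
    (fun x => map_isIntegral_int ι (NumberField.RingOfIntegers.isIntegral_coe x))

omit [NumberField K] in
@[simp]
theorem coe_iotaZ (ι : K →+* ℂ) (x : 𝓞 K) : ((iotaZ ι x : Zbar) : ℂ) = ι (x : K) := rfl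

/-- **The compatible reduction.** -/
theorem exists_phi (ι : K →+* ℂ) {ℓ : ℕ} (hℓ : ℓ.Prime) (𝔪 : Ideal Zbar) (h𝔪 : 𝔪.IsMaximal)
    (hℓ𝔪 : (ℓ : Zbar) ∈ 𝔪)
    (hsplit : ∀ 𝔭 : Ideal (𝓞 K), 𝔭.IsMaximal → (ℓ : 𝓞 K) ∈ 𝔭 → Nat.card (𝓞 K ⧸ 𝔭) = ℓ) :
    ∃ φ : 𝓞 K →+* ZMod ℓ, ∀ x : 𝓞 K, iotaZ ι x - (((φ x).val : ℕ) : Zbar) ∈ 𝔪 := by
  classical
  set 𝔭 : Ideal (𝓞 K) := 𝔪.comap (iotaZ ι) with h𝔭
  have hprime : 𝔭.IsPrime := Ideal.comap_isPrime (iotaZ ι) 𝔪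
  have hℓ𝔭 : (ℓ : 𝓞 K) ∈ 𝔭 := by
    rw [h𝔭, Ideal.mem_comap, map_natCast]
    exact hℓ𝔪
  have hne : 𝔭 ≠ ⊥ := by
    intro h0
    rw [h0, Ideal.mem_bot] at hℓ𝔭
    exact hℓ.ne_zero (by exact_mod_cast hℓ𝔭)
  have hmax : 𝔭.IsMaximal := hprime.isMaximal hne
  have hcard : Nat.card (𝓞 K ⧸ 𝔭) = ℓ := hsplit 𝔭 hmax hℓ𝔭
  have : Finite (𝓞 K ⧸ 𝔭) := Nat.finite_of_card_ne_zero (by rw [hcard]; exact hℓ.ne_zero)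
  have : Fintype (𝓞 K ⧸ 𝔭) := Fintype.ofFinite _
  have hcard' : Fintype.card (𝓞 K ⧸ 𝔭) = ℓ := by rw [← Nat.card_eq_fintype_card]; exact hcard
  let e : ZMod ℓ ≃+* (𝓞 K ⧸ 𝔭) := ZMod.ringEquivOfPrime (𝓞 K ⧸ 𝔭) hℓ hcard'
  refine ⟨(e.symm : (𝓞 K ⧸ 𝔭) →+* ZMod ℓ).comp (Ideal.Quotient.mk 𝔭), fun x => ?_⟩
  have : NeZero ℓ := ⟨hℓ.ne_zero⟩
  set φ : 𝓞 K →+* ZMod ℓ := (e.symm : (𝓞 K ⧸ 𝔭) →+* ZMod ℓ).comp (Ideal.Quotient.mk 𝔭) with hφ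
  have h1 : φ (x - (((φ x).val : ℕ) : 𝓞 K)) = 0 := by
    rw [map_sub, map_natCast, ZMod.natCast_zmod_val, sub_self]
  have h2 : Ideal.Quotient.mk 𝔭 (x - (((φ x).val : ℕ) : 𝓞 K)) = 0 := by
    have : e.symm (Ideal.Quotient.mk 𝔭 (x - (((φ x).val : ℕ) : 𝓞 K))) = 0 := h1
    exact (map_eq_zero_iff e.symm e.symm.injective).mp this
  have h3 : x - (((φ x).val : ℕ) : 𝓞 K) ∈ 𝔭 := Ideal.Quotient.eq_zero_iff_mem.mp h2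
  have h4 : iotaZ ι (x - (((φ x).val : ℕ) : 𝓞 K)) ∈ 𝔪 := h3
  rwa [map_sub, map_natCast] at h4

end Fermat.Agent.ES.R48.PhiSplit12
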