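/-
Programme R (S48), half A (helper12): the pigeonhole and the separation step of Deligne–Serre §8,
as pure logic on top of `SepExport` ("a nonzero algebraic integer lies in proper ideals of only
finitely many residue characteristics").

* `mem_of_frequently_congr`: if for primes `ℓ` outside every finite set some pair of the finite set
  `Y ⊆ ℤ̄ × ℤ̄` is congruent to `(a₀, e₀)` modulo a proper ideal containing `ℓ`, then `(a₀, e₀) ∈ Y`.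
* `exists_separating`: outside a finite set of `ℓ`, two pairs of `Y` congruent modulo a proper
  ideal containing `ℓ` are equal.
-/
import Mathlib
import Fermat.Agent.ES.R48.HalfAIface12

set_option autoImplicit false

namespace Fermat.Agent.ES.R48.Pigeon12

open Fermat.Agent.ES.R48.HalfAIface12

/-- A finite set of "bad" residue characteristics for the congruence `y ≡ z` of two pairs. -/
noncomputable def badSet (hSep : SepExport) (y z : Zbar × Zbar) : Finset ℕ :=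
  open Classical in
  if h₁ : y.1 - z.1 ≠ 0 then (hSep _ h₁).choose
  else if h₂ : y.2 - z.2 ≠ 0 then (hSep _ h₂).choose
  else ∅

theorem mem_badSet (hSep : SepExport) {y z : Zbar × Zbar} (hyz : y ≠ z) {ℓ : ℕ} (hℓ : ℓ.Prime)
    {𝔪 : Ideal Zbar} (h𝔪 : 𝔪 ≠ ⊤) (hℓ𝔪 : (ℓ : Zbar) ∈ 𝔪) (h₁ : y.1 - z.1 ∈ 𝔪)
    (h₂ : y.2 - z.2 ∈ 𝔪) : ℓ ∈ badSet hSep y z := by
  classical
  unfold badSet
  by_cases c₁ : y.1 - z.1 ≠ 0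
  · rw [dif_pos c₁]
    exact (hSep _ c₁).choose_spec ℓ hℓ 𝔪 h𝔪 hℓ𝔪 h₁
  · rw [dif_neg c₁]
    by_cases c₂ : y.2 - z.2 ≠ 0
    · rw [dif_pos c₂]
      exact (hSep _ c₂).choose_spec ℓ hℓ 𝔪 h𝔪 hℓ𝔪 h₂
    · exfalso
      apply hyz
      exact Prod.ext (sub_eq_zero.mp (not_not.mp c₁)) (sub_eq_zero.mp (not_not.mp c₂))

/-- **Pigeonhole.** -/
theorem mem_of_frequently_congr (hSep : SepExport) (Y : Finset (Zbar × Zbar)) (z : Zbar × Zbar)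
    (h : ∀ S : Finset ℕ, ∃ ℓ : ℕ, ℓ.Prime ∧ ℓ ∉ S ∧ ∃ 𝔪 : Ideal Zbar, 𝔪 ≠ ⊤ ∧ (ℓ : Zbar) ∈ 𝔪 ∧
      ∃ y ∈ Y, y.1 - z.1 ∈ 𝔪 ∧ y.2 - z.2 ∈ 𝔪) : z ∈ Y := by
  classical
  by_contra hz
  obtain ⟨ℓ, hℓ, hℓS, 𝔪, h𝔪, hℓ𝔪, y, hy, h₁, h₂⟩ := h (Y.biUnion fun y => badSet hSep y z)
  apply hℓS
  rw [Finset.mem_biUnion]
  refine ⟨y, hy, mem_badSet hSep ?_ hℓ h𝔪 hℓ𝔪 h₁ h₂⟩
  rintro rfl
  exact hz hy

/-- **Separation.** -/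
theorem exists_separating (hSep : SepExport) (Y : Finset (Zbar × Zbar)) :
    ∃ S : Finset ℕ, ∀ ℓ : ℕ, ℓ.Prime → ℓ ∉ S → ∀ 𝔪 : Ideal Zbar, 𝔪 ≠ ⊤ → (ℓ : Zbar) ∈ 𝔪 →
      ∀ y ∈ Y, ∀ z ∈ Y, y.1 - z.1 ∈ 𝔪 → y.2 - z.2 ∈ 𝔪 → y = z := by
  classical
  refine ⟨(Y ×ˢ Y).biUnion fun yz => badSet hSep yz.1 yz.2, ?_⟩
  intro ℓ hℓ hℓS 𝔪 h𝔪 hℓ𝔪 y hy z hz h₁ h₂
  by_contra hyz
  apply hℓS
  rw [Finset.mem_biUnion]
  exact ⟨(y, z), Finset.mem_product.mpr ⟨hy, hz⟩, mem_badSet hSep hyz hℓ h𝔪 hℓ𝔪 h₁ h₂⟩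

end Fermat.Agent.ES.R48.Pigeon12
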