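/-
Programme R (S48), HALF A, assembly (helper12): `DSIface27.HalfA` from the chapter exports of
`HalfAIface12` (Deligne–Serre §8).

For a prime `ℓ ∉ S₀`, `ℓ > A` (the bound of `ImageBoundExport`), all of whose primes in `𝓞 K` have
degree one: `φ_ℓ` (compatible with the `𝔪_ℓ` of `LiftExport`), `ρb_ℓ` from the contract,
`ℓ ∤ |im ρb_ℓ|`, the complex lift `ρ_ℓ`; its (trace, det) pairs lie in the finite set `Y` of
`Char0Export` and are congruent mod `𝔪_ℓ` to `(a_p, ε(p))` at the Frobenius elements.  Pigeonhole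
(`(a_p, ε p) ∈ Y`), separation (equality for `ℓ` outside a finite set), two primes `ℓ₁ ≠ ℓ₂`
(`TwoEllExport`), irreducibility (`IrredExport` for the form `f^ι` of the contract).
-/
import Mathlib
import Fermat.Agent.ES.R48.HalfAIface12
import Fermat.Agent.ES.R48.PhiSplit12
import Fermat.Agent.ES.R48.Pigeon12
import Fermat.Agent.Lib.FrobeniusExists

set_option autoImplicit false

open CongruenceSubgroup NumberField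
open scoped MatrixGroups

namespace Fermat.Agent.ES.R48.HalfA12

open Fermat.Agent.ES.R48.DSIface27 Fermat.Agent.ES.R48.HalfAIface12
open Fermat.Agent.ES.R48.PhiSplit12 Fermat.Agent.ES.R48.Pigeon12

/-- The data produced at one good prime `ℓ`: a proper ideal `𝔪 ∋ ℓ` of `ℤ̄` and a finite-level
complex representation whose (trace, det) pairs lie in `Y`, unramified outside `N ℓ`, with Frobenius
(trace, det) congruent to `(t p, d p)` modulo `𝔪`. -/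
def LevelData (N ℓ : ℕ) (Y : Finset (Zbar × Zbar)) (t d : ℕ → Zbar) : Prop :=
  ∃ (𝔪 : Ideal Zbar) (ρ : GQ →* GL (Fin 2) ℂ), 𝔪 ≠ ⊤ ∧ (ℓ : Zbar) ∈ 𝔪 ∧
    GaloisFactorsThroughFiniteLevel ρ ∧
    (∀ σ : GQ, ∃ y ∈ Y, (y.1 : ℂ) = ((ρ σ : GL (Fin 2) ℂ) : Matrix (Fin 2) (Fin 2) ℂ).trace ∧
      (y.2 : ℂ) = ((ρ σ : GL (Fin 2) ℂ) : Matrix (Fin 2) (Fin 2) ℂ).det) ∧
    ∀ p : ℕ, p.Prime → ¬ p ∣ N * ℓ →
      ∀ V : ValuationSubring (AlgebraicClosure ℚ), V.LiesOverPrime p →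
        (∀ σ ∈ V.inertiaSubgroupIn ℚ, ρ σ = 1) ∧
        ∀ σ : GQ, V.IsFrobeniusAt σ p → ∃ y ∈ Y,
          (y.1 : ℂ) = ((ρ σ : GL (Fin 2) ℂ) : Matrix (Fin 2) (Fin 2) ℂ).trace ∧
          (y.2 : ℂ) = ((ρ σ : GL (Fin 2) ℂ) : Matrix (Fin 2) (Fin 2) ℂ).det ∧
          y.1 - t p ∈ 𝔪 ∧ y.2 - d p ∈ 𝔪

/-- **The level data at a good prime.** -/
theorem levelData_of_good (hLift : LiftExport) {N : ℕ} [NeZero N] {K : Type} [Field K]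
    [NumberField K] (ι : K →+* ℂ) (aO : ℕ → 𝓞 K) (eO : ZMod N → 𝓞 K) (A : ℕ)
    (Y : Finset (Zbar × Zbar))
    (hY : ∀ g : GL (Fin 2) ℂ, (∃ n : ℕ, 0 < n ∧ n ≤ A ∧ g ^ n = 1) →
      ∃ y ∈ Y, (y.1 : ℂ) = (g : Matrix (Fin 2) (Fin 2) ℂ).trace ∧
        (y.2 : ℂ) = (g : Matrix (Fin 2) (Fin 2) ℂ).det)
    {ℓ : ℕ} (hℓ : ℓ.Prime) (hAℓ : A < ℓ)
    (hsplit : ∀ 𝔭 : Ideal (𝓞 K), 𝔭.IsMaximal → (ℓ : 𝓞 K) ∈ 𝔭 → Nat.card (𝓞 K ⧸ 𝔭) = ℓ)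
    (hmod : ∀ φ : 𝓞 K →+* ZMod ℓ, ∃ ρb : GQ →* GL (Fin 2) (ZMod ℓ),
      GaloisFactorsThroughFiniteLevel ρb ∧ IsSemisimple2 ρb ∧
      FrobData (N * ℓ) ρb (fun p => φ (aO p)) (fun p => φ (eO (p : ZMod N))))
    (hbound : ∀ (φ : 𝓞 K →+* ZMod ℓ) (ρb : GQ →* GL (Fin 2) (ZMod ℓ)),
      GaloisFactorsThroughFiniteLevel ρb → IsSemisimple2 ρb →
      FrobData (N * ℓ) ρb (fun p => φ (aO p)) (fun p => φ (eO (p : ZMod N))) →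
      Nat.card ρb.range ≤ A) :
    LevelData N ℓ Y (fun p => iotaZ ι (aO p)) (fun p => iotaZ ι (eO (p : ZMod N))) := by
  have : Fact ℓ.Prime := ⟨hℓ⟩
  obtain ⟨𝔪, h𝔪max, hℓ𝔪, hlift⟩ := hLift ℓ
  obtain ⟨φ, hφ⟩ := exists_phi ι hℓ 𝔪 h𝔪max hℓ𝔪 hsplit
  obtain ⟨ρb, hfl, hss, hfrob⟩ := hmod φ
  have hcard : Nat.card ρb.range ≤ A := hbound φ ρb hfl hss hfrob
  have hpos : 0 < Nat.card ρb.range := Nat.card_pos
  have hndvd : ¬ ℓ ∣ Nat.card ρb.range := fun h =>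
    absurd (Nat.le_of_dvd hpos h) (not_le.mpr (lt_of_le_of_lt hcard hAℓ))
  obtain ⟨r, hr⟩ := hlift ρb.range hndvd
  refine ⟨𝔪, r.comp ρb.rangeRestrict, h𝔪max.ne_top, hℓ𝔪, ?_, ?_, ?_⟩
  · -- finite level
    obtain ⟨L, hL, hLker⟩ := hfl
    refine ⟨L, hL, fun σ hσ => ?_⟩
    have h1 : ρb.rangeRestrict σ = 1 := Subtype.ext (hLker σ hσ)
    rw [MonoidHom.comp_apply, h1, map_one]
  · -- the pairs lie in `Y`
    intro σ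
    refine hY _ ⟨Nat.card ρb.range, hpos, hcard, ?_⟩
    rw [MonoidHom.comp_apply, ← map_pow, pow_card_eq_one', map_one]
  · intro p hp hpNℓ V hV
    obtain ⟨hin, hfr⟩ := hfrob p hp hpNℓ V hV
    refine ⟨fun σ hσ => ?_, fun σ hσ => ?_⟩
    · have h1 : ρb.rangeRestrict σ = 1 := Subtype.ext (hin σ hσ)
      rw [MonoidHom.comp_apply, h1, map_one]
    · obtain ⟨htr, hdet⟩ := hfr σ hσ
      obtain ⟨y, hyY, hy1, hy2⟩ := hY ((r.comp ρb.rangeRestrict) σ)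
        ⟨Nat.card ρb.range, hpos, hcard, by
          rw [MonoidHom.comp_apply, ← map_pow, pow_card_eq_one', map_one]⟩
      obtain ⟨t, d, ht, hd, htm, hdm⟩ := hr (ρb.rangeRestrict σ)
      have hyt : y.1 = t := Subtype.ext (hy1.trans ht.symm)
      have hyd : y.2 = d := Subtype.ext (hy2.trans hd.symm)
      refine ⟨y, hyY, hy1, hy2, ?_, ?_⟩
      · have h2 := hφ (aO p)
        have h3 : ((ρb.rangeRestrict σ : ρb.range) : GL (Fin 2) (ZMod ℓ)) = ρb σ := rfl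
        rw [h3, htr] at htm
        have : y.1 - iotaZ ι (aO p) =
            (t - (((φ (aO p)).val : ℕ) : Zbar)) - (iotaZ ι (aO p) - (((φ (aO p)).val : ℕ) : Zbar)) := by
          rw [hyt]; ring
        rw [this]
        exact 𝔪.sub_mem htm h2
      · have h2 := hφ (eO (p : ZMod N))
        have h3 : ((ρb.rangeRestrict σ : ρb.range) : GL (Fin 2) (ZMod ℓ)) = ρb σ := rfl
        rw [h3, hdet] at hdm
        have : y.2 - iotaZ ι (eO (p : ZMod N)) =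
            (d - (((φ (eO (p : ZMod N))).val : ℕ) : Zbar)) -
              (iotaZ ι (eO (p : ZMod N)) - (((φ (eO (p : ZMod N))).val : ℕ) : Zbar)) := by
          rw [hyd]; ring
        rw [this]
        exact 𝔪.sub_mem hdm h2

/-- A prime that does not divide `N` and is different from the prime `ℓ` does not divide `N ℓ`. -/
theorem not_dvd_mul_of_ne {N p ℓ : ℕ} (hp : p.Prime) (hℓ : ℓ.Prime) (hpN : ¬ p ∣ N)
    (hpℓ : p ≠ ℓ) : ¬ p ∣ N * ℓ := by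
  intro h
  rcases (Nat.Prime.dvd_mul hp).mp h with h | h
  · exact hpN h
  · exact hpℓ ((Nat.prime_dvd_prime_iff_eq hp hℓ).mp h)

/-- **HALF A** of Programme R: the frozen conclusion of S48 from the contract, given the chapter
exports. -/
theorem halfA (hSplit : SplitExport) (hLift : LiftExport) (hSep : SepExport)
    (hChar0 : Char0Export) (hTwo : TwoEllExport) (hIrr : IrredExport)
    (hBound : ImageBoundExport) : HalfA := by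
  classical
  intro N _ ε a hcontract
  obtain ⟨K, _, _, ι, aO, eO, ha, he, hconj, S₀, hmod⟩ := hcontract
  obtain ⟨A, hA⟩ := hBound N K aO eO hconj
  obtain ⟨Y, hY⟩ := hChar0 A
  -- the level data at every good prime
  have hlevel : ∀ ℓ : ℕ, ℓ.Prime → ℓ ∉ S₀ → A < ℓ →
      (∀ 𝔭 : Ideal (𝓞 K), 𝔭.IsMaximal → (ℓ : 𝓞 K) ∈ 𝔭 → Nat.card (𝓞 K ⧸ 𝔭) = ℓ) →
      LevelData N ℓ Y (fun p => iotaZ ι (aO p)) (fun p => iotaZ ι (eO (p : ZMod N))) :=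
    fun ℓ hℓ hℓS hAℓ hsp =>
      levelData_of_good hLift ι aO eO A Y hY hℓ hAℓ hsp (hmod ℓ hℓ hℓS) (hA ℓ hℓ)
  -- pigeonhole: the pairs `(a_p, ε p)` lie in `Y`
  have hmem : ∀ p : ℕ, p.Prime → ¬ p ∣ N →
      (iotaZ ι (aO p), iotaZ ι (eO (p : ZMod N))) ∈ Y := by
    intro p hp hpN
    obtain ⟨V, σ, hV, hσ⟩ := Fermat.Agent.Lib.exists_isFrobeniusAt p hp
    refine mem_of_frequently_congr hSep Y _ fun S => ?_
    obtain ⟨ℓ, hℓ, hℓS, hsp⟩ := hSplit K (S ∪ S₀ ∪ Finset.range (A + 1) ∪ {p})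
    simp only [Finset.mem_union, Finset.mem_range, Finset.mem_singleton, not_or] at hℓS
    obtain ⟨⟨⟨hℓS1, hℓS0⟩, hℓA⟩, hℓp⟩ := hℓS
    obtain ⟨𝔪, ρ, h𝔪, hℓ𝔪, -, -, hloc⟩ := hlevel ℓ hℓ hℓS0 (by omega) hsp
    obtain ⟨-, hfr⟩ := hloc p hp (not_dvd_mul_of_ne hp hℓ hpN (fun h => hℓp h.symm)) V hV
    obtain ⟨y, hyY, -, -, h1, h2⟩ := hfr σ hσ
    exact ⟨ℓ, hℓ, hℓS1, 𝔪, h𝔪, hℓ𝔪, y, hyY, h1, h2⟩
  -- separation
  obtain ⟨S', hS'⟩ := exists_separating hSep Y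
  -- exactness of the Frobenius data at a good prime outside `S'`
  have hexact : ∀ ℓ : ℕ, ℓ.Prime → ℓ ∉ S₀ → A < ℓ → ℓ ∉ S' →
      (∀ 𝔭 : Ideal (𝓞 K), 𝔭.IsMaximal → (ℓ : 𝓞 K) ∈ 𝔭 → Nat.card (𝓞 K ⧸ 𝔭) = ℓ) →
      ∃ ρ : GQ →* GL (Fin 2) ℂ, GaloisFactorsThroughFiniteLevel ρ ∧
        FrobData (N * ℓ) ρ a (fun p => ε (p : ZMod N)) := by
    intro ℓ hℓ hℓS0 hAℓ hℓS' hsp
    obtain ⟨𝔪, ρ, h𝔪, hℓ𝔪, hfl, -, hloc⟩ := hlevel ℓ hℓ hℓS0 hAℓ hsp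
    refine ⟨ρ, hfl, fun p hp hpNℓ V hV => ?_⟩
    obtain ⟨hin, hfr⟩ := hloc p hp hpNℓ V hV
    refine ⟨hin, fun σ hσ => ?_⟩
    obtain ⟨y, hyY, hy1, hy2, h1, h2⟩ := hfr σ hσ
    have hpN : ¬ p ∣ N := fun h => hpNℓ (Dvd.dvd.mul_right h ℓ)
    have hyz : y = (iotaZ ι (aO p), iotaZ ι (eO (p : ZMod N))) :=
      hS' ℓ hℓ hℓS' 𝔪 h𝔪 hℓ𝔪 y hyY _ (hmem p hp hpN) h1 h2
    constructor
    · rw [← hy1, hyz, coe_iotaZ]
      exact ha p hp hpN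
    · rw [← hy2, hyz, coe_iotaZ]
      exact he _
  -- two good primes
  obtain ⟨ℓ₁, hℓ₁, hℓ₁S, hsp₁⟩ := hSplit K (S' ∪ S₀ ∪ Finset.range (A + 1))
  simp only [Finset.mem_union, Finset.mem_range, not_or] at hℓ₁S
  obtain ⟨⟨hℓ₁S', hℓ₁S0⟩, hℓ₁A⟩ := hℓ₁S
  obtain ⟨ℓ₂, hℓ₂, hℓ₂S, hsp₂⟩ := hSplit K (S' ∪ S₀ ∪ Finset.range (A + 1) ∪ {ℓ₁})
  simp only [Finset.mem_union, Finset.mem_range, Finset.mem_singleton, not_or] at hℓ₂S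
  obtain ⟨⟨⟨hℓ₂S', hℓ₂S0⟩, hℓ₂A⟩, hℓ₂₁⟩ := hℓ₂S
  obtain ⟨ρ₁, hfl₁, hfrob₁⟩ := hexact ℓ₁ hℓ₁ hℓ₁S0 (by omega) hℓ₁S' hsp₁
  obtain ⟨ρ₂, hfl₂, hfrob₂⟩ := hexact ℓ₂ hℓ₂ hℓ₂S0 (by omega) hℓ₂S' hsp₂
  have hfrobN : FrobData N ρ₁ a (fun p => ε (p : ZMod N)) :=
    hTwo N ℓ₁ ℓ₂ hℓ₁ hℓ₂ (fun h => hℓ₂₁ h.symm) ρ₁ ρ₂ a _ hfl₁ hfl₂ hfrob₁ hfrob₂
  -- irreducibility, through the form `f^ι` of the contract
  obtain ⟨N', _, ε', f', hf1, hrel, hfa, hfe⟩ := hconj ι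
  have hfrob' : FrobData N ρ₁ (fun p => ModularFormClass.qCoeff f' p)
      (fun p => ε' (p : ZMod N)) := by
    intro p hp hpN V hV
    obtain ⟨hin, hfr⟩ := hfrobN p hp hpN V hV
    refine ⟨hin, fun σ hσ => ?_⟩
    obtain ⟨h1, h2⟩ := hfr σ hσ
    refine ⟨?_, ?_⟩
    · show _ = ModularFormClass.qCoeff f' p
      rw [h1, hfa p hp hpN, ha p hp hpN]
    · show _ = ε' (p : ZMod N)
      rw [h2, hfe, he]
  exact ⟨ρ₁, hfl₁, hIrr N ε' N' f' hf1 hrel ρ₁ hfl₁ hfrob', hfrobN⟩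

end Fermat.Agent.ES.R48.HalfA12
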