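/-
Programme R (S48, Deligne–Serre), half A: the exports `SepExport`, `Char0Export`, `TwoEllExport`
of the integrator's interface `HalfAIface12`, in their literal shapes (helper15).

* `sepExport`     from `CharZero15.exists_finset_of_ne_zero`;
* `char0Export`   from `CharZero15.pairs` / `CharZero15.trace_det_mem_pairs`;
* `twoEllExport`  from `TwoPrime15.frobData_of_two` (`N = 0` is vacuous).
-/
import Mathlib
import Fermat.Agent.ES.R48.HalfAIface12
import Fermat.Agent.ES.R48.CharZero15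
import Fermat.Agent.ES.R48.TwoPrime15

set_option autoImplicit false

open scoped MatrixGroups

namespace Fermat.Agent.ES.R48.HalfAExports15

open Fermat.Agent.ES.R48.DSIface27 Fermat.Agent.ES.R48.HalfAIface12

/-- **(A7 SEP)** in the shape of `HalfAIface12`. -/
theorem sepExport : SepExport := by
  intro x hx
  obtain ⟨S, hS⟩ := CharZero15.exists_finset_of_ne_zero (x : ℂ) x.2
    (fun h => hx (Subtype.ext h))
  exact ⟨S, fun ℓ hℓ 𝔪 h𝔪 hℓ𝔪 hx𝔪 => hS ℓ hℓ 𝔪 h𝔪 hℓ𝔪 ⟨x, hx𝔪, rfl⟩⟩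

/-- **(A7 CHAR0)** in the shape of `HalfAIface12`. -/
theorem char0Export : Char0Export := by
  classical
  intro A
  refine ⟨(CharZero15.pairs A).attach.image fun y =>
    (⟨y.1.1, (CharZero15.isIntegral_of_mem_pairs y.2).1⟩,
      ⟨y.1.2, (CharZero15.isIntegral_of_mem_pairs y.2).2⟩), fun g hg => ?_⟩
  obtain ⟨n, hn0, hnA, hgn⟩ := hg
  have hM : ((g : GL (Fin 2) ℂ) : Matrix (Fin 2) (Fin 2) ℂ) ^ n = 1 := by
    rw [← Units.val_pow_eq_pow_val, hgn, Units.val_one]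
  have hmem := CharZero15.trace_det_mem_pairs hn0 hnA hM
  refine ⟨_, Finset.mem_image.mpr ⟨⟨_, hmem⟩, Finset.mem_attach _ _, rfl⟩, rfl, rfl⟩

/-- **(A8 TWO-ℓ)** in the shape of `HalfAIface12`. -/
theorem twoEllExport : TwoEllExport := by
  intro N ℓ₁ ℓ₂ h₁ h₂ hne ρ₁ ρ₂ t d hfin₁ hfin₂ hF₁ hF₂
  rcases Nat.eq_zero_or_pos N with rfl | hN
  · intro p _ hp0
    exact absurd (dvd_zero p) hp0
  · exact TwoPrime15.frobData_of_two hN.ne' h₁ h₂ hne hfin₁ hfin₂ hF₁ hF₂

end Fermat.Agent.ES.R48.HalfAExports15
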