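/-
Programme R (S48, Deligne–Serre), half A, leaf (SPLIT) (helper23):
**every number field has, outside every finite set, a rational prime all of whose primes have
residue degree one** (`HalfAIface12.SplitExport`).

Proof.  Let `L` be the normal closure of `K` over `ℚ` (a number field, Galois over `ℚ`).  The
completely split primes of `L / ℚ` of prime norm not dividing `m` carry `log (1 / (s - 1)) / [L : ℚ]
+ O(1)` of the prime zeta function (`SplitDensity16.splitPrimes_goodPrimes_bound`), so there is one,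
`p`, for `m := ∏_{x ∈ S, x ≠ 0} x`; put `ℓ := N p ∉ S`.  A maximal ideal `𝔭 ∋ ℓ` of `𝓞 K` lies under a
prime `𝔓` of `𝓞 L`, which lies over the unique prime `(ℓ) = p` of `𝓞 ℚ`; hence `N 𝔓 = ℓ`
(`NotAllSplit.absNorm_eq_of_below_mem_splitPrimes`), and `N 𝔭 ^ f = N 𝔓` forces `N 𝔭 = ℓ`.
-/
import Mathlib
import Fermat.Agent.ES.GAL.SplitDensity16
import Fermat.Agent.ES.R48.HalfAIface12

set_option autoImplicit false
set_option linter.unusedSectionVars false

open IsDedekindDomain Ideal NumberField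
open Fermat.Agent.CFT.C1ClassDefs Fermat.Agent.CFT.SplitPrimes Fermat.Agent.CFT.NotAllSplit

namespace Fermat.Agent.ES.R48.SplitExport23

/-! ### The primes of `𝓞 ℚ` above a prime number -/

theorem finrank_int_rat : Module.finrank ℤ (𝓞 ℚ) = 1 := by
  rw [RingOfIntegers.rank, Module.finrank_self]

theorem absNorm_span_natCast_rat (n : ℕ) : absNorm (span {(n : 𝓞 ℚ)}) = n := by
  rw [Ideal.absNorm_span_natCast, finrank_int_rat, pow_one]

/-- a proper ideal of `𝓞 ℚ` containing the prime number `ℓ` is `(ℓ)`. -/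
theorem eq_span_of_mem {ℓ : ℕ} (hℓ : ℓ.Prime) {M : Ideal (𝓞 ℚ)} (hM : M ≠ ⊤)
    (hmem : (ℓ : 𝓞 ℚ) ∈ M) : M = span {(ℓ : 𝓞 ℚ)} := by
  have hle : span {(ℓ : 𝓞 ℚ)} ≤ M := (Ideal.span_singleton_le_iff_mem _).mpr hmem
  obtain ⟨J, hJ⟩ : M ∣ span {(ℓ : 𝓞 ℚ)} := Ideal.dvd_iff_le.mpr hle
  have hn : absNorm M * absNorm J = ℓ := by
    rw [← map_mul, ← hJ, absNorm_span_natCast_rat]
  have hM1 : absNorm M ≠ 1 := fun h => hM (Ideal.absNorm_eq_one_iff.mp h)
  have hMℓ : absNorm M = ℓ :=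
    ((Nat.dvd_prime hℓ).mp (Dvd.intro _ hn)).resolve_left hM1
  have hJ1 : absNorm J = 1 := by
    rw [hMℓ] at hn
    exact Nat.eq_of_mul_eq_mul_left hℓ.pos (by rw [hn, mul_one])
  rw [Ideal.absNorm_eq_one_iff] at hJ1
  rw [hJ, hJ1, Ideal.mul_top]

/-! ### Existence of a completely split good prime -/

/-- `log (1 / (s - 1))` is unbounded on `(1, 2]`. -/
theorem exists_log_gt (B : ℝ) : ∃ s ∈ Set.Ioc (1 : ℝ) 2, B < Real.log (1 / (s - 1)) := by
  refine ⟨1 + Real.exp (-(|B| + 1)), ⟨by linarith [Real.exp_pos (-(|B| + 1))], ?_⟩, ?_⟩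
  · have : Real.exp (-(|B| + 1)) ≤ 1 := Real.exp_le_one_iff.mpr (by linarith [abs_nonneg B])
    linarith
  · rw [add_sub_cancel_left, one_div, ← Real.exp_neg, neg_neg, Real.log_exp]
    linarith [le_abs_self B]

/-- In a Galois extension of number fields there is a completely split prime of prime norm not
dividing `m`. -/
theorem exists_mem_splitPrimes_inter_goodPrimes (K L : Type*) [Field K] [Field L] [NumberField K]
    [NumberField L] [Algebra K L] [IsGalois K L] {m : ℕ} (hm : m ≠ 0) :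
    ∃ p : HeightOneSpectrum (𝓞 K), p ∈ splitPrimes K L ∧ p ∈ goodPrimes K m := by
  by_contra hcon
  have hempty : splitPrimes K L ∩ goodPrimes K m = ∅ := by
    rw [Set.eq_empty_iff_forall_notMem]
    rintro p ⟨h1, h2⟩
    exact hcon ⟨p, h1, h2⟩
  obtain ⟨B, hB⟩ := Fermat.Agent.ES.GAL.SplitDensity16.splitPrimes_goodPrimes_bound K L hm
  obtain ⟨s, hs, hlt⟩ := exists_log_gt B
  have h := hB s hs
  have hz : (∅ : Set (HeightOneSpectrum (𝓞 K))).primeIdealZetaSum s = 0 := by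
    show ∑' p : (∅ : Set (HeightOneSpectrum (𝓞 K))), _ = 0
    exact tsum_empty
  rw [hempty, hz, mul_zero, zero_sub, abs_neg] at h
  linarith [le_abs_self (Real.log (1 / (s - 1)))]

/-! ### The export -/

/-- **(SPLIT)**. -/
theorem splitExport : HalfAIface12.SplitExport := by
  intro K _ _ S
  classical
  -- the normal closure of `K` over `ℚ`
  have : Algebra.IsAlgebraic ℚ (AlgebraicClosure K) :=
    Algebra.IsAlgebraic.trans ℚ K (AlgebraicClosure K)
  have : IsAlgClosure ℚ (AlgebraicClosure K) := ⟨inferInstance, inferInstance⟩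
  let L : IntermediateField ℚ (AlgebraicClosure K) :=
    IntermediateField.normalClosure ℚ K (AlgebraicClosure K)
  have hfd : FiniteDimensional ℚ L := normalClosure.is_finiteDimensional ℚ K (AlgebraicClosure K)
  have : NumberField L := ⟨⟩
  have : Normal ℚ L := normalClosure.normal ℚ K (AlgebraicClosure K)
  have : IsGalois ℚ L := ⟨⟩
  -- the modulus
  set m : ℕ := ∏ x ∈ S.filter (fun x => x ≠ 0), x with hmdef
  have hm : m ≠ 0 := Finset.prod_ne_zero_iff.mpr fun x hx => (Finset.mem_filter.mp hx).2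
  obtain ⟨p, hsplit, hgood⟩ := exists_mem_splitPrimes_inter_goodPrimes ℚ L hm
  set ℓ : ℕ := absNorm p.asIdeal with hℓdef
  have hℓ : ℓ.Prime := hgood.1
  have hℓS : ℓ ∉ S := fun h =>
    hgood.2 (Finset.dvd_prod_of_mem _ (Finset.mem_filter.mpr ⟨h, hℓ.ne_zero⟩))
  have hp : p.asIdeal = span {(ℓ : 𝓞 ℚ)} :=
    eq_span_of_mem hℓ p.isPrime.ne_top (Ideal.absNorm_mem p.asIdeal)
  refine ⟨ℓ, hℓ, hℓS, fun 𝔭 h𝔭 hmem => ?_⟩
  have h𝔭0 : 𝔭 ≠ ⊥ := by
    rintro rfl
    have h0 : (ℓ : 𝓞 K) = 0 := hmem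
    exact hℓ.ne_zero (by exact_mod_cast h0)
  -- a prime of `L` over `𝔭`
  obtain ⟨𝔓, h𝔓max, h𝔓over⟩ :=
    Ideal.exists_maximal_ideal_liesOver_of_isIntegral (S := 𝓞 L) 𝔭
  have h𝔓0 : 𝔓 ≠ ⊥ := by
    rintro rfl
    have h1 := h𝔓over.over
    rw [Ideal.under_bot] at h1
    exact h𝔭0 h1
  let P : HeightOneSpectrum (𝓞 L) := ⟨𝔓, h𝔓max.isPrime, h𝔓0⟩
  let q : HeightOneSpectrum (𝓞 K) := ⟨𝔭, h𝔭.isPrime, h𝔭0⟩
  have hbelowK : below (R := 𝓞 K) P = q := HeightOneSpectrum.ext h𝔓over.over.symm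
  -- `𝔓` lies over `p`
  have hmemL : (ℓ : 𝓞 L) ∈ 𝔓 := by
    have h1 : algebraMap (𝓞 K) (𝓞 L) (ℓ : 𝓞 K) ∈ 𝔓 := by
      have h2 : (ℓ : 𝓞 K) ∈ 𝔓.under (𝓞 K) := by rw [← h𝔓over.over]; exact hmem
      exact Ideal.mem_comap.mp h2
    simpa using h1
  have hbelowQ : below (R := 𝓞 ℚ) P = p := by
    apply HeightOneSpectrum.ext
    rw [hp]
    refine eq_span_of_mem hℓ (below (R := 𝓞 ℚ) P).isPrime.ne_top ?_
    show (ℓ : 𝓞 ℚ) ∈ 𝔓.under (𝓞 ℚ)
    rw [Ideal.under_def, Ideal.mem_comap]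
    simpa using hmemL
  have hN𝔓 : absNorm 𝔓 = ℓ := by
    have := absNorm_eq_of_below_mem_splitPrimes (K := ℚ) P (by rw [hbelowQ]; exact hsplit)
    rw [hbelowQ] at this
    exact this
  have hpow := absNorm_below_pow K L P
  rw [hbelowK, hN𝔓] at hpow
  have hN𝔭 : absNorm 𝔭 = ℓ := ((Nat.Prime.pow_eq_iff hℓ).mp hpow).1
  rw [← hN𝔭, Ideal.absNorm_apply, Submodule.cardQuot_apply]

end Fermat.Agent.ES.R48.SplitExport23
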