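/-
Programme R (S48), HALF A (helper12): the complete wiring of half A.

* `halfA_of_exports`: `DSIface27.HalfA` from all chapter exports
  (SPLIT, A2 RANKIN [A3 DENS is a theorem of `DensExc16`], A4 CHEB, A5 GRP, A6 LIFT,
  A7 SEP + CHAR0, A8 TWO-ℓ, A9 IRRED).
* `halfA_of_open_exports`: the same with the exports that are already theorems plugged in
  (`SplitExport23.splitExport`, `HalfAExports15.sepExport/char0Export/twoEllExport`); what remains
  open is A2 (Rankin), A4 (Chebotarev up to inversion), A5 (subgroups of `GL₂(𝔽_ℓ)`), A6 (lift) and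
  A9 (irreducibility).
-/
import Mathlib
import Fermat.Agent.ES.R48.HalfA12
import Fermat.Agent.ES.R48.ImageBound12
import Fermat.Agent.ES.R48.SplitExport23
import Fermat.Agent.ES.R48.HalfAExports15

set_option autoImplicit false

namespace Fermat.Agent.ES.R48.HalfAFinal12

open Fermat.Agent.ES.R48.DSIface27 Fermat.Agent.ES.R48.HalfAIface12
open Fermat.Agent.ES.R48.ImageBound12

/-- **Half A from the chapter exports.** -/
theorem halfA_of_exports (hSplit : SplitExport) (hRankin : DensExc16.RankinExport)
    (hCheb : ChebExport) (hGrp : GrpDefs20.BoundedImage) (hLift : LiftExport) (hSep : SepExport)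
    (hChar0 : Char0Export) (hTwo : TwoEllExport) (hIrr : IrredExport) : HalfA :=
  HalfA12.halfA hSplit hLift hSep hChar0 hTwo hIrr (imageBound hRankin hCheb hGrp)

/-- **Half A from the exports that are still open** (A2, A4, A5, A6, A9). -/
theorem halfA_of_open_exports (hRankin : DensExc16.RankinExport) (hCheb : ChebExport)
    (hGrp : GrpDefs20.BoundedImage) (hLift : LiftExport) (hIrr : IrredExport) : HalfA :=
  halfA_of_exports SplitExport23.splitExport hRankin hCheb hGrp hLift
    HalfAExports15.sepExport HalfAExports15.char0Export HalfAExports15.twoEllExport hIrr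

end Fermat.Agent.ES.R48.HalfAFinal12
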