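/-
Programme R (S48), chapter GEOM, sub-chapter G4 CONG₁, brick L1f (helper22):
**the Hecke operator `T_p` on `J₁(M)(ℚ̄)` commutes with the Galois action.**
Γ₁-twin of main's `ES/HECKE/HeckeGalois12` (whose generic part is imported AS-IS):

* `heckeOneAlphaBar_smul`, `heckeOneBetaBar_smul` : the degeneracy maps of `FF1Defs13` commute with
  the coefficientwise Galois action;
* **`heckeOnePic0Bar_smul`** : `T_p (σ • x) = σ • T_p x` on `JOne M`, for any transcendental
  generator of `F1bar M` (input of the "all inertia degrees are one" lemma of `FundId12`);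
* `heckeOneAlong_smul`, **`heckeOne_smul`** : the same for the TOTAL operators of `JOneOps13`
  (`heckeOne M p` for every `p : ℕ`): literally `GeomIface13.HeckeGaloisComm M p`
  (= `hecke_galois_comm₁` of the blueprint), the only hypothesis being a generator of `F1bar M` (G2).
-/
import Mathlib
import Fermat.Agent.ES.HECKE.HeckeGalois12
import Fermat.Agent.ES.R48.FF1Defs13
import Fermat.Agent.ES.R48.JOneOps13

set_option autoImplicit false
set_option synthInstance.maxHeartbeats 400000
set_option linter.style.haveILetI false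

noncomputable section

open AlgebraicCurve ModularCurve

namespace Fermat.Agent.ES.R48.HeckeGaloisOne22

open Fermat.Agent.ES.R48.FF1Defs13 Fermat.Agent.ES.R48.JOneOps13

/-! ### The degeneracy maps and the coefficientwise Galois action -/

section Degeneracy

variable {L : Type*} [Field L] [Algebra ℚ L] (M p : ℕ) [NeZero p]

theorem heckeOneAlphaBar_smul (σ : L ≃ₐ[ℚ] L) (f : laurentBaseChange L (F1 M)) :
    heckeOneAlphaBar M p L (arithmeticGalois (F1 M) σ • f) =
      arithmeticGalois (F1p M p) σ • heckeOneAlphaBar M p L f := by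
  apply Subtype.ext
  rw [coe_heckeOneAlphaBar, coe_arithmeticGalois_smul, coe_arithmeticGalois_smul,
    coe_heckeOneAlphaBar]

theorem heckeOneBetaBar_smul (σ : L ≃ₐ[ℚ] L) (f : laurentBaseChange L (F1 M)) :
    heckeOneBetaBar M p L (arithmeticGalois (F1 M) σ • f) =
      arithmeticGalois (F1p M p) σ • heckeOneBetaBar M p L f := by
  apply Subtype.ext
  rw [coe_heckeOneBetaBar, coe_arithmeticGalois_smul, coe_arithmeticGalois_smul,
    coe_heckeOneBetaBar, coeffMap_qExpand13]

end Degeneracy

/-! ### `T_p` commutes with `Gal(ℚ̄/ℚ)` -/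

section Hecke

/-- `ℚbar`. -/
local notation "Qb" => AlgebraicClosure ℚ

variable {M p : ℕ} [NeZero p]
variable (hα : HeckeOneAlphaBarIntegral M p Qb) (hβ : HeckeOneBetaBarIntegral M p Qb)
variable [HasPrincipalDivisors Qb (laurentBaseChange Qb (F1p M p))]

/-- **`T_p (σ • x) = σ • T_p x`** on `J₁(M)(ℚ̄)`. -/
theorem heckeOnePic0Bar_smul
    (hFI : FundamentalIdentityAlong Qb (heckeOneBetaBar M p Qb) hβ)
    (hfin : FiniteAlong Qb (heckeOneAlphaBar M p Qb))
    (hN : NormFormulaAlong Qb (heckeOneAlphaBar M p Qb) hfin)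
    {x : F1bar M} (hx : Fermat.Agent.X0.FF.IsGen Qb x)
    (σ : Qb ≃ₐ[ℚ] Qb) (y : JOne M) :
    heckeOnePic0Bar hα hβ hFI hfin hN (σ • y) = σ • heckeOnePic0Bar hα hβ hFI hfin hN y := by
  rw [galois_smul_pic0_def, galois_smul_pic0_def]
  exact Fermat.Agent.ES.HECKE.HeckeGalois12.pic0_correspondence_smul
    (heckeOneBetaBar M p Qb) (heckeOneAlphaBar M p Qb) hβ hα
    (arithmeticGalois (F1 M) σ) (arithmeticGalois (F1p M p) σ) hFI hfin hN
    (heckeOneBetaBar_smul M p σ) (heckeOneAlphaBar_smul M p σ)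
    (fun w => Fermat.Agent.ES.HECKE.FundId12.inertiaDegAlong_eq_one (heckeOneAlphaBar M p Qb) hα hfin
      hx w) y

end Hecke

/-! ### The total operators -/

section Total

/-- `ℚbar`. -/
local notation "Qb" => AlgebraicClosure ℚ

variable {M : ℕ}

/-- the total operator `heckeOneAlong ℚbar M p` commutes with `G_ℚ`. -/
theorem heckeOneAlong_smul (p : ℕ) [NeZero p] {x : F1bar M}
    (hx : Fermat.Agent.X0.FF.IsGen Qb x) (σ : GQ) (y : JOne M) :
    heckeOneAlong Qb M p (σ • y) = σ • heckeOneAlong Qb M p y := by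
  by_cases h : HeckeOneInputsAlong Qb M p
  · obtain ⟨hα, hβ, hP, hfin, hFI, hN⟩ := h
    haveI := hP
    rw [heckeOneAlong_eq hα hβ hFI hfin hN]
    exact heckeOnePic0Bar_smul hα hβ hFI hfin hN hx σ y
  · rw [heckeOneAlong_of_not h, AddMonoidHom.zero_apply, AddMonoidHom.zero_apply, smul_zero]

/-- **`T_p` is defined over `ℚ`** (`GeomIface13.HeckeGaloisComm M p`, for every `p : ℕ`). -/
theorem heckeOne_smul (p : ℕ) {x : F1bar M} (hx : Fermat.Agent.X0.FF.IsGen Qb x) (σ : GQ)
    (y : JOne M) : heckeOne M p (σ • y) = σ • heckeOne M p y := by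
  by_cases hp : p = 0
  · rw [heckeOne, dif_pos hp, AddMonoidHom.zero_apply, AddMonoidHom.zero_apply, smul_zero]
  · haveI : NeZero p := ⟨hp⟩
    rw [heckeOne_eq]
    exact heckeOneAlong_smul p hx σ y

end Total

end Fermat.Agent.ES.R48.HeckeGaloisOne22
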