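/-
Programme R (S48, Deligne–Serre), chapter GEOM, G4 / L1e (helper14):
**the index of `±Γ₁(M) ∩ Γ₀(p)` in `±Γ₁(M)` is `p + 1`** for a prime `p ∤ M` — pure group theory
(Mathlib + main's `X0/G1Index.g1_index` + trunk `X1Iface13.PG1` only; no analytic input).

Generic in a subgroup `K` with `Γ(M) ≤ K` (`Γ(M)`, `Γ₁(M)`, `±Γ₁(M)`, `Γ₀(M)`, …):

* `lowU k = (1 0; k 1)`, `lowU_add`, `lowU_mem_Gamma`, `lowU_mem_Gamma0`, `lowU_one_eq`, `S_eq`;
* `sup_Gamma_Gamma0_eq_top (h : M.Coprime p) : Gamma M ⊔ Gamma0 p = ⊤`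
  (`T ∈ Γ₀(p)`, `U = U^{xM} · U^{yp}` by Bézout, `S = T⁻¹ U T⁻¹`, `SL2Z_generators`);
* `dedekindPsi_prime`, `index_Gamma0_prime : (Gamma0 p).index = p + 1`;
* `relIndex_Gamma0_Gamma : (Gamma0 p).relIndex (Gamma M) = p + 1`;
* **`relIndex_Gamma0_of_le (hK : Gamma M ≤ K) : (Gamma0 p).relIndex K = p + 1`**;
* **`index_inf_Gamma0_of_le (hK : Gamma M ≤ K) : (K ⊓ Gamma0 p).index = (p + 1) * K.index`**;
* `card_quotient_inf_Gamma0_of_le`, `finiteIndex_inf_Gamma0_of_le`;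
* the instances `K = PG1 M` and `K = Gamma1 M`:
  **`relIndex_Gamma0_PG1`, `index_PG1_inf_Gamma0`, `card_quotient_PG1_inf_Gamma0`**,
  `finiteIndex_PG1_inf_Gamma0`, `relIndex_Gamma0_Gamma1`, `index_Gamma1_inf_Gamma0`.
-/
import Mathlib
import Fermat.Agent.X0.G1Index
import Fermat.Agent.ES.R48.X1Iface13

set_option autoImplicit false

open scoped MatrixGroups
open CongruenceSubgroup Matrix.SpecialLinearGroup

namespace Fermat.Agent.ES.R48.IndexGamma14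

open Fermat.Agent.ES.R48.X1Iface13

/-! ### The lower unipotent matrices -/

/-- the lower unipotent matrix `(1 0; k 1)`. -/
def lowU (k : ℤ) : SL(2, ℤ) :=
  ⟨!![1, 0; k, 1], by simp [Matrix.det_fin_two_of]⟩

theorem coe_lowU (k : ℤ) : (lowU k : Matrix (Fin 2) (Fin 2) ℤ) = !![1, 0; k, 1] := rfl

theorem lowU_apply_zero_zero (k : ℤ) : lowU k 0 0 = 1 := rfl

theorem lowU_apply_zero_one (k : ℤ) : lowU k 0 1 = 0 := rfl

theorem lowU_apply_one_zero (k : ℤ) : lowU k 1 0 = k := rfl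

theorem lowU_apply_one_one (k : ℤ) : lowU k 1 1 = 1 := rfl

theorem lowU_add (a b : ℤ) : lowU (a + b) = lowU a * lowU b := by
  apply Subtype.ext
  rw [Matrix.SpecialLinearGroup.coe_mul, coe_lowU, coe_lowU, coe_lowU, Matrix.mul_fin_two]
  simp [add_comm]

theorem lowU_mem_Gamma (M : ℕ) (x : ℤ) : lowU (x * M) ∈ Gamma M := by
  rw [Gamma_mem]
  simp [lowU_apply_zero_zero, lowU_apply_zero_one, lowU_apply_one_zero, lowU_apply_one_one]

theorem lowU_mem_Gamma0 (p : ℕ) (y : ℤ) : lowU (y * p) ∈ Gamma0 p := by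
  rw [Gamma0_mem]
  simp [lowU_apply_one_zero]

theorem T_mem_Gamma0 (p : ℕ) : ModularGroup.T ∈ Gamma0 p := by
  rw [Gamma0_mem]
  simp [ModularGroup.T]

/-- `U = T S T`. -/
theorem lowU_one_eq : lowU 1 = ModularGroup.T * ModularGroup.S * ModularGroup.T := by
  apply Subtype.ext
  rw [Matrix.SpecialLinearGroup.coe_mul, Matrix.SpecialLinearGroup.coe_mul, coe_lowU,
    ModularGroup.coe_T, ModularGroup.coe_S, Matrix.mul_fin_two, Matrix.mul_fin_two]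
  simp

/-- `S = T⁻¹ U T⁻¹`. -/
theorem S_eq : ModularGroup.S = ModularGroup.T⁻¹ * lowU 1 * ModularGroup.T⁻¹ := by
  rw [lowU_one_eq]
  group

/-! ### `Γ(M) Γ₀(p) = SL(2, ℤ)` for coprime `M`, `p` -/

theorem sup_Gamma_Gamma0_eq_top {M p : ℕ} (h : Nat.Coprime M p) : Gamma M ⊔ Gamma0 p = ⊤ := by
  rw [eq_top_iff, ← SpecialLinearGroup.SL2Z_generators, Subgroup.closure_le]
  have hT : ModularGroup.T ∈ Gamma M ⊔ Gamma0 p := Subgroup.mem_sup_right (T_mem_Gamma0 p)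
  have hU : lowU 1 ∈ Gamma M ⊔ Gamma0 p := by
    have hb : (1 : ℤ) = Nat.gcdA M p * (M : ℤ) + Nat.gcdB M p * (p : ℤ) := by
      have := Nat.gcd_eq_gcd_ab M p
      rw [h.gcd_eq_one] at this
      push_cast at this
      linarith
    rw [hb, lowU_add]
    exact Subgroup.mul_mem_sup (lowU_mem_Gamma M _) (lowU_mem_Gamma0 p _)
  rintro g (rfl | rfl)
  · rw [SetLike.mem_coe, S_eq]
    exact mul_mem (mul_mem (inv_mem hT) hU) (inv_mem hT)
  · exact hT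

/-! ### The index of `Γ₀(p)` -/

theorem dedekindPsi_prime {p : ℕ} (hp : p.Prime) : ModularCurve.dedekindPsi p = p + 1 := by
  unfold ModularCurve.dedekindPsi
  rw [hp.divisors, Finset.filter_true_of_mem, Finset.sum_pair hp.one_lt.ne]
  · rw [Nat.div_one, Nat.div_self hp.pos]
  · intro d hd
    rcases Finset.mem_insert.1 hd with rfl | hd
    · exact squarefree_one
    · rw [Finset.mem_singleton.1 hd]
      exact hp.prime.squarefree

theorem index_Gamma0_prime {p : ℕ} (hp : p.Prime) : (Gamma0 p).index = p + 1 := by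
  have : NeZero p := ⟨hp.ne_zero⟩
  rw [Fermat.Agent.X0.G1Index.g1_index, dedekindPsi_prime hp]

/-! ### The relative index -/

section Rel

variable {M p : ℕ} [NeZero M]

/-- `[Γ(M) : Γ(M) ∩ Γ₀(p)] = p + 1`. -/
theorem relIndex_Gamma0_Gamma (hp : p.Prime) (hpM : ¬ p ∣ M) :
    (Gamma0 p).relIndex (Gamma M) = p + 1 := by
  have hcop : Nat.Coprime M p := ((Nat.Prime.coprime_iff_not_dvd hp).2 hpM).symm
  have : (Gamma M).Normal := Gamma_normal M
  -- `[Γ₀(p) : Γ₀(p) ∩ Γ(M)] = [SL₂(ℤ) : Γ(M)]`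
  have h1 : (Gamma M).relIndex (Gamma0 p) = (Gamma M).index := by
    rw [← Subgroup.relIndex_sup_right (Gamma0 p) (Gamma M), sup_comm,
      sup_Gamma_Gamma0_eq_top hcop, Subgroup.relIndex_top_right]
  -- the index of the intersection, computed through `Γ₀(p)` and through `Γ(M)`
  have h2 : (Gamma M).relIndex (Gamma0 p) * (Gamma0 p).index = (Gamma0 p ⊓ Gamma M).index := by
    rw [← Subgroup.inf_relIndex_left (Gamma0 p) (Gamma M)]
    exact Subgroup.relIndex_mul_index inf_le_left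
  have h3 : (Gamma0 p).relIndex (Gamma M) * (Gamma M).index = (Gamma0 p ⊓ Gamma M).index := by
    rw [← Subgroup.inf_relIndex_right (Gamma0 p) (Gamma M)]
    exact Subgroup.relIndex_mul_index inf_le_right
  have hne : (Gamma M).index ≠ 0 := Subgroup.FiniteIndex.index_ne_zero
  rw [h1, index_Gamma0_prime hp] at h2
  have h4 : (Gamma0 p).relIndex (Gamma M) * (Gamma M).index = (p + 1) * (Gamma M).index := by
    rw [h3, ← h2, mul_comm]
  exact Nat.eq_of_mul_eq_mul_right (Nat.pos_of_ne_zero hne) h4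

/-- **`[K : K ∩ Γ₀(p)] = p + 1` for every `Γ(M) ≤ K`, `p ∤ M` prime.** -/
theorem relIndex_Gamma0_of_le (hp : p.Prime) (hpM : ¬ p ∣ M) {K : Subgroup SL(2, ℤ)}
    (hK : Gamma M ≤ K) : (Gamma0 p).relIndex K = p + 1 := by
  have hidx : (Gamma0 p).index = p + 1 := index_Gamma0_prime hp
  have htop : (Gamma0 p).relIndex ⊤ ≠ 0 := by
    rw [Subgroup.relIndex_top_right, hidx]
    exact Nat.succ_ne_zero p
  have hK0 : (Gamma0 p).relIndex K ≠ 0 := fun h0 =>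
    htop (Subgroup.relIndex_eq_zero_of_le_right le_top h0)
  have hle : (Gamma0 p).relIndex K ≤ p + 1 := by
    have := Subgroup.relIndex_le_of_le_right (H := Gamma0 p) (le_top : K ≤ ⊤) htop
    rwa [Subgroup.relIndex_top_right, hidx] at this
  have hge : p + 1 ≤ (Gamma0 p).relIndex K := by
    have := Subgroup.relIndex_le_of_le_right (H := Gamma0 p) hK hK0
    rwa [relIndex_Gamma0_Gamma hp hpM] at this
  exact le_antisymm hle hge

/-- **`[SL₂(ℤ) : K ∩ Γ₀(p)] = (p + 1) [SL₂(ℤ) : K]`.** -/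
theorem index_inf_Gamma0_of_le (hp : p.Prime) (hpM : ¬ p ∣ M) {K : Subgroup SL(2, ℤ)}
    (hK : Gamma M ≤ K) : (K ⊓ Gamma0 p).index = (p + 1) * K.index := by
  rw [← relIndex_Gamma0_of_le hp hpM hK, ← Subgroup.inf_relIndex_left K (Gamma0 p)]
  exact (Subgroup.relIndex_mul_index inf_le_left).symm

theorem card_quotient_inf_Gamma0_of_le (hp : p.Prime) (hpM : ¬ p ∣ M) {K : Subgroup SL(2, ℤ)}
    (hK : Gamma M ≤ K) :
    Nat.card (SL(2, ℤ) ⧸ (K ⊓ Gamma0 p)) = (p + 1) * Nat.card (SL(2, ℤ) ⧸ K) :=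
  index_inf_Gamma0_of_le hp hpM hK

theorem finiteIndex_inf_Gamma0_of_le (hp : p.Prime) {K : Subgroup SL(2, ℤ)}
    (hK : Gamma M ≤ K) : (K ⊓ Gamma0 p).FiniteIndex := by
  have : NeZero p := ⟨hp.ne_zero⟩
  have : K.FiniteIndex := Subgroup.finiteIndex_of_le hK
  infer_instance

end Rel

/-! ### The instances `±Γ₁(M)` and `Γ₁(M)` -/

section Inst

variable (M : ℕ) [NeZero M] {p : ℕ}

omit [NeZero M] in
theorem Gamma_le_Gamma1 : Gamma M ≤ Gamma1 M := by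
  intro A hA
  rw [Gamma_mem] at hA
  rw [Gamma1_mem]
  exact ⟨hA.1, hA.2.2.2, hA.2.2.1⟩

theorem Gamma_le_PG1 : Gamma M ≤ PG1 M :=
  (Gamma_le_Gamma1 M).trans (Gamma1_le_PG1 M)

/-- **`[±Γ₁(M) : ±Γ₁(M) ∩ Γ₀(p)] = p + 1`.** -/
theorem relIndex_Gamma0_PG1 (hp : p.Prime) (hpM : ¬ p ∣ M) :
    (Gamma0 p).relIndex (PG1 M) = p + 1 :=
  relIndex_Gamma0_of_le hp hpM (Gamma_le_PG1 M)

/-- **`[SL₂(ℤ) : ±Γ₁(M) ∩ Γ₀(p)] = (p + 1) [SL₂(ℤ) : ±Γ₁(M)]`.** -/
theorem index_PG1_inf_Gamma0 (hp : p.Prime) (hpM : ¬ p ∣ M) :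
    (PG1 M ⊓ Gamma0 p).index = (p + 1) * (PG1 M).index :=
  index_inf_Gamma0_of_le hp hpM (Gamma_le_PG1 M)

theorem card_quotient_PG1_inf_Gamma0 (hp : p.Prime) (hpM : ¬ p ∣ M) :
    Nat.card (SL(2, ℤ) ⧸ (PG1 M ⊓ Gamma0 p)) = (p + 1) * Nat.card (SL(2, ℤ) ⧸ PG1 M) :=
  index_PG1_inf_Gamma0 M hp hpM

theorem finiteIndex_PG1_inf_Gamma0 (hp : p.Prime) : (PG1 M ⊓ Gamma0 p).FiniteIndex :=
  finiteIndex_inf_Gamma0_of_le hp (Gamma_le_PG1 M)

theorem relIndex_Gamma0_Gamma1 (hp : p.Prime) (hpM : ¬ p ∣ M) :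
    (Gamma0 p).relIndex (Gamma1 M) = p + 1 :=
  relIndex_Gamma0_of_le hp hpM (Gamma_le_Gamma1 M)

theorem index_Gamma1_inf_Gamma0 (hp : p.Prime) (hpM : ¬ p ∣ M) :
    (Gamma1 M ⊓ Gamma0 p).index = (p + 1) * (Gamma1 M).index :=
  index_inf_Gamma0_of_le hp hpM (Gamma_le_Gamma1 M)

end Inst

end Fermat.Agent.ES.R48.IndexGamma14
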