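/-
Programme R (S48, Deligne–Serre), chapter GEOM, sub-chapter G4 "CONG₁" (helper24):
**the two Kronecker inputs `hgenδ`, `hδ` of `TorsEsOne13.spTors_of_kron` from the upstream
literals.**

* `rmem_of_resFieldStep1` : **(Rmem)** — the reduction of an `A`-integral series lying in
  `ℚbar · F1 M` lies in `F1C k M` — from helper15's contract `GaussBridgeOne15.ResFieldStep1 A M`
  ((R0a)₁ at all large number fields; one line from `ChartIntegralAOne15.redSeries_mem_F1C`);
* **`dgen_of_resFieldStep1`** : `KronDgen24.PrincipalGeneratedByIntegralδ A (residue A) M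
  (diamondAut ℚbar M e)` (= `hgenδ`) from `ResFieldStep1 A M` and `JOneOps13.HasDiamonds ℚbar M`;
* `diamondBar_fixes_j`, `coeff_diamondBar_j` : `⟨e⟩ j = j` (unconditionally: `diamondBar` is the
  identity if it is not a diamond), so `(⟨e⟩ j).coeff (-1) = 1`;
* **`normConj1_diamond`** : `KronMainOne24.NormConj1 M p (fun f => diamondAut ℚbar M e • f)`
  (= `hδ`) from the conjugates homomorphism `W` (`ConjugatesOne`: `W (α a) = a(q^p)`,
  `W (β f) = ⟨e⟩ f`) and the degree `[F1p : α F1] = p + 1` (`DegreeLOne20`).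
-/
import Mathlib
import Fermat.Agent.ES.R48.GaussUnitOne24
import Fermat.Agent.ES.R48.ConjAlphaOne24
import Fermat.Agent.ES.R48.ChartIntegralAOne15

set_option autoImplicit false
set_option linter.unusedSectionVars false

open ModularCurve AlgebraicCurve HahnSeries IntermediateField

noncomputable section

namespace Fermat.Agent.ES.R48.KronPlug24

open Fermat.Agent.X0
open Fermat.Agent.ES.R48.FF1Defs13
open Fermat.Agent.ES.R48.F1CDefs15
open Fermat.Agent.ES.R48.RedDefsG15
open Fermat.Agent.ES.R48.JOneOps13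
open Fermat.Agent.ES.R48.KronMainOne24
open Fermat.Agent.ES.R48.KronDgen24
open Fermat.Agent.ES.R48.GaussBridgeOne15

/-! ### (Rmem) and (Dgen) from the contract `ResFieldStep1` -/

section Dgen

variable (A : ValuationSubring Kbar) (ℓ : ℕ) [Fact ℓ.Prime] (M : ℕ) [NeZero M]

/-- **(Rmem)** from (R0a)₁ at all large number fields. -/
theorem rmem_of_resFieldStep1 (hA : A.LiesOverPrime ℓ) (hres : ResFieldStep1 A M)
    (Y : LaurentSeries ↥A) (hY : coeffMap A.subtype Y ∈ laurentBaseChange Kbar (F1 M)) :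
    coeffMap (IsLocalRing.residue ↥A) Y ∈ F1C (IsLocalRing.ResidueField ↥A) M := by
  have hy : (⟨coeffMap A.subtype Y, hY⟩ : ↥(F1bar M)) ∈ ChartIntegralAOne15.intF A M := ⟨Y, rfl⟩
  have h := ChartIntegralAOne15.redSeries_mem_F1C A M ℓ hA hres ⟨_, hy⟩
  rwa [ChartIntegralAOne15.redSeries_eq_of (Y := Y) rfl] at h

/-- **(Dgen) = `hgenδ`** for the diamond `⟨e⟩`. -/
theorem dgen_of_resFieldStep1 (hA : A.LiesOverPrime ℓ) (hres : ResFieldStep1 A M)
    [HasPrincipalDivisors Kbar ↥(laurentBaseChange Kbar (F1 M))]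
    (hdia : HasDiamonds Kbar M) (e : (ZMod M)ˣ) :
    PrincipalGeneratedByIntegralδ A (IsLocalRing.residue ↥A) M (diamondAut Kbar M e) :=
  GaussUnitOne24.principalGeneratedByIntegralδ A ℓ hA (diamondBar_spec (hdia e))
    (rmem_of_resFieldStep1 A ℓ M hA hres)

/-- **(Rgen)₁** from the contract (same as `GaussUnitOne15.principalGeneratedByIntegral1`). -/
theorem rgen_of_resFieldStep1 (hA : A.LiesOverPrime ℓ) (hres : ResFieldStep1 A M)
    [HasPrincipalDivisors Kbar ↥(laurentBaseChange Kbar (F1 M))] :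
    PrincipalGeneratedByIntegral1 A (IsLocalRing.residue ↥A) M :=
  GaussUnitOne24.principalGeneratedByIntegral1 A ℓ hA (rmem_of_resFieldStep1 A ℓ M hA hres)

end Dgen

/-! ### The diamond fixes `j` -/

section FixJ

variable (L : Type*) [Field L] [Algebra ℚ L] (M : ℕ) [NeZero M]

theorem jq_mem_full : jq ∈ modularFunctionFieldFull M := by
  have h := jqd_mem_full M (d := 1) (one_dvd M)
  have h1 : qExpand ℚ 1 jq = jq := by
    ext k
    have := qExpand_coeff_mul (R := ℚ) 1 jq k
    rwa [Nat.cast_one, one_mul] at this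
  rwa [h1] at h

/-- `j` as an element of `L · F1 M`. -/
def jL : ↥(laurentBaseChange L (F1 M)) :=
  emb1 L jq (full_le_F1 M (jq_mem_full M))

theorem coe_jL : ((jL L M : ↥(laurentBaseChange L (F1 M))) : LaurentSeries L) = coeffEmb L jq :=
  rfl

theorem coeff_jL : ((jL L M : ↥(laurentBaseChange L (F1 M))) : LaurentSeries L).coeff (-1) = 1 := by
  rw [coe_jL, coeffEmb_coeff, coeff_jq_neg_one, map_one]

/-- `⟨e⟩ j = j`, unconditionally. -/
theorem diamondBar_fixes_j (e : (ZMod M)ˣ) : diamondBar L M e (jL L M) = jL L M := by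
  rcases Classical.em (∃ τ : laurentBaseChange L (F1 M) ≃ₐ[L] laurentBaseChange L (F1 M),
      IsDiamondBar L M e τ) with h | h
  · exact (diamondBar_spec h).1 jq (jq_mem_full M)
  · have h1 : diamondBar L M e = AlgEquiv.refl := by
      rw [diamondBar, dif_neg h]
    rw [h1]
    rfl

theorem coeff_diamondBar_j (e : (ZMod M)ˣ) :
    ((diamondBar L M e (jL L M) : ↥(laurentBaseChange L (F1 M))) : LaurentSeries L).coeff (-1)
      = 1 := by
  rw [diamondBar_fixes_j, coeff_jL]

end FixJ

/-! ### (NORM-α₁) = `hδ` for the diamond -/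

section NormConj

variable (M p : ℕ) [NeZero M] [NeZero p]

/-- **`hδ`**: (NORM-α₁) for `δ = ⟨e⟩`, from the conjugates homomorphism `W` and the degree. -/
theorem normConj1_diamond (hp : p.Prime) (e : (ZMod M)ˣ)
    (hW : ∃ W : ↥(laurentBaseChange Kbar (F1p M p)) →+* LaurentSeries Kbar,
      (∀ a : ↥(laurentBaseChange Kbar (F1 M)),
        W (heckeOneAlphaBar M p Kbar a) = qExpand Kbar p (a : LaurentSeries Kbar)) ∧
      ∀ f : ↥(laurentBaseChange Kbar (F1 M)),
        W (heckeOneBetaBar M p Kbar f) =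
          ((diamondBar Kbar M e f : ↥(laurentBaseChange Kbar (F1 M))) : LaurentSeries Kbar))
    (hfin : FiniteAlong Kbar (heckeOneAlphaBar M p Kbar))
    (hn : finrankAlong Kbar (heckeOneAlphaBar M p Kbar) = p + 1) :
    NormConj1 M p (fun f => diamondAut Kbar M e • f) := by
  obtain ⟨W, hWα, hWβ⟩ := hW
  refine ConjAlphaOne24.normConj1_of_W M p hp (fun f => diamondAut Kbar M e • f) W hWα hWβ
    (jL Kbar M) ?_ hfin hn
  show ((diamondBar Kbar M e (jL Kbar M) : ↥(laurentBaseChange Kbar (F1 M))) :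
    LaurentSeries Kbar).coeff (-1) ≠ 0
  rw [coeff_diamondBar_j]
  exact one_ne_zero

end NormConj

end Fermat.Agent.ES.R48.KronPlug24
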