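/-
Programme R (S48), chapter GEOM, sub-chapter G5 KUM₁ (helper25): **base change of constants does
not change degrees.**  Generic in the rational field `F₀ ⊆ ℚ((q))` and in the fields `k ⊆ K` over
`ℚ`; `Fk = laurentBaseChange k F₀`, `FK = laurentBaseChange K F₀`, `bcS : k((q)) → K((q))` and
`bc F₀ : Fk → FK` the coefficientwise base changes of `J/DESC/LaurentExt24`.

* `bcS_sum_eq_zero`, `linearIndependent_bcS` : a `k`-linearly independent family of series stays
  `K`-linearly independent (coordinates in a `k`-basis of `K`);
* `transcendental_bcS` : `x` transcendental over `k` ⇒ `bcS x` transcendental over `K`;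
* `linearIndependent_adjoin_bcS` : a `k(x)`-linearly independent family stays `K(x)`-linearly
  independent (`x` transcendental: clear denominators, expand in powers of `x`);
* `family_bound_bcS`, `relfinrank_bcS_ne_zero`, `relfinrank_bcS_eq` :
  `[FK : K(x)] = [Fk : k(x)]` (upper bound: `DegBaseChange25.family_bound_map`);
* `isGen_bc`, `finrank_bc` : the same in the `X0.FF.IsGen` / `Module.finrank` shapes.
No instance, no attribute, no notation.
-/
import Mathlib
import Fermat.Agent.J.DESC.LaurentExt24
import Fermat.Agent.RED.PUR.DegBaseChange25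
import Fermat.Agent.ES.RED.SpecialGen25

set_option autoImplicit false

noncomputable section

namespace Fermat.Agent.ES.R48.KumBaseDeg25

open HahnSeries IntermediateField ModularCurve Polynomial
open Fermat.Agent.J.DESC.LaurentExt24
open scoped IntermediateField.algebraAdjoinAdjoin

section Series

variable {k K : Type*} [Field k] [Field K] [Algebra k K]

theorem coeff_algebraMap_mul25 (c : K) (y : LaurentSeries K) (n : ℤ) :
    (algebraMap K (LaurentSeries K) c * y).coeff n = c * y.coeff n := by
  rw [algebraMap_laurentSeries_eq_single, HahnSeries.coeff_single_zero_mul]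

/-- **Linear disjointness, dual form** (explicit sums): a `k`-linearly independent family of
Laurent series over `k` stays `K`-linearly independent after the coefficientwise base change. -/
theorem bcS_sum_eq_zero {ι : Type*} (y : ι → LaurentSeries k)
    (hy : ∀ (s : Finset ι) (g : ι → k),
      ∑ i ∈ s, algebraMap k (LaurentSeries k) (g i) * y i = 0 → ∀ i ∈ s, g i = 0)
    (s : Finset ι) (g : ι → K)
    (hg : ∑ i ∈ s, algebraMap K (LaurentSeries K) (g i) * bcS (K := K) (y i) = 0) :
    ∀ i ∈ s, g i = 0 := by
  classical
  let B := Module.Free.chooseBasis k K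
  intro i hi
  have key : ∀ b, ∀ j ∈ s, B.repr (g j) b = 0 := by
    intro b
    apply hy s (fun j => B.repr (g j) b)
    ext n
    have hn := congrArg (fun z : LaurentSeries K => B.repr (z.coeff n) b) hg
    simp only [HahnSeries.coeff_sum, coeff_algebraMap_mul25, coeffMap_coeff, HahnSeries.coeff_zero,
      map_zero, Finsupp.coe_zero, Pi.zero_apply, map_sum, Finsupp.coe_finsetSum,
      Finset.sum_apply] at hn
    rw [HahnSeries.coeff_sum, HahnSeries.coeff_zero, ← hn]
    refine Finset.sum_congr rfl fun j _ => ?_
    rw [coeff_algebraMap_mul25, mul_comm (g j), ← Algebra.smul_def,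
      map_smul, Finsupp.smul_apply, smul_eq_mul, mul_comm]
  apply B.repr.injective
  ext b
  simpa using key b i hi

/-- `Algebra.toModule` form (the module structure of the intermediate-field API; it is NOT
definitionally the coefficientwise `HahnSeries` module structure). -/
theorem linearIndependent_bcS {ι : Type*} (y : ι → LaurentSeries k)
    (hy : @LinearIndependent ι k (LaurentSeries k) y _ _ Algebra.toModule) :
    @LinearIndependent ι K (LaurentSeries K) (fun i => bcS (K := K) (y i)) _ _
      Algebra.toModule := by
  have hy' := (@linearIndependent_iff' ι k (LaurentSeries k) _ _ Algebra.toModule y).mp hy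
  refine (@linearIndependent_iff' ι K (LaurentSeries K) _ _ Algebra.toModule _).mpr ?_
  intro s g hg
  refine bcS_sum_eq_zero y (fun s' g' h' => hy' s' g' ?_) s g ?_
  · simpa only [Algebra.smul_def] using h'
  · simpa only [Algebra.smul_def] using hg

/-- the powers of a transcendental element are linearly independent. -/
theorem linearIndependent_pow_of_transcendental {R A : Type*} [Field R] [Ring A] [Algebra R A]
    {x : A} (hx : Transcendental R x) : LinearIndependent R (fun m : ℕ => x ^ m) := by
  have h1 := (Polynomial.basisMonomials R).linearIndependent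
  have h2 := h1.map' (Polynomial.aeval x).toLinearMap
    (LinearMap.ker_eq_bot.mpr (transcendental_iff_injective.mp hx))
  have h3 : (fun m : ℕ => x ^ m) =
      ⇑(Polynomial.aeval x).toLinearMap ∘ ⇑(Polynomial.basisMonomials R) := by
    ext m
    simp [Polynomial.coe_basisMonomials]
  rw [h3]
  exact h2

/-- conversely. -/
theorem transcendental_of_linearIndependent_pow {R A : Type*} [Field R] [Ring A] [Algebra R A]
    {x : A} (hx : LinearIndependent R (fun m : ℕ => x ^ m)) : Transcendental R x := by
  rw [transcendental_iff]
  intro p hp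
  rw [linearIndependent_iff'] at hx
  ext m
  rw [Polynomial.coeff_zero]
  by_cases hm : m ∈ Finset.range (p.natDegree + 1)
  · refine hx (Finset.range (p.natDegree + 1)) (fun i => p.coeff i) ?_ m hm
    rw [← Polynomial.aeval_eq_sum_range' (Nat.lt_succ_self _), hp]
  · rw [Finset.mem_range, not_lt] at hm
    exact Polynomial.coeff_eq_zero_of_natDegree_lt hm

/-- the base change of a transcendental series is transcendental. -/
theorem transcendental_bcS {x : LaurentSeries k} (hx : Transcendental k x) :
    Transcendental K (bcS (K := K) x) := by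
  apply transcendental_of_linearIndependent_pow
  have h := linearIndependent_bcS (K := K) _ (linearIndependent_pow_of_transcendental hx)
  simpa only [map_pow] using h

/-- **Linear disjointness over `k(x)`**: a `k(x)`-linearly independent family of Laurent series
(`x` transcendental over `k`) stays `K(x)`-linearly independent after base change. -/
theorem linearIndependent_adjoin_bcS {ι : Type*} {x : LaurentSeries k} (hx : Transcendental k x)
    (c : ι → LaurentSeries k) (hc : LinearIndependent ↥(k⟮x⟯) c) :
    LinearIndependent ↥(K⟮bcS (K := K) x⟯) (fun i => bcS (K := K) (c i)) := by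
  classical
  -- step 1: `k`-independence of `x ^ m * c i`
  have hb : LinearIndependent k (fun m : ℕ => (AdjoinSimple.gen k x) ^ m) := by
    apply linearIndependent_pow_of_transcendental
    intro halg
    apply hx
    have := halg.algHom (k⟮x⟯).val
    simpa using this
  have h1 : @LinearIndependent (ℕ × ι) k (LaurentSeries k)
      (fun p : ℕ × ι => x ^ p.1 * c p.2) _ _ Algebra.toModule := by
    have := @linearIndependent_smul k ↥(k⟮x⟯) (LaurentSeries k) _ _ _ _ _ Algebra.toModule
      _ _ _ _ _ hb hc
    exact this
  have h1' : ∀ (s : Finset (ℕ × ι)) (g : ℕ × ι → k),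
      ∑ p ∈ s, algebraMap k (LaurentSeries k) (g p) * (x ^ p.1 * c p.2) = 0 →
        ∀ p ∈ s, g p = 0 := by
    intro s g hg
    refine (@linearIndependent_iff' (ℕ × ι) k (LaurentSeries k) _ _ Algebra.toModule _).mp h1
      s g ?_
    simpa only [Algebra.smul_def] using hg
  -- step 2: `K`-independence of `X ^ m * bcS (c i)`
  have h2 := bcS_sum_eq_zero (K := K) _ h1'
  -- step 3: independence over the polynomial ring `K[X]`
  have h3 : LinearIndependent ↥(Algebra.adjoin K {bcS (K := K) x})
      (fun i => bcS (K := K) (c i)) := by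
    rw [linearIndependent_iff']
    intro s g hg i hi
    have hP : ∀ j, ∃ P : K[X],
        Polynomial.aeval (R := K) (bcS (K := K) x) P = (g j : LaurentSeries K) := by
      intro j
      have : (g j : LaurentSeries K) ∈ (Polynomial.aeval (R := K) (bcS (K := K) x)).range := by
        rw [← Algebra.adjoin_singleton_eq_range_aeval K (bcS (K := K) x)]
        exact (g j).2
      exact this
    choose P hP using hP
    set N := (s.sup fun j => (P j).natDegree) + 1 with hN
    have hdeg : ∀ j ∈ s, (P j).natDegree < N := fun j hj =>
      Nat.lt_succ_of_le (Finset.le_sup (f := fun j => (P j).natDegree) hj)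
    have hsum : ∑ p ∈ Finset.range N ×ˢ s, algebraMap K (LaurentSeries K) ((P p.2).coeff p.1) *
        bcS (K := K) (x ^ p.1 * c p.2) = 0 := by
      rw [Finset.sum_product_right]
      rw [← hg]
      refine Finset.sum_congr rfl fun j hj => ?_
      rw [Subalgebra.smul_def, smul_eq_mul, ← hP j, Polynomial.aeval_eq_sum_range' (hdeg j hj),
        Finset.sum_mul]
      refine Finset.sum_congr rfl fun m _ => ?_
      rw [map_mul, map_pow, Algebra.smul_def, mul_assoc]
    have hzero : ∀ m, (P i).coeff m = 0 := by
      intro m
      by_cases hm : m < N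
      · exact h2 _ _ hsum (m, i) (Finset.mem_product.mpr ⟨Finset.mem_range.mpr hm, hi⟩)
      · exact Polynomial.coeff_eq_zero_of_natDegree_lt
          (lt_of_lt_of_le (hdeg i hi) (not_lt.mp hm))
    have hPi : P i = 0 := Polynomial.ext fun m => by rw [hzero m, Polynomial.coeff_zero]
    apply Subtype.ext
    rw [← hP i, hPi, map_zero]
    rfl
  exact (LinearIndependent.iff_fractionRing ↥(Algebra.adjoin K {bcS (K := K) x})
    ↥(K⟮bcS (K := K) x⟯)).mp h3

end Series

section Family

variable {F E : Type*} [Field F] [Field E] [Algebra F E] {A B : IntermediateField F E}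

/-- a family-form upper bound makes `B / A` finite: `relfinrank A B ≠ 0`. -/
theorem relfinrank_ne_zero_of_family_bound (h : A ≤ B) (m : ℕ)
    (hub : ∀ (n : ℕ) (c : Fin n → E), (∀ i, c i ∈ B) → LinearIndependent ↥A c → n ≤ m) :
    relfinrank A B ≠ 0 := by
  classical
  rw [relfinrank_eq_finrank_of_le h]
  have hrank : Module.rank ↥A ↥(extendScalars h) ≤ m := by
    apply rank_le
    intro s hs
    have h1 : LinearIndependent ↥A
        (fun i : Fin s.card => (((s.equivFin.symm i : ↥s) : ↥(extendScalars h)) : E)) := by
      have h2 : LinearIndependent ↥A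
          (fun i : Fin s.card => ((s.equivFin.symm i : ↥s) : ↥(extendScalars h))) :=
        hs.comp _ s.equivFin.symm.injective
      exact h2.map' (extendScalars h).val.toLinearMap
        (LinearMap.ker_eq_bot.mpr (extendScalars h).val.injective)
    exact hub s.card _ (fun i => (mem_extendScalars h).mp (s.equivFin.symm i : ↥s).1.2) h1
  have hfin : Module.Finite ↥A ↥(extendScalars h) := by
    rw [← Module.rank_lt_aleph0_iff]
    exact lt_of_le_of_lt hrank Cardinal.natCast_lt_aleph0
  exact (Module.finrank_pos (R := ↥A) (M := ↥(extendScalars h))).ne'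

end Family

section Degree

open Fermat.Agent.RED.PUR.DegBaseChange25 Fermat.Agent.IG.PR.FamilyForm20

variable {k K : Type*} [Field k] [Field K] [Algebra ℚ k] [Algebra ℚ K] [Algebra k K]
  (F₀ : IntermediateField ℚ (LaurentSeries ℚ))

theorem image_bcS_coeffEmb :
    (bcS (k := k) (K := K)) '' ((coeffEmb k) '' (F₀ : Set (LaurentSeries ℚ))) =
      (coeffEmb K) '' (F₀ : Set (LaurentSeries ℚ)) := by
  rw [Set.image_image]
  exact Set.image_congr fun z _ => bcS_coeffEmb z

variable {F₀}

/-- **Upper bound, family form**: `[FK : K(x)] ≤ [Fk : k(x)]`. -/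
theorem family_bound_bcS {x : LaurentSeries k} (hxF : x ∈ laurentBaseChange k F₀)
    (hfin : relfinrank k⟮x⟯ (laurentBaseChange k F₀) ≠ 0)
    (n : ℕ) (c : Fin n → LaurentSeries K) (hc : ∀ i, c i ∈ laurentBaseChange K F₀)
    (hli : LinearIndependent ↥(K⟮bcS (K := K) x⟯) c) :
    n ≤ relfinrank k⟮x⟯ (laurentBaseChange k F₀) := by
  have hTS : adjoin k ({x} : Set (LaurentSeries k)) ≤
      adjoin k ((coeffEmb k) '' (F₀ : Set (LaurentSeries ℚ))) := by
    rw [adjoin_simple_le_iff]
    exact hxF
  refine family_bound_map (algebraMap k K) (bcS (k := k) (K := K)) (fun a => bcS_algebraMap a) {x}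
    ((coeffEmb k) '' (F₀ : Set (LaurentSeries ℚ))) hTS _ ?_ n c ?_ ?_
  · intro n' c' hc' hli'
    exact le_relfinrank_of_family hTS n' hfin c' hc' hli'
  · rw [image_bcS_coeffEmb]
    exact hc
  · rw [Set.image_singleton]
    exact hli

theorem adjoin_bcS_le {x : LaurentSeries k} (hxF : x ∈ laurentBaseChange k F₀) :
    K⟮bcS (K := K) x⟯ ≤ laurentBaseChange K F₀ := by
  rw [adjoin_simple_le_iff]
  exact bcS_mem F₀ hxF

/-- finiteness is preserved. -/
theorem relfinrank_bcS_ne_zero {x : LaurentSeries k} (hxF : x ∈ laurentBaseChange k F₀)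
    (hfin : relfinrank k⟮x⟯ (laurentBaseChange k F₀) ≠ 0) :
    relfinrank K⟮bcS (K := K) x⟯ (laurentBaseChange K F₀) ≠ 0 :=
  relfinrank_ne_zero_of_family_bound (adjoin_bcS_le hxF) _ (family_bound_bcS hxF hfin)

/-- **Base change of constants does not change the degree**:
`[K · F₀ : K(x)] = [k · F₀ : k(x)]` for `x ∈ k · F₀` transcendental over `k` with
`[k · F₀ : k(x)] < ∞`. -/
theorem relfinrank_bcS_eq {x : LaurentSeries k} (hx : Transcendental k x)
    (hxF : x ∈ laurentBaseChange k F₀)
    (hfin : relfinrank k⟮x⟯ (laurentBaseChange k F₀) ≠ 0) :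
    relfinrank K⟮bcS (K := K) x⟯ (laurentBaseChange K F₀) =
      relfinrank k⟮x⟯ (laurentBaseChange k F₀) := by
  apply le_antisymm
  · exact relfinrank_le_of_family_bound (adjoin_bcS_le hxF) _ (family_bound_bcS hxF hfin)
  · have hle : k⟮x⟯ ≤ laurentBaseChange k F₀ := adjoin_simple_le_iff.mpr hxF
    obtain ⟨c, hc, hli⟩ := exists_basis_family hle
    exact le_relfinrank_of_family (adjoin_bcS_le hxF) _ (relfinrank_bcS_ne_zero hxF hfin)
      (fun i => bcS (K := K) (c i)) (fun i => bcS_mem F₀ (hc i))
      (linearIndependent_adjoin_bcS hx c hli)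

end Degree

section Gen

open Fermat.Agent.X0 Fermat.Agent.ES.RED.SpecialGen25

variable {k K : Type*} [Field k] [Field K] [Algebra ℚ k] [Algebra ℚ K] [Algebra k K]
  {F₀ : IntermediateField ℚ (LaurentSeries ℚ)}

theorem transcendental_coe_of_isGen {y : ↥(laurentBaseChange k F₀)} (hy : FF.IsGen k y) :
    Transcendental k (y : LaurentSeries k) := fun halg =>
  hy.transcendental
    ((isAlgebraic_algHom_iff (laurentBaseChange k F₀).val
      (laurentBaseChange k F₀).val.injective).mp halg)

theorem relfinrank_ne_zero_of_isGen {y : ↥(laurentBaseChange k F₀)} (hy : FF.IsGen k y) :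
    relfinrank k⟮(y : LaurentSeries k)⟯ (laurentBaseChange k F₀) ≠ 0 := by
  rw [← finrank_adjoin_simple_eq_relfinrank]
  have := hy.finite
  exact Module.finrank_pos.ne'

/-- **`IsGen` is preserved by base change of constants.** -/
theorem isGen_bc {y : ↥(laurentBaseChange k F₀)} (hy : FF.IsGen k y) :
    FF.IsGen K (bc (K := K) F₀ y) :=
  isGen_of_relfinrank_ne_zero _ _ (transcendental_bcS (transcendental_coe_of_isGen hy))
    (relfinrank_bcS_ne_zero y.2 (relfinrank_ne_zero_of_isGen hy))

/-- **The degree is preserved by base change of constants.** -/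
theorem finrank_bc {y : ↥(laurentBaseChange k F₀)} (hy : FF.IsGen k y) :
    Module.finrank
        ↥(K⟮bc (K := K) F₀ y⟯ : IntermediateField K ↥(laurentBaseChange K F₀))
        ↥(laurentBaseChange K F₀) =
      Module.finrank
        ↥(k⟮y⟯ : IntermediateField k ↥(laurentBaseChange k F₀))
        ↥(laurentBaseChange k F₀) := by
  rw [finrank_adjoin_simple_eq_relfinrank, finrank_adjoin_simple_eq_relfinrank]
  exact relfinrank_bcS_eq (transcendental_coe_of_isGen hy) y.2 (relfinrank_ne_zero_of_isGen hy)

end Gen

end Fermat.Agent.ES.R48.KumBaseDeg25
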