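/-
Programme R (S48), chapter GEOM, sub-chapter G5 KUM₁ (helper25): twin of `ES/KUM/FieldL25` for the
function field of `X₁(M)`: **`F1_L := laurentBaseChange L (F1 M) ⊂ L((q))` over ANY algebraically
closed field `L ⊇ ℚ`** (in particular `L = ℂ`).

* `jL1 L M : F1_L` the formal `j`-invariant; `bc_jL1`; `jF1_eq_jL1`, `Kj1_eq` (bridge to `X1Iface13`);
* `isGen_jL1_of_isGen`, `finrank_jL1_of_isGen` : `IsGen` and the degree over `k(j)` pass from `k`
  to every extension field `K ⊇ k` (`KumBaseDeg25`);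
* `isGen_jL1_Kbar` : the `ℚ̄`-level input in G2's shape (`FiniteDimensional (Kj1 M) (FF1 M)`);
* for `L` algebraically closed, from `hQ : FF.IsGen Kbar (jL1 Kbar M)` :
  `isGen_jL1`, `finrank_jL1 : [F1_L : L(j)] = [FF1 M : Kj1 M]`, `finrank_jL1_eq_index`,
  `hasPrincipalDivisors_L1`, `deg_eq_one_L1`, `exists_divisor_L1`, `nonempty_place_L1`.
No instance, no attribute, no notation.
-/
import Mathlib
import Fermat.Agent.X0.FFGenus
import Fermat.Agent.IG.VAL.OvBasics22
import Fermat.Agent.ES.R48.X1Iface13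
import Fermat.Agent.ES.R48.KumBaseDeg25

set_option autoImplicit false

noncomputable section

open HahnSeries ModularCurve IntermediateField AlgebraicCurve

namespace Fermat.Agent.ES.R48.KumFieldL25

open Fermat.Agent.X0 Fermat.Agent.RED.PUR.DegBaseChange25 Fermat.Agent.ES.RED.SpecialGen25
open Fermat.Agent.ES.R48.FF1Defs13 Fermat.Agent.ES.R48.X1Iface13
open Fermat.Agent.J.DESC.LaurentExt24 Fermat.Agent.ES.R48.KumBaseDeg25

section Basic

variable (L : Type) [Field L] [Algebra ℚ L] (M : ℕ) [NeZero M]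

omit [NeZero M] in
theorem jqModC_mem_F1L : jqModC L ∈ laurentBaseChange L (F1 M) :=
  laurentBaseChange_mono13 L (full_le_F1 M) (jqModC_mem_laurentBaseChange L M)

/-- the formal `j`-invariant as an element of `F1_L = L · F1 M`. -/
def jL1 : ↥(laurentBaseChange L (F1 M)) := ⟨jqModC L, jqModC_mem_F1L L M⟩

omit [NeZero M] in
theorem coe_jL1 :
    ((jL1 L M : ↥(laurentBaseChange L (F1 M))) : LaurentSeries L) = jqModC L := rfl

omit [NeZero M] in
theorem transcendental_jL1 : Transcendental L (jL1 L M) := fun halg =>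
  Fermat.Agent.IG.VAL.OvBasics22.transcendental_jqModC L
    (halg.algHom (laurentBaseChange L (F1 M)).val)

end Basic

section Tower

variable (k K : Type) [Field k] [Field K] [Algebra ℚ k] [Algebra ℚ K] [Algebra k K] (M : ℕ)
  [NeZero M]

omit [NeZero M] in
/-- Base change sends `j` to `j`. -/
theorem bc_jL1 : bc (K := K) (F1 M) (jL1 k M) = jL1 K M :=
  Subtype.ext (coeffMap_jqModC _)

omit [NeZero M] in
/-- `IsGen` for `j` passes to extension fields of constants. -/
theorem isGen_jL1_of_isGen (h : FF.IsGen k (jL1 k M)) : FF.IsGen K (jL1 K M) := by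
  rw [← bc_jL1 k K M]
  exact isGen_bc h

omit [NeZero M] in
/-- the degree over `k(j)` passes to extension fields of constants. -/
theorem finrank_jL1_of_isGen (h : FF.IsGen k (jL1 k M)) :
    Module.finrank
        ↥(K⟮jL1 K M⟯ : IntermediateField K ↥(laurentBaseChange K (F1 M)))
        ↥(laurentBaseChange K (F1 M)) =
      Module.finrank
        ↥(k⟮jL1 k M⟯ : IntermediateField k ↥(laurentBaseChange k (F1 M)))
        ↥(laurentBaseChange k (F1 M)) := by
  rw [← bc_jL1 k K M]
  exact finrank_bc h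

end Tower

section Bridge

variable (M : ℕ) [NeZero M]

/-- the underlying series of `X1Iface13.jF1 M` is `jqModC ℚ̄`. -/
theorem coe_jF1 : ((jF1 M : FF1 M) : LaurentSeries Kbar) = jqModC Kbar := by
  show coeffEmb Kbar (qExpand ℚ 1 jq) = jqModC Kbar
  rw [qExpand_one_apply, coeffEmb, ← jqModC_rat, coeffMap_jqModC]

theorem jF1_eq_jL1 : jF1 M = jL1 Kbar M := Subtype.ext (coe_jF1 M)

theorem Kj1_eq : Kj1 M = (Kbar⟮jL1 Kbar M⟯ : IntermediateField Kbar (FF1 M)) := by
  rw [Kj1, jF1_eq_jL1]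

/-- **the `ℚ̄`-level input**, in the shape G2 proves it (`X1Degree`). -/
theorem isGen_jL1_Kbar (hfin : FiniteDimensional ↥(Kj1 M) (FF1 M)) :
    FF.IsGen Kbar (jL1 Kbar M) := by
  refine ⟨transcendental_jL1 Kbar M, ?_⟩
  rw [Kj1_eq] at hfin
  exact hfin

/-- the same from a nonzero degree. -/
theorem isGen_jL1_Kbar_of_finrank (hdeg : Module.finrank ↥(Kj1 M) (FF1 M) ≠ 0) :
    FF.IsGen Kbar (jL1 Kbar M) :=
  isGen_jL1_Kbar M (Module.finite_of_finrank_pos (Nat.pos_of_ne_zero hdeg))

end Bridge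

section AlgClosed

variable (L : Type) [Field L] [Algebra ℚ L] [IsAlgClosed L] (M : ℕ)
  (hQ : FF.IsGen Kbar (jL1 Kbar M))

include hQ

/-- `j` is a transcendental generator of `F1_L / L`. -/
theorem isGen_jL1 : FF.IsGen L (jL1 L M) := by
  have : CharZero L := algebraRat.charZero L
  have : Algebra.IsAlgebraic ℚ Kbar := AlgebraicClosure.isAlgebraic ℚ
  let φ : Kbar →ₐ[ℚ] L := IsAlgClosed.lift
  let _ : Algebra Kbar L := φ.toRingHom.toAlgebra
  exact isGen_jL1_of_isGen Kbar L M hQ

/-- `[F1_L : L(j)] = [F1_ℚ̄ : ℚ̄(j)]`, computed inside `F1_L`. -/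
theorem finrank_jL1 [NeZero M] :
    Module.finrank
        ↥(L⟮jL1 L M⟯ : IntermediateField L ↥(laurentBaseChange L (F1 M)))
        ↥(laurentBaseChange L (F1 M)) =
      Module.finrank ↥(Kj1 M) (FF1 M) := by
  have : CharZero L := algebraRat.charZero L
  have : Algebra.IsAlgebraic ℚ Kbar := AlgebraicClosure.isAlgebraic ℚ
  let φ : Kbar →ₐ[ℚ] L := IsAlgClosed.lift
  let _ : Algebra Kbar L := φ.toRingHom.toAlgebra
  rw [finrank_jL1_of_isGen Kbar L M hQ, Kj1_eq]

/-- `[F1_L : L(j)] = [SL(2, ℤ) : ±Γ₁(M)]`, given G2's degree over `ℚ̄`. -/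
theorem finrank_jL1_eq_index [NeZero M]
    (hdeg : Module.finrank ↥(Kj1 M) (FF1 M) = (PG1 M).index) :
    Module.finrank
        ↥(L⟮jL1 L M⟯ : IntermediateField L ↥(laurentBaseChange L (F1 M)))
        ↥(laurentBaseChange L (F1 M)) = (PG1 M).index := by
  rw [finrank_jL1 L M hQ, hdeg]

theorem finiteDimensional_jL1 :
    FiniteDimensional
      ↥(L⟮jL1 L M⟯ : IntermediateField L ↥(laurentBaseChange L (F1 M)))
      ↥(laurentBaseChange L (F1 M)) :=
  (isGen_jL1 L M hQ).finite

/-- Principal divisors of `F1_L` exist (finite support) and have degree `0`. -/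
theorem hasPrincipalDivisors_L1 :
    HasPrincipalDivisors L ↥(laurentBaseChange L (F1 M)) := by
  have : CharZero L := algebraRat.charZero L
  exact FFGenus.hasPrincipalDivisors (isGen_jL1 L M hQ)

/-- Every place of `F1_L / L` has degree `1`. -/
theorem deg_eq_one_L1 (v : Place L ↥(laurentBaseChange L (F1 M))) : v.deg = 1 :=
  FF.deg_eq_one (isGen_jL1 L M hQ) v

/-- The divisor of a nonzero function, as a `Finsupp`, of degree `0`. -/
theorem exists_divisor_L1 {f : ↥(laurentBaseChange L (F1 M))} (hf : f ≠ 0) :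
    ∃ D : Divisor L ↥(laurentBaseChange L (F1 M)),
      (∀ v, D v = v.ord f) ∧ Divisor.degree D = 0 :=
  (hasPrincipalDivisors_L1 L M hQ).exists_divisor f hf

/-- `F1_L` has at least one place (a pole of `j`). -/
theorem nonempty_place_L1 : Nonempty (Place L ↥(laurentBaseChange L (F1 M))) := by
  have : CharZero L := algebraRat.charZero L
  by_contra hempty
  rw [not_nonempty_iff] at hempty
  have h := FF.sum_ord_poles (isGen_jL1 L M hQ)
  have h0 : (∑ᶠ (v : Place L ↥(laurentBaseChange L (F1 M)))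
      (_ : v.ord (jL1 L M) < 0), -v.ord (jL1 L M)) = 0 := by
    apply finsum_eq_zero_of_forall_eq_zero
    intro v
    exact (hempty.false v).elim
  rw [h0] at h
  have := finiteDimensional_jL1 L M hQ
  have hpos : 0 < Module.finrank
      ↥(L⟮jL1 L M⟯ : IntermediateField L ↥(laurentBaseChange L (F1 M)))
      ↥(laurentBaseChange L (F1 M)) := Module.finrank_pos
  omega

end AlgClosed

end Fermat.Agent.ES.R48.KumFieldL25
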