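/-
Programme R (S48), chapter GEOM, sub-chapter G5 KUM₁ (helper25): **descent `ℂ → ℚ̄` for `X₁(M)`**,
the twin of `J/DESC/DescentC24` (section Modular) + `J/DESC/DescentFinal24` with
`modularFunctionFieldFull N ↦ F1 M` and `isGen_jL · N ↦` the hypothesis
`hQ : FF.IsGen Qb (jL1 Qb M)` (G2's degree theorem, `= jF1_eq_jL1 ▸ X1Degree14.isGen_jF1 …`):
`k = ℚ̄ = AlgebraicClosure ℚ`, `K = ℂ` (the Prelude's `complexEmbedding`), `F₀ = F1 M`.

* `bcQC1 M : FQ1 M →+* FCx1 M` (coefficientwise), `isConstExt_bcQC1`, `bcQC1_jL1`, `rhoC1`;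
* `extPlaceC1`, `extDivC1`, `extDivC1_datum`, `extPic0C1 M hQ : JOne M →+ Pic⁰(F₁,ℂ)`, injective;
* `torsionEquivC1 M hQ n : J₁(M)(ℚ̄)[n] ≃+ Pic⁰(F₁,ℂ)[n]` given that the right side is finite;
* `finite_torsion_bar1`, `finite_setOf_nsmul_eq_zero1 : {y : JOne M | n • y = 0}.Finite`.
The generic machinery (`LaurentExt24`, `ConstExt24`, `ExtPic22`, `DescentC24` generic section) is
imported AS-IS.  The only attribute is the LOCAL activation of the Prelude's two instances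
`Algebra ℚ̄ ℂ`, `IsScalarTower ℚ ℚ̄ ℂ`, exactly as in the original.
-/
import Mathlib
import Fermat.Prelude.Def_GaloisRep_ComplexConjugation
import Fermat.Agent.J.DESC.DescentC24
import Fermat.Agent.J.DESC.ExtPic22
import Fermat.Agent.ES.R48.KumFieldL25

set_option autoImplicit false
set_option linter.unusedSectionVars false
set_option linter.style.longLine false

namespace Fermat.Agent.ES.R48.KumDescentFinal25

open ModularCurve HahnSeries AlgebraicCurve Fermat.Agent.X0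
open Fermat.Agent.J.DESC.ConstExt24 Fermat.Agent.J.DESC.LaurentExt24
open Fermat.Agent.J.DESC.DescentC24 Fermat.Agent.J.DESC.ExtPic22
open Fermat.Agent.ES.R48.FF1Defs13 Fermat.Agent.ES.R48.KumFieldL25

noncomputable section

attribute [local instance] instAlgebraQbarComplex instTowerQbarComplex

/-- `ℚ̄`. -/
abbrev Qb : Type := AlgebraicClosure ℚ

variable (M : ℕ)

/-- `F₁,ℚ̄ = ℚ̄ · F1 M ⊂ ℚ̄((q))` (the carrier of `FF1Defs13.F1bar M`, i.e. `X1Iface13.FF1 M`). -/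
abbrev FQ1 : Type := ↥(laurentBaseChange Qb (F1 M))

/-- `F₁,ℂ = ℂ · F1 M ⊂ ℂ((q))` (`CReal1_3.FC1 M`). -/
abbrev FCx1 : Type := ↥(laurentBaseChange ℂ (F1 M))

/-- Base change of modular functions `F₁,ℚ̄ → F₁,ℂ` along `complexEmbedding`. -/
def bcQC1 : FQ1 M →+* FCx1 M := bc (k := Qb) (K := ℂ) (F1 M)

theorem coe_bcQC1 (f : FQ1 M) :
    ((bcQC1 M f : FCx1 M) : LaurentSeries ℂ) =
      coeffMap (algebraMap Qb ℂ) (f : LaurentSeries Qb) := rfl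

theorem coeff_bcQC1 (f : FQ1 M) (n : ℤ) :
    ((bcQC1 M f : FCx1 M) : LaurentSeries ℂ).coeff n =
      complexEmbedding ((f : LaurentSeries Qb).coeff n) := by
  rw [coe_bcQC1, coeffMap_coeff]
  rfl

theorem bcQC1_injective : Function.Injective (bcQC1 M) := bc_injective _

theorem isConstExt_bcQC1 : IsConstExt (k := Qb) (K := ℂ) (bcQC1 M) :=
  isConstExt_bc (k := Qb) (K := ℂ) (F1 M)

theorem bcQC1_jL1 : bcQC1 M (jL1 Qb M) = jL1 ℂ M := bc_jL1 Qb ℂ M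

/-- The action of `Aut(ℂ/ℚ̄)` on `F₁,ℂ`. -/
def rhoC1 : (ℂ ≃ₐ[Qb] ℂ) →* SemilinearAut ℂ (FCx1 M) := rho (k := Qb) (K := ℂ) (F1 M)

theorem baseAut_rhoC1 (σ : ℂ ≃ₐ[Qb] ℂ) (c : ℂ) : SemilinearAut.baseAut (rhoC1 M σ) c = σ c := rfl

theorem rhoC1_smul_bcQC1 (σ : ℂ ≃ₐ[Qb] ℂ) (f : FQ1 M) : rhoC1 M σ • bcQC1 M f = bcQC1 M f :=
  rho_smul_bc (F1 M) σ f

theorem mem_range_bcQC1_of_fixed (h : FCx1 M) (hfix : ∀ σ : ℂ ≃ₐ[Qb] ℂ, rhoC1 M σ • h = h) :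
    h ∈ Set.range (bcQC1 M) :=
  mem_range_bc_of_fixed (k := Qb) (K := ℂ) (F1 M) h hfix

theorem bcQC1_ne_zero {f : FQ1 M} (hf : f ≠ 0) : bcQC1 M f ≠ 0 :=
  (map_ne_zero_iff _ (bcQC1_injective M)).mpr hf

/-! ### Places, divisors, classes -/

variable (hQ : FF.IsGen Qb (jL1 Qb M))

/-- Extension of places of `F₁,ℚ̄` to `F₁,ℂ`. -/
def extPlaceC1 : Place Qb (FQ1 M) → Place ℂ (FCx1 M) :=
  extPlace (bcQC1 M) (isConstExt_bcQC1 M) (isGen_jL1 ℂ M hQ)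

theorem ord_extPlaceC1 (w : Place Qb (FQ1 M)) (f : FQ1 M) :
    (extPlaceC1 M hQ w).ord (bcQC1 M f) = w.ord f :=
  ord_extPlace (isConstExt_bcQC1 M) hQ (isGen_jL1 ℂ M hQ) w f

theorem extPlaceC1_injective : Function.Injective (extPlaceC1 M hQ) :=
  extPlace_injective (isConstExt_bcQC1 M) (isGen_jL1 ℂ M hQ)

/-- Extension of divisors. -/
def extDivC1 : Divisor Qb (FQ1 M) →+ Divisor ℂ (FCx1 M) :=
  extDiv (isConstExt_bcQC1 M) (isGen_jL1 ℂ M hQ)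

theorem extDivC1_apply_extPlaceC1 (D : Divisor Qb (FQ1 M)) (w : Place Qb (FQ1 M)) :
    extDivC1 M hQ D (extPlaceC1 M hQ w) = D w :=
  extDiv_apply_extPlace (isConstExt_bcQC1 M) (isGen_jL1 ℂ M hQ) D w

theorem degree_extDivC1 (D : Divisor Qb (FQ1 M)) :
    Divisor.degree (extDivC1 M hQ D) = Divisor.degree D :=
  degree_extDiv (isConstExt_bcQC1 M) hQ (isGen_jL1 ℂ M hQ) D

/-- **Transport of Kummer data**: if `n • D = div f` over `ℚ̄` then `n • extDivC1 D = div (bc f)`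
over `ℂ`. -/
theorem extDivC1_datum (n : ℤ) {D : Divisor Qb (FQ1 M)} {f : FQ1 M} (hf : f ≠ 0)
    (hD : ∀ w : Place Qb (FQ1 M), n * D w = w.ord f) (v : Place ℂ (FCx1 M)) :
    n * extDivC1 M hQ D v = v.ord (bcQC1 M f) := by
  have h := extDiv_apply_of_principal (isConstExt_bcQC1 M) hQ (isGen_jL1 ℂ M hQ)
    (D := n • D) hf (fun w => by rw [Finsupp.smul_apply, smul_eq_mul, hD w]) v
  rw [← h]
  show n * extDivC1 M hQ D v = extDivC1 M hQ (n • D) v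
  rw [map_zsmul, Finsupp.smul_apply, smul_eq_mul]

/-- **Base change of divisor classes** `J₁(M)(ℚ̄) = Pic⁰(F₁,ℚ̄) →+ Pic⁰(F₁,ℂ)`. -/
def extPic0C1 : Pic0 Qb (FQ1 M) →+ Pic0 ℂ (FCx1 M) :=
  extPic0 (isConstExt_bcQC1 M) hQ (isGen_jL1 ℂ M hQ)

theorem extPic0C1_mk (D : Divisor.degZero (K := Qb) (F := FQ1 M)) :
    extPic0C1 M hQ (Pic0.mk D) =
      Pic0.mk (extDegZero (isConstExt_bcQC1 M) hQ (isGen_jL1 ℂ M hQ) D) := rfl

theorem coe_extDegZeroC1 (D : Divisor.degZero (K := Qb) (F := FQ1 M)) :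
    ((extDegZero (isConstExt_bcQC1 M) hQ (isGen_jL1 ℂ M hQ) D :
      Divisor.degZero (K := ℂ) (F := FCx1 M)) : Divisor ℂ (FCx1 M)) =
        extDivC1 M hQ (D : Divisor Qb (FQ1 M)) :=
  coe_extDegZero _ _ _ D

/-- **Injectivity of base change on `Pic⁰`.** -/
theorem extPic0C1_injective : Function.Injective (extPic0C1 M hQ) :=
  extPic0_injective (isConstExt_bcQC1 M) hQ (isGen_jL1 ℂ M hQ) (rhoC1 M)
    (rhoC1_smul_bcQC1 M) (mem_range_bcQC1_of_fixed M)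

/-- The classes in the image are fixed by `Aut(ℂ/ℚ̄)`. -/
theorem rhoC1_smul_extPic0C1 (σ : ℂ ≃ₐ[Qb] ℂ) (y : Pic0 Qb (FQ1 M)) :
    rhoC1 M σ • extPic0C1 M hQ y = extPic0C1 M hQ y :=
  smul_extPic0 (isConstExt_bcQC1 M) hQ (isGen_jL1 ℂ M hQ) (rhoC1 M σ)
    (rhoC1_smul_bcQC1 M σ) y

/-! ### Torsion -/

/-- **the torsion of `J₁(M)` over `ℚ̄` and over `ℂ` agree**, given finiteness over `ℂ`. -/
def torsionEquivC1 (n : ℕ) [Finite (Pic0.torsion ℂ (FCx1 M) n)] :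
    Pic0.torsion Qb (FQ1 M) n ≃+ Pic0.torsion ℂ (FCx1 M) n :=
  torsionEquiv (isConstExt_bcQC1 M) hQ (isGen_jL1 ℂ M hQ) (rhoC1 M) (baseAut_rhoC1 M)
    (rhoC1_smul_bcQC1 M) (mem_range_bcQC1_of_fixed M) n

theorem coe_torsionEquivC1_apply (n : ℕ) [Finite (Pic0.torsion ℂ (FCx1 M) n)]
    (y : Pic0.torsion Qb (FQ1 M) n) :
    (torsionEquivC1 M hQ n y : Pic0 ℂ (FCx1 M)) = extPic0C1 M hQ (y : Pic0 Qb (FQ1 M)) := rfl

/-- Every `n`-torsion class over `ℂ` is the base change of a unique `n`-torsion class over `ℚ̄`. -/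
theorem exists_extPic0C1_eq (n : ℕ) [Finite (Pic0.torsion ℂ (FCx1 M) n)] {z : Pic0 ℂ (FCx1 M)}
    (hz : z ∈ Pic0.torsion ℂ (FCx1 M) n) :
    ∃ y ∈ Pic0.torsion Qb (FQ1 M) n, extPic0C1 M hQ y = z := by
  obtain ⟨y, hy⟩ := (torsionEquivC1 M hQ n).surjective ⟨z, hz⟩
  exact ⟨y, y.2, by rw [← coe_torsionEquivC1_apply, hy]⟩

include hQ in
/-- **Finiteness of `J₁(M)(ℚ̄)[n]`** from finiteness over `ℂ` (only injectivity is used). -/
theorem finite_torsion_bar1 (n : ℕ) [Finite (Pic0.torsion ℂ (FCx1 M) n)] :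
    Finite (Pic0.torsion Qb (FQ1 M) n) :=
  finite_torsion (isConstExt_bcQC1 M) hQ (isGen_jL1 ℂ M hQ) (rhoC1 M)
    (rhoC1_smul_bcQC1 M) (mem_range_bcQC1_of_fixed M) n

include hQ in
/-- The same, in the `JOne` / set shape of `GeomIface13.TorsionFinite`. -/
theorem finite_setOf_nsmul_eq_zero1 (n : ℕ) [Finite (Pic0.torsion ℂ (FCx1 M) n)] :
    {y : JOne M | n • y = 0}.Finite := by
  have := finite_torsion_bar1 M hQ n
  have h : {y : JOne M | n • y = 0} =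
      ((Pic0.torsion Qb (FQ1 M) n : AddSubgroup (Pic0 Qb (FQ1 M))) : Set (Pic0 Qb (FQ1 M))) := by
    ext y
    rw [Set.mem_ofPred_eq, SetLike.mem_coe, Pic0.mem_torsion, natCast_zsmul]
  rw [h]
  exact Set.toFinite _

end

end Fermat.Agent.ES.R48.KumDescentFinal25
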