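/-
Programme R (S48, Deligne–Serre), chapter GEOM / G5 KUM₁ (helper18): **the concrete Kummer map over
`ℂ` for an arbitrary analytic realization** — the generic form of `ES/KUM/KumInst18`.

`F` a field over `ℂ` (a function field), `Γ ≤ SL(2, ℤ)`, and a *realization*
`R : Realization F Γ`: a ring homomorphism `Θ : F →+* MerH` into the meromorphic functions on `ℍ`, which is
the identity on constants, has `Γ`-invariant values, and satisfies the weak point dictionary
"`ord_z (Θ f) = e · ord_v f` for a place `v = v(z)` and an index `e = e(z)`".  Instantiating helper17's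
abstract Kummer map (`KummerAbstract17`) at `(ℂ, F, MerH, ↥Γ)`, `act γ := slMer γ`:

* `setting R`, `hasRoots R n` (ROOT, from `RootsMer14.exists_root_MerH` and the dictionary);
* `kummer R n hc : Pic⁰(F)[n] →+ Additive (↥Γ →* ℂˣ)` (given (CONST) `hc : ConstOnly ℂ F`), `kumCharOf`,
  `kummer_eigen`, `exists_datum`, `kummer_pow_eq_one`, `kummer_eq_of_isKum`, level compatibility
  `kummer_nsmul`;
* `KumChar Γ n` : the characters of `Γ` of exponent `n` which are trivial on the elements with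
  `tr² = 4` (the condition of `IsParabolicHom`); `MultTrivial R n` (MULT), `kummer_mem_kumChar`,
  `kummerTo`; `HasEigenfunctions R n` (SURJ), `kummer_surjective_of`; `kummerEquiv`;
  `finite_torsion` (from (INV) and `Γ` finitely generated).

For `Γ = Γ₀(N)`, `F = FC N`, `Θ = realMer N` this is `KumInst18` (with `|tr| ≤ 2` there); the
instantiation at `Γ₁(M)` only needs the fields of `Realization`.
-/
import Mathlib
import Fermat.Agent.ES.KUM.KummerAbstract17
import Fermat.Agent.ES.KUM.CPoint5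
import Fermat.Agent.ES.KUM.RootsMer14

set_option autoImplicit false

open UpperHalfPlane ModularCurve AlgebraicCurve
open scoped MatrixGroups

noncomputable section

namespace Fermat.Agent.ES.R48.KumGen18

open Fermat.Agent.X0 Fermat.Agent.X0.SurjPoint Fermat.Agent.ES.KUM
  Fermat.Agent.ES.KUM.KummerAbstract17

/-- the constants of `MerH`. -/
def constMer : ℂ →+* MerH := (algebraMap HolH MerH).comp (algebraMap ℂ HolH)

@[simp] theorem constMer_apply (c : ℂ) :
    constMer c = algebraMap HolH MerH (algebraMap ℂ HolH c) := rfl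

/-- **An analytic realization** of the field `F` over `ℂ` by `Γ`-invariant meromorphic functions on
`ℍ`, with the weak point dictionary. -/
structure Realization (F : Type) [Field F] [Algebra ℂ F] (Γ : Subgroup SL(2, ℤ)) where
  /-- the realization -/
  Θ : F →+* MerH
  Θ_algebraMap : ∀ c : ℂ, Θ (algebraMap ℂ F c) = constMer c
  slMer_Θ : ∀ γ ∈ Γ, ∀ f : F, slMer γ (Θ f) = Θ f
  exists_place : ∀ z : ℍ, ∃ (v : Place ℂ F) (e : ℤ), ∀ f : F, f ≠ 0 →
    ordMer z (Θ f) = e * v.ord f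

variable {F : Type} [Field F] [Algebra ℂ F] {Γ : Subgroup SL(2, ℤ)} (R : Realization F Γ)

/-- **The Kummer setting** of a realization. -/
def setting : Setting ℂ F MerH ↥Γ where
  ι := constMer
  Θ := R.Θ
  Θ_algebraMap c := R.Θ_algebraMap c
  act γ := slMer (γ : SL(2, ℤ))
  act_ι γ c := slMer_const (γ : SL(2, ℤ)) c
  act_Θ γ f := R.slMer_Θ (γ : SL(2, ℤ)) γ.2 f
  act_mul_eigen := Setting.act_mul_eigen_of_right constMer
    (fun γ : ↥Γ => slMer (γ : SL(2, ℤ)))
    (fun γ c => slMer_const (γ : SL(2, ℤ)) c)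
    (fun γ δ h => by
      change slMer ((γ : SL(2, ℤ)) * (δ : SL(2, ℤ))) h = _
      exact slMer_mul _ _ h)

@[simp] theorem setting_ι (c : ℂ) :
    (setting R).ι c = algebraMap HolH MerH (algebraMap ℂ HolH c) := rfl

@[simp] theorem setting_Θ (f : F) : (setting R).Θ f = R.Θ f := rfl

@[simp] theorem setting_act (γ : ↥Γ) (h : MerH) :
    (setting R).act γ h = slMer (γ : SL(2, ℤ)) h := rfl

theorem Θ_ne_zero {f : F} (hf : f ≠ 0) : R.Θ f ≠ 0 :=
  fun h => hf (R.Θ.injective (by rw [h, map_zero]))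

/-- **(ROOT)**: an element of `F` all of whose orders are divisible by `n` has an `n`-th root in
`MerH`. -/
theorem hasRoots (n : ℕ) (hn : n ≠ 0) : (setting R).HasRoots n := by
  intro f hf hdiv
  have hne : R.Θ f ≠ 0 := Θ_ne_zero R hf
  obtain ⟨a, b, ha, hb, hab⟩ := exists_div_ne_zero_frac (S := HolH) (R.Θ f) hne
  have hz : ∀ z : ℍ, ∃ m : ℤ,
      ((ordH (a : ℍ → ℂ) z).toNat : ℤ) - ((ordH (b : ℍ → ℂ) z).toNat : ℤ) = n * m := by
    intro z
    obtain ⟨v, e, hve⟩ := R.exists_place z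
    obtain ⟨m, hm⟩ := hdiv v
    refine ⟨e * m, ?_⟩
    rw [← ordMer_div_algebraMap z ha hb, ← hab, hve f hf, hm]
    ring
  obtain ⟨x, -, hx⟩ := RootsMer14.exists_root_MerH n hn a b ha hb hz
  exact ⟨x, by rw [hx, setting_Θ, hab]⟩

variable (hc : ConstOnly ℂ F)

/-- **The Kummer map** of a realization: `Pic⁰(F)[n] → Hom(Γ, ℂˣ)`. -/
def kummer (n : ℕ) [NeZero n] :
    ↥(Pic0.torsion ℂ F n) →+ Additive (↥Γ →* ℂˣ) :=
  KummerAbstract17.kummer (setting R) n (hasRoots R n (NeZero.ne n)) hc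

/-- the character `κ x`. -/
def kumCharOf (n : ℕ) [NeZero n] (x : ↥(Pic0.torsion ℂ F n)) : ↥Γ →* ℂˣ :=
  Additive.toMul (kummer R hc n x)

theorem isKum_kummer (n : ℕ) [NeZero n] (x : ↥(Pic0.torsion ℂ F n)) :
    IsKum (setting R) n (x : Pic0 ℂ F) (kumCharOf R hc n x) :=
  KummerAbstract17.isKum_kummer (setting R) n _ _ x

/-- **Characterisation**: for ANY datum `x = [D]`, `n • D = div f`, `h ^ n = Θ f`, one has
`h ∘ γ = κ x γ · h`. -/
theorem kummer_eigen (n : ℕ) [NeZero n] (x : ↥(Pic0.torsion ℂ F n))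
    {D : Divisor.degZero (K := ℂ) (F := F)} {f : F} {h : MerH}
    (hd : IsDatum (setting R) n (x : Pic0 ℂ F) D f h) (γ : ↥Γ) :
    slMer (γ : SL(2, ℤ)) h =
      algebraMap HolH MerH (algebraMap ℂ HolH ((kumCharOf R hc n x γ : ℂˣ) : ℂ)) * h :=
  KummerAbstract17.kummer_eigen (setting R) n _ _ x hd γ

/-- every torsion class has a datum. -/
theorem exists_datum (n : ℕ) [NeZero n] (x : ↥(Pic0.torsion ℂ F n)) :
    ∃ (D : Divisor.degZero (K := ℂ) (F := F)) (f : F) (h : MerH),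
      IsDatum (setting R) n (x : Pic0 ℂ F) D f h ∧
      ∀ γ : ↥Γ, slMer (γ : SL(2, ℤ)) h =
        algebraMap HolH MerH (algebraMap ℂ HolH ((kumCharOf R hc n x γ : ℂˣ) : ℂ)) * h :=
  isKum_kummer R hc n x

theorem kummer_pow_eq_one (n : ℕ) [NeZero n] (x : ↥(Pic0.torsion ℂ F n)) (γ : ↥Γ) :
    kumCharOf R hc n x γ ^ n = 1 :=
  KummerAbstract17.kummer_pow_eq_one (setting R) n _ _ x γ

theorem kummer_eq_of_isKum (n : ℕ) [NeZero n] (x : ↥(Pic0.torsion ℂ F n)) {χ : ↥Γ →* ℂˣ}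
    (hχ : IsKum (setting R) n (x : Pic0 ℂ F) χ) : kumCharOf R hc n x = χ := by
  have h := KummerAbstract17.kummer_eq_of_isKum (setting R) n (hasRoots R n (NeZero.ne n)) hc x hχ
  change Additive.toMul (kummer R hc n x) = χ
  change kummer R hc n x = Additive.ofMul χ at h
  rw [h]
  rfl

/-- **Level compatibility**: `κ_n (m • x) = m • κ_{n m} x`. -/
theorem kummer_nsmul (n m : ℕ) [NeZero n] [NeZero m] [NeZero (n * m)]
    (x : ↥(Pic0.torsion ℂ F (n * m))) (y : ↥(Pic0.torsion ℂ F n))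
    (hy : (y : Pic0 ℂ F) = m • (x : Pic0 ℂ F)) :
    kummer R hc n y = m • kummer R hc (n * m) x :=
  KummerAbstract17.kummer_nsmul (setting R) n m _ _ hc x y hy

/-- injectivity of the Kummer map from (INV). -/
theorem kummer_injective (n : ℕ) [NeZero n] (hinv : (setting R).InvClosed n) :
    Function.Injective (kummer R hc n) :=
  KummerAbstract17.kummer_injective (setting R) n _ _ hinv

include hc in
/-- finiteness of `Pic⁰(F)[n]` from (INV), for a finitely generated `Γ`. -/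
theorem finite_torsion (n : ℕ) [NeZero n] (hinv : (setting R).InvClosed n)
    (hfg : Group.FG ↥Γ) : Finite ↥(Pic0.torsion ℂ F n) :=
  KummerAbstract17.finite_torsion (setting R) n (hasRoots R n (NeZero.ne n)) hc hinv hfg

/-! ### The target group -/

variable (Γ) in
/-- **The target of the Kummer map**: characters of `Γ` of exponent `n` which are trivial on the
elements with `tr² = 4` (the parabolic elements and `±1`). -/
def KumChar (n : ℕ) : Subgroup (↥Γ →* ℂˣ) where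
  carrier := {χ | (∀ γ, χ γ ^ n = 1) ∧
    ∀ γ : ↥Γ, ((γ : SL(2, ℤ)) : Matrix (Fin 2) (Fin 2) ℤ).trace ^ 2 = 4 → χ γ = 1}
  mul_mem' := by
    rintro χ ψ ⟨h1, h2⟩ ⟨h1', h2'⟩
    refine ⟨fun γ => ?_, fun γ hγ => ?_⟩
    · rw [MonoidHom.mul_apply, mul_pow, h1, h1', one_mul]
    · rw [MonoidHom.mul_apply, h2 γ hγ, h2' γ hγ, one_mul]
  one_mem' := ⟨fun γ => by simp, fun γ _ => rfl⟩
  inv_mem' := by
    rintro χ ⟨h1, h2⟩
    refine ⟨fun γ => ?_, fun γ hγ => ?_⟩
    · rw [MonoidHom.inv_apply, inv_pow, h1, inv_one]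
    · rw [MonoidHom.inv_apply, h2 γ hγ, inv_one]

theorem mem_kumChar_iff {n : ℕ} {χ : ↥Γ →* ℂˣ} :
    χ ∈ KumChar Γ n ↔ (∀ γ, χ γ ^ n = 1) ∧
      ∀ γ : ↥Γ, ((γ : SL(2, ℤ)) : Matrix (Fin 2) (Fin 2) ℤ).trace ^ 2 = 4 → χ γ = 1 := Iff.rfl

/-- (MULT) the multiplier hypothesis: for every datum, the eigen-constant of an element with
`tr² = 4` is `1`. -/
def MultTrivial (n : ℕ) : Prop :=
  ∀ (f : F) (h : MerH), f ≠ 0 → h ≠ 0 → h ^ n = R.Θ f →
    (∀ v : Place ℂ F, (n : ℤ) ∣ v.ord f) →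
    ∀ (γ : ↥Γ) (c : ℂ),
      ((γ : SL(2, ℤ)) : Matrix (Fin 2) (Fin 2) ℤ).trace ^ 2 = 4 →
      slMer (γ : SL(2, ℤ)) h = algebraMap HolH MerH (algebraMap ℂ HolH c) * h → c = 1

/-- `κ x ∈ KumChar Γ n`, given the multiplier statement. -/
theorem kummer_mem_kumChar (n : ℕ) [NeZero n] (hmult : MultTrivial R n)
    (x : ↥(Pic0.torsion ℂ F n)) : kumCharOf R hc n x ∈ KumChar Γ n := by
  refine ⟨kummer_pow_eq_one R hc n x, fun γ hγ => ?_⟩
  obtain ⟨D, f, h, hd, he⟩ := exists_datum R hc n x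
  have hh : h ≠ 0 := hd.ne_zero (NeZero.ne n)
  have hdiv : ∀ v : Place ℂ F, (n : ℤ) ∣ v.ord f := fun v => ⟨_, (hd.2.2.1 v).symm⟩
  have h1 := hmult f h hd.2.1 hh hd.2.2.2 hdiv γ _ hγ (he γ)
  exact Units.ext h1

/-- the Kummer map with values in `KumChar`. -/
def kummerTo (n : ℕ) [NeZero n] (hmult : MultTrivial R n) :
    ↥(Pic0.torsion ℂ F n) →+ Additive ↥(KumChar Γ n) :=
  KummerAbstract17.kummerTo (setting R) n (hasRoots R n (NeZero.ne n)) hc (KumChar Γ n)
    (kummer_mem_kumChar R hc n hmult)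

theorem kummerTo_apply (n : ℕ) [NeZero n] (hmult : MultTrivial R n)
    (x : ↥(Pic0.torsion ℂ F n)) :
    ((Additive.toMul (kummerTo R hc n hmult x) : ↥(KumChar Γ n)) : ↥Γ →* ℂˣ) =
      kumCharOf R hc n x := rfl

theorem kummerTo_injective (n : ℕ) [NeZero n] (hmult : MultTrivial R n)
    (hinv : (setting R).InvClosed n) : Function.Injective (kummerTo R hc n hmult) := by
  intro x y hxy
  apply kummer_injective R hc n hinv
  have h1 : ((Additive.toMul (kummerTo R hc n hmult x) : ↥(KumChar Γ n)) : ↥Γ →* ℂˣ) =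
      ((Additive.toMul (kummerTo R hc n hmult y) : ↥(KumChar Γ n)) : ↥Γ →* ℂˣ) := by rw [hxy]
  exact h1

/-- (SURJ) in the literal shape of the image criterion `exists_kummer_eq`: every `χ ∈ KumChar` has an
eigenfunction `h` with `h ^ n = Θ f`, `n ∣ ord_v f` for all places. -/
def HasEigenfunctions (n : ℕ) : Prop :=
  ∀ χ ∈ KumChar Γ n, ∃ (h : MerH) (f : F), h ≠ 0 ∧ h ^ n = R.Θ f ∧
    (∀ v : Place ℂ F, (n : ℤ) ∣ v.ord f) ∧
    ∀ γ : ↥Γ, slMer (γ : SL(2, ℤ)) h =
      algebraMap HolH MerH (algebraMap ℂ HolH ((χ γ : ℂˣ) : ℂ)) * h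

theorem kummer_surjective_of [HasPrincipalDivisors ℂ F] (n : ℕ) [NeZero n]
    (hE : HasEigenfunctions R n) (χ : ↥Γ →* ℂˣ) (hχ : χ ∈ KumChar Γ n) :
    ∃ x : ↥(Pic0.torsion ℂ F n), kummer R hc n x = Additive.ofMul χ := by
  obtain ⟨h, f, hh, hf, hdiv, he⟩ := hE χ hχ
  exact exists_kummer_eq (setting R) n (hasRoots R n (NeZero.ne n)) hc χ hh he hf hdiv

/-- **The Kummer isomorphism** of a realization, from (CONST), (MULT), (INV), (SURJ). -/
def kummerEquiv [HasPrincipalDivisors ℂ F] (n : ℕ) [NeZero n] (hmult : MultTrivial R n)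
    (hinv : (setting R).InvClosed n) (hE : HasEigenfunctions R n) :
    ↥(Pic0.torsion ℂ F n) ≃+ Additive ↥(KumChar Γ n) :=
  KummerAbstract17.kummerEquiv (setting R) n (hasRoots R n (NeZero.ne n)) hc hinv (KumChar Γ n)
    (kummer_mem_kumChar R hc n hmult) (kummer_surjective_of R hc n hE)

theorem kummerEquiv_apply [HasPrincipalDivisors ℂ F] (n : ℕ) [NeZero n]
    (hmult : MultTrivial R n) (hinv : (setting R).InvClosed n) (hE : HasEigenfunctions R n)
    (x : ↥(Pic0.torsion ℂ F n)) :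
    ((Additive.toMul (kummerEquiv R hc n hmult hinv hE x) : ↥(KumChar Γ n)) : ↥Γ →* ℂˣ) =
      kumCharOf R hc n x := rfl

theorem kummerEquiv_eq_kummerTo [HasPrincipalDivisors ℂ F] (n : ℕ) [NeZero n]
    (hmult : MultTrivial R n) (hinv : (setting R).InvClosed n) (hE : HasEigenfunctions R n)
    (x : ↥(Pic0.torsion ℂ F n)) :
    kummerEquiv R hc n hmult hinv hE x = kummerTo R hc n hmult x := rfl

end Fermat.Agent.ES.R48.KumGen18
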