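/-
Programme R (S48, Deligne–Serre), chapter GEOM / G5 KUM₁ (helper18): **(MULT) for an arbitrary
realization with a cusp dictionary** — the generic form of `ES/KUM/MultTrivial18` (parabolic leg).

`R : KumGen18.Realization F Γ`.  A *cusp dictionary* `CuspDict R N` says: for every `σ ∈ SL(2, ℤ)` and
`f ≠ 0` the function `Θ f ∘ σ` is a quotient `a / b` of holomorphic functions having `q_N`-expansions,
and there are a place `v` of `F` (the cusp `σ ∞`) and an integer `w` (its width) such that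
`w · ord_{q_N} (Θ f ∘ σ) = N · ord_v f`, and `w ∣ m` whenever `σ T^m σ⁻¹ ∈ Γ`.

* `eq_one_of_conj_T_zpow` : if `σ T^m σ⁻¹ ∈ Γ` acts on an `n`-th root `h` of `Θ f` (`n ∣ ord_v f` for
  all `v`) by the constant `c`, then `c = 1` (helper3's multiplier formula `ParMult3.parMult`);
* `multTrivial_of_cuspDict` : `KumGen18.MultTrivial R n`, when no element of `Γ` has trace `-2`;
* `trace_ne_neg_two_of_mem_Gamma1` : this holds for `Γ₁(M)`, `5 ≤ M`.
-/
import Mathlib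
import Fermat.Agent.ES.R48.KumGen18
import Fermat.Agent.ES.KUM.TraceClass17
import Fermat.Agent.ES.KUM.ParMult3

set_option autoImplicit false

open UpperHalfPlane ModularCurve AlgebraicCurve HahnSeries
open scoped MatrixGroups

noncomputable section

namespace Fermat.Agent.ES.R48.KumGenMult18

open Fermat.Agent.X0 Fermat.Agent.X0.SurjPoint Fermat.Agent.ES.KUM
  Fermat.Agent.ES.KUM.KummerAbstract17 Fermat.Agent.ES.R48.KumGen18

variable {F : Type} [Field F] [Algebra ℂ F] {Γ : Subgroup SL(2, ℤ)}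

/-- **A cusp dictionary** for the realization `R`, with `q_N`-expansions. -/
structure CuspDict (R : Realization F Γ) (N : ℕ) : Prop where
  expand : ∀ (σ : SL(2, ℤ)) (f : F), f ≠ 0 →
    ∃ (a b : HolH) (mₐ m_b : ℕ) (Pₐ P_b : PowerSeries ℂ), b ≠ 0 ∧
      slMer σ (R.Θ f) = algebraMap HolH MerH a / algebraMap HolH MerH b ∧
      IsQExp N ((a : HolH) : ℍ → ℂ) mₐ Pₐ ∧ IsQExp N ((b : HolH) : ℍ → ℂ) m_b P_b ∧
      ∃ (v : Place ℂ F) (w : ℤ),
        (∀ m : ℤ, σ * ModularGroup.T ^ m * σ⁻¹ ∈ Γ → w ∣ m) ∧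
        w * ((laurentOf mₐ Pₐ).order - (laurentOf m_b P_b).order) = (N : ℤ) * v.ord f

variable {R : Realization F Γ} {N : ℕ} [NeZero N]

/-- **Parabolic leg**: if `σ T^m σ⁻¹ ∈ Γ` acts on an `n`-th root `h` of `Θ f` (`n ∣ ord_v f` for all
`v`) by the constant `c`, then `c = 1`. -/
theorem eq_one_of_conj_T_zpow (hD : CuspDict R N) {n : ℕ} (hn : n ≠ 0) (σ : SL(2, ℤ)) (m : ℤ)
    (hσ : σ * ModularGroup.T ^ m * σ⁻¹ ∈ Γ) {f : F} (hf : f ≠ 0) {h : MerH} (hh0 : h ≠ 0)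
    (hh : h ^ n = R.Θ f) (hdiv : ∀ v : Place ℂ F, (n : ℤ) ∣ v.ord f) {c : ℂ}
    (hc : slMer (σ * ModularGroup.T ^ m * σ⁻¹) h =
      algebraMap HolH MerH (algebraMap ℂ HolH c) * h) : c = 1 := by
  -- `φ := h ∘ σ`
  set φ : MerH := slMer σ h with hφ
  have hφ0 : φ ≠ 0 := fun h0 => hh0 ((slMer σ).injective (by rw [← hφ, h0, map_zero]))
  have hcφ : slMer (ModularGroup.T ^ m) φ =
      algebraMap HolH MerH (algebraMap ℂ HolH c) * φ := by
    have h1 : slMer (σ * ModularGroup.T ^ m) h = slMer (σ * ModularGroup.T ^ m * σ⁻¹ * σ) h := by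
      rw [inv_mul_cancel_right]
    rw [hφ, ← slMer_mul, h1, slMer_mul, hc, map_mul, slMer_const]
  obtain ⟨a, b, mₐ, m_b, Pₐ, P_b, hb, hab, hPa, hPb, v, w, hw, hord⟩ := hD.expand σ f hf
  have hφn : φ ^ n = algebraMap HolH MerH a / algebraMap HolH MerH b := by
    rw [hφ, ← map_pow, hh, hab]
  have hc1 := ParMult3.parMult N n hn φ hφ0 a b hb hφn hPa hPb m c hcφ
  rw [hc1, Complex.exp_eq_one_iff]
  obtain ⟨t, ht⟩ := hw m hσ
  obtain ⟨s, hs⟩ := hdiv v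
  set k : ℤ := (laurentOf mₐ Pₐ).order - (laurentOf m_b P_b).order with hk
  refine ⟨t * s, ?_⟩
  have hN : (N : ℂ) ≠ 0 := by exact_mod_cast NeZero.ne N
  have hn' : (n : ℂ) ≠ 0 := by exact_mod_cast hn
  have h2 : m * k = (n : ℤ) * (N : ℤ) * (t * s) := by
    calc m * k = t * (w * k) := by rw [ht]; ring
      _ = t * ((N : ℤ) * v.ord f) := by rw [hord]
      _ = (n : ℤ) * (N : ℤ) * (t * s) := by rw [hs]; ring
  have h3 : ((m : ℂ) * ((k : ℤ) : ℂ)) = (n : ℂ) * (N : ℂ) * ((t * s : ℤ) : ℂ) := by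
    have := congrArg (fun z : ℤ => (z : ℂ)) h2
    push_cast at this
    push_cast
    exact this
  rw [div_eq_iff (mul_ne_zero hn' hN)]
  linear_combination (2 * (Real.pi : ℂ) * Complex.I) * h3

/-- the trace of `δ T^m δ⁻¹` is `2`. -/
theorem trace_conj_T_zpow (δ : SL(2, ℤ)) (m : ℤ) :
    ((δ * ModularGroup.T ^ m * δ⁻¹ : SL(2, ℤ)) : Matrix (Fin 2) (Fin 2) ℤ).trace = 2 := by
  rw [Matrix.SpecialLinearGroup.coe_mul, Matrix.SpecialLinearGroup.coe_mul, Matrix.trace_mul_comm,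
    ← Matrix.mul_assoc, ← Matrix.SpecialLinearGroup.coe_mul, inv_mul_cancel,
    Matrix.SpecialLinearGroup.coe_one, Matrix.one_mul, ModularGroup.coe_T_zpow,
    Matrix.trace_fin_two_of]
  norm_num

/-- **(MULT)** from a cusp dictionary, when `Γ` has no element of trace `-2`. -/
theorem multTrivial_of_cuspDict (hD : CuspDict R N)
    (hneg : ∀ γ ∈ Γ, ((γ : SL(2, ℤ)) : Matrix (Fin 2) (Fin 2) ℤ).trace ≠ -2)
    (n : ℕ) (hn : n ≠ 0) : MultTrivial R n := by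
  intro f h hf hh0 hh hdiv γ c htr hc
  obtain ⟨δ, m, hδ | hδ⟩ := TraceClass17.exists_conj_T_zpow (γ : SL(2, ℤ)) htr
  · have hmem : δ * ModularGroup.T ^ m * δ⁻¹ ∈ Γ := hδ ▸ γ.2
    rw [hδ] at hc
    exact eq_one_of_conj_T_zpow hD hn δ m hmem hf hh0 hh hdiv hc
  · exfalso
    apply hneg (γ : SL(2, ℤ)) γ.2
    rw [hδ, Matrix.SpecialLinearGroup.coe_neg, Matrix.trace_neg, trace_conj_T_zpow]

/-- `Γ₁(M)`, `5 ≤ M`, has no element of trace `-2`. -/
theorem trace_ne_neg_two_of_mem_Gamma1 {M : ℕ} (hM : 5 ≤ M) (γ : SL(2, ℤ))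
    (hγ : γ ∈ CongruenceSubgroup.Gamma1 M) :
    ((γ : SL(2, ℤ)) : Matrix (Fin 2) (Fin 2) ℤ).trace ≠ -2 := by
  intro h
  rw [CongruenceSubgroup.Gamma1_mem] at hγ
  obtain ⟨h00, h11, -⟩ := hγ
  rw [Matrix.trace_fin_two] at h
  have h1 : (((γ 0 0 + γ 1 1 : ℤ)) : ZMod M) = 2 := by
    push_cast
    rw [h00, h11]
    norm_num
  rw [h] at h1
  have h2 : ((4 : ℤ) : ZMod M) = 0 := by
    have : ((-2 : ℤ) : ZMod M) - 2 = 0 := by rw [h1]; ring
    have h3 : ((4 : ℤ) : ZMod M) = -(((-2 : ℤ) : ZMod M) - 2) := by push_cast; ring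
    rw [h3, this, neg_zero]
  rw [ZMod.intCast_zmod_eq_zero_iff_dvd] at h2
  have := Int.le_of_dvd (by norm_num) h2
  omega

end Fermat.Agent.ES.R48.KumGenMult18
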