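/-
Programme R (S48, Deligne–Serre), chapter GEOM / G5 KUM₁ (helper18): **the divisor of the `n`-th power
of an eigenfunction is divisible by `n`**, for an arbitrary realization with an exact dictionary of
all places — the generic form of `ES/KUM/CuspDiv16` + `ES/KUM/DivAllPlaces25`.

`R : KumGen18.Realization F Γ`.  A *place dictionary* `PlaceDict R N` says that every place `v` of
`F / ℂ` is

* a **point place**: there are `z ∈ ℍ` and `e ≠ 0` with `ord_z (Θ f) = e · ord_v f` (`f ≠ 0`), and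
  `e ∣ ord_z h` for every `h ∈ MerH` invariant under the stabiliser of `z` in `Γ`
  (for a torsion-free `Γ`: `e = 1`), or
* a **cusp place**: there are `σ ∈ SL(2, ℤ)` and `w` with `σ T^w σ⁻¹ ∈ Γ` (the width element), such
  that `Θ f ∘ σ` is a quotient of holomorphic functions with `q_N`-expansions and
  `w · ord_{q_N} (Θ f ∘ σ) = N · ord_v f`.

Then an eigenfunction `h` (`h ^ n = Θ f`) of a character `χ ∈ KumGen18.KumChar Γ n` has `n ∣ ord_v f`
at every place (`dvd_ord_of_eigen`), whence (SURJ) `hasEigenfunctions_of`, provided the elements of `Γ`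
fixing a point of `ℍ` have `tr² = 4` (`FixedTrace Γ`; true for `Γ₁(M)`, `5 ≤ M`:
`fixedTrace_Gamma1`).
-/
import Mathlib
import Fermat.Agent.ES.R48.KumGenMult18
import Fermat.Agent.ES.KUM.EllStab14

set_option autoImplicit false

open UpperHalfPlane ModularCurve AlgebraicCurve HahnSeries
open scoped MatrixGroups

noncomputable section

namespace Fermat.Agent.ES.R48.KumGenDiv18

open Fermat.Agent.X0 Fermat.Agent.X0.SurjPoint Fermat.Agent.ES.KUM
  Fermat.Agent.ES.KUM.KummerAbstract17 Fermat.Agent.ES.R48.KumGen18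
  Fermat.Agent.ES.R48.KumGenMult18

variable {F : Type} [Field F] [Algebra ℂ F] {Γ : Subgroup SL(2, ℤ)}

/-- **An exact dictionary of all places** of `F / ℂ` for the realization `R`. -/
structure PlaceDict (R : Realization F Γ) (N : ℕ) : Prop where
  cases : ∀ v : Place ℂ F,
    (∃ (z : ℍ) (e : ℤ), e ≠ 0 ∧ (∀ f : F, f ≠ 0 → ordMer z (R.Θ f) = e * v.ord f) ∧
      ∀ h : MerH, h ≠ 0 → (∀ γ ∈ Γ, γ • z = z → slMer γ h = h) → e ∣ ordMer z h) ∨
    (∃ (σ : SL(2, ℤ)) (w : ℤ), σ * ModularGroup.T ^ w * σ⁻¹ ∈ Γ ∧ ∀ f : F, f ≠ 0 →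
      ∃ (a b : HolH) (mₐ m_b : ℕ) (Pₐ P_b : PowerSeries ℂ), b ≠ 0 ∧
        slMer σ (R.Θ f) = algebraMap HolH MerH a / algebraMap HolH MerH b ∧
        IsQExp N ((a : HolH) : ℍ → ℂ) mₐ Pₐ ∧ IsQExp N ((b : HolH) : ℍ → ℂ) m_b P_b ∧
        w * ((laurentOf mₐ Pₐ).order - (laurentOf m_b P_b).order) = (N : ℤ) * v.ord f)

variable (Γ) in
/-- The elements of `Γ` fixing a point of `ℍ` have `tr² = 4`. -/
def FixedTrace : Prop :=
  ∀ γ ∈ Γ, ∀ z : ℍ, γ • z = z → ((γ : SL(2, ℤ)) : Matrix (Fin 2) (Fin 2) ℤ).trace ^ 2 = 4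

variable {R : Realization F Γ} {N : ℕ} [NeZero N]

theorem ne_zero_of_pow_eq {n : ℕ} {h : MerH} {f : F} (hh : h ≠ 0) (hpow : h ^ n = R.Θ f) :
    f ≠ 0 := by
  rintro rfl
  rw [map_zero] at hpow
  exact hh (pow_eq_zero_iff_of_pos_aux hpow)
where
  pow_eq_zero_iff_of_pos_aux {n : ℕ} {h : MerH} (hpow : h ^ n = 0) : h = 0 := by
    rcases Nat.eq_zero_or_pos n with rfl | hn
    · rw [pow_zero] at hpow
      exact absurd hpow one_ne_zero
    · exact (pow_eq_zero_iff hn.ne').mp hpow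

/-- the invariant case of the multiplier formula `ParMult3.parMult`, in divisibility form: if
`φ ∘ T^m = φ` then `n N ∣ m k`. -/
theorem parDvd {n : ℕ} (hn : n ≠ 0) {φ : MerH} (hφ : φ ≠ 0) {a b : HolH} (hb : b ≠ 0)
    (hφn : φ ^ n = algebraMap HolH MerH a / algebraMap HolH MerH b)
    {mₐ m_b : ℕ} {Pₐ P_b : PowerSeries ℂ}
    (ha : IsQExp N ((a : HolH) : ℍ → ℂ) mₐ Pₐ) (hbq : IsQExp N ((b : HolH) : ℍ → ℂ) m_b P_b)
    (m : ℤ) (hm : slMer (ModularGroup.T ^ m) φ = φ) :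
    (n : ℤ) * (N : ℤ) ∣ m * ((laurentOf mₐ Pₐ).order - (laurentOf m_b P_b).order) := by
  have h1 : slMer (ModularGroup.T ^ m) φ = algebraMap HolH MerH (algebraMap ℂ HolH 1) * φ := by
    rw [map_one, map_one, one_mul]
    exact hm
  have h2 := ParMult3.parMult N n hn φ hφ a b hb hφn ha hbq m 1 h1
  have h3 := h2.symm
  rw [Complex.exp_eq_one_iff] at h3
  obtain ⟨t, ht⟩ := h3
  refine ⟨t, ?_⟩
  have hN : (N : ℂ) ≠ 0 := by exact_mod_cast NeZero.ne N
  have hn' : (n : ℂ) ≠ 0 := by exact_mod_cast hn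
  have hpi : (2 * (Real.pi : ℂ) * Complex.I) ≠ 0 := Complex.two_pi_I_ne_zero
  rw [div_eq_iff (mul_ne_zero hn' hN)] at ht
  have h4 : ((m : ℂ) * (((laurentOf mₐ Pₐ).order - (laurentOf m_b P_b).order : ℤ) : ℂ)) =
      (n : ℂ) * (N : ℂ) * (t : ℂ) := by
    apply mul_left_cancel₀ hpi
    linear_combination ht
  exact_mod_cast h4

/-- **All places**: for a non-zero `h` with `h ^ n = Θ f` which is invariant under the elements of
`Γ` with `tr² = 4`, every order of `f` is divisible by `n`. -/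
theorem dvd_ord_of_invariant (hD : PlaceDict R N) (hfix : FixedTrace Γ) {n : ℕ} (hn : n ≠ 0)
    {h : MerH} {f : F} (hh : h ≠ 0) (hpow : h ^ n = R.Θ f)
    (hinv : ∀ γ ∈ Γ, ((γ : SL(2, ℤ)) : Matrix (Fin 2) (Fin 2) ℤ).trace ^ 2 = 4 → slMer γ h = h)
    (v : Place ℂ F) : (n : ℤ) ∣ v.ord f := by
  have hf : f ≠ 0 := ne_zero_of_pow_eq hh hpow
  rcases hD.cases v with ⟨z, e, he0, hord, hdvd⟩ | ⟨σ, w, hσ, hexp⟩
  · -- point place
    obtain ⟨d, hd⟩ := hdvd h hh (fun γ hγ hz => hinv γ hγ (hfix γ hγ z hz))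
    have h1 : ordMer z (h ^ n) = n * ordMer z h := ordMer_pow z hh n
    rw [hpow, hord f hf, hd] at h1
    refine ⟨d, ?_⟩
    have h2 : e * v.ord f = e * (n * d) := by rw [h1]; ring
    exact mul_left_cancel₀ he0 h2
  · -- cusp place
    obtain ⟨a, b, mₐ, m_b, Pₐ, P_b, hb, hab, hPa, hPb, hkey⟩ := hexp f hf
    have hφ : slMer σ h ≠ 0 := fun h0 => hh ((slMer σ).injective (by rw [h0, map_zero]))
    have hφn : (slMer σ h) ^ n = algebraMap HolH MerH a / algebraMap HolH MerH b := by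
      rw [← map_pow, hpow, hab]
    have hT : slMer (ModularGroup.T ^ w) (slMer σ h) = slMer σ h := by
      rw [← slMer_mul]
      have h1 : σ * ModularGroup.T ^ w = σ * ModularGroup.T ^ w * σ⁻¹ * σ := by
        rw [inv_mul_cancel_right]
      rw [h1, slMer_mul, hinv _ hσ (by rw [trace_conj_T_zpow]; norm_num)]
    have hdvd := parDvd (N := N) hn hφ hb hφn hPa hPb w hT
    rw [hkey] at hdvd
    have hN : (N : ℤ) ≠ 0 := by exact_mod_cast NeZero.ne N
    rw [mul_comm (n : ℤ) (N : ℤ)] at hdvd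
    exact (mul_dvd_mul_iff_left hN).mp hdvd

/-- An eigenfunction of `χ ∈ KumChar Γ n` is invariant under the elements with `tr² = 4`. -/
theorem slMer_eq_self_of_kumChar {n : ℕ} {χ : ↥Γ →* ℂˣ} (hχ : χ ∈ KumChar Γ n) {h : MerH}
    (he : ∀ γ : ↥Γ, slMer (γ : SL(2, ℤ)) h =
      algebraMap HolH MerH (algebraMap ℂ HolH ((χ γ : ℂˣ) : ℂ)) * h)
    (γ : SL(2, ℤ)) (hγ : γ ∈ Γ)
    (htr : ((γ : SL(2, ℤ)) : Matrix (Fin 2) (Fin 2) ℤ).trace ^ 2 = 4) : slMer γ h = h := by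
  have h1 := he ⟨γ, hγ⟩
  have h2 : χ ⟨γ, hγ⟩ = 1 := (mem_kumChar_iff.mp hχ).2 ⟨γ, hγ⟩ htr
  rw [h2, Units.val_one, map_one, map_one, one_mul] at h1
  exact h1

/-- **(E5, places half)**: for an eigenfunction `h` of `χ ∈ KumChar Γ n` with `h ^ n = Θ f`, every
order of `f` is divisible by `n`. -/
theorem dvd_ord_of_eigen (hD : PlaceDict R N) (hfix : FixedTrace Γ) {n : ℕ} (hn : n ≠ 0)
    {χ : ↥Γ →* ℂˣ} (hχ : χ ∈ KumChar Γ n) {h : MerH} {f : F} (hh : h ≠ 0)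
    (hpow : h ^ n = R.Θ f)
    (he : ∀ γ : ↥Γ, slMer (γ : SL(2, ℤ)) h =
      algebraMap HolH MerH (algebraMap ℂ HolH ((χ γ : ℂˣ) : ℂ)) * h)
    (v : Place ℂ F) : (n : ℤ) ∣ v.ord f :=
  dvd_ord_of_invariant hD hfix hn hh hpow
    (fun γ hγ htr => slMer_eq_self_of_kumChar hχ he γ hγ htr) v

/-- **(SURJ) from eigenfunctions**: `KumGen18.HasEigenfunctions R n`, given for every
`χ ∈ KumChar Γ n` an eigenfunction `h` with `h ^ n ∈ Θ(F)`. -/
theorem hasEigenfunctions_of (hD : PlaceDict R N) (hfix : FixedTrace Γ) {n : ℕ} (hn : n ≠ 0)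
    (H : ∀ χ ∈ KumChar Γ n, ∃ (h : MerH) (f : F), h ≠ 0 ∧ h ^ n = R.Θ f ∧
      ∀ γ : ↥Γ, slMer (γ : SL(2, ℤ)) h =
        algebraMap HolH MerH (algebraMap ℂ HolH ((χ γ : ℂˣ) : ℂ)) * h) :
    HasEigenfunctions R n := by
  intro χ hχ
  obtain ⟨h, f, hh, hpow, he⟩ := H χ hχ
  exact ⟨h, f, hh, hpow, fun v => dvd_ord_of_eigen hD hfix hn hχ hh hpow he v, he⟩

/-- `FixedTrace` for `Γ₁(M)`, `5 ≤ M`: an element of `Γ₁(M)` fixing a point of `ℍ` has trace `2`. -/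
theorem fixedTrace_Gamma1 {M : ℕ} (hM : 5 ≤ M) : FixedTrace (CongruenceSubgroup.Gamma1 M) := by
  intro γ hγ z hz
  have habs := EllStab14.abs_trace_le_two_of_fixed hz
  have hmem := hγ
  rw [CongruenceSubgroup.Gamma1_mem] at hmem
  obtain ⟨h00, h11, -⟩ := hmem
  rw [Matrix.trace_fin_two] at habs ⊢
  have h1 : (((γ 0 0 + γ 1 1 - 2 : ℤ)) : ZMod M) = 0 := by
    push_cast
    rw [h00, h11]
    norm_num
  rw [ZMod.intCast_zmod_eq_zero_iff_dvd] at h1
  obtain ⟨t, ht⟩ := h1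
  have h2 := abs_le.mp habs
  have hMz : (5 : ℤ) ≤ (M : ℤ) := by exact_mod_cast hM
  have ht0 : t = 0 := by
    by_contra hne
    rcases lt_or_gt_of_ne hne with hlt | hgt
    · have : t ≤ -1 := by omega
      nlinarith
    · have : 1 ≤ t := by omega
      nlinarith
  rw [ht0, mul_zero] at ht
  have : γ 0 0 + γ 1 1 = 2 := by omega
  rw [this]
  norm_num

end Fermat.Agent.ES.R48.KumGenDiv18
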