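/-
Programme R (S48, Deligne–Serre), chapter GEOM / G5 KUM₁ (helper18): **the Kummer isomorphism over `ℂ`
of an arbitrary realization, from its dictionaries** — the generic form of
`ES/KUM/MultTrivialFinal18` + `ES/KUM/HasEigenFinal18` + `ES/KUM/FiniteTorsion15` — and the bridge
from parabolic homomorphisms `Γ → ℤ/n` to Kummer characters.

`R : KumGen18.Realization F Γ` with a `CuspDict R N`, a `PlaceDict R N`, (CONST), principal
divisors, the root statement (INV) `RootMem R n` (= `RatioMem15.root_mem`) and eigenfunctions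
`EigenRatio R n` (= the Eisenstein ratios of `EisBridge20`):

* `invClosed_of_rootMem`, `kummer_injective_of`, `finite_torsion_of` (for `Γ` finitely generated);
* `kummerEquivFinal : Pic⁰(F)[n] ≃+ Additive (KumChar Γ n)`;
* `charOfHom ζ φ : ↥Γ →* ℂˣ`, `γ ↦ ζ ^ (φ γ).val`, for `φ : Additive ↥Γ →+ ZMod n` and `ζ ^ n = 1`;
  it lies in `KumChar Γ n` when `φ` is parabolic (`charOfHom_mem_kumChar`), and
  `charOfHom ζ φ = 1 ↔ φ = 0` for a primitive `ζ` (`charOfHom_eq_one_iff`);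
* `exists_torsion_of_parabolicHom` : every parabolic `φ ≠ 0` is the Kummer character of a non-zero
  class `x ∈ Pic⁰(F)[n]`.
-/
import Mathlib
import Fermat.Agent.ES.R48.KumGenDiv18
import Fermat.Prelude.Def_ModularCurve_PeriodMap

set_option autoImplicit false

open UpperHalfPlane ModularCurve ModularCurve.Period AlgebraicCurve
open scoped MatrixGroups

noncomputable section

namespace Fermat.Agent.ES.R48.KumGenFinal18

open Fermat.Agent.X0 Fermat.Agent.X0.SurjPoint Fermat.Agent.ES.KUM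
  Fermat.Agent.ES.KUM.KummerAbstract17 Fermat.Agent.ES.R48.KumGen18
  Fermat.Agent.ES.R48.KumGenMult18 Fermat.Agent.ES.R48.KumGenDiv18

variable {F : Type} [Field F] [Algebra ℂ F] {Γ : Subgroup SL(2, ℤ)} (R : Realization F Γ)

/-- (INV), concrete form: a `Γ`-invariant meromorphic `n`-th root of an element of `Θ(F)` lies in
`Θ(F)` (the shape of `RatioMem15.root_mem`). -/
def RootMem (n : ℕ) : Prop :=
  ∀ h : MerH, (∀ γ ∈ Γ, slMer γ h = h) → ∀ f : F, h ^ n = R.Θ f → ∃ f' : F, R.Θ f' = h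

/-- (SURJ), concrete form: every `χ ∈ KumChar Γ n` has a non-zero eigenfunction whose `n`-th power
lies in `Θ(F)` (the Eisenstein ratio of `EisBridge20`). -/
def EigenRatio (n : ℕ) : Prop :=
  ∀ χ ∈ KumChar Γ n, ∃ (h : MerH) (f : F), h ≠ 0 ∧ h ^ n = R.Θ f ∧
    ∀ γ : ↥Γ, slMer (γ : SL(2, ℤ)) h =
      algebraMap HolH MerH (algebraMap ℂ HolH ((χ γ : ℂˣ) : ℂ)) * h

variable {R}

theorem invClosed_of_rootMem {n : ℕ} (h : RootMem R n) : (setting R).InvClosed n := by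
  rintro x hinv ⟨f, hf⟩
  exact h x (fun γ hγ => hinv ⟨γ, hγ⟩) f hf

variable (hc : ConstOnly ℂ F)

/-- the Kummer map is injective. -/
theorem kummer_injective_of (n : ℕ) [NeZero n] (hroot : RootMem R n) :
    Function.Injective (kummer R hc n) :=
  kummer_injective R hc n (invClosed_of_rootMem hroot)

include hc in
/-- **`Pic⁰(F)[n]` is finite** (for a finitely generated `Γ`). -/
theorem finite_torsion_of (n : ℕ) [NeZero n] (hroot : RootMem R n) (hfg : Group.FG ↥Γ) :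
    Finite ↥(Pic0.torsion ℂ F n) :=
  finite_torsion R hc n (invClosed_of_rootMem hroot) hfg

variable {N : ℕ} [NeZero N]

/-- **The Kummer isomorphism over `ℂ`** of a realization with its dictionaries. -/
def kummerEquivFinal [HasPrincipalDivisors ℂ F] (n : ℕ) [NeZero n] (hC : CuspDict R N)
    (hP : PlaceDict R N)
    (hneg : ∀ γ ∈ Γ, ((γ : SL(2, ℤ)) : Matrix (Fin 2) (Fin 2) ℤ).trace ≠ -2)
    (hfix : FixedTrace Γ) (hroot : RootMem R n) (hE : EigenRatio R n) :
    ↥(Pic0.torsion ℂ F n) ≃+ Additive ↥(KumChar Γ n) :=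
  kummerEquiv R hc n (multTrivial_of_cuspDict hC hneg n (NeZero.ne n))
    (invClosed_of_rootMem hroot) (hasEigenfunctions_of hP hfix (NeZero.ne n) hE)

theorem kummerEquivFinal_apply [HasPrincipalDivisors ℂ F] (n : ℕ) [NeZero n] (hC : CuspDict R N)
    (hP : PlaceDict R N)
    (hneg : ∀ γ ∈ Γ, ((γ : SL(2, ℤ)) : Matrix (Fin 2) (Fin 2) ℤ).trace ≠ -2)
    (hfix : FixedTrace Γ) (hroot : RootMem R n) (hE : EigenRatio R n)
    (x : ↥(Pic0.torsion ℂ F n)) :
    ((Additive.toMul (kummerEquivFinal hc n hC hP hneg hfix hroot hE x) : ↥(KumChar Γ n)) :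
      ↥Γ →* ℂˣ) = kumCharOf R hc n x := rfl

/-! ### Parabolic homomorphisms and Kummer characters -/

section Bridge

variable {n : ℕ} [NeZero n]

/-- the unit `ζ ^ a` for `a : ZMod n`. -/
def zpowZMod (ζ : ℂˣ) (a : ZMod n) : ℂˣ := ζ ^ a.val

theorem zpowZMod_add {ζ : ℂˣ} (hζ : ζ ^ n = 1) (a b : ZMod n) :
    zpowZMod ζ (a + b) = zpowZMod ζ a * zpowZMod ζ b := by
  unfold zpowZMod
  rw [← pow_add, ZMod.val_add]
  conv_rhs => rw [← Nat.mod_add_div (a.val + b.val) n]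
  rw [pow_add, pow_mul, hζ, one_pow, mul_one]

omit [NeZero n] in
theorem zpowZMod_zero (ζ : ℂˣ) : zpowZMod ζ (0 : ZMod n) = 1 := by
  unfold zpowZMod
  rw [ZMod.val_zero, pow_zero]

/-- **The character of a homomorphism** `φ : Γ → ℤ/n`: `γ ↦ ζ ^ φ(γ)`. -/
def charOfHom (ζ : ℂˣ) (hζ : ζ ^ n = 1) (φ : Additive ↥Γ →+ ZMod n) : ↥Γ →* ℂˣ where
  toFun γ := zpowZMod ζ (φ (Additive.ofMul γ))
  map_one' := by
    show zpowZMod ζ (φ 0) = 1
    rw [map_zero, zpowZMod_zero]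
  map_mul' γ δ := by
    show zpowZMod ζ (φ (Additive.ofMul γ + Additive.ofMul δ)) = _
    rw [map_add, zpowZMod_add hζ]

theorem charOfHom_apply (ζ : ℂˣ) (hζ : ζ ^ n = 1) (φ : Additive ↥Γ →+ ZMod n) (γ : ↥Γ) :
    charOfHom ζ hζ φ γ = ζ ^ (φ (Additive.ofMul γ)).val := rfl

/-- the character of a parabolic homomorphism lies in `KumChar Γ n`. -/
theorem charOfHom_mem_kumChar (ζ : ℂˣ) (hζ : ζ ^ n = 1) {φ : Additive ↥Γ →+ ZMod n}
    (hφ : IsParabolicHom Γ φ) : charOfHom ζ hζ φ ∈ KumChar Γ n := by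
  refine ⟨fun γ => ?_, fun γ hγ => ?_⟩
  · rw [charOfHom_apply, ← pow_mul, mul_comm, pow_mul, hζ, one_pow]
  · rw [charOfHom_apply, hφ γ hγ, ZMod.val_zero, pow_zero]

/-- for a primitive `ζ`, the character determines the homomorphism. -/
theorem charOfHom_eq_one_iff {ζ : ℂˣ} (hζ : IsPrimitiveRoot ζ n) (φ : Additive ↥Γ →+ ZMod n) :
    charOfHom ζ hζ.pow_eq_one φ = 1 ↔ φ = 0 := by
  constructor
  · intro h
    refine AddMonoidHom.ext fun γ => ?_
    have h1 : charOfHom ζ hζ.pow_eq_one φ (Additive.toMul γ) = 1 := by rw [h]; rfl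
    rw [charOfHom_apply] at h1
    have h2 : n ∣ (φ γ).val := (hζ.pow_eq_one_iff_dvd _).mp h1
    have h3 : (φ γ).val < n := ZMod.val_lt _
    have h4 : (φ γ).val = 0 := Nat.eq_zero_of_dvd_of_lt h2 h3
    rw [AddMonoidHom.zero_apply]
    exact (ZMod.val_eq_zero _).mp h4
  · rintro rfl
    refine MonoidHom.ext fun γ => ?_
    rw [charOfHom_apply, AddMonoidHom.zero_apply, ZMod.val_zero, pow_zero]
    rfl

/-- **Every non-zero parabolic homomorphism `Γ → ℤ/n` is the Kummer character of a non-zero class of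
`Pic⁰(F)[n]`.** -/
theorem exists_torsion_of_parabolicHom [HasPrincipalDivisors ℂ F] (hC : CuspDict R N)
    (hP : PlaceDict R N)
    (hneg : ∀ γ ∈ Γ, ((γ : SL(2, ℤ)) : Matrix (Fin 2) (Fin 2) ℤ).trace ≠ -2)
    (hfix : FixedTrace Γ) (hroot : RootMem R n) (hE : EigenRatio R n)
    {ζ : ℂˣ} (hζ : IsPrimitiveRoot ζ n) {φ : Additive ↥Γ →+ ZMod n} (hφ : IsParabolicHom Γ φ)
    (hφ0 : φ ≠ 0) :
    ∃ x : ↥(Pic0.torsion ℂ F n), x ≠ 0 ∧ kumCharOf R hc n x = charOfHom ζ hζ.pow_eq_one φ := by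
  set e := kummerEquivFinal hc n hC hP hneg hfix hroot hE with he
  set χ : ↥(KumChar Γ n) := ⟨charOfHom ζ hζ.pow_eq_one φ, charOfHom_mem_kumChar ζ _ hφ⟩ with hχ
  refine ⟨e.symm (Additive.ofMul χ), ?_, ?_⟩
  · intro h0
    have h1 : e (e.symm (Additive.ofMul χ)) = e 0 := by rw [h0]
    rw [AddEquiv.apply_symm_apply, map_zero] at h1
    have h2 : χ = 1 := h1
    have h3 : charOfHom ζ hζ.pow_eq_one φ = 1 := congrArg Subtype.val h2
    exact hφ0 ((charOfHom_eq_one_iff hζ φ).mp h3)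
  · rw [← kummerEquivFinal_apply hc n hC hP hneg hfix hroot hE, ← he,
      AddEquiv.apply_symm_apply]
    rfl

end Bridge

end Fermat.Agent.ES.R48.KumGenFinal18
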