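/-
Programme R (S48, Deligne–Serre), chapter GEOM, sub-chapter G5 KUM₁ (helper5), K4 leaf:
**the field of Laurent series `x ∈ ℂ((q))` which are the `q`-expansion of a meromorphic function on
`ℍ`** (`QExpMer19.HasQExpMer x h`), and the realisation map on it.

Generic (no level): main's `ES/HEQ/QExpMer19` only.

* closure of `HasQExpMer` under the field operations (`hasQExpMer_zero/_one/_C/_add/_neg/_sub/
  _mul/_inv`), and `hasQExpMer_unique_left` (the function determines the series);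
* `realisable : Subfield (LaurentSeries ℂ)`, `realise : realisable →+* MerH`,
  `hasQExpMer_realise`, `realise_eq`, `realise_C`, `realise_qExpand`
  (`realise (x(q^p)) = betaMer p none (realise x)`);
* `realiseOn E hE : E →+* MerH` for an intermediate field `E ≤ realisable`;
* `laurentBaseChange_sup_map_le` : if `ℂ · F₀ ≤ realisable` then
  `ℂ · (F₀ ⊔ F₀.map (qExpandₐ p)) ≤ realisable` (the field of the Hecke correspondence);
* over `ℚbar`: `bcBarG F₀ : ℚbar · F₀ →+* ℂ · F₀` (coefficientwise `iotaK`),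
  `anBarG F₀ h : ℚbar · F₀ →+* MerH`, `hasQExpMer_anBarG`, `anBarG_eq`, `anBarG_algebraMap`.
-/
import Fermat.Agent.ES.HEQ.QExpMer19
import Fermat.Agent.RED.DESC.CoeffDescent1

set_option autoImplicit false
set_option linter.unusedSectionVars false

open UpperHalfPlane hiding I
open scoped Manifold MatrixGroups

noncomputable section

namespace Fermat.Agent.ES.R48.KumQExpAlg5

open Fermat.Agent.X0 Fermat.Agent.X0.Analytic Fermat.Agent.X0.SurjPoint Fermat.Agent.ES.KUM
open Fermat.Agent.ES.HEQ.DoubleCoset27 Fermat.Agent.ES.HEQ.BetaMer19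
open Fermat.Agent.ES.HEQ.QExpMer19 ModularCurve

/-! ### Closure properties of `HasQExpMer` -/

theorem algebraMap_ne_zero' {c : HolH} (hc : c ≠ 0) : algebraMap HolH MerH c ≠ 0 :=
  (map_ne_zero_iff _ (IsFractionRing.injective HolH MerH)).mpr hc

theorem hasQExpMer_zero : HasQExpMer 0 0 :=
  ⟨0, 1, 0, 1, one_ne_zero, hasQExp_zero, hasQExp_one, zero_mul _, by rw [map_zero, zero_mul]⟩

theorem hasQExpMer_one : HasQExpMer 1 1 :=
  ⟨1, 1, 1, 1, one_ne_zero, hasQExp_one, hasQExp_one, one_mul _, by rw [map_one, one_mul]⟩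

/-- the constants. -/
theorem hasQExpMer_C (c : ℂ) :
    HasQExpMer (HahnSeries.C c) (algebraMap HolH MerH (algebraMap ℂ HolH c)) :=
  hasQExpMer_of_hasQExp (a := algebraMap ℂ HolH c) (HasQExp.const c)

theorem hasQExpMer_add {x₁ x₂ : LaurentSeries ℂ} {h₁ h₂ : MerH} (H₁ : HasQExpMer x₁ h₁)
    (H₂ : HasQExpMer x₂ h₂) : HasQExpMer (x₁ + x₂) (h₁ + h₂) := by
  obtain ⟨a₁, b₁, fa₁, fb₁, hfb₁, ha₁, hb₁, hx₁, hh₁⟩ := H₁
  obtain ⟨a₂, b₂, fa₂, fb₂, hfb₂, ha₂, hb₂, hx₂, hh₂⟩ := H₂
  refine ⟨a₁ * b₂ + a₂ * b₁, b₁ * b₂, fa₁ * fb₂ + fa₂ * fb₁, fb₁ * fb₂, mul_ne_zero hfb₁ hfb₂,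
    (ha₁.mul hb₂).add (ha₂.mul hb₁), hb₁.mul hb₂, ?_, ?_⟩
  · rw [← hx₁, ← hx₂]; ring
  · rw [map_add, map_mul, map_mul, map_mul, ← hh₁, ← hh₂]; ring

theorem hasQExpMer_mul {x₁ x₂ : LaurentSeries ℂ} {h₁ h₂ : MerH} (H₁ : HasQExpMer x₁ h₁)
    (H₂ : HasQExpMer x₂ h₂) : HasQExpMer (x₁ * x₂) (h₁ * h₂) := by
  obtain ⟨a₁, b₁, fa₁, fb₁, hfb₁, ha₁, hb₁, hx₁, hh₁⟩ := H₁
  obtain ⟨a₂, b₂, fa₂, fb₂, hfb₂, ha₂, hb₂, hx₂, hh₂⟩ := H₂
  refine ⟨a₁ * a₂, b₁ * b₂, fa₁ * fa₂, fb₁ * fb₂, mul_ne_zero hfb₁ hfb₂,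
    ha₁.mul ha₂, hb₁.mul hb₂, ?_, ?_⟩
  · rw [← hx₁, ← hx₂]; ring
  · rw [map_mul, map_mul, ← hh₁, ← hh₂]; ring

theorem hasQExpMer_neg {x : LaurentSeries ℂ} {h : MerH} (H : HasQExpMer x h) :
    HasQExpMer (-x) (-h) := by
  have h1 := hasQExpMer_mul (hasQExpMer_C (-1)) H
  have e1 : (HahnSeries.C (-1 : ℂ) : LaurentSeries ℂ) * x = -x := by
    rw [map_neg, map_one, neg_one_mul]
  have e2 : algebraMap HolH MerH (algebraMap ℂ HolH (-1)) * h = -h := by
    rw [map_neg, map_neg, map_one, map_one, neg_one_mul]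
  rwa [e1, e2] at h1

theorem hasQExpMer_sub {x₁ x₂ : LaurentSeries ℂ} {h₁ h₂ : MerH} (H₁ : HasQExpMer x₁ h₁)
    (H₂ : HasQExpMer x₂ h₂) : HasQExpMer (x₁ - x₂) (h₁ - h₂) := by
  rw [sub_eq_add_neg, sub_eq_add_neg]
  exact hasQExpMer_add H₁ (hasQExpMer_neg H₂)

/-- the realisation of `0` is `0`. -/
theorem hasQExpMer_eq_zero {h : MerH} (H : HasQExpMer 0 h) : h = 0 :=
  H.unique hasQExpMer_zero

theorem hasQExpMer_inv {x : LaurentSeries ℂ} {h : MerH} (H : HasQExpMer x h) :
    HasQExpMer x⁻¹ h⁻¹ := by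
  by_cases hx0 : x = 0
  · subst hx0
    rw [hasQExpMer_eq_zero H, inv_zero, inv_zero]
    exact hasQExpMer_zero
  obtain ⟨a, b, fa, fb, hfb, ha, hb, hx, hh⟩ := H
  have hfa : fa ≠ 0 := by rw [← hx]; exact mul_ne_zero hx0 hfb
  have ha0 : a ≠ 0 := ne_zero_of_hasQExp hfa ha
  have hb0 : b ≠ 0 := ne_zero_of_hasQExp hfb hb
  have hh0 : h ≠ 0 := by
    rintro rfl
    rw [zero_mul] at hh
    exact algebraMap_ne_zero' ha0 hh.symm
  refine ⟨b, a, fb, fa, hfa, hb, ha, ?_, ?_⟩
  · rw [← hx, ← mul_assoc, inv_mul_cancel₀ hx0, one_mul]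
  · rw [← hh, ← mul_assoc, inv_mul_cancel₀ hh0, one_mul]

/-- the meromorphic function determines the expansion. -/
theorem hasQExpMer_unique_left {x x' : LaurentSeries ℂ} {h : MerH} (H : HasQExpMer x h)
    (H' : HasQExpMer x' h) : x = x' := by
  obtain ⟨a, b, fa, fb, hfb, ha, hb, hx, hh⟩ := H
  obtain ⟨a', b', fa', fb', hfb', ha', hb', hx', hh'⟩ := H'
  have e1 : algebraMap HolH MerH (a * b') = algebraMap HolH MerH (a' * b) := by
    rw [map_mul, map_mul, ← hh, ← hh']; ring
  have e2 : a * b' = a' * b := IsFractionRing.injective HolH MerH e1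
  have e3 : fa * fb' = fa' * fb := by
    have h1 : HasQExp (fa * fb') (a.1 * b'.1) := ha.mul hb'
    have h2 : HasQExp (fa' * fb) (a'.1 * b.1) := ha'.mul hb
    have e4 : a.1 * b'.1 = a'.1 * b.1 := congrArg Subtype.val e2
    rw [e4] at h1
    exact h1.unique_left h2
  have e5 : x * (fb * fb') = x' * (fb * fb') := by
    calc x * (fb * fb') = (x * fb) * fb' := by ring
      _ = fa * fb' := by rw [hx]
      _ = fa' * fb := e3
      _ = (x' * fb') * fb := by rw [hx']
      _ = x' * (fb * fb') := by ring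
  exact mul_right_cancel₀ (mul_ne_zero hfb hfb') e5

/-! ### The field of realisable series -/

/-- **the subfield of `ℂ((q))` of expansions of meromorphic functions on `ℍ`.** -/
def realisable : Subfield (LaurentSeries ℂ) where
  carrier := {x | ∃ h : MerH, HasQExpMer x h}
  mul_mem' := by
    rintro x y ⟨h, H⟩ ⟨h', H'⟩
    exact ⟨h * h', hasQExpMer_mul H H'⟩
  one_mem' := ⟨1, hasQExpMer_one⟩
  add_mem' := by
    rintro x y ⟨h, H⟩ ⟨h', H'⟩
    exact ⟨h + h', hasQExpMer_add H H'⟩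
  zero_mem' := ⟨0, hasQExpMer_zero⟩
  neg_mem' := by
    rintro x ⟨h, H⟩
    exact ⟨-h, hasQExpMer_neg H⟩
  inv_mem' := by
    rintro x ⟨h, H⟩
    exact ⟨h⁻¹, hasQExpMer_inv H⟩

theorem mem_realisable {x : LaurentSeries ℂ} : x ∈ realisable ↔ ∃ h : MerH, HasQExpMer x h :=
  Iff.rfl

theorem mem_realisable_of {x : LaurentSeries ℂ} {h : MerH} (H : HasQExpMer x h) :
    x ∈ realisable := ⟨h, H⟩

/-- the realisation of a realisable series (as a function). -/
def realiseFun (x : realisable) : MerH := x.2.choose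

theorem hasQExpMer_realiseFun (x : realisable) : HasQExpMer (x : LaurentSeries ℂ) (realiseFun x) :=
  x.2.choose_spec

theorem realiseFun_eq {x : realisable} {h : MerH} (H : HasQExpMer (x : LaurentSeries ℂ) h) :
    realiseFun x = h :=
  (hasQExpMer_realiseFun x).unique H

/-- **the realisation map** `realisable →+* MerH`. -/
def realise : realisable →+* MerH where
  toFun := realiseFun
  map_one' := realiseFun_eq hasQExpMer_one
  map_mul' x y := realiseFun_eq (hasQExpMer_mul (hasQExpMer_realiseFun x) (hasQExpMer_realiseFun y))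
  map_zero' := realiseFun_eq hasQExpMer_zero
  map_add' x y := realiseFun_eq (hasQExpMer_add (hasQExpMer_realiseFun x) (hasQExpMer_realiseFun y))

theorem hasQExpMer_realise (x : realisable) : HasQExpMer (x : LaurentSeries ℂ) (realise x) :=
  hasQExpMer_realiseFun x

theorem realise_eq {x : realisable} {h : MerH} (H : HasQExpMer (x : LaurentSeries ℂ) h) :
    realise x = h :=
  realiseFun_eq H

theorem realise_mk {x : LaurentSeries ℂ} {h : MerH} (H : HasQExpMer x h) :
    realise ⟨x, mem_realisable_of H⟩ = h :=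
  realise_eq H

theorem realise_injective : Function.Injective realise := realise.injective

theorem C_mem_realisable (c : ℂ) : (HahnSeries.C c : LaurentSeries ℂ) ∈ realisable :=
  mem_realisable_of (hasQExpMer_C c)

theorem algebraMap_mem_realisable (c : ℂ) :
    algebraMap ℂ (LaurentSeries ℂ) c ∈ realisable := by
  have e : algebraMap ℂ (LaurentSeries ℂ) c = HahnSeries.C c := by
    rw [algebraMap_laurentSeries_eq_single]; rfl
  rw [e]
  exact C_mem_realisable c

theorem realise_C (c : ℂ) :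
    realise ⟨HahnSeries.C c, C_mem_realisable c⟩ = algebraMap HolH MerH (algebraMap ℂ HolH c) :=
  realise_eq (hasQExpMer_C c)

section Beta

variable {p : ℕ} [hp : Fact p.Prime]

theorem qExpand_mem_realisable {x : LaurentSeries ℂ} (hx : x ∈ realisable) :
    haveI : NeZero p := ⟨hp.out.ne_zero⟩
    qExpand ℂ p x ∈ realisable := by
  have : NeZero p := ⟨hp.out.ne_zero⟩
  obtain ⟨h, H⟩ := hx
  exact ⟨betaMer p none h, H.betaMer_none⟩

/-- `realise (x(q^p)) = (realise x) ∘ (z ↦ p z)`. -/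
theorem realise_qExpand (x : realisable) :
    haveI : NeZero p := ⟨hp.out.ne_zero⟩
    realise ⟨qExpand ℂ p (x : LaurentSeries ℂ), qExpand_mem_realisable x.2⟩
      = betaMer p none (realise x) := by
  have : NeZero p := ⟨hp.out.ne_zero⟩
  exact realise_eq (hasQExpMer_realise x).betaMer_none

end Beta

/-! ### Restriction to an intermediate field -/

/-- the realisation of an intermediate field `E ≤ realisable`. -/
def realiseOn (E : IntermediateField ℂ (LaurentSeries ℂ)) (hE : E.toSubfield ≤ realisable) :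
    ↥E →+* MerH :=
  realise.comp (Subfield.inclusion hE)

theorem hasQExpMer_realiseOn (E : IntermediateField ℂ (LaurentSeries ℂ))
    (hE : E.toSubfield ≤ realisable) (y : ↥E) :
    HasQExpMer (y : LaurentSeries ℂ) (realiseOn E hE y) :=
  hasQExpMer_realise (Subfield.inclusion hE y)

theorem realiseOn_eq (E : IntermediateField ℂ (LaurentSeries ℂ))
    (hE : E.toSubfield ≤ realisable) {y : ↥E} {h : MerH}
    (H : HasQExpMer (y : LaurentSeries ℂ) h) : realiseOn E hE y = h :=
  (hasQExpMer_realiseOn E hE y).unique H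

theorem realiseOn_injective (E : IntermediateField ℂ (LaurentSeries ℂ))
    (hE : E.toSubfield ≤ realisable) : Function.Injective (realiseOn E hE) :=
  (realiseOn E hE).injective

theorem realiseOn_algebraMap (E : IntermediateField ℂ (LaurentSeries ℂ))
    (hE : E.toSubfield ≤ realisable) (c : ℂ) :
    realiseOn E hE (algebraMap ℂ ↥E c) = algebraMap HolH MerH (algebraMap ℂ HolH c) := by
  refine realiseOn_eq E hE ?_
  have e : ((algebraMap ℂ ↥E c : ↥E) : LaurentSeries ℂ) = HahnSeries.C c := by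
    show algebraMap ℂ (LaurentSeries ℂ) c = HahnSeries.C c
    rw [algebraMap_laurentSeries_eq_single]; rfl
  rw [e]
  exact hasQExpMer_C c

/-- two intermediate fields: the realisations agree on common series. -/
theorem realiseOn_eq_realiseOn (E E' : IntermediateField ℂ (LaurentSeries ℂ))
    (hE : E.toSubfield ≤ realisable) (hE' : E'.toSubfield ≤ realisable) {y : ↥E} {y' : ↥E'}
    (h : (y : LaurentSeries ℂ) = (y' : LaurentSeries ℂ)) :
    realiseOn E hE y = realiseOn E' hE' y' := by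
  refine realiseOn_eq E hE ?_
  rw [h]
  exact hasQExpMer_realiseOn E' hE' y'

/-! ### The field of the Hecke correspondence -/

section Hecke

variable (p : ℕ) [hp : Fact p.Prime]

/-- coefficient embedding commutes with `q ↦ q^n`. -/
theorem coeffEmb_qExpand (L : Type*) [Field L] [Algebra ℚ L] (n : ℕ) [NeZero n]
    (x : LaurentSeries ℚ) : coeffEmb L (qExpand ℚ n x) = qExpand L n (coeffEmb L x) := by
  ext k
  by_cases hk : (n : ℤ) ∣ k
  · obtain ⟨m, rfl⟩ := hk
    rw [coeffEmb_coeff, qExpand_coeff_mul, qExpand_coeff_mul, coeffEmb_coeff]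
  · rw [coeffEmb_coeff, qExpand_coeff_of_not_dvd n _ hk, qExpand_coeff_of_not_dvd n _ hk,
      map_zero]

/-- `ℂ · F₀ ≤ realisable` as soon as the coefficient embedding of `F₀` is realisable. -/
theorem laurentBaseChange_le_of_coeffEmb (F₀ : IntermediateField ℚ (LaurentSeries ℚ))
    (h : ∀ y ∈ F₀, coeffEmb ℂ y ∈ realisable) :
    (laurentBaseChange ℂ F₀).toSubfield ≤ realisable := by
  intro x hx
  have hx' : x ∈ laurentBaseChange ℂ F₀ := hx
  rw [mem_laurentBaseChange_iff] at hx'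
  refine (Subfield.closure_le (t := realisable)).mpr ?_ hx'
  rintro y (⟨c, rfl⟩ | ⟨z, hz, rfl⟩)
  · exact algebraMap_mem_realisable c
  · exact h z hz

/-- **the field of the Hecke correspondence is realisable**: if `ℂ · F₀ ≤ realisable` then
`ℂ · (F₀ ⊔ F₀(q^p)) ≤ realisable`. -/
theorem laurentBaseChange_sup_map_le (F₀ : IntermediateField ℚ (LaurentSeries ℚ))
    (h : (laurentBaseChange ℂ F₀).toSubfield ≤ realisable) :
    haveI : NeZero p := ⟨hp.out.ne_zero⟩
    (laurentBaseChange ℂ (F₀ ⊔ F₀.map (qExpandₐ p))).toSubfield ≤ realisable := by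
  have : NeZero p := ⟨hp.out.ne_zero⟩
  refine laurentBaseChange_le_of_coeffEmb _ ?_
  -- the preimage of `realisable` under the coefficient embedding, as an intermediate field
  let K : IntermediateField ℚ (LaurentSeries ℚ) :=
    (realisable.comap (coeffEmb ℂ)).toIntermediateField fun a => by
      show coeffEmb ℂ (algebraMap ℚ (LaurentSeries ℚ) a) ∈ realisable
      rw [eq_ratCast, map_ratCast]
      exact SubfieldClass.ratCast_mem realisable a
  have h1 : F₀ ≤ K := fun y hy =>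
    h (coeffEmb_mem_laurentBaseChange ℂ (F₀ := F₀) hy)
  have h2 : F₀.map (qExpandₐ p) ≤ K := by
    rintro _ ⟨y, hy, rfl⟩
    show coeffEmb ℂ (qExpand ℚ p y) ∈ realisable
    rw [coeffEmb_qExpand]
    exact qExpand_mem_realisable (h1 hy)
  exact fun y hy => sup_le h1 h2 hy

end Hecke

/-! ### Realisation over `ℚbar` -/

section Bar

open Fermat.Agent.RED.DESC

variable (F₀ : IntermediateField ℚ (LaurentSeries ℚ))

/-- coefficientwise base change `ℚbar · F₀ → ℂ · F₀` along `iotaK : ℚbar → ℂ`. -/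
def bcBarG : ↥(laurentBaseChange Kbar F₀) →+* ↥(laurentBaseChange ℂ F₀) :=
  RingHom.codRestrict ((coeffMap iotaK).comp (laurentBaseChange Kbar F₀).val.toRingHom)
    (laurentBaseChange ℂ F₀)
    (fun f => CoeffDescent1.coeffMap_mem_laurentBaseChange_of_algHom iotaK F₀ f.2)

@[simp] theorem coe_bcBarG (f : ↥(laurentBaseChange Kbar F₀)) :
    ((bcBarG F₀ f : ↥(laurentBaseChange ℂ F₀)) : LaurentSeries ℂ)
      = toC (f : LaurentSeries Kbar) := rfl

theorem bcBarG_injective : Function.Injective (bcBarG F₀) := (bcBarG F₀).injective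

variable (h : (laurentBaseChange ℂ F₀).toSubfield ≤ realisable)

/-- the realisation of `ℚbar · F₀` in `MerH`. -/
def anBarG : ↥(laurentBaseChange Kbar F₀) →+* MerH :=
  (realiseOn (laurentBaseChange ℂ F₀) h).comp (bcBarG F₀)

theorem anBarG_apply (f : ↥(laurentBaseChange Kbar F₀)) :
    anBarG F₀ h f = realiseOn (laurentBaseChange ℂ F₀) h (bcBarG F₀ f) := rfl

theorem hasQExpMer_anBarG (f : ↥(laurentBaseChange Kbar F₀)) :
    HasQExpMer (toC (f : LaurentSeries Kbar)) (anBarG F₀ h f) :=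
  hasQExpMer_realiseOn (laurentBaseChange ℂ F₀) h (bcBarG F₀ f)

theorem anBarG_eq {f : ↥(laurentBaseChange Kbar F₀)} {g : MerH}
    (H : HasQExpMer (toC (f : LaurentSeries Kbar)) g) : anBarG F₀ h f = g :=
  (hasQExpMer_anBarG F₀ h f).unique H

theorem anBarG_injective : Function.Injective (anBarG F₀ h) := (anBarG F₀ h).injective

theorem anBarG_algebraMap (c : Kbar) :
    anBarG F₀ h (algebraMap Kbar ↥(laurentBaseChange Kbar F₀) c)
      = algebraMap HolH MerH (algebraMap ℂ HolH (iotaK c)) := by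
  refine anBarG_eq F₀ h ?_
  have e : toC (((algebraMap Kbar ↥(laurentBaseChange Kbar F₀) c :
      ↥(laurentBaseChange Kbar F₀)) : LaurentSeries Kbar)) = HahnSeries.C (iotaK c) := by
    show toC (algebraMap Kbar (LaurentSeries Kbar) c) = HahnSeries.C (iotaK c)
    rw [toC_algebraMap]
  rw [e]
  exact hasQExpMer_C (iotaK c)

/-- two rational fields: the realisations agree on common series. -/
theorem anBarG_eq_anBarG (F₁ : IntermediateField ℚ (LaurentSeries ℚ))
    (h₁ : (laurentBaseChange ℂ F₁).toSubfield ≤ realisable)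
    {f : ↥(laurentBaseChange Kbar F₀)} {f₁ : ↥(laurentBaseChange Kbar F₁)}
    (e : (f : LaurentSeries Kbar) = (f₁ : LaurentSeries Kbar)) :
    anBarG F₀ h f = anBarG F₁ h₁ f₁ := by
  refine anBarG_eq F₀ h ?_
  rw [e]
  exact hasQExpMer_anBarG F₁ h₁ f₁

end Bar

end Fermat.Agent.ES.R48.KumQExpAlg5
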