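/-
Programme R (S48, Deligne–Serre), chapter GEOM, sub-chapter G5 KUM₁ (helper5):
**the internal contract between K4 (Hecke/diamond equivariance) and K5 (assembly)**.

With the analytic input `hW : CReal1_3.WAnalytic M`:

* `hasQExpMer_realMer1` : `realMer1 hW y` has the Laurent expansion `y` (twin of
  `QExpMer19.hasQExpMer_realMer`); `FC1_le_realisable`;
* `anBar1 hW : FF1 M →+* MerH` : the realisation of `F1bar M = ℚbar · F1 M` (coefficientwise base
  change to `ℂ`, then `realMer1`), `anBar1_eq_realMer1`, `hasQExpMer_anBar1`, `anBar1_eq`,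
  `slMer_anBar1_of_mem` (`Γ₁(M)`-invariance), `anBar1_algebraMap`;
* `constMerHom : ℂˣ →* MerH` (the constants; injective);
* **`IsKummerMap1 hW n κ`** : the characterisation of the Kummer map
  `κ : J₁(M)(ℚbar)[n] → Hom(Γ₁(M), ℂˣ)` — verbatim `KummerHeckeMain19.IsKummerMap` with
  `FF N ↦ FF1 M`, `Gamma0 N ↦ Gamma1 M`, `anBar ↦ anBar1`.  K4 proves equivariance for every `κ`
  with this property; K5 proves the property for the `κ` of J1 + J2.
-/
import Fermat.Agent.ES.R48.CReal1_3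
import Fermat.Agent.ES.R48.KumQExpAlg5

set_option autoImplicit false
set_option linter.unusedSectionVars false

open UpperHalfPlane hiding I
open scoped Manifold MatrixGroups
open CongruenceSubgroup AlgebraicCurve

noncomputable section

namespace Fermat.Agent.ES.R48.KumIface5

open Fermat.Agent.X0 Fermat.Agent.X0.Analytic Fermat.Agent.X0.SurjPoint Fermat.Agent.ES.KUM
open Fermat.Agent.ES.HEQ.QExpMer19 ModularCurve
open Fermat.Agent.ES.R48.FF1Defs13 Fermat.Agent.ES.R48.X1Iface13 Fermat.Agent.ES.R48.CReal1_3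
open Fermat.Agent.ES.R48.KumQExpAlg5

variable {M : ℕ} [NeZero M]

/-! ### `realMer1` and Laurent expansions -/

/-- `realMer1 hW y` has the Laurent expansion `y`. -/
theorem hasQExpMer_realMer1 (hW : WAnalytic M) (y : FC1 M) :
    HasQExpMer (y : LaurentSeries ℂ) (realMer1 hW y) := by
  obtain ⟨r, s, hs, rfl⟩ := exists_divC1_ne_zero M y
  have hs' : (s : FC1 M) ≠ 0 := fun h => hs (Subtype.ext h)
  refine ⟨realC1 hW r, realC1 hW s, ((r : FC1 M) : LaurentSeries ℂ),
    ((s : FC1 M) : LaurentSeries ℂ), ?_, hasQExp_realC1 hW r, hasQExp_realC1 hW s, ?_, ?_⟩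
  · intro h
    exact hs' (Subtype.ext h)
  · have h1 : ((r : FC1 M) / (s : FC1 M)) * (s : FC1 M) = (r : FC1 M) := div_mul_cancel₀ _ hs'
    exact congrArg (Subtype.val) h1
  · rw [map_div₀, realMer1_coe, realMer1_coe]
    have h2 : algebraMap HolH MerH (realC1 hW s) ≠ 0 :=
      (map_ne_zero_iff _ (IsFractionRing.injective HolH MerH)).mpr
        ((map_ne_zero_iff _ (realC1_injective hW)).mpr hs)
    exact div_mul_cancel₀ _ h2

/-- the function field of `X₁(M)` over `ℂ` consists of realisable series. -/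
theorem FC1_le_realisable (hW : WAnalytic M) :
    (laurentBaseChange ℂ (F1 M)).toSubfield ≤ realisable := fun y hy =>
  mem_realisable_of (hasQExpMer_realMer1 hW ⟨y, hy⟩)

/-- `realMer1` is the realisation map of `KumQExpAlg5`. -/
theorem realiseOn_eq_realMer1 (hW : WAnalytic M) (y : FC1 M) :
    realiseOn (laurentBaseChange ℂ (F1 M)) (FC1_le_realisable hW) y = realMer1 hW y :=
  realiseOn_eq _ _ (hasQExpMer_realMer1 hW y)

/-- two elements with the same Laurent series have the same realisation. -/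
theorem realMer1_eq_of_hasQExpMer (hW : WAnalytic M) {y : FC1 M} {h : MerH}
    (H : HasQExpMer (y : LaurentSeries ℂ) h) : realMer1 hW y = h :=
  (hasQExpMer_realMer1 hW y).unique H

/-! ### The realisation over `ℚbar` -/

/-- **the realisation of `F1bar M` in `MerH`.** -/
def anBar1 (hW : WAnalytic M) : FF1 M →+* MerH := anBarG (F1 M) (FC1_le_realisable hW)

theorem anBar1_eq_realMer1 (hW : WAnalytic M) (f : FF1 M) :
    anBar1 hW f = realMer1 hW (bcBarG (F1 M) f) :=
  realiseOn_eq_realMer1 hW (bcBarG (F1 M) f)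

theorem hasQExpMer_anBar1 (hW : WAnalytic M) (f : FF1 M) :
    HasQExpMer (toC (f : LaurentSeries Kbar)) (anBar1 hW f) :=
  hasQExpMer_anBarG (F1 M) (FC1_le_realisable hW) f

theorem anBar1_eq (hW : WAnalytic M) {f : FF1 M} {g : MerH}
    (H : HasQExpMer (toC (f : LaurentSeries Kbar)) g) : anBar1 hW f = g :=
  anBarG_eq (F1 M) (FC1_le_realisable hW) H

theorem anBar1_injective (hW : WAnalytic M) : Function.Injective (anBar1 hW) :=
  (anBar1 hW).injective

/-- any element of `F₁,ℂ` with the complexified series of `f` realises as `anBar1 f`. -/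
theorem realMer1_eq_anBar1 (hW : WAnalytic M) (y : FC1 M) (f : FF1 M)
    (h : (y : LaurentSeries ℂ) = toC (f : LaurentSeries Kbar)) : realMer1 hW y = anBar1 hW f := by
  refine realMer1_eq_of_hasQExpMer hW ?_
  rw [h]
  exact hasQExpMer_anBar1 hW f

/-- `Γ₁(M)`-invariance. -/
theorem slMer_anBar1_of_mem (hW : WAnalytic M) (γ : SL(2, ℤ)) (hγ : γ ∈ Gamma1 M) (f : FF1 M) :
    slMer γ (anBar1 hW f) = anBar1 hW f := by
  rw [anBar1_eq_realMer1, slMer_realMer1_of_mem hW γ hγ]

theorem anBar1_algebraMap (hW : WAnalytic M) (c : Kbar) :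
    anBar1 hW (algebraMap Kbar (FF1 M) c) = algebraMap HolH MerH (algebraMap ℂ HolH (iotaK c)) :=
  anBarG_algebraMap (F1 M) (FC1_le_realisable hW) c

/-! ### The constants -/

/-- the constants `ℂˣ → MerH`. -/
def constMerHom : ℂˣ →* MerH :=
  (((algebraMap HolH MerH).comp (algebraMap ℂ HolH) : ℂ →+* MerH) : ℂ →* MerH).comp
    (Units.coeHom ℂ)

theorem constMerHom_apply (a : ℂˣ) :
    constMerHom a = algebraMap HolH MerH (algebraMap ℂ HolH (a : ℂ)) := rfl

theorem constMerHom_injective : Function.Injective constMerHom := by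
  intro a b h
  apply Units.ext
  have h1 : Function.Injective ((algebraMap HolH MerH).comp (algebraMap ℂ HolH) : ℂ →+* MerH) :=
    RingHom.injective _
  exact h1 h

theorem constMerHom_ne_zero (a : ℂˣ) : constMerHom a ≠ 0 := by
  rw [constMerHom_apply]
  have h1 : Function.Injective ((algebraMap HolH MerH).comp (algebraMap ℂ HolH) : ℂ →+* MerH) :=
    RingHom.injective _
  intro h
  exact a.ne_zero (h1 (by rw [RingHom.comp_apply, h, map_zero]))

theorem slMer_constMerHom (γ : SL(2, ℤ)) (a : ℂˣ) : slMer γ (constMerHom a) = constMerHom a :=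
  slMer_const γ (a : ℂ)

/-! ### The characterisation of the Kummer map -/

/-- **The characterisation of the Kummer map on `J₁(M)(ℚbar)[n]`** (output of J1 + J2 for `X₁(M)`):
if `x = [D]`, `n D = div f` and `h ^ n = anBar1 f` in `MerH`, then `h ∘ γ = κ x γ · h` for all
`γ ∈ Γ₁(M)` — and such `h ≠ 0` exist. -/
def IsKummerMap1 (hW : WAnalytic M) (n : ℕ)
    (κ : ↥(Pic0.torsion Kbar (FF1 M) n) → (↥(Gamma1 M) →* ℂˣ)) : Prop :=
  ∀ (x : ↥(Pic0.torsion Kbar (FF1 M) n)) (D : Divisor.degZero (K := Kbar) (F := FF1 M))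
    (f : FF1 M),
    Pic0.mk D = (x : Pic0 Kbar (FF1 M)) → f ≠ 0 →
    (∀ v : Place Kbar (FF1 M), ((n : ℤ) • (D : Divisor Kbar (FF1 M))) v = v.ord f) →
      (∃ h : MerH, h ≠ 0 ∧ h ^ n = anBar1 hW f) ∧
        ∀ h : MerH, h ≠ 0 → h ^ n = anBar1 hW f →
          ∀ γ : ↥(Gamma1 M), slMer (γ : SL(2, ℤ)) h = constMerHom (κ x γ) * h

/-- every torsion class has a representative `D` with `n D = div f`. -/
theorem exists_rep_div1 (n : ℕ) (x : ↥(Pic0.torsion Kbar (FF1 M) n)) :
    ∃ (D : Divisor.degZero (K := Kbar) (F := FF1 M)) (f : FF1 M),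
      Pic0.mk D = (x : Pic0 Kbar (FF1 M)) ∧ f ≠ 0 ∧
        ∀ v : Place Kbar (FF1 M), ((n : ℤ) • (D : Divisor Kbar (FF1 M))) v = v.ord f := by
  obtain ⟨D, hD⟩ := Pic0.mk_surjective (x : Pic0 Kbar (FF1 M))
  have h1 : (n : ℤ) • Pic0.mk D = 0 := by
    rw [hD]
    exact Pic0.mem_torsion.mp x.2
  have h2 : Pic0.mk ((n : ℤ) • D) = 0 := h1
  have h3 : ((n : ℤ) • D) ∈
      (Divisor.principal (K := Kbar) (F := FF1 M)).addSubgroupOf
        (Divisor.degZero (K := Kbar) (F := FF1 M)) :=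
    (QuotientAddGroup.eq_zero_iff _).mp h2
  rw [AddSubgroup.mem_addSubgroupOf] at h3
  obtain ⟨f, hf, hDf⟩ := h3
  exact ⟨D, f, hD, hf, fun v => hDf v⟩

/-- A Kummer map is determined by its characterisation. -/
theorem IsKummerMap1.eq_of_root {hW : WAnalytic M} {n : ℕ}
    {κ : ↥(Pic0.torsion Kbar (FF1 M) n) → (↥(Gamma1 M) →* ℂˣ)} (hκ : IsKummerMap1 hW n κ)
    (x : ↥(Pic0.torsion Kbar (FF1 M) n)) {D : Divisor.degZero (K := Kbar) (F := FF1 M)}
    {f : FF1 M} (hD : Pic0.mk D = (x : Pic0 Kbar (FF1 M))) (hf : f ≠ 0)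
    (hDf : ∀ v : Place Kbar (FF1 M), ((n : ℤ) • (D : Divisor Kbar (FF1 M))) v = v.ord f)
    {h : MerH} (hh0 : h ≠ 0) (hh : h ^ n = anBar1 hW f) {χ : ↥(Gamma1 M) →* ℂˣ}
    (hχ : ∀ γ : ↥(Gamma1 M), slMer (γ : SL(2, ℤ)) h = constMerHom (χ γ) * h) : κ x = χ := by
  ext1 γ
  have e1 := (hκ x D f hD hf hDf).2 h hh0 hh γ
  have e2 := hχ γ
  exact constMerHom_injective (mul_right_cancel₀ hh0 (e1.symm.trans e2))

end Fermat.Agent.ES.R48.KumIface5
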