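/-
Programme R (S48, Deligne–Serre), chapter GEOM, sub-chapter G5 KUM₁ (helper3):
**the analytic realisation of `F₁,ℂ = ℂ · F₁(M)` as a `KumGen18.Realization`**, for the two groups
`Γ₁(M)` and `±Γ₁(M) = X1Iface13.PG1 M`, and the cusp expansions of the elements of
`R₁,ℂ = ℂ[j_d, W_c]` at every cusp (twin of `ES/KUM/CCuspExpand16.exists_cuspExpC`).

Everything is stated with the analytic hypothesis `hW : CReal1_3.WAnalytic M` (discharged by
`WAnalyticFinal3.wAnalytic M hM` for `M ≠ 1`).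

* **`realization1 hW : KumGen18.Realization (FC1 M) (Γ₁(M))`** — `Θ := realMer1 hW`, constants
  `realMer1_algebraMap`, invariance `slMer_realMer1_of_mem`, weak point dictionary
  `CPoint1_3.ordMer_realMer1` (place `ptPlaceC1 hW 1 z`, index `ptIdx1 hW 1 z`);
* **`realizationPG1 hW : KumGen18.Realization (FC1 M) (PG1 M)`** — the same for `±Γ₁(M)`
  (`CPoint1_3.slMer_realMer1_of_mem_PG1`);
* `realization1_Θ`, `realizationPG1_Θ` (both `rfl`);
* `WCusp M : Prop` — the cusp input: every `W_c ∘ γ` has a `q_M`-expansion (G1-E4,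
  `WCusp10.isQExp_compSL_wFun`);
* **`exists_cuspExpC1 hW hcusp γ u`** : every `Θ u ∘ γ` (`u ∈ R₁,ℂ`) has a `q_M`-expansion.
-/
import Fermat.Agent.ES.R48.CPoint1_3
import Fermat.Agent.ES.R48.KumGen18
import Fermat.Agent.X0.CuspGen

set_option autoImplicit false
set_option linter.unusedSectionVars false

open ModularCurve HahnSeries UpperHalfPlane AlgebraicCurve
open scoped Topology Manifold MatrixGroups

noncomputable section

namespace Fermat.Agent.ES.R48.KumReal1_3

open Fermat.Agent.X0 Fermat.Agent.X0.SurjPoint Fermat.Agent.ES.KUM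
open Fermat.Agent.ES.R48.X1Iface13 Fermat.Agent.ES.R48.CReal1_3 Fermat.Agent.ES.R48.CPoint1_3
open Fermat.Agent.ES.R48.KumGen18

variable {M : ℕ} [NeZero M]

/-- **The realisation of `F₁,ℂ` by `Γ₁(M)`-invariant meromorphic functions.** -/
def realization1 (hW : WAnalytic M) :
    Realization (FC1 M) (CongruenceSubgroup.Gamma1 M) where
  Θ := realMer1 hW
  Θ_algebraMap c := realMer1_algebraMap hW c
  slMer_Θ γ hγ f := slMer_realMer1_of_mem hW γ hγ f
  exists_place z := ⟨ptPlaceC1 hW 1 z, (ptIdx1 hW 1 z : ℤ), fun _ hf => ordMer_realMer1 hW z hf⟩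

@[simp] theorem realization1_Θ (hW : WAnalytic M) : (realization1 hW).Θ = realMer1 hW := rfl

/-- **The realisation of `F₁,ℂ` by `±Γ₁(M)`-invariant meromorphic functions.** -/
def realizationPG1 (hW : WAnalytic M) : Realization (FC1 M) (PG1 M) where
  Θ := realMer1 hW
  Θ_algebraMap c := realMer1_algebraMap hW c
  slMer_Θ γ hγ f := slMer_realMer1_of_mem_PG1 hW γ hγ f
  exists_place z := ⟨ptPlaceC1 hW 1 z, (ptIdx1 hW 1 z : ℤ), fun _ hf => ordMer_realMer1 hW z hf⟩

@[simp] theorem realizationPG1_Θ (hW : WAnalytic M) : (realizationPG1 hW).Θ = realMer1 hW := rfl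

/-! ### cusp expansions of the elements of `R₁,ℂ` -/

variable (M) in
/-- **The cusp input** (G1-E4): every `W_c ∘ γ` has a `q_M`-expansion. -/
def WCusp : Prop :=
  ∀ (c : (ZMod M)ˣ) (γ : SL(2, ℤ)), ∃ (m : ℕ) (P : PowerSeries ℂ),
    IsQExp M (compSL (wFun M (c : ZMod M)) γ) m P

/-- Every `Θ u ∘ γ` (`u ∈ R₁,ℂ`) has a `q_M`-expansion. -/
theorem exists_cuspExpC1 (hW : WAnalytic M) (hcusp : WCusp M) (γ : SL(2, ℤ)) (u : RC1 M) :
    ∃ (m : ℕ) (P : PowerSeries ℂ),
      IsQExp M (compSL ((realC1 hW u : HolH) : ℍ → ℂ) γ) m P := by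
  induction u using RC1_induction with
  | hgen d hd =>
      rw [realC1_jdRC1]
      obtain ⟨m, P, h⟩ := CuspGen.exists_isQExp_compSL_jdFun' M d hd γ
      exact ⟨m, _, h⟩
  | hw c =>
      rw [realC1_wRC1]
      exact hcusp c γ
  | hconst c =>
      refine ⟨0, PowerSeries.C c, ?_⟩
      rw [realC1_algebraMap, compSL_const]
      exact isQExp_const M c
  | hadd u v hu hv =>
      obtain ⟨m, P, hP⟩ := hu
      obtain ⟨m', Q, hQ⟩ := hv
      refine ⟨m + m', PowerSeries.X ^ m' * P + PowerSeries.X ^ m * Q, ?_⟩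
      rw [map_add]
      exact hP.add hQ
  | hmul u v hu hv =>
      obtain ⟨m, P, hP⟩ := hu
      obtain ⟨m', Q, hQ⟩ := hv
      refine ⟨m + m', P * Q, ?_⟩
      rw [map_mul]
      exact hP.mul hQ

end Fermat.Agent.ES.R48.KumReal1_3
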