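/-
Programme R (S48, Deligne–Serre), chapter GEOM, sub-chapter G5 KUM₁ (helper5): **the adapter** (twin
of `ES/HEQ/KummerHeckeQ19`, first half).  The Kummer map on `J₁(M)(ℚbar)[n]` obtained from the
generic Kummer map over `ℂ` (`KumGen18.kummer` at `KumReal1_3.realization1 hW`) and the descent
(`KumDescentFinal25.torsionEquivC1`) satisfies the characterisation `KumIface5.IsKummerMap1`; it is
injective (from (INV)) and its image contains the Kummer characters (from the Kummer isomorphism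
over `ℂ`).
-/
import Mathlib
import Fermat.Agent.ES.R48.KumIface5
import Fermat.Agent.ES.R48.KumReal1_3
import Fermat.Agent.ES.R48.KumGenFinal18
import Fermat.Agent.ES.R48.KumDescentFinal25

set_option autoImplicit false
set_option linter.unusedSectionVars false

open UpperHalfPlane hiding I
open scoped Manifold MatrixGroups
open CongruenceSubgroup AlgebraicCurve

noncomputable section

namespace Fermat.Agent.ES.R48.KumAdapter5

open Fermat.Agent.X0 Fermat.Agent.X0.SurjPoint Fermat.Agent.ES.KUM ModularCurve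
open Fermat.Agent.ES.KUM.KummerAbstract17
open Fermat.Agent.J.DESC.ExtPic22
open Fermat.Agent.ES.R48.FF1Defs13 Fermat.Agent.ES.R48.X1Iface13 Fermat.Agent.ES.R48.CReal1_3
open Fermat.Agent.ES.R48.KumReal1_3 Fermat.Agent.ES.R48.KumIface5
open Fermat.Agent.ES.R48.KumGen18 Fermat.Agent.ES.R48.KumGenFinal18
open Fermat.Agent.ES.R48.KumFieldL25 Fermat.Agent.ES.R48.KumDescentFinal25

attribute [local instance] instAlgebraQbarComplex instTowerQbarComplex

variable (M : ℕ) [NeZero M] (hW : WAnalytic M)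

/-- helper25's base change `bcQC1` and the realisation `anBar1` agree. -/
theorem realMer1_bcQC1 (f : FF1 M) : realMer1 hW (bcQC1 M f) = anBar1 hW f :=
  realMer1_eq_anBar1 hW (bcQC1 M f) f rfl

variable (hc : ConstOnly ℂ (FC1 M)) (hQ : FF.IsGen Kbar (jL1 Kbar M))
variable (n : ℕ) [NeZero n] [Finite (Pic0.torsion ℂ (FC1 M) n)]

/-- **The Kummer map on `J₁(M)(ℚbar)[n]`**, as a map to characters. -/
def kumQ1 (x : ↥(Pic0.torsion Kbar (FF1 M) n)) : ↥(Gamma1 M) →* ℂˣ :=
  kumCharOf (realization1 hW) hc n (torsionEquivC1 M hQ n x)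

/-- The same, additively: `J₁(M)(ℚbar)[n] →+ Additive (Γ₁(M) →* ℂˣ)`. -/
def kumQAdd1 : ↥(Pic0.torsion Kbar (FF1 M) n) →+ Additive (↥(Gamma1 M) →* ℂˣ) :=
  (kummer (realization1 hW) hc n).comp (torsionEquivC1 M hQ n).toAddMonoidHom

theorem toMul_kumQAdd1 (x : ↥(Pic0.torsion Kbar (FF1 M) n)) :
    Additive.toMul (kumQAdd1 M hW hc hQ n x) = kumQ1 M hW hc hQ n x := rfl

theorem kumQAdd1_apply (x : ↥(Pic0.torsion Kbar (FF1 M) n)) :
    kumQAdd1 M hW hc hQ n x = kummer (realization1 hW) hc n (torsionEquivC1 M hQ n x) := rfl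

/-- transport of a Kummer datum over `ℚbar` to a Kummer datum over `ℂ`. -/
theorem isDatum_of_bar1 (x : ↥(Pic0.torsion Kbar (FF1 M) n))
    (D : Divisor.degZero (K := Kbar) (F := FF1 M)) (f : FF1 M)
    (hD : Pic0.mk D = (x : Pic0 Kbar (FF1 M))) (hf : f ≠ 0)
    (hDf : ∀ v : Place Kbar (FF1 M), ((n : ℤ) • (D : Divisor Kbar (FF1 M))) v = v.ord f)
    (h : MerH) (hh : h ^ n = anBar1 hW f) :
    IsDatum (setting (realization1 hW)) n
      ((torsionEquivC1 M hQ n x : ↥(Pic0.torsion ℂ (FC1 M) n)) : Pic0 ℂ (FC1 M))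
      (extDegZero (isConstExt_bcQC1 M) hQ (isGen_jL1 ℂ M hQ) D) (bcQC1 M f) h := by
  refine ⟨?_, bcQC1_ne_zero M hf, ?_, ?_⟩
  · rw [coe_torsionEquivC1_apply, ← hD, extPic0C1_mk]
  · intro v
    rw [coe_extDegZeroC1]
    refine extDivC1_datum M hQ (n : ℤ) hf (fun w => ?_) v
    rw [← hDf w, Finsupp.smul_apply, smul_eq_mul]
  · rw [setting_Θ, realization1_Θ, realMer1_bcQC1]
    exact hh

/-- **the adapter**: the Kummer map of J1 + J2 for `X₁(M)` satisfies the characterisation
`KumIface5.IsKummerMap1`. -/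
theorem isKummerMap1_kumQ1 : IsKummerMap1 hW n (kumQ1 M hW hc hQ n) := by
  intro x D f hD hf hDf
  refine ⟨?_, ?_⟩
  · -- existence of roots
    have hdiv : ∀ v : Place ℂ (FC1 M), (n : ℤ) ∣ v.ord (bcQC1 M f) := by
      intro v
      refine ⟨extDivC1 M hQ (D : Divisor Kbar (FF1 M)) v, ?_⟩
      refine (extDivC1_datum M hQ (n : ℤ) hf (fun w => ?_) v).symm
      rw [← hDf w, Finsupp.smul_apply, smul_eq_mul]
    obtain ⟨h, hh⟩ := hasRoots (realization1 hW) n (NeZero.ne n) (bcQC1 M f)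
      (bcQC1_ne_zero M hf) hdiv
    rw [setting_Θ, realization1_Θ, realMer1_bcQC1] at hh
    refine ⟨h, ?_, hh⟩
    rintro rfl
    rw [zero_pow (NeZero.ne n)] at hh
    exact hf ((anBar1 hW).injective (by rw [← hh, map_zero]))
  · intro h _ hh γ
    exact kummer_eigen (realization1 hW) hc n (torsionEquivC1 M hQ n x)
      (isDatum_of_bar1 M hW hQ n x D f hD hf hDf h hh) γ

/-- the Kummer map on `J₁(M)(ℚbar)[n]` is injective, from (INV). -/
theorem kumQAdd1_injective (hroot : RootMem (realization1 hW) n) :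
    Function.Injective (kumQAdd1 M hW hc hQ n) := by
  intro x y hxy
  have h := kummer_injective_of hc n hroot hxy
  exact (torsionEquivC1 M hQ n).injective h

/-- the image of the Kummer map on `J₁(M)(ℚbar)[n]` contains the Kummer characters, from the
dictionaries and the Eisenstein ratios. -/
theorem kumQAdd1_surjective [HasPrincipalDivisors ℂ (FC1 M)] {N : ℕ} [NeZero N]
    (hC : KumGenMult18.CuspDict (realization1 hW) N)
    (hP : KumGenDiv18.PlaceDict (realization1 hW) N)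
    (hneg : ∀ γ ∈ Gamma1 M, ((γ : SL(2, ℤ)) : Matrix (Fin 2) (Fin 2) ℤ).trace ≠ -2)
    (hfix : KumGenDiv18.FixedTrace (Gamma1 M)) (hroot : RootMem (realization1 hW) n)
    (hE : EigenRatio (realization1 hW) n)
    (χ : ↥(Gamma1 M) →* ℂˣ) (hχ : χ ∈ KumChar (Gamma1 M) n) :
    ∃ x : ↥(Pic0.torsion Kbar (FF1 M) n), kumQAdd1 M hW hc hQ n x = Additive.ofMul χ := by
  set e := kummerEquivFinal hc n hC hP hneg hfix hroot hE with he
  set z : ↥(Pic0.torsion ℂ (FC1 M) n) := e.symm (Additive.ofMul ⟨χ, hχ⟩) with hz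
  refine ⟨(torsionEquivC1 M hQ n).symm z, ?_⟩
  rw [kumQAdd1_apply, AddEquiv.apply_symm_apply]
  have h1 : ((Additive.toMul (e z) : ↥(KumChar (Gamma1 M) n)) : ↥(Gamma1 M) →* ℂˣ)
      = kumCharOf (realization1 hW) hc n z :=
    kummerEquivFinal_apply hc n hC hP hneg hfix hroot hE z
  rw [hz, AddEquiv.apply_symm_apply] at h1
  apply Additive.toMul.injective
  exact h1.symm

end Fermat.Agent.ES.R48.KumAdapter5
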