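/-
Programme R (S48, Deligne–Serre), chapter GEOM, sub-chapter G2 DICT₁ (helper29):
**the analytic realisation `RealizeData1 M` of `R₁ = ℚbar[j_d, W_c]`** — the twin of
`X0/Analytic.lean` §C and `X0/RealizeData.lean`, instantiating `X1Iface13.RealizeData1`.

Input from G1: E1/E3 (`WSlash29`) and E2 as a HYPOTHESIS
`hE2 : ∀ c : (ZMod M)ˣ, IsQExp 1 (wFun M c) 1 ((wNumQ M c).map (algebraMap ℚ ℂ))`.

* `hasQExp_of_isQExp : IsQExp 1 g m P → Analytic.HasQExp (laurentOf m P) g` (generic converter);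
* `toC_wF`, `hasQExp_wF`;
* `exists_hasQExp_of_mem₁`, `anFun1`, `realize1 : Rsub1 M →+* (ℍ → ℂ)`, `realize1_injective`,
  `realize1_algebraMap`, `realize1_jdR1`, `realize1_wR`, `realize1_mem_HolH`,
  `realize1_isQExp_Kbar`, `realize1_Gamma1_invariant`;
* **`realizeData1 hE2 : RealizeData1 M`**.
-/
import Mathlib
import Fermat.Agent.X0.Analytic
import Fermat.Agent.X0.RealizeData
import Fermat.Agent.ES.R48.X1Iface13
import Fermat.Agent.ES.R48.X1FracR1
import Fermat.Agent.ES.R48.WSlash29

set_option autoImplicit false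
set_option linter.unusedSectionVars false

open ModularCurve HahnSeries UpperHalfPlane
open scoped Topology Manifold MatrixGroups

noncomputable section

namespace Fermat.Agent.ES.R48.X1Realize29

open Fermat.Agent.X0 Fermat.Agent.X0.Analytic Fermat.Agent.X0.JQExp
open Fermat.Agent.ES.R48.X1Iface13 Fermat.Agent.ES.R48.FF1Defs13

/-! ### From `IsQExp 1` to `HasQExp` -/

theorem qh_one_eq_qH (z : ℍ) : qh 1 z = qH z := by
  unfold qh qH
  rw [Nat.cast_one]

/-- A function with an everywhere convergent `q`-expansion `q^{-m} P(q)` has the `q`-expansion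
`laurentOf m P` in the sense of `X0.Analytic.HasQExp`. -/
theorem hasQExp_of_isQExp {g : ℍ → ℂ} {m : ℕ} {P : PowerSeries ℂ} (h : IsQExp 1 g m P) :
    HasQExp (laurentOf m P) g := by
  set c : ℕ → ℂ := fun n => PowerSeries.coeff n P with hc
  have hsum : ∀ q : ℂ, ‖q‖ < 1 → Summable (fun n : ℕ => c n * q ^ n) := by
    intro q hq
    by_cases hq0 : q = 0
    · subst hq0
      refine summable_of_ne_finset_zero (s := {0}) fun n hn => ?_
      have hn0 : n ≠ 0 := by simpa using hn
      rw [zero_pow hn0, mul_zero]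
    · obtain ⟨z, hz⟩ := exists_qH_eq hq hq0
      have := (h z).summable
      rw [qh_one_eq_qH, hz] at this
      exact this
  set G : ℂ → ℂ := fun q => ∑' n : ℕ, c n * q ^ n with hG
  have hHS : ∀ q : ℂ, ‖q‖ < 1 → HasSum (fun n : ℕ => c n * q ^ n) (G q) := fun q hq =>
    (hsum q hq).hasSum
  have H1 : HasFPowerSeriesOnBall G (FormalMultilinearSeries.ofScalars ℂ c) 0 1 := by
    constructor
    · refine le_of_forall_lt_imp_le_of_dense fun r hr ↦ ?_
      lift r to NNReal using hr.ne_top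
      apply FormalMultilinearSeries.le_radius_of_summable
      have hr' : ‖((r : ℝ) : ℂ)‖ < 1 := by
        rw [Complex.norm_real, Real.norm_eq_abs, NNReal.abs_eq]
        exact_mod_cast hr
      simpa [norm_mul, mul_comm, mul_left_comm, mul_assoc] using (hHS _ hr').summable.norm
    · simp
    · intro y hy
      rw [← ENNReal.coe_one, Metric.eball_coe, NNReal.coe_one, mem_ball_zero_iff] at hy
      simpa [mul_comm] using hHS y hy
  have hdiff : DifferentiableOn ℂ G (Metric.ball 0 1) := by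
    have := H1.differentiableOn
    rwa [← ENNReal.coe_one, Metric.eball_coe, NNReal.coe_one] at this
  have htps : tps G = P := by
    rw [tps_eq_of_hasSum hHS]
    ext n
    rw [PowerSeries.coeff_mk]
  refine ⟨m, G, hdiff, ?_, fun z => ?_⟩
  · rw [htps]; rfl
  · have h1 := h z
    rw [qh_one_eq_qH] at h1
    exact h1.unique (hHS (qH z) (norm_qH_lt_one z))

/-! ### The generator `W_c` -/

variable (M : ℕ) [NeZero M]

theorem iotaK_comp_algebraMap :
    (iotaK : Kbar →+* ℂ).comp (algebraMap ℚ Kbar) = algebraMap ℚ ℂ :=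
  RingHom.ext fun x => by simp

/-- the complexification of the formal `W_c`. -/
theorem toC_wF (c : (ZMod M)ˣ) :
    toC ((wF M c : FF1 M) : LaurentSeries Kbar)
      = laurentOf 1 ((wNumQ M (c : ZMod M)).map (algebraMap ℚ ℂ)) := by
  rw [coe_wF]
  have h1 : wq M (c : ZMod M) = laurentOf 1 (wNumQ M (c : ZMod M)) := by
    unfold wq laurentOf
    norm_num
  rw [h1]
  show coeffMap iotaK (coeffMap (algebraMap ℚ Kbar) (laurentOf 1 (wNumQ M (c : ZMod M)))) = _
  rw [coeffMap_laurentOf, coeffMap_laurentOf]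
  congr 1
  ext n
  rw [PowerSeries.coeff_map, PowerSeries.coeff_map, PowerSeries.coeff_map,
    ← iotaK_comp_algebraMap]
  rfl

/-- E2, in the `HasQExp` form. -/
theorem hasQExp_wF
    (hE2 : ∀ c : (ZMod M)ˣ,
      IsQExp 1 (wFun M (c : ZMod M)) 1 ((wNumQ M (c : ZMod M)).map (algebraMap ℚ ℂ)))
    (c : (ZMod M)ˣ) :
    HasQExp (toC ((wF M c : FF1 M) : LaurentSeries Kbar)) (wFun M (c : ZMod M)) := by
  rw [toC_wF]
  exact hasQExp_of_isQExp (hE2 c)

/-- the formal `j_d` inside `F₁`. -/
theorem coe_jdF1' (d : ℕ) [NeZero d] (hd : d ∣ M) :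
    ((jdF1 M d hd : FF1 M) : LaurentSeries Kbar) = coeffEmb Kbar (qExpand ℚ d jq) := by
  unfold jdF1
  rw [coe_ffIncl]
  rfl

section Realize

variable (hE2 : ∀ c : (ZMod M)ˣ,
  IsQExp 1 (wFun M (c : ZMod M)) 1 ((wNumQ M (c : ZMod M)).map (algebraMap ℚ ℂ)))

include hE2

theorem exists_hasQExp_of_mem₁ {x : FF1 M} (hx : x ∈ Rsub1 M) :
    ∃ g : ℍ → ℂ, HasQExp (toC (x : LaurentSeries Kbar)) g := by
  unfold Rsub1 at hx
  induction hx using Algebra.adjoin_induction with
  | mem y hy =>
      rcases hy with ⟨d, hd0, hd, rfl⟩ | ⟨c, rfl⟩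
      · refine ⟨jdFun d, ?_⟩
        rw [coe_jdF1']
        exact hasQExp_jd d
      · exact ⟨wFun M (c : ZMod M), hasQExp_wF M hE2 c⟩
  | algebraMap c =>
      refine ⟨fun _ => iotaK c, ?_⟩
      have : ((algebraMap Kbar (FF1 M) c : FF1 M) : LaurentSeries Kbar)
          = algebraMap Kbar (LaurentSeries Kbar) c := rfl
      rw [this, toC_algebraMap]
      exact HasQExp.const _
  | add y z _ _ hy hz =>
      obtain ⟨g₁, h₁⟩ := hy
      obtain ⟨g₂, h₂⟩ := hz
      refine ⟨g₁ + g₂, ?_⟩
      have : ((y + z : FF1 M) : LaurentSeries Kbar) = (y : LaurentSeries Kbar) + z := rfl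
      rw [this, map_add]
      exact h₁.add h₂
  | mul y z _ _ hy hz =>
      obtain ⟨g₁, h₁⟩ := hy
      obtain ⟨g₂, h₂⟩ := hz
      refine ⟨g₁ * g₂, ?_⟩
      have : ((y * z : FF1 M) : LaurentSeries Kbar) = (y : LaurentSeries Kbar) * z := rfl
      rw [this, map_mul]
      exact h₁.mul h₂

/-- the holomorphic function attached to an element of `R₁`. -/
def anFun1 (u : Rsub1 M) : ℍ → ℂ := (exists_hasQExp_of_mem₁ M hE2 u.2).choose

theorem hasQExp_anFun1 (u : Rsub1 M) :
    HasQExp (toC (((u : FF1 M)) : LaurentSeries Kbar)) (anFun1 M hE2 u) :=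
  (exists_hasQExp_of_mem₁ M hE2 u.2).choose_spec

theorem anFun1_eq {u : Rsub1 M} {g : ℍ → ℂ}
    (h : HasQExp (toC (((u : FF1 M)) : LaurentSeries Kbar)) g) : anFun1 M hE2 u = g :=
  (hasQExp_anFun1 M hE2 u).unique_right h

/-- **The analytic realisation `Θ₁ : R₁ = ℚbar[j_d, W_c] → Hol(ℍ)`**, as a ring hom. -/
def realize1 : Rsub1 M →+* (ℍ → ℂ) where
  toFun := anFun1 M hE2
  map_one' := by
    apply anFun1_eq
    have : (((1 : Rsub1 M) : FF1 M) : LaurentSeries Kbar) = 1 := rfl
    rw [this, map_one]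
    have h := HasQExp.const 1
    rw [map_one] at h
    exact h
  map_mul' u w := by
    apply anFun1_eq
    have : (((u * w : Rsub1 M) : FF1 M) : LaurentSeries Kbar)
        = ((u : FF1 M) : LaurentSeries Kbar) * ((w : FF1 M) : LaurentSeries Kbar) := rfl
    rw [this, map_mul]
    exact (hasQExp_anFun1 M hE2 u).mul (hasQExp_anFun1 M hE2 w)
  map_zero' := by
    apply anFun1_eq
    have : (((0 : Rsub1 M) : FF1 M) : LaurentSeries Kbar) = 0 := rfl
    rw [this, map_zero]
    have h := HasQExp.const 0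
    rw [map_zero] at h
    exact h
  map_add' u w := by
    apply anFun1_eq
    have : (((u + w : Rsub1 M) : FF1 M) : LaurentSeries Kbar)
        = ((u : FF1 M) : LaurentSeries Kbar) + ((w : FF1 M) : LaurentSeries Kbar) := rfl
    rw [this, map_add]
    exact (hasQExp_anFun1 M hE2 u).add (hasQExp_anFun1 M hE2 w)

theorem realize1_apply (u : Rsub1 M) : realize1 M hE2 u = anFun1 M hE2 u := rfl

theorem hasQExp_realize1 (u : Rsub1 M) :
    HasQExp (toC ((u : FF1 M) : LaurentSeries Kbar)) (realize1 M hE2 u) :=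
  hasQExp_anFun1 M hE2 u

theorem realize1_eq_of_hasQExp {u : Rsub1 M} {g : ℍ → ℂ}
    (h : HasQExp (toC ((u : FF1 M) : LaurentSeries Kbar)) g) : realize1 M hE2 u = g :=
  anFun1_eq M hE2 h

theorem realize1_injective : Function.Injective (realize1 M hE2) := by
  intro u w h
  have h1 := hasQExp_anFun1 M hE2 u
  have h2 := hasQExp_anFun1 M hE2 w
  rw [realize1_apply, realize1_apply] at h
  rw [h] at h1
  have h3 := toC_injective (h1.unique_left h2)
  exact Subtype.ext (Subtype.ext h3)

theorem realize1_algebraMap (c : Kbar) :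
    realize1 M hE2 (algebraMap Kbar (Rsub1 M) c) = fun _ => iotaK c := by
  apply realize1_eq_of_hasQExp
  have : (((algebraMap Kbar (Rsub1 M) c : Rsub1 M) : FF1 M) : LaurentSeries Kbar)
      = algebraMap Kbar (LaurentSeries Kbar) c := rfl
  rw [this, toC_algebraMap]
  exact HasQExp.const _

theorem realize1_jdR1 (d : ℕ) [NeZero d] (hd : d ∣ M) :
    realize1 M hE2 (jdR1 M d hd) = jdFun d := by
  apply realize1_eq_of_hasQExp
  rw [coe_jdR1, coe_jdF1']
  exact hasQExp_jd d

theorem realize1_wR (c : (ZMod M)ˣ) :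
    realize1 M hE2 (wR M c) = wFun M (c : ZMod M) := by
  apply realize1_eq_of_hasQExp
  rw [coe_wR]
  exact hasQExp_wF M hE2 c

theorem realize1_mem_HolH (u : Rsub1 M) : realize1 M hE2 u ∈ HolH :=
  (hasQExp_realize1 M hE2 u).mdifferentiable

theorem realize1_isQExp_Kbar (u : Rsub1 M) :
    ∃ (m : ℕ) (P : PowerSeries Kbar), IsQExp 1 (realize1 M hE2 u) m (P.map iotaK) ∧
      (((u : FF1 M) : LaurentSeries Kbar)) = laurentOf m P := by
  obtain ⟨m, Q, hQ, hu⟩ := (hasQExp_realize1 M hE2 u).exists_isQExp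
  obtain ⟨P, hP, hPQ⟩ :=
    Analytic.exists_laurentOf_of_toC (x := ((u : FF1 M) : LaurentSeries Kbar)) hu
  exact ⟨m, P, hPQ ▸ hQ, hP⟩

/-- **`Γ₁(M)`-invariance of the realisation.** -/
theorem realize1_Gamma1_invariant (u : Rsub1 M) (γ : SL(2, ℤ))
    (hγ : γ ∈ CongruenceSubgroup.Gamma1 M) : compSL (realize1 M hE2 u) γ = realize1 M hE2 u := by
  have hM : (M : ℤ) ∣ γ 1 0 := by
    have h := (CongruenceSubgroup.Gamma1_mem M γ |>.mp hγ).2.2
    exact (ZMod.intCast_zmod_eq_zero_iff_dvd _ _).mp h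
  induction u using X1FracR1.Rsub1_induction with
  | hgen d hd =>
      rw [realize1_jdR1]
      funext z
      have hd' : (d : ℤ) ∣ γ 1 0 := (Int.natCast_dvd_natCast.mpr hd).trans hM
      exact Analytic.jdFun_smul_of_dvd γ d hd' z
  | hw c =>
      rw [realize1_wR]
      funext z
      exact WSlash29.wFun_invariant_Gamma1 M hγ (c : ZMod M) z
  | hconst c =>
      rw [realize1_algebraMap]
      rfl
  | hadd u v hu hv =>
      rw [map_add]
      show compSL (realize1 M hE2 u) γ + compSL (realize1 M hE2 v) γ = _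
      rw [hu, hv]
  | hmul u v hu hv =>
      rw [map_mul]
      show compSL (realize1 M hE2 u) γ * compSL (realize1 M hE2 v) γ = _
      rw [hu, hv]

/-- **The analytic realisation data of `X1Iface13`.** -/
def realizeData1 : RealizeData1 M where
  Θ := realize1 M hE2
  injective := realize1_injective M hE2
  algebraMap_eq := realize1_algebraMap M hE2
  jd_eq := fun d _ hd => realize1_jdR1 M hE2 d hd
  w_eq := realize1_wR M hE2
  mem_HolH := realize1_mem_HolH M hE2
  isQExp := realize1_isQExp_Kbar M hE2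
  invariant := realize1_Gamma1_invariant M hE2

theorem realizeData1_Θ : (realizeData1 M hE2).Θ = realize1 M hE2 := rfl

end Realize

end Fermat.Agent.ES.R48.X1Realize29
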