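/-
Programme R (S48, Deligne–Serre), chapter GEOM, sub-chapter G5 KUM₁ (helper29):
**the analytic inputs of the Kummer chapter for `X₁(M)`**, from G1 (E2 `WInfty19`, E3 `WSlash29`,
E4 `WCusp10`).

* `coeffEmbC_wq` : `coeffEmb ℂ (wq M c) = laurentOf 1 (wNumQ M c mapped to ℂ)`;
* **`wAnalytic M hM : CReal1_3.WAnalytic M`** (`M ≠ 1`): `W_c` has the convergent `q`-expansion
  `wq M c` (G1-E2) and satisfies the slash rule under `Γ₀(M)` (G1-E3);
* **`exists_isQExp_compSL_wFun`** : every `W_c ∘ γ` has a `q_M`-expansion over `ℂ` (G1-E4,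
  coefficients forgotten);
* **`exists_isQExp_compSL_realC1 hW hM γ u`** : every `Θ₁,ℂ u ∘ γ` (`u ∈ R₁,ℂ = ℂ[j_d, W_c]`) has a
  `q_M`-expansion (twin of `CCusp16.exists_cuspExpC`; the `j_d` by main's
  `CuspGen.exists_isQExp_compSL_jdFun'` AS-IS).
-/
import Fermat.Agent.X0.CuspGen
import Fermat.Agent.ES.R48.CReal1_3
import Fermat.Agent.ES.R48.X1Realize29
import Fermat.Agent.ES.R48.WInfty19
import Fermat.Agent.ES.R48.WSlash29
import Fermat.Agent.ES.R48.WCusp10

set_option autoImplicit false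
set_option linter.unusedSectionVars false

open ModularCurve HahnSeries UpperHalfPlane
open scoped Topology Manifold MatrixGroups

noncomputable section

namespace Fermat.Agent.ES.R48.KumAnalytic29

open Fermat.Agent.X0 Fermat.Agent.X0.Analytic Fermat.Agent.X0.SurjPoint
open Fermat.Agent.ES.KUM Fermat.Agent.ES.R48.FF1Defs13 Fermat.Agent.ES.R48.X1Iface13
open Fermat.Agent.ES.R48.CReal1_3

variable (M : ℕ) [NeZero M]

/-- The formal `W_c` over `ℂ` is `q⁻¹ ·` (the numerator series mapped to `ℂ`). -/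
theorem coeffEmbC_wq (c : ZMod M) :
    coeffEmb ℂ (wq M c) = laurentOf 1 ((wNumQ M c).map (algebraMap ℚ ℂ)) := by
  have h1 : wq M c = laurentOf 1 (wNumQ M c) := by
    unfold wq laurentOf
    norm_num
  rw [h1]
  show coeffMap (algebraMap ℚ ℂ) (laurentOf 1 (wNumQ M c)) = _
  rw [Fermat.Agent.X0.coeffMap_laurentOf]

/-- G1-E2 as a convergent `q`-expansion in the sense of `X0/Analytic`. -/
theorem hasQExp_wq {c : ZMod M} (hc : c ≠ 0) :
    HasQExp (coeffEmb ℂ (wq M c)) (wFun M c) := by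
  rw [coeffEmbC_wq]
  exact X1Realize29.hasQExp_of_isQExp (WInfty19.isQExp_wFun M c hc)

theorem unit_ne_zero (hM : M ≠ 1) (c : (ZMod M)ˣ) : (c : ZMod M) ≠ 0 := by
  have : Nontrivial (ZMod M) := ZMod.nontrivial_iff.mpr hM
  exact c.ne_zero

/-- **The analytic input of `CReal1_3`** (G1-E2 + G1-E3), unconditionally for `M ≠ 1`. -/
theorem wAnalytic (hM : M ≠ 1) : WAnalytic M where
  hasQExp c := hasQExp_wq M (unit_ne_zero M hM c)
  slash := WSlash29.wSlash M

/-- G1-E4 over `ℂ`: every `W_c ∘ γ` has a `q_M`-expansion. -/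
theorem exists_isQExp_compSL_wFun (hM : M ≠ 1) (c : (ZMod M)ˣ) (γ : SL(2, ℤ)) :
    ∃ (m : ℕ) (P : PowerSeries ℂ), IsQExp M (compSL (wFun M (c : ZMod M)) γ) m P :=
  ⟨M, _, WCusp10.isQExp_compSL_wFun M (unit_ne_zero M hM c) γ⟩

variable {M}

/-- **Every `Θ₁,ℂ u ∘ γ` has a `q_M`-expansion** (the field `exists_exp` of the cusp-side
setup of the Kummer chapter). -/
theorem exists_isQExp_compSL_realC1 (hW : WAnalytic M) (hM : M ≠ 1) (γ : SL(2, ℤ)) (u : RC1 M) :
    ∃ (m : ℕ) (P : PowerSeries ℂ),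
      IsQExp M (compSL ((realC1 hW u : HolH) : ℍ → ℂ) γ) m P := by
  induction u using RC1_induction with
  | hgen d hd =>
      rw [realC1_jdRC1]
      obtain ⟨m, P, h⟩ := CuspGen.exists_isQExp_compSL_jdFun' M d hd γ
      exact ⟨m, _, h⟩
  | hw c =>
      rw [realC1_wRC1]
      exact exists_isQExp_compSL_wFun M hM c γ
  | hconst c =>
      refine ⟨0, PowerSeries.C c, ?_⟩
      rw [realC1_algebraMap, compSL_const]
      exact isQExp_const M c
  | hadd u v hu hv =>
      obtain ⟨m, P, hP⟩ := hu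
      obtain ⟨m', Q, hQ⟩ := hv
      refine ⟨m + m', PowerSeries.X ^ m' * P + PowerSeries.X ^ m * Q, ?_⟩
      rw [map_add]
      exact hP.add hQ
  | hmul u v hu hv =>
      obtain ⟨m, P, hP⟩ := hu
      obtain ⟨m', Q, hQ⟩ := hv
      refine ⟨m + m', P * Q, ?_⟩
      rw [map_mul]
      exact hP.mul hQ

/-- The same at the canonical analytic input. -/
theorem exists_isQExp_compSL_realC1' (hM : M ≠ 1) (γ : SL(2, ℤ)) (u : RC1 M) :
    ∃ (m : ℕ) (P : PowerSeries ℂ),
      IsQExp M (compSL ((realC1 (wAnalytic M hM) u : HolH) : ℍ → ℂ) γ) m P :=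
  exists_isQExp_compSL_realC1 (wAnalytic M hM) hM γ u

end Fermat.Agent.ES.R48.KumAnalytic29
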