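/-
Programme R (S48, Deligne–Serre), chapter G5 KUM₁, leaf of K4 (helper9): the `Γ₁(M)`-twin of main's
`ES/HEQ/BetaMer19` (double coset relation in `MerH`) and `ES/HEQ/RepGamma19` (transitivity on the
Hecke representatives).

* for ANY family `r : Option (ZMod p) → SL(2, ℤ)`: `betaMerR r i h = h ∘ (r_i β_i)` and
  `slMer γ (betaMerR r i h) = betaMerR r k (slMer (r_i · coc γ i · r_k⁻¹) h)`, `k = perm γ i`
  — the `R_B` field of `KummerHeckeAbs19.Setup` for `Γ₁(M)`, both for the representatives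
  `r = rep σ_p` of `DcGamma1_9.dcT` (`betaMerT`, cocycle `cocG1`) and for the dual representatives
  `r = repS δ′` of `DcDual9.dcTs` (`betaMerS`, cocycle `cocS δ′`);
* the diamond leg `slMer γ (slMer g h) = slMer g (slMer (g γ g⁻¹) h)`;
* `exists_rep1` : `Γ₁(M)` is transitive on the representatives (`p ∤ M`);
* `slMer_coc_none` : on `Γ₁(M)`-invariant `h`, `slMer (coc γ ∞) h = slMer (repS δ′ (perm γ ∞)) h`
  (the `σ_beta` field).
-/
import Mathlib
import Fermat.Agent.ES.HEQ.BetaMer19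
import Fermat.Agent.ES.HEQ.RepGamma19
import Fermat.Agent.ES.R48.DcDual9

set_option autoImplicit false

open UpperHalfPlane hiding I
open scoped Manifold MatrixGroups
open CongruenceSubgroup

noncomputable section

namespace Fermat.Agent.ES.R48.KumBetaMer9

open Fermat.Agent.X0 Fermat.Agent.X0.SurjPoint Fermat.Agent.ES.KUM
open Fermat.Agent.ES.HEQ.DoubleCoset27 Fermat.Agent.ES.HEQ.BetaMer19
open Fermat.Agent.ES.HEQ.RepGamma19
open Fermat.Agent.ES.R48.Gamma1Slash9 Fermat.Agent.ES.R48.TpForm9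
open Fermat.Agent.ES.R48.DcGamma1_9 Fermat.Agent.ES.R48.DcDual9

/-! ### General twisted representatives -/

section General

variable {p : ℕ} [hp : Fact p.Prime]

/-- `h ↦ h ∘ (r_i β_i)` on meromorphic functions. -/
def betaMerR (r : Option (ZMod p) → SL(2, ℤ)) (i : Option (ZMod p)) : MerH →+* MerH :=
  (betaMer p i).comp (slMer (r i))

theorem betaMerR_apply (r : Option (ZMod p) → SL(2, ℤ)) (i : Option (ZMod p)) (h : MerH) :
    betaMerR r i h = betaMer p i (slMer (r i) h) := rfl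

theorem betaMerR_const (r : Option (ZMod p) → SL(2, ℤ)) (i : Option (ZMod p)) (c : ℂ) :
    betaMerR r i (algebraMap HolH MerH (algebraMap ℂ HolH c)) =
      algebraMap HolH MerH (algebraMap ℂ HolH c) := by
  rw [betaMerR_apply, slMer_const, betaMer_const]

/-- **The double coset relation in `MerH` for twisted representatives.** -/
theorem slMer_betaMerR (r : Option (ZMod p) → SL(2, ℤ)) (γ : SL(2, ℤ)) (i : Option (ZMod p))
    (h : MerH) :
    slMer γ (betaMerR r i h)
      = betaMerR r (perm γ i) (slMer (r i * coc γ i * (r (perm γ i))⁻¹) h) := by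
  rw [betaMerR_apply, betaMerR_apply, slMer_betaMer, ← slMer_mul, ← slMer_mul]
  congr 2
  group

/-- the diamond leg: `(h ∘ g) ∘ γ = (h ∘ (g γ g⁻¹)) ∘ g`. -/
theorem slMer_slMer_conj (g γ : SL(2, ℤ)) (h : MerH) :
    slMer γ (slMer g h) = slMer g (slMer (g * γ * g⁻¹) h) := by
  rw [← slMer_mul, ← slMer_mul]
  congr 1
  group

/-- on a function invariant under a subgroup `Γ`, `slMer` only depends on the coset `Γ g`. -/
theorem slMer_eq_of_mul_inv_mem {Γ : Subgroup SL(2, ℤ)} {h : MerH}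
    (hinv : ∀ τ ∈ Γ, slMer τ h = h) {g g' : SL(2, ℤ)} (hg : g' * g⁻¹ ∈ Γ) :
    slMer g' h = slMer g h := by
  have e : g' = (g' * g⁻¹) * g := by group
  rw [e, slMer_mul, hinv _ hg]

end General

/-! ### `Γ₁(M)` -/

section Gamma1

variable {M : ℕ} [NeZero M] {p : ℕ} (hp : p.Prime) (hpM : ¬ p ∣ M)

/-- `h ↦ h ∘ (r_i β_i)`, `r = rep σ_p`: the representatives of `DcGamma1_9.dcT`. -/
def betaMerT (i : Option (ZMod p)) : MerH →+* MerH :=
  haveI : Fact p.Prime := ⟨hp⟩
  betaMerR (rep (sigmaP hp hpM)) i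

/-- **`R_B` for `dcT`**: `(h ∘ r_iβ_i) ∘ γ = (h ∘ cocG1 γ i) ∘ r_kβ_k`, `k = permG1 γ i`. -/
theorem slMer_betaMerT (γ : Gamma1 M) (i : Option (ZMod p)) (h : MerH) :
    slMer (γ : SL(2, ℤ)) (betaMerT hp hpM i h)
      = betaMerT hp hpM (permG1 hp γ i)
          (slMer ((cocG1 hp hpM γ i : Gamma1 M) : SL(2, ℤ)) h) :=
  haveI : Fact p.Prime := ⟨hp⟩
  slMer_betaMerR (rep (sigmaP hp hpM)) (γ : SL(2, ℤ)) i h

theorem betaMerT_const (i : Option (ZMod p)) (c : ℂ) :
    betaMerT hp hpM i (algebraMap HolH MerH (algebraMap ℂ HolH c)) =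
      algebraMap HolH MerH (algebraMap ℂ HolH c) :=
  haveI : Fact p.Prime := ⟨hp⟩
  betaMerR_const _ i c

omit [NeZero M] in
/-- **the diamond leg for `dcD`**. -/
theorem slMer_slMer_conjG1 {g : SL(2, ℤ)} (hg : g ∈ Gamma0 M) (γ : Gamma1 M) (h : MerH) :
    slMer (γ : SL(2, ℤ)) (slMer g h)
      = slMer g (slMer ((conjG1 g hg γ : Gamma1 M) : SL(2, ℤ)) h) :=
  slMer_slMer_conj g (γ : SL(2, ℤ)) h

end Gamma1

section Dual

variable {M : ℕ} {p : ℕ} [hp : Fact p.Prime]

/-- `h ↦ h ∘ (r′_i β_i)`, `r′ = repS δ′`: the representatives of `DcDual9.dcTs`. -/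
def betaMerS (δ' : SL(2, ℤ)) (i : Option (ZMod p)) : MerH →+* MerH :=
  betaMerR (repS δ') i

/-- at `∞` the dual representative is `β_∞` itself. -/
theorem betaMerS_none (δ' : SL(2, ℤ)) (h : MerH) :
    betaMerS δ' (none : Option (ZMod p)) h = betaMer p none h := by
  rw [betaMerS, betaMerR_apply, repS_none, slMer_one]

/-- **`R_B` for `dcTs`**: `(h ∘ r′_iβ_i) ∘ γ = (h ∘ cocS δ′ γ i) ∘ r′_kβ_k`, `k = perm γ i`. -/
theorem slMer_betaMerS (δ' γ : SL(2, ℤ)) (i : Option (ZMod p)) (h : MerH) :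
    slMer γ (betaMerS δ' i h) = betaMerS δ' (perm γ i) (slMer (cocS δ' γ i) h) :=
  slMer_betaMerR (repS δ') γ i h

theorem betaMerS_const (δ' : SL(2, ℤ)) (i : Option (ZMod p)) (c : ℂ) :
    betaMerS δ' i (algebraMap HolH MerH (algebraMap ℂ HolH c)) =
      algebraMap HolH MerH (algebraMap ℂ HolH c) :=
  betaMerR_const _ i c

/-- **the `σ_beta` field**: for `γ ∈ Γ₁(M)` and `h` invariant under `Γ₁(M)`,
`(h ∘ β_∞) ∘ γ = h ∘ (r′_k β_k)`, `k = perm γ ∞`. -/
theorem slMer_betaMer_none (hpM : ¬ p ∣ M) {δ' : SL(2, ℤ)} (hδ' : δ' ∈ Gamma0 M)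
    (hδ'p : ((δ' 1 1 : ℤ) : ZMod M) * (p : ZMod M) = 1) {γ : SL(2, ℤ)} (hγ : γ ∈ Gamma1 M)
    {h : MerH} (hinv : ∀ τ ∈ Gamma1 M, slMer τ h = h) :
    slMer γ (betaMer p none h) = betaMerS δ' (perm γ (none : Option (ZMod p))) h := by
  rw [slMer_betaMer, betaMerS, betaMerR_apply]
  congr 1
  refine slMer_eq_of_mul_inv_mem hinv ?_
  have h1 := repS_mul_coc_inv_mem hpM hδ' hδ'p hγ
  have h2 := (Gamma1 M).inv_mem h1
  rwa [_root_.mul_inv_rev, inv_inv] at h2

/-- **`Γ₁(M)` acts transitively on the representatives** (`p ∤ M`): for every index `i` there is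
`γ ∈ Γ₁(M)` with `β_∞ γ ∈ SL(2,ℤ) β_i`. -/
theorem exists_rep1 (hpM : ¬ p ∣ M) (i : Option (ZMod p)) :
    ∃ γ : SL(2, ℤ), γ ∈ Gamma1 M ∧ perm γ (none : Option (ZMod p)) = i := by
  cases i with
  | none => exact ⟨1, one_mem _, perm_one _⟩
  | some j =>
    -- `d ≡ 1 (mod M)`, `d ≡ M j (mod p)`
    have hcop : Nat.Coprime M p :=
      (Nat.Coprime.symm ((Nat.Prime.coprime_iff_not_dvd hp.out).mpr hpM))
    obtain ⟨d, hd1, hd2⟩ : ∃ d : ℤ, (d : ZMod M) = 1 ∧ (d : ZMod p) = (M : ZMod p) * j := by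
      obtain ⟨k, hk1, hk2⟩ := Nat.chineseRemainder hcop 1 ((M : ZMod p) * j).val
      refine ⟨(k : ℤ), ?_, ?_⟩
      · have := (ZMod.natCast_eq_natCast_iff k 1 M).mpr hk1
        simpa using this
      · have := (ZMod.natCast_eq_natCast_iff k ((M : ZMod p) * j).val p).mpr hk2
        rw [ZMod.natCast_zmod_val] at this
        simpa using this
    -- `gcd(d, M) = 1`
    have hdM : IsCoprime d (M : ℤ) := by
      have hu : IsUnit ((d : ℤ) : ZMod M) := by rw [hd1]; exact isUnit_one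
      have := (ZMod.isUnit_iff_coprime d.natAbs M).mp (by
        rcases Int.natAbs_eq d with h | h
        · rw [h] at hu; simpa using hu
        · rw [h] at hu
          have : IsUnit (-((d.natAbs : ℤ) : ZMod M)) := by simpa using hu
          simpa using this.neg)
      rw [Int.isCoprime_iff_gcd_eq_one, Int.gcd, Int.natAbs_natCast]
      exact this
    obtain ⟨a, b, hab⟩ := hdM
    -- `a d + b M = 1`
    let γ : SL(2, ℤ) := ⟨!![a, -b; (M : ℤ), d], by
      rw [Matrix.det_fin_two_of]; linear_combination hab⟩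
    -- `d = M j.val + p g11`
    obtain ⟨g11, hg11⟩ : (p : ℤ) ∣ d - (M : ℤ) * (j.val : ℤ) := by
      rw [← ZMod.intCast_zmod_eq_zero_iff_dvd]
      push_cast
      rw [hd2, ZMod.natCast_zmod_val, sub_self]
    let g : SL(2, ℤ) := ⟨!![(p : ℤ) * a, -b - a * (j.val : ℤ); (M : ℤ), g11], by
      rw [Matrix.det_fin_two_of]
      have : (p : ℤ) * g11 = d - (M : ℤ) * (j.val : ℤ) := hg11.symm
      linear_combination hab + a * this⟩
    refine ⟨γ, ?_, ?_⟩
    · rw [Gamma1_mem]
      have had : ((a : ℤ) : ZMod M) = 1 := by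
        have := congrArg (Int.cast : ℤ → ZMod M) hab
        push_cast at this
        rw [hd1, ZMod.natCast_self, mul_zero, add_zero, mul_one] at this
        exact this
      refine ⟨?_, ?_, ?_⟩
      · simpa [γ] using had
      · simpa [γ] using hd1
      · simp [γ]
    · have key : beta p none * (γ : Matrix (Fin 2) (Fin 2) ℤ)
          = (g : Matrix (Fin 2) (Fin 2) ℤ) * beta p (some j) := by
        have h2 : (p : ℤ) * g11 = d - (M : ℤ) * (j.val : ℤ) := hg11.symm
        ext x y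
        fin_cases x <;> fin_cases y <;>
          simp [γ, g, beta_none, beta_some, Matrix.mul_apply, Fin.sum_univ_two,
            -ZMod.natCast_val]
        · ring
        · linear_combination (-1 : ℤ) * h2
      exact (eq_of_beta_mul key).1

end Dual

end Fermat.Agent.ES.R48.KumBetaMer9
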