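/-
Programme R (S48, Deligne–Serre), chapter GEOM, sub-chapter G5 KUM₁ (helper5): the twin of
`ES/KUM/CExact5` for `X₁(M)`, `4 ≤ M` — **all point indices are `1`**:

  `ordMer z₀ (embC1 hW g f) = (ptPlaceC1 hW g z₀).ord f`      (`f ≠ 0`).

`±Γ₁(M) = PG1 M` contains no conjugate of the elliptic elements `S`, `S T` (trace `0`, `1` against
`±2` mod `M`), so `ε` acts freely on `X = SL(2, ℤ) ⧸ PG1 M` and the counting sandwich of
`CExact5.sandwich_idx` (used AS-IS) gives `ptIdx1 = 1` at the elliptic base points; elsewhere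
`ellOrder = 1`.

Inputs (hypotheses): `FF.IsGen ℂ (jC1 M)` and the degree `[F₁,ℂ : ℂ(j)] = #(SL(2, ℤ) ⧸ PG1 M)`
(`KumFieldL25`), and the surjectivity of the point places `PointSurj1 hW` (`KumCSurj13`).
-/
import Fermat.Agent.ES.KUM.CExact5
import Fermat.Agent.ES.R48.CPoint1_3

set_option autoImplicit false
set_option linter.unusedSectionVars false

open UpperHalfPlane
open scoped Topology Manifold MatrixGroups

noncomputable section

namespace Fermat.Agent.ES.R48.KumCExact5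

open Fermat.Agent.X0 Fermat.Agent.X0.SurjPoint Fermat.Agent.X0.OrdVal AlgebraicCurve
open Fermat.Agent.X0.JOrderMain Fermat.Agent.X0.JOrderFinal CongruenceSubgroup ModularCurve
open Fermat.Agent.ES.KUM Fermat.Agent.ES.R48.FF1Defs13 Fermat.Agent.ES.R48.X1Iface13
  Fermat.Agent.ES.R48.CReal1_3 Fermat.Agent.ES.R48.CPoint1_3

/-! ### `±Γ₁(M)` has no elliptic elements for `4 ≤ M` -/

section Trace

variable {M : ℕ} [NeZero M]

/-- the trace of an element of `±Γ₁(M)` is `±2` modulo `M`. -/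
theorem trace_of_mem_PG1 {γ : SL(2, ℤ)} (hγ : γ ∈ PG1 M) :
    (M : ℤ) ∣ (γ : Matrix (Fin 2) (Fin 2) ℤ).trace - 2 ∨
      (M : ℤ) ∣ (γ : Matrix (Fin 2) (Fin 2) ℤ).trace + 2 := by
  rw [Matrix.trace_fin_two]
  rcases (mem_PG1_iff M).mp hγ with h | h
  · left
    obtain ⟨h00, h11, -⟩ := (Gamma1_mem M γ).mp h
    have e0 : (M : ℤ) ∣ γ 0 0 - 1 := by
      rw [← ZMod.intCast_zmod_eq_zero_iff_dvd]; push_cast; rw [h00]; ring
    have e1 : (M : ℤ) ∣ γ 1 1 - 1 := by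
      rw [← ZMod.intCast_zmod_eq_zero_iff_dvd]; push_cast; rw [h11]; ring
    have := dvd_add e0 e1
    have e : γ 0 0 - 1 + (γ 1 1 - 1) = γ 0 0 + γ 1 1 - 2 := by ring
    rwa [e] at this
  · right
    obtain ⟨h00, h11, -⟩ := (Gamma1_mem M (-γ)).mp h
    have n00 : (-γ) 0 0 = -(γ 0 0) := by
      simp [Matrix.SpecialLinearGroup.coe_neg]
    have n11 : (-γ) 1 1 = -(γ 1 1) := by
      simp [Matrix.SpecialLinearGroup.coe_neg]
    rw [n00] at h00
    rw [n11] at h11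
    have e0 : (M : ℤ) ∣ γ 0 0 + 1 := by
      rw [← ZMod.intCast_zmod_eq_zero_iff_dvd]
      push_cast at h00 ⊢
      rw [← h00]; ring
    have e1 : (M : ℤ) ∣ γ 1 1 + 1 := by
      rw [← ZMod.intCast_zmod_eq_zero_iff_dvd]
      push_cast at h11 ⊢
      rw [← h11]; ring
    have := dvd_add e0 e1
    have e : γ 0 0 + 1 + (γ 1 1 + 1) = γ 0 0 + γ 1 1 + 2 := by ring
    rwa [e] at this

/-- the trace is invariant under conjugation. -/
theorem trace_conj (g ε : SL(2, ℤ)) :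
    ((g⁻¹ * ε * g : SL(2, ℤ)) : Matrix (Fin 2) (Fin 2) ℤ).trace
      = (ε : Matrix (Fin 2) (Fin 2) ℤ).trace := by
  rw [Matrix.SpecialLinearGroup.coe_mul, Matrix.trace_mul_comm,
    ← Matrix.SpecialLinearGroup.coe_mul, ← mul_assoc, mul_inv_cancel, one_mul]

theorem trace_S : (ModularGroup.S : Matrix (Fin 2) (Fin 2) ℤ).trace = 0 := by
  rw [Matrix.trace_fin_two]
  simp [ModularGroup.S]

theorem trace_ST : ((ModularGroup.S * ModularGroup.T : SL(2, ℤ)) :
    Matrix (Fin 2) (Fin 2) ℤ).trace = 1 := by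
  rw [Matrix.trace_fin_two, Matrix.SpecialLinearGroup.coe_mul]
  simp [ModularGroup.S, ModularGroup.T, Matrix.mul_apply, Fin.sum_univ_two]

/-- no conjugate of `S` lies in `±Γ₁(M)`, `4 ≤ M`. -/
theorem S_conj_not_mem_PG1 (hM : 4 ≤ M) (g : SL(2, ℤ)) : g⁻¹ * ModularGroup.S * g ∉ PG1 M := by
  intro h
  have hM' : (4 : ℤ) ≤ M := by exact_mod_cast hM
  rcases trace_of_mem_PG1 h with h1 | h1
  · rw [trace_conj, trace_S] at h1
    have := Int.le_of_dvd (by norm_num) ((dvd_neg).mp (by simpa using h1) : (M : ℤ) ∣ 2)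
    omega
  · rw [trace_conj, trace_S] at h1
    have := Int.le_of_dvd (by norm_num) (by simpa using h1 : (M : ℤ) ∣ 2)
    omega

/-- no conjugate of `S T` lies in `±Γ₁(M)`, `4 ≤ M`. -/
theorem ST_conj_not_mem_PG1 (hM : 4 ≤ M) (g : SL(2, ℤ)) :
    g⁻¹ * (ModularGroup.S * ModularGroup.T) * g ∉ PG1 M := by
  intro h
  have hM' : (4 : ℤ) ≤ M := by exact_mod_cast hM
  rcases trace_of_mem_PG1 h with h1 | h1
  · rw [trace_conj, trace_ST] at h1
    have h2 : (M : ℤ) ∣ 1 := by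
      have : (1 : ℤ) - 2 = -1 := by norm_num
      rw [this] at h1
      exact (dvd_neg).mp h1
    have := Int.le_of_dvd (by norm_num) h2
    omega
  · rw [trace_conj, trace_ST] at h1
    have h2 : (M : ℤ) ∣ 3 := by
      have : (1 : ℤ) + 2 = 3 := by norm_num
      rwa [this] at h1
    have := Int.le_of_dvd (by norm_num) h2
    omega

end Trace

variable {M : ℕ} [NeZero M] (hW : WAnalytic M)

/-! ### point places on cosets of `±Γ₁(M)` -/

/-- The statement of `KumCSurj13`: every place over `j = j(z₀)` is a point place at `z₀`. -/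
def PointSurj1 : Prop :=
  ∀ (v : Place ℂ (FC1 M)) (z₀ : ℍ), 0 < v.ord (jC1 M - algebraMap ℂ (FC1 M) (jFun z₀)) →
    ∃ g : SL(2, ℤ), v = ptPlaceC1 hW g z₀

theorem exists_mul_of_mk_eq1 {g g' : SL(2, ℤ)}
    (h : (QuotientGroup.mk g : SL(2, ℤ) ⧸ PG1 M) = QuotientGroup.mk g') :
    ∃ γ ∈ PG1 M, g' = g * γ := by
  refine ⟨g⁻¹ * g', QuotientGroup.eq.mp h, ?_⟩
  group

theorem ptPlaceC1_of_mk_eq {g g' : SL(2, ℤ)}
    (h : (QuotientGroup.mk g : SL(2, ℤ) ⧸ PG1 M) = QuotientGroup.mk g') (z₀ : ℍ) :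
    ptPlaceC1 hW g' z₀ = ptPlaceC1 hW g z₀ := by
  obtain ⟨γ, hγ, rfl⟩ := exists_mul_of_mk_eq1 h
  exact ptPlaceC1_mul_of_mem_PG1 hW g γ hγ z₀

theorem ptIdx1_of_mk_eq {g g' : SL(2, ℤ)}
    (h : (QuotientGroup.mk g : SL(2, ℤ) ⧸ PG1 M) = QuotientGroup.mk g') (z₀ : ℍ) :
    ptIdx1 hW g' z₀ = ptIdx1 hW g z₀ := by
  obtain ⟨γ, hγ, rfl⟩ := exists_mul_of_mk_eq1 h
  exact ptIdx1_mul_of_mem_PG1 hW g γ hγ z₀

theorem neg_one_mem_PG1 : (-1 : SL(2, ℤ)) ∈ PG1 M :=
  (mem_PG1_iff M).mpr (Or.inr (by rw [neg_neg]; exact Subgroup.one_mem _))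

theorem neg_one_smul_quot1 (x : SL(2, ℤ) ⧸ PG1 M) : (-1 : SL(2, ℤ)) • x = x := by
  induction x using QuotientGroup.induction_on with
  | H g =>
    rw [MulAction.Quotient.smul_mk, QuotientGroup.eq, smul_eq_mul]
    have : (-1 * g)⁻¹ * g = -1 := by
      rw [neg_mul, one_mul, inv_neg, neg_mul, inv_mul_cancel]
    rw [this]
    exact neg_one_mem_PG1

/-- `ptPlaceC1 (ε g) z* = ptPlaceC1 g z*` when `ε` fixes `z*`. -/
theorem ptPlaceC1_mul_left_of_fixed (ε g : SL(2, ℤ)) (z₀ : ℍ) (hε : ε • z₀ = z₀) :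
    ptPlaceC1 hW (ε * g) z₀ = ptPlaceC1 hW g z₀ := by
  conv_lhs => rw [← hε]
  exact ptPlaceC1_smul hW ε g z₀

/-! ### the sandwich at an elliptic base point -/

open Classical in
/-- **Exact index at an elliptic base point**: `ε` fixes `z*`, has order `e₀ ∈ {2, 3}` in
`PSL(2, ℤ)`, `ellOrder z* = e₀`, and no conjugate of `ε` lies in `±Γ₁(M)`.  Then
`ptIdx1 hW g z* = 1` for every `g`. -/
theorem ptIdx1_eq_one_of_free (hgen : FF.IsGen ℂ (jC1 M))
    (hdeg : Module.finrank ↥(IntermediateField.adjoin ℂ {jC1 M}) (FC1 M)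
      = Nat.card (SL(2, ℤ) ⧸ PG1 M))
    (hsurj : PointSurj1 hW) (zs : ℍ) (ε : SL(2, ℤ)) (e₀ : ℕ)
    (he₀ : e₀ = 2 ∨ e₀ = 3) (hfix : ε • zs = zs) (hpow : ε ^ e₀ = -1) (hell : ellOrder zs = e₀)
    (hfree : ∀ g : SL(2, ℤ), g⁻¹ * ε * g ∉ PG1 M)
    (g : SL(2, ℤ)) : ptIdx1 hW g zs = 1 := by
  have hfin : Finite (SL(2, ℤ) ⧸ PG1 M) := by
    apply Nat.finite_of_card_ne_zero
    rw [← hdeg]
    have := hgen.finite
    exact Module.finrank_pos.ne'
  let _ : Fintype (SL(2, ℤ) ⧸ PG1 M) := Fintype.ofFinite _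
  set c : ℂ := jFun zs with hc
  set X := SL(2, ℤ) ⧸ PG1 M
  let P : X → Place ℂ (FC1 M) := fun x => ptPlaceC1 hW x.out zs
  let idx : X → ℕ := fun x => ptIdx1 hW x.out zs
  let d : Place ℂ (FC1 M) → ℕ := fun v => (v.ord (jC1 M - algebraMap ℂ (FC1 M) c)).toNat
  have hPmk : ∀ g' : SL(2, ℤ), P (QuotientGroup.mk g') = ptPlaceC1 hW g' zs := fun g' =>
    ptPlaceC1_of_mk_eq hW (QuotientGroup.out_eq' _).symm zs
  have hidxmk : ∀ g' : SL(2, ℤ), idx (QuotientGroup.mk g') = ptIdx1 hW g' zs := fun g' =>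
    ptIdx1_of_mk_eq hW (QuotientGroup.out_eq' _).symm zs
  have hPε : ∀ x : X, P (ε • x) = P x := by
    intro x
    induction x using QuotientGroup.induction_on with
    | H g' =>
      rw [MulAction.Quotient.smul_mk, hPmk, hPmk]
      exact ptPlaceC1_mul_left_of_fixed hW ε g' zs hfix
  have hidx : ∀ x : X, idx x * d (P x) = e₀ := by
    intro x
    have h1 := ptIdx1_mul_ord_jC1_sub hW x.out zs
    have h2 := ord_jC1_sub_pos hW x.out zs
    rw [hell] at h1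
    have h3 : ((d (P x) : ℕ) : ℤ) = (ptPlaceC1 hW x.out zs).ord
        (jC1 M - algebraMap ℂ (FC1 M) (jFun zs)) := Int.toNat_of_nonneg h2.le
    have : ((idx x * d (P x) : ℕ) : ℤ) = (e₀ : ℤ) := by
      push_cast
      rw [h3]
      exact h1
    exact_mod_cast this
  have hsum : ∑ v ∈ Finset.univ.image P, d v = Fintype.card X := by
    have h1 := FF.sum_ord_fibre hgen c
    rw [hdeg, Nat.card_eq_fintype_card] at h1
    have hset : {v : Place ℂ (FC1 M) | 0 < v.ord (jC1 M - algebraMap ℂ (FC1 M) c)}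
        = ↑(Finset.univ.image P) := by
      ext v
      simp only [Set.mem_ofPred_eq, Finset.coe_image, Finset.coe_univ, Set.image_univ,
        Set.mem_range]
      constructor
      · intro hv
        obtain ⟨g', rfl⟩ := hsurj v zs hv
        exact ⟨QuotientGroup.mk g', hPmk g'⟩
      · rintro ⟨x, rfl⟩
        exact ord_jC1_sub_pos hW x.out zs
    have h2 : ∑ᶠ (v : Place ℂ (FC1 M)) (_ : 0 < v.ord (jC1 M - algebraMap ℂ (FC1 M) c)),
        v.ord (jC1 M - algebraMap ℂ (FC1 M) c)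
        = ∑ v ∈ Finset.univ.image P, v.ord (jC1 M - algebraMap ℂ (FC1 M) c) := by
      have : ∑ᶠ (v : Place ℂ (FC1 M)) (_ : 0 < v.ord (jC1 M - algebraMap ℂ (FC1 M) c)),
          v.ord (jC1 M - algebraMap ℂ (FC1 M) c)
          = ∑ᶠ (v : Place ℂ (FC1 M)) (_ : v ∈ (↑(Finset.univ.image P) : Set (Place ℂ (FC1 M)))),
            v.ord (jC1 M - algebraMap ℂ (FC1 M) c) := by
        refine finsum_congr fun v => ?_
        have : (0 < v.ord (jC1 M - algebraMap ℂ (FC1 M) c))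
            = (v ∈ (↑(Finset.univ.image P) : Set (Place ℂ (FC1 M)))) := by
          rw [← hset]
          rfl
        rw [this]
      rw [this, finsum_mem_coe_finset]
    rw [h2] at h1
    have h3 : ∑ v ∈ Finset.univ.image P, v.ord (jC1 M - algebraMap ℂ (FC1 M) c)
        = ∑ v ∈ Finset.univ.image P, ((d v : ℕ) : ℤ) := by
      refine Finset.sum_congr rfl fun v hv => ?_
      have hv' : v ∈ (↑(Finset.univ.image P) : Set (Place ℂ (FC1 M))) := hv
      rw [← hset] at hv'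
      exact (Int.toNat_of_nonneg (le_of_lt hv')).symm
    rw [h3] at h1
    exact_mod_cast h1
  have hmove : ∀ x : X, ε • x ≠ x := by
    intro x hx
    induction x using QuotientGroup.induction_on with
    | H g' =>
      rw [MulAction.Quotient.smul_mk, QuotientGroup.eq, smul_eq_mul] at hx
      apply hfree g'
      have : g'⁻¹ * ε * g' = ((ε * g')⁻¹ * g')⁻¹ := by group
      rw [this]
      exact inv_mem hx
  have hmain := sandwich_idx (fun x : X => ε • x) (MulAction.injective ε) e₀ he₀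
    (fun x => by
      rw [smul_iterate, hpow]
      exact neg_one_smul_quot1 x)
    P hPε d idx hidx (fun x hx => absurd hx (hmove x))
    hsum (QuotientGroup.mk g) (hmove _)
  rw [← hidxmk]
  exact hmain

/-! ### All point indices are `1` -/

/-- **Exact point dictionary of `X₁(M)`, `4 ≤ M`: every index is `1`.** -/
theorem ptIdx1_eq_one (hM : 4 ≤ M) (hgen : FF.IsGen ℂ (jC1 M))
    (hdeg : Module.finrank ↥(IntermediateField.adjoin ℂ {jC1 M}) (FC1 M)
      = Nat.card (SL(2, ℤ) ⧸ PG1 M))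
    (hsurj : PointSurj1 hW) (g : SL(2, ℤ)) (z₀ : ℍ) : ptIdx1 hW g z₀ = 1 := by
  by_cases h3 : ∃ τ : SL(2, ℤ), τ • ptRho = z₀
  · obtain ⟨τ, rfl⟩ := h3
    have h1 : ptIdx1 hW g (τ • ptRho) = ptIdx1 hW (τ⁻¹ * g) ptRho := by
      have := ptIdx1_smul hW τ (τ⁻¹ * g) ptRho
      rwa [mul_inv_cancel_left] at this
    rw [h1]
    exact ptIdx1_eq_one_of_free hW hgen hdeg hsurj ptRho (ModularGroup.S * ModularGroup.T) 3
      (Or.inr rfl) ho_ST_smul_ptRho ST_cube_eq ellOrder_ptRho (ST_conj_not_mem_PG1 hM) _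
  by_cases h2 : ∃ τ : SL(2, ℤ), τ • ptI = z₀
  · obtain ⟨τ, rfl⟩ := h2
    have h1 : ptIdx1 hW g (τ • ptI) = ptIdx1 hW (τ⁻¹ * g) ptI := by
      have := ptIdx1_smul hW τ (τ⁻¹ * g) ptI
      rwa [mul_inv_cancel_left] at this
    rw [h1]
    exact ptIdx1_eq_one_of_free hW hgen hdeg hsurj ptI ModularGroup.S 2
      (Or.inl rfl) ho_S_smul_ptI S_sq_eq ellOrder_ptI (S_conj_not_mem_PG1 hM) _
  have h1 : ellOrder z₀ = 1 := by
    unfold ellOrder
    rw [if_neg h3, if_neg h2]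
  have := ptIdx1_dvd_ellOrder hW g z₀
  rw [h1, Nat.dvd_one] at this
  exact this

/-- **Exact point dictionary**: `ord_{z₀} (f ∘ g⁻¹) = ord_P f`. -/
theorem ordMer_embC1_eq (hM : 4 ≤ M) (hgen : FF.IsGen ℂ (jC1 M))
    (hdeg : Module.finrank ↥(IntermediateField.adjoin ℂ {jC1 M}) (FC1 M)
      = Nat.card (SL(2, ℤ) ⧸ PG1 M))
    (hsurj : PointSurj1 hW) (g : SL(2, ℤ)) (z₀ : ℍ) {f : FC1 M} (hf : f ≠ 0) :
    ordMer z₀ (embC1 hW g f) = (ptPlaceC1 hW g z₀).ord f := by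
  rw [ordMer_embC1 hW g z₀ hf, ptIdx1_eq_one hW hM hgen hdeg hsurj, Nat.cast_one, one_mul]

/-- **Exact point dictionary** for the realisation itself. -/
theorem ordMer_realMer1_eq (hM : 4 ≤ M) (hgen : FF.IsGen ℂ (jC1 M))
    (hdeg : Module.finrank ↥(IntermediateField.adjoin ℂ {jC1 M}) (FC1 M)
      = Nat.card (SL(2, ℤ) ⧸ PG1 M))
    (hsurj : PointSurj1 hW) (z₀ : ℍ) {f : FC1 M} (hf : f ≠ 0) :
    ordMer z₀ (realMer1 hW f) = (ptPlaceC1 hW 1 z₀).ord f :=
  ordMer_embC1_eq hW hM hgen hdeg hsurj 1 z₀ hf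

end Fermat.Agent.ES.R48.KumCExact5
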