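/-
Programme R (S48, Deligne–Serre), chapter GEOM, sub-chapter G5 KUM₁ (helper13): the twin of
`ES/KUM/CSurj25` (first half) for `X₁(M)` — **surjectivity at the finite points over `ℂ`**.
Every place `v` of `F₁,ℂ = FC1 M` with `0 ≤ v.ord j` is a point place `ptPlaceC1 hW 1 z` (`z ∈ ℍ`).

* (DISTINCT) over `ℂ`, in the analytic form consumed by the cusp side:
  `mem_PG1_of_compSL_realC1_eq : 3 ≤ M → (∀ u : RC1 M, Θ u ∘ γ = Θ u ∘ γ') → γ' γ⁻¹ ∈ ±Γ₁(M)`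
  (`Γ₀(M)` from main's `CSurj25.mem_Gamma0_of_compSL_jdFun_eq` applied to `j(M ·)`; the upper left
  entry from `W_1 ∘ δ = W_1`, the slash rule and `EisLead13.eq_or_eq_neg_of_wq_eq`, exactly as in
  helper14's `X1Distinct14` over `ℚbar`);
* `sigmaPt1`, `sigmaPt1_injective` : the embeddings `embC1 hW g`, `g` running over representatives of
  `SL(2, ℤ) ⧸ ±Γ₁(M)`, are pairwise distinct;
* with the degree input `hdeg : [F₁,ℂ : ℂ(j)] = #(SL(2, ℤ) ⧸ ±Γ₁(M))` (a HYPOTHESIS; G2's degree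
  transported to `ℂ` by helper25's `KumFieldL25`):
  `exists_comap_eq1`, `exists_ptPlaceC1_eq`, `exists_ptPlaceC1_eq_of_jFun_eq`,
  **`exists_ptPlaceC1_of_ord_jC1_nonneg`**;
* unconditional: `ptPlaceC1_eq_one`, `ptIdx1_eq_one`, `ptPlaceC1_ord_jC1_nonneg`.

The cusp half of `CSurj25.place_cases` lives with the cusp side of G5.
-/
import Fermat.Agent.ES.KUM.CSurj25
import Fermat.Agent.ES.R48.CPoint1_3
import Fermat.Agent.ES.R48.X1Distinct14

set_option autoImplicit false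
set_option linter.unusedSectionVars false

open ModularCurve UpperHalfPlane AlgebraicCurve IntermediateField
open scoped Topology Manifold MatrixGroups
open CongruenceSubgroup

noncomputable section

namespace Fermat.Agent.ES.R48.KumCSurj13

open Fermat.Agent.X0 Fermat.Agent.ES.KUM Fermat.Agent.X0.SurjPoint
open Fermat.Agent.ES.R48.FF1Defs13 Fermat.Agent.ES.R48.X1Iface13
  Fermat.Agent.ES.R48.CReal1_3 Fermat.Agent.ES.R48.CPoint1_3

variable {M : ℕ} [NeZero M] (hW : WAnalytic M)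

/-! ### DISTINCT, analytic form over `ℂ` -/

include hW in
/-- If `W_1 ∘ δ = W_1` (analytically) and `δ ∈ Γ₀(M)`, then `δ₀₀ ≡ ±1 (mod M)`. -/
theorem unit_eq_one_or_neg_one (hM : 3 ≤ M) (δ : SL(2, ℤ)) (hδ : δ ∈ Gamma0 M)
    (h : compSL (wFun M (((1 : (ZMod M)ˣ) : ZMod M))) δ = wFun M (((1 : (ZMod M)ˣ) : ZMod M))) :
    X1Distinct14.unitOfGamma0 M δ hδ = 1 ∨ X1Distinct14.unitOfGamma0 M δ hδ = -1 := by
  set a := X1Distinct14.unitOfGamma0 M δ hδ with ha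
  -- `W_a = W_1` as functions
  have h1 : wFun M ((a : (ZMod M)ˣ) : ZMod M) = wFun M (((1 : (ZMod M)ˣ) : ZMod M)) := by
    rw [← h]
    funext z
    show wFun M ((a : (ZMod M)ˣ) : ZMod M) z = wFun M (((1 : (ZMod M)ˣ) : ZMod M)) (δ • z)
    rw [hW.slash δ hδ, Units.val_one, one_mul, ha, X1Distinct14.coe_unitOfGamma0]
  -- hence as formal series
  have h2 := hW.hasQExp a
  rw [h1] at h2
  have h4 : coeffEmb ℂ (wq M ((a : (ZMod M)ˣ) : ZMod M))
      = coeffEmb ℂ (wq M (((1 : (ZMod M)ˣ) : ZMod M))) := h2.unique_left (hW.hasQExp 1)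
  have h5 : wq M (((1 : (ZMod M)ˣ) : ZMod M)) = wq M ((a : (ZMod M)ˣ) : ZMod M) :=
    ((coeffEmb ℂ).injective h4).symm
  have hu1 : ((1 : (ZMod M)ˣ) : ZMod M) + ((1 : (ZMod M)ˣ) : ZMod M) ≠ 0 :=
    EisLead13.add_self_ne_zero_of_isUnit hM (Units.isUnit 1)
  have hua : ((a : (ZMod M)ˣ) : ZMod M) + ((a : (ZMod M)ˣ) : ZMod M) ≠ 0 :=
    EisLead13.add_self_ne_zero_of_isUnit hM (Units.isUnit a)
  rcases EisLead13.eq_or_eq_neg_of_wq_eq hu1 hua h5 with h6 | h6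
  · left
    exact Units.ext h6
  · right
    apply Units.ext
    rw [h6, Units.val_neg]

/-- **DISTINCT for `X₁(M)` over `ℂ`, analytic form**: if `Θ u ∘ γ = Θ u ∘ γ'` for all
`u ∈ R₁,ℂ` then `γ' γ⁻¹ ∈ ±Γ₁(M)`.  (Only `u = j_M` and `u = W_1` are used.) -/
theorem mem_PG1_of_compSL_realC1_eq (hM : 3 ≤ M) (γ γ' : SL(2, ℤ))
    (h : ∀ u : RC1 M, compSL ((realC1 hW u : HolH) : ℍ → ℂ) γ =
      compSL ((realC1 hW u : HolH) : ℍ → ℂ) γ') :
    γ' * γ⁻¹ ∈ PG1 M := by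
  have h0 := h (jdRC1 M M (dvd_refl M))
  rw [realC1_jdRC1] at h0
  have hδ : γ' * γ⁻¹ ∈ Gamma0 M := CSurj25.mem_Gamma0_of_compSL_jdFun_eq M γ γ' h0
  have h1 := h (wRC1 M 1)
  rw [realC1_wRC1] at h1
  exact X1Distinct14.mem_PG1_of_unit M _ hδ
    (unit_eq_one_or_neg_one hW hM _ hδ (X1Distinct14.compSL_mul_inv_of_compSL_eq _ γ γ' h1))

/-! ### The embeddings indexed by the cosets of `±Γ₁(M)` -/

/-- `±Γ₁(M)` has finite index in `SL(2, ℤ)`. -/
theorem finite_quotient_PG1 (M : ℕ) [NeZero M] : Finite (SL(2, ℤ) ⧸ PG1 M) := by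
  have : (PG1 M).FiniteIndex := Subgroup.finiteIndex_of_le (Gamma1_le_PG1 M)
  infer_instance

/-- The embedding `F₁,ℂ → MerH` attached to a coset of `±Γ₁(M)`, via a representative. -/
def sigmaPt1 (x : SL(2, ℤ) ⧸ PG1 M) : FC1 M →+* MerH := embC1 hW (Quotient.out x)

/-- The embeddings `embC1 hW g`, `g` running over representatives of `SL(2, ℤ) ⧸ ±Γ₁(M)`, are
pairwise distinct. -/
theorem sigmaPt1_injective (hM : 3 ≤ M) : Function.Injective (sigmaPt1 hW) := by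
  intro x y hxy
  have h1 : ∀ u : RC1 M,
      compSL ((realC1 hW u : HolH) : ℍ → ℂ) (Quotient.out x)⁻¹ =
        compSL ((realC1 hW u : HolH) : ℍ → ℂ) (Quotient.out y)⁻¹ := by
    intro u
    have h2 : embC1 hW (Quotient.out x) (u : FC1 M) = embC1 hW (Quotient.out y) (u : FC1 M) :=
      congrArg (fun f : FC1 M →+* MerH => f (u : FC1 M)) hxy
    rw [embC1_coe, embC1_coe] at h2
    have h3 := IsFractionRing.injective HolH MerH h2
    rw [← coe_embRC1, ← coe_embRC1, h3]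
  have h4 := mem_PG1_of_compSL_realC1_eq hW hM _ _ h1
  rw [inv_inv] at h4
  have h5 : (QuotientGroup.mk (Quotient.out y) : SL(2, ℤ) ⧸ PG1 M)
      = QuotientGroup.mk (Quotient.out x) := QuotientGroup.eq.mpr h4
  have hx : (QuotientGroup.mk (Quotient.out x) : SL(2, ℤ) ⧸ PG1 M) = x := Quotient.out_eq' x
  have hy : (QuotientGroup.mk (Quotient.out y) : SL(2, ℤ) ⧸ PG1 M) = y := Quotient.out_eq' y
  rw [hx, hy] at h5
  exact h5.symm

/-- finite-dimensionality from the degree input. -/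
theorem finiteDimensional_jC1
    (hdeg : Module.finrank ℂ⟮jC1 M⟯ (FC1 M) = Nat.card (SL(2, ℤ) ⧸ PG1 M)) :
    FiniteDimensional ℂ⟮jC1 M⟯ (FC1 M) := by
  have := finite_quotient_PG1 M
  apply Module.finite_of_finrank_pos
  rw [hdeg]
  exact Nat.card_pos

/-! ### Surjectivity at the finite points -/

/-- **SURJ at finite points over `ℂ`, valuation-subring form.** -/
theorem exists_comap_eq1 (hM : 3 ≤ M)
    (hdeg : Module.finrank ℂ⟮jC1 M⟯ (FC1 M) = Nat.card (SL(2, ℤ) ⧸ PG1 M))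
    (z₀ : ℍ) (v : Place ℂ (FC1 M))
    (hv : 0 < v.ord (jC1 M - algebraMap ℂ (FC1 M) (jFun z₀))) :
    ∃ g : SL(2, ℤ), v.toValuationSubring = (valAt z₀).comap (embC1 hW g) := by
  have := finite_quotient_PG1 M
  have : FiniteDimensional ℂ⟮jC1 M⟯ (FC1 M) := finiteDimensional_jC1 hdeg
  have : Algebra.IsIntegral ℂ⟮jC1 M⟯ (FC1 M) := Algebra.IsIntegral.of_finite _ _
  have : Algebra.IsSeparable ℂ⟮jC1 M⟯ (FC1 M) := Algebra.IsSeparable.of_integral _ _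
  obtain ⟨x, hx⟩ := ValUniq.exists_eq_comap_of_sub_mem_nonunits (K := ℂ) (F := FC1 M) (E := MerH)
    (jC1 M) (sigmaPt1 hW) hdeg.symm (sigmaPt1_injective hW hM)
    (fun i j a => by rw [sigmaPt1, sigmaPt1, embC1_algebraMap, embC1_algebraMap])
    (fun i j => by rw [sigmaPt1, sigmaPt1, embC1_jC1, embC1_jC1])
    (valAt z₀)
    (fun i a => by
      rw [sigmaPt1, embC1_algebraMap]
      exact (isOrd_ordH z₀).algebraMap_mem_valuationSubring _)
    v.toValuationSubring v.algebraMap_mem' (jFun z₀)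
    (fun i => by
      rw [sigmaPt1, mem_nonunits_valAt_iff z₀ (embC1_ne_zero hW _ (jC1_sub_ne_zero hW _))]
      have h := ptOrdC1_jC1_sub hW (Quotient.out i) z₀
      unfold ptOrdC1 at h
      rw [h]
      exact_mod_cast Fermat.Agent.X0.JOrderMain.ellOrder_pos z₀)
    (by
      rw [ValuationSubring.mem_nonunits_iff_or]
      right
      rw [FF.ffp_mem_iff_ord_nonneg, v.ord_inv]
      omega)
  exact ⟨Quotient.out x, hx⟩

/-- **SURJ at finite points over `ℂ`**: every place over `j = j(z₀)` is a point place at `z₀`. -/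
theorem exists_ptPlaceC1_eq (hM : 3 ≤ M)
    (hdeg : Module.finrank ℂ⟮jC1 M⟯ (FC1 M) = Nat.card (SL(2, ℤ) ⧸ PG1 M))
    (z₀ : ℍ) (v : Place ℂ (FC1 M))
    (hv : 0 < v.ord (jC1 M - algebraMap ℂ (FC1 M) (jFun z₀))) :
    ∃ g : SL(2, ℤ), v = ptPlaceC1 hW g z₀ := by
  obtain ⟨g, hg⟩ := exists_comap_eq1 hW hM hdeg z₀ v hv
  exact ⟨g, eq_ptPlaceC1_of_comap hW hg⟩

/-- The same with the value of `j` as a parameter. -/
theorem exists_ptPlaceC1_eq_of_jFun_eq (hM : 3 ≤ M)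
    (hdeg : Module.finrank ℂ⟮jC1 M⟯ (FC1 M) = Nat.card (SL(2, ℤ) ⧸ PG1 M))
    (v : Place ℂ (FC1 M)) (c : ℂ)
    (hv : 0 < v.ord (jC1 M - algebraMap ℂ (FC1 M) c)) (z₀ : ℍ) (hz : jFun z₀ = c) :
    ∃ g : SL(2, ℤ), v = ptPlaceC1 hW g z₀ := by
  subst hz
  exact exists_ptPlaceC1_eq hW hM hdeg z₀ v hv

/-- Every point place is a point place with `g = 1`. -/
theorem ptPlaceC1_eq_one (g : SL(2, ℤ)) (z₀ : ℍ) :
    ptPlaceC1 hW g z₀ = ptPlaceC1 hW 1 (g⁻¹ • z₀) := by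
  have h := ptPlaceC1_smul hW g⁻¹ g z₀
  rw [inv_mul_cancel] at h
  exact h.symm

theorem ptIdx1_eq_one (g : SL(2, ℤ)) (z₀ : ℍ) : ptIdx1 hW g z₀ = ptIdx1 hW 1 (g⁻¹ • z₀) := by
  have h := ptIdx1_smul hW g⁻¹ g z₀
  rw [inv_mul_cancel] at h
  exact h.symm

/-- **Every place of `F₁,ℂ` which is not a pole of `j` is a point place.** -/
theorem exists_ptPlaceC1_of_ord_jC1_nonneg (hM : 3 ≤ M)
    (hdeg : Module.finrank ℂ⟮jC1 M⟯ (FC1 M) = Nat.card (SL(2, ℤ) ⧸ PG1 M))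
    (v : Place ℂ (FC1 M)) (hv : 0 ≤ v.ord (jC1 M)) :
    ∃ z : ℍ, v = ptPlaceC1 hW 1 z := by
  have : FiniteDimensional ℂ⟮jC1 M⟯ (FC1 M) := finiteDimensional_jC1 hdeg
  have halg : Algebra.IsAlgebraic ℂ⟮jC1 M⟯ (FC1 M) := Algebra.IsAlgebraic.of_finite _ _
  obtain ⟨c, hc | hc⟩ := FF.ffp_exists_ord_sub_pos v (jC1 M) halg (FF.ffp_mem_of_ord_nonneg v hv)
  · exact absurd (sub_eq_zero.mpr hc) (jC1_sub_ne_zero hW c)
  · obtain ⟨z₀, hz₀⟩ := jFun_surjective c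
    obtain ⟨g, hg⟩ := exists_ptPlaceC1_eq_of_jFun_eq hW hM hdeg v c hc z₀ hz₀
    exact ⟨g⁻¹ • z₀, by rw [hg, ptPlaceC1_eq_one]⟩

/-- A point place is not a pole of `j`. -/
theorem ptPlaceC1_ord_jC1_nonneg (g : SL(2, ℤ)) (z₀ : ℍ) :
    0 ≤ (ptPlaceC1 hW g z₀).ord (jC1 M) := by
  have h1 := ord_jC1_sub_pos hW g z₀
  have h2 : jC1 M - algebraMap ℂ (FC1 M) (jFun z₀) ∈ (ptPlaceC1 hW g z₀).toValuationSubring :=
    FF.ffp_mem_of_ord_nonneg _ h1.le
  have h3 : jC1 M ∈ (ptPlaceC1 hW g z₀).toValuationSubring := by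
    have := add_mem h2 ((ptPlaceC1 hW g z₀).algebraMap_mem' (jFun z₀))
    rwa [sub_add_cancel] at this
  exact FF.ffp_ord_nonneg_of_mem _ h3

/-- The classification of the places of `F₁,ℂ / ℂ`, point half: a place is a point place or a pole
of `j`. -/
theorem place_cases1 (hM : 3 ≤ M)
    (hdeg : Module.finrank ℂ⟮jC1 M⟯ (FC1 M) = Nat.card (SL(2, ℤ) ⧸ PG1 M))
    (v : Place ℂ (FC1 M)) :
    (∃ z : ℍ, v = ptPlaceC1 hW 1 z) ∨ v.ord (jC1 M) < 0 := by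
  by_cases h : 0 ≤ v.ord (jC1 M)
  · exact Or.inl (exists_ptPlaceC1_of_ord_jC1_nonneg hW hM hdeg v h)
  · exact Or.inr (not_le.mp h)

end Fermat.Agent.ES.R48.KumCSurj13
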