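/-
Programme R (S48, Deligne–Serre), chapter GEOM / G5 KUM₁, cusp side (helper18): **cusp expansions over
`ℂ` for an arbitrary expansion setup** — the generic form of `ES/KUM/CCuspExpand16`.

`A` a domain over `ℂ` with fraction field `F`, `Γ ≤ SL(2, ℤ)`, `N ≥ 1`.  An *expansion setup*
`E : ExpSetup A F Γ N` is an injective ring homomorphism `real : A →+* HolH` (the analytic realization
of the ring `A = ℂ[generators]`), the identity on constants, with `Γ`-invariant values, such that every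
`real u ∘ γ` (`γ ∈ SL(2, ℤ)`) has a `q_N`-expansion, together with an element `j : A` realized by the
`j`-function.  For `γ ∈ SL(2, ℤ)`:

* `cuspEmb E γ : F →+* ℂ((q))` (`T_γ`, the `q_N`-expansion of `f ∘ γ`), `cuspEmb_spec`,
  `cuspEmb_eq_of_isQExp`, `cuspEmb_algebraMap`, `cuspEmb_j` (`T_γ j = j(q^N)`), `order_cuspEmb_j`;
* `cuspEmb_mul_left` : `T_{δ γ} = T_γ` for `δ ∈ Γ`;
* `cuspEmb_mul_T`, `cuspEmb_mul_T_coeff`, `cuspEmb_mul_T_pow_coeff` : `T_{γ T}` is `T_γ` twisted by
  `q ↦ ζ_N q`;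
* `cuspEmb_width`, `dvd_order_cuspEmb` : if `γ T^w γ⁻¹ ∈ Γ`, `0 < w ∣ N`, then `T_γ f` is a series in
  `q^{N/w}`; `order_cuspEmb_mul_T`;
* `realMer E : F →+* MerH`, the realization of `F`, `slMer_realMer_of_mem`, and the glue
  `cuspEmb_eq_div_of_isQExp`.
-/
import Fermat.Agent.ES.KUM.CCuspExpand16

set_option autoImplicit false
set_option linter.unusedSectionVars false

open ModularCurve HahnSeries UpperHalfPlane
open scoped Topology Manifold MatrixGroups

noncomputable section

namespace Fermat.Agent.ES.R48.KumCuspExp18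

open Fermat.Agent.X0 Fermat.Agent.ES.KUM Fermat.Agent.X0.SurjPoint

/-- **An expansion setup**: the analytic realization of a ring of generators `A` of the function
field `F = Frac A`, invariant under `Γ`, with `q_N`-expansions at all cusps. -/
structure ExpSetup (A F : Type) [CommRing A] [Field F] [Algebra A F] [IsFractionRing A F]
    [Algebra ℂ A] [Algebra ℂ F] [IsScalarTower ℂ A F] (Γ : Subgroup SL(2, ℤ)) (N : ℕ) where
  /-- the realization -/
  real : A →+* HolH
  real_injective : Function.Injective real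
  real_algebraMap : ∀ c : ℂ, real (algebraMap ℂ A c) = algebraMap ℂ HolH c
  real_invariant : ∀ (u : A) (γ : SL(2, ℤ)), γ ∈ Γ →
    compSL ((real u : HolH) : ℍ → ℂ) γ = ((real u : HolH) : ℍ → ℂ)
  exists_exp : ∀ (γ : SL(2, ℤ)) (u : A), ∃ (m : ℕ) (P : PowerSeries ℂ),
    IsQExp N (compSL ((real u : HolH) : ℍ → ℂ) γ) m P
  /-- the `j`-invariant -/
  j : A
  real_j : ((real j : HolH) : ℍ → ℂ) = jFun

variable {A F : Type} [CommRing A] [IsDomain A] [Field F] [Algebra A F] [IsFractionRing A F]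
  [Algebra ℂ A] [Algebra ℂ F] [IsScalarTower ℂ A F] {Γ : Subgroup SL(2, ℤ)} {N : ℕ} [NeZero N]
  (E : ExpSetup A F Γ N) (γ : SL(2, ℤ))

theorem real_algebraMap_fun (c : ℂ) :
    ((E.real (algebraMap ℂ A c) : HolH) : ℍ → ℂ) = fun _ => c := by
  rw [E.real_algebraMap]
  rfl

/-- The pole order bound chosen for `u`. -/
def expM (u : A) : ℕ := (E.exists_exp γ u).choose

/-- The power series chosen for `u`. -/
def expP (u : A) : PowerSeries ℂ := (E.exists_exp γ u).choose_spec.choose

theorem isQExp_exp (u : A) :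
    IsQExp N (compSL ((E.real u : HolH) : ℍ → ℂ) γ) (expM E γ u) (expP E γ u) :=
  (E.exists_exp γ u).choose_spec.choose_spec

/-- The `q_N`-expansion of `real u ∘ γ` as a Laurent series. -/
def cuspR (u : A) : LaurentSeries ℂ := laurentOf (expM E γ u) (expP E γ u)

/-- Any expansion datum computes `cuspR`. -/
theorem cuspR_eq (u : A) {m : ℕ} {P : PowerSeries ℂ}
    (h : IsQExp N (compSL ((E.real u : HolH) : ℍ → ℂ) γ) m P) : cuspR E γ u = laurentOf m P :=
  (isQExp_exp E γ u).unique h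

theorem cuspR_add (u v : A) : cuspR E γ (u + v) = cuspR E γ u + cuspR E γ v := by
  have h := (isQExp_exp E γ u).add (isQExp_exp E γ v)
  have h' : IsQExp N (compSL ((E.real (u + v) : HolH) : ℍ → ℂ) γ) (expM E γ u + expM E γ v)
      (PowerSeries.X ^ expM E γ v * expP E γ u + PowerSeries.X ^ expM E γ u * expP E γ v) := by
    rw [map_add]
    exact h
  rw [cuspR_eq E γ (u + v) h', cuspR, cuspR, laurentOf_add, laurentOf_shift]
  conv_lhs => rw [add_comm (expM E γ u) (expM E γ v), laurentOf_shift]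

theorem cuspR_mul (u v : A) : cuspR E γ (u * v) = cuspR E γ u * cuspR E γ v := by
  have h := (isQExp_exp E γ u).mul (isQExp_exp E γ v)
  have h' : IsQExp N (compSL ((E.real (u * v) : HolH) : ℍ → ℂ) γ) (expM E γ u + expM E γ v)
      (expP E γ u * expP E γ v) := by
    rw [map_mul]
    exact h
  rw [cuspR_eq E γ (u * v) h', cuspR, cuspR, laurentOf_mul]

theorem cuspR_algebraMap (c : ℂ) : cuspR E γ (algebraMap ℂ A c) = HahnSeries.C c := by
  have h : IsQExp N (compSL ((E.real (algebraMap ℂ A c) : HolH) : ℍ → ℂ) γ) 0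
      (PowerSeries.C c) := by
    rw [real_algebraMap_fun, compSL_const]
    exact isQExp_const N c
  rw [cuspR_eq E γ _ h, laurentOf_zero_left, HahnSeries.ofPowerSeries_C]

theorem cuspR_one : cuspR E γ 1 = 1 := by
  have := cuspR_algebraMap E γ 1
  rwa [map_one, map_one] at this

theorem cuspR_zero : cuspR E γ 0 = 0 := by
  have := cuspR_algebraMap E γ 0
  rwa [map_zero, map_zero] at this

/-- The expansion map on `A` as a ring hom. -/
def cuspRHom : A →+* LaurentSeries ℂ where
  toFun := cuspR E γ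
  map_one' := cuspR_one E γ
  map_mul' := cuspR_mul E γ
  map_zero' := cuspR_zero E γ
  map_add' := cuspR_add E γ

@[simp] theorem cuspRHom_apply (u : A) : cuspRHom E γ u = cuspR E γ u := rfl

theorem cuspRHom_injective : Function.Injective (cuspRHom E γ) := by
  rw [injective_iff_map_eq_zero]
  intro u hu
  have hP := isQExp_exp E γ u
  have h0 : expP E γ u = 0 := by
    have h1 : laurentOf (expM E γ u) (expP E γ u) = 0 := hu
    rwa [laurentOf_eq_zero_iff] at h1
  have h2 : compSL ((E.real u : HolH) : ℍ → ℂ) γ = 0 := hP.eq_zero_iff.mpr h0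
  have h3 : ((E.real u : HolH) : ℍ → ℂ) = 0 := by
    funext z
    have := congrFun h2 (γ⁻¹ • z)
    simpa [compSL] using this
  apply E.real_injective
  rw [map_zero]
  exact Subtype.ext h3

/-- **The cusp expansion** `T_γ : F → ℂ((q_N))`. -/
def cuspEmb : F →+* LaurentSeries ℂ :=
  IsFractionRing.lift (A := A) (K := F) (g := cuspRHom E γ) (cuspRHom_injective E γ)

theorem cuspEmb_coe (u : A) : cuspEmb E γ (algebraMap A F u) = cuspR E γ u :=
  IsFractionRing.lift_algebraMap (A := A) (K := F) (cuspRHom_injective E γ) u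

/-- `T_γ u` is computed by ANY `q_N`-expansion datum of `real u ∘ γ`. -/
theorem cuspEmb_eq_of_isQExp (u : A) {m : ℕ} {P : PowerSeries ℂ}
    (h : IsQExp N (compSL ((E.real u : HolH) : ℍ → ℂ) γ) m P) :
    cuspEmb E γ (algebraMap A F u) = laurentOf m P := by
  rw [cuspEmb_coe, cuspR_eq E γ u h]

theorem cuspEmb_spec (u : A) :
    ∃ (m : ℕ) (P : PowerSeries ℂ), IsQExp N (compSL ((E.real u : HolH) : ℍ → ℂ) γ) m P ∧
      cuspEmb E γ (algebraMap A F u) = laurentOf m P :=
  ⟨_, _, isQExp_exp E γ u, cuspEmb_coe E γ u⟩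

/-- Value on constants. -/
theorem cuspEmb_algebraMap (c : ℂ) : cuspEmb E γ (algebraMap ℂ F c) = HahnSeries.C c := by
  rw [IsScalarTower.algebraMap_apply ℂ A F, cuspEmb_coe, cuspR_algebraMap]

theorem cuspEmb_injective : Function.Injective (cuspEmb E γ) := (cuspEmb E γ).injective

theorem cuspEmb_ne_zero {f : F} (hf : f ≠ 0) : cuspEmb E γ f ≠ 0 :=
  fun h => hf (cuspEmb_injective E γ (by rw [h, map_zero]))

omit [Algebra ℂ A] [Algebra ℂ F] [IsScalarTower ℂ A F] in
/-- every element of `F` is a quotient of elements of `A`. -/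
theorem exists_div (y : F) : ∃ r s : A, s ≠ 0 ∧ y = algebraMap A F r / algebraMap A F s := by
  obtain ⟨r, s, hs, rfl⟩ := IsFractionRing.div_surjective (A := A) y
  exact ⟨r, s, nonZeroDivisors.ne_zero hs, rfl⟩

omit [Algebra ℂ A] [Algebra ℂ F] [IsScalarTower ℂ A F] in
/-- Two ring homs out of `F` into a field which agree on `A` are equal. -/
theorem ringHom_ext_A {L : Type*} [Field L] {φ ψ : F →+* L}
    (h : ∀ u : A, φ (algebraMap A F u) = ψ (algebraMap A F u)) : φ = ψ := by
  ext y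
  obtain ⟨r, s, -, rfl⟩ := exists_div (A := A) y
  rw [map_div₀, map_div₀, h r, h s]

/-! ### The value on `j` -/

theorem laurentOf_one_jNumC : laurentOf 1 jNumC = jqModC ℂ := by
  rw [← coeffEmbC_jq]
  have h1 : (jq : LaurentSeries ℚ) = laurentOf 1 ModularCurve.jNumQ := by
    rw [laurentOf, jq]
    rfl
  rw [h1]
  ext k
  rw [coeffEmb_coeff, laurentOf_coeff, laurentOf_coeff]
  split_ifs
  · rw [jNumC, PowerSeries.coeff_map]
  · rw [map_zero]

/-- `T_γ j = j(q^N)`. -/
theorem cuspEmb_j : cuspEmb E γ (algebraMap A F E.j) = qExpand ℂ N (jqModC ℂ) := by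
  have hfun : compSL ((E.real E.j : HolH) : ℍ → ℂ) γ = jFun := by
    rw [E.real_j]
    funext z
    exact jFun_smul γ z
  have h1 : IsQExp N (compSL ((E.real E.j : HolH) : ℍ → ℂ) γ) (N * 1)
      (jNumC.expand N (NeZero.ne N)) := by
    rw [hfun]
    exact CuspGood.isQExp_level isQExp_jFun_C
  rw [cuspEmb_eq_of_isQExp E γ E.j h1, ← laurentOf_one_jNumC, qExpand_laurentOf, mul_comm]

theorem order_cuspEmb_j : (cuspEmb E γ (algebraMap A F E.j)).order = -(N : ℤ) := by
  rw [cuspEmb_j]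
  have hN : (0 : ℤ) < N := by exact_mod_cast Nat.pos_of_ne_zero (NeZero.ne N)
  have hm1 : (jqModC ℂ).coeff (-1) = 1 := by
    rw [← coeffEmbC_jq, coeffEmb_coeff, coeff_jq_neg_one, map_one]
  have hlt : ∀ k : ℤ, k < -1 → (jqModC ℂ).coeff k = 0 := by
    intro k hk
    rw [← coeffEmbC_jq, coeffEmb_coeff, coeff_jq_of_lt hk, map_zero]
  have h1 : (qExpand ℂ N (jqModC ℂ)).coeff (-(N : ℤ)) = 1 := by
    have := qExpand_coeff_mul (R := ℂ) N (jqModC ℂ) (-1)
    rw [mul_neg_one] at this
    rw [this, hm1]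
  have hne : qExpand ℂ N (jqModC ℂ) ≠ 0 := by
    intro h
    rw [h] at h1
    simp at h1
  apply le_antisymm
  · exact HahnSeries.order_le_of_coeff_ne_zero (by rw [h1]; exact one_ne_zero)
  · rw [HahnSeries.le_order_iff_forall hne]
    intro k hk
    by_cases hd : (N : ℤ) ∣ k
    · obtain ⟨m, rfl⟩ := hd
      rw [qExpand_coeff_mul]
      apply hlt
      by_contra hm
      have : -1 ≤ m := not_lt.mp hm
      nlinarith
    · exact qExpand_coeff_of_not_dvd N _ hd

theorem j_ne_zero : algebraMap A F E.j ≠ 0 := by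
  intro h
  have h1 := order_cuspEmb_j E 1
  rw [h, map_zero, HahnSeries.order_zero] at h1
  have hN : (0 : ℤ) < N := by exact_mod_cast Nat.pos_of_ne_zero (NeZero.ne N)
  omega

/-! ### Equivariance -/

/-- (4a) `T_{δ γ} = T_γ` for `δ ∈ Γ`. -/
theorem cuspEmb_mul_left (δ : SL(2, ℤ)) (hδ : δ ∈ Γ) :
    cuspEmb E (δ * γ) = cuspEmb E γ := by
  apply ringHom_ext_A (A := A)
  intro u
  obtain ⟨m, P, hP, hT⟩ := cuspEmb_spec E γ u
  rw [hT]
  apply cuspEmb_eq_of_isQExp
  have hfun : compSL ((E.real u : HolH) : ℍ → ℂ) (δ * γ) =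
      compSL ((E.real u : HolH) : ℍ → ℂ) γ := by
    funext z
    simp only [compSL]
    rw [mul_smul]
    exact congrFun (E.real_invariant u δ hδ) (γ • z)
  rw [hfun]
  exact hP

/-- (4b) `T_{γ T} = twist ζ_N ∘ T_γ`. -/
theorem cuspEmb_mul_T :
    cuspEmb E (γ * ModularGroup.T) =
      (CuspEquiv.twist (CCusp16.zetaN N) (CCusp16.zetaN_ne_zero N)).comp (cuspEmb E γ) := by
  apply ringHom_ext_A (A := A)
  intro u
  obtain ⟨m, P, hP, hT⟩ := cuspEmb_spec E γ u
  rw [RingHom.comp_apply, hT, CuspEquiv.twist_laurentOf]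
  apply cuspEmb_eq_of_isQExp
  have hfun : compSL ((E.real u : HolH) : ℍ → ℂ) (γ * ModularGroup.T)
      = fun z => compSL ((E.real u : HolH) : ℍ → ℂ) γ (ModularGroup.T • z) := by
    funext z
    simp only [compSL]
    rw [mul_smul]
  rw [hfun]
  exact CCusp16.isQExp_comp_TC N hP

/-- (4b), coefficientwise. -/
theorem cuspEmb_mul_T_coeff (f : F) (n : ℤ) :
    (cuspEmb E (γ * ModularGroup.T) f).coeff n =
      CCusp16.zetaN N ^ n * (cuspEmb E γ f).coeff n := by
  rw [cuspEmb_mul_T]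
  rfl

/-- (4b) for powers of `T`. -/
theorem cuspEmb_mul_T_pow_coeff (k : ℕ) (f : F) (n : ℤ) :
    (cuspEmb E (γ * ModularGroup.T ^ k) f).coeff n =
      (CCusp16.zetaN N ^ n) ^ k * (cuspEmb E γ f).coeff n := by
  induction k with
  | zero => simp
  | succ k ih =>
    rw [pow_succ, ← mul_assoc, cuspEmb_mul_T_coeff, ih, pow_succ]
    ring

/-- (5) WIDTH, general form. -/
theorem dvd_mul_of_coeff_ne_zero (w : ℕ)
    (h : γ * ModularGroup.T ^ w * γ⁻¹ ∈ Γ) (f : F) (n : ℤ)
    (hn : (cuspEmb E γ f).coeff n ≠ 0) : (N : ℤ) ∣ n * w := by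
  have h1 : cuspEmb E (γ * ModularGroup.T ^ w) = cuspEmb E γ := by
    have := cuspEmb_mul_left E γ (γ * ModularGroup.T ^ w * γ⁻¹) h
    rwa [inv_mul_cancel_right] at this
  have h2 := cuspEmb_mul_T_pow_coeff E γ w f n
  rw [h1] at h2
  have h3 : (CCusp16.zetaN N ^ n) ^ w = 1 := by
    have : ((CCusp16.zetaN N ^ n) ^ w - 1) * (cuspEmb E γ f).coeff n = 0 := by
      rw [sub_mul, one_mul, ← h2, sub_self]
    rcases mul_eq_zero.mp this with h' | h'
    · exact sub_eq_zero.mp h'
    · exact absurd h' hn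
  rw [← zpow_natCast, ← zpow_mul] at h3
  exact ((CCusp16.zetaN_isPrimitiveRoot N).zpow_eq_one_iff_dvd _).mp h3

/-- (5) WIDTH: if `γ T^w γ⁻¹ ∈ Γ` with `0 < w ∣ N`, then `T_γ f` is a series in `q_N^{N/w}`. -/
theorem cuspEmb_width (w : ℕ) (hw : 0 < w) (hwN : w ∣ N)
    (h : γ * ModularGroup.T ^ w * γ⁻¹ ∈ Γ) (f : F) (n : ℤ)
    (hn : (cuspEmb E γ f).coeff n ≠ 0) : ((N / w : ℕ) : ℤ) ∣ n := by
  have h1 := dvd_mul_of_coeff_ne_zero E γ w h f n hn
  obtain ⟨e, he⟩ := hwN
  have hNw : N / w = e := by rw [he, Nat.mul_div_cancel_left e hw]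
  rw [hNw]
  rw [he] at h1
  push_cast at h1
  have hw' : (w : ℤ) ≠ 0 := by exact_mod_cast hw.ne'
  rw [mul_comm n] at h1
  exact (mul_dvd_mul_iff_left hw').mp h1

/-! ### order forms -/

theorem order_cuspEmb_mul_T (f : F) :
    (cuspEmb E (γ * ModularGroup.T) f).order = (cuspEmb E γ f).order :=
  LaurentPlace.order_eq_of_coeff_eq_mul (fun n => CCusp16.zetaN N ^ n)
    (fun n => zpow_ne_zero n (CCusp16.zetaN_ne_zero N)) (cuspEmb_mul_T_coeff E γ f)

theorem order_cuspEmb_mul_T_zpow (k : ℤ) (f : F) :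
    (cuspEmb E (γ * ModularGroup.T ^ k) f).order = (cuspEmb E γ f).order := by
  induction k using Int.induction_on generalizing γ with
  | zero => simp
  | succ n ih =>
    rw [zpow_add_one, ← mul_assoc, order_cuspEmb_mul_T, ih]
  | pred n ih =>
    have := order_cuspEmb_mul_T E (γ * ModularGroup.T ^ (-(n : ℤ) - 1)) f
    rw [mul_assoc, ← zpow_add_one, sub_add_cancel, ih] at this
    exact this.symm

theorem dvd_order_cuspEmb (w : ℕ) (hw : 0 < w) (hwN : w ∣ N)
    (h : γ * ModularGroup.T ^ w * γ⁻¹ ∈ Γ) (f : F) (hf : f ≠ 0) :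
    ((N / w : ℕ) : ℤ) ∣ (cuspEmb E γ f).order := by
  apply cuspEmb_width E γ w hw hwN h f
  exact fun h0 => cuspEmb_ne_zero E γ hf (HahnSeries.coeff_order_eq_zero.mp h0)

/-! ### The realization of `F` in `MerH` -/

/-- `real` followed by `HolH → MerH` is injective. -/
theorem algebraMap_real_injective :
    Function.Injective ((algebraMap HolH MerH).comp E.real) :=
  (IsFractionRing.injective HolH MerH).comp E.real_injective

/-- **The realization** `F → MerH`. -/
def realMer : F →+* MerH :=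
  IsFractionRing.lift (A := A) (K := F) (g := (algebraMap HolH MerH).comp E.real)
    (algebraMap_real_injective E)

theorem realMer_coe (u : A) : realMer E (algebraMap A F u) = algebraMap HolH MerH (E.real u) :=
  IsFractionRing.lift_algebraMap (A := A) (K := F) (algebraMap_real_injective E) u

theorem realMer_algebraMap (c : ℂ) :
    realMer E (algebraMap ℂ F c) = algebraMap HolH MerH (algebraMap ℂ HolH c) := by
  rw [IsScalarTower.algebraMap_apply ℂ A F, realMer_coe, E.real_algebraMap]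

theorem compSLHom_real_of_mem (u : A) (δ : SL(2, ℤ)) (hδ : δ ∈ Γ) :
    compSLHom δ (E.real u) = E.real u :=
  Subtype.ext (E.real_invariant u δ hδ)

/-- `Γ`-invariance of the realization. -/
theorem slMer_realMer_of_mem (δ : SL(2, ℤ)) (hδ : δ ∈ Γ) (f : F) :
    slMer δ (realMer E f) = realMer E f := by
  obtain ⟨r, s, -, rfl⟩ := exists_div (A := A) f
  rw [map_div₀, realMer_coe, realMer_coe, slMer_div, compSLHom_real_of_mem E r δ hδ,
    compSLHom_real_of_mem E s δ hδ]

/-- **(GLUE)** If `(realMer f) ∘ g = a / b` with `a, b ∈ HolH`, `b ≠ 0`, having `q_N`-expansion data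
`(m, P)` and `(m', P')`, then the cusp expansion of `f` at `g` is `laurentOf m P / laurentOf m' P'`. -/
theorem cuspEmb_eq_div_of_isQExp (g : SL(2, ℤ)) (f : F) (a b : HolH) (hb : b ≠ 0)
    (hab : slMer g (realMer E f) = algebraMap HolH MerH a / algebraMap HolH MerH b)
    {m m' : ℕ} {P P' : PowerSeries ℂ}
    (ha : IsQExp N ((a : HolH) : ℍ → ℂ) m P) (hb' : IsQExp N ((b : HolH) : ℍ → ℂ) m' P') :
    cuspEmb E g f = laurentOf m P / laurentOf m' P' := by
  obtain ⟨u, s, hs, rfl⟩ := exists_div (A := A) f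
  obtain ⟨mu, Pu, hPu, hTu⟩ := cuspEmb_spec E g u
  obtain ⟨ms, Ps, hPs, hTs⟩ := cuspEmb_spec E g s
  have hs' : compSLHom g (E.real s) ≠ 0 := fun h0 => hs (by
    have h1 : compSLHom g (E.real s) = compSLHom g 0 := by rw [h0, map_zero]
    have h2 : E.real s = 0 := compSLHom_injective g h1
    exact E.real_injective (by rw [h2, map_zero]))
  have hsM : algebraMap HolH MerH (compSLHom g (E.real s)) ≠ 0 := fun h0 =>
    hs' (IsFractionRing.injective HolH MerH (by rw [h0, map_zero]))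
  have hbM : algebraMap HolH MerH b ≠ 0 := fun h0 =>
    hb (IsFractionRing.injective HolH MerH (by rw [h0, map_zero]))
  rw [map_div₀, realMer_coe, realMer_coe, slMer_div] at hab
  have hcross : compSLHom g (E.real u) * b = a * compSLHom g (E.real s) := by
    apply IsFractionRing.injective HolH MerH
    rw [map_mul, map_mul]
    field_simp at hab
    rw [hab, mul_comm]
  have hfun : compSL ((E.real u : HolH) : ℍ → ℂ) g * ((b : HolH) : ℍ → ℂ) =
      ((a : HolH) : ℍ → ℂ) * compSL ((E.real s : HolH) : ℍ → ℂ) g :=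
    congrArg (fun x : HolH => (x : ℍ → ℂ)) hcross
  have h1 := hPu.mul hb'
  have h2 := ha.mul hPs
  rw [hfun] at h1
  have hL := h1.unique h2
  rw [laurentOf_mul, laurentOf_mul] at hL
  have hP'0 : laurentOf m' P' ≠ 0 := by
    rw [Ne, laurentOf_eq_zero_iff]
    intro h0
    apply hb
    apply Subtype.ext
    exact hb'.eq_zero_iff.mpr h0
  have hs0 : algebraMap A F s ≠ 0 := fun h0 =>
    hs ((IsFractionRing.injective A F) (by rw [h0, map_zero]))
  have hTs0 : cuspEmb E g (algebraMap A F s) ≠ 0 := cuspEmb_ne_zero E g hs0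
  rw [map_div₀, hTu, hTs, div_eq_div_iff (hTs ▸ hTs0) hP'0]
  exact hL

end Fermat.Agent.ES.R48.KumCuspExp18
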