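/-
Programme R (S48, Deligne–Serre), chapter GEOM / G5 KUM₁, cusp side (helper18): **the cusp places of
`F`** for an arbitrary expansion setup — the generic form of `ES/KUM/CCuspPlaces16`.

`E : KumCuspExp18.ExpSetup A F Γ N`, `T_γ = cuspEmb E γ : F →+* ℂ((q))`.  Write `jF E` for `j ∈ F`.

* `cuspPlace E g : Place ℂ F` has order function `f ↦ (T_{g⁻¹} f).order` up to the positive index
  `cuspIdx E g`:  `order_cuspEmb : (T_{g⁻¹} f).order = cuspIdx E g * (cuspPlace E g).ord f`;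
* `cuspIdx_mul_ord_j : cuspIdx * ord j = -N`, `cuspPlace_ord_j_neg : ord j < 0`;
* invariances: `cuspPlace_mul_right` (`g ↦ g δ`, `δ ∈ Γ`), `cuspPlace_T_zpow_mul` (`g ↦ T^k g`), with the
  indices;
* width: `dvd_cuspIdx`, and `cuspPlaceX_neg_ord_j_dvd` (`-ord j` divides the size of the `⟨T⟩`-orbit
  of the coset), under (WIDTH-N) `∀ g, g⁻¹ T^N g ∈ Γ`;
* coset form `cuspPlaceX E : SL(2, ℤ) ⧸ Γ → Place ℂ F`.
-/
import Fermat.Agent.ES.R48.KumCuspExp18
import Fermat.Agent.ES.KUM.CCuspPlaces16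

set_option autoImplicit false
set_option linter.unusedSectionVars false

open ModularCurve HahnSeries UpperHalfPlane AlgebraicCurve
open scoped Topology Manifold MatrixGroups
open MulAction Subgroup

noncomputable section

namespace Fermat.Agent.ES.R48.KumCuspPlaces18

open Fermat.Agent.X0 Fermat.Agent.ES.KUM Fermat.Agent.ES.R48.KumCuspExp18

variable {A F : Type} [CommRing A] [IsDomain A] [Field F] [Algebra A F] [IsFractionRing A F]
  [Algebra ℂ A] [Algebra ℂ F] [IsScalarTower ℂ A F] {Γ : Subgroup SL(2, ℤ)} {N : ℕ} [NeZero N]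
  (E : ExpSetup A F Γ N)

/-- `j` as an element of `F`. -/
def jF : F := algebraMap A F E.j

theorem jF_ne_zero : jF E ≠ 0 := j_ne_zero E

theorem order_cuspEmb_jF (γ : SL(2, ℤ)) : (cuspEmb E γ (jF E)).order = -(N : ℤ) :=
  order_cuspEmb_j E γ

theorem cuspEmb_nontrivial (γ : SL(2, ℤ)) : ∃ f : F, f ≠ 0 ∧ (cuspEmb E γ f).order ≠ 0 := by
  refine ⟨jF E, jF_ne_zero E, ?_⟩
  rw [order_cuspEmb_jF]
  have hN : (0 : ℤ) < N := by exact_mod_cast Nat.pos_of_ne_zero (NeZero.ne N)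
  omega

/-! ### The places over `∞` -/

/-- The place of `F` attached to `g : SL(2, ℤ)`: order function `f ↦ (T_{g⁻¹} f).order`. -/
def cuspPlace (g : SL(2, ℤ)) : Place ℂ F :=
  LaurentPlace.embPlace (cuspEmb E g⁻¹) (cuspEmb_algebraMap E g⁻¹) (cuspEmb_nontrivial E g⁻¹)

theorem mem_cuspPlace_iff (g : SL(2, ℤ)) {f : F} (hf : f ≠ 0) :
    f ∈ (cuspPlace E g).toValuationSubring ↔ 0 ≤ (cuspEmb E g⁻¹ f).order :=
  LaurentPlace.mem_embPlace_iff _ _ _ hf

theorem exists_cuspIdx (g : SL(2, ℤ)) :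
    ∃ m : ℕ, 0 < m ∧ ∀ f : F, f ≠ 0 →
      (cuspEmb E g⁻¹ f).order = m * (cuspPlace E g).ord f :=
  LaurentPlace.embPlace_spec (cuspEmb E g⁻¹) (cuspEmb_algebraMap E g⁻¹)
    (cuspEmb_nontrivial E g⁻¹)

/-- The index of the cusp place: `ord_{q_N} (f ∘ g⁻¹) = cuspIdx * ord_v f`. -/
def cuspIdx (g : SL(2, ℤ)) : ℕ := (exists_cuspIdx E g).choose

theorem cuspIdx_pos (g : SL(2, ℤ)) : 0 < cuspIdx E g := (exists_cuspIdx E g).choose_spec.1

/-- **The multiplicity relation.** -/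
theorem order_cuspEmb (g : SL(2, ℤ)) {f : F} (hf : f ≠ 0) :
    (cuspEmb E g⁻¹ f).order = cuspIdx E g * (cuspPlace E g).ord f :=
  (exists_cuspIdx E g).choose_spec.2 f hf

theorem cuspIdx_mul_ord_j (g : SL(2, ℤ)) :
    (cuspIdx E g : ℤ) * (cuspPlace E g).ord (jF E) = -(N : ℤ) := by
  rw [← order_cuspEmb E g (jF_ne_zero E), order_cuspEmb_jF]

theorem eq_cuspPlace_of_spec (g : SL(2, ℤ)) (v : Place ℂ F) {m : ℕ} (hm : 0 < m)
    (h : ∀ f : F, f ≠ 0 → (cuspEmb E g⁻¹ f).order = m * v.ord f) : v = cuspPlace E g :=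
  LaurentPlace.eq_embPlace_of_spec _ _ _ v hm h

/-- The places `cuspPlace g` lie over `∞`. -/
theorem cuspPlace_ord_j_neg (g : SL(2, ℤ)) : (cuspPlace E g).ord (jF E) < 0 := by
  have h := cuspIdx_mul_ord_j E g
  have hN : (0 : ℤ) < N := by exact_mod_cast Nat.pos_of_ne_zero (NeZero.ne N)
  have hm' : (0 : ℤ) < cuspIdx E g := by exact_mod_cast cuspIdx_pos E g
  by_contra hneg
  have h0 : 0 ≤ (cuspPlace E g).ord (jF E) := not_lt.mp hneg
  nlinarith

/-- `cuspPlace` only depends on the coset `g Γ`. -/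
theorem cuspPlace_mul_right (g δ : SL(2, ℤ)) (hδ : δ ∈ Γ) :
    cuspPlace E (g * δ) = cuspPlace E g := by
  unfold cuspPlace
  apply LaurentPlace.embPlace_eq_of_order_eq
  intro f
  rw [mul_inv_rev, cuspEmb_mul_left E g⁻¹ δ⁻¹ (inv_mem hδ)]

/-- `cuspPlace` is invariant under `g ↦ T ^ k * g`. -/
theorem cuspPlace_T_zpow_mul (g : SL(2, ℤ)) (k : ℤ) :
    cuspPlace E (ModularGroup.T ^ k * g) = cuspPlace E g := by
  unfold cuspPlace
  apply LaurentPlace.embPlace_eq_of_order_eq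
  intro f
  rw [mul_inv_rev, ← zpow_neg, order_cuspEmb_mul_T_zpow]

theorem cuspPlace_T_mul (g : SL(2, ℤ)) :
    cuspPlace E (ModularGroup.T * g) = cuspPlace E g := by
  have := cuspPlace_T_zpow_mul E g 1
  rwa [zpow_one] at this

/-- the index is determined by the place and the order function. -/
theorem cuspIdx_eq_of {g g' : SL(2, ℤ)} (hv : cuspPlace E g' = cuspPlace E g)
    (h : ∀ f : F, (cuspEmb E g'⁻¹ f).order = (cuspEmb E g⁻¹ f).order) :
    cuspIdx E g' = cuspIdx E g := by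
  obtain ⟨f, hf, h1⟩ := LaurentPlace.exists_ord_eq_one (cuspPlace E g)
  have e1 := order_cuspEmb E g hf
  have e2 := order_cuspEmb E g' hf
  rw [hv, h f, e1, h1, mul_one, mul_one] at e2
  exact_mod_cast e2.symm

theorem cuspIdx_mul_right (g δ : SL(2, ℤ)) (hδ : δ ∈ Γ) :
    cuspIdx E (g * δ) = cuspIdx E g :=
  cuspIdx_eq_of E (cuspPlace_mul_right E g δ hδ) fun f => by
    rw [mul_inv_rev, cuspEmb_mul_left E g⁻¹ δ⁻¹ (inv_mem hδ)]

theorem cuspIdx_T_zpow_mul (g : SL(2, ℤ)) (k : ℤ) :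
    cuspIdx E (ModularGroup.T ^ k * g) = cuspIdx E g :=
  cuspIdx_eq_of E (cuspPlace_T_zpow_mul E g k) fun f => by
    rw [mul_inv_rev, ← zpow_neg, order_cuspEmb_mul_T_zpow]

/-- WIDTH for the index: if `g⁻¹ T^w g ∈ Γ` (`0 < w ∣ N`) then `N / w` divides `cuspIdx E g`. -/
theorem dvd_cuspIdx (g : SL(2, ℤ)) (w : ℕ) (hw : 0 < w) (hwN : w ∣ N)
    (h : g⁻¹ * ModularGroup.T ^ w * g⁻¹⁻¹ ∈ Γ) : ((N / w : ℕ) : ℤ) ∣ (cuspIdx E g : ℤ) :=
  LaurentPlace.dvd_of_forall_dvd (w := fun f => (cuspEmb E g⁻¹ f).order) (cuspPlace E g)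
    (fun _ hf => order_cuspEmb E g hf)
    (fun f hf => dvd_order_cuspEmb E g⁻¹ w hw hwN h f hf)

/-! ### coset form -/

/-- `cuspPlace` on the coset space `SL(2, ℤ) ⧸ Γ`. -/
def cuspPlaceX (x : SL(2, ℤ) ⧸ Γ) : Place ℂ F :=
  Quotient.liftOn' x (cuspPlace E) (by
    intro a b hab
    rw [QuotientGroup.leftRel_apply] at hab
    have := cuspPlace_mul_right E a (a⁻¹ * b) hab
    rw [mul_inv_cancel_left] at this
    exact this.symm)

@[simp] theorem cuspPlaceX_mk (g : SL(2, ℤ)) :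
    cuspPlaceX E (QuotientGroup.mk g : SL(2, ℤ) ⧸ Γ) = cuspPlace E g := rfl

theorem cuspPlaceX_smul_zpowers_T (h : zpowers ModularGroup.T) (x : SL(2, ℤ) ⧸ Γ) :
    cuspPlaceX E (h • x) = cuspPlaceX E x := by
  obtain ⟨h, k, rfl⟩ := h
  induction x using QuotientGroup.induction_on with
  | H g =>
    show cuspPlaceX E ((ModularGroup.T ^ k) • (QuotientGroup.mk g : SL(2, ℤ) ⧸ Γ)) = _
    rw [MulAction.Quotient.smul_mk, cuspPlaceX_mk, cuspPlaceX_mk, smul_eq_mul,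
      cuspPlace_T_zpow_mul]

theorem cuspPlaceX_ord_j_neg (x : SL(2, ℤ) ⧸ Γ) : (cuspPlaceX E x).ord (jF E) < 0 := by
  induction x using QuotientGroup.induction_on with
  | H g => exact cuspPlace_ord_j_neg E g

/-- (WIDTH-N) the width of every cusp divides `N`. -/
theorem card_orbit_T_dvd (hN : ∀ g : SL(2, ℤ), g⁻¹ * ModularGroup.T ^ N * g ∈ Γ)
    (x : SL(2, ℤ) ⧸ Γ) : Nat.card (orbit (zpowers ModularGroup.T) x) ∣ N := by
  apply OrbitCount.card_orbit_zpowers_dvd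
  induction x using QuotientGroup.induction_on with
  | H g =>
    rw [MulAction.Quotient.smul_mk, smul_eq_mul]
    apply (QuotientGroup.eq.mpr _).symm
    rw [← mul_assoc]
    exact hN g

/-- WIDTH: the ramification index `-ord_v j` of `cuspPlaceX x` divides the size of the
`⟨T⟩`-orbit of `x`. -/
theorem cuspPlaceX_neg_ord_j_dvd (hN : ∀ g : SL(2, ℤ), g⁻¹ * ModularGroup.T ^ N * g ∈ Γ)
    (x : SL(2, ℤ) ⧸ Γ) :
    -(cuspPlaceX E x).ord (jF E) ∣ (Nat.card (orbit (zpowers ModularGroup.T) x) : ℤ) := by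
  induction x using QuotientGroup.induction_on with
  | H g =>
    set x : SL(2, ℤ) ⧸ Γ := QuotientGroup.mk g with hx
    set w : ℕ := Nat.card (orbit (zpowers ModularGroup.T) x) with hw
    have hwN : w ∣ N := card_orbit_T_dvd hN x
    have hN0 : N ≠ 0 := NeZero.ne N
    have hw0 : 0 < w :=
      Nat.pos_of_ne_zero (fun h => hN0 (by rw [h] at hwN; exact zero_dvd_iff.mp hwN))
    have hper : ModularGroup.T ^ w • x = x := by
      rw [pow_smul_eq_iff_minimalPeriod_dvd, ← OrbitCount.card_orbit_zpowers]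
      exact dvd_of_eq hw.symm
    have hmem : g⁻¹ * ModularGroup.T ^ w * g⁻¹⁻¹ ∈ Γ := by
      rw [hx, MulAction.Quotient.smul_mk, smul_eq_mul] at hper
      have := QuotientGroup.eq.mp hper.symm
      rw [inv_inv, mul_assoc]
      exact this
    have hj := cuspIdx_mul_ord_j E g
    obtain ⟨t, ht⟩ := dvd_cuspIdx E g w hw0 hwN hmem
    have hNw : ((N / w : ℕ) : ℤ) * w = N := by
      exact_mod_cast Nat.div_mul_cancel hwN
    have hNw0 : ((N / w : ℕ) : ℤ) ≠ 0 := by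
      intro h
      rw [h, zero_mul] at hNw
      exact hN0 (by exact_mod_cast hNw.symm)
    rw [cuspPlaceX_mk]
    refine ⟨t, ?_⟩
    have : ((N / w : ℕ) : ℤ) * (w : ℤ) =
        ((N / w : ℕ) : ℤ) * (-(cuspPlace E g).ord (jF E) * t) := by
      rw [hNw]
      rw [ht] at hj
      linear_combination hj
    exact mul_left_cancel₀ hNw0 this

theorem cuspPlaceX_neg_ord_j_le (hN : ∀ g : SL(2, ℤ), g⁻¹ * ModularGroup.T ^ N * g ∈ Γ)
    (x : SL(2, ℤ) ⧸ Γ) :
    -(cuspPlaceX E x).ord (jF E) ≤ (Nat.card (orbit (zpowers ModularGroup.T) x) : ℤ) := by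
  have hpos : (0 : ℤ) < (Nat.card (orbit (zpowers ModularGroup.T) x) : ℤ) := by
    have hwN : Nat.card (orbit (zpowers ModularGroup.T) x) ∣ N := card_orbit_T_dvd hN x
    have hN0 : N ≠ 0 := NeZero.ne N
    have : Nat.card (orbit (zpowers ModularGroup.T) x) ≠ 0 := fun h =>
      hN0 (by rw [h] at hwN; exact zero_dvd_iff.mp hwN)
    exact_mod_cast Nat.pos_of_ne_zero this
  exact Int.le_of_dvd hpos (cuspPlaceX_neg_ord_j_dvd E hN x)

end Fermat.Agent.ES.R48.KumCuspPlaces18
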