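/-
Programme R (S48, Deligne–Serre), chapter GEOM / G5 KUM₁, cusp side (helper18): **surjectivity at the
cusps** for an arbitrary expansion setup — the generic form of `ES/KUM/CCuspSurj16`.

`E : KumCuspExp18.ExpSetup A F Γ N`.  Under the two hypotheses

* (DISTINCT) `Distinct E : ∀ γ γ', cuspEmb E γ = cuspEmb E γ' → γ' * γ⁻¹ ∈ Γ`
  (the cusp expansions separate the cosets `Γ γ`),
* (DEG) `Nat.card (SL(2, ℤ) ⧸ Γ) = [F : ℂ(j)]` (with `F / ℂ(j)` finite),

(`distinct_of_compSL` : (DISTINCT) follows from its analytic form "`real u ∘ γ = real u ∘ γ'` for all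
`u` implies `γ' γ⁻¹ ∈ Γ`") every place `v` of `F` with `ord_v j < 0` is a cusp place: `exists_cuspPlace_eq`, and in coset form
`exists_cuspPlaceX_eq`.
-/
import Fermat.Agent.ES.R48.KumCuspPlaces18
import Fermat.Agent.ES.KUM.CCuspSurj16

set_option autoImplicit false
set_option linter.unusedSectionVars false

open ModularCurve HahnSeries UpperHalfPlane AlgebraicCurve IntermediateField
open scoped Topology Manifold MatrixGroups

noncomputable section

namespace Fermat.Agent.ES.R48.KumCuspSurj18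

open Fermat.Agent.X0 Fermat.Agent.ES.KUM Fermat.Agent.ES.R48.KumCuspExp18
  Fermat.Agent.ES.R48.KumCuspPlaces18

variable {A F : Type} [CommRing A] [IsDomain A] [Field F] [Algebra A F] [IsFractionRing A F]
  [Algebra ℂ A] [Algebra ℂ F] [IsScalarTower ℂ A F] {Γ : Subgroup SL(2, ℤ)} {N : ℕ} [NeZero N]
  (E : ExpSetup A F Γ N)

/-- (DISTINCT) the cusp expansions separate the cosets `Γ γ`. -/
def Distinct : Prop :=
  ∀ γ γ' : SL(2, ℤ), cuspEmb E γ = cuspEmb E γ' → γ' * γ⁻¹ ∈ Γ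

/-- Equal expansions at `γ` and `γ'` of `u ∈ A` give equal functions `real u ∘ γ = real u ∘ γ'`. -/
theorem compSL_eq_of_cuspEmb_eq (γ γ' : SL(2, ℤ)) (u : A)
    (h : cuspEmb E γ (algebraMap A F u) = cuspEmb E γ' (algebraMap A F u)) :
    compSL ((E.real u : HolH) : ℍ → ℂ) γ = compSL ((E.real u : HolH) : ℍ → ℂ) γ' := by
  obtain ⟨m, P, hP, hT⟩ := cuspEmb_spec E γ u
  obtain ⟨m', P', hP', hT'⟩ := cuspEmb_spec E γ' u
  have h1 := intg_qn_of_isQExp N hP
  have h2 := intg_qn_of_isQExp N hP'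
  rw [← hT, h, hT'] at h1
  exact intg_qn_unique_right N h1 h2

/-- (DISTINCT) from its analytic form: it is enough that an element `δ = γ' γ⁻¹` fixing all the
functions `real u` lies in `Γ`. -/
theorem distinct_of_compSL
    (h : ∀ γ γ' : SL(2, ℤ), (∀ u : A, compSL ((E.real u : HolH) : ℍ → ℂ) γ =
      compSL ((E.real u : HolH) : ℍ → ℂ) γ') → γ' * γ⁻¹ ∈ Γ) : Distinct E :=
  fun γ γ' hT => h γ γ' fun u => compSL_eq_of_cuspEmb_eq E γ γ' u (by rw [hT])

/-- The embedding attached to a coset `x`, via a representative. -/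
def sigma (x : SL(2, ℤ) ⧸ Γ) : F →+* LaurentSeries ℂ :=
  cuspEmb E (Quotient.out x)⁻¹

theorem sigma_injective (hD : Distinct E) : Function.Injective (sigma E) := by
  intro x y hxy
  have h := hD _ _ hxy
  rw [inv_inv] at h
  have h2 : (QuotientGroup.mk (Quotient.out y) : SL(2, ℤ) ⧸ Γ)
      = QuotientGroup.mk (Quotient.out x) := QuotientGroup.eq.mpr h
  have hx : (QuotientGroup.mk (Quotient.out x) : SL(2, ℤ) ⧸ Γ) = x := Quotient.out_eq' x
  have hy : (QuotientGroup.mk (Quotient.out y) : SL(2, ℤ) ⧸ Γ) = y := Quotient.out_eq' y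
  rw [hx, hy] at h2
  exact h2.symm

/-- **Surjectivity at the cusps.**  Every place `v` of `F` with `ord_v j < 0` is a cusp place. -/
theorem exists_cuspPlace_eq (hD : Distinct E) [FiniteDimensional ℂ⟮jF E⟯ F]
    (hdeg : Nat.card (SL(2, ℤ) ⧸ Γ) = Module.finrank ℂ⟮jF E⟯ F)
    (v : Place ℂ F) (hv : v.ord (jF E) < 0) :
    ∃ g : SL(2, ℤ), cuspPlace E g = v := by
  have hN : (0 : ℤ) < N := by exact_mod_cast Nat.pos_of_ne_zero (NeZero.ne N)
  have hO : jF E ∉ v.toValuationSubring := by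
    rw [FF.ffp_mem_iff_ord_nonneg]
    omega
  have hV : ∀ x : SL(2, ℤ) ⧸ Γ, sigma E x (jF E) ∉ CCusp16.laurentVC := by
    intro x
    have hne : sigma E x (jF E) ≠ 0 := cuspEmb_ne_zero E _ (jF_ne_zero E)
    rw [CCusp16.mem_laurentVC_of_ne_zero hne, sigma, order_cuspEmb_jF]
    omega
  have hfin : Finite (SL(2, ℤ) ⧸ Γ) := by
    apply Nat.finite_of_card_ne_zero
    rw [hdeg]
    exact Module.finrank_pos.ne'
  obtain ⟨x, hx⟩ := ValUniq.exists_eq_comap_of_notMem (K := ℂ) (F := F)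
    (E := LaurentSeries ℂ) (jF E) (sigma E) hdeg (sigma_injective E hD)
    (fun i j a => by rw [sigma, sigma, cuspEmb_algebraMap, cuspEmb_algebraMap])
    (fun i j => by
      show cuspEmb E _ (algebraMap A F E.j) = cuspEmb E _ (algebraMap A F E.j)
      rw [cuspEmb_j, cuspEmb_j])
    CCusp16.laurentVC (fun i a => by rw [sigma, cuspEmb_algebraMap]; exact CCusp16.C_mem_laurentVC a)
    v.toValuationSubring v.algebraMap_mem' hV hO
  refine ⟨Quotient.out x, ?_⟩
  apply Place.ext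
  ext f
  by_cases hf : f = 0
  · subst hf
    simp only [zero_mem]
  · rw [mem_cuspPlace_iff E _ hf, hx, ValuationSubring.mem_comap]
    show _ ↔ cuspEmb E (Quotient.out x)⁻¹ f ∈ CCusp16.laurentVC
    rw [CCusp16.mem_laurentVC_of_ne_zero (cuspEmb_ne_zero E _ hf)]

/-- Coset form: `cuspPlaceX` is onto the places over `∞`. -/
theorem exists_cuspPlaceX_eq (hD : Distinct E) [FiniteDimensional ℂ⟮jF E⟯ F]
    (hdeg : Nat.card (SL(2, ℤ) ⧸ Γ) = Module.finrank ℂ⟮jF E⟯ F)
    (v : Place ℂ F) (hv : v.ord (jF E) < 0) :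
    ∃ x : SL(2, ℤ) ⧸ Γ, cuspPlaceX E x = v := by
  obtain ⟨g, hg⟩ := exists_cuspPlace_eq E hD hdeg v hv
  exact ⟨QuotientGroup.mk g, by rw [KumCuspPlaces18.cuspPlaceX_mk, hg]⟩

end Fermat.Agent.ES.R48.KumCuspSurj18
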