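/-
Programme R (S48, Deligne–Serre), chapter GEOM / G5 KUM₁, cusp side (helper18): **exact indices at the
cusps** for an arbitrary expansion setup — the generic form of `ES/KUM/CCuspExact16`.

`E : KumCuspExp18.ExpSetup A F Γ N`.  The four inputs are bundled in `Good E`:

* `distinct : KumCuspSurj18.Distinct E` (the cusp expansions separate the cosets `Γ γ`),
* `isGen : FF.IsGen ℂ (jF E)` (`j` transcendental, `F / ℂ(j)` finite),
* `card_eq : Nat.card (SL(2, ℤ) ⧸ Γ) = [F : ℂ(j)]`,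
* `width : ∀ g, g⁻¹ * T ^ N * g ∈ Γ` (every cusp has width dividing `N`).

From surjectivity (`KumCuspSurj18`), the width divisibility (`KumCuspPlaces18`) and the fundamental
identity `∑_{v | ∞} -ord_v j = [F : ℂ(j)]`:

* `neg_ord_j_eq_card_orbit` : `-ord_{cuspPlaceX x} j = #(⟨T⟩ · x)` (ramification index = width);
* `cuspIdx_mul_card_orbit`  : `cuspIdx E g * #(⟨T⟩ · [g]) = N`;
* `card_orbit_mul_order_cuspEmb` : `width * ord_{q_N} (f ∘ g⁻¹) = N * ord_v f`;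
* `conj_T_pow_card_orbit_mem`, `card_orbit_dvd_of_mem` : `g⁻¹ T^m g ∈ Γ ↔ width ∣ m`;
* `card_cuspPlaces`, `cuspPlaceX_eq_iff`.
-/
import Fermat.Agent.ES.R48.KumCuspSurj18
import Fermat.Agent.X0.PlaceCountX0
import Fermat.Agent.X0.FFSum

set_option autoImplicit false
set_option linter.unusedSectionVars false

open ModularCurve HahnSeries UpperHalfPlane AlgebraicCurve IntermediateField
open scoped Topology Manifold MatrixGroups
open MulAction Subgroup

noncomputable section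

namespace Fermat.Agent.ES.R48.KumCuspExact18

open Fermat.Agent.X0 Fermat.Agent.ES.KUM Fermat.Agent.ES.R48.KumCuspExp18
  Fermat.Agent.ES.R48.KumCuspPlaces18 Fermat.Agent.ES.R48.KumCuspSurj18

variable {A F : Type} [CommRing A] [IsDomain A] [Field F] [Algebra A F] [IsFractionRing A F]
  [Algebra ℂ A] [Algebra ℂ F] [IsScalarTower ℂ A F] {Γ : Subgroup SL(2, ℤ)} {N : ℕ} [NeZero N]
  (E : ExpSetup A F Γ N)

/-- The four global inputs at the cusps. -/
structure Good : Prop where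
  distinct : Distinct E
  isGen : FF.IsGen ℂ (jF E)
  card_eq : Nat.card (SL(2, ℤ) ⧸ Γ) = Module.finrank ℂ⟮jF E⟯ F
  width : ∀ g : SL(2, ℤ), g⁻¹ * ModularGroup.T ^ N * g ∈ Γ

/-- `T ^ N ∈ Γ(N)`. -/
theorem T_pow_mem_Gamma (N : ℕ) : ModularGroup.T ^ N ∈ CongruenceSubgroup.Gamma N := by
  rw [CongruenceSubgroup.Gamma_mem]
  have h := ModularGroup.coe_T_zpow (N : ℤ)
  rw [zpow_natCast] at h
  simp [h]

/-- `g⁻¹ T ^ N g ∈ Γ(N)`. -/
theorem conj_T_pow_mem_Gamma (N : ℕ) (g : SL(2, ℤ)) :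
    g⁻¹ * ModularGroup.T ^ N * g ∈ CongruenceSubgroup.Gamma N :=
  (CongruenceSubgroup.Gamma_normal N).conj_mem' _ (T_pow_mem_Gamma N) g

/-- (WIDTH-N) holds for every `Γ ⊇ Γ(N)`. -/
theorem width_of_Gamma_le (h : CongruenceSubgroup.Gamma N ≤ Γ) (g : SL(2, ℤ)) :
    g⁻¹ * ModularGroup.T ^ N * g ∈ Γ :=
  h (conj_T_pow_mem_Gamma N g)

variable {E} (hG : Good E)

include hG

theorem Good.finiteDimensional : FiniteDimensional ℂ⟮jF E⟯ F := hG.isGen.finite

theorem Good.finite_quotient : Finite (SL(2, ℤ) ⧸ Γ) := by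
  have := hG.finiteDimensional
  apply Nat.finite_of_card_ne_zero
  rw [hG.card_eq]
  exact Module.finrank_pos.ne'

theorem finite_poles_j : {v : Place ℂ F | v.ord (jF E) < 0}.Finite :=
  FF.finite_poles hG.isGen

theorem sum_ord_poles_j :
    ∑ᶠ (v : Place ℂ F) (_ : v.ord (jF E) < 0), -v.ord (jF E) =
      (Module.finrank ℂ⟮jF E⟯ F : ℤ) :=
  FF.sum_ord_poles hG.isGen

/-- **Surjectivity** at the cusps (coset form). -/
theorem exists_cuspPlaceX_eq' (v : Place ℂ F) (hv : v.ord (jF E) < 0) :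
    ∃ x : SL(2, ℤ) ⧸ Γ, KumCuspPlaces18.cuspPlaceX E x = v := by
  have := hG.finiteDimensional
  exact exists_cuspPlaceX_eq E hG.distinct hG.card_eq v hv

/-- The count at the cusps. -/
theorem cusp_count :
    Nat.card {v : Place ℂ F // v.ord (jF E) < 0} =
        Nat.card (orbitRel.Quotient (zpowers ModularGroup.T) (SL(2, ℤ) ⧸ Γ)) ∧
      ∀ x : SL(2, ℤ) ⧸ Γ,
        -(KumCuspPlaces18.cuspPlaceX E x).ord (jF E) =
          (Nat.card (orbit (zpowers ModularGroup.T) x) : ℤ) := by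
  have := hG.finite_quotient
  exact PlaceCount.pc_pole_count (K := ℂ) (jF E) (Module.finrank ℂ⟮jF E⟯ F) (finite_poles_j hG)
    (sum_ord_poles_j hG) (X := SL(2, ℤ) ⧸ Γ) (G := zpowers ModularGroup.T) hG.card_eq
    (KumCuspPlaces18.cuspPlaceX E) (cuspPlaceX_ord_j_neg E) (exists_cuspPlaceX_eq' hG)
    (fun h a => cuspPlaceX_smul_zpowers_T E h a) (cuspPlaceX_neg_ord_j_le E hG.width)

/-- The number of places of `F` over `∞` is the number of `⟨T⟩`-orbits on `SL(2, ℤ) ⧸ Γ`. -/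
theorem card_cuspPlaces :
    Nat.card {v : Place ℂ F // v.ord (jF E) < 0} =
      Nat.card (orbitRel.Quotient (zpowers ModularGroup.T) (SL(2, ℤ) ⧸ Γ)) :=
  (cusp_count hG).1

/-- **Ramification index = width.** -/
theorem neg_ord_j_eq_card_orbit (x : SL(2, ℤ) ⧸ Γ) :
    -(KumCuspPlaces18.cuspPlaceX E x).ord (jF E) =
      (Nat.card (orbit (zpowers ModularGroup.T) x) : ℤ) :=
  (cusp_count hG).2 x

/-- **The index is `N / width`.** -/
theorem cuspIdx_mul_card_orbit (g : SL(2, ℤ)) :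
    cuspIdx E g * Nat.card (orbit (zpowers ModularGroup.T)
      (QuotientGroup.mk g : SL(2, ℤ) ⧸ Γ)) = N := by
  have h1 := cuspIdx_mul_ord_j E g
  have h2 := neg_ord_j_eq_card_orbit hG (QuotientGroup.mk g : SL(2, ℤ) ⧸ Γ)
  rw [KumCuspPlaces18.cuspPlaceX_mk] at h2
  have h3 : ((cuspIdx E g * Nat.card (orbit (zpowers ModularGroup.T)
      (QuotientGroup.mk g : SL(2, ℤ) ⧸ Γ)) : ℕ) : ℤ) = (N : ℤ) := by
    push_cast
    rw [← h2]
    linarith
  exact_mod_cast h3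

/-- The order of `f ∘ g⁻¹` in `q_N` is `(N / width)` times the order at the cusp place. -/
theorem card_orbit_mul_order_cuspEmb (g : SL(2, ℤ)) {f : F} (hf : f ≠ 0) :
    (Nat.card (orbit (zpowers ModularGroup.T) (QuotientGroup.mk g : SL(2, ℤ) ⧸ Γ)) : ℤ) *
      (cuspEmb E g⁻¹ f).order = N * (KumCuspPlaces18.cuspPlace E g).ord f := by
  rw [order_cuspEmb E g hf, ← mul_assoc]
  have := cuspIdx_mul_card_orbit hG g
  have h' : ((Nat.card (orbit (zpowers ModularGroup.T)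
      (QuotientGroup.mk g : SL(2, ℤ) ⧸ Γ)) : ℤ)) * (cuspIdx E g : ℤ) = N := by
    rw [mul_comm]
    exact_mod_cast this
  rw [h']

omit hG in
/-- the size of the `⟨T⟩`-orbit of `[g]` is positive when the quotient is finite. -/
theorem card_orbit_pos [Finite (SL(2, ℤ) ⧸ Γ)] (x : SL(2, ℤ) ⧸ Γ) :
    0 < Nat.card (orbit (zpowers ModularGroup.T) x) := by
  have : Nonempty (orbit (zpowers ModularGroup.T) x) := ⟨⟨x, mem_orbit_self x⟩⟩
  exact Nat.card_pos

omit hG in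
/-- `g⁻¹ T^m g ∈ Γ` iff `T^m` fixes the coset `[g]`. -/
theorem conj_mem_iff_smul_eq (g : SL(2, ℤ)) (m : ℤ) :
    g⁻¹ * ModularGroup.T ^ m * g ∈ Γ ↔
      ModularGroup.T ^ m • (QuotientGroup.mk g : SL(2, ℤ) ⧸ Γ) = QuotientGroup.mk g := by
  rw [MulAction.Quotient.smul_mk, smul_eq_mul, eq_comm, QuotientGroup.eq, mul_assoc]

omit hG in
/-- **The width**: `g⁻¹ T^m g ∈ Γ` iff the size of the `⟨T⟩`-orbit of `[g]` divides `m`. -/
theorem conj_T_zpow_mem_iff (g : SL(2, ℤ)) (m : ℤ) :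
    g⁻¹ * ModularGroup.T ^ m * g ∈ Γ ↔
      (Nat.card (orbit (zpowers ModularGroup.T) (QuotientGroup.mk g : SL(2, ℤ) ⧸ Γ)) : ℤ) ∣ m := by
  rw [conj_mem_iff_smul_eq, zpow_smul_eq_iff_minimalPeriod_dvd,
    ← OrbitCount.card_orbit_zpowers ModularGroup.T (QuotientGroup.mk g : SL(2, ℤ) ⧸ Γ)]
  exact Iff.rfl

omit hG in
theorem conj_T_pow_card_orbit_mem (g : SL(2, ℤ)) :
    g⁻¹ * ModularGroup.T ^ (Nat.card (orbit (zpowers ModularGroup.T)
      (QuotientGroup.mk g : SL(2, ℤ) ⧸ Γ))) * g ∈ Γ := by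
  have := (conj_T_zpow_mem_iff (Γ := Γ) g (Nat.card (orbit (zpowers ModularGroup.T)
      (QuotientGroup.mk g : SL(2, ℤ) ⧸ Γ)) : ℤ)).mpr dvd_rfl
  rwa [zpow_natCast] at this

omit hG in
theorem card_orbit_dvd_of_mem (g : SL(2, ℤ)) (m : ℤ)
    (h : g⁻¹ * ModularGroup.T ^ m * g ∈ Γ) :
    (Nat.card (orbit (zpowers ModularGroup.T) (QuotientGroup.mk g : SL(2, ℤ) ⧸ Γ)) : ℤ) ∣ m :=
  (conj_T_zpow_mem_iff g m).mp h

/-- The cusp places, on `⟨T⟩`-orbits of cosets. -/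
def cuspPlaceOrb (_hG : Good E) (ω : orbitRel.Quotient (zpowers ModularGroup.T) (SL(2, ℤ) ⧸ Γ)) :
    {v : Place ℂ F // v.ord (jF E) < 0} :=
  Quotient.liftOn' ω (fun x => ⟨KumCuspPlaces18.cuspPlaceX E x, cuspPlaceX_ord_j_neg E x⟩) (by
    intro a b hab
    change a ∈ orbit (zpowers ModularGroup.T) b at hab
    obtain ⟨h, rfl⟩ := hab
    exact Subtype.ext (cuspPlaceX_smul_zpowers_T E h b))

theorem cuspPlaceOrb_mk (x : SL(2, ℤ) ⧸ Γ) :
    cuspPlaceOrb hG (Quotient.mk'' x) =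
      ⟨KumCuspPlaces18.cuspPlaceX E x, cuspPlaceX_ord_j_neg E x⟩ := rfl

theorem cuspPlaceOrb_bijective : Function.Bijective (cuspPlaceOrb hG) := by
  have := hG.finite_quotient
  rw [Nat.bijective_iff_surjective_and_card]
  constructor
  · rintro ⟨v, hv⟩
    obtain ⟨x, hx⟩ := exists_cuspPlaceX_eq' hG v hv
    exact ⟨Quotient.mk'' x, Subtype.ext hx⟩
  · rw [card_cuspPlaces hG]

/-- Two cosets give the same cusp place iff they lie in the same `⟨T⟩`-orbit. -/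
theorem cuspPlaceX_eq_iff (x y : SL(2, ℤ) ⧸ Γ) :
    KumCuspPlaces18.cuspPlaceX E x = KumCuspPlaces18.cuspPlaceX E y ↔
      x ∈ orbit (zpowers ModularGroup.T) y := by
  constructor
  · intro h
    have h1 : cuspPlaceOrb hG (Quotient.mk'' x) = cuspPlaceOrb hG (Quotient.mk'' y) := by
      rw [cuspPlaceOrb_mk, cuspPlaceOrb_mk]
      exact Subtype.ext h
    have h2 := (cuspPlaceOrb_bijective hG).1 h1
    exact Quotient.exact' h2
  · rintro ⟨h, rfl⟩
    exact cuspPlaceX_smul_zpowers_T E h y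

end Fermat.Agent.ES.R48.KumCuspExact18
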