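/-
Programme R (S48, Deligne–Serre), chapter GEOM / G5 KUM₁, cusp side (helper18): **the cusp dictionaries
of an expansion setup** — from `KumCuspExact18.Good E` to the two interfaces `KumGenMult18.CuspDict`
and (the cusp half of) `KumGenDiv18.PlaceDict`.

`E : KumCuspExp18.ExpSetup A F Γ N` with `Good E`, `Θ = realMer E`.  For `σ ∈ SL(2, ℤ)` and `f ≠ 0`:

* `exists_expansion` : `Θ f ∘ σ = a / b` with `a, b` holomorphic having `q_N`-expansions, and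
  `width(σ ∞) * ord_{q_N}(Θ f ∘ σ) = N * ord_v f`, `v = cuspPlace E σ⁻¹`;
* `cuspDict` : `KumGenMult18.CuspDict R N` for every realization `R` of `F` on a subgroup `Γ' ≤ Γ`
  with `R.Θ = realMer E`;
* `cusp_case` : the cusp alternative of `KumGenDiv18.PlaceDict.cases` at every place over `∞`, when
  `Γ = ±Γ'` and no element of `Γ'` has trace `-2` (so that the width element lies in `Γ'`);
* `placeDict` : `KumGenDiv18.PlaceDict R N`, given the point alternative at the places with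
  `0 ≤ ord_v j`.
-/
import Fermat.Agent.ES.R48.KumCuspExact18
import Fermat.Agent.ES.R48.KumGenDiv18

set_option autoImplicit false
set_option linter.unusedSectionVars false

open ModularCurve HahnSeries UpperHalfPlane AlgebraicCurve IntermediateField
open scoped Topology Manifold MatrixGroups
open MulAction Subgroup

noncomputable section

namespace Fermat.Agent.ES.R48.KumCuspDict18

open Fermat.Agent.X0 Fermat.Agent.X0.SurjPoint Fermat.Agent.ES.KUM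
  Fermat.Agent.ES.R48.KumCuspExp18 Fermat.Agent.ES.R48.KumCuspPlaces18
  Fermat.Agent.ES.R48.KumCuspSurj18 Fermat.Agent.ES.R48.KumCuspExact18
  Fermat.Agent.ES.R48.KumGen18 Fermat.Agent.ES.R48.KumGenMult18 Fermat.Agent.ES.R48.KumGenDiv18

variable {A F : Type} [CommRing A] [IsDomain A] [Field F] [Algebra A F] [IsFractionRing A F]
  [Algebra ℂ A] [Algebra ℂ F] [IsScalarTower ℂ A F] {Γ : Subgroup SL(2, ℤ)} {N : ℕ} [NeZero N]
  {E : ExpSetup A F Γ N}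

/-- order of a quotient of Laurent series. -/
theorem order_div {x y : LaurentSeries ℂ} (hx : x ≠ 0) (hy : y ≠ 0) :
    (x / y).order = x.order - y.order := by
  have h1 : (x / y) * y = x := div_mul_cancel₀ x hy
  have h2 := HahnSeries.order_mul (div_ne_zero hx hy) hy
  rw [h1] at h2
  omega

/-- The width of the cusp `σ ∞`: the size of the `⟨T⟩`-orbit of the coset `σ⁻¹ Γ`. -/
def width (Γ : Subgroup SL(2, ℤ)) (σ : SL(2, ℤ)) : ℕ :=
  Nat.card (orbit (zpowers ModularGroup.T) (QuotientGroup.mk σ⁻¹ : SL(2, ℤ) ⧸ Γ))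

/-- `σ T^m σ⁻¹ ∈ Γ` iff the width of `σ ∞` divides `m`. -/
theorem conj_mem_iff_width_dvd (σ : SL(2, ℤ)) (m : ℤ) :
    σ * ModularGroup.T ^ m * σ⁻¹ ∈ Γ ↔ (width Γ σ : ℤ) ∣ m := by
  have := conj_T_zpow_mem_iff (Γ := Γ) σ⁻¹ m
  rwa [inv_inv] at this

theorem conj_T_pow_width_mem (σ : SL(2, ℤ)) :
    σ * ModularGroup.T ^ (width Γ σ : ℤ) * σ⁻¹ ∈ Γ :=
  (conj_mem_iff_width_dvd σ _).mpr dvd_rfl

/-- **The expansion of `Θ f ∘ σ`** and the exact order relation at the cusp `σ ∞`. -/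
theorem exists_expansion (hG : Good E) (σ : SL(2, ℤ)) {f : F} (hf : f ≠ 0) :
    ∃ (a b : HolH) (mₐ m_b : ℕ) (Pₐ P_b : PowerSeries ℂ), b ≠ 0 ∧
      slMer σ (KumCuspExp18.realMer E f) = algebraMap HolH MerH a / algebraMap HolH MerH b ∧
      IsQExp N ((a : HolH) : ℍ → ℂ) mₐ Pₐ ∧ IsQExp N ((b : HolH) : ℍ → ℂ) m_b P_b ∧
      (width Γ σ : ℤ) * ((laurentOf mₐ Pₐ).order - (laurentOf m_b P_b).order) =
        (N : ℤ) * (KumCuspPlaces18.cuspPlace E σ⁻¹).ord f := by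
  obtain ⟨u, s, hs, rfl⟩ := exists_div (A := A) f
  have hsF : algebraMap A F s ≠ 0 := fun h0 =>
    hs (IsFractionRing.injective A F (by rw [h0, map_zero]))
  have huF : algebraMap A F u ≠ 0 := by
    intro h0
    apply hf
    rw [h0, zero_div]
  obtain ⟨mu, Pu, hPu, hTu⟩ := cuspEmb_spec E σ u
  obtain ⟨ms, Ps, hPs, hTs⟩ := cuspEmb_spec E σ s
  have hs' : E.real s ≠ 0 := fun h0 => hs (E.real_injective (h0.trans (map_zero _).symm))
  refine ⟨compSLHom σ (E.real u), compSLHom σ (E.real s), mu, ms, Pu, Ps,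
    compSLHom_ne_zero σ hs', ?_, hPu, hPs, ?_⟩
  · rw [map_div₀, KumCuspExp18.realMer_coe, KumCuspExp18.realMer_coe, slMer_div]
  · have h1 := card_orbit_mul_order_cuspEmb hG σ⁻¹ hf
    rw [inv_inv] at h1
    rw [width, ← h1, map_div₀,
      order_div (cuspEmb_ne_zero E σ huF) (cuspEmb_ne_zero E σ hsF), hTu, hTs]

variable {Γ' : Subgroup SL(2, ℤ)}

/-- **The cusp dictionary** of `KumGenMult18`, for a realization on a subgroup `Γ' ≤ Γ`. -/
theorem cuspDict (hG : Good E) (hle : Γ' ≤ Γ) (R : Realization F Γ')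
    (hR : ∀ f : F, R.Θ f = KumCuspExp18.realMer E f) : CuspDict R N where
  expand σ f hf := by
    obtain ⟨a, b, mₐ, m_b, Pₐ, P_b, hb, hab, hPa, hPb, hord⟩ := exists_expansion hG σ hf
    refine ⟨a, b, mₐ, m_b, Pₐ, P_b, hb, by rw [hR, hab], hPa, hPb,
      KumCuspPlaces18.cuspPlace E σ⁻¹, (width Γ σ : ℤ), fun m hm => ?_, hord⟩
    exact (conj_mem_iff_width_dvd σ m).mp (hle hm)

/-- The width element lies in `Γ'` when `Γ = ±Γ'` and no element of `Γ'` has trace `-2`. -/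
theorem conj_T_pow_width_mem_of_pm (hpm : ∀ γ ∈ Γ, γ ∈ Γ' ∨ -γ ∈ Γ')
    (hneg : ∀ γ ∈ Γ', ((γ : SL(2, ℤ)) : Matrix (Fin 2) (Fin 2) ℤ).trace ≠ -2) (σ : SL(2, ℤ)) :
    σ * ModularGroup.T ^ (width Γ σ : ℤ) * σ⁻¹ ∈ Γ' := by
  rcases hpm _ (conj_T_pow_width_mem (Γ := Γ) σ) with h | h
  · exact h
  · exfalso
    apply hneg _ h
    rw [Matrix.SpecialLinearGroup.coe_neg, Matrix.trace_neg, trace_conj_T_zpow]

/-- **The cusp alternative** of `KumGenDiv18.PlaceDict.cases` at a place over `∞`. -/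
theorem cusp_case (hG : Good E) (hpm : ∀ γ ∈ Γ, γ ∈ Γ' ∨ -γ ∈ Γ')
    (hneg : ∀ γ ∈ Γ', ((γ : SL(2, ℤ)) : Matrix (Fin 2) (Fin 2) ℤ).trace ≠ -2)
    (R : Realization F Γ') (hR : ∀ f : F, R.Θ f = KumCuspExp18.realMer E f)
    (v : Place ℂ F) (hv : v.ord (jF E) < 0) :
    ∃ (σ : SL(2, ℤ)) (w : ℤ), σ * ModularGroup.T ^ w * σ⁻¹ ∈ Γ' ∧ ∀ f : F, f ≠ 0 →
      ∃ (a b : HolH) (mₐ m_b : ℕ) (Pₐ P_b : PowerSeries ℂ), b ≠ 0 ∧
        slMer σ (R.Θ f) = algebraMap HolH MerH a / algebraMap HolH MerH b ∧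
        IsQExp N ((a : HolH) : ℍ → ℂ) mₐ Pₐ ∧ IsQExp N ((b : HolH) : ℍ → ℂ) m_b P_b ∧
        w * ((laurentOf mₐ Pₐ).order - (laurentOf m_b P_b).order) = (N : ℤ) * v.ord f := by
  have := hG.finiteDimensional
  obtain ⟨g, rfl⟩ := exists_cuspPlace_eq E hG.distinct hG.card_eq v hv
  refine ⟨g⁻¹, (width Γ g⁻¹ : ℤ), conj_T_pow_width_mem_of_pm hpm hneg g⁻¹, fun f hf => ?_⟩
  obtain ⟨a, b, mₐ, m_b, Pₐ, P_b, hb, hab, hPa, hPb, hord⟩ := exists_expansion hG g⁻¹ hf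
  rw [inv_inv] at hord
  exact ⟨a, b, mₐ, m_b, Pₐ, P_b, hb, by rw [hR, hab], hPa, hPb, hord⟩

/-- **The place dictionary** of `KumGenDiv18`, given the point alternative at the finite places. -/
theorem placeDict (hG : Good E) (hpm : ∀ γ ∈ Γ, γ ∈ Γ' ∨ -γ ∈ Γ')
    (hneg : ∀ γ ∈ Γ', ((γ : SL(2, ℤ)) : Matrix (Fin 2) (Fin 2) ℤ).trace ≠ -2)
    (R : Realization F Γ') (hR : ∀ f : F, R.Θ f = KumCuspExp18.realMer E f)
    (hpt : ∀ v : Place ℂ F, 0 ≤ v.ord (jF E) →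
      ∃ (z : ℍ) (e : ℤ), e ≠ 0 ∧ (∀ f : F, f ≠ 0 → ordMer z (R.Θ f) = e * v.ord f) ∧
        ∀ h : MerH, h ≠ 0 → (∀ γ ∈ Γ', γ • z = z → slMer γ h = h) → e ∣ ordMer z h) :
    PlaceDict R N where
  cases v := by
    rcases lt_or_ge (v.ord (jF E)) 0 with hv | hv
    · exact Or.inr (cusp_case hG hpm hneg R hR v hv)
    · exact Or.inl (hpt v hv)

end Fermat.Agent.ES.R48.KumCuspDict18
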