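/-
Programme R (S48, Deligne–Serre), chapter GEOM / G5 KUM₁, cusp side (helper18): **the expansion setup
of `X₁(M)` over `ℂ`** and its two dictionaries — the instantiation of the generic chain
`KumCuspExp18 … KumCuspDict18` at `A = RC1 M`, `F = FC1 M`, `Γ = PG1 M = ±Γ₁(M)`, `N = M`
(helper3's `CReal1_3`, `CPoint1_3`, `KumReal1_3`).

All with `(hW : CReal1_3.WAnalytic M)` (G1-E2/E3) and `(hcusp : KumReal1_3.WCusp M)` (G1-E4):

* `setup1 M hW hcusp : ExpSetup (RC1 M) (FC1 M) (PG1 M) M`, `jF_setup1 : jF = jC1 M`,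
  `realMer_setup1 : realMer (setup1 …) = realMer1 hW`;
* `DistinctC1 hW` — (DISTINCT) in analytic form, `GlobalC1 M` — `j` is a generator of degree
  `#(SL(2, ℤ) ⧸ PG1 M)`; `good1 : Good (setup1 M hW hcusp)` from these two;
* `cuspDict1 : KumGenMult18.CuspDict (realization1 hW) M`;
* `placeDict1 : KumGenDiv18.PlaceDict (realization1 hW) M` (`5 ≤ M`), the point half from helper5's
  `KumCExact5.ordMer_realMer1_eq` (all point indices are `1`) and the point surjectivity `PointAll1 hW`.
-/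
import Fermat.Agent.ES.R48.KumCuspDict18
import Fermat.Agent.ES.R48.KumReal1_3
import Fermat.Agent.ES.R48.KumCExact5

set_option autoImplicit false
set_option linter.unusedSectionVars false

open ModularCurve HahnSeries UpperHalfPlane AlgebraicCurve IntermediateField
open scoped Topology Manifold MatrixGroups
open MulAction Subgroup

noncomputable section

namespace Fermat.Agent.ES.R48.KumCuspOne18

open Fermat.Agent.X0 Fermat.Agent.X0.SurjPoint Fermat.Agent.ES.KUM
  Fermat.Agent.ES.R48.X1Iface13 Fermat.Agent.ES.R48.CReal1_3 Fermat.Agent.ES.R48.CPoint1_3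
  Fermat.Agent.ES.R48.KumReal1_3
  Fermat.Agent.ES.R48.KumCuspExp18 Fermat.Agent.ES.R48.KumCuspPlaces18
  Fermat.Agent.ES.R48.KumCuspSurj18 Fermat.Agent.ES.R48.KumCuspExact18
  Fermat.Agent.ES.R48.KumCuspDict18
  Fermat.Agent.ES.R48.KumGen18 Fermat.Agent.ES.R48.KumGenMult18 Fermat.Agent.ES.R48.KumGenDiv18

variable {M : ℕ} [NeZero M] (hW : WAnalytic M) (hcusp : WCusp M)

/-- `±Γ₁(M)`-invariance of the realisation of `R₁,ℂ`. -/
theorem realC1_PG1_invariant (u : RC1 M) (γ : SL(2, ℤ)) (hγ : γ ∈ PG1 M) :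
    compSL ((realC1 hW u : HolH) : ℍ → ℂ) γ = ((realC1 hW u : HolH) : ℍ → ℂ) := by
  rcases (mem_PG1_iff M).mp hγ with h | h
  · exact realC1_Gamma1_invariant hW u γ h
  · rw [← CPoint1_3.compSL_neg]
    exact realC1_Gamma1_invariant hW u (-γ) h

variable (M) in
/-- **The expansion setup of `X₁(M)` over `ℂ`.**  (`M` is explicit on purpose: elaborating
`setup1 hW hcusp` against an expected type `ExpSetup ?A ?F ?Γ ?N` with `M` still unknown makes the
unifier compare the instance arguments with metavariables inside, which is very slow.) -/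
def setup1 : ExpSetup (RC1 M) (FC1 M) (PG1 M) M where
  real := realC1 hW
  real_injective := realC1_injective hW
  real_algebraMap := realC1_algebraMap' hW
  real_invariant u γ hγ := realC1_PG1_invariant hW u γ hγ
  exists_exp γ u := exists_cuspExpC1 hW hcusp γ u
  j := jRC1 M
  real_j := realC1_jRC1 hW

@[simp] theorem setup1_real : (setup1 M hW hcusp).real = realC1 hW := rfl

theorem jF_setup1 : jF (setup1 M hW hcusp) = jC1 M := rfl

theorem realMer_setup1 (f : FC1 M) :
    KumCuspExp18.realMer (setup1 M hW hcusp) f = realMer1 hW f := by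
  obtain ⟨r, s, -, rfl⟩ := exists_div (A := RC1 M) f
  have e1 : algebraMap (RC1 M) (FC1 M) r = (r : FC1 M) := rfl
  have e2 : algebraMap (RC1 M) (FC1 M) s = (s : FC1 M) := rfl
  rw [map_div₀, map_div₀, KumCuspExp18.realMer_coe, KumCuspExp18.realMer_coe, e1, e2,
    realMer1_coe, realMer1_coe]
  rfl

/-! ### The global inputs -/

/-- (DISTINCT) for `X₁(M)` over `ℂ`, in analytic form: an element `γ' γ⁻¹` fixing all the functions
`Θ u`, `u ∈ R₁,ℂ`, lies in `±Γ₁(M)` (the shape of helper14's `X1Distinct14.mem_PG1_of_compSL_eq`). -/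
def DistinctC1 : Prop :=
  ∀ γ γ' : SL(2, ℤ), (∀ u : RC1 M, compSL ((realC1 hW u : HolH) : ℍ → ℂ) γ =
    compSL ((realC1 hW u : HolH) : ℍ → ℂ) γ') → γ' * γ⁻¹ ∈ PG1 M

variable (M) in
/-- (GEN + DEG) `j` is a transcendental generator of `F₁,ℂ`, of degree `#(SL(2, ℤ) ⧸ ±Γ₁(M))`. -/
structure GlobalC1 : Prop where
  isGen : FF.IsGen ℂ (jC1 M)
  finrank_eq : Module.finrank ℂ⟮jC1 M⟯ (FC1 M) = Nat.card (SL(2, ℤ) ⧸ PG1 M)

/-- `Γ(M) ≤ ±Γ₁(M)`. -/
theorem Gamma_le_PG1 : CongruenceSubgroup.Gamma M ≤ PG1 M := fun γ hγ =>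
  Gamma1_le_PG1 M (by
    rw [CongruenceSubgroup.Gamma_mem] at hγ
    rw [CongruenceSubgroup.Gamma1_mem]
    exact ⟨hγ.1, hγ.2.2.2, hγ.2.2.1⟩)

variable (M) in
/-- **The four global inputs at the cusps of `X₁(M)`.** -/
theorem good1 (hD : DistinctC1 hW) (hG : GlobalC1 M) : Good (setup1 M hW hcusp) where
  distinct := by
    apply distinct_of_compSL
    intro γ γ' h
    apply hD
    intro u
    have h1 := h u
    rw [setup1_real] at h1
    exact h1
  isGen := by
    rw [jF_setup1]
    exact hG.isGen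
  card_eq := by
    rw [jF_setup1]
    exact hG.finrank_eq.symm
  width := width_of_Gamma_le Gamma_le_PG1

/-! ### The dictionaries -/

include hcusp in
/-- **The cusp dictionary of `X₁(M)`** (input (I2) of `KumGenFinal18.kummerEquivFinal`). -/
theorem cuspDict1 (hD : DistinctC1 hW) (hG : GlobalC1 M) : CuspDict (realization1 hW) M :=
  cuspDict (good1 M hW hcusp hD hG) (Gamma1_le_PG1 M) (realization1 hW)
    (fun f => by rw [realization1_Θ, realMer_setup1])

/-- (POINT-SURJ) every place of `F₁,ℂ` which is not a pole of `j` is a point place. -/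
def PointAll1 : Prop :=
  ∀ v : Place ℂ (FC1 M), 0 ≤ v.ord (jC1 M) → ∃ z : ℍ, v = ptPlaceC1 hW 1 z

include hcusp in
/-- **The place dictionary of `X₁(M)`**, `5 ≤ M` (input (I3) of `KumGenFinal18.kummerEquivFinal`). -/
theorem placeDict1 (hM : 5 ≤ M) (hD : DistinctC1 hW) (hG : GlobalC1 M)
    (hsurj : KumCExact5.PointSurj1 hW) (hall : PointAll1 hW) :
    PlaceDict (realization1 hW) M :=
  placeDict (good1 M hW hcusp hD hG) (fun γ hγ => (mem_PG1_iff M).mp hγ)
    (fun γ hγ => trace_ne_neg_two_of_mem_Gamma1 hM γ hγ) (realization1 hW)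
    (fun f => by rw [realization1_Θ, realMer_setup1]) (fun v hv => by
      rw [jF_setup1] at hv
      obtain ⟨z, rfl⟩ := hall v hv
      refine ⟨z, 1, one_ne_zero, fun f hf => ?_, fun h _ _ => one_dvd _⟩
      rw [one_mul, realization1_Θ]
      exact KumCExact5.ordMer_realMer1_eq hW (by omega) hG.isGen hG.finrank_eq hsurj z hf)

end Fermat.Agent.ES.R48.KumCuspOne18
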