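/-
Programme R (S48, Deligne–Serre), chapter GEOM, sub-chapter G5 KUM₁, brick K4 leg (7) (helper19):
**the Kummer map is equivariant for the diamond operators.**

For a map `κ : J₁(M)(ℚbar)[n] → Hom(Γ₁(M), ℂˣ)` with the characterisation
`KumIface5.IsKummerMap1 hW n κ` and `e ∈ (ℤ/M)ˣ`:

  `kummer_diamond1 : (κ ⟨diamondOne M e x, _⟩).toAdditive = dcD e⁻¹ (κ x).toAdditive`,

i.e. `κ (⟨e⟩ x) γ = κ x (δ γ δ⁻¹)` for any `δ ∈ Γ₀(M)` with `δ₀₀ ≡ e` (so `δ₁₁ ≡ e⁻¹`).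

Route: `x = [D]`, `n D = div f`, `h ^ n = anBar1 f`.  The diamond `τ = ⟨e⟩` is the field
automorphism `dia M hM e` (`W_c ↦ W_{e c}`), which on the analytic side is precomposition with
`δ` (`X1DiamondFinal11.Θ_dia_coe`): `anBar1 (τ f) = slMer δ (anBar1 f)`.  Hence `h' = slMer δ h`
is an `n`-th root for `τ f`, `n (τ • D) = div (τ f)`, and
`slMer γ h' = slMer δ (slMer (δ γ δ⁻¹) h) = κ x (δ γ δ⁻¹) · h'`.
-/
import Mathlib
import Fermat.Agent.ES.R48.KumIface5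
import Fermat.Agent.ES.R48.KumBetaMer9
import Fermat.Agent.ES.R48.X1DiamondFinal11

set_option autoImplicit false
set_option linter.unusedSectionVars false

open UpperHalfPlane hiding I
open scoped Manifold MatrixGroups
open CongruenceSubgroup AlgebraicCurve

noncomputable section

namespace Fermat.Agent.ES.R48.KumDiamond19

open Fermat.Agent.X0 Fermat.Agent.X0.Analytic Fermat.Agent.X0.SurjPoint Fermat.Agent.ES.KUM
open Fermat.Agent.ES.HEQ.QExpMer19 ModularCurve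
open Fermat.Agent.ES.R48.FF1Defs13 Fermat.Agent.ES.R48.X1Iface13 Fermat.Agent.ES.R48.CReal1_3
open Fermat.Agent.ES.R48.KumIface5 Fermat.Agent.ES.R48.JOneOps13
open Fermat.Agent.ES.R48.DcGamma1_9 Fermat.Agent.ES.R48.X1DiamondFinal11

variable {M : ℕ} [NeZero M]

/-! ### The realisation on `R₁ = ℚbar[j_d, W_c]` -/

/-- the realisation of `u ∈ R₁` has the `q`-expansion `u` (any `RealizeData1`). -/
theorem hasQExp_Θ (D : RealizeData1 M) (u : Rsub1 M) :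
    HasQExp (toC ((u : FF1 M) : LaurentSeries Kbar)) (D.Θ u) := by
  obtain ⟨m, P, hP, hu⟩ := D.isQExp u
  rw [hu, toC, Fermat.Agent.X0.coeffMap_laurentOf]
  exact X1Realize29.hasQExp_of_isQExp hP

/-- **bridge**: on `R₁` the realisation `anBar1` is the one of any `RealizeData1` (twin of
`RealBar19.anBar_coe`). -/
theorem anBar1_coe (hW : WAnalytic M) (D : RealizeData1 M) (u : Rsub1 M) :
    anBar1 hW (u : FF1 M) = algebraMap HolH MerH ⟨D.Θ u, D.mem_HolH u⟩ :=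
  anBar1_eq hW (hasQExpMer_of_hasQExp (a := ⟨D.Θ u, D.mem_HolH u⟩) (hasQExp_Θ D u))

/-- precomposition with `δ` on `HolH`, in terms of `compSL`. -/
theorem compSLHom_mk (δ : SL(2, ℤ)) (g : ℍ → ℂ) (hg : g ∈ HolH) (hg' : compSL g δ ∈ HolH) :
    compSLHom δ ⟨g, hg⟩ = ⟨compSL g δ, hg'⟩ :=
  Subtype.ext rfl

/-! ### The diamond on the analytic side -/

/-- **`anBar1 (⟨e⟩ f) = (anBar1 f) ∘ δ`** for every `δ ∈ Γ₀(M)` with `δ₀₀ ≡ e`. -/
theorem anBar1_dia (hW : WAnalytic M) (hM : M ≠ 1) (e : (ZMod M)ˣ) {δ : SL(2, ℤ)}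
    (hδ : δ ∈ Gamma0 M) (he : ((δ 0 0 : ℤ) : ZMod M) = (e : ZMod M)) (f : FF1 M) :
    anBar1 hW (dia M hM e f) = slMer δ (anBar1 hW f) := by
  have := X1FracR1.isFractionRing M
  have key : (anBar1 hW).comp ((dia M hM e : FF1 M ≃ₐ[Kbar] FF1 M) : FF1 M →+* FF1 M)
      = (slMer δ).comp (anBar1 hW) := by
    refine IsFractionRing.ringHom_ext (A := Rsub1 M) fun u => ?_
    obtain ⟨u', hu', hΘ⟩ := Θ_dia_coe M hM e hδ he u
    set D := X1RealizeFinal29.realizeData1 M hM with hD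
    show anBar1 hW (dia M hM e (u : FF1 M)) = slMer δ (anBar1 hW (u : FF1 M))
    rw [hu', anBar1_coe hW D u', anBar1_coe hW D u, slMer_algebraMap]
    congr 1
    exact Subtype.ext hΘ
  exact congrArg (fun φ : FF1 M →+* MerH => φ f) key

/-! ### Entries of `δ ∈ Γ₀(M)` -/

/-- if `δ ∈ Γ₀(M)` has `δ₀₀ ≡ e` then `δ₁₁ ≡ e⁻¹`. -/
theorem lower_right_of_upper_left {δ : SL(2, ℤ)} (hδ : δ ∈ Gamma0 M) {e : (ZMod M)ˣ}
    (he : ((δ 0 0 : ℤ) : ZMod M) = (e : ZMod M)) :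
    ((δ 1 1 : ℤ) : ZMod M) = ((e⁻¹ : (ZMod M)ˣ) : ZMod M) := by
  rw [Gamma0_mem] at hδ
  have hdet : δ 0 0 * δ 1 1 - δ 0 1 * δ 1 0 = 1 := by
    have := δ.det_coe
    rwa [Matrix.det_fin_two] at this
  have h := congrArg (Int.cast : ℤ → ZMod M) hdet
  push_cast at h
  rw [hδ, mul_zero, sub_zero, he] at h
  calc ((δ 1 1 : ℤ) : ZMod M)
      = ((e⁻¹ : (ZMod M)ˣ) : ZMod M) * ((e : ZMod M) * ((δ 1 1 : ℤ) : ZMod M)) := by
        rw [← mul_assoc, Units.inv_mul, one_mul]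
    _ = ((e⁻¹ : (ZMod M)ˣ) : ZMod M) := by rw [h, mul_one]

/-! ### The equivariance -/

/-- the torsion class `⟨e⟩ x`. -/
theorem diamondOne_mem_torsion {n : ℕ} (e : (ZMod M)ˣ)
    (x : ↥(Pic0.torsion Kbar (FF1 M) n)) :
    diamondOne M e (x : Pic0 Kbar (FF1 M)) ∈ Pic0.torsion Kbar (FF1 M) n :=
  SemilinearAut.smul_mem_torsion (diamondAut (AlgebraicClosure ℚ) M e) x.2

/-- **Diamond equivariance of the Kummer map, pointwise form**: for every `δ ∈ Γ₀(M)` with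
`δ₀₀ ≡ e`, `κ (⟨e⟩ x) γ = κ x (δ γ δ⁻¹)`. -/
theorem kummer_diamond1_apply (hW : WAnalytic M) (hM : M ≠ 1) {n : ℕ}
    {κ : ↥(Pic0.torsion Kbar (FF1 M) n) → (↥(Gamma1 M) →* ℂˣ)} (hκ : IsKummerMap1 hW n κ)
    (e : (ZMod M)ˣ) {δ : SL(2, ℤ)} (hδ : δ ∈ Gamma0 M)
    (he : ((δ 0 0 : ℤ) : ZMod M) = (e : ZMod M))
    (x : ↥(Pic0.torsion Kbar (FF1 M) n)) :
    κ ⟨diamondOne M e (x : Pic0 Kbar (FF1 M)), diamondOne_mem_torsion e x⟩
      = (κ x).comp (conjG1 δ hδ) := by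
  obtain ⟨D, f, hD, hf, hDf⟩ := exists_rep_div1 n x
  obtain ⟨⟨h, hh0, hh⟩, hall⟩ := hκ x D f hD hf hDf
  set τ : SemilinearAut Kbar (FF1 M) := diamondAut (AlgebraicClosure ℚ) M e with hτ
  have hτf : τ • f = dia M hM e f := by
    rw [hτ, diamondAut, SemilinearAut.ofAlgAut_smul, diamondBar_eq_dia M hM e]
  refine IsKummerMap1.eq_of_root hκ
    (⟨diamondOne M e (x : Pic0 Kbar (FF1 M)), diamondOne_mem_torsion e x⟩ :
      ↥(Pic0.torsion Kbar (FF1 M) n))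
    (D := SemilinearAut.degZeroSMulHom τ D) (f := τ • f) (h := slMer δ h) ?_ ?_ ?_ ?_ ?_ ?_
  · -- the class
    show Pic0.mk (SemilinearAut.degZeroSMulHom τ D) = diamondOne M e (x : Pic0 Kbar (FF1 M))
    rw [diamondOne_apply, ← hD, SemilinearAut.pic0_smul_mk]
  · -- `τ f ≠ 0`
    intro h0
    apply hf
    have := congrArg (fun y => τ⁻¹ • y) h0
    simpa using this
  · -- `n (τ • D) = div (τ f)`
    intro v
    rw [SemilinearAut.coe_degZeroSMulHom, ← smul_comm, SemilinearAut.divisor_smul_apply, hDf]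
    have h1 := SemilinearAut.ord_smul τ (τ⁻¹ • v) f
    rw [smul_inv_smul] at h1
    exact h1.symm
  · -- `h' ≠ 0`
    exact (map_ne_zero_iff _ (slMer δ).injective).mpr hh0
  · -- `h' ^ n = anBar1 (τ f)`
    rw [← map_pow, hh, hτf, anBar1_dia hW hM e hδ he f]
  · -- the transformation law
    intro γ
    rw [KumBetaMer9.slMer_slMer_conjG1 hδ γ h, hall h hh0 hh (conjG1 δ hδ γ), map_mul,
      slMer_constMerHom]
    rfl

/-- **Diamond equivariance of the Kummer map** (K4, leg (7)):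
`κ (⟨e⟩ x) = dcD e⁻¹ (κ x)` in additive notation. -/
theorem kummer_diamond1 (hW : WAnalytic M) (hM : M ≠ 1) {n : ℕ}
    {κ : ↥(Pic0.torsion Kbar (FF1 M) n) → (↥(Gamma1 M) →* ℂˣ)} (hκ : IsKummerMap1 hW n κ)
    (e : (ZMod M)ˣ) (x : ↥(Pic0.torsion Kbar (FF1 M) n)) :
    (κ ⟨diamondOne M e (x : Pic0 Kbar (FF1 M)), diamondOne_mem_torsion e x⟩).toAdditive
      = dcD e⁻¹ (κ x).toAdditive := by
  obtain ⟨δ, hδ, he⟩ := X1Diamond11.exists_Gamma0_upper M e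
  rw [kummer_diamond1_apply hW hM hκ e hδ he x]
  refine AddMonoidHom.ext fun a => ?_
  obtain ⟨γ, rfl⟩ : ∃ γ : Gamma1 M, Additive.ofMul γ = a := ⟨Additive.toMul a, rfl⟩
  rw [dcD_apply_of_rep e⁻¹ (κ x).toAdditive hδ (lower_right_of_upper_left hδ he) γ]
  rfl

end Fermat.Agent.ES.R48.KumDiamond19
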