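/-
Programme R (S48), chapter GEOM, sub-chapter G5 KUM₁ (helper25): the facts of `KumFieldL25` at
`L = ℂ` **in the names of `CReal1_3`** (`FC1 M`, `jC1 M`), from the two `ℚ̄`-level outputs of G2
(`X1Degree14`) taken as hypotheses in their literal shapes:
`hQ : FF.IsGen Kbar (jF1 M)` and `hdeg : Nat.card (SL(2,ℤ) ⧸ PG1 M) = finrank (Kj1 M) (FF1 M)`.

* `coe_jC1`, `jC1_eq_jL1 : jC1 M = jL1 ℂ M`;
* `isGen_jC1`, `finrank_jC1`, `finrank_jC1_eq_card`, `finrank_jC1_eq_index`;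
* `hasPrincipalDivisorsC1`, `constOnlyC1` (CONST of the Kummer setting), `deg_eq_oneC1`,
  `exists_divisorC1`, `nonempty_placeC1`.
No instance, no attribute, no notation.
-/
import Mathlib
import Fermat.Agent.ES.KUM.KummerAbstract17
import Fermat.Agent.RR.LHypGen
import Fermat.Agent.ES.R48.CReal1_3
import Fermat.Agent.ES.R48.KumFieldL25

set_option autoImplicit false

noncomputable section

open HahnSeries ModularCurve IntermediateField AlgebraicCurve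
open scoped MatrixGroups

namespace Fermat.Agent.ES.R48.KumFieldC25

open Fermat.Agent.X0 Fermat.Agent.ES.KUM.KummerAbstract17
open Fermat.Agent.ES.R48.FF1Defs13 Fermat.Agent.ES.R48.X1Iface13
open Fermat.Agent.ES.R48.CReal1_3 Fermat.Agent.ES.R48.KumFieldL25

variable (M : ℕ) [NeZero M]

omit [NeZero M] in
/-- the underlying series of `CReal1_3.jC1 M` is `jqModC ℂ`. -/
theorem coe_jC1 : ((jC1 M : FC1 M) : LaurentSeries ℂ) = jqModC ℂ := by
  show coeffEmb ℂ (qExpand ℚ 1 jq) = jqModC ℂ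
  rw [qExpand_one_apply, coeffEmb, ← jqModC_rat, coeffMap_jqModC]

omit [NeZero M] in
theorem jC1_eq_jL1 : jC1 M = jL1 ℂ M := Subtype.ext (coe_jC1 M)

/-- G2's `IsGen` in the form used by `KumFieldL25`. -/
theorem isGen_jL1_Kbar_of_jF1 (hQ : FF.IsGen Kbar (jF1 M)) : FF.IsGen Kbar (jL1 Kbar M) := by
  rw [← jF1_eq_jL1]
  exact hQ

variable (hQ : FF.IsGen Kbar (jF1 M))

include hQ

/-- `j` is a transcendental generator of `F₁,ℂ / ℂ`. -/
theorem isGen_jC1 : FF.IsGen ℂ (jC1 M) := by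
  rw [jC1_eq_jL1]
  exact isGen_jL1 ℂ M (isGen_jL1_Kbar_of_jF1 M hQ)

/-- `[F₁,ℂ : ℂ(j)] = [F₁ : ℚ̄(j)]`. -/
theorem finrank_jC1 :
    Module.finrank ↥(ℂ⟮jC1 M⟯ : IntermediateField ℂ (FC1 M)) (FC1 M) =
      Module.finrank ↥(Kj1 M) (FF1 M) := by
  rw [jC1_eq_jL1]
  exact finrank_jL1 ℂ M (isGen_jL1_Kbar_of_jF1 M hQ)

/-- `[F₁,ℂ : ℂ(j)] = #(SL(2,ℤ) ⧸ ±Γ₁(M))`, in the shape of `X1Degree14.card_eq_finrank`. -/
theorem finrank_jC1_eq_card
    (hdeg : Nat.card (SL(2, ℤ) ⧸ PG1 M) = Module.finrank ↥(Kj1 M) (FF1 M)) :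
    Module.finrank ↥(ℂ⟮jC1 M⟯ : IntermediateField ℂ (FC1 M)) (FC1 M) =
      Nat.card (SL(2, ℤ) ⧸ PG1 M) := by
  rw [finrank_jC1 M hQ, hdeg]

/-- the same with the index, in the shape of `X1Degree14.finrank_Kj1`. -/
theorem finrank_jC1_eq_index
    (hdeg : Module.finrank ↥(Kj1 M) (FF1 M) = (PG1 M).index) :
    Module.finrank ↥(ℂ⟮jC1 M⟯ : IntermediateField ℂ (FC1 M)) (FC1 M) = (PG1 M).index := by
  rw [finrank_jC1 M hQ, hdeg]

theorem finiteDimensional_jC1 :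
    FiniteDimensional ↥(ℂ⟮jC1 M⟯ : IntermediateField ℂ (FC1 M)) (FC1 M) :=
  (isGen_jC1 M hQ).finite

/-- Principal divisors of `F₁,ℂ` exist (finite support) and have degree `0`. -/
theorem hasPrincipalDivisorsC1 : HasPrincipalDivisors ℂ (FC1 M) :=
  FFGenus.hasPrincipalDivisors (isGen_jC1 M hQ)

/-- **(CONST)**: functions of `F₁,ℂ` without poles are constant. -/
theorem constOnlyC1 : ConstOnly ℂ (FC1 M) := fun _ hf =>
  Fermat.Agent.RR.LSpace.eq_algebraMap_of_forall_ord_nonneg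
    (Fermat.Agent.RR.LHypGen.lHyp_of_isGen (isGen_jC1 M hQ)) hf

/-- Every place of `F₁,ℂ / ℂ` has degree `1`. -/
theorem deg_eq_oneC1 (v : Place ℂ (FC1 M)) : v.deg = 1 :=
  FF.deg_eq_one (isGen_jC1 M hQ) v

/-- The divisor of a nonzero function, as a `Finsupp`, of degree `0`. -/
theorem exists_divisorC1 {f : FC1 M} (hf : f ≠ 0) :
    ∃ D : Divisor ℂ (FC1 M), (∀ v, D v = v.ord f) ∧ Divisor.degree D = 0 :=
  (hasPrincipalDivisorsC1 M hQ).exists_divisor f hf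

/-- `F₁,ℂ` has at least one place. -/
theorem nonempty_placeC1 : Nonempty (Place ℂ (FC1 M)) :=
  nonempty_place_L1 ℂ M (isGen_jL1_Kbar_of_jF1 M hQ)

end Fermat.Agent.ES.R48.KumFieldC25
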