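/-
Programme R (S48, Deligne–Serre), chapter GEOM, sub-chapter G5 KUM₁ (helper3):
**`CReal1_3.WAnalytic M` for every level `M ≠ 1`, unconditionally** — the closer that lets every
G5 consumer discharge the hypothesis `hW : WAnalytic M` of `CReal1_3` / `CPoint1_3`.

* `coeffEmb_wq` : `coeffEmb ℂ (wq M c) = laurentOf 1 ((wNumQ M c).map (algebraMap ℚ ℂ))`;
* `hasQExp_wFun` : G1-E2 (`WInfty19.isQExp_wFun`, helper19) in the `X0.Analytic.HasQExp` form,
  through main's `X0.Integrality.intg_hasQExp_of_isQExp`;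
* **`wAnalytic M hM : WAnalytic M`** (E2 + E3 `WSlash29.wSlash`, helper29).
-/
import Fermat.Agent.ES.R48.CReal1_3
import Fermat.Agent.ES.R48.WInfty19
import Fermat.Agent.ES.R48.WSlash29
import Fermat.Agent.X0.Integrality

set_option autoImplicit false
set_option linter.unusedSectionVars false

open UpperHalfPlane

noncomputable section

namespace Fermat.Agent.ES.R48.WAnalyticFinal3

open Fermat.Agent.X0 Fermat.Agent.X0.Analytic Fermat.Agent.ES.R48.X1Iface13
  Fermat.Agent.ES.R48.FF1Defs13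
  Fermat.Agent.ES.R48.CReal1_3

variable (M : ℕ) [NeZero M]

/-- a unit of `ZMod M` is nonzero for `M ≠ 1`. -/
theorem unit_ne_zero (hM : M ≠ 1) (c : (ZMod M)ˣ) : (c : ZMod M) ≠ 0 := by
  have : Nontrivial (ZMod M) := ZMod.nontrivial_iff.mpr hM
  exact c.ne_zero

/-- the formal `W_d` over `ℂ` as `q⁻¹ ·` its numerator. -/
theorem coeffEmb_wq (d : ZMod M) :
    ModularCurve.coeffEmb ℂ (wq M d) = laurentOf 1 ((wNumQ M d).map (algebraMap ℚ ℂ)) := by
  have h1 : wq M d = laurentOf 1 (wNumQ M d) := by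
    simp [wq, laurentOf]
  rw [ModularCurve.coeffEmb, h1, coeffMap_laurentOf]

/-- **G1-E2 in the `HasQExp` form**: the analytic `W_c` has the convergent expansion `wq M c`. -/
theorem hasQExp_wFun (d : ZMod M) (hd : d ≠ 0) :
    HasQExp (ModularCurve.coeffEmb ℂ (wq M d)) (wFun M d) := by
  rw [coeffEmb_wq]
  exact intg_hasQExp_of_isQExp (WInfty19.isQExp_wFun M d hd)

/-- **The analytic input of G5, for every level `M ≠ 1`.** -/
theorem wAnalytic (hM : M ≠ 1) : WAnalytic M where
  hasQExp c := hasQExp_wFun M (c : ZMod M) (unit_ne_zero M hM c)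
  slash := WSlash29.wSlash M

end Fermat.Agent.ES.R48.WAnalyticFinal3
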