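/-
Programme R (S48, Deligne–Serre), chapter GEOM, sub-chapter G5 KUM₁ (helper29):
**the cusp input `KumReal1_3.WCusp M` of the Kummer chapter, unconditionally for `M ≠ 1`** —
G1-E4 (`WCusp10.isQExp_compSL_wFun`, helper10) with the coefficients forgotten, and the resulting
unconditional cusp expansions of `R₁,ℂ = ℂ[j_d, W_c]`.

* **`wCusp M hM : KumReal1_3.WCusp M`**;
* `exists_cuspExpC1 M hM γ u` : every `Θ₁,ℂ u ∘ γ` has a `q_M`-expansion, at the canonical
  analytic input `WAnalyticFinal3.wAnalytic M hM`.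
-/
import Fermat.Agent.ES.R48.KumReal1_3
import Fermat.Agent.ES.R48.WAnalyticFinal3
import Fermat.Agent.ES.R48.WCusp10

set_option autoImplicit false
set_option linter.unusedSectionVars false

open UpperHalfPlane
open scoped MatrixGroups

noncomputable section

namespace Fermat.Agent.ES.R48.KumWCusp29

open Fermat.Agent.X0 Fermat.Agent.X0.SurjPoint Fermat.Agent.ES.KUM
open Fermat.Agent.ES.R48.X1Iface13 Fermat.Agent.ES.R48.CReal1_3

variable (M : ℕ) [NeZero M]

/-- **G1-E4 in the shape consumed by G5** (coefficients forgotten; witness: pole order `M`,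
series `WCusp10.cuspW M (zetaC M) c γ`). -/
theorem wCusp (hM : M ≠ 1) : KumReal1_3.WCusp M :=
  fun c γ => ⟨M, _, WCusp10.isQExp_compSL_wFun M (WAnalyticFinal3.unit_ne_zero M hM c) γ⟩

/-- Every `Θ₁,ℂ u ∘ γ` has a `q_M`-expansion, for any analytic input `hW`. -/
theorem exists_cuspExpC1_of (hM : M ≠ 1) (hW : WAnalytic M) (γ : SL(2, ℤ)) (u : RC1 M) :
    ∃ (m : ℕ) (P : PowerSeries ℂ),
      IsQExp M (compSL ((realC1 hW u : HolH) : ℍ → ℂ) γ) m P :=
  KumReal1_3.exists_cuspExpC1 hW (wCusp M hM) γ u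

/-- The same at the canonical analytic input. -/
theorem exists_cuspExpC1 (hM : M ≠ 1) (γ : SL(2, ℤ)) (u : RC1 M) :
    ∃ (m : ℕ) (P : PowerSeries ℂ),
      IsQExp M (compSL ((realC1 (WAnalyticFinal3.wAnalytic M hM) u : HolH) : ℍ → ℂ) γ) m P :=
  exists_cuspExpC1_of M hM _ γ u

end Fermat.Agent.ES.R48.KumWCusp29
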