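/-
Programme R (S48, Deligne–Serre), chapter GEOM, sub-chapter G5 KUM₁ (helper5): **the closer of
`GeomClose13.FiniteExport`** — `J₁(M)(ℚbar)[ℓ]` is finite, unconditionally (`3 ≤ M`).

Pure plugging:
* `hW := WAnalyticFinal3.wAnalytic`, `hcusp := KumWCusp29.wCusp` (G1);
* `hQ := X1GenFinal12.isGen_jF1`, `X1GenFinal12.card_eq_finrank` (G2) ⇒ the degree over `ℂ`
  (`KumFieldC25.finrank_jC1_eq_index`), (CONST) `KumFieldC25.constOnlyC1`;
* (INV) `KumEisFinal3.rootMem1` ⇒ `KumGenFinal18.finite_torsion_of` (`Γ₁(M)` is finitely generated);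
* the descent `KumDescentFinal25.finite_setOf_nsmul_eq_zero1`.

The named inputs `hW1`, `hcusp1`, `hQ1`, `hQL1`, `hdegC1`, `hc1`, `fg_Gamma1`, `finite_torsionC1` are
re-used by the closer of `KappaExport`.
-/
import Mathlib
import Fermat.Agent.S22.CocycleFG
import Fermat.Agent.ES.R48.WAnalyticFinal3
import Fermat.Agent.ES.R48.KumWCusp29
import Fermat.Agent.ES.R48.X1GenFinal12
import Fermat.Agent.ES.R48.KumFieldC25
import Fermat.Agent.ES.R48.KumEisFinal3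
import Fermat.Agent.ES.R48.KumDescentFinal25
import Fermat.Agent.ES.R48.GeomClose13

set_option autoImplicit false

open CongruenceSubgroup ModularCurve AlgebraicCurve IntermediateField
open scoped MatrixGroups

noncomputable section

namespace Fermat.Agent.ES.R48.KumFinite5

open Fermat.Agent.X0 Fermat.Agent.ES.KUM.KummerAbstract17
  Fermat.Agent.ES.R48.FF1Defs13 Fermat.Agent.ES.R48.X1Iface13
  Fermat.Agent.ES.R48.CReal1_3 Fermat.Agent.ES.R48.KumReal1_3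
  Fermat.Agent.ES.R48.KumGen18 Fermat.Agent.ES.R48.KumGenFinal18

variable (M : ℕ) [NeZero M]

omit [NeZero M] in
theorem ne_one_of_three_le (hM : 3 ≤ M) : M ≠ 1 := by omega

/-- **G1**: the analytic input. -/
theorem hW1 (hM : 3 ≤ M) : WAnalytic M := WAnalyticFinal3.wAnalytic M (ne_one_of_three_le M hM)

/-- **G1**: the expansions of the `W_c` at all cusps. -/
theorem hcusp1 (hM : 3 ≤ M) : WCusp M := KumWCusp29.wCusp M (ne_one_of_three_le M hM)

/-- **G2**: `j` generates `F1bar M`. -/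
theorem hQ1 (hM : 3 ≤ M) : FF.IsGen Kbar (jF1 M) := X1GenFinal12.isGen_jF1 M hM

/-- the same in the names of `KumFieldL25`. -/
theorem hQL1 (hM : 3 ≤ M) : FF.IsGen Kbar (KumFieldL25.jL1 Kbar M) :=
  KumFieldC25.isGen_jL1_Kbar_of_jF1 M (hQ1 M hM)

/-- **G2**: `[F₁,ℂ : ℂ(j)] = (SL(2, ℤ) : ±Γ₁(M))`. -/
theorem hdegC1 (hM : 3 ≤ M) :
    Module.finrank ↥(ℂ⟮jC1 M⟯ : IntermediateField ℂ (FC1 M)) (FC1 M) = (PG1 M).index :=
  KumFieldC25.finrank_jC1_eq_index M (hQ1 M hM) (X1GenFinal12.card_eq_finrank M hM).symm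

/-- the same with the cardinality of the quotient. -/
theorem hdegC1_card (hM : 3 ≤ M) :
    Module.finrank ↥(ℂ⟮jC1 M⟯ : IntermediateField ℂ (FC1 M)) (FC1 M)
      = Nat.card (SL(2, ℤ) ⧸ PG1 M) :=
  KumFieldC25.finrank_jC1_eq_card M (hQ1 M hM) (X1GenFinal12.card_eq_finrank M hM)

/-- (CONST) over `ℂ`. -/
theorem hc1 (hM : 3 ≤ M) : ConstOnly ℂ (FC1 M) := KumFieldC25.constOnlyC1 M (hQ1 M hM)

/-- `Γ₁(M)` is finitely generated. -/
theorem fg_Gamma1 : Group.FG ↥(Gamma1 M) :=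
  (Group.fg_iff_subgroup_fg _).mpr (Fermat.Agent.S22.fg_of_finiteIndex (Gamma1 M))

/-- (INV) over `ℂ`. -/
theorem hroot1 (hM : 3 ≤ M) (n : ℕ) [NeZero n] : RootMem (realization1 (hW1 M hM)) n :=
  KumEisFinal3.rootMem1 (hW1 M hM) (hcusp1 M hM) (hdegC1 M hM) (NeZero.ne n)

/-- **`Pic⁰(F₁,ℂ)[n]` is finite.** -/
theorem finite_torsionC1 (hM : 3 ≤ M) (n : ℕ) [NeZero n] :
    Finite ↥(Pic0.torsion ℂ (FC1 M) n) :=
  finite_torsion_of (R := realization1 (hW1 M hM)) (hc1 M hM) n (hroot1 M hM n) (fg_Gamma1 M)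

/-- **`J₁(M)(ℚbar)[n]` is finite.** -/
theorem torsionFinite (hM : 3 ≤ M) (n : ℕ) [NeZero n] : GeomIface13.TorsionFinite M n := by
  have : Finite ↥(Pic0.torsion ℂ (KumDescentFinal25.FCx1 M) n) := finite_torsionC1 M hM n
  exact KumDescentFinal25.finite_setOf_nsmul_eq_zero1 M (hQL1 M hM) n

/-- **G5 (A)**: `GeomClose13.FiniteExport`. -/
theorem finiteExport : GeomClose13.FiniteExport := by
  intro M ℓ _ hℓ h5 hℓM
  have hM : 3 ≤ M :=
    le_trans (by omega) (Nat.le_of_dvd (Nat.pos_of_ne_zero (NeZero.ne M)) hℓM)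
  have : NeZero ℓ := ⟨hℓ.ne_zero⟩
  exact torsionFinite M hM ℓ

end Fermat.Agent.ES.R48.KumFinite5
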