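/-
Programme R (S48, Deligne–Serre), chapter GEOM, sub-chapter G5 KUM₁ (helper5): **the closer of
`GeomTop13.KappaExport`, abstractly.**

Given an injective additive map `κ : J₁(M)(ℚbar)[ℓ] → Hom(Γ₁(M), ℂˣ)` whose image contains the
Kummer characters `KumGen18.KumChar (Gamma1 M) ℓ`, and which is equivariant

  `κ (heckeOne M p x) = dcTs p (κ x)`,   `κ (diamondOne M e x) = dcD e⁻¹ (κ x)`

(`KumHecke9.kummer_hecke1`, `kummer_diamond1`), a joint eigenvector `v̄ ∈ Λ/ℓΛ` of `(dcT, dcD)` with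
the eigensystem `(θT, θD)` (`PerIface9.EigenOccurs`) gives the joint eigenvector
`x = κ⁻¹ (ζ ^ v̄)` of `(heckeOne, diamondOne)` with the eigensystem `(θT / θD, θD⁻¹)`
(`GeomIface13.EigenOccursJ`): `ζ ^ ·` commutes with the double coset operators (`dcTs_comp`,
`dcD_comp`), and `dcTs v̄ = (θT p · θD(p)⁻¹) • v̄` (`DcDual9.dcTs_eigen`).
-/
import Mathlib
import Fermat.Agent.ES.R48.GeomIface13
import Fermat.Agent.ES.R48.PerIface9
import Fermat.Agent.ES.R48.DcDual9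
import Fermat.Agent.ES.R48.KumGenFinal18
import Fermat.Agent.ES.R48.X1Iface13

set_option autoImplicit false
set_option linter.unusedSectionVars false

open CongruenceSubgroup ModularCurve ModularCurve.Period AlgebraicCurve
open scoped MatrixGroups

noncomputable section

namespace Fermat.Agent.ES.R48.KumKappaAbs5

open Fermat.Agent.X0 Fermat.Agent.ES.R48.TpForm9
  Fermat.Agent.ES.R48.FF1Defs13 Fermat.Agent.ES.R48.X1Iface13
  Fermat.Agent.ES.R48.JOneOps13 Fermat.Agent.ES.R48.GeomIface13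
  Fermat.Agent.ES.R48.DcGamma1_9 Fermat.Agent.ES.R48.DcDual9
  Fermat.Agent.ES.R48.KumGen18 Fermat.Agent.ES.R48.KumGenFinal18

/-! ### `ζ ^ ·` as an additive map -/

section Zeta

variable {n : ℕ} [NeZero n]

/-- `a ↦ ζ ^ a` as an additive map `ZMod n →+ Additive ℂˣ`, for `ζ ^ n = 1`. -/
def zetaHom (ζ : ℂˣ) (hζ : ζ ^ n = 1) : ZMod n →+ Additive ℂˣ where
  toFun a := Additive.ofMul (zpowZMod ζ a)
  map_zero' := by rw [zpowZMod_zero]; rfl
  map_add' a b := by rw [zpowZMod_add hζ]; rfl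

theorem zetaHom_apply (ζ : ℂˣ) (hζ : ζ ^ n = 1) (a : ZMod n) :
    zetaHom ζ hζ a = Additive.ofMul (ζ ^ a.val) := rfl

variable {Γ : Subgroup SL(2, ℤ)}

/-- `charOfHom ζ φ`, read additively, is `ζ ^ · ∘ φ`. -/
theorem toAdditive_charOfHom (ζ : ℂˣ) (hζ : ζ ^ n = 1) (φ : Additive ↥Γ →+ ZMod n) :
    MonoidHom.toAdditive (charOfHom ζ hζ φ) = (zetaHom ζ hζ).comp φ := rfl

/-- `ζ ^ (c · a) = (ζ ^ a) ^ c.val`. -/
theorem zetaHom_mul (ζ : ℂˣ) (hζ : ζ ^ n = 1) (c a : ZMod n) :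
    zetaHom ζ hζ (c * a) = c.val • zetaHom ζ hζ a := by
  have h : c * a = c.val • a := by
    rw [nsmul_eq_mul, ZMod.natCast_val, ZMod.cast_id', id_eq]
  rw [h, map_nsmul]

theorem zetaHom_comp_smul (ζ : ℂˣ) (hζ : ζ ^ n = 1) (c : ZMod n) (φ : Additive ↥Γ →+ ZMod n) :
    (zetaHom ζ hζ).comp (c • φ) = c.val • (zetaHom ζ hζ).comp φ := by
  refine AddMonoidHom.ext fun γ => ?_
  rw [AddMonoidHom.comp_apply, AddMonoidHom.smul_apply, smul_eq_mul, zetaHom_mul,
    AddMonoidHom.nsmul_apply, AddMonoidHom.comp_apply]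

end Zeta

/-! ### The abstract closer -/

section Closer

variable {M ℓ : ℕ} [NeZero M] [NeZero ℓ]

/-- `GeomIface13.unitNat M p` is `DcGamma1_9.primeUnit`. -/
theorem unitNat_eq_primeUnit {p : ℕ} (hp : p.Prime) (hpM : ¬ p ∣ M) :
    unitNat M p = primeUnit hp hpM := by
  apply Units.ext
  rw [unitNat_of_prime hp hpM, coe_primeUnit hp hpM]

/-- a torsion class, as a point of `J₁(M)`, is killed by `ℓ`. -/
theorem nsmul_coe_eq_zero (x : ↥(Pic0.torsion Kbar (FF1 M) ℓ)) : ℓ • (x : JOne M) = 0 := by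
  have h := Pic0.mem_torsion.mp x.2
  rwa [natCast_zsmul] at h

theorem mem_torsion_of_nsmul {y : JOne M} (h : ℓ • y = 0) : y ∈ Pic0.torsion Kbar (FF1 M) ℓ := by
  rw [Pic0.mem_torsion, natCast_zsmul]
  exact h

/-- an additive endomorphism of `J₁(M)` preserves the `ℓ`-torsion. -/
theorem map_mem_torsion (T : JOne M →+ JOne M) (x : ↥(Pic0.torsion Kbar (FF1 M) ℓ)) :
    T (x : JOne M) ∈ Pic0.torsion Kbar (FF1 M) ℓ := by
  apply mem_torsion_of_nsmul
  rw [← map_nsmul, nsmul_coe_eq_zero, map_zero]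

/-- the character of a class, read additively. -/
def addChar (κ : ↥(Pic0.torsion Kbar (FF1 M) ℓ) →+ Additive (↥(Gamma1 M) →* ℂˣ))
    (x : ↥(Pic0.torsion Kbar (FF1 M) ℓ)) : Additive ↥(Gamma1 M) →+ Additive ℂˣ :=
  MonoidHom.toAdditive (Additive.toMul (κ x))

theorem addChar_nsmul (κ : ↥(Pic0.torsion Kbar (FF1 M) ℓ) →+ Additive (↥(Gamma1 M) →* ℂˣ))
    (c : ℕ) (x : ↥(Pic0.torsion Kbar (FF1 M) ℓ)) : addChar κ (c • x) = c • addChar κ x := by
  refine AddMonoidHom.ext fun γ => ?_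
  rw [addChar, map_nsmul]
  rfl

theorem addChar_injective
    {κ : ↥(Pic0.torsion Kbar (FF1 M) ℓ) →+ Additive (↥(Gamma1 M) →* ℂˣ)}
    (hinj : Function.Injective κ) : Function.Injective (addChar κ) := by
  intro x y h
  apply hinj
  apply Additive.toMul.injective
  exact MonoidHom.toAdditive.injective h

/-- **The abstract closer of `KappaExport`.** -/
theorem eigenOccursJ_of_kummer [Fact ℓ.Prime]
    (κ : ↥(Pic0.torsion Kbar (FF1 M) ℓ) →+ Additive (↥(Gamma1 M) →* ℂˣ))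
    (hinj : Function.Injective κ)
    (hsurj : ∀ χ ∈ KumChar (Gamma1 M) ℓ, ∃ x, κ x = Additive.ofMul χ)
    (hhecke : ∀ (p : ℕ) (hp : p.Prime) (hpM : ¬ p ∣ M) (x : ↥(Pic0.torsion Kbar (FF1 M) ℓ))
      (hx : heckeOne M p (x : JOne M) ∈ Pic0.torsion Kbar (FF1 M) ℓ),
      addChar κ ⟨heckeOne M p (x : JOne M), hx⟩ = dcTs hp hpM (addChar κ x))
    (hdia : ∀ (e : (ZMod M)ˣ) (x : ↥(Pic0.torsion Kbar (FF1 M) ℓ))
      (hx : diamondOne M e (x : JOne M) ∈ Pic0.torsion Kbar (FF1 M) ℓ),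
      addChar κ ⟨diamondOne M e (x : JOne M), hx⟩ = dcD e⁻¹ (addChar κ x))
    {θT : ℕ → ZMod ℓ} {θD : (ZMod M)ˣ →* (ZMod ℓ)ˣ}
    (h : PerIface9.EigenOccurs M ℓ θT (fun d => ((θD d : (ZMod ℓ)ˣ) : ZMod ℓ))) :
    EigenOccursJ M ℓ (tJOf θT θD) (fun e => (((θD⁻¹) e : (ZMod ℓ)ˣ) : ZMod ℓ)) := by
  obtain ⟨v, hv, hv0, hT, hD⟩ := h
  set w := PerIface9.redMod ℓ v with hw
  -- a primitive `ℓ`-th root of unity
  have hζ₀ : IsPrimitiveRoot (Complex.exp (2 * Real.pi * Complex.I / ℓ)) ℓ :=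
    Complex.isPrimitiveRoot_exp ℓ (NeZero.ne ℓ)
  obtain ⟨ζ, hζe⟩ := hζ₀.isUnit (NeZero.ne ℓ)
  have hζ : IsPrimitiveRoot ζ ℓ := by
    rw [← IsPrimitiveRoot.coe_units_iff, hζe]
    exact hζ₀
  have hζ1 : ζ ^ ℓ = 1 := hζ.pow_eq_one
  -- the class
  have hpar : IsParabolicHom (Gamma1 M) w := PerIface9.isParabolicHom_redMod hv
  obtain ⟨x, hx⟩ := hsurj _ (charOfHom_mem_kumChar ζ hζ1 hpar)
  have hax : addChar κ x = (zetaHom ζ hζ1).comp w := by
    rw [addChar, hx]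
    exact toAdditive_charOfHom ζ hζ1 w
  refine ⟨(x : JOne M), ?_, nsmul_coe_eq_zero x, ?_, ?_⟩
  · intro h0
    have hx0 : x = 0 := Subtype.ext h0
    rw [hx0, map_zero] at hx
    have h1 : charOfHom ζ hζ1 w = 1 := (Additive.ofMul.injective hx).symm
    exact hv0 ((charOfHom_eq_one_iff hζ w).mp h1)
  · intro p hp hpM
    have hmem := map_mem_torsion (heckeOne M p) x
    set t : ZMod ℓ := tJOf θT θD p with ht
    have h1 : addChar κ ⟨heckeOne M p (x : JOne M), hmem⟩ = addChar κ (t.val • x) := by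
      rw [hhecke p hp hpM x hmem, addChar_nsmul, hax, dcTs_comp,
        dcTs_eigen hp hpM (hT p hp hpM) hD, zetaHom_comp_smul]
      congr 2
      have htd : t = θT p * (((θD (unitNat M p))⁻¹ : (ZMod ℓ)ˣ) : ZMod ℓ) := rfl
      rw [htd, unitNat_eq_primeUnit hp hpM, map_inv]
    have h2 := addChar_injective hinj h1
    have h3 := congrArg (Subtype.val) h2
    rw [AddSubgroup.coe_nsmul] at h3
    exact h3
  · intro e
    have hmem := map_mem_torsion (diamondOne M e) x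
    set t : ZMod ℓ := (((θD⁻¹) e : (ZMod ℓ)ˣ) : ZMod ℓ) with ht
    have h1 : addChar κ ⟨diamondOne M e (x : JOne M), hmem⟩ = addChar κ (t.val • x) := by
      rw [hdia e x hmem, addChar_nsmul, hax, dcD_comp, hD e⁻¹, zetaHom_comp_smul]
      congr 2
      show ((θD e⁻¹ : (ZMod ℓ)ˣ) : ZMod ℓ) = _
      rw [ht, MonoidHom.inv_apply, map_inv]
    have h2 := addChar_injective hinj h1
    have h3 := congrArg (Subtype.val) h2
    rw [AddSubgroup.coe_nsmul] at h3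
    exact h3

/-! ### Finiteness -/

/-- `GeomIface13.TorsionFinite` from the finiteness of `Pic⁰(F1bar M)[ℓ]`. -/
theorem torsionFinite_of_finite (h : Finite ↥(Pic0.torsion Kbar (FF1 M) ℓ)) :
    TorsionFinite M ℓ := by
  have h1 : {x : JOne M | ℓ • x = 0} = ((Pic0.torsion Kbar (FF1 M) ℓ : AddSubgroup (JOne M)) :
      Set (JOne M)) := by
    ext x
    exact ⟨fun hx => mem_torsion_of_nsmul hx, fun hx => nsmul_coe_eq_zero ⟨x, hx⟩⟩
  unfold TorsionFinite
  rw [h1]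
  exact Set.toFinite _

/-- `GeomIface13.TorsionFinite` from an injection of `Pic⁰(F1bar M)[ℓ]` into a finite type. -/
theorem torsionFinite_of_injective {A : Type*} [Finite A]
    (e : ↥(Pic0.torsion Kbar (FF1 M) ℓ) → A) (he : Function.Injective e) : TorsionFinite M ℓ :=
  torsionFinite_of_finite (Finite.of_injective e he)

end Closer

end Fermat.Agent.ES.R48.KumKappaAbs5
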