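/-
Programme R (S48, Deligne–Serre), chapter GEOM, sub-chapter G5 KUM₁ (helper5): **the closer of
`GeomTop13.KappaExport` from the two remaining named inputs**

* `DictExport`  (helper18, `KumCuspOne18`): the cusp and place dictionaries of the realisation
  `realization1 hW` of `F₁,ℂ`, `5 ≤ M`;
* `HeckeEquivExport` (helper9, `KumHecke9`): the Hecke equivariance of any map satisfying the
  characterisation `KumIface5.IsKummerMap1`.

Everything else is plugged in: the diamond equivariance `KumDiamond19.kummer_diamond1`, the adapter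
`KumAdapter5`, the inputs `KumFinite5.hW1 … finite_torsionC1`, (I4)/(I5) `KumEisFinal3`, and the
abstract closer `KumKappaAbs5.eigenOccursJ_of_kummer`.
-/
import Mathlib
import Fermat.Agent.ES.R48.KumKappaAbs5
import Fermat.Agent.ES.R48.KumAdapter5
import Fermat.Agent.ES.R48.KumFinite5
import Fermat.Agent.ES.R48.KumDiamond19
import Fermat.Agent.ES.R48.GeomTop13

set_option autoImplicit false

open CongruenceSubgroup ModularCurve AlgebraicCurve
open scoped MatrixGroups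

noncomputable section

namespace Fermat.Agent.ES.R48.KumExportAbs5

open Fermat.Agent.X0 Fermat.Agent.ES.KUM.KummerAbstract17
  Fermat.Agent.ES.R48.FF1Defs13 Fermat.Agent.ES.R48.X1Iface13
  Fermat.Agent.ES.R48.JOneOps13 Fermat.Agent.ES.R48.GeomIface13
  Fermat.Agent.ES.R48.DcGamma1_9 Fermat.Agent.ES.R48.DcDual9
  Fermat.Agent.ES.R48.CReal1_3 Fermat.Agent.ES.R48.KumReal1_3 Fermat.Agent.ES.R48.KumIface5
  Fermat.Agent.ES.R48.KumGen18 Fermat.Agent.ES.R48.KumGenFinal18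
  Fermat.Agent.ES.R48.KumKappaAbs5 Fermat.Agent.ES.R48.KumAdapter5 Fermat.Agent.ES.R48.KumFinite5

/-- **(I2) + (I3)** (`KumCuspOne18`): the cusp and place dictionaries of `X₁(M)` over `ℂ`. -/
def DictExport : Prop :=
  ∀ (M : ℕ) [NeZero M], 5 ≤ M → ∀ hW : WAnalytic M,
    KumGenMult18.CuspDict (realization1 hW) M ∧ KumGenDiv18.PlaceDict (realization1 hW) M

/-- **K4** (`KumHecke9`): a map satisfying the characterisation of the Kummer map intertwines
`heckeOne M p` with the dual double coset operator `dcTs`. -/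
def HeckeEquivExport : Prop :=
  ∀ (M : ℕ) [NeZero M], 5 ≤ M → (4 ∣ M ∨ 9 ∣ M) → ∀ (hW : WAnalytic M) (n : ℕ)
    (κ : ↥(Pic0.torsion Kbar (FF1 M) n) → (↥(Gamma1 M) →* ℂˣ)), IsKummerMap1 hW n κ →
    ∀ (p : ℕ) (hp : p.Prime) (hpM : ¬ p ∣ M) (x : ↥(Pic0.torsion Kbar (FF1 M) n))
      (hx : heckeOne M p (x : JOne M) ∈ Pic0.torsion Kbar (FF1 M) n),
      MonoidHom.toAdditive (κ ⟨heckeOne M p (x : JOne M), hx⟩)
        = dcTs hp hpM (MonoidHom.toAdditive (κ x))

/-- **G5 (KUM₁)**: `GeomTop13.KappaExport`, from the dictionaries and the Hecke equivariance. -/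
theorem kappaExport_of (hDict : DictExport) (hHecke : HeckeEquivExport) :
    GeomTop13.KappaExport := by
  intro M ℓ _ hℓ h5 hℓM hbase θT θD hEO
  have hM5 : 5 ≤ M := h5.trans (Nat.le_of_dvd (Nat.pos_of_ne_zero (NeZero.ne M)) hℓM)
  have hM3 : 3 ≤ M := by omega
  have hM1 : M ≠ 1 := by omega
  have : Fact ℓ.Prime := ⟨hℓ⟩
  have : NeZero ℓ := ⟨hℓ.ne_zero⟩
  have hfinC : Finite ↥(Pic0.torsion ℂ (FC1 M) ℓ) := finite_torsionC1 M hM3 ℓ
  have hPD : HasPrincipalDivisors ℂ (FC1 M) := KumFieldC25.hasPrincipalDivisorsC1 M (hQ1 M hM3)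
  obtain ⟨hC, hP⟩ := hDict M hM5 (hW1 M hM3)
  have hroot := hroot1 M hM3 ℓ
  have hE : EigenRatio (realization1 (hW1 M hM3)) ℓ :=
    KumEisFinal3.eigenRatio1 (hW1 M hM3) (hcusp1 M hM3) (hdegC1 M hM3) hM3
  have hκ := isKummerMap1_kumQ1 M (hW1 M hM3) (hc1 M hM3) (hQL1 M hM3) ℓ
  refine eigenOccursJ_of_kummer (kumQAdd1 M (hW1 M hM3) (hc1 M hM3) (hQL1 M hM3) ℓ)
    (kumQAdd1_injective M _ _ _ ℓ hroot)
    (kumQAdd1_surjective M _ _ _ ℓ hC hP
      (fun γ hγ => KumGenMult18.trace_ne_neg_two_of_mem_Gamma1 hM5 γ hγ)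
      (KumGenDiv18.fixedTrace_Gamma1 hM5) hroot hE)
    (fun p hp hpM x hx => hHecke M hM5 hbase (hW1 M hM3) ℓ _ hκ p hp hpM x hx)
    (fun e x hx => KumDiamond19.kummer_diamond1 (hW1 M hM3) hM1 hκ e x) hEO

end Fermat.Agent.ES.R48.KumExportAbs5
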