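/-
Programme R (S48, Deligne–Serre), chapter GEOM / G5 KUM₁ (helper18): **`KumExportAbs5.DictExport`**
— the cusp and place dictionaries of the realisation `realization1 hW` of `F₁,ℂ`, `5 ≤ M`, with all
inputs discharged:

* (G1-E4) `KumFinite5.hcusp1` (helper29's `KumWCusp29.wCusp`);
* (DISTINCT over `ℂ`) `KumCSurj13.mem_PG1_of_compSL_realC1_eq`;
* (GEN + DEG over `ℂ`) `KumFieldC25.isGen_jC1`, `KumFinite5.hdegC1_card`;
* (POINT) `KumCSurj13.exists_ptPlaceC1_eq`, `KumCSurj13.exists_ptPlaceC1_of_ord_jC1_nonneg`,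
  `KumCExact5.ordMer_realMer1_eq` (inside `KumCuspOne18.placeDict1`).
-/
import Fermat.Agent.ES.R48.KumCuspOne18
import Fermat.Agent.ES.R48.KumExportAbs5
import Fermat.Agent.ES.R48.KumCSurj13

set_option autoImplicit false

open ModularCurve AlgebraicCurve IntermediateField
open scoped MatrixGroups

noncomputable section

namespace Fermat.Agent.ES.R48.KumDictFinal18

open Fermat.Agent.X0 Fermat.Agent.ES.R48.X1Iface13 Fermat.Agent.ES.R48.CReal1_3
  Fermat.Agent.ES.R48.CPoint1_3 Fermat.Agent.ES.R48.KumReal1_3 Fermat.Agent.ES.R48.KumCuspOne18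
  Fermat.Agent.ES.R48.KumFinite5

variable (M : ℕ) [NeZero M]

/-- (DISTINCT) over `ℂ`. -/
theorem distinctC1 (hM : 3 ≤ M) (hW : WAnalytic M) : DistinctC1 hW :=
  fun γ γ' h => KumCSurj13.mem_PG1_of_compSL_realC1_eq hW hM γ γ' h

/-- (GEN + DEG) over `ℂ`. -/
theorem globalC1 (hM : 3 ≤ M) : GlobalC1 M where
  isGen := KumFieldC25.isGen_jC1 M (hQ1 M hM)
  finrank_eq := hdegC1_card M hM

/-- (POINT-SURJ), fibrewise. -/
theorem pointSurj1 (hM : 3 ≤ M) (hW : WAnalytic M) : KumCExact5.PointSurj1 hW :=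
  fun v z₀ hv => KumCSurj13.exists_ptPlaceC1_eq hW hM (hdegC1_card M hM) z₀ v hv

/-- (POINT-SURJ), all finite places. -/
theorem pointAll1 (hM : 3 ≤ M) (hW : WAnalytic M) : PointAll1 hW :=
  fun v hv => KumCSurj13.exists_ptPlaceC1_of_ord_jC1_nonneg hW hM (hdegC1_card M hM) v hv

/-- **(I2)**: the cusp dictionary of `X₁(M)` over `ℂ`, `3 ≤ M`. -/
theorem cuspDictFinal (hM : 3 ≤ M) (hW : WAnalytic M) :
    KumGenMult18.CuspDict (realization1 hW) M :=
  cuspDict1 hW (hcusp1 M hM) (distinctC1 M hM hW) (globalC1 M hM)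

/-- **(I3)**: the place dictionary of `X₁(M)` over `ℂ`, `5 ≤ M`. -/
theorem placeDictFinal (hM : 5 ≤ M) (hW : WAnalytic M) :
    KumGenDiv18.PlaceDict (realization1 hW) M :=
  placeDict1 hW (hcusp1 M (by omega)) hM (distinctC1 M (by omega) hW) (globalC1 M (by omega))
    (pointSurj1 M (by omega) hW) (pointAll1 M (by omega) hW)

/-- **`KumExportAbs5.DictExport`.** -/
theorem dictExport : KumExportAbs5.DictExport :=
  fun M _ hM hW => ⟨cuspDictFinal M (by omega) hW, placeDictFinal M hM hW⟩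

end Fermat.Agent.ES.R48.KumDictFinal18
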