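/-
Programme R (S48, Deligne–Serre), chapter GEOM / G5 KUM₁ (helper5): the **`χ`-twisted Eisenstein
series on `Γ₁(M)`** — twin of `ES/KUM/EisChar20` (l. 162–268), `EisPack20`, `EisNZ20` with
`Γ₀(N) ↦ Γ` (the character part for an ARBITRARY subgroup `Γ ≤ SL(2, ℤ)`, the growth part for
`Γ(M) ≤ Γ`, the modular form and the limit at `i∞` for `Γ = Γ₁(M)`, `3 ≤ M`).

The generic weighted Eisenstein series `EisChar20.eisW`, `EisPack20.stabW`,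
`EisPack20.isBoundedAtImInfty_eisW`, `EisNZ20.tendsto_eisW`, `EisLim25` are used AS-IS.

* `wChiG Γ χ`, `eisChiG Γ k χ`, `TrivOnUnipG`, `eisChiG_slash : E_χ ∣[k] δ = χ δ • E_χ` (`δ ∈ Γ`);
* `TrivOnTr2G`, `isBoundedAtImInfty_eisChiG_slash`, `eisChiG_slash_vadd` (`Γ(M) ≤ Γ`);
* `tendsto_eisChiG_slash`;
* `eisChi1PowMF : ModularForm (Gamma1 M) (n k)` with underlying function `(E_χ)^n` (`χ^n = 1`);
* **`tendsto_eisChi1 : E_χ → 1` at `i∞`** (NOT `2`: `-1 ∉ Γ₁(M)` for `3 ≤ M`, the only bottom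
  row `(0, d)` of `Γ₁(M)` is `(0, 1)`; no parity condition on `k`, no condition `χ(-1) = 1`),
  `eisChi1_ne_zero`.
-/
import Mathlib
import Fermat.Agent.ES.KUM.EisNZ20

set_option autoImplicit false

open EisensteinSeries UpperHalfPlane Matrix CongruenceSubgroup ModularForm Filter Topology
open scoped MatrixGroups Manifold

noncomputable section

namespace Fermat.Agent.ES.R48.KumEis5

open Fermat.Agent.ES.KUM.EisChar20 Fermat.Agent.ES.KUM.EisPack20 Fermat.Agent.ES.KUM.EisNZ20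
  Fermat.Agent.ES.KUM.EisLim25

/-! ### The `χ`-weights on an arbitrary subgroup -/

section Character

variable (Γ : Subgroup SL(2, ℤ))

open Classical in
/-- The weight attached to a character `χ` of `Γ`: `v ↦ χ(γ)⁻¹` if `v` is the bottom row of
`γ ∈ Γ`, and `0` if `v` is not such a bottom row. -/
def wChiG (χ : ↥Γ →* ℂˣ) (v : Fin 2 → ℤ) : ℂ :=
  if h : ∃ γ : ↥Γ, botRow (γ : SL(2, ℤ)) = v then ((χ h.choose)⁻¹ : ℂˣ) else 0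

/-- The `χ`-twisted Eisenstein series of weight `k` on `Γ`. -/
def eisChiG (k : ℤ) (χ : ↥Γ →* ℂˣ) : ℍ → ℂ := eisW k (wChiG Γ χ)

variable {Γ}

/-- `χ γ = 1` as soon as the bottom row of `γ` is `(0, 1)` (i.e. `γ = T^m`). -/
def TrivOnUnipG (χ : ↥Γ →* ℂˣ) : Prop :=
  ∀ γ : ↥Γ, (γ : SL(2, ℤ)) 1 0 = 0 → (γ : SL(2, ℤ)) 1 1 = 1 → χ γ = 1

theorem chi_eq_of_botRow_eq {χ : ↥Γ →* ℂˣ} (hχ : TrivOnUnipG χ)
    {γ γ' : ↥Γ} (h : botRow (γ : SL(2, ℤ)) = botRow (γ' : SL(2, ℤ))) : χ γ = χ γ' := by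
  have h0 : (γ : SL(2, ℤ)) 1 0 = (γ' : SL(2, ℤ)) 1 0 := congrFun h 0
  have h1 : (γ : SL(2, ℤ)) 1 1 = (γ' : SL(2, ℤ)) 1 1 := congrFun h 1
  have hdet := (γ : SL(2, ℤ)).det_coe
  rw [Matrix.det_fin_two] at hdet
  have key : χ (γ' * γ⁻¹) = 1 := by
    apply hχ
    · simp only [Subgroup.coe_mul, Subgroup.coe_inv, Matrix.SpecialLinearGroup.coe_mul,
        Matrix.SpecialLinearGroup.coe_inv, Matrix.adjugate_fin_two, Matrix.mul_apply,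
        Fin.sum_univ_two, Matrix.of_apply, Matrix.cons_val', Matrix.cons_val_zero,
        Matrix.cons_val_one, Fin.isValue, cons_val_fin_one]
      rw [← h0, ← h1]; ring
    · simp only [Subgroup.coe_mul, Subgroup.coe_inv, Matrix.SpecialLinearGroup.coe_mul,
        Matrix.SpecialLinearGroup.coe_inv, Matrix.adjugate_fin_two, Matrix.mul_apply,
        Fin.sum_univ_two, Matrix.of_apply, Matrix.cons_val', Matrix.cons_val_zero,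
        Matrix.cons_val_one, Fin.isValue, cons_val_fin_one]
      rw [← h0, ← h1]; linarith
  rw [map_mul, map_inv, mul_inv_eq_one] at key
  exact key.symm

theorem wChiG_botRow {χ : ↥Γ →* ℂˣ} (hχ : TrivOnUnipG χ) (γ : ↥Γ) :
    wChiG Γ χ (botRow (γ : SL(2, ℤ))) = ((χ γ)⁻¹ : ℂˣ) := by
  have h : ∃ γ' : ↥Γ, botRow (γ' : SL(2, ℤ)) = botRow (γ : SL(2, ℤ)) := ⟨γ, rfl⟩
  rw [wChiG, dif_pos h, chi_eq_of_botRow_eq hχ h.choose_spec]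

theorem wChiG_of_not {χ : ↥Γ →* ℂˣ} {v : Fin 2 → ℤ}
    (h : ¬ ∃ γ : ↥Γ, botRow (γ : SL(2, ℤ)) = v) : wChiG Γ χ v = 0 := by
  rw [wChiG, dif_neg h]

/-- The transformation rule of the weights under right multiplication by `δ ∈ Γ`. -/
theorem wChiG_vecMul {χ : ↥Γ →* ℂˣ} (hχ : TrivOnUnipG χ) (δ : ↥Γ)
    (v : Fin 2 → ℤ) :
    wChiG Γ χ (v ᵥ* ((δ : SL(2, ℤ)) : Matrix (Fin 2) (Fin 2) ℤ)) =
      ((χ δ)⁻¹ : ℂˣ) * wChiG Γ χ v := by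
  by_cases h : ∃ γ : ↥Γ, botRow (γ : SL(2, ℤ)) = v
  · obtain ⟨γ, rfl⟩ := h
    have : botRow (γ : SL(2, ℤ)) ᵥ* ((δ : SL(2, ℤ)) : Matrix (Fin 2) (Fin 2) ℤ) =
        botRow ((γ * δ : ↥Γ) : SL(2, ℤ)) := by
      rw [Subgroup.coe_mul, botRow_mul]
    rw [this, wChiG_botRow hχ, wChiG_botRow hχ, map_mul, _root_.mul_inv_rev, Units.val_mul]
  · have h' : ¬ ∃ γ : ↥Γ,
        botRow (γ : SL(2, ℤ)) = v ᵥ* ((δ : SL(2, ℤ)) : Matrix (Fin 2) (Fin 2) ℤ) := by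
      rintro ⟨γ, hγ⟩
      refine h ⟨γ * δ⁻¹, ?_⟩
      rw [Subgroup.coe_mul, botRow_mul, hγ, Subgroup.coe_inv, vecMul_vecMul,
        ← Matrix.SpecialLinearGroup.coe_mul, mul_inv_cancel, Matrix.SpecialLinearGroup.coe_one,
        vecMul_one]
    rw [wChiG_of_not h, wChiG_of_not h', mul_zero]

theorem norm_wChiG_le {χ : ↥Γ →* ℂˣ} (hfin : ∀ γ, ‖(χ γ : ℂ)‖ = 1) (v : Fin 2 → ℤ) :
    ‖wChiG Γ χ v‖ ≤ 1 := by
  rw [wChiG]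
  split_ifs with h
  · rw [Units.val_inv_eq_inv_val, norm_inv, hfin, inv_one]
  · simp

/-- A character of finite exponent has values of norm one. -/
theorem norm_chi_eq_one {χ : ↥Γ →* ℂˣ} {n : ℕ} (hn : n ≠ 0) (h : ∀ γ, χ γ ^ n = 1)
    (γ : ↥Γ) : ‖(χ γ : ℂ)‖ = 1 := by
  have h1 : ((χ γ : ℂ)) ^ n = 1 := by
    rw [← Units.val_pow_eq_pow_val, h γ, Units.val_one]
  exact Complex.norm_eq_one_of_pow_eq_one h1 hn

/-- **(E2)** the `χ`-twisted Eisenstein series transforms under `Γ` through `χ`. -/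
theorem eisChiG_slash {χ : ↥Γ →* ℂˣ} (hχ : TrivOnUnipG χ) (k : ℤ) (δ : ↥Γ) :
    eisChiG Γ k χ ∣[k] (δ : SL(2, ℤ)) = (χ δ : ℂ) • eisChiG Γ k χ := by
  rw [eisChiG, eisW_slash, ← eisW_const_mul]
  congr 1
  funext v
  have := wChiG_vecMul hχ δ⁻¹ v
  rw [Subgroup.coe_inv] at this
  rw [this, map_inv, inv_inv]

theorem eisChiG_mdifferentiable {χ : ↥Γ →* ℂˣ} (hfin : ∀ γ, ‖(χ γ : ℂ)‖ = 1)
    {k : ℤ} (hk : 3 ≤ k) : MDiff (eisChiG Γ k χ) :=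
  eisW_mdifferentiable hk (norm_wChiG_le hfin)

/-! ### Characters trivial on elements of trace `2`; growth at the cusps -/

/-- `χ` is trivial on the elements of `Γ` of trace `2`. -/
def TrivOnTr2G (χ : ↥Γ →* ℂˣ) : Prop :=
  ∀ γ : ↥Γ,
    Matrix.trace ((γ : SL(2, ℤ)) : Matrix (Fin 2) (Fin 2) ℤ) = 2 → χ γ = 1

theorem TrivOnTr2G.trivOnUnipG {χ : ↥Γ →* ℂˣ} (h : TrivOnTr2G χ) : TrivOnUnipG χ := by
  intro γ h10 h11
  apply h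
  have hdet := (γ : SL(2, ℤ)).det_coe
  rw [Matrix.det_fin_two] at hdet
  rw [Matrix.trace_fin_two]
  have h10' : ((γ : SL(2, ℤ)) : Matrix (Fin 2) (Fin 2) ℤ) 1 0 = 0 := h10
  have h11' : ((γ : SL(2, ℤ)) : Matrix (Fin 2) (Fin 2) ℤ) 1 1 = 1 := h11
  rw [h10', h11'] at hdet
  rw [h11']
  linarith

/-- `σ T^M σ⁻¹ ∈ Γ(M)`. -/
theorem conj_T_pow_mem_Gamma (M : ℕ) (σ : SL(2, ℤ)) :
    σ * ModularGroup.T ^ (M : ℤ) * σ⁻¹ ∈ Gamma M := by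
  have h1 : ModularGroup.T ^ (M : ℤ) ∈ Gamma M := by
    simpa using ModularGroup_T_pow_mem_Gamma (M : ℤ) (M : ℤ) dvd_rfl
  exact (Gamma_normal M).conj_mem _ h1 σ

variable {M : ℕ}

/-- The `σ`-translate of the `χ`-weight is invariant under `T^M`, if `Γ(M) ≤ Γ`. -/
theorem T_pow_mem_stabW_translate (hΓ : Gamma M ≤ Γ) {χ : ↥Γ →* ℂˣ} (hχ : TrivOnTr2G χ)
    (σ : SL(2, ℤ)) :
    ModularGroup.T ^ (M : ℤ) ∈
      stabW (fun v => wChiG Γ χ (v ᵥ* ((σ⁻¹ : SL(2, ℤ)) : Matrix (Fin 2) (Fin 2) ℤ))) := by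
  rw [mem_stabW]
  intro v
  set δ : ↥Γ := ⟨σ * ModularGroup.T ^ (M : ℤ) * σ⁻¹, hΓ (conj_T_pow_mem_Gamma M σ)⟩ with hδ
  have h1 : χ δ = 1 := hχ δ (trace_conj_T_pow _ σ)
  have h2 := wChiG_vecMul hχ.trivOnUnipG δ
    (v ᵥ* ((σ⁻¹ : SL(2, ℤ)) : Matrix (Fin 2) (Fin 2) ℤ))
  rw [h1, inv_one, Units.val_one, one_mul] at h2
  rw [← h2]
  congr 1
  simp only [vecMul_vecMul, ← Matrix.SpecialLinearGroup.coe_mul]
  congr 2
  simp [hδ, mul_assoc]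

/-- **(E4a)** every `SL(2, ℤ)`-slash of `E_χ` is bounded at `i∞`. -/
theorem isBoundedAtImInfty_eisChiG_slash [NeZero M] (hΓ : Gamma M ≤ Γ) {χ : ↥Γ →* ℂˣ}
    (hχ : TrivOnTr2G χ) (hfin : ∀ γ, ‖(χ γ : ℂ)‖ = 1) {k : ℤ} (hk : 3 ≤ k) (σ : SL(2, ℤ)) :
    IsBoundedAtImInfty (eisChiG Γ k χ ∣[k] σ) := by
  rw [eisChiG, eisW_slash]
  exact isBoundedAtImInfty_eisW hk (fun v => norm_wChiG_le hfin _) (NeZero.pos M)
    (T_pow_mem_stabW_translate hΓ hχ σ)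

/-- **(E4a')** every `SL(2, ℤ)`-slash of `E_χ` is `T^M`-periodic. -/
theorem eisChiG_slash_vadd (hΓ : Gamma M ≤ Γ) {χ : ↥Γ →* ℂˣ} (hχ : TrivOnTr2G χ) (k : ℤ)
    (σ : SL(2, ℤ)) (z : ℍ) :
    (eisChiG Γ k χ ∣[k] σ) (((M : ℤ) : ℝ) +ᵥ z) = (eisChiG Γ k χ ∣[k] σ) z := by
  rw [eisChiG, eisW_slash]
  exact eisW_vadd (mem_stabW.mp (T_pow_mem_stabW_translate hΓ hχ σ)) z

/-- Every `SL(2, ℤ)`-slash of `E_χ` has a limit at `i∞`. -/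
theorem tendsto_eisChiG_slash [NeZero M] (hΓ : Gamma M ≤ Γ) {χ : ↥Γ →* ℂˣ}
    (hχ : TrivOnTr2G χ) (hfin : ∀ γ, ‖(χ γ : ℂ)‖ = 1) {k : ℤ} (hk : 3 ≤ k) (σ : SL(2, ℤ)) :
    Tendsto (eisChiG Γ k χ ∣[k] σ) atImInfty
      (𝓝 (∑' d : ℤ, wChiG Γ χ (![0, d] ᵥ* ((σ⁻¹ : SL(2, ℤ)) : Matrix (Fin 2) (Fin 2) ℤ))
        * (d : ℂ) ^ (-k))) := by
  rw [eisChiG, eisW_slash]
  exact tendsto_eisW hk (fun v => norm_wChiG_le hfin _) (NeZero.pos M)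
    (T_pow_mem_stabW_translate hΓ hχ σ)

/-! ### The values of the `χ`-weight on the vectors `(0, d)` -/

theorem wChiG_zero_one {χ : ↥Γ →* ℂˣ} (hχ : TrivOnUnipG χ) : wChiG Γ χ ![0, 1] = 1 := by
  have := wChiG_botRow hχ (1 : ↥Γ)
  rw [Subgroup.coe_one, botRow_one, map_one, inv_one, Units.val_one] at this
  exact this

theorem wChiG_zero_of_ne (χ : ↥Γ →* ℂˣ) {d : ℤ} (h1 : d ≠ 1) (h2 : d ≠ -1) :
    wChiG Γ χ ![0, d] = 0 := by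
  apply wChiG_of_not
  rintro ⟨γ, hγ⟩
  have h0 : ((γ : SL(2, ℤ)) : Matrix (Fin 2) (Fin 2) ℤ) 1 0 = 0 := by
    have := congrFun hγ 0
    simpa [botRow] using this
  have h1' : ((γ : SL(2, ℤ)) : Matrix (Fin 2) (Fin 2) ℤ) 1 1 = d := by
    have := congrFun hγ 1
    simpa [botRow] using this
  have hdet := (γ : SL(2, ℤ)).det_coe
  rw [Matrix.det_fin_two, h0, h1', mul_zero, sub_zero] at hdet
  have hu : IsUnit d := IsUnit.of_mul_eq_one _ (by rw [mul_comm]; exact hdet)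
  rcases Int.isUnit_iff.mp hu with h | h
  · exact h1 h
  · exact h2 h

/-- If `(0, -1)` is not a bottom row of `Γ` (e.g. `Γ = Γ₁(M)`, `3 ≤ M`), the weight vanishes
there. -/
theorem wChiG_zero_neg_one_of_not (χ : ↥Γ →* ℂˣ)
    (hneg : ∀ γ : ↥Γ, (γ : SL(2, ℤ)) 1 0 = 0 → (γ : SL(2, ℤ)) 1 1 ≠ -1) :
    wChiG Γ χ ![0, -1] = 0 := by
  apply wChiG_of_not
  rintro ⟨γ, hγ⟩
  have h0 : (γ : SL(2, ℤ)) 1 0 = 0 := by
    have := congrFun hγ 0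
    simpa [botRow] using this
  have h1 : (γ : SL(2, ℤ)) 1 1 = -1 := by
    have := congrFun hγ 1
    simpa [botRow] using this
  exact hneg γ h0 h1

/-- **(E3)** `E_χ → 1` at `i∞` when `(0, -1)` is not a bottom row of `Γ`. -/
theorem tendsto_eisChiG [NeZero M] (hΓ : Gamma M ≤ Γ) {χ : ↥Γ →* ℂˣ} (hχ : TrivOnTr2G χ)
    (hfin : ∀ γ, ‖(χ γ : ℂ)‖ = 1)
    (hneg : ∀ γ : ↥Γ, (γ : SL(2, ℤ)) 1 0 = 0 → (γ : SL(2, ℤ)) 1 1 ≠ -1)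
    {k : ℤ} (hk : 3 ≤ k) :
    Tendsto (eisChiG Γ k χ) atImInfty (𝓝 1) := by
  have h := tendsto_eisChiG_slash hΓ hχ hfin hk (1 : SL(2, ℤ))
  rw [SlashAction.slash_one] at h
  have hval : (∑' d : ℤ, wChiG Γ χ (![0, d] ᵥ* (((1 : SL(2, ℤ))⁻¹ : SL(2, ℤ)) :
      Matrix (Fin 2) (Fin 2) ℤ)) * (d : ℂ) ^ (-k)) = 1 := by
    simp only [inv_one, Matrix.SpecialLinearGroup.coe_one, vecMul_one]
    rw [tsum_of_primitive (w := wChiG Γ χ) (fun d h1 h2 => wChiG_zero_of_ne χ h1 h2),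
      wChiG_zero_one hχ.trivOnUnipG, wChiG_zero_neg_one_of_not χ hneg]
    simp
  rw [hval] at h
  exact h

/-- **(E3')** `E_χ` is not the zero function. -/
theorem eisChiG_ne_zero [NeZero M] (hΓ : Gamma M ≤ Γ) {χ : ↥Γ →* ℂˣ} (hχ : TrivOnTr2G χ)
    (hfin : ∀ γ, ‖(χ γ : ℂ)‖ = 1)
    (hneg : ∀ γ : ↥Γ, (γ : SL(2, ℤ)) 1 0 = 0 → (γ : SL(2, ℤ)) 1 1 ≠ -1)
    {k : ℤ} (hk : 3 ≤ k) : eisChiG Γ k χ ≠ 0 := by
  intro h0
  have h := tendsto_eisChiG hΓ hχ hfin hneg hk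
  rw [h0] at h
  have h' : Tendsto (0 : ℍ → ℂ) atImInfty (𝓝 0) := tendsto_const_nhds
  have := tendsto_nhds_unique h h'
  norm_num at this

end Character

/-! ### The case `Γ = Γ₁(M)` -/

section GammaOne

variable {M : ℕ}

theorem Gamma_le_Gamma1 (M : ℕ) : Gamma M ≤ Gamma1 M := by
  intro A hA
  rw [Gamma_mem] at hA
  rw [Gamma1_mem]
  exact ⟨hA.1, hA.2.2.2, hA.2.2.1⟩

/-- `(0, -1)` is not a bottom row of `Γ₁(M)` for `3 ≤ M`. -/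
theorem Gamma1_botRow_ne (hM : 3 ≤ M) (γ : ↥(Gamma1 M)) (_h0 : (γ : SL(2, ℤ)) 1 0 = 0) :
    (γ : SL(2, ℤ)) 1 1 ≠ -1 := by
  intro h1
  have hγ := (Gamma1_mem M (γ : SL(2, ℤ))).mp γ.2
  have h11 : (((γ : SL(2, ℤ)) 1 1 : ℤ) : ZMod M) = 1 := hγ.2.1
  rw [h1] at h11
  have h2 : ((2 : ℕ) : ZMod M) = 0 := by
    have h4 : ((-1 : ℤ) : ZMod M) = -1 := by push_cast; ring
    rw [h4] at h11
    push_cast
    calc (2 : ZMod M) = 1 - (-1) := by ring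
      _ = 1 - 1 := by rw [h11]
      _ = 0 := sub_self _
  rw [ZMod.natCast_eq_zero_iff] at h2
  have := Nat.le_of_dvd (by norm_num) h2
  omega

/-- **`E_χ → 1` at `i∞`** on `Γ₁(M)`, `3 ≤ M`. -/
theorem tendsto_eisChi1 [NeZero M] (hM : 3 ≤ M) {χ : ↥(Gamma1 M) →* ℂˣ} (hχ : TrivOnTr2G χ)
    (hfin : ∀ γ, ‖(χ γ : ℂ)‖ = 1) {k : ℤ} (hk : 3 ≤ k) :
    Tendsto (eisChiG (Gamma1 M) k χ) atImInfty (𝓝 1) :=
  tendsto_eisChiG (Gamma_le_Gamma1 M) hχ hfin (Gamma1_botRow_ne hM) hk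

/-- `E_χ` is not the zero function on `Γ₁(M)`, `3 ≤ M`. -/
theorem eisChi1_ne_zero [NeZero M] (hM : 3 ≤ M) {χ : ↥(Gamma1 M) →* ℂˣ} (hχ : TrivOnTr2G χ)
    (hfin : ∀ γ, ‖(χ γ : ℂ)‖ = 1) {k : ℤ} (hk : 3 ≤ k) : eisChiG (Gamma1 M) k χ ≠ 0 :=
  eisChiG_ne_zero (Gamma_le_Gamma1 M) hχ hfin (Gamma1_botRow_ne hM) hk

/-- **(E4b)** `(E_χ)^n` as a modular form of weight `n k` on `Γ₁(M)`, for `χ^n = 1`. -/
def eisChi1PowMF [NeZero M] {χ : ↥(Gamma1 M) →* ℂˣ} (hχ : TrivOnTr2G χ) {n : ℕ} (hn : n ≠ 0)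
    (hχn : ∀ γ, χ γ ^ n = 1) {k : ℤ} (hk : 3 ≤ k) :
    ModularForm (Gamma1 M) ((n : ℤ) * k) where
  toFun := (eisChiG (Gamma1 M) k χ) ^ n
  slash_action_eq' A hA := by
    obtain ⟨A, (hA : A ∈ Gamma1 M), rfl⟩ := hA
    change (eisChiG (Gamma1 M) k χ ^ n) ∣[(n : ℤ) * k] A = _
    rw [pow_slash_SL2]
    have := eisChiG_slash hχ.trivOnUnipG k ⟨A, hA⟩
    simp only at this
    rw [this, smul_pow, ← Units.val_pow_eq_pow_val, hχn ⟨A, hA⟩, Units.val_one, one_smul]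
  holo' := (eisChiG_mdifferentiable (norm_chi_eq_one hn hχn) hk).pow n
  bdd_at_cusps' {c} hc := by
    rw [Subgroup.IsArithmetic.isCusp_iff_isCusp_SL2Z] at hc
    rw [OnePoint.isBoundedAt_iff_forall_SL2Z hc]
    intro γ _
    rw [pow_slash_SL2]
    exact isBoundedAtImInfty_pow
      (isBoundedAtImInfty_eisChiG_slash (Gamma_le_Gamma1 M) hχ (norm_chi_eq_one hn hχn) hk γ) n

@[simp] theorem coe_eisChi1PowMF [NeZero M] {χ : ↥(Gamma1 M) →* ℂˣ} (hχ : TrivOnTr2G χ) {n : ℕ}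
    (hn : n ≠ 0) (hχn : ∀ γ, χ γ ^ n = 1) {k : ℤ} (hk : 3 ≤ k) :
    ⇑(eisChi1PowMF hχ hn hχn hk) = (eisChiG (Gamma1 M) k χ) ^ n := rfl

end GammaOne

end Fermat.Agent.ES.R48.KumEis5
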