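/-
Programme R (S48, Deligne–Serre), chapter GEOM, sub-chapter G5 KUM₁ (helper3):
**(I5) the Eisenstein eigenfunctions on `Γ₁(M)`** — twin of main's `ES/KUM/EisBridge20` with
`Γ₀(N) ↦ Γ₁(M)`, `3 ≤ M`, on top of helper5's `KumEis5` (the `χ`-twisted Eisenstein series
`eisChiG (Gamma1 M) 4 χ`) and helper18's generic Kummer layer (`KumGen18.KumChar`,
`KumGenFinal18.EigenRatio`).

For `χ ∈ KumChar (Gamma1 M) n`, `eisRatio χ := E_χ / E_1 ∈ MerH` (weight `4`) is a nonzero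
eigenfunction of `Γ₁(M)` with character `χ`, and its `n`-th power is the ratio of the two modular
forms `E_χ^n`, `E_1^n` of weight `4n` on `Γ₁(M)`.

* `trivOnTr2G_of_mem`, `norm_eq_one_of_mem`;
* `eisHol χ h : HolH`, `eisHol_ne_zero (hM : 3 ≤ M)`, `eisChiG_smul_apply`;
* `eisRatio χ h : MerH`, `eisRatio_ne_zero`, **`slMer_eisRatio`** (the eigen-law), `eisRatio_pow`;
* `eisRatio_pow_mem_fracA` : `(E_χ/E_1)^n ∈ KumRatioAlg2.fracA (Gamma1 M)` (helper2's field-free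
  `ratio_mem_fracA`, weight `4n ≥ 0`);
* **`eigenRatio_of_ratioMem`** : for ANY realization `R : KumGen18.Realization F (Gamma1 M)` such that
  ratios of weight-`4n` forms on `Γ₁(M)` lie in `R.Θ(F)` (the shape of `RatioMem12.ratio_mem`),
  `KumGenFinal18.EigenRatio R n`;
* **`eigenRatio_of_fracA`** : the same from `∀ y ∈ fracA (Gamma1 M), ∃ f, R.Θ f = y`
  (`Θ(F) ⊇ Frac 𝒜`, helper2's `exists_eq_of_mem_fracA`).
-/
import Fermat.Agent.ES.R48.KumEis5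
import Fermat.Agent.ES.R48.KumGen18
import Fermat.Agent.ES.R48.KumGenFinal18
import Fermat.Agent.ES.R48.KumRatioAlg2

set_option autoImplicit false
set_option linter.unusedSectionVars false

open EisensteinSeries UpperHalfPlane Matrix CongruenceSubgroup ModularForm Filter Topology
open scoped MatrixGroups Manifold

noncomputable section

namespace Fermat.Agent.ES.R48.KumEisBridge3

open Fermat.Agent.X0 Fermat.Agent.X0.SurjPoint Fermat.Agent.ES.KUM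
open Fermat.Agent.ES.R48.KumEis5 Fermat.Agent.ES.R48.KumGen18 Fermat.Agent.ES.R48.KumGenFinal18

variable {M : ℕ} [NeZero M] {n : ℕ}

/-! ### (B1) the hypotheses of the Eisenstein file from `χ ∈ KumChar (Gamma1 M) n` -/

theorem trivOnTr2G_of_mem {χ : ↥(Gamma1 M) →* ℂˣ} (h : χ ∈ KumChar (Gamma1 M) n) :
    TrivOnTr2G χ :=
  fun γ hγ => h.2 γ (by rw [hγ]; norm_num)

theorem norm_eq_one_of_mem [NeZero n] {χ : ↥(Gamma1 M) →* ℂˣ} (h : χ ∈ KumChar (Gamma1 M) n)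
    (γ : ↥(Gamma1 M)) : ‖(χ γ : ℂ)‖ = 1 :=
  norm_chi_eq_one (NeZero.ne n) h.1 γ

/-! ### (B2) `E_χ` as an element of `HolH` -/

/-- `E_χ` (weight `4`) as a holomorphic function on `ℍ`. -/
def eisHol [NeZero n] (χ : ↥(Gamma1 M) →* ℂˣ) (h : χ ∈ KumChar (Gamma1 M) n) : HolH :=
  ⟨eisChiG (Gamma1 M) 4 χ, eisChiG_mdifferentiable (norm_eq_one_of_mem h) (by norm_num)⟩

@[simp] theorem coe_eisHol [NeZero n] (χ : ↥(Gamma1 M) →* ℂˣ) (h : χ ∈ KumChar (Gamma1 M) n) :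
    ((eisHol χ h : HolH) : ℍ → ℂ) = eisChiG (Gamma1 M) 4 χ := rfl

theorem eisHol_ne_zero [NeZero n] (hM : 3 ≤ M) (χ : ↥(Gamma1 M) →* ℂˣ)
    (h : χ ∈ KumChar (Gamma1 M) n) : eisHol χ h ≠ 0 := by
  intro h0
  exact eisChi1_ne_zero hM (trivOnTr2G_of_mem h) (norm_eq_one_of_mem h)
    (by norm_num : (3 : ℤ) ≤ 4) (congrArg Subtype.val h0)

/-- The pointwise transformation law. -/
theorem eisChiG_smul_apply {χ : ↥(Gamma1 M) →* ℂˣ} (hχ : TrivOnUnipG χ) (k : ℤ)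
    (γ : ↥(Gamma1 M)) (z : ℍ) :
    eisChiG (Gamma1 M) k χ ((γ : SL(2, ℤ)) • z) =
      (χ γ : ℂ) * denom (γ : SL(2, ℤ)) z ^ k * eisChiG (Gamma1 M) k χ z := by
  have h := congrFun (eisChiG_slash hχ k γ) z
  rw [SL_slash_apply, Pi.smul_apply, smul_eq_mul, _root_.zpow_neg,
    mul_inv_eq_iff_eq_mul₀ (zpow_ne_zero _ <| denom_ne_zero _ z)] at h
  rw [h]; ring

/-! ### (B3) the eigenfunction `E_χ / E_1` -/

/-- `E_χ / E_1 ∈ MerH`. -/
def eisRatio [NeZero n] (χ : ↥(Gamma1 M) →* ℂˣ) (h : χ ∈ KumChar (Gamma1 M) n) : MerH :=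
  algebraMap HolH MerH (eisHol χ h) /
    algebraMap HolH MerH (eisHol 1 (KumChar (Gamma1 M) n).one_mem)

theorem algebraMap_eisHol_ne_zero [NeZero n] (hM : 3 ≤ M) (χ : ↥(Gamma1 M) →* ℂˣ)
    (h : χ ∈ KumChar (Gamma1 M) n) : algebraMap HolH MerH (eisHol χ h) ≠ 0 := by
  intro h0
  exact eisHol_ne_zero hM χ h ((IsFractionRing.injective HolH MerH) (by rw [h0, map_zero]))

theorem eisRatio_ne_zero [NeZero n] (hM : 3 ≤ M) (χ : ↥(Gamma1 M) →* ℂˣ)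
    (h : χ ∈ KumChar (Gamma1 M) n) : eisRatio χ h ≠ 0 :=
  div_ne_zero (algebraMap_eisHol_ne_zero hM χ h) (algebraMap_eisHol_ne_zero hM 1 _)

/-- **the eigen-law**: `(E_χ/E_1) ∘ γ = χ(γ) · (E_χ/E_1)` for `γ ∈ Γ₁(M)`. -/
theorem slMer_eisRatio [NeZero n] (hM : 3 ≤ M) (χ : ↥(Gamma1 M) →* ℂˣ)
    (h : χ ∈ KumChar (Gamma1 M) n) (γ : ↥(Gamma1 M)) :
    slMer (γ : SL(2, ℤ)) (eisRatio χ h) =
      algebraMap HolH MerH (algebraMap ℂ HolH ((χ γ : ℂˣ) : ℂ)) * eisRatio χ h := by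
  have h1 := (KumChar (Gamma1 M) n).one_mem
  unfold eisRatio
  rw [slMer_div]
  have hb' : algebraMap HolH MerH (compSLHom (γ : SL(2, ℤ)) (eisHol 1 h1)) ≠ 0 := by
    intro h0
    have h2 := (IsFractionRing.injective HolH MerH) (by rw [h0, map_zero] :
      algebraMap HolH MerH (compSLHom (γ : SL(2, ℤ)) (eisHol 1 h1)) = algebraMap HolH MerH 0)
    exact eisHol_ne_zero hM 1 h1 (compSLHom_injective _ (by rw [h2, map_zero]))
  have key : algebraMap HolH MerH (compSLHom (γ : SL(2, ℤ)) (eisHol χ h)) *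
        algebraMap HolH MerH (eisHol 1 h1) =
      algebraMap HolH MerH (algebraMap ℂ HolH ((χ γ : ℂˣ) : ℂ)) *
        algebraMap HolH MerH (eisHol χ h) *
        algebraMap HolH MerH (compSLHom (γ : SL(2, ℤ)) (eisHol 1 h1)) := by
    rw [← map_mul, ← map_mul, ← map_mul]
    congr 1
    apply Subtype.ext
    funext z
    have e1 := eisChiG_smul_apply (trivOnTr2G_of_mem h).trivOnUnipG 4 γ z
    have e2 := eisChiG_smul_apply (trivOnTr2G_of_mem h1).trivOnUnipG 4 γ z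
    simp only [MonoidHom.one_apply, Units.val_one, one_mul] at e2
    show eisChiG (Gamma1 M) 4 χ ((γ : SL(2, ℤ)) • z) * eisChiG (Gamma1 M) 4 1 z =
      (χ γ : ℂ) * eisChiG (Gamma1 M) 4 χ z * eisChiG (Gamma1 M) 4 1 ((γ : SL(2, ℤ)) • z)
    rw [e1, e2]; ring
  have hB := algebraMap_eisHol_ne_zero hM 1 h1
  rw [div_eq_iff hb']
  field_simp
  rw [key]

/-- `(E_χ)^n` as a modular form of weight `4n` on `Γ₁(M)`. -/
def eisPowMF [NeZero n] (χ : ↥(Gamma1 M) →* ℂˣ) (h : χ ∈ KumChar (Gamma1 M) n) :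
    ModularForm (Gamma1 M) ((n : ℤ) * 4) :=
  eisChi1PowMF (trivOnTr2G_of_mem h) (NeZero.ne n) h.1 (by norm_num : (3 : ℤ) ≤ 4)

@[simp] theorem coe_eisPowMF [NeZero n] (χ : ↥(Gamma1 M) →* ℂˣ)
    (h : χ ∈ KumChar (Gamma1 M) n) :
    ⇑(eisPowMF χ h) = (eisChiG (Gamma1 M) 4 χ) ^ n := rfl

theorem eisPowMF_ne_zero [NeZero n] (hM : 3 ≤ M) (χ : ↥(Gamma1 M) →* ℂˣ)
    (h : χ ∈ KumChar (Gamma1 M) n) : eisPowMF χ h ≠ 0 := by
  intro h0
  have : (eisPowMF χ h : ℍ → ℂ) = 0 := by rw [h0]; rfl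
  rw [coe_eisPowMF] at this
  have h2 : eisChiG (Gamma1 M) 4 χ = 0 := pow_eq_zero_iff (NeZero.ne n) |>.mp this
  exact eisHol_ne_zero hM χ h (Subtype.ext h2)

/-- `(E_χ/E_1)^n` is the ratio of the two modular forms `E_χ^n`, `E_1^n` of weight `4n`. -/
theorem eisRatio_pow [NeZero n] (χ : ↥(Gamma1 M) →* ℂˣ) (h : χ ∈ KumChar (Gamma1 M) n) :
    eisRatio χ h ^ n =
      algebraMap HolH MerH ⟨(eisPowMF χ h : ℍ → ℂ), ModularForm.holo' _⟩ /
        algebraMap HolH MerH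
          ⟨(eisPowMF 1 (KumChar (Gamma1 M) n).one_mem : ℍ → ℂ), ModularForm.holo' _⟩ := by
  unfold eisRatio
  rw [div_pow, ← map_pow, ← map_pow]
  rfl

/-- **`(E_χ/E_1)^n ∈ Frac 𝒜(Γ₁(M))`** (field-free `ratio_mem`, weight `4n ≥ 0`). -/
theorem eisRatio_pow_mem_fracA [NeZero n] (χ : ↥(Gamma1 M) →* ℂˣ)
    (h : χ ∈ KumChar (Gamma1 M) n) :
    eisRatio χ h ^ n ∈ KumRatioAlg2.fracA (Gamma1 M) := by
  rw [eisRatio_pow]
  exact KumRatioAlg2.ratio_mem_fracA (by positivity : (0 : ℤ) ≤ (n : ℤ) * 4) (eisPowMF χ h)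
    (eisPowMF 1 (KumChar (Gamma1 M) n).one_mem)

/-! ### (I5) `EigenRatio` for a realization on `Γ₁(M)` -/

variable {F : Type} [Field F] [Algebra ℂ F] (R : Realization F (Gamma1 M))

/-- **(I5), from `ratio_mem` at weight `4n`.**  If the ratios of modular forms of weight `4n` on
`Γ₁(M)` lie in `R.Θ(F)` (the shape of main's `RatioMem12.ratio_mem`), then every
`χ ∈ KumChar (Gamma1 M) n` has the Eisenstein eigenfunction `E_χ/E_1`. -/
theorem eigenRatio_of_ratioMem [NeZero n] (hM : 3 ≤ M)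
    (hratio : ∀ A B : ModularForm (Gamma1 M) ((n : ℤ) * 4), B ≠ 0 →
      ∃ f : F, R.Θ f * algebraMap HolH MerH ⟨(B : ℍ → ℂ), B.holo'⟩ =
        algebraMap HolH MerH ⟨(A : ℍ → ℂ), A.holo'⟩) :
    EigenRatio R n := by
  intro χ h
  have h1 := (KumChar (Gamma1 M) n).one_mem
  have hB : eisPowMF (1 : ↥(Gamma1 M) →* ℂˣ) h1 ≠ 0 := eisPowMF_ne_zero hM 1 h1
  obtain ⟨f, hf⟩ := hratio (eisPowMF χ h) (eisPowMF 1 h1) hB
  have hBne : algebraMap HolH MerH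
      ⟨(eisPowMF (1 : ↥(Gamma1 M) →* ℂˣ) h1 : ℍ → ℂ), ModularForm.holo' _⟩ ≠ 0 := by
    intro h0
    have h2 := (IsFractionRing.injective HolH MerH) (by rw [h0, map_zero] :
      algebraMap HolH MerH
        ⟨(eisPowMF (1 : ↥(Gamma1 M) →* ℂˣ) h1 : ℍ → ℂ), ModularForm.holo' _⟩ =
          algebraMap HolH MerH 0)
    exact hB (DFunLike.coe_injective (congrArg Subtype.val h2))
  refine ⟨eisRatio χ h, f, eisRatio_ne_zero hM χ h, ?_, fun γ => slMer_eisRatio hM χ h γ⟩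
  rw [eisRatio_pow, div_eq_iff hBne]
  exact hf.symm

/-- **(I5), from `Θ(F) ⊇ Frac 𝒜(Γ₁(M))`.** -/
theorem eigenRatio_of_fracA [NeZero n] (hM : 3 ≤ M)
    (hfrac : ∀ y ∈ KumRatioAlg2.fracA (Gamma1 M), ∃ f : F, R.Θ f = y) :
    EigenRatio R n := by
  intro χ h
  obtain ⟨f, hf⟩ := hfrac _ (eisRatio_pow_mem_fracA χ h)
  exact ⟨eisRatio χ h, f, eisRatio_ne_zero hM χ h, hf.symm, fun γ => slMer_eisRatio hM χ h γ⟩

end Fermat.Agent.ES.R48.KumEisBridge3
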