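/-
Programme R (S48, Deligne–Serre), chapter GEOM, sub-chapter G5 KUM₁ (helper3):
**the analytic realisation of `R₁,ℂ = ℂ[j_d, W_c]` lies in the algebra `𝒜 = KumRatioAlg2.algA Γ`**
for `Γ = ±Γ₁(M)` and `Γ = Γ₁(M)`, hence `realMer1 hW (F₁,ℂ) ⊆ Frac 𝒜` — twin of main's
`ES/KUM/RatioGen15` (this is the hypothesis `hgen` of helper2's generic `KumRatioMem2`).

* `exists_uniform_bdd Γ` : for a `Γ`-invariant function (`Γ` of finite index) pole-order bounds at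
  `i∞` for each translate `f ∘ γ` give a uniform bound;
* `mem_algA_of_isQExp Γ N` : a `Γ`-invariant `G : HolH` all of whose translates have a `q_N`-expansion
  lies in `algA Γ`;
* `finite_quotient_PG1 M : Finite (SL(2, ℤ) ⧸ PG1 M)` (theorem, not an instance);
* `realC1_PG1_invariant` : `Θ u ∘ γ = Θ u` for `γ ∈ ±Γ₁(M)`;
* **`realC1_mem_algA hW hcusp u : realC1 hW u ∈ algA (PG1 M)`**, `realC1_mem_algA_Gamma1`;
* **`realMer1_mem_fracA hW hcusp f : realMer1 hW f ∈ fracA (PG1 M)`**, `realMer1_mem_fracA_Gamma1`.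

`hW : CReal1_3.WAnalytic M` (← `WAnalyticFinal3.wAnalytic`), `hcusp : KumReal1_3.WCusp M` (← G1-E4).
-/
import Fermat.Agent.ES.R48.KumReal1_3
import Fermat.Agent.ES.R48.KumRatioAlg2
import Fermat.Agent.X0.Integrality

set_option autoImplicit false
set_option linter.unusedSectionVars false

open UpperHalfPlane ModularForm CongruenceSubgroup
open scoped MatrixGroups Manifold

noncomputable section

namespace Fermat.Agent.ES.R48.KumRatioGen3

open Fermat.Agent.X0 Fermat.Agent.X0.SurjPoint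
open Fermat.Agent.ES.KUM.RatioAlg15 (Bdd)
open Fermat.Agent.ES.R48.X1Iface13 Fermat.Agent.ES.R48.CReal1_3 Fermat.Agent.ES.R48.CPoint1_3
open Fermat.Agent.ES.R48.KumReal1_3 Fermat.Agent.ES.R48.KumRatioAlg2

/-! ### generic part: any subgroup of finite index -/

section Generic

variable (Γ : Subgroup SL(2, ℤ)) [Finite (SL(2, ℤ) ⧸ Γ)]

/-- **Uniform pole order.**  For a `Γ`-invariant function, pole-order bounds at `i∞` for each
translate `f ∘ γ` give a uniform bound (finitely many cosets). -/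
theorem exists_uniform_bdd {f : ℍ → ℂ} (hinv : ∀ γ ∈ Γ, compSL f γ = f)
    (h : ∀ γ : SL(2, ℤ), ∃ m : ℕ, Bdd m (compSL f γ)) :
    ∃ m : ℕ, ∀ γ : SL(2, ℤ), Bdd m (compSL f γ) := by
  classical
  have : Fintype (SL(2, ℤ) ⧸ Γ) := Fintype.ofFinite _
  choose Mf hMf using h
  refine ⟨Finset.univ.sup fun x : SL(2, ℤ) ⧸ Γ => Mf (Quotient.out x)⁻¹, fun γ => ?_⟩
  set x : SL(2, ℤ) ⧸ Γ := ((γ⁻¹ : SL(2, ℤ)) : SL(2, ℤ) ⧸ Γ) with hx
  have hδ : γ * Quotient.out x ∈ Γ := by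
    have h1 : ((γ⁻¹ : SL(2, ℤ)) : SL(2, ℤ) ⧸ Γ) = ((Quotient.out x : SL(2, ℤ)) : SL(2, ℤ) ⧸ Γ) :=
      (QuotientGroup.out_eq' x).symm
    have h2 := QuotientGroup.eq.mp h1
    rwa [inv_inv] at h2
  have hγ : γ = (γ * Quotient.out x) * (Quotient.out x)⁻¹ := by group
  have h3 : compSL f γ = compSL f (Quotient.out x)⁻¹ := by
    conv_lhs => rw [hγ]
    rw [compSL_mul, hinv _ hδ]
  rw [h3]
  exact (hMf _).mono
    (Finset.le_sup (f := fun x : SL(2, ℤ) ⧸ Γ => Mf (Quotient.out x)⁻¹) (Finset.mem_univ x))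

/-- A `Γ`-invariant holomorphic function all of whose translates have a `q_N`-expansion lies in
`𝒜 = algA Γ`. -/
theorem mem_algA_of_isQExp (N : ℕ) [NeZero N] {G : HolH}
    (hinv : ∀ γ ∈ Γ, compSL (G : ℍ → ℂ) γ = (G : ℍ → ℂ))
    (h : ∀ γ : SL(2, ℤ), ∃ (m : ℕ) (P : PowerSeries ℂ), IsQExp N (compSL (G : ℍ → ℂ) γ) m P) :
    G ∈ algA Γ := by
  refine ⟨hinv, exists_uniform_bdd Γ hinv fun γ => ?_⟩
  obtain ⟨m, P, hP⟩ := h γ
  exact intg_qn_bounded N (intg_qn_of_isQExp N hP)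

end Generic

/-! ### the generators of `R₁,ℂ` -/

variable {M : ℕ} [NeZero M]

variable (M) in
/-- `±Γ₁(M)` has finite index (a plain theorem, not an instance). -/
theorem finite_quotient_PG1 : Finite (SL(2, ℤ) ⧸ PG1 M) :=
  have : (PG1 M).FiniteIndex := Subgroup.finiteIndex_of_le (Gamma1_le_PG1 M)
  Subgroup.finite_quotient_of_finiteIndex

/-- `Θ u ∘ γ = Θ u` for `γ ∈ ±Γ₁(M)`. -/
theorem realC1_PG1_invariant (hW : WAnalytic M) (u : RC1 M) (γ : SL(2, ℤ)) (hγ : γ ∈ PG1 M) :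
    compSL ((realC1 hW u : HolH) : ℍ → ℂ) γ = ((realC1 hW u : HolH) : ℍ → ℂ) := by
  rcases (mem_PG1_iff M).mp hγ with h | h
  · exact realC1_Gamma1_invariant hW u γ h
  · rw [← compSL_neg]
    exact realC1_Gamma1_invariant hW u (-γ) h

/-- **`Θ(R₁,ℂ) ⊆ 𝒜(±Γ₁(M))`.** -/
theorem realC1_mem_algA (hW : WAnalytic M) (hcusp : WCusp M) (u : RC1 M) :
    realC1 hW u ∈ algA (PG1 M) :=
  have := finite_quotient_PG1 M
  mem_algA_of_isQExp (PG1 M) M (fun γ hγ => realC1_PG1_invariant hW u γ hγ)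
    fun γ => exists_cuspExpC1 hW hcusp γ u

/-- **`Θ(R₁,ℂ) ⊆ 𝒜(Γ₁(M))`.** -/
theorem realC1_mem_algA_Gamma1 (hW : WAnalytic M) (hcusp : WCusp M) (u : RC1 M) :
    realC1 hW u ∈ algA (Gamma1 M) :=
  mem_algA_of_isQExp (Gamma1 M) M (fun γ hγ => realC1_Gamma1_invariant hW u γ hγ)
    fun γ => exists_cuspExpC1 hW hcusp γ u

/-- **`Θ(F₁,ℂ) ⊆ Frac 𝒜(±Γ₁(M))`.** -/
theorem realMer1_mem_fracA (hW : WAnalytic M) (hcusp : WCusp M) (f : FC1 M) :
    realMer1 hW f ∈ fracA (PG1 M) := by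
  obtain ⟨r, s, hs, rfl⟩ := exists_divC1_ne_zero M f
  have hs' : realC1 hW s ≠ 0 := fun h => hs (realC1_injective hW (h.trans (map_zero _).symm))
  refine ⟨realC1 hW r, realC1 hW s, realC1_mem_algA hW hcusp r, realC1_mem_algA hW hcusp s,
    hs', ?_⟩
  rw [map_div₀, realMer1_coe, realMer1_coe]

/-- **`Θ(F₁,ℂ) ⊆ Frac 𝒜(Γ₁(M))`.** -/
theorem realMer1_mem_fracA_Gamma1 (hW : WAnalytic M) (hcusp : WCusp M) (f : FC1 M) :
    realMer1 hW f ∈ fracA (Gamma1 M) := by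
  obtain ⟨r, s, hs, rfl⟩ := exists_divC1_ne_zero M f
  have hs' : realC1 hW s ≠ 0 := fun h => hs (realC1_injective hW (h.trans (map_zero _).symm))
  refine ⟨realC1 hW r, realC1 hW s, realC1_mem_algA_Gamma1 hW hcusp r,
    realC1_mem_algA_Gamma1 hW hcusp s, hs', ?_⟩
  rw [map_div₀, realMer1_coe, realMer1_coe]

end Fermat.Agent.ES.R48.KumRatioGen3
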