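/-
Programme R (S48, Deligne–Serre), chapter GEOM / G5 KUM₁ (helper2): **GENERIC twins of
`ES/KUM/RatioGen15` + `ES/KUM/RatioMem15`** on top of `KumRatioAlg2` (the algebra `𝒜 Γ = algA Γ`
of `Γ`-invariant holomorphic functions with uniformly bounded pole orders at the cusps, and its
fraction field `fracA Γ ⊆ MerH`, for an ARBITRARY finite-index `Γ ≤ SL(2, ℤ)`).

Part 1 (generic `RatioGen15`):
* `exists_uniform_bdd`: pole-order bounds for each translate give a uniform bound;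
* `mem_algA_of_isQExp`: a `Γ`-invariant holomorphic function all of whose translates have a
  `q_N`-expansion lies in `𝒜 Γ`;
* `algA_anti`, `algA_eq_of_pm`, `fracA_eq_of_pm` (`𝒜 Γ₀ = 𝒜 Γ` when `Γ = ±Γ₀`), `jdH_mem_algA`;
* `range_le_algA`: an algebra hom `R →ₐ[ℂ] HolH` maps `R` into `𝒜 Γ` as soon as it does so on
  generators; `theta_mem_fracA_of_div`: quotients of such elements land in `Frac 𝒜 Γ`.

Part 2 (generic `RatioMem15`): for a field `F` over `ℂ` and `Θ : F →+* MerH` with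
`hΘc : Θ (algebraMap ℂ F c) = const c`, `hj : Θ jF = jM`, `hdeg : [F : ℂ(jF)] = [SL₂ℤ : Γ]`,
`hgen : Θ(F) ⊆ Frac 𝒜 Γ`:
* `exists_eq_of_mem_fracA`: `Θ(F) = Frac 𝒜 Γ`;
* `ratio_mem`: the ratio of two modular forms of the same weight on `Γ₀` (`Γ = ±Γ₀`) lies in `Θ(F)`;
* `root_mem` (`root_mem_of_pm`): a `Γ`- (resp. `Γ₀`-, `Γ = ±Γ₀`) invariant meromorphic `n`-th root
  of an element of `Θ(F)` lies in `Θ(F)` — the shape of `KumGenFinal18.RootMem`.
-/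
import Mathlib
import Fermat.Agent.ES.R48.KumRatioAlg2
import Fermat.Agent.ES.KUM.RatioMem15

set_option autoImplicit false
set_option linter.unusedSectionVars false
set_option linter.style.haveILetI false

open UpperHalfPlane ModularForm CongruenceSubgroup IntermediateField ModularCurve
open scoped MatrixGroups Manifold

noncomputable section

namespace Fermat.Agent.ES.R48.KumRatioMem2

open Fermat.Agent.X0 Fermat.Agent.X0.SurjPoint Fermat.Agent.ES.KUM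
open Fermat.Agent.ES.KUM.RatioAlg15 (Bdd jH jM CjM algebraMap_ne_zero)
open Fermat.Agent.ES.R48.KumRatioAlg2

/-! ## Part 1: membership in `𝒜 Γ` -/

section Gen

/-- **Uniform pole order.**  For a `Γ`-invariant function, pole-order bounds at `i∞` for each
translate `f ∘ γ` give a uniform bound (finitely many cosets). -/
theorem exists_uniform_bdd (Γ : Subgroup SL(2, ℤ)) [Γ.FiniteIndex] {f : ℍ → ℂ}
    (hinv : ∀ γ ∈ Γ, compSL f γ = f)
    (h : ∀ γ : SL(2, ℤ), ∃ m : ℕ, Bdd m (compSL f γ)) :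
    ∃ m : ℕ, ∀ γ : SL(2, ℤ), Bdd m (compSL f γ) := by
  classical
  haveI : Finite (Q Γ) := Subgroup.finite_quotient_of_finiteIndex
  haveI : Fintype (Q Γ) := Fintype.ofFinite _
  choose Mf hMf using h
  refine ⟨Finset.univ.sup fun x : Q Γ => Mf (Quotient.out x)⁻¹, fun γ => ?_⟩
  set x : Q Γ := ((γ⁻¹ : SL(2, ℤ)) : Q Γ) with hx
  have hδ : γ * Quotient.out x ∈ Γ := by
    have h1 : ((γ⁻¹ : SL(2, ℤ)) : Q Γ) = ((Quotient.out x : SL(2, ℤ)) : Q Γ) :=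
      (QuotientGroup.out_eq' x).symm
    have h2 := QuotientGroup.eq.mp h1
    rwa [inv_inv] at h2
  have hγ : γ = (γ * Quotient.out x) * (Quotient.out x)⁻¹ := by group
  have h3 : compSL f γ = compSL f (Quotient.out x)⁻¹ := by
    conv_lhs => rw [hγ]
    rw [compSL_mul, hinv _ hδ]
  rw [h3]
  exact (hMf _).mono (Finset.le_sup (f := fun x : Q Γ => Mf (Quotient.out x)⁻¹) (Finset.mem_univ x))

/-- A `Γ`-invariant holomorphic function all of whose `SL(2, ℤ)`-translates have a `q_N`-expansion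
(with a pole of finite order) lies in `𝒜 Γ`. -/
theorem mem_algA_of_isQExp (Γ : Subgroup SL(2, ℤ)) [Γ.FiniteIndex] (N : ℕ) [NeZero N] {h : HolH}
    (hinv : ∀ γ ∈ Γ, compSL h.1 γ = h.1)
    (hq : ∀ γ : SL(2, ℤ), ∃ (m : ℕ) (P : PowerSeries ℂ), IsQExp N (compSL h.1 γ) m P) :
    h ∈ algA Γ := by
  refine ⟨hinv, exists_uniform_bdd Γ hinv fun γ => ?_⟩
  obtain ⟨m, P, hP⟩ := hq γ
  exact intg_qn_bounded N (intg_qn_of_isQExp N hP)

/-- `𝒜` is antitone in the group. -/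
theorem algA_anti {Γ Γ' : Subgroup SL(2, ℤ)} (h : Γ' ≤ Γ) : algA Γ ≤ algA Γ' :=
  fun _ hG => ⟨fun γ hγ => hG.1 γ (h hγ), hG.2⟩

theorem fracA_anti {Γ Γ' : Subgroup SL(2, ℤ)} (h : Γ' ≤ Γ) : fracA Γ ≤ fracA Γ' := by
  rintro _ ⟨a, b, ha, hb, hb0, rfl⟩
  exact ⟨a, b, algA_anti h ha, algA_anti h hb, hb0, rfl⟩

/-- `-1` acts trivially on functions on `ℍ`. -/
theorem compSL_neg (f : ℍ → ℂ) (γ : SL(2, ℤ)) : compSL f (-γ) = compSL f γ := by
  funext z
  show f ((-γ) • z) = f (γ • z)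
  rw [ModularGroup.SL_neg_smul]

theorem compSLHom_neg (γ : SL(2, ℤ)) (a : HolH) : compSLHom (-γ) a = compSLHom γ a :=
  Subtype.ext (compSL_neg a.1 γ)

theorem slMer_neg (γ : SL(2, ℤ)) (h : MerH) : slMer (-γ) h = slMer γ h := by
  obtain ⟨a, b, -, rfl⟩ := exists_div_MerH h
  rw [slMer_div, slMer_div, compSLHom_neg, compSLHom_neg]

/-- **`𝒜 Γ₀ = 𝒜 Γ` when `Γ = ±Γ₀`.** -/
theorem algA_eq_of_pm {Γ₀ Γ : Subgroup SL(2, ℤ)} (hle : Γ₀ ≤ Γ)
    (hpm : ∀ γ ∈ Γ, γ ∈ Γ₀ ∨ -γ ∈ Γ₀) : algA Γ₀ = algA Γ := by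
  refine le_antisymm (fun G hG => ⟨fun γ hγ => ?_, hG.2⟩) (algA_anti hle)
  rcases hpm γ hγ with h | h
  · exact hG.1 γ h
  · rw [← compSL_neg]
    exact hG.1 _ h

theorem fracA_eq_of_pm {Γ₀ Γ : Subgroup SL(2, ℤ)} (hle : Γ₀ ≤ Γ)
    (hpm : ∀ γ ∈ Γ, γ ∈ Γ₀ ∨ -γ ∈ Γ₀) : fracA Γ₀ = fracA Γ := by
  refine SetLike.ext fun y => ?_
  rw [mem_fracA_iff, mem_fracA_iff, algA_eq_of_pm hle hpm]

/-- invariance under `Γ₀` is invariance under `±Γ₀`. -/
theorem slMer_eq_of_pm {Γ₀ Γ : Subgroup SL(2, ℤ)} (hpm : ∀ γ ∈ Γ, γ ∈ Γ₀ ∨ -γ ∈ Γ₀) {h : MerH}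
    (hinv : ∀ γ ∈ Γ₀, slMer γ h = h) : ∀ γ ∈ Γ, slMer γ h = h := by
  intro γ hγ
  rcases hpm γ hγ with h1 | h1
  · exact hinv γ h1
  · rw [← slMer_neg]
    exact hinv _ h1

/-- the old algebra `RatioAlg15.algA N` is `𝒜 Γ₀(N)`. -/
theorem mem_algA_Gamma0_iff (N : ℕ) (G : HolH) :
    G ∈ algA (Gamma0 N) ↔ G ∈ RatioAlg15.algA N := Iff.rfl

/-- **`j_d ∈ 𝒜 Γ`** for `d ∣ N`, `Γ ≤ Γ₀(N)`. -/
theorem jdH_mem_algA {N : ℕ} [NeZero N] {Γ : Subgroup SL(2, ℤ)} (hΓ : Γ ≤ Gamma0 N) {d : ℕ}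
    [NeZero d] (hd : d ∣ N) : RatioGen15.jdH d ∈ algA Γ :=
  algA_anti hΓ ((mem_algA_Gamma0_iff N _).mpr (RatioGen15.jdH_mem_algA N hd))

/-- An algebra homomorphism into `HolH` maps into `𝒜 Γ` as soon as it does so on a set of
generators. -/
theorem range_le_algA (Γ : Subgroup SL(2, ℤ)) {R : Type*} [CommRing R] [Algebra ℂ R]
    (θ : R →ₐ[ℂ] HolH) (S : Set R) (hS : Algebra.adjoin ℂ S = ⊤)
    (h : ∀ s ∈ S, θ s ∈ algA Γ) (u : R) : θ u ∈ algA Γ := by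
  have hu : u ∈ Algebra.adjoin ℂ S := by rw [hS]; exact Algebra.mem_top
  induction hu using Algebra.adjoin_induction with
  | mem x hx => exact h x hx
  | algebraMap c => rw [AlgHom.commutes]; exact (algA Γ).algebraMap_mem c
  | add x y _ _ hx hy => rw [map_add]; exact add_mem hx hy
  | mul x y _ _ hx hy => rw [map_mul]; exact mul_mem hx hy

/-- The shape of `RatioGen15.realMer_mem_fracA`: if every element of the field `F` is a quotient
`r / s` of elements whose images under `Θ` are (holomorphic and) in `𝒜 Γ`, then `Θ(F) ⊆ Frac 𝒜 Γ`. -/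
theorem theta_mem_fracA_of_div (Γ : Subgroup SL(2, ℤ)) {F : Type*} [Field F] (Θ : F →+* MerH)
    (f : F)
    (h : ∃ r s : F, s ≠ 0 ∧ f = r / s ∧ (∃ a ∈ algA Γ, Θ r = algebraMap HolH MerH a) ∧
      ∃ b ∈ algA Γ, Θ s = algebraMap HolH MerH b) : Θ f ∈ fracA Γ := by
  obtain ⟨r, s, hs, rfl, ⟨a, ha, hra⟩, b, hb, hsb⟩ := h
  have hb0 : b ≠ 0 := by
    rintro rfl
    rw [map_zero] at hsb
    exact hs (Θ.injective (hsb.trans (map_zero Θ).symm))
  exact ⟨a, b, ha, hb, hb0, by rw [map_div₀, hra, hsb]⟩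

end Gen

/-! ## Part 2: `Θ(F) = Frac 𝒜 Γ` -/

section Mem

variable (Γ : Subgroup SL(2, ℤ)) [Γ.FiniteIndex] {F : Type} [Field F] [Algebra ℂ F]
  (Θ : F →+* MerH)
  (hΘc : ∀ c : ℂ, Θ (algebraMap ℂ F c) = algebraMap HolH MerH (algebraMap ℂ HolH c))

include hΘc

/-- `Θ` as a `ℂ`-algebra homomorphism. -/
def thetaAlg : F →ₐ[ℂ] MerH :=
  { Θ with
    commutes' := fun a => by
      show Θ (algebraMap ℂ F a) = algebraMap ℂ MerH a
      rw [hΘc]
      exact (IsScalarTower.algebraMap_apply ℂ HolH MerH a).symm }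

theorem thetaAlg_apply (f : F) : thetaAlg Θ hΘc f = Θ f := rfl

/-- The range `Θ(F)` as a subfield of `MerH`. -/
def rangeΘ : IntermediateField ℂ MerH := (thetaAlg Θ hΘc).fieldRange

theorem mem_rangeΘ_iff (y : MerH) : y ∈ rangeΘ Θ hΘc ↔ ∃ f : F, Θ f = y := Iff.rfl

variable {jE : F} (hj : Θ jE = jM)

include hj

theorem CjM_le_rangeΘ : CjM ≤ rangeΘ Θ hΘc := by
  unfold CjM
  rw [IntermediateField.adjoin_simple_le_iff]
  exact ⟨jE, hj⟩

/-- `Θ(F)` as an extension of `ℂ(j)`. -/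
def rangeΘj : IntermediateField CjM MerH :=
  IntermediateField.extendScalars (CjM_le_rangeΘ Θ hΘc hj)

theorem mem_rangeΘj_iff (y : MerH) : y ∈ rangeΘj Θ hΘc hj ↔ ∃ f : F, Θ f = y :=
  IntermediateField.mem_extendScalars (CjM_le_rangeΘ Θ hΘc hj)

theorem theta_mem_CjM {x : F} (hx : x ∈ ℂ⟮jE⟯) : Θ x ∈ CjM := by
  have h1 : thetaAlg Θ hΘc x ∈ (ℂ⟮jE⟯).map (thetaAlg Θ hΘc) := ⟨x, hx, rfl⟩
  rw [IntermediateField.adjoin_map, Set.image_singleton, thetaAlg_apply, hj] at h1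
  exact h1

theorem exists_of_mem_CjM {y : MerH} (hy : y ∈ CjM) : ∃ x : F, x ∈ ℂ⟮jE⟯ ∧ Θ x = y := by
  have h1 : y ∈ (ℂ⟮jE⟯).map (thetaAlg Θ hΘc) := by
    rw [IntermediateField.adjoin_map, Set.image_singleton, thetaAlg_apply, hj]
    exact hy
  obtain ⟨x, hx, rfl⟩ := h1
  exact ⟨x, hx, rfl⟩

/-- **`[Θ(F) : ℂ(j)] = [F : ℂ(jE)]`** (transport along `Θ`). -/
theorem finrank_rangeΘj :
    Module.finrank CjM (rangeΘj Θ hΘc hj) = Module.finrank (ℂ⟮jE⟯) F := by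
  symm
  let f₀ : ↥(ℂ⟮jE⟯) →+* ↥CjM :=
    (Θ.comp (algebraMap ↥(ℂ⟮jE⟯) F)).codRestrict CjM.toSubfield
      (fun x => theta_mem_CjM Θ hΘc hj x.2)
  have hf₀ : Function.Bijective f₀ := by
    refine ⟨fun a b h => ?_, fun y => ?_⟩
    · have h1 : Θ (a : F) = Θ (b : F) := congrArg Subtype.val h
      exact Subtype.ext (Θ.injective h1)
    · obtain ⟨x, hx, hxy⟩ := exists_of_mem_CjM Θ hΘc hj y.2
      exact ⟨⟨x, hx⟩, Subtype.ext hxy⟩
  let f₁ : F →+* ↥(rangeΘj Θ hΘc hj) :=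
    Θ.codRestrict (rangeΘj Θ hΘc hj).toSubfield
      (fun x => (mem_rangeΘj_iff Θ hΘc hj _).mpr ⟨x, rfl⟩)
  have hf₁ : Function.Bijective f₁ := by
    refine ⟨fun a b h => ?_, fun y => ?_⟩
    · have h1 : Θ a = Θ b := congrArg Subtype.val h
      exact Θ.injective h1
    · obtain ⟨x, hx⟩ := (mem_rangeΘj_iff Θ hΘc hj _).mp y.2
      exact ⟨x, Subtype.ext hx⟩
  exact Algebra.finrank_eq_of_equiv_equiv (RingEquiv.ofBijective f₀ hf₀)
    (RingEquiv.ofBijective f₁ hf₁) (RingHom.ext fun x => Subtype.ext rfl)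

variable (hdeg : Module.finrank (ℂ⟮jE⟯) F = Γ.index) (hgen : ∀ f : F, Θ f ∈ fracA Γ)

include hgen

theorem rangeΘj_le_fracAj : rangeΘj Θ hΘc hj ≤ fracAj Γ := by
  intro y hy
  rw [mem_fracAj_iff]
  obtain ⟨f, rfl⟩ := (mem_rangeΘj_iff Θ hΘc hj y).mp hy
  exact hgen f

include hdeg

/-- **`Θ(F) = Frac 𝒜 Γ`.** -/
theorem rangeΘj_eq_fracAj : rangeΘj Θ hΘc hj = fracAj Γ := by
  obtain ⟨hfin, hle⟩ := finrank_fracAj_le_index Γ
  haveI := hfin
  refine IntermediateField.eq_of_le_of_finrank_le (rangeΘj_le_fracAj Γ Θ hΘc hj hgen) ?_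
  rw [finrank_rangeΘj, hdeg]
  exact hle

/-- every element of `Frac 𝒜 Γ` is `Θ f`. -/
theorem exists_eq_of_mem_fracA {y : MerH} (hy : y ∈ fracA Γ) : ∃ f : F, Θ f = y := by
  have h1 : y ∈ fracAj Γ := (mem_fracAj_iff Γ y).mpr hy
  rw [← rangeΘj_eq_fracAj Γ Θ hΘc hj hdeg hgen] at h1
  exact (mem_rangeΘj_iff Θ hΘc hj y).mp h1

end Mem

/-! ## Part 3: negative weights -/

section Neg

open Fermat.Agent.ES.KUM.RatioMem15 (mulDisc)

variable {Γ : Subgroup SL(2, ℤ)}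

/-- A holomorphic function of weight `-12 n` for `Γ`, all of whose slashes are bounded at `i∞`,
multiplied by `ModularForm.discriminant^n`, lies in `𝒜 Γ`. -/
theorem mulDisc_mem_algA (F : ℍ → ℂ) (hF : MDifferentiable 𝓘(ℂ) 𝓘(ℂ) F) (n : ℕ)
    (hinv : ∀ γ ∈ Γ, F ∣[(-(12 * n) : ℤ)] γ = F)
    (hbdd : ∀ γ : SL(2, ℤ), IsBoundedAtImInfty (F ∣[(-(12 * n) : ℤ)] γ)) :
    mulDisc F hF n ∈ algA Γ := by
  have key : ∀ (γ : SL(2, ℤ)) (z : ℍ),
      F (γ • z) * ModularForm.discriminant (γ • z) ^ n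
        = (F ∣[(-(12 * n) : ℤ)] γ) z * ModularForm.discriminant z ^ n := by
    intro γ z
    have hd : denom γ z ≠ 0 := denom_ne_zero γ z
    rw [SL_slash_apply, lof_discriminant_smul, mul_pow, ← zpow_natCast (denom γ z ^ (12 : ℤ)) n,
      ← zpow_mul, neg_neg]
    ring
  refine ⟨fun γ hγ => funext fun z => ?_, 0, fun γ => ?_⟩
  · show F (γ • z) * ModularForm.discriminant (γ • z) ^ n = F z * ModularForm.discriminant z ^ n
    rw [key, hinv γ hγ]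
  · have e : (fun z => compSL (mulDisc F hF n).1 γ z * ModularForm.discriminant z ^ 0) =
        (F ∣[(-(12 * n) : ℤ)] γ) * fun z => ModularForm.discriminant z ^ n := by
      funext z
      show F (γ • z) * ModularForm.discriminant (γ • z) ^ n * ModularForm.discriminant z ^ 0 = _
      rw [key, pow_zero, mul_one]
      rfl
    unfold Bdd
    rw [e]
    exact (hbdd γ).mul (RatioAlg15.isBoundedAtImInfty_discriminant_pow n)

variable [Γ.FiniteIndex]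

theorem mem_algA_of_modularForm_neg {w : ℤ}
    (F : ModularForm (Γ.map (Matrix.SpecialLinearGroup.mapGL ℝ)) w) (n : ℕ)
    (hw : w = -(12 * n)) : mulDisc F F.holo' n ∈ algA Γ := by
  subst hw
  exact mulDisc_mem_algA F F.holo' n (fun γ hγ => modularForm_slash_eq F γ hγ)
    (fun γ => modularForm_slash_bdd F γ)

/-- the ratio of two modular forms of the same negative weight lies in `Frac 𝒜 Γ`. -/
theorem ratio_mem_fracA_neg {k : ℤ} (hk : k ≤ 0)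
    (A B : ModularForm (Γ.map (Matrix.SpecialLinearGroup.mapGL ℝ)) k) :
    algebraMap HolH MerH (toHolH A) / algebraMap HolH MerH (toHolH B) ∈ fracA Γ := by
  obtain ⟨n, hn⟩ := Int.eq_ofNat_of_zero_le (neg_nonneg.mpr hk)
  have hkn : k = -(n : ℤ) := by omega
  subst hkn
  by_cases hB : (B : ℍ → ℂ) = 0
  · have : toHolH B = 0 := Subtype.ext hB
    rw [this, map_zero, div_zero]
    exact zero_mem _
  set Fa : ModularForm (Γ.map (Matrix.SpecialLinearGroup.mapGL ℝ))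
    (-(n : ℤ) + (11 : ℕ) * (-(n : ℤ))) := A.mul (B.pow 11)
  set Fb : ModularForm (Γ.map (Matrix.SpecialLinearGroup.mapGL ℝ))
    ((12 : ℕ) * (-(n : ℤ))) := B.pow 12
  have ha := mem_algA_of_modularForm_neg Fa n (by push_cast; ring)
  have hb := mem_algA_of_modularForm_neg Fb n (by push_cast; ring)
  have hFa : ∀ z, Fa z = A z * B z ^ 11 := by
    intro z
    show (A.mul (B.pow 11)) z = _
    rw [ModularForm.coe_mul, Pi.mul_apply, ModularForm.coe_pow]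
    rfl
  have hFb : ∀ z, Fb z = B z ^ 12 := by
    intro z
    show (B.pow 12) z = _
    rw [ModularForm.coe_pow]
    rfl
  obtain ⟨z₀, hz₀⟩ : ∃ z, B z ≠ 0 := by
    by_contra h
    exact hB (funext fun z => not_not.mp fun hz => h ⟨z, hz⟩)
  have hb0 : mulDisc Fb Fb.holo' n ≠ 0 := by
    intro h
    have h1 : (mulDisc Fb Fb.holo' n).1 z₀ = (0 : HolH).1 z₀ := by rw [h]
    have h2 : (0 : HolH).1 z₀ = 0 := rfl
    have h3 : (mulDisc Fb Fb.holo' n).1 z₀ = Fb z₀ * ModularForm.discriminant z₀ ^ n := rfl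
    rw [h2, h3, hFb, mul_eq_zero] at h1
    rcases h1 with h1 | h1
    · exact hz₀ (pow_eq_zero_iff (by norm_num) |>.mp h1)
    · exact pow_ne_zero n (discriminant_ne_zero z₀) h1
  refine ⟨mulDisc Fa Fa.holo' n, mulDisc Fb Fb.holo' n, ha, hb, hb0, ?_⟩
  have hB0 : toHolH B ≠ 0 := fun h => hB (congrArg Subtype.val h)
  rw [div_eq_div_iff (algebraMap_ne_zero hB0) (algebraMap_ne_zero hb0), ← map_mul, ← map_mul]
  congr 1
  apply Subtype.ext
  funext z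
  show A z * (Fb z * ModularForm.discriminant z ^ n)
    = Fa z * ModularForm.discriminant z ^ n * B z
  rw [hFa, hFb]
  ring

/-- the ratio of two modular forms of the same weight (any sign) lies in `Frac 𝒜 Γ`. -/
theorem ratio_mem_fracA_all (k : ℤ)
    (A B : ModularForm (Γ.map (Matrix.SpecialLinearGroup.mapGL ℝ)) k) :
    algebraMap HolH MerH (toHolH A) / algebraMap HolH MerH (toHolH B) ∈ fracA Γ := by
  rcases le_total 0 k with hk | hk
  · exact ratio_mem_fracA hk A B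
  · exact ratio_mem_fracA_neg hk A B

end Neg

/-! ## Part 4: the two exports -/

section Exports

variable (Γ : Subgroup SL(2, ℤ)) [Γ.FiniteIndex] {F : Type} [Field F] [Algebra ℂ F]
  (Θ : F →+* MerH)
  (hΘc : ∀ c : ℂ, Θ (algebraMap ℂ F c) = algebraMap HolH MerH (algebraMap ℂ HolH c))
  {jE : F} (hj : Θ jE = jM)
  (hdeg : Module.finrank (ℂ⟮jE⟯) F = Γ.index) (hgen : ∀ f : F, Θ f ∈ fracA Γ)

include hΘc hj hdeg hgen

/-- **`ratio_mem`**: the ratio of two modular forms of the same weight on `Γ₀`, where `Γ = ±Γ₀`,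
lies in `Θ(F)`. -/
theorem ratio_mem {Γ₀ : Subgroup SL(2, ℤ)} [Γ₀.FiniteIndex] (hle : Γ₀ ≤ Γ)
    (hpm : ∀ γ ∈ Γ, γ ∈ Γ₀ ∨ -γ ∈ Γ₀) (k : ℤ)
    (A B : ModularForm (Γ₀.map (Matrix.SpecialLinearGroup.mapGL ℝ)) k) (hB : B ≠ 0) :
    ∃ f : F, Θ f * algebraMap HolH MerH ⟨B, B.holo'⟩ = algebraMap HolH MerH ⟨A, A.holo'⟩ := by
  have hmem : algebraMap HolH MerH (toHolH A) / algebraMap HolH MerH (toHolH B) ∈ fracA Γ := by
    rw [← fracA_eq_of_pm hle hpm]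
    exact ratio_mem_fracA_all k A B
  obtain ⟨f, hf⟩ := exists_eq_of_mem_fracA Γ Θ hΘc hj hdeg hgen hmem
  refine ⟨f, ?_⟩
  have hB0 : toHolH B ≠ 0 := by
    intro h
    apply hB
    have h1 : (B : ℍ → ℂ) = 0 := congrArg Subtype.val h
    exact DFunLike.coe_injective h1
  rw [hf]
  exact div_mul_cancel₀ _ (algebraMap_ne_zero hB0)

/-- **`root_mem`**: a `Γ`-invariant meromorphic `n`-th root of an element of `Θ(F)` lies in
`Θ(F)`. -/
theorem root_mem (n : ℕ) (hn : n ≠ 0) (h : MerH)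
    (hinv : ∀ γ ∈ Γ, slMer γ h = h) (f : F) (hf : h ^ n = Θ f) :
    ∃ f' : F, Θ f' = h := by
  rcases eq_or_ne h 0 with rfl | h0
  · exact ⟨0, map_zero _⟩
  obtain ⟨r, s, hr, hs, hs0, hrs⟩ := (mem_fracA_iff Γ _).mp (hgen f)
  have hsM : algebraMap HolH MerH s ≠ 0 := algebraMap_ne_zero hs0
  -- `h₁ := h · s` has `h₁ ^ n = r s^{n-1}`
  set g : HolH := r * s ^ (n - 1) with hg
  set h₁ : MerH := h * algebraMap HolH MerH s with hh₁
  have h₁0 : h₁ ≠ 0 := mul_ne_zero h0 hsM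
  have hpow : h₁ ^ n = algebraMap HolH MerH g := by
    rw [hh₁, mul_pow, hf, hrs, hg, map_mul, map_pow]
    have e : algebraMap HolH MerH s ^ n =
        algebraMap HolH MerH s ^ (n - 1) * algebraMap HolH MerH s := by
      rw [← pow_succ, Nat.sub_add_cancel (Nat.one_le_iff_ne_zero.mpr hn)]
    rw [e]
    field_simp
  have hg0 : g ≠ 0 := by
    intro hg0
    rw [hg0, map_zero] at hpow
    exact h₁0 (pow_eq_zero_iff hn |>.mp hpow)
  -- a holomorphic root of `g`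
  obtain ⟨h₀, hh₀⟩ := RootsH14.exists_root_HolH_of_dvd n hn g hg0 (fun z => by
    have h1 := ordMer_algebraMap z hg0
    rw [← hpow, ordMer_pow z h₁0] at h1
    have h2 : (0 : ℤ) ≤ ordMer z h₁ := by
      have : (0 : ℤ) ≤ (n : ℤ) * ordMer z h₁ := by rw [h1]; exact Int.natCast_nonneg _
      exact nonneg_of_mul_nonneg_right this (by exact_mod_cast Nat.pos_of_ne_zero hn)
    obtain ⟨m, hm⟩ := Int.eq_ofNat_of_zero_le h2
    refine ⟨m, ?_⟩
    rw [hm] at h1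
    exact_mod_cast h1.symm)
  have hh₀0 : algebraMap HolH MerH h₀ ≠ 0 := by
    intro h
    have : algebraMap HolH MerH g = 0 := by rw [← hh₀, map_pow, h, zero_pow hn]
    exact algebraMap_ne_zero hg0 this
  obtain ⟨ζ, hζ, hζh⟩ := RootsMer14.exists_pow_eq_one_of_pow_eq (n := n) (x := h₁)
    (y := algebraMap HolH MerH h₀) hh₀0 (by rw [hpow, ← hh₀, map_pow])
  obtain ⟨c, hc, rfl⟩ := RatioMem15.exists_const_of_pow_eq_one hn hζ
  -- `h₁` is the image of `h₂ := c · h₀ ∈ HolH`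
  set h₂ : HolH := algebraMap ℂ HolH c * h₀ with hh₂
  have hh₁₂ : h₁ = algebraMap HolH MerH h₂ := by rw [hζh, hh₂, map_mul]
  have hh₂pow : h₂ ^ n = g := by
    rw [hh₂, mul_pow, ← map_pow, hc, map_one, one_mul, hh₀]
  have hinv₂ : ∀ γ ∈ Γ, compSL h₂.1 γ = h₂.1 := by
    intro γ hγ
    have h1 : slMer γ h₁ = h₁ := by
      rw [hh₁, map_mul, hinv γ hγ, slMer_algebraMap, compSLHom_of_mem hs hγ]
    rw [hh₁₂, slMer_algebraMap] at h1
    have h2 := IsFractionRing.injective HolH MerH h1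
    exact congrArg Subtype.val h2
  have hmem₂ : h₂ ∈ algA Γ :=
    mem_algA_of_pow_mem (Nat.pos_of_ne_zero hn) hinv₂
      (hh₂pow ▸ mul_mem hr (pow_mem hs _))
  have hmem : h ∈ fracA Γ := by
    have h1 : h = h₁ / algebraMap HolH MerH s := by
      rw [hh₁, mul_div_cancel_right₀ _ hsM]
    rw [h1, hh₁₂]
    exact ⟨h₂, s, hmem₂, hs, hs0, rfl⟩
  exact exists_eq_of_mem_fracA Γ Θ hΘc hj hdeg hgen hmem

/-- `root_mem` for a function invariant under `Γ₀` only, where `Γ = ±Γ₀`. -/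
theorem root_mem_of_pm {Γ₀ : Subgroup SL(2, ℤ)} (hpm : ∀ γ ∈ Γ, γ ∈ Γ₀ ∨ -γ ∈ Γ₀)
    (n : ℕ) (hn : n ≠ 0) (h : MerH)
    (hinv : ∀ γ ∈ Γ₀, slMer γ h = h) (f : F) (hf : h ^ n = Θ f) :
    ∃ f' : F, Θ f' = h :=
  root_mem Γ Θ hΘc hj hdeg hgen n hn h (slMer_eq_of_pm hpm hinv) f hf

end Exports

end Fermat.Agent.ES.R48.KumRatioMem2
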