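/-
Programme R (S48, Deligne–Serre), chapter GEOM, sub-chapter G5 KUM₁ (helper3):
**(I4) `RootMem` and (I5) `EigenRatio` for the realisation of `F₁,ℂ` on `Γ₁(M)`** — the
instantiation of helper2's generic `KumRatioMem2` (twins of main's RatioGen15 + RatioMem15) at
`(F, Θ, Γ) = (FC1 M, realMer1 hW, ±Γ₁(M))`, and of `KumEisBridge3` at `realization1 hW`.

Hypotheses (all named, all to be discharged in the closer of G5):
* `hW : CReal1_3.WAnalytic M` (← `WAnalyticFinal3.wAnalytic M hM`),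
* `hcusp : KumReal1_3.WCusp M` (← G1-E4, `KumWCusp29.wCusp M hM`),
* `hdeg : finrank ℂ(j) F₁,ℂ = (PG1 M).index` (← helper25's `KumFieldC25.finrank_jC1_eq_index`).

* `realMer1_jC1_eq_jM : realMer1 hW (jC1 M) = jM`;
* **`exists_eq_of_mem_fracA1`** : `y ∈ fracA (PG1 M) → ∃ f, realMer1 hW f = y` (`Θ(F₁,ℂ) = Frac 𝒜`);
* `exists_eq_of_mem_fracA_Gamma1` : the same for `fracA (Gamma1 M)`;
* **`ratio_mem1`** : ratios of modular forms of any weight on `Γ₁(M)` lie in `Θ(F₁,ℂ)`;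
* **`rootMem1 : KumGenFinal18.RootMem (realization1 hW) n`** (I4);
* **`eigenRatio1 : KumGenFinal18.EigenRatio (realization1 hW) n`** (I5), `3 ≤ M`.
-/
import Fermat.Agent.ES.R48.KumRatioGen3
import Fermat.Agent.ES.R48.KumRatioMem2
import Fermat.Agent.ES.R48.KumEisBridge3

set_option autoImplicit false
set_option linter.unusedSectionVars false

open UpperHalfPlane ModularForm CongruenceSubgroup IntermediateField
open scoped MatrixGroups Manifold

noncomputable section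

namespace Fermat.Agent.ES.R48.KumEisFinal3

open Fermat.Agent.X0 Fermat.Agent.X0.SurjPoint
open Fermat.Agent.ES.KUM.RatioAlg15 (jM jH)
open Fermat.Agent.ES.R48.X1Iface13 Fermat.Agent.ES.R48.CReal1_3 Fermat.Agent.ES.R48.CPoint1_3
open Fermat.Agent.ES.R48.KumReal1_3 Fermat.Agent.ES.R48.KumRatioAlg2
open Fermat.Agent.ES.R48.KumGen18 Fermat.Agent.ES.R48.KumGenFinal18

variable {M : ℕ} [NeZero M]

variable (M) in
/-- `±Γ₁(M)` has finite index (a plain theorem, not an instance). -/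
theorem finiteIndex_PG1 : (PG1 M).FiniteIndex :=
  Subgroup.finiteIndex_of_le (Gamma1_le_PG1 M)

variable (M) in
/-- `±Γ₁(M)` is `Γ₁(M)` up to sign. -/
theorem pm_PG1 : ∀ γ ∈ PG1 M, γ ∈ Gamma1 M ∨ -γ ∈ Gamma1 M :=
  fun _ hγ => (mem_PG1_iff M).mp hγ

/-- `Θ(j) = j`. -/
theorem realMer1_jC1_eq_jM (hW : WAnalytic M) : realMer1 hW (jC1 M) = jM := by
  rw [realMer1_jC1]
  rfl

section

variable (hW : WAnalytic M) (hcusp : WCusp M)
  (hdeg : Module.finrank ↥(ℂ⟮jC1 M⟯ : IntermediateField ℂ (FC1 M)) (FC1 M) = (PG1 M).index)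

include hcusp hdeg

/-- **`Θ(F₁,ℂ) ⊇ Frac 𝒜(±Γ₁(M))`.** -/
theorem exists_eq_of_mem_fracA1 {y : MerH} (hy : y ∈ fracA (PG1 M)) :
    ∃ f : FC1 M, realMer1 hW f = y :=
  have := finiteIndex_PG1 M
  KumRatioMem2.exists_eq_of_mem_fracA (PG1 M) (realMer1 hW) (realMer1_algebraMap hW)
    (realMer1_jC1_eq_jM hW) hdeg (KumRatioGen3.realMer1_mem_fracA hW hcusp) hy

/-- **`Θ(F₁,ℂ) ⊇ Frac 𝒜(Γ₁(M))`.** -/
theorem exists_eq_of_mem_fracA_Gamma1 {y : MerH} (hy : y ∈ fracA (Gamma1 M)) :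
    ∃ f : FC1 M, realMer1 hW f = y := by
  rw [KumRatioMem2.fracA_eq_of_pm (Gamma1_le_PG1 M) (pm_PG1 M)] at hy
  exact exists_eq_of_mem_fracA1 hW hcusp hdeg hy

/-- **`ratio_mem` on `Γ₁(M)`**: the ratio of two modular forms of the same weight on `Γ₁(M)` lies
in `Θ(F₁,ℂ)`. -/
theorem ratio_mem1 (k : ℤ) (A B : ModularForm (Gamma1 M) k) (hB : B ≠ 0) :
    ∃ f : FC1 M, realMer1 hW f * algebraMap HolH MerH ⟨(B : ℍ → ℂ), B.holo'⟩ =
      algebraMap HolH MerH ⟨(A : ℍ → ℂ), A.holo'⟩ :=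
  have := finiteIndex_PG1 M
  KumRatioMem2.ratio_mem (PG1 M) (realMer1 hW) (realMer1_algebraMap hW)
    (realMer1_jC1_eq_jM hW) hdeg (KumRatioGen3.realMer1_mem_fracA hW hcusp)
    (Gamma1_le_PG1 M) (pm_PG1 M) k A B hB

/-- **(I4)** a `Γ₁(M)`-invariant meromorphic `n`-th root of an element of `Θ(F₁,ℂ)` lies in
`Θ(F₁,ℂ)`. -/
theorem rootMem1 {n : ℕ} (hn : n ≠ 0) : RootMem (realization1 hW) n := by
  intro h hinv f hf
  have := finiteIndex_PG1 M
  exact KumRatioMem2.root_mem_of_pm (PG1 M) (realMer1 hW) (realMer1_algebraMap hW)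
    (realMer1_jC1_eq_jM hW) hdeg (KumRatioGen3.realMer1_mem_fracA hW hcusp)
    (pm_PG1 M) n hn h hinv f hf

/-- **(I5)** every `χ ∈ KumChar (Gamma1 M) n` has the Eisenstein eigenfunction `E_χ/E_1`, whose
`n`-th power lies in `Θ(F₁,ℂ)`. -/
theorem eigenRatio1 {n : ℕ} [NeZero n] (hM : 3 ≤ M) : EigenRatio (realization1 hW) n :=
  KumEisBridge3.eigenRatio_of_fracA (realization1 hW) hM
    fun _ hy => exists_eq_of_mem_fracA_Gamma1 hW hcusp hdeg hy

end

end Fermat.Agent.ES.R48.KumEisFinal3
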