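/-
Programme R (S48, Deligne–Serre), chapter G5 KUM₁, K4 part 2 (helper9):
**Hecke-equivariance of the Kummer map on `J₁(M)(ℚbar)[n]`** — the `Γ₁(M)`-twin of main's
`ES/HEQ/KummerHeckeMain19.kummer_hecke`.

* `deltaS hpM = σ_p⁻¹ ∈ Γ₀(M)` (`(δ′)₁₁ · p ≡ 1 mod M`): the dual twist;
* `setup1 hpM hW hdeg` : the concrete instance of main's abstract analytic interface
  `KummerHeckeAbs19.Setup`, with `an := anBar1 hW`, `σ := sigma1 hpM hW`, `R γ := slMer γ`,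
  `B := betaMerS δ′`, `perm := permEquiv`, `coc := cocS δ′`;  the degree of `α` is the HYPOTHESIS
  `hdeg : finrankAlong ℚbar (heckeOneAlphaBar M p ℚbar) = p + 1` (chapter G4);
* **`kummer_hecke1`** : for every `κ` with `IsKummerMap1 hW n κ`,
  `(κ (heckeOne M p x)).toAdditive = DcDual9.dcTs hp hpM (κ x).toAdditive`
  (`heckeOne M p = T_p^* = T_p ∘ ⟨p⟩⁻¹`).
-/
import Fermat.Agent.ES.HEQ.KummerHeckeAbs19
import Fermat.Agent.ES.R48.JOneOps13
import Fermat.Agent.ES.R48.KumReal9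

set_option autoImplicit false
set_option linter.unusedSectionVars false

open UpperHalfPlane hiding I
open scoped Manifold MatrixGroups
open CongruenceSubgroup AlgebraicCurve ModularCurve

noncomputable section

namespace Fermat.Agent.ES.R48.KumHecke9

open Fermat.Agent.X0 Fermat.Agent.X0.SurjPoint Fermat.Agent.ES.KUM
open Fermat.Agent.ES.HEQ.DoubleCoset27 Fermat.Agent.ES.HEQ.BetaMer19
open Fermat.Agent.ES.HEQ.KummerHeckeAbs19
open Fermat.Agent.ES.R48.FF1Defs13 Fermat.Agent.ES.R48.X1Iface13 Fermat.Agent.ES.R48.CReal1_3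
open Fermat.Agent.ES.R48.JOneOps13 Fermat.Agent.ES.R48.KumIface5
open Fermat.Agent.ES.R48.DcGamma1_9 Fermat.Agent.ES.R48.DcDual9
open Fermat.Agent.ES.R48.KumBetaMer9 Fermat.Agent.ES.R48.KumReal9

variable {M : ℕ} [NeZero M] {p : ℕ} [hp : Fact p.Prime] (hpM : ¬ p ∣ M)

/-! ### The dual twist -/

/-- the dual twist `δ′ = σ_p⁻¹ ∈ Γ₀(M)`, `(δ′)₁₁ · p ≡ 1 (mod M)`. -/
def deltaS : SL(2, ℤ) := (sigmaP hp.out hpM)⁻¹

theorem deltaS_mem : deltaS hpM ∈ Gamma0 M := (Gamma0 M).inv_mem (sigmaP_mem hp.out hpM)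

theorem deltaS_apply : ((deltaS hpM 1 1 : ℤ) : ZMod M) * (p : ZMod M) = 1 :=
  inv_apply_mul (sigmaP_mem hp.out hpM) (sigmaP_apply hp.out hpM)

/-- the `Γ₁(M)`-valued cocycle of the dual representatives. -/
def cocS1 (γ : Gamma1 M) (i : Option (ZMod p)) : Gamma1 M :=
  ⟨cocS (deltaS hpM) (γ : SL(2, ℤ)) i,
    cocS_mem_Gamma1 hpM (deltaS_mem hpM) (deltaS_apply hpM) γ.2 i⟩

/-! ### The concrete analytic interface -/

/-- the concrete instance of main's abstract analytic interface, at level `Γ₁(M)`. -/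
def setup1 (hW : WAnalytic M)
    (hdeg : finrankAlong Kbar (heckeOneAlphaBar M p Kbar) = p + 1) :
    Setup (K := Kbar) (heckeOneAlphaBar M p Kbar) (heckeOneBetaBar M p Kbar)
      (fun γ : Gamma1 M => (permEquiv (γ : SL(2, ℤ)) : Equiv.Perm (Option (ZMod p))))
      (cocS1 hpM) MerH ℂˣ where
  an := anBar1 hW
  σ := sigma1 hpM hW
  R := fun γ => slMer (γ : SL(2, ℤ))
  B := betaMerS (deltaS hpM)
  c := constMerHom
  σ_alpha := sigma1_alpha hpM hW
  σ_beta := sigma1_beta hpM hW (deltaS_mem hpM) (deltaS_apply hpM)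
  σ_inj := sigma1_injective hpM hW
  card_eq := by rw [hdeg, Fintype.card_option, ZMod.card]
  R_B := fun γ i h => slMer_betaMerS (deltaS hpM) (γ : SL(2, ℤ)) i h
  R_c := fun γ a => slMer_constMerHom (γ : SL(2, ℤ)) a
  B_c := fun i a => betaMerS_const (deltaS hpM) i (a : ℂ)

/-! ### Torsion -/

theorem heckeOneAlong_mem_torsion (n : ℕ) (x : ↥(Pic0.torsion Kbar (FF1 M) n)) :
    heckeOneAlong Kbar M p (x : Pic0 Kbar (FF1 M)) ∈ Pic0.torsion Kbar (FF1 M) n := by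
  rw [Pic0.mem_torsion, ← map_zsmul, Pic0.mem_torsion.mp x.2, map_zero]

theorem heckeOne_mem_torsion (M p n : ℕ) (x : ↥(Pic0.torsion Kbar (FF1 M) n)) :
    heckeOne M p (x : Pic0 Kbar (FF1 M)) ∈ Pic0.torsion Kbar (FF1 M) n := by
  rw [Pic0.mem_torsion, ← map_zsmul, Pic0.mem_torsion.mp x.2, map_zero]

/-! ### The main theorem -/

/-- **K4: Hecke-equivariance of the Kummer map, in terms of `heckeOneAlong`.** -/
theorem kummer_heckeAlong1 {hW : WAnalytic M} (hin : HeckeOneInputsAlong Kbar M p)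
    (hdeg : finrankAlong Kbar (heckeOneAlphaBar M p Kbar) = p + 1) {n : ℕ}
    {κ : ↥(Pic0.torsion Kbar (FF1 M) n) → (↥(Gamma1 M) →* ℂˣ)} (hκ : IsKummerMap1 hW n κ)
    (x : ↥(Pic0.torsion Kbar (FF1 M) n)) (γ : Gamma1 M) :
    κ ⟨heckeOneAlong Kbar M p (x : Pic0 Kbar (FF1 M)), heckeOneAlong_mem_torsion n x⟩ γ
      = ∏ i : Option (ZMod p), κ x (cocS1 hpM γ i) := by
  classical
  obtain ⟨hα, hβ, hP, hfin, hFI, hN⟩ := hin
  have := hP
  obtain ⟨D, f, hD, hf, hDf⟩ := exists_rep_div1 n x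
  obtain ⟨⟨h, hh0, hhn⟩, hchar⟩ := hκ x D f hD hf hDf
  -- the witness at `x`
  have w : Witness (setup1 hpM hW hdeg) n f h (fun γ => κ x γ) :=
    ⟨hhn, fun γ => hchar h hh0 hhn γ⟩
  have w' := w.hecke hfin
  -- the Hecke transform
  set DT : Divisor.degZero (K := Kbar) (F := FF1 M) :=
    Pic0.degZeroCorrespondence (heckeOneBetaBar M p Kbar) (heckeOneAlphaBar M p Kbar) hβ hα hFI D
    with hDT
  have hTx : Pic0.mk DT = heckeOneAlong Kbar M p (x : Pic0 Kbar (FF1 M)) := by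
    rw [heckeOneAlong_eq hα hβ hFI hfin hN, ← hD]
    rfl
  have hfT : normAlong (heckeOneAlphaBar M p Kbar) (heckeOneBetaBar M p Kbar f) ≠ 0 :=
    normAlong_ne_zero _ hfin ((map_ne_zero _).mpr hf)
  have hDTf : ∀ v : Place Kbar (FF1 M), ((n : ℤ) • (DT : Divisor Kbar (FF1 M))) v =
      v.ord (normAlong (heckeOneAlphaBar M p Kbar) (heckeOneBetaBar M p Kbar f)) := by
    intro v
    have h1 : ((n : ℤ) • (DT : Divisor Kbar (FF1 M))) =
        Divisor.correspondence (heckeOneBetaBar M p Kbar) (heckeOneAlphaBar M p Kbar) hβ hα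
          ((n : ℤ) • (D : Divisor Kbar (FF1 M))) := by
      rw [map_zsmul]
      rfl
    rw [h1]
    exact correspondence_apply_eq_ord _ _ hβ hα hfin hN hf hDf v
  obtain ⟨-, hchar'⟩ := hκ ⟨heckeOneAlong Kbar M p (x : Pic0 Kbar (FF1 M)),
    heckeOneAlong_mem_torsion n x⟩ DT _ hTx hfT hDTf
  have hroot0 : heckeRoot (setup1 hpM hW hdeg) h ≠ 0 := heckeRoot_ne_zero _ hh0
  have e1 := hchar' _ hroot0 w'.pow γ
  have e2 := w'.smul γ
  have e3 : constMerHom (κ ⟨heckeOneAlong Kbar M p (x : Pic0 Kbar (FF1 M)),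
      heckeOneAlong_mem_torsion n x⟩ γ) = constMerHom (∏ i, κ x (cocS1 hpM γ i)) :=
    mul_right_cancel₀ hroot0 (e1.symm.trans e2)
  exact constMerHom_injective e3

/-- **K4: Hecke-equivariance of the Kummer map** `κ ∘ T_p^* = dcTs ∘ κ` on `J₁(M)(ℚbar)[n]`. -/
theorem kummer_hecke1 {hW : WAnalytic M} (hin : HeckeOneInputsAlong Kbar M p)
    (hdeg : finrankAlong Kbar (heckeOneAlphaBar M p Kbar) = p + 1) {n : ℕ}
    {κ : ↥(Pic0.torsion Kbar (FF1 M) n) → (↥(Gamma1 M) →* ℂˣ)} (hκ : IsKummerMap1 hW n κ)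
    (x : ↥(Pic0.torsion Kbar (FF1 M) n)) :
    MonoidHom.toAdditive (κ ⟨heckeOne M p (x : Pic0 Kbar (FF1 M)), heckeOne_mem_torsion M p n x⟩)
      = dcTs hp.out hpM (MonoidHom.toAdditive (κ x)) := by
  have hx : (⟨heckeOne M p (x : Pic0 Kbar (FF1 M)), heckeOne_mem_torsion M p n x⟩ :
      ↥(Pic0.torsion Kbar (FF1 M) n)) =
      ⟨heckeOneAlong Kbar M p (x : Pic0 Kbar (FF1 M)), heckeOneAlong_mem_torsion n x⟩ :=
    Subtype.ext (show heckeOne M p (x : Pic0 Kbar (FF1 M))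
      = heckeOneAlong Kbar M p (x : Pic0 Kbar (FF1 M)) by rw [heckeOne_eq])
  rw [hx]
  refine AddMonoidHom.ext fun a => ?_
  obtain ⟨γ, rfl⟩ := Additive.ofMul.surjective a
  rw [dcTs_toAdditive_apply hp.out hpM (κ x) (deltaS_mem hpM) (deltaS_apply hpM) γ]
  exact congrArg Additive.ofMul (kummer_heckeAlong1 hpM hin hdeg hκ x γ)

end Fermat.Agent.ES.R48.KumHecke9
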