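/-
Programme R (S48, Deligne–Serre), chapter G5 KUM₁, K4 closer (helper9):
**`heckeEquivExport : KumExportAbs5.HeckeEquivExport`** — the Hecke equivariance of every map
satisfying the characterisation `KumIface5.IsKummerMap1`, LITERALLY in the form consumed by
`KumExportAbs5.kappaExport_of` / `S48Plug13.s48_of_props`.

`KumHecke9.kummer_hecke1` fed with
* the geometric inputs `InputsOne22.heckeOneInputsAlong` (generator `X1GenFinal12.isGen_jF1`,
  positivity of the two degrees from `DegreeLOne20`);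
* the degree `DegreeLOne20.finrankAlong_alphaOne : [F̄₁ₚ : α F̄₁] = p + 1`.
-/
import Fermat.Agent.ES.R48.KumHecke9
import Fermat.Agent.ES.R48.KumExportAbs5
import Fermat.Agent.ES.R48.InputsOne22
import Fermat.Agent.ES.R48.DegreeLOne20
import Fermat.Agent.ES.R48.X1GenFinal12

set_option autoImplicit false

open CongruenceSubgroup ModularCurve AlgebraicCurve
open scoped MatrixGroups

namespace Fermat.Agent.ES.R48.KumHeckeExport9

open Fermat.Agent.X0 Fermat.Agent.ES.R48.FF1Defs13 Fermat.Agent.ES.R48.X1Iface13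
  Fermat.Agent.ES.R48.JOneOps13 Fermat.Agent.ES.R48.KumIface5

/-- the geometric inputs of the Hecke correspondence on `J₁(M)`, `3 ≤ M`, `p ∤ M` prime. -/
theorem heckeOneInputs (M p : ℕ) [NeZero M] [NeZero p] (hM : 3 ≤ M) (hp : p.Prime)
    (hpM : ¬ p ∣ M) : HeckeOneInputsAlong Kbar M p :=
  InputsOne22.heckeOneInputsAlong (X1GenFinal12.isGen_jF1 M hM)
    (DegreeLOne20.finrankAlong_alphaOne_pos M p hM hp hpM)
    (DegreeLOne20.finrankAlong_betaOne_pos M p hM hp hpM)

/-- **K4**: `KumExportAbs5.HeckeEquivExport`. -/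
theorem heckeEquivExport : KumExportAbs5.HeckeEquivExport := by
  intro M _ hM5 _ hW n κ hκ p hp hpM x hx
  have hM3 : 3 ≤ M := by omega
  have : Fact p.Prime := ⟨hp⟩
  exact KumHecke9.kummer_hecke1 hpM (heckeOneInputs M p hM3 hp hpM)
    (DegreeLOne20.finrankAlong_alphaOne M p hM3 hp hpM) hκ x

end Fermat.Agent.ES.R48.KumHeckeExport9
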