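/-
Programme R (S48, Deligne–Serre), chapter GEOM, sub-chapter G5 KUM₁ (helper5): **Hecke-equivariance
of the Kummer map on `J₁(M)(ℚbar)[n]`, generic in the analytic `Setup`** (twin of
`ES/HEQ/KummerHeckeMain19.kummer_hecke`).

For ANY `S : KummerHeckeAbs19.Setup (heckeOneAlphaBar M p Kbar) (heckeOneBetaBar M p Kbar) perm coc
MerH ℂˣ` over the group `↥(Gamma1 M)` whose realisation is `anBar1 hW`, whose action is `slMer` and
whose constants are `constMerHom`, and any `κ` with `IsKummerMap1 hW n κ`: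

  `κ (heckeOne M p x) γ = ∏ i, κ x (coc γ i)`.

With `S := KumHecke9.setup1` (`coc γ i = cocS δ′ γ i`) the right-hand side is
`DcDual9.dcTs_toAdditive_apply`, i.e. `dcTs (κ x)`.
-/
import Mathlib
import Fermat.Agent.ES.HEQ.KummerHeckeAbs19
import Fermat.Agent.ES.R48.KumIface5
import Fermat.Agent.ES.R48.JOneOps13

set_option autoImplicit false
set_option linter.unusedSectionVars false

open UpperHalfPlane hiding I
open scoped Manifold MatrixGroups
open CongruenceSubgroup AlgebraicCurve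

noncomputable section

namespace Fermat.Agent.ES.R48.KumHeckeGen5

open Fermat.Agent.X0 Fermat.Agent.X0.SurjPoint Fermat.Agent.ES.KUM ModularCurve
open Fermat.Agent.ES.HEQ.KummerHeckeAbs19
open Fermat.Agent.ES.R48.FF1Defs13 Fermat.Agent.ES.R48.X1Iface13 Fermat.Agent.ES.R48.CReal1_3
open Fermat.Agent.ES.R48.JOneOps13 Fermat.Agent.ES.R48.KumIface5

variable {M p : ℕ} [NeZero M] [NeZero p]

/-- `heckeOne M p` preserves the `n`-torsion. -/
theorem heckeOne_mem_torsion (n : ℕ) (x : ↥(Pic0.torsion Kbar (FF1 M) n)) :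
    heckeOne M p (x : Pic0 Kbar (FF1 M)) ∈ Pic0.torsion Kbar (FF1 M) n := by
  rw [Pic0.mem_torsion, ← map_zsmul, Pic0.mem_torsion.mp x.2, map_zero]

variable {I : Type*} [Fintype I] {perm : ↥(Gamma1 M) → Equiv.Perm I}
  {coc : ↥(Gamma1 M) → I → ↥(Gamma1 M)}

/-- **Hecke-equivariance of the Kummer map, generic in the analytic setup.** -/
theorem kummer_hecke_apply (hW : WAnalytic M)
    (S : Setup (K := Kbar) (heckeOneAlphaBar M p Kbar) (heckeOneBetaBar M p Kbar) perm coc MerH ℂˣ)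
    (hSan : ∀ f : FF1 M, S.an f = anBar1 hW f)
    (hSR : ∀ (γ : ↥(Gamma1 M)) (h : MerH), S.R γ h = slMer (γ : SL(2, ℤ)) h)
    (hSc : ∀ a : ℂˣ, S.c a = constMerHom a)
    (hin : HeckeOneInputsAlong Kbar M p)
    {n : ℕ} {κ : ↥(Pic0.torsion Kbar (FF1 M) n) → (↥(Gamma1 M) →* ℂˣ)}
    (hκ : IsKummerMap1 hW n κ) (x : ↥(Pic0.torsion Kbar (FF1 M) n))
    (hx : heckeOne M p (x : Pic0 Kbar (FF1 M)) ∈ Pic0.torsion Kbar (FF1 M) n)
    (γ : ↥(Gamma1 M)) :
    κ ⟨heckeOne M p (x : Pic0 Kbar (FF1 M)), hx⟩ γ = ∏ i, κ x (coc γ i) := by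
  classical
  obtain ⟨hα, hβ, hP, hfin, hFI, hN⟩ := hin
  have := hP
  obtain ⟨D, f, hD, hf, hDf⟩ := exists_rep_div1 n x
  obtain ⟨⟨h, hh0, hhn⟩, hchar⟩ := hκ x D f hD hf hDf
  -- the witness at `x`
  have w : Witness S n f h (fun γ => κ x γ) :=
    ⟨by rw [hSan]; exact hhn, fun γ => by rw [hSR, hSc]; exact hchar h hh0 hhn γ⟩
  have w' := w.hecke hfin
  -- the Hecke transform
  set DT : Divisor.degZero (K := Kbar) (F := FF1 M) :=
    Pic0.degZeroCorrespondence (heckeOneBetaBar M p Kbar) (heckeOneAlphaBar M p Kbar) hβ hα hFI D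
    with hDT
  have hTx : Pic0.mk DT = heckeOne M p (x : Pic0 Kbar (FF1 M)) := by
    rw [heckeOne_eq, heckeOneAlong_eq hα hβ hFI hfin hN, ← hD]
    rfl
  have hfT : normAlong (heckeOneAlphaBar M p Kbar) (heckeOneBetaBar M p Kbar f) ≠ 0 :=
    normAlong_ne_zero _ hfin ((map_ne_zero _).mpr hf)
  have hDTf : ∀ v : Place Kbar (FF1 M), ((n : ℤ) • (DT : Divisor Kbar (FF1 M))) v =
      v.ord (normAlong (heckeOneAlphaBar M p Kbar) (heckeOneBetaBar M p Kbar f)) := by
    intro v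
    have h1 : ((n : ℤ) • (DT : Divisor Kbar (FF1 M))) =
        Divisor.correspondence (heckeOneBetaBar M p Kbar) (heckeOneAlphaBar M p Kbar) hβ hα
          ((n : ℤ) • (D : Divisor Kbar (FF1 M))) := by
      rw [map_zsmul]
      rfl
    rw [h1]
    exact correspondence_apply_eq_ord _ _ hβ hα hfin hN hf hDf v
  obtain ⟨-, hchar'⟩ := hκ ⟨heckeOne M p (x : Pic0 Kbar (FF1 M)), hx⟩ DT _ hTx hfT hDTf
  have hroot0 : heckeRoot S h ≠ 0 := heckeRoot_ne_zero _ hh0
  have hpow : heckeRoot S h ^ n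
      = anBar1 hW (normAlong (heckeOneAlphaBar M p Kbar) (heckeOneBetaBar M p Kbar f)) := by
    rw [← hSan]
    exact w'.pow
  have e1 := hchar' _ hroot0 hpow γ
  have e2 := w'.smul γ
  rw [hSR, hSc] at e2
  have e3 : constMerHom (κ ⟨heckeOne M p (x : Pic0 Kbar (FF1 M)), hx⟩ γ)
      = constMerHom (∏ i, κ x (coc γ i)) :=
    mul_right_cancel₀ hroot0 (e1.symm.trans e2)
  exact constMerHom_injective e3

end Fermat.Agent.ES.R48.KumHeckeGen5
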