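/-
Programme R (S48, Deligne–Serre), chapter GEOM / G5 KUM₁ (helper18): **the Kummer isomorphism of
`X₁(M)` over `ℂ`**, `5 ≤ M` — the instantiation of `KumGenFinal18.kummerEquivFinal` at
`F = FC1 M`, `Γ = Γ₁(M)`, `R = KumReal1_3.realization1 hW`.

The inputs which are produced by the other bricks of G5 are bundled in `KumInputs1 hW n`:

* `cusp : WCusp M` (G1-E4), `distinct : DistinctC1 hW` (G2 DISTINCT over `ℂ`), `global : GlobalC1 M`
  (`j` generator of degree `#(SL(2, ℤ) ⧸ ±Γ₁(M))`), `pointSurj`, `pointAll` (point surjectivity),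
* `rootMem : RootMem (realization1 hW) n` (I4, helper2's `KumRatioMem2.root_mem_of_pm`),
* `eigenRatio : EigenRatio (realization1 hW) n` (I5, the Eisenstein ratios);

`ConstOnly ℂ (FC1 M)` and `HasPrincipalDivisors ℂ (FC1 M)` are separate arguments.  Exports:

* `kummer1`, `kumCharOf1`, `kummer1_eigen` (characterisation of the Kummer character);
* **`kummerEquiv1 : Pic⁰(F₁,ℂ)[n] ≃+ Additive (KumChar Γ₁(M) n)`**, `kummerEquiv1_apply`;
* `kummer1_injective`, **`finite_torsion1 : Finite Pic⁰(F₁,ℂ)[n]`** (only (I4));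
* **`exists_torsion_of_parabolicHom1`** : every non-zero parabolic `φ : Γ₁(M) → ℤ/n` is the Kummer
  character of a non-zero class of `Pic⁰(F₁,ℂ)[n]`.
-/
import Fermat.Agent.ES.R48.KumCuspOne18
import Fermat.Agent.ES.R48.KumGenFinal18

set_option autoImplicit false
set_option linter.unusedSectionVars false

open ModularCurve HahnSeries UpperHalfPlane AlgebraicCurve IntermediateField
open scoped Topology Manifold MatrixGroups
open MulAction Subgroup

noncomputable section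

namespace Fermat.Agent.ES.R48.KumInstOne18

open Fermat.Agent.X0 Fermat.Agent.X0.SurjPoint Fermat.Agent.ES.KUM
  Fermat.Agent.ES.KUM.KummerAbstract17
  Fermat.Agent.ES.R48.X1Iface13 Fermat.Agent.ES.R48.CReal1_3 Fermat.Agent.ES.R48.CPoint1_3
  Fermat.Agent.ES.R48.KumReal1_3 Fermat.Agent.ES.R48.KumCuspOne18
  Fermat.Agent.ES.R48.KumGen18 Fermat.Agent.ES.R48.KumGenMult18 Fermat.Agent.ES.R48.KumGenDiv18
  Fermat.Agent.ES.R48.KumGenFinal18 ModularCurve.Period

variable {M : ℕ} [NeZero M] (hW : WAnalytic M)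

/-- `SL(2, ℤ) = ⟨S, T⟩` is finitely generated. -/
theorem fg_SL2Z : Group.FG SL(2, ℤ) := by
  rw [Group.fg_iff]
  exact ⟨{ModularGroup.S, ModularGroup.T}, SpecialLinearGroup.SL2Z_generators,
    Set.toFinite _⟩

variable (M) in
/-- `Γ₁(M)` is finitely generated (finite index in `SL(2, ℤ)`). -/
theorem fg_Gamma1 : Group.FG ↥(CongruenceSubgroup.Gamma1 M) := by
  have := fg_SL2Z
  exact Subgroup.fg_of_index_ne_zero _

/-- **The inputs of the Kummer isomorphism of `X₁(M)`** produced by the other bricks of G5. -/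
structure KumInputs1 (n : ℕ) : Prop where
  cusp : WCusp M
  distinct : DistinctC1 hW
  global : GlobalC1 M
  pointSurj : KumCExact5.PointSurj1 hW
  pointAll : PointAll1 hW
  rootMem : RootMem (realization1 hW) n
  eigenRatio : EigenRatio (realization1 hW) n

variable (hc : ConstOnly ℂ (FC1 M))

/-- **The Kummer map of `X₁(M)` over `ℂ`**: `Pic⁰(F₁,ℂ)[n] → Hom(Γ₁(M), ℂˣ)`. -/
def kummer1 (n : ℕ) [NeZero n] :
    ↥(Pic0.torsion ℂ (FC1 M) n) →+ Additive (↥(CongruenceSubgroup.Gamma1 M) →* ℂˣ) :=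
  kummer (realization1 hW) hc n

/-- the Kummer character of `x`. -/
def kumCharOf1 (n : ℕ) [NeZero n] (x : ↥(Pic0.torsion ℂ (FC1 M) n)) :
    ↥(CongruenceSubgroup.Gamma1 M) →* ℂˣ :=
  kumCharOf (realization1 hW) hc n x

/-- **Characterisation**: for ANY datum `x = [D]`, `n • D = div f`, `h ^ n = Θ f`, one has
`h ∘ γ = κ x γ · h`. -/
theorem kummer1_eigen (n : ℕ) [NeZero n] (x : ↥(Pic0.torsion ℂ (FC1 M) n))
    {D : Divisor.degZero (K := ℂ) (F := FC1 M)} {f : FC1 M} {h : MerH}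
    (hd : IsDatum (setting (realization1 hW)) n (x : Pic0 ℂ (FC1 M)) D f h)
    (γ : ↥(CongruenceSubgroup.Gamma1 M)) :
    slMer (γ : SL(2, ℤ)) h =
      algebraMap HolH MerH (algebraMap ℂ HolH ((kumCharOf1 hW hc n x γ : ℂˣ) : ℂ)) * h :=
  kummer_eigen (realization1 hW) hc n x hd γ

/-- the Kummer map of `X₁(M)` is injective (only (I4)). -/
theorem kummer1_injective (n : ℕ) [NeZero n] (hroot : RootMem (realization1 hW) n) :
    Function.Injective (kummer1 hW hc n) :=
  kummer_injective_of hc n hroot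

include hc in
/-- **`Pic⁰(F₁,ℂ)[n]` is finite** (only (I4)). -/
theorem finite_torsion1 (n : ℕ) [NeZero n] (hroot : RootMem (realization1 hW) n) :
    Finite ↥(Pic0.torsion ℂ (FC1 M) n) :=
  finite_torsion_of hc n hroot (fg_Gamma1 M)

variable [HasPrincipalDivisors ℂ (FC1 M)]

/-- **The Kummer isomorphism of `X₁(M)` over `ℂ`**, `5 ≤ M`. -/
def kummerEquiv1 (hM : 5 ≤ M) (n : ℕ) [NeZero n] (H : KumInputs1 hW n) :
    ↥(Pic0.torsion ℂ (FC1 M) n) ≃+ Additive ↥(KumChar (CongruenceSubgroup.Gamma1 M) n) :=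
  kummerEquivFinal (R := realization1 hW) (N := M) hc n
    (cuspDict1 hW H.cusp H.distinct H.global)
    (placeDict1 hW H.cusp hM H.distinct H.global H.pointSurj H.pointAll)
    (fun γ hγ => trace_ne_neg_two_of_mem_Gamma1 hM γ hγ) (fixedTrace_Gamma1 hM)
    H.rootMem H.eigenRatio

theorem kummerEquiv1_apply (hM : 5 ≤ M) (n : ℕ) [NeZero n] (H : KumInputs1 hW n)
    (x : ↥(Pic0.torsion ℂ (FC1 M) n)) :
    ((Additive.toMul (kummerEquiv1 hW hc hM n H x) :
      ↥(KumChar (CongruenceSubgroup.Gamma1 M) n)) : ↥(CongruenceSubgroup.Gamma1 M) →* ℂˣ) =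
      kumCharOf1 hW hc n x := rfl

/-- **Every non-zero parabolic homomorphism `Γ₁(M) → ℤ/n` is the Kummer character of a non-zero
class of `Pic⁰(F₁,ℂ)[n]`.** -/
theorem exists_torsion_of_parabolicHom1 (hM : 5 ≤ M) {n : ℕ} [NeZero n] (H : KumInputs1 hW n)
    {ζ : ℂˣ} (hζ : IsPrimitiveRoot ζ n)
    {φ : Additive ↥(CongruenceSubgroup.Gamma1 M) →+ ZMod n}
    (hφ : IsParabolicHom (CongruenceSubgroup.Gamma1 M) φ) (hφ0 : φ ≠ 0) :
    ∃ x : ↥(Pic0.torsion ℂ (FC1 M) n), x ≠ 0 ∧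
      kumCharOf1 hW hc n x = charOfHom ζ hζ.pow_eq_one φ :=
  exists_torsion_of_parabolicHom (R := realization1 hW) (N := M) hc
    (cuspDict1 hW H.cusp H.distinct H.global)
    (placeDict1 hW H.cusp hM H.distinct H.global H.pointSurj H.pointAll)
    (fun γ hγ => trace_ne_neg_two_of_mem_Gamma1 hM γ hγ) (fixedTrace_Gamma1 hM)
    H.rootMem H.eigenRatio hζ hφ hφ0

end Fermat.Agent.ES.R48.KumInstOne18
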