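/-
Programme R (S48, Deligne–Serre), chapter GEOM / G5 KUM₁ (helper2): the **orbit polynomial** for an
arbitrary subgroup `Γ ≤ SL(2, ℤ)` of finite index — twin of main's `ES/KUM/OrbitPoly12` with
`Γ₀(N) ↦ Γ`.  The level-free part (`HasPole`, `poleAlg`) is imported AS-IS from main.

`IsGrowth Γ G`: `G` is holomorphic on `ℍ`, `Γ`-invariant, and every `SL(2,ℤ)`-translate `G ∘ δ` has a
pole of finite order at `i∞`.  For such `G` the polynomial `∏_{x ∈ SL(2,ℤ)/Γ} (X - G ∘ (rep x)⁻¹)` has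
coefficients in `ℂ[j]`: `G` is a root of a monic polynomial of degree `[SL(2,ℤ) : Γ]` over `ℂ[j]`.
-/
import Fermat.Agent.ES.KUM.OrbitPoly12

set_option autoImplicit false
set_option linter.unusedSectionVars false

open UpperHalfPlane ModularForm
open scoped Topology Manifold MatrixGroups

noncomputable section

namespace Fermat.Agent.ES.R48.KumOrbitPoly2

open Fermat.Agent.X0 Polynomial
open Fermat.Agent.ES.KUM.OrbitPoly12 (HasPole poleAlg mem_poleAlg)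

/-! ### The growth condition -/

variable (Γ : Subgroup SL(2, ℤ))

/-- `G` is holomorphic on `ℍ`, `Γ`-invariant, and all its `SL(2,ℤ)`-translates have a pole of
finite order at `i∞`. -/
def IsGrowth (G : ℍ → ℂ) : Prop :=
  G ∈ HolH ∧ (∀ γ ∈ Γ, compSL G γ = G) ∧
    ∀ δ : SL(2, ℤ), HasPole (compSL G δ)

variable {Γ}

theorem IsGrowth.const (c : ℂ) : IsGrowth Γ (fun _ => c) :=
  ⟨HolH.algebraMap_mem c, fun _ _ => rfl, fun _ => HasPole.const c⟩

theorem IsGrowth.add {G H : ℍ → ℂ} (hG : IsGrowth Γ G) (hH : IsGrowth Γ H) :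
    IsGrowth Γ (G + H) :=
  ⟨HolH.add_mem hG.1 hH.1, fun γ hγ => by
      rw [compSL_add_fun, hG.2.1 γ hγ, hH.2.1 γ hγ],
    fun δ => by
      rw [compSL_add_fun]
      exact (hG.2.2 δ).add (hH.2.2 δ)⟩

theorem IsGrowth.mul {G H : ℍ → ℂ} (hG : IsGrowth Γ G) (hH : IsGrowth Γ H) :
    IsGrowth Γ (G * H) :=
  ⟨HolH.mul_mem hG.1 hH.1, fun γ hγ => by
      rw [compSL_mul_fun, hG.2.1 γ hγ, hH.2.1 γ hγ],
    fun δ => by
      rw [compSL_mul_fun]
      exact (hG.2.2 δ).mul (hH.2.2 δ)⟩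

theorem IsGrowth.neg {G : ℍ → ℂ} (hG : IsGrowth Γ G) : IsGrowth Γ (-G) := by
  have h := (IsGrowth.const (Γ := Γ) (-1)).mul hG
  have e : (fun _ : ℍ => (-1 : ℂ)) * G = -G := by
    funext z
    simp
  rwa [e] at h

theorem IsGrowth.pow {G : ℍ → ℂ} (hG : IsGrowth Γ G) (n : ℕ) : IsGrowth Γ (G ^ n) := by
  induction n with
  | zero =>
    rw [pow_zero]
    exact IsGrowth.const 1
  | succ n ih =>
    rw [pow_succ]
    exact ih.mul hG

/-- `j` satisfies the growth condition. -/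
theorem isGrowth_jFun : IsGrowth Γ jFun := by
  refine ⟨lof_jFun_mdifferentiable, fun γ _ => funext fun z => lof_jFun_smul γ z, fun δ => ?_⟩
  have e : compSL jFun δ = jFun := funext fun z => lof_jFun_smul δ z
  rw [e]
  refine ⟨1, ?_⟩
  have : (fun z => jFun z * ModularForm.discriminant z ^ 1) = fun z => E₄ z ^ 3 := by
    funext z
    unfold jFun
    rw [pow_one, div_mul_cancel₀ _ (discriminant_ne_zero z)]
  rw [this]
  have h4 : IsBoundedAtImInfty (E₄ : ℍ → ℂ) := lof_isBoundedAtImInfty_of_modularForm E₄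
  have : (fun z => E₄ z ^ 3) = (E₄ : ℍ → ℂ) * E₄ * E₄ := by
    funext z
    simp [pow_succ]
  rw [this]
  exact (h4.mul h4).mul h4

variable (Γ)

/-- The `ℂ`-algebra of holomorphic functions satisfying the growth condition. -/
def growthAlg : Subalgebra ℂ HolH where
  carrier := {G | IsGrowth Γ (G : ℍ → ℂ)}
  mul_mem' := fun ha hb => IsGrowth.mul ha hb
  one_mem' := IsGrowth.const 1
  add_mem' := fun ha hb => IsGrowth.add ha hb
  zero_mem' := IsGrowth.const 0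
  algebraMap_mem' := fun c => IsGrowth.const c

theorem mem_growthAlg {G : HolH} : G ∈ growthAlg Γ ↔ IsGrowth Γ (G : ℍ → ℂ) := Iff.rfl

/-! ### The orbit polynomial -/

section Orbit

/-- coset representatives -/
def orep (x : (SL(2, ℤ) ⧸ Γ)) : SL(2, ℤ) := Quotient.out x

theorem orep_spec (x : (SL(2, ℤ) ⧸ Γ)) : ((orep Γ x : SL(2, ℤ)) : (SL(2, ℤ) ⧸ Γ)) = x := Quotient.out_eq' x

variable {Γ}

/-- The conjugates `G ∘ (rep x)⁻¹` of a function. -/
def conj (G : ℍ → ℂ) (x : (SL(2, ℤ) ⧸ Γ)) : ℍ → ℂ := compSL G (orep Γ x)⁻¹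

/-- `SL(2,ℤ)` permutes the conjugates. -/
theorem conj_perm {G : ℍ → ℂ} (hinv : ∀ γ ∈ Γ, compSL G γ = G)
    (δ : SL(2, ℤ)) :
    ∃ σ : Equiv.Perm (SL(2, ℤ) ⧸ Γ), ∀ x z, conj G x (δ • z) = conj G (σ x) z := by
  refine ⟨MulAction.toPerm δ⁻¹, fun x z => ?_⟩
  set a := orep Γ x with ha
  set b := orep Γ ((MulAction.toPerm δ⁻¹ : Equiv.Perm _) x) with hb
  have hcoset : ((b : SL(2, ℤ)) : (SL(2, ℤ) ⧸ Γ)) = ((δ⁻¹ * a : SL(2, ℤ)) : (SL(2, ℤ) ⧸ Γ)) := by
    rw [hb, orep_spec, MulAction.toPerm_apply]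
    conv_lhs => rw [← orep_spec Γ x]
    rfl
  have hmem : b⁻¹ * (δ⁻¹ * a) ∈ Γ := QuotientGroup.eq.mp hcoset
  have hmem' : (b⁻¹ * (δ⁻¹ * a))⁻¹ ∈ Γ := inv_mem hmem
  have h := hinv _ hmem'
  show G (a⁻¹ • δ • z) = G (b⁻¹ • z)
  have h1 : a⁻¹ • δ • z = (b⁻¹ * (δ⁻¹ * a))⁻¹ • (b⁻¹ • z) := by
    rw [← mul_smul, ← mul_smul]
    congr 1
    group
  rw [h1]
  exact congrFun h (b⁻¹ • z)

/-- The conjugate attached to the trivial coset is the function itself. -/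
theorem conj_one {G : ℍ → ℂ} (hinv : ∀ γ ∈ Γ, compSL G γ = G) :
    conj G (((1 : SL(2, ℤ)) : (SL(2, ℤ) ⧸ Γ))) = G := by
  have hmem : (orep Γ (((1 : SL(2, ℤ)) : (SL(2, ℤ) ⧸ Γ))))⁻¹ * 1 ∈ Γ :=
    QuotientGroup.eq.mp (orep_spec Γ _)
  rw [mul_one] at hmem
  exact hinv _ hmem

/-- **Orbit polynomial.** A function satisfying the growth condition is a root of a monic
polynomial of degree `[SL(2,ℤ) : Γ]` with coefficients in `ℂ[j]`; more precisely the polynomial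
specialises at every `z` to `∏_x (X - G((rep x)⁻¹ z))`. -/
theorem exists_orbit_poly [Fintype (SL(2, ℤ) ⧸ Γ)] {G : ℍ → ℂ} (hG : IsGrowth Γ G) :
    ∃ Q : (ℂ[X])[X], Q.Monic ∧ Q.natDegree = Fintype.card (SL(2, ℤ) ⧸ Γ) ∧
      ∀ z, Q.map (Polynomial.evalRingHom (jFun z)) = ∏ x : (SL(2, ℤ) ⧸ Γ), (X - C (conj G x z)) := by
  classical
  set n := Fintype.card (SL(2, ℤ) ⧸ Γ) with hn
  -- the polynomial over the algebra of functions with a pole of finite order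
  let a : (SL(2, ℤ) ⧸ Γ) → poleAlg := fun x =>
    ⟨conj G x, compSL_mem_HolH hG.1 _, hG.2.2 _⟩
  let Qf : (poleAlg)[X] := ∏ x, (X - C (a x))
  have hfst : ∀ (k : ℕ) (z : ℍ),
      ((Qf.coeff k : poleAlg) : ℍ → ℂ) z = (∏ x : (SL(2, ℤ) ⧸ Γ), (X - C (conj G x z))).coeff k := by
    intro k z
    let φ : poleAlg →+* ℂ :=
      (Pi.evalRingHom (fun _ : ℍ => ℂ) z).comp (poleAlg.subtype : poleAlg →+* (ℍ → ℂ))
    have : (Qf.map φ) = ∏ x : (SL(2, ℤ) ⧸ Γ), (X - C (conj G x z)) := by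
      simp only [Qf, Polynomial.map_prod, Polynomial.map_sub, Polynomial.map_X, Polynomial.map_C]
      rfl
    rw [← this, Polynomial.coeff_map]
    rfl
  have hinv : ∀ (k : ℕ) (δ : SL(2, ℤ)) (z : ℍ),
      ((Qf.coeff k : poleAlg) : ℍ → ℂ) (δ • z) = ((Qf.coeff k : poleAlg) : ℍ → ℂ) z := by
    intro k δ z
    obtain ⟨σ, hσ⟩ := conj_perm hG.2.1 δ
    rw [hfst, hfst]
    congr 1
    rw [← Equiv.prod_comp σ (fun x => (X - C (conj G x z) : ℂ[X]))]
    refine Finset.prod_congr rfl fun x _ => ?_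
    rw [hσ]
  have hP : ∀ k : ℕ, ∃ P : ℂ[X], ∀ z, ((Qf.coeff k : poleAlg) : ℍ → ℂ) z = P.eval (jFun z) := by
    intro k
    obtain ⟨hhol, M, hM⟩ := (Qf.coeff k).2
    obtain ⟨P, -, hP⟩ := exists_polynomial_jFun (mem_HolH.mp hhol) (hinv k) M hM
    exact ⟨P, hP⟩
  choose P hP using hP
  have hmonic : ∀ z, (∏ x : (SL(2, ℤ) ⧸ Γ), (X - C (conj G x z))).Monic := fun z =>
    monic_prod_of_monic _ _ fun x _ => monic_X_sub_C _
  have hdeg : ∀ z, (∏ x : (SL(2, ℤ) ⧸ Γ), (X - C (conj G x z))).natDegree = n := by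
    intro z
    rw [natDegree_prod_of_monic _ _ fun x _ => monic_X_sub_C _]
    simp [hn]
  set S : (ℂ[X])[X] := ∑ i ∈ Finset.range n, C (P i) * X ^ i with hS
  have hSdeg : S.degree < n := by
    rw [Polynomial.degree_lt_iff_coeff_zero]
    intro m hm
    rw [hS, Polynomial.finsetSum_coeff]
    refine Finset.sum_eq_zero fun i hi => ?_
    rw [Polynomial.coeff_C_mul_X_pow, if_neg]
    have := Finset.mem_range.mp hi
    omega
  refine ⟨X ^ n + S, Polynomial.monic_X_pow_add hSdeg, ?_, fun z => ?_⟩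
  · have h1 : S.degree < ((X : (ℂ[X])[X]) ^ n).degree := by
      rw [Polynomial.degree_X_pow]
      exact hSdeg
    rw [Polynomial.natDegree_add_eq_left_of_degree_lt h1, Polynomial.natDegree_X_pow]
  · rw [(hmonic z).as_sum, hdeg z, Polynomial.map_add, Polynomial.map_pow, Polynomial.map_X, hS,
      Polynomial.map_sum]
    congr 1
    refine Finset.sum_congr rfl fun i _ => ?_
    rw [Polynomial.map_mul, Polynomial.map_pow, Polynomial.map_X, Polynomial.map_C,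
      Polynomial.coe_evalRingHom, ← hP, hfst]

/-- Root form of `exists_orbit_poly`. -/
theorem exists_monic_root [Fintype (SL(2, ℤ) ⧸ Γ)] {G : ℍ → ℂ} (hG : IsGrowth Γ G) :
    ∃ Q : (ℂ[X])[X], Q.Monic ∧ Q.natDegree = Fintype.card (SL(2, ℤ) ⧸ Γ) ∧
      ∀ z, (Q.map (Polynomial.evalRingHom (jFun z))).eval (G z) = 0 := by
  obtain ⟨Q, hQ1, hQ2, hQ3⟩ := exists_orbit_poly hG
  refine ⟨Q, hQ1, hQ2, fun z => ?_⟩
  rw [hQ3, Polynomial.eval_prod]
  refine Finset.prod_eq_zero (Finset.mem_univ (((1 : SL(2, ℤ)) : (SL(2, ℤ) ⧸ Γ)))) ?_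
  rw [conj_one hG.2.1]
  simp

end Orbit

end Fermat.Agent.ES.R48.KumOrbitPoly2
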