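/-
Programme R (S48, Deligne–Serre), chapter G5 KUM₁, K4 part 1 (helper9): the `Γ₁(M)`-twin of main's
`ES/HEQ/RealBar19` — the realisation of `F̄₁ = ℚbar · F1 M` and of the Hecke field
`F̄₁ₚ = ℚbar · F1p M p` in the field `MerH` of meromorphic functions on `ℍ`, the two degeneracy
embeddings, and the complete family of embeddings of `F̄₁ₚ` over `F̄₁`.

All with the analytic input `hW : CReal1_3.WAnalytic M` (G1); `anBar1 hW : FF1 M →+* MerH` is the
realisation of `KumIface5`.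

* `anBarP hW : F̄₁ₚ →+* MerH`, `anBarP_alpha`, `anBarP_beta`;
* `rep1 hpM i ∈ Γ₁(M)` with `perm (rep1 i) ∞ = i`; `sigma1 hW hpM i := slMer (rep1 i) ∘ anBarP`,
  `sigma1_alpha`, `sigma1_beta` (`= betaMerS δ′ i ∘ anBar1`, ANY admissible `δ′`),
  `sigma1_injective` (through the level-`p` field `ℚbar(j, j_p) ⊆ F̄₁ₚ` and main's
  `X0/Degree.mem_Gamma0_of_compSL_eq`).
-/
import Fermat.Agent.ES.HEQ.RealBar19
import Fermat.Agent.ES.R48.KumIface5
import Fermat.Agent.ES.R48.KumBetaMer9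

set_option autoImplicit false
set_option linter.unusedSectionVars false

open UpperHalfPlane hiding I
open scoped Manifold MatrixGroups
open CongruenceSubgroup ModularCurve

noncomputable section

namespace Fermat.Agent.ES.R48.KumReal9

open Fermat.Agent.X0 Fermat.Agent.X0.Analytic Fermat.Agent.X0.SurjPoint Fermat.Agent.ES.KUM
open Fermat.Agent.ES.HEQ.DoubleCoset27 Fermat.Agent.ES.HEQ.BetaMer19
open Fermat.Agent.ES.HEQ.QExpMer19 Fermat.Agent.ES.HEQ.RepGamma19
open Fermat.Agent.ES.R48.FF1Defs13 Fermat.Agent.ES.R48.X1Iface13 Fermat.Agent.ES.R48.CReal1_3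
open Fermat.Agent.ES.R48.KumQExpAlg5 Fermat.Agent.ES.R48.KumIface5
open Fermat.Agent.ES.R48.DcDual9 Fermat.Agent.ES.R48.KumBetaMer9

variable {M : ℕ} [NeZero M]

/-! ### Level `(M, p)` -/

section Hecke

variable {p : ℕ} [hp : Fact p.Prime]

/-- the function field of `X(Γ₁(M) ∩ Γ₀(p))` over `ℚbar`. -/
abbrev FF1p (M p : ℕ) [Fact p.Prime] : Type :=
  ↥(laurentBaseChange Kbar (F1p M p))

theorem FC1p_le_realisable (hW : WAnalytic M) :
    (laurentBaseChange ℂ (F1p M p)).toSubfield ≤ realisable :=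
  laurentBaseChange_sup_map_le p (F1 M) (FC1_le_realisable hW)

/-- the realisation of `F̄₁ₚ = ℚbar · F1p M p` in `MerH`. -/
def anBarP (hW : WAnalytic M) : FF1p M p →+* MerH :=
  anBarG (F1p M p) (FC1p_le_realisable hW)

theorem hasQExpMer_anBarP (hW : WAnalytic M) (y : FF1p M p) :
    HasQExpMer (toC (y : LaurentSeries Kbar)) (anBarP hW y) :=
  hasQExpMer_anBarG (F1p M p) _ y

theorem anBarP_eq (hW : WAnalytic M) {y : FF1p M p} {g : MerH}
    (H : HasQExpMer (toC (y : LaurentSeries Kbar)) g) : anBarP hW y = g :=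
  (hasQExpMer_anBarP hW y).unique H

/-- `an′ ∘ α = an`. -/
theorem anBarP_alpha (hW : WAnalytic M) (f : FF1 M) :
    anBarP hW (heckeOneAlphaBar M p Kbar f) = anBar1 hW f := by
  refine anBarP_eq hW ?_
  rw [coe_heckeOneAlphaBar]
  exact hasQExpMer_anBar1 hW f

/-- `an′ ∘ β = (· ∘ (z ↦ p z)) ∘ an`. -/
theorem anBarP_beta (hW : WAnalytic M) (f : FF1 M) :
    anBarP hW (heckeOneBetaBar M p Kbar f) = betaMer p none (anBar1 hW f) := by
  refine anBarP_eq hW ?_
  rw [coe_heckeOneBetaBar, toC, coeffMap_qExpand13]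
  exact (hasQExpMer_anBar1 hW f).betaMer_none

variable (hpM : ¬ p ∣ M)

/-- a representative `γ_i ∈ Γ₁(M)` with `β_∞ γ_i ∈ SL(2,ℤ) β_i`. -/
def rep1 (i : Option (ZMod p)) : SL(2, ℤ) := (exists_rep1 hpM i).choose

theorem rep1_mem (i : Option (ZMod p)) : rep1 hpM i ∈ Gamma1 M :=
  (exists_rep1 hpM i).choose_spec.1

theorem perm_rep1 (i : Option (ZMod p)) : perm (rep1 hpM i) (none : Option (ZMod p)) = i :=
  (exists_rep1 hpM i).choose_spec.2

/-- the complete family of embeddings `F̄₁ₚ → MerH` over `an`. -/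
def sigma1 (hW : WAnalytic M) (i : Option (ZMod p)) : FF1p M p →+* MerH :=
  (slMer (rep1 hpM i)).comp (anBarP hW)

theorem sigma1_apply (hW : WAnalytic M) (i : Option (ZMod p)) (y : FF1p M p) :
    sigma1 hpM hW i y = slMer (rep1 hpM i) (anBarP hW y) := rfl

theorem sigma1_alpha (hW : WAnalytic M) (i : Option (ZMod p)) (f : FF1 M) :
    sigma1 hpM hW i (heckeOneAlphaBar M p Kbar f) = anBar1 hW f := by
  rw [sigma1_apply, anBarP_alpha, slMer_anBar1_of_mem hW _ (rep1_mem hpM i)]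

/-- the conjugates of `β f` are the `(an f) ∘ (r′_i β_i)`, for ANY `δ′ ∈ Γ₀(M)`, `δ′₁₁ · p ≡ 1`. -/
theorem sigma1_beta (hW : WAnalytic M) {δ' : SL(2, ℤ)} (hδ' : δ' ∈ Gamma0 M)
    (hδ'p : ((δ' 1 1 : ℤ) : ZMod M) * (p : ZMod M) = 1) (i : Option (ZMod p)) (f : FF1 M) :
    sigma1 hpM hW i (heckeOneBetaBar M p Kbar f) = betaMerS δ' i (anBar1 hW f) := by
  rw [sigma1_apply, anBarP_beta,
    slMer_betaMer_none hpM hδ' hδ'p (rep1_mem hpM i)
      (fun τ hτ => slMer_anBar1_of_mem hW τ hτ f), perm_rep1]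

/-! ### Injectivity of `i ↦ sigma1 i`, through the level-`p` field `ℚbar(j, j_p)` -/

/-- `ℚ(j, j_p) ⊆ F1p M p`. -/
theorem full_p_le_F1p :
    modularFunctionFieldFull p ≤ F1p M p := by
  have hj : jq ∈ F1 M := by
    have h := jqd_mem_F1 M (one_dvd M)
    rwa [qExpand_one_apply] at h
  rw [modularFunctionFieldFull, IntermediateField.adjoin_le_iff]
  rintro x ⟨d, hd0, hd, rfl⟩
  rcases (Nat.dvd_prime hp.out).mp hd with h1 | h1
  · subst h1
    rw [qExpand_one_apply]
    exact F1_le_F1p M p hj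
  · subst h1
    exact qExpand_mem_F1p M d hj

/-- the inclusion `ℚbar(j, j_p) → F̄₁ₚ`. -/
def inclP :
    FF p →ₐ[Kbar] FF1p M p :=
  IntermediateField.inclusion (laurentBaseChange_mono13 Kbar (full_p_le_F1p (M := M) (p := p)))

theorem coe_inclP (x : FF p) :
    ((inclP (M := M) x : FF1p M p) : LaurentSeries Kbar) = (x : LaurentSeries Kbar) :=
  IntermediateField.coe_inclusion _ x

/-- on `ℚbar(j, j_p)` the realisation of `F̄₁ₚ` is main's `anBar p`. -/
theorem anBarP_inclP (hW : WAnalytic M) (x : FF p) :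
    anBarP hW (inclP (M := M) x) = Fermat.Agent.ES.HEQ.RealBar19.anBar p x := by
  refine anBarP_eq hW ?_
  rw [coe_inclP]
  exact Fermat.Agent.ES.HEQ.RealBar19.hasQExpMer_anBar p x

theorem sigma1_injective (hW : WAnalytic M) :
    Function.Injective (sigma1 (M := M) (p := p) hpM hW) := by
  intro i k h
  -- the two translates agree on `R_p = ℚbar[j, j_p]`
  have h1 : ∀ u : Rsub p, compSL ((realizeData p).Θ u) (rep1 hpM i) =
      compSL ((realizeData p).Θ u) (rep1 hpM k) := by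
    intro u
    have h2 := DFunLike.congr_fun h (inclP (M := M) (u : FF p))
    rw [sigma1_apply, sigma1_apply, anBarP_inclP, Fermat.Agent.ES.HEQ.RealBar19.anBar_coe,
      slMer_algebraMap, slMer_algebraMap] at h2
    have h3 := IsFractionRing.injective HolH MerH h2
    exact congrArg Subtype.val h3
  have h4 : rep1 hpM k * (rep1 hpM i)⁻¹ ∈ Gamma0 p :=
    Degree.mem_Gamma0_of_compSL_eq p (realizeData p) (cuspData p) _ _ h1
  have h5 : perm (rep1 hpM k * (rep1 hpM i)⁻¹) (none : Option (ZMod p)) = none := by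
    apply perm_none_of_dvd
    rw [Gamma0_mem, ZMod.intCast_zmod_eq_zero_iff_dvd] at h4
    exact h4
  have h6 : rep1 hpM k = (rep1 hpM k * (rep1 hpM i)⁻¹) * rep1 hpM i := by
    rw [inv_mul_cancel_right]
  have h7 : perm (rep1 hpM k) (none : Option (ZMod p)) = perm (rep1 hpM i) none := by
    conv_lhs => rw [h6, perm_mul, h5]
  rw [perm_rep1, perm_rep1] at h7
  exact h7.symm

end Hecke

end Fermat.Agent.ES.R48.KumReal9
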