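/-
Programme R (S48, Deligne–Serre), chapter GEOM, sub-chapter G4 "CONG₁", Layer 2 — helper21.
**Twin of `ES/RED/LevelSat16`** (helper16; leaf B1 (2a)) for `X₁(M)`: level-`K` `π`-saturation of the
two chart rings, i.e. the hypothesis `ChartIntegralAOne15.LevelSat A M t` of
`ChartIntegralAOne15.exists_content` for the Hauptmodul `t = TGenOne7.tF1 n e M hmem` and for `t⁻¹`
(fields `sat0` / `sat1` of `CoreIface24.TwoChartModel` at all large number fields `K`), directly from
the Gauss package `G1Package8.isIntegral_of_mul(_inv)` (generic, AS-IS) — no smoothness input.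

Literal copy of `levelSat_t'`, `levelSat_inv'` with `FK M K ↦ FK1 M K`,
`baseChangeHom M K ↦ baseChangeHomG (F1 M) K`, `tF M hmem ↦ tF1 n e M hmem`,
`FK_le_fracField ↦ GaussBridgeOne15.FK1_le_fracField`,
`ChartIntegralA1.LevelSat ↦ ChartIntegralAOne15.LevelSat`; main's `exists_package` (Igusa) is
REPLACED by the contract `FracRedOne21.PackageStep1 A M n e` (its literal conclusion with `FK ↦ FK1`;
(I2) of helper15's Layer-2 split v2).  SPARE for (I4) of that split (`LevelSat` from the explicit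
models).  The section `Conv` of the original has no consumer and no twin.
-/
import Mathlib
import Fermat.Agent.ES.R48.FracRedOne21

set_option autoImplicit false
set_option linter.unusedSectionVars false
set_option linter.style.haveILetI false

noncomputable section

namespace Fermat.Agent.ES.R48.LevelSatOne21

open Polynomial HahnSeries ModularCurve

open Fermat.Agent.RED.Interface4 Fermat.Agent.RED.DESC Fermat.Agent.RED.DESC.NumberFieldDVR27
open Fermat.Agent.RED.DESC.PlaceExtend27
open Fermat.Agent.RED.PUR.GaussGen8 Fermat.Agent.RED.PUR.KtGauss8 Fermat.Agent.RED.PUR.G1Package8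
  Fermat.Agent.RED.PUR.GaussBridge10 Fermat.Agent.RED.PUR.ChartGeneric22
open Fermat.Agent.RED.BASE.EtaQuot12 Fermat.Agent.RED.BASE.Interface12
open Fermat.Agent.X0
open Fermat.Agent.ES.R48.FF1Defs13 Fermat.Agent.ES.R48.G3Defs4 Fermat.Agent.ES.R48.PlaceExtendG7
  Fermat.Agent.ES.R48.GaussBridgeOne15 Fermat.Agent.ES.R48.ChartIntegralAOne15
  Fermat.Agent.ES.R48.TGenOne7 Fermat.Agent.ES.R48.FracRedOne21

variable (A : ValuationSubring Qbar) {M : ℕ} [NeZero M]

/-- **`LevelSat` for the Hauptmodul chart.** -/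
theorem levelSat_t1 (n e : ℕ) [NeZero n] (hpkg : PackageStep1 A M n e) (hmem : TMem n e M) :
    LevelSat A M (tF1 n e M hmem) := by
  obtain ⟨K₀, hK₀, H⟩ := hpkg
  refine ⟨K₀, hK₀, fun K hKfd hle ϖ hϖ hu tK htK b hb c hc hbc => ?_⟩
  obtain ⟨hdvr, t, htq, ht, htr, m, hdeg, hirr⟩ := H K hKfd hle ϖ hϖ
  haveI := hdvr
  have htt : tK = t := by
    apply baseChangeHomG_injective (F1 M) K
    rw [htK, baseChangeHomG_eq_tF1 K hmem t htq]
  subst htt
  have hE : FK1 M K ≤ fracField (AK A K) := FK1_le_fracField A K M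
  rw [mem_chart_iff] at hb ⊢
  exact isIntegral_of_mul hϖ hE tK ht htr hdeg hirr hc (hbc ▸ hb)

/-- **`LevelSat` for the chart at infinity.** -/
theorem levelSat_inv1 (n e : ℕ) [NeZero n] (hpkg : PackageStep1 A M n e) (hmem : TMem n e M) :
    LevelSat A M (tF1 n e M hmem)⁻¹ := by
  obtain ⟨K₀, hK₀, H⟩ := hpkg
  refine ⟨K₀, hK₀, fun K hKfd hle ϖ hϖ hu tK htK b hb c hc hbc => ?_⟩
  obtain ⟨hdvr, t, htq, ht, htr, m, hdeg, hirr⟩ := H K hKfd hle ϖ hϖ
  haveI := hdvr
  have htt : tK = t⁻¹ := by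
    apply baseChangeHomG_injective (F1 M) K
    rw [htK, map_inv₀, baseChangeHomG_eq_tF1 K hmem t htq]
  subst htt
  have hE : FK1 M K ≤ fracField (AK A K) := FK1_le_fracField A K M
  rw [mem_chart_iff] at hb ⊢
  exact isIntegral_of_mul_inv hϖ hE t ht htr hdeg hirr hc (hbc ▸ hb)

end Fermat.Agent.ES.R48.LevelSatOne21
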