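/-
Programme R (S48, Deligne–Serre), chapter B5 (helper25): ADAPTER to the half-B interface of record
(`HalfBIface12`, helper12):  `liftInstExport : HalfBIface12.EisExport → HalfBIface12.LiftInstExport`,
from the chapter export `B5Export25.exists_char0_eigenform_of_phi` and `FinDim8`.
-/
import Mathlib
import Fermat.Agent.ES.R48.HalfBIface12
import Fermat.Agent.ES.R48.B5Export25
import Fermat.Agent.ES.R48.FinDim8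

set_option autoImplicit false

open CongruenceSubgroup UpperHalfPlane ModularForm
open scoped MatrixGroups ModularForm
open ModularFormClass (qCoeff)
open Fermat.Agent.ES.R48.Gamma1Slash9 Fermat.Agent.ES.R48.TpForm9
  Fermat.Agent.ES.R48.RatIface22 Fermat.Agent.ES.R48.LiftInst25 Fermat.Agent.ES.R48.HalfBIface12

noncomputable section

namespace Fermat.Agent.ES.R48.LiftInstFinal25

theorem map_mk_congr' {κ : Type*} [Semiring κ] {R : Subring ℂ} (φ' : R →+* κ) {z z' : ℂ}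
    (h : z = z') (hz : z ∈ R) (hz' : z' ∈ R) : φ' ⟨z, hz⟩ = φ' ⟨z', hz'⟩ := by
  subst h
  rfl

/-- the reduction of a Dirichlet character with values in `𝒪₀`, as a monoid homomorphism. -/
def redChar {N ℓ : ℕ} (ε : DirichletCharacter ℂ N) (𝒪₀ : Subring ℂ) (φ₀ : 𝒪₀ →+* ZMod ℓ)
    (hε : ∀ x : ZMod N, ε x ∈ 𝒪₀) : ZMod N →* ZMod ℓ where
  toFun x := φ₀ ⟨ε x, hε x⟩
  map_one' := by
    rw [← map_one φ₀]
    exact map_mk_congr' φ₀ (map_one ε) _ (one_mem _)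
  map_mul' x y := by
    rw [← map_mul φ₀]
    exact map_mk_congr' φ₀ (map_mul ε x y) _ (mul_mem (hε x) (hε y))

theorem redChar_apply {N ℓ : ℕ} (ε : DirichletCharacter ℂ N) (𝒪₀ : Subring ℂ)
    (φ₀ : 𝒪₀ →+* ZMod ℓ) (hε : ∀ x : ZMod N, ε x ∈ 𝒪₀) (x : ZMod N) :
    redChar ε 𝒪₀ φ₀ hε x = φ₀ ⟨ε x, hε x⟩ := rfl

/-- the mod-`ℓ` nebentypus `θD d = φ₀ (ε d) · d⁻¹`. -/
def thetaD {N ℓ M' : ℕ} (hN : N ∣ M') (hL : ℓ ∣ M') (ε : DirichletCharacter ℂ N)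
    (𝒪₀ : Subring ℂ) (φ₀ : 𝒪₀ →+* ZMod ℓ) (hε : ∀ x : ZMod N, ε x ∈ 𝒪₀) :
    (ZMod M')ˣ →* (ZMod ℓ)ˣ :=
  ((Units.map (redChar ε 𝒪₀ φ₀ hε)).comp (Units.map (ZMod.castHom hN (ZMod N) : ZMod M' →* ZMod N)))
    * (Units.map (ZMod.castHom hL (ZMod ℓ) : ZMod M' →* ZMod ℓ))⁻¹

theorem thetaD_apply {N ℓ M' : ℕ} [Fact ℓ.Prime] (hN : N ∣ M') (hL : ℓ ∣ M')
    (ε : DirichletCharacter ℂ N)
    (𝒪₀ : Subring ℂ) (φ₀ : 𝒪₀ →+* ZMod ℓ) (hε : ∀ x : ZMod N, ε x ∈ 𝒪₀) (d : (ZMod M')ˣ) :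
    ((thetaD hN hL ε 𝒪₀ φ₀ hε d : (ZMod ℓ)ˣ) : ZMod ℓ)
      = φ₀ ⟨ε (ZMod.cast (d : ZMod M') : ZMod N), hε _⟩
        * ((ZMod.cast (d : ZMod M') : ZMod ℓ))⁻¹ := by
  unfold thetaD
  rw [MonoidHom.mul_apply, MonoidHom.inv_apply, Units.val_mul, Units.val_inv_eq_inv_val]
  rfl

theorem cast_unit_ne_zero {ℓ M' : ℕ} [Fact ℓ.Prime] (hL : ℓ ∣ M') (d : (ZMod M')ˣ) :
    (ZMod.cast (d : ZMod M') : ZMod ℓ) ≠ 0 :=
  (Units.map (ZMod.castHom hL (ZMod ℓ) : ZMod M' →* ZMod ℓ) d).ne_zero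

/-- **B5 in the shape of `HalfBIface12`.** -/
theorem liftInstExport (hE : EisExport) : LiftInstExport := by
  intro N _ ε M _ fd hNM hfd hfd1 hSeq ℓ hℓ hℓ5 _ 𝒪₀ φ₀ hcoef hε𝒪 M' _ hMM' hL
  have hℓF : Fact ℓ.Prime := ⟨hℓ⟩
  have hℓ0 : NeZero ℓ := ⟨hℓ.ne_zero⟩
  have hℓ2 : ℓ ≠ 2 := by omega
  have hN : N ∣ M' := hNM.trans hMM'
  have hfin : Module.Finite ℂ (CuspForm (Gamma1 M') 2) :=
    FinDim8.finiteDimensional_cuspForm_Gamma1 M' 2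
  have hEis' : ∀ χ : DirichletCharacter ℂ ℓ, χ.Odd → χ.IsPrimitive → Nonempty (EisData ℓ χ) :=
    fun χ ho hp => hE ℓ χ ho hp
  set a : ℕ → 𝒪₀ := fun p => ⟨qCoeff fd p, hcoef p⟩ with ha
  have hHecke : ∀ p : ℕ, p.Prime → ¬ p ∣ M' → ∀ n : ℕ,
      qCoeff fd (p * n) + ε (p : ZMod N) * (if p ∣ n then qCoeff fd (n / p) else 0) =
        ((a p : 𝒪₀) : ℂ) * qCoeff fd n :=
    fun p hp hpM n => hSeq p hp (fun h => hpM (h.trans hN)) n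
  obtain ⟨χ, R, φ', -, -, hext, hχR, w, hw0, hwd, hwT⟩ :=
    B5Export25.exists_char0_eigenform_of_phi hℓ2 hN hMM' hL hEis' ε fd hfd 𝒪₀ φ₀ hε𝒪 hcoef hfd1
      a hHecke
  refine ⟨fun p => φ₀ (a p), thetaD hN hL ε 𝒪₀ φ₀ hε𝒪, ?_, ?_, R, φ', w, hw0, ?_, ?_⟩
  · intro p _ _ h
    rfl
  · intro d h
    rw [thetaD_apply, mul_assoc, inv_mul_cancel₀ (cast_unit_ne_zero hL d), mul_one]
  · intro p hp hpM
    obtain ⟨b, hb1, -, -, hb3⟩ := hwT p hp hpM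
    exact ⟨b, hb1, hb3⟩
  · intro d
    have hεR : ε (ZMod.cast (d : ZMod M') : ZMod N) ∈ R := (hext ⟨_, hε𝒪 _⟩).1
    have hχR' := hχR (ZMod.cast (d : ZMod M') : ZMod ℓ)
    refine ⟨⟨psi ε χ M' d, R.mul_mem hεR hχR'.1⟩, hwd d, ?_⟩
    have h1 : (⟨psi ε χ M' d, R.mul_mem hεR hχR'.1⟩ : R)
        = ⟨ε (ZMod.cast (d : ZMod M') : ZMod N), hεR⟩
          * ⟨χ (ZMod.cast (d : ZMod M') : ZMod ℓ), hχR'.1⟩ := rfl
    rw [h1, map_mul, (hext ⟨_, hε𝒪 _⟩).2, hχR'.2, thetaD_apply]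

end Fermat.Agent.ES.R48.LiftInstFinal25
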