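/-
Programme R (S48, Deligne–Serre), chapter GEOM, sub-chapter G4 (helper20): **GENERIC degree theorem
for a "realised modular function field"** — `X0/Degree` + `X0/Integrality` (concrete part) with the
field, the level of the expansions and the invariance group as PARAMETERS.

Setting (`ModData Q E`): a subfield `E ≤ ℚbar((q))`, a `ℚbar`-subalgebra `R` with `E = Frac R`,
a realisation `Θ : R → (ℍ → ℂ)` by holomorphic functions whose `q`-expansion is the element itself,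
expansion maps `T γ : E →+* ℚbar((q_Q))` (`γ ∈ SL(2,ℤ)`, `T γ u` = the `q_Q`-expansion of
`Θ u ∘ γ`), a subgroup `Γ` with `Θ u ∘ γ = Θ u` for `γ ∈ Γ` (inv) and
`(∀ u, Θ u ∘ γ = Θ u ∘ γ') → γ' γ⁻¹ ∈ Γ` (dist), and `j ∈ R`.

Results (for `Γ` of finite index): `E / ℚbar(j)` is finite of degree `[SL(2,ℤ) : Γ]`
(`finrank_eq_index`), `j` is a transcendental generator (`isGen`), the norm and trace are the
product and sum over the cosets, and every embedding of `E` over `ℚbar(j)` is some `T γ`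
(`exists_eq_T`).

Tools (all generic, on main): `X0.Analytic.HasQExp`, `X0.intg_core` (symmetric functions of an
`SL(2,ℤ)`-permuted family of expansions are polynomials in `j` over `ℚbar`), `X0.AbsDegree.main`.
Instances: `X₀(N)` (main's `X0/Degree`), `X₁(M)` (G2), and the field `F1p-bar` of
`Γ₁(M) ∩ Γ₀(p)` (`UpperField20`), which is not of the form `F1bar M'`.
-/
import Mathlib
import Fermat.Agent.X0.Integrality
import Fermat.Agent.X0.AbsDegree
import Fermat.Agent.X0.RootsK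
import Fermat.Agent.X0.FFDefs

set_option autoImplicit false
set_option linter.unusedSectionVars false

open ModularCurve UpperHalfPlane
open scoped MatrixGroups

noncomputable section

namespace Fermat.Agent.ES.R48.ModField20

open Fermat.Agent.X0 Fermat.Agent.X0.Analytic Polynomial

/-- A realised modular function field: see the header. -/
structure ModData (Q : ℕ) [NeZero Q] (E : IntermediateField Kbar (LaurentSeries Kbar)) where
  /-- the subalgebra of holomorphic elements -/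
  R : Subalgebra Kbar E
  frac : ∀ y : E, ∃ r s : R, y = (r : E) / (s : E)
  /-- the realisation -/
  Θ : R → (ℍ → ℂ)
  hol : ∀ u : R, Θ u ∈ HolH
  qexp : ∀ u : R, HasQExp (toC ((u : E) : LaurentSeries Kbar)) (Θ u)
  /-- the expansion maps -/
  T : SL(2, ℤ) → (E →+* LaurentSeries Kbar)
  spec : ∀ (γ : SL(2, ℤ)) (u : R), IntgQN Q (compSL (Θ u) γ) (toC (T γ (u : E)))
  /-- the invariance group -/
  Γ : Subgroup SL(2, ℤ)
  inv : ∀ (u : R) (γ : SL(2, ℤ)), γ ∈ Γ → compSL (Θ u) γ = Θ u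
  dist : ∀ γ γ' : SL(2, ℤ), (∀ u : R, compSL (Θ u) γ = compSL (Θ u) γ') → γ' * γ⁻¹ ∈ Γ
  /-- the formal `j` -/
  jR : R
  coe_jR : ((jR : E) : LaurentSeries Kbar) = jqK

namespace ModData

variable {Q : ℕ} [NeZero Q] {E : IntermediateField Kbar (LaurentSeries Kbar)} (A : ModData Q E)

/-- `E` is the fraction field of `R`. -/
theorem isFractionRing : IsFractionRing A.R E :=
  IsFractionRing.of_field _ _ fun y => by
    obtain ⟨r, s, h⟩ := A.frac y
    exact ⟨r, s, h⟩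

/-- the function is determined by the series. -/
theorem Θ_eq_of_hasQExp (u : A.R) {g : ℍ → ℂ}
    (h : HasQExp (toC ((u : E) : LaurentSeries Kbar)) g) : A.Θ u = g :=
  (A.qexp u).unique_right h

theorem coe_algebraMap (c : Kbar) :
    (((algebraMap Kbar A.R c : A.R) : E) : LaurentSeries Kbar)
      = algebraMap Kbar (LaurentSeries Kbar) c := rfl

theorem Θ_algebraMap (c : Kbar) : A.Θ (algebraMap Kbar A.R c) = fun _ => iotaK c := by
  apply A.Θ_eq_of_hasQExp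
  rw [coe_algebraMap, toC_algebraMap]
  exact HasQExp.const (iotaK c)

theorem Θ_jR : A.Θ A.jR = jFun := by
  apply A.Θ_eq_of_hasQExp
  rw [A.coe_jR]
  have : toC jqK = jqModC ℂ := toC_coeffEmb_jq
  rw [this]
  exact hasQExp_jqModC

theorem Θ_add (u v : A.R) : A.Θ (u + v) = A.Θ u + A.Θ v := by
  apply A.Θ_eq_of_hasQExp
  have : (((u + v : A.R) : E) : LaurentSeries Kbar)
      = ((u : E) : LaurentSeries Kbar) + ((v : E) : LaurentSeries Kbar) := rfl
  rw [this, map_add]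
  exact (A.qexp u).add (A.qexp v)

theorem Θ_mul (u v : A.R) : A.Θ (u * v) = A.Θ u * A.Θ v := by
  apply A.Θ_eq_of_hasQExp
  have : (((u * v : A.R) : E) : LaurentSeries Kbar)
      = ((u : E) : LaurentSeries Kbar) * ((v : E) : LaurentSeries Kbar) := rfl
  rw [this, map_mul]
  exact (A.qexp u).mul (A.qexp v)

/-- the realisation is injective. -/
theorem Θ_injective : Function.Injective A.Θ := by
  intro u v h
  have h1 := A.qexp u
  rw [h] at h1
  have h2 := toC_injective (h1.unique_left (A.qexp v))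
  exact Subtype.ext (Subtype.ext h2)

/-! ### The expansion maps -/

/-- `T γ u` is determined by the `q_Q`-expansion of `Θ u ∘ γ`. -/
theorem T_eq_of_qn (γ : SL(2, ℤ)) (u : A.R) (X : LaurentSeries Kbar)
    (h : IntgQN Q (compSL (A.Θ u) γ) (toC X)) : A.T γ (u : E) = X :=
  toC_injective (intg_qn_unique Q (A.spec γ u) h)

/-- `T γ` only depends on the class of `γ` modulo `Γ` on the left. -/
theorem T_mul_of_mem_R (δ γ : SL(2, ℤ)) (hδ : δ ∈ A.Γ) (u : A.R) :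
    A.T (δ * γ) (u : E) = A.T γ (u : E) := by
  apply A.T_eq_of_qn
  have h : compSL (A.Θ u) (δ * γ) = compSL (A.Θ u) γ := by
    funext z
    show A.Θ u ((δ * γ) • z) = A.Θ u (γ • z)
    rw [mul_smul]
    exact congrFun (A.inv u δ hδ) (γ • z)
  rw [h]
  exact A.spec γ u

theorem T_mul_of_mem (δ γ : SL(2, ℤ)) (hδ : δ ∈ A.Γ) (y : E) :
    A.T (δ * γ) y = A.T γ y := by
  obtain ⟨r, s, rfl⟩ := A.frac y
  rw [map_div₀, map_div₀, A.T_mul_of_mem_R δ γ hδ r, A.T_mul_of_mem_R δ γ hδ s]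

theorem T_algebraMap (γ : SL(2, ℤ)) (c : Kbar) :
    A.T γ (algebraMap Kbar E c) = algebraMap Kbar (LaurentSeries Kbar) c := by
  have h1 : ((algebraMap Kbar A.R c : A.R) : E) = algebraMap Kbar E c := rfl
  rw [← h1]
  apply A.T_eq_of_qn
  rw [A.Θ_algebraMap, toC_algebraMap]
  exact intg_qn_const Q (iotaK c)

theorem compSL_jFun (γ : SL(2, ℤ)) : compSL jFun γ = jFun := by
  funext z
  exact jFun_smul γ z

theorem T_jR (γ : SL(2, ℤ)) : A.T γ (A.jR : E) = qExpand Kbar Q jqK := by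
  apply A.T_eq_of_qn
  rw [A.Θ_jR, compSL_jFun, intg_toC_jN]
  exact intg_qn_jFun Q

/-- `T γ` on polynomials in `j` over `ℚbar`. -/
theorem T_aeval_jR (γ : SL(2, ℤ)) (p : Kbar[X]) :
    A.T γ (aeval (A.jR : E) p) = aeval (qExpand Kbar Q jqK) p := by
  rw [aeval_def, aeval_def, Polynomial.hom_eval₂, A.T_jR]
  congr 1
  refine RingHom.ext fun c => ?_
  exact A.T_algebraMap γ c

/-- The subfield `ℚbar(j)` of `E`. -/
def Kj : IntermediateField Kbar E := IntermediateField.adjoin Kbar {(A.jR : E)}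

theorem T_eq_T_one_of_mem_Kj (γ : SL(2, ℤ)) {x : E} (hx : x ∈ A.Kj) : A.T γ x = A.T 1 x := by
  rw [Kj, IntermediateField.mem_adjoin_simple_iff] at hx
  obtain ⟨r, s, rfl⟩ := hx
  rw [map_div₀, map_div₀, A.T_aeval_jR, A.T_aeval_jR, A.T_aeval_jR, A.T_aeval_jR]

/-- **HYP1**: two expansion maps agree on `ℚbar(j)`. -/
theorem T_eq_on_Kj (γ γ' : SL(2, ℤ)) (a : A.Kj) : A.T γ (a : E) = A.T γ' (a : E) := by
  rw [A.T_eq_T_one_of_mem_Kj γ a.2, A.T_eq_T_one_of_mem_Kj γ' a.2]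

/-! ### Integrality (HYP2) -/

/-- The permutation of the cosets induced by `δ ∈ SL(2,ℤ)`. -/
theorem perm (rep : SL(2, ℤ) ⧸ A.Γ → SL(2, ℤ))
    (hrep : ∀ x, (rep x : SL(2, ℤ) ⧸ A.Γ) = x) (u : A.R) (δ : SL(2, ℤ)) :
    ∃ σ : Equiv.Perm (SL(2, ℤ) ⧸ A.Γ), ∀ x z,
      compSL (A.Θ u) (rep x)⁻¹ (δ • z) = compSL (A.Θ u) (rep (σ x))⁻¹ z := by
  refine ⟨MulAction.toPerm δ⁻¹, fun x z => ?_⟩
  set a := rep x with ha
  set b := rep ((MulAction.toPerm δ⁻¹ : Equiv.Perm _) x) with hb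
  have hcoset : ((b : SL(2, ℤ)) : SL(2, ℤ) ⧸ A.Γ)
      = ((δ⁻¹ * a : SL(2, ℤ)) : SL(2, ℤ) ⧸ A.Γ) := by
    rw [hb, hrep, MulAction.toPerm_apply]
    conv_lhs => rw [← hrep x]
    rfl
  have hmem : b⁻¹ * (δ⁻¹ * a) ∈ A.Γ := QuotientGroup.eq.mp hcoset
  have hmem' : (b⁻¹ * (δ⁻¹ * a))⁻¹ ∈ A.Γ := inv_mem hmem
  have hinv := A.inv u _ hmem'
  show A.Θ u (a⁻¹ • δ • z) = A.Θ u (b⁻¹ • z)
  have h1 : a⁻¹ • δ • z = (b⁻¹ * (δ⁻¹ * a))⁻¹ • (b⁻¹ • z) := by
    rw [← mul_smul, ← mul_smul]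
    congr 1
    group
  rw [h1]
  exact congrFun hinv (b⁻¹ • z)

/-- **Integrality.** For `u ∈ R` the coefficients of `∏_x (X - T_{(rep x)⁻¹} u)`,
`x ∈ SL(2,ℤ)/Γ`, are of the form `T_1 (p(j))`, `p ∈ ℚbar[X]`. -/
theorem integrality [Fintype (SL(2, ℤ) ⧸ A.Γ)]
    (rep : SL(2, ℤ) ⧸ A.Γ → SL(2, ℤ))
    (hrep : ∀ x, (rep x : SL(2, ℤ) ⧸ A.Γ) = x) (u : A.R) (k : ℕ) :
    ∃ p : Kbar[X],
      (∏ x, (X - Polynomial.C (A.T (rep x)⁻¹ (u : E)))).coeff k = A.T 1 (aeval (A.jR : E) p) ∧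
      ∀ z, (p.map iotaK).eval (jFun z)
        = (∏ x, (X - Polynomial.C (compSL (A.Θ u) (rep x)⁻¹ z))).coeff k := by
  obtain ⟨p, hp1, hp2⟩ := intg_core Q (fun x => compSL (A.Θ u) (rep x)⁻¹)
    (fun x => A.T (rep x)⁻¹ (u : E)) (fun x => compSL_mem_HolH (A.hol u) _)
    (fun x => A.spec _ u) (A.perm rep hrep u) k
  exact ⟨p, by rw [hp1, A.T_aeval_jR], hp2⟩

theorem aeval_jR_mem_Kj (p : Kbar[X]) : aeval (A.jR : E) p ∈ A.Kj := by
  rw [Kj, ← IntermediateField.mem_toSubalgebra]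
  have hj : (A.jR : E) ∈ (IntermediateField.adjoin Kbar {(A.jR : E)}).toSubalgebra :=
    IntermediateField.subset_adjoin Kbar {(A.jR : E)} (Set.mem_singleton _)
  have hle : Algebra.adjoin Kbar {(A.jR : E)} ≤
      (IntermediateField.adjoin Kbar {(A.jR : E)}).toSubalgebra :=
    Algebra.adjoin_le (Set.singleton_subset_iff.mpr hj)
  exact hle (Polynomial.aeval_mem_adjoin_singleton Kbar (A.jR : E))

/-! ### The hypotheses of `AbsDegree.main` -/

section Rep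

variable (rep : SL(2, ℤ) ⧸ A.Γ → SL(2, ℤ)) (hrep : ∀ x, (rep x : SL(2, ℤ) ⧸ A.Γ) = x)

/-- The family of embeddings `x ↦ T (rep x)⁻¹`. -/
def Tx (x : SL(2, ℤ) ⧸ A.Γ) : E →+* LaurentSeries Kbar := A.T (rep x)⁻¹

theorem Tx_apply (x : SL(2, ℤ) ⧸ A.Γ) (f : E) : A.Tx rep x f = A.T (rep x)⁻¹ f := rfl

/-- DISTINCT in formal form: if `T γ = T γ'` on `R` then `γ' γ⁻¹ ∈ Γ`. -/
theorem mem_of_T_eq (γ γ' : SL(2, ℤ)) (h : ∀ u : A.R, A.T γ (u : E) = A.T γ' (u : E)) :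
    γ' * γ⁻¹ ∈ A.Γ := by
  apply A.dist
  intro u
  have h1 := A.spec γ u
  rw [h u] at h1
  exact intg_qn_unique_right Q h1 (A.spec γ' u)

include hrep in
/-- **HYP3**: the embeddings `T (rep x)⁻¹` are pairwise distinct. -/
theorem Tx_injective : Function.Injective (A.Tx rep) := by
  intro x y h
  have hmem := A.mem_of_T_eq (rep x)⁻¹ (rep y)⁻¹ fun u => by
    have := congrArg (fun φ : E →+* LaurentSeries Kbar => φ (u : E)) h
    exact this
  rw [inv_inv] at hmem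
  have := QuotientGroup.eq.mpr hmem
  rw [hrep, hrep] at this
  exact this.symm

include hrep in
/-- **HYP2** in the shape of `AbsDegree.main`. -/
theorem Tx_coeff [Fintype (SL(2, ℤ) ⧸ A.Γ)] (x₀ : SL(2, ℤ) ⧸ A.Γ) (u : A.R) (k : ℕ) :
    ∃ a : A.Kj, A.Tx rep x₀ (a : E)
      = (∏ x, (Polynomial.X - Polynomial.C (A.Tx rep x (u : E)))).coeff k := by
  obtain ⟨p, hp, -⟩ := A.integrality rep hrep u k
  refine ⟨⟨_, A.aeval_jR_mem_Kj p⟩, ?_⟩
  rw [Tx_apply, A.T_eq_T_one_of_mem_Kj _ (A.aeval_jR_mem_Kj p)]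
  exact hp.symm

include hrep in
/-- `AbsDegree.main` instantiated. -/
theorem main_inst [Fintype (SL(2, ℤ) ⧸ A.Γ)] (x₀ : SL(2, ℤ) ⧸ A.Γ) :
    FiniteDimensional A.Kj E ∧
      Module.finrank A.Kj E = Fintype.card (SL(2, ℤ) ⧸ A.Γ) ∧
      (∀ f : E, A.Tx rep x₀ (algebraMap A.Kj E (Algebra.norm A.Kj f)) = ∏ x, A.Tx rep x f) ∧
      (∀ f : E, A.Tx rep x₀ (algebraMap A.Kj E (Algebra.trace A.Kj E f)) = ∑ x, A.Tx rep x f) ∧
      (∀ {E' : Type} [Field E'] (ι : LaurentSeries Kbar →+* E') (τ : E →+* E'),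
        (∀ a : A.Kj, τ (a : E) = ι (A.Tx rep x₀ (a : E))) →
          ∃ x, ∀ f : E, τ f = ι (A.Tx rep x f)) := by
  have := A.isFractionRing
  have h := AbsDegree.main.{0, 0, 0, 0, 0} (K := Kbar) (F := E) (L := LaurentSeries Kbar)
    (R := A.R) (Kj := A.Kj) (T := A.Tx rep) (x₀ := x₀)
    (fun x a => A.T_eq_on_Kj _ _ a)
    (fun u k => A.Tx_coeff rep hrep x₀ u k)
    (A.Tx_injective rep hrep)
  exact ⟨h.1, h.2.1, h.2.2.1, h.2.2.2.1, fun ι τ hτ => h.2.2.2.2 ι τ hτ⟩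

end Rep

/-! ### Exports -/

/-- The canonical section `Quotient.out`. -/
def rep (x : SL(2, ℤ) ⧸ A.Γ) : SL(2, ℤ) := Quotient.out x

theorem rep_spec (x : SL(2, ℤ) ⧸ A.Γ) : (A.rep x : SL(2, ℤ) ⧸ A.Γ) = x :=
  QuotientGroup.out_eq' x

/-- `E` is finite over `ℚbar(j)`. -/
theorem finiteDimensional [A.Γ.FiniteIndex] : FiniteDimensional A.Kj E := by
  have : Fintype (SL(2, ℤ) ⧸ A.Γ) := Fintype.ofFinite _
  exact (A.main_inst A.rep A.rep_spec (1 : SL(2, ℤ))).1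

/-- **`[E : ℚbar(j)] = [SL(2,ℤ) : Γ]`.** -/
theorem finrank_eq_index [A.Γ.FiniteIndex] : Module.finrank A.Kj E = A.Γ.index := by
  have : Fintype (SL(2, ℤ) ⧸ A.Γ) := Fintype.ofFinite _
  rw [(A.main_inst A.rep A.rep_spec (1 : SL(2, ℤ))).2.1, Subgroup.index,
    Nat.card_eq_fintype_card]

/-- `j` is transcendental over `ℚbar`. -/
theorem transcendental_jR : Transcendental Kbar (A.jR : E) := by
  intro halg
  apply transcendental_jqK
  have := halg.algHom (IntermediateField.val E)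
  rw [← A.coe_jR]
  exact this

/-- `j` is a transcendental generator of `E / ℚbar`. -/
theorem isGen [A.Γ.FiniteIndex] : FF.IsGen Kbar (A.jR : E) :=
  ⟨A.transcendental_jR, A.finiteDimensional⟩

/-- Classification of the embeddings of `E` over `ℚbar(j)`: every ring hom `τ : E → E'` which
agrees with `ι ∘ T_1` on `ℚbar(j)` is `ι ∘ T_γ` for some `γ`. -/
theorem exists_eq_T [A.Γ.FiniteIndex] {E' : Type} [Field E'] (ι : LaurentSeries Kbar →+* E')
    (τ : E →+* E') (hτ : ∀ a : A.Kj, τ (a : E) = ι (A.T 1 (a : E))) :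
    ∃ γ : SL(2, ℤ), ∀ f : E, τ f = ι (A.T γ f) := by
  have : Fintype (SL(2, ℤ) ⧸ A.Γ) := Fintype.ofFinite _
  obtain ⟨x, hx⟩ := (A.main_inst A.rep A.rep_spec (1 : SL(2, ℤ))).2.2.2.2 ι τ fun a => by
    rw [hτ a, Tx_apply, A.T_eq_on_Kj 1 (A.rep ((1 : SL(2, ℤ)) : SL(2, ℤ) ⧸ A.Γ))⁻¹ a]
  exact ⟨(A.rep x)⁻¹, hx⟩

/-- formal norm formula: `T_1 (N_{E/ℚbar(j)} f) = ∏_x T_{(rep x)⁻¹} f`. -/
theorem norm_formula [Fintype (SL(2, ℤ) ⧸ A.Γ)] (f : E) :
    A.T 1 (algebraMap A.Kj E (Algebra.norm A.Kj f)) = ∏ x, A.T (A.rep x)⁻¹ f :=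
  (A.T_eq_on_Kj 1 _ (Algebra.norm A.Kj f)).trans
    ((A.main_inst A.rep A.rep_spec (1 : SL(2, ℤ))).2.2.1 f)

end ModData

end Fermat.Agent.ES.R48.ModField20
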