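/-
Programme R (S48, Deligne–Serre), chapter GEOM, sub-chapter G4 (helper20): **building a
`ModField20.ModData` from "modular series"**.

`IsMod Q f g` : the Laurent series `f ∈ ℚbar((q))` is the convergent `q`-expansion of the holomorphic
function `g` on the upper half plane, and every `SL(2,ℤ)`-translate `g ∘ γ` has a `q_Q`-expansion
over `ℚbar` (= main's `RED/BASE/QExpMem19.IsNice` WITHOUT the invariance clause; closed under `+`,
`*`, constants).

Given a subfield `E ≤ ℚbar((q))` and a `ℚbar`-subalgebra `R` with `E = Frac R` all of whose elements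
are modular series (`hmod`), the functions and the expansions are unique, hence functorial:
`fn u`, `expRHom γ : R →+* ℚbar((q_Q))` (injective), `Tmap γ : E →+* ℚbar((q_Q))`, and
`modData` packages them (with an invariance group `Γ`, to be supplied with (inv) and (dist)).
-/
import Mathlib
import Fermat.Agent.ES.R48.ModField20

set_option autoImplicit false
set_option linter.unusedSectionVars false

open ModularCurve UpperHalfPlane
open scoped MatrixGroups

noncomputable section

namespace Fermat.Agent.ES.R48.ModSer20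

open Fermat.Agent.X0 Fermat.Agent.X0.Analytic Fermat.Agent.ES.R48.ModField20

/-- `f` is the `q`-expansion of the holomorphic function `g`, and every `SL(2,ℤ)`-translate of `g`
has a `q_Q`-expansion over `ℚbar`. -/
structure IsMod (Q : ℕ) [NeZero Q] (f : LaurentSeries Kbar) (g : ℍ → ℂ) : Prop where
  hol : g ∈ HolH
  qexp : HasQExp (toC f) g
  cusp : ∀ γ : SL(2, ℤ), ∃ T : LaurentSeries Kbar, IntgQN Q (compSL g γ) (toC T)

section Closure

variable {Q : ℕ} [NeZero Q]

theorem IsMod.add {f₁ f₂ : LaurentSeries Kbar} {g₁ g₂ : ℍ → ℂ} (h₁ : IsMod Q f₁ g₁)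
    (h₂ : IsMod Q f₂ g₂) : IsMod Q (f₁ + f₂) (g₁ + g₂) where
  hol := HolH.add_mem h₁.hol h₂.hol
  qexp := by
    rw [map_add]
    exact h₁.qexp.add h₂.qexp
  cusp γ := by
    obtain ⟨T₁, hT₁⟩ := h₁.cusp γ
    obtain ⟨T₂, hT₂⟩ := h₂.cusp γ
    refine ⟨T₁ + T₂, ?_⟩
    rw [map_add]
    exact intg_qn_add Q hT₁ hT₂

theorem IsMod.mul {f₁ f₂ : LaurentSeries Kbar} {g₁ g₂ : ℍ → ℂ} (h₁ : IsMod Q f₁ g₁)
    (h₂ : IsMod Q f₂ g₂) : IsMod Q (f₁ * f₂) (g₁ * g₂) where
  hol := HolH.mul_mem h₁.hol h₂.hol
  qexp := by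
    rw [map_mul]
    exact h₁.qexp.mul h₂.qexp
  cusp γ := by
    obtain ⟨T₁, hT₁⟩ := h₁.cusp γ
    obtain ⟨T₂, hT₂⟩ := h₂.cusp γ
    refine ⟨T₁ * T₂, ?_⟩
    rw [map_mul]
    exact intg_qn_mul Q hT₁ hT₂

theorem isMod_const (c : Kbar) :
    IsMod Q (algebraMap Kbar (LaurentSeries Kbar) c) (fun _ => iotaK c) where
  hol := HolH.algebraMap_mem (iotaK c)
  qexp := by
    rw [toC_algebraMap]
    exact HasQExp.const _
  cusp _ := ⟨algebraMap Kbar (LaurentSeries Kbar) c, by
    rw [toC_algebraMap]; exact intg_qn_const Q _⟩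

/-- the function of a modular series is unique. -/
theorem IsMod.fn_unique {f : LaurentSeries Kbar} {g g' : ℍ → ℂ} (h : IsMod Q f g)
    (h' : IsMod Q f g') : g = g' :=
  h.qexp.unique_right h'.qexp

/-- a modular series with zero function is zero. -/
theorem IsMod.eq_zero_of_fn {f : LaurentSeries Kbar} (h : IsMod Q f 0) : f = 0 := by
  have h0 : HasQExp (toC (0 : LaurentSeries Kbar)) (0 : ℍ → ℂ) := by
    have := HasQExp.const (0 : ℂ)
    rw [map_zero] at this ⊢
    exact this
  exact toC_injective (h.qexp.unique_left h0)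

end Closure

/-! ### The functorial realisation and expansions of a subalgebra of modular series -/

section Build

variable {Q : ℕ} [NeZero Q] {E : IntermediateField Kbar (LaurentSeries Kbar)}
  (R : Subalgebra Kbar E)
  (hmod : ∀ u : R, ∃ g : ℍ → ℂ, IsMod Q ((u : E) : LaurentSeries Kbar) g)

/-- the function realising `u`. -/
def fn (u : R) : ℍ → ℂ := (hmod u).choose

theorem isMod_fn (u : R) : IsMod Q ((u : E) : LaurentSeries Kbar) (fn R hmod u) :=
  (hmod u).choose_spec

theorem fn_eq (u : R) {g : ℍ → ℂ} (h : IsMod Q ((u : E) : LaurentSeries Kbar) g) :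
    fn R hmod u = g :=
  (isMod_fn R hmod u).fn_unique h

theorem fn_eq_of_hasQExp (u : R) {g : ℍ → ℂ}
    (h : HasQExp (toC ((u : E) : LaurentSeries Kbar)) g) : fn R hmod u = g :=
  (isMod_fn R hmod u).qexp.unique_right h

theorem fn_add (u v : R) : fn R hmod (u + v) = fn R hmod u + fn R hmod v :=
  fn_eq R hmod (u + v) ((isMod_fn R hmod u).add (isMod_fn R hmod v))

theorem fn_mul (u v : R) : fn R hmod (u * v) = fn R hmod u * fn R hmod v :=
  fn_eq R hmod (u * v) ((isMod_fn R hmod u).mul (isMod_fn R hmod v))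

theorem fn_algebraMap (c : Kbar) : fn R hmod (algebraMap Kbar R c) = fun _ => iotaK c :=
  fn_eq R hmod _ (isMod_const c)

/-- the `q_Q`-expansion of `fn u ∘ γ`. -/
def expR (γ : SL(2, ℤ)) (u : R) : LaurentSeries Kbar := ((isMod_fn R hmod u).cusp γ).choose

theorem expR_spec (γ : SL(2, ℤ)) (u : R) :
    IntgQN Q (compSL (fn R hmod u) γ) (toC (expR R hmod γ u)) :=
  ((isMod_fn R hmod u).cusp γ).choose_spec

theorem expR_eq (γ : SL(2, ℤ)) (u : R) {X : LaurentSeries Kbar}
    (h : IntgQN Q (compSL (fn R hmod u) γ) (toC X)) : expR R hmod γ u = X :=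
  toC_injective (intg_qn_unique Q (expR_spec R hmod γ u) h)

theorem expR_add (γ : SL(2, ℤ)) (u v : R) :
    expR R hmod γ (u + v) = expR R hmod γ u + expR R hmod γ v := by
  apply expR_eq
  rw [fn_add, compSL_add_fun, map_add]
  exact intg_qn_add Q (expR_spec R hmod γ u) (expR_spec R hmod γ v)

theorem expR_mul (γ : SL(2, ℤ)) (u v : R) :
    expR R hmod γ (u * v) = expR R hmod γ u * expR R hmod γ v := by
  apply expR_eq
  rw [fn_mul, compSL_mul_fun, map_mul]
  exact intg_qn_mul Q (expR_spec R hmod γ u) (expR_spec R hmod γ v)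

theorem expR_algebraMap (γ : SL(2, ℤ)) (c : Kbar) :
    expR R hmod γ (algebraMap Kbar R c) = algebraMap Kbar (LaurentSeries Kbar) c := by
  apply expR_eq
  rw [fn_algebraMap, compSL_const, toC_algebraMap]
  exact intg_qn_const Q _

/-- the expansion map on `R` as a ring hom. -/
def expRHom (γ : SL(2, ℤ)) : R →+* LaurentSeries Kbar where
  toFun := expR R hmod γ
  map_one' := by
    have := expR_algebraMap R hmod γ 1
    rwa [map_one, map_one] at this
  map_mul' := expR_mul R hmod γ
  map_zero' := by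
    have := expR_algebraMap R hmod γ 0
    rwa [map_zero, map_zero] at this
  map_add' := expR_add R hmod γ

@[simp] theorem expRHom_apply (γ : SL(2, ℤ)) (u : R) :
    expRHom R hmod γ u = expR R hmod γ u := rfl

theorem expRHom_injective (γ : SL(2, ℤ)) : Function.Injective (expRHom R hmod γ) := by
  rw [injective_iff_map_eq_zero]
  intro u hu
  have h1 := expR_spec R hmod γ u
  have hu' : expR R hmod γ u = 0 := hu
  rw [hu'] at h1
  have h0 : IntgQN Q (fun _ : ℍ => (0 : ℂ)) (toC (0 : LaurentSeries Kbar)) := by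
    have := intg_qn_const Q (0 : ℂ)
    rw [map_zero] at this ⊢
    exact this
  have h2 : compSL (fn R hmod u) γ = 0 := intg_qn_unique_right Q h1 h0
  have h3 : fn R hmod u = 0 := by
    funext z
    have := congrFun h2 (γ⁻¹ • z)
    simpa [compSL] using this
  have h4 := isMod_fn R hmod u
  rw [h3] at h4
  have h5 : ((u : E) : LaurentSeries Kbar) = 0 := h4.eq_zero_of_fn
  exact Subtype.ext (Subtype.ext h5)

variable (frac : ∀ y : E, ∃ r s : R, y = (r : E) / (s : E))

include frac in
theorem isFractionRing : IsFractionRing R E :=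
  IsFractionRing.of_field _ _ fun y => by
    obtain ⟨r, s, h⟩ := frac y
    exact ⟨r, s, h⟩

/-- the expansion map `T_γ : E → ℚbar((q_Q))`. -/
def Tmap (γ : SL(2, ℤ)) : E →+* LaurentSeries Kbar :=
  haveI := isFractionRing R frac
  IsFractionRing.lift (A := R) (K := E) (g := expRHom R hmod γ) (expRHom_injective R hmod γ)

theorem Tmap_coe (γ : SL(2, ℤ)) (u : R) : Tmap R hmod frac γ (u : E) = expR R hmod γ u := by
  have := isFractionRing R frac
  exact IsFractionRing.lift_algebraMap (A := R) (K := E) (expRHom_injective R hmod γ) u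

/-- **The `ModData` of a subalgebra of modular series.** -/
def modData (Γ : Subgroup SL(2, ℤ))
    (inv : ∀ (u : R) (γ : SL(2, ℤ)), γ ∈ Γ → compSL (fn R hmod u) γ = fn R hmod u)
    (dist : ∀ γ γ' : SL(2, ℤ),
      (∀ u : R, compSL (fn R hmod u) γ = compSL (fn R hmod u) γ') → γ' * γ⁻¹ ∈ Γ)
    (jR : R) (coe_jR : ((jR : E) : LaurentSeries Kbar) = jqK) : ModData Q E where
  R := R
  frac := frac
  Θ := fn R hmod
  hol u := (isMod_fn R hmod u).hol
  qexp u := (isMod_fn R hmod u).qexp
  T := Tmap R hmod frac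
  spec γ u := by
    rw [Tmap_coe]
    exact expR_spec R hmod γ u
  Γ := Γ
  inv := inv
  dist := dist
  jR := jR
  coe_jR := coe_jR

end Build

end Fermat.Agent.ES.R48.ModSer20
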