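/-
Programme R (S48, Deligne–Serre), chapter GEOM, sub-chapter G3 MODEL₁ (helper7, for helper4):
**`ModelStepOne7` with its hypothesis `IrrBridge` discharged** by helper8's
`IrrBridge8.degLe_and_irr_of_pi_prime` ("`π · chart O t` prime ⇒ `(DEG) + (IRR)` for
`n = [E : K(t)]`").

* `irrBridge : ModelStepOne7.IrrBridge`;
* `explicitModelStep1`, `modelStep1`, `modelStep1_of_tMem : G3Defs4.ModelStep1 M A`,
  `numStep1_of_targets : NumStep1 ℓ M A` — the concrete statements of `ModelStepOne7`, UNCONDITIONAL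
  in the bridge (same binders, without `hI`).
-/
import Mathlib
import Fermat.Agent.ES.R48.ModelStepOne7
import Fermat.Agent.ES.R48.IrrBridge8

set_option autoImplicit false
set_option linter.unusedSectionVars false
set_option linter.unusedVariables false

open HahnSeries ModularCurve IntermediateField
open scoped MatrixGroups

noncomputable section

namespace Fermat.Agent.ES.R48.ModelStepFinal7

open Fermat.Agent.RED.CORE.CoreIface24 Fermat.Agent.RED.PUR.GaussGen8
  Fermat.Agent.RED.PUR.KtGauss8 Fermat.Agent.RED.PUR.G1Package8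
  Fermat.Agent.RED.PUR.ChartGeneric22 Fermat.Agent.RED.NumInst4
  Fermat.Agent.RED.ModelAsm4 Fermat.Agent.RED.ModelIface4
  Fermat.Agent.RED.Interface4 Fermat.Agent.RED.ModelTargets4
  Fermat.Agent.RED.BASE.EtaQuot12 Fermat.Agent.X0
  Fermat.Agent.RED.DESC.NumberFieldDVR27
  Fermat.Agent.ES.R48.G3Defs4 Fermat.Agent.ES.R48.G3Targets4
  Fermat.Agent.ES.R48.ModelStepOne7

/-- **The bridge holds** (helper8's `IrrBridge8`). -/
theorem irrBridge : IrrBridge := by
  intro K _ _ O _ π hπ E hE t ht htr hn hprime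
  exact Fermat.Agent.ES.R48.IrrBridge8.degLe_and_irr_of_pi_prime hπ hE t ht htr hn hprime

variable {n e M : ℕ} [NeZero n] [NeZero M] {A : ValuationSubring Qbar}

/-- **The explicit model of `K · F1 M` over all large number fields**, with the `(DEG) + (IRR)`
export (= `ModelStepOne7.explicitModelStep1 irrBridge`). -/
theorem explicitModelStep1 {cv : SL(2, ℤ) → Option Kbar}
    (hV : VertTarget1 n e M A) (hH : HorizTarget1 n e M A cv)
    (hC : CuspFamilyTarget1 n e M A cv) {ℓ : ℕ} [Fact ℓ.Prime] (hℓM : ¬ ℓ ∣ M)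
    (hA : A.LiesOverPrime ℓ) :
    ∃ K₀ : IntermediateField ℚ Qbar, FiniteDimensional ℚ K₀ ∧
      ∀ K : IntermediateField ℚ Qbar, FiniteDimensional ℚ K → K₀ ≤ K →
        IsDiscreteValuationRing ↥(AK A K) ∧
        ∀ (ϖ : ↥(AK A K)) (_ : Irreducible ϖ) (hu : IsUnif (AK A K) ϖ) (t : ↥(FK1 M K)),
          (t : LaurentSeries K) = tq K n e →
          TwoChartModel ↥(AK A K) K ↥(FK1 M K) ϖ t (chart ↥(AK A K) t) (chart ↥(AK A K) t⁻¹)
            (Fermat.Agent.ES.R48.GaussBridgeOne10.OvK1 A K M hu) ∧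
          ∃ (ht : (t : LaurentSeries K) ∈ gaussRing (AK A K)) (nn : ℕ), nn ≠ 0 ∧
            DegLe (AK A K) (FK1 M K) ⟨(t : LaurentSeries K), ht⟩ nn ∧
            Irr (AK A K) (FK1 M K) ⟨(t : LaurentSeries K), ht⟩ nn :=
  ModelStepOne7.explicitModelStep1 irrBridge hV hH hC hℓM hA

/-- **MODEL₁** from `(T1)` and the three targets of G3. -/
theorem modelStep1 {cv : SL(2, ℤ) → Option Kbar} (hT : TTarget n e M)
    (hV : VertTarget1 n e M A) (hH : HorizTarget1 n e M A cv)
    (hC : CuspFamilyTarget1 n e M A cv) {ℓ : ℕ} [Fact ℓ.Prime] (hℓM : ¬ ℓ ∣ M)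
    (hA : A.LiesOverPrime ℓ) : ModelStep1 M A :=
  ModelStepOne7.modelStep1 irrBridge hT hV hH hC hℓM hA

/-- **MODEL₁**, with `(T1)` discharged by main's `ModelFinal4.tTarget` (`TBridge15`). -/
theorem modelStep1_of_tMem {cv : SL(2, ℤ) → Option Kbar}
    (hmem : Fermat.Agent.RED.BASE.Interface12.TMem n e M)
    (hV : VertTarget1 n e M A) (hH : HorizTarget1 n e M A cv)
    (hC : CuspFamilyTarget1 n e M A cv) {ℓ : ℕ} [Fact ℓ.Prime] (hℓM : ¬ ℓ ∣ M)
    (hA : A.LiesOverPrime ℓ) : ModelStep1 M A :=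
  ModelStepOne7.modelStep1_of_tMem irrBridge hmem hV hH hC hℓM hA

/-- **NUM₁**: `(CL)` for `K · F1 M` over all large number fields. -/
theorem numStep1_of_targets {cv : SL(2, ℤ) → Option Kbar}
    (hmem : Fermat.Agent.RED.BASE.Interface12.TMem n e M)
    (hV : VertTarget1 n e M A) (hH : HorizTarget1 n e M A cv)
    (hC : CuspFamilyTarget1 n e M A cv) {ℓ : ℕ} [Fact ℓ.Prime] (hℓM : ¬ ℓ ∣ M)
    (hA : A.LiesOverPrime ℓ) : NumStep1 ℓ M A :=
  ModelStepOne7.numStep1_of_targets irrBridge hmem hV hH hC hℓM hA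

end Fermat.Agent.ES.R48.ModelStepFinal7
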