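/-
Programme R (S48, Deligne–Serre), chapter A4 CHEB, brick for CR6 (helper16): **the orbit sum**.

`L/K` a Galois extension of number fields, `M` a multiple of `disc L`, `c₀ ∈ Gal(L/K)` a central
involution, `orb c₀ γ` the orbit of `γ` under conjugation, inversion and multiplication by `c₀`
(`CrossGroupPM12.orb`).  For a union `S` of orbits and `s > 1`:

  `∑_{p ∈ frobClassIn S} N p ^ (-s) = ∑_{γ ∈ S} |orb γ|⁻¹ · ∑_{p ∈ frobClassIn (orb γ)} N p ^ (-s)`

(`wsum_frobClassIn_eq_finsum_orb`).  Pointwise: at a good prime all Frobenius elements are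
conjugate, so for a conjugation-stable `T` membership in `frobClassIn K L M T` is decided by the
Frobenius `fr K P` of any one prime `P` above (`mem_frobClassIn_iff`), and
`1_S = ∑_{γ ∈ S} 1_{orb γ} / |orb γ|` (`CrossGroupPM12.finsum_orb`).
-/
import Mathlib
import Fermat.Agent.CFT.NotAllSplit
import Fermat.Agent.CFT.ArtinSymbol
import Fermat.Agent.ES.GAL.ChebAbstract23
import Fermat.Agent.ES.R48.CrossGroupPM12
import Fermat.Agent.ES.R48.DeuringNF18

set_option autoImplicit false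
set_option linter.unusedSectionVars false

open IsDedekindDomain Ideal NumberField
open Fermat.Agent.CFT.SplitPrimes Fermat.Agent.CFT.NotAllSplit
  Fermat.Agent.ES.GAL.ChebAbstract23 Fermat.Agent.ES.R48.DeuringNF18
  Fermat.Agent.ES.R48.CrossGroupPM12

namespace Fermat.Agent.ES.R48.OrbitSum16

noncomputable section

variable (K L : Type) [Field K] [Field L] [NumberField K] [NumberField L] [Algebra K L]
  [IsGalois K L]

attribute [local instance] primesAction

/-- every prime of `K` has a prime of `L` above it. -/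
theorem exists_below_eq (p : HeightOneSpectrum (𝓞 K)) :
    ∃ P : HeightOneSpectrum (𝓞 L), below (R := 𝓞 K) P = p := by
  have := p.isPrime
  obtain ⟨P, hP, hPp⟩ := Fermat.Agent.CFT.ArtinSymbol.exists_prime_over K L p.asIdeal
  exact ⟨⟨P, hP, Fermat.Agent.CFT.ArtinSymbol.ne_bot_of_under_ne_bot hPp p.ne_bot⟩,
    HeightOneSpectrum.ext hPp⟩

variable {K L}

/-- the Frobenius of a conjugate prime is the conjugate Frobenius (over a good prime). -/
theorem fr_smul {M : ℕ} (hM : (discr L).natAbs ∣ M) (g : L ≃ₐ[K] L)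
    {P : HeightOneSpectrum (𝓞 L)} (hP : below (R := 𝓞 K) P ∈ goodPrimes K M) :
    fr K (g • P) = g * fr K P * g⁻¹ := by
  have hgP : below (R := 𝓞 K) (g • P) ∈ goodPrimes K M := by rw [below_smul]; exact hP
  exact fr_eq hM hgP ((isArithFrobAt_fr K P).conj g)

/-- **At a good prime, a conjugation-stable class is detected by the Frobenius of any one prime
above.** -/
theorem mem_frobClassIn_iff {M : ℕ} (hM : (discr L).natAbs ∣ M) {T : Set (L ≃ₐ[K] L)}
    (hT : ∀ t ∈ T, ∀ g : L ≃ₐ[K] L, g * t * g⁻¹ ∈ T) {p : HeightOneSpectrum (𝓞 K)}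
    (hp : p ∈ goodPrimes K M) (P : HeightOneSpectrum (𝓞 L)) (hPp : below (R := 𝓞 K) P = p) :
    p ∈ frobClassIn K L M T ↔ fr K P ∈ T := by
  constructor
  · rintro ⟨-, Q, hQ, hQp, σ, hσT, hσ⟩
    have hQ0 : Q ≠ ⊥ := Fermat.Agent.CFT.ArtinSymbol.ne_bot_of_under_ne_bot hQp p.ne_bot
    set Q' : HeightOneSpectrum (𝓞 L) := ⟨Q, hQ, hQ0⟩ with hQ'
    have hbelQ : below (R := 𝓞 K) Q' = p := HeightOneSpectrum.ext hQp
    have hQg : below (R := 𝓞 K) Q' ∈ goodPrimes K M := hbelQ ▸ hp
    have hfrQ : fr K Q' = σ := fr_eq hM hQg hσ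
    obtain ⟨g, hg⟩ := exists_smul_eq_of_below_eq (K := K) (P := Q') (Q := P) (hbelQ.trans hPp.symm)
    rw [← hg, fr_smul hM g hQg, hfrQ]
    exact hT σ hσT g
  · intro h
    exact ⟨hp, P.asIdeal, P.isPrime, congrArg HeightOneSpectrum.asIdeal hPp, fr K P, h,
      isArithFrobAt_fr K P⟩

/-- **The orbit sum.**  For a union `S` of orbits, the prime sum over `frobClassIn S` is the
weighted sum of the prime sums over the orbits. -/
theorem wsum_frobClassIn_eq_finsum_orb {M : ℕ} (hM : (discr L).natAbs ∣ M) {c₀ : L ≃ₐ[K] L}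
    (hc : ∀ g : L ≃ₐ[K] L, c₀ * g = g * c₀) (h2 : c₀ * c₀ = 1) (S : Set (L ≃ₐ[K] L))
    (hS : ∀ γ ∈ S, orb c₀ γ ⊆ S) {s : ℝ} (hs : 1 < s) :
    wsum (xP K s) (frobClassIn K L M S) =
      ∑ᶠ γ ∈ S, (1 / (Nat.card (orb c₀ γ) : ℝ)) *
        wsum (xP K s) (frobClassIn K L M (orb c₀ γ)) := by
  classical
  have : Fintype (L ≃ₐ[K] L) := Fintype.ofFinite _
  have hSconj : ∀ t ∈ S, ∀ g : L ≃ₐ[K] L, g * t * g⁻¹ ∈ S := fun t ht g =>
    hS t ht (conj_mem_orb (mem_orb_self c₀ t) g)
  have horbconj : ∀ γ : L ≃ₐ[K] L, ∀ t ∈ orb c₀ γ, ∀ g : L ≃ₐ[K] L, g * t * g⁻¹ ∈ orb c₀ γ :=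
    fun γ t ht g => conj_mem_orb ht g
  have hsum : ∀ T : Set (HeightOneSpectrum (𝓞 K)), Summable (T.indicator (xP K s)) :=
    fun T => (summable_xP K hs).indicator T
  rw [finsum_mem_eq_sum_ite]
  unfold wsum
  have h1 : ∀ γ : L ≃ₐ[K] L,
      (if γ ∈ S then (1 / (Nat.card (orb c₀ γ) : ℝ)) *
        ∑' p, (frobClassIn K L M (orb c₀ γ)).indicator (xP K s) p else 0) =
      ∑' p, (if γ ∈ S then (1 / (Nat.card (orb c₀ γ) : ℝ)) *
        (frobClassIn K L M (orb c₀ γ)).indicator (xP K s) p else 0) := by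
    intro γ
    by_cases hγ : γ ∈ S
    · simp only [if_pos hγ]
      rw [tsum_mul_left]
    · simp only [if_neg hγ, tsum_zero]
  rw [Finset.sum_congr rfl fun γ _ => h1 γ]
  rw [← Summable.tsum_finsetSum]
  · refine tsum_congr fun p => ?_
    by_cases hp : p ∈ goodPrimes K M
    · obtain ⟨P, hPp⟩ := exists_below_eq K L p
      have hx := finsum_orb hc h2 S hS (fr K P)
      rw [finsum_mem_eq_sum_ite] at hx
      have h3 : ∀ γ : L ≃ₐ[K] L,
          (if γ ∈ S then (1 / (Nat.card (orb c₀ γ) : ℝ)) *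
            (frobClassIn K L M (orb c₀ γ)).indicator (xP K s) p else 0) =
          (if γ ∈ S then (if fr K P ∈ orb c₀ γ then (1 : ℝ) / Nat.card (orb c₀ γ) else 0)
            else 0) * xP K s p := by
        intro γ
        by_cases hγ : γ ∈ S
        · rw [if_pos hγ, if_pos hγ]
          by_cases hfr : fr K P ∈ orb c₀ γ
          · rw [if_pos hfr, Set.indicator_of_mem
              ((mem_frobClassIn_iff hM (horbconj γ) hp P hPp).mpr hfr)]
          · rw [if_neg hfr, Set.indicator_of_notMem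
              (fun h => hfr ((mem_frobClassIn_iff hM (horbconj γ) hp P hPp).mp h)), mul_zero,
              zero_mul]
        · rw [if_neg hγ, if_neg hγ, zero_mul]
      rw [Finset.sum_congr rfl fun γ _ => h3 γ, ← Finset.sum_mul, hx]
      by_cases hfrS : fr K P ∈ S
      · rw [if_pos hfrS, one_mul, Set.indicator_of_mem
          ((mem_frobClassIn_iff hM hSconj hp P hPp).mpr hfrS)]
      · rw [if_neg hfrS, zero_mul, Set.indicator_of_notMem
          (fun h => hfrS ((mem_frobClassIn_iff hM hSconj hp P hPp).mp h))]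
    · have h0 : ∀ T : Set (L ≃ₐ[K] L), (frobClassIn K L M T).indicator (xP K s) p = 0 :=
        fun T => Set.indicator_of_notMem (fun h => hp h.1) _
      rw [h0 S]
      refine (Finset.sum_eq_zero fun γ _ => ?_).symm
      rw [h0, mul_zero, ite_self]
  · intro γ _
    by_cases hγ : γ ∈ S
    · simp only [if_pos hγ]
      exact (hsum _).mul_left _
    · simp only [if_neg hγ]
      exact summable_zero

end

end Fermat.Agent.ES.R48.OrbitSum16
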