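/-
Programme R (S48), chapter GEOM, sub-chapter G4 CONG₁ (helper28): the `Γ₁`-twin of the abstract and
contract parts of `ES/TOP/Skeleton8` (`SP`), `ES/TOP/PhiOneTwo21` (`phi_one`, `phi_two`, `sp_of_phi`)
and `ES/TOP/TorsionGalois12` (`inertia_smul_eq`, `frobenius_relation`), with a DIAMOND operator:
the Eichler–Shimura expression `σ² x - T (σ x) + ℓ x` of the `Γ₀` original becomes

  `σ • σ • x - T (σ • x) + p • D x`,      `T = T_p`, `D = ⟨p⟩^{±1}` (any additive endomorphisms of `J`).

Everything is stated for an abstract `J` with an action of `L ≃ₐ[K] L`; no Hecke algebra, no module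
structure and NO commutativity of `T`, `D` (blueprint `R48_GEOM13` v2, ★ S3).  Main only: Mathlib + the
two Prelude definition modules for `inertiaSubgroupIn`, `IsFrobeniusAt`.

* `SPOne A p T D` : the contract (twin of `Skeleton8.SP`): a homomorphism `Φ : J →+ G`, inertia-invariant,
  killing the Eichler–Shimura expressions with diamond, injective on prime-to-`p` torsion.
* `spOne_of_red` : (SP₁) for `Φ := red` from
    `red (σ • x) = Fr (red x)` (Frobenius), `red (τ • x) = red x` (inertia),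
    `red (T z) = Fr (red z) + p • V (red z)` (Eichler–Shimura on `Pic⁰` of the special fibre),
    `red (D z) = δ (red z)` (reduction of the diamond), `V ∘ Fr = δ` (i.e. `V = δ ∘ Fr⁻¹`),
  twin of `PhiOneTwo21.sp_of_phi`;  `spOne_of_red_smul` = the same with `Fr`, `δ` elements of a group acting
  on `G` (the shape `Fr_* D' + p • (δ Fr⁻¹)_* D'` of the generalised `EsDivAbs24.Setup`).
* `inertia_smul_eq_of_spOne`, `frobenius_relation_of_spOne` : the G4 exports
  (`inertia_smul_eq₁`, `frobenius_relation₁` of the blueprint) from (SP₁).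
* `frobenius_relation_of_eigen` : the same on a simultaneous eigenvector (`T x = a • x`, `D x = d • x` in a
  module over a commutative ring `R` in which `J` is an `R`-module compatible with everything).

The formal quotient `J ⧸ K` of `Skeleton8.exists_specialization` has no consumer in Programme R (it only
served the frozen shape of S37) and has no twin here.
-/
import Mathlib
import Fermat.Prelude.Def_FLTPrelim_Ramification
import Fermat.Prelude.Def_EllipticCurve_FrobeniusTrace

set_option autoImplicit false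

namespace Fermat.Agent.ES.R48.SkeletonOne28

variable {K L : Type*} [Field K] [Field L] [Algebra K L]
variable {J : Type*} [AddCommGroup J] [DistribMulAction (L ≃ₐ[K] L) J]

/-! ### The contract (SP₁) -/

/-- **Contract (SP₁)**: a homomorphism `Φ : J →+ G` which is invariant under the inertia group at `A`,
kills the Eichler–Shimura expressions `σ • σ • x - T (σ • x) + p • D x` (`σ` a Frobenius at `A`) and is
injective on prime-to-`p` torsion.  Twin of `Skeleton8.SP` (`J = JZero N`, `T = T_ℓ`, `D = id`). -/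
def SPOne (A : ValuationSubring L) (p : ℕ) (T D : J →+ J) : Prop :=
  ∃ (G : Type) (_ : AddCommGroup G) (Φ : J →+ G),
    (∀ τ ∈ A.inertiaSubgroupIn K, ∀ x : J, Φ (τ • x) = Φ x) ∧
    (∀ σ : L ≃ₐ[K] L, A.IsFrobeniusAt σ p → ∀ x : J,
      Φ (σ • σ • x - T (σ • x) + p • D x) = 0) ∧
    (∀ (m : ℕ) (x : J), ¬ p ∣ m → m • x = 0 → Φ x = 0 → x = 0)

/-! ### (Φ1), (Φ2) for a reduction map -/

section Red

variable {G : Type*} [AddCommGroup G]

/-- **(Φ2), abstract**: `red` kills the Eichler–Shimura expression with diamond at `σ`, from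
`red ∘ σ = Fr ∘ red`, the Eichler–Shimura relation `red ∘ T = Fr ∘ red + p • V ∘ red` on the special
fibre, `red ∘ D = δ ∘ red` and `V ∘ Fr = δ`.  Twin of `PhiOneTwo21.phi_two`. -/
theorem red_esExpr_eq_zero (red : J →+ G) (Fr V δ : G →+ G) (hV : ∀ y : G, V (Fr y) = δ y)
    (p : ℕ) (T D : J →+ J)
    (hES : ∀ z : J, red (T z) = Fr (red z) + p • V (red z))
    (hD : ∀ z : J, red (D z) = δ (red z))
    (σ : L ≃ₐ[K] L) (hσ : ∀ x : J, red (σ • x) = Fr (red x)) (x : J) :
    red (σ • σ • x - T (σ • x) + p • D x) = 0 := by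
  rw [map_add, map_sub, map_nsmul, hσ (σ • x), hσ x, hES (σ • x), hσ x, hV, hD]
  abel

/-- **(SP₁) from a reduction map**: twin of `PhiOneTwo21.sp_of_phi` (no level change: D4 of the
blueprint).  `Fr` = Frobenius on `Pic⁰` of the special fibre, `δ` = the reduced diamond, `V = δ ∘ Fr⁻¹`
(only `V ∘ Fr = δ` is used). -/
theorem spOne_of_red {G : Type} [AddCommGroup G] {A : ValuationSubring L} {p : ℕ} {T D : J →+ J}
    (red : J →+ G) (Fr V δ : G →+ G) (hV : ∀ y : G, V (Fr y) = δ y)
    (hI : ∀ τ ∈ A.inertiaSubgroupIn K, ∀ x : J, red (τ • x) = red x)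
    (hFr : ∀ σ : L ≃ₐ[K] L, A.IsFrobeniusAt σ p → ∀ x : J, red (σ • x) = Fr (red x))
    (hES : ∀ z : J, red (T z) = Fr (red z) + p • V (red z))
    (hD : ∀ z : J, red (D z) = δ (red z))
    (h3 : ∀ (m : ℕ) (x : J), ¬ p ∣ m → m • x = 0 → red x = 0 → x = 0) :
    SPOne (K := K) A p T D :=
  ⟨G, inferInstance, red, hI,
    fun σ hσ x => red_esExpr_eq_zero red Fr V δ hV p T D hES hD σ (hFr σ hσ) x, h3⟩

/-- **(SP₁) from a reduction map, group form**: `Fr`, `δ` are elements of a group `S` acting on `G`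
(`S = SemilinearAut k F̃`), and the Eichler–Shimura relation has the shape
`red (T z) = Fr • red z + p • (δ • Fr⁻¹ • red z)` produced by the divisor identity
`r_* (T_p D) = Fr_* (r_* D) + p • (δ Fr⁻¹)_* (r_* D)`. -/
theorem spOne_of_red_smul {G : Type} [AddCommGroup G] {S : Type*} [Group S] [DistribMulAction S G]
    {A : ValuationSubring L} {p : ℕ} {T D : J →+ J} (red : J →+ G) (Fr δ : S)
    (hI : ∀ τ ∈ A.inertiaSubgroupIn K, ∀ x : J, red (τ • x) = red x)
    (hFr : ∀ σ : L ≃ₐ[K] L, A.IsFrobeniusAt σ p → ∀ x : J, red (σ • x) = Fr • red x)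
    (hES : ∀ z : J, red (T z) = Fr • red z + p • (δ • Fr⁻¹ • red z))
    (hD : ∀ z : J, red (D z) = δ • red z)
    (h3 : ∀ (m : ℕ) (x : J), ¬ p ∣ m → m • x = 0 → red x = 0 → x = 0) :
    SPOne (K := K) A p T D :=
  spOne_of_red red (DistribSMul.toAddMonoidHom G Fr)
    ((DistribSMul.toAddMonoidHom G δ).comp (DistribSMul.toAddMonoidHom G Fr⁻¹))
    (DistribSMul.toAddMonoidHom G δ)
    (fun y => by
      show δ • Fr⁻¹ • Fr • y = δ • y
      rw [inv_smul_smul])
    hI hFr hES hD h3

end Red

/-! ### The exports of G4 from (SP₁) -/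

theorem smul_nsmul_comm' (σ : L ≃ₐ[K] L) (m : ℕ) (x : J) : σ • (m • x) = m • (σ • x) :=
  map_nsmul (DistribSMul.toAddMonoidHom J σ) m x

/-- **`J[m]` is unramified at `p ∤ m`** (twin of `TorsionGalois12.inertia_smul_eq`). -/
theorem inertia_smul_eq_of_spOne {A : ValuationSubring L} {p : ℕ} {T D : J →+ J}
    (h : SPOne (K := K) A p T D) {m : ℕ} (hm : ¬ p ∣ m) {x : J} (hx : m • x = 0)
    {τ : L ≃ₐ[K] L} (hτ : τ ∈ A.inertiaSubgroupIn K) : τ • x = x := by
  obtain ⟨G, _, Φ, h1, -, h3⟩ := h
  rw [← sub_eq_zero]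
  refine h3 m (τ • x - x) hm ?_ ?_
  · rw [nsmul_sub, ← smul_nsmul_comm', hx, smul_zero, sub_self]
  · rw [map_sub, h1 τ hτ x, sub_self]

/-- **The Eichler–Shimura congruence relation with diamond on `J[m]`**, `p ∤ m`
(twin of `TorsionGalois12.frobenius_relation`). -/
theorem frobenius_relation_of_spOne {A : ValuationSubring L} {p : ℕ} {T D : J →+ J}
    (h : SPOne (K := K) A p T D) {m : ℕ} (hm : ¬ p ∣ m) {x : J} (hx : m • x = 0)
    {σ : L ≃ₐ[K] L} (hσ : A.IsFrobeniusAt σ p) :
    σ • σ • x - T (σ • x) + p • D x = 0 := by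
  obtain ⟨G, _, Φ, -, h2, h3⟩ := h
  refine h3 m _ hm ?_ (h2 σ hσ x)
  have e1 : m • (σ • x) = 0 := by rw [← smul_nsmul_comm', hx, smul_zero]
  have e2 : m • (σ • σ • x) = 0 := by rw [← smul_nsmul_comm', e1, smul_zero]
  have e3 : m • T (σ • x) = 0 := by rw [← map_nsmul, e1, map_zero]
  have e4 : m • (p • D x) = 0 := by rw [smul_comm m p (D x), ← map_nsmul, hx, map_zero, smul_zero]
  rw [nsmul_add, nsmul_sub, e2, e3, e4, sub_zero, add_zero]

/-- **The relation on a simultaneous eigenvector**: if `J` is a module over a commutative ring `R`,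
the Galois action is `R`-linear and `T x' = a • x'`, `D x = d • x` on `x' = σ • x` resp. `x`, then
`σ • σ • x - a • σ • x + (p * d) • x = 0`.  (This is the form consumed by the two-dimensional wrapper G7:
`R = ZMod ℓ`, `x ∈ V[θ]`, `a = θT p`, `d = θD (p ^ {±1})`.) -/
theorem frobenius_relation_of_eigen {R : Type*} [CommRing R] [Module R J]
    {A : ValuationSubring L} {p : ℕ} {T D : J →+ J}
    (h : SPOne (K := K) A p T D) {m : ℕ} (hm : ¬ p ∣ m) {x : J} (hx : m • x = 0)
    {σ : L ≃ₐ[K] L} (hσ : A.IsFrobeniusAt σ p) {a d : R}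
    (hT : T (σ • x) = a • σ • x) (hD : D x = d • x) :
    σ • σ • x - a • σ • x + ((p : R) * d) • x = 0 := by
  have key := frobenius_relation_of_spOne h hm hx hσ
  rw [hT, hD] at key
  rw [mul_smul, Nat.cast_smul_eq_nsmul]
  exact key

end Fermat.Agent.ES.R48.SkeletonOne28
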