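/-
Programme R (S48), chapter GEOM, sub-chapter G4 CONG₁, brick L1c (helper28): **the `Pic⁰` passage of
(ES-div) and the contract (SP₁) for `X₁(M)`** — the twin of `ES/TOP/PhiOneTwo21`
(`red_heckeOperatorAlong`, `phi_one`, `phi_two`, `sp_of_phi`, `sp_of_phi_div`) and of
`ES/HECKE/PointFormula28.heckeOperatorAlong_mk`, on top of helper13's `FF1Defs13` (`F1 M`, `heckeOneDivBar`,
`heckeOnePic0Bar`), helper15's `F1CDefs15` (`F1C k M`, `frobSemi1`) and `RedDefsG15` (`reductionPic0AlongG`).
No level change (D4 of the blueprint): `Φ := red`.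

GENERIC part (any pair `F₀ ⊆ ℚ((q))`, `Fk ⊆ k((q))`, any correspondence `ψ_* φ^*` on `L · F₀`):
* `mapDomain_smulG`, `reductionPic0AlongG_smul`, `reductionPic0AlongG_smul_of_fixed` : if `r (g • P) = h • r P`
  on places then `red (g • x) = h • red x` on `Pic⁰` (twins of `GaloisRed21` §Equivariance);
* `red_correspondenceG` : from the divisor identity
  `r_* (ψ_* φ^* D) = g_* (r_* D) + n • h_* (r_* D)`  (`g h : SemilinearAut k Fk`)
  to `red (Pic0.correspondence φ ψ … z) = g • red z + n • (h • red z)`.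
  Both orientations of the Eichler–Shimura identity on `X₁` are instances:
  (A) `g = Fr`, `h = δ̃ Fr⁻¹`   and   (B) `g = δ̃ Fr`, `h = Fr⁻¹`   (helper15's split v1, L1d: D3 gives (B)).

`X₁(M)` part:
* `heckeOnePic0Bar_mk`, `heckeOneDivBar_single` (unfolding `T_p` on a class / on a point);
* `red_heckeOnePic0Bar` (= `red_correspondenceG` for `T_p`), `red_heckeOnePic0Bar_A`, `red_heckeOnePic0Bar_B`;
* over `ℚ̄`: `red_galois_smul`, `phi_one₁`, `phi_frob₁`;
* **`spOne_of_phi_div_A`** : `SkeletonOne28.SPOne A p T_p D` from orientation (A) and `red ∘ D = δ̃ ∘ red`;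
* **`spOne_of_phi_div_B`** : `SkeletonOne28.SPOne A p (D' ∘ T_p) D'` from orientation (B) and
  `red ∘ D' = δ̃' ∘ red`, `δ̃' δ̃ = 1` (`D' = ⟨p⟩^{∓1}` the inverse diamond): the relation
  `σ² - ⟨p⟩⁻¹T_p σ + p⟨p⟩⁻¹ = 0`, i.e. `⟨p⟩σ² - T_p σ + p = 0` (`frobenius_relation_B`).
-/
import Mathlib
import Fermat.Agent.ES.R48.RedDefsG15
import Fermat.Agent.ES.R48.SkeletonOne28
import Fermat.Agent.ES.HECKE.PointFormula28

set_option autoImplicit false
set_option synthInstance.maxHeartbeats 400000

noncomputable section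

open AlgebraicCurve ModularCurve IntermediateField

namespace Fermat.Agent.ES.R48.PhiOneTwoOne28

open Fermat.Agent.ES.R48.FF1Defs13 Fermat.Agent.ES.R48.F1CDefs15 Fermat.Agent.ES.R48.RedDefsG15
open Fermat.Agent.ES.R48.SkeletonOne28

/-! ### Generic equivariance of the reduction -/

section Equivariance

variable {L : Type*} [Field L] [Algebra ℚ L] {A : ValuationSubring L}
variable {k : Type*} [Field k] {π : ↥A →+* k}
variable {F₀ : IntermediateField ℚ (LaurentSeries ℚ)} {Fk : IntermediateField k (LaurentSeries k)}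
variable (r : Place L (laurentBaseChange L F₀) → Place k Fk)

/-- if `r (g • P) = h • r P` for all places `P`, then `r_* (g • D) = h • r_* D` on divisors. -/
theorem mapDomain_smulG (g : SemilinearAut L (laurentBaseChange L F₀)) (h : SemilinearAut k Fk)
    (hgh : ∀ P, r (g • P) = h • r P) (D : Divisor L (laurentBaseChange L F₀)) :
    Finsupp.mapDomain r (g • D) = h • Finsupp.mapDomain r D := by
  rw [SemilinearAut.divisor_smul_def, SemilinearAut.divisor_smul_def, ← Finsupp.mapDomain_comp,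
    ← Finsupp.mapDomain_comp]
  congr 1
  funext P
  exact hgh P

/-- if `r (g • P) = h • r P` for all places `P`, then the reduction map on `Pic⁰` intertwines
`g` and `h`. -/
theorem reductionPic0AlongG_smul (hr : IsPlaceReductionAlongG A π F₀ Fk r)
    (hgen : PrincipalGeneratedByIntegralG A π F₀ Fk)
    (g : SemilinearAut L (laurentBaseChange L F₀)) (h : SemilinearAut k Fk)
    (hgh : ∀ P, r (g • P) = h • r P) (x : Pic0 L (laurentBaseChange L F₀)) :
    reductionPic0AlongG r hr hgen (g • x) = h • reductionPic0AlongG r hr hgen x := by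
  obtain ⟨D, rfl⟩ := Pic0.mk_surjective x
  rw [SemilinearAut.pic0_smul_mk, reductionPic0Along_mkG, reductionPic0Along_mkG,
    SemilinearAut.pic0_smul_mk]
  congr 1
  apply Subtype.ext
  rw [coe_reductionDegZeroAlongG, SemilinearAut.coe_degZeroSMulHom,
    SemilinearAut.coe_degZeroSMulHom, coe_reductionDegZeroAlongG]
  exact mapDomain_smulG r g h hgh _

/-- the case `h = 1`: `r (g • P) = r P` for all `P` implies `red (g • x) = red x`. -/
theorem reductionPic0AlongG_smul_of_fixed (hr : IsPlaceReductionAlongG A π F₀ Fk r)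
    (hgen : PrincipalGeneratedByIntegralG A π F₀ Fk)
    (g : SemilinearAut L (laurentBaseChange L F₀)) (hg : ∀ P, r (g • P) = r P)
    (x : Pic0 L (laurentBaseChange L F₀)) :
    reductionPic0AlongG r hr hgen (g • x) = reductionPic0AlongG r hr hgen x := by
  have := reductionPic0AlongG_smul r hr hgen g 1 (fun P => by rw [hg P, one_smul]) x
  rwa [one_smul] at this

end Equivariance

/-! ### The `Pic⁰` passage of a divisor identity, generic form -/

section Passage

variable {L : Type*} [Field L] [Algebra ℚ L] {A : ValuationSubring L}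
variable {k : Type*} [Field k] {π : ↥A →+* k}
variable {F₀ : IntermediateField ℚ (LaurentSeries ℚ)} {Fk : IntermediateField k (LaurentSeries k)}
variable (r : Place L (laurentBaseChange L F₀) → Place k Fk)
variable {F' : Type*} [Field F'] [Algebra L F'] [HasPrincipalDivisors L F']

/-- **The `Pic⁰` passage**: a divisor identity `r_* (ψ_* φ^* D) = g_* (r_* D) + n • h_* (r_* D)` gives
`red (C z) = g • red z + n • (h • red z)` for the correspondence `C = ψ_* φ^*` on `Pic⁰`.
Twin of `PhiOneTwo21.red_heckeOperatorAlong` (there: `g = Fr`, `h = Fr⁻¹`, `n = ℓ`). -/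
theorem red_correspondenceG (hr : IsPlaceReductionAlongG A π F₀ Fk r)
    (hgen : PrincipalGeneratedByIntegralG A π F₀ Fk)
    (φ ψ : ↥(laurentBaseChange L F₀) →ₐ[L] F') (hφ : φ.toRingHom.IsIntegral)
    (hψ : ψ.toRingHom.IsIntegral) (hFI : FundamentalIdentityAlong L φ hφ)
    (hfin : FiniteAlong L ψ) (hN : NormFormulaAlong L ψ hfin)
    (g h : SemilinearAut k Fk) (n : ℕ)
    (hES : ∀ D : Divisor L (laurentBaseChange L F₀),
      Finsupp.mapDomain r (Divisor.correspondence φ ψ hφ hψ D) =
        Finsupp.mapDomain (fun Q => g • Q) (Finsupp.mapDomain r D) +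
          (n : ℤ) • Finsupp.mapDomain (fun Q => h • Q) (Finsupp.mapDomain r D))
    (z : Pic0 L (laurentBaseChange L F₀)) :
    reductionPic0AlongG r hr hgen (Pic0.correspondence φ ψ hφ hψ hFI hfin hN z) =
      g • reductionPic0AlongG r hr hgen z + n • (h • reductionPic0AlongG r hr hgen z) := by
  obtain ⟨D, rfl⟩ := Pic0.mk_surjective z
  rw [Pic0.correspondence_mk, reductionPic0Along_mkG, reductionPic0Along_mkG,
    SemilinearAut.pic0_smul_mk, SemilinearAut.pic0_smul_mk]
  have key : reductionDegZeroAlongG r hr.1 (Pic0.degZeroCorrespondence φ ψ hφ hψ hFI D) =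
      SemilinearAut.degZeroSMulHom g (reductionDegZeroAlongG r hr.1 D) +
        n • SemilinearAut.degZeroSMulHom h (reductionDegZeroAlongG r hr.1 D) := by
    apply Subtype.ext
    rw [coe_reductionDegZeroAlongG, Pic0.coe_degZeroCorrespondence, AddSubgroup.coe_add,
      AddSubgroup.coe_nsmul, SemilinearAut.coe_degZeroSMulHom, SemilinearAut.coe_degZeroSMulHom,
      coe_reductionDegZeroAlongG, SemilinearAut.divisor_smul_def, SemilinearAut.divisor_smul_def,
      ← Nat.cast_smul_eq_nsmul ℤ]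
    exact hES D
  rw [key]
  show QuotientAddGroup.mk' _ _ = QuotientAddGroup.mk' _ _ + n • QuotientAddGroup.mk' _ _
  rw [map_add, map_nsmul]

end Passage

/-! ### `X₁(M)`: unfolding `T_p` and the `Pic⁰` passage -/

section One

variable {L : Type*} [Field L] [Algebra ℚ L] {A : ValuationSubring L}
variable {k : Type*} [Field k] {π : ↥A →+* k} {M p : ℕ} [NeZero p]
variable (r : Place L (laurentBaseChange L (F1 M)) → Place k (F1C k M))
variable (hα : HeckeOneAlphaBarIntegral M p L) (hβ : HeckeOneBetaBarIntegral M p L)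
variable [HasPrincipalDivisors L (laurentBaseChange L (F1p M p))]

/-- **Unfolding `T_p`** on a divisor class (twin of `PointFormula28.heckeOperatorAlong_mk`). -/
theorem heckeOnePic0Bar_mk (hFI : FundamentalIdentityAlong L (heckeOneBetaBar M p L) hβ)
    (hfin : FiniteAlong L (heckeOneAlphaBar M p L))
    (hN : NormFormulaAlong L (heckeOneAlphaBar M p L) hfin)
    (D : Divisor.degZero (K := L) (F := laurentBaseChange L (F1 M))) :
    heckeOnePic0Bar hα hβ hFI hfin hN (Pic0.mk D) =
      Pic0.mk (Pic0.degZeroCorrespondence (heckeOneBetaBar M p L) (heckeOneAlphaBar M p L)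
        hβ hα hFI D) :=
  rfl

/-- `T_p` on a point: `T_p [P] = ∑_{P' | P via β} e_β(P') f_α(P') [P' ∘ α]`
(twin of `PointFormula28.heckeDivBar_single`). -/
theorem heckeOneDivBar_single (P : Place L (laurentBaseChange L (F1 M))) (n : ℤ) :
    heckeOneDivBar hα hβ (Finsupp.single P n) =
      ∑ P' ∈ Place.fiberAlong (heckeOneBetaBar M p L) hβ P,
        Finsupp.single (P'.restrictAlong (heckeOneAlphaBar M p L) hα)
          (n * (P'.ramificationIndexAlong (heckeOneBetaBar M p L) : ℤ) *
            (P'.inertiaDegAlong (heckeOneAlphaBar M p L) hα : ℤ)) :=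
  Fermat.Agent.ES.HECKE.PointFormula28.correspondence_single _ _ hβ hα P n

/-- **(ES) on `Pic⁰` of `X₁(M)`, general form**: from the divisor identity
`r_* (T_p D) = g_* (r_* D) + n • h_* (r_* D)`. -/
theorem red_heckeOnePic0Bar (hr : IsPlaceReductionAlong1 A π M r)
    (hgen : PrincipalGeneratedByIntegral1 A π M)
    (hFI : FundamentalIdentityAlong L (heckeOneBetaBar M p L) hβ)
    (hfin : FiniteAlong L (heckeOneAlphaBar M p L))
    (hN : NormFormulaAlong L (heckeOneAlphaBar M p L) hfin)
    (g h : SemilinearAut k (F1C k M)) (n : ℕ)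
    (hES : ∀ D : Divisor L (laurentBaseChange L (F1 M)),
      Finsupp.mapDomain r (heckeOneDivBar hα hβ D) =
        Finsupp.mapDomain (fun Q => g • Q) (Finsupp.mapDomain r D) +
          (n : ℤ) • Finsupp.mapDomain (fun Q => h • Q) (Finsupp.mapDomain r D))
    (z : Pic0 L (laurentBaseChange L (F1 M))) :
    reductionPic0AlongG r hr hgen (heckeOnePic0Bar hα hβ hFI hfin hN z) =
      g • reductionPic0AlongG r hr hgen z + n • (h • reductionPic0AlongG r hr hgen z) :=
  red_correspondenceG r hr hgen (heckeOneBetaBar M p L) (heckeOneAlphaBar M p L) hβ hα hFI hfin hN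
    g h n hES z

variable [ExpChar k p] [PerfectField k]

/-- **(ES) on `Pic⁰` of `X₁(M)`, orientation (A)**: `r_* T_p = Fr_* r_* + p • (δ̃ Fr⁻¹)_* r_*` gives
`red (T_p z) = Fr • red z + p • (δ̃ • Fr⁻¹ • red z)`. -/
theorem red_heckeOnePic0Bar_A (hr : IsPlaceReductionAlong1 A π M r)
    (hgen : PrincipalGeneratedByIntegral1 A π M)
    (hFI : FundamentalIdentityAlong L (heckeOneBetaBar M p L) hβ)
    (hfin : FiniteAlong L (heckeOneAlphaBar M p L))
    (hN : NormFormulaAlong L (heckeOneAlphaBar M p L) hfin)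
    (δt : SemilinearAut k (F1C k M))
    (hES : ∀ D : Divisor L (laurentBaseChange L (F1 M)),
      Finsupp.mapDomain r (heckeOneDivBar hα hβ D) =
        Finsupp.mapDomain (fun Q => frobSemi1 k p M • Q) (Finsupp.mapDomain r D) +
          (p : ℤ) • Finsupp.mapDomain (fun Q => δt • (frobSemi1 k p M)⁻¹ • Q)
            (Finsupp.mapDomain r D))
    (z : Pic0 L (laurentBaseChange L (F1 M))) :
    reductionPic0AlongG r hr hgen (heckeOnePic0Bar hα hβ hFI hfin hN z) =
      frobSemi1 k p M • reductionPic0AlongG r hr hgen z +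
        p • (δt • (frobSemi1 k p M)⁻¹ • reductionPic0AlongG r hr hgen z) := by
  have h := red_heckeOnePic0Bar r hα hβ hr hgen hFI hfin hN (frobSemi1 k p M)
    (δt * (frobSemi1 k p M)⁻¹) p (fun D => by
      have e : (fun Q : Place k (F1C k M) => δt • (frobSemi1 k p M)⁻¹ • Q) =
          fun Q => (δt * (frobSemi1 k p M)⁻¹) • Q :=
        funext fun Q => (mul_smul δt (frobSemi1 k p M)⁻¹ Q).symm
      rw [hES D, e]) z
  rwa [mul_smul] at h

/-- **(ES) on `Pic⁰` of `X₁(M)`, orientation (B)**: `r_* T_p = (δ̃ Fr)_* r_* + p • (Fr⁻¹)_* r_*` gives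
`red (T_p z) = δ̃ • Fr • red z + p • (Fr⁻¹ • red z)`. -/
theorem red_heckeOnePic0Bar_B (hr : IsPlaceReductionAlong1 A π M r)
    (hgen : PrincipalGeneratedByIntegral1 A π M)
    (hFI : FundamentalIdentityAlong L (heckeOneBetaBar M p L) hβ)
    (hfin : FiniteAlong L (heckeOneAlphaBar M p L))
    (hN : NormFormulaAlong L (heckeOneAlphaBar M p L) hfin)
    (δt : SemilinearAut k (F1C k M))
    (hES : ∀ D : Divisor L (laurentBaseChange L (F1 M)),
      Finsupp.mapDomain r (heckeOneDivBar hα hβ D) =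
        Finsupp.mapDomain (fun Q => δt • frobSemi1 k p M • Q) (Finsupp.mapDomain r D) +
          (p : ℤ) • Finsupp.mapDomain (fun Q => (frobSemi1 k p M)⁻¹ • Q)
            (Finsupp.mapDomain r D))
    (z : Pic0 L (laurentBaseChange L (F1 M))) :
    reductionPic0AlongG r hr hgen (heckeOnePic0Bar hα hβ hFI hfin hN z) =
      δt • frobSemi1 k p M • reductionPic0AlongG r hr hgen z +
        p • ((frobSemi1 k p M)⁻¹ • reductionPic0AlongG r hr hgen z) := by
  have h := red_heckeOnePic0Bar r hα hβ hr hgen hFI hfin hN (δt * frobSemi1 k p M)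
    (frobSemi1 k p M)⁻¹ p (fun D => by
      have e : (fun Q : Place k (F1C k M) => δt • frobSemi1 k p M • Q) =
          fun Q => (δt * frobSemi1 k p M) • Q :=
        funext fun Q => (mul_smul δt (frobSemi1 k p M) Q).symm
      rw [hES D, e]) z
  rwa [mul_smul] at h

end One

/-! ### `Φ := red` over `ℚ̄` and the contract (SP₁) -/

section Phi

local notation "Qb" => AlgebraicClosure ℚ

variable {M : ℕ} {A : ValuationSubring Qb}
variable (r : Place Qb (F1bar M) →
  Place (IsLocalRing.ResidueField A) (F1C (IsLocalRing.ResidueField A) M))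
variable (hr : IsPlaceReductionAlong1 A (IsLocalRing.residue A) M r)
  (hgen : PrincipalGeneratedByIntegral1 A (IsLocalRing.residue A) M)

/-- `red (σ • x) = red (σ_F • x)`: the Galois action on `J₁(M)` is the one of `arithmeticGalois`. -/
theorem red_galois_smul (σ : Qb ≃ₐ[ℚ] Qb) (x : JOne M) :
    reductionPic0AlongG r hr hgen (σ • x) =
      reductionPic0AlongG r hr hgen (arithmeticGalois (F1 M) σ • x) := by
  rw [galois_smul_pic0_def]

/-- **(Φ1)**: `red` is invariant under the inertia group, from `r (τ P) = r P`. -/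
theorem phi_one₁
    (hI : ∀ τ ∈ A.inertiaSubgroupIn ℚ, ∀ P : Place Qb (F1bar M),
      r (arithmeticGalois (F1 M) τ • P) = r P) :
    ∀ τ ∈ A.inertiaSubgroupIn ℚ, ∀ x : JOne M,
      reductionPic0AlongG r hr hgen (τ • x) = reductionPic0AlongG r hr hgen x := by
  intro τ hτ x
  rw [red_galois_smul]
  exact reductionPic0AlongG_smul_of_fixed r hr hgen _ (hI τ hτ) _

/-- `red (σ • x) = Fr • red x` for a Frobenius element `σ`, from `r (σ P) = Fr (r P)`. -/
theorem phi_frob₁ {p : ℕ} [ExpChar (IsLocalRing.ResidueField A) p]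
    [PerfectField (IsLocalRing.ResidueField A)]
    (hFr : ∀ σ : Qb ≃ₐ[ℚ] Qb, A.IsFrobeniusAt σ p → ∀ P : Place Qb (F1bar M),
      r (arithmeticGalois (F1 M) σ • P) = frobSemi1 (IsLocalRing.ResidueField A) p M • r P) :
    ∀ σ : Qb ≃ₐ[ℚ] Qb, A.IsFrobeniusAt σ p → ∀ x : JOne M,
      reductionPic0AlongG r hr hgen (σ • x) =
        frobSemi1 (IsLocalRing.ResidueField A) p M • reductionPic0AlongG r hr hgen x := by
  intro σ hσ x
  rw [red_galois_smul]
  exact reductionPic0AlongG_smul r hr hgen _ _ (hFr σ hσ) _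

variable {p : ℕ} [NeZero p] [ExpChar (IsLocalRing.ResidueField A) p]
  [PerfectField (IsLocalRing.ResidueField A)]
variable (hα : HeckeOneAlphaBarIntegral M p Qb) (hβ : HeckeOneBetaBarIntegral M p Qb)
variable [HasPrincipalDivisors Qb (laurentBaseChange Qb (F1p M p))]

/-- **The contract (SP₁), orientation (A)**: from (R3) (inertia and Frobenius), the divisor identity
`r_* T_p = Fr_* r_* + p • (δ̃ Fr⁻¹)_* r_*`, the reduction `red ∘ D = δ̃ ∘ red` of the diamond `D` and (Φ3).
Twin of `PhiOneTwo21.sp_of_phi_div`. -/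
theorem spOne_of_phi_div_A
    (hFI : FundamentalIdentityAlong Qb (heckeOneBetaBar M p Qb) hβ)
    (hfin : FiniteAlong Qb (heckeOneAlphaBar M p Qb))
    (hN : NormFormulaAlong Qb (heckeOneAlphaBar M p Qb) hfin)
    (δt : SemilinearAut (IsLocalRing.ResidueField A) (F1C (IsLocalRing.ResidueField A) M))
    (D : JOne M →+ JOne M)
    (hI : ∀ τ ∈ A.inertiaSubgroupIn ℚ, ∀ P : Place Qb (F1bar M),
      r (arithmeticGalois (F1 M) τ • P) = r P)
    (hFr : ∀ σ : Qb ≃ₐ[ℚ] Qb, A.IsFrobeniusAt σ p → ∀ P : Place Qb (F1bar M),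
      r (arithmeticGalois (F1 M) σ • P) = frobSemi1 (IsLocalRing.ResidueField A) p M • r P)
    (hES : ∀ E : Divisor Qb (laurentBaseChange Qb (F1 M)),
      Finsupp.mapDomain r (heckeOneDivBar hα hβ E) =
        Finsupp.mapDomain (fun Q => frobSemi1 (IsLocalRing.ResidueField A) p M • Q)
            (Finsupp.mapDomain r E) +
          (p : ℤ) • Finsupp.mapDomain
            (fun Q => δt • (frobSemi1 (IsLocalRing.ResidueField A) p M)⁻¹ • Q)
            (Finsupp.mapDomain r E))
    (hD : ∀ z : JOne M, reductionPic0AlongG r hr hgen (D z) = δt • reductionPic0AlongG r hr hgen z)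
    (h3 : ∀ (m : ℕ) (x : JOne M), ¬ p ∣ m → m • x = 0 →
      reductionPic0AlongG r hr hgen x = 0 → x = 0) :
    SPOne (K := ℚ) A p (heckeOnePic0Bar hα hβ hFI hfin hN) D :=
  spOne_of_red_smul (reductionPic0AlongG r hr hgen)
    (frobSemi1 (IsLocalRing.ResidueField A) p M) δt
    (phi_one₁ r hr hgen hI) (phi_frob₁ r hr hgen hFr)
    (fun z => red_heckeOnePic0Bar_A r hα hβ hr hgen hFI hfin hN δt hES z) hD h3

/-- **The contract (SP₁), orientation (B)**: from (R3), the divisor identity
`r_* T_p = (δ̃ Fr)_* r_* + p • (Fr⁻¹)_* r_*`, and an additive map `D'` (the INVERSE diamond) with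
`red ∘ D' = δ̃' ∘ red`, `δ̃' δ̃ = 1`: (SP₁) holds for `D' ∘ T_p` and `D'`, i.e.
`σ² - D' T_p σ + p D' = 0` on prime-to-`p` torsion. -/
theorem spOne_of_phi_div_B
    (hFI : FundamentalIdentityAlong Qb (heckeOneBetaBar M p Qb) hβ)
    (hfin : FiniteAlong Qb (heckeOneAlphaBar M p Qb))
    (hN : NormFormulaAlong Qb (heckeOneAlphaBar M p Qb) hfin)
    (δt δt' : SemilinearAut (IsLocalRing.ResidueField A) (F1C (IsLocalRing.ResidueField A) M))
    (hδ : δt' * δt = 1) (D' : JOne M →+ JOne M)
    (hI : ∀ τ ∈ A.inertiaSubgroupIn ℚ, ∀ P : Place Qb (F1bar M),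
      r (arithmeticGalois (F1 M) τ • P) = r P)
    (hFr : ∀ σ : Qb ≃ₐ[ℚ] Qb, A.IsFrobeniusAt σ p → ∀ P : Place Qb (F1bar M),
      r (arithmeticGalois (F1 M) σ • P) = frobSemi1 (IsLocalRing.ResidueField A) p M • r P)
    (hES : ∀ E : Divisor Qb (laurentBaseChange Qb (F1 M)),
      Finsupp.mapDomain r (heckeOneDivBar hα hβ E) =
        Finsupp.mapDomain (fun Q => δt • frobSemi1 (IsLocalRing.ResidueField A) p M • Q)
            (Finsupp.mapDomain r E) +
          (p : ℤ) • Finsupp.mapDomain
            (fun Q => (frobSemi1 (IsLocalRing.ResidueField A) p M)⁻¹ • Q)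
            (Finsupp.mapDomain r E))
    (hD' : ∀ z : JOne M,
      reductionPic0AlongG r hr hgen (D' z) = δt' • reductionPic0AlongG r hr hgen z)
    (h3 : ∀ (m : ℕ) (x : JOne M), ¬ p ∣ m → m • x = 0 →
      reductionPic0AlongG r hr hgen x = 0 → x = 0) :
    SPOne (K := ℚ) A p (D'.comp (heckeOnePic0Bar hα hβ hFI hfin hN)) D' := by
  refine spOne_of_red_smul (reductionPic0AlongG r hr hgen)
    (frobSemi1 (IsLocalRing.ResidueField A) p M) δt'
    (phi_one₁ r hr hgen hI) (phi_frob₁ r hr hgen hFr) (fun z => ?_) hD' h3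
  rw [AddMonoidHom.comp_apply, hD', red_heckeOnePic0Bar_B r hα hβ hr hgen hFI hfin hN δt hES z,
    smul_add, ← mul_smul, hδ, one_smul, smul_comm δt' p]

end Phi

/-! ### The relation in the form `⟨p⟩σ² - T_p σ + p = 0` -/

section RelationB

variable {K L : Type*} [Field K] [Field L] [Algebra K L]
variable {J : Type*} [AddCommGroup J] [DistribMulAction (L ≃ₐ[K] L) J]

/-- from (SP₁) for `(D' ∘ T, D')` and `D ∘ D' = id`: `D (σ • σ • x) - T (σ • x) + p • x = 0` on
prime-to-`p` torsion. -/
theorem frobenius_relation_B {A : ValuationSubring L} {p : ℕ} {T D D' : J →+ J}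
    (hDD' : ∀ y : J, D (D' y) = y)
    (h : SPOne (K := K) A p (D'.comp T) D') {m : ℕ} (hm : ¬ p ∣ m) {x : J} (hx : m • x = 0)
    {σ : L ≃ₐ[K] L} (hσ : A.IsFrobeniusAt σ p) :
    D (σ • σ • x) - T (σ • x) + p • x = 0 := by
  have key := congrArg D (frobenius_relation_of_spOne h hm hx hσ)
  rw [map_add, map_sub, map_nsmul, AddMonoidHom.comp_apply, hDD', hDD', map_zero] at key
  exact key

end RelationB

end Fermat.Agent.ES.R48.PhiOneTwoOne28
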