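/-
Programme R (S48, Deligne–Serre), chapter GEOM, sub-chapter G3 MODEL₁, brick B′ (helper19):
**the `q`-expansion membership principle for the function field `FF1 M` of `X₁(M)`** — the
`Γ₁(M)`-twin of main's `RED/BASE/QExpMem19`, for a GENERAL level `M`, against an arbitrary interface
pair `(D : RealizeData1 M) (C : CuspData1 M D)`.

A Laurent series `f ∈ ℚbar((q))` is *nice* (`IsNice1 M f g`) if it is the convergent `q`-expansion
of a holomorphic `Γ₁(M)`-invariant function `g` on `ℍ` all of whose `SL(2,ℤ)`-translates have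
`q_M`-expansions over `ℚbar`.

* `IsNice1.exists_monic` : a nice `f` is a root of a MONIC polynomial of degree
  `#(SL(2,ℤ) ⧸ ±Γ₁(M))` over `ℚbar(j)` (main's level-generic `intg_core`);
* `mem_of_isNice1` : a nice `f` lies in `F1bar M`, GIVEN the degree
  `hdeg : Nat.card (SL(2, ℤ) ⧸ PG1 M) = Module.finrank Kbar⟮jF1 M⟯ (FF1 M)`
  (literally `X1Degree14.card_eq_finrank_adjoin`; kept as a hypothesis so that this file depends on
  trunk files only);
* `T_eq_of_isNice1`, `exists_fraction_of_isNice1`, `exports_of_invariant1` : the exports of the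
  original.
-/
import Mathlib
import Fermat.Agent.X0.Integrality
import Fermat.Agent.X0.RootsK
import Fermat.Agent.RED.BASE.PrimAdd19
import Fermat.Agent.ES.R48.X1Iface13
import Fermat.Agent.ES.R48.X1Integrality1
import Fermat.Agent.ES.R48.X1FracR1
import Fermat.Agent.ES.R48.X1Realize29

set_option autoImplicit false
set_option linter.unusedSectionVars false

open ModularCurve UpperHalfPlane Polynomial IntermediateField
open scoped MatrixGroups

noncomputable section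

namespace Fermat.Agent.ES.R48.QExpMemOne19

open Fermat.Agent.X0 Fermat.Agent.X0.Analytic
open Fermat.Agent.ES.R48.X1Iface13 Fermat.Agent.ES.R48.FF1Defs13

variable (M : ℕ) [NeZero M]

/-- `f` is the `q`-expansion of the holomorphic `Γ₁(M)`-invariant function `g`, and every
`SL(2,ℤ)`-translate of `g` has a `q_M`-expansion over `ℚbar`. -/
structure IsNice1 (f : LaurentSeries Kbar) (g : ℍ → ℂ) : Prop where
  hol : g ∈ HolH
  inv : ∀ γ : SL(2, ℤ), γ ∈ CongruenceSubgroup.Gamma1 M → compSL g γ = g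
  qexp : HasQExp (toC f) g
  cusp : ∀ γ : SL(2, ℤ), ∃ T : LaurentSeries Kbar, IntgQN M (compSL g γ) (toC T)

variable {M}

/-- a nice function is invariant under `±Γ₁(M)`. -/
theorem IsNice1.inv_PG1 {f : LaurentSeries Kbar} {g : ℍ → ℂ} (h : IsNice1 M f g)
    (γ : SL(2, ℤ)) (hγ : γ ∈ PG1 M) : compSL g γ = g := by
  rcases (mem_PG1_iff M).mp hγ with h1 | h1
  · exact h.inv γ h1
  · rw [← X1Integrality1.compSL_neg]
    exact h.inv (-γ) h1

theorem IsNice1.add {f₁ f₂ : LaurentSeries Kbar} {g₁ g₂ : ℍ → ℂ} (h₁ : IsNice1 M f₁ g₁)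
    (h₂ : IsNice1 M f₂ g₂) : IsNice1 M (f₁ + f₂) (g₁ + g₂) where
  hol := HolH.add_mem h₁.hol h₂.hol
  inv γ hγ := by
    show compSL g₁ γ + compSL g₂ γ = _
    rw [h₁.inv γ hγ, h₂.inv γ hγ]
  qexp := by
    rw [map_add]
    exact h₁.qexp.add h₂.qexp
  cusp γ := by
    obtain ⟨T₁, hT₁⟩ := h₁.cusp γ
    obtain ⟨T₂, hT₂⟩ := h₂.cusp γ
    refine ⟨T₁ + T₂, ?_⟩
    rw [map_add]
    exact intg_qn_add M hT₁ hT₂

theorem IsNice1.mul {f₁ f₂ : LaurentSeries Kbar} {g₁ g₂ : ℍ → ℂ} (h₁ : IsNice1 M f₁ g₁)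
    (h₂ : IsNice1 M f₂ g₂) : IsNice1 M (f₁ * f₂) (g₁ * g₂) where
  hol := HolH.mul_mem h₁.hol h₂.hol
  inv γ hγ := by
    show compSL g₁ γ * compSL g₂ γ = _
    rw [h₁.inv γ hγ, h₂.inv γ hγ]
  qexp := by
    rw [map_mul]
    exact h₁.qexp.mul h₂.qexp
  cusp γ := by
    obtain ⟨T₁, hT₁⟩ := h₁.cusp γ
    obtain ⟨T₂, hT₂⟩ := h₂.cusp γ
    refine ⟨T₁ * T₂, ?_⟩
    rw [map_mul]
    exact intg_qn_mul M hT₁ hT₂

theorem toC_C (c : Kbar) : toC (HahnSeries.C c) = HahnSeries.C (iotaK c) := by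
  ext n
  rw [toC_coeff, HahnSeries.C_apply, HahnSeries.C_apply, HahnSeries.coeff_single,
    HahnSeries.coeff_single]
  split_ifs
  · rfl
  · exact map_zero _

theorem isNice1_const (c : Kbar) : IsNice1 M (HahnSeries.C c) (fun _ => iotaK c) where
  hol := HolH.algebraMap_mem (iotaK c)
  inv _ _ := rfl
  qexp := by
    rw [toC_C]
    exact HasQExp.const _
  cusp _ := ⟨HahnSeries.C c, by rw [toC_C]; exact intg_qn_const M _⟩

/-- the realisation of `u ∈ R₁` has the `q`-expansion `u`. -/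
theorem hasQExp_Θ (D : RealizeData1 M) (u : Rsub1 M) :
    HasQExp (toC ((u : FF1 M) : LaurentSeries Kbar)) (D.Θ u) := by
  obtain ⟨m, P, hP, hu⟩ := D.isQExp u
  rw [hu, toC, coeffMap_laurentOf]
  exact X1Realize29.hasQExp_of_isQExp hP

/-- Elements of `R₁ = ℚbar[j_d, W_c]` are nice. -/
theorem isNice1_of_Rsub1 (D : RealizeData1 M) (C : CuspData1 M D) (u : Rsub1 M) :
    IsNice1 M ((u : FF1 M) : LaurentSeries Kbar) (D.Θ u) where
  hol := D.mem_HolH u
  inv := D.invariant u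
  qexp := hasQExp_Θ D u
  cusp γ := ⟨C.T γ (u : FF1 M), X1Integrality1.T_spec M D C γ u⟩

variable (M)

/-- The ring of nice Laurent series. -/
def niceRing1 : Subring (LaurentSeries Kbar) where
  carrier := {f | ∃ g, IsNice1 M f g}
  mul_mem' := by
    rintro a b ⟨ga, ha⟩ ⟨gb, hb⟩
    exact ⟨_, ha.mul hb⟩
  one_mem' := ⟨_, by simpa using isNice1_const (M := M) 1⟩
  add_mem' := by
    rintro a b ⟨ga, ha⟩ ⟨gb, hb⟩
    exact ⟨_, ha.add hb⟩
  zero_mem' := ⟨_, by simpa using isNice1_const (M := M) 0⟩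
  neg_mem' := by
    rintro a ⟨ga, ha⟩
    have h := (isNice1_const (M := M) (-1)).mul ha
    have e : (HahnSeries.C (-1 : Kbar) : LaurentSeries Kbar) * a = -a := by
      rw [map_neg, map_one, neg_mul, one_mul]
    rw [e] at h
    exact ⟨_, h⟩

theorem mem_niceRing1 {f : LaurentSeries Kbar} : f ∈ niceRing1 M ↔ ∃ g, IsNice1 M f g := Iff.rfl

/-- The base field `ℚbar(j) ⊆ ℚbar((q))`. -/
abbrev K0 : IntermediateField Kbar (LaurentSeries Kbar) := Kbar⟮jqK⟯

theorem qExpand_algebraMap (c : Kbar) :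
    qExpand Kbar M (algebraMap Kbar (LaurentSeries Kbar) c) =
      algebraMap Kbar (LaurentSeries Kbar) c := by
  rw [algebraMap_laurentSeries_eq_single, qExpand_single, mul_zero]

theorem qExpand_aeval (x : LaurentSeries Kbar) (p : Kbar[X]) :
    qExpand Kbar M (aeval x p) = aeval (qExpand Kbar M x) p := by
  rw [aeval_def, aeval_def, Polynomial.hom_eval₂]
  congr 1
  exact RingHom.ext fun c => qExpand_algebraMap M c

theorem aeval_jqK_mem (p : Kbar[X]) : aeval jqK p ∈ K0 := by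
  have hj : jqK ∈ (K0).toSubalgebra := subset_adjoin Kbar {jqK} (Set.mem_singleton _)
  have hle : Algebra.adjoin Kbar {jqK} ≤ (K0).toSubalgebra :=
    Algebra.adjoin_le (Set.singleton_subset_iff.mpr hj)
  exact hle (Polynomial.aeval_mem_adjoin_singleton Kbar jqK)

/-- the coset space of `±Γ₁(M)` is finite. -/
theorem finite_quotient_PG1 : Finite (SL(2, ℤ) ⧸ PG1 M) := by
  have : (PG1 M).FiniteIndex := Subgroup.finiteIndex_of_le (Gamma1_le_PG1 M)
  infer_instance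

variable {M}

/-- A nice series is a root of a monic polynomial of degree `#(SL(2,ℤ) ⧸ ±Γ₁(M))` over
`ℚbar(j)`. -/
theorem IsNice1.exists_monic {f : LaurentSeries Kbar} {g : ℍ → ℂ} (h : IsNice1 M f g) :
    ∃ p : (K0)[X], p.Monic ∧ p.natDegree = Nat.card (SL(2, ℤ) ⧸ PG1 M) ∧ aeval f p = 0 := by
  classical
  have := finite_quotient_PG1 M
  have : Fintype (SL(2, ℤ) ⧸ PG1 M) := Fintype.ofFinite _
  let rep : SL(2, ℤ) ⧸ PG1 M → SL(2, ℤ) := Quotient.out
  have hrep : ∀ x, (rep x : SL(2, ℤ) ⧸ PG1 M) = x := fun x =>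
    QuotientGroup.out_eq' x
  choose T hT using fun x : SL(2, ℤ) ⧸ PG1 M => h.cusp (rep x)⁻¹
  let x₀ : SL(2, ℤ) ⧸ PG1 M := ((1 : SL(2, ℤ)) : _)
  -- the permutation of the cosets
  have hperm : ∀ δ : SL(2, ℤ), ∃ σ : Equiv.Perm (SL(2, ℤ) ⧸ PG1 M),
      ∀ x z, compSL g (rep x)⁻¹ (δ • z) = compSL g (rep (σ x))⁻¹ z := by
    intro δ
    refine ⟨MulAction.toPerm δ⁻¹, fun x z => ?_⟩
    set a := rep x with ha
    set b := rep ((MulAction.toPerm δ⁻¹ : Equiv.Perm _) x) with hb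
    have hcoset : ((b : SL(2, ℤ)) : SL(2, ℤ) ⧸ PG1 M)
        = ((δ⁻¹ * a : SL(2, ℤ)) : SL(2, ℤ) ⧸ PG1 M) := by
      rw [hb, hrep, MulAction.toPerm_apply]
      conv_lhs => rw [← hrep x]
      rfl
    have hmem : b⁻¹ * (δ⁻¹ * a) ∈ PG1 M := QuotientGroup.eq.mp hcoset
    have hmem' : (b⁻¹ * (δ⁻¹ * a))⁻¹ ∈ PG1 M := inv_mem hmem
    have hinv' := h.inv_PG1 _ hmem'
    show g (a⁻¹ • δ • z) = g (b⁻¹ • z)
    have h1 : a⁻¹ • δ • z = (b⁻¹ * (δ⁻¹ * a))⁻¹ • (b⁻¹ • z) := by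
      rw [← mul_smul, ← mul_smul]
      congr 1
      group
    rw [h1]
    exact congrFun hinv' (b⁻¹ • z)
  have hcore := intg_core M (fun x => compSL g (rep x)⁻¹) T
    (fun x => compSL_mem_HolH h.hol _) hT hperm
  -- the expansion at the trivial coset
  have hx₀ : T x₀ = qExpand Kbar M f := by
    have hmem : (rep x₀)⁻¹ ∈ PG1 M := by
      have h1 : ((rep x₀ : SL(2, ℤ)) : SL(2, ℤ) ⧸ PG1 M)
          = ((1 : SL(2, ℤ)) : _) := hrep x₀
      have h2 := QuotientGroup.eq.mp h1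
      rwa [mul_one] at h2
    have h3 := hT x₀
    rw [h.inv_PG1 _ hmem] at h3
    have h4 : IntgQN M g (toC (qExpand Kbar M f)) := by
      rw [toC, ModularCurve.coeffMap_qExpand]
      exact h.qexp.qExpand M
    exact toC_injective (intg_qn_unique M h3 h4)
  -- the base embedding
  let φ : K0 →+* LaurentSeries Kbar :=
    (qExpand Kbar M).comp (algebraMap K0 (LaurentSeries Kbar))
  set Q : (LaurentSeries Kbar)[X] := ∏ x, (X - C (T x)) with hQ
  have hQm : Q.Monic := monic_prod_of_monic _ _ fun x _ => monic_X_sub_C (T x)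
  have hl : Q ∈ Polynomial.lifts φ := by
    rw [Polynomial.lifts_iff_coeff_lifts]
    intro k
    obtain ⟨p, hp, -⟩ := hcore k
    refine ⟨⟨aeval jqK p, aeval_jqK_mem p⟩, ?_⟩
    show qExpand Kbar M (aeval jqK p) = Q.coeff k
    rw [hp, qExpand_aeval]
  obtain ⟨p, hp, hdeg, hm⟩ := Polynomial.lifts_and_degree_eq_and_monic hl hQm
  refine ⟨p, hm, ?_, ?_⟩
  · have h1 : p.natDegree = Q.natDegree := natDegree_eq_natDegree hdeg
    rw [h1, hQ, natDegree_prod_of_monic _ _ fun x _ => monic_X_sub_C (T x)]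
    simp only [natDegree_X_sub_C, Finset.sum_const, Finset.card_univ, smul_eq_mul, mul_one]
    rw [← Nat.card_eq_fintype_card]
  · apply (qExpand Kbar M).injective
    rw [map_zero, aeval_def, Polynomial.hom_eval₂]
    show eval₂ φ (qExpand Kbar M f) p = 0
    rw [← Polynomial.eval_map, hp, ← hx₀, hQ, eval_prod]
    exact Finset.prod_eq_zero (Finset.mem_univ x₀) (by simp)

variable (M)

/-- The underlying Laurent series of `jF1 M` is the formal `j`. -/
theorem coe_jF1 : ((jF1 M : FF1 M) : LaurentSeries Kbar) = jqK := by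
  rw [jF1, jdF1, coe_ffIncl]
  exact coe_jF M

theorem K0_le : K0 ≤ F1bar M := by
  rw [adjoin_simple_le_iff, ← coe_jF1 M]
  exact (jF1 M).2

/-- `FF1 M` as an intermediate field of `ℚbar((q)) / ℚbar(j)`. -/
def Lext1 : IntermediateField K0 (LaurentSeries Kbar) := extendScalars (K0_le M)

theorem mem_Lext1 {x : LaurentSeries Kbar} : x ∈ Lext1 M ↔ x ∈ F1bar M := Iff.rfl

/-- `ℚbar(j) ⊆ FF1 M` corresponds to `K0 ⊆ ℚbar((q))`. -/
theorem lift_adjoin_jF1 :
    IntermediateField.lift (Kbar⟮jF1 M⟯ : IntermediateField Kbar (FF1 M)) = K0 := by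
  rw [IntermediateField.lift_adjoin_simple, coe_jF1]

/-- `[FF1 M : ℚbar(j)]`, for `FF1 M` as an intermediate field of `ℚbar((q)) / ℚbar(j)`. -/
theorem finrank_Lext1 :
    Module.finrank K0 (Lext1 M) = Module.finrank Kbar⟮jF1 M⟯ (FF1 M) := by
  symm
  let i : (Kbar⟮jF1 M⟯ : IntermediateField Kbar (FF1 M)) ≃+* K0 :=
    ((IntermediateField.liftAlgEquiv (Kbar⟮jF1 M⟯ : IntermediateField Kbar (FF1 M))).trans
      (IntermediateField.equivOfEq (lift_adjoin_jF1 M))).toRingEquiv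
  let j : FF1 M ≃+* Lext1 M :=
    { toFun := fun x => ⟨x.1, x.2⟩
      invFun := fun x => ⟨x.1, x.2⟩
      left_inv := fun _ => rfl
      right_inv := fun _ => rfl
      map_mul' := fun _ _ => rfl
      map_add' := fun _ _ => rfl }
  refine Algebra.finrank_eq_of_equiv_equiv i j ?_
  ext x
  rfl

/-- The generator `j(q^d)` (`0` if `d ∤ M`), as a Laurent series. -/
def gen1 (d : ℕ) : LaurentSeries Kbar :=
  if h : d ∣ M then
    haveI : NeZero d := ⟨ne_zero_of_dvd_ne_zero (NeZero.ne M) h⟩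
    ((jdF1 M d h : FF1 M) : LaurentSeries Kbar)
  else 0

theorem gen1_mem_niceRing1 (D : RealizeData1 M) (C : CuspData1 M D) (d : ℕ) :
    gen1 M d ∈ niceRing1 M := by
  unfold gen1
  split_ifs with h
  · have : NeZero d := ⟨ne_zero_of_dvd_ne_zero (NeZero.ne M) h⟩
    exact ⟨_, isNice1_of_Rsub1 D C (jdR1 M d h)⟩
  · exact (niceRing1 M).zero_mem

theorem gen1_eq (d : ℕ) [NeZero d] (hd : d ∣ M) :
    gen1 M d = ((jdF1 M d hd : FF1 M) : LaurentSeries Kbar) := by
  unfold gen1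
  rw [dif_pos hd]

theorem wF_mem_niceRing1 (D : RealizeData1 M) (C : CuspData1 M D) (c : (ZMod M)ˣ) :
    ((wF M c : FF1 M) : LaurentSeries Kbar) ∈ niceRing1 M :=
  ⟨_, isNice1_of_Rsub1 D C (wR M c)⟩

variable {M}

/-- **`q`-expansion membership principle for `X₁(M)`.** A nice Laurent series lies in the function
field `FF1 M = ℚbar(j(q^d), W_c)`. -/
theorem mem_of_isNice1 (D : RealizeData1 M) (C : CuspData1 M D)
    (hdeg : Nat.card (SL(2, ℤ) ⧸ PG1 M) = Module.finrank Kbar⟮jF1 M⟯ (FF1 M))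
    {f : LaurentSeries Kbar} {g : ℍ → ℂ} (h : IsNice1 M f g) : f ∈ F1bar M := by
  classical
  set G : Finset (LaurentSeries Kbar) := insert f (M.divisors.image (gen1 M) ∪
    (Finset.univ : Finset (ZMod M)ˣ).image fun c => ((wF M c : FF1 M) : LaurentSeries Kbar))
    with hG
  have hGA : ∀ x ∈ G, x ∈ (niceRing1 M).toAddSubgroup := by
    intro x hx
    rw [hG, Finset.mem_insert, Finset.mem_union, Finset.mem_image, Finset.mem_image] at hx
    rcases hx with rfl | ⟨d, -, rfl⟩ | ⟨c, -, rfl⟩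
    · exact ⟨g, h⟩
    · exact gen1_mem_niceRing1 M D C d
    · exact wF_mem_niceRing1 M D C c
  have hA : ∀ a ∈ (niceRing1 M).toAddSubgroup,
      ∃ p : (K0)[X], p.Monic ∧ p.natDegree = Nat.card (SL(2, ℤ) ⧸ PG1 M) ∧ aeval a p = 0 := by
    rintro a ⟨ga, ha⟩
    exact ha.exists_monic
  obtain ⟨hfd, hle⟩ := RED.BASE.PrimAdd19.finrank_adjoin_le (K := K0)
    (niceRing1 M).toAddSubgroup (Nat.card (SL(2, ℤ) ⧸ PG1 M)) hA G hGA
  set E1 : IntermediateField K0 (LaurentSeries Kbar) :=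
    IntermediateField.adjoin K0 (G : Set (LaurentSeries Kbar)) with hE1
  -- `FF1 M ≤ E1`
  have hLE : Lext1 M ≤ E1 := by
    intro x hx
    rw [mem_Lext1] at hx
    let M' : IntermediateField Kbar (FF1 M) :=
      (E1.restrictScalars Kbar).comap (F1bar M).val
    have hM : IntermediateField.adjoin Kbar (genSet1 M) ≤ M' := by
      rw [IntermediateField.adjoin_le_iff]
      rintro y (⟨d, hd0, hd, rfl⟩ | ⟨c, rfl⟩)
      · show ((jdF1 M d hd : FF1 M) : LaurentSeries Kbar) ∈ E1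
        rw [← gen1_eq M d hd]
        refine IntermediateField.subset_adjoin K0 _ ?_
        rw [hG, Finset.coe_insert, Finset.coe_union, Finset.coe_image]
        refine Set.mem_insert_of_mem _ (Or.inl ⟨d, ?_, rfl⟩)
        exact Finset.mem_coe.mpr (Nat.mem_divisors.mpr ⟨hd, NeZero.ne M⟩)
      · show ((wF M c : FF1 M) : LaurentSeries Kbar) ∈ E1
        refine IntermediateField.subset_adjoin K0 _ ?_
        rw [hG, Finset.coe_insert, Finset.coe_union, Finset.coe_image, Finset.coe_image]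
        exact Set.mem_insert_of_mem _ (Or.inr ⟨c, Finset.mem_coe.mpr (Finset.mem_univ c), rfl⟩)
    exact hM (X1FracR1.mem_adjoin_genSet1 M ⟨x, hx⟩)
  have hfE1 : f ∈ E1 := by
    refine IntermediateField.subset_adjoin K0 _ ?_
    rw [hG, Finset.coe_insert]
    exact Set.mem_insert _ _
  -- equality by degrees
  have heq : (Lext1 M).toSubalgebra.toSubmodule = E1.toSubalgebra.toSubmodule := by
    have : FiniteDimensional K0 E1.toSubalgebra.toSubmodule := hfd
    refine Submodule.eq_of_le_of_finrank_le hLE ?_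
    have h1 : Module.finrank K0 (Lext1 M).toSubalgebra.toSubmodule
        = Nat.card (SL(2, ℤ) ⧸ PG1 M) := by
      rw [hdeg]
      exact finrank_Lext1 M
    rw [h1]
    exact hle
  have : f ∈ (Lext1 M).toSubalgebra.toSubmodule := by
    rw [heq]
    exact hfE1
  exact this

/-- Unbundled form. -/
theorem mem_F1bar_of_invariant (D : RealizeData1 M) (C : CuspData1 M D)
    (hdeg : Nat.card (SL(2, ℤ) ⧸ PG1 M) = Module.finrank Kbar⟮jF1 M⟯ (FF1 M))
    (g : ℍ → ℂ) (hg : g ∈ HolH)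
    (hinv : ∀ γ : SL(2, ℤ), γ ∈ CongruenceSubgroup.Gamma1 M → compSL g γ = g)
    (T : SL(2, ℤ) → LaurentSeries Kbar) (hexp : ∀ γ, IntgQN M (compSL g γ) (toC (T γ)))
    (f : LaurentSeries Kbar) (hf : HasQExp (toC f) g) : f ∈ F1bar M :=
  mem_of_isNice1 D C hdeg ⟨hg, hinv, hf, fun γ => ⟨T γ, hexp γ⟩⟩

/-- **Export (ii).** The element `w = ⟨f, _⟩` of `FF1 M` attached to a nice series is a fraction
`a / b` of elements of `R₁ = ℚbar[j_d, W_c]` whose realisations satisfy `Θ a = Θ b * g`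
pointwise. -/
theorem exists_fraction_of_isNice1 (D : RealizeData1 M) (C : CuspData1 M D)
    (hdeg : Nat.card (SL(2, ℤ) ⧸ PG1 M) = Module.finrank Kbar⟮jF1 M⟯ (FF1 M))
    {f : LaurentSeries Kbar} {g : ℍ → ℂ} (h : IsNice1 M f g) :
    ∃ a b : Rsub1 M, b ≠ 0 ∧
      (⟨f, mem_of_isNice1 D C hdeg h⟩ : FF1 M) * (b : FF1 M) = (a : FF1 M) ∧
      ∀ z, D.Θ a z = D.Θ b z * g z := by
  obtain ⟨a, b, hb, hw⟩ :=
    X1FracR1.exists_div_ne_zero M (⟨f, mem_of_isNice1 D C hdeg h⟩ : FF1 M)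
  have hb' : (b : FF1 M) ≠ 0 := fun h0 => hb (Subtype.ext h0)
  have hwb : (⟨f, mem_of_isNice1 D C hdeg h⟩ : FF1 M) * (b : FF1 M) = (a : FF1 M) := by
    rw [hw, div_mul_cancel₀ _ hb']
  refine ⟨a, b, hb, hwb, fun z => ?_⟩
  have hser : ((a : FF1 M) : LaurentSeries Kbar) = f * ((b : FF1 M) : LaurentSeries Kbar) := by
    rw [← hwb]
    rfl
  have h1 : HasQExp (toC ((a : FF1 M) : LaurentSeries Kbar)) (g * D.Θ b) := by
    rw [hser, map_mul]
    exact h.qexp.mul (hasQExp_Θ D b)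
  have h2 := HasQExp.unique_right (hasQExp_Θ D a) h1
  rw [h2]
  show g z * D.Θ b z = D.Θ b z * g z
  ring

/-- **Export (i).** The cusp expansions of the element attached to a nice series are the
`q_M`-expansions of the translates of `g`. -/
theorem T_eq_of_isNice1 (D : RealizeData1 M) (C : CuspData1 M D)
    (hdeg : Nat.card (SL(2, ℤ) ⧸ PG1 M) = Module.finrank Kbar⟮jF1 M⟯ (FF1 M))
    {f : LaurentSeries Kbar} {g : ℍ → ℂ} (h : IsNice1 M f g) (γ : SL(2, ℤ))
    (T : LaurentSeries Kbar) (hT : IntgQN M (compSL g γ) (toC T)) :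
    C.T γ (⟨f, mem_of_isNice1 D C hdeg h⟩ : FF1 M) = T := by
  obtain ⟨a, b, hb, hwb, hfun⟩ := exists_fraction_of_isNice1 D C hdeg h
  have hb' : (b : FF1 M) ≠ 0 := fun h0 => hb (Subtype.ext h0)
  have hTb : C.T γ (b : FF1 M) ≠ 0 := by
    rw [Ne, map_eq_zero_iff _ (C.T γ).injective]
    exact hb'
  have ha := X1Integrality1.T_spec M D C γ a
  have hbs := X1Integrality1.T_spec M D C γ b
  have hfun' : compSL (D.Θ a) γ = compSL (D.Θ b) γ * compSL g γ := by
    funext z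
    exact hfun (γ • z)
  rw [hfun'] at ha
  have hprod := intg_qn_mul M hbs hT
  have h3 := toC_injective (by
    rw [map_mul]
    exact intg_qn_unique M ha hprod :
      toC (C.T γ (a : FF1 M)) = toC (C.T γ (b : FF1 M) * T))
  rw [← hwb, map_mul, mul_comm] at h3
  exact mul_left_cancel₀ hTb h3

/-- Exports (i), (ii) in unbundled form. -/
theorem exports_of_invariant1 (D : RealizeData1 M) (C : CuspData1 M D)
    (hdeg : Nat.card (SL(2, ℤ) ⧸ PG1 M) = Module.finrank Kbar⟮jF1 M⟯ (FF1 M))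
    (g : ℍ → ℂ) (hg : g ∈ HolH)
    (hinv : ∀ γ : SL(2, ℤ), γ ∈ CongruenceSubgroup.Gamma1 M → compSL g γ = g)
    (T : SL(2, ℤ) → LaurentSeries Kbar) (hexp : ∀ γ, IntgQN M (compSL g γ) (toC (T γ)))
    (f : LaurentSeries Kbar) (hf : HasQExp (toC f) g) :
    ∃ hmem : f ∈ F1bar M,
      (∀ γ, C.T γ (⟨f, hmem⟩ : FF1 M) = T γ) ∧
      ∃ a b : Rsub1 M, b ≠ 0 ∧ (⟨f, hmem⟩ : FF1 M) * (b : FF1 M) = (a : FF1 M) ∧
        ∀ z, D.Θ a z = D.Θ b z * g z := by
  have h : IsNice1 M f g := ⟨hg, hinv, hf, fun γ => ⟨T γ, hexp γ⟩⟩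
  exact ⟨mem_of_isNice1 D C hdeg h, fun γ => T_eq_of_isNice1 D C hdeg h γ (T γ) (hexp γ),
    exists_fraction_of_isNice1 D C hdeg h⟩

end Fermat.Agent.ES.R48.QExpMemOne19
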