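/-
Programme R (S48, Deligne–Serre), chapter GEOM, sub-chapter G3 MODEL₁, brick B′ (helper19):
`QExpMemOne19` with the degree hypothesis discharged by G2 (`X1Degree14.card_eq_finrank_adjoin`,
`WSlash29.wSlash`), for `3 ≤ M`.
-/
import Mathlib
import Fermat.Agent.ES.R48.QExpMemOne19
import Fermat.Agent.ES.R48.X1Degree14
import Fermat.Agent.ES.R48.WSlash29

set_option autoImplicit false
set_option linter.unusedSectionVars false

open ModularCurve UpperHalfPlane Polynomial IntermediateField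
open scoped MatrixGroups

noncomputable section

namespace Fermat.Agent.ES.R48.QExpMemFinal19

open Fermat.Agent.X0 Fermat.Agent.X0.Analytic
open Fermat.Agent.ES.R48.X1Iface13 Fermat.Agent.ES.R48.FF1Defs13
open Fermat.Agent.ES.R48.QExpMemOne19

variable {M : ℕ} [NeZero M]

/-- the degree of `FF1 M` over `ℚbar(j)`. -/
theorem hdeg (hM : 3 ≤ M) (D : RealizeData1 M) (C : CuspData1 M D) :
    Nat.card (SL(2, ℤ) ⧸ PG1 M) = Module.finrank Kbar⟮jF1 M⟯ (FF1 M) :=
  X1Degree14.card_eq_finrank_adjoin M D C hM (WSlash29.wSlash M)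

/-- **`q`-expansion membership principle for `X₁(M)`**, `3 ≤ M`. -/
theorem mem_of_isNice1 (hM : 3 ≤ M) (D : RealizeData1 M) (C : CuspData1 M D)
    {f : LaurentSeries Kbar} {g : ℍ → ℂ} (h : IsNice1 M f g) : f ∈ F1bar M :=
  QExpMemOne19.mem_of_isNice1 D C (hdeg hM D C) h

/-- the cusp expansions of the element attached to a nice series. -/
theorem T_eq_of_isNice1 (hM : 3 ≤ M) (D : RealizeData1 M) (C : CuspData1 M D)
    {f : LaurentSeries Kbar} {g : ℍ → ℂ} (h : IsNice1 M f g) (γ : SL(2, ℤ))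
    (T : LaurentSeries Kbar) (hT : IntgQN M (compSL g γ) (toC T)) :
    C.T γ (⟨f, mem_of_isNice1 hM D C h⟩ : FF1 M) = T :=
  QExpMemOne19.T_eq_of_isNice1 D C (hdeg hM D C) h γ T hT

/-- the element attached to a nice series as a fraction. -/
theorem exists_fraction_of_isNice1 (hM : 3 ≤ M) (D : RealizeData1 M) (C : CuspData1 M D)
    {f : LaurentSeries Kbar} {g : ℍ → ℂ} (h : IsNice1 M f g) :
    ∃ a b : Rsub1 M, b ≠ 0 ∧
      (⟨f, mem_of_isNice1 hM D C h⟩ : FF1 M) * (b : FF1 M) = (a : FF1 M) ∧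
      ∀ z, D.Θ a z = D.Θ b z * g z :=
  QExpMemOne19.exists_fraction_of_isNice1 D C (hdeg hM D C) h

/-- unbundled form. -/
theorem exports_of_invariant1 (hM : 3 ≤ M) (D : RealizeData1 M) (C : CuspData1 M D)
    (g : ℍ → ℂ) (hg : g ∈ HolH)
    (hinv : ∀ γ : SL(2, ℤ), γ ∈ CongruenceSubgroup.Gamma1 M → compSL g γ = g)
    (T : SL(2, ℤ) → LaurentSeries Kbar) (hexp : ∀ γ, IntgQN M (compSL g γ) (toC (T γ)))
    (f : LaurentSeries Kbar) (hf : HasQExp (toC f) g) :
    ∃ hmem : f ∈ F1bar M,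
      (∀ γ, C.T γ (⟨f, hmem⟩ : FF1 M) = T γ) ∧
      ∃ a b : Rsub1 M, b ≠ 0 ∧ (⟨f, hmem⟩ : FF1 M) * (b : FF1 M) = (a : FF1 M) ∧
        ∀ z, D.Θ a z = D.Θ b z * g z :=
  QExpMemOne19.exports_of_invariant1 D C (hdeg hM D C) g hg hinv T hexp f hf

end Fermat.Agent.ES.R48.QExpMemFinal19
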