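/-
Programme R (S48, Deligne–Serre), half B, chapter GEOM, sub-chapter G7 "TWO-DIM" (helper15):
powers of an element satisfying a quadratic relation.

If `X * X - a • X + δ • 1 = 0` in an algebra `E` over a commutative ring `k` (no commutativity of
`E` is used), then every power `X ^ n` satisfies a quadratic relation with constant term `δ ^ n`:
`X ^ n * X ^ n - s • X ^ n + δ ^ n • 1 = 0` for some `s : k` (`exists_quadratic_pow`).

Needed in the Galois wrapper of G7: Chebotarev on main (`ChebQbar23`) is the generator form — every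
`g` agrees on a given finite level with a POWER `φ ^ j` of a Frobenius element — and the
Eichler–Shimura relation is known at the Frobenius elements `φ` only.

Proof: `X ^ n = u n • X + w n • 1` with `u (n+1) = a u n + w n`, `w (n+1) = - δ u n`, and the
invariant `w n ^ 2 + a u n w n + δ u n ^ 2 = δ ^ n`; then `s = a u n + 2 w n`.
-/
import Mathlib

set_option autoImplicit false

namespace Fermat.Agent.ES.R48.QuadPow15

variable {k : Type*} [CommRing k]

/-- The coefficients `(u n, w n)` of `X ^ n = u n • X + w n • 1` when `X * X = a • X - δ • 1`. -/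
def coeffs (a δ : k) : ℕ → k × k
  | 0 => (0, 1)
  | n + 1 => (a * (coeffs a δ n).1 + (coeffs a δ n).2, -δ * (coeffs a δ n).1)

@[simp] theorem coeffs_zero (a δ : k) : coeffs a δ 0 = (0, 1) := rfl

theorem coeffs_succ_fst (a δ : k) (n : ℕ) :
    (coeffs a δ (n + 1)).1 = a * (coeffs a δ n).1 + (coeffs a δ n).2 := rfl

theorem coeffs_succ_snd (a δ : k) (n : ℕ) :
    (coeffs a δ (n + 1)).2 = -δ * (coeffs a δ n).1 := rfl

/-- The invariant `w ^ 2 + a u w + δ u ^ 2 = δ ^ n` (the "norm" of `u X + w`). -/
theorem coeffs_norm (a δ : k) (n : ℕ) :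
    (coeffs a δ n).2 ^ 2 + a * (coeffs a δ n).1 * (coeffs a δ n).2 + δ * (coeffs a δ n).1 ^ 2 =
      δ ^ n := by
  induction n with
  | zero => simp
  | succ n ih =>
    rw [coeffs_succ_fst, coeffs_succ_snd, pow_succ δ n, ← ih]
    ring

variable {E : Type*} [Ring E] [Algebra k E]

/-- `X ^ n = u n • X + w n • 1`. -/
theorem pow_eq_coeffs {X : E} {a δ : k} (hX : X * X = a • X - δ • (1 : E)) (n : ℕ) :
    X ^ n = (coeffs a δ n).1 • X + (coeffs a δ n).2 • (1 : E) := by
  induction n with
  | zero => simp
  | succ n ih =>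
    rw [pow_succ, ih, coeffs_succ_fst, coeffs_succ_snd, add_mul, smul_mul_assoc, smul_mul_assoc,
      one_mul, hX]
    module

/-- **Powers of a root of a quadratic are roots of quadratics** (with constant term `δ ^ n`). -/
theorem exists_quadratic_pow {X : E} {a δ : k} (hX : X * X - a • X + δ • (1 : E) = 0) (n : ℕ) :
    ∃ s : k, X ^ n * X ^ n - s • X ^ n + δ ^ n • (1 : E) = 0 := by
  have hX' : X * X = a • X - δ • (1 : E) := by
    have := sub_eq_zero.mp (show X * X - (a • X - δ • (1 : E)) = 0 by rw [← hX]; abel)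
    exact this
  refine ⟨a * (coeffs a δ n).1 + 2 * (coeffs a δ n).2, ?_⟩
  rw [pow_eq_coeffs hX' n, ← coeffs_norm a δ n]
  set u := (coeffs a δ n).1
  set w := (coeffs a δ n).2
  have h1 : (u • X + w • (1 : E)) * (u • X + w • (1 : E)) =
      (u * u) • (X * X) + (2 * u * w) • X + (w * w) • (1 : E) := by
    rw [add_mul, mul_add, mul_add, smul_mul_smul_comm, smul_mul_smul_comm, smul_mul_smul_comm,
      smul_mul_smul_comm, mul_one, one_mul, mul_one]
    module
  rw [h1, hX']
  module

end Fermat.Agent.ES.R48.QuadPow15
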