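/-
Programme R (S48, Deligne–Serre), chapter A2 RANKIN, file 7 (helper21): the chapter export in the
weighted-density vocabulary of `DensDefs16` (the shape asked for by chapter A9 IRRED):
`WUpperLe (fun p => if p ∣ N then 0 else ‖qCoeff f p‖ ^ 2) 1`.
-/
import Mathlib
import Fermat.Agent.ES.R48.DSIface27
import Fermat.Agent.ES.R48.DensDefs16
import Fermat.Agent.ES.R48.DensCalc16
import Fermat.Agent.ES.R48.DensExc16
import Fermat.Agent.ES.R48.RankinFinal21

set_option autoImplicit false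

open CongruenceSubgroup

namespace Fermat.Agent.ES.R48.RankinW21

open Fermat.Agent.ES.R48

/-- the weight `‖a p‖²` off `N`. -/
noncomputable def wtN (N : ℕ) (a : ℕ → ℂ) (p : ℕ) : ℝ := if p ∣ N then 0 else ‖a p‖ ^ 2

theorem wtN_nonneg (N : ℕ) (a : ℕ → ℂ) (p : ℕ) : 0 ≤ wtN N a p := by
  unfold wtN
  split_ifs
  · exact le_rfl
  · exact sq_nonneg _

/-- The Rankin bound in finite-subset form is the weighted upper bound `1`. -/
theorem wUpperLe_of_rankinBound {N : ℕ} {a : ℕ → ℂ} (h : DensCalc16.RankinBound N a) :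
    DensDefs16.WUpperLe (wtN N a) 1 := by
  classical
  obtain ⟨C, hC⟩ := h
  refine DensCalc16.wUpperLe_of_finset_bound (wtN_nonneg N a) ⟨C, fun s hs1 hs2 P hP => ?_⟩
  rw [one_mul]
  have h1' : ∑ p ∈ P, wtN N a p * (p : ℝ) ^ (-s) =
      ∑ p ∈ P.filter (fun p => ¬ p ∣ N), ‖a p‖ ^ 2 * (p : ℝ) ^ (-s) := by
    rw [Finset.sum_filter]
    refine Finset.sum_congr rfl fun p _ => ?_
    by_cases hpN : p ∣ N
    · rw [if_neg (not_not.mpr hpN)]
      unfold wtN
      rw [if_pos hpN, zero_mul]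
    · rw [if_pos hpN]
      unfold wtN
      rw [if_neg hpN]
  rw [h1']
  exact hC s hs1 hs2 _ fun p hp =>
    ⟨hP p (Finset.mem_filter.mp hp).1, (Finset.mem_filter.mp hp).2⟩

/-- **A2, chapter export, weighted form**: for a weight-one cusp form `f` of any level `N'` with
`a 1 = 1` and the formal Hecke relations off `N`. -/
theorem rankin_wUpperLe {N : ℕ} [NeZero N] (ε : DirichletCharacter ℂ N) {N' : ℕ} [NeZero N']
    (f : CuspForm (Gamma1 N') 1) (h1 : ModularFormClass.qCoeff f 1 = 1)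
    (hT : DSIface27.HeckeRel N ε f) :
    DensDefs16.WUpperLe (fun p => if p ∣ N then 0 else ‖ModularFormClass.qCoeff f p‖ ^ 2) 1 :=
  wUpperLe_of_rankinBound (RankinFinal21.rankinExport ε f h1 hT)

end Fermat.Agent.ES.R48.RankinW21
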