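/-
Programme R (S48, Deligne–Serre), chapter GEOM, step G′(e) of `R48_GEOM13.md` (helper8):
**regular + connected ⇒ the special fibre is integral**, pure commutative algebra.

`O` a ring with an element `π`; `B₁ ∋ t`, `B₂ ∋ u = t⁻¹` two charts (subalgebras of an
`O`-algebra `E`).  Assume that `B_i / π` is reduced and that at every maximal ideal `x ∋ π` of a
chart the maximal ideal of the local ring is generated by `π` and one more element (the predicate
`smooth0`/`smooth1` of `RED/CORE/CoreIface24.TwoChartModel`).  Then `B_i / π` is a finite product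
of domains (`equivPiMinimalPrimes`); every idempotent of `(B₂ / π)[1/u]` comes from `B₂ / π`
(`exists_idempotent_of_pi`); so if `B₁ / π` were not a domain, a non-trivial idempotent of
`B₁ / π` would glue with an idempotent of `B₂ / π` to a non-trivial compatible pair, which is
excluded by `RED/CORE/IdemGlue14.connected` (Zariski connectedness by Čech).

Main exports: `isDomain_of_connected` (abstract rings), `pi_prime_of_connected` (charts, with the
connectedness statement as a hypothesis), `pi_prime_of_cech` (charts, from the Čech hypotheses of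
`CechConnected14`, overlap `B₁ ⊔ B₂`), `pi_prime_chart_two` (the second chart).
-/
import Mathlib
import Fermat.Agent.RED.CORE.IdemGlue14

set_option autoImplicit false

namespace Fermat.Agent.ES.R48.RegConnIrr8

open IsLocalRing Polynomial

/-! ### Local algebra -/

/-- A reduced noetherian local ring with principal maximal ideal is a domain (a field or a DVR). -/
theorem isDomain_of_maximalIdeal_eq_span_singleton {A : Type*} [CommRing A] [IsLocalRing A]
    [IsNoetherianRing A] [IsReduced A] (s : A) (hs : maximalIdeal A = Ideal.span {s}) :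
    IsDomain A := by
  have hK : ⨅ i, (maximalIdeal A) ^ i = ⊥ :=
    Ideal.iInf_pow_eq_bot_of_isLocalRing _ (maximalIdeal.isMaximal A).ne_top
  -- every nonzero element is a unit times a power of `s`
  have key : ∀ a : A, a ≠ 0 → ∃ (n : ℕ) (c : A), IsUnit c ∧ a = s ^ n * c := by
    intro a ha
    have hex : ∃ n, a ∉ (maximalIdeal A) ^ n := by
      by_contra h
      push Not at h
      apply ha
      have : a ∈ ⨅ i, (maximalIdeal A) ^ i := (Ideal.mem_iInf).mpr h
      rwa [hK, Ideal.mem_bot] at this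
    classical
    have hn0 : Nat.find hex ≠ 0 := by
      intro h0
      have := Nat.find_spec hex
      rw [h0, pow_zero, Ideal.one_eq_top] at this
      exact this trivial
    obtain ⟨m, hm⟩ := Nat.exists_eq_succ_of_ne_zero hn0
    have hmem : a ∈ (maximalIdeal A) ^ m := by
      by_contra h
      have := Nat.find_min' hex h
      omega
    have hnot : a ∉ (maximalIdeal A) ^ (m + 1) := by
      have := Nat.find_spec hex
      rwa [hm] at this
    rw [hs, Ideal.span_singleton_pow, Ideal.mem_span_singleton'] at hmem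
    obtain ⟨c, hc⟩ := hmem
    refine ⟨m, c, ?_, by rw [← hc, mul_comm]⟩
    rw [← notMem_maximalIdeal]
    intro hcm
    apply hnot
    rw [hs] at hcm ⊢
    rw [Ideal.span_singleton_pow, Ideal.mem_span_singleton']
    obtain ⟨d, hd⟩ := Ideal.mem_span_singleton'.mp hcm
    exact ⟨d, by rw [← hc, ← hd, pow_succ]; ring⟩
  have hnzd : NoZeroDivisors A := by
    refine ⟨fun {a b} hab => ?_⟩
    by_contra hne
    push Not at hne
    obtain ⟨n, c, hc, rfl⟩ := key a hne.1
    obtain ⟨m, d, hd, rfl⟩ := key b hne.2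
    have h1 : s ^ (n + m) * (c * d) = 0 := by rw [← hab, pow_add]; ring
    have h2 : s ^ (n + m) = 0 := by
      have hu : IsUnit (c * d) := hc.mul hd
      exact (hu.mul_left_eq_zero).mp h1
    have h3 : s = 0 := IsReduced.eq_zero s ⟨n + m, h2⟩
    -- then the maximal ideal is zero and every nonzero element is a unit
    have h4 : maximalIdeal A = ⊥ := by rw [hs, h3, Ideal.span_singleton_eq_bot]
    have h5 : IsUnit (s ^ n * c) := by
      rw [← notMem_maximalIdeal, h4, Ideal.mem_bot]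
      exact hne.1
    exact hne.2 ((h5.mul_right_eq_zero).mp hab)
  exact NoZeroDivisors.to_isDomain A

/-- "The maximal ideal of the local ring at `x` is principal", element-wise. -/
def LocPrincipal {R : Type*} [CommRing R] (x : Ideal R) : Prop :=
  ∃ s ∈ x, ∀ y ∈ x, ∃ d : R, d ∉ x ∧ d * y ∈ Ideal.span {s}

variable {R : Type*} [CommRing R]

theorem isDomain_localization_of_locPrincipal [IsNoetherianRing R] [IsReduced R] (x : Ideal R)
    [hx : x.IsPrime] (h : LocPrincipal x) : IsDomain (Localization.AtPrime x) := by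
  obtain ⟨s, hsx, hs⟩ := h
  have : IsNoetherianRing (Localization.AtPrime x) :=
    IsLocalization.isNoetherianRing x.primeCompl _ inferInstance
  refine isDomain_of_maximalIdeal_eq_span_singleton (algebraMap R (Localization.AtPrime x) s) ?_
  rw [← Localization.AtPrime.map_eq_maximalIdeal]
  apply le_antisymm
  · rw [Ideal.map_le_iff_le_comap]
    intro y hy
    obtain ⟨d, hd, hdy⟩ := hs y hy
    rw [Ideal.mem_comap]
    obtain ⟨r, hr⟩ := Ideal.mem_span_singleton'.mp hdy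
    have hdu : IsUnit (algebraMap R (Localization.AtPrime x) d) :=
      IsLocalization.map_units (Localization.AtPrime x) (⟨d, hd⟩ : x.primeCompl)
    have h1 : algebraMap R (Localization.AtPrime x) d * algebraMap R (Localization.AtPrime x) y
        = algebraMap R (Localization.AtPrime x) r * algebraMap R (Localization.AtPrime x) s := by
      rw [← map_mul, ← map_mul, hr]
    have h2 : algebraMap R (Localization.AtPrime x) y =
        (hdu.unit⁻¹ : (Localization.AtPrime x)ˣ) * algebraMap R (Localization.AtPrime x) r *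
          algebraMap R (Localization.AtPrime x) s := by
      rw [mul_assoc, ← h1, ← mul_assoc]
      simp
    rw [h2]
    exact Ideal.mul_mem_left _ _ (Ideal.subset_span rfl)
  · rw [Ideal.span_le]
    rintro _ rfl
    exact Ideal.mem_map_of_mem _ hsx

/-! ### Minimal primes and the product decomposition -/

/-- If the localisation at a prime `x` is a domain, all minimal primes contained in `x`
coincide. -/
theorem minimalPrimes_eq_of_le_of_isDomain (x : Ideal R) [hx : x.IsPrime]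
    [IsDomain (Localization.AtPrime x)] {p q : Ideal R} (hp : p ∈ minimalPrimes R)
    (hq : q ∈ minimalPrimes R) (hpx : p ≤ x) (hqx : q ≤ x) : p = q := by
  set φ := algebraMap R (Localization.AtPrime x) with hφ
  have hker : (RingHom.ker φ).IsPrime := RingHom.ker_isPrime φ
  have hle : ∀ r : Ideal R, r.IsPrime → r ≤ x → RingHom.ker φ ≤ r := by
    intro r hr hrx y hy
    rw [RingHom.mem_ker, hφ, IsLocalization.map_eq_zero_iff x.primeCompl] at hy
    obtain ⟨m, hm⟩ := hy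
    have h0 : (m : R) * y ∈ r := by rw [hm]; exact r.zero_mem
    rcases hr.mem_or_mem h0 with h | h
    · exact absurd (hrx h) m.2
    · exact h
  have hmin : ∀ r : Ideal R, r ∈ minimalPrimes R → r ≤ x → r = RingHom.ker φ := by
    intro r hr hrx
    have h1 : RingHom.ker φ ≤ r := hle r hr.1.1 hrx
    exact le_antisymm (hr.2 ⟨hker, bot_le⟩ h1) h1
  rw [hmin p hp hpx, hmin q hq hqx]

/-- distinct minimal primes are coprime when all localisations at maximal ideals are domains. -/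
theorem isCoprime_minimalPrimes
    (hloc : ∀ x : Ideal R, ∀ _ : x.IsMaximal, IsDomain (Localization.AtPrime x))
    {p q : Ideal R} (hp : p ∈ minimalPrimes R) (hq : q ∈ minimalPrimes R) (hpq : p ≠ q) :
    IsCoprime p q := by
  rw [Ideal.isCoprime_iff_sup_eq]
  by_contra hne
  obtain ⟨x, hx, hle⟩ := Ideal.exists_le_maximal _ hne
  have := hloc x hx
  exact hpq (minimalPrimes_eq_of_le_of_isDomain x hp hq (le_sup_left.trans hle)
    (le_sup_right.trans hle))

/-- **Decomposition**: a reduced noetherian ring all of whose local rings at maximal ideals are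
domains is the product of its quotients by the minimal primes. -/
noncomputable def equivPiMinimalPrimes [IsNoetherianRing R] [IsReduced R]
    (hloc : ∀ x : Ideal R, ∀ _ : x.IsMaximal, IsDomain (Localization.AtPrime x)) :
    R ≃+* ((p : minimalPrimes R) → R ⧸ (p : Ideal R)) :=
  have hfin : Finite (minimalPrimes R) :=
    (Ideal.finite_minimalPrimes_of_isNoetherianRing R ⊥).to_subtype
  have hcop : Pairwise (Function.onFun IsCoprime fun p : minimalPrimes R => (p : Ideal R)) :=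
    fun p q hpq => isCoprime_minimalPrimes hloc p.2 q.2 (fun h => hpq (Subtype.ext h))
  have hinf : ⨅ p : minimalPrimes R, (p : Ideal R) = ⊥ := by
    rw [← sInf_eq_iInf']
    show sInf (⊥ : Ideal R).minimalPrimes = ⊥
    rw [Ideal.sInf_minimalPrimes]
    exact nilradical_eq_zero R
  ((RingEquiv.quotientBot R).symm.trans (Ideal.quotEquivOfEq hinf.symm)).trans
    (Ideal.quotientInfRingEquivPiQuotient _ hcop)

theorem equivPiMinimalPrimes_apply [IsNoetherianRing R] [IsReduced R]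
    (hloc : ∀ x : Ideal R, ∀ _ : x.IsMaximal, IsDomain (Localization.AtPrime x)) (r : R)
    (p : minimalPrimes R) :
    equivPiMinimalPrimes hloc r p = Ideal.Quotient.mk (p : Ideal R) r := rfl

/-! ### Idempotents -/

/-- **Idempotents descend along a localisation of a finite product of domains.**
`R ≃ ∏ D i` with the `D i` domains; `β : R → S` behaves like the localisation at the powers of
`v` (unit image, every element of `S` is a fraction, kernel = `v`-power torsion).  Then every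
idempotent of `S` is the image of an idempotent of `R`. -/
theorem exists_idempotent_of_pi {R S : Type*} [CommRing R] [CommRing S] {ι : Type*}
    {D : ι → Type*} [∀ i, CommRing (D i)] [∀ i, IsDomain (D i)] (ψ : R ≃+* ((i : ι) → D i))
    (β : R →+* S) (v : R) (hunit : IsUnit (β v))
    (hsurj : ∀ z : S, ∃ (k : ℕ) (a : R), β v ^ k * z = β a)
    (hker : ∀ y : R, β y = 0 → ∃ k : ℕ, v ^ k * y = 0)
    (ε : S) (hε : ε * ε = ε) : ∃ e : R, e * e = e ∧ β e = ε := by
  classical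
  obtain ⟨k, a, hka⟩ := hsurj ε
  set m : R := v ^ k with hm
  have hβm : β m * ε = β a := by rw [hm, map_pow]; exact hka
  have h1 : β (a * a - m * a) = 0 := by
    rw [map_sub, map_mul, map_mul, ← hβm]
    linear_combination (β m * β m) * hε
  obtain ⟨l, hl⟩ := hker _ h1
  set w : R := v ^ l with hw
  -- componentwise: `w_i a_i (a_i - m_i) = 0`
  have hcomp : ∀ i, ψ w i * (ψ a i * (ψ a i - ψ m i)) = 0 := by
    intro i
    have := congrArg (fun x => ψ x i) hl
    simp only [map_mul, map_sub, map_zero, Pi.mul_apply, Pi.sub_apply, Pi.zero_apply] at this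
    rw [← this]; ring
  set f : (i : ι) → D i := fun i => if ψ w i ≠ 0 ∧ ψ a i ≠ 0 then 1 else 0 with hf
  refine ⟨ψ.symm f, ?_, ?_⟩
  · apply ψ.injective
    rw [map_mul, RingEquiv.apply_symm_apply]
    funext i
    simp only [Pi.mul_apply, hf]
    split_ifs <;> simp
  · have h2 : w * (m * ψ.symm f - a) = 0 := by
      apply ψ.injective
      rw [map_mul, map_sub, map_mul, RingEquiv.apply_symm_apply, map_zero]
      funext i
      simp only [Pi.mul_apply, Pi.sub_apply, Pi.zero_apply, hf]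
      by_cases hc : ψ w i ≠ 0 ∧ ψ a i ≠ 0
      · rw [if_pos hc, mul_one]
        have h3 := hcomp i
        rcases mul_eq_zero.mp h3 with h | h
        · exact absurd h hc.1
        · rcases mul_eq_zero.mp h with h | h
          · exact absurd h hc.2
          · rw [← neg_sub, h, neg_zero, mul_zero]
      · rw [if_neg hc, mul_zero, zero_sub, mul_neg, neg_eq_zero]
        by_contra hne
        exact hc ⟨left_ne_zero_of_mul hne, right_ne_zero_of_mul hne⟩
    have hwu : IsUnit (β w) := by rw [hw, map_pow]; exact hunit.pow l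
    have hmu : IsUnit (β m) := by rw [hm, map_pow]; exact hunit.pow k
    have h4 : β w * (β m * β (ψ.symm f) - β a) = 0 := by
      rw [← map_mul, ← map_sub, ← map_mul, h2, map_zero]
    have h5 : β m * β (ψ.symm f) - β a = 0 := (hwu.mul_right_eq_zero).mp h4
    have h6 : β m * (β (ψ.symm f) - ε) = 0 := by
      rw [mul_sub, hβm]; exact h5
    have h7 := (hmu.mul_right_eq_zero).mp h6
    exact sub_eq_zero.mp h7

/-- **Regular + connected ⇒ integral, abstract ring form.** -/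
theorem isDomain_of_connected {R₁ R₂ S : Type*} [CommRing R₁] [CommRing R₂] [CommRing S]
    [IsNoetherianRing R₁] [IsReduced R₁] [Nontrivial R₁] [IsNoetherianRing R₂] [IsReduced R₂]
    (hloc₁ : ∀ x : Ideal R₁, x.IsMaximal → LocPrincipal x)
    (hloc₂ : ∀ x : Ideal R₂, x.IsMaximal → LocPrincipal x)
    (α : R₁ →+* S) (β : R₂ →+* S) (v : R₂) (hunit : IsUnit (β v))
    (hsurj : ∀ z : S, ∃ (k : ℕ) (a : R₂), β v ^ k * z = β a)
    (hker : ∀ y : R₂, β y = 0 → ∃ k : ℕ, v ^ k * y = 0)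
    (hconn : ∀ (e₁ : R₁) (e₂ : R₂), e₁ * e₁ = e₁ → e₂ * e₂ = e₂ → α e₁ = β e₂ →
      e₁ = 0 ∨ e₁ = 1) : IsDomain R₁ := by
  classical
  have hD₁ : ∀ x : Ideal R₁, ∀ _ : x.IsMaximal, IsDomain (Localization.AtPrime x) :=
    fun x hx => isDomain_localization_of_locPrincipal x (hloc₁ x hx)
  have hD₂ : ∀ x : Ideal R₂, ∀ _ : x.IsMaximal, IsDomain (Localization.AtPrime x) :=
    fun x hx => isDomain_localization_of_locPrincipal x (hloc₂ x hx)
  set ψ₁ := equivPiMinimalPrimes hD₁ with hψ₁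
  set ψ₂ := equivPiMinimalPrimes hD₂ with hψ₂
  have hdom₁ : ∀ p : minimalPrimes R₁, IsDomain (R₁ ⧸ (p : Ideal R₁)) := fun p =>
    have : (p : Ideal R₁).IsPrime := p.2.1.1
    Ideal.Quotient.isDomain _
  have hdom₂ : ∀ p : minimalPrimes R₂, IsDomain (R₂ ⧸ (p : Ideal R₂)) := fun p =>
    have : (p : Ideal R₂).IsPrime := p.2.1.1
    Ideal.Quotient.isDomain _
  -- at most one minimal prime in `R₁`
  have hsub : ∀ p q : minimalPrimes R₁, p = q := by
    intro p q
    by_contra hpq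
    set e₁ : R₁ := ψ₁.symm (Pi.single p 1) with he₁
    have hψe : ψ₁ e₁ = Pi.single p 1 := by rw [he₁, RingEquiv.apply_symm_apply]
    have hid : e₁ * e₁ = e₁ := by
      apply ψ₁.injective
      rw [map_mul, hψe, ← Pi.single_mul, mul_one]
    have hεid : α e₁ * α e₁ = α e₁ := by rw [← map_mul, hid]
    obtain ⟨e₂, he₂, hβ⟩ := exists_idempotent_of_pi ψ₂ β v hunit hsurj hker (α e₁) hεid
    rcases hconn e₁ e₂ hid he₂ hβ.symm with h | h
    · have := congrFun (congrArg ψ₁ h) p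
      rw [hψe, map_zero, Pi.single_eq_same, Pi.zero_apply] at this
      exact one_ne_zero this
    · have := congrFun (congrArg ψ₁ h) q
      rw [hψe, map_one, Pi.single_eq_of_ne (Ne.symm hpq), Pi.one_apply] at this
      exact zero_ne_one this
  -- hence the unique minimal prime is `⊥`
  obtain ⟨p, hp⟩ : ∃ p : Ideal R₁, p ∈ minimalPrimes R₁ := by
    obtain ⟨M, hM⟩ := Ideal.exists_maximal R₁
    have : M.IsPrime := hM.isPrime
    obtain ⟨p, hp, -⟩ := Ideal.exists_minimalPrimes_le (I := (⊥ : Ideal R₁)) (J := M) bot_le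
    exact ⟨p, hp⟩
  have hall : ∀ q ∈ minimalPrimes R₁, q = p := fun q hq =>
    congrArg Subtype.val (hsub ⟨q, hq⟩ ⟨p, hp⟩)
  have hbot : p = ⊥ := by
    have h1 : sInf (minimalPrimes R₁) = ⊥ := by
      show sInf (⊥ : Ideal R₁).minimalPrimes = ⊥
      rw [Ideal.sInf_minimalPrimes]
      exact nilradical_eq_zero R₁
    have h2 : p ≤ sInf (minimalPrimes R₁) := le_sInf fun q hq => (hall q hq).ge
    rw [h1] at h2
    exact le_bot_iff.mp h2
  have : (⊥ : Ideal R₁).IsPrime := hbot ▸ hp.1.1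
  exact IsDomain.of_bot_isPrime R₁

/-! ### Charts -/

section Charts

variable {O E : Type*} [CommRing O] [CommRing E] [Algebra O E]

/-- the ideal `π B` of a chart. -/
def piIdeal (π : O) (B : Subalgebra O E) : Ideal B := Ideal.span {algebraMap O B π}

theorem mem_piIdeal_iff (π : O) (B : Subalgebra O E) (b : B) :
    b ∈ piIdeal π B ↔ ∃ c ∈ B, (b : E) = algebraMap O E π * c := by
  unfold piIdeal
  rw [Ideal.mem_span_singleton']
  constructor
  · rintro ⟨a, ha⟩
    refine ⟨a, a.2, ?_⟩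
    rw [← ha, mul_comm]
    rfl
  · rintro ⟨c, hc, hbc⟩
    refine ⟨⟨c, hc⟩, Subtype.ext ?_⟩
    rw [hbc, mul_comm]
    rfl

theorem mk_eq_zero_iff (π : O) (B : Subalgebra O E) (b : B) :
    Ideal.Quotient.mk (piIdeal π B) b = 0 ↔ ∃ c ∈ B, (b : E) = algebraMap O E π * c := by
  rw [Ideal.Quotient.eq_zero_iff_mem, mem_piIdeal_iff]

/-- reducedness of `B / π`, element-wise. -/
theorem isReduced_quotient (π : O) (B : Subalgebra O E)
    (hred : ∀ b ∈ B, (∃ c ∈ B, b * b = algebraMap O E π * c) → ∃ c ∈ B, b = algebraMap O E π * c) :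
    IsReduced (B ⧸ piIdeal π B) := by
  rw [isReduced_iff_pow_one_lt 2 (by norm_num)]
  intro x hx
  obtain ⟨b, rfl⟩ := Ideal.Quotient.mk_surjective x
  rw [← map_pow, mk_eq_zero_iff] at hx
  rw [mk_eq_zero_iff]
  obtain ⟨c, hc, hbc⟩ := hx
  exact hred b b.2 ⟨c, hc, by rw [← hbc]; push_cast; ring⟩

/-- main's smoothness predicate gives `LocPrincipal` on the quotient. -/
theorem locPrincipal_quotient (π : O) (B : Subalgebra O E)
    (hsm : ∀ x : Ideal B, x.IsMaximal → algebraMap O B π ∈ x →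
      ∃ s ∈ x, ∀ y ∈ x, ∃ d : B, d ∉ x ∧ d * y ∈ Ideal.span {algebraMap O B π, s})
    (xb : Ideal (B ⧸ piIdeal π B)) (hxb : xb.IsMaximal) : LocPrincipal xb := by
  set mk := Ideal.Quotient.mk (piIdeal π B) with hmk
  have hsurj : Function.Surjective mk := Ideal.Quotient.mk_surjective
  set x : Ideal B := Ideal.comap mk xb with hx
  have hxmax : x.IsMaximal := Ideal.comap_isMaximal_of_surjective mk hsurj
  have hπ0 : mk (algebraMap O B π) = 0 := by
    rw [hmk, Ideal.Quotient.eq_zero_iff_mem]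
    exact Ideal.subset_span rfl
  have hπx : algebraMap O B π ∈ x := by
    rw [hx, Ideal.mem_comap, hπ0]
    exact xb.zero_mem
  obtain ⟨s, hsx, hs⟩ := hsm x hxmax hπx
  refine ⟨mk s, hsx, ?_⟩
  intro yb hyb
  obtain ⟨y, rfl⟩ := hsurj yb
  obtain ⟨d, hd, hdy⟩ := hs y hyb
  refine ⟨mk d, hd, ?_⟩
  obtain ⟨c, e, hce⟩ := Ideal.mem_span_pair.mp hdy
  rw [← map_mul, ← hce, map_add, map_mul, map_mul, hπ0, mul_zero, zero_add]
  exact Ideal.mul_mem_left _ _ (Ideal.subset_span rfl)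


/-- the map `B / π → B' / π` induced by an inclusion of charts. -/
noncomputable def quotInclusion (π : O) {B B' : Subalgebra O E} (h : B ≤ B') :
    (B ⧸ piIdeal π B) →+* (B' ⧸ piIdeal π B') :=
  Ideal.quotientMap (piIdeal π B') (Subalgebra.inclusion h).toRingHom (by
    unfold piIdeal
    rw [Ideal.span_le]
    rintro _ rfl
    rw [SetLike.mem_coe, Ideal.mem_comap]
    have : (Subalgebra.inclusion h).toRingHom (algebraMap O B π) = algebraMap O B' π := rfl
    rw [this]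
    exact Ideal.subset_span rfl)

theorem quotInclusion_mk (π : O) {B B' : Subalgebra O E} (h : B ≤ B') (b : B) :
    quotInclusion π h (Ideal.Quotient.mk _ b) =
      Ideal.Quotient.mk (piIdeal π B') (Subalgebra.inclusion h b) := rfl

/-- **Regular + connected ⇒ the special fibre of the first chart is integral** (`π B₁` is a
prime ideal), in the element-wise language of `RED/CORE/CoreIface24.TwoChartModel` and
`RED/CORE/IdemGlue14.connected`. -/
theorem pi_prime_of_connected (π : O) (t u : E) (htu : t * u = 1)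
    (B₁ B₂ B₁₂ : Subalgebra O E) (h1 : B₁ ≤ B₁₂) (h2 : B₂ ≤ B₁₂) (ht : t ∈ B₁) (hu : u ∈ B₂)
    [IsNoetherianRing B₁] [IsNoetherianRing B₂]
    (h12 : ∀ x ∈ B₁₂, ∃ k : ℕ, u ^ k * x ∈ B₂)
    (hnu : ¬ ∃ b ∈ B₁, 1 = algebraMap O E π * b)
    (hred₁ : ∀ b ∈ B₁, (∃ c ∈ B₁, b * b = algebraMap O E π * c) →
      ∃ c ∈ B₁, b = algebraMap O E π * c)
    (hred₂ : ∀ b ∈ B₂, (∃ c ∈ B₂, b * b = algebraMap O E π * c) →
      ∃ c ∈ B₂, b = algebraMap O E π * c)
    (hsm₁ : ∀ x : Ideal B₁, x.IsMaximal → algebraMap O B₁ π ∈ x →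
      ∃ s ∈ x, ∀ y ∈ x, ∃ d : B₁, d ∉ x ∧ d * y ∈ Ideal.span {algebraMap O B₁ π, s})
    (hsm₂ : ∀ x : Ideal B₂, x.IsMaximal → algebraMap O B₂ π ∈ x →
      ∃ s ∈ x, ∀ y ∈ x, ∃ d : B₂, d ∉ x ∧ d * y ∈ Ideal.span {algebraMap O B₂ π, s})
    (hconn : ∀ e₁ e₂ : E, e₁ ∈ B₁ → e₂ ∈ B₂ →
      (∃ b ∈ B₁, e₁ * e₁ - e₁ = algebraMap O E π * b) →
      (∃ b ∈ B₂, e₂ * e₂ - e₂ = algebraMap O E π * b) →
      (∃ b ∈ B₁₂, e₁ - e₂ = algebraMap O E π * b) →
      (∃ b ∈ B₁, e₁ = algebraMap O E π * b) ∨ (∃ b ∈ B₁, e₁ - 1 = algebraMap O E π * b)) :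
    ∀ a ∈ B₁, ∀ b ∈ B₁, (∃ c ∈ B₁, a * b = algebraMap O E π * c) →
      (∃ c ∈ B₁, a = algebraMap O E π * c) ∨ (∃ c ∈ B₁, b = algebraMap O E π * c) := by
  have hR₁ : IsReduced (B₁ ⧸ piIdeal π B₁) := isReduced_quotient π B₁ hred₁
  have hR₂ : IsReduced (B₂ ⧸ piIdeal π B₂) := isReduced_quotient π B₂ hred₂
  have hnt : Nontrivial (B₁ ⧸ piIdeal π B₁) := by
    apply Ideal.Quotient.nontrivial_iff.mpr
    intro htop
    have h1mem : (1 : B₁) ∈ piIdeal π B₁ := by rw [htop]; trivial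
    obtain ⟨c, hc, hc1⟩ := (mem_piIdeal_iff π B₁ 1).mp h1mem
    exact hnu ⟨c, hc, hc1⟩
  set α := quotInclusion π h1 with hα
  set β := quotInclusion π h2 with hβ
  set v : B₂ ⧸ piIdeal π B₂ := Ideal.Quotient.mk _ ⟨u, hu⟩ with hv
  have hβv : β v = Ideal.Quotient.mk (piIdeal π B₁₂) ⟨u, h2 hu⟩ := rfl
  have hpow : ∀ k : ℕ, β v ^ k = Ideal.Quotient.mk (piIdeal π B₁₂) ⟨u ^ k, B₁₂.pow_mem (h2 hu) k⟩ := by
    intro k
    rw [hβv, ← map_pow]
    rfl
  have hunit : IsUnit (β v) := by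
    refine IsUnit.of_mul_eq_one (Ideal.Quotient.mk (piIdeal π B₁₂) ⟨t, h1 ht⟩) ?_
    rw [hβv, ← map_mul, ← map_one (Ideal.Quotient.mk (piIdeal π B₁₂))]
    congr 1
    exact Subtype.ext (by show u * t = 1; rw [mul_comm]; exact htu)
  have hsurj : ∀ z : B₁₂ ⧸ piIdeal π B₁₂, ∃ (k : ℕ) (a : B₂ ⧸ piIdeal π B₂), β v ^ k * z = β a := by
    intro z
    obtain ⟨x, rfl⟩ := Ideal.Quotient.mk_surjective z
    obtain ⟨k, hk⟩ := h12 x x.2
    refine ⟨k, Ideal.Quotient.mk _ ⟨u ^ k * x, hk⟩, ?_⟩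
    rw [hpow, ← map_mul]
    rfl
  have hker : ∀ y : B₂ ⧸ piIdeal π B₂, β y = 0 → ∃ k : ℕ, v ^ k * y = 0 := by
    intro y hy
    obtain ⟨b, rfl⟩ := Ideal.Quotient.mk_surjective y
    rw [hβ, quotInclusion_mk, mk_eq_zero_iff] at hy
    obtain ⟨z, hz, hbz⟩ := hy
    obtain ⟨k, hk⟩ := h12 z hz
    refine ⟨k, ?_⟩
    rw [hv, ← map_pow, ← map_mul, mk_eq_zero_iff]
    refine ⟨u ^ k * z, hk, ?_⟩
    show u ^ k * (b : E) = _
    have : ((Subalgebra.inclusion h2 b : B₁₂) : E) = (b : E) := rfl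
    rw [this] at hbz
    rw [hbz]; ring
  have hconn' : ∀ (e₁ : B₁ ⧸ piIdeal π B₁) (e₂ : B₂ ⧸ piIdeal π B₂), e₁ * e₁ = e₁ →
      e₂ * e₂ = e₂ → α e₁ = β e₂ → e₁ = 0 ∨ e₁ = 1 := by
    intro e₁ e₂ he₁ he₂ hαβ
    obtain ⟨a₁, rfl⟩ := Ideal.Quotient.mk_surjective e₁
    obtain ⟨a₂, rfl⟩ := Ideal.Quotient.mk_surjective e₂
    have hi₁ : ∃ b ∈ B₁, (a₁ : E) * a₁ - a₁ = algebraMap O E π * b := by
      have : Ideal.Quotient.mk (piIdeal π B₁) (a₁ * a₁ - a₁) = 0 := by
        rw [map_sub, map_mul, he₁, sub_self]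
      exact (mk_eq_zero_iff π B₁ _).mp this
    have hi₂ : ∃ b ∈ B₂, (a₂ : E) * a₂ - a₂ = algebraMap O E π * b := by
      have : Ideal.Quotient.mk (piIdeal π B₂) (a₂ * a₂ - a₂) = 0 := by
        rw [map_sub, map_mul, he₂, sub_self]
      exact (mk_eq_zero_iff π B₂ _).mp this
    have hi₁₂ : ∃ b ∈ B₁₂, (a₁ : E) - a₂ = algebraMap O E π * b := by
      have : Ideal.Quotient.mk (piIdeal π B₁₂)
          (Subalgebra.inclusion h1 a₁ - Subalgebra.inclusion h2 a₂) = 0 := by
        rw [map_sub, ← quotInclusion_mk, ← quotInclusion_mk, ← hα, ← hβ, hαβ, sub_self]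
      exact (mk_eq_zero_iff π B₁₂ _).mp this
    rcases hconn a₁ a₂ a₁.2 a₂.2 hi₁ hi₂ hi₁₂ with h | h
    · left
      exact (mk_eq_zero_iff π B₁ a₁).mpr h
    · right
      have : Ideal.Quotient.mk (piIdeal π B₁) (a₁ - 1) = 0 := (mk_eq_zero_iff π B₁ _).mpr h
      rw [map_sub, map_one] at this
      exact sub_eq_zero.mp this
  have hdom : IsDomain (B₁ ⧸ piIdeal π B₁) :=
    isDomain_of_connected (locPrincipal_quotient π B₁ hsm₁) (locPrincipal_quotient π B₂ hsm₂)
      α β v hunit hsurj hker hconn'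
  intro a ha b hb hab
  have h0 : Ideal.Quotient.mk (piIdeal π B₁) ⟨a, ha⟩ * Ideal.Quotient.mk (piIdeal π B₁) ⟨b, hb⟩ = 0 := by
    rw [← map_mul, mk_eq_zero_iff]
    exact hab
  rcases mul_eq_zero.mp h0 with h | h
  · left; exact (mk_eq_zero_iff π B₁ ⟨a, ha⟩).mp h
  · right; exact (mk_eq_zero_iff π B₁ ⟨b, hb⟩).mp h


/-- the subalgebra of elements with `t`-power denominators over `B`. -/
def awaySub (t : E) (B : Subalgebra O E) (ht : t ∈ B) : Subalgebra O E where
  carrier := {x | ∃ k : ℕ, t ^ k * x ∈ B}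
  mul_mem' := by
    rintro x y ⟨k, hk⟩ ⟨l, hl⟩
    refine ⟨k + l, ?_⟩
    have : t ^ (k + l) * (x * y) = (t ^ k * x) * (t ^ l * y) := by rw [pow_add]; ring
    rw [this]
    exact B.mul_mem hk hl
  add_mem' := by
    rintro x y ⟨k, hk⟩ ⟨l, hl⟩
    refine ⟨k + l, ?_⟩
    have : t ^ (k + l) * (x + y) = t ^ l * (t ^ k * x) + t ^ k * (t ^ l * y) := by
      rw [pow_add]; ring
    rw [this]
    exact B.add_mem (B.mul_mem (B.pow_mem ht l) hk) (B.mul_mem (B.pow_mem ht k) hl)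
  algebraMap_mem' r := ⟨0, by rw [pow_zero, one_mul]; exact B.algebraMap_mem r⟩

theorem mem_awaySub (t : E) (B : Subalgebra O E) (ht : t ∈ B) (x : E) :
    x ∈ awaySub t B ht ↔ ∃ k : ℕ, t ^ k * x ∈ B := Iff.rfl

theorem le_awaySub (t : E) (B : Subalgebra O E) (ht : t ∈ B) : B ≤ awaySub t B ht :=
  fun x hx => ⟨0, by rw [pow_zero, one_mul]; exact hx⟩

/-- `B₁ ⊔ B₂ ≤ B₁[1/t]` when `B₂ ≤ B₁[1/t]`. -/
theorem exists_pow_mul_mem_of_mem_sup (t : E) (B₁ B₂ : Subalgebra O E) (ht : t ∈ B₁)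
    (ov : ∀ x ∈ B₂, ∃ k : ℕ, t ^ k * x ∈ B₁) :
    ∀ x ∈ B₁ ⊔ B₂, ∃ k : ℕ, t ^ k * x ∈ B₁ := by
  intro x hx
  have hle : B₁ ⊔ B₂ ≤ awaySub t B₁ ht := sup_le (le_awaySub t B₁ ht) (fun y hy => ov y hy)
  exact hle hx

/-- **Regular + connected ⇒ integral, from the Čech hypotheses** of
`RED/CORE/CechConnected14.special_fibre_connected` (overlap `B₁₂ := B₁ ⊔ B₂`). -/
theorem pi_prime_of_cech [IsNoetherianRing O] (π : O) (t u : E) (htu : t * u = 1)
    (B₁ B₂ : Subalgebra O E) (ht : t ∈ B₁) (hu : u ∈ B₂)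
    [IsNoetherianRing B₁] [IsNoetherianRing B₂]
    {r : ℕ} (b : Fin r → E) (hb : ∀ i, b i ∈ B₁)
    (hgen : ∀ x ∈ B₁, ∃ P : Fin r → O[X], x = ∑ i, aeval t (P i) * b i)
    (ov0 : ∀ x ∈ B₂, ∃ k : ℕ, t ^ k * x ∈ B₁) (ov1 : ∀ x ∈ B₁, ∃ k : ℕ, u ^ k * x ∈ B₂)
    (hH0 : ∀ x : E, x ∈ B₁ → x ∈ B₂ → ∃ a : O, algebraMap O E a = x)
    (hsat : ∀ a : O, (∃ b ∈ B₁, algebraMap O E a = algebraMap O E π * b) → π ∣ a)
    (hidem : ∀ a : O, π ∣ a * a - a → π ∣ a ∨ π ∣ a - 1)
    (hnu : ¬ ∃ b ∈ B₁, 1 = algebraMap O E π * b)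
    (hred₁ : ∀ b ∈ B₁, (∃ c ∈ B₁, b * b = algebraMap O E π * c) →
      ∃ c ∈ B₁, b = algebraMap O E π * c)
    (hred₂ : ∀ b ∈ B₂, (∃ c ∈ B₂, b * b = algebraMap O E π * c) →
      ∃ c ∈ B₂, b = algebraMap O E π * c)
    (hsm₁ : ∀ x : Ideal B₁, x.IsMaximal → algebraMap O B₁ π ∈ x →
      ∃ s ∈ x, ∀ y ∈ x, ∃ d : B₁, d ∉ x ∧ d * y ∈ Ideal.span {algebraMap O B₁ π, s})
    (hsm₂ : ∀ x : Ideal B₂, x.IsMaximal → algebraMap O B₂ π ∈ x →
      ∃ s ∈ x, ∀ y ∈ x, ∃ d : B₂, d ∉ x ∧ d * y ∈ Ideal.span {algebraMap O B₂ π, s}) :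
    ∀ a ∈ B₁, ∀ b ∈ B₁, (∃ c ∈ B₁, a * b = algebraMap O E π * c) →
      (∃ c ∈ B₁, a = algebraMap O E π * c) ∨ (∃ c ∈ B₁, b = algebraMap O E π * c) := by
  classical
  have h12t := exists_pow_mul_mem_of_mem_sup t B₁ B₂ ht ov0
  have h12u : ∀ x ∈ B₁ ⊔ B₂, ∃ k : ℕ, u ^ k * x ∈ B₂ := by
    have := exists_pow_mul_mem_of_mem_sup u B₂ B₁ hu ov1
    intro x hx
    exact this x (by rwa [sup_comm])
  -- a common exponent for the generators
  choose kb hkb using fun i => ov1 (b i) (hb i)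
  have hN : ∀ i, u ^ (Finset.univ.sup kb) * b i ∈ B₂ := by
    intro i
    have hle : kb i ≤ Finset.univ.sup kb := Finset.le_sup (Finset.mem_univ i)
    obtain ⟨d, hd⟩ := Nat.exists_eq_add_of_le hle
    rw [hd, pow_add, mul_comm (u ^ kb i), mul_assoc]
    exact B₂.mul_mem (B₂.pow_mem hu d) (hkb i)
  refine pi_prime_of_connected π t u htu B₁ B₂ (B₁ ⊔ B₂) le_sup_left le_sup_right ht hu h12u hnu
    hred₁ hred₂ hsm₁ hsm₂ ?_
  intro e₁ e₂ he₁ he₂ hi₁ hi₂ hi₁₂
  exact Fermat.Agent.RED.CORE.IdemGlue14.connected π t u htu B₁ B₂ (B₁ ⊔ B₂) le_sup_left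
    le_sup_right ht hu b hb hgen h12t (Finset.univ.sup kb) hN hH0 hsat hidem e₁ e₂ he₁ he₂
    hi₁ hi₂ hi₁₂

/-- **The second chart**: if `π B₁` is prime and `u` is a non-zero-divisor modulo `π B₂`, then
`π B₂` is prime as well (`B₂ / π` embeds into the domain `(B₁ / π)[1 / t]`). -/
theorem pi_prime_chart_two (π : O) (t u : E) (htu : t * u = 1)
    (B₁ B₂ : Subalgebra O E) (ht : t ∈ B₁) (hu : u ∈ B₂)
    (ov0 : ∀ x ∈ B₂, ∃ k : ℕ, t ^ k * x ∈ B₁) (ov1 : ∀ x ∈ B₁, ∃ k : ℕ, u ^ k * x ∈ B₂)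
    (hnzd : ∀ y ∈ B₂, (∃ c ∈ B₂, u * y = algebraMap O E π * c) →
      ∃ c ∈ B₂, y = algebraMap O E π * c)
    (hprime : ∀ a ∈ B₁, ∀ b ∈ B₁, (∃ c ∈ B₁, a * b = algebraMap O E π * c) →
      (∃ c ∈ B₁, a = algebraMap O E π * c) ∨ (∃ c ∈ B₁, b = algebraMap O E π * c)) :
    ∀ a ∈ B₂, ∀ b ∈ B₂, (∃ c ∈ B₂, a * b = algebraMap O E π * c) →
      (∃ c ∈ B₂, a = algebraMap O E π * c) ∨ (∃ c ∈ B₂, b = algebraMap O E π * c) := by
  set p := algebraMap O E π with hp
  -- iterate the non-zero-divisor property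
  have hnzd' : ∀ (j : ℕ) (y : E), y ∈ B₂ → (∃ c ∈ B₂, u ^ j * y = p * c) → ∃ c ∈ B₂, y = p * c := by
    intro j
    induction j with
    | zero => intro y _ h; simpa using h
    | succ j ih =>
      intro y hy h
      apply ih y hy
      apply hnzd (u ^ j * y) (B₂.mul_mem (B₂.pow_mem hu j) hy)
      obtain ⟨c, hc, hc'⟩ := h
      exact ⟨c, hc, by rw [← hc', pow_succ]; ring⟩
  -- `t ^ n * a ∈ π B₁` implies `a ∈ π B₂`
  have hback : ∀ (n : ℕ) (a : E), a ∈ B₂ → (∃ d ∈ B₁, t ^ n * a = p * d) → ∃ c ∈ B₂, a = p * c := by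
    intro n a ha ⟨d, hd, hda⟩
    obtain ⟨j, hj⟩ := ov1 d hd
    apply hnzd' j a ha
    refine ⟨u ^ n * (u ^ j * d), B₂.mul_mem (B₂.pow_mem hu n) hj, ?_⟩
    have htun : t ^ n * u ^ n = 1 := by rw [← mul_pow, htu, one_pow]
    calc u ^ j * a = u ^ j * ((t ^ n * u ^ n) * a) := by rw [htun, one_mul]
      _ = u ^ j * u ^ n * (t ^ n * a) := by ring
      _ = p * (u ^ n * (u ^ j * d)) := by rw [hda]; ring
  intro a ha b hb ⟨c, hc, hab⟩
  obtain ⟨k, hk⟩ := ov0 a ha
  obtain ⟨l, hl⟩ := ov0 b hb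
  obtain ⟨m, hm⟩ := ov0 c hc
  have hprod : ∃ d ∈ B₁, (t ^ (k + m) * a) * (t ^ l * b) = p * d := by
    refine ⟨t ^ (k + l) * (t ^ m * c), B₁.mul_mem (B₁.pow_mem ht _) hm, ?_⟩
    calc (t ^ (k + m) * a) * (t ^ l * b) = t ^ (k + m) * t ^ l * (a * b) := by ring
      _ = p * (t ^ (k + l) * (t ^ m * c)) := by rw [hab, pow_add, pow_add]; ring
  have hka : t ^ (k + m) * a ∈ B₁ := by
    rw [pow_add, mul_comm (t ^ k), mul_assoc]
    exact B₁.mul_mem (B₁.pow_mem ht m) hk
  rcases hprime _ hka _ hl hprod with h | h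
  · left; exact hback (k + m) a ha h
  · right; exact hback l b hb h

/-! ### Feeding the hypotheses from a reduction map `ρ : B → L` with kernel `π B` -/

/-- `B / π` is reduced if there is a reduction map into a reduced ring with kernel `π B`. -/
theorem red_of_reduction {L : Type*} [CommRing L] [IsReduced L] (π : O) (B : Subalgebra O E)
    (ρ : B →+* L) (hρπ : ρ (algebraMap O B π) = 0)
    (hker : ∀ b : B, ρ b = 0 → ∃ c ∈ B, (b : E) = algebraMap O E π * c) :
    ∀ b ∈ B, (∃ c ∈ B, b * b = algebraMap O E π * c) → ∃ c ∈ B, b = algebraMap O E π * c := by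
  rintro b hb ⟨c, hc, hbc⟩
  have h1 : (⟨b, hb⟩ : B) * ⟨b, hb⟩ = algebraMap O B π * ⟨c, hc⟩ := Subtype.ext hbc
  have h2 : ρ ⟨b, hb⟩ * ρ ⟨b, hb⟩ = 0 := by rw [← map_mul, h1, map_mul, hρπ, zero_mul]
  have h3 : ρ ⟨b, hb⟩ = 0 := IsReduced.eq_zero _ ⟨2, by rw [pow_two]; exact h2⟩
  exact hker ⟨b, hb⟩ h3

/-- `u` is a non-zero-divisor modulo `π B` if its reduction is a non-zero-divisor. -/
theorem nzd_of_reduction {L : Type*} [CommRing L] (π : O) (B : Subalgebra O E) (u : E) (hu : u ∈ B)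
    (ρ : B →+* L) (hρπ : ρ (algebraMap O B π) = 0)
    (hker : ∀ b : B, ρ b = 0 → ∃ c ∈ B, (b : E) = algebraMap O E π * c)
    (hρu : ∀ z : L, ρ ⟨u, hu⟩ * z = 0 → z = 0) :
    ∀ y ∈ B, (∃ c ∈ B, u * y = algebraMap O E π * c) → ∃ c ∈ B, y = algebraMap O E π * c := by
  rintro y hy ⟨c, hc, hyc⟩
  have h1 : (⟨u, hu⟩ : B) * ⟨y, hy⟩ = algebraMap O B π * ⟨c, hc⟩ := Subtype.ext hyc
  have h2 : ρ ⟨u, hu⟩ * ρ ⟨y, hy⟩ = 0 := by rw [← map_mul, h1, map_mul, hρπ, zero_mul]
  exact hker ⟨y, hy⟩ (hρu _ h2)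

end Charts

end Fermat.Agent.ES.R48.RegConnIrr8
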