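/-
Programme R (S48, Deligne–Serre), chapter GEOM / G3, step G′(e) (helper8): `RegConnIrr8` in the
vocabulary of `RED/CORE/CoreIface24.TwoChartModel` (shape requested by helper4, G3 sub-lead).

`R` a noetherian ring with "uniformiser" `π` (`dvrR`), `F` a field, `B0 ∋ t`, `B1 ∋ t⁻¹` the two
charts.  From the `Ov`-free fields of `TwoChartModel` that the proof needs
(`noethR dvrR noeth0 noeth1 t_ne t_mem tinv_mem fin0 ov0 ov1 smooth0 smooth1`, literally those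
types), reducedness of the two special fibres (`red0`, `red1`) and the Čech hypotheses
`hH0`, `hsat` of `CechConnected14`:  **`π B0` is prime** (`pi_prime_B0`).
With `t⁻¹` a non-zero-divisor modulo `π B1` (an instance of `tf1`), also `π B1` is prime
(`pi_prime_B1`).

Not needed (and therefore not assumed): `fracR intcl0 intcl1 int0 int1 frac0 frac1`, `tf0`,
and "`π` is not a unit" (if `π` is a unit of `B0` the element-wise statement is trivial).
-/
import Mathlib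
import Fermat.Agent.ES.R48.RegConnIrr8

set_option autoImplicit false

namespace Fermat.Agent.ES.R48.RegConnModel8

open Polynomial Fermat.Agent.ES.R48.RegConnIrr8

variable {R F : Type*} [CommRing R] [Field F] [Algebra R F]

/-- In a ring all of whose non-zero elements are a unit times a power of `π`, idempotents modulo
`π` are trivial. -/
theorem hidem_of_dvrR (π : R) (dvrR : ∀ r : R, r ≠ 0 → ∃ (k : ℕ) (v : Rˣ), r = π ^ k * v)
    (a : R) (h : π ∣ a * a - a) : π ∣ a ∨ π ∣ a - 1 := by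
  by_cases ha : a = 0
  · left; rw [ha]; exact dvd_zero π
  obtain ⟨k, v, hkv⟩ := dvrR a ha
  rcases Nat.eq_zero_or_pos k with hk | hk
  · by_cases ha1 : a - 1 = 0
    · right; rw [ha1]; exact dvd_zero π
    obtain ⟨l, v', hlv⟩ := dvrR (a - 1) ha1
    rcases Nat.eq_zero_or_pos l with hl | hl
    · -- `a` and `a - 1` are units, so `π` divides a unit
      left
      have hua : IsUnit a := by
        rw [hkv, hk, pow_zero, one_mul]; exact v.isUnit
      have hua1 : IsUnit (a - 1) := by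
        rw [hlv, hl, pow_zero, one_mul]; exact v'.isUnit
      have hu : IsUnit (a * a - a) := by
        have e : a * a - a = a * (a - 1) := by ring
        rw [e]
        exact hua.mul hua1
      exact (isUnit_of_dvd_unit h hu).dvd
    · right
      rw [hlv]
      exact Dvd.dvd.mul_right (dvd_pow_self π hl.ne') _
  · left
    rw [hkv]
    exact Dvd.dvd.mul_right (dvd_pow_self π hk.ne') _

/-- **`π B0` is prime** (regular + connected ⇒ integral), in `TwoChartModel` vocabulary. -/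
theorem pi_prime_B0 (π : R) (t : F) (B0 B1 : Subalgebra R F)
    (noethR : IsNoetherianRing R)
    (dvrR : ∀ r : R, r ≠ 0 → ∃ (k : ℕ) (v : Rˣ), r = π ^ k * v)
    (noeth0 : IsNoetherianRing B0) (noeth1 : IsNoetherianRing B1)
    (t_ne : t ≠ 0) (t_mem : t ∈ B0) (tinv_mem : t⁻¹ ∈ B1)
    (fin0 : ∃ (r : ℕ) (e : Fin r → F), (∀ i, e i ∈ B0) ∧
      ∀ x ∈ B0, ∃ P : Fin r → R[X], x = ∑ i, aeval t (P i) * e i)
    (ov0 : ∀ x ∈ B1, ∃ k : ℕ, t ^ k * x ∈ B0)
    (ov1 : ∀ x ∈ B0, ∃ k : ℕ, t⁻¹ ^ k * x ∈ B1)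
    (smooth0 : ∀ x : Ideal B0, x.IsMaximal → algebraMap R B0 π ∈ x →
      ∃ s ∈ x, ∀ y ∈ x, ∃ d : B0, d ∉ x ∧ d * y ∈ Ideal.span {algebraMap R B0 π, s})
    (smooth1 : ∀ x : Ideal B1, x.IsMaximal → algebraMap R B1 π ∈ x →
      ∃ s ∈ x, ∀ y ∈ x, ∃ d : B1, d ∉ x ∧ d * y ∈ Ideal.span {algebraMap R B1 π, s})
    (red0 : ∀ b ∈ B0, ∀ n : ℕ, (∃ c ∈ B0, b ^ n = algebraMap R F π * c) →
      ∃ c ∈ B0, b = algebraMap R F π * c)
    (red1 : ∀ b ∈ B1, ∀ n : ℕ, (∃ c ∈ B1, b ^ n = algebraMap R F π * c) →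
      ∃ c ∈ B1, b = algebraMap R F π * c)
    (hH0 : ∀ x : F, x ∈ B0 → x ∈ B1 → ∃ a : R, algebraMap R F a = x)
    (hsat : ∀ a : R, (∃ b ∈ B0, algebraMap R F a = algebraMap R F π * b) → π ∣ a) :
    ∀ a ∈ B0, ∀ b ∈ B0, (∃ c ∈ B0, a * b = algebraMap R F π * c) →
      (∃ c ∈ B0, a = algebraMap R F π * c) ∨ (∃ c ∈ B0, b = algebraMap R F π * c) := by
  by_cases hnu : ∃ b ∈ B0, 1 = algebraMap R F π * b
  · -- `π` is a unit of `B0`: everything is divisible by `π`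
    obtain ⟨b', hb', h1⟩ := hnu
    intro a ha _ _ _
    left
    refine ⟨b' * a, B0.mul_mem hb' ha, ?_⟩
    rw [← mul_assoc, ← h1, one_mul]
  · obtain ⟨r, e, he, hgen⟩ := fin0
    have htu : t * t⁻¹ = 1 := mul_inv_cancel₀ t_ne
    exact pi_prime_of_cech π t t⁻¹ htu B0 B1 t_mem tinv_mem e he hgen ov0 ov1 hH0 hsat
      (hidem_of_dvrR π dvrR) hnu
      (fun b hb ⟨c, hc, hbc⟩ => red0 b hb 2 ⟨c, hc, by rw [pow_two]; exact hbc⟩)
      (fun b hb ⟨c, hc, hbc⟩ => red1 b hb 2 ⟨c, hc, by rw [pow_two]; exact hbc⟩)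
      smooth0 smooth1

/-- **`π B1` is prime**, from `π B0` prime and `t⁻¹` a non-zero-divisor modulo `π B1`
(the instance `r = X` of `tf1`). -/
theorem pi_prime_B1 (π : R) (t : F) (B0 B1 : Subalgebra R F)
    (t_ne : t ≠ 0) (t_mem : t ∈ B0) (tinv_mem : t⁻¹ ∈ B1)
    (ov0 : ∀ x ∈ B1, ∃ k : ℕ, t ^ k * x ∈ B0)
    (ov1 : ∀ x ∈ B0, ∃ k : ℕ, t⁻¹ ^ k * x ∈ B1)
    (hnzd1 : ∀ y ∈ B1, (∃ c ∈ B1, t⁻¹ * y = algebraMap R F π * c) →
      ∃ c ∈ B1, y = algebraMap R F π * c)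
    (hprime0 : ∀ a ∈ B0, ∀ b ∈ B0, (∃ c ∈ B0, a * b = algebraMap R F π * c) →
      (∃ c ∈ B0, a = algebraMap R F π * c) ∨ (∃ c ∈ B0, b = algebraMap R F π * c)) :
    ∀ a ∈ B1, ∀ b ∈ B1, (∃ c ∈ B1, a * b = algebraMap R F π * c) →
      (∃ c ∈ B1, a = algebraMap R F π * c) ∨ (∃ c ∈ B1, b = algebraMap R F π * c) :=
  pi_prime_chart_two π t t⁻¹ (mul_inv_cancel₀ t_ne) B0 B1 t_mem tinv_mem ov0 ov1 hnzd1 hprime0

/-- `tf1 ⇒ hnzd1`: the instance `r = X` of the torsion-freeness hypothesis (`π` not a unit of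
`R`). -/
theorem hnzd1_of_tf1 (π : R) (t : F) (B1 : Subalgebra R F) (hπ : ¬ IsUnit π)
    (tf1 : ∀ r : R[X], ¬ C π ∣ r → ∀ b ∈ B1, (∃ c ∈ B1, aeval t⁻¹ r * b = algebraMap R F π * c) →
      ∃ c ∈ B1, b = algebraMap R F π * c) :
    ∀ y ∈ B1, (∃ c ∈ B1, t⁻¹ * y = algebraMap R F π * c) → ∃ c ∈ B1, y = algebraMap R F π * c := by
  intro y hy h
  refine tf1 X ?_ y hy (by rwa [aeval_X])
  rintro ⟨q, hq⟩
  apply hπ
  have h1 := congrArg (fun p : R[X] => p.coeff 1) hq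
  simp only [coeff_X_one, coeff_C_mul] at h1
  exact IsUnit.of_mul_eq_one _ h1.symm

end Fermat.Agent.ES.R48.RegConnModel8
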