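/-
Programme R (S48, Deligne–Serre), chapter GEOM, sub-chapter G4 "CONG₁" (helper15), Layer 2:
**twin of `ES/RED/ResidueUnion1`** (helper1) for `X₁(M)`: the special-fibre function field
`F1C k M` over `k = ResidueField A` is the union of the `F1C κ_K M` over the residue fields
`κ_K = ResidueField (A ∩ K)` of the number fields.

* `exists_F1C_descent` : every `y ∈ F1C k M` is `coeffMap ρ_K y₀` with `y₀ ∈ F1C κ_K M`, for all large
  number fields `K` (`exists_residue_descent` is used AS-IS from main);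
* `coeffMap_resMap_mem_F1C` : conversely `coeffMap ρ_K` maps `F1C κ_K M` into `F1C k M`
  (`F1CBase15.coeffMap_mem_F1C'`).
-/
import Mathlib
import Fermat.Agent.ES.RED.ResidueUnion1
import Fermat.Agent.ES.R48.F1CBase15

set_option autoImplicit false

open HahnSeries ModularCurve IntermediateField

noncomputable section

namespace Fermat.Agent.ES.R48.ResidueUnionOne15

open Fermat.Agent.RED.Interface4 Fermat.Agent.RED.DESC
open Fermat.Agent.ES.RED.ResidueUnion1
open Fermat.Agent.ES.R48.F1CDefs15 Fermat.Agent.ES.R48.F1CBase15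

variable (A : ValuationSubring Qbar)

/-- **The special-fibre function field of `X₁(M)` over `k` is the union of those over the `κ_K`.** -/
theorem exists_F1C_descent (M : ℕ) (K₀ : IntermediateField ℚ Qbar) [FiniteDimensional ℚ K₀]
    {y : LaurentSeries (IsLocalRing.ResidueField A)}
    (hy : y ∈ F1C (IsLocalRing.ResidueField A) M) :
    ∃ K₁ : IntermediateField ℚ Qbar, FiniteDimensional ℚ K₁ ∧ K₀ ≤ K₁ ∧
      ∀ K : IntermediateField ℚ Qbar, K₁ ≤ K →
        ∃ y₀ ∈ F1C (IsLocalRing.ResidueField (AK A K)) M,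
          coeffMap (NumberFieldDVR27.resMap A K) y₀ = y := by
  rw [F1C_eq_adjoin] at hy
  induction hy using IntermediateField.adjoin_induction with
  | mem y hy =>
      rcases hy with ⟨d, hne, hd, rfl⟩ | ⟨c, rfl⟩
      · have := hne
        refine ⟨K₀, inferInstance, le_rfl, fun K _ => ?_⟩
        refine ⟨qExpand _ d (jqModC _), jqModCd_mem_F1C _ M hd, ?_⟩
        rw [coeffMap_qExpand', coeffMap_jqModC]
      · refine ⟨K₀, inferInstance, le_rfl, fun K _ => ?_⟩
        exact ⟨wqC _ M (c : ZMod M), wqC_mem_F1C _ M c, coeffMap_wqC M _ _⟩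
  | algebraMap c =>
      obtain ⟨K₁, hfin, hK₀, H⟩ := exists_residue_descent A K₀ c
      refine ⟨K₁, hfin, hK₀, fun K hK => ?_⟩
      obtain ⟨c₀, hc₀⟩ := H K hK
      refine ⟨algebraMap _ _ c₀, IntermediateField.algebraMap_mem _ _, ?_⟩
      rw [coeffMap_algebraMap', hc₀]
  | add x y _ _ hx hy =>
      obtain ⟨K₁, hfin₁, hK₁, H₁⟩ := hx
      obtain ⟨K₂, hfin₂, hK₂, H₂⟩ := hy
      have := hfin₁
      have := hfin₂
      refine ⟨K₁ ⊔ K₂, inferInstance, hK₁.trans le_sup_left, fun K hK => ?_⟩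
      obtain ⟨x₀, hx₀, hx₀'⟩ := H₁ K (le_sup_left.trans hK)
      obtain ⟨y₀, hy₀, hy₀'⟩ := H₂ K (le_sup_right.trans hK)
      exact ⟨x₀ + y₀, add_mem hx₀ hy₀, by rw [map_add, hx₀', hy₀']⟩
  | inv x _ hx =>
      obtain ⟨K₁, hfin₁, hK₁, H₁⟩ := hx
      refine ⟨K₁, hfin₁, hK₁, fun K hK => ?_⟩
      obtain ⟨x₀, hx₀, hx₀'⟩ := H₁ K hK
      exact ⟨x₀⁻¹, inv_mem hx₀, by rw [map_inv₀, hx₀']⟩
  | mul x y _ _ hx hy =>
      obtain ⟨K₁, hfin₁, hK₁, H₁⟩ := hx
      obtain ⟨K₂, hfin₂, hK₂, H₂⟩ := hy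
      have := hfin₁
      have := hfin₂
      refine ⟨K₁ ⊔ K₂, inferInstance, hK₁.trans le_sup_left, fun K hK => ?_⟩
      obtain ⟨x₀, hx₀, hx₀'⟩ := H₁ K (le_sup_left.trans hK)
      obtain ⟨y₀, hy₀, hy₀'⟩ := H₂ K (le_sup_right.trans hK)
      exact ⟨x₀ * y₀, mul_mem hx₀ hy₀, by rw [map_mul, hx₀', hy₀']⟩

/-- `coeffMap ρ_K` maps `F1C κ_K M` into `F1C k M`. -/
theorem coeffMap_resMap_mem_F1C (M : ℕ) (K : IntermediateField ℚ Qbar)
    {x : LaurentSeries (IsLocalRing.ResidueField (AK A K))}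
    (hx : x ∈ F1C (IsLocalRing.ResidueField (AK A K)) M) :
    coeffMap (NumberFieldDVR27.resMap A K) x ∈ F1C (IsLocalRing.ResidueField A) M :=
  coeffMap_mem_F1C' _ M hx

end Fermat.Agent.ES.R48.ResidueUnionOne15
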