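/-
Programme R (S48, Deligne–Serre), TOP (helper13): **the frozen statement S48 from the THREE literal
Props that remain open** (state of 00:45Z, 30 Nov):

* `G4Close13.SPTorsExport`          — G4 (helper15, `SPOneOfModel15`; consumes G3's `CLBar1`);
* `KumExportAbs5.DictExport`        — G5, cusp and place dictionaries (helper18, `KumCuspOne18`);
* `KumExportAbs5.HeckeEquivExport`  — G5, Hecke equivariance of the Kummer map (helper9, `KumHecke9`).

Pure plugging: `GeomG2Plug12.s48_of_three` (helper12) fed with `KumFinite5.finiteExport` (helper5),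
`G4Close13.g4Export` and `KumExportAbs5.kappaExport_of` (helper5).  The final `Fermat/Agent/S48.lean`
is `s48_of_props <SPTorsExport> <DictExport> <HeckeEquivExport> N ε f hf₁ hT`.
-/
import Fermat.Agent.ES.R48.GeomG2Plug12
import Fermat.Agent.ES.R48.G4Close13
import Fermat.Agent.ES.R48.KumFinite5
import Fermat.Agent.ES.R48.KumExportAbs5

set_option autoImplicit false

noncomputable section

namespace Fermat.Agent.ES.R48.S48Plug13

/-- **GEOM from the three remaining Props.** -/
theorem geomExport_of_props (hSP : G4Close13.SPTorsExport) (hDict : KumExportAbs5.DictExport)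
    (hHecke : KumExportAbs5.HeckeEquivExport) : HalfBIface12.GeomExport :=
  GeomG2Plug12.geomExport_of_three KumFinite5.finiteExport (G4Close13.g4Export hSP)
    (KumExportAbs5.kappaExport_of hDict hHecke)

/-- **The frozen statement S48 from the three remaining Props.** -/
theorem s48_of_props (hSP : G4Close13.SPTorsExport) (hDict : KumExportAbs5.DictExport)
    (hHecke : KumExportAbs5.HeckeEquivExport)
    (N : ℕ) [NeZero N] (ε : DirichletCharacter ℂ N) (f : CuspForm (CongruenceSubgroup.Gamma1 N) 1)
    (hf₁ : ModularFormClass.qCoeff f 1 = 1)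
    (hT : ∀ p : ℕ, p.Prime → ¬ p ∣ N → ∀ n : ℕ,
        ModularFormClass.qCoeff f (p * n) +
            ε (p : ZMod N) * (if p ∣ n then ModularFormClass.qCoeff f (n / p) else 0) =
          ModularFormClass.qCoeff f p * ModularFormClass.qCoeff f n) :
    ∃ ρ : DSIface27.GQ →* GL (Fin 2) ℂ, GaloisFactorsThroughFiniteLevel ρ ∧
      (Deformation.matrixRepresentation ρ).IsIrreducible ∧
      ∀ p : ℕ, p.Prime → ¬ p ∣ N →
        ∀ A : ValuationSubring (AlgebraicClosure ℚ), A.LiesOverPrime p →
          (∀ σ ∈ A.inertiaSubgroupIn ℚ, ρ σ = 1) ∧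
          ∀ σ : DSIface27.GQ, A.IsFrobeniusAt σ p →
            ((ρ σ : GL (Fin 2) ℂ) : Matrix (Fin 2) (Fin 2) ℂ).trace = ModularFormClass.qCoeff f p ∧
            ((ρ σ : GL (Fin 2) ℂ) : Matrix (Fin 2) (Fin 2) ℂ).det = ε (p : ZMod N) :=
  GeomG2Plug12.s48_of_three KumFinite5.finiteExport (G4Close13.g4Export hSP)
    (KumExportAbs5.kappaExport_of hDict hHecke) N ε f hf₁ hT

end Fermat.Agent.ES.R48.S48Plug13
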