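/-
Programme R (S48), chapter B4 EIS, algebraic leaf (helper3): the Teichmüller-inverse character
`χ_𝔪` modulo an odd prime `ℓ` attached to a maximal ideal `𝔪 ∋ ℓ` of `Z̄ = integralClosure ℤ ℂ`
(R48_EIS24 §1, §3):

* `exists_teich`: a Dirichlet character `χ` mod `ℓ` with `(ℓ-1)`-st roots of unity as values and
  `χ(a)·a ≡ 1 (mod 𝔪)` for every integer `a` prime to `ℓ`  (`IsTeich 𝔪 χ`);
* `IsTeich.odd`, `IsTeich.isPrimitive` (`ℓ ≠ 2`);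
* `IsTeich.exists_beta`: `β := ℓ·B_{1,χ} = Σ_{a<ℓ} a χ(a) ∈ Z̄` and `β + 1 ∈ 𝔪`; hence `B_{1,χ} ≠ 0`;
* `IsTeich.beta_mul_eNorm`: the normalised series `E = 1 - (2/B_{1,χ}) Σ σ^χ(n) qⁿ` satisfies
  `β · eNorm χ n = -2ℓ σ^χ(n)` with `σ^χ(n) ∈ Z̄`: every non-constant coefficient of `E` lies in
  `ℓ·Z̄_𝔪`, i.e. `E ≡ 1 (mod 𝔪)`.
Everything is stated elementwise in `Z̄ ⊂ ℂ`, so that consumers may restrict to a noetherian
subring such as `𝒪_{K(μ_{ℓ-1}),λ}`.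
-/
import Mathlib
import Fermat.Agent.ES.R48.GaussCot3

set_option autoImplicit false

open Complex Finset Polynomial
open scoped Real

noncomputable section

namespace Fermat.Agent.ES.R48.TeichCong3

open Fermat.Agent.ES.R48.GaussCot3

local notation "Zbar" => integralClosure ℤ ℂ

variable {ℓ : ℕ} [hℓ : Fact ℓ.Prime]

/-- A root of unity of order dividing `ℓ - 1` congruent mod `𝔪` to a given integer prime to `ℓ`. -/
theorem exists_root_cong (𝔪 : Ideal Zbar) [𝔪.IsPrime] (hℓ𝔪 : (ℓ : Zbar) ∈ 𝔪) (h : ℕ)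
    (hh : ¬ ℓ ∣ h) : ∃ ζ : Zbar, (ζ : ℂ) ^ (ℓ - 1) = 1 ∧ (h : Zbar) - ζ ∈ 𝔪 := by
  classical
  have hn : 0 < ℓ - 1 := Nat.sub_pos_of_lt hℓ.out.one_lt
  have hprim := Complex.isPrimitiveRoot_exp (ℓ - 1) hn.ne'
  -- integrality of the roots
  have hint : ∀ ζ : ℂ, ζ ∈ nthRootsFinset (ℓ - 1) (1 : ℂ) → ζ ∈ Zbar := by
    intro ζ hζ
    have h1 : ζ ^ (ℓ - 1) = 1 := (mem_nthRootsFinset hn (1 : ℂ)).mp hζ
    exact IsIntegral.of_pow hn (by rw [h1]; exact isIntegral_one)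
  -- the product in `Zbar`
  set P : Zbar := ∏ ζ ∈ (nthRootsFinset (ℓ - 1) (1 : ℂ)).attach,
    ((h : Zbar) - ⟨ζ.1, hint ζ.1 ζ.2⟩) with hP
  have hPc : (P : ℂ) = (h : ℂ) ^ (ℓ - 1) - 1 := by
    have h1 := congrArg (Polynomial.eval (h : ℂ)) (X_pow_sub_one_eq_prod hn hprim)
    rw [eval_sub, eval_pow, eval_X, eval_one, eval_prod] at h1
    rw [h1, hP, ← Finset.prod_attach (nthRootsFinset (ℓ - 1) (1 : ℂ))]
    rw [← Subalgebra.coe_val, map_prod]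
    refine Finset.prod_congr rfl fun ζ _ => ?_
    simp
  -- `ℓ ∣ h ^ (ℓ - 1) - 1`
  have hdvd : (ℓ : ℤ) ∣ (h : ℤ) ^ (ℓ - 1) - 1 := by
    rw [← ZMod.intCast_zmod_eq_zero_iff_dvd]
    have h0 : (h : ZMod ℓ) ≠ 0 := by
      rwa [Ne, ZMod.natCast_eq_zero_iff]
    push_cast
    rw [ZMod.pow_card_sub_one_eq_one h0, sub_self]
  obtain ⟨c, hc⟩ := hdvd
  have hPm : P ∈ 𝔪 := by
    have : P = (ℓ : Zbar) * (c : Zbar) := by
      apply Subtype.ext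
      rw [hPc]
      push_cast
      exact_mod_cast hc
    rw [this]
    exact 𝔪.mul_mem_right _ hℓ𝔪
  rw [hP, Ideal.IsPrime.prod_mem_iff] at hPm
  obtain ⟨ζ, -, hζ⟩ := hPm
  exact ⟨⟨ζ.1, hint ζ.1 ζ.2⟩, (mem_nthRootsFinset hn (1 : ℂ)).mp ζ.2, hζ⟩

/-- `χ` is a Teichmüller-inverse character for `𝔪`. -/
structure IsTeich (𝔪 : Ideal Zbar) (χ : DirichletCharacter ℂ ℓ) : Prop where
  pow_eq_one : ∀ a : (ZMod ℓ)ˣ, χ a ^ (ℓ - 1) = 1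
  cong : ∀ a : ℕ, ¬ ℓ ∣ a → ∃ z ∈ 𝔪, (z : ℂ) = χ (a : ZMod ℓ) * a - 1

theorem exists_teich (𝔪 : Ideal Zbar) [𝔪.IsPrime] (hℓ𝔪 : (ℓ : Zbar) ∈ 𝔪) :
    ∃ χ : DirichletCharacter ℂ ℓ, IsTeich 𝔪 χ := by
  classical
  obtain ⟨g, hg⟩ := IsCyclic.exists_generator (α := (ZMod ℓ)ˣ)
  set gv : ℕ := (g : ZMod ℓ).val with hgv
  set hv : ℕ := ((g⁻¹ : (ZMod ℓ)ˣ) : ZMod ℓ).val with hhv
  have hgcast : ((gv : ℕ) : ZMod ℓ) = g := ZMod.natCast_zmod_val _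
  have hhcast : ((hv : ℕ) : ZMod ℓ) = ((g⁻¹ : (ZMod ℓ)ˣ) : ZMod ℓ) := ZMod.natCast_zmod_val _
  have hh : ¬ ℓ ∣ hv := by
    rw [← ZMod.natCast_eq_zero_iff, hhcast]
    exact Units.ne_zero _
  obtain ⟨ζ, hζ1, hζ𝔪⟩ := exists_root_cong 𝔪 hℓ𝔪 hv hh
  -- `ζ g ≡ 1`
  have hone : (ℓ : ℤ) ∣ (hv : ℤ) * gv - 1 := by
    rw [← ZMod.intCast_zmod_eq_zero_iff_dvd]
    push_cast
    rw [hgcast, hhcast, Units.inv_mul, sub_self]
  have hζg : ζ * (gv : Zbar) - 1 ∈ 𝔪 := by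
    obtain ⟨c, hc⟩ := hone
    have : ζ * (gv : Zbar) - 1 = -(((hv : Zbar) - ζ) * gv) + (ℓ : Zbar) * (c : Zbar) := by
      have hc' : (hv : Zbar) * gv - 1 = (ℓ : Zbar) * (c : Zbar) := by exact_mod_cast hc
      linear_combination hc'
    rw [this]
    exact 𝔪.add_mem (𝔪.neg_mem (𝔪.mul_mem_right _ hζ𝔪)) (𝔪.mul_mem_right _ hℓ𝔪)
  -- the character
  have hζu : (ζ : ℂ) ≠ 0 := by
    intro h0
    rw [h0, zero_pow (Nat.sub_pos_of_lt hℓ.out.one_lt).ne'] at hζ1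
    exact zero_ne_one hζ1
  set ζu : ℂˣ := Units.mk0 (ζ : ℂ) hζu with hζudef
  have hζmem : ζu ∈ rootsOfUnity (Fintype.card (ZMod ℓ)ˣ) ℂ := by
    rw [_root_.mem_rootsOfUnity, ZMod.card_units]
    apply Units.ext
    rw [Units.val_pow_eq_pow_val, Units.val_one, hζudef, Units.val_mk0]
    exact hζ1
  set χ : DirichletCharacter ℂ ℓ := MulChar.ofRootOfUnity hζmem hg with hχ
  have hχg : χ g = ζ := by
    rw [hχ, MulChar.ofRootOfUnity_spec, hζudef, Units.val_mk0]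
  refine ⟨χ, ⟨fun a => ?_, fun a ha => ?_⟩⟩
  · rw [← map_pow, ← Units.val_pow_eq_pow_val, ← ZMod.card_units ℓ, pow_card_eq_one,
      Units.val_one, map_one]
  · -- `a ≡ g ^ j`
    have ha0 : (a : ZMod ℓ) ≠ 0 := by rwa [Ne, ZMod.natCast_eq_zero_iff]
    set u : (ZMod ℓ)ˣ := Units.mk0 (a : ZMod ℓ) ha0 with hu
    obtain ⟨j, hj⟩ := (mem_powers_iff_mem_zpowers.mpr (hg u) : u ∈ Submonoid.powers g)
    have hj' : (a : ZMod ℓ) = (g : ZMod ℓ) ^ j := by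
      have := congrArg (fun x : (ZMod ℓ)ˣ => (x : ZMod ℓ)) hj
      simpa [hu] using this.symm
    have hχa : χ (a : ZMod ℓ) = (ζ : ℂ) ^ j := by
      rw [hj', map_pow, hχg]
    have hdvd : (ℓ : ℤ) ∣ (a : ℤ) - (gv : ℤ) ^ j := by
      rw [← ZMod.intCast_zmod_eq_zero_iff_dvd]
      push_cast
      rw [hgcast, hj', sub_self]
    obtain ⟨c, hc⟩ := hdvd
    obtain ⟨d, hd⟩ := sub_dvd_pow_sub_pow (ζ * (gv : Zbar)) 1 j
    refine ⟨ζ ^ j * ((ℓ : Zbar) * (c : Zbar)) + (ζ * (gv : Zbar) - 1) * d, ?_, ?_⟩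
    · exact 𝔪.add_mem (𝔪.mul_mem_left _ (𝔪.mul_mem_right _ hℓ𝔪)) (𝔪.mul_mem_right _ hζg)
    · rw [hχa]
      have hc' : (a : ℂ) - (gv : ℂ) ^ j = (ℓ : ℂ) * (c : ℂ) := by exact_mod_cast hc
      have hd' : ((ζ : ℂ) * (gv : ℂ)) ^ j - 1 = ((ζ : ℂ) * (gv : ℂ) - 1) * (d : ℂ) := by
        have := congrArg (fun x : Zbar => (x : ℂ)) hd
        simpa using this
      push_cast
      rw [← hc', ← hd']
      ring

namespace IsTeich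

variable {𝔪 : Ideal Zbar} {χ : DirichletCharacter ℂ ℓ}

/-- the values of `χ` are algebraic integers. -/
theorem integral (h : IsTeich 𝔪 χ) (a : ZMod ℓ) : χ a ∈ Zbar := by
  by_cases ha : IsUnit a
  · have h1 := h.pow_eq_one ha.unit
    rw [ha.unit_spec] at h1
    exact IsIntegral.of_pow (Nat.sub_pos_of_lt hℓ.out.one_lt) (by rw [h1]; exact isIntegral_one)
  · rw [MulChar.map_nonunit _ ha]
    exact isIntegral_zero

theorem ne_mem_of_isMaximal [h𝔪 : 𝔪.IsMaximal] : (1 : Zbar) ∉ 𝔪 :=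
  (Ideal.ne_top_iff_one 𝔪).mp h𝔪.ne_top

/-- `χ (-1) = -1` for `ℓ ≠ 2`. -/
theorem odd [𝔪.IsMaximal] (h : IsTeich 𝔪 χ) (hℓ𝔪 : (ℓ : Zbar) ∈ 𝔪) (hℓ2 : ℓ ≠ 2) : χ.Odd := by
  rcases χ.even_or_odd with he | ho
  · exfalso
    -- `χ(ℓ-1)(ℓ-1) - 1 = (ℓ - 1) - 1 ∈ 𝔪` gives `2 ∈ 𝔪`
    have hndvd : ¬ ℓ ∣ (ℓ - 1) := by
      intro hd
      have := Nat.le_of_dvd (Nat.sub_pos_of_lt hℓ.out.one_lt) hd
      have := hℓ.out.one_lt
      omega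
    obtain ⟨z, hz, hzc⟩ := h.cong (ℓ - 1) hndvd
    have hcast : ((ℓ - 1 : ℕ) : ZMod ℓ) = -1 := by
      rw [Nat.cast_sub hℓ.out.one_lt.le, ZMod.natCast_self, Nat.cast_one, zero_sub]
    rw [hcast, he, one_mul, Nat.cast_sub hℓ.out.one_lt.le, Nat.cast_one] at hzc
    have h2 : ((2 : ℕ) : Zbar) ∈ 𝔪 := by
      have : ((2 : ℕ) : Zbar) = (ℓ : Zbar) - z := by
        apply Subtype.ext
        have e1 : (((2 : ℕ) : Zbar) : ℂ) = 2 := by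
          rw [show (((2 : ℕ) : Zbar) : ℂ) = ((2 : ℕ) : ℂ) from by push_cast; rfl]
          norm_num
        have e2 : (((ℓ : Zbar) - z : Zbar) : ℂ) = (ℓ : ℂ) - (z : ℂ) := by simp
        rw [e1, e2, hzc]; ring
      rw [this]
      exact 𝔪.sub_mem hℓ𝔪 hz
    -- `ℓ` odd: `1 = ℓ - 2 k ∈ 𝔪`
    obtain ⟨k, hk⟩ := hℓ.out.odd_of_ne_two hℓ2
    apply ne_mem_of_isMaximal (𝔪 := 𝔪)
    have : (1 : Zbar) = (ℓ : Zbar) - ((2 : ℕ) : Zbar) * (k : Zbar) := by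
      rw [hk]; push_cast; ring
    rw [this]
    exact 𝔪.sub_mem hℓ𝔪 (𝔪.mul_mem_right _ h2)
  · exact ho

theorem isPrimitive [𝔪.IsMaximal] (h : IsTeich 𝔪 χ) (hℓ𝔪 : (ℓ : Zbar) ∈ 𝔪) (hℓ2 : ℓ ≠ 2) :
    χ.IsPrimitive := by
  rw [DirichletCharacter.isPrimitive_def]
  rcases (Nat.dvd_prime hℓ.out).mp χ.conductor_dvd_level with h1 | h1
  · exfalso
    have hχ1 : χ = 1 := (DirichletCharacter.eq_one_iff_conductor_eq_one (χ := χ)).mpr h1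
    have ho : χ (-1) = -1 := h.odd hℓ𝔪 hℓ2
    rw [hχ1, MulChar.one_apply (isUnit_one.neg)] at ho
    norm_num at ho
  · exact h1

/-- `β := ℓ · B_{1,χ} = Σ_{a<ℓ} a χ(a)` is an algebraic integer `≡ -1 (mod 𝔪)`. -/
theorem exists_beta (h : IsTeich 𝔪 χ) (hℓ𝔪 : (ℓ : Zbar) ∈ 𝔪) :
    ∃ β : Zbar, (β : ℂ) = ℓ * B1 χ ∧ β + 1 ∈ 𝔪 := by
  classical
  have hℓ0 : (ℓ : ℂ) ≠ 0 := Nat.cast_ne_zero.mpr hℓ.out.ne_zero
  -- termwise
  have hterm : ∀ a ∈ range ℓ, ∃ z ∈ 𝔪, (z : ℂ) = (a : ℂ) * χ (a : ZMod ℓ) - if a = 0 then 0 else 1 := by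
    intro a ha
    by_cases ha0 : a = 0
    · refine ⟨0, 𝔪.zero_mem, ?_⟩
      simp [ha0]
    · have hnd : ¬ ℓ ∣ a := by
        intro hd
        have := Nat.le_of_dvd (Nat.pos_of_ne_zero ha0) hd
        have := mem_range.mp ha
        omega
      obtain ⟨z, hz, hzc⟩ := h.cong a hnd
      refine ⟨z, hz, ?_⟩
      rw [hzc, if_neg ha0]; ring
  choose! z hz hzc using hterm
  refine ⟨∑ a ∈ range ℓ, z a + ((ℓ : Zbar) - 1), ?_, ?_⟩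
  · rw [B1, ← mul_assoc, mul_one_div_cancel hℓ0, one_mul]
    push_cast
    rw [Finset.sum_congr rfl hzc, Finset.sum_sub_distrib]
    have : ∑ a ∈ range ℓ, (if a = 0 then (0 : ℂ) else 1) = (ℓ : ℂ) - 1 := by
      rw [Finset.sum_ite, Finset.sum_const_zero, zero_add, Finset.sum_const, nsmul_eq_mul, mul_one]
      have : (filter (fun a => ¬ a = 0) (range ℓ)).card = ℓ - 1 := by
        rw [Finset.filter_ne' (range ℓ) 0, Finset.card_erase_of_mem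
          (mem_range.mpr hℓ.out.pos), card_range]
      rw [this, Nat.cast_sub hℓ.out.one_lt.le, Nat.cast_one]
    rw [this]; ring
  · have : ∑ a ∈ range ℓ, z a + ((ℓ : Zbar) - 1) + 1 = ∑ a ∈ range ℓ, z a + (ℓ : Zbar) := by ring
    rw [this]
    exact 𝔪.add_mem (𝔪.sum_mem fun a ha => hz a ha) hℓ𝔪

theorem B1_ne_zero [𝔪.IsMaximal] (h : IsTeich 𝔪 χ) (hℓ𝔪 : (ℓ : Zbar) ∈ 𝔪) : B1 χ ≠ 0 := by
  obtain ⟨β, hβ, hβ1⟩ := h.exists_beta hℓ𝔪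
  intro h0
  rw [h0, mul_zero] at hβ
  have : β = 0 := Subtype.ext hβ
  rw [this, zero_add] at hβ1
  exact ne_mem_of_isMaximal (𝔪 := 𝔪) hβ1

/-- `σ^χ(n)` is an algebraic integer. -/
theorem sigmaChi_integral (h : IsTeich 𝔪 χ) (n : ℕ) : sigmaChi χ n ∈ Zbar := by
  rw [sigmaChi]
  exact Subalgebra.sum_mem _ fun k _ => h.integral _

end IsTeich

/-- The coefficients of the normalised weight-one Eisenstein series
`E = 1 - (2 / B_{1,χ}) Σ_{n ≥ 1} σ^χ(n) qⁿ`. -/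
def eNorm (χ : DirichletCharacter ℂ ℓ) (n : ℕ) : ℂ :=
  if n = 0 then 1 else (-2 / B1 χ) * sigmaChi χ n

omit hℓ in
theorem eNorm_eq_eCoeff_div (χ : DirichletCharacter ℂ ℓ) (hB : B1 χ ≠ 0) (n : ℕ) :
    eNorm χ n = eCoeff χ n / B1 χ := by
  by_cases hn : n = 0
  · rw [eNorm, eCoeff, if_pos hn, if_pos hn, div_self hB]
  · rw [eNorm, eCoeff, if_neg hn, if_neg hn]; ring

/-- `β · a_n(E) = -2 ℓ σ^χ(n)` for `n ≥ 1`: with `β ≡ -1`, every non-constant coefficient of `E`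
is divisible by `ℓ` in the localisation of `Z̄` at `𝔪`. -/
theorem IsTeich.beta_mul_eNorm {𝔪 : Ideal Zbar} [𝔪.IsMaximal] {χ : DirichletCharacter ℂ ℓ}
    (h : IsTeich 𝔪 χ) (hℓ𝔪 : (ℓ : Zbar) ∈ 𝔪) {n : ℕ} (hn : n ≠ 0) :
    (ℓ : ℂ) * B1 χ * eNorm χ n = -2 * ℓ * sigmaChi χ n := by
  have hB := h.B1_ne_zero hℓ𝔪
  rw [eNorm, if_neg hn]
  field_simp

end Fermat.Agent.ES.R48.TeichCong3
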