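/-
Programme R (S48, Deligne–Serre), chapter B-HK (helper9), brick 7: the true Hecke operators
`T_p`, `T_q` (`p, q ∤ N` primes) on `S_k(Γ₁(N))` COMMUTE.  Proof on `q`-expansions
(`TpForm9.qCoeff_Tp`, `TpForm9.Tp_diamond`, `Gamma1Slash9.diamond_comm`).

Also: the formal shape of `T_p` on a `ψ`-eigenspace of the diamond operators (`qCoeff_Tp_of_diamond`).
-/
import Mathlib
import Fermat.Agent.ES.R48.TpForm9

set_option autoImplicit false

open CongruenceSubgroup UpperHalfPlane ModularForm Matrix.SpecialLinearGroup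
open scoped MatrixGroups ModularForm
open Fermat.Agent.ES.R48.Gamma1Slash9 Fermat.Agent.ES.R48.TpForm9
open ModularFormClass (qCoeff)

noncomputable section

namespace Fermat.Agent.ES.R48.TpComm9

/-! ### Two identities on sequences -/

theorem ite_mul_div {p q : ℕ} (hp : p.Prime) (hq : q.Prime) (hpq : p ≠ q) (c : ℂ) (a : ℕ → ℂ)
    (n : ℕ) :
    (if q ∣ n * p then c * a (n * p / q) else 0) = if q ∣ n then c * a (n / q * p) else 0 := by
  have h1 : q ∣ n * p ↔ q ∣ n := by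
    rw [hq.dvd_mul]
    refine or_iff_left fun h => hpq ?_
    exact ((Nat.prime_dvd_prime_iff_eq hq hp).mp h).symm
  by_cases h : q ∣ n
  · rw [if_pos (h1.mpr h), if_pos h, Nat.div_mul_right_comm h]
  · rw [if_neg (fun h' => h (h1.mp h')), if_neg h]

theorem ite_split {p q : ℕ} (hp : 0 < p) (cp cq : ℂ) (a b : ℕ → ℂ) (n : ℕ) :
    (if p ∣ n then cp * (a (n / p * q) + if q ∣ n / p then cq * b (n / p / q) else 0) else 0)
      = (if p ∣ n then cp * a (n / p * q) else 0)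
        + (if p * q ∣ n then cp * cq * b (n / (p * q)) else 0) := by
  by_cases h : p ∣ n
  · obtain ⟨m, rfl⟩ := h
    rw [if_pos (Dvd.intro m rfl), if_pos (Dvd.intro m rfl), Nat.mul_div_cancel_left _ hp]
    by_cases hq : q ∣ m
    · rw [if_pos hq, if_pos (Nat.mul_dvd_mul_left p hq), Nat.mul_div_mul_left _ _ hp]
      ring
    · rw [if_neg hq, if_neg (fun h' => hq ((Nat.mul_dvd_mul_iff_left hp).mp h'))]
      ring
  · rw [if_neg h, if_neg h, if_neg (fun h' => h ((Dvd.intro q rfl).trans h')), add_zero]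

/-- the combinatorial heart of `T_p T_q = T_q T_p`. -/
theorem coeff_comm {p q : ℕ} (hp : p.Prime) (hq : q.Prime) (hpq : p ≠ q) (cp cq : ℂ)
    (A Ap Aq Apq : ℕ → ℂ) (n : ℕ) :
    (A (n * p * q) + (if q ∣ n * p then cq * Aq (n * p / q) else 0))
      + (if p ∣ n then cp * (Ap (n / p * q) + (if q ∣ n / p then cq * Apq (n / p / q) else 0))
          else 0)
    = (A (n * q * p) + (if p ∣ n * q then cp * Ap (n * q / p) else 0))
      + (if q ∣ n then cq * (Aq (n / q * p) + (if p ∣ n / q then cp * Apq (n / q / p) else 0))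
          else 0) := by
  rw [ite_mul_div hp hq hpq, ite_mul_div hq hp hpq.symm, ite_split hp.pos, ite_split hq.pos,
    mul_right_comm n p q, mul_comm q p, mul_comm cq cp]
  ring

/-! ### Commutation -/

variable {N : ℕ} [NeZero N] {k : ℤ}

/-- **`T_p T_q = T_q T_p`** on `S_k(Γ₁(N))`. -/
theorem Tp_comm {p q : ℕ} (hp : p.Prime) (hpN : ¬ p ∣ N) (hq : q.Prime) (hqN : ¬ q ∣ N)
    (f : CuspForm (Gamma1 N) k) :
    Tp k hp hpN (Tp k hq hqN f) = Tp k hq hqN (Tp k hp hpN f) := by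
  rcases eq_or_ne p q with rfl | hpq
  · rfl
  refine eq_of_forall_qCoeff_eq fun n => ?_
  rw [qCoeff_Tp hp hpN, ← Tp_diamond hq hqN, qCoeff_Tp hq hqN, qCoeff_Tp hq hqN,
    qCoeff_Tp hq hqN, ← Tp_diamond hp hpN, qCoeff_Tp hp hpN, qCoeff_Tp hp hpN,
    diamond_comm (primeUnit hq hqN) (primeUnit hp hpN) f]
  exact coeff_comm hp hq hpq _ _ _ _ _ _ n

/-- On a `ψ`-eigenvector of `⟨p⟩`, `T_p` is the formal operator `T_p^ψ`. -/
theorem qCoeff_Tp_of_diamond {p : ℕ} (hp : p.Prime) (hpN : ¬ p ∣ N) (f : CuspForm (Gamma1 N) k)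
    (c : ℂ) (hc : diamond k (primeUnit hp hpN) f = c • f) (n : ℕ) :
    qCoeff ⇑(Tp k hp hpN f) n
      = qCoeff ⇑f (n * p) + if p ∣ n then (p : ℂ) ^ (k - 1) * (c * qCoeff ⇑f (n / p)) else 0 := by
  rw [qCoeff_Tp, hc, qCoeff_smul]

end Fermat.Agent.ES.R48.TpComm9
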