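/-
Programme R (S48, Deligne–Serre), chapter A4 CHEB, file NR2 (helper7): **twisted unfolding**.

`U : ClassZeta.WeightData K` is a weight on `𝓞 K` whose sum over the unit multiples of `α ≠ 0` is
`N(α)^(-s)`.  For a bounded function `h` on ideals, an ideal class `C` and an integral ideal `J` in
the class `C⁻¹`,

  `∑_{a ∈ J} h (a) * U.F s a = N(J)^(-s) * ∑_{I ∈ C} h (J * I) * N(I)^(-s)`      (`hasSum_ideal_twist`).

This is `ClassZeta.hasSum_ideal` with the twist `h` (same proof).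
-/
import Mathlib
import Fermat.Agent.CFT.ClassZeta

set_option autoImplicit false
set_option linter.unusedSectionVars false

open NumberField Module nonZeroDivisors
open Fermat.Agent.CFT.ClassZeta

namespace Fermat.Agent.ES.R48.TwistUnfold7

variable {K : Type*} [Field K] [NumberField K]

/-- On the fibre of `toPJ J` over `t` the generated ideal is `t`. -/
theorem span_eq_of_mem_fiber {J : Ideal (𝓞 K)} {t : PJ J} (a : {a : J0 J // toPJ J a = t}) :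
    Ideal.span {a.1.1} = t.1 :=
  congrArg Subtype.val a.2

theorem norm_rpow_le (h : Ideal (𝓞 K) → ℂ) (hh : ∀ I, ‖h I‖ ≤ 1) (s : ℝ) (I : Ideal (𝓞 K)) :
    ‖h I * (((Ideal.absNorm I : ℝ) ^ (-s) : ℝ) : ℂ)‖ ≤ (Ideal.absNorm I : ℝ) ^ (-s) := by
  rw [norm_mul, Complex.norm_real, Real.norm_of_nonneg (Real.rpow_nonneg (Nat.cast_nonneg _) _)]
  calc ‖h I‖ * (Ideal.absNorm I : ℝ) ^ (-s) ≤ 1 * (Ideal.absNorm I : ℝ) ^ (-s) :=
        mul_le_mul_of_nonneg_right (hh I) (Real.rpow_nonneg (Nat.cast_nonneg _) _)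
    _ = _ := one_mul _

theorem norm_F_le (U : WeightData K) (h : Ideal (𝓞 K) → ℂ) (hh : ∀ I, ‖h I‖ ≤ 1) (s : ℝ)
    (a : 𝓞 K) : ‖h (Ideal.span {a}) * ((U.F s a : ℝ) : ℂ)‖ ≤ U.F s a := by
  rw [norm_mul, Complex.norm_real, Real.norm_of_nonneg (U.F_nonneg _ _)]
  calc ‖h (Ideal.span {a})‖ * U.F s a ≤ 1 * U.F s a :=
        mul_le_mul_of_nonneg_right (hh _) (U.F_nonneg _ _)
    _ = _ := one_mul _

theorem hasSum_fiber_twist (U : WeightData K) {s : ℝ} (hs : 1 < s) (h : Ideal (𝓞 K) → ℂ)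
    {J : Ideal (𝓞 K)} (t : PJ J) :
    HasSum (fun a : {a : J0 J // toPJ J a = t} =>
        h (Ideal.span {a.1.1}) * ((U.F s a.1.1 : ℝ) : ℂ))
      (h t.1 * (((Ideal.absNorm t.1 : ℝ) ^ (-s) : ℝ) : ℂ)) := by
  have h1 := (Complex.hasSum_ofReal.mpr (hasSum_fiber U hs t)).mul_left (h t.1)
  refine h1.congr_fun (fun a => ?_)
  rw [span_eq_of_mem_fiber a]

theorem hasSum_J0_twist (U : WeightData K) {s : ℝ} (hs : 1 < s) (h : Ideal (𝓞 K) → ℂ)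
    (hh : ∀ I, ‖h I‖ ≤ 1) (J : Ideal (𝓞 K))
    (hS : Summable fun t : PJ J => (Ideal.absNorm t.1 : ℝ) ^ (-s)) :
    HasSum (fun a : J0 J => h (Ideal.span {a.1}) * ((U.F s a.1 : ℝ) : ℂ))
      (∑' t : PJ J, h t.1 * (((Ideal.absNorm t.1 : ℝ) ^ (-s) : ℝ) : ℂ)) := by
  let G₀ : (Σ t : PJ J, {a : J0 J // toPJ J a = t}) → ℝ := fun p => U.F s p.2.1.1
  have hG₀ : Summable G₀ := by
    refine (summable_sigma_of_nonneg (fun _ => U.F_nonneg _ _)).mpr ⟨fun t =>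
      (hasSum_fiber U hs t).summable, ?_⟩
    refine hS.congr (fun t => ?_)
    exact ((hasSum_fiber U hs t).tsum_eq).symm
  let G : (Σ t : PJ J, {a : J0 J // toPJ J a = t}) → ℂ :=
    fun p => h (Ideal.span {p.2.1.1}) * ((U.F s p.2.1.1 : ℝ) : ℂ)
  have hG : Summable G := Summable.of_norm_bounded hG₀ (fun p => norm_F_le U h hh s p.2.1.1)
  have hT : Summable fun t : PJ J => h t.1 * (((Ideal.absNorm t.1 : ℝ) ^ (-s) : ℝ) : ℂ) :=
    Summable.of_norm_bounded hS (fun t => norm_rpow_le h hh s t.1)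
  have h2 : HasSum G (∑' t : PJ J, h t.1 * (((Ideal.absNorm t.1 : ℝ) ^ (-s) : ℝ) : ℂ)) :=
    HasSum.sigma_of_hasSum hT.hasSum (fun t => hasSum_fiber_twist U hs h t) hG
  exact ((Equiv.sigmaFiberEquiv (toPJ J)).hasSum_iff).mp h2

theorem hasSum_J_twist (U : WeightData K) {s : ℝ} (hs : 1 < s) (h : Ideal (𝓞 K) → ℂ)
    (hh : ∀ I, ‖h I‖ ≤ 1) (J : Ideal (𝓞 K))
    (hS : Summable fun t : PJ J => (Ideal.absNorm t.1 : ℝ) ^ (-s)) :
    HasSum (fun a : J => h (Ideal.span {a.1}) * ((U.F s a.1 : ℝ) : ℂ))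
      (∑' t : PJ J, h t.1 * (((Ideal.absNorm t.1 : ℝ) ^ (-s) : ℝ) : ℂ)) := by
  let g : J0 J → J := fun a => ⟨a.1, a.2.1⟩
  have hg : Function.Injective g := by
    intro a b hab
    exact Subtype.ext (congrArg (fun x : J => x.1) hab)
  refine (hg.hasSum_iff ?_).mp (hasSum_J0_twist U hs h hh J hS)
  intro x hx
  have : x.1 = 0 := by
    by_contra h0
    exact hx ⟨⟨x.1, x.2, h0⟩, rfl⟩
  rw [this, U.F_zero hs]
  simp

theorem tsum_PJ_twist (h : Ideal (𝓞 K) → ℂ) (J : (Ideal (𝓞 K))⁰) (C : ClassGroup (𝓞 K))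
    (hJ : ClassGroup.mk0 J = C⁻¹) (s : ℝ) :
    ∑' t : PJ (J : Ideal (𝓞 K)), h t.1 * (((Ideal.absNorm t.1 : ℝ) ^ (-s) : ℝ) : ℂ) =
      (((Ideal.absNorm (J : Ideal (𝓞 K)) : ℝ) ^ (-s) : ℝ) : ℂ) *
        ∑' I : {I : (Ideal (𝓞 K))⁰ // ClassGroup.mk0 I = C},
          h ((J : Ideal (𝓞 K)) * (I.1 : Ideal (𝓞 K))) *
            (((Ideal.absNorm (I.1 : Ideal (𝓞 K)) : ℝ) ^ (-s) : ℝ) : ℂ) := by
  rw [← tsum_mul_left, ← (Equiv.ofBijective _ (mulJ_bijective J C hJ)).tsum_eq]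
  refine tsum_congr (fun I => ?_)
  show h ((J : Ideal (𝓞 K)) * (I.1 : Ideal (𝓞 K))) *
    (((Ideal.absNorm ((J : Ideal (𝓞 K)) * (I.1 : Ideal (𝓞 K))) : ℝ) ^ (-s) : ℝ) : ℂ) = _
  rw [map_mul, Nat.cast_mul, Real.mul_rpow (Nat.cast_nonneg _) (Nat.cast_nonneg _)]
  push_cast
  ring

/-- **Twisted unfolding**: for `J` in the class `C⁻¹` and `‖h‖ ≤ 1`,
`∑_{a ∈ J} h (a) U.F s a = N(J)^(-s) ∑_{I ∈ C} h (J I) N(I)^(-s)`. -/
theorem hasSum_ideal_twist (U : WeightData K) {s : ℝ} (hs : 1 < s) (h : Ideal (𝓞 K) → ℂ)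
    (hh : ∀ I, ‖h I‖ ≤ 1) (J : (Ideal (𝓞 K))⁰)
    (C : ClassGroup (𝓞 K)) (hJ : ClassGroup.mk0 J = C⁻¹)
    (hS : Summable fun I : (Ideal (𝓞 K))⁰ => (Ideal.absNorm (I : Ideal (𝓞 K)) : ℝ) ^ (-s)) :
    HasSum (fun a : (J : Ideal (𝓞 K)) => h (Ideal.span {a.1}) * ((U.F s a.1 : ℝ) : ℂ))
      ((((Ideal.absNorm (J : Ideal (𝓞 K)) : ℝ) ^ (-s) : ℝ) : ℂ) *
        ∑' I : {I : (Ideal (𝓞 K))⁰ // ClassGroup.mk0 I = C},
          h ((J : Ideal (𝓞 K)) * (I.1 : Ideal (𝓞 K))) *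
            (((Ideal.absNorm (I.1 : Ideal (𝓞 K)) : ℝ) ^ (-s) : ℝ) : ℂ)) := by
  rw [← tsum_PJ_twist h J C hJ s]
  exact hasSum_J_twist U hs h hh _ (summable_PJ J C hJ s hS)

/-- Summability of the twisted class sum. -/
theorem summable_class_twist (h : Ideal (𝓞 K) → ℂ) (hh : ∀ I, ‖h I‖ ≤ 1) (C : ClassGroup (𝓞 K))
    {s : ℝ}
    (hS : Summable fun I : (Ideal (𝓞 K))⁰ => (Ideal.absNorm (I : Ideal (𝓞 K)) : ℝ) ^ (-s)) :
    Summable fun I : {I : (Ideal (𝓞 K))⁰ // ClassGroup.mk0 I = C} =>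
      h (I.1 : Ideal (𝓞 K)) * (((Ideal.absNorm (I.1 : Ideal (𝓞 K)) : ℝ) ^ (-s) : ℝ) : ℂ) :=
  Summable.of_norm_bounded (hS.subtype _) (fun _ => norm_rpow_le h hh s _)

end Fermat.Agent.ES.R48.TwistUnfold7
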