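/-
Programme R (S48, Deligne–Serre), half B, chapter GEOM, sub-chapter G7 "TWO-DIM" (helper15):
the ABSTRACT GALOIS WRAPPER around helper20's core `TwoDimCore20.exists_rep2`.

Input: a field `k` with `2 ≠ 0`, a nonzero finite-dimensional `k`-space `V` with an action
`ρ : GQ →* End k V` of finite level, a character `d : GQ →* kˣ` of finite level, an "odd" element
`c` (`c * c = 1`, `d c = -1`), and, for every prime `p ∤ M` and every valuation subring `A` of `ℚ̄`
over `p`: inertia at `A` acts trivially (through `ρ` and `d`), and every Frobenius element `σ` at `A`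
satisfies the Eichler–Shimura relation `ρ σ ² - θT p • ρ σ + δ p • 1 = 0`, with `d σ = δ p`.

Output (`exists_rhobar_of_frobRel`): `r : GQ →* GL (Fin 2) k` of finite level, semisimple
(`DSIface27.IsSemisimple2`), with `DSIface27.FrobData M r θT δ`.

Steps: (1) the relation at ALL `g` (with SOME trace `a g`): `g` agrees with a power `φ ^ j` of a
Frobenius element at a prime `p ∤ M` on the common finite level (`ChebQbar23`, generator form of
Chebotarev on main), and powers of roots of quadratics are roots of quadratics (`QuadPow15`);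
(2) `TwoDimCore20.exists_rep2`; (3) finite level from its last clause; (4) at a Frobenius element
the two quadratic relations for the invertible `ρ σ` force `a σ = θT p`.
-/
import Mathlib
import Fermat.Agent.ES.R48.DSIface27
import Fermat.Agent.ES.R48.QuadPow15
import Fermat.Agent.ES.R48.TwoDimCore20
import Fermat.Agent.ES.GAL.ChebQbar23

set_option autoImplicit false

open scoped MatrixGroups

namespace Fermat.Agent.ES.R48.TwoDimGal15

open Fermat.Agent.ES.R48.DSIface27

variable {k : Type} [Field k] {V : Type} [AddCommGroup V] [Module k V]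

/-- The local hypotheses of the wrapper at the primes `p ∤ M`: inertia acts trivially, and the
Frobenius elements satisfy the quadratic relation with the prescribed coefficients. -/
def FrobRel (M : ℕ) (ρ : GQ →* Module.End k V) (d : GQ →* kˣ) (θT δ : ℕ → k) : Prop :=
  ∀ p : ℕ, p.Prime → ¬ p ∣ M →
    ∀ A : ValuationSubring (AlgebraicClosure ℚ), A.LiesOverPrime p →
      (∀ σ ∈ A.inertiaSubgroupIn ℚ, ρ σ = 1 ∧ d σ = 1) ∧
      ∀ σ : GQ, A.IsFrobeniusAt σ p →
        ρ σ * ρ σ - θT p • ρ σ + δ p • (1 : Module.End k V) = 0 ∧ ((d σ : kˣ) : k) = δ p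

/-- **Step 1**: the quadratic relation holds at every `g`, with some linear coefficient. -/
theorem exists_rel_all {M : ℕ} (hM : M ≠ 0) {ρ : GQ →* Module.End k V}
    (hρ : GaloisFactorsThroughFiniteLevel ρ) {d : GQ →* kˣ}
    (hd : GaloisFactorsThroughFiniteLevel d) {θT δ : ℕ → k} (hloc : FrobRel M ρ d θT δ) (g : GQ) :
    ∃ a : k, ρ g * ρ g - a • ρ g + ((d g : kˣ) : k) • (1 : Module.End k V) = 0 := by
  obtain ⟨L, hL, hρL⟩ := hρ
  obtain ⟨L', hL', hdL⟩ := hd
  have := hL
  have := hL'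
  obtain ⟨p, A, φ, j, hp, hpT, hAp, hφ, hfix⟩ :=
    Fermat.Agent.ES.GAL.ChebQbar23.exists_frobenius_inv_mul_pow_fixes (L ⊔ L') g M.primeFactors
  have hpM : ¬ p ∣ M := fun hdvd => hpT (Nat.mem_primeFactors.mpr ⟨hp, hdvd, hM⟩)
  have e1 : ρ g = ρ φ ^ j := by
    have h1 : ρ (g⁻¹ * φ ^ j) = 1 := hρL _ fun x hx => hfix x (le_sup_left (a := L) hx)
    rw [map_mul, map_pow] at h1
    have h2 : ρ g * (ρ g⁻¹ * ρ φ ^ j) = ρ g := by rw [h1, mul_one]
    rw [← mul_assoc, ← map_mul, mul_inv_cancel, map_one, one_mul] at h2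
    exact h2.symm
  have e2 : d g = d φ ^ j := by
    have h1 : d (g⁻¹ * φ ^ j) = 1 := hdL _ fun x hx => hfix x (le_sup_right (b := L') hx)
    rw [map_mul, map_inv, map_pow, inv_mul_eq_one] at h1
    exact h1
  obtain ⟨hrelφ, hdφ⟩ := (hloc p hp hpM A hAp).2 φ hφ
  obtain ⟨s, hs⟩ := QuadPow15.exists_quadratic_pow hrelφ j
  refine ⟨s, ?_⟩
  rw [e1, e2, Units.val_pow_eq_pow_val, hdφ]
  exact hs

/-- **The abstract Galois wrapper of G7.** -/
theorem exists_rhobar_of_frobRel (h2 : (2 : k) ≠ 0) [FiniteDimensional k V] [Nontrivial V]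
    (ρ : GQ →* Module.End k V) (hρ : GaloisFactorsThroughFiniteLevel ρ)
    (d : GQ →* kˣ) (hd : GaloisFactorsThroughFiniteLevel d)
    (c : GQ) (hc2 : c * c = 1) (hdc : ((d c : kˣ) : k) = -1)
    {M : ℕ} (hM : M ≠ 0) (θT δ : ℕ → k) (hloc : FrobRel M ρ d θT δ) :
    ∃ r : GQ →* GL (Fin 2) k,
      GaloisFactorsThroughFiniteLevel r ∧ IsSemisimple2 r ∧ FrobData M r θT δ := by
  choose a hrel using exists_rel_all hM hρ hd hloc
  obtain ⟨r, hss, htd, hone⟩ := TwoDimCore20.exists_rep2 h2 ρ a d hrel c hc2 hdc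
  refine ⟨r, ?_, hss, ?_⟩
  · -- finite level
    obtain ⟨L, hL, hρL⟩ := hρ
    obtain ⟨L', hL', hdL⟩ := hd
    have := hL
    have := hL'
    refine ⟨L ⊔ L', inferInstance, fun σ hσ => hone σ ?_ ?_⟩
    · exact hρL σ fun x hx => hσ x (le_sup_left (a := L) hx)
    · rw [hdL σ fun x hx => hσ x (le_sup_right (b := L') hx), Units.val_one]
  · -- Frobenius data
    intro p hp hpM A hA
    obtain ⟨hin, hfr⟩ := hloc p hp hpM A hA
    refine ⟨fun σ hσ => hone σ (hin σ hσ).1 (by rw [(hin σ hσ).2, Units.val_one]),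
      fun σ hσ => ?_⟩
    obtain ⟨hrelσ, hdσ⟩ := hfr σ hσ
    obtain ⟨ht, hdet⟩ := htd σ
    refine ⟨?_, hdet.trans hdσ⟩
    rw [ht]
    -- the two relations for the invertible `ρ σ`
    have h1 := hrel σ
    rw [hdσ] at h1
    have h3 : (θT p - a σ) • ρ σ = 0 := by
      have : (θT p - a σ) • ρ σ =
          (ρ σ * ρ σ - a σ • ρ σ + δ p • (1 : Module.End k V)) -
            (ρ σ * ρ σ - θT p • ρ σ + δ p • (1 : Module.End k V)) := by
        rw [sub_smul]; abel
      rw [this, h1, hrelσ, sub_zero]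
    have hinv : ρ σ * ρ σ⁻¹ = 1 := by rw [← map_mul, mul_inv_cancel, map_one]
    have h4 : (θT p - a σ) • (1 : Module.End k V) = 0 := by
      have := congrArg (fun x => x * ρ σ⁻¹) h3
      simpa only [smul_mul_assoc, hinv, zero_mul] using this
    rcases smul_eq_zero.mp h4 with h5 | h5
    · exact (sub_eq_zero.mp h5).symm
    · exact absurd h5 one_ne_zero

end Fermat.Agent.ES.R48.TwoDimGal15
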