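/-
Programme R (S48, Deligne–Serre), chapter GEOM, sub-chapter G2 DICT₁ (helper1): the **final
assembly of the dictionary for `X₁(M)`**.  For an ARBITRARY interface pair
`(D : RealizeData1 M) (C : CuspData1 M D)` with `3 ≤ M` and the slash rule `WSlash M`:

* the hypotheses `DegHyp`, `DistHyp` of `X1PointSurjT1` and `DistT` of `X1CuspSurj1` are
  discharged from `X1Degree14` / `X1Distinct14` (helper14);
* `j = jF1 M` is a transcendental generator of `F₁ = FF1 M`, so the fibre sums over `j = c` and over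
  `j = ∞` are both `#(SL(2,ℤ) ⧸ ±Γ₁(M))` (`FF.sum_ord_fibre`, `FF.sum_ord_poles`);
* **SURJ, finite points**: every place over `j = c` is a point place `pointPlaceD1 D z₀ c hc g`;
* **SURJ, cusps**: every place over `j = ∞` is a cusp place `cuspPlace (good C) g`, with
  `good C` of `X1CuspGood23` (helper23);
* **EXACT widths**: `- ord_v j = #(⟨T⟩-orbit)` at the cusp places, and the number of places over `∞`
  is the number of `⟨T⟩`-orbits on `SL(2,ℤ) ⧸ ±Γ₁(M)` (`X1PlaceCount23`);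
* every place of `F₁` is a cusp place or a point place (`place_cases`).

No new mathematics: pure plugging.
-/
import Fermat.Agent.X0.FFSum
import Fermat.Agent.X0.FFConst
import Fermat.Agent.X0.JBasic
import Fermat.Agent.ES.R48.X1Degree14
import Fermat.Agent.ES.R48.X1PointSurjT1
import Fermat.Agent.ES.R48.X1CuspSurj1
import Fermat.Agent.ES.R48.X1CuspGood23
import Fermat.Agent.ES.R48.X1PlaceCount23

set_option autoImplicit false
set_option linter.unusedSectionVars false

open AlgebraicCurve UpperHalfPlane Module IntermediateField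
open scoped MatrixGroups
open MulAction Subgroup

noncomputable section

namespace Fermat.Agent.ES.R48.X1Dict1

open Fermat.Agent.X0 Fermat.Agent.X0.JOrderMain
open Fermat.Agent.ES.R48.FF1Defs13 Fermat.Agent.ES.R48.X1Iface13
  Fermat.Agent.ES.R48.X1PointPlaces1 Fermat.Agent.ES.R48.X1PointPlacesD1

variable {M : ℕ} [NeZero M] {D : RealizeData1 M} (C : CuspData1 M D)

/-! ### The three hypotheses -/

include C in
/-- `DegHyp` of `X1PointSurjT1`, from `X1Degree14`. -/
theorem degHyp (hM : 3 ≤ M) (hW : WSlash M) : X1PointSurjT1.DegHyp M :=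
  ⟨X1Degree14.finiteDimensional M D C hM hW, X1Degree14.card_eq_finrank M D C hM hW⟩

include C in
/-- `DistHyp` of `X1PointSurjT1`, from `X1Distinct14` (analytic form). -/
theorem distHyp (hM : 3 ≤ M) (hW : WSlash M) : X1PointSurjT1.DistHyp D :=
  fun γ γ' h => X1Distinct14.mem_PG1_of_compSL_eq M D C hM hW γ γ' h

/-- `DistT` of `X1CuspSurj1`, from `X1Distinct14`. -/
theorem distT (hM : 3 ≤ M) (hW : WSlash M) : X1CuspSurj1.DistT C :=
  fun γ γ' h => X1Distinct14.mem_PG1_of_T_eq M D C hM hW γ γ' h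

/-! ### Degree and fibre sums -/

include C in
/-- `j` is a transcendental generator of `F₁ / ℚbar`. -/
theorem isGen_jF1 (hM : 3 ≤ M) (hW : WSlash M) : FF.IsGen Kbar (jF1 M) :=
  X1Degree14.isGen_jF1 M D C hM hW

include C in
/-- `[F₁ : ℚbar(j)] = #(SL(2,ℤ) ⧸ ±Γ₁(M))`. -/
theorem finrank_adjoin_jF1 (hM : 3 ≤ M) (hW : WSlash M) :
    finrank Kbar⟮jF1 M⟯ (FF1 M) = Nat.card (SL(2, ℤ) ⧸ PG1 M) :=
  (X1Degree14.card_eq_finrank_adjoin M D C hM hW).symm

include C in
/-- the fibre of `j` over `c` is finite. -/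
theorem finite_fibre (hM : 3 ≤ M) (hW : WSlash M) (c : Kbar) :
    {v : Place Kbar (FF1 M) | 0 < v.ord (jF1 M - algebraMap Kbar (FF1 M) c)}.Finite :=
  FF.finite_fibre (isGen_jF1 C hM hW) c

include C in
/-- the fibre sum over `j = c` is the index of `±Γ₁(M)`. -/
theorem sum_ord_fibre (hM : 3 ≤ M) (hW : WSlash M) (c : Kbar) :
    ∑ᶠ (v : Place Kbar (FF1 M)) (_ : 0 < v.ord (jF1 M - algebraMap Kbar (FF1 M) c)),
        v.ord (jF1 M - algebraMap Kbar (FF1 M) c)
      = (Nat.card (SL(2, ℤ) ⧸ PG1 M) : ℤ) := by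
  rw [FF.sum_ord_fibre (isGen_jF1 C hM hW) c, finrank_adjoin_jF1 C hM hW]

include C in
/-- `j` has finitely many poles. -/
theorem finite_poles (hM : 3 ≤ M) (hW : WSlash M) :
    {v : Place Kbar (FF1 M) | v.ord (jF1 M) < 0}.Finite :=
  FF.finite_poles (isGen_jF1 C hM hW)

include C in
/-- the pole sum of `j` is the index of `±Γ₁(M)`. -/
theorem sum_ord_poles (hM : 3 ≤ M) (hW : WSlash M) :
    ∑ᶠ (v : Place Kbar (FF1 M)) (_ : v.ord (jF1 M) < 0), -v.ord (jF1 M)
      = (Nat.card (SL(2, ℤ) ⧸ PG1 M) : ℤ) := by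
  rw [FF.sum_ord_poles (isGen_jF1 C hM hW), finrank_adjoin_jF1 C hM hW]

/-! ### SURJ at the finite points -/

include C in
/-- **Surjectivity at finite points** (unconditional form of
`X1PointSurjT1.exists_pointPlaceD1_eq`). -/
theorem exists_pointPlaceD1_eq (hM : 3 ≤ M) (hW : WSlash M) (z₀ : ℍ) (c : Kbar)
    (hc : jFun z₀ = iotaK c)
    (v : Place Kbar (FF1 M)) (hv : 0 < v.ord (jF1 M - algebraMap Kbar (FF1 M) c)) :
    ∃ g : SL(2, ℤ), pointPlaceD1 D z₀ c hc g = v :=
  X1PointSurjT1.exists_pointPlaceD1_eq D (degHyp C hM hW) (distHyp C hM hW) z₀ c hc v hv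

include C in
/-- coset form. -/
theorem exists_pointPlaceDX1_eq (hM : 3 ≤ M) (hW : WSlash M) (z₀ : ℍ) (c : Kbar)
    (hc : jFun z₀ = iotaK c)
    (v : Place Kbar (FF1 M)) (hv : 0 < v.ord (jF1 M - algebraMap Kbar (FF1 M) c)) :
    ∃ x : SL(2, ℤ) ⧸ PG1 M, (pointPlaceDX1 D z₀ c hc x).1 = v :=
  X1PointSurjT1.exists_pointPlaceDX1_eq D (degHyp C hM hW) (distHyp C hM hW) z₀ c hc v hv

/-! ### SURJ and EXACT at the cusps -/

/-- The cusp expansions are `Good` (`X1CuspGood23.good`, restated for one-stop import). -/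
theorem good : X1CuspPlaces23.Good C := X1CuspGood23.good C

/-- **Surjectivity at the cusps** (unconditional form of `X1CuspSurj1.exists_cuspPlace_eq`). -/
theorem exists_cuspPlace_eq (hM : 3 ≤ M) (hW : WSlash M)
    (v : Place Kbar (FF1 M)) (hv : v.ord (jF1 M) < 0) :
    ∃ g : SL(2, ℤ), X1CuspPlaces23.cuspPlace (good C) g = v := by
  have := X1Degree14.finiteDimensional_adjoin M D C hM hW
  exact X1CuspSurj1.exists_cuspPlace_eq (good C) (distT C hM hW)
    (X1Degree14.card_eq_finrank_adjoin M D C hM hW) v hv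

/-- coset form. -/
theorem exists_cuspPlaceX_eq (hM : 3 ≤ M) (hW : WSlash M)
    (v : Place Kbar (FF1 M)) (hv : v.ord (jF1 M) < 0) :
    ∃ x : SL(2, ℤ) ⧸ PG1 M, X1CuspPlaces23.cuspPlaceX (good C) x = v := by
  have := X1Degree14.finiteDimensional_adjoin M D C hM hW
  exact X1CuspSurj1.exists_cuspPlaceX_eq (good C) (distT C hM hW)
    (X1Degree14.card_eq_finrank_adjoin M D C hM hW) v hv

/-- the coset-indexed cusp places exhaust the places over `∞`. -/
theorem cuspPlaceSub_surjective (hM : 3 ≤ M) (hW : WSlash M) :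
    Function.Surjective (X1CuspSurj1.cuspPlaceSub (good C)) := by
  have := X1Degree14.finiteDimensional_adjoin M D C hM hW
  exact X1CuspSurj1.cuspPlaceSub_surjective (good C) (distT C hM hW)
    (X1Degree14.card_eq_finrank_adjoin M D C hM hW)

/-- **EXACT widths on `X₁(M)`** (unconditional form of `X1PlaceCount23.cuspPlaceX_exact`): the
number of places over `∞` is the number of `⟨T⟩`-orbits on `SL(2,ℤ) ⧸ ±Γ₁(M)`, and `- ord_v j` is
the size of the orbit. -/
theorem cuspPlaceX_exact (hM : 3 ≤ M) (hW : WSlash M) :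
    Nat.card {v : Place Kbar (FF1 M) // v.ord (jF1 M) < 0} =
        Nat.card (orbitRel.Quotient (zpowers ModularGroup.T) (SL(2, ℤ) ⧸ PG1 M)) ∧
      ∀ a, -(X1CuspPlaces23.cuspPlaceX (good C) a).ord (jF1 M) =
        (Nat.card (orbit (zpowers ModularGroup.T) a) : ℤ) :=
  X1PlaceCount23.cuspPlaceX_exact (good C) (finite_poles C hM hW) (sum_ord_poles C hM hW)
    (exists_cuspPlaceX_eq C hM hW)

/-- exact width at a representative. -/
theorem cuspPlace_neg_ord_jF_eq (hM : 3 ≤ M) (hW : WSlash M) (g : SL(2, ℤ)) :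
    -(X1CuspPlaces23.cuspPlace (good C) g).ord (jF1 M) =
      (Nat.card (orbit (zpowers ModularGroup.T)
        (QuotientGroup.mk g : SL(2, ℤ) ⧸ PG1 M)) : ℤ) :=
  X1PlaceCount23.cuspPlace_neg_ord_jF_eq (good C) (finite_poles C hM hW)
    (sum_ord_poles C hM hW) (exists_cuspPlaceX_eq C hM hW) g

/-! ### Every place is a cusp place or a point place -/

include C in
/-- every place of `F₁` is a pole of `j` or lies over a finite value `c`. -/
theorem pole_or_zero (hM : 3 ≤ M) (hW : WSlash M) (v : Place Kbar (FF1 M)) :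
    v.ord (jF1 M) < 0 ∨ ∃ c : Kbar, 0 < v.ord (jF1 M - algebraMap Kbar (FF1 M) c) := by
  have hgen := isGen_jF1 C hM hW
  by_cases h : v.ord (jF1 M) < 0
  · exact Or.inl h
  · right
    obtain ⟨c, hc | hc⟩ :=
      FF.exists_ord_sub_pos hgen v (FF.ffp_mem_of_ord_nonneg v (not_lt.mp h))
    · exact absurd (sub_eq_zero.mpr hc) (hgen.sub_algebraMap_ne_zero c)
    · exact ⟨c, hc⟩

/-- **The dictionary**: every place of `F₁ = FF1 M` is a cusp place or a point place. -/
theorem place_cases (hM : 3 ≤ M) (hW : WSlash M) (v : Place Kbar (FF1 M)) :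
    (∃ g : SL(2, ℤ), X1CuspPlaces23.cuspPlace (good C) g = v) ∨
      ∃ (z₀ : ℍ) (c : Kbar) (hc : jFun z₀ = iotaK c) (g : SL(2, ℤ)),
        pointPlaceD1 D z₀ c hc g = v := by
  rcases pole_or_zero C hM hW v with h | ⟨c, hc⟩
  · exact Or.inl (exists_cuspPlace_eq C hM hW v h)
  · right
    obtain ⟨z₀, hz₀⟩ := jFun_surjective (iotaK c)
    obtain ⟨g, hg⟩ := exists_pointPlaceD1_eq C hM hW z₀ c hz₀ v hc
    exact ⟨z₀, c, hz₀, g, hg⟩

end Fermat.Agent.ES.R48.X1Dict1
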