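/-
Programme R (S48, Deligne–Serre), chapter GEOM, G2 DICT₁ → G3 MODEL₁ hand-over (helper1): the
hypothesis bundle `NoEllipticOne16.DictHyp D` (helper16) is a THEOREM for every interface pair
`(D : RealizeData1 M) (C : CuspData1 M D)` with `3 ≤ M` and `WSlash M` — from `X1Dict1`.
-/
import Fermat.Agent.ES.R48.X1Dict1
import Fermat.Agent.ES.R48.NoEllipticOne16

set_option autoImplicit false

open scoped MatrixGroups

namespace Fermat.Agent.ES.R48.X1DictHyp1

open Fermat.Agent.ES.R48.X1Iface13

variable {M : ℕ} [NeZero M] {D : RealizeData1 M} (C : CuspData1 M D)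

include C in
/-- The dictionary hypotheses consumed by `NoEllipticOne16` / `UnbranchedOne16` hold. -/
theorem dictHyp (hM : 3 ≤ M) (hW : WSlash M) : NoEllipticOne16.DictHyp D where
  fin := (X1Dict1.degHyp C hM hW).1
  deg := (X1Dict1.degHyp C hM hW).2
  surj := fun z₀ c hc v hv => X1Dict1.exists_pointPlaceD1_eq C hM hW z₀ c hc v hv

end Fermat.Agent.ES.R48.X1DictHyp1
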