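/-
Programme R (S48, Deligne–Serre), chapter GEOM, sub-chapter G2 DICT₁ (helper1): the twin of the
level-dependent end of `Fermat/Agent/X0/RootsK.lean` (helper17, Program C): transcendence of the
formal `j` of `F₁ = FF1 M` over `ℚbar`.  Everything else in `X0/RootsK` (`exists_iotaK_eq_of_isAlgebraic`,
`zetaK M`, `iotaK_zetaK`, `isPrimitiveRoot_zetaK`, `jqK`, `transcendental_jqK`, …) is level-free or
only depends on the number `M`, and is used AS-IS.
-/
import Fermat.Agent.X0.RootsK
import Fermat.Agent.ES.R48.X1Iface13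

set_option autoImplicit false
set_option linter.unusedSectionVars false

noncomputable section

namespace Fermat.Agent.ES.R48.X1RootsK1

open Fermat.Agent.X0 Fermat.Agent.ES.R48.FF1Defs13 Fermat.Agent.ES.R48.X1Iface13

variable (M : ℕ) [NeZero M]

/-- `jF1 M` is the image of `jF M`. -/
theorem jF1_eq_ffIncl : jF1 M = ffIncl M (jF M) := rfl

/-- The underlying Laurent series of `jF1 M` is the formal `j`. -/
theorem coe_jF1 : ((jF1 M : FF1 M) : LaurentSeries Kbar) = jqK := by
  rw [jF1_eq_ffIncl, coe_ffIncl, coe_jF]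

/-- `jF1 M` is transcendental over `ℚbar`. -/
theorem transcendental_jF1 : Transcendental Kbar (jF1 M) := by
  intro halg
  apply transcendental_jqK
  have := halg.algHom (IntermediateField.val (F1bar M))
  rw [← coe_jF1 M]
  exact this

/-- `jF1 M - c` is nonzero for every constant `c`. -/
theorem jF1_sub_algebraMap_ne_zero (c : Kbar) : jF1 M - algebraMap Kbar (FF1 M) c ≠ 0 := by
  intro h
  apply transcendental_jF1 M
  rw [sub_eq_zero] at h
  rw [h]
  exact isAlgebraic_algebraMap c

/-- `jF1 M ≠ 0`. -/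
theorem jF1_ne_zero : jF1 M ≠ 0 := by
  have h := jF1_sub_algebraMap_ne_zero M 0
  rwa [map_zero, sub_zero] at h

/-- `ffIncl` maps `ℚbar(j) ⊆ F` into `ℚbar(j) ⊆ F₁`. -/
theorem ffIncl_mem_Kj1 {x : FF M} (hx : x ∈ Kj M) : ffIncl M x ∈ Kj1 M := by
  have h : (Kj M).map (ffIncl M) ≤ Kj1 M := by
    rw [Kj, IntermediateField.adjoin_map, Kj1, Set.image_singleton]
    exact le_of_eq rfl
  exact h ⟨x, hx, rfl⟩

end Fermat.Agent.ES.R48.X1RootsK1
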